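import Mathlib
import Fermat.Agent.S13.InertiaFixed
import Fermat.Agent.S05.Inertia
import Fermat.Agent.S18.A1Facts

/-!
# S36 (NODE-3), leaf (BASE-unram): number fields inside the inertia field

`P` a valuation subring of `Q̄` over the prime `q`, `I = P.inertiaSubgroupIn ℚ`.

* `s36_bu_irreducible` : for every number field `T ⊆ Q̄` fixed pointwise by `I`, the prime `q` is
  a uniformizer of `P ∩ T = s18_A1 P T` (which need not be Galois over `ℚ`).
* `s36_bu_root_fixed` : an `m`-th root (`q ∤ m`) of an `I`-fixed `P`-unit is `I`-fixed.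
* `s36_bu_zeta_fixed` : `m`-th roots of unity (`q ∤ m`) are `I`-fixed.
* `s36_bu_unit_part` : an `I`-fixed `c ≠ 0` is `q ^ γ` times an `I`-fixed `P`-unit.
-/

set_option autoImplicit false
set_option synthInstance.maxHeartbeats 400000

open Fermat.Agent.S18

noncomputable section

namespace Fermat.Agent.S36

local notation "Qb" => AlgebraicClosure ℚ

/-- `q` is a uniformizer of `P ∩ T` for every number field `T` inside the inertia field of `P`. -/
theorem s36_bu_irreducible (P : ValuationSubring Qb) (q : ℕ) [Fact q.Prime]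
    (hP : P.LiesOverPrime q) (T : IntermediateField ℚ Qb) [FiniteDimensional ℚ T]
    (hT : ∀ a ∈ T, ∀ τ ∈ P.inertiaSubgroupIn ℚ, τ a = a) :
    Irreducible ((q : ℕ) : s18_A1 P T) := by
  have hdvr : IsDiscreteValuationRing (s18_A1 P T) := s18_a1_dvr P hP T
  have hq1 : P.valuation (q : Qb) < 1 := hP
  have hq0 : (q : Qb) ≠ 0 := Nat.cast_ne_zero.mpr (Fact.out : q.Prime).ne_zero
  have hqT0 : (q : T) ≠ 0 := Nat.cast_ne_zero.mpr (Fact.out : q.Prime).ne_zero
  have hqpos : 0 < P.valuation (q : Qb) := (Valuation.pos_iff _).mpr hq0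
  rw [IsDiscreteValuationRing.irreducible_iff_uniformizer]
  apply le_antisymm
  · intro x hx
    rw [Ideal.mem_span_singleton']
    by_cases hx0 : x = 0
    · exact ⟨0, by rw [zero_mul, hx0]⟩
    have hxT0 : (x : T) ≠ 0 := fun h => hx0 (Subtype.ext h)
    have hxQ : (((x : T) : Qb)) ≠ 0 := fun h => hxT0 (Subtype.ext h)
    obtain ⟨m, hm⟩ := Fermat.Agent.S13.inertia_fixed_valuation P (Fact.out : q.Prime) hP
      ((x : T) : Qb) hxQ (fun σ hσ => hT _ (x : T).2 σ hσ)
    -- `v(x) < 1`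
    have hle : P.valuation ((x : T) : Qb) ≤ 1 := (P.valuation_le_one_iff _).mpr x.2
    have hlt : P.valuation ((x : T) : Qb) < 1 := by
      refine lt_of_le_of_ne hle fun h1 => ?_
      have hinv : (((x : T) : Qb))⁻¹ ∈ P := by
        rw [← P.valuation_le_one_iff, map_inv₀, h1, inv_one]
      have hinv' : ((x : T))⁻¹ ∈ s18_A1 P T := by
        show algebraMap T Qb ((x : T))⁻¹ ∈ P
        rw [map_inv₀]
        exact hinv
      have hu : IsUnit x := by
        refine IsUnit.of_mul_eq_one (⟨((x : T))⁻¹, hinv'⟩ : s18_A1 P T) (Subtype.ext ?_)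
        show (x : T) * ((x : T))⁻¹ = 1
        exact mul_inv_cancel₀ hxT0
      exact (IsLocalRing.mem_maximalIdeal _).mp hx hu
    have hm1 : 0 < m := by
      by_contra h
      push Not at h
      have h2 := one_le_zpow_of_nonpos₀ hqpos hq1.le h
      rw [← hm] at h2
      exact not_lt.mpr h2 hlt
    have hy : P.valuation (((x : T) : Qb) / (q : Qb)) ≤ 1 := by
      rw [map_div₀, hm, div_eq_mul_inv, ← zpow_sub_one₀ hqpos.ne']
      exact zpow_le_one₀ hqpos hq1.le (by omega)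
    have hyA : (x : T) / (q : T) ∈ s18_A1 P T := by
      show algebraMap T Qb ((x : T) / (q : T)) ∈ P
      rw [map_div₀, map_natCast]
      exact (P.valuation_le_one_iff _).mp hy
    refine ⟨⟨(x : T) / (q : T), hyA⟩, Subtype.ext ?_⟩
    show (x : T) / (q : T) * (q : T) = (x : T)
    exact div_mul_cancel₀ _ hqT0
  · rw [Ideal.span_singleton_le_iff_mem, IsLocalRing.mem_maximalIdeal, mem_nonunits_iff]
    intro hu
    obtain ⟨y, hy⟩ := hu.exists_right_inv
    apply s18_a1_ell P hP T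
    have h1 : (q : T) * (y : T) = 1 := congrArg Subtype.val hy
    have h2 : ((q : T))⁻¹ = (y : T) := (eq_inv_of_mul_eq_one_right h1).symm
    rw [h2]
    exact y.2

/-- A root of unity of order prime to `q` which is `≡ 1` modulo the maximal ideal of `P` is `1`. -/
theorem s36_bu_root_of_unity_eq_one (P : ValuationSubring Qb) (q : ℕ) [Fact q.Prime]
    (hP : P.LiesOverPrime q) (m : ℕ) (hqm : ¬ q ∣ m) (ζ : Qb) (hζm : ζ ^ m = 1)
    (hζ1 : ζ - 1 ∈ P.nonunits) : ζ = 1 := by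
  by_contra hne
  obtain ⟨hmem, hmax⟩ := ValuationSubring.mem_nonunits_iff_exists_mem_maximalIdeal.mp hζ1
  have hζP : ζ ∈ P := by
    have h : ζ = (ζ - 1) + 1 := by ring
    rw [h]
    exact P.add_mem _ _ hmem P.one_mem
  have hz1 : IsLocalRing.residue P (⟨ζ, hζP⟩ : P) = 1 := by
    have h : (⟨ζ, hζP⟩ : P) - 1 ∈ IsLocalRing.maximalIdeal P := hmax
    have h' := (IsLocalRing.residue_eq_zero_iff _).mpr h
    rw [map_sub, map_one, sub_eq_zero] at h'
    exact h'
  have hsum : ∑ i ∈ Finset.range m, (⟨ζ, hζP⟩ : P) ^ i = 0 := by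
    have h2 : ((⟨ζ, hζP⟩ : P) - 1) * ∑ i ∈ Finset.range m, (⟨ζ, hζP⟩ : P) ^ i = 0 := by
      rw [mul_geom_sum, sub_eq_zero]
      exact Subtype.ext hζm
    rcases mul_eq_zero.mp h2 with h3 | h3
    · exact absurd (congrArg Subtype.val (sub_eq_zero.mp h3)) hne
    · exact h3
  have hm0 : ((m : ℕ) : IsLocalRing.ResidueField P) = 0 := by
    have h := congrArg (IsLocalRing.residue P) hsum
    rw [map_sum, map_zero] at h
    have h' : ∀ i ∈ Finset.range m, IsLocalRing.residue P ((⟨ζ, hζP⟩ : P) ^ i) = 1 :=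
      fun i _ => by rw [map_pow, hz1, one_pow]
    rw [Finset.sum_congr rfl h', Finset.sum_const, Finset.card_range, nsmul_eq_mul, mul_one] at h
    exact h
  have hq0 : ((q : ℕ) : IsLocalRing.ResidueField P) = 0 := by
    obtain ⟨h, h'⟩ := ValuationSubring.mem_nonunits_iff_exists_mem_maximalIdeal.mp hP
    have h2 := (IsLocalRing.residue_eq_zero_iff _).mpr h'
    have e : (⟨(q : Qb), h⟩ : P) = ((q : ℕ) : P) := Subtype.ext (by simp)
    rw [e, map_natCast] at h2
    exact h2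
  have hcop : IsCoprime (m : ℤ) (q : ℤ) :=
    Nat.isCoprime_iff_coprime.mpr
      (Nat.Coprime.symm ((Nat.Prime.coprime_iff_not_dvd (Fact.out : q.Prime)).mpr hqm))
  obtain ⟨a, b, hab⟩ := hcop
  have h1 : ((a * m + b * q : ℤ) : IsLocalRing.ResidueField P) = 1 := by
    rw [hab]
    simp
  push_cast at h1
  rw [hm0, hq0, mul_zero, mul_zero, add_zero] at h1
  exact zero_ne_one h1

/-- An `m`-th root (`q ∤ m`) of an inertia-fixed `P`-unit is inertia-fixed. -/
theorem s36_bu_root_fixed (P : ValuationSubring Qb) (q : ℕ) [Fact q.Prime]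
    (hP : P.LiesOverPrime q) (m : ℕ) (hm : 0 < m) (hqm : ¬ q ∣ m) (u w : Qb) (hw : w ^ m = u)
    (hu1 : P.valuation u = 1) (τ : Qb ≃ₐ[ℚ] Qb) (hτ : τ ∈ P.inertiaSubgroupIn ℚ)
    (hτu : τ u = u) : τ w = w := by
  have hw1 : P.valuation w = 1 := by
    have h : P.valuation w ^ m = 1 := by rw [← map_pow, hw, hu1]
    rcases lt_trichotomy (P.valuation w) 1 with h1 | h1 | h1
    · exact absurd h (ne_of_lt (pow_lt_one₀ zero_le h1 hm.ne'))
    · exact h1
    · exact absurd h (ne_of_gt (one_lt_pow₀ h1 hm.ne'))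
  have hw0 : w ≠ 0 := fun h => by
    rw [h, map_zero] at hw1
    exact zero_ne_one hw1
  have hwP : w ∈ P := (P.valuation_le_one_iff w).mp hw1.le
  have h1 : τ w - w ∈ P.nonunits := Fermat.Agent.S05.inertia_sub_mem_nonunits P τ hτ w hwP
  have h2 : τ w / w - 1 ∈ P.nonunits := by
    have e : τ w / w - 1 = (τ w - w) * w⁻¹ := by field_simp
    rw [e, ValuationSubring.mem_nonunits_iff, map_mul, map_inv₀, hw1, inv_one, mul_one]
    exact h1
  have h3 : (τ w / w) ^ m = 1 := by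
    rw [div_pow, ← map_pow, hw, hτu]
    exact div_self (by rw [← hw]; exact pow_ne_zero m hw0)
  have h4 := s36_bu_root_of_unity_eq_one P q hP m hqm _ h3 h2
  exact (div_eq_one_iff_eq hw0).mp h4

/-- Roots of unity of order prime to `q` are inertia-fixed. -/
theorem s36_bu_zeta_fixed (P : ValuationSubring Qb) (q : ℕ) [Fact q.Prime]
    (hP : P.LiesOverPrime q) (m : ℕ) (hm : 0 < m) (hqm : ¬ q ∣ m) (ζ : Qb) (hζ : ζ ^ m = 1)
    (τ : Qb ≃ₐ[ℚ] Qb) (hτ : τ ∈ P.inertiaSubgroupIn ℚ) : τ ζ = ζ :=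
  s36_bu_root_fixed P q hP m hm hqm 1 ζ hζ (map_one _) τ hτ (map_one _)

/-- An inertia-fixed `c ≠ 0` is `q ^ γ` times an inertia-fixed `P`-unit. -/
theorem s36_bu_unit_part (P : ValuationSubring Qb) (q : ℕ) [Fact q.Prime]
    (hP : P.LiesOverPrime q) (c : Qb) (hc : c ≠ 0)
    (hfix : ∀ τ ∈ P.inertiaSubgroupIn ℚ, τ c = c) :
    ∃ γ : ℤ, P.valuation (c / (q : Qb) ^ γ) = 1 ∧
      ∀ τ ∈ P.inertiaSubgroupIn ℚ, τ (c / (q : Qb) ^ γ) = c / (q : Qb) ^ γ := by
  obtain ⟨γ, hγ⟩ := Fermat.Agent.S13.inertia_fixed_valuation P (Fact.out : q.Prime) hP c hc hfix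
  have hq0 : (q : Qb) ≠ 0 := Nat.cast_ne_zero.mpr (Fact.out : q.Prime).ne_zero
  have hv0 : P.valuation ((q : Qb) ^ γ) ≠ 0 := (Valuation.ne_zero_iff _).mpr (zpow_ne_zero γ hq0)
  refine ⟨γ, ?_, fun τ hτ => ?_⟩
  · rw [map_div₀, hγ, map_zpow₀]
    rw [map_zpow₀] at hv0
    exact div_self hv0
  · rw [map_div₀, hfix τ hτ, map_zpow₀, map_natCast]

end Fermat.Agent.S36
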