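import Mathlib
import Fermat.Agent.S34.ExtCap
import Fermat.Agent.S34.IcChart

/-!
# S36 (NODE-3), contract item (c-cap): the cap property with three components

Two-field setting, as in `S34/ExtCap.lean`: `ι : F'' →+* F` a field embedding (level `N₁ q` into
level `N₁ q²`), `B₁ ⊆ F''` the chart of the lower level with its two component valuation rings
`V₁'`, `V₂'` (the components at `∞` and at `0` of the nodal model of level `N₁ q`), `B ⊆ F` the
integral closure of `ι B₁`, and `VA`, `VB`, `VC` the three component valuation rings of `F`.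

`s36_c3_abs` : if the lower chart has the cap property `B₁ ∩ ϖ (V₁' ⊓ V₂') = ϖ B₁`, every element of
`VA ⊓ VC` is integral over `ι V₁'` and every element of `VB` is integral over `ι V₂'`, then
`B ∩ ϖ (VA ⊓ VB ⊓ VC) = ϖ B`.

`s36_c3_chart` : the same statement for the integral-closure charts `s34_ic_chart A₀ t` (below) and
`s34_ic_chart A₀ (ι t)` (above), over an arbitrary base ring `A₀`.

Proof: `s34_ext_cap` with `V' := V₁' ⊓ V₂'`, `V₁ := VA ⊓ VC`, `V₂ := VB`; an element of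
`VA ⊓ VB ⊓ VC` is integral over `ι (V₁' ⊓ V₂')` because the coefficients of its minimal polynomial
over `F''` lie in both valuation rings.
-/

set_option autoImplicit false
set_option linter.unusedVariables false
set_option linter.style.haveILetI false

namespace Fermat.Agent.S36

open Polynomial Fermat.Agent.S34

/-- A subring of a field containing `x` or `x⁻¹` for every `x` is integrally closed. -/
theorem s36_c3_mem_of_isIntegral {F : Type*} [Field F] (V : Subring F)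
    (hV : ∀ x : F, x ∈ V ∨ x⁻¹ ∈ V) (z : F) (hz : IsIntegral V z) : z ∈ V := by
  let W : ValuationSubring F := { V with mem_or_inv_mem' := hV }
  have hz' : IsIntegral W z := hz
  obtain ⟨y, hy⟩ := IsIntegrallyClosed.isIntegral_iff.mp hz'
  rw [← hy]
  exact y.2

/-- Integrality over an intersection of two subrings implies integrality over the first one. -/
theorem s36_c3_isIntegral_left {F : Type*} [Field F] (V₁ V₂ : Subring F) (z : F)
    (hz : IsIntegral (V₁ ⊓ V₂ : Subring F) z) : IsIntegral V₁ z := by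
  obtain ⟨P, hP, hPz⟩ := hz
  have e : (algebraMap V₁ F).comp (Subring.inclusion (inf_le_left : V₁ ⊓ V₂ ≤ V₁)) =
      algebraMap (V₁ ⊓ V₂ : Subring F) F := by
    ext x; rfl
  refine ⟨P.map (Subring.inclusion (inf_le_left : V₁ ⊓ V₂ ≤ V₁)), hP.map _, ?_⟩
  rw [eval₂_map, e]
  exact hPz

/-- Integrality over an intersection of two subrings implies integrality over the second one. -/
theorem s36_c3_isIntegral_right {F : Type*} [Field F] (V₁ V₂ : Subring F) (z : F)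
    (hz : IsIntegral (V₁ ⊓ V₂ : Subring F) z) : IsIntegral V₂ z := by
  obtain ⟨P, hP, hPz⟩ := hz
  have e : (algebraMap V₂ F).comp (Subring.inclusion (inf_le_right : V₁ ⊓ V₂ ≤ V₂)) =
      algebraMap (V₁ ⊓ V₂ : Subring F) F := by
    ext x; rfl
  refine ⟨P.map (Subring.inclusion (inf_le_right : V₁ ⊓ V₂ ≤ V₂)), hP.map _, ?_⟩
  rw [eval₂_map, e]
  exact hPz

/-- An element of `F` which is integral over `ι V₁'` and over `ι V₂'` (two subrings of `F''`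
containing `x` or `x⁻¹` for every `x`) is a root of a monic polynomial over `V₁' ⊓ V₂'`: its
minimal polynomial over `F''`. -/
theorem s36_c3_int_inf {F'' F : Type*} [Field F''] [Field F] (ι : F'' →+* F)
    (V₁' V₂' : Subring F'')
    (hV₁' : ∀ x : F'', x ∈ V₁' ∨ x⁻¹ ∈ V₁') (hV₂' : ∀ x : F'', x ∈ V₂' ∨ x⁻¹ ∈ V₂') (y : F)
    (h₁ : ∃ P : Polynomial V₁', P.Monic ∧ P.eval₂ (ι.comp V₁'.subtype) y = 0)
    (h₂ : ∃ P : Polynomial V₂', P.Monic ∧ P.eval₂ (ι.comp V₂'.subtype) y = 0) :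
    ∃ P : Polynomial (V₁' ⊓ V₂' : Subring F''), P.Monic ∧
      P.eval₂ (ι.comp (V₁' ⊓ V₂' : Subring F'').subtype) y = 0 := by
  letI : Algebra F'' F := ι.toAlgebra
  have halg : algebraMap F'' F = ι := rfl
  obtain ⟨P1, hP1m, hP1⟩ := h₁
  obtain ⟨P2, hP2m, hP2⟩ := h₂
  have hy1 : aeval y (P1.map V₁'.subtype) = 0 := by
    rw [aeval_def, eval₂_map, halg]; exact hP1
  have hy2 : aeval y (P2.map V₂'.subtype) = 0 := by
    rw [aeval_def, eval₂_map, halg]; exact hP2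
  have hyint : IsIntegral F'' y :=
    ⟨P1.map V₁'.subtype, hP1m.map _, by rw [← aeval_def]; exact hy1⟩
  set g := minpoly F'' y with hg
  have hgm : g.Monic := minpoly.monic hyint
  have hg1 : ∀ i, g.coeff i ∈ V₁' := fun i =>
    s36_c3_mem_of_isIntegral V₁' hV₁' _
      (isIntegral_coeff_of_dvd P1 g hP1m hgm (minpoly.dvd F'' y hy1) i)
  have hg2 : ∀ i, g.coeff i ∈ V₂' := fun i =>
    s36_c3_mem_of_isIntegral V₂' hV₂' _
      (isIntegral_coeff_of_dvd P2 g hP2m hgm (minpoly.dvd F'' y hy2) i)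
  have hcoeffs : (↑g.coeffs : Set F'') ⊆ (V₁' ⊓ V₂' : Subring F'') := by
    intro c hc
    obtain ⟨n, -, rfl⟩ := mem_coeffs_iff.mp hc
    exact ⟨hg1 n, hg2 n⟩
  refine ⟨g.toSubring (V₁' ⊓ V₂') hcoeffs, (monic_toSubring g (V₁' ⊓ V₂') hcoeffs).mpr hgm, ?_⟩
  rw [← eval₂_map, map_toSubring, ← halg, ← aeval_def]
  exact minpoly.aeval F'' y

/-- **(c-cap), abstract form.**  `x ∈ B`, `ϖ⁻¹ x ∈ VA ⊓ VB ⊓ VC` ⟹ `ϖ⁻¹ x ∈ B`, from the cap
property of the lower chart `B₁` with respect to `V₁' ⊓ V₂'`, the integrality of `VA ⊓ VC` over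
`ι V₁'` and the integrality of `VB` over `ι V₂'`. -/
theorem s36_c3_abs {F'' F : Type*} [Field F''] [Field F] (ι : F'' →+* F) {ϖ'' : F''}
    (hϖ : ϖ'' ≠ 0) (B₁ V₁' V₂' : Subring F'') (B VA VB VC : Subring F)
    (hϖB₁ : ϖ'' ∈ B₁) (hB₁V₁' : B₁ ≤ V₁') (hB₁V₂' : B₁ ≤ V₂')
    (hfrac : ∀ x : F'', ∃ a ∈ B₁, ∃ b ∈ B₁, b ≠ 0 ∧ x = a / b)
    (hnormal : ∀ z : F'', IsIntegral B₁ z → z ∈ B₁)
    (hV₁' : ∀ x : F'', x ∈ V₁' ∨ x⁻¹ ∈ V₁') (hV₂' : ∀ x : F'', x ∈ V₂' ∨ x⁻¹ ∈ V₂')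
    (hcap' : ∀ b ∈ B₁, ϖ''⁻¹ * b ∈ V₁' → ϖ''⁻¹ * b ∈ V₂' → ϖ''⁻¹ * b ∈ B₁)
    (hint : ∀ x ∈ B, ∃ P : Polynomial B₁, P.Monic ∧ P.eval₂ (ι.comp B₁.subtype) x = 0)
    (hclosed : ∀ x : F, (∃ P : Polynomial B₁, P.Monic ∧ P.eval₂ (ι.comp B₁.subtype) x = 0) →
      x ∈ B)
    (hAC : ∀ y ∈ VA, y ∈ VC →
      ∃ P : Polynomial V₁', P.Monic ∧ P.eval₂ (ι.comp V₁'.subtype) y = 0)
    (hB : ∀ y ∈ VB, ∃ P : Polynomial V₂', P.Monic ∧ P.eval₂ (ι.comp V₂'.subtype) y = 0) :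
    ∀ x ∈ B, (ι ϖ'')⁻¹ * x ∈ VA → (ι ϖ'')⁻¹ * x ∈ VB → (ι ϖ'')⁻¹ * x ∈ VC →
      (ι ϖ'')⁻¹ * x ∈ B := by
  intro x hx hxA hxB hxC
  have hV'normal : ∀ z : F'', IsIntegral (V₁' ⊓ V₂' : Subring F'') z →
      z ∈ (V₁' ⊓ V₂' : Subring F'') := fun z hz =>
    ⟨s36_c3_mem_of_isIntegral V₁' hV₁' z (s36_c3_isIntegral_left V₁' V₂' z hz),
      s36_c3_mem_of_isIntegral V₂' hV₂' z (s36_c3_isIntegral_right V₁' V₂' z hz)⟩
  have hgauss : ∀ b ∈ B₁, ϖ''⁻¹ * b ∈ (V₁' ⊓ V₂' : Subring F'') → ϖ''⁻¹ * b ∈ B₁ :=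
    fun b hb h => hcap' b hb h.1 h.2
  have ha : ∀ y ∈ (VA ⊓ VC : Subring F), y ∈ VB →
      ∃ P : Polynomial (V₁' ⊓ V₂' : Subring F''), P.Monic ∧
        P.eval₂ (ι.comp (V₁' ⊓ V₂' : Subring F'').subtype) y = 0 := fun y hy hyB =>
    s36_c3_int_inf ι V₁' V₂' hV₁' hV₂' y (hAC y hy.1 hy.2) (hB y hyB)
  exact s34_ext_cap ι hϖ B₁ (V₁' ⊓ V₂') B (VA ⊓ VC) VB hϖB₁ (le_inf hB₁V₁' hB₁V₂') hfrac
    hnormal hV'normal hgauss hint hclosed ha x hx ⟨hxA, hxC⟩ hxB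

section Chart

variable {A₀ F'' F : Type*} [CommRing A₀] [Field F''] [Field F] [Algebra A₀ F''] [Algebra A₀ F]

/-- The two evaluation maps `A₀[X] → F''`, `A₀[X] → F` are intertwined by `ι`. -/
theorem s36_c3_aeval_comp (ι : F'' →+* F)
    (hι : ∀ a : A₀, ι (algebraMap A₀ F'' a) = algebraMap A₀ F a) (t : F'') :
    ι.comp ((aeval t : A₀[X] →ₐ[A₀] F'') : A₀[X] →+* F'') =
      ((aeval (ι t) : A₀[X] →ₐ[A₀] F) : A₀[X] →+* F) := by
  apply Polynomial.ringHom_ext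
  · intro a
    simp only [RingHom.comp_apply, RingHom.coe_coe, aeval_C]
    exact hι a
  · simp only [RingHom.comp_apply, RingHom.coe_coe, aeval_X]

/-- `ι` maps the chart of `t` into the chart of `ι t`. -/
theorem s36_c3_map_mem (ι : F'' →+* F)
    (hι : ∀ a : A₀, ι (algebraMap A₀ F'' a) = algebraMap A₀ F a) (t : F'') (b : F'')
    (hb : b ∈ s34_ic_chart A₀ t) : ι b ∈ s34_ic_chart A₀ (ι t) := by
  rw [s34_ic_mem_iff] at hb ⊢
  obtain ⟨p, hp, hpb⟩ := hb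
  refine ⟨p, hp, ?_⟩
  rw [← s36_c3_aeval_comp ι hι t, ← Polynomial.hom_eval₂, hpb, map_zero]

/-- Every element of the chart of `ι t` is a root of a monic polynomial over the chart of `t`
(through `ι`). -/
theorem s36_c3_int (ι : F'' →+* F)
    (hι : ∀ a : A₀, ι (algebraMap A₀ F'' a) = algebraMap A₀ F a) (t : F'') (x : F)
    (hx : x ∈ (s34_ic_chart A₀ (ι t)).toSubring) :
    ∃ P : Polynomial (s34_ic_chart A₀ t).toSubring, P.Monic ∧
      P.eval₂ (ι.comp (s34_ic_chart A₀ t).toSubring.subtype) x = 0 := by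
  have hx1 : x ∈ s34_ic_chart A₀ (ι t) := hx
  rw [s34_ic_mem_iff] at hx1
  obtain ⟨p, hp, hpx⟩ := hx1
  have hmem : ∀ P : A₀[X], aeval t P ∈ (s34_ic_chart A₀ t).toSubring :=
    fun P => s34_ic_aeval_mem t P
  let φ : A₀[X] →+* (s34_ic_chart A₀ t).toSubring :=
    ((aeval t : A₀[X] →ₐ[A₀] F'') : A₀[X] →+* F'').codRestrict
      (s34_ic_chart A₀ t).toSubring hmem
  have hcomp : ((ι.comp (s34_ic_chart A₀ t).toSubring.subtype).comp φ) =
      ((aeval (ι t) : A₀[X] →ₐ[A₀] F) : A₀[X] →+* F) := by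
    rw [← s36_c3_aeval_comp ι hι t]
    ext P <;> rfl
  refine ⟨p.map φ, hp.map φ, ?_⟩
  rw [eval₂_map, hcomp]
  exact hpx

/-- Every root in `F` of a monic polynomial over the chart of `t` (through `ι`) lies in the chart
of `ι t`. -/
theorem s36_c3_closed (ι : F'' →+* F)
    (hι : ∀ a : A₀, ι (algebraMap A₀ F'' a) = algebraMap A₀ F a) (t : F'') (x : F)
    (hx : ∃ P : Polynomial (s34_ic_chart A₀ t).toSubring, P.Monic ∧
      P.eval₂ (ι.comp (s34_ic_chart A₀ t).toSubring.subtype) x = 0) :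
    x ∈ (s34_ic_chart A₀ (ι t)).toSubring := by
  obtain ⟨P, hP, hPx⟩ := hx
  let κ : (s34_ic_chart A₀ t).toSubring →+* s34_ic_chart A₀ (ι t) :=
    (ι.comp (s34_ic_chart A₀ t).toSubring.subtype).codRestrict
      (s34_ic_chart A₀ (ι t)).toSubring (fun b => s36_c3_map_mem ι hι t b b.2)
  have h1 : IsIntegral (s34_ic_chart A₀ (ι t)) x := by
    refine ⟨P.map κ, hP.map κ, ?_⟩
    rw [eval₂_map]
    exact hPx
  exact s34_ic_normal h1

/-- The chart of `t` is integrally closed in `F''` (subring form). -/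
theorem s36_c3_normal (t : F'') (z : F'')
    (hz : IsIntegral (s34_ic_chart A₀ t).toSubring z) :
    z ∈ (s34_ic_chart A₀ t).toSubring := by
  have hz' : IsIntegral (s34_ic_chart A₀ t) z := hz
  exact s34_ic_normal hz'

/-- **(c-cap) for integral-closure charts.**  `B₁ = s34_ic_chart A₀ t` the chart of the lower
level (in `F''`), `B = s34_ic_chart A₀ (ι t)` the chart of the upper level (in `F`); `V₁'`, `V₂'`
the two components below, `VA`, `VB`, `VC` the three components above.  From the cap property of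
`B₁`, the integrality of `VA ⊓ VC` over `ι V₁'` and of `VB` over `ι V₂'`:
`B ∩ π (VA ⊓ VB ⊓ VC) = π B`. -/
theorem s36_c3_chart (ι : F'' →+* F)
    (hι : ∀ a : A₀, ι (algebraMap A₀ F'' a) = algebraMap A₀ F a)
    (π : A₀) (hπ : algebraMap A₀ F'' π ≠ 0) (t : F'')
    (V₁' V₂' : Subring F'') (VA VB VC : Subring F)
    (hle₁ : (s34_ic_chart A₀ t).toSubring ≤ V₁') (hle₂ : (s34_ic_chart A₀ t).toSubring ≤ V₂')
    (hfrac : ∀ x : F'', ∃ a ∈ (s34_ic_chart A₀ t).toSubring,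
      ∃ b ∈ (s34_ic_chart A₀ t).toSubring, b ≠ 0 ∧ x = a / b)
    (hV₁' : ∀ x : F'', x ∈ V₁' ∨ x⁻¹ ∈ V₁') (hV₂' : ∀ x : F'', x ∈ V₂' ∨ x⁻¹ ∈ V₂')
    (hcap' : ∀ b ∈ (s34_ic_chart A₀ t).toSubring, (algebraMap A₀ F'' π)⁻¹ * b ∈ V₁' →
      (algebraMap A₀ F'' π)⁻¹ * b ∈ V₂' →
      (algebraMap A₀ F'' π)⁻¹ * b ∈ (s34_ic_chart A₀ t).toSubring)
    (hAC : ∀ y ∈ VA, y ∈ VC →
      ∃ P : Polynomial V₁', P.Monic ∧ P.eval₂ (ι.comp V₁'.subtype) y = 0)
    (hB : ∀ y ∈ VB, ∃ P : Polynomial V₂', P.Monic ∧ P.eval₂ (ι.comp V₂'.subtype) y = 0) :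
    ∀ x ∈ (s34_ic_chart A₀ (ι t)).toSubring, (algebraMap A₀ F π)⁻¹ * x ∈ VA →
      (algebraMap A₀ F π)⁻¹ * x ∈ VB → (algebraMap A₀ F π)⁻¹ * x ∈ VC →
      (algebraMap A₀ F π)⁻¹ * x ∈ (s34_ic_chart A₀ (ι t)).toSubring := by
  have key := s36_c3_abs ι hπ (s34_ic_chart A₀ t).toSubring V₁' V₂'
    (s34_ic_chart A₀ (ι t)).toSubring VA VB VC ((s34_ic_chart A₀ t).algebraMap_mem π)
    hle₁ hle₂ hfrac (s36_c3_normal t) hV₁' hV₂' hcap' (s36_c3_int ι hι t)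
    (s36_c3_closed ι hι t) hAC hB
  rw [hι π] at key
  exact key

end Chart

end Fermat.Agent.S36
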