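import Mathlib
import Fermat.Agent.S18.ChPkgInst

/-!
# S36 (c-base): the S18 chart package over a NON-Galois number field

`S18/ChNormal.lean` proves "`B[1/π]` is integrally closed" (`s18_chAlg_normal`) by coefficientwise
Galois averaging, so `s18_ch_pkg_nf`, `s18_ch_pkg_t2`, `s18_ch_pkg_t3` carry `[IsGalois ℚ K]`.
Here the same statements are proved for an arbitrary number field `K`:

* `s36_ng_span_integral`, `s36_ng_mem_span_of_mem` : the two Galois inputs for `K`, obtained from a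
  finite Galois `K' ⊇ K` by applying a `K`-linear retraction `K' → K` coefficientwise;
* `s36_ng_chAlg_normal` : `B[1/π]` is integrally closed, `[NumberField K]` only;
* `s36_ng_ch_smhyp`, `s36_ng_ch_pkg_gen`, `s36_ng_ch_pkg`, `s36_ng_ch_pkg_nf`,
  `s36_ng_ch_pkg_t2`, `s36_ng_ch_pkg_t3` : the chart package, `[NumberField K]` only.
-/

set_option autoImplicit false
set_option synthInstance.maxHeartbeats 400000
set_option maxHeartbeats 1000000
set_option linter.unusedSectionVars false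
set_option linter.unusedVariables false
set_option linter.style.haveILetI false
set_option linter.overlappingInstances false

open ModularCurve ModularCurve.IgusaScheme Fermat.Agent.S28 Fermat.Agent.S18 Polynomial

noncomputable section

namespace Fermat.Agent.S36

/-! ### Coefficientwise retraction -/

section Retract

variable {K K' : Type*} [Field K] [Field K'] [Algebra ℚ K] [Algebra ℚ K'] [Algebra K K']
  [IsScalarTower ℚ K K']

/-- Coefficientwise application of a `K`-linear map `K' → K`. -/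
def s36_ng_push (φ : K' →ₗ[K] K) : LaurentSeries K' →+ LaurentSeries K where
  toFun y := y.map φ.toAddMonoidHom
  map_zero' := by
    ext n
    simp
  map_add' y y' := by
    ext n
    simp

theorem s36_ng_push_coeff (φ : K' →ₗ[K] K) (y : LaurentSeries K') (n : ℤ) :
    (s36_ng_push φ y).coeff n = φ (y.coeff n) := rfl

theorem s36_ng_push_up (φ : K' →ₗ[K] K) (hφ : ∀ a : K, φ (algebraMap K K' a) = a)
    (z : LaurentSeries K) : s36_ng_push φ (coeffMap (algebraMap K K') z) = z := by
  ext n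
  rw [s36_ng_push_coeff, coeffMap_coeff, hφ]

theorem s36_ng_push_gen (φ : K' →ₗ[K] K) (r : K') (x : LaurentSeries ℚ) :
    s36_ng_push φ (HahnSeries.C r * coeffMap (algebraMap ℚ K') x) =
      HahnSeries.C (φ r) * coeffMap (algebraMap ℚ K) x := by
  ext n
  rw [s36_ng_push_coeff, HahnSeries.C_mul_eq_smul, HahnSeries.coeff_smul,
    HahnSeries.C_mul_eq_smul, HahnSeries.coeff_smul, coeffMap_coeff, coeffMap_coeff, smul_eq_mul,
    smul_eq_mul, IsScalarTower.algebraMap_apply ℚ K K', mul_comm r, ← Algebra.smul_def, map_smul,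
    smul_eq_mul, mul_comm]

theorem s36_ng_exists_retract :
    ∃ φ : K' →ₗ[K] K, ∀ a : K, φ (algebraMap K K' a) = a := by
  obtain ⟨g, hg⟩ := LinearMap.exists_leftInverse_of_injective (Algebra.linearMap K K')
    (LinearMap.ker_eq_bot.mpr (algebraMap K K').injective)
  exact ⟨g, fun a => by simpa using LinearMap.congr_fun hg a⟩

variable {F₀ : Subring (LaurentSeries ℚ)}

theorem s36_ng_push_mem (φ : K' →ₗ[K] K) {y : LaurentSeries K'}
    (hy : y ∈ s18_galSpan (L₁ := K') F₀) :
    s36_ng_push φ y ∈ s18_chSpan (RingHom.id K) (algebraMap ℚ K) F₀ := by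
  refine s18_chSpan_induction
    (P := fun y => s36_ng_push φ y ∈ s18_chSpan (RingHom.id K) (algebraMap ℚ K) F₀) ?_ ?_ ?_ ?_ hy
  · intro r x hx
    rw [RingHom.id_apply, s36_ng_push_gen]
    exact s18_gen_mem_chSpan (ι₁ := RingHom.id K) (φ r) hx
  · rw [map_zero]
    exact Subring.zero_mem _
  · intro y y' h h'
    rw [map_add]
    exact Subring.add_mem _ h h'
  · intro y h
    rw [map_neg]
    exact Subring.neg_mem _ h

theorem s36_ng_up_mem {z : LaurentSeries K}
    (hz : z ∈ s18_chSpan (RingHom.id K) (algebraMap ℚ K) F₀) :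
    coeffMap (algebraMap K K') z ∈ s18_galSpan (L₁ := K') F₀ := by
  refine s18_chSpan_induction
    (P := fun z => coeffMap (algebraMap K K') z ∈ s18_galSpan (L₁ := K') F₀) ?_ ?_ ?_ ?_ hz
  · intro r x hx
    have h1 : coeffMap (algebraMap K K') (HahnSeries.C ((RingHom.id K) r) *
        coeffMap (algebraMap ℚ K) x) =
        HahnSeries.C ((RingHom.id K') (algebraMap K K' r)) * coeffMap (algebraMap ℚ K') x := by
      rw [map_mul, RingHom.id_apply, RingHom.id_apply, HahnSeries.C_apply, coeffMap_single,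
        HahnSeries.C_apply, coeffMap_coeffMap]
      congr 1
      exact coeffMap_congr (IsScalarTower.algebraMap_eq ℚ K K').symm x
    rw [h1]
    exact s18_gen_mem_chSpan (ι₁ := RingHom.id K') (algebraMap K K' r) hx
  · rw [map_zero]
    exact Subring.zero_mem _
  · intro y y' h h'
    rw [map_add]
    exact Subring.add_mem _ h h'
  · intro y h
    rw [map_neg]
    exact Subring.neg_mem _ h

theorem s36_ng_up_integral (T₀ : Subring (LaurentSeries ℚ)) {z : LaurentSeries K}
    (h : ((coeffMap (algebraMap ℚ K)).comp T₀.subtype).IsIntegralElem z) :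
    ((coeffMap (algebraMap ℚ K')).comp T₀.subtype).IsIntegralElem
      (coeffMap (algebraMap K K') z) := by
  obtain ⟨p, hp, h0⟩ := h
  refine ⟨p, hp, ?_⟩
  have hcomp : (coeffMap (algebraMap K K')).comp ((coeffMap (algebraMap ℚ K)).comp T₀.subtype) =
      (coeffMap (algebraMap ℚ K')).comp T₀.subtype := by
    ext x : 1
    show coeffMap (algebraMap K K') (coeffMap (algebraMap ℚ K) (x : LaurentSeries ℚ)) =
      coeffMap (algebraMap ℚ K') (x : LaurentSeries ℚ)
    rw [coeffMap_coeffMap]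
    exact coeffMap_congr (IsScalarTower.algebraMap_eq ℚ K K').symm _
  have h1 := Polynomial.hom_eval₂ p ((coeffMap (algebraMap ℚ K)).comp T₀.subtype)
    (coeffMap (algebraMap K K')) z
  rw [hcomp] at h1
  rw [← h1, h0, map_zero]

/-- The non-Galois form of `s18_galSpan_integral` (over `ℚ`). -/
theorem s36_ng_span_integral [FiniteDimensional ℚ K'] [IsGalois ℚ K']
    (hC : ∀ a : ℚ, HahnSeries.C a ∈ F₀)
    (T₀ : Subring (LaurentSeries ℚ)) (hT : ∀ a : ℚ, HahnSeries.C a ∈ T₀) :
    ∃ (n : ℕ) (e : Fin n → K), ∀ z ∈ s18_chSpan (RingHom.id K) (algebraMap ℚ K) F₀,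
      ((coeffMap (algebraMap ℚ K)).comp T₀.subtype).IsIntegralElem z →
      ∃ w : Fin n → LaurentSeries ℚ, (∀ j, w j ∈ F₀) ∧ (∀ j, T₀.subtype.IsIntegralElem (w j)) ∧
        z = ∑ j, HahnSeries.C (e j) * coeffMap (algebraMap ℚ K) (w j) := by
  obtain ⟨φ, hφ⟩ := s36_ng_exists_retract (K := K) (K' := K')
  obtain ⟨n, e', h⟩ := s18_galSpan_integral (L₀ := ℚ) (L₁ := K') hC T₀ hT
  refine ⟨n, fun j => φ (e' j), fun z hz hint => ?_⟩
  obtain ⟨w, hw, hwint, hzw⟩ := h _ (s36_ng_up_mem hz) (s36_ng_up_integral T₀ hint)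
  refine ⟨w, hw, hwint, ?_⟩
  have h1 := congrArg (s36_ng_push φ) hzw
  rw [s36_ng_push_up φ hφ, map_sum] at h1
  rw [h1]
  exact Finset.sum_congr rfl (fun j _ => s36_ng_push_gen φ (e' j) (w j))

/-- The coefficient embedding `K((q)) → K'((q))` maps `K · F` into `K' · F`. -/
theorem s36_ng_up_lbc (F : IntermediateField ℚ (LaurentSeries ℚ)) {z : LaurentSeries K}
    (hz : z ∈ laurentBaseChange K F) :
    coeffMap (algebraMap K K') z ∈ laurentBaseChange K' F := by
  rw [mem_laurentBaseChange_iff] at hz ⊢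
  have hle : Subfield.closure (Set.range (algebraMap K (LaurentSeries K)) ∪
      (⇑(coeffEmb K) '' (F : Set (LaurentSeries ℚ)))) ≤
      (Subfield.closure (Set.range (algebraMap K' (LaurentSeries K')) ∪
        (⇑(coeffEmb K') '' (F : Set (LaurentSeries ℚ))))).comap (coeffMap (algebraMap K K')) := by
    rw [Subfield.closure_le]
    rintro y (⟨c, rfl⟩ | ⟨x, hx, rfl⟩)
    · show coeffMap (algebraMap K K') (algebraMap K (LaurentSeries K) c) ∈ Subfield.closure _
      apply Subfield.subset_closure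
      left
      refine ⟨algebraMap K K' c, ?_⟩
      rw [algebraMap_laurentSeries_eq_single, algebraMap_laurentSeries_eq_single,
        coeffMap_single]
    · show coeffMap (algebraMap K K') (coeffEmb K x) ∈ Subfield.closure _
      apply Subfield.subset_closure
      right
      refine ⟨x, hx, ?_⟩
      rw [coeffEmb, coeffEmb, coeffMap_coeffMap]
      exact coeffMap_congr (IsScalarTower.algebraMap_eq ℚ K K') x
  exact hle hz

/-- The non-Galois form of `s18_mem_galSpan_of_mem`. -/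
theorem s36_ng_mem_span_of_mem [FiniteDimensional ℚ K'] [IsGalois ℚ K'] {N : ℕ}
    {z : LaurentSeries K} (hz : z ∈ laurentBaseChange K (modularFunctionFieldFull N)) :
    z ∈ s18_chSpan (RingHom.id K) (algebraMap ℚ K) (s18_ffRing N) := by
  obtain ⟨φ, hφ⟩ := s36_ng_exists_retract (K := K) (K' := K')
  have h1 := s18_mem_galSpan_of_mem (K := K') (s36_ng_up_lbc (K' := K') _ hz)
  have h2 := s36_ng_push_mem φ h1
  rwa [s36_ng_push_up φ hφ] at h2

end Retract

/-! ### Integrality over `ℚ[t]` (no Galois hypothesis) -/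

section Integral

variable {L₁ : Type*} [Field L₁] [Algebra ℚ L₁] [FiniteDimensional ℚ L₁]

/-- Constants are integral over the image of any subring containing the constants of `ℚ`. -/
theorem s36_ng_isIntegralElem_C (T₀ : Subring (LaurentSeries ℚ))
    (hT : ∀ a : ℚ, HahnSeries.C a ∈ T₀) (c : L₁) :
    ((coeffMap (algebraMap ℚ L₁)).comp T₀.subtype).IsIntegralElem
      (HahnSeries.C c : LaurentSeries L₁) := by
  have hc : IsIntegral ℚ c := Algebra.IsIntegral.isIntegral c
  obtain ⟨p, hp, h0⟩ := hc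
  let g : ℚ →+* T₀ := (HahnSeries.C : ℚ →+* LaurentSeries ℚ).codRestrict T₀ hT
  refine ⟨p.map g, hp.map g, ?_⟩
  rw [Polynomial.eval₂_map]
  have hcomp : ((coeffMap (algebraMap ℚ L₁)).comp T₀.subtype).comp g =
      (HahnSeries.C : L₁ →+* LaurentSeries L₁).comp (algebraMap ℚ L₁) := by
    ext a : 1
    show coeffMap (algebraMap ℚ L₁) (HahnSeries.C a) = HahnSeries.C (algebraMap ℚ L₁ a)
    rw [HahnSeries.C_apply, HahnSeries.C_apply, coeffMap_single]
  rw [hcomp, ← Polynomial.hom_eval₂, h0, map_zero]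

end Integral

section Normal

variable {N : ℕ} [NeZero N] {ℓ : ℕ} [Fact ℓ.Prime]
variable {K : Type*} [Field K] [Algebra ℚ K] {A : ValuationSubring K}
variable {t : modularFunctionFieldFull N}

local notation "FK" => laurentBaseChange K (modularFunctionFieldFull N)

variable [FiniteDimensional ℚ K]

/-- Elements of the chart are integral over (the image of) `ℚ[t]`. -/
theorem s36_ng_chRing_integral (y : LaurentSeries K) (hy : y ∈ s18_chRing N ℓ A t) :
    ((coeffMap (algebraMap ℚ K)).comp (s18_qtHom N t).range.subtype).IsIntegralElem y := by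
  refine s18_chSpan_induction (P := fun y =>
    ((coeffMap (algebraMap ℚ K)).comp (s18_qtHom N t).range.subtype).IsIntegralElem y)
    ?_ ?_ ?_ ?_ hy
  · intro r x hx
    exact RingHom.IsIntegralElem.mul _
      (s36_ng_isIntegralElem_C (L₁ := K) (s18_qtHom N t).range s18_C_mem_qtRange (A.subtype r))
      (s18_isIntegralElem_iota _ x (s18_czRing_integral x hx))
  · exact ⟨X, monic_X, by rw [eval₂_X]⟩
  · intro y y' h h'
    exact RingHom.IsIntegralElem.add _ h h'
  · intro y h
    exact RingHom.IsIntegralElem.neg _ h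

/-- An element of `K · F_N` integral over the chart is integral over (the image of) `ℚ[t]`. -/
theorem s36_ng_integral_over_qt (z : FK) (hz : IsIntegral (s18_chAlg N ℓ A t) z) :
    ((coeffMap (algebraMap ℚ K)).comp (s18_qtHom N t).range.subtype).IsIntegralElem
      (z : LaurentSeries K) := by
  let _ : Algebra (s18_qtHom N t).range (LaurentSeries K) :=
    ((coeffMap (algebraMap ℚ K)).comp (s18_qtHom N t).range.subtype).toAlgebra
  let I := integralClosure (s18_qtHom N t).range (LaurentSeries K)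
  have hle : ∀ b : s18_chAlg N ℓ A t, ((b : FK) : LaurentSeries K) ∈ I := fun b =>
    s36_ng_chRing_integral _ (s18_mem_chAlg.mp b.2)
  let j : s18_chAlg N ℓ A t →+* I :=
    { toFun := fun b => ⟨((b : FK) : LaurentSeries K), hle b⟩
      map_one' := rfl
      map_mul' := fun _ _ => rfl
      map_zero' := rfl
      map_add' := fun _ _ => rfl }
  obtain ⟨p, hp, h0⟩ := hz
  have hI : IsIntegral I (z : LaurentSeries K) := by
    refine ⟨p.map j, hp.map j, ?_⟩
    rw [Polynomial.eval₂_map]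
    have hcomp : (algebraMap I (LaurentSeries K)).comp j =
        (laurentBaseChange K (modularFunctionFieldFull N)).val.toRingHom.comp
          (algebraMap (s18_chAlg N ℓ A t) FK) := rfl
    rw [hcomp]
    have h1 := Polynomial.hom_eval₂ p (algebraMap (s18_chAlg N ℓ A t) FK)
      (laurentBaseChange K (modularFunctionFieldFull N)).val.toRingHom z
    rw [h0, map_zero] at h1
    exact h1.symm
  exact isIntegral_trans (R := (s18_qtHom N t).range) (A := I) _ hI


/-- `B[1/π]` is integrally closed, given a finite Galois extension `K'` of `ℚ` containing `K`. -/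
theorem s36_ng_chAlg_normal_aux (K' : Type*) [Field K'] [Algebra ℚ K'] [Algebra K K']
    [IsScalarTower ℚ K K'] [FiniteDimensional ℚ K'] [IsGalois ℚ K']
    [IsDiscreteValuationRing A] {π : A} (hπ : Irreducible π)
    (z : FK) (hz : IsIntegral (s18_chAlg N ℓ A t) z) :
    ∃ k : ℕ, (algebraMap A FK π) ^ k * z ∈ s18_chAlg N ℓ A t := by
  classical
  have hint := s36_ng_integral_over_qt z hz
  obtain ⟨n, e, hn⟩ := s36_ng_span_integral (K := K) (K' := K') (F₀ := s18_ffRing N)
    s18_C_mem_ffRing (s18_qtHom N t).range s18_C_mem_qtRange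
  obtain ⟨w, hw, hwint, hzw⟩ := hn _ (s36_ng_mem_span_of_mem (K' := K') z.2) hint
  -- each `w j` lies in the chart after multiplication by a power of `ℓ`
  have h1 : ∀ j, ∃ k : ℕ, ((ℓ : ℕ) : modularFunctionFieldFull N) ^ k *
      (⟨w j, hw j⟩ : modularFunctionFieldFull N) ∈ chartAlg N ℓ {t} := fun j =>
    s18_cz_exists_pow_mul_mem_chart t _ (s18_isIntegral_of_qt _ (hwint j))
  choose kk hkk using h1
  set k := ∑ j, kk j with hk
  have hkj : ∀ j, kk j ≤ k := fun j =>
    Finset.single_le_sum (f := kk) (fun i _ => Nat.zero_le _) (Finset.mem_univ j)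
  have hℓchart : ((ℓ : ℕ) : modularFunctionFieldFull N) ∈ chartAlg N ℓ {t} :=
    natCast_mem (chartAlg N ℓ {t}) ℓ
  have h2 : ∀ j, ((ℓ : ℕ) : modularFunctionFieldFull N) ^ k *
      (⟨w j, hw j⟩ : modularFunctionFieldFull N) ∈ chartAlg N ℓ {t} := by
    intro j
    have : ((ℓ : ℕ) : modularFunctionFieldFull N) ^ k * (⟨w j, hw j⟩ : modularFunctionFieldFull N) =
        ((ℓ : ℕ) : modularFunctionFieldFull N) ^ (k - kk j) *
          (((ℓ : ℕ) : modularFunctionFieldFull N) ^ kk j *
            (⟨w j, hw j⟩ : modularFunctionFieldFull N)) := by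
      rw [← mul_assoc, ← pow_add, Nat.sub_add_cancel (hkj j)]
    rw [this]
    exact (chartAlg N ℓ {t}).mul_mem ((chartAlg N ℓ {t}).pow_mem hℓchart _) (hkk j)
  -- denominators
  have h3 : ∀ j, ∃ m : ℕ, ∀ m', m ≤ m' → (π : K) ^ m' * (e j * ((ℓ : K))⁻¹ ^ k) ∈ A := fun j =>
    s18_chn_exists_pow_mul_mem hπ _
  choose mm hmm using h3
  set m := ∑ j, mm j with hm
  have hmj : ∀ j, mm j ≤ m := fun j =>
    Finset.single_le_sum (f := mm) (fun i _ => Nat.zero_le _) (Finset.mem_univ j)
  refine ⟨m, ?_⟩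
  rw [s18_mem_chAlg]
  have hcoe : (((algebraMap A FK π) ^ m * z : FK) : LaurentSeries K) =
      HahnSeries.C (A.subtype π) ^ m * (z : LaurentSeries K) := by
    rw [← s18_coe_algebraMap (N := N)]
    rfl
  rw [hcoe, hzw, Finset.mul_sum]
  refine Subring.sum_mem _ (fun j _ => ?_)
  have hℓK : (ℓ : K) ≠ 0 := by
    have hℓp : ℓ.Prime := Fact.out
    have h0 : (ℓ : K) = algebraMap ℚ K (ℓ : ℚ) := (map_natCast _ _).symm
    rw [h0, Ne, map_eq_zero]
    exact_mod_cast hℓp.ne_zero
  have heq : HahnSeries.C (A.subtype π) ^ m * (HahnSeries.C (e j) * coeffMap (algebraMap ℚ K) (w j))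
      = HahnSeries.C (A.subtype ⟨(π : K) ^ m * (e j * ((ℓ : K))⁻¹ ^ k), hmm j m (hmj j)⟩) *
        coeffMap (algebraMap ℚ K) (((((ℓ : ℕ) : modularFunctionFieldFull N) ^ k *
          (⟨w j, hw j⟩ : modularFunctionFieldFull N) : modularFunctionFieldFull N)) :
            LaurentSeries ℚ) := by
    have hc1 : ((((ℓ : ℕ) : modularFunctionFieldFull N) ^ k *
        (⟨w j, hw j⟩ : modularFunctionFieldFull N) : modularFunctionFieldFull N) :
        LaurentSeries ℚ) = HahnSeries.C (ℓ : ℚ) ^ k * w j := by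
      show kerVal N (((ℓ : ℕ) : modularFunctionFieldFull N) ^ k *
        (⟨w j, hw j⟩ : modularFunctionFieldFull N)) = _
      rw [map_mul, map_pow, kerVal_natCast_ell]
      rfl
    rw [hc1, map_mul, map_pow]
    have hc2 : coeffMap (algebraMap ℚ K) (HahnSeries.C (ℓ : ℚ)) =
        (HahnSeries.C (ℓ : K) : LaurentSeries K) := by
      rw [HahnSeries.C_apply, coeffMap_single, map_natCast, HahnSeries.C_apply]
    rw [hc2]
    show HahnSeries.C (π : K) ^ m * (HahnSeries.C (e j) * coeffMap (algebraMap ℚ K) (w j)) =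
      HahnSeries.C ((π : K) ^ m * (e j * ((ℓ : K))⁻¹ ^ k)) *
        (HahnSeries.C (ℓ : K) ^ k * coeffMap (algebraMap ℚ K) (w j))
    have hk1 : (π : K) ^ m * e j = ((π : K) ^ m * (e j * ((ℓ : K))⁻¹ ^ k)) * (ℓ : K) ^ k := by
      rw [mul_assoc, mul_assoc, inv_pow, inv_mul_cancel₀ (pow_ne_zero k hℓK), mul_one]
    rw [← map_pow, ← map_pow, ← mul_assoc, ← mul_assoc, ← map_mul, ← map_mul, hk1]
  rw [heq]
  exact s18_gen_mem_chSpan _ (s18_coe_mem_czRing (h2 j))


end Normal

section NormalNF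

variable {N : ℕ} [NeZero N] {ℓ : ℕ} [Fact ℓ.Prime]
variable {K : Type*} [Field K] [NumberField K] {A : ValuationSubring K}
variable {t : modularFunctionFieldFull N}

local notation "FK" => laurentBaseChange K (modularFunctionFieldFull N)

/-- **`B[1/π]` is integrally closed** over an arbitrary number field (no Galois hypothesis). -/
theorem s36_ng_chAlg_normal [IsDiscreteValuationRing A] {π : A} (hπ : Irreducible π)
    (z : FK) (hz : IsIntegral (s18_chAlg N ℓ A t) z) :
    ∃ k : ℕ, (algebraMap A FK π) ^ k * z ∈ s18_chAlg N ℓ A t := by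
  have halg : Algebra.IsAlgebraic ℚ (AlgebraicClosure K) :=
    Algebra.IsAlgebraic.trans ℚ K (AlgebraicClosure K)
  have hcl : IsAlgClosure ℚ (AlgebraicClosure K) := ⟨inferInstance, halg⟩
  have hn : Normal ℚ (AlgebraicClosure K) := IsAlgClosure.normal ℚ (AlgebraicClosure K)
  have : Normal ℚ (IntermediateField.normalClosure ℚ K (AlgebraicClosure K)) :=
    _root_.normalClosure.normal ℚ K (AlgebraicClosure K)
  have : IsGalois ℚ (IntermediateField.normalClosure ℚ K (AlgebraicClosure K)) := IsGalois.mk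
  exact s36_ng_chAlg_normal_aux (IntermediateField.normalClosure ℚ K (AlgebraicClosure K)) hπ z hz

/-- **The hypotheses of the smoothness theorem for the chart of a coordinate `t`** whose
`q`-expansion is integral with leading term `q^e`, `e = ±1`. -/
theorem s36_ng_ch_smhyp [NumberField K] [IsDiscreteValuationRing A] {π : A}
    (hR : s18_ResBasis ℓ A π) (h : s18_cz_Coord N ℓ t)
    {B : Subring (LaurentSeries ℚ)} (hB : CoreData N ℓ B)
    (T : LaurentSeries ℤ) (hT : (t : LaurentSeries ℚ) = coeffMap (Int.castRingHom ℚ) T)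
    (e : ℤ) (he : e = 1 ∨ e = -1) (hlead : IsLeading T e 1) :
    s18_SmHyp π (s18_coord K t) (s18_chAlg N ℓ A t) := by
  have hπ0 : π ≠ 0 := hR.irr.ne_zero
  have he0 : e ≠ 0 := by rcases he with rfl | rfl <;> decide
  refine
    { pre :=
        { ϖ_mem := (s18_chAlg N ℓ A t).algebraMap_mem π
          ϖ_ne := s18_pkg_algebraMap_ne_zero hπ0
          noeth := s18_pkg_noeth hR h hB
          frac := s18_chAlg_frac hR.unit h hB
          prime := s18_chAlg_prime hR h hB
          nonunit := s18_chAlg_nonunit hR h hB }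
      t_mem := s18_coord_mem t
      finite := s18_chAlg_fg (A := A) (h.exists_finset_span hB) hR.unit
      transc := s18_coord_transcendental T hT e he0 hlead
      sep := ?_
      normal := fun z hz => s36_ng_chAlg_normal hR.irr z hz }
  intro x hx
  letI := s18_chPolyAlgebra ℓ A t
  obtain ⟨P, hP1, hP2⟩ := s18_chAlg_hsep hR h hB T hT e he hlead ⟨x, hx⟩
  refine ⟨P, ?_, ?_⟩
  · rw [s18_pkg_dvd_iff hπ0, s18_pkg_coe_aeval] at hP1
    exact hP1
  · rw [s18_pkg_dvd_iff hπ0, s18_pkg_coe_aeval] at hP2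
    exact hP2

/-- **The chart package** for the charts of a coordinate `t` and of `t⁻¹`, where the `q`-expansions
of `t`, `t⁻¹` are integral with leading terms `q^e`, `q^e'`, `e, e' = ±1`. -/
theorem s36_ng_ch_pkg_gen [NumberField K] [IsDiscreteValuationRing A] {π : A}
    (hR : s18_ResBasis ℓ A π) (h : s18_cz_Coord N ℓ t)
    {B : Subring (LaurentSeries ℚ)} (hB : CoreData N ℓ B)
    (T : LaurentSeries ℤ) (hT : (t : LaurentSeries ℚ) = coeffMap (Int.castRingHom ℚ) T)
    (e : ℤ) (he : e = 1 ∨ e = -1) (hlead : IsLeading T e 1)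
    (T' : LaurentSeries ℤ)
    (hT' : ((t⁻¹ : modularFunctionFieldFull N) : LaurentSeries ℚ) =
      coeffMap (Int.castRingHom ℚ) T')
    (e' : ℤ) (he' : e' = 1 ∨ e' = -1) (hlead' : IsLeading T' e' 1) :
    s18_ChartPkg π (s18_coord K t) (s18_chAlg N ℓ A t) (s18_chAlg N ℓ A t⁻¹) := by
  have hsm0 : s18_SmHyp π (s18_coord K t) (s18_chAlg N ℓ A t) :=
    s36_ng_ch_smhyp hR h hB T hT e he hlead
  have hsmInf : s18_SmHyp π (s18_coord K t)⁻¹ (s18_chAlg N ℓ A t⁻¹) := by
    rw [← s18_coord_inv]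
    exact s36_ng_ch_smhyp hR h.inv hB T' hT' e' he' hlead'
  have ht_ne : s18_coord K t ≠ 0 := by
    intro h0
    exact X_ne_zero (hsm0.transc X (by rw [aeval_X, h0]))
  have hglue0 : ∀ x ∈ s18_chAlg N ℓ A t, ∃ k : ℕ,
      (s18_coord K t)⁻¹ ^ k * x ∈ s18_chAlg N ℓ A t⁻¹ := s18_chAlg_glue h.ne_zero
  have hglueInf : ∀ x ∈ s18_chAlg N ℓ A t⁻¹, ∃ k : ℕ,
      (s18_coord K t) ^ k * x ∈ s18_chAlg N ℓ A t := by
    have h1 := s18_chAlg_glue (K := K) (A := A) (ℓ := ℓ) (t := t⁻¹) (inv_ne_zero h.ne_zero)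
    rw [inv_inv, s18_coord_inv, inv_inv] at h1
    exact h1
  obtain ⟨gen0, hgen0, hspan0⟩ := hsm0.finite
  obtain ⟨genInf, hgenInf, hspanInf⟩ := hsmInf.finite
  have hinj : Function.Injective (algebraMap A FK) := by
    intro a b hab
    have h1 : ((algebraMap A FK a : FK) : LaurentSeries K) =
        ((algebraMap A FK b : FK) : LaurentSeries K) := by rw [hab]
    rw [s18_coe_algebraMap, s18_coe_algebraMap] at h1
    exact Subtype.ext (HahnSeries.C_injective h1)
  exact
    { sm0 := hsm0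
      smInf := hsmInf
      t_ne := ht_ne
      t_unit0 := s18_chAlg_coord_not_dvd hR h hB
      t_unitInf := by
        rw [← s18_coord_inv]
        exact s18_chAlg_coord_not_dvd hR h.inv hB
      glue0 := hglue0
      glueInf := hglueInf
      h1 := s18_ch_h1 (s18_coord K t) ht_ne _ _ hsm0.t_mem hsmInf.t_mem gen0 hgen0 hspan0 hglue0
      fin := s18_ch_fin hinj (s18_coord K t) hsm0.transc _ _ hsm0.t_mem hsmInf.t_mem gen0 hgen0
        hspan0 genInf hgenInf hspanInf hglue0 hglueInf }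

/-- **The chart package** (block C): for a coordinate `t` with integral `q`-expansion `T` with
leading term `q^e`, `e = ±1`, whose inverse has the integral `q`-expansion `T'`. -/
theorem s36_ng_ch_pkg [NumberField K] [IsDiscreteValuationRing A] {π : A}
    (hR : s18_ResBasis ℓ A π) (h : s18_cz_Coord N ℓ t)
    {B : Subring (LaurentSeries ℚ)} (hB : CoreData N ℓ B)
    (T T' : LaurentSeries ℤ) (hTT' : T * T' = 1)
    (hT : (t : LaurentSeries ℚ) = coeffMap (Int.castRingHom ℚ) T)
    (e : ℤ) (he : e = 1 ∨ e = -1) (hlead : IsLeading T e 1) :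
    s18_ChartPkg π (s18_coord K t) (s18_chAlg N ℓ A t) (s18_chAlg N ℓ A t⁻¹) :=
  s36_ng_ch_pkg_gen hR h hB T hT e he hlead T' (s18_pkg_coe_inv T T' hTT' hT) (-e)
    (by rcases he with rfl | rfl <;> simp) (s18_pkg_isLeading_inv T T' hTT' e hlead)

/-- **The chart package over a number field**: `A` a valuation ring of the number field `K`
in which `ℓ` is not a unit, `π` a uniformizer of `A`, `ℓ ∤ N`, `t` a coordinate
with integral `q`-expansion `T` with leading term `q^e`, `e = ±1`, and `T * T' = 1`. -/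
theorem s36_ng_ch_pkg_nf (hℓ : ((ℓ : K))⁻¹ ∉ A) (hℓN : ¬ ℓ ∣ N)
    {t : modularFunctionFieldFull N} (h : s18_cz_Coord N ℓ t)
    (T T' : LaurentSeries ℤ) (hTT' : T * T' = 1)
    (hT : (t : LaurentSeries ℚ) = coeffMap (Int.castRingHom ℚ) T)
    (e : ℤ) (he : e = 1 ∨ e = -1) (hlead : IsLeading T e 1) (π : A) (hπ : Irreducible π) :
    s18_ChartPkg π (s18_coord K t) (s18_chAlg N ℓ A t) (s18_chAlg N ℓ A t⁻¹) := by
  haveI := s18_ch_dvr A ℓ hℓ
  obtain ⟨B, hB⟩ := core N ℓ hℓN
  exact s36_ng_ch_pkg ⟨hℓ, hπ, s18_ch_resbasis A ℓ hℓ π hπ⟩ h hB T T' hTT' hT e he hlead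

/-- **The chart package for the Hauptmodul `t₂`**, `2 ∣ N`, `ℓ ∤ N`. -/
theorem s36_ng_ch_pkg_t2 (hℓ : ((ℓ : K))⁻¹ ∉ A) (hℓN : ¬ ℓ ∣ N) (hN : 2 ∣ N)
    (π : A) (hπ : Irreducible π) :
    s18_ChartPkg π (s18_coord K (s18_cz_t2 N hN)) (s18_chAlg N ℓ A (s18_cz_t2 N hN))
      (s18_chAlg N ℓ A (s18_cz_t2 N hN)⁻¹) := by
  have hℓ2 : ℓ ≠ 2 := fun h2 => hℓN (h2 ▸ hN)
  exact s36_ng_ch_pkg_nf hℓ hℓN (s18_cz_coord_t2 N ℓ hN hℓ2) s18_t2 s18_t2inv s18_t2_mul_inv rfl
    (-1) (Or.inr rfl) s18_pkg_lead_t2 π hπ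

/-- **The chart package for the Hauptmodul `t₃`**, `3 ∣ N`, `ℓ ∤ N`. -/
theorem s36_ng_ch_pkg_t3 (hℓ : ((ℓ : K))⁻¹ ∉ A) (hℓN : ¬ ℓ ∣ N) (hN : 3 ∣ N)
    (π : A) (hπ : Irreducible π) :
    s18_ChartPkg π (s18_coord K (s18_cz_t3 N hN)) (s18_chAlg N ℓ A (s18_cz_t3 N hN))
      (s18_chAlg N ℓ A (s18_cz_t3 N hN)⁻¹) := by
  have hℓ3 : ℓ ≠ 3 := fun h3 => hℓN (h3 ▸ hN)
  exact s36_ng_ch_pkg_nf hℓ hℓN (s18_cz_coord_t3 N ℓ hN hℓ3) s18_t3 s18_t3inv s18_t3_mul_inv rfl
    (-1) (Or.inr rfl) s18_pkg_lead_t3 π hπ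

end NormalNF

end Fermat.Agent.S36
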