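import Mathlib
import Fermat.Agent.S34.CapContract
import Fermat.Agent.S36.ChPkgNG

/-!
# S36 (NODE-3): the level-`q` chart facts of NODE-1 over a NON-Galois number field

The S34 files `LevelChart.lean` (section `Haupt`), `CapInst.lean` (section `Model`) and
`CapContract.lean` carry `[IsGalois ℚ K₁]` only because they cite the S18 chart package
`s18_ch_pkg_t2`, `s18_ch_pkg_t3`.  With the chart package over an arbitrary number field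
(`s36_ng_ch_pkg_t2`, `s36_ng_ch_pkg_t3`, file `S36/ChPkgNG.lean`) the same proofs give the same
statements for every number field `K₁ ⊆ Q̄` (e.g. a subfield `K₀` of the inertia field):

* `s36_cn_twoChart_t2`, `s36_cn_twoChart_t3` : the S18 two-chart structure of the Hauptmoduln
  over `A₁ = A ∩ K₁`;
* `s36_cn_hcap0_t2`, `s36_cn_hcapi_t2`, `s36_cn_hcap0_t3`, `s36_cn_hcapi_t3` : the cap property
  of the integral-closure charts of level `L' q` with respect to two subrings `V₁`, `V₂` whose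
  intersection is integral over the Gauss ring of level `L'`;
* `s36_cn_ct_cap` : the contract item (cap) of the nodal model of level `N₁ q` (the body of
  `s34_ct_cap`) without the Galois hypothesis.
-/

set_option autoImplicit false
set_option synthInstance.maxHeartbeats 400000
set_option maxHeartbeats 4000000

open ModularCurve ModularCurve.IgusaScheme AlgebraicCurve Fermat.Agent.S28 Polynomial
open Fermat.Agent.S18 Fermat.Agent.S34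

noncomputable section

namespace Fermat.Agent.S36

/-! ### The two-chart structure for the Hauptmoduln -/

section Haupt

variable (N : ℕ) [NeZero N] {ℓ : ℕ} [Fact ℓ.Prime]
  (A : ValuationSubring (AlgebraicClosure ℚ)) (hA : A.LiesOverPrime ℓ)
  (K₁ : IntermediateField ℚ (AlgebraicClosure ℚ)) [NumberField K₁]

include hA in
/-- The S18 two-chart structure for the Hauptmodul `t₂` over `A₁ = A ∩ K₁`, `K₁` any number
field. -/
theorem s36_cn_twoChart_t2 (hℓN : ¬ ℓ ∣ N) (h2 : 2 ∣ N) [IsDiscreteValuationRing (s18_A1 A K₁)]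
    (π : s18_A1 A K₁) (hπ : Irreducible π) :
    s18_TwoChart π (s18_coord K₁ (s18_cz_t2 N h2))
      (s18_chAlg N ℓ (s18_A1 A K₁) (s18_cz_t2 N h2))
      (s18_chAlg N ℓ (s18_A1 A K₁) (s18_cz_t2 N h2)⁻¹) := by
  have hℓ : ((ℓ : K₁))⁻¹ ∉ s18_A1 A K₁ := s18_a1_ell A hA K₁
  haveI : CharZero (s18_A1 A K₁) := s18_a1_charZero A K₁
  have hℓ2 : ℓ ≠ 2 := fun h => hℓN (h ▸ h2)
  have hP := s36_ng_ch_pkg_t2 (K := K₁) (A := s18_A1 A K₁) hℓ hℓN h2 π hπ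
  exact s18_twoChart_of_pkg hπ hP
    (s18_branch_two N h2 hℓ2 A K₁ hℓ hπ _ (s18_coord_mem _))
    (s18_branch_two_inv N h2 hℓ2 A K₁ hℓ hπ _ hP.smInf.t_mem)

include hA in
/-- The S18 two-chart structure for the Hauptmodul `t₃` over `A₁ = A ∩ K₁`, `K₁` any number
field. -/
theorem s36_cn_twoChart_t3 (hℓN : ¬ ℓ ∣ N) (h3 : 3 ∣ N) [IsDiscreteValuationRing (s18_A1 A K₁)]
    (π : s18_A1 A K₁) (hπ : Irreducible π) :
    s18_TwoChart π (s18_coord K₁ (s18_cz_t3 N h3))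
      (s18_chAlg N ℓ (s18_A1 A K₁) (s18_cz_t3 N h3))
      (s18_chAlg N ℓ (s18_A1 A K₁) (s18_cz_t3 N h3)⁻¹) := by
  have hℓ : ((ℓ : K₁))⁻¹ ∉ s18_A1 A K₁ := s18_a1_ell A hA K₁
  haveI : CharZero (s18_A1 A K₁) := s18_a1_charZero A K₁
  have hℓ3 : ℓ ≠ 3 := fun h => hℓN (h ▸ h3)
  have hP := s36_ng_ch_pkg_t3 (K := K₁) (A := s18_A1 A K₁) hℓ hℓN h3 π hπ
  exact s18_twoChart_of_pkg hπ hP
    (s18_branch_three N h3 hℓ3 A K₁ hℓ hπ _ (s18_coord_mem _))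
    (s18_branch_three_inv N h3 hℓ3 A K₁ hℓ hπ _ hP.smInf.t_mem)

end Haupt

/-! ### The cap property of the integral-closure charts of level `L' q` -/

section Model

variable (L' q : ℕ) [NeZero L'] [NeZero q] [Fact q.Prime]
  (A : ValuationSubring (AlgebraicClosure ℚ)) (hA : A.LiesOverPrime q)
  (K₁ : IntermediateField ℚ (AlgebraicClosure ℚ)) [NumberField K₁]

include hA in
/-- The cap property for the chart of `t₂` at level `L' q`, `K₁` any number field. -/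
theorem s36_cn_hcap0_t2 (hqL : ¬ q ∣ L') (h2 : 2 ∣ L') (h2' : 2 ∣ L' * q)
    [IsDiscreteValuationRing (s18_A1 A K₁)] (π : s18_A1 A K₁) (hπ : Irreducible π)
    (V₁ V₂ : Subring (s18_F1 K₁ (L' * q)))
    (ha : ∀ y ∈ V₁, y ∈ V₂ → ∃ P : Polynomial (s34_gi_V (s18_A1 A K₁) L'), P.Monic ∧
      P.eval₂ ((heckeAlphaBar K₁ L' q).toRingHom.comp
        (s34_gi_V (s18_A1 A K₁) L').subtype) y = 0) :
    ∀ x ∈ (s34_ic_chart (s18_A1 A K₁) (s18_coord K₁ (s18_cz_t2 (L' * q) h2'))).toSubring,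
      (algebraMap (s18_A1 A K₁) (s18_F1 K₁ (L' * q)) π)⁻¹ * x ∈ V₁ →
      (algebraMap (s18_A1 A K₁) (s18_F1 K₁ (L' * q)) π)⁻¹ * x ∈ V₂ →
      (algebraMap (s18_A1 A K₁) (s18_F1 K₁ (L' * q)) π)⁻¹ * x ∈
        (s34_ic_chart (s18_A1 A K₁) (s18_coord K₁ (s18_cz_t2 (L' * q) h2'))).toSubring := by
  have hℓ : ((q : K₁))⁻¹ ∉ s18_A1 A K₁ := s18_a1_ell A hA K₁
  have hq2 : q ≠ 2 := fun h => hqL (h ▸ h2)
  have hP := s36_ng_ch_pkg_t2 (K := K₁) (A := s18_A1 A K₁) hℓ hqL h2 π hπ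
  obtain ⟨B, hB⟩ := core L' q hqL
  have hR : s18_ResBasis q (s18_A1 A K₁) π := ⟨hℓ, hπ, s18_ch_resbasis (s18_A1 A K₁) q hℓ π hπ⟩
  have key := s34_ci_cap q hR (s18_cz_coord_t2 L' q h2 hq2) hB
    (s36_cn_twoChart_t2 L' A hA K₁ hqL h2 π hπ).chart0 hP.sm0 V₁ V₂ ha
  rw [s34_lc_incl_coord q (s18_cz_t2 (L' * q) h2') rfl] at key
  exact key

include hA in
/-- The cap property for the chart of `t₂⁻¹` at level `L' q`, `K₁` any number field. -/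
theorem s36_cn_hcapi_t2 (hqL : ¬ q ∣ L') (h2 : 2 ∣ L') (h2' : 2 ∣ L' * q)
    [IsDiscreteValuationRing (s18_A1 A K₁)] (π : s18_A1 A K₁) (hπ : Irreducible π)
    (V₁ V₂ : Subring (s18_F1 K₁ (L' * q)))
    (ha : ∀ y ∈ V₁, y ∈ V₂ → ∃ P : Polynomial (s34_gi_V (s18_A1 A K₁) L'), P.Monic ∧
      P.eval₂ ((heckeAlphaBar K₁ L' q).toRingHom.comp
        (s34_gi_V (s18_A1 A K₁) L').subtype) y = 0) :
    ∀ x ∈ (s34_ic_chart (s18_A1 A K₁) (s18_coord K₁ (s18_cz_t2 (L' * q) h2'))⁻¹).toSubring,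
      (algebraMap (s18_A1 A K₁) (s18_F1 K₁ (L' * q)) π)⁻¹ * x ∈ V₁ →
      (algebraMap (s18_A1 A K₁) (s18_F1 K₁ (L' * q)) π)⁻¹ * x ∈ V₂ →
      (algebraMap (s18_A1 A K₁) (s18_F1 K₁ (L' * q)) π)⁻¹ * x ∈
        (s34_ic_chart (s18_A1 A K₁) (s18_coord K₁ (s18_cz_t2 (L' * q) h2'))⁻¹).toSubring := by
  have hℓ : ((q : K₁))⁻¹ ∉ s18_A1 A K₁ := s18_a1_ell A hA K₁
  have hq2 : q ≠ 2 := fun h => hqL (h ▸ h2)
  have hP := s36_ng_ch_pkg_t2 (K := K₁) (A := s18_A1 A K₁) hℓ hqL h2 π hπ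
  obtain ⟨B, hB⟩ := core L' q hqL
  have hR : s18_ResBasis q (s18_A1 A K₁) π := ⟨hℓ, hπ, s18_ch_resbasis (s18_A1 A K₁) q hℓ π hπ⟩
  have hsm : s18_SmHyp π (s18_coord K₁ (s18_cz_t2 L' h2)⁻¹)
      (s18_chAlg L' q (s18_A1 A K₁) (s18_cz_t2 L' h2)⁻¹) := by
    rw [s18_coord_inv]
    exact hP.smInf
  have key := s34_ci_cap q hR (s18_cz_coord_t2 L' q h2 hq2).inv hB
    (s36_cn_twoChart_t2 L' A hA K₁ hqL h2 π hπ).chartInf hsm V₁ V₂ ha
  rw [s18_coord_inv, map_inv₀, s34_lc_incl_coord q (s18_cz_t2 (L' * q) h2') rfl] at key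
  exact key

include hA in
/-- The cap property for the chart of `t₃` at level `L' q`, `K₁` any number field. -/
theorem s36_cn_hcap0_t3 (hqL : ¬ q ∣ L') (h3 : 3 ∣ L') (h3' : 3 ∣ L' * q)
    [IsDiscreteValuationRing (s18_A1 A K₁)] (π : s18_A1 A K₁) (hπ : Irreducible π)
    (V₁ V₂ : Subring (s18_F1 K₁ (L' * q)))
    (ha : ∀ y ∈ V₁, y ∈ V₂ → ∃ P : Polynomial (s34_gi_V (s18_A1 A K₁) L'), P.Monic ∧
      P.eval₂ ((heckeAlphaBar K₁ L' q).toRingHom.comp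
        (s34_gi_V (s18_A1 A K₁) L').subtype) y = 0) :
    ∀ x ∈ (s34_ic_chart (s18_A1 A K₁) (s18_coord K₁ (s18_cz_t3 (L' * q) h3'))).toSubring,
      (algebraMap (s18_A1 A K₁) (s18_F1 K₁ (L' * q)) π)⁻¹ * x ∈ V₁ →
      (algebraMap (s18_A1 A K₁) (s18_F1 K₁ (L' * q)) π)⁻¹ * x ∈ V₂ →
      (algebraMap (s18_A1 A K₁) (s18_F1 K₁ (L' * q)) π)⁻¹ * x ∈
        (s34_ic_chart (s18_A1 A K₁) (s18_coord K₁ (s18_cz_t3 (L' * q) h3'))).toSubring := by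
  have hℓ : ((q : K₁))⁻¹ ∉ s18_A1 A K₁ := s18_a1_ell A hA K₁
  have hq3 : q ≠ 3 := fun h => hqL (h ▸ h3)
  have hP := s36_ng_ch_pkg_t3 (K := K₁) (A := s18_A1 A K₁) hℓ hqL h3 π hπ
  obtain ⟨B, hB⟩ := core L' q hqL
  have hR : s18_ResBasis q (s18_A1 A K₁) π := ⟨hℓ, hπ, s18_ch_resbasis (s18_A1 A K₁) q hℓ π hπ⟩
  have key := s34_ci_cap q hR (s18_cz_coord_t3 L' q h3 hq3) hB
    (s36_cn_twoChart_t3 L' A hA K₁ hqL h3 π hπ).chart0 hP.sm0 V₁ V₂ ha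
  rw [s34_lc_incl_coord q (s18_cz_t3 (L' * q) h3') rfl] at key
  exact key

include hA in
/-- The cap property for the chart of `t₃⁻¹` at level `L' q`, `K₁` any number field. -/
theorem s36_cn_hcapi_t3 (hqL : ¬ q ∣ L') (h3 : 3 ∣ L') (h3' : 3 ∣ L' * q)
    [IsDiscreteValuationRing (s18_A1 A K₁)] (π : s18_A1 A K₁) (hπ : Irreducible π)
    (V₁ V₂ : Subring (s18_F1 K₁ (L' * q)))
    (ha : ∀ y ∈ V₁, y ∈ V₂ → ∃ P : Polynomial (s34_gi_V (s18_A1 A K₁) L'), P.Monic ∧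
      P.eval₂ ((heckeAlphaBar K₁ L' q).toRingHom.comp
        (s34_gi_V (s18_A1 A K₁) L').subtype) y = 0) :
    ∀ x ∈ (s34_ic_chart (s18_A1 A K₁) (s18_coord K₁ (s18_cz_t3 (L' * q) h3'))⁻¹).toSubring,
      (algebraMap (s18_A1 A K₁) (s18_F1 K₁ (L' * q)) π)⁻¹ * x ∈ V₁ →
      (algebraMap (s18_A1 A K₁) (s18_F1 K₁ (L' * q)) π)⁻¹ * x ∈ V₂ →
      (algebraMap (s18_A1 A K₁) (s18_F1 K₁ (L' * q)) π)⁻¹ * x ∈
        (s34_ic_chart (s18_A1 A K₁) (s18_coord K₁ (s18_cz_t3 (L' * q) h3'))⁻¹).toSubring := by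
  have hℓ : ((q : K₁))⁻¹ ∉ s18_A1 A K₁ := s18_a1_ell A hA K₁
  have hq3 : q ≠ 3 := fun h => hqL (h ▸ h3)
  have hP := s36_ng_ch_pkg_t3 (K := K₁) (A := s18_A1 A K₁) hℓ hqL h3 π hπ
  obtain ⟨B, hB⟩ := core L' q hqL
  have hR : s18_ResBasis q (s18_A1 A K₁) π := ⟨hℓ, hπ, s18_ch_resbasis (s18_A1 A K₁) q hℓ π hπ⟩
  have hsm : s18_SmHyp π (s18_coord K₁ (s18_cz_t3 L' h3)⁻¹)
      (s18_chAlg L' q (s18_A1 A K₁) (s18_cz_t3 L' h3)⁻¹) := by
    rw [s18_coord_inv]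
    exact hP.smInf
  have key := s34_ci_cap q hR (s18_cz_coord_t3 L' q h3 hq3).inv hB
    (s36_cn_twoChart_t3 L' A hA K₁ hqL h3 π hπ).chartInf hsm V₁ V₂ ha
  rw [s18_coord_inv, map_inv₀, s34_lc_incl_coord q (s18_cz_t3 (L' * q) h3') rfl] at key
  exact key

end Model

/-! ### The contract item (cap) of the level-`N₁ q` nodal model, without `IsGalois` -/

/-- **Contract item (cap) over a non-Galois base field**: the statement of `s34_ct_cap` for every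
finite extension `K₁ ⊆ Q̄` of `ℚ`. -/
theorem s36_cn_ct_cap (N₁ q : ℕ) [NeZero N₁] [NeZero (N₁ * q)] [Fact q.Prime] (hqN : ¬ q ∣ N₁)
    (P : ValuationSubring (AlgebraicClosure ℚ)) (hP : P.LiesOverPrime q)
    (K₁ : IntermediateField ℚ (AlgebraicClosure ℚ)) [FiniteDimensional ℚ K₁]
    [IsDiscreteValuationRing (s18_A1 P K₁)] (π : s18_A1 P K₁) (hπ : Irreducible π)
    (tL : modularFunctionFieldFull (N₁ * q)) (htL : s34_md_IsT N₁ q tL)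
    (W : s18_F1 K₁ (N₁ * q) ≃ₐ[K₁] s18_F1 K₁ (N₁ * q))
    (hW : haveI : NeZero q := ⟨(Fact.out : q.Prime).ne_zero⟩
      s34_md_IsSwap K₁ N₁ q W) :
    s34_md_Cap π (s34_md_B0 P K₁ (N₁ * q) tL) (s34_md_V1 P K₁ (N₁ * q))
      (s34_md_V2 P K₁ (N₁ * q) W) ∧
    s34_md_Cap π (s34_md_Binf P K₁ (N₁ * q) tL) (s34_md_V1 P K₁ (N₁ * q))
      (s34_md_V2 P K₁ (N₁ * q) W) := by
  have : NeZero q := ⟨(Fact.out : q.Prime).ne_zero⟩
  have : NumberField K₁ :=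
    { to_charZero := inferInstance, to_finiteDimensional := inferInstance }
  obtain ⟨hWα, hWβ, -, -, -⟩ := hW
  -- the residue characteristic is divisible by the uniformizer
  obtain ⟨c, hc⟩ : ∃ c : s18_A1 P K₁, ((q : ℕ) : s18_A1 P K₁) = π * c := by
    have h1 := s18_ell_mem_maximalIdeal q (s18_A1 P K₁) (s18_a1_ell P hP K₁)
    rw [hπ.maximalIdeal_eq, Ideal.mem_span_singleton'] at h1
    obtain ⟨e, he⟩ := h1
    exact ⟨e, by rw [← he, mul_comm]⟩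
  have hM : 2 ∣ N₁ ∨ 3 ∣ N₁ := by
    rcases htL with ⟨-, h2⟩ | ⟨-, h3⟩
    · exact Or.inl h2
    · exact Or.inr h3
  -- every element of `V₁ ∩ V₂` is integral over the Gauss ring of level `N₁`
  have ha0 := (s34_ei_model_haupt (K := K₁) (A₁ := s18_A1 P K₁) (N := N₁) (ℓ := q) hM hqN hπ c hc
    (W : s18_F1 K₁ (N₁ * q) ≃+* s18_F1 K₁ (N₁ * q)) (W.commutes (π : K₁)) hWα hWβ).1
  have ha : ∀ y ∈ s34_md_V1 P K₁ (N₁ * q), y ∈ s34_md_V2 P K₁ (N₁ * q) W →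
      ∃ Q : Polynomial (s34_gi_V (s18_A1 P K₁) N₁), Q.Monic ∧
        Q.eval₂ ((heckeAlphaBar K₁ N₁ q).toRingHom.comp
          (s34_gi_V (s18_A1 P K₁) N₁).subtype) y = 0 :=
    fun y hy1 hy2 => ha0 y hy1 hy2
  rcases htL with ⟨h, h2⟩ | ⟨h, h3⟩
  · obtain rfl : tL = s18_cz_t2 (N₁ * q) (dvd_mul_of_dvd_left h2 q) := Subtype.ext h
    exact ⟨s36_cn_hcap0_t2 N₁ q P hP K₁ hqN h2 _ π hπ _ _ ha,
      s36_cn_hcapi_t2 N₁ q P hP K₁ hqN h2 _ π hπ _ _ ha⟩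
  · obtain rfl : tL = s18_cz_t3 (N₁ * q) (dvd_mul_of_dvd_left h3 q) := Subtype.ext h
    exact ⟨s36_cn_hcap0_t3 N₁ q P hP K₁ hqN h3 _ π hπ _ _ ha,
      s36_cn_hcapi_t3 N₁ q P hP K₁ hqN h3 _ π hπ _ _ ha⟩

end Fermat.Agent.S36
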