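import Mathlib
import Fermat.Agent.S34.DegK
import Fermat.Agent.S29.HcDeg
import Fermat.Agent.S35.NormModel

/-!
# S36 (NODE-3), leaf (DEG'): degree and norm descent along `α` for ANY degree

`K` a field of constants with `[Algebra ℚ K] [Algebra K Q̄]`, `N`, `ℓ` arbitrary.  The landed
leaves `s34_dg_*` / `s35_nm_*` treat a prime `ℓ ∤ N` (degree `ℓ + 1`).  Here the degree
`d = [Q̄ · F(N ℓ) : Q̄ · F(N)]` is a parameter, so that the case `ℓ ∣ N` (degree `ℓ`; the pair
`(N' q, N' q²)` of NODE-3) is covered.

* `s36_dg_dep` : any `d + 1` elements of `K · F(N M)` are linearly dependent over `K · F(N)`;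
* `s36_dg_incl` : `K · F(N M)` is finite over `K · F(N)` of degree `≤ d`;
* `s36_dg_finrank` : finite of degree EXACTLY `d` along `heckeAlphaBar K N ℓ`;
* `s36_dg_descent`, `s36_dg_nmAlong` : the norm along `α` over `Q̄` of an element defined over `K`
  is the extension of constants of its norm over `K`;
* `s36_dg_bar_dvd` : `d = ℓ` for a prime `ℓ ∣ N`; `s36_dg_finrank_dvd`, `s36_dg_descent_dvd`,
  `s36_dg_nmAlong_dvd` : the specialisations.
-/

set_option autoImplicit false
set_option synthInstance.maxHeartbeats 400000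
set_option linter.unusedSectionVars false
set_option linter.style.haveILetI false

open ModularCurve AlgebraicCurve

noncomputable section

namespace Fermat.Agent.S36

open Fermat.Agent.S18 Fermat.Agent.S34 Fermat.Agent.S35 Fermat.Agent.S37 Fermat.Agent.S29
  Fermat.Agent.S24

local notation "Qb" => AlgebraicClosure ℚ

section Modular

variable (K : Type*) [Field K] [Algebra ℚ K] [Algebra K Qb]

/-- **(DEG'), elementary form**: if `[Q̄ · F(N M) : Q̄ · F(N)] = d`, any `d + 1` elements of
`K · F(N M)` are linearly dependent over `K · F(N)`. -/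
theorem s36_dg_dep (N M : ℕ) [NeZero N] [NeZero (N * M)] (d : ℕ) (hd0 : 0 < d)
    (hd : (modularFunctionFieldBar N).relfinrank (modularFunctionFieldBar (N * M)) = d)
    (x : Fin (d + 1) → LaurentSeries K)
    (hx : ∀ i, x i ∈ laurentBaseChange K (modularFunctionFieldFull (N * M))) :
    ∃ c : Fin (d + 1) → LaurentSeries K,
      (∀ i, c i ∈ laurentBaseChange K (modularFunctionFieldFull N)) ∧ (∃ i, c i ≠ 0) ∧
        ∑ i, c i * x i = 0 := by
  classical
  have hle : modularFunctionFieldBar N ≤ modularFunctionFieldBar (N * M) :=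
    s18_d5_le (Dvd.intro M rfl)
  have hrank := hd
  rw [IntermediateField.relfinrank_eq_finrank_of_le hle] at hrank
  have : Module.Finite ↥(modularFunctionFieldBar N) ↥(IntermediateField.extendScalars hle) := by
    apply Module.finite_of_finrank_pos
    rw [hrank]
    exact hd0
  let y : Fin (d + 1) → ↥(IntermediateField.extendScalars hle) := fun i =>
    ⟨coeffMap (algebraMap K Qb) (x i), s18_coeffMap_mem_bar K (N * M) (hx i)⟩
  have hnli : ¬ LinearIndependent ↥(modularFunctionFieldBar N) y := by
    intro hli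
    have h1 := hli.fintype_card_le_finrank
    rw [hrank, Fintype.card_fin] at h1
    omega
  obtain ⟨g, hg, i₀, hi₀⟩ := Fintype.not_linearIndependent_iff.mp hnli
  refine s34_dg_dep_gen (K := K) (Ω := Qb) (laurentBaseChange K (modularFunctionFieldFull N)) x
    (fun i => ((g i : modularFunctionFieldBar N) : LaurentSeries Qb)) (fun i => ?_) ⟨i₀, ?_⟩ ?_
  · obtain ⟨a, b, ha, hb, hb0, hab⟩ := s18_baseIncl_gen K N (g i)
    have hmap : ∀ z : modularFunctionFieldBar N,
        z ∈ Submodule.span Qb (Set.range (s18_baseIncl K N)) →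
        (z : LaurentSeries Qb) ∈
          s34_dg_span (Ω := Qb) (laurentBaseChange K (modularFunctionFieldFull N)) := by
      intro z hz
      induction hz using Submodule.span_induction with
      | mem z hz =>
        obtain ⟨w, rfl⟩ := hz
        exact Submodule.subset_span ⟨(w : LaurentSeries K), w.2, rfl⟩
      | zero => exact Submodule.zero_mem _
      | add z₁ z₂ _ _ h₁ h₂ => exact Submodule.add_mem _ h₁ h₂
      | smul r z _ hz =>
        have e : ((r • z : modularFunctionFieldBar N) : LaurentSeries Qb) =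
            r • (z : LaurentSeries Qb) := by
          rw [← HahnSeries.C_mul_eq_smul, Algebra.smul_def]
          show algebraMap Qb (LaurentSeries Qb) r * (z : LaurentSeries Qb) = _
          rw [algebraMap_laurentSeries_eq_single]
          rfl
        rw [e]
        exact Submodule.smul_mem _ r hz
    refine ⟨(a : LaurentSeries Qb), (b : LaurentSeries Qb), hmap a ha, hmap b hb, ?_, ?_⟩
    · intro h0
      exact hb0 (Subtype.ext h0)
    · rw [hab]
      rfl
  · intro h0
    exact hi₀ (Subtype.ext h0)
  · have h1 := congrArg (fun z : ↥(IntermediateField.extendScalars hle) =>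
      (z : LaurentSeries Qb)) hg
    simp only [AddSubmonoidClass.coe_finsetSum] at h1
    exact h1

variable (N M : ℕ) [NeZero N] [NeZero (N * M)]

/-- **(DEG'), rank form.** -/
theorem s36_dg_rank_le (d : ℕ) (hd0 : 0 < d)
    (hd : (modularFunctionFieldBar N).relfinrank (modularFunctionFieldBar (N * M)) = d) :
    Module.rank ↥(laurentBaseChange K (modularFunctionFieldFull N))
      ↥(IntermediateField.extendScalars (s34_dg_le K (N := N) (N' := N * M) (Dvd.intro M rfl))) ≤
        ((d : ℕ) : Cardinal) := by
  classical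
  set hle := s34_dg_le K (N := N) (N' := N * M) (Dvd.intro M rfl) with hhle
  apply rank_le
  intro s hli
  by_contra hcard
  push Not at hcard
  have hcard' : d + 1 ≤ s.card := hcard
  let e : Fin (d + 1) → s := fun i => s.equivFin.symm (Fin.castLE hcard' i)
  have he : Function.Injective e := fun i j h =>
    Fin.castLE_injective hcard' (s.equivFin.symm.injective h)
  have hli' : LinearIndependent ↥(laurentBaseChange K (modularFunctionFieldFull N))
      (fun i : Fin (d + 1) => ((e i : s) : ↥(IntermediateField.extendScalars hle))) :=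
    hli.comp e he
  obtain ⟨c, hc, ⟨i₀, hi₀⟩, hrel⟩ := s36_dg_dep K N M d hd0 hd
    (fun i => (((e i : s) : ↥(IntermediateField.extendScalars hle)) : LaurentSeries K))
    (fun i => ((e i : s) : ↥(IntermediateField.extendScalars hle)).2)
  have h1 := Fintype.linearIndependent_iff.mp hli' (fun i => ⟨c i, hc i⟩) (by
    apply Subtype.ext
    simp only [AddSubmonoidClass.coe_finsetSum]
    exact hrel) i₀
  exact hi₀ (congrArg Subtype.val h1)

/-- `K · F(N M)` is finite-dimensional over `K · F(N)`. -/
theorem s36_dg_finite (d : ℕ) (hd0 : 0 < d)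
    (hd : (modularFunctionFieldBar N).relfinrank (modularFunctionFieldBar (N * M)) = d) :
    Module.Finite ↥(laurentBaseChange K (modularFunctionFieldFull N))
      ↥(IntermediateField.extendScalars (s34_dg_le K (N := N) (N' := N * M) (Dvd.intro M rfl))) := by
  rw [← Module.rank_lt_aleph0_iff]
  exact lt_of_le_of_lt (s36_dg_rank_le K N M d hd0 hd) Cardinal.natCast_lt_aleph0

/-- **(DEG'), finrank form.** -/
theorem s36_dg_finrank_le (d : ℕ) (hd0 : 0 < d)
    (hd : (modularFunctionFieldBar N).relfinrank (modularFunctionFieldBar (N * M)) = d) :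
    Module.finrank ↥(laurentBaseChange K (modularFunctionFieldFull N))
      ↥(IntermediateField.extendScalars (s34_dg_le K (N := N) (N' := N * M) (Dvd.intro M rfl))) ≤
        d :=
  Module.finrank_le_of_rank_le (s36_dg_rank_le K N M d hd0 hd)

/-- **(DEG'), for the algebra structure given by the inclusion** `K · F(N) → K · F(N M)`. -/
theorem s36_dg_incl (d : ℕ) (hd0 : 0 < d)
    (hd : (modularFunctionFieldBar N).relfinrank (modularFunctionFieldBar (N * M)) = d) :
    letI := (IntermediateField.inclusion
      (s34_dg_le K (N := N) (N' := N * M) (Dvd.intro M rfl))).toRingHom.toAlgebra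
    Module.Finite ↥(laurentBaseChange K (modularFunctionFieldFull N))
        ↥(laurentBaseChange K (modularFunctionFieldFull (N * M))) ∧
      Module.finrank ↥(laurentBaseChange K (modularFunctionFieldFull N))
        ↥(laurentBaseChange K (modularFunctionFieldFull (N * M))) ≤ d := by
  letI := (IntermediateField.inclusion
    (s34_dg_le K (N := N) (N' := N * M) (Dvd.intro M rfl))).toRingHom.toAlgebra
  let e : ↥(IntermediateField.extendScalars
      (s34_dg_le K (N := N) (N' := N * M) (Dvd.intro M rfl))) ≃ₗ[
      ↥(laurentBaseChange K (modularFunctionFieldFull N))]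
      ↥(laurentBaseChange K (modularFunctionFieldFull (N * M))) :=
    { toFun := fun x => ⟨x.1, x.2⟩
      invFun := fun x => ⟨x.1, x.2⟩
      map_add' := fun _ _ => rfl
      map_smul' := fun _ _ => rfl
      left_inv := fun _ => rfl
      right_inv := fun _ => rfl }
  have hfin := s36_dg_finite K N M d hd0 hd
  exact ⟨Module.Finite.equiv e, by rw [← e.finrank_eq]; exact s36_dg_finrank_le K N M d hd0 hd⟩

end Modular

section Along

variable (K : Type*) [Field K] [Algebra ℚ K] [Algebra K Qb]
variable (N ℓ : ℕ) [NeZero N] [NeZero ℓ]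

/-- The degree along `α` over `Q̄` as a relative rank. -/
theorem s36_dg_relfinrank_of_along (d : ℕ)
    (hd : finrankAlong Qb (heckeAlphaBar Qb N ℓ) = d) :
    (modularFunctionFieldBar N).relfinrank (modularFunctionFieldBar (N * ℓ)) = d := by
  have hle : modularFunctionFieldBar N ≤ modularFunctionFieldBar (N * ℓ) :=
    s18_d5_le (Dvd.intro ℓ rfl)
  rw [heckeAlphaBar_eq_inclusion N ℓ hle, s37_ew_finrankAlong_inclusion hle] at hd
  exact hd

section Exact

variable (d : ℕ) (hd0 : 0 < d) (hd : finrankAlong Qb (heckeAlphaBar Qb N ℓ) = d)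
include hd0 hd

/-- `K · F(N ℓ)` is finite over `α (K · F(N))`, of degree at most `d`. -/
theorem s36_dg_finite_le :
    letI := (heckeAlphaBar K N ℓ).toRingHom.toAlgebra
    Module.Finite (laurentBaseChange K (modularFunctionFieldFull N))
        (laurentBaseChange K (modularFunctionFieldFull (N * ℓ))) ∧
      Module.finrank (laurentBaseChange K (modularFunctionFieldFull N))
        (laurentBaseChange K (modularFunctionFieldFull (N * ℓ))) ≤ d :=
  s36_dg_incl K N ℓ d hd0 (s36_dg_relfinrank_of_along N ℓ d hd)

/-- `Q̄ · F(N ℓ)` is spanned over `α (Q̄ · F(N))` by the image of `K · F(N ℓ)`. -/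
theorem s36_dg_span :
    letI := algebraAlong (heckeAlphaBar Qb N ℓ)
    Submodule.span (modularFunctionFieldBar N) (Set.range (s18_baseIncl K (N * ℓ))) = ⊤ := by
  letI := algebraAlong (heckeAlphaBar Qb N ℓ)
  letI := (heckeAlphaBar K N ℓ).toRingHom.toAlgebra
  haveI : FiniteDimensional (laurentBaseChange K (modularFunctionFieldFull N))
      (laurentBaseChange K (modularFunctionFieldFull (N * ℓ))) :=
    (s36_dg_finite_le K N ℓ d hd0 hd).1
  exact s35_span_of_adjoin (s18_baseIncl K N) (s18_baseIncl K (N * ℓ))
    (fun x => s35_nm_comm K N ℓ x) (s35_nm_gen K N ℓ)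

/-- **Exact degree**: `K · F(N ℓ)` is finite of degree `d` over `α (K · F(N))`. -/
theorem s36_dg_finrank :
    letI := (heckeAlphaBar K N ℓ).toRingHom.toAlgebra
    Module.Finite (laurentBaseChange K (modularFunctionFieldFull N))
        (laurentBaseChange K (modularFunctionFieldFull (N * ℓ))) ∧
      Module.finrank (laurentBaseChange K (modularFunctionFieldFull N))
        (laurentBaseChange K (modularFunctionFieldFull (N * ℓ))) = d := by
  letI := algebraAlong (heckeAlphaBar Qb N ℓ)
  letI := (heckeAlphaBar K N ℓ).toRingHom.toAlgebra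
  obtain ⟨hfd, hle⟩ := s36_dg_finite_le K N ℓ d hd0 hd
  haveI : FiniteDimensional (laurentBaseChange K (modularFunctionFieldFull N))
      (laurentBaseChange K (modularFunctionFieldFull (N * ℓ))) := hfd
  have hbar : Module.finrank (modularFunctionFieldBar N) (modularFunctionFieldBar (N * ℓ)) = d :=
    hd
  have h := (s35_norm_descent (s18_baseIncl K N) (s18_baseIncl K (N * ℓ))
    (fun x => s35_nm_comm K N ℓ x) (s36_dg_span K N ℓ d hd0 hd) (by rw [hbar]; exact hle)).1
  exact ⟨hfd, by rw [← h, hbar]⟩

/-- **Norm descent**: the norm along `α` over `Q̄` of an element defined over `K` is the extension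
of constants of its norm over `K`. -/
theorem s36_dg_descent (x : laurentBaseChange K (modularFunctionFieldFull (N * ℓ))) :
    s29_kh_normAlong (heckeAlphaBar Qb N ℓ) (s18_baseIncl K (N * ℓ) x) =
      s18_baseIncl K N
        (@Algebra.norm (laurentBaseChange K (modularFunctionFieldFull N))
          (laurentBaseChange K (modularFunctionFieldFull (N * ℓ))) _ _
          (heckeAlphaBar K N ℓ).toRingHom.toAlgebra x) := by
  letI := algebraAlong (heckeAlphaBar Qb N ℓ)
  letI := (heckeAlphaBar K N ℓ).toRingHom.toAlgebra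
  obtain ⟨hfd, hle⟩ := s36_dg_finite_le K N ℓ d hd0 hd
  haveI : FiniteDimensional (laurentBaseChange K (modularFunctionFieldFull N))
      (laurentBaseChange K (modularFunctionFieldFull (N * ℓ))) := hfd
  have hbar : Module.finrank (modularFunctionFieldBar N) (modularFunctionFieldBar (N * ℓ)) = d :=
    hd
  exact (s35_norm_descent (s18_baseIncl K N) (s18_baseIncl K (N * ℓ))
    (fun x => s35_nm_comm K N ℓ x) (s36_dg_span K N ℓ d hd0 hd) (by rw [hbar]; exact hle)).2 x

/-- Norm descent for `s35_nmAlong` (norms viewed in the upper field). -/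
theorem s36_dg_nmAlong (x : laurentBaseChange K (modularFunctionFieldFull (N * ℓ))) :
    heckeAlphaBar Qb N ℓ
        (s29_kh_normAlong (heckeAlphaBar Qb N ℓ) (s18_baseIncl K (N * ℓ) x)) =
      s18_baseIncl K (N * ℓ) (s35_nmAlong (heckeAlphaBar K N ℓ).toRingHom x) := by
  rw [s36_dg_descent K N ℓ d hd0 hd x, ← s35_nm_comm]
  rfl

end Exact

section Dvd

variable (hℓ : ℓ.Prime) (hℓN : ℓ ∣ N)
include hℓ hℓN

/-- The degree of `α : Q̄ · F(N) → Q̄ · F(N ℓ)` is `ℓ` for a prime `ℓ ∣ N`. -/
theorem s36_dg_bar_dvd : finrankAlong Qb (heckeAlphaBar Qb N ℓ) = ℓ := by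
  rw [s29_hd_finrank_alpha_prime N ℓ hℓ, if_pos hℓN]

/-- `K · F(N ℓ)` is finite of degree EXACTLY `ℓ` over `α (K · F(N))` for a prime `ℓ ∣ N`. -/
theorem s36_dg_finrank_dvd :
    letI := (heckeAlphaBar K N ℓ).toRingHom.toAlgebra
    Module.Finite (laurentBaseChange K (modularFunctionFieldFull N))
        (laurentBaseChange K (modularFunctionFieldFull (N * ℓ))) ∧
      Module.finrank (laurentBaseChange K (modularFunctionFieldFull N))
        (laurentBaseChange K (modularFunctionFieldFull (N * ℓ))) = ℓ :=
  s36_dg_finrank K N ℓ ℓ hℓ.pos (s36_dg_bar_dvd N ℓ hℓ hℓN)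

theorem s36_dg_descent_dvd (x : laurentBaseChange K (modularFunctionFieldFull (N * ℓ))) :
    s29_kh_normAlong (heckeAlphaBar Qb N ℓ) (s18_baseIncl K (N * ℓ) x) =
      s18_baseIncl K N
        (@Algebra.norm (laurentBaseChange K (modularFunctionFieldFull N))
          (laurentBaseChange K (modularFunctionFieldFull (N * ℓ))) _ _
          (heckeAlphaBar K N ℓ).toRingHom.toAlgebra x) :=
  s36_dg_descent K N ℓ ℓ hℓ.pos (s36_dg_bar_dvd N ℓ hℓ hℓN) x

theorem s36_dg_nmAlong_dvd (x : laurentBaseChange K (modularFunctionFieldFull (N * ℓ))) :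
    heckeAlphaBar Qb N ℓ
        (s29_kh_normAlong (heckeAlphaBar Qb N ℓ) (s18_baseIncl K (N * ℓ) x)) =
      s18_baseIncl K (N * ℓ) (s35_nmAlong (heckeAlphaBar K N ℓ).toRingHom x) :=
  s36_dg_nmAlong K N ℓ ℓ hℓ.pos (s36_dg_bar_dvd N ℓ hℓ hℓN) x

end Dvd

end Along

end Fermat.Agent.S36
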