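import Mathlib
import Fermat.Agent.S34.ExtTwo
import Fermat.Agent.S35.NormRes

/-!
# S36 (NODE-3), leaf (EXT'): extensions of a discrete valuation, ramified / inseparable cases

Clones of NODE-1's `s34_ext_main` for the two situations of level `q²`.

* `s36_ext_ram` : `R` a discrete valuation ring with uniformizer `ϖ`, `F / F'` finite separable of
  degree `≤ n + 1`, `V₁ ≠ V₂` two valuation subrings of `F` dominating `R`, and a non-unit
  `z ≠ 0` of `V₂` with `z ^ n ∣ ϖ` in `V₂` (ramification index `≥ n`).  Then `V₁`, `V₂` are the only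
  valuation rings above `R` (`V₁ ∩ V₂` is integral over `R`), `ϖ` uniformizes `V₁` and
  `κ(V₁) = κ(R)`, `z` uniformizes `V₂`, `ϖ = unit · z ^ n` and `κ(V₂) = κ(R)`.
* `s36_ext_insep` : `F / F'` of degree `≤ q`, `V` dominating `R` whose residue field contains a
  `q`-th root of a non-`q`-th power of `κ(R)`.  Then `V` is the only valuation ring above `R`
  (`V` is integral over `R`) and `ϖ` uniformizes `V`.
* `s36_ei_ram`, `s36_ei_insep` : the subring / two-field forms (rings uniformized in the sense of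
  `s35_Unif`, a field embedding `ι : F'' →+* F`), in the shape of the hypotheses `hint`, `hres` of
  `s36_nr_two_ram` and `hint` of `s36_nr_two_insep`.
-/

set_option autoImplicit false
set_option linter.style.haveILetI false

namespace Fermat.Agent.S36

open IsDedekindDomain Fermat.Agent.S34

/-- Counting, ramified case: `∑ e f ≤ n + 1`, `a ≠ b`, `e b ≥ n`. -/
theorem s36_ext_count_ram {ι : Type*} [DecidableEq ι] (T : Finset ι) (e f : ι → ℕ) (n : ℕ)
    (a b : ι) (ha : a ∈ T) (hb : b ∈ T) (hab : a ≠ b) (he : ∀ i ∈ T, 1 ≤ e i)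
    (hf : ∀ i ∈ T, 1 ≤ f i) (hn : 1 ≤ n) (heb : n ≤ e b)
    (hsum : ∑ i ∈ T, e i * f i ≤ n + 1) :
    e a = 1 ∧ f a = 1 ∧ e b = n ∧ f b = 1 ∧ ∀ i ∈ T, i = a ∨ i = b := by
  have hb' : b ∈ T.erase a := Finset.mem_erase.2 ⟨hab.symm, hb⟩
  rw [← Finset.add_sum_erase T _ ha, ← Finset.add_sum_erase (T.erase a) _ hb'] at hsum
  have h1 : 1 ≤ e a * f a := Nat.mul_pos (he a ha) (hf a ha)
  have h2 : e b ≤ e b * f b := Nat.le_mul_of_pos_right _ (hf b hb)
  have hr0 : ∑ i ∈ (T.erase a).erase b, e i * f i = 0 := by omega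
  have h4 : e a * f a = 1 := by omega
  have h5 : e b * f b = n := by omega
  have h6 : e b = n := by omega
  have h7 : f b = 1 := by
    rw [h6] at h5
    have hfb := hf b hb
    by_contra hne
    have h8 : 2 ≤ f b := by omega
    have h9 : n * 2 ≤ n * f b := Nat.mul_le_mul_left _ h8
    omega
  have h9 : e a = 1 ∧ f a = 1 := by
    have hea := he a ha
    have hfa := hf a ha
    rcases Nat.lt_or_ge 1 (e a) with h | h
    · have : 2 * 1 ≤ e a * f a := Nat.mul_le_mul h hfa
      omega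
    · have hea1 : e a = 1 := le_antisymm h hea
      rw [hea1, one_mul] at h4
      exact ⟨hea1, h4⟩
  refine ⟨h9.1, h9.2, h6, h7, ?_⟩
  intro i hi
  by_contra hcon
  rw [not_or] at hcon
  have hi' : i ∈ (T.erase a).erase b :=
    Finset.mem_erase.2 ⟨hcon.2, Finset.mem_erase.2 ⟨hcon.1, hi⟩⟩
  have h7 := (Finset.sum_eq_zero_iff.1 hr0) i hi'
  have h8 : 1 ≤ e i * f i := Nat.mul_pos (he i hi) (hf i hi)
  omega

/-- Counting, one point: `∑ e f ≤ q`, `f b ≥ q`. -/
theorem s36_ext_count_one {ι : Type*} [DecidableEq ι] (T : Finset ι) (e f : ι → ℕ) (q : ℕ)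
    (b : ι) (hb : b ∈ T) (he : ∀ i ∈ T, 1 ≤ e i) (hf : ∀ i ∈ T, 1 ≤ f i)
    (hq : 1 ≤ q) (hfb : q ≤ f b) (hsum : ∑ i ∈ T, e i * f i ≤ q) :
    e b = 1 ∧ ∀ i ∈ T, i = b := by
  rw [← Finset.add_sum_erase T _ hb] at hsum
  have h2 : q * e b ≤ e b * f b := by
    rw [mul_comm]
    exact Nat.mul_le_mul_left _ hfb
  have h3 : q ≤ q * e b := Nat.le_mul_of_pos_right _ (he b hb)
  have hr0 : ∑ i ∈ T.erase b, e i * f i = 0 := by omega
  have h5 : q * e b ≤ q := by omega
  have h6 : e b ≤ 1 := by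
    by_contra h
    have : q * 2 ≤ q * e b := Nat.mul_le_mul_left _ (by omega)
    omega
  refine ⟨le_antisymm h6 (he b hb), ?_⟩
  intro i hi
  by_contra hcon
  have hi' : i ∈ T.erase b := Finset.mem_erase.2 ⟨hcon, hi⟩
  have h7 := (Finset.sum_eq_zero_iff.1 hr0) i hi'
  have h8 : 1 ≤ e i * f i := Nat.mul_pos (he i hi) (hf i hi)
  omega

/-- An element of valuation `< 1` has valuation `≤ exp (-1)`. -/
theorem s36_ext_val_le_exp {S F : Type*} [CommRing S] [IsDedekindDomain S] [Field F]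
    [Algebra S F] [IsFractionRing S F] (v : HeightOneSpectrum S) (y : F)
    (hy : v.valuation F y < 1) : v.valuation F y ≤ WithZero.exp (-1 : ℤ) := by
  obtain ⟨n, d, hnd⟩ := v.exists_primeCompl_mul_eq_of_integer y hy.le
  have hd : v.valuation F (algebraMap S F (d : S)) = 1 :=
    (HeightOneSpectrum.valuation_eq_one_iff_notMem v).2 d.2
  have h4 : v.valuation F y = v.valuation F (algebraMap S F n) := by
    rw [← hnd, map_mul, hd, mul_one]
  have hn : n ∈ v.asIdeal := by
    rw [← v.valuation_lt_one_iff_mem (K := F), ← h4]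
    exact hy
  rw [h4, HeightOneSpectrum.valuation_of_algebraMap]
  have h5 := (v.intValuation_le_pow_iff_mem n 1).2 (by rwa [pow_one])
  simpa using h5

set_option linter.deprecated false in
/-- The valuation of the uniformizer downstairs is `exp (-e)`. -/
theorem s36_ext_val_ram {R S : Type*} [CommRing R] [CommRing S] [IsDedekindDomain S]
    [Algebra R S] (p : Ideal R) (ϖ : R) (hp : p = Ideal.span {ϖ})
    (hϖ : algebraMap R S ϖ ≠ 0) (v : HeightOneSpectrum S) :
    v.intValuation (algebraMap R S ϖ) =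
      WithZero.exp (-(Ideal.ramificationIdx' p v.asIdeal : ℤ)) := by
  have hmap : Ideal.map (algebraMap R S) p = Ideal.span {algebraMap R S ϖ} := by
    rw [hp, Ideal.map_span, Set.image_singleton]
  have hmap0 : Ideal.map (algebraMap R S) p ≠ ⊥ := by
    rw [hmap, Ne, Ideal.span_singleton_eq_bot]
    exact hϖ
  rw [HeightOneSpectrum.intValuation_eq_exp_neg_multiplicity _ hϖ, ← hmap,
    ← Ideal.IsDedekindDomain.ramificationIdx'_eq_multiplicity hmap0 v.isPrime]

/-- `exp (-1) ^ n = exp (-n)`. -/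
theorem s36_ext_exp_pow (n : ℕ) :
    (WithZero.exp (-1 : ℤ)) ^ n = WithZero.exp (-(n : ℤ)) := by
  rw [← WithZero.exp_nsmul]
  congr 1
  simp

set_option linter.deprecated false in
/-- **Two extensions, one of them ramified.**  `R` a discrete valuation ring with uniformizer `ϖ`
and fraction field `F'`, `F / F'` finite separable of degree `≤ n + 1`, `V₁ ≠ V₂` two valuation
subrings of `F` dominating `R`, and `z ≠ 0` a non-unit of `V₂` with `z ^ n ∣ ϖ` in `V₂`.  Then:

* an element of `V₁ ∩ V₂` is integral over `R`;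
* `ϖ` is a uniformizer of `V₁` and the residue field of `V₁` is that of `R`;
* `z` is a uniformizer of `V₂`, `z ^ n / ϖ ∈ V₂`, and the residue field of `V₂` is that of `R`. -/
theorem s36_ext_ram {R F' F : Type*} [CommRing R] [IsDomain R] [IsDiscreteValuationRing R]
    [Field F'] [Field F] [Algebra R F'] [IsFractionRing R F'] [Algebra F' F] [Algebra R F]
    [IsScalarTower R F' F] [FiniteDimensional F' F] [Algebra.IsSeparable F' F]
    (n : ℕ) (hn : 1 ≤ n) (hdeg : Module.finrank F' F ≤ n + 1)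
    {ϖ : R} (hϖ : Irreducible ϖ)
    (V₁ V₂ : ValuationSubring F) (hne : V₁ ≠ V₂)
    (hR₁ : ∀ r : R, algebraMap R F r ∈ V₁) (hϖ₁ : (algebraMap R F ϖ)⁻¹ ∉ V₁)
    (hR₂ : ∀ r : R, algebraMap R F r ∈ V₂)
    (z : F) (hz0 : z ≠ 0) (hz : V₂.valuation z < 1)
    (hzn : algebraMap R F ϖ * (z ^ n)⁻¹ ∈ V₂) :
    (∀ x : F, x ∈ V₁ → x ∈ V₂ → IsIntegral R x) ∧
    (∀ y : F, V₁.valuation y < 1 → (algebraMap R F ϖ)⁻¹ * y ∈ V₁) ∧
    (∀ y ∈ V₁, ∃ r : R, (algebraMap R F ϖ)⁻¹ * (y - algebraMap R F r) ∈ V₁) ∧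
    (∀ y : F, V₂.valuation y < 1 → z⁻¹ * y ∈ V₂) ∧
    z ^ n * (algebraMap R F ϖ)⁻¹ ∈ V₂ ∧
    (∀ y ∈ V₂, ∃ r : R, z⁻¹ * (y - algebraMap R F r) ∈ V₂) := by
  classical
  have : IsDedekindDomain (integralClosure R F) := integralClosure.isDedekindDomain R F' F
  have : IsFractionRing (integralClosure R F) F :=
    integralClosure.isFractionRing_of_finite_extension F' F
  have : Module.Finite R (integralClosure R F) := IsIntegralClosure.finite R F' F _
  have hinj : Function.Injective (algebraMap R F) := by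
    rw [IsScalarTower.algebraMap_eq R F' F]
    exact (algebraMap F' F).injective.comp (IsFractionRing.injective R F')
  have : FaithfulSMul R F := (faithfulSMul_iff_algebraMap_injective R F).2 hinj
  set p := IsLocalRing.maximalIdeal R with hp
  have hp0 : p ≠ ⊥ := IsDiscreteValuationRing.not_a_field R
  have hϖF0 : algebraMap R F ϖ ≠ 0 := fun h =>
    hϖ.ne_zero (hinj (by rw [h, map_zero]))
  -- `ϖ` is a non-unit of `V₂`
  have hϖ₂lt : V₂.valuation (algebraMap R F ϖ) < 1 := by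
    have h1 : algebraMap R F ϖ = (algebraMap R F ϖ * (z ^ n)⁻¹) * z ^ n := by
      rw [mul_assoc, inv_mul_cancel₀ (pow_ne_zero n hz0), mul_one]
    rw [h1, map_mul, map_pow]
    calc V₂.valuation (algebraMap R F ϖ * (z ^ n)⁻¹) * V₂.valuation z ^ n
        ≤ 1 * V₂.valuation z ^ n := mul_le_mul_left ((V₂.valuation_le_one_iff _).2 hzn) _
      _ < 1 := by
          rw [one_mul]
          exact pow_lt_one₀ zero_le' hz (Nat.one_le_iff_ne_zero.1 hn)
  have hϖ₂ : (algebraMap R F ϖ)⁻¹ ∉ V₂ := by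
    intro h
    rw [← V₂.valuation_le_one_iff, map_inv₀] at h
    have h0 : V₂.valuation (algebraMap R F ϖ) ≠ 0 := (Valuation.ne_zero_iff _).2 hϖF0
    have h2 : 1 ≤ V₂.valuation (algebraMap R F ϖ) := (inv_le_one₀ (zero_lt_iff.2 h0)).1 h
    exact absurd hϖ₂lt (not_lt.2 h2)
  obtain ⟨v₁, hi1, hi2, hi3, hi4⟩ := s34_ext_prime hϖ V₁ hR₁ hϖ₁
  obtain ⟨v₂, hz1, hz2, hz3, hz4⟩ := s34_ext_prime hϖ V₂ hR₂ hϖ₂
  have hvne : v₁.asIdeal ≠ v₂.asIdeal := by
    intro h
    have h' : v₁ = v₂ := HeightOneSpectrum.ext h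
    apply hne
    ext x
    rw [hi2, hz2, h']
  have hT₁ : v₁.asIdeal ∈ IsDedekindDomain.primesOverFinset p (integralClosure R F) :=
    (IsDedekindDomain.mem_primesOverFinset_iff hp0 _).2 ⟨v₁.isPrime, hi4⟩
  have hT₂ : v₂.asIdeal ∈ IsDedekindDomain.primesOverFinset p (integralClosure R F) :=
    (IsDedekindDomain.mem_primesOverFinset_iff hp0 _).2 ⟨v₂.isPrime, hz4⟩
  have hsum := Ideal.sum_ramification_inertia (integralClosure R F) F' F hp0
  have he : ∀ P ∈ IsDedekindDomain.primesOverFinset p (integralClosure R F),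
      1 ≤ Ideal.ramificationIdx' p P := by
    intro P hP
    obtain ⟨hP1, hP2⟩ := (IsDedekindDomain.mem_primesOverFinset_iff hp0 _).1 hP
    exact Nat.one_le_iff_ne_zero.2 (Ideal.IsDedekindDomain.ramificationIdx'_ne_zero_of_liesOver P hp0)
  have hf : ∀ P ∈ IsDedekindDomain.primesOverFinset p (integralClosure R F),
      1 ≤ Ideal.inertiaDeg' p P := by
    intro P hP
    obtain ⟨hP1, hP2⟩ := (IsDedekindDomain.mem_primesOverFinset_iff hp0 _).1 hP
    exact Ideal.inertiaDeg'_pos p P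
  have hϖS0 : algebraMap R (integralClosure R F) ϖ ≠ 0 := by
    intro h
    have h2 := congrArg (algebraMap (integralClosure R F) F) h
    rw [← IsScalarTower.algebraMap_apply, map_zero, ← map_zero (algebraMap R F)] at h2
    exact hϖ.ne_zero (hinj h2)
  -- valuations of `ϖ`
  have hvϖ : ∀ v : HeightOneSpectrum (integralClosure R F),
      v.valuation F (algebraMap R F ϖ)
        = WithZero.exp (-(Ideal.ramificationIdx' p v.asIdeal : ℤ)) := by
    intro v
    rw [IsScalarTower.algebraMap_apply R (integralClosure R F) F,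
      HeightOneSpectrum.valuation_of_algebraMap]
    exact s36_ext_val_ram p ϖ hϖ.maximalIdeal_eq hϖS0 v
  have hzle : v₂.valuation F z ≤ WithZero.exp (-1 : ℤ) :=
    s36_ext_val_le_exp v₂ z ((hz3 z).1 hz)
  have hz20 : v₂.valuation F z ≠ 0 := (Valuation.ne_zero_iff _).2 hz0
  have hϖle : v₂.valuation F (algebraMap R F ϖ) ≤ v₂.valuation F z ^ n := by
    have h1 := (hz2 _).1 hzn
    rw [map_mul, map_inv₀, map_pow] at h1
    have h2 : (0 : WithZero (Multiplicative ℤ)) < v₂.valuation F z ^ n :=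
      zero_lt_iff.2 (pow_ne_zero n hz20)
    calc v₂.valuation F (algebraMap R F ϖ)
        = (v₂.valuation F (algebraMap R F ϖ) * (v₂.valuation F z ^ n)⁻¹)
            * v₂.valuation F z ^ n := by
          rw [mul_assoc, inv_mul_cancel₀ h2.ne', mul_one]
      _ ≤ 1 * v₂.valuation F z ^ n := mul_le_mul_left h1 _
      _ = v₂.valuation F z ^ n := one_mul _
  have hen : n ≤ Ideal.ramificationIdx' p v₂.asIdeal := by
    have h1 : WithZero.exp (-(Ideal.ramificationIdx' p v₂.asIdeal : ℤ))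
        ≤ WithZero.exp (-(n : ℤ)) := by
      rw [← hvϖ v₂, ← s36_ext_exp_pow]
      exact hϖle.trans (pow_le_pow_left₀ zero_le' hzle n)
    rw [WithZero.exp_le_exp] at h1
    omega
  obtain ⟨he₁, hf₁, he₂, hf₂, hall⟩ := s36_ext_count_ram
    (IsDedekindDomain.primesOverFinset p (integralClosure R F))
    (fun P => Ideal.ramificationIdx' p P) (fun P => Ideal.inertiaDeg' p P) n
    v₁.asIdeal v₂.asIdeal hT₁ hT₂ hvne he hf hn hen (hsum.trans_le hdeg)
  have he₂' : Ideal.ramificationIdx' p v₂.asIdeal = n := he₂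
  -- `z` has valuation exactly `exp (-1)`
  have hzeq : v₂.valuation F z = WithZero.exp (-1 : ℤ) := by
    rcases lt_or_eq_of_le hzle with h | h
    · exfalso
      have h1 : v₂.valuation F z ^ n < (WithZero.exp (-1 : ℤ)) ^ n :=
        pow_lt_pow_left₀ h zero_le' (Nat.one_le_iff_ne_zero.1 hn)
      have h2 := hvϖ v₂
      rw [he₂'] at h2
      rw [s36_ext_exp_pow, ← h2] at h1
      exact absurd hϖle (not_le.2 h1)
    · exact h
  have huni₁ : ∀ y : F, V₁.valuation y < 1 → (algebraMap R F ϖ)⁻¹ * y ∈ V₁ := by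
    intro y hy
    rw [hi2, IsScalarTower.algebraMap_apply R (integralClosure R F) F]
    exact s34_ext_unif v₁ _ (s34_ext_val_unif p ϖ hϖ.maximalIdeal_eq hϖS0 v₁ he₁) y
      ((hi3 y).1 hy)
  have huni₂ : ∀ y : F, V₂.valuation y < 1 → z⁻¹ * y ∈ V₂ := by
    intro y hy
    rw [hz2, map_mul, map_inv₀]
    have hyle := s36_ext_val_le_exp v₂ y ((hz3 y).1 hy)
    calc (v₂.valuation F z)⁻¹ * v₂.valuation F y
        ≤ (v₂.valuation F z)⁻¹ * v₂.valuation F z :=
          mul_le_mul_right (hzeq ▸ hyle) _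
      _ = 1 := inv_mul_cancel₀ hz20
  have hres : ∀ (V : ValuationSubring F) (v : HeightOneSpectrum (integralClosure R F)),
      (∀ x : F, x ∈ V ↔ v.valuation F x ≤ 1) →
      (∀ x : F, V.valuation x < 1 ↔ v.valuation F x < 1) →
      v.asIdeal.LiesOver p →
      Ideal.inertiaDeg' p v.asIdeal = 1 →
      ∀ y ∈ V, ∃ r : R, V.valuation (y - algebraMap R F r) < 1 := by
    intro V v h2 h3 hlo hf1 y hy
    have := hlo
    obtain ⟨a, ha⟩ := v.exists_valuation_sub_lt_of_integer ((h2 y).1 hy) 1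
    obtain ⟨r, hr⟩ := s34_ext_inertia_one p v.asIdeal
      (by rw [← Ideal.inertiaDeg'_algebraMap]; exact hf1) a
    refine ⟨r, ?_⟩
    rw [h3]
    have e1 : y - algebraMap R F r
        = algebraMap (integralClosure R F) F (a - algebraMap R (integralClosure R F) r)
          - (algebraMap (integralClosure R F) F a - y) := by
      rw [map_sub, ← IsScalarTower.algebraMap_apply]
      ring
    rw [e1]
    refine lt_of_le_of_lt (Valuation.map_sub _ _ _) (max_lt ?_ ?_)
    · exact (v.valuation_lt_one_iff_mem _).2 hr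
    · simpa using ha
  refine ⟨?_, huni₁, ?_, huni₂, ?_, ?_⟩
  · intro x hx1 hx2
    have hmem : x ∈ (algebraMap (integralClosure R F) F).range := by
      apply HeightOneSpectrum.mem_integers_of_valuation_le_one
      intro v
      have hvT : v.asIdeal ∈ IsDedekindDomain.primesOverFinset p (integralClosure R F) := by
        rw [IsDedekindDomain.mem_primesOverFinset_iff hp0]
        refine ⟨v.isPrime, ⟨?_⟩⟩
        have hmax : (v.asIdeal.under R).IsMaximal :=
          Ideal.isMaximal_comap_of_isIntegral_of_isMaximal v.asIdeal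
        exact (IsLocalRing.eq_maximalIdeal hmax).symm
      rcases hall _ hvT with h | h
      · have h' : v = v₁ := HeightOneSpectrum.ext h
        rw [h']
        exact (hi2 x).1 hx1
      · have h' : v = v₂ := HeightOneSpectrum.ext h
        rw [h']
        exact (hz2 x).1 hx2
    obtain ⟨s, rfl⟩ := hmem
    exact s.2
  · intro y hy
    obtain ⟨r, hr⟩ := hres V₁ v₁ hi2 hi3 hi4 hf₁ y hy
    exact ⟨r, huni₁ _ hr⟩
  · rw [hz2, map_mul, map_inv₀, map_pow, hzeq, s36_ext_exp_pow, hvϖ v₂, he₂',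
      ← WithZero.exp_neg, ← WithZero.exp_add]
    simp
  · intro y hy
    obtain ⟨r, hr⟩ := hres V₂ v₂ hz2 hz3 hz4 hf₂ y hy
    exact ⟨r, huni₂ _ hr⟩

set_option linter.deprecated false in
/-- **One extension, inseparable residue extension.**  `R` a discrete valuation ring with
uniformizer `ϖ` and fraction field `F'`, `F / F'` finite separable of degree `≤ q` (`q` prime),
`V` a valuation subring of `F` dominating `R`, and `θ ∈ V`, `c ∈ R` with `θ ^ q ≡ c` modulo the
maximal ideal of `V` while `c` is not a `q`-th power modulo `ϖ`.  Then: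

* every element of `V` is integral over `R` (`V` is the only valuation ring above `R`);
* `ϖ` is a uniformizer of `V`. -/
theorem s36_ext_insep {R F' F : Type*} [CommRing R] [IsDomain R] [IsDiscreteValuationRing R]
    [Field F'] [Field F] [Algebra R F'] [IsFractionRing R F'] [Algebra F' F] [Algebra R F]
    [IsScalarTower R F' F] [FiniteDimensional F' F] [Algebra.IsSeparable F' F]
    (q : ℕ) (hq : q.Prime) (hdeg : Module.finrank F' F ≤ q)
    {ϖ : R} (hϖ : Irreducible ϖ)
    (V : ValuationSubring F)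
    (hRV : ∀ r : R, algebraMap R F r ∈ V) (hϖV : (algebraMap R F ϖ)⁻¹ ∉ V)
    (θ : F) (c : R) (hθ : θ ∈ V) (hθc : V.valuation (θ ^ q - algebraMap R F c) < 1)
    (hc : ∀ d : R, IsUnit (d ^ q - c)) :
    (∀ x : F, x ∈ V → IsIntegral R x) ∧
    (∀ y : F, V.valuation y < 1 → (algebraMap R F ϖ)⁻¹ * y ∈ V) := by
  classical
  have : IsDedekindDomain (integralClosure R F) := integralClosure.isDedekindDomain R F' F
  have : IsFractionRing (integralClosure R F) F :=
    integralClosure.isFractionRing_of_finite_extension F' F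
  have : Module.Finite R (integralClosure R F) := IsIntegralClosure.finite R F' F _
  have hinj : Function.Injective (algebraMap R F) := by
    rw [IsScalarTower.algebraMap_eq R F' F]
    exact (algebraMap F' F).injective.comp (IsFractionRing.injective R F')
  have : FaithfulSMul R F := (faithfulSMul_iff_algebraMap_injective R F).2 hinj
  set p := IsLocalRing.maximalIdeal R with hp
  have hp0 : p ≠ ⊥ := IsDiscreteValuationRing.not_a_field R
  obtain ⟨v0, hz1, hz2, hz3, hz4⟩ := s34_ext_prime hϖ V hRV hϖV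
  have hT0 : v0.asIdeal ∈ IsDedekindDomain.primesOverFinset p (integralClosure R F) :=
    (IsDedekindDomain.mem_primesOverFinset_iff hp0 _).2 ⟨v0.isPrime, hz4⟩
  have hsum := Ideal.sum_ramification_inertia (integralClosure R F) F' F hp0
  have he : ∀ P ∈ IsDedekindDomain.primesOverFinset p (integralClosure R F),
      1 ≤ Ideal.ramificationIdx' p P := by
    intro P hP
    obtain ⟨hP1, hP2⟩ := (IsDedekindDomain.mem_primesOverFinset_iff hp0 _).1 hP
    exact Nat.one_le_iff_ne_zero.2 (Ideal.IsDedekindDomain.ramificationIdx'_ne_zero_of_liesOver P hp0)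
  have hf : ∀ P ∈ IsDedekindDomain.primesOverFinset p (integralClosure R F),
      1 ≤ Ideal.inertiaDeg' p P := by
    intro P hP
    obtain ⟨hP1, hP2⟩ := (IsDedekindDomain.mem_primesOverFinset_iff hp0 _).1 hP
    exact Ideal.inertiaDeg'_pos p P
  have hf0 : q ≤ Ideal.inertiaDeg' p v0.asIdeal := by
    rw [Ideal.inertiaDeg'_algebraMap]
    obtain ⟨s0, hs0⟩ := v0.exists_valuation_sub_lt_of_integer ((hz2 θ).1 hθ) 1
    refine s34_ext_inertia_ge p v0.asIdeal q hq c s0 ?_ ?_
    · rw [hz1]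
      have hs0V : (s0 : F) ∈ V := s34_ext_mem_of_integral V hRV s0.2
      let a : V := ⟨(s0 : F), hs0V⟩
      let b : V := ⟨θ, hθ⟩
      let c' : V := ⟨algebraMap R F c, hRV c⟩
      have hab : a - b ∈ IsLocalRing.maximalIdeal V := by
        rw [ValuationSubring.valuation_lt_one_iff, hz3]
        simpa using hs0
      have hbc : b ^ q - c' ∈ IsLocalRing.maximalIdeal V := by
        rw [ValuationSubring.valuation_lt_one_iff]
        exact hθc
      have hac : a ^ q - c' ∈ IsLocalRing.maximalIdeal V := by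
        have h1 : a ^ q - c' = (a ^ q - b ^ q) + (b ^ q - c') := by ring
        rw [h1]
        exact Ideal.add_mem _ (Ideal.mem_of_dvd _ (sub_dvd_pow_sub_pow a b q) hab) hbc
      rw [ValuationSubring.valuation_lt_one_iff] at hac
      exact hac
    · intro d hd
      exact (IsLocalRing.mem_maximalIdeal _).1 hd (hc d)
  obtain ⟨he0, hall⟩ := s36_ext_count_one
    (IsDedekindDomain.primesOverFinset p (integralClosure R F))
    (fun P => Ideal.ramificationIdx' p P) (fun P => Ideal.inertiaDeg' p P) q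
    v0.asIdeal hT0 he hf hq.one_le hf0 (hsum.trans_le hdeg)
  have hϖS0 : algebraMap R (integralClosure R F) ϖ ≠ 0 := by
    intro h
    have h2 := congrArg (algebraMap (integralClosure R F) F) h
    rw [← IsScalarTower.algebraMap_apply, map_zero, ← map_zero (algebraMap R F)] at h2
    exact hϖ.ne_zero (hinj h2)
  refine ⟨?_, ?_⟩
  · intro x hx
    have hmem : x ∈ (algebraMap (integralClosure R F) F).range := by
      apply HeightOneSpectrum.mem_integers_of_valuation_le_one
      intro v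
      have hvT : v.asIdeal ∈ IsDedekindDomain.primesOverFinset p (integralClosure R F) := by
        rw [IsDedekindDomain.mem_primesOverFinset_iff hp0]
        refine ⟨v.isPrime, ⟨?_⟩⟩
        have hmax : (v.asIdeal.under R).IsMaximal :=
          Ideal.isMaximal_comap_of_isIntegral_of_isMaximal v.asIdeal
        exact (IsLocalRing.eq_maximalIdeal hmax).symm
      have h' : v = v0 := HeightOneSpectrum.ext (hall _ hvT)
      rw [h']
      exact (hz2 x).1 hx
    obtain ⟨s, rfl⟩ := hmem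
    exact s.2
  · intro y hy
    rw [hz2, IsScalarTower.algebraMap_apply R (integralClosure R F) F]
    exact s34_ext_unif v0 _ (s34_ext_val_unif p ϖ hϖ.maximalIdeal_eq hϖS0 v0 he0) y
      ((hz3 y).1 hy)

section TwoField

open Fermat.Agent.S35

variable {F : Type*} [Field F] {ϖ : F} {V : Subring F}

/-- The valuation subring underlying a uniformized ring. -/
def s36_ei_vs (V : Subring F) (hV : s35_Unif ϖ V) : ValuationSubring F :=
  { V with mem_or_inv_mem' := hV.mem_or_inv_mem }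

theorem s36_ei_mem_vs (hV : s35_Unif ϖ V) (x : F) : x ∈ s36_ei_vs V hV ↔ x ∈ V := Iff.rfl

/-- Divisibility by the uniformizer in terms of the valuation. -/
theorem s36_ei_val_lt (hV : s35_Unif ϖ V) (x : F) (hx : ϖ⁻¹ * x ∈ V) :
    (s36_ei_vs V hV).valuation x < 1 := by
  by_cases hx0 : x = 0
  · rw [hx0, map_zero]
    exact zero_lt_one
  · rw [← not_le]
    intro hle
    have h1 : (s36_ei_vs V hV).valuation x⁻¹ ≤ 1 := by
      rw [map_inv₀]
      exact inv_le_one_of_one_le₀ hle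
    rw [ValuationSubring.valuation_le_one_iff] at h1
    have h2 : x⁻¹ ∈ V := h1
    apply hV.inv_not_mem
    have e : ϖ⁻¹ = ϖ⁻¹ * x * x⁻¹ := by
      rw [mul_assoc, mul_inv_cancel₀ hx0, mul_one]
    rw [e]
    exact V.mul_mem hx h2

/-- An element of a uniformized ring which is not divisible by the uniformizer is a unit. -/
theorem s36_ei_isUnit (hV : s35_Unif ϖ V) (x : V) (hx : ϖ⁻¹ * (x : F) ∉ V) : IsUnit x := by
  have hx0 : (x : F) ≠ 0 := by
    intro h0
    apply hx
    rw [h0, mul_zero]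
    exact V.zero_mem
  rcases hV.dvd_or_inv_mem x.2 hx0 with h | h
  · exact absurd h hx
  · exact s35_Unif.isUnit_of_inv_mem hx0 h

/-- **(EXT'), ramified case, subring / two-field form.**  `V'` a discrete valuation ring of `F''`
with uniformizer `ϖ''`, `ι : F'' →+* F` a finite extension of degree `≤ n + 1` in characteristic
zero, `V₁ ≠ V₂` two discrete valuation rings of `F` containing `ι V'`, with uniformizers `ι ϖ''`
and `z`, where `z ^ n ∣ ι ϖ''` in `V₂`.  Then

* every element of `V₁ ∩ V₂` is integral over `ι V'`;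
* the residue field of `V₁` is that of `V'`;
* `ι ϖ'' = unit * z ^ n` in `V₂`;
* the residue field of `V₂` is that of `V'`. -/
theorem s36_ei_ram {F'' F : Type*} [Field F''] [Field F] [CharZero F''] (ι : F'' →+* F)
    (hfin : letI := ι.toAlgebra; Module.Finite F'' F)
    (n : ℕ) (hn : 1 ≤ n)
    (hdeg : letI := ι.toAlgebra; Module.finrank F'' F ≤ n + 1)
    {ϖ'' : F''} (V' : Subring F'') (hV' : s35_Unif ϖ'' V')
    (V₁ V₂ : Subring F) (hV₁ : s35_Unif (ι ϖ'') V₁) {z : F} (hV₂ : s35_Unif z V₂)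
    (h₁ : ∀ x ∈ V', ι x ∈ V₁) (h₂ : ∀ x ∈ V', ι x ∈ V₂)
    (hne : V₁ ≠ V₂)
    (hzn : ι ϖ'' * (z ^ n)⁻¹ ∈ V₂) :
    (∀ y ∈ V₁, y ∈ V₂ → ∃ P : Polynomial V', P.Monic ∧ P.eval₂ (ι.comp V'.subtype) y = 0) ∧
    (∀ y ∈ V₁, ∃ y' ∈ V', (ι ϖ'')⁻¹ * (y - ι y') ∈ V₁) ∧
    z ^ n * (ι ϖ'')⁻¹ ∈ V₂ ∧
    (∀ y ∈ V₂, ∃ y' ∈ V', z⁻¹ * (y - ι y') ∈ V₂) := by
  letI : Algebra F'' F := ι.toAlgebra
  letI : Algebra V' F := (ι.comp V'.subtype).toAlgebra
  haveI : IsScalarTower V' F'' F := IsScalarTower.of_algebraMap_eq (fun _ => rfl)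
  haveI : IsDiscreteValuationRing V' := hV'.isDVR
  haveI : IsFractionRing V' F'' := hV'.isFractionRing
  haveI : FiniteDimensional F'' F := hfin
  haveI : Algebra.IsSeparable F'' F := inferInstance
  have hzlt : (s36_ei_vs V₂ hV₂).valuation z < 1 := by
    apply s36_ei_val_lt hV₂
    rw [inv_mul_cancel₀ hV₂.ne_zero]
    exact V₂.one_mem
  obtain ⟨ha, -, hb, -, hc, hd⟩ := s36_ext_ram (R := V') (F' := F'') (F := F) n hn hdeg
    (ϖ := ⟨ϖ'', hV'.mem⟩) hV'.irreducible
    (s36_ei_vs V₁ hV₁) (s36_ei_vs V₂ hV₂)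
    (by
      intro h
      apply hne
      ext x
      rw [← s36_ei_mem_vs hV₁, ← s36_ei_mem_vs hV₂, h])
    (fun r => h₁ r r.2) hV₁.inv_not_mem (fun r => h₂ r r.2)
    z hV₂.ne_zero hzlt hzn
  refine ⟨fun y hy1 hy2 => ?_, fun y hy => ?_, hc, fun y hy => ?_⟩
  · obtain ⟨P, hP, hPy⟩ := ha y hy1 hy2
    exact ⟨P, hP, hPy⟩
  · obtain ⟨r, hr⟩ := hb y hy
    exact ⟨r, r.2, hr⟩
  · obtain ⟨r, hr⟩ := hd y hy
    exact ⟨r, r.2, hr⟩

/-- **(EXT'), inseparable case, subring / two-field form.**  `V'` a discrete valuation ring of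
`F''` with uniformizer `ϖ''`, `ι : F'' →+* F` a finite extension of degree `≤ q` in characteristic
zero, `V` a discrete valuation ring of `F` containing `ι V'` in which `ι ϖ''` is not a unit, and
`θ ∈ V`, `c ∈ V'` with `θ ^ q ≡ ι c` modulo the maximal ideal of `V` while `c` is not a `q`-th power
modulo `ϖ'' V'`.  Then every element of `V` is integral over `ι V'`, and `ι ϖ''` is a uniformizer
of `V`. -/
theorem s36_ei_insep {F'' F : Type*} [Field F''] [Field F] [CharZero F''] (ι : F'' →+* F)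
    (hfin : letI := ι.toAlgebra; Module.Finite F'' F)
    (q : ℕ) (hq : q.Prime)
    (hdeg : letI := ι.toAlgebra; Module.finrank F'' F ≤ q)
    {ϖ'' : F''} (V' : Subring F'') (hV' : s35_Unif ϖ'' V')
    (V : Subring F) {z : F} (hV : s35_Unif z V)
    (h₁ : ∀ x ∈ V', ι x ∈ V) (hϖ : (ι ϖ'')⁻¹ ∉ V)
    (θ : F) (c : F'') (hc : c ∈ V') (hθ : θ ∈ V) (hθc : z⁻¹ * (θ ^ q - ι c) ∈ V)
    (hpow : ∀ d ∈ V', ϖ''⁻¹ * (d ^ q - c) ∉ V') :
    (∀ y ∈ V, ∃ P : Polynomial V', P.Monic ∧ P.eval₂ (ι.comp V'.subtype) y = 0) ∧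
    z * (ι ϖ'')⁻¹ ∈ V ∧ s35_Unif (ι ϖ'') V := by
  letI : Algebra F'' F := ι.toAlgebra
  letI : Algebra V' F := (ι.comp V'.subtype).toAlgebra
  haveI : IsScalarTower V' F'' F := IsScalarTower.of_algebraMap_eq (fun _ => rfl)
  haveI : IsDiscreteValuationRing V' := hV'.isDVR
  haveI : IsFractionRing V' F'' := hV'.isFractionRing
  haveI : FiniteDimensional F'' F := hfin
  haveI : Algebra.IsSeparable F'' F := inferInstance
  have hzlt : (s36_ei_vs V hV).valuation z < 1 := by
    apply s36_ei_val_lt hV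
    rw [inv_mul_cancel₀ hV.ne_zero]
    exact V.one_mem
  obtain ⟨ha, hb⟩ := s36_ext_insep (R := V') (F' := F'') (F := F) q hq hdeg
    (ϖ := ⟨ϖ'', hV'.mem⟩) hV'.irreducible
    (s36_ei_vs V hV) (fun r => h₁ r r.2) hϖ
    θ ⟨c, hc⟩ hθ (s36_ei_val_lt hV _ hθc)
    (fun d => s36_ei_isUnit hV' _ (hpow d d.2))
  have hzϖ : z * (ι ϖ'')⁻¹ ∈ V := by
    have := hb z hzlt
    rwa [mul_comm] at this
  have hϖmem : ι ϖ'' ∈ V := h₁ _ hV'.mem
  have hϖ0 : ι ϖ'' ≠ 0 := by
    intro h0
    apply hϖ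
    rw [h0, inv_zero]
    exact V.zero_mem
  have hz0 := hV.ne_zero
  -- `u = ι ϖ'' / z` is a unit of `V`
  have hu : (ι ϖ'' * z⁻¹) ∈ V := by
    rcases hV.dvd_or_inv_mem hϖmem hϖ0 with h | h
    · rwa [mul_comm]
    · exact absurd h hϖ
  refine ⟨fun y hy => ?_, hzϖ, ⟨hϖmem, hϖ, ?_⟩⟩
  · obtain ⟨P, hP, hPy⟩ := ha y hy
    exact ⟨P, hP, hPy⟩
  · intro x hx
    obtain ⟨j, u, hu1, hu2, rfl⟩ := hV.decomp x hx
    refine ⟨j, (z * (ι ϖ'')⁻¹) ^ j * u, ?_, ?_, ?_⟩
    · rcases le_or_gt 0 j with hj | hj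
      · obtain ⟨k, rfl⟩ := Int.eq_ofNat_of_zero_le hj
        rw [zpow_natCast]
        exact V.mul_mem (V.pow_mem hzϖ k) hu1
      · have e : (z * (ι ϖ'')⁻¹) ^ j = (ι ϖ'' * z⁻¹) ^ (-j) := by
          rw [zpow_neg, ← inv_zpow, mul_inv, inv_inv, mul_comm]
        rw [e]
        obtain ⟨k, hk⟩ := Int.eq_ofNat_of_zero_le (show 0 ≤ -j by omega)
        rw [hk, zpow_natCast]
        exact V.mul_mem (V.pow_mem hu k) hu1
    · rw [mul_inv, ← zpow_neg]
      rcases le_or_gt 0 (-j) with hj | hj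
      · obtain ⟨k, hk⟩ := Int.eq_ofNat_of_zero_le hj
        rw [hk, zpow_natCast]
        exact V.mul_mem (V.pow_mem hzϖ k) hu2
      · have e : (z * (ι ϖ'')⁻¹) ^ (-j) = (ι ϖ'' * z⁻¹) ^ j := by
          rw [zpow_neg, ← inv_zpow, mul_inv, inv_inv, mul_comm]
        rw [e]
        obtain ⟨k, hk⟩ := Int.eq_ofNat_of_zero_le (show 0 ≤ j by omega)
        rw [hk, zpow_natCast]
        exact V.mul_mem (V.pow_mem hu k) hu2
    · rw [mul_zpow, inv_zpow, ← mul_assoc, mul_comm (ι ϖ'' ^ j), mul_assoc (z ^ j),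
        inv_mul_cancel₀ (zpow_ne_zero j hϖ0), mul_one]

end TwoField

end Fermat.Agent.S36
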