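import Mathlib
import Fermat.Agent.S34.ExtTwo
import Fermat.Agent.S35.NormRes
import Fermat.Agent.S36.ExtRam

/-!
# S36 (NODE-3), leaf (EXT'), inseparable case: the residue extension is purely inseparable

In the situation of `s36_ext_insep` (degree `≤ q`, the residue field of `V` contains a `q`-th root
of a non-`q`-th power of `κ(R)`) and residue characteristic `q`, the `q`-th power of every element
of `V` is congruent to an element of `R`:  `κ(V) ^ q ⊆ κ(R)`.

* `s36_ext_pow_mem` : the field-theoretic core (a `k`-algebra `L` of dimension `≤ q` in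
  characteristic `q` containing a `q`-th root of a non-`q`-th power of `k` satisfies `L ^ q ⊆ k`);
* `s36_ext_insep_pow` : the statement for a discrete valuation ring `R` and `V` dominating it;
* `s36_ei_insep_pow` : the subring / two-field form (`s35_Unif`, `ι : F'' →+* F`), which is the
  hypothesis `hb'` of `s36_nr_two_insep` for every `h ∈ V`.
-/

set_option autoImplicit false
set_option linter.style.haveILetI false

namespace Fermat.Agent.S36

open IsDedekindDomain Fermat.Agent.S34 Fermat.Agent.S35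

/-- Field-theoretic core: `L ^ q ⊆ k`. -/
theorem s36_ext_pow_mem {k L : Type*} [Field k] [CommRing L] [Nontrivial L] [Algebra k L]
    [Module.Finite k L] (q : ℕ) (hq : q.Prime) (hq0 : (q : L) = 0)
    (hrank : Module.finrank k L ≤ q)
    (c : k) (hc : ∀ d : k, d ^ q ≠ c) (θ : L) (hθ : θ ^ q = algebraMap k L c) (y : L) :
    ∃ a : k, y ^ q = algebraMap k L a := by
  let T : Subalgebra k L :=
    { carrier := {x | ∃ a : k, x ^ q = algebraMap k L a}
      mul_mem' := by
        rintro x y ⟨a, ha⟩ ⟨b, hb⟩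
        exact ⟨a * b, by rw [mul_pow, ha, hb, map_mul]⟩
      add_mem' := by
        rintro x y ⟨a, ha⟩ ⟨b, hb⟩
        obtain ⟨r, hr⟩ := exists_add_pow_prime_eq hq x y
        refine ⟨a + b, ?_⟩
        rw [hr, hq0, ha, hb, map_add]
        ring
      algebraMap_mem' := fun a => ⟨a ^ q, by rw [map_pow]⟩ }
  have hmemT : ∀ x : L, x ∈ T ↔ ∃ a : k, x ^ q = algebraMap k L a := fun x => Iff.rfl
  let θ' : T := ⟨θ, (hmemT θ).2 ⟨c, hθ⟩⟩
  have hirr : Irreducible (Polynomial.X ^ q - Polynomial.C c : Polynomial k) :=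
    X_pow_sub_C_irreducible_of_prime hq (fun b hb => hc b hb)
  have hroot : Polynomial.aeval θ' (Polynomial.X ^ q - Polynomial.C c : Polynomial k) = 0 := by
    rw [map_sub, map_pow, Polynomial.aeval_X, Polynomial.aeval_C]
    apply Subtype.ext
    show θ ^ q - algebraMap k L c = 0
    rw [hθ, sub_self]
  have hmonic : (Polynomial.X ^ q - Polynomial.C c : Polynomial k).Monic :=
    Polynomial.monic_X_pow_sub_C _ hq.ne_zero
  have hmin := minpoly.eq_of_irreducible_of_monic hirr hroot hmonic
  have hdeg : (minpoly k θ').natDegree = q := by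
    rw [← hmin, Polynomial.natDegree_X_pow_sub_C]
  have h1 : q ≤ Module.finrank k T := by
    rw [← hdeg]
    exact minpoly.natDegree_le _
  have h2 : Module.finrank k T ≤ Module.finrank k L := Submodule.finrank_le T.toSubmodule
  have h3 : T.toSubmodule = ⊤ := Submodule.eq_top_of_finrank_eq (le_antisymm h2 (hrank.trans h1))
  have h4 : y ∈ T.toSubmodule := by
    rw [h3]
    exact Submodule.mem_top
  exact (hmemT y).1 h4

set_option linter.deprecated false in
/-- **Inseparable residue extension.**  In the situation of `s36_ext_insep`, if moreover the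
residue characteristic is `q`, then the `q`-th power of every element of `V` is congruent to an
element of `R` modulo the maximal ideal of `V`. -/
theorem s36_ext_insep_pow {R F' F : Type*} [CommRing R] [IsDomain R] [IsDiscreteValuationRing R]
    [Field F'] [Field F] [Algebra R F'] [IsFractionRing R F'] [Algebra F' F] [Algebra R F]
    [IsScalarTower R F' F] [FiniteDimensional F' F] [Algebra.IsSeparable F' F]
    (q : ℕ) (hq : q.Prime) (hdeg : Module.finrank F' F ≤ q)
    {ϖ : R} (hϖ : Irreducible ϖ)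
    (V : ValuationSubring F)
    (hRV : ∀ r : R, algebraMap R F r ∈ V) (hϖV : (algebraMap R F ϖ)⁻¹ ∉ V)
    (θ : F) (c : R) (hθ : θ ∈ V) (hθc : V.valuation (θ ^ q - algebraMap R F c) < 1)
    (hc : ∀ d : R, IsUnit (d ^ q - c))
    (hqR : (q : R) ∈ IsLocalRing.maximalIdeal R) :
    ∀ y ∈ V, ∃ r : R, V.valuation (y ^ q - algebraMap R F r) < 1 := by
  classical
  have : IsDedekindDomain (integralClosure R F) := integralClosure.isDedekindDomain R F' F
  have : IsFractionRing (integralClosure R F) F :=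
    integralClosure.isFractionRing_of_finite_extension F' F
  have : Module.Finite R (integralClosure R F) := IsIntegralClosure.finite R F' F _
  have hinj : Function.Injective (algebraMap R F) := by
    rw [IsScalarTower.algebraMap_eq R F' F]
    exact (algebraMap F' F).injective.comp (IsFractionRing.injective R F')
  have : FaithfulSMul R F := (faithfulSMul_iff_algebraMap_injective R F).2 hinj
  set p := IsLocalRing.maximalIdeal R with hp
  have hp0 : p ≠ ⊥ := IsDiscreteValuationRing.not_a_field R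
  obtain ⟨v0, hz1, hz2, hz3, hz4⟩ := s34_ext_prime hϖ V hRV hϖV
  have hT0 : v0.asIdeal ∈ IsDedekindDomain.primesOverFinset p (integralClosure R F) :=
    (IsDedekindDomain.mem_primesOverFinset_iff hp0 _).2 ⟨v0.isPrime, hz4⟩
  have hsum := Ideal.sum_ramification_inertia (integralClosure R F) F' F hp0
  have he0 : 1 ≤ Ideal.ramificationIdx' p v0.asIdeal :=
    Nat.one_le_iff_ne_zero.2 (Ideal.IsDedekindDomain.ramificationIdx'_ne_zero_of_liesOver _ hp0)
  -- the residue degree is at most `q`
  have hfle : Ideal.inertiaDeg' p v0.asIdeal ≤ q := by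
    have h1 : Ideal.ramificationIdx' p v0.asIdeal * Ideal.inertiaDeg' p v0.asIdeal
        ≤ ∑ P ∈ IsDedekindDomain.primesOverFinset p (integralClosure R F),
          Ideal.ramificationIdx' p P * Ideal.inertiaDeg' p P :=
      Finset.single_le_sum (f := fun P => Ideal.ramificationIdx' p P * Ideal.inertiaDeg' p P)
        (fun _ _ => Nat.zero_le _) hT0
    have h2 : Ideal.inertiaDeg' p v0.asIdeal
        ≤ Ideal.ramificationIdx' p v0.asIdeal * Ideal.inertiaDeg' p v0.asIdeal :=
      Nat.le_mul_of_pos_left _ he0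
    exact h2.trans (h1.trans (hsum.trans_le hdeg))
  rw [Ideal.inertiaDeg'_algebraMap] at hfle
  -- the element `θ` modulo the prime
  obtain ⟨s0, hs0⟩ := v0.exists_valuation_sub_lt_of_integer ((hz2 θ).1 hθ) 1
  have hs0P : s0 ^ q - algebraMap R (integralClosure R F) c ∈ v0.asIdeal := by
    rw [hz1]
    have hs0V : (s0 : F) ∈ V := s34_ext_mem_of_integral V hRV s0.2
    let a : V := ⟨(s0 : F), hs0V⟩
    let b : V := ⟨θ, hθ⟩
    let c' : V := ⟨algebraMap R F c, hRV c⟩
    have hab : a - b ∈ IsLocalRing.maximalIdeal V := by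
      rw [ValuationSubring.valuation_lt_one_iff, hz3]
      simpa using hs0
    have hbc : b ^ q - c' ∈ IsLocalRing.maximalIdeal V := by
      rw [ValuationSubring.valuation_lt_one_iff]
      exact hθc
    have hac : a ^ q - c' ∈ IsLocalRing.maximalIdeal V := by
      have h1 : a ^ q - c' = (a ^ q - b ^ q) + (b ^ q - c') := by ring
      rw [h1]
      exact Ideal.add_mem _ (Ideal.mem_of_dvd _ (sub_dvd_pow_sub_pow a b q) hab) hbc
    rw [ValuationSubring.valuation_lt_one_iff] at hac
    exact hac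
  let _ := Ideal.Quotient.field p
  have hq0 : ((q : ℕ) : integralClosure R F ⧸ v0.asIdeal) = 0 := by
    have h1 : ((q : ℕ) : R ⧸ p) = 0 := by
      rw [← map_natCast (Ideal.Quotient.mk p), Ideal.Quotient.eq_zero_iff_mem]
      exact hqR
    rw [← map_natCast (algebraMap (R ⧸ p) (integralClosure R F ⧸ v0.asIdeal)), h1, map_zero]
  have hθ' : (Ideal.Quotient.mk v0.asIdeal s0) ^ q
      = algebraMap (R ⧸ p) (integralClosure R F ⧸ v0.asIdeal) (Ideal.Quotient.mk p c) := by
    rw [Ideal.Quotient.algebraMap_mk_of_liesOver, ← map_pow, Ideal.Quotient.eq]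
    exact hs0P
  have hc' : ∀ d : R ⧸ p, d ^ q ≠ Ideal.Quotient.mk p c := by
    intro d hd
    obtain ⟨d, rfl⟩ := Ideal.Quotient.mk_surjective d
    rw [← map_pow, Ideal.Quotient.eq] at hd
    exact (IsLocalRing.mem_maximalIdeal _).1 hd (hc d)
  intro y hy
  obtain ⟨a, ha⟩ := v0.exists_valuation_sub_lt_of_integer ((hz2 y).1 hy) 1
  obtain ⟨r', hr'⟩ := s36_ext_pow_mem (k := R ⧸ p) (L := integralClosure R F ⧸ v0.asIdeal)
    q hq hq0 hfle (Ideal.Quotient.mk p c) hc' (Ideal.Quotient.mk v0.asIdeal s0) hθ'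
    (Ideal.Quotient.mk v0.asIdeal a)
  obtain ⟨r, rfl⟩ := Ideal.Quotient.mk_surjective r'
  rw [Ideal.Quotient.algebraMap_mk_of_liesOver, ← map_pow, Ideal.Quotient.eq] at hr'
  refine ⟨r, ?_⟩
  have haV : (a : F) ∈ V := s34_ext_mem_of_integral V hRV a.2
  have h1 : V.valuation ((a : F) ^ q - algebraMap R F r) < 1 := by
    rw [hz3]
    have h5 := (v0.valuation_lt_one_iff_mem (K := F) _).2 hr'
    exact h5
  have h2 : V.valuation (y ^ q - (a : F) ^ q) < 1 := by
    let a' : V := ⟨(a : F), haV⟩
    let y' : V := ⟨y, hy⟩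
    have hab : y' - a' ∈ IsLocalRing.maximalIdeal V := by
      rw [ValuationSubring.valuation_lt_one_iff, hz3]
      have e : ((y' - a' : V) : F) = -((algebraMap (integralClosure R F) F a) - y) := by
        show y - (a : F) = -((a : F) - y)
        ring
      rw [e, Valuation.map_neg]
      simpa using ha
    have h3 : y' ^ q - a' ^ q ∈ IsLocalRing.maximalIdeal V :=
      Ideal.mem_of_dvd _ (sub_dvd_pow_sub_pow y' a' q) hab
    rw [ValuationSubring.valuation_lt_one_iff] at h3
    exact h3
  have e : y ^ q - algebraMap R F r = (y ^ q - (a : F) ^ q) + ((a : F) ^ q - algebraMap R F r) := by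
    ring
  rw [e]
  exact lt_of_le_of_lt (Valuation.map_add _ _ _) (max_lt h2 h1)

/-- **(EXT'), inseparable case with residue characteristic `q`, subring / two-field form.**
`V'` a discrete valuation ring of `F''` with uniformizer `ϖ''` dividing `q`, `ι : F'' →+* F` a
finite extension of degree `≤ q` in characteristic zero, `V` a discrete valuation ring of `F`
containing `ι V'` in which `ι ϖ''` is not a unit, and `θ ∈ V`, `c ∈ V'` with `θ ^ q ≡ ι c` modulo
the maximal ideal of `V` while `c` is not a `q`-th power modulo `ϖ'' V'`.  Then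

* every element of `V` is integral over `ι V'`;
* `ι ϖ''` is a uniformizer of `V`;
* the `q`-th power of every element of `V` is congruent modulo `ι ϖ'' V` to an element of
  `ι V'`. -/
theorem s36_ei_insep_pow {F'' F : Type*} [Field F''] [Field F] [CharZero F''] (ι : F'' →+* F)
    (hfin : letI := ι.toAlgebra; Module.Finite F'' F)
    (q : ℕ) (hq : q.Prime)
    (hdeg : letI := ι.toAlgebra; Module.finrank F'' F ≤ q)
    {ϖ'' : F''} (V' : Subring F'') (hV' : s35_Unif ϖ'' V')
    (V : Subring F) {z : F} (hV : s35_Unif z V)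
    (h₁ : ∀ x ∈ V', ι x ∈ V) (hϖ : (ι ϖ'')⁻¹ ∉ V)
    (hqϖ : ϖ''⁻¹ * (q : F'') ∈ V')
    (θ : F) (c : F'') (hc : c ∈ V') (hθ : θ ∈ V) (hθc : z⁻¹ * (θ ^ q - ι c) ∈ V)
    (hpow : ∀ d ∈ V', ϖ''⁻¹ * (d ^ q - c) ∉ V') :
    (∀ y ∈ V, ∃ P : Polynomial V', P.Monic ∧ P.eval₂ (ι.comp V'.subtype) y = 0) ∧
    s35_Unif (ι ϖ'') V ∧
    (∀ y ∈ V, ∃ b ∈ V', (ι ϖ'')⁻¹ * (y ^ q - ι b) ∈ V) := by
  obtain ⟨hint, -, hunif⟩ := s36_ei_insep ι hfin q hq hdeg V' hV' V hV h₁ hϖ θ c hc hθ hθc hpow
  refine ⟨hint, hunif, ?_⟩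
  letI : Algebra F'' F := ι.toAlgebra
  letI : Algebra V' F := (ι.comp V'.subtype).toAlgebra
  haveI : IsScalarTower V' F'' F := IsScalarTower.of_algebraMap_eq (fun _ => rfl)
  haveI : IsDiscreteValuationRing V' := hV'.isDVR
  haveI : IsFractionRing V' F'' := hV'.isFractionRing
  haveI : FiniteDimensional F'' F := hfin
  haveI : Algebra.IsSeparable F'' F := inferInstance
  have hchar : ((q : ℕ) : V') ∈ IsLocalRing.maximalIdeal V' := by
    rw [hV'.mem_maximalIdeal]
    exact hqϖ
  obtain ⟨-, hb⟩ := s36_ext_insep (R := V') (F' := F'') (F := F) q hq hdeg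
    (ϖ := ⟨ϖ'', hV'.mem⟩) hV'.irreducible
    (s36_ei_vs V hV) (fun r => h₁ r r.2) hϖ
    θ ⟨c, hc⟩ hθ (s36_ei_val_lt hV _ hθc)
    (fun d => s36_ei_isUnit hV' _ (hpow d d.2))
  have hp := s36_ext_insep_pow (R := V') (F' := F'') (F := F) q hq hdeg
    (ϖ := ⟨ϖ'', hV'.mem⟩) hV'.irreducible
    (s36_ei_vs V hV) (fun r => h₁ r r.2) hϖ
    θ ⟨c, hc⟩ hθ (s36_ei_val_lt hV _ hθc)
    (fun d => s36_ei_isUnit hV' _ (hpow d d.2)) hchar
  intro y hy
  obtain ⟨r, hr⟩ := hp y hy
  exact ⟨r, r.2, hb _ hr⟩

end Fermat.Agent.S36
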