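import Mathlib
import Fermat.Agent.S35.NormRes
import Fermat.Agent.S35.NormAlong

/-!
# S36 (NODE-3), leaf (NR'): norm–residue lemmas with ramification

Abstract setting (Mathlib + `s35_Unif` only).  `F / F'` a finite separable extension, `V'` a
discrete valuation ring of `F'` with uniformizer `ϖ`.

* `s36_nr_core_ram` : pure commutative algebra.  `S` finite free of rank `n + 1` over a local ring
  `R`, `P`, `Q` ideals of `S` with `P · Q ⊆ 𝔪 S ⊆ P ≠ S`, `S = R + P`.  If `h ≡ a` mod `P` and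
  `(h - c) ^ N ∈ Q` (`a c : R`), then `Nm h ≡ a * c ^ n` mod `𝔪`.
  (Application: `𝔪 S = P_A · P_C ^ (q - 1)`, `P = P_A`, `Q = P_C ^ (q - 1)`, `n = q - 1`.)
* `s36_nr_core_insep` : `S` finite free of rank `q` over `R` of residue characteristic `q`;
  if `h ^ q ≡ b` mod `𝔪 S` then `Nm h ≡ b` mod `𝔪`.
* `s36_norm_res_ram` : valuation form of the first: two valuation rings `V₁` (uniformizer `ϖ`,
  residue field of `V'`) and `V₂` (any discrete valuation ring, e.g. ramified of index `n`) above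
  `V'` with `V₁ ∩ V₂` integral over `V'`, `[F : F'] = n + 1`:
  `Nm h ≡ a * c ^ n` mod `ϖ V'` if `h ≡ a` mod `ϖ V₁` and `(h - c) ^ N ∈ ϖ V₂`.
* `s36_norm_res_insep` : valuation form of the second: one valuation ring `V` above `V'` with
  uniformizer `ϖ`, integral over `V'`, `[F : F'] = q`: `Nm h ≡ b` mod `ϖ V'` if
  `h ^ q ≡ b` mod `ϖ V`.
* `s36_nr_two_ram`, `s36_nr_two_insep` : the same along a field embedding `ι : F'' →+* F`
  (`s35_nmAlong ι`), conclusion `s35_nmAlong ι h = ι (a * c ^ n + ϖ'' * w)` with `w ∈ V'`.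
* `s36_nr_pow_of_unif` : `h ≡ c` mod `z V₂` and `ϖ ∈ z ^ N V₂` give `(h - c) ^ N ∈ ϖ V₂`.
-/

set_option autoImplicit false

namespace Fermat.Agent.S36

open IsLocalRing Module Fermat.Agent.S35

section Core

variable {R S : Type*} [CommRing R] [CommRing S] [Algebra R S] [IsLocalRing R]
  [Module.Free R S] [Module.Finite R S]

attribute [local instance] Ideal.Quotient.field

theorem s36_nr_core_ram (n : ℕ) (hrank : Module.finrank R S = n + 1)
    (P Q : Ideal S)
    (hPQ : ∀ x ∈ P, ∀ y ∈ Q, x * y ∈ (maximalIdeal R).map (algebraMap R S))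
    (hle : (maximalIdeal R).map (algebraMap R S) ≤ P)
    (hone : (1 : S) ∉ P)
    (hres : ∀ s : S, ∃ r : R, s - algebraMap R S r ∈ P)
    (h : S) (a c : R) (ha : h - algebraMap R S a ∈ P)
    (N : ℕ) (hc : (h - algebraMap R S c) ^ N ∈ Q) :
    Algebra.norm R h - a * c ^ n ∈ maximalIdeal R := by
  classical
  set p := maximalIdeal R with hp
  set pS := p.map (algebraMap R S) with hpS
  let k := R ⧸ p
  let M := S ⧸ pS
  let mkS : S →+* M := Ideal.Quotient.mk pS
  let mkR : R →+* k := Ideal.Quotient.mk p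
  have hmkalg : ∀ r : R, mkS (algebraMap R S r) = algebraMap k M (mkR r) := fun r => rfl
  let W : Submodule k M := (P.map mkS).restrictScalars k
  have hmemW : ∀ x : S, mkS x ∈ W ↔ x ∈ P := by
    intro x
    show mkS x ∈ P.map mkS ↔ x ∈ P
    exact Ideal.mem_quotient_iff_mem hle
  let f : M →ₗ[k] M := Algebra.lmul k M (mkS h)
  have hfW : W ≤ W.comap f := by
    intro m hm
    show mkS h * m ∈ P.map mkS
    exact Ideal.mul_mem_left _ _ hm
  have hfin : Module.Finite k M := Module.Finite.of_restrictScalars_finite R _ _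
  have hrankM : Module.finrank k M = n + 1 := by
    rw [← hrank]; exact finrank_quotient_map
  have hquot1 : Module.finrank k (M ⧸ W) = 1 := by
    rw [finrank_eq_one_iff']
    refine ⟨W.mkQ (mkS 1), ?_, ?_⟩
    · intro h0
      rw [Submodule.mkQ_apply, Submodule.Quotient.mk_eq_zero] at h0
      exact hone ((hmemW 1).mp h0)
    · intro w
      obtain ⟨m, rfl⟩ := W.mkQ_surjective w
      obtain ⟨s, rfl⟩ := Ideal.Quotient.mk_surjective m
      obtain ⟨r, hr⟩ := hres s
      refine ⟨mkR r, ?_⟩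
      rw [← map_smul, ← sub_eq_zero, ← map_sub, Submodule.mkQ_apply,
        Submodule.Quotient.mk_eq_zero]
      have : mkR r • mkS 1 - mkS s = mkS (algebraMap R S r - s) := by
        rw [Algebra.smul_def, ← hmkalg, map_one, mul_one, map_sub]
      rw [this, hmemW]
      have := P.neg_mem hr
      rwa [neg_sub] at this
  have hmapQ : W.mapQ W f hfW = mkR a • LinearMap.id := by
    apply LinearMap.ext
    intro w
    obtain ⟨m, rfl⟩ := W.mkQ_surjective w
    obtain ⟨s, rfl⟩ := Ideal.Quotient.mk_surjective m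
    rw [Submodule.mkQ_apply, Submodule.mapQ_apply, LinearMap.smul_apply, LinearMap.id_apply,
      ← Submodule.Quotient.mk_smul, ← sub_eq_zero, ← Submodule.Quotient.mk_sub,
      Submodule.Quotient.mk_eq_zero]
    have : f (mkS s) - mkR a • mkS s = mkS ((h - algebraMap R S a) * s) := by
      show mkS h * mkS s - mkR a • mkS s = _
      rw [Algebra.smul_def, ← hmkalg, sub_mul, map_sub, map_mul, map_mul]
    rw [this, hmemW]
    exact Ideal.mul_mem_right _ _ ha
  have hdetQ : LinearMap.det (W.mapQ W f hfW) = mkR a := by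
    rw [hmapQ, LinearMap.det_smul, hquot1, pow_one, LinearMap.det_id, mul_one]
  have hrankW : Module.finrank k W = n := by
    have := Submodule.finrank_quotient_add_finrank W
    omega
  have hfW' : ∀ x ∈ W, f x ∈ W := hfW
  -- the nilpotent operator `c - h` on `W`
  let f' : M →ₗ[k] M := Algebra.lmul k M (mkS (algebraMap R S c - h))
  have hf'W : ∀ x ∈ W, f' x ∈ W := by
    intro m hm
    show mkS (algebraMap R S c - h) * m ∈ P.map mkS
    exact Ideal.mul_mem_left _ _ hm
  have hnil : (f'.restrict hf'W) ^ N = 0 := by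
    apply LinearMap.ext
    intro w
    apply Subtype.ext
    rw [Module.End.pow_restrict N, LinearMap.restrict_apply]
    obtain ⟨m, hm⟩ := w
    obtain ⟨x, rfl⟩ := Ideal.Quotient.mk_surjective m
    have hx : x ∈ P := (hmemW x).mp hm
    show (f' ^ N) (mkS x) = 0
    have hfq : f' ^ N = Algebra.lmul k M (mkS ((algebraMap R S c - h) ^ N)) := by
      rw [map_pow, map_pow]
    rw [hfq]
    show mkS ((algebraMap R S c - h) ^ N) * mkS x = 0
    rw [← map_mul]
    apply Ideal.Quotient.eq_zero_iff_mem.mpr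
    have e : (algebraMap R S c - h) ^ N * x = x * ((-1) ^ N * (h - algebraMap R S c) ^ N) := by
      have : algebraMap R S c - h = (-1) * (h - algebraMap R S c) := by ring
      rw [this, mul_pow]; ring
    rw [e]
    exact hPQ x hx _ (Ideal.mul_mem_left _ _ hc)
  have hres_eq : f.restrict hfW' = algebraMap k (Module.End k W) (mkR c) - f'.restrict hf'W := by
    apply LinearMap.ext
    intro w
    apply Subtype.ext
    obtain ⟨m, hm⟩ := w
    show mkS h * m = mkR c • m - mkS (algebraMap R S c - h) * m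
    rw [map_sub, sub_mul, Algebra.smul_def, ← hmkalg]
    ring
  have hdetW : LinearMap.det (f.restrict hfW') = mkR c ^ n := by
    have hnilp : IsNilpotent (f'.restrict hf'W) := ⟨N, hnil⟩
    have hcp := IsNilpotent.charpoly_eq_X_pow_finrank hnilp
    have hev := LinearMap.eval_charpoly (f'.restrict hf'W) (mkR c)
    rw [hcp, Polynomial.eval_pow, Polynomial.eval_X, hrankW] at hev
    rw [hres_eq, ← hev]
  have hdet : LinearMap.det f = mkR c ^ n * mkR a := by
    rw [LinearMap.det_eq_det_mul_det W f hfW, hdetW, hdetQ]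
  have hnorm : Algebra.norm k (mkS h) = mkR (Algebra.norm R h) := s35_norm_quotient_mk h
  rw [Algebra.norm_apply] at hnorm
  have : mkR (Algebra.norm R h) = mkR (a * c ^ n) := by
    rw [← hnorm, map_mul, map_pow, mul_comm]
    exact hdet
  exact Ideal.Quotient.eq.mp this

theorem s36_nr_core_insep (q : ℕ) (hq : q.Prime)
    (hchar : (q : R) ∈ maximalIdeal R) (hrank : Module.finrank R S = q)
    (h : S) (b : R)
    (hb : h ^ q - algebraMap R S b ∈ (maximalIdeal R).map (algebraMap R S)) :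
    Algebra.norm R h - b ∈ maximalIdeal R := by
  classical
  set p := maximalIdeal R with hp
  set pS := p.map (algebraMap R S) with hpS
  let k := R ⧸ p
  let M := S ⧸ pS
  let mkS : S →+* M := Ideal.Quotient.mk pS
  let mkR : R →+* k := Ideal.Quotient.mk p
  have hmkalg : ∀ r : R, mkS (algebraMap R S r) = algebraMap k M (mkR r) := fun r => rfl
  let f : M →ₗ[k] M := Algebra.lmul k M (mkS h)
  have hfin : Module.Finite k M := Module.Finite.of_restrictScalars_finite R _ _
  have hrankM : Module.finrank k M = q := by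
    rw [← hrank]; exact finrank_quotient_map
  have hpow : f ^ q = mkR b • LinearMap.id := by
    have hfq : f ^ q = Algebra.lmul k M (mkS (h ^ q)) := by
      rw [map_pow, map_pow]
    rw [hfq]
    apply LinearMap.ext
    intro m
    show mkS (h ^ q) * m = mkR b • m
    rw [Algebra.smul_def, ← hmkalg]
    have : mkS (h ^ q) = mkS (algebraMap R S b) := by
      rw [← sub_eq_zero, ← map_sub]
      exact Ideal.Quotient.eq_zero_iff_mem.mpr hb
    rw [this]
  have hcharP : CharP k q := by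
    rw [CharP.charP_iff_prime_eq_zero hq]
    have : ((q : R) : k) = 0 := Ideal.Quotient.eq_zero_iff_mem.mpr hchar
    simpa using this
  have : Fact q.Prime := ⟨hq⟩
  have hdet : LinearMap.det f = mkR b := by
    apply frobenius_inj k q
    show LinearMap.det f ^ q = mkR b ^ q
    rw [← map_pow, hpow, LinearMap.det_smul, hrankM, LinearMap.det_id, mul_one]
  have hnorm : Algebra.norm k (mkS h) = mkR (Algebra.norm R h) := s35_norm_quotient_mk h
  rw [Algebra.norm_apply] at hnorm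
  have : mkR (Algebra.norm R h) = mkR b := by
    rw [← hnorm]; exact hdet
  exact Ideal.Quotient.eq.mp this

end Core

section Main

variable {F' F : Type*} [Field F'] [Field F] [Algebra F' F]

/-- Norm–residue with ramification: `V₁` unramified of residue degree one, `V₂` the other
valuation ring above `V'` (arbitrary ramification), `[F : F'] = n + 1`. -/
theorem s36_norm_res_ram [FiniteDimensional F' F] [Algebra.IsSeparable F' F]
    (n : ℕ) (hdeg : Module.finrank F' F = n + 1)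
    (ϖ : F') (V' : Subring F') (V₁ V₂ : Subring F)
    (hV' : s35_Unif ϖ V')
    (hV₁ : s35_Unif (algebraMap F' F ϖ) V₁) (z : F) (hV₂ : s35_Unif z V₂)
    (hle₁ : ∀ x ∈ V', algebraMap F' F x ∈ V₁)
    (hle₂ : ∀ x ∈ V', algebraMap F' F x ∈ V₂)
    (hint : ∀ x : F, x ∈ V₁ → x ∈ V₂ →
      ((algebraMap F' F).comp V'.subtype).IsIntegralElem x)
    (hres : ∀ y ∈ V₁, ∃ y' ∈ V', (algebraMap F' F ϖ)⁻¹ * (y - algebraMap F' F y') ∈ V₁)
    {h : F} (hh₁ : h ∈ V₁) (hh₂ : h ∈ V₂) {a c : F'} (ha : a ∈ V') (hc : c ∈ V')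
    (ha₁ : (algebraMap F' F ϖ)⁻¹ * (h - algebraMap F' F a) ∈ V₁)
    (N : ℕ) (hc₂ : (algebraMap F' F ϖ)⁻¹ * (h - algebraMap F' F c) ^ N ∈ V₂) :
    ϖ⁻¹ * (Algebra.norm F' h - a * c ^ n) ∈ V' := by
  classical
  have hϖ0 : ϖ ≠ 0 := hV'.ne_zero
  have hϖF0 : algebraMap F' F ϖ ≠ 0 := hV₁.ne_zero
  have hdvr : IsDiscreteValuationRing V' := hV'.isDVR
  have hfrac : IsFractionRing V' F' := hV'.isFractionRing
  have halg : algebraMap V' F = (algebraMap F' F).comp V'.subtype := rfl
  have : IsScalarTower V' F' F := IsScalarTower.of_algebraMap_eq (fun x => rfl)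
  let S : Subalgebra V' F := integralClosure V' F
  have hmemS : ∀ x : F, x ∈ S ↔ x ∈ V₁ ∧ x ∈ V₂ := by
    intro x
    constructor
    · intro hx
      exact ⟨hV₁.mem_of_isIntegralElem (algebraMap V' F) (fun r => hle₁ _ r.2) hx,
        hV₂.mem_of_isIntegralElem (algebraMap V' F) (fun r => hle₂ _ r.2) hx⟩
    · rintro ⟨h1, h2⟩
      exact hint x h1 h2
  have hfin : Module.Finite V' S := IsIntegralClosure.finite V' F' F S
  have hfree : Module.Free V' S := IsIntegralClosure.module_free V' F' F S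
  have hrank : Module.finrank V' S = n + 1 := by
    rw [IsIntegralClosure.rank V' F' F S, hdeg]
  have hloc : IsLocalization (Algebra.algebraMapSubmonoid S (nonZeroDivisors V')) F :=
    IsIntegralClosure.isLocalization V' F' F S
  let P : Ideal S :=
    { carrier := {s | (algebraMap F' F ϖ)⁻¹ * (s : F) ∈ V₁}
      add_mem' := fun {x y} hx hy => by
        show (algebraMap F' F ϖ)⁻¹ * ((x : F) + (y : F)) ∈ V₁
        rw [mul_add]; exact V₁.add_mem hx hy
      zero_mem' := by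
        show (algebraMap F' F ϖ)⁻¹ * (0 : F) ∈ V₁
        rw [mul_zero]; exact V₁.zero_mem
      smul_mem' := fun c x hx => by
        show (algebraMap F' F ϖ)⁻¹ * ((c : F) * (x : F)) ∈ V₁
        rw [mul_left_comm]; exact V₁.mul_mem ((hmemS c).mp c.2).1 hx }
  let Q : Ideal S :=
    { carrier := {s | (algebraMap F' F ϖ)⁻¹ * (s : F) ∈ V₂}
      add_mem' := fun {x y} hx hy => by
        show (algebraMap F' F ϖ)⁻¹ * ((x : F) + (y : F)) ∈ V₂
        rw [mul_add]; exact V₂.add_mem hx hy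
      zero_mem' := by
        show (algebraMap F' F ϖ)⁻¹ * (0 : F) ∈ V₂
        rw [mul_zero]; exact V₂.zero_mem
      smul_mem' := fun c x hx => by
        show (algebraMap F' F ϖ)⁻¹ * ((c : F) * (x : F)) ∈ V₂
        rw [mul_left_comm]; exact V₂.mul_mem ((hmemS c).mp c.2).2 hx }
  let π : V' := ⟨ϖ, hV'.mem⟩
  have hπ : π ∈ maximalIdeal V' := by
    rw [hV'.mem_maximalIdeal]
    show ϖ⁻¹ * ϖ ∈ V'
    rw [inv_mul_cancel₀ hϖ0]; exact V'.one_mem
  have hPQ : ∀ x ∈ P, ∀ y ∈ Q, x * y ∈ (maximalIdeal V').map (algebraMap V' S) := by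
    intro x hx y hy
    have h1 : (algebraMap F' F ϖ)⁻¹ * ((x : F) * (y : F)) ∈ V₁ := by
      rw [← mul_assoc]; exact V₁.mul_mem hx ((hmemS y).mp y.2).1
    have h2 : (algebraMap F' F ϖ)⁻¹ * ((x : F) * (y : F)) ∈ V₂ := by
      rw [mul_left_comm]; exact V₂.mul_mem ((hmemS x).mp x.2).2 hy
    let w : S := ⟨(algebraMap F' F ϖ)⁻¹ * ((x : F) * (y : F)), (hmemS _).mpr ⟨h1, h2⟩⟩
    have hxy : x * y = algebraMap V' S π * w := by
      apply Subtype.ext
      show (x : F) * (y : F) = algebraMap F' F ϖ * ((algebraMap F' F ϖ)⁻¹ * ((x : F) * (y : F)))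
      rw [mul_inv_cancel_left₀ hϖF0]
    rw [hxy]
    exact Ideal.mul_mem_right _ _ (Ideal.mem_map_of_mem _ hπ)
  have hle : (maximalIdeal V').map (algebraMap V' S) ≤ P := by
    rw [Ideal.map_le_iff_le_comap]
    intro r hr
    rw [hV'.mem_maximalIdeal] at hr
    show (algebraMap F' F ϖ)⁻¹ * algebraMap F' F (r : F') ∈ V₁
    have e : (algebraMap F' F ϖ)⁻¹ * algebraMap F' F (r : F') =
        algebraMap F' F (ϖ⁻¹ * (r : F')) := by
      rw [map_mul, map_inv₀]
    rw [e]
    exact hle₁ _ hr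
  have hone : (1 : S) ∉ P := by
    intro h1
    apply hV₁.inv_not_mem
    have : (algebraMap F' F ϖ)⁻¹ * (1 : F) ∈ V₁ := h1
    rwa [mul_one] at this
  have hres' : ∀ s : S, ∃ r : V', s - algebraMap V' S r ∈ P := by
    intro s
    obtain ⟨y', hy', hy⟩ := hres (s : F) ((hmemS s).mp s.2).1
    exact ⟨⟨y', hy'⟩, hy⟩
  let hS : S := ⟨h, (hmemS h).mpr ⟨hh₁, hh₂⟩⟩
  have hcore := s36_nr_core_ram (R := V') (S := S) n hrank P Q hPQ hle hone hres'
    hS ⟨a, ha⟩ ⟨c, hc⟩ ha₁ N hc₂
  rw [hV'.mem_maximalIdeal] at hcore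
  have hnorm : Algebra.norm F' h = ((Algebra.norm V' hS : V') : F') :=
    Algebra.norm_localization V' (nonZeroDivisors V') hS
  rw [hnorm]
  exact hcore

/-- Norm–residue, purely inseparable residue extension of degree `q = [F : F']`: one valuation
ring above `V'`, with the same uniformizer. -/
theorem s36_norm_res_insep [FiniteDimensional F' F] [Algebra.IsSeparable F' F]
    (q : ℕ) (hq : q.Prime) (hdeg : Module.finrank F' F = q)
    (ϖ : F') (V' : Subring F') (V : Subring F)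
    (hV' : s35_Unif ϖ V') (hV : s35_Unif (algebraMap F' F ϖ) V)
    (hqϖ : ϖ⁻¹ * (q : F') ∈ V')
    (hle : ∀ x ∈ V', algebraMap F' F x ∈ V)
    (hint : ∀ x : F, x ∈ V → ((algebraMap F' F).comp V'.subtype).IsIntegralElem x)
    {h : F} (hh : h ∈ V) {b : F'} (hb : b ∈ V')
    (hb' : (algebraMap F' F ϖ)⁻¹ * (h ^ q - algebraMap F' F b) ∈ V) :
    ϖ⁻¹ * (Algebra.norm F' h - b) ∈ V' := by
  classical
  have hϖ0 : ϖ ≠ 0 := hV'.ne_zero
  have hϖF0 : algebraMap F' F ϖ ≠ 0 := hV.ne_zero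
  have hdvr : IsDiscreteValuationRing V' := hV'.isDVR
  have hfrac : IsFractionRing V' F' := hV'.isFractionRing
  have halg : algebraMap V' F = (algebraMap F' F).comp V'.subtype := rfl
  have : IsScalarTower V' F' F := IsScalarTower.of_algebraMap_eq (fun x => rfl)
  let S : Subalgebra V' F := integralClosure V' F
  have hmemS : ∀ x : F, x ∈ S ↔ x ∈ V := by
    intro x
    constructor
    · intro hx
      exact hV.mem_of_isIntegralElem (algebraMap V' F) (fun r => hle _ r.2) hx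
    · intro h1
      exact hint x h1
  have hfin : Module.Finite V' S := IsIntegralClosure.finite V' F' F S
  have hfree : Module.Free V' S := IsIntegralClosure.module_free V' F' F S
  have hrank : Module.finrank V' S = q := by
    rw [IsIntegralClosure.rank V' F' F S, hdeg]
  have hloc : IsLocalization (Algebra.algebraMapSubmonoid S (nonZeroDivisors V')) F :=
    IsIntegralClosure.isLocalization V' F' F S
  let π : V' := ⟨ϖ, hV'.mem⟩
  have hπ : π ∈ maximalIdeal V' := by
    rw [hV'.mem_maximalIdeal]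
    show ϖ⁻¹ * ϖ ∈ V'
    rw [inv_mul_cancel₀ hϖ0]; exact V'.one_mem
  have hchar : ((q : ℕ) : V') ∈ maximalIdeal V' := by
    rw [hV'.mem_maximalIdeal]
    exact hqϖ
  let hS : S := ⟨h, (hmemS h).mpr hh⟩
  have hbS : hS ^ q - algebraMap V' S ⟨b, hb⟩ ∈ (maximalIdeal V').map (algebraMap V' S) := by
    let w : S := ⟨(algebraMap F' F ϖ)⁻¹ * (h ^ q - algebraMap F' F b), (hmemS _).mpr hb'⟩
    have hxy : hS ^ q - algebraMap V' S ⟨b, hb⟩ = algebraMap V' S π * w := by
      apply Subtype.ext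
      show h ^ q - algebraMap F' F b =
        algebraMap F' F ϖ * ((algebraMap F' F ϖ)⁻¹ * (h ^ q - algebraMap F' F b))
      rw [mul_inv_cancel_left₀ hϖF0]
    rw [hxy]
    exact Ideal.mul_mem_right _ _ (Ideal.mem_map_of_mem _ hπ)
  have hcore := s36_nr_core_insep (R := V') (S := S) q hq hchar hrank hS ⟨b, hb⟩ hbS
  rw [hV'.mem_maximalIdeal] at hcore
  have hnorm : Algebra.norm F' h = ((Algebra.norm V' hS : V') : F') :=
    Algebra.norm_localization V' (nonZeroDivisors V') hS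
  rw [hnorm]
  exact hcore

end Main

section Along

variable {F'' F : Type*} [Field F''] [Field F]

/-- `h ≡ c` modulo `z V₂` and `z ^ N ∈ ϖ V₂` give `(h - c) ^ N ∈ ϖ V₂`. -/
theorem s36_nr_pow_of_unif (V₂ : Subring F) (ϖ z : F) (hz : z ≠ 0) (h c : F) (N : ℕ)
    (hzN : ϖ⁻¹ * z ^ N ∈ V₂) (hc : z⁻¹ * (h - c) ∈ V₂) :
    ϖ⁻¹ * (h - c) ^ N ∈ V₂ := by
  have e : ϖ⁻¹ * (h - c) ^ N = ϖ⁻¹ * z ^ N * (z⁻¹ * (h - c)) ^ N := by
    rw [mul_pow, inv_pow]
    field_simp
  rw [e]
  exact V₂.mul_mem hzN (V₂.pow_mem hc N)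

/-- Two-field form of `s36_norm_res_ram`. -/
theorem s36_nr_two_ram [CharZero F''] (ι : F'' →+* F) (n : ℕ)
    (hfin : letI := ι.toAlgebra; Module.Finite F'' F ∧ Module.finrank F'' F = n + 1)
    {ϖ'' : F''} {V' : Subring F''} (hV' : s35_Unif ϖ'' V')
    {V₁ V₂ : Subring F} (hV₁ : s35_Unif (ι ϖ'') V₁) {z : F} (hV₂ : s35_Unif z V₂)
    (hι₁ : ∀ x ∈ V', ι x ∈ V₁) (hι₂ : ∀ x ∈ V', ι x ∈ V₂)
    (hint : ∀ y ∈ V₁, y ∈ V₂ →
      ∃ P : Polynomial V', P.Monic ∧ P.eval₂ (ι.comp V'.subtype) y = 0)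
    (hres : ∀ y ∈ V₁, ∃ y' ∈ V', (ι ϖ'')⁻¹ * (y - ι y') ∈ V₁)
    {h : F} (hh₁ : h ∈ V₁) (hh₂ : h ∈ V₂) {a c : F''} (ha : a ∈ V') (hc : c ∈ V')
    (ha₁ : (ι ϖ'')⁻¹ * (h - ι a) ∈ V₁)
    (N : ℕ) (hc₂ : (ι ϖ'')⁻¹ * (h - ι c) ^ N ∈ V₂) :
    ∃ w ∈ V', s35_nmAlong ι h = ι (a * c ^ n + ϖ'' * w) := by
  let _ : Algebra F'' F := ι.toAlgebra
  obtain ⟨hfd, hdeg⟩ := hfin
  have : FiniteDimensional F'' F := hfd
  have key := s36_norm_res_ram (F' := F'') (F := F) n hdeg ϖ'' V' V₁ V₂ hV' hV₁ z hV₂ hι₁ hι₂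
    (fun y h1 h2 => hint y h1 h2) hres hh₁ hh₂ ha hc ha₁ N hc₂
  refine ⟨_, key, ?_⟩
  rw [s35_nmAlong_eq]
  congr 1
  rw [mul_inv_cancel_left₀ hV'.ne_zero]
  ring

/-- Two-field form of `s36_norm_res_insep`. -/
theorem s36_nr_two_insep [CharZero F''] (ι : F'' →+* F) (q : ℕ) (hq : q.Prime)
    (hfin : letI := ι.toAlgebra; Module.Finite F'' F ∧ Module.finrank F'' F = q)
    {ϖ'' : F''} {V' : Subring F''} (hV' : s35_Unif ϖ'' V')
    {V : Subring F} (hV : s35_Unif (ι ϖ'') V)
    (hqϖ : ϖ''⁻¹ * (q : F'') ∈ V')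
    (hι : ∀ x ∈ V', ι x ∈ V)
    (hint : ∀ y ∈ V, ∃ P : Polynomial V', P.Monic ∧ P.eval₂ (ι.comp V'.subtype) y = 0)
    {h : F} (hh : h ∈ V) {b : F''} (hb : b ∈ V')
    (hb' : (ι ϖ'')⁻¹ * (h ^ q - ι b) ∈ V) :
    ∃ w ∈ V', s35_nmAlong ι h = ι (b + ϖ'' * w) := by
  let _ : Algebra F'' F := ι.toAlgebra
  obtain ⟨hfd, hdeg⟩ := hfin
  have : FiniteDimensional F'' F := hfd
  have key := s36_norm_res_insep (F' := F'') (F := F) q hq hdeg ϖ'' V' V hV' hV hqϖ hι
    (fun y h1 => hint y h1) hh hb hb'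
  refine ⟨_, key, ?_⟩
  rw [s35_nmAlong_eq]
  congr 1
  rw [mul_inv_cancel_left₀ hV'.ne_zero]
  ring

end Along

end Fermat.Agent.S36
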