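import Mathlib
import Fermat.Agent.S35.NormRes
import Fermat.Agent.S35.NormAlong
import Fermat.Agent.S36.NormResRam
import Fermat.Agent.S36.ExtRam
import Fermat.Agent.S36.ExtInsepPow

/-!
# S36 (NODE-3), contract item (c-EXT), abstract packages

The (EXT') data and the norm–residue congruences along a degree-`q` map `ι : F'' →+* F`, from the
minimal valuation-theoretic inputs.

* `s36_nrp_ram` (`V_A`, `V_C` over `V'_∞`; `n = q - 1`): from `V₁ ≠ V₂`, `ι ϖ''` a uniformizer of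
  `V₁`, `z` a uniformizer of `V₂` with `z ^ n ∣ ι ϖ''`, and `[F : ι F''] = n + 1`:
  `V₁ ⊓ V₂` is integral over `ι V'`, `κ(V₁) = κ(V₂) = κ(V')`, `ι ϖ'' = unit * z ^ n` in `V₂`, and
  `Nm h ≡ a * c ^ n` modulo `ϖ'' V'` when `h ≡ ι a` modulo `ι ϖ'' V₁` and `h ≡ ι c` modulo `z V₂`.
* `s36_nrp_insep` (`V_B` over `V'_0`): from `[F : ι F''] = q`, residue characteristic `q`, and one
  `θ ∈ V` with `θ ^ q ≡ ι c`, `c` not a `q`-th power modulo `ϖ'' V'`: `V` is integral over `ι V'`,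
  `ι ϖ''` is a uniformizer of `V`, every `h ∈ V` has `h ^ q ≡ ι b` modulo `ι ϖ'' V` for some
  `b ∈ V'`, and then `Nm h ≡ b` modulo `ϖ'' V'`.
-/

set_option autoImplicit false
set_option linter.style.haveILetI false

namespace Fermat.Agent.S36

open Fermat.Agent.S35

variable {F'' F : Type*} [Field F''] [Field F]

/-- **(c-EXT), ramified package.** -/
theorem s36_nrp_ram [CharZero F''] (ι : F'' →+* F) (n : ℕ) (hn : 1 ≤ n)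
    (hfin : letI := ι.toAlgebra; Module.Finite F'' F ∧ Module.finrank F'' F = n + 1)
    {ϖ'' : F''} {V' : Subring F''} (hV' : s35_Unif ϖ'' V')
    {V₁ V₂ : Subring F} (hV₁ : s35_Unif (ι ϖ'') V₁) {z : F} (hV₂ : s35_Unif z V₂)
    (hι₁ : ∀ x ∈ V', ι x ∈ V₁) (hι₂ : ∀ x ∈ V', ι x ∈ V₂)
    (hne : V₁ ≠ V₂) (hzn : ι ϖ'' * (z ^ n)⁻¹ ∈ V₂) :
    (∀ y ∈ V₁, y ∈ V₂ → ∃ P : Polynomial V', P.Monic ∧ P.eval₂ (ι.comp V'.subtype) y = 0) ∧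
    (∀ y ∈ V₁, ∃ y' ∈ V', (ι ϖ'')⁻¹ * (y - ι y') ∈ V₁) ∧
    z ^ n * (ι ϖ'')⁻¹ ∈ V₂ ∧
    (∀ y ∈ V₂, ∃ y' ∈ V', z⁻¹ * (y - ι y') ∈ V₂) ∧
    (∀ h ∈ V₁, h ∈ V₂ → ∀ a ∈ V', ∀ c ∈ V',
      (ι ϖ'')⁻¹ * (h - ι a) ∈ V₁ → z⁻¹ * (h - ι c) ∈ V₂ →
      ∃ w ∈ V', s35_nmAlong ι h = ι (a * c ^ n + ϖ'' * w)) ∧
    (∀ h ∈ V₁, h ∈ V₂ → ∃ a ∈ V', ∃ c ∈ V', ∃ w ∈ V',
      (ι ϖ'')⁻¹ * (h - ι a) ∈ V₁ ∧ z⁻¹ * (h - ι c) ∈ V₂ ∧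
      s35_nmAlong ι h = ι (a * c ^ n + ϖ'' * w)) := by
  obtain ⟨hint, hres₁, hzn', hres₂⟩ := s36_ei_ram ι hfin.1 n hn (le_of_eq hfin.2) V' hV' V₁ V₂
    hV₁ hV₂ hι₁ hι₂ hne hzn
  have hzN : (ι ϖ'')⁻¹ * z ^ n ∈ V₂ := by rwa [mul_comm]
  have key : ∀ h ∈ V₁, h ∈ V₂ → ∀ a ∈ V', ∀ c ∈ V',
      (ι ϖ'')⁻¹ * (h - ι a) ∈ V₁ → z⁻¹ * (h - ι c) ∈ V₂ →
      ∃ w ∈ V', s35_nmAlong ι h = ι (a * c ^ n + ϖ'' * w) := by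
    intro h hh₁ hh₂ a ha c hc ha₁ hc₂
    exact s36_nr_two_ram ι n hfin hV' hV₁ hV₂ hι₁ hι₂ hint hres₁ hh₁ hh₂ ha hc ha₁ n
      (s36_nr_pow_of_unif V₂ (ι ϖ'') z hV₂.ne_zero h (ι c) n hzN hc₂)
  refine ⟨hint, hres₁, hzn', hres₂, key, ?_⟩
  intro h hh₁ hh₂
  obtain ⟨a, ha, ha₁⟩ := hres₁ h hh₁
  obtain ⟨c, hc, hc₂⟩ := hres₂ h hh₂
  obtain ⟨w, hw, hnm⟩ := key h hh₁ hh₂ a ha c hc ha₁ hc₂
  exact ⟨a, ha, c, hc, w, hw, ha₁, hc₂, hnm⟩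

/-- **(c-EXT), inseparable package.** -/
theorem s36_nrp_insep [CharZero F''] (ι : F'' →+* F) (q : ℕ) (hq : q.Prime)
    (hfin : letI := ι.toAlgebra; Module.Finite F'' F ∧ Module.finrank F'' F = q)
    {ϖ'' : F''} {V' : Subring F''} (hV' : s35_Unif ϖ'' V')
    {V : Subring F} {z : F} (hV : s35_Unif z V)
    (hι : ∀ x ∈ V', ι x ∈ V) (hϖ : (ι ϖ'')⁻¹ ∉ V)
    (hqϖ : ϖ''⁻¹ * (q : F'') ∈ V')
    (θ : F) (c : F'') (hc : c ∈ V') (hθ : θ ∈ V) (hθc : z⁻¹ * (θ ^ q - ι c) ∈ V)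
    (hpow : ∀ d ∈ V', ϖ''⁻¹ * (d ^ q - c) ∉ V') :
    s35_Unif (ι ϖ'') V ∧
    (∀ y ∈ V, ∃ P : Polynomial V', P.Monic ∧ P.eval₂ (ι.comp V'.subtype) y = 0) ∧
    (∀ h ∈ V, ∀ b ∈ V', (ι ϖ'')⁻¹ * (h ^ q - ι b) ∈ V →
      ∃ w ∈ V', s35_nmAlong ι h = ι (b + ϖ'' * w)) ∧
    (∀ h ∈ V, ∃ b ∈ V', ∃ w ∈ V', (ι ϖ'')⁻¹ * (h ^ q - ι b) ∈ V ∧
      s35_nmAlong ι h = ι (b + ϖ'' * w)) := by
  obtain ⟨hint, hunif, hpw⟩ := s36_ei_insep_pow ι hfin.1 q hq (le_of_eq hfin.2) V' hV' V hV hι hϖ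
    hqϖ θ c hc hθ hθc hpow
  have key : ∀ h ∈ V, ∀ b ∈ V', (ι ϖ'')⁻¹ * (h ^ q - ι b) ∈ V →
      ∃ w ∈ V', s35_nmAlong ι h = ι (b + ϖ'' * w) := by
    intro h hh b hb hb'
    exact s36_nr_two_insep ι q hq hfin hV' hunif hqϖ hι hint hh hb hb'
  refine ⟨hunif, hint, key, ?_⟩
  intro h hh
  obtain ⟨b, hb, hb'⟩ := hpw h hh
  obtain ⟨w, hw, hnm⟩ := key h hh b hb hb'
  exact ⟨b, hb, w, hw, hb', hnm⟩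

end Fermat.Agent.S36
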