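import Mathlib
import Fermat.Prelude.Def_ModularCurve_HeckeOperator
import Fermat.Agent.S34.GaussInf
import Fermat.Agent.S34.GaussZero
import Fermat.Agent.S34.GaussZeroModel
import Fermat.Agent.S36.DegSq
import Fermat.Agent.S36.NrPkg

/-!
# S36 (NODE-3), contract item (c-EXT): the (EXT') data and norm–residue congruences in the model

Setting: `K` a field of constants (`[Algebra ℚ K] [Algebra K Q̄]`, no Galois hypothesis) with a
discrete valuation ring `A₁` (uniformizer `π`, `ℓ = π c`), `N` a level divisible by the prime `ℓ`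
(`N = N₁ ℓ` in the application), `F' = K · F(N)`, `FF = K · F(N ℓ)`, `α = heckeAlphaBar K N ℓ`
(of degree `ℓ`, `s36_dg_finrank_dvd`), `β = heckeBetaBar K N ℓ`, `V'∞ = s34_gi_V A₁ N`,
`V_A = s34_gi_V A₁ (N ℓ)`.

* `s36_nm_B` : for automorphisms `w` of `F'` and `W` of `FF` fixing `π` with `W ∘ α = β ∘ w`
  (the level-`ℓ` swap and the swap of the pair `(N₁, ℓ²)`), `V'₀ := V'∞.comap w`,
  `V_B := V_A.comap W`, and one `x ∈ F'` with an integral `q`-expansion of leading term `q⁻¹`: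
  `V_B` is integral over `α V'₀`, every `h ∈ V_B` has `h ^ ℓ ≡ α b` modulo `π V_B` with `b ∈ V'₀`,
  and then `Nm_α h ≡ b` modulo `π V'₀`.
* `s36_nm_AC` : for a subring `V_C` of `FF` which is a discrete valuation ring with uniformizer
  `z`, `z ^ (ℓ - 1) ∣ π` in `V_C`, `α V'∞ ⊆ V_C`, `V_A ≠ V_C`: `V_A ⊓ V_C` is integral over
  `α V'∞`, `κ(V_A) = κ(V_C) = κ(V'∞)`, `π = unit * z ^ (ℓ - 1)` in `V_C`, and
  `Nm_α h ≡ a * c ^ (ℓ - 1)` modulo `π V'∞` when `h ≡ α a` modulo `π V_A`, `h ≡ α c` modulo `z V_C`.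
-/

set_option autoImplicit false
set_option linter.unusedSectionVars false
set_option linter.style.haveILetI false

open ModularCurve

noncomputable section

namespace Fermat.Agent.S36

open Fermat.Agent.S18 Fermat.Agent.S34 Fermat.Agent.S35

section Model

variable {K : Type*} [Field K] [Algebra ℚ K] [Algebra K (AlgebraicClosure ℚ)]
variable {A₁ : ValuationSubring K}
variable {N ℓ : ℕ} [NeZero N] [NeZero ℓ] [NeZero (N * ℓ)]
variable [IsDiscreteValuationRing A₁] {π : A₁}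

local notation "F'" => laurentBaseChange K (modularFunctionFieldFull N)
local notation "FF" => laurentBaseChange K (modularFunctionFieldFull (N * ℓ))

/-- `α` commutes with the constants. -/
theorem s36_nm_alpha_pi :
    (heckeAlphaBar K N ℓ).toRingHom (algebraMap K F' (π : K)) = algebraMap K FF (π : K) :=
  (heckeAlphaBar K N ℓ).commutes (π : K)

/-- The Gauss ring at level `N`, in the `s35_Unif` vocabulary. -/
theorem s36_nm_unif (M : ℕ) [NeZero M] (hπ : Irreducible π) :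
    s35_Unif (algebraMap K (laurentBaseChange K (modularFunctionFieldFull M)) (π : K))
      (s34_gi_V A₁ M) := by
  have h := s34_gi_unif (A₁ := A₁) (N := M) hπ
  exact ⟨h.mem, h.inv_not_mem, h.decomp⟩

/-- The swapped Gauss ring, in the `s35_Unif` vocabulary. -/
theorem s36_nm_unif_comap (M : ℕ) [NeZero M] (hπ : Irreducible π)
    (W : laurentBaseChange K (modularFunctionFieldFull M) ≃+*
      laurentBaseChange K (modularFunctionFieldFull M))
    (hWϖ : W (algebraMap K _ (π : K)) = algebraMap K _ (π : K)) :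
    s35_Unif (algebraMap K (laurentBaseChange K (modularFunctionFieldFull M)) (π : K))
      ((s34_gi_V A₁ M).comap (W : _ →+* _)) := by
  have h := (s34_gi_unif (A₁ := A₁) (N := M) hπ).comap W hWϖ
  exact ⟨h.mem, h.inv_not_mem, h.decomp⟩

/-- The residue characteristic: `π⁻¹ * ℓ` lies in the Gauss ring. -/
theorem s36_nm_char (M : ℕ) [NeZero M] (hπ : Irreducible π) (c : A₁) (hℓ : (ℓ : A₁) = π * c) :
    (algebraMap K (laurentBaseChange K (modularFunctionFieldFull M)) (π : K))⁻¹ *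
      ((ℓ : ℕ) : laurentBaseChange K (modularFunctionFieldFull M)) ∈ s34_gi_V A₁ M := by
  have hV'0 := s34_gi_unif (A₁ := A₁) (N := M) hπ
  have h1 : ((ℓ : ℕ) : laurentBaseChange K (modularFunctionFieldFull M)) =
      algebraMap K _ (π : K) * algebraMap K _ (c : K) := by
    rw [← map_mul]
    have h2 : ((ℓ : ℕ) : K) = (π : K) * (c : K) := by
      have := congrArg (fun a : A₁ => (a : K)) hℓ
      simpa using this
    rw [← h2, map_natCast]
  rw [h1, inv_mul_cancel_left₀ hV'0.ne_zero]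
  exact s34_gi_algebraMap_mem c

set_option maxHeartbeats 1600000 in
set_option synthInstance.maxHeartbeats 400000 in
/-- **(c-EXT), component `B`, in the model.** -/
theorem s36_nm_B [Fact ℓ.Prime] (hℓN : ℓ ∣ N) (hπ : Irreducible π) (c : A₁)
    (hℓ : (ℓ : A₁) = π * c)
    (w : F' ≃+* F') (hwϖ : w (algebraMap K F' (π : K)) = algebraMap K F' (π : K))
    (W : FF ≃+* FF) (hWϖ : W (algebraMap K FF (π : K)) = algebraMap K FF (π : K))
    (hrel : ∀ y : F', W (heckeAlphaBar K N ℓ y) = heckeBetaBar K N ℓ (w y))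
    (x : F') (T : LaurentSeries ℤ) (hT : (x : LaurentSeries K) = coeffMap (Int.castRingHom K) T)
    (hlead : T.coeff (-1) = 1) (hlow : ∀ n < (-1 : ℤ), T.coeff n = 0) :
    (∀ y ∈ (s34_gi_V A₁ (N * ℓ)).comap (W : FF →+* FF),
      ∃ P : Polynomial ((s34_gi_V A₁ N).comap (w : F' →+* F')), P.Monic ∧
        P.eval₂ ((heckeAlphaBar K N ℓ).toRingHom.comp
          ((s34_gi_V A₁ N).comap (w : F' →+* F')).subtype) y = 0) ∧
    (∀ h ∈ (s34_gi_V A₁ (N * ℓ)).comap (W : FF →+* FF),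
      ∀ b ∈ (s34_gi_V A₁ N).comap (w : F' →+* F'),
      (algebraMap K FF (π : K))⁻¹ * (h ^ ℓ - (heckeAlphaBar K N ℓ).toRingHom b) ∈
        (s34_gi_V A₁ (N * ℓ)).comap (W : FF →+* FF) →
      ∃ u ∈ (s34_gi_V A₁ N).comap (w : F' →+* F'),
        s35_nmAlong (heckeAlphaBar K N ℓ).toRingHom h =
          (heckeAlphaBar K N ℓ).toRingHom (b + algebraMap K F' (π : K) * u)) ∧
    (∀ h ∈ (s34_gi_V A₁ (N * ℓ)).comap (W : FF →+* FF),
      ∃ b ∈ (s34_gi_V A₁ N).comap (w : F' →+* F'),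
      ∃ u ∈ (s34_gi_V A₁ N).comap (w : F' →+* F'),
        (algebraMap K FF (π : K))⁻¹ * (h ^ ℓ - (heckeAlphaBar K N ℓ).toRingHom b) ∈
          (s34_gi_V A₁ (N * ℓ)).comap (W : FF →+* FF) ∧
        s35_nmAlong (heckeAlphaBar K N ℓ).toRingHom h =
          (heckeAlphaBar K N ℓ).toRingHom (b + algebraMap K F' (π : K) * u)) := by
  have hℓp : ℓ.Prime := Fact.out
  haveI : CharZero K := algebraRat.charZero K
  haveI : CharZero F' := charZero_of_injective_algebraMap (algebraMap K F').injective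
  have hιϖ : (heckeAlphaBar K N ℓ).toRingHom (algebraMap K F' (π : K)) =
      algebraMap K FF (π : K) := (heckeAlphaBar K N ℓ).commutes (π : K)
  have hV' := s36_nm_unif_comap (A₁ := A₁) N hπ w hwϖ
  have hV := s36_nm_unif_comap (A₁ := A₁) (N * ℓ) hπ W hWϖ
  have hfin := s36_dg_finrank_dvd K N ℓ hℓp hℓN
  -- the element `θ` with `W θ = α x`, and `c₀` with `w c₀ = x`
  have hx : x ∈ s34_gi_V A₁ N := s34_gz_mem_int x T hT
  have hθ : W.symm (heckeAlphaBar K N ℓ x) ∈ (s34_gi_V A₁ (N * ℓ)).comap (W : FF →+* FF) := by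
    show W (W.symm (heckeAlphaBar K N ℓ x)) ∈ s34_gi_V A₁ (N * ℓ)
    rw [RingEquiv.apply_symm_apply]
    exact (s34_gz_alpha_mem_iff x).mpr hx
  have hc₀ : w.symm x ∈ (s34_gi_V A₁ N).comap (w : F' →+* F') := by
    show w (w.symm x) ∈ s34_gi_V A₁ N
    rw [RingEquiv.apply_symm_apply]
    exact hx
  have hθc : (algebraMap K FF (π : K))⁻¹ *
      ((W.symm (heckeAlphaBar K N ℓ x)) ^ ℓ - (heckeAlphaBar K N ℓ).toRingHom (w.symm x)) ∈
        (s34_gi_V A₁ (N * ℓ)).comap (W : FF →+* FF) := by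
    show W ((algebraMap K FF (π : K))⁻¹ *
      ((W.symm (heckeAlphaBar K N ℓ x)) ^ ℓ - heckeAlphaBar K N ℓ (w.symm x))) ∈
        s34_gi_V A₁ (N * ℓ)
    rw [map_mul, map_inv₀, hWϖ, map_sub, map_pow, RingEquiv.apply_symm_apply, hrel,
      RingEquiv.apply_symm_apply]
    exact s34_gz_frob hπ c hℓ x T hT
  have hnd : ¬ ((ℓ : ℤ) ∣ (-1 : ℤ)) := by
    intro h
    have h1 : (ℓ : ℤ) ∣ 1 := (dvd_neg).mp h
    have h2 : ℓ ∣ 1 := by exact_mod_cast h1
    exact hℓp.one_lt.ne' (Nat.dvd_one.mp h2)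
  have hpow : ∀ d ∈ (s34_gi_V A₁ N).comap (w : F' →+* F'),
      (algebraMap K F' (π : K))⁻¹ * (d ^ ℓ - w.symm x) ∉
        (s34_gi_V A₁ N).comap (w : F' →+* F') := by
    intro d hd hcon
    have h1 : w ((algebraMap K F' (π : K))⁻¹ * (d ^ ℓ - w.symm x)) ∈ s34_gi_V A₁ N := hcon
    rw [map_mul, map_inv₀, hwϖ, map_sub, map_pow, RingEquiv.apply_symm_apply] at h1
    exact s34_gz_not_pow_model hπ x T hT (-1) hlead hlow hnd (w d) hd h1
  have hqϖ : (algebraMap K F' (π : K))⁻¹ * ((ℓ : ℕ) : F') ∈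
      (s34_gi_V A₁ N).comap (w : F' →+* F') := by
    show w ((algebraMap K F' (π : K))⁻¹ * ((ℓ : ℕ) : F')) ∈ s34_gi_V A₁ N
    rw [map_mul, map_inv₀, hwϖ, map_natCast]
    exact s36_nm_char N hπ c hℓ
  have hι : ∀ y ∈ (s34_gi_V A₁ N).comap (w : F' →+* F'),
      (heckeAlphaBar K N ℓ).toRingHom y ∈ (s34_gi_V A₁ (N * ℓ)).comap (W : FF →+* FF) := by
    intro y hy
    show W (heckeAlphaBar K N ℓ y) ∈ s34_gi_V A₁ (N * ℓ)
    rw [hrel]
    exact s34_gz_beta_mem hy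
  have hϖ : ((heckeAlphaBar K N ℓ).toRingHom (algebraMap K F' (π : K)))⁻¹ ∉
      (s34_gi_V A₁ (N * ℓ)).comap (W : FF →+* FF) := by
    rw [hιϖ]
    exact hV.inv_not_mem
  obtain ⟨-, hint, hkey, hex⟩ := s36_nrp_insep (heckeAlphaBar K N ℓ).toRingHom ℓ hℓp hfin
    hV' hV hι hϖ hqϖ (W.symm (heckeAlphaBar K N ℓ x)) (w.symm x) hc₀ hθ hθc hpow
  rw [hιϖ] at hkey hex
  exact ⟨hint, hkey, hex⟩

set_option maxHeartbeats 1600000 in
set_option synthInstance.maxHeartbeats 400000 in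
/-- **(c-EXT), components `A` and `C`, in the model.** -/
theorem s36_nm_AC [Fact ℓ.Prime] (hℓN : ℓ ∣ N) (hπ : Irreducible π)
    (VC : Subring FF) (z : FF) (hVC : s35_Unif z VC)
    (hαC : ∀ y ∈ s34_gi_V A₁ N, (heckeAlphaBar K N ℓ).toRingHom y ∈ VC)
    (hne : s34_gi_V A₁ (N * ℓ) ≠ VC)
    (hzn : algebraMap K FF (π : K) * (z ^ (ℓ - 1))⁻¹ ∈ VC) :
    (∀ y ∈ s34_gi_V A₁ (N * ℓ), y ∈ VC →
      ∃ P : Polynomial (s34_gi_V A₁ N), P.Monic ∧
        P.eval₂ ((heckeAlphaBar K N ℓ).toRingHom.comp (s34_gi_V A₁ N).subtype) y = 0) ∧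
    (∀ y ∈ s34_gi_V A₁ (N * ℓ), ∃ y' ∈ s34_gi_V A₁ N,
      (algebraMap K FF (π : K))⁻¹ * (y - (heckeAlphaBar K N ℓ).toRingHom y') ∈
        s34_gi_V A₁ (N * ℓ)) ∧
    z ^ (ℓ - 1) * (algebraMap K FF (π : K))⁻¹ ∈ VC ∧
    (∀ y ∈ VC, ∃ y' ∈ s34_gi_V A₁ N, z⁻¹ * (y - (heckeAlphaBar K N ℓ).toRingHom y') ∈ VC) ∧
    (∀ h ∈ s34_gi_V A₁ (N * ℓ), h ∈ VC → ∀ a ∈ s34_gi_V A₁ N, ∀ c ∈ s34_gi_V A₁ N,
      (algebraMap K FF (π : K))⁻¹ * (h - (heckeAlphaBar K N ℓ).toRingHom a) ∈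
        s34_gi_V A₁ (N * ℓ) →
      z⁻¹ * (h - (heckeAlphaBar K N ℓ).toRingHom c) ∈ VC →
      ∃ u ∈ s34_gi_V A₁ N, s35_nmAlong (heckeAlphaBar K N ℓ).toRingHom h =
        (heckeAlphaBar K N ℓ).toRingHom (a * c ^ (ℓ - 1) + algebraMap K F' (π : K) * u)) ∧
    (∀ h ∈ s34_gi_V A₁ (N * ℓ), h ∈ VC → ∃ a ∈ s34_gi_V A₁ N, ∃ c ∈ s34_gi_V A₁ N,
      ∃ u ∈ s34_gi_V A₁ N,
      (algebraMap K FF (π : K))⁻¹ * (h - (heckeAlphaBar K N ℓ).toRingHom a) ∈
        s34_gi_V A₁ (N * ℓ) ∧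
      z⁻¹ * (h - (heckeAlphaBar K N ℓ).toRingHom c) ∈ VC ∧
      s35_nmAlong (heckeAlphaBar K N ℓ).toRingHom h =
        (heckeAlphaBar K N ℓ).toRingHom (a * c ^ (ℓ - 1) + algebraMap K F' (π : K) * u)) := by
  have hℓp : ℓ.Prime := Fact.out
  haveI : CharZero K := algebraRat.charZero K
  haveI : CharZero F' := charZero_of_injective_algebraMap (algebraMap K F').injective
  have hιϖ : (heckeAlphaBar K N ℓ).toRingHom (algebraMap K F' (π : K)) =
      algebraMap K FF (π : K) := (heckeAlphaBar K N ℓ).commutes (π : K)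
  have hV' := s36_nm_unif (A₁ := A₁) N hπ
  have hV₁ : s35_Unif ((heckeAlphaBar K N ℓ).toRingHom (algebraMap K F' (π : K)))
      (s34_gi_V A₁ (N * ℓ)) := by
    rw [hιϖ]
    exact s36_nm_unif (A₁ := A₁) (N * ℓ) hπ
  have hfin := s36_dg_finrank_dvd K N ℓ hℓp hℓN
  have hℓ1 : ℓ - 1 + 1 = ℓ := Nat.sub_add_cancel hℓp.one_le
  have hn : 1 ≤ ℓ - 1 := by
    have := hℓp.two_le
    omega
  have h := s36_nrp_ram (heckeAlphaBar K N ℓ).toRingHom (ℓ - 1) hn (by rw [hℓ1]; exact hfin)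
    hV' hV₁ hVC (fun y hy => (s34_gz_alpha_mem_iff y).mpr hy) hαC hne
    (by rw [hιϖ]; exact hzn)
  rw [hιϖ] at h
  exact h

end Model

end Fermat.Agent.S36
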