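import Mathlib
import Fermat.Agent.S34.InstV
import Fermat.Agent.S34.IcModelInst
import Fermat.Agent.S34.LevelGauss
import Fermat.Agent.S18.ChartZLead
import Fermat.Agent.S36.Cap3
import Fermat.Agent.S36.CapNG
import Fermat.Agent.S36.NrModel

/-!
# S36 (NODE-3), contract item (c-cap) in the model: the cap property at level `N₁ q²`

Two-step route (`S36/Cap3.lean`): the cap property of the integral-closure charts of level
`N₁ q q` with respect to the three components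

* `V_A = s34_gi_V A₁ (N₁ q q)` (the `q`-expansion Gauss ring),
* `V_B = V_A.comap W` (`W` a swap of level `N₁ q q` with `W ∘ α = β ∘ w`),
* `V_C` (any uniformized valuation ring with the properties consumed by `s36_nm_AC`),

follows from the cap property of the charts of level `N₁ q` (`s36_cn_ct_cap`, no Galois hypothesis
on the base field), the integrality of `V_A ⊓ V_C` over `α V'∞` (`s36_nm_AC`) and of `V_B` over
`α V'₀` (`s36_nm_B`).

* `s36_c3m_core` : generic form (`K` any field of constants, `N` any level divisible by the prime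
  `ℓ`, `t` any coordinate of level `N` whose chart satisfies (le), (frac), (cap));
* `s36_c3m_cap` : the model (`K₁ ⊆ Q̄` any finite extension of `ℚ`, `A₁ = P ∩ K₁`), for the charts
  of the Hauptmodul `t₂` or `t₃` and of its inverse.
-/

set_option autoImplicit false
set_option synthInstance.maxHeartbeats 400000
set_option maxHeartbeats 4000000
set_option linter.unusedSectionVars false
set_option linter.unusedVariables false
set_option linter.style.haveILetI false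

open ModularCurve ModularCurve.IgusaScheme AlgebraicCurve Fermat.Agent.S28
open Fermat.Agent.S18 Fermat.Agent.S34 Fermat.Agent.S35

noncomputable section

namespace Fermat.Agent.S36

section Core

variable {K : Type*} [Field K] [Algebra ℚ K] [Algebra K (AlgebraicClosure ℚ)]
variable {A₁ : ValuationSubring K}
variable {N ℓ : ℕ} [NeZero N] [NeZero ℓ] [NeZero (N * ℓ)]
variable [IsDiscreteValuationRing A₁] {π : A₁}

local notation "F'" => laurentBaseChange K (modularFunctionFieldFull N)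
local notation "FF" => laurentBaseChange K (modularFunctionFieldFull (N * ℓ))

/-- **(c-cap), generic two-step form.**  `N` a level divisible by the prime `ℓ`,
`α = heckeAlphaBar K N ℓ`, `t` an element of `F' = K · F(N)` whose integral-closure chart lies in
the two components `V'∞ = s34_gi_V A₁ N`, `V'₀ = V'∞.comap w` and has the cap property with
respect to them.  Then the integral-closure chart of `α t` has the cap property with respect to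
`V_A = s34_gi_V A₁ (N ℓ)`, `V_B = V_A.comap W` and `V_C`. -/
theorem s36_c3m_core [Fact ℓ.Prime] (hℓN : ℓ ∣ N) (hπ : Irreducible π) (c : A₁)
    (hℓ : (ℓ : A₁) = π * c)
    (w : F' ≃+* F') (hwϖ : w (algebraMap K F' (π : K)) = algebraMap K F' (π : K))
    (W : FF ≃+* FF) (hWϖ : W (algebraMap K FF (π : K)) = algebraMap K FF (π : K))
    (hrel : ∀ y : F', W (heckeAlphaBar K N ℓ y) = heckeBetaBar K N ℓ (w y))
    (x : F') (T : LaurentSeries ℤ) (hT : (x : LaurentSeries K) = coeffMap (Int.castRingHom K) T)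
    (hlead : T.coeff (-1) = 1) (hlow : ∀ n < (-1 : ℤ), T.coeff n = 0)
    (VC : Subring FF) (z : FF) (hVC : s35_Unif z VC)
    (hαC : ∀ y ∈ s34_gi_V A₁ N, (heckeAlphaBar K N ℓ).toRingHom y ∈ VC)
    (hne : s34_gi_V A₁ (N * ℓ) ≠ VC)
    (hzn : algebraMap K FF (π : K) * (z ^ (ℓ - 1))⁻¹ ∈ VC)
    (t : F')
    (hle₁ : (s34_ic_chart A₁ t).toSubring ≤ s34_gi_V A₁ N)
    (hle₂ : (s34_ic_chart A₁ t).toSubring ≤ (s34_gi_V A₁ N).comap (w : F' →+* F'))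
    (hfrac : ∀ y : F', ∃ a ∈ (s34_ic_chart A₁ t).toSubring,
      ∃ b ∈ (s34_ic_chart A₁ t).toSubring, b ≠ 0 ∧ y = a / b)
    (hcap' : ∀ b ∈ (s34_ic_chart A₁ t).toSubring,
      (algebraMap A₁ F' π)⁻¹ * b ∈ s34_gi_V A₁ N →
      (algebraMap A₁ F' π)⁻¹ * b ∈ (s34_gi_V A₁ N).comap (w : F' →+* F') →
      (algebraMap A₁ F' π)⁻¹ * b ∈ (s34_ic_chart A₁ t).toSubring) :
    ∀ y ∈ (s34_ic_chart A₁ (heckeAlphaBar K N ℓ t)).toSubring,
      (algebraMap A₁ FF π)⁻¹ * y ∈ s34_gi_V A₁ (N * ℓ) →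
      (algebraMap A₁ FF π)⁻¹ * y ∈ (s34_gi_V A₁ (N * ℓ)).comap (W : FF →+* FF) →
      (algebraMap A₁ FF π)⁻¹ * y ∈ VC →
      (algebraMap A₁ FF π)⁻¹ * y ∈ (s34_ic_chart A₁ (heckeAlphaBar K N ℓ t)).toSubring := by
  have hV₁ : s34_Unif (algebraMap A₁ F' π) (s34_gi_V A₁ N) := s34_lg_unif hπ
  have hV₂ : s34_Unif (algebraMap A₁ F' π) ((s34_gi_V A₁ N).comap (w : F' →+* F')) :=
    hV₁.comap w hwϖ
  have hAC := (s36_nm_AC (A₁ := A₁) hℓN hπ VC z hVC hαC hne hzn).1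
  have hB := (s36_nm_B hℓN hπ c hℓ w hwϖ W hWϖ hrel x T hT hlead hlow).1
  exact s36_c3_chart (heckeAlphaBar K N ℓ).toRingHom (fun a => s34_lc_incl_algebraMap ℓ a) π
    hV₁.ne_zero t (s34_gi_V A₁ N) ((s34_gi_V A₁ N).comap (w : F' →+* F'))
    (s34_gi_V A₁ (N * ℓ)) ((s34_gi_V A₁ (N * ℓ)).comap (W : FF →+* FF)) VC
    hle₁ hle₂ hfrac (s34_unif_mem_or_inv hV₁) (s34_unif_mem_or_inv hV₂) hcap' hAC hB

end Core

/-! ### The model -/

section Model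

variable (N₁ q : ℕ) [NeZero N₁] [NeZero q] [NeZero (N₁ * q)] [NeZero (N₁ * q * q)] [Fact q.Prime]
  (P : ValuationSubring (AlgebraicClosure ℚ)) (hP : P.LiesOverPrime q)
  (K₁ : IntermediateField ℚ (AlgebraicClosure ℚ)) [FiniteDimensional ℚ K₁]
  [IsDiscreteValuationRing (s18_A1 P K₁)]

include hP in
/-- **(c-cap) in the model, level `N₁ q q`.**  `tL` the Hauptmodul `t₂` or `t₃` at level `N₁ q`,
`tLL` the same function at level `N₁ q q`; `w` a swap of level `N₁ q` (`s34_md_IsSwap`), `W` an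
automorphism of `K₁ · F(N₁ q q)` fixing `π` with `W ∘ α = β ∘ w`; `V_C` a uniformized valuation
ring as in `s36_nm_AC`.  Both integral-closure charts of level `N₁ q q` have the cap property with
respect to `V_A`, `V_B = V_A.comap W`, `V_C`. -/
theorem s36_c3m_cap (hqN : ¬ q ∣ N₁) (π : s18_A1 P K₁) (hπ : Irreducible π)
    (tL : modularFunctionFieldFull (N₁ * q)) (htL : s34_md_IsT N₁ q tL)
    (tLL : modularFunctionFieldFull (N₁ * q * q))
    (htLL : (tLL : LaurentSeries ℚ) = (tL : LaurentSeries ℚ))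
    (w : s18_F1 K₁ (N₁ * q) ≃ₐ[K₁] s18_F1 K₁ (N₁ * q)) (hw : s34_md_IsSwap K₁ N₁ q w)
    (W : s18_F1 K₁ (N₁ * q * q) ≃+* s18_F1 K₁ (N₁ * q * q))
    (hWϖ : W (algebraMap K₁ (s18_F1 K₁ (N₁ * q * q)) (π : K₁)) =
      algebraMap K₁ (s18_F1 K₁ (N₁ * q * q)) (π : K₁))
    (hrel : ∀ y : s18_F1 K₁ (N₁ * q),
      W (heckeAlphaBar K₁ (N₁ * q) q y) = heckeBetaBar K₁ (N₁ * q) q (w y))
    (VC : Subring (s18_F1 K₁ (N₁ * q * q))) (z : s18_F1 K₁ (N₁ * q * q)) (hVC : s35_Unif z VC)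
    (hαC : ∀ y ∈ s34_gi_V (s18_A1 P K₁) (N₁ * q),
      (heckeAlphaBar K₁ (N₁ * q) q).toRingHom y ∈ VC)
    (hne : s34_gi_V (s18_A1 P K₁) (N₁ * q * q) ≠ VC)
    (hzn : algebraMap K₁ (s18_F1 K₁ (N₁ * q * q)) (π : K₁) * (z ^ (q - 1))⁻¹ ∈ VC) :
    (∀ y ∈ (s34_ic_chart (s18_A1 P K₁) (s18_coord K₁ tLL)).toSubring,
      (algebraMap (s18_A1 P K₁) (s18_F1 K₁ (N₁ * q * q)) π)⁻¹ * y ∈
        s34_gi_V (s18_A1 P K₁) (N₁ * q * q) →
      (algebraMap (s18_A1 P K₁) (s18_F1 K₁ (N₁ * q * q)) π)⁻¹ * y ∈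
        (s34_gi_V (s18_A1 P K₁) (N₁ * q * q)).comap
          (W : s18_F1 K₁ (N₁ * q * q) →+* s18_F1 K₁ (N₁ * q * q)) →
      (algebraMap (s18_A1 P K₁) (s18_F1 K₁ (N₁ * q * q)) π)⁻¹ * y ∈ VC →
      (algebraMap (s18_A1 P K₁) (s18_F1 K₁ (N₁ * q * q)) π)⁻¹ * y ∈
        (s34_ic_chart (s18_A1 P K₁) (s18_coord K₁ tLL)).toSubring) ∧
    (∀ y ∈ (s34_ic_chart (s18_A1 P K₁) (s18_coord K₁ tLL)⁻¹).toSubring,
      (algebraMap (s18_A1 P K₁) (s18_F1 K₁ (N₁ * q * q)) π)⁻¹ * y ∈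
        s34_gi_V (s18_A1 P K₁) (N₁ * q * q) →
      (algebraMap (s18_A1 P K₁) (s18_F1 K₁ (N₁ * q * q)) π)⁻¹ * y ∈
        (s34_gi_V (s18_A1 P K₁) (N₁ * q * q)).comap
          (W : s18_F1 K₁ (N₁ * q * q) →+* s18_F1 K₁ (N₁ * q * q)) →
      (algebraMap (s18_A1 P K₁) (s18_F1 K₁ (N₁ * q * q)) π)⁻¹ * y ∈ VC →
      (algebraMap (s18_A1 P K₁) (s18_F1 K₁ (N₁ * q * q)) π)⁻¹ * y ∈
        (s34_ic_chart (s18_A1 P K₁) (s18_coord K₁ tLL)⁻¹).toSubring) := by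
  have hℓ : ((q : K₁))⁻¹ ∉ s18_A1 P K₁ := s18_a1_ell P hP K₁
  obtain ⟨c, hc⟩ : ∃ c : s18_A1 P K₁, ((q : ℕ) : s18_A1 P K₁) = π * c := by
    have h1 := s18_ell_mem_maximalIdeal q (s18_A1 P K₁) hℓ
    rw [hπ.maximalIdeal_eq, Ideal.mem_span_singleton'] at h1
    obtain ⟨e, he⟩ := h1
    exact ⟨e, by rw [← he, mul_comm]⟩
  have hqN' : q ∣ N₁ * q := dvd_mul_left q N₁
  -- the level-`q` cap, without Galois hypothesis
  have hcapq := s36_cn_ct_cap N₁ q hqN P hP K₁ π hπ tL htL w hw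
  obtain ⟨hwα, -, -, -, -⟩ := hw
  have hV₁ : s34_Unif (algebraMap (s18_A1 P K₁) (s18_F1 K₁ (N₁ * q)) π)
      (s34_gi_V (s18_A1 P K₁) (N₁ * q)) := s34_lg_unif hπ
  have hwϖ : (w : s18_F1 K₁ (N₁ * q) ≃+* s18_F1 K₁ (N₁ * q))
      (algebraMap K₁ (s18_F1 K₁ (N₁ * q)) (π : K₁)) =
      algebraMap K₁ (s18_F1 K₁ (N₁ * q)) (π : K₁) := w.commutes (π : K₁)
  have hV₂ : s34_Unif (algebraMap (s18_A1 P K₁) (s18_F1 K₁ (N₁ * q)) π)
      ((s34_gi_V (s18_A1 P K₁) (N₁ * q)).comap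
        ((w : s18_F1 K₁ (N₁ * q) ≃+* s18_F1 K₁ (N₁ * q)) :
          s18_F1 K₁ (N₁ * q) →+* s18_F1 K₁ (N₁ * q))) :=
    hV₁.comap (w : s18_F1 K₁ (N₁ * q) ≃+* s18_F1 K₁ (N₁ * q)) hwϖ
  have hc₁ : ∀ a : s18_A1 P K₁, algebraMap (s18_A1 P K₁) (s18_F1 K₁ (N₁ * q)) a ∈
      s34_gi_V (s18_A1 P K₁) (N₁ * q) := fun a => s34_gi_algebraMap_mem a
  have hc₂ : ∀ a : s18_A1 P K₁, algebraMap (s18_A1 P K₁) (s18_F1 K₁ (N₁ * q)) a ∈
      (s34_gi_V (s18_A1 P K₁) (N₁ * q)).comap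
        ((w : s18_F1 K₁ (N₁ * q) ≃+* s18_F1 K₁ (N₁ * q)) :
          s18_F1 K₁ (N₁ * q) →+* s18_F1 K₁ (N₁ * q)) := by
    intro a
    show w (algebraMap K₁ (s18_F1 K₁ (N₁ * q)) (a : K₁)) ∈ s34_gi_V (s18_A1 P K₁) (N₁ * q)
    rw [AlgEquiv.commutes]
    exact s34_gi_algebraMap_mem a
  have hwα' : ∀ y, (w : s18_F1 K₁ (N₁ * q) ≃+* s18_F1 K₁ (N₁ * q)) (heckeAlphaBar K₁ N₁ q y) =
      heckeBetaBar K₁ N₁ q y := hwα
  -- the data of the Hauptmodul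
  obtain ⟨t₀', T, Tinv, h, hT, hTinv, hlead, hlow, hch⟩ :
      ∃ (t₀' : modularFunctionFieldFull N₁) (T Tinv : LaurentSeries ℤ),
        (tL : LaurentSeries ℚ) = (t₀' : LaurentSeries ℚ) ∧
        (t₀' : LaurentSeries ℚ) = coeffMap (Int.castRingHom ℚ) T ∧
        ((t₀'⁻¹ : modularFunctionFieldFull N₁) : LaurentSeries ℚ) =
          coeffMap (Int.castRingHom ℚ) Tinv ∧
        T.coeff (-1) = 1 ∧ (∀ n < (-1 : ℤ), T.coeff n = 0) ∧
        s34_imi_Charts (s18_A1 P K₁) (s18_coord K₁ tL) := by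
    rcases htL with ⟨h, h2⟩ | ⟨h, h3⟩
    · obtain rfl : tL = s18_cz_t2 (N₁ * q) (dvd_mul_of_dvd_left h2 q) := Subtype.ext h
      have hd := s34_iv_t2_data N₁ q h2 (dvd_mul_of_dvd_left h2 q)
      exact ⟨s18_cz_t2 N₁ h2, s18_t2, s18_t2inv, hd.1, hd.2.1, hd.2.2,
        s18_cz_isLeading_t2.1, s18_cz_isLeading_t2.2,
        s34_imi_charts_t2 (N₁ * q) P K₁ (dvd_mul_of_dvd_left h2 q)⟩
    · obtain rfl : tL = s18_cz_t3 (N₁ * q) (dvd_mul_of_dvd_left h3 q) := Subtype.ext h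
      have hd := s34_iv_t3_data N₁ q h3 (dvd_mul_of_dvd_left h3 q)
      exact ⟨s18_cz_t3 N₁ h3, s18_t3, s18_t3inv, hd.1, hd.2.1, hd.2.2,
        s18_cz_isLeading_t3.1, s18_cz_isLeading_t3.2,
        s34_imi_charts_t3 (N₁ * q) P K₁ (dvd_mul_of_dvd_left h3 q)⟩
  have hxT : ((s18_coord K₁ tL : s18_F1 K₁ (N₁ * q)) : LaurentSeries K₁) =
      coeffMap (Int.castRingHom K₁) T := s34_ei_coord_coe tL T (h.trans hT)
  constructor
  · have key := s36_c3m_core (K := K₁) (A₁ := s18_A1 P K₁) (N := N₁ * q) (ℓ := q) hqN' hπ c hc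
      (w : s18_F1 K₁ (N₁ * q) ≃+* s18_F1 K₁ (N₁ * q)) hwϖ W hWϖ hrel
      (s18_coord K₁ tL) T hxT hlead hlow VC z hVC hαC hne hzn (s18_coord K₁ tL)
      (s34_ic_le_unif hV₁ hc₁ (s34_iv_coord_mem (s18_A1 P K₁) tL T (h.trans hT)))
      (s34_ic_le_unif hV₂ hc₂
        (s34_iv_swap_coord_mem (s18_A1 P K₁) N₁ q
          (w : s18_F1 K₁ (N₁ * q) ≃+* s18_F1 K₁ (N₁ * q)) hwα' tL t₀' h T hT))
      hch.frac0 hcapq.1
    rw [s34_lc_incl_coord q tLL htLL] at key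
    exact key
  · have hinv : ((tL⁻¹ : modularFunctionFieldFull (N₁ * q)) : LaurentSeries ℚ) =
        coeffMap (Int.castRingHom ℚ) Tinv := by
      have e : ((tL⁻¹ : modularFunctionFieldFull (N₁ * q)) : LaurentSeries ℚ) =
          ((t₀'⁻¹ : modularFunctionFieldFull N₁) : LaurentSeries ℚ) := by
        show (tL : LaurentSeries ℚ)⁻¹ = (t₀' : LaurentSeries ℚ)⁻¹
        rw [h]
      rw [e, hTinv]
    have key := s36_c3m_core (K := K₁) (A₁ := s18_A1 P K₁) (N := N₁ * q) (ℓ := q) hqN' hπ c hc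
      (w : s18_F1 K₁ (N₁ * q) ≃+* s18_F1 K₁ (N₁ * q)) hwϖ W hWϖ hrel
      (s18_coord K₁ tL) T hxT hlead hlow VC z hVC hαC hne hzn (s18_coord K₁ tL)⁻¹
      (s34_ic_le_unif hV₁ hc₁ (s34_iv_coord_inv_mem (s18_A1 P K₁) tL Tinv hinv))
      (s34_ic_le_unif hV₂ hc₂
        (s34_iv_swap_coord_inv_mem (s18_A1 P K₁) N₁ q
          (w : s18_F1 K₁ (N₁ * q) ≃+* s18_F1 K₁ (N₁ * q)) hwα' tL t₀' h Tinv hTinv))
      hch.fraci hcapq.2
    rw [map_inv₀, s34_lc_incl_coord q tLL htLL] at key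
    exact key

end Model

end Fermat.Agent.S36
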