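import Mathlib
import Fermat.Agent.S34.InstDefs
import Fermat.Agent.S34.IcDvr
import Fermat.Agent.S34.IcUnif
import Fermat.Agent.S34.IcModel

/-!
# S36 (NODE-3), model glue: the function-independent chart block for three components

The two integral-closure charts `B0 = s34_ic_chart A₀ t`, `Binf = s34_ic_chart A₀ t⁻¹` of a
function field `F` finite over `K(t)` (`A₀` a discrete valuation ring with fraction field `K`,
uniformizer `π`), together with THREE vertical components `V_A`, `V_B` (uniformizer `π`) and `V_C`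
(uniformizer `z`, `π ∈ z^n V_C`, `n ≥ 1`: the component of multiplicity `n`).

* `s36_cp3_Chart π t B0 Binf V` : the chart block of `s36_two_chart` (field names = hypothesis names
  of `s36_two_chart`, literally), plus noetherianity, fraction field, normality / root-closedness
  and the discrete valuation rings at the horizontal primes.
* `s36_cp3_one_add_inv` : `hVu` for `V = V_A ⊓ V_B ⊓ V_C`.
* `s36_cp3_chart_abs` : the chart block for `V = V_A ⊓ V_B ⊓ V_C` from the function-independent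
  facts (uniformizers, charts inside the components, the three-component cap).
* `s36_cp3_chart_t2`, `s36_cp3_chart_t3` : the concrete charts `s34_md_B0`, `s34_md_Binf` of the
  Hauptmodul `t₂` / `t₃` at ANY level `L` divisible by `2` / `3`, over ANY intermediate field
  `K₀ ⊆ Q̄` whose ring `s18_A1 P K₀` is a discrete valuation ring (NO Galois hypothesis).

No Galois hypothesis on the base field is used anywhere.
-/

set_option autoImplicit false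
set_option synthInstance.maxHeartbeats 400000
set_option linter.style.haveILetI false
set_option linter.unusedSectionVars false
set_option linter.unusedVariables false

open ModularCurve AlgebraicCurve

noncomputable section

namespace Fermat.Agent.S36

open Fermat.Agent.S18 Fermat.Agent.S34 Polynomial IntermediateField

/-! ### Shapes -/

section Shapes

variable {A₀ F : Type*} [CommRing A₀] [Field F] [Algebra A₀ F]

/-- The horizontal primes of the chart `B` are discrete valuation rings. -/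
def s36_cp3_Hdvr (π : A₀) (B : Subalgebra A₀ F) : Prop :=
  ∀ 𝔮 : Ideal B.toSubring, 𝔮.IsPrime →
    (⟨algebraMap A₀ F π, B.algebraMap_mem π⟩ : B.toSubring) ∉ 𝔮 → 𝔮 ≠ ⊥ →
    ∃ W : ValuationSubring F, IsDiscreteValuationRing W ∧
      ∀ z : F, z ∈ W ↔ ∃ a s : B.toSubring, s ∉ 𝔮 ∧ z = (a : F) / (s : F)

/-- The chart block of `s36_two_chart` (all hypotheses not mentioning the function), for two
charts `B0`, `Binf` glued along `t` and a semi-local Gauss ring `V`. -/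
structure s36_cp3_Chart (π : A₀) (t : F) (B0 Binf : Subalgebra A₀ F) (V : Subring F) :
    Prop where
  hB0V : ∀ x ∈ B0, x ∈ V
  hBiV : ∀ x ∈ Binf, x ∈ V
  hcap0 : ∀ x ∈ B0, (algebraMap A₀ F π)⁻¹ * x ∈ V → (algebraMap A₀ F π)⁻¹ * x ∈ B0
  hcapi : ∀ x ∈ Binf, (algebraMap A₀ F π)⁻¹ * x ∈ V → (algebraMap A₀ F π)⁻¹ * x ∈ Binf
  hVu : ∀ x ∈ V, (1 + algebraMap A₀ F π * x)⁻¹ ∈ V
  t_ne : t ≠ 0
  t_mem : t ∈ B0
  tinv_mem : t⁻¹ ∈ Binf
  glue0 : ∀ x ∈ B0, ∃ k : ℕ, t⁻¹ ^ k * x ∈ Binf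
  glueInf : ∀ x ∈ Binf, ∃ k : ℕ, t ^ k * x ∈ B0
  h1 : ∃ c₁ : ℕ, ∀ c, c₁ ≤ c → ∀ x ∈ B0, ∀ k : ℕ,
    ∃ a ∈ B0, ∃ b ∈ Binf, t⁻¹ ^ k * x = a + t ^ c * b
  fin : ∀ c : ℕ, ∃ s : Finset F, ∀ x ∈ B0, t⁻¹ ^ c * x ∈ Binf →
    x ∈ Submodule.span A₀ (s : Set F)
  noeth0 : IsNoetherianRing B0.toSubring
  noethi : IsNoetherianRing Binf.toSubring
  frac0 : ∀ x : F, ∃ a ∈ B0.toSubring, ∃ b ∈ B0.toSubring, b ≠ 0 ∧ x = a / b
  fraci : ∀ x : F, ∃ a ∈ Binf.toSubring, ∃ b ∈ Binf.toSubring, b ≠ 0 ∧ x = a / b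
  hnorm0 : ∀ z : F, IsIntegral B0.toSubring z → z ∈ B0.toSubring
  hnormi : ∀ z : F, IsIntegral Binf.toSubring z → z ∈ Binf.toSubring
  hroot0 : ∀ p : ℕ, 0 < p → ∀ z : F, z ^ p ∈ B0.toSubring → z ∈ B0.toSubring
  hrooti : ∀ p : ℕ, 0 < p → ∀ z : F, z ^ p ∈ Binf.toSubring → z ∈ Binf.toSubring
  hdvr0 : s36_cp3_Hdvr π B0
  hdvri : s36_cp3_Hdvr π Binf

end Shapes

/-! ### `hVu` for three components -/

section Vu

variable {F : Type*} [Field F]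

/-- `1 + ϖ V_C ⊆ V_C^×` for a component `V_C` with uniformizer `z` and `ϖ ∈ z^n V_C`, `n ≥ 1`. -/
theorem s36_cp3_one_add_inv_mult {ϖ z : F} {VC : Subring F} (hVC : s34_Unif z VC) (n : ℕ)
    (hn : 1 ≤ n) (hϖz : ϖ * (z ^ n)⁻¹ ∈ VC) {x : F} (hx : x ∈ VC) : (1 + ϖ * x)⁻¹ ∈ VC := by
  have hz0 : z ≠ 0 := hVC.ne_zero
  obtain ⟨k, rfl⟩ : ∃ k, n = k + 1 := ⟨n - 1, by omega⟩
  have hy : z ^ k * (ϖ * (z ^ (k + 1))⁻¹) * x ∈ VC :=
    VC.mul_mem (VC.mul_mem (VC.pow_mem hVC.mem k) hϖz) hx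
  have e : ϖ * x = z * (z ^ k * (ϖ * (z ^ (k + 1))⁻¹) * x) := by
    field_simp
    ring
  rw [e]
  exact hVC.one_add_inv_mem hy

/-- The hypothesis `hVu` of `s36_two_chart` for the intersection of three uniformized rings
(`V_A`, `V_B` with uniformizer `ϖ`; `V_C` with uniformizer `z`, `ϖ ∈ z^n V_C`). -/
theorem s36_cp3_one_add_inv {ϖ z : F} {VA VB VC : Subring F} (hVA : s34_Unif ϖ VA)
    (hVB : s34_Unif ϖ VB) (hVC : s34_Unif z VC) (n : ℕ) (hn : 1 ≤ n)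
    (hϖz : ϖ * (z ^ n)⁻¹ ∈ VC) (x : F) (hx : x ∈ VA ⊓ VB ⊓ VC) :
    (1 + ϖ * x)⁻¹ ∈ VA ⊓ VB ⊓ VC :=
  ⟨⟨hVA.one_add_inv_mem hx.1.1, hVB.one_add_inv_mem hx.1.2⟩,
    s36_cp3_one_add_inv_mult hVC n hn hϖz hx.2⟩

end Vu

/-! ### The chart block, abstractly -/

section Abs

variable {A₀ K F : Type*} [CommRing A₀] [IsDomain A₀] [IsDiscreteValuationRing A₀]
  [Field K] [CharZero K] [Algebra A₀ K] [IsFractionRing A₀ K]
  [Field F] [Algebra K F] [Algebra A₀ F] [IsScalarTower A₀ K F]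

/-- **The chart block of `s36_two_chart`** for the integral-closure charts of `t`, `t⁻¹` and the
semi-local ring `V = V_A ⊓ V_B ⊓ V_C` of three components, from the function-independent facts:
uniformizers, charts inside the components, and the three-component cap. -/
theorem s36_cp3_chart_abs (π : A₀) (hπ : Irreducible π) (t : F) (ht : Transcendental K t)
    [FiniteDimensional K⟮t⟯ F] {z : F} (VA VB VC : Subring F)
    (hVA : s34_Unif (algebraMap A₀ F π) VA) (hVB : s34_Unif (algebraMap A₀ F π) VB)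
    (hVC : s34_Unif z VC) (n : ℕ) (hn : 1 ≤ n) (hπz : algebraMap A₀ F π * (z ^ n)⁻¹ ∈ VC)
    (h0A : (s34_ic_chart A₀ t).toSubring ≤ VA) (h0B : (s34_ic_chart A₀ t).toSubring ≤ VB)
    (h0C : (s34_ic_chart A₀ t).toSubring ≤ VC)
    (hiA : (s34_ic_chart A₀ t⁻¹).toSubring ≤ VA) (hiB : (s34_ic_chart A₀ t⁻¹).toSubring ≤ VB)
    (hiC : (s34_ic_chart A₀ t⁻¹).toSubring ≤ VC)
    (hcap0 : ∀ x ∈ (s34_ic_chart A₀ t).toSubring, (algebraMap A₀ F π)⁻¹ * x ∈ VA →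
      (algebraMap A₀ F π)⁻¹ * x ∈ VB → (algebraMap A₀ F π)⁻¹ * x ∈ VC →
      (algebraMap A₀ F π)⁻¹ * x ∈ (s34_ic_chart A₀ t).toSubring)
    (hcapi : ∀ x ∈ (s34_ic_chart A₀ t⁻¹).toSubring, (algebraMap A₀ F π)⁻¹ * x ∈ VA →
      (algebraMap A₀ F π)⁻¹ * x ∈ VB → (algebraMap A₀ F π)⁻¹ * x ∈ VC →
      (algebraMap A₀ F π)⁻¹ * x ∈ (s34_ic_chart A₀ t⁻¹).toSubring) :
    s36_cp3_Chart π t (s34_ic_chart A₀ t) (s34_ic_chart A₀ t⁻¹) (VA ⊓ VB ⊓ VC) := by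
  have t_ne : t ≠ 0 := s34_ic_ne_zero (K := K) ht
  exact
    { hB0V := fun x hx => ⟨⟨h0A hx, h0B hx⟩, h0C hx⟩
      hBiV := fun x hx => ⟨⟨hiA hx, hiB hx⟩, hiC hx⟩
      hcap0 := fun x hx h => hcap0 x hx h.1.1 h.1.2 h.2
      hcapi := fun x hx h => hcapi x hx h.1.1 h.1.2 h.2
      hVu := s36_cp3_one_add_inv hVA hVB hVC n hn hπz
      t_ne := t_ne
      t_mem := s34_ic_t_mem _
      tinv_mem := s34_ic_t_mem _
      glue0 := fun x hx => s34_ic_glue t_ne hx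
      glueInf := fun x hx => s34_ic_glue' t_ne hx
      h1 := s34_ic_h1 (A₀ := A₀) (K := K) t ht
      fin := s34_ic_fin (A₀ := A₀) (K := K) t ht
      noeth0 := s34_ic_noeth (A₀ := A₀) (K := K) t ht
      noethi := s34_ic_noeth_inv (A₀ := A₀) (K := K) t ht
      frac0 := s34_ic_frac (A₀ := A₀) (K := K) t
      fraci := s34_ic_frac_inv (A₀ := A₀) (K := K) t
      hnorm0 := fun z hz => by
        have hz' : z ∈ s34_ic_chart A₀ t := s34_ic_normal hz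
        simpa using hz'
      hnormi := fun z hz => by
        have hz' : z ∈ s34_ic_chart A₀ t⁻¹ := s34_ic_normal hz
        simpa using hz'
      hroot0 := fun p hp z hz => s34_ic_root t p hp z hz
      hrooti := fun p hp z hz => s34_ic_root t⁻¹ p hp z hz
      hdvr0 := fun 𝔮 h𝔮 hϖ h0 => s34_ic_hdvr (K := K) π hπ t ht 𝔮 h𝔮 _ hϖ h0
      hdvri := fun 𝔮 h𝔮 hϖ h0 => s34_ic_hdvr_inv (K := K) π hπ t ht 𝔮 h𝔮 _ hϖ h0 }

end Abs

/-! ### The concrete charts of the Hauptmoduln `t₂`, `t₃` over a non-Galois base field -/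

section Model

variable (P : ValuationSubring (AlgebraicClosure ℚ))
  (K₀ : IntermediateField ℚ (AlgebraicClosure ℚ)) [IsDiscreteValuationRing (s18_A1 P K₀)]
  (L : ℕ) [NeZero L]

/-- **The chart block at level `L` (any `L` divisible by `2`) for the Hauptmodul `t₂`**, over any
intermediate field `K₀` with `s18_A1 P K₀` a discrete valuation ring (no Galois hypothesis),
for three components `V_A`, `V_B`, `V_C`. -/
theorem s36_cp3_chart_t2 (h2 : 2 ∣ L) (π : s18_A1 P K₀) (hπ : Irreducible π)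
    {z : s18_F1 K₀ L} (VA VB VC : Subring (s18_F1 K₀ L))
    (hVA : s34_Unif (algebraMap (s18_A1 P K₀) (s18_F1 K₀ L) π) VA)
    (hVB : s34_Unif (algebraMap (s18_A1 P K₀) (s18_F1 K₀ L) π) VB)
    (hVC : s34_Unif z VC) (n : ℕ) (hn : 1 ≤ n)
    (hπz : algebraMap (s18_A1 P K₀) (s18_F1 K₀ L) π * (z ^ n)⁻¹ ∈ VC)
    (h0A : (s34_md_B0 P K₀ L (s18_cz_t2 L h2)).toSubring ≤ VA)
    (h0B : (s34_md_B0 P K₀ L (s18_cz_t2 L h2)).toSubring ≤ VB)
    (h0C : (s34_md_B0 P K₀ L (s18_cz_t2 L h2)).toSubring ≤ VC)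
    (hiA : (s34_md_Binf P K₀ L (s18_cz_t2 L h2)).toSubring ≤ VA)
    (hiB : (s34_md_Binf P K₀ L (s18_cz_t2 L h2)).toSubring ≤ VB)
    (hiC : (s34_md_Binf P K₀ L (s18_cz_t2 L h2)).toSubring ≤ VC)
    (hcap0 : ∀ x ∈ (s34_md_B0 P K₀ L (s18_cz_t2 L h2)).toSubring,
      (algebraMap (s18_A1 P K₀) (s18_F1 K₀ L) π)⁻¹ * x ∈ VA →
      (algebraMap (s18_A1 P K₀) (s18_F1 K₀ L) π)⁻¹ * x ∈ VB →
      (algebraMap (s18_A1 P K₀) (s18_F1 K₀ L) π)⁻¹ * x ∈ VC →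
      (algebraMap (s18_A1 P K₀) (s18_F1 K₀ L) π)⁻¹ * x ∈
        (s34_md_B0 P K₀ L (s18_cz_t2 L h2)).toSubring)
    (hcapi : ∀ x ∈ (s34_md_Binf P K₀ L (s18_cz_t2 L h2)).toSubring,
      (algebraMap (s18_A1 P K₀) (s18_F1 K₀ L) π)⁻¹ * x ∈ VA →
      (algebraMap (s18_A1 P K₀) (s18_F1 K₀ L) π)⁻¹ * x ∈ VB →
      (algebraMap (s18_A1 P K₀) (s18_F1 K₀ L) π)⁻¹ * x ∈ VC →
      (algebraMap (s18_A1 P K₀) (s18_F1 K₀ L) π)⁻¹ * x ∈
        (s34_md_Binf P K₀ L (s18_cz_t2 L h2)).toSubring) :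
    s36_cp3_Chart π (s18_coord K₀ (s18_cz_t2 L h2)) (s34_md_B0 P K₀ L (s18_cz_t2 L h2))
      (s34_md_Binf P K₀ L (s18_cz_t2 L h2)) (VA ⊓ VB ⊓ VC) := by
  have htr := s34_im_transc_t2 K₀ L h2
  haveI := s34_im_finite_t2 K₀ L h2
  haveI tower : IsScalarTower (s18_A1 P K₀) K₀ (s18_F1 K₀ L) :=
    IsScalarTower.of_algebraMap_eq (fun _ => rfl)
  exact s36_cp3_chart_abs (K := K₀) π hπ (s18_coord K₀ (s18_cz_t2 L h2)) htr VA VB VC hVA hVB hVC
    n hn hπz h0A h0B h0C hiA hiB hiC hcap0 hcapi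

/-- **The chart block at level `L` (any `L` divisible by `3`) for the Hauptmodul `t₃`**, over any
intermediate field `K₀` with `s18_A1 P K₀` a discrete valuation ring (no Galois hypothesis),
for three components `V_A`, `V_B`, `V_C`. -/
theorem s36_cp3_chart_t3 (h3 : 3 ∣ L) (π : s18_A1 P K₀) (hπ : Irreducible π)
    {z : s18_F1 K₀ L} (VA VB VC : Subring (s18_F1 K₀ L))
    (hVA : s34_Unif (algebraMap (s18_A1 P K₀) (s18_F1 K₀ L) π) VA)
    (hVB : s34_Unif (algebraMap (s18_A1 P K₀) (s18_F1 K₀ L) π) VB)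
    (hVC : s34_Unif z VC) (n : ℕ) (hn : 1 ≤ n)
    (hπz : algebraMap (s18_A1 P K₀) (s18_F1 K₀ L) π * (z ^ n)⁻¹ ∈ VC)
    (h0A : (s34_md_B0 P K₀ L (s18_cz_t3 L h3)).toSubring ≤ VA)
    (h0B : (s34_md_B0 P K₀ L (s18_cz_t3 L h3)).toSubring ≤ VB)
    (h0C : (s34_md_B0 P K₀ L (s18_cz_t3 L h3)).toSubring ≤ VC)
    (hiA : (s34_md_Binf P K₀ L (s18_cz_t3 L h3)).toSubring ≤ VA)
    (hiB : (s34_md_Binf P K₀ L (s18_cz_t3 L h3)).toSubring ≤ VB)
    (hiC : (s34_md_Binf P K₀ L (s18_cz_t3 L h3)).toSubring ≤ VC)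
    (hcap0 : ∀ x ∈ (s34_md_B0 P K₀ L (s18_cz_t3 L h3)).toSubring,
      (algebraMap (s18_A1 P K₀) (s18_F1 K₀ L) π)⁻¹ * x ∈ VA →
      (algebraMap (s18_A1 P K₀) (s18_F1 K₀ L) π)⁻¹ * x ∈ VB →
      (algebraMap (s18_A1 P K₀) (s18_F1 K₀ L) π)⁻¹ * x ∈ VC →
      (algebraMap (s18_A1 P K₀) (s18_F1 K₀ L) π)⁻¹ * x ∈
        (s34_md_B0 P K₀ L (s18_cz_t3 L h3)).toSubring)
    (hcapi : ∀ x ∈ (s34_md_Binf P K₀ L (s18_cz_t3 L h3)).toSubring,
      (algebraMap (s18_A1 P K₀) (s18_F1 K₀ L) π)⁻¹ * x ∈ VA →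
      (algebraMap (s18_A1 P K₀) (s18_F1 K₀ L) π)⁻¹ * x ∈ VB →
      (algebraMap (s18_A1 P K₀) (s18_F1 K₀ L) π)⁻¹ * x ∈ VC →
      (algebraMap (s18_A1 P K₀) (s18_F1 K₀ L) π)⁻¹ * x ∈
        (s34_md_Binf P K₀ L (s18_cz_t3 L h3)).toSubring) :
    s36_cp3_Chart π (s18_coord K₀ (s18_cz_t3 L h3)) (s34_md_B0 P K₀ L (s18_cz_t3 L h3))
      (s34_md_Binf P K₀ L (s18_cz_t3 L h3)) (VA ⊓ VB ⊓ VC) := by
  have htr := s34_im_transc_t3 K₀ L h3
  haveI := s34_im_finite_t3 K₀ L h3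
  haveI tower : IsScalarTower (s18_A1 P K₀) K₀ (s18_F1 K₀ L) :=
    IsScalarTower.of_algebraMap_eq (fun _ => rfl)
  exact s36_cp3_chart_abs (K := K₀) π hπ (s18_coord K₀ (s18_cz_t3 L h3)) htr VA VB VC hVA hVB hVC
    n hn hπz h0A h0B h0C hiA hiB hiC hcap0 hcapi

/-- The structure map `A₀ → K₀ · F(L)` is injective (the hypothesis `hinj` of `s36_two_chart`). -/
theorem s36_cp3_hinj_model :
    Function.Injective (algebraMap (s18_A1 P K₀) (s18_F1 K₀ L)) := by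
  haveI tower : IsScalarTower (s18_A1 P K₀) K₀ (s18_F1 K₀ L) :=
    IsScalarTower.of_algebraMap_eq (fun _ => rfl)
  exact s34_ic_algebraMap_injective (s18_A1 P K₀) K₀ (s18_F1 K₀ L)

end Model

end Fermat.Agent.S36
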