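import Fermat.Agent.S36.CuspEmb
import Fermat.Agent.S34.GaussInf
import Fermat.Agent.S34.IcUnif
import Fermat.Agent.S18.NumField
import Fermat.Agent.S18.ChAlg

/-!
# S36 (NODE-3), leaf (GC): the third valuation ring `V_C` of `K₀ · F(N q²)`

`K₀ ⊆ K` fields of characteristic zero (`κ : K₀ →+* K`), `A` a valuation subring of `K`,
`ζ ∈ A` a primitive `q`-th root of unity and `Θ : K · F(M) → K((Q))` the embedding at the cusp
`1/q` (`S36/CuspEmb.lean`, `M = N q²`).  The ring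

  `V_C := { x ∈ K₀ · F(M) | Θ(x) lies in the coefficientwise Gauss ring of A }`

is the valuation ring of the component of multiplicity `q - 1`.
-/

set_option autoImplicit false
set_option linter.style.haveILetI false
set_option linter.unusedSectionVars false

open ModularCurve

noncomputable section

namespace Fermat.Agent.S36

open Fermat.Agent.S28 (twistQ)
open Fermat.Agent.S18 Fermat.Agent.S34 Fermat.Agent.S24

/-! ### A formal lemma: `s(ζ Q) - s(Q)` is divisible by `ζ - 1` -/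

section Formal

variable {A : Type*} [CommRing A]

/-- The quotient `(s(ζ Q) - s(Q)) / (ζ - 1)` for a series `s` with a pole of order at most
one. -/
def s36_gc_quot (ζ : Aˣ) (s : LaurentSeries A) : LaurentSeries A where
  coeff n := (if n < 0 then -((ζ⁻¹ : Aˣ) : A) else ∑ i ∈ Finset.range n.toNat, (ζ : A) ^ i) *
    s.coeff n
  isPWO_support' := s.isPWO_support.mono (fun n hn => by
    simp only [Function.mem_support, ne_eq, HahnSeries.mem_support] at hn ⊢
    exact fun h => hn (by rw [h, mul_zero]))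

theorem s36_gc_quot_coeff (ζ : Aˣ) (s : LaurentSeries A) (n : ℤ) :
    (s36_gc_quot ζ s).coeff n =
      (if n < 0 then -((ζ⁻¹ : Aˣ) : A) else ∑ i ∈ Finset.range n.toNat, (ζ : A) ^ i) *
        s.coeff n := rfl

theorem s36_gc_twist_sub (ζ : Aˣ) (s : LaurentSeries A)
    (hs : ∀ n : ℤ, n < -1 → s.coeff n = 0) :
    twistQ ζ s - s = HahnSeries.C ((ζ : A) - 1) * s36_gc_quot ζ s := by
  ext n
  rw [HahnSeries.C_mul_eq_smul, HahnSeries.coeff_sub, HahnSeries.coeff_smul,
    Fermat.Agent.S28.twistQ_coeff, s36_gc_quot_coeff, smul_eq_mul]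
  rcases lt_trichotomy n (-1) with h | h | h
  · rw [hs n h]; ring
  · subst h
    rw [if_pos (by norm_num)]
    have h0 : ((ζ ^ (-1 : ℤ) : Aˣ) : A) = ((ζ⁻¹ : Aˣ) : A) := by rw [zpow_neg_one]
    rw [h0]
    have h1 : (ζ : A) * ((ζ⁻¹ : Aˣ) : A) = 1 := Units.mul_inv ζ
    linear_combination (s.coeff (-1)) * h1
  · have hn : 0 ≤ n := by omega
    rw [if_neg (by omega)]
    obtain ⟨k, rfl⟩ := Int.eq_ofNat_of_zero_le hn
    rw [zpow_natCast, Units.val_pow_eq_pow_val, Int.toNat_natCast]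
    have h1 := mul_geom_sum (ζ : A) k
    linear_combination (-(s.coeff (k : ℤ))) * h1

end Formal

/-! ### Roots of unity in a local domain of residue characteristic `q` -/

section Roots

variable {R : Type*} [CommRing R] [IsDomain R]

/-- `q = (ζ - 1)^(q-1) · c`. -/
theorem s36_gc_q_eq (q : ℕ) (hq : q.Prime) (ζ : R) (hζ : IsPrimitiveRoot ζ q) :
    ∃ c : R, (q : R) = (ζ - 1) ^ (q - 1) * c := by
  obtain ⟨n, rfl⟩ : ∃ n, q = n + 1 := ⟨q - 1, (Nat.succ_pred_eq_of_pos hq.pos).symm⟩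
  have h1 := hζ.prod_one_sub_pow_eq_order
  refine ⟨∏ k ∈ Finset.range n, -∑ i ∈ Finset.range (k + 1), ζ ^ i, ?_⟩
  have h2 : ∀ k ∈ Finset.range n, (1 - ζ ^ (k + 1)) =
      (ζ - 1) * -∑ i ∈ Finset.range (k + 1), ζ ^ i := by
    intro k _
    have := mul_geom_sum ζ (k + 1)
    linear_combination this
  rw [Finset.prod_congr rfl h2, Finset.prod_mul_distrib, Finset.prod_const,
    Finset.card_range] at h1
  rw [Nat.add_sub_cancel, h1]
  push_cast
  ring

variable [IsLocalRing R]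

/-- A `q`-th root of unity is `≡ 1` modulo the maximal ideal when `q` is not a unit. -/
theorem s36_gc_res_zeta (q : ℕ) (hq : q.Prime) (ζ : R) (hζ : IsPrimitiveRoot ζ q)
    (hqR : IsLocalRing.residue R (q : R) = 0) : IsLocalRing.residue R (ζ - 1) = 0 := by
  obtain ⟨n, rfl⟩ : ∃ n, q = n + 1 := ⟨q - 1, (Nat.succ_pred_eq_of_pos hq.pos).symm⟩
  have h1 := congrArg (IsLocalRing.residue R) hζ.prod_one_sub_pow_eq_order
  have h0 : IsLocalRing.residue R ((n : R) + 1) = 0 := by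
    have : ((n + 1 : ℕ) : R) = (n : R) + 1 := by push_cast; ring
    rw [← this]; exact hqR
  rw [h0, map_prod, Finset.prod_eq_zero_iff] at h1
  obtain ⟨k, hk, hk0⟩ := h1
  rw [Finset.mem_range] at hk
  rw [map_sub, map_one, map_pow, sub_eq_zero] at hk0
  have h2 : IsLocalRing.residue R ζ ^ (n + 1) = 1 := by
    rw [← map_pow, hζ.pow_eq_one, map_one]
  have hcop : Nat.Coprime (n + 1) (k + 1) :=
    (Nat.Prime.coprime_iff_not_dvd hq).mpr (Nat.not_dvd_of_pos_of_lt (Nat.succ_pos k) (by omega))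
  have h3 : IsLocalRing.residue R ζ ^ Nat.gcd (n + 1) (k + 1) = 1 :=
    pow_gcd_eq_one.mpr ⟨h2, hk0.symm⟩
  rw [Nat.Coprime] at hcop
  rw [hcop, pow_one] at h3
  rw [map_sub, map_one, h3, sub_self]

end Roots

/-! ### The ring `V_C` -/

section Gauss

variable {K0 K : Type*} [Field K0] [Field K] [Algebra ℚ K0] [Algebra ℚ K]
  (κ : K0 →+* K) (A : ValuationSubring K) (M : ℕ)
  (Θ : laurentBaseChange K (modularFunctionFieldFull M) →ₐ[K] LaurentSeries K)

/-- Extension of constants `K₀ · F(M) → K · F(M)`. -/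
def s36_gc_incl : laurentBaseChange K0 (modularFunctionFieldFull M) →+*
    laurentBaseChange K (modularFunctionFieldFull M) where
  toFun x := ⟨coeffMap κ x, s18_d1_coeffMap_mem (modularFunctionFieldFull M) κ x.2⟩
  map_one' := Subtype.ext (map_one _)
  map_mul' _ _ := Subtype.ext (map_mul _ _ _)
  map_zero' := Subtype.ext (map_zero _)
  map_add' _ _ := Subtype.ext (map_add _ _ _)

theorem s36_gc_incl_coe (x : laurentBaseChange K0 (modularFunctionFieldFull M)) :
    ((s36_gc_incl κ M x : laurentBaseChange K (modularFunctionFieldFull M)) : LaurentSeries K) =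
      coeffMap κ (x : LaurentSeries K0) := rfl

/-- **The ring `V_C`**: the pull-back of the coefficientwise Gauss ring of `A` along the
embedding at the cusp `1/q`. -/
def s36_gc_V : Subring (laurentBaseChange K0 (modularFunctionFieldFull M)) :=
  (s18_W A.subtype (IsLocalRing.residue A)).comap
    ((Θ : laurentBaseChange K (modularFunctionFieldFull M) →+* LaurentSeries K).comp
      (s36_gc_incl κ M))

variable {κ A M Θ}

theorem s36_gc_mem_V {x : laurentBaseChange K0 (modularFunctionFieldFull M)} :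
    x ∈ s36_gc_V κ A M Θ ↔
      Θ (s36_gc_incl κ M x) ∈ s18_W A.subtype (IsLocalRing.residue A) := Iff.rfl

/-- A function whose image at the cusp `1/q` has `A`-integral coefficients lies in `V_C`. -/
theorem s36_gc_mem_of_integral {x : laurentBaseChange K0 (modularFunctionFieldFull M)}
    (y : LaurentSeries A) (h : Θ (s36_gc_incl κ M x) = coeffMap A.subtype y) :
    x ∈ s36_gc_V κ A M Θ := by
  rw [s36_gc_mem_V, h]
  exact s18_coeffMap_mem_W _ _ y

theorem s36_gc_incl_algebraMap (c : K0) :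
    s36_gc_incl κ M (algebraMap K0 (laurentBaseChange K0 (modularFunctionFieldFull M)) c) =
      algebraMap K (laurentBaseChange K (modularFunctionFieldFull M)) (κ c) := by
  apply Subtype.ext
  show coeffMap κ (algebraMap K0 (LaurentSeries K0) c) = algebraMap K (LaurentSeries K) (κ c)
  rw [algebraMap_laurentSeries_eq_single, coeffMap_single, ← algebraMap_laurentSeries_eq_single]

/-- Constants: `c ∈ K₀` with `κ c ∈ A` lies in `V_C`. -/
theorem s36_gc_const_mem (c : K0) (hc : κ c ∈ A) :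
    algebraMap K0 (laurentBaseChange K0 (modularFunctionFieldFull M)) c ∈ s36_gc_V κ A M Θ := by
  refine s36_gc_mem_of_integral (HahnSeries.C ⟨κ c, hc⟩) ?_
  rw [s36_gc_incl_algebraMap, AlgHom.commutes, algebraMap_laurentSeries_eq_single,
    ← HahnSeries.C_apply, s34_gi_C_coe (A₁ := A) ⟨κ c, hc⟩]

/-- Transport of `j(Q^e)` along `κ`. -/
theorem s36_gc_coeffMap_s (e : ℕ) : coeffMap κ (s34_sw_s K0 e) = s34_sw_s K e := by
  unfold s34_sw_s
  by_cases h : e = 0
  · rw [dif_pos h, dif_pos h, map_zero]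
  · rw [dif_neg h, dif_neg h]
    show coeffMap κ (coeffMap (algebraMap ℚ K0) _) = coeffMap (algebraMap ℚ K) _
    rw [coeffMap_coeffMap]
    exact coeffMap_congr (Subsingleton.elim _ _) _

/-- `j(Q) = ` the integral `j`. -/
theorem s36_gc_s_one : s34_sw_s K 1 = coeffMap A.subtype (jqModC A) := by
  rw [s34_sw_s_eq, qExpand_one_apply, coeffEmb, ← jqModC_rat, coeffMap_jqModC, coeffMap_jqModC]

/-- The restriction of `κ` to valuation rings. -/
def s36_gc_res (A0 : ValuationSubring K0) (hA0 : ∀ a ∈ A0, κ a ∈ A) : A0 →+* A where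
  toFun a := ⟨κ a, hA0 a a.2⟩
  map_one' := Subtype.ext (map_one κ)
  map_mul' _ _ := Subtype.ext (map_mul κ _ _)
  map_zero' := Subtype.ext (map_zero κ)
  map_add' _ _ := Subtype.ext (map_add κ _ _)

/-- The cusp-`1/q` property of `Θ` (the conclusion of `s36_ce_main`, with `ζ` a unit of `A`). -/
def s36_gc_IsCusp (N q : ℕ) (ζ : Aˣ)
    (Θ : laurentBaseChange K (modularFunctionFieldFull M) →ₐ[K] LaurentSeries K) : Prop :=
  (∀ (d m : ℕ) (_ : d ∣ N) (_ : m ∣ q ^ 2)
      (h1 : s34_sw_s K (d * m) ∈ laurentBaseChange K (modularFunctionFieldFull M)),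
      Θ ⟨s34_sw_s K (d * m), h1⟩ =
        if m = q ^ 2 then twistQ (Units.map (A.subtype : A →* K) ζ) (s34_sw_s K d)
        else s34_sw_s K (d * m)) ∧
  (∀ (x : LaurentSeries K) (_ : x ∈ laurentBaseChange K (modularFunctionFieldFull (N * q)))
      (h1 : x ∈ laurentBaseChange K (modularFunctionFieldFull M)), Θ ⟨x, h1⟩ = x)

variable {N q : ℕ} {ζ : Aˣ}

/-- On functions of level `N q`, `Θ` is the extension of constants. -/
theorem s36_gc_theta_low (hΘ : s36_gc_IsCusp N q ζ Θ)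
    (x : laurentBaseChange K0 (modularFunctionFieldFull M))
    (hx : (x : LaurentSeries K0) ∈ laurentBaseChange K0 (modularFunctionFieldFull (N * q))) :
    Θ (s36_gc_incl κ M x) = coeffMap κ (x : LaurentSeries K0) :=
  hΘ.2 _ (s18_d1_coeffMap_mem (modularFunctionFieldFull (N * q)) κ hx) _

/-- **`V_C` contains the Gauss ring of level `N q`** (pulled back along `α`). -/
theorem s36_gc_low_mem (hΘ : s36_gc_IsCusp N q ζ Θ) (A0 : ValuationSubring K0)
    (hA0 : ∀ a ∈ A0, κ a ∈ A)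
    (x : laurentBaseChange K0 (modularFunctionFieldFull M))
    (x' : laurentBaseChange K0 (modularFunctionFieldFull (N * q)))
    (hxx' : (x : LaurentSeries K0) = (x' : LaurentSeries K0))
    (hx' : x' ∈ s34_gi_V A0 (N * q)) : x ∈ s36_gc_V κ A M Θ := by
  obtain ⟨s, y, hs, h⟩ := s34_gi_mem_V.mp hx'
  rw [s36_gc_mem_V, s36_gc_theta_low hΘ x (by rw [hxx']; exact x'.2)]
  have hcomp : (A.subtype : A →+* K).comp (s36_gc_res A0 hA0) = κ.comp A0.subtype := rfl
  refine ⟨coeffMap (s36_gc_res A0 hA0) s, coeffMap (s36_gc_res A0 hA0) y, ?_, ?_⟩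
  · intro h0
    apply hs
    ext n
    have h1 := congrArg (fun z : LaurentSeries (IsLocalRing.ResidueField A) => z.coeff n) h0
    simp only [coeffMap_coeff, HahnSeries.coeff_zero] at h1 ⊢
    rw [IsLocalRing.residue_eq_zero_iff] at h1 ⊢
    by_contra hn
    have hu : IsUnit (s.coeff n) := IsLocalRing.notMem_maximalIdeal.mp hn
    exact (IsLocalRing.mem_maximalIdeal _).mp h1 (hu.map (s36_gc_res A0 hA0))
  · rw [coeffMap_coeffMap, coeffMap_coeffMap, hcomp, ← coeffMap_coeffMap, ← coeffMap_coeffMap,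
      ← h, ← hxx', map_mul]

/-! ### The function `z_C = j(Q^(q²)) - j(Q)` -/

theorem s36_gc_quot_coeff_neg_one (ζ : Aˣ) :
    (s36_gc_quot ζ (jqModC A)).coeff (-1) = -((ζ⁻¹ : Aˣ) : A) := by
  have h1 := coeff_jqModC_pow_self A 1
  rw [pow_one, Nat.cast_one] at h1
  rw [s36_gc_quot_coeff, if_pos (by norm_num), h1, mul_one]

theorem s36_gc_quot_res_ne (ζ : Aˣ) :
    coeffMap (IsLocalRing.residue A) (s36_gc_quot ζ (jqModC A)) ≠ 0 := by
  intro h0
  have h1 := congrArg (fun z : LaurentSeries (IsLocalRing.ResidueField A) => z.coeff (-1)) h0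
  simp only [coeffMap_coeff, HahnSeries.coeff_zero] at h1
  rw [s36_gc_quot_coeff_neg_one, IsLocalRing.residue_eq_zero_iff] at h1
  exact (IsLocalRing.mem_maximalIdeal _).mp h1 (ζ⁻¹).isUnit.neg

theorem s36_gc_quot_ne (ζ : Aˣ) : s36_gc_quot ζ (jqModC A) ≠ 0 := fun h =>
  s36_gc_quot_res_ne ζ (by rw [h, map_zero])

/-- **The image of `z_C` at the cusp `1/q`**: `(ζ - 1) ·` a primitive integral series. -/
theorem s36_gc_theta_z (hΘ : s36_gc_IsCusp N q ζ Θ) (hq : q.Prime) (hqM : q ^ 2 ∣ M)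
    (z : laurentBaseChange K0 (modularFunctionFieldFull M))
    (hz : (z : LaurentSeries K0) = s34_sw_s K0 (q ^ 2) - s34_sw_s K0 1) :
    Θ (s36_gc_incl κ M z) =
      coeffMap A.subtype (HahnSeries.C ((ζ : A) - 1) * s36_gc_quot ζ (jqModC A)) := by
  haveI : NeZero (q ^ 2) := ⟨pow_ne_zero 2 hq.ne_zero⟩
  have h2 : s34_sw_s K (q ^ 2) ∈ laurentBaseChange K (modularFunctionFieldFull M) := by
    rw [s34_sw_s_eq]
    exact s34_sw_s_mem K M _ hqM
  have h1 : s34_sw_s K 1 ∈ laurentBaseChange K (modularFunctionFieldFull M) := by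
    rw [s34_sw_s_eq]
    exact s34_sw_s_mem K M _ (one_dvd M)
  have e : s36_gc_incl κ M z = (⟨s34_sw_s K (q ^ 2), h2⟩ - ⟨s34_sw_s K 1, h1⟩ :
      laurentBaseChange K (modularFunctionFieldFull M)) := by
    apply Subtype.ext
    show coeffMap κ (z : LaurentSeries K0) = s34_sw_s K (q ^ 2) - s34_sw_s K 1
    rw [hz, map_sub, s36_gc_coeffMap_s, s36_gc_coeffMap_s]
  have t2 : Θ ⟨s34_sw_s K (q ^ 2), h2⟩ =
      twistQ (Units.map (A.subtype : A →* K) ζ) (s34_sw_s K 1) := by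
    have h3 := hΘ.1 1 (q ^ 2) (one_dvd N) dvd_rfl (by rw [one_mul]; exact h2)
    rw [if_pos rfl] at h3
    rw [← h3]
    congr 1
    apply Subtype.ext
    show s34_sw_s K (q ^ 2) = s34_sw_s K (1 * q ^ 2)
    rw [one_mul]
  have t1 : Θ ⟨s34_sw_s K 1, h1⟩ = s34_sw_s K 1 := by
    have hne : (1 : ℕ) ≠ q ^ 2 := by
      have := hq.one_lt
      intro h
      nlinarith
    have h3 := hΘ.1 1 1 (one_dvd N) (one_dvd _) (by rw [mul_one]; exact h1)
    rw [if_neg hne] at h3
    exact h3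
  rw [e, map_sub, t2, t1, s36_gc_s_one (A := A), ← Fermat.Agent.S28.formal_coeffMap_twistQ,
    ← map_sub, s36_gc_twist_sub ζ (jqModC A) (fun n hn => by
      have := coeff_jqModC_pow_of_lt A (b := 1) (m := n) (by simpa using hn)
      rwa [pow_one] at this)]

/-- `z_C ∈ V_C`. -/
theorem s36_gc_z_mem (hΘ : s36_gc_IsCusp N q ζ Θ) (hq : q.Prime) (hqM : q ^ 2 ∣ M)
    (z : laurentBaseChange K0 (modularFunctionFieldFull M))
    (hz : (z : LaurentSeries K0) = s34_sw_s K0 (q ^ 2) - s34_sw_s K0 1) :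
    z ∈ s36_gc_V κ A M Θ :=
  s36_gc_mem_of_integral _ (s36_gc_theta_z hΘ hq hqM z hz)

/-- The image of `z_C` is nonzero. -/
theorem s36_gc_theta_z_ne (hΘ : s36_gc_IsCusp N q ζ Θ) (hq : q.Prime) (hqM : q ^ 2 ∣ M)
    (hζ1 : (ζ : A) ≠ 1)
    (z : laurentBaseChange K0 (modularFunctionFieldFull M))
    (hz : (z : LaurentSeries K0) = s34_sw_s K0 (q ^ 2) - s34_sw_s K0 1) :
    Θ (s36_gc_incl κ M z) ≠ 0 := by
  rw [s36_gc_theta_z hΘ hq hqM z hz]
  intro h0
  have h1 := s18_coeffMap_injective A.subtype Subtype.val_injective (h0.trans (map_zero _).symm)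
  rcases mul_eq_zero.mp h1 with h | h
  · rw [map_eq_zero_iff _ HahnSeries.C_injective] at h
    exact hζ1 (sub_eq_zero.mp h)
  · exact s36_gc_quot_ne ζ h

/-- **`z_C` is not a unit of `V_C`** (when `ζ ≡ 1` modulo the maximal ideal of `A`). -/
theorem s36_gc_z_inv_not_mem (hΘ : s36_gc_IsCusp N q ζ Θ) (hq : q.Prime) (hqM : q ^ 2 ∣ M)
    (hζ1 : (ζ : A) ≠ 1) (hres : IsLocalRing.residue A ((ζ : A) - 1) = 0)
    (z : laurentBaseChange K0 (modularFunctionFieldFull M))
    (hz : (z : LaurentSeries K0) = s34_sw_s K0 (q ^ 2) - s34_sw_s K0 1) :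
    z⁻¹ ∉ s36_gc_V κ A M Θ := by
  intro hmem
  rw [s36_gc_mem_V, map_inv₀, map_inv₀] at hmem
  obtain ⟨s, y, hs, h⟩ := hmem
  have hne := s36_gc_theta_z_ne (κ := κ) hΘ hq hqM hζ1 z hz
  have h1 : coeffMap A.subtype s = coeffMap A.subtype y * Θ (s36_gc_incl κ M z) := by
    rw [← h, mul_assoc, inv_mul_cancel₀ hne, mul_one]
  rw [s36_gc_theta_z hΘ hq hqM z hz, ← map_mul] at h1
  have h2 := s18_coeffMap_injective A.subtype Subtype.val_injective h1
  apply hs
  rw [h2, map_mul, map_mul, s34_gi_res_C, hres, map_zero, zero_mul, mul_zero]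

/-- **`z_C^(q-1)` divides `q` in `V_C`.** -/
theorem s36_gc_q_div (hΘ : s36_gc_IsCusp N q ζ Θ) (hq : q.Prime) (hqM : q ^ 2 ∣ M)
    (hζ1 : (ζ : A) ≠ 1) (c : A) (hc : (q : A) = ((ζ : A) - 1) ^ (q - 1) * c)
    (z : laurentBaseChange K0 (modularFunctionFieldFull M))
    (hz : (z : LaurentSeries K0) = s34_sw_s K0 (q ^ 2) - s34_sw_s K0 1) :
    algebraMap K0 (laurentBaseChange K0 (modularFunctionFieldFull M)) (q : K0) *
      (z ^ (q - 1))⁻¹ ∈ s36_gc_V κ A M Θ := by
  rw [s36_gc_mem_V, map_mul, map_mul, map_inv₀, map_inv₀, map_pow, map_pow,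
    s36_gc_incl_algebraMap, AlgHom.commutes, algebraMap_laurentSeries_eq_single,
    ← HahnSeries.C_apply, map_natCast]
  have hne := s36_gc_theta_z_ne (κ := κ) hΘ hq hqM hζ1 z hz
  rw [s36_gc_theta_z hΘ hq hqM z hz] at hne ⊢
  have hC : (HahnSeries.C ((q : ℕ) : K) : LaurentSeries K) =
      coeffMap A.subtype (HahnSeries.C ((q : ℕ) : A)) := by
    rw [← s34_gi_C_coe]
    push_cast
    rfl
  rw [hC, hc]
  refine ⟨s36_gc_quot ζ (jqModC A) ^ (q - 1), HahnSeries.C c, ?_, ?_⟩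
  · rw [map_pow]
    exact pow_ne_zero _ (s36_gc_quot_res_ne ζ)
  · rw [map_mul] at hne
    have h1 := left_ne_zero_of_mul hne
    have h2 := right_ne_zero_of_mul hne
    simp only [map_mul, map_pow]
    field_simp
    ring

/-- `z_C` is a unit of the Gauss ring at infinity (so `V_C` is not the Gauss ring at infinity,
nor its image under any automorphism `W` with `W z_C = ± z_C`). -/
theorem s36_gc_z_inv_mem_gi (A0 : ValuationSubring K0) (hq : q.Prime)
    (z : laurentBaseChange K0 (modularFunctionFieldFull M))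
    (hz : (z : LaurentSeries K0) = s34_sw_s K0 (q ^ 2) - s34_sw_s K0 1) :
    z⁻¹ ∈ s34_gi_V A0 M := by
  haveI : NeZero (q ^ 2) := ⟨pow_ne_zero 2 hq.ne_zero⟩
  have e2 : s34_sw_s K0 (q ^ 2) = coeffMap A0.subtype (qExpand A0 (q ^ 2) (jqModC A0)) := by
    rw [s34_sw_s_eq, coeffEmb, coeffMap_qExpand, coeffMap_qExpand, ← jqModC_rat, coeffMap_jqModC,
      coeffMap_jqModC]
  have ez : (z : LaurentSeries K0) =
      coeffMap A0.subtype (qExpand A0 (q ^ 2) (jqModC A0) - jqModC A0) := by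
    rw [hz, e2, s36_gc_s_one (A := A0), map_sub]
  have hcoeff : (qExpand A0 (q ^ 2) (jqModC A0) - jqModC A0).coeff (-1) = -1 := by
    have h1 := coeff_jqModC_pow_self A0 1
    rw [pow_one, Nat.cast_one] at h1
    have h2 : ¬ ((q ^ 2 : ℕ) : ℤ) ∣ (-1 : ℤ) := by
      intro h
      have h3 := Int.le_of_dvd one_pos ((dvd_neg).mp h)
      have h4 := hq.one_lt
      have h5 : (1 : ℤ) < ((q ^ 2 : ℕ) : ℤ) := by
        have : 1 < q ^ 2 := by nlinarith
        exact_mod_cast this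
      omega
    rw [HahnSeries.coeff_sub, qExpand_coeff_of_not_dvd (q ^ 2) _ h2, h1, zero_sub]
  have hres : coeffMap (IsLocalRing.residue A0) (qExpand A0 (q ^ 2) (jqModC A0) - jqModC A0) ≠ 0 := by
    intro h0
    have h1 := congrArg (fun s : LaurentSeries (IsLocalRing.ResidueField A0) => s.coeff (-1)) h0
    simp only [coeffMap_coeff, HahnSeries.coeff_zero] at h1
    rw [hcoeff, map_neg, map_one, neg_eq_zero] at h1
    exact one_ne_zero h1
  have hz0 : (z : LaurentSeries K0) ≠ 0 := by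
    rw [ez]
    intro h0
    apply hres
    rw [s18_coeffMap_injective A0.subtype Subtype.val_injective (h0.trans (map_zero _).symm),
      map_zero]
  rw [s34_gi_mem_V]
  refine ⟨_, 1, hres, ?_⟩
  rw [← ez, map_one]
  show (z : LaurentSeries K0) * (z : LaurentSeries K0)⁻¹ = 1
  exact mul_inv_cancel₀ hz0

/-! ### `V_C` is a valuation ring -/

/-- The image of `Θ` consists of quotients of `A`-integral series. -/
theorem s36_gc_theta_mem_frac (hΘ : s36_gc_IsCusp N q ζ Θ) [NeZero N]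
    (hM : M = N * q ^ 2) (x : laurentBaseChange K (modularFunctionFieldFull M)) :
    Θ x ∈ s34_gi_frac A := by
  subst hM
  let E : IntermediateField K (laurentBaseChange K (modularFunctionFieldFull (N * q ^ 2))) :=
    ((s34_gi_frac A).comap
      (Θ : laurentBaseChange K (modularFunctionFieldFull (N * q ^ 2)) →+*
        LaurentSeries K)).toIntermediateField (fun c => by
      show Θ (algebraMap K _ c) ∈ s34_gi_frac A
      rw [AlgHom.commutes, algebraMap_laurentSeries_eq_single, ← HahnSeries.C_apply]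
      exact s34_gi_C_mem_frac A c)
  have hle := s34_sw_le K (N * q ^ 2)
    (E.map (laurentBaseChange K (modularFunctionFieldFull (N * q ^ 2))).val)
    (fun e _ he => by
      rw [IntermediateField.mem_map]
      obtain ⟨d, m, hd, hm, rfl⟩ := (Nat.dvd_mul).mp he
      haveI : NeZero d := ⟨ne_zero_of_dvd_ne_zero (NeZero.ne N) hd⟩
      have hmem : s34_sw_s K (d * m) ∈
          laurentBaseChange K (modularFunctionFieldFull (N * q ^ 2)) := by
        rw [s34_sw_s_eq]
        exact s34_sw_s_mem K (N * q ^ 2) _ (Nat.mul_dvd_mul hd hm)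
      refine ⟨⟨s34_sw_s K (d * m), hmem⟩, ?_, (s34_sw_s_eq K (d * m))⟩
      show Θ ⟨s34_sw_s K (d * m), hmem⟩ ∈ s34_gi_frac A
      rw [hΘ.1 d m hd hm hmem]
      split_ifs with h
      · have e1 : s34_sw_s K d = coeffMap A.subtype (qExpand A d (jqModC A)) := by
          rw [s34_sw_s_eq, coeffEmb, coeffMap_qExpand, coeffMap_qExpand, ← jqModC_rat,
            coeffMap_jqModC, coeffMap_jqModC]
        rw [e1, ← Fermat.Agent.S28.formal_coeffMap_twistQ]
        exact ⟨1, twistQ ζ (qExpand A d (jqModC A)), one_ne_zero, by rw [map_one, one_mul]⟩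
      · rw [s34_sw_s_eq]
        exact s34_gi_jq_mem_frac A (d * m))
  have h2 := hle x.2
  rw [IntermediateField.mem_map] at h2
  obtain ⟨y, hy, hyx⟩ := h2
  have h3 : y = x := Subtype.ext hyx
  rw [← h3]
  exact hy

/-- **`V_C` is a valuation ring of `K₀ · F(M)`** (for `A` a discrete valuation ring). -/
theorem s36_gc_mem_or_inv_mem [IsDiscreteValuationRing A] (hΘ : s36_gc_IsCusp N q ζ Θ)
    [NeZero N] (hM : M = N * q ^ 2)
    (x : laurentBaseChange K0 (modularFunctionFieldFull M)) :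
    x ∈ s36_gc_V κ A M Θ ∨ x⁻¹ ∈ s36_gc_V κ A M Θ := by
  obtain ⟨π, hπ⟩ := IsDiscreteValuationRing.exists_irreducible A
  by_cases hx : x = 0
  · left
    rw [hx]
    exact Subring.zero_mem _
  have hu0 : Θ (s36_gc_incl κ M x) ≠ 0 := by
    intro h0
    exact hx ((map_eq_zero (s36_gc_incl κ M)).mp ((map_eq_zero Θ).mp h0))
  obtain ⟨s, y, hs, h⟩ := s36_gc_theta_mem_frac hΘ hM (s36_gc_incl κ M x)
  have hs0' : coeffMap A.subtype s ≠ 0 := fun h0 =>
    hs (s18_coeffMap_injective _ Subtype.val_injective (by rw [h0, map_zero]))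
  have hy : y ≠ 0 := by
    rintro rfl
    rw [map_zero] at h
    rcases mul_eq_zero.mp h with h | h
    · exact hs0' h
    · exact hu0 h
  obtain ⟨a, s', hs', hsne⟩ := s34_gi_content hπ s hs
  obtain ⟨b, y', hy', hyne⟩ := s34_gi_content hπ y hy
  have hC0 : coeffMap A.subtype (HahnSeries.C π) ≠ 0 := by
    intro h0
    have h1 := s18_coeffMap_injective A.subtype Subtype.val_injective (h0.trans (map_zero _).symm)
    rw [map_eq_zero_iff _ HahnSeries.C_injective] at h1
    exact hπ.ne_zero h1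
  rw [hs', hy', map_mul, map_mul, map_pow, map_pow] at h
  rcases le_total a b with hab | hab
  · left
    rw [s36_gc_mem_V]
    refine ⟨s', HahnSeries.C π ^ (b - a) * y', hsne, ?_⟩
    rw [map_mul, map_pow]
    generalize coeffMap A.subtype (HahnSeries.C π) = cπ at h hC0 ⊢
    generalize Θ (s36_gc_incl κ M x) = u at h hu0 ⊢
    have h3 : cπ ^ a * (coeffMap A.subtype s' * u) =
        cπ ^ a * (cπ ^ (b - a) * coeffMap A.subtype y') := by
      calc cπ ^ a * (coeffMap A.subtype s' * u) = cπ ^ a * coeffMap A.subtype s' * u := by ring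
        _ = cπ ^ b * coeffMap A.subtype y' := h
        _ = cπ ^ (a + (b - a)) * coeffMap A.subtype y' := by rw [Nat.add_sub_cancel' hab]
        _ = cπ ^ a * (cπ ^ (b - a) * coeffMap A.subtype y') := by rw [pow_add]; ring
    exact mul_left_cancel₀ (pow_ne_zero a hC0) h3
  · right
    rw [s36_gc_mem_V, map_inv₀, map_inv₀]
    refine ⟨y', HahnSeries.C π ^ (a - b) * s', hyne, ?_⟩
    rw [map_mul, map_pow]
    generalize coeffMap A.subtype (HahnSeries.C π) = cπ at h hC0 ⊢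
    generalize Θ (s36_gc_incl κ M x) = u at h hu0 ⊢
    have h3 : cπ ^ b * (coeffMap A.subtype y' * u⁻¹) =
        cπ ^ b * (cπ ^ (a - b) * coeffMap A.subtype s') := by
      calc cπ ^ b * (coeffMap A.subtype y' * u⁻¹)
          = cπ ^ b * coeffMap A.subtype y' * u⁻¹ := by ring
        _ = cπ ^ a * coeffMap A.subtype s' * u * u⁻¹ := by rw [h]
        _ = cπ ^ a * coeffMap A.subtype s' := by rw [mul_assoc _ u, mul_inv_cancel₀ hu0, mul_one]
        _ = cπ ^ (b + (a - b)) * coeffMap A.subtype s' := by rw [Nat.add_sub_cancel' hab]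
        _ = cπ ^ b * (cπ ^ (a - b) * coeffMap A.subtype s') := by rw [pow_add]; ring
    exact mul_left_cancel₀ (pow_ne_zero b hC0) h3

/-- `V_C` as a valuation subring. -/
def s36_gc_VS [IsDiscreteValuationRing A] (hΘ : s36_gc_IsCusp N q ζ Θ) [NeZero N]
    (hM : M = N * q ^ 2) : ValuationSubring (laurentBaseChange K0 (modularFunctionFieldFull M)) :=
  { s36_gc_V κ A M Θ with
    mem_or_inv_mem' := fun x => s36_gc_mem_or_inv_mem hΘ hM x }

theorem s36_gc_mem_VS [IsDiscreteValuationRing A] (hΘ : s36_gc_IsCusp N q ζ Θ) [NeZero N]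
    (hM : M = N * q ^ 2) (x : laurentBaseChange K0 (modularFunctionFieldFull M)) :
    x ∈ s36_gc_VS (κ := κ) hΘ hM ↔ x ∈ s36_gc_V κ A M Θ := Iff.rfl

/-! ### `V_C` is a discrete valuation ring with uniformizer `z_C` -/

/-- "`ζ - 1` is a uniformizer of `A`" (elementary form). -/
def s36_gc_IsUnif (ζ : Aˣ) : Prop :=
  (ζ : A) ≠ 1 ∧ IsLocalRing.residue A ((ζ : A) - 1) = 0 ∧
    ∀ r : A, r ≠ 0 → ∃ (n : ℕ) (r' : A), r = ((ζ : A) - 1) ^ n * r' ∧
      IsLocalRing.residue A r' ≠ 0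

/-- Content of an `A`-integral series with respect to `ζ - 1`. -/
theorem s36_gc_content (hζ : s36_gc_IsUnif ζ) (y : LaurentSeries A) (hy : y ≠ 0) :
    ∃ (n : ℕ) (y' : LaurentSeries A), y = HahnSeries.C ((ζ : A) - 1) ^ n * y' ∧
      coeffMap (IsLocalRing.residue A) y' ≠ 0 := by
  refine s18_series_content (ρ := IsLocalRing.residue A) (sub_ne_zero.mpr hζ.1) hζ.2.1 ?_ hζ.2.2
    y hy
  intro r hr
  by_cases hr0 : r = 0
  · exact ⟨0, by rw [hr0, mul_zero]⟩
  obtain ⟨n, r', hr', hne⟩ := hζ.2.2 r hr0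
  rcases Nat.eq_zero_or_pos n with hn | hn
  · rw [hn, pow_zero, one_mul] at hr'
    rw [hr'] at hr
    exact absurd hr hne
  · refine ⟨((ζ : A) - 1) ^ (n - 1) * r', ?_⟩
    rw [hr', ← mul_assoc, ← pow_succ', Nat.sub_add_cancel hn]

/-- **`V_C` is a discrete valuation ring of `K₀ · F(M)` with uniformizer
`z_C = j(Q^(q²)) - j(Q)`.** -/
theorem s36_gc_unif (hΘ : s36_gc_IsCusp N q ζ Θ) [NeZero N] (hq : q.Prime)
    (hM : M = N * q ^ 2) (hζ : s36_gc_IsUnif ζ)
    (z : laurentBaseChange K0 (modularFunctionFieldFull M))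
    (hz : (z : LaurentSeries K0) = s34_sw_s K0 (q ^ 2) - s34_sw_s K0 1) :
    s34_Unif z (s36_gc_V κ A M Θ) := by
  have hqM : q ^ 2 ∣ M := by rw [hM]; exact dvd_mul_left _ _
  have hZ := s36_gc_theta_z (κ := κ) hΘ hq hqM z hz
  have hZ0 := s36_gc_theta_z_ne (κ := κ) hΘ hq hqM hζ.1 z hz
  have hz0 : z ≠ 0 := by
    rintro rfl
    exact hZ0 (by rw [map_zero, map_zero])
  refine ⟨s36_gc_z_mem hΘ hq hqM z hz, s36_gc_z_inv_not_mem hΘ hq hqM hζ.1 hζ.2.1 z hz, ?_⟩
  intro x hx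
  have hu0 : Θ (s36_gc_incl κ M x) ≠ 0 := by
    intro h0
    exact hx ((map_eq_zero (s36_gc_incl κ M)).mp ((map_eq_zero Θ).mp h0))
  obtain ⟨s, y, hs, h⟩ := s36_gc_theta_mem_frac hΘ hM (s36_gc_incl κ M x)
  have hs0' : coeffMap A.subtype s ≠ 0 := fun h0 =>
    hs (s18_coeffMap_injective _ Subtype.val_injective (by rw [h0, map_zero]))
  have hy : y ≠ 0 := by
    rintro rfl
    rw [map_zero] at h
    rcases mul_eq_zero.mp h with h | h
    · exact hs0' h
    · exact hu0 h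
  obtain ⟨a, s', hs', hsne⟩ := s36_gc_content hζ s hs
  obtain ⟨b, y', hy', hyne⟩ := s36_gc_content hζ y hy
  rw [hs', hy', map_mul, map_mul, map_pow, map_pow] at h
  rw [hZ, map_mul] at hZ0
  have hl0 := left_ne_zero_of_mul hZ0
  have hQ0 := right_ne_zero_of_mul hZ0
  have hQres := s36_gc_quot_res_ne ζ
  refine ⟨(b : ℤ) - a, z ^ (-((b : ℤ) - a)) * x, ?_, ?_, ?_⟩
  · rw [s36_gc_mem_V, map_mul, map_mul, map_zpow₀, map_zpow₀, hZ, map_mul]
    refine ⟨s36_gc_quot ζ (jqModC A) ^ b * s', s36_gc_quot ζ (jqModC A) ^ a * y', ?_, ?_⟩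
    · rw [map_mul, map_pow]
      exact mul_ne_zero (pow_ne_zero _ hQres) hsne
    · rw [map_mul, map_mul, map_pow, map_pow]
      generalize coeffMap A.subtype (HahnSeries.C ((ζ : A) - 1)) = cl at h hl0 ⊢
      generalize coeffMap A.subtype (s36_gc_quot ζ (jqModC A)) = cQ at hQ0 ⊢
      generalize Θ (s36_gc_incl κ M x) = u at h hu0 ⊢
      have e : (cl * cQ) ^ (-((b : ℤ) - a)) = (cl * cQ) ^ a * ((cl * cQ) ^ b)⁻¹ := by
        rw [neg_sub, zpow_sub₀ (mul_ne_zero hl0 hQ0), zpow_natCast, zpow_natCast, div_eq_mul_inv]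
      rw [e]
      field_simp
      linear_combination (cQ ^ a * cQ ^ b) * h
  · rw [s36_gc_mem_V, map_inv₀, map_inv₀, map_mul, map_mul, map_zpow₀, map_zpow₀, hZ, map_mul]
    refine ⟨s36_gc_quot ζ (jqModC A) ^ a * y', s36_gc_quot ζ (jqModC A) ^ b * s', ?_, ?_⟩
    · rw [map_mul, map_pow]
      exact mul_ne_zero (pow_ne_zero _ hQres) hyne
    · rw [map_mul, map_mul, map_pow, map_pow]
      have hy0' : coeffMap A.subtype y' ≠ 0 := fun h0 =>
        hyne (by rw [s18_coeffMap_injective A.subtype Subtype.val_injective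
          (h0.trans (map_zero _).symm), map_zero])
      generalize coeffMap A.subtype (HahnSeries.C ((ζ : A) - 1)) = cl at h hl0 ⊢
      generalize coeffMap A.subtype (s36_gc_quot ζ (jqModC A)) = cQ at hQ0 ⊢
      generalize Θ (s36_gc_incl κ M x) = u at h hu0 ⊢
      generalize coeffMap A.subtype y' = cy at h hy0' ⊢
      generalize coeffMap A.subtype s' = cs at h ⊢
      have e : (cl * cQ) ^ (-((b : ℤ) - a)) = (cl * cQ) ^ a * ((cl * cQ) ^ b)⁻¹ := by
        rw [neg_sub, zpow_sub₀ (mul_ne_zero hl0 hQ0), zpow_natCast, zpow_natCast, div_eq_mul_inv]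
      rw [e]
      have hcs : cs ≠ 0 := by
        rintro rfl
        rw [mul_zero, zero_mul] at h
        exact mul_ne_zero (pow_ne_zero b hl0) hy0' h.symm
      field_simp
      linear_combination (-(cQ ^ a * cQ ^ b)) * h
  · rw [← mul_assoc, ← zpow_add₀ hz0, add_neg_cancel, zpow_zero, one_mul]

/-- `z_C^(q-1) / q ∈ V_C` (so that `q = unit · z_C^(q-1)` in `V_C`). -/
theorem s36_gc_zpow_div_q (hΘ : s36_gc_IsCusp N q ζ Θ) (hq : q.Prime) (hqM : q ^ 2 ∣ M)
    (hζ1 : (ζ : A) ≠ 1) (c : A) (hc : (q : A) = ((ζ : A) - 1) ^ (q - 1) * c) (hcu : IsUnit c)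
    (z : laurentBaseChange K0 (modularFunctionFieldFull M))
    (hz : (z : LaurentSeries K0) = s34_sw_s K0 (q ^ 2) - s34_sw_s K0 1) :
    z ^ (q - 1) * (algebraMap K0 (laurentBaseChange K0 (modularFunctionFieldFull M)) (q : K0))⁻¹ ∈
      s36_gc_V κ A M Θ := by
  rw [s36_gc_mem_V, map_mul, map_mul, map_inv₀, map_inv₀, map_pow, map_pow,
    s36_gc_incl_algebraMap, AlgHom.commutes, algebraMap_laurentSeries_eq_single,
    ← HahnSeries.C_apply, map_natCast]
  have hne := s36_gc_theta_z_ne (κ := κ) hΘ hq hqM hζ1 z hz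
  rw [s36_gc_theta_z hΘ hq hqM z hz] at hne ⊢
  have hC : (HahnSeries.C ((q : ℕ) : K) : LaurentSeries K) =
      coeffMap A.subtype (HahnSeries.C ((q : ℕ) : A)) := by
    rw [← s34_gi_C_coe]
    push_cast
    rfl
  rw [hC, hc]
  have hc0 : c ≠ 0 := hcu.ne_zero
  refine ⟨HahnSeries.C c, s36_gc_quot ζ (jqModC A) ^ (q - 1), ?_, ?_⟩
  · rw [s34_gi_res_C, Ne, map_eq_zero_iff _ HahnSeries.C_injective,
      IsLocalRing.residue_eq_zero_iff]
    exact fun hmem => (IsLocalRing.mem_maximalIdeal _).mp hmem hcu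
  · rw [map_mul] at hne
    have h1 := left_ne_zero_of_mul hne
    have h2 := right_ne_zero_of_mul hne
    have h3 : coeffMap A.subtype (HahnSeries.C c) ≠ 0 := by
      intro h0
      have h4 := s18_coeffMap_injective A.subtype Subtype.val_injective
        (h0.trans (map_zero _).symm)
      rw [map_eq_zero_iff _ HahnSeries.C_injective] at h4
      exact hc0 h4
    simp only [map_mul, map_pow]
    field_simp
    ring

/-- `q ∈ z_C · V_C`. -/
theorem s36_gc_q_mem_zV (hΘ : s36_gc_IsCusp N q ζ Θ) (hq : q.Prime) (hqM : q ^ 2 ∣ M)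
    (hζ1 : (ζ : A) ≠ 1) (c : A) (hc : (q : A) = ((ζ : A) - 1) ^ (q - 1) * c)
    (z : laurentBaseChange K0 (modularFunctionFieldFull M))
    (hz : (z : LaurentSeries K0) = s34_sw_s K0 (q ^ 2) - s34_sw_s K0 1) :
    z⁻¹ * algebraMap K0 (laurentBaseChange K0 (modularFunctionFieldFull M)) (q : K0) ∈
      s36_gc_V κ A M Θ := by
  have h1 := s36_gc_q_div (κ := κ) hΘ hq hqM hζ1 c hc z hz
  have h2 := s36_gc_z_mem (κ := κ) (A := A) hΘ hq hqM z hz
  have hz0 : z ≠ 0 := by
    rintro rfl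
    exact s36_gc_theta_z_ne (κ := κ) hΘ hq hqM hζ1 0 hz (by rw [map_zero, map_zero])
  obtain ⟨k, rfl⟩ : ∃ k, q = k + 2 := ⟨q - 2, by have := hq.two_le; omega⟩
  have e : z⁻¹ * algebraMap K0 (laurentBaseChange K0 (modularFunctionFieldFull M))
      ((k + 2 : ℕ) : K0) = z ^ k *
        (algebraMap K0 (laurentBaseChange K0 (modularFunctionFieldFull M)) ((k + 2 : ℕ) : K0) *
          (z ^ (k + 2 - 1))⁻¹) := by
    have e1 : k + 2 - 1 = k + 1 := rfl
    rw [e1, pow_succ]
    field_simp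
  rw [e]
  exact Subring.mul_mem _ (Subring.pow_mem _ h2 k) h1

/-- `z_C = j(Q^(q²)) - j(Q)` as an element of `K₀ · F(M)`. -/
def s36_gc_z (K0 : Type*) [Field K0] [Algebra ℚ K0] (q M : ℕ) (hq : q.Prime) (hqM : q ^ 2 ∣ M) :
    laurentBaseChange K0 (modularFunctionFieldFull M) :=
  ⟨s34_sw_s K0 (q ^ 2) - s34_sw_s K0 1, sub_mem (by
      haveI : NeZero (q ^ 2) := ⟨pow_ne_zero 2 hq.ne_zero⟩
      rw [s34_sw_s_eq]
      exact s34_sw_s_mem K0 M _ hqM) (by
      rw [s34_sw_s_eq]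
      exact s34_sw_s_mem K0 M _ (one_dvd M))⟩

theorem s36_gc_z_coe (q M : ℕ) (hq : q.Prime) (hqM : q ^ 2 ∣ M) :
    ((s36_gc_z K0 q M hq hqM : laurentBaseChange K0 (modularFunctionFieldFull M)) :
      LaurentSeries K0) = s34_sw_s K0 (q ^ 2) - s34_sw_s K0 1 := rfl

/-- `V_C` is a valuation ring (from the uniformizer). -/
theorem s36_gc_mem_or_inv_mem' (hΘ : s36_gc_IsCusp N q ζ Θ) [NeZero N] (hq : q.Prime)
    (hM : M = N * q ^ 2) (hζ : s36_gc_IsUnif ζ)
    (x : laurentBaseChange K0 (modularFunctionFieldFull M)) :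
    x ∈ s36_gc_V κ A M Θ ∨ x⁻¹ ∈ s36_gc_V κ A M Θ :=
  s34_unif_mem_or_inv (s36_gc_unif hΘ hq hM hζ
    (s36_gc_z K0 q M hq (by rw [hM]; exact dvd_mul_left _ _)) rfl) x

/-! ### Coordinates and charts -/

/-- A rational coordinate of level `N q` with integral `q`-expansion lies in `V_C`. -/
theorem s36_gc_coord_mem (hΘ : s36_gc_IsCusp N q ζ Θ) (t₀ : modularFunctionFieldFull M)
    (hlow : (t₀ : LaurentSeries ℚ) ∈ modularFunctionFieldFull (N * q)) (T : LaurentSeries ℤ)
    (hT : (t₀ : LaurentSeries ℚ) = coeffMap (Int.castRingHom ℚ) T) :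
    s18_coord K0 t₀ ∈ s36_gc_V κ A M Θ := by
  refine s36_gc_mem_of_integral (coeffMap (Int.castRingHom A) T) ?_
  rw [s36_gc_theta_low hΘ _ (coeffEmb_mem_laurentBaseChange K0 hlow)]
  show coeffMap κ (coeffEmb K0 (t₀ : LaurentSeries ℚ)) = _
  rw [hT, coeffEmb, coeffMap_coeffMap, coeffMap_coeffMap, coeffMap_coeffMap]
  exact coeffMap_congr (RingHom.ext_int _ _) T

/-- The inverse of a rational coordinate of level `N q` whose inverse has integral
`q`-expansion lies in `V_C`. -/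
theorem s36_gc_coord_inv_mem (hΘ : s36_gc_IsCusp N q ζ Θ) (t₀ : modularFunctionFieldFull M)
    (hlow : (t₀ : LaurentSeries ℚ) ∈ modularFunctionFieldFull (N * q)) (Tinv : LaurentSeries ℤ)
    (hTinv : ((t₀⁻¹ : modularFunctionFieldFull M) : LaurentSeries ℚ) =
      coeffMap (Int.castRingHom ℚ) Tinv) :
    (s18_coord K0 t₀)⁻¹ ∈ s36_gc_V κ A M Θ := by
  have e : (s18_coord K0 t₀)⁻¹ = s18_coord K0 t₀⁻¹ := by
    apply Subtype.ext
    show ((s18_coord K0 t₀ : laurentBaseChange K0 (modularFunctionFieldFull M)) :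
      LaurentSeries K0)⁻¹ = coeffEmb K0 ((t₀⁻¹ : modularFunctionFieldFull M) : LaurentSeries ℚ)
    show (coeffEmb K0 (t₀ : LaurentSeries ℚ))⁻¹ = coeffEmb K0 ((t₀ : LaurentSeries ℚ)⁻¹)
    rw [map_inv₀]
  rw [e]
  refine s36_gc_coord_mem hΘ t₀⁻¹ ?_ Tinv hTinv
  show (t₀ : LaurentSeries ℚ)⁻¹ ∈ modularFunctionFieldFull (N * q)
  exact inv_mem hlow

/-- Constants of a valuation ring `A₀ ⊆ κ⁻¹(A)` lie in `V_C`. -/
theorem s36_gc_const_mem' (A0 : ValuationSubring K0) (hA0 : ∀ a ∈ A0, κ a ∈ A) (a : A0) :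
    algebraMap A0 (laurentBaseChange K0 (modularFunctionFieldFull M)) a ∈ s36_gc_V κ A M Θ :=
  s36_gc_const_mem (a : K0) (hA0 a a.2)

/-- **The charts lie in `V_C`.** -/
theorem s36_gc_chart_le (hΘ : s36_gc_IsCusp N q ζ Θ) [NeZero N] (hq : q.Prime)
    (hM : M = N * q ^ 2) (hζ : s36_gc_IsUnif ζ) (A0 : ValuationSubring K0)
    (hA0 : ∀ a ∈ A0, κ a ∈ A) {t : laurentBaseChange K0 (modularFunctionFieldFull M)}
    (ht : t ∈ s36_gc_V κ A M Θ) :
    (s34_ic_chart A0 t).toSubring ≤ s36_gc_V κ A M Θ :=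
  s34_ic_le_unif (s36_gc_unif hΘ hq hM hζ
    (s36_gc_z K0 q M hq (by rw [hM]; exact dvd_mul_left _ _)) rfl)
    (s36_gc_const_mem' A0 hA0) ht

/-! ### The swap -/

/-- A generator-wise swap `j(Q^(d m)) ↦ j(Q^(d q²/m))` sends `z_C` to `- z_C`. -/
theorem s36_gc_swap_z (hq : q.Prime) (hqM : q ^ 2 ∣ M)
    (W : laurentBaseChange K0 (modularFunctionFieldFull M) →+*
      laurentBaseChange K0 (modularFunctionFieldFull M))
    (hW : ∀ (d m : ℕ) (_ : d ∣ N) (_ : m ∣ q ^ 2)
      (h1 : s34_sw_s K0 (d * m) ∈ laurentBaseChange K0 (modularFunctionFieldFull M)),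
      ((W ⟨s34_sw_s K0 (d * m), h1⟩ : laurentBaseChange K0 (modularFunctionFieldFull M)) :
        LaurentSeries K0) = s34_sw_s K0 (d * (q ^ 2 / m)))
    (z : laurentBaseChange K0 (modularFunctionFieldFull M))
    (hz : (z : LaurentSeries K0) = s34_sw_s K0 (q ^ 2) - s34_sw_s K0 1) : W z = -z := by
  haveI : NeZero (q ^ 2) := ⟨pow_ne_zero 2 hq.ne_zero⟩
  have h2 : s34_sw_s K0 (q ^ 2) ∈ laurentBaseChange K0 (modularFunctionFieldFull M) := by
    rw [s34_sw_s_eq]
    exact s34_sw_s_mem K0 M _ hqM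
  have h1 : s34_sw_s K0 1 ∈ laurentBaseChange K0 (modularFunctionFieldFull M) := by
    rw [s34_sw_s_eq]
    exact s34_sw_s_mem K0 M _ (one_dvd M)
  have e : z = (⟨s34_sw_s K0 (q ^ 2), h2⟩ - ⟨s34_sw_s K0 1, h1⟩ :
      laurentBaseChange K0 (modularFunctionFieldFull M)) := Subtype.ext hz
  have t2 : ((W ⟨s34_sw_s K0 (q ^ 2), h2⟩ : laurentBaseChange K0 (modularFunctionFieldFull M)) :
      LaurentSeries K0) = s34_sw_s K0 1 := by
    have h3 := hW 1 (q ^ 2) (one_dvd N) dvd_rfl (by rw [one_mul]; exact h2)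
    rw [Nat.div_self (Nat.pos_of_ne_zero (pow_ne_zero 2 hq.ne_zero)), mul_one] at h3
    rw [← h3]
    congr 2
    apply Subtype.ext
    show s34_sw_s K0 (q ^ 2) = s34_sw_s K0 (1 * q ^ 2)
    rw [one_mul]
  have t1 : ((W ⟨s34_sw_s K0 1, h1⟩ : laurentBaseChange K0 (modularFunctionFieldFull M)) :
      LaurentSeries K0) = s34_sw_s K0 (q ^ 2) := by
    have h3 := hW 1 1 (one_dvd N) (one_dvd _) (by rw [mul_one]; exact h1)
    have e1 : (⟨s34_sw_s K0 (1 * 1), by rw [mul_one]; exact h1⟩ :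
        laurentBaseChange K0 (modularFunctionFieldFull M)) = ⟨s34_sw_s K0 1, h1⟩ := by
      apply Subtype.ext
      show s34_sw_s K0 (1 * 1) = s34_sw_s K0 1
      rw [mul_one]
    rw [e1, Nat.div_one, one_mul] at h3
    exact h3
  apply Subtype.ext
  rw [e, map_sub]
  show ((W ⟨s34_sw_s K0 (q ^ 2), h2⟩ : laurentBaseChange K0 (modularFunctionFieldFull M)) :
      LaurentSeries K0) - ((W ⟨s34_sw_s K0 1, h1⟩ :
        laurentBaseChange K0 (modularFunctionFieldFull M)) : LaurentSeries K0) =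
    -(s34_sw_s K0 (q ^ 2) - s34_sw_s K0 1)
  rw [t2, t1, neg_sub]

/-- `z_C` is a unit of the Gauss ring at the cusp `0` (the pull-back of the Gauss ring at
infinity under a swap). -/
theorem s36_gc_z_inv_mem_comap (A0 : ValuationSubring K0) (hq : q.Prime)
    (z : laurentBaseChange K0 (modularFunctionFieldFull M))
    (hz : (z : LaurentSeries K0) = s34_sw_s K0 (q ^ 2) - s34_sw_s K0 1)
    (W : laurentBaseChange K0 (modularFunctionFieldFull M) →+*
      laurentBaseChange K0 (modularFunctionFieldFull M)) (hWz : W z = -z) :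
    z⁻¹ ∈ (s34_gi_V A0 M).comap W := by
  show W z⁻¹ ∈ s34_gi_V A0 M
  rw [map_inv₀, hWz, inv_neg]
  exact neg_mem (s36_gc_z_inv_mem_gi A0 hq z hz)

end Gauss

end Fermat.Agent.S36
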