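import Mathlib
import Fermat.Agent.S36.ChartPkg3
import Fermat.Agent.S36.GaussC
import Fermat.Agent.S34.InstV

/-!
# S36 (NODE-3), model glue: the chart block of the concrete model with three components

`S36/ChartPkg3.lean` with the concrete components of the model of level `N₁ * q * q` over a
base field `K₀ ⊆ Q̄` (no Galois hypothesis; `A₀ = s18_A1 P K₀` a discrete valuation ring):

* `V_A = s34_md_V1 P K₀ (N₁ q q)` : the `q`-expansion Gauss ring at `∞`;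
* `V_B = s34_md_V2 P K₀ (N₁ q q) W` : its pull-back under the swap `W` of the pair `(N₁, q q)`;
* `V_C = s36_gc_V κ A (N₁ q q) Θ` : the Gauss ring at the cusp `1/q` (`S36/GaussC.lean`).

Results:

* `s36_cp3i_unifA`, `s36_cp3i_unifB` : `V_A`, `V_B` are uniformized by `π`;
* `s36_cp3i_le_A`, `s36_cp3i_le_B`, `s36_cp3i_le_C` (and `_inv`) : the charts of a rational
  coordinate of level `N₁` with integral `q`-expansion lie in the three components;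
* `s36_cp3i_chart_t2`, `s36_cp3i_chart_t3` : the chart block `s36_cp3_Chart` of the concrete
  model, with the three-component cap as the only remaining hypothesis;
* `s36_cp3i_chart_t2_q`, `s36_cp3i_chart_t3_q` : the same for `π = q`.
-/

set_option autoImplicit false
set_option synthInstance.maxHeartbeats 400000
set_option linter.style.haveILetI false
set_option linter.unusedSectionVars false
set_option linter.unusedVariables false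

open ModularCurve AlgebraicCurve

noncomputable section

namespace Fermat.Agent.S36

open Fermat.Agent.S18 Fermat.Agent.S34

local notation "Qb" => AlgebraicClosure ℚ

/-! ### The swapped coordinate at level `N₁ q q` -/

section Swap

variable {K : Type*} [Field K] [Algebra ℚ K] (A₁ : ValuationSubring K)
variable (N₁ q : ℕ) [NeZero N₁] [NeZero q] [NeZero (N₁ * q)]

/-- The swap of the pair `(N₁, q q)` maps a coordinate of level `N₁` with integral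
`q`-expansion into the Gauss ring at infinity. -/
theorem s36_cp3i_swap_coord_mem
    (w : laurentBaseChange K (modularFunctionFieldFull (N₁ * q)) ≃+*
      laurentBaseChange K (modularFunctionFieldFull (N₁ * q)))
    (W : laurentBaseChange K (modularFunctionFieldFull (N₁ * q * q)) ≃+*
      laurentBaseChange K (modularFunctionFieldFull (N₁ * q * q)))
    (hw : ∀ x, w (heckeAlphaBar K N₁ q x) = heckeBetaBar K N₁ q x)
    (hrel : ∀ y, W (heckeAlphaBar K (N₁ * q) q y) = heckeBetaBar K (N₁ * q) q (w y))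
    (t₀ : modularFunctionFieldFull (N₁ * q * q)) (t₁ : modularFunctionFieldFull (N₁ * q))
    (t₂ : modularFunctionFieldFull N₁)
    (h₁ : (t₀ : LaurentSeries ℚ) = (t₁ : LaurentSeries ℚ))
    (h₂ : (t₁ : LaurentSeries ℚ) = (t₂ : LaurentSeries ℚ)) (T : LaurentSeries ℤ)
    (hT : (t₂ : LaurentSeries ℚ) = coeffMap (Int.castRingHom ℚ) T) :
    W (s18_coord K t₀) ∈ s34_gi_V A₁ (N₁ * q * q) := by
  rw [s34_iv_coord_alpha (N₁ * q) q t₀ t₁ h₁, hrel, s34_iv_coord_alpha N₁ q t₁ t₂ h₂, hw]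
  exact s34_gi_qExpand_mem q (coe_heckeBetaBar (N₁ * q) q _)
    (s34_gi_qExpand_mem q (coe_heckeBetaBar N₁ q _) (s34_iv_coord_mem A₁ t₂ T hT))

/-- The swap of the pair `(N₁, q q)` maps the inverse of a coordinate of level `N₁` whose
inverse has integral `q`-expansion into the Gauss ring at infinity. -/
theorem s36_cp3i_swap_coord_inv_mem
    (w : laurentBaseChange K (modularFunctionFieldFull (N₁ * q)) ≃+*
      laurentBaseChange K (modularFunctionFieldFull (N₁ * q)))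
    (W : laurentBaseChange K (modularFunctionFieldFull (N₁ * q * q)) ≃+*
      laurentBaseChange K (modularFunctionFieldFull (N₁ * q * q)))
    (hw : ∀ x, w (heckeAlphaBar K N₁ q x) = heckeBetaBar K N₁ q x)
    (hrel : ∀ y, W (heckeAlphaBar K (N₁ * q) q y) = heckeBetaBar K (N₁ * q) q (w y))
    (t₀ : modularFunctionFieldFull (N₁ * q * q)) (t₁ : modularFunctionFieldFull (N₁ * q))
    (t₂ : modularFunctionFieldFull N₁)
    (h₁ : (t₀ : LaurentSeries ℚ) = (t₁ : LaurentSeries ℚ))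
    (h₂ : (t₁ : LaurentSeries ℚ) = (t₂ : LaurentSeries ℚ)) (Tinv : LaurentSeries ℤ)
    (hTinv : ((t₂⁻¹ : modularFunctionFieldFull N₁) : LaurentSeries ℚ) =
      coeffMap (Int.castRingHom ℚ) Tinv) :
    W (s18_coord K t₀)⁻¹ ∈ s34_gi_V A₁ (N₁ * q * q) := by
  rw [s34_iv_coord_alpha (N₁ * q) q t₀ t₁ h₁, ← map_inv₀, hrel,
    s34_iv_coord_alpha N₁ q t₁ t₂ h₂, ← map_inv₀, hw]
  exact s34_gi_qExpand_mem q (coe_heckeBetaBar (N₁ * q) q _)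
    (s34_gi_qExpand_mem q (coe_heckeBetaBar N₁ q _) (s34_iv_coord_inv_mem A₁ t₂ Tinv hTinv))

end Swap

/-! ### The components `V_A`, `V_B` -/

section AB

variable (P : ValuationSubring Qb) (K₀ : IntermediateField ℚ Qb)
  [IsDiscreteValuationRing (s18_A1 P K₀)] (L : ℕ) [NeZero L] {π : s18_A1 P K₀}

/-- **(c-AB), unif:** `V_A` is uniformized by `π`. -/
theorem s36_cp3i_unifA (hπ : Irreducible π) :
    s34_Unif (algebraMap (s18_A1 P K₀) (s18_F1 K₀ L) π) (s34_md_V1 P K₀ L) := by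
  have e : algebraMap (s18_A1 P K₀) (s18_F1 K₀ L) π =
      algebraMap K₀ (s18_F1 K₀ L) (π : K₀) := rfl
  rw [e]
  exact s34_gi_unif hπ

/-- **(c-AB), unif:** `V_B` is uniformized by `π`. -/
theorem s36_cp3i_unifB (hπ : Irreducible π) (W : s18_F1 K₀ L ≃ₐ[K₀] s18_F1 K₀ L) :
    s34_Unif (algebraMap (s18_A1 P K₀) (s18_F1 K₀ L) π) (s34_md_V2 P K₀ L W) := by
  have e : algebraMap (s18_A1 P K₀) (s18_F1 K₀ L) π =
      algebraMap K₀ (s18_F1 K₀ L) (π : K₀) := rfl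
  have h := (s36_cp3i_unifA P K₀ L hπ).comap W.toRingEquiv (by
    rw [e]
    exact W.commutes _)
  exact h

/-- Constants of `A₀` lie in `V_A`. -/
theorem s36_cp3i_const_A (a : s18_A1 P K₀) :
    algebraMap (s18_A1 P K₀) (s18_F1 K₀ L) a ∈ s34_md_V1 P K₀ L :=
  s34_gi_algebraMap_mem a

/-- Constants of `A₀` lie in `V_B`. -/
theorem s36_cp3i_const_B (W : s18_F1 K₀ L ≃ₐ[K₀] s18_F1 K₀ L) (a : s18_A1 P K₀) :
    algebraMap (s18_A1 P K₀) (s18_F1 K₀ L) a ∈ s34_md_V2 P K₀ L W := by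
  show W (algebraMap K₀ (s18_F1 K₀ L) (a : K₀)) ∈ s34_gi_V (s18_A1 P K₀) L
  rw [W.commutes]
  exact s34_gi_algebraMap_mem a

/-- **(c-AB), le:** the chart of a coordinate in `V_A` lies in `V_A`. -/
theorem s36_cp3i_le_A (hπ : Irreducible π) {t : s18_F1 K₀ L} (ht : t ∈ s34_md_V1 P K₀ L) :
    (s34_ic_chart (s18_A1 P K₀) t).toSubring ≤ s34_md_V1 P K₀ L :=
  s34_ic_le_unif (s36_cp3i_unifA P K₀ L hπ) (s36_cp3i_const_A P K₀ L) ht

/-- **(c-AB), le:** the chart of a coordinate in `V_B` lies in `V_B`. -/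
theorem s36_cp3i_le_B (hπ : Irreducible π) (W : s18_F1 K₀ L ≃ₐ[K₀] s18_F1 K₀ L)
    {t : s18_F1 K₀ L} (ht : t ∈ s34_md_V2 P K₀ L W) :
    (s34_ic_chart (s18_A1 P K₀) t).toSubring ≤ s34_md_V2 P K₀ L W :=
  s34_ic_le_unif (s36_cp3i_unifB P K₀ L hπ W) (s36_cp3i_const_B P K₀ L W) ht

end AB

/-! ### The chart block of the concrete model -/

section Chart

variable (P : ValuationSubring Qb) (K₀ : IntermediateField ℚ Qb)
  [IsDiscreteValuationRing (s18_A1 P K₀)]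
  (N₁ q : ℕ) [NeZero N₁] [NeZero q] [NeZero (N₁ * q)] [NeZero (N₁ * q * q)]
  {K : Type*} [Field K] [Algebra ℚ K] (κ : K₀ →+* K) (A : ValuationSubring K)
  [IsDiscreteValuationRing A]
  (Θ : laurentBaseChange K (modularFunctionFieldFull (N₁ * q * q)) →ₐ[K] LaurentSeries K)
  (ζ : Aˣ)

/-- The level `N₁ q q` in the form used by `S36/GaussC.lean`. -/
theorem s36_cp3i_level : N₁ * q * q = N₁ * q ^ 2 := by ring

/-- `q ^ 2` divides the level. -/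
theorem s36_cp3i_sq_dvd : q ^ 2 ∣ N₁ * q * q := ⟨N₁, by ring⟩

/-- **(c-C), unif:** `V_C` is uniformized by `z_C = j(Q^(q²)) - j(Q)`. -/
theorem s36_cp3i_unifC (hq : q.Prime) (hΘ : s36_gc_IsCusp N₁ q ζ Θ) (hζ : s36_gc_IsUnif ζ) :
    s34_Unif (s36_gc_z K₀ q (N₁ * q * q) hq (s36_cp3i_sq_dvd N₁ q))
      (s36_gc_V κ A (N₁ * q * q) Θ) :=
  s36_gc_unif hΘ hq (s36_cp3i_level N₁ q) hζ _ rfl

/-- **(c-C), le:** the chart of a coordinate in `V_C` lies in `V_C`. -/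
theorem s36_cp3i_le_C (hq : q.Prime) (hΘ : s36_gc_IsCusp N₁ q ζ Θ) (hζ : s36_gc_IsUnif ζ)
    (hA0 : ∀ a ∈ s18_A1 P K₀, κ a ∈ A) {t : s18_F1 K₀ (N₁ * q * q)}
    (ht : t ∈ s36_gc_V κ A (N₁ * q * q) Θ) :
    (s34_ic_chart (s18_A1 P K₀) t).toSubring ≤ s36_gc_V κ A (N₁ * q * q) Θ :=
  s36_gc_chart_le hΘ hq (s36_cp3i_level N₁ q) hζ (s18_A1 P K₀) hA0 ht

/-- **(c-C), multiplicity:** `q ∈ z_C · V_C` in the shape `hπz` of the chart block (`n = 1`). -/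
theorem s36_cp3i_q_div (hq : q.Prime) (hΘ : s36_gc_IsCusp N₁ q ζ Θ) (hζ1 : (ζ : A) ≠ 1) (c : A)
    (hc : (q : A) = ((ζ : A) - 1) ^ (q - 1) * c) :
    algebraMap (s18_A1 P K₀) (s18_F1 K₀ (N₁ * q * q)) ((q : ℕ) : s18_A1 P K₀) *
      (s36_gc_z K₀ q (N₁ * q * q) hq (s36_cp3i_sq_dvd N₁ q) ^ 1)⁻¹ ∈
        s36_gc_V κ A (N₁ * q * q) Θ := by
  have h := s36_gc_q_mem_zV (κ := κ) hΘ hq (s36_cp3i_sq_dvd N₁ q) hζ1 c hc
    (s36_gc_z K₀ q (N₁ * q * q) hq (s36_cp3i_sq_dvd N₁ q)) rfl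
  have e : algebraMap (s18_A1 P K₀) (s18_F1 K₀ (N₁ * q * q)) ((q : ℕ) : s18_A1 P K₀) =
      algebraMap K₀ (s18_F1 K₀ (N₁ * q * q)) ((q : ℕ) : K₀) := by
    rw [map_natCast, map_natCast]
  rw [e, pow_one]
  rwa [mul_comm (s36_gc_z K₀ q (N₁ * q * q) hq (s36_cp3i_sq_dvd N₁ q))⁻¹] at h

set_option maxHeartbeats 1000000 in
/-- **The chart block of the concrete model of level `N₁ q q`, Hauptmodul `t₂`**: all chart
hypotheses of `s36_two_chart` (and noetherianity, fraction field, normality, root-closedness,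
horizontal discrete valuation rings) for `V = V_A ⊓ V_B ⊓ V_C`, from the three-component cap. -/
theorem s36_cp3i_chart_t2 (h2 : 2 ∣ N₁) (h2' : 2 ∣ N₁ * q) (h2'' : 2 ∣ N₁ * q * q)
    (hq : q.Prime) (π : s18_A1 P K₀) (hπ : Irreducible π)
    (w : s18_F1 K₀ (N₁ * q) ≃ₐ[K₀] s18_F1 K₀ (N₁ * q))
    (W : s18_F1 K₀ (N₁ * q * q) ≃ₐ[K₀] s18_F1 K₀ (N₁ * q * q))
    (hw : ∀ x, w (heckeAlphaBar K₀ N₁ q x) = heckeBetaBar K₀ N₁ q x)
    (hrel : ∀ y, W (heckeAlphaBar K₀ (N₁ * q) q y) = heckeBetaBar K₀ (N₁ * q) q (w y))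
    (hΘ : s36_gc_IsCusp N₁ q ζ Θ) (hζ : s36_gc_IsUnif ζ) (hA0 : ∀ a ∈ s18_A1 P K₀, κ a ∈ A)
    (n : ℕ) (hn : 1 ≤ n)
    (hπz : algebraMap (s18_A1 P K₀) (s18_F1 K₀ (N₁ * q * q)) π *
      (s36_gc_z K₀ q (N₁ * q * q) hq (s36_cp3i_sq_dvd N₁ q) ^ n)⁻¹ ∈
        s36_gc_V κ A (N₁ * q * q) Θ)
    (hcap0 : ∀ x ∈ (s34_md_B0 P K₀ (N₁ * q * q) (s18_cz_t2 (N₁ * q * q) h2'')).toSubring,
      (algebraMap (s18_A1 P K₀) (s18_F1 K₀ (N₁ * q * q)) π)⁻¹ * x ∈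
        s34_md_V1 P K₀ (N₁ * q * q) →
      (algebraMap (s18_A1 P K₀) (s18_F1 K₀ (N₁ * q * q)) π)⁻¹ * x ∈
        s34_md_V2 P K₀ (N₁ * q * q) W →
      (algebraMap (s18_A1 P K₀) (s18_F1 K₀ (N₁ * q * q)) π)⁻¹ * x ∈
        s36_gc_V κ A (N₁ * q * q) Θ →
      (algebraMap (s18_A1 P K₀) (s18_F1 K₀ (N₁ * q * q)) π)⁻¹ * x ∈
        (s34_md_B0 P K₀ (N₁ * q * q) (s18_cz_t2 (N₁ * q * q) h2'')).toSubring)
    (hcapi : ∀ x ∈ (s34_md_Binf P K₀ (N₁ * q * q) (s18_cz_t2 (N₁ * q * q) h2'')).toSubring,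
      (algebraMap (s18_A1 P K₀) (s18_F1 K₀ (N₁ * q * q)) π)⁻¹ * x ∈
        s34_md_V1 P K₀ (N₁ * q * q) →
      (algebraMap (s18_A1 P K₀) (s18_F1 K₀ (N₁ * q * q)) π)⁻¹ * x ∈
        s34_md_V2 P K₀ (N₁ * q * q) W →
      (algebraMap (s18_A1 P K₀) (s18_F1 K₀ (N₁ * q * q)) π)⁻¹ * x ∈
        s36_gc_V κ A (N₁ * q * q) Θ →
      (algebraMap (s18_A1 P K₀) (s18_F1 K₀ (N₁ * q * q)) π)⁻¹ * x ∈
        (s34_md_Binf P K₀ (N₁ * q * q) (s18_cz_t2 (N₁ * q * q) h2'')).toSubring) :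
    s36_cp3_Chart π (s18_coord K₀ (s18_cz_t2 (N₁ * q * q) h2''))
      (s34_md_B0 P K₀ (N₁ * q * q) (s18_cz_t2 (N₁ * q * q) h2''))
      (s34_md_Binf P K₀ (N₁ * q * q) (s18_cz_t2 (N₁ * q * q) h2''))
      (s34_md_V1 P K₀ (N₁ * q * q) ⊓ s34_md_V2 P K₀ (N₁ * q * q) W ⊓
        s36_gc_V κ A (N₁ * q * q) Θ) := by
  have hT : ((s18_cz_t2 N₁ h2 : modularFunctionFieldFull N₁) : LaurentSeries ℚ) =
      coeffMap (Int.castRingHom ℚ) s18_t2 := rfl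
  have hTinv := s18_cz_coe_t2_inv N₁ h2
  have hTL : ((s18_cz_t2 (N₁ * q * q) h2'' : modularFunctionFieldFull (N₁ * q * q)) :
      LaurentSeries ℚ) = coeffMap (Int.castRingHom ℚ) s18_t2 := rfl
  have hTLinv := s18_cz_coe_t2_inv (N₁ * q * q) h2''
  have hlow : ((s18_cz_t2 (N₁ * q * q) h2'' : modularFunctionFieldFull (N₁ * q * q)) :
      LaurentSeries ℚ) ∈ modularFunctionFieldFull (N₁ * q) := (s18_cz_t2 (N₁ * q) h2').2
  exact s36_cp3_chart_t2 P K₀ (N₁ * q * q) h2'' π hπ _ _ _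
    (s36_cp3i_unifA P K₀ _ hπ) (s36_cp3i_unifB P K₀ _ hπ W)
    (s36_cp3i_unifC K₀ N₁ q κ A Θ ζ hq hΘ hζ) n hn hπz
    (s36_cp3i_le_A P K₀ _ hπ (s34_iv_coord_mem _ _ s18_t2 hTL))
    (s36_cp3i_le_B P K₀ _ hπ W (s36_cp3i_swap_coord_mem (s18_A1 P K₀) N₁ q w.toRingEquiv
      W.toRingEquiv hw hrel _ (s18_cz_t2 (N₁ * q) h2') (s18_cz_t2 N₁ h2) rfl rfl s18_t2 hT))
    (s36_cp3i_le_C P K₀ N₁ q κ A Θ ζ hq hΘ hζ hA0
      (s36_gc_coord_mem hΘ _ hlow s18_t2 hTL))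
    (s36_cp3i_le_A P K₀ _ hπ (s34_iv_coord_inv_mem _ _ s18_t2inv hTLinv))
    (s36_cp3i_le_B P K₀ _ hπ W (s36_cp3i_swap_coord_inv_mem (s18_A1 P K₀) N₁ q w.toRingEquiv
      W.toRingEquiv hw hrel _ (s18_cz_t2 (N₁ * q) h2') (s18_cz_t2 N₁ h2) rfl rfl s18_t2inv
      hTinv))
    (s36_cp3i_le_C P K₀ N₁ q κ A Θ ζ hq hΘ hζ hA0
      (s36_gc_coord_inv_mem hΘ _ hlow s18_t2inv hTLinv))
    hcap0 hcapi

set_option maxHeartbeats 1000000 in
/-- **The chart block of the concrete model of level `N₁ q q`, Hauptmodul `t₃`**: all chart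
hypotheses of `s36_two_chart` (and noetherianity, fraction field, normality, root-closedness,
horizontal discrete valuation rings) for `V = V_A ⊓ V_B ⊓ V_C`, from the three-component cap. -/
theorem s36_cp3i_chart_t3 (h3 : 3 ∣ N₁) (h3' : 3 ∣ N₁ * q) (h3'' : 3 ∣ N₁ * q * q)
    (hq : q.Prime) (π : s18_A1 P K₀) (hπ : Irreducible π)
    (w : s18_F1 K₀ (N₁ * q) ≃ₐ[K₀] s18_F1 K₀ (N₁ * q))
    (W : s18_F1 K₀ (N₁ * q * q) ≃ₐ[K₀] s18_F1 K₀ (N₁ * q * q))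
    (hw : ∀ x, w (heckeAlphaBar K₀ N₁ q x) = heckeBetaBar K₀ N₁ q x)
    (hrel : ∀ y, W (heckeAlphaBar K₀ (N₁ * q) q y) = heckeBetaBar K₀ (N₁ * q) q (w y))
    (hΘ : s36_gc_IsCusp N₁ q ζ Θ) (hζ : s36_gc_IsUnif ζ) (hA0 : ∀ a ∈ s18_A1 P K₀, κ a ∈ A)
    (n : ℕ) (hn : 1 ≤ n)
    (hπz : algebraMap (s18_A1 P K₀) (s18_F1 K₀ (N₁ * q * q)) π *
      (s36_gc_z K₀ q (N₁ * q * q) hq (s36_cp3i_sq_dvd N₁ q) ^ n)⁻¹ ∈
        s36_gc_V κ A (N₁ * q * q) Θ)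
    (hcap0 : ∀ x ∈ (s34_md_B0 P K₀ (N₁ * q * q) (s18_cz_t3 (N₁ * q * q) h3'')).toSubring,
      (algebraMap (s18_A1 P K₀) (s18_F1 K₀ (N₁ * q * q)) π)⁻¹ * x ∈
        s34_md_V1 P K₀ (N₁ * q * q) →
      (algebraMap (s18_A1 P K₀) (s18_F1 K₀ (N₁ * q * q)) π)⁻¹ * x ∈
        s34_md_V2 P K₀ (N₁ * q * q) W →
      (algebraMap (s18_A1 P K₀) (s18_F1 K₀ (N₁ * q * q)) π)⁻¹ * x ∈
        s36_gc_V κ A (N₁ * q * q) Θ →
      (algebraMap (s18_A1 P K₀) (s18_F1 K₀ (N₁ * q * q)) π)⁻¹ * x ∈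
        (s34_md_B0 P K₀ (N₁ * q * q) (s18_cz_t3 (N₁ * q * q) h3'')).toSubring)
    (hcapi : ∀ x ∈ (s34_md_Binf P K₀ (N₁ * q * q) (s18_cz_t3 (N₁ * q * q) h3'')).toSubring,
      (algebraMap (s18_A1 P K₀) (s18_F1 K₀ (N₁ * q * q)) π)⁻¹ * x ∈
        s34_md_V1 P K₀ (N₁ * q * q) →
      (algebraMap (s18_A1 P K₀) (s18_F1 K₀ (N₁ * q * q)) π)⁻¹ * x ∈
        s34_md_V2 P K₀ (N₁ * q * q) W →
      (algebraMap (s18_A1 P K₀) (s18_F1 K₀ (N₁ * q * q)) π)⁻¹ * x ∈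
        s36_gc_V κ A (N₁ * q * q) Θ →
      (algebraMap (s18_A1 P K₀) (s18_F1 K₀ (N₁ * q * q)) π)⁻¹ * x ∈
        (s34_md_Binf P K₀ (N₁ * q * q) (s18_cz_t3 (N₁ * q * q) h3'')).toSubring) :
    s36_cp3_Chart π (s18_coord K₀ (s18_cz_t3 (N₁ * q * q) h3''))
      (s34_md_B0 P K₀ (N₁ * q * q) (s18_cz_t3 (N₁ * q * q) h3''))
      (s34_md_Binf P K₀ (N₁ * q * q) (s18_cz_t3 (N₁ * q * q) h3''))
      (s34_md_V1 P K₀ (N₁ * q * q) ⊓ s34_md_V2 P K₀ (N₁ * q * q) W ⊓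
        s36_gc_V κ A (N₁ * q * q) Θ) := by
  have hT : ((s18_cz_t3 N₁ h3 : modularFunctionFieldFull N₁) : LaurentSeries ℚ) =
      coeffMap (Int.castRingHom ℚ) s18_t3 := rfl
  have hTinv := s18_cz_coe_t3_inv N₁ h3
  have hTL : ((s18_cz_t3 (N₁ * q * q) h3'' : modularFunctionFieldFull (N₁ * q * q)) :
      LaurentSeries ℚ) = coeffMap (Int.castRingHom ℚ) s18_t3 := rfl
  have hTLinv := s18_cz_coe_t3_inv (N₁ * q * q) h3''
  have hlow : ((s18_cz_t3 (N₁ * q * q) h3'' : modularFunctionFieldFull (N₁ * q * q)) :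
      LaurentSeries ℚ) ∈ modularFunctionFieldFull (N₁ * q) := (s18_cz_t3 (N₁ * q) h3').2
  exact s36_cp3_chart_t3 P K₀ (N₁ * q * q) h3'' π hπ _ _ _
    (s36_cp3i_unifA P K₀ _ hπ) (s36_cp3i_unifB P K₀ _ hπ W)
    (s36_cp3i_unifC K₀ N₁ q κ A Θ ζ hq hΘ hζ) n hn hπz
    (s36_cp3i_le_A P K₀ _ hπ (s34_iv_coord_mem _ _ s18_t3 hTL))
    (s36_cp3i_le_B P K₀ _ hπ W (s36_cp3i_swap_coord_mem (s18_A1 P K₀) N₁ q w.toRingEquiv
      W.toRingEquiv hw hrel _ (s18_cz_t3 (N₁ * q) h3') (s18_cz_t3 N₁ h3) rfl rfl s18_t3 hT))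
    (s36_cp3i_le_C P K₀ N₁ q κ A Θ ζ hq hΘ hζ hA0
      (s36_gc_coord_mem hΘ _ hlow s18_t3 hTL))
    (s36_cp3i_le_A P K₀ _ hπ (s34_iv_coord_inv_mem _ _ s18_t3inv hTLinv))
    (s36_cp3i_le_B P K₀ _ hπ W (s36_cp3i_swap_coord_inv_mem (s18_A1 P K₀) N₁ q w.toRingEquiv
      W.toRingEquiv hw hrel _ (s18_cz_t3 (N₁ * q) h3') (s18_cz_t3 N₁ h3) rfl rfl s18_t3inv
      hTinv))
    (s36_cp3i_le_C P K₀ N₁ q κ A Θ ζ hq hΘ hζ hA0
      (s36_gc_coord_inv_mem hΘ _ hlow s18_t3inv hTLinv))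
    hcap0 hcapi

end Chart

end Fermat.Agent.S36
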