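import Mathlib
import Fermat.Agent.S36.ChartPkg3Inst
import Fermat.Agent.S36.Cap3Model

/-!
# S36 (NODE-3), model glue: the chart block of the concrete model, unconditionally

`S36/ChartPkg3Inst.lean` with the landed three-component cap `s36_c3m_cap`
(`S36/Cap3Model.lean`) plugged in, for the uniformizer `π = q` of `A₀ = s18_A1 P K₀`
(`K₀ ⊆ Q̄` a number field in which `q` is a uniformizer at `P`; no Galois hypothesis):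

* `s36_cp3f_alphaC` : the Gauss ring of level `N₁ q` maps into `V_C` under `α`;
* `s36_cp3f_ne` : `V_A ≠ V_C`;
* `s36_cp3f_cap_t2`, `s36_cp3f_cap_t3` : the three-component cap of both charts;
* `s36_cp3f_chart_t2`, `s36_cp3f_chart_t3` : the chart block `s36_cp3_Chart` of the concrete
  model (all chart hypotheses of `s36_two_chart`, and noetherianity, fraction field, normality,
  root-closedness, horizontal discrete valuation rings), with no remaining hypothesis on the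
  model.
-/

set_option autoImplicit false
set_option synthInstance.maxHeartbeats 400000
set_option linter.style.haveILetI false
set_option linter.unusedSectionVars false
set_option linter.unusedVariables false

open ModularCurve AlgebraicCurve

noncomputable section

namespace Fermat.Agent.S36

open Fermat.Agent.S18 Fermat.Agent.S34 Fermat.Agent.S35

local notation "Qb" => AlgebraicClosure ℚ

section Full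

variable (P : ValuationSubring Qb) (K₀ : IntermediateField ℚ Qb)
  [IsDiscreteValuationRing (s18_A1 P K₀)]
  (N₁ q : ℕ) [NeZero N₁] [NeZero q] [NeZero (N₁ * q)] [NeZero (N₁ * q * q)]
  {K : Type*} [Field K] [Algebra ℚ K] (κ : K₀ →+* K) (A : ValuationSubring K)
  [IsDiscreteValuationRing A]
  (Θ : laurentBaseChange K (modularFunctionFieldFull (N₁ * q * q)) →ₐ[K] LaurentSeries K)
  (ζ : Aˣ)

/-- **(c-C):** the Gauss ring of level `N₁ q` maps into `V_C` under `α`. -/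
theorem s36_cp3f_alphaC (hΘ : s36_gc_IsCusp N₁ q ζ Θ) (hA0 : ∀ a ∈ s18_A1 P K₀, κ a ∈ A)
    (y : s18_F1 K₀ (N₁ * q)) (hy : y ∈ s34_gi_V (s18_A1 P K₀) (N₁ * q)) :
    (heckeAlphaBar K₀ (N₁ * q) q).toRingHom y ∈ s36_gc_V κ A (N₁ * q * q) Θ :=
  s36_gc_low_mem hΘ (s18_A1 P K₀) hA0 _ y (coe_heckeAlphaBar (N₁ * q) q y) hy

/-- **(c-C):** `V_A ≠ V_C` (`z_C` is a unit of `V_A` and not of `V_C`). -/
theorem s36_cp3f_ne (hq : q.Prime) (hΘ : s36_gc_IsCusp N₁ q ζ Θ) (hζ : s36_gc_IsUnif ζ) :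
    s34_gi_V (s18_A1 P K₀) (N₁ * q * q) ≠ s36_gc_V κ A (N₁ * q * q) Θ := by
  intro h
  have h1 : (s36_gc_z K₀ q (N₁ * q * q) hq (s36_cp3i_sq_dvd N₁ q))⁻¹ ∈
      s34_gi_V (s18_A1 P K₀) (N₁ * q * q) :=
    s36_gc_z_inv_mem_gi (s18_A1 P K₀) hq _ rfl
  rw [h] at h1
  exact s36_gc_z_inv_not_mem hΘ hq (s36_cp3i_sq_dvd N₁ q) hζ.1 hζ.2.1 _ rfl h1

set_option maxHeartbeats 1000000 in
/-- **(c-cap) for the concrete model, Hauptmodul `t₂`:** the three-component cap of both charts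
of level `N₁ q q` (from `s36_c3m_cap`), for `π = q`. -/
theorem s36_cp3f_cap_t2 [Fact q.Prime] [FiniteDimensional ℚ K₀] (hP : P.LiesOverPrime q)
    (hqN : ¬ q ∣ N₁) (h2 : 2 ∣ N₁) (h2' : 2 ∣ N₁ * q) (h2'' : 2 ∣ N₁ * q * q)
    (hqirr : Irreducible ((q : ℕ) : s18_A1 P K₀))
    (w : s18_F1 K₀ (N₁ * q) ≃ₐ[K₀] s18_F1 K₀ (N₁ * q)) (hw : s34_md_IsSwap K₀ N₁ q w)
    (W : s18_F1 K₀ (N₁ * q * q) ≃ₐ[K₀] s18_F1 K₀ (N₁ * q * q))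
    (hrel : ∀ y, W (heckeAlphaBar K₀ (N₁ * q) q y) = heckeBetaBar K₀ (N₁ * q) q (w y))
    (hΘ : s36_gc_IsCusp N₁ q ζ Θ) (hζ : s36_gc_IsUnif ζ) (hA0 : ∀ a ∈ s18_A1 P K₀, κ a ∈ A)
    (c : A) (hc : (q : A) = ((ζ : A) - 1) ^ (q - 1) * c) :
    (∀ x ∈ (s34_md_B0 P K₀ (N₁ * q * q) (s18_cz_t2 (N₁ * q * q) h2'')).toSubring,
      (algebraMap (s18_A1 P K₀) (s18_F1 K₀ (N₁ * q * q)) ((q : ℕ) : s18_A1 P K₀))⁻¹ * x ∈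
        s34_md_V1 P K₀ (N₁ * q * q) →
      (algebraMap (s18_A1 P K₀) (s18_F1 K₀ (N₁ * q * q)) ((q : ℕ) : s18_A1 P K₀))⁻¹ * x ∈
        s34_md_V2 P K₀ (N₁ * q * q) W →
      (algebraMap (s18_A1 P K₀) (s18_F1 K₀ (N₁ * q * q)) ((q : ℕ) : s18_A1 P K₀))⁻¹ * x ∈
        s36_gc_V κ A (N₁ * q * q) Θ →
      (algebraMap (s18_A1 P K₀) (s18_F1 K₀ (N₁ * q * q)) ((q : ℕ) : s18_A1 P K₀))⁻¹ * x ∈
        (s34_md_B0 P K₀ (N₁ * q * q) (s18_cz_t2 (N₁ * q * q) h2'')).toSubring) ∧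
    (∀ x ∈ (s34_md_Binf P K₀ (N₁ * q * q) (s18_cz_t2 (N₁ * q * q) h2'')).toSubring,
      (algebraMap (s18_A1 P K₀) (s18_F1 K₀ (N₁ * q * q)) ((q : ℕ) : s18_A1 P K₀))⁻¹ * x ∈
        s34_md_V1 P K₀ (N₁ * q * q) →
      (algebraMap (s18_A1 P K₀) (s18_F1 K₀ (N₁ * q * q)) ((q : ℕ) : s18_A1 P K₀))⁻¹ * x ∈
        s34_md_V2 P K₀ (N₁ * q * q) W →
      (algebraMap (s18_A1 P K₀) (s18_F1 K₀ (N₁ * q * q)) ((q : ℕ) : s18_A1 P K₀))⁻¹ * x ∈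
        s36_gc_V κ A (N₁ * q * q) Θ →
      (algebraMap (s18_A1 P K₀) (s18_F1 K₀ (N₁ * q * q)) ((q : ℕ) : s18_A1 P K₀))⁻¹ * x ∈
        (s34_md_Binf P K₀ (N₁ * q * q) (s18_cz_t2 (N₁ * q * q) h2'')).toSubring) := by
  have hq : q.Prime := Fact.out
  have hU := s36_cp3i_unifC K₀ N₁ q κ A Θ ζ hq hΘ hζ
  have hzn : algebraMap K₀ (s18_F1 K₀ (N₁ * q * q)) ((((q : ℕ) : s18_A1 P K₀)) : K₀) *
      (s36_gc_z K₀ q (N₁ * q * q) hq (s36_cp3i_sq_dvd N₁ q) ^ (q - 1))⁻¹ ∈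
        s36_gc_V κ A (N₁ * q * q) Θ :=
    s36_gc_q_div (κ := κ) hΘ hq (s36_cp3i_sq_dvd N₁ q) hζ.1 c hc _ rfl
  exact s36_c3m_cap N₁ q P hP K₀ hqN _ hqirr (s18_cz_t2 (N₁ * q) h2') (Or.inl ⟨rfl, h2⟩)
    (s18_cz_t2 (N₁ * q * q) h2'') rfl w hw W.toRingEquiv (W.commutes _) hrel _ _
    ⟨hU.mem, hU.inv_not_mem, hU.decomp⟩ (s36_cp3f_alphaC P K₀ N₁ q κ A Θ ζ hΘ hA0)
    (s36_cp3f_ne P K₀ N₁ q κ A Θ ζ hq hΘ hζ) hzn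

set_option maxHeartbeats 1000000 in
/-- **The chart block of the concrete model of level `N₁ q q`, Hauptmodul `t₂`, unconditionally**
(`π = q`): all chart hypotheses of `s36_two_chart` for `V = V_A ⊓ V_B ⊓ V_C`. -/
theorem s36_cp3f_chart_t2 [Fact q.Prime] [FiniteDimensional ℚ K₀] (hP : P.LiesOverPrime q)
    (hqN : ¬ q ∣ N₁) (h2 : 2 ∣ N₁) (h2' : 2 ∣ N₁ * q) (h2'' : 2 ∣ N₁ * q * q)
    (hqirr : Irreducible ((q : ℕ) : s18_A1 P K₀))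
    (w : s18_F1 K₀ (N₁ * q) ≃ₐ[K₀] s18_F1 K₀ (N₁ * q)) (hw : s34_md_IsSwap K₀ N₁ q w)
    (W : s18_F1 K₀ (N₁ * q * q) ≃ₐ[K₀] s18_F1 K₀ (N₁ * q * q))
    (hrel : ∀ y, W (heckeAlphaBar K₀ (N₁ * q) q y) = heckeBetaBar K₀ (N₁ * q) q (w y))
    (hΘ : s36_gc_IsCusp N₁ q ζ Θ) (hζ : s36_gc_IsUnif ζ) (hA0 : ∀ a ∈ s18_A1 P K₀, κ a ∈ A)
    (c : A) (hc : (q : A) = ((ζ : A) - 1) ^ (q - 1) * c) :
    s36_cp3_Chart ((q : ℕ) : s18_A1 P K₀) (s18_coord K₀ (s18_cz_t2 (N₁ * q * q) h2''))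
      (s34_md_B0 P K₀ (N₁ * q * q) (s18_cz_t2 (N₁ * q * q) h2''))
      (s34_md_Binf P K₀ (N₁ * q * q) (s18_cz_t2 (N₁ * q * q) h2''))
      (s34_md_V1 P K₀ (N₁ * q * q) ⊓ s34_md_V2 P K₀ (N₁ * q * q) W ⊓
        s36_gc_V κ A (N₁ * q * q) Θ) := by
  have hq : q.Prime := Fact.out
  obtain ⟨hcap0, hcapi⟩ := s36_cp3f_cap_t2 P K₀ N₁ q κ A Θ ζ hP hqN h2 h2' h2'' hqirr w hw W hrel
    hΘ hζ hA0 c hc
  exact s36_cp3i_chart_t2 P K₀ N₁ q κ A Θ ζ h2 h2' h2'' hq _ hqirr w W hw.1 hrel hΘ hζ hA0 1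
    le_rfl (s36_cp3i_q_div P K₀ N₁ q κ A Θ ζ hq hΘ hζ.1 c hc) hcap0 hcapi

set_option maxHeartbeats 1000000 in
/-- **(c-cap) for the concrete model, Hauptmodul `t₃`:** the three-component cap of both charts
of level `N₁ q q` (from `s36_c3m_cap`), for `π = q`. -/
theorem s36_cp3f_cap_t3 [Fact q.Prime] [FiniteDimensional ℚ K₀] (hP : P.LiesOverPrime q)
    (hqN : ¬ q ∣ N₁) (h3 : 3 ∣ N₁) (h3' : 3 ∣ N₁ * q) (h3'' : 3 ∣ N₁ * q * q)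
    (hqirr : Irreducible ((q : ℕ) : s18_A1 P K₀))
    (w : s18_F1 K₀ (N₁ * q) ≃ₐ[K₀] s18_F1 K₀ (N₁ * q)) (hw : s34_md_IsSwap K₀ N₁ q w)
    (W : s18_F1 K₀ (N₁ * q * q) ≃ₐ[K₀] s18_F1 K₀ (N₁ * q * q))
    (hrel : ∀ y, W (heckeAlphaBar K₀ (N₁ * q) q y) = heckeBetaBar K₀ (N₁ * q) q (w y))
    (hΘ : s36_gc_IsCusp N₁ q ζ Θ) (hζ : s36_gc_IsUnif ζ) (hA0 : ∀ a ∈ s18_A1 P K₀, κ a ∈ A)
    (c : A) (hc : (q : A) = ((ζ : A) - 1) ^ (q - 1) * c) :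
    (∀ x ∈ (s34_md_B0 P K₀ (N₁ * q * q) (s18_cz_t3 (N₁ * q * q) h3'')).toSubring,
      (algebraMap (s18_A1 P K₀) (s18_F1 K₀ (N₁ * q * q)) ((q : ℕ) : s18_A1 P K₀))⁻¹ * x ∈
        s34_md_V1 P K₀ (N₁ * q * q) →
      (algebraMap (s18_A1 P K₀) (s18_F1 K₀ (N₁ * q * q)) ((q : ℕ) : s18_A1 P K₀))⁻¹ * x ∈
        s34_md_V2 P K₀ (N₁ * q * q) W →
      (algebraMap (s18_A1 P K₀) (s18_F1 K₀ (N₁ * q * q)) ((q : ℕ) : s18_A1 P K₀))⁻¹ * x ∈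
        s36_gc_V κ A (N₁ * q * q) Θ →
      (algebraMap (s18_A1 P K₀) (s18_F1 K₀ (N₁ * q * q)) ((q : ℕ) : s18_A1 P K₀))⁻¹ * x ∈
        (s34_md_B0 P K₀ (N₁ * q * q) (s18_cz_t3 (N₁ * q * q) h3'')).toSubring) ∧
    (∀ x ∈ (s34_md_Binf P K₀ (N₁ * q * q) (s18_cz_t3 (N₁ * q * q) h3'')).toSubring,
      (algebraMap (s18_A1 P K₀) (s18_F1 K₀ (N₁ * q * q)) ((q : ℕ) : s18_A1 P K₀))⁻¹ * x ∈
        s34_md_V1 P K₀ (N₁ * q * q) →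
      (algebraMap (s18_A1 P K₀) (s18_F1 K₀ (N₁ * q * q)) ((q : ℕ) : s18_A1 P K₀))⁻¹ * x ∈
        s34_md_V2 P K₀ (N₁ * q * q) W →
      (algebraMap (s18_A1 P K₀) (s18_F1 K₀ (N₁ * q * q)) ((q : ℕ) : s18_A1 P K₀))⁻¹ * x ∈
        s36_gc_V κ A (N₁ * q * q) Θ →
      (algebraMap (s18_A1 P K₀) (s18_F1 K₀ (N₁ * q * q)) ((q : ℕ) : s18_A1 P K₀))⁻¹ * x ∈
        (s34_md_Binf P K₀ (N₁ * q * q) (s18_cz_t3 (N₁ * q * q) h3'')).toSubring) := by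
  have hq : q.Prime := Fact.out
  have hU := s36_cp3i_unifC K₀ N₁ q κ A Θ ζ hq hΘ hζ
  have hzn : algebraMap K₀ (s18_F1 K₀ (N₁ * q * q)) ((((q : ℕ) : s18_A1 P K₀)) : K₀) *
      (s36_gc_z K₀ q (N₁ * q * q) hq (s36_cp3i_sq_dvd N₁ q) ^ (q - 1))⁻¹ ∈
        s36_gc_V κ A (N₁ * q * q) Θ :=
    s36_gc_q_div (κ := κ) hΘ hq (s36_cp3i_sq_dvd N₁ q) hζ.1 c hc _ rfl
  exact s36_c3m_cap N₁ q P hP K₀ hqN _ hqirr (s18_cz_t3 (N₁ * q) h3') (Or.inr ⟨rfl, h3⟩)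
    (s18_cz_t3 (N₁ * q * q) h3'') rfl w hw W.toRingEquiv (W.commutes _) hrel _ _
    ⟨hU.mem, hU.inv_not_mem, hU.decomp⟩ (s36_cp3f_alphaC P K₀ N₁ q κ A Θ ζ hΘ hA0)
    (s36_cp3f_ne P K₀ N₁ q κ A Θ ζ hq hΘ hζ) hzn

set_option maxHeartbeats 1000000 in
/-- **The chart block of the concrete model of level `N₁ q q`, Hauptmodul `t₃`, unconditionally**
(`π = q`): all chart hypotheses of `s36_two_chart` for `V = V_A ⊓ V_B ⊓ V_C`. -/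
theorem s36_cp3f_chart_t3 [Fact q.Prime] [FiniteDimensional ℚ K₀] (hP : P.LiesOverPrime q)
    (hqN : ¬ q ∣ N₁) (h3 : 3 ∣ N₁) (h3' : 3 ∣ N₁ * q) (h3'' : 3 ∣ N₁ * q * q)
    (hqirr : Irreducible ((q : ℕ) : s18_A1 P K₀))
    (w : s18_F1 K₀ (N₁ * q) ≃ₐ[K₀] s18_F1 K₀ (N₁ * q)) (hw : s34_md_IsSwap K₀ N₁ q w)
    (W : s18_F1 K₀ (N₁ * q * q) ≃ₐ[K₀] s18_F1 K₀ (N₁ * q * q))
    (hrel : ∀ y, W (heckeAlphaBar K₀ (N₁ * q) q y) = heckeBetaBar K₀ (N₁ * q) q (w y))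
    (hΘ : s36_gc_IsCusp N₁ q ζ Θ) (hζ : s36_gc_IsUnif ζ) (hA0 : ∀ a ∈ s18_A1 P K₀, κ a ∈ A)
    (c : A) (hc : (q : A) = ((ζ : A) - 1) ^ (q - 1) * c) :
    s36_cp3_Chart ((q : ℕ) : s18_A1 P K₀) (s18_coord K₀ (s18_cz_t3 (N₁ * q * q) h3''))
      (s34_md_B0 P K₀ (N₁ * q * q) (s18_cz_t3 (N₁ * q * q) h3''))
      (s34_md_Binf P K₀ (N₁ * q * q) (s18_cz_t3 (N₁ * q * q) h3''))
      (s34_md_V1 P K₀ (N₁ * q * q) ⊓ s34_md_V2 P K₀ (N₁ * q * q) W ⊓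
        s36_gc_V κ A (N₁ * q * q) Θ) := by
  have hq : q.Prime := Fact.out
  obtain ⟨hcap0, hcapi⟩ := s36_cp3f_cap_t3 P K₀ N₁ q κ A Θ ζ hP hqN h3 h3' h3'' hqirr w hw W hrel
    hΘ hζ hA0 c hc
  exact s36_cp3i_chart_t3 P K₀ N₁ q κ A Θ ζ h3 h3' h3'' hq _ hqirr w W hw.1 hrel hΘ hζ hA0 1
    le_rfl (s36_cp3i_q_div P K₀ N₁ q κ A Θ ζ hq hΘ hζ.1 c hc) hcap0 hcapi

end Full

end Fermat.Agent.S36
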