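import Mathlib
import Fermat.Agent.S34.RatPt
import Fermat.Agent.S18.ConstBar
import Fermat.Agent.S29.Descent
import Fermat.Agent.S29.LinDisj

/-!
# S36 (NODE-3), leaf (BASE): descent of an invariant torsion class to an invariant function

`I` an ARBITRARY subgroup of `Gal(Q̄/ℚ)` (to be used with the inertia group
`P.inertiaSubgroupIn ℚ`), `x ∈ J₀(M)(Q̄)` with `m • x = 0` and `τ • x = x` for all `τ ∈ I`.

* `s36_bi_h90_abs` : Hilbert's Theorem 90 in Poincaré-series form, for a cocycle which is trivial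
  on the elements fixing a "finite" field `K` (finitely many embeddings).
* `s36_bi_main` : there are a divisor `D` of degree `0` in the class `x` and a function `g` with
  `div g = m • D` such that `τ g = g` (coefficientwise action) and `τ • D = D` for all `τ ∈ I`.
* `s36_bi_field` : an `I`-invariant function is defined over `T` for every intermediate field `T`
  containing `K₁ ∩ Q̄^I`, `K₁` any sufficiently large number field.
* `s36_bi_main_field` : the two statements combined.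
-/

set_option autoImplicit false
set_option synthInstance.maxHeartbeats 400000

open AlgebraicCurve ModularCurve
open Fermat.Agent.S18 Fermat.Agent.S24 Fermat.Agent.S29 Fermat.Agent.S34 Fermat.Agent.S37

noncomputable section

namespace Fermat.Agent.S36

local notation "Qb" => AlgebraicClosure ℚ

/-! ### Hilbert 90, abstract Poincaré-series form -/

/-- **Hilbert 90 (Poincaré series).**  `h` a cocycle on the subgroup `I` with values in `Fˣ`,
trivial on the elements of `I` fixing the image of `K` (a field with finitely many embeddings into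
the constants `E`).  Then `h σ = f / σ f` for some `f ≠ 0`. -/
theorem s36_bi_h90_abs {F E K G : Type*} [Field F] [Field E] [Field K] [Group G]
    (ι : E →+* F) (ρF : G → F →+* F) (ρE : G → E →+* E)
    (hρ : ∀ σ a, ρF σ (ι a) = ι (ρE σ a))
    (hE_mul : ∀ σ τ a, ρE (σ * τ) a = ρE σ (ρE τ a)) (hE_one : ∀ a, ρE 1 a = a)
    (I : Subgroup G) (j : K →+* E) [Finite (K →+* E)]
    (h : G → F) (h0 : ∀ τ ∈ I, h τ ≠ 0)
    (hcoc : ∀ σ ∈ I, ∀ τ ∈ I, h (σ * τ) = h σ * ρF σ (h τ))
    (hcont : ∀ τ ∈ I, (∀ a : K, ρE τ (j a) = j a) → h τ = 1) :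
    ∃ f : F, f ≠ 0 ∧ ∀ σ ∈ I, h σ * ρF σ f = f := by
  classical
  have : Fintype (K →+* E) := Fintype.ofFinite _
  set r : G → (K →+* E) := fun τ => (ρE τ).comp j with hr
  have hr_mul : ∀ σ τ, r (σ * τ) = (ρE σ).comp (r τ) := by
    intro σ τ
    ext a
    simp only [hr, RingHom.comp_apply]
    exact hE_mul σ τ (j a)
  set J : Set (K →+* E) := {φ | ∃ τ, τ ∈ I ∧ r τ = φ} with hJ
  set t : (K →+* E) → G := fun φ => if hφ : φ ∈ J then Classical.choose hφ else 1 with ht
  have htJ : ∀ φ ∈ J, t φ ∈ I ∧ r (t φ) = φ := by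
    intro φ hφ
    have : t φ = Classical.choose hφ := by simp only [ht, dif_pos hφ]
    rw [this]
    exact Classical.choose_spec hφ
  set c : (K →+* E) → F := fun φ => if φ ∈ J then h (t φ) else 0 with hc
  -- `h` depends only on the restriction
  have hinv_mem : ∀ σ ∈ I, σ⁻¹ ∈ I := fun σ hσ => I.inv_mem hσ
  have hE_inv : ∀ σ a, ρE σ⁻¹ (ρE σ a) = a := by
    intro σ a
    rw [← hE_mul, inv_mul_cancel, hE_one]
  have hE_inv' : ∀ σ a, ρE σ (ρE σ⁻¹ a) = a := by
    intro σ a
    rw [← hE_mul, mul_inv_cancel, hE_one]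
  have hi : ∀ σ ∈ I, ∀ τ ∈ I, r σ = r τ → h σ = h τ := by
    intro σ hσ τ hτ hστ
    have hν : σ⁻¹ * τ ∈ I := I.mul_mem (I.inv_mem hσ) hτ
    have h1 : h (σ⁻¹ * τ) = 1 := by
      apply hcont _ hν
      intro a
      rw [hE_mul]
      have h2 : ρE τ (j a) = ρE σ (j a) := by
        have := congrArg (fun φ : K →+* E => φ a) hστ
        simpa only [hr, RingHom.comp_apply] using this.symm
      rw [h2, hE_inv]
    have h3 : τ = σ * (σ⁻¹ * τ) := by rw [mul_inv_cancel_left]
    rw [h3, hcoc σ hσ _ hν, h1, map_one, mul_one]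
  have hcr : ∀ τ ∈ I, c (r τ) = h τ := by
    intro τ hτ
    have hmem : r τ ∈ J := ⟨τ, hτ, rfl⟩
    simp only [hc, if_pos hmem]
    exact hi _ (htJ _ hmem).1 τ hτ (htJ _ hmem).2
  -- independence of characters
  obtain ⟨b, hb⟩ : ∃ b : K, ∑ φ : K →+* E, c φ * ι (φ b) ≠ 0 := by
    by_contra hall
    push Not at hall
    have hinj : Function.Injective
        (fun φ : K →+* E => ((ι.comp φ : K →+* F) : K →* F)) := by
      intro φ ψ hφψ
      ext a
      have := congrArg (fun χ : K →* F => χ a) hφψ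
      exact ι.injective this
    have hli := (linearIndependent_monoidHom K F).comp _ hinj
    have hzero := Fintype.linearIndependent_iff.mp hli c (by
      funext a
      have := hall a
      simpa [Finset.sum_apply, Pi.smul_apply, smul_eq_mul] using this)
    have h1 : c (r 1) = h 1 := hcr 1 I.one_mem
    exact h0 1 I.one_mem (by rw [← h1, hzero])
  refine ⟨∑ φ : K →+* E, c φ * ι (φ b), hb, fun σ hσ => ?_⟩
  rw [map_sum, Finset.mul_sum]
  let e : (K →+* E) ≃ (K →+* E) :=
    { toFun := fun φ => (ρE σ).comp φ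
      invFun := fun φ => (ρE σ⁻¹).comp φ
      left_inv := fun φ => by
        ext a
        simp only [RingHom.comp_apply]
        exact hE_inv σ (φ a)
      right_inv := fun φ => by
        ext a
        simp only [RingHom.comp_apply]
        exact hE_inv' σ (φ a) }
  rw [← Equiv.sum_comp e (fun φ => c φ * ι (φ b))]
  refine Finset.sum_congr rfl fun φ _ => ?_
  have he : e φ = (ρE σ).comp φ := rfl
  rw [map_mul, hρ, he, RingHom.comp_apply, ← mul_assoc]
  congr 1
  by_cases hφ : φ ∈ J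
  · obtain ⟨htI, htr⟩ := htJ φ hφ
    have h1 : (ρE σ).comp φ = r (σ * t φ) := by rw [hr_mul, htr]
    rw [h1, hcr _ (I.mul_mem hσ htI), hcoc σ hσ _ htI]
    simp only [hc, if_pos hφ]
  · have h1 : (ρE σ).comp φ ∉ J := by
      rintro ⟨τ, hτ, hτφ⟩
      apply hφ
      refine ⟨σ⁻¹ * τ, I.mul_mem (I.inv_mem hσ) hτ, ?_⟩
      rw [hr_mul, hτφ]
      ext a
      simp only [RingHom.comp_apply]
      exact hE_inv σ (φ a)
    simp only [hc, if_neg hφ, if_neg h1, map_zero, mul_zero]

/-! ### Leading coefficients of `q`-expansions -/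

/-- The leading coefficient of the `q`-expansion. -/
def s36_bi_lc (M : ℕ) (f : modularFunctionFieldBar M) : Qb :=
  (f : LaurentSeries Qb).leadingCoeff

theorem s36_bi_lc_mul (M : ℕ) (f g : modularFunctionFieldBar M) :
    s36_bi_lc M (f * g) = s36_bi_lc M f * s36_bi_lc M g :=
  HahnSeries.leadingCoeff_mul (f : LaurentSeries Qb) (g : LaurentSeries Qb)

theorem s36_bi_lc_one (M : ℕ) : s36_bi_lc M 1 = 1 :=
  HahnSeries.leadingCoeff_one

theorem s36_bi_lc_eq_zero (M : ℕ) (f : modularFunctionFieldBar M) :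
    s36_bi_lc M f = 0 ↔ f = 0 := by
  unfold s36_bi_lc
  rw [HahnSeries.leadingCoeff_eq_zero]
  exact ⟨fun h => Subtype.ext h, fun h => by rw [h]; rfl⟩

theorem s36_bi_lc_pow (M : ℕ) (f : modularFunctionFieldBar M) (n : ℕ) :
    s36_bi_lc M (f ^ n) = s36_bi_lc M f ^ n := by
  induction n with
  | zero => rw [pow_zero, pow_zero, s36_bi_lc_one]
  | succ n ih => rw [pow_succ, pow_succ, s36_bi_lc_mul, ih]

theorem s36_bi_lc_algebraMap (M : ℕ) (c : Qb) :
    s36_bi_lc M (algebraMap Qb (modularFunctionFieldBar M) c) = c := by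
  unfold s36_bi_lc
  have h : ((algebraMap Qb (modularFunctionFieldBar M) c : modularFunctionFieldBar M) :
      LaurentSeries Qb) = algebraMap Qb (LaurentSeries Qb) c := rfl
  rw [h, algebraMap_laurentSeries_eq_single, HahnSeries.leadingCoeff_of_single]

theorem s36_bi_lc_aut (M : ℕ) (σ : Qb ≃ₐ[ℚ] Qb) (f : modularFunctionFieldBar M) :
    s36_bi_lc M (arithmeticRingAut (modularFunctionFieldFull M) σ f) = σ (s36_bi_lc M f) := by
  unfold s36_bi_lc
  rw [coe_arithmeticRingAut_apply, HahnSeries.leadingCoeff_eq, HahnSeries.leadingCoeff_eq,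
    s29_dd_order_coeffMap _ (σ : Qb →+* Qb).injective, coeffMap_coeff]
  rfl

/-- Normalisation: a nonzero function times a constant has leading coefficient `1`. -/
theorem s36_bi_normalise (M : ℕ) (u : modularFunctionFieldBar M) (hu : u ≠ 0) :
    ∃ v : modularFunctionFieldBar M, v ≠ 0 ∧ s36_bi_lc M v = 1 ∧
      ∀ w : Place Qb (modularFunctionFieldBar M), w.ord v = w.ord u := by
  have hc : s36_bi_lc M u ≠ 0 := fun h => hu ((s36_bi_lc_eq_zero M u).mp h)
  have hc' : algebraMap Qb (modularFunctionFieldBar M) (s36_bi_lc M u)⁻¹ ≠ 0 :=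
    (map_ne_zero _).mpr (inv_ne_zero hc)
  refine ⟨algebraMap Qb (modularFunctionFieldBar M) (s36_bi_lc M u)⁻¹ * u, mul_ne_zero hc' hu,
    ?_, fun w => ?_⟩
  · rw [s36_bi_lc_mul, s36_bi_lc_algebraMap, inv_mul_cancel₀ hc]
  · rw [w.ord_mul hc' hu, ord_algebraMap, zero_add]

/-- Uniqueness: two normalised functions with the same divisor are equal. -/
theorem s36_bi_unique (M : ℕ) [NeZero M] (u v : modularFunctionFieldBar M) (hu : u ≠ 0)
    (hv : v ≠ 0) (hlu : s36_bi_lc M u = 1) (hlv : s36_bi_lc M v = 1)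
    (h : ∀ w : Place Qb (modularFunctionFieldBar M), w.ord u = w.ord v) : u = v := by
  obtain ⟨c, -, hc⟩ := s18_eq_const_mul_of_ord_eq M u v hu hv h
  have h1 : s36_bi_lc M u = c * s36_bi_lc M v := by
    rw [hc, s36_bi_lc_mul, s36_bi_lc_algebraMap]
  rw [hlu, hlv, mul_one] at h1
  rw [hc, ← h1, map_one, one_mul]

/-- The order of `σ f` at `w` is the order of `f` at `σ⁻¹ w`. -/
theorem s36_bi_ord_aut (M : ℕ) (σ : Qb ≃ₐ[ℚ] Qb) (f : modularFunctionFieldBar M)
    (w : Place Qb (modularFunctionFieldBar M)) :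
    w.ord (arithmeticRingAut (modularFunctionFieldFull M) σ f) =
      ((arithmeticGalois (modularFunctionFieldFull M) σ)⁻¹ • w).ord f := by
  have h := SemilinearAut.ord_smul (arithmeticGalois (modularFunctionFieldFull M) σ)
    ((arithmeticGalois (modularFunctionFieldFull M) σ)⁻¹ • w) f
  rw [smul_inv_smul] at h
  exact h

/-! ### The main descent -/

set_option maxHeartbeats 1000000 in
/-- **(BASE)** Hilbert-90 descent.  If `x ∈ J₀(M)(Q̄)` is killed by `m` and fixed by a subgroup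
`I` of `Gal(Q̄/ℚ)`, then `x` is the class of a degree-`0` divisor `D` with `m • D = div g`, where
both `g` (coefficientwise action on `q`-expansions) and `D` are fixed by `I`. -/
theorem s36_bi_main (M : ℕ) [NeZero M] (I : Subgroup (Qb ≃ₐ[ℚ] Qb)) (m : ℕ) (hm : 0 < m)
    (x : JZero M) (hx : (m : ℤ) • x = 0) (hI : ∀ τ ∈ I, τ • x = x) :
    ∃ (D : Divisor.degZero (K := Qb) (F := modularFunctionFieldBar M))
      (g : modularFunctionFieldBar M), g ≠ 0 ∧ Pic0.mk D = x ∧
      (∀ w : Place Qb (modularFunctionFieldBar M),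
        (m : ℤ) * (D : Divisor Qb (modularFunctionFieldBar M)) w = w.ord g) ∧
      (∀ τ ∈ I, arithmeticRingAut (modularFunctionFieldFull M) τ g = g) ∧
      (∀ τ ∈ I, arithmeticGalois (modularFunctionFieldFull M) τ •
        (D : Divisor Qb (modularFunctionFieldBar M)) = D) := by
  classical
  obtain ⟨D₀, rfl⟩ := Pic0.mk_surjective x
  -- the function `g₀` with divisor `m D₀`, normalised
  have h1 : ((m : ℤ) • D₀ : Divisor.degZero (K := Qb) (F := modularFunctionFieldBar M)) ∈
      (Divisor.principal (K := Qb) (F := modularFunctionFieldBar M)).addSubgroupOf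
        (Divisor.degZero (K := Qb) (F := modularFunctionFieldBar M)) := by
    rw [← QuotientAddGroup.eq_zero_iff]
    exact hx
  rw [AddSubgroup.mem_addSubgroupOf] at h1
  obtain ⟨g₀', hg₀', hg₀'D⟩ := h1
  obtain ⟨g₀, hg₀, hlg₀, hg₀ord⟩ := s36_bi_normalise M g₀' hg₀'
  have hdiv₀ : ∀ w : Place Qb (modularFunctionFieldBar M),
      w.ord g₀ = (m : ℤ) * (D₀ : Divisor Qb (modularFunctionFieldBar M)) w := by
    intro w
    rw [hg₀ord w, ← hg₀'D w, AddSubgroup.coe_zsmul, Finsupp.smul_apply, smul_eq_mul]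
  -- the cocycle
  have hex : ∀ τ ∈ I, ∃ u : modularFunctionFieldBar M, u ≠ 0 ∧ s36_bi_lc M u = 1 ∧
      ∀ w : Place Qb (modularFunctionFieldBar M), w.ord u =
        (D₀ : Divisor Qb (modularFunctionFieldBar M))
            ((arithmeticGalois (modularFunctionFieldFull M) τ)⁻¹ • w) -
          (D₀ : Divisor Qb (modularFunctionFieldBar M)) w := by
    intro τ hτ
    have h2 : (-D₀ + SemilinearAut.degZeroSMulHom
          (arithmeticGalois (modularFunctionFieldFull M) τ) D₀ :
          Divisor.degZero (K := Qb) (F := modularFunctionFieldBar M)) ∈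
        (Divisor.principal (K := Qb) (F := modularFunctionFieldBar M)).addSubgroupOf
          (Divisor.degZero (K := Qb) (F := modularFunctionFieldBar M)) := by
      rw [← QuotientAddGroup.eq]
      have h3 := hI τ hτ
      rw [galois_smul_pic0_def, SemilinearAut.pic0_smul_mk] at h3
      exact h3.symm
    rw [AddSubgroup.mem_addSubgroupOf] at h2
    obtain ⟨u', hu', hu'D⟩ := h2
    obtain ⟨u, hu, hlu, huord⟩ := s36_bi_normalise M u' hu'
    refine ⟨u, hu, hlu, fun w => ?_⟩
    rw [huord w, ← hu'D w, AddSubgroup.coe_add, AddSubgroup.coe_neg, Finsupp.add_apply,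
      Finsupp.neg_apply, SemilinearAut.coe_degZeroSMulHom, SemilinearAut.divisor_smul_apply]
    ring
  set h : (Qb ≃ₐ[ℚ] Qb) → modularFunctionFieldBar M :=
    fun τ => if hτ : τ ∈ I then Classical.choose (hex τ hτ) else 1 with hh
  have hspec : ∀ τ ∈ I, h τ ≠ 0 ∧ s36_bi_lc M (h τ) = 1 ∧
      ∀ w : Place Qb (modularFunctionFieldBar M), w.ord (h τ) =
        (D₀ : Divisor Qb (modularFunctionFieldBar M))
            ((arithmeticGalois (modularFunctionFieldFull M) τ)⁻¹ • w) -
          (D₀ : Divisor Qb (modularFunctionFieldBar M)) w := by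
    intro τ hτ
    have h3 : h τ = Classical.choose (hex τ hτ) := by simp only [hh, dif_pos hτ]
    rw [h3]
    exact Classical.choose_spec (hex τ hτ)
  have haut0 : ∀ (σ : Qb ≃ₐ[ℚ] Qb) (u : modularFunctionFieldBar M), u ≠ 0 →
      arithmeticRingAut (modularFunctionFieldFull M) σ u ≠ 0 := by
    intro σ u hu h0
    apply hu
    apply (arithmeticRingAut (modularFunctionFieldFull M) σ).injective
    rw [h0, map_zero]
  have hcoc : ∀ σ ∈ I, ∀ τ ∈ I,
      h (σ * τ) = h σ * arithmeticRingAut (modularFunctionFieldFull M) σ (h τ) := by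
    intro σ hσ τ hτ
    obtain ⟨hσ0, hσl, hσo⟩ := hspec σ hσ
    obtain ⟨hτ0, hτl, hτo⟩ := hspec τ hτ
    obtain ⟨hστ0, hστl, hστo⟩ := hspec (σ * τ) (I.mul_mem hσ hτ)
    have hτ0' := haut0 σ _ hτ0
    apply s36_bi_unique M _ _ hστ0 (mul_ne_zero hσ0 hτ0') hστl
    · rw [s36_bi_lc_mul, s36_bi_lc_aut, hσl, hτl, map_one, one_mul]
    · intro w
      rw [hστo w, w.ord_mul hσ0 hτ0', hσo w, s36_bi_ord_aut, hτo, map_mul, mul_inv_rev, mul_smul]
      ring
  -- continuity
  obtain ⟨K₁, hK₁, hfix⟩ :=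
    s37_rf_exists_fixing M (D₀ : Divisor Qb (modularFunctionFieldBar M)).support
  have hcont : ∀ τ ∈ I, (∀ a : K₁, τ (algebraMap K₁ Qb a) = algebraMap K₁ Qb a) → h τ = 1 := by
    intro τ hτ hfixτ
    obtain ⟨hτ0, hτl, hτo⟩ := hspec τ hτ
    apply s36_bi_unique M _ _ hτ0 one_ne_zero hτl (s36_bi_lc_one M)
    intro w
    rw [hτo w, Place.ord_one]
    have hτc : ∀ c ∈ K₁, τ c = c := fun c hc => hfixτ ⟨c, hc⟩
    by_cases hw : w ∈ (D₀ : Divisor Qb (modularFunctionFieldBar M)).support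
    · have h3 := hfix w hw τ hτc
      have h4 : (arithmeticGalois (modularFunctionFieldFull M) τ)⁻¹ • w = w := by
        rw [inv_smul_eq_iff, h3]
      rw [h4, sub_self]
    · by_cases hw' : (arithmeticGalois (modularFunctionFieldFull M) τ)⁻¹ • w ∈
          (D₀ : Divisor Qb (modularFunctionFieldBar M)).support
      · have h3 := hfix _ hw' τ hτc
        rw [smul_inv_smul] at h3
        rw [← h3] at hw'
        exact absurd hw' hw
      · rw [Finsupp.notMem_support_iff] at hw hw'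
        rw [hw, hw', sub_self]
  -- the power relation
  have hpow : ∀ τ ∈ I, h τ ^ m * g₀ = arithmeticRingAut (modularFunctionFieldFull M) τ g₀ := by
    intro τ hτ
    obtain ⟨hτ0, hτl, hτo⟩ := hspec τ hτ
    apply s36_bi_unique M _ _ (mul_ne_zero (pow_ne_zero m hτ0) hg₀) (haut0 τ _ hg₀)
    · rw [s36_bi_lc_mul, s36_bi_lc_pow, hτl, one_pow, one_mul, hlg₀]
    · rw [s36_bi_lc_aut, hlg₀, map_one]
    · intro w
      rw [w.ord_mul (pow_ne_zero m hτ0) hg₀, ord_pow, hτo w, hdiv₀ w, s36_bi_ord_aut, hdiv₀]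
      ring
  -- Hilbert 90
  have : FiniteDimensional ℚ K₁ := hK₁.1
  have : NumberField K₁ := NumberField.mk
  obtain ⟨f, hf0, hf⟩ := s36_bi_h90_abs (F := modularFunctionFieldBar M) (E := Qb) (K := K₁)
    (algebraMap Qb (modularFunctionFieldBar M))
    (fun σ => ((arithmeticRingAut (modularFunctionFieldFull M) σ :
      modularFunctionFieldBar M ≃+* modularFunctionFieldBar M) :
      modularFunctionFieldBar M →+* modularFunctionFieldBar M))
    (fun σ => (σ : Qb →+* Qb))
    (fun σ a => arithmeticRingAut_algebraMap (modularFunctionFieldFull M) σ a)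
    (fun σ τ a => rfl) (fun a => rfl) I (algebraMap K₁ Qb) h (fun τ hτ => (hspec τ hτ).1)
    hcoc hcont
  have hf' : ∀ σ ∈ I, h σ * arithmeticRingAut (modularFunctionFieldFull M) σ f = f := hf
  -- the divisor of `f`
  have := s37_h_hasPrincipalDivisors_bar M
  obtain ⟨E, hE, hEdeg⟩ :=
    HasPrincipalDivisors.exists_divisor (K := Qb) (F := modularFunctionFieldBar M) f hf0
  have hfm : f ^ m ≠ 0 := pow_ne_zero m hf0
  have hdivD : ∀ w : Place Qb (modularFunctionFieldBar M),
      (m : ℤ) * ((D₀ : Divisor Qb (modularFunctionFieldBar M)) w + E w) =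
        w.ord (g₀ * f ^ m) := by
    intro w
    rw [w.ord_mul hg₀ hfm, ord_pow, hdiv₀ w, hE w]
    ring
  have hginv : ∀ τ ∈ I, arithmeticRingAut (modularFunctionFieldFull M) τ (g₀ * f ^ m) =
      g₀ * f ^ m := by
    intro τ hτ
    have h3 := hf' τ hτ
    have h4 := hpow τ hτ
    rw [map_mul, map_pow, ← h4]
    calc h τ ^ m * g₀ * (arithmeticRingAut (modularFunctionFieldFull M) τ f) ^ m
        = g₀ * (h τ * arithmeticRingAut (modularFunctionFieldFull M) τ f) ^ m := by ring
      _ = g₀ * f ^ m := by rw [h3]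
  refine ⟨D₀ + ⟨E, hEdeg⟩, g₀ * f ^ m, mul_ne_zero hg₀ hfm, ?_, ?_, hginv, ?_⟩
  · rw [Pic0.mk_add]
    have h3 : Pic0.mk (⟨E, hEdeg⟩ : Divisor.degZero (K := Qb) (F := modularFunctionFieldBar M))
        = 0 := by
      apply (QuotientAddGroup.eq_zero_iff _).mpr
      rw [AddSubgroup.mem_addSubgroupOf]
      exact ⟨f, hf0, hE⟩
    rw [h3, add_zero]
  · intro w
    rw [AddSubgroup.coe_add, Finsupp.add_apply]
    exact hdivD w
  · intro τ hτ
    ext w
    rw [SemilinearAut.divisor_smul_apply, AddSubgroup.coe_add, Finsupp.add_apply,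
      Finsupp.add_apply]
    have hm' : (m : ℤ) ≠ 0 := by exact_mod_cast hm.ne'
    apply mul_left_cancel₀ hm'
    rw [hdivD, hdivD, ← s36_bi_ord_aut, hginv τ hτ]

/-! ### The field of definition -/

/-- The field `K₁ ∩ Q̄^I`. -/
def s36_bi_T (I : Subgroup (Qb ≃ₐ[ℚ] Qb)) (K₁ : IntermediateField ℚ Qb) :
    IntermediateField ℚ Qb :=
  K₁ ⊓ IntermediateField.fixedField I

theorem s36_bi_mem_T (I : Subgroup (Qb ≃ₐ[ℚ] Qb)) (K₁ : IntermediateField ℚ Qb) (a : Qb) :
    a ∈ s36_bi_T I K₁ ↔ a ∈ K₁ ∧ ∀ τ ∈ I, τ a = a := by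
  unfold s36_bi_T
  rw [IntermediateField.mem_inf, IntermediateField.mem_fixedField_iff]

theorem s36_bi_T_le (I : Subgroup (Qb ≃ₐ[ℚ] Qb)) (K₁ : IntermediateField ℚ Qb) :
    s36_bi_T I K₁ ≤ K₁ :=
  inf_le_left

theorem s36_bi_T_fixed (I : Subgroup (Qb ≃ₐ[ℚ] Qb)) (K₁ : IntermediateField ℚ Qb)
    (a : s36_bi_T I K₁) {τ : Qb ≃ₐ[ℚ] Qb} (hτ : τ ∈ I) : τ (a : Qb) = a :=
  ((s36_bi_mem_T I K₁ a).mp a.2).2 τ hτ

/-- `K₁ ∩ Q̄^I` is a number field when `K₁` is. -/
theorem s36_bi_T_finite (I : Subgroup (Qb ≃ₐ[ℚ] Qb)) (K₁ : IntermediateField ℚ Qb)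
    [FiniteDimensional ℚ K₁] : FiniteDimensional ℚ (s36_bi_T I K₁) := by
  have h : (s36_bi_T I K₁).toSubalgebra.toSubmodule ≤ K₁.toSubalgebra.toSubmodule :=
    fun a ha => s36_bi_T_le I K₁ ha
  exact Module.Finite.of_injective (Submodule.inclusion h) (Submodule.inclusion_injective h)

/-- **(BASE, field of definition).**  A function fixed by `I` is defined over every intermediate
field `T ⊇ K₁ ∩ Q̄^I`, for every sufficiently large number field `K₁` (`s29_ld_ringHom`:
linear disjointness of constants and `q`-expansions). -/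
theorem s36_bi_field (M : ℕ) [NeZero M] (I : Subgroup (Qb ≃ₐ[ℚ] Qb))
    (g : modularFunctionFieldBar M)
    (hg : ∀ τ ∈ I, arithmeticRingAut (modularFunctionFieldFull M) τ g = g) :
    ∃ K₀ : IntermediateField ℚ Qb, s18_d1_IsGaloisNF K₀ ∧
      ∀ K₁ : IntermediateField ℚ Qb, K₀ ≤ K₁ → ∀ T : IntermediateField ℚ Qb,
        (∀ a ∈ K₁, (∀ τ ∈ I, τ a = a) → a ∈ T) →
        ∃ g₁ : s18_F1 T M, s18_baseIncl T M g₁ = g := by
  obtain ⟨K₀, hK₀, y, hy, hyg⟩ := s18_d1_exists (F₀ := modularFunctionFieldFull M)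
    (g : LaurentSeries Qb) g.2
  refine ⟨K₀, hK₀, fun K₁ hK₁ T hT => ?_⟩
  have hmem : ∀ k : ℤ, (g : LaurentSeries Qb).coeff k ∈ T := by
    intro k
    apply hT
    · rw [← hyg, coeffMap_coeff]
      exact hK₁ (y.coeff k).2
    · intro τ hτ
      have h1 := congrArg (fun z : modularFunctionFieldBar M => (z : LaurentSeries Qb).coeff k)
        (hg τ hτ)
      exact h1
  let s : LaurentSeries T := HahnSeries.ofSuppBddBelow
    (fun k => (⟨(g : LaurentSeries Qb).coeff k, hmem k⟩ : T))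
    ⟨(g : LaurentSeries Qb).order, fun k hk => le_of_not_gt fun hlt =>
      hk (Subtype.ext (HahnSeries.coeff_eq_zero_of_lt_order hlt))⟩
  have hs : coeffMap (algebraMap T Qb) s = (g : LaurentSeries Qb) := by
    ext k
    rfl
  have hsmem : s ∈ laurentBaseChange T (modularFunctionFieldFull M) := by
    apply s29_ld_ringHom (modularFunctionFieldFull M) (algebraMap T Qb) s
    rw [hs]
    exact g.2
  exact ⟨⟨s, hsmem⟩, Subtype.ext hs⟩

set_option maxHeartbeats 1000000 in
/-- **(BASE), combined.**  An `I`-invariant `m`-torsion class is the class of an `I`-invariant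
divisor `D` with `m • D = div g`, `g` an `I`-invariant function defined over `K₁ ∩ Q̄^I` for
every sufficiently large number field `K₁`. -/
theorem s36_bi_main_field (M : ℕ) [NeZero M] (I : Subgroup (Qb ≃ₐ[ℚ] Qb)) (m : ℕ) (hm : 0 < m)
    (x : JZero M) (hx : (m : ℤ) • x = 0) (hI : ∀ τ ∈ I, τ • x = x) :
    ∃ (D : Divisor.degZero (K := Qb) (F := modularFunctionFieldBar M))
      (g : modularFunctionFieldBar M), g ≠ 0 ∧ Pic0.mk D = x ∧
      (∀ w : Place Qb (modularFunctionFieldBar M),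
        (m : ℤ) * (D : Divisor Qb (modularFunctionFieldBar M)) w = w.ord g) ∧
      (∀ τ ∈ I, arithmeticRingAut (modularFunctionFieldFull M) τ g = g) ∧
      (∀ τ ∈ I, arithmeticGalois (modularFunctionFieldFull M) τ •
        (D : Divisor Qb (modularFunctionFieldBar M)) = D) ∧
      ∃ K₀ : IntermediateField ℚ Qb, s18_d1_IsGaloisNF K₀ ∧
        ∀ K₁ : IntermediateField ℚ Qb, K₀ ≤ K₁ →
          (∀ P : Place Qb (modularFunctionFieldBar M), P.ord g ≠ 0 →
            ∀ σ : Qb ≃ₐ[ℚ] Qb, (∀ c ∈ K₁, σ c = c) →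
              arithmeticGalois (modularFunctionFieldFull M) σ • P = P) ∧
          ∃ g₁ : s18_F1 (s36_bi_T I K₁) M, g₁ ≠ 0 ∧ s18_baseIncl (s36_bi_T I K₁) M g₁ = g := by
  obtain ⟨D, g, hg0, hD, hdiv, hginv, hDinv⟩ := s36_bi_main M I m hm x hx hI
  obtain ⟨Ka, hKa, hfa⟩ := s36_bi_field M I g hginv
  obtain ⟨Kb, hKb, hfb⟩ := s34_rp_exists M g hg0
  refine ⟨D, g, hg0, hD, hdiv, hginv, hDinv, Ka ⊔ Kb, hKa.sup hKb, fun K₁ hK₁ => ⟨?_, ?_⟩⟩
  · exact (hfb K₁ (le_sup_right.trans hK₁)).2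
  · obtain ⟨g₁, hg₁⟩ := hfa K₁ (le_sup_left.trans hK₁) (s36_bi_T I K₁)
      (fun a ha hτ => (s36_bi_mem_T I K₁ a).mpr ⟨ha, hτ⟩)
    refine ⟨g₁, ?_, hg₁⟩
    rintro rfl
    apply hg0
    rw [← hg₁, map_zero]

end Fermat.Agent.S36
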