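import Mathlib
import Fermat.Agent.S35.FDefs
import Fermat.Agent.S37.EsSwap

/-!
# S36 (NODE-3): the function-level hub statement (C-inv)

`s36_FInv N' q c` : **(C-inv)** at level `N' * q * q` (the level `N' * q` seen from above along the
inclusion `α = heckeAlphaBar Qb (N' * q) q`).  Let `P` be a place of `Q̄` over `q`, `m` prime to
`q`, and `g ≠ 0` a function of `Q̄ · F(N' q²)` such that

* all orders of `g` are divisible by `m`;
* `g` is fixed by the coefficientwise action of the inertia group of `P`;
* the norm of `g` to level `N' q` (along `α`) is a constant times an `m`-th power;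
* for every Atkin–Lehner swap `W` of `(N', q²)` (characterised generator-wise, as produced by
  `s37_ew_swap_field N' (q * q)`), the norm of `W g` to level `N' q` is a constant times an
  `m`-th power.

Then `g ^ c` is an `m`-th power in `Q̄ · F(N' q²)`.

This is the single interface between the Hecke/transfer side (TOP, (KC)-clone, MID) and the
geometry of the three-component model of `X₀(N' q²)` at `q`.
-/

set_option autoImplicit false

open ModularCurve AlgebraicCurve

noncomputable section

namespace Fermat.Agent.S36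

open Fermat.Agent.S29 Fermat.Agent.S37

local notation "Qb" => AlgebraicClosure ℚ

/-- `W` is an Atkin–Lehner swap of `Q̄ · F(N' q²)` for the coprime pair `(N', q²)`:
`j(Q^(d m)) ↦ j(Q^(d q² / m))` for `d ∣ N'`, `m ∣ q²`. -/
def s36_IsSwapBar (N' q : ℕ) [NeZero (N' * q * q)]
    (W : modularFunctionFieldBar (N' * q * q) ≃ₐ[Qb] modularFunctionFieldBar (N' * q * q)) :
    Prop :=
  ∀ (d m : ℕ) (_ : d ∣ N') (_ : m ∣ q * q)
    (h1 : s37_ew_s (d * m) ∈ modularFunctionFieldBar (N' * q * q)),
    ((W ⟨s37_ew_s (d * m), h1⟩ : modularFunctionFieldBar (N' * q * q)) :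
      LaurentSeries Qb) = s37_ew_s (d * (q * q / m))

/-- **(C-inv)** at level `N' * q * q` with exponent `c`. -/
def s36_FInv (N' q c : ℕ) [NeZero (N' * q)] [NeZero q] [NeZero (N' * q * q)] : Prop :=
  ∀ P : ValuationSubring Qb, P.LiesOverPrime q →
  ∀ m : ℕ, 0 < m → ¬ q ∣ m →
  ∀ g : modularFunctionFieldBar (N' * q * q), g ≠ 0 →
    (∀ v : Place Qb (modularFunctionFieldBar (N' * q * q)), (m : ℤ) ∣ v.ord g) →
    (∀ τ ∈ P.inertiaSubgroupIn ℚ,
      arithmeticGalois (modularFunctionFieldFull (N' * q * q)) τ • g = g) →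
    (∃ (c₁ : Qb) (f : modularFunctionFieldBar (N' * q)),
      s29_kh_normAlong (heckeAlphaBar Qb (N' * q) q) g
        = algebraMap Qb (modularFunctionFieldBar (N' * q)) c₁ * f ^ m) →
    (∀ W : modularFunctionFieldBar (N' * q * q) ≃ₐ[Qb] modularFunctionFieldBar (N' * q * q),
      s36_IsSwapBar N' q W →
      ∃ (c₂ : Qb) (f : modularFunctionFieldBar (N' * q)),
        s29_kh_normAlong (heckeAlphaBar Qb (N' * q) q) (W g)
          = algebraMap Qb (modularFunctionFieldBar (N' * q)) c₂ * f ^ m) →
    ∃ h : modularFunctionFieldBar (N' * q * q), h ^ m = g ^ c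

end Fermat.Agent.S36
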