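import Mathlib
import Fermat.Agent.S36.HubDefs
import Fermat.Agent.S36.BaseInv
import Fermat.Agent.S36.BaseUnram
import Fermat.Agent.S36.DegSq
import Fermat.Agent.S34.SwapBar
import Fermat.Agent.S35.ChooseK

/-!
# S36 (NODE-3), layer FUN36: the hub `s36_FInv` from a `K₀`-level model statement

`K₀` ranges over the number fields inside the inertia field of `P` (NOT Galois over `ℚ`); by
`s36_bu_irreducible` the prime `q` is a uniformizer of `P ∩ K₀`.

* `s36_IsSwapK K₀ N' q W₁` : `W₁` is an (involutive) Atkin–Lehner swap of `K₀ · F(N' q²)` for the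
  pair `(N', q²)`, characterised generator-wise.
* `s36_if_NormRel K₀ N' q m W₁ g₁` : the two `K₀`-level norm relations, with constants `q ^ γ`.
* `s36_Model N' q c` : the `K₀`-level statement which the three-component model has to deliver.
* `s36_if_finv` : `s36_Model N' q c → s36_FInv N' q c`.
-/

set_option autoImplicit false
set_option synthInstance.maxHeartbeats 400000

open ModularCurve AlgebraicCurve

noncomputable section

namespace Fermat.Agent.S36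

open Fermat.Agent.S18 Fermat.Agent.S24 Fermat.Agent.S29 Fermat.Agent.S34 Fermat.Agent.S35
  Fermat.Agent.S37

local notation "Qb" => AlgebraicClosure ℚ

/-! ### Swaps -/

/-- `W₁` is an involutive Atkin–Lehner swap of `K₀ · F(N' q²)` for the coprime pair `(N', q²)`. -/
def s36_IsSwapK (K₀ : IntermediateField ℚ Qb) (N' q : ℕ) [NeZero (N' * q * q)]
    (W₁ : s18_F1 K₀ (N' * q * q) ≃ₐ[K₀] s18_F1 K₀ (N' * q * q)) : Prop :=
  (∀ x, W₁ (W₁ x) = x) ∧
  ∀ (d m : ℕ) (_ : d ∣ N') (_ : m ∣ q * q)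
    (h1 : s34_sw_s K₀ (d * m) ∈ s18_F1 K₀ (N' * q * q)),
    ((W₁ ⟨s34_sw_s K₀ (d * m), h1⟩ : s18_F1 K₀ (N' * q * q)) : LaurentSeries K₀) =
      s34_sw_s K₀ (d * (q * q / m))

/-- Existence of the swap over `Q̄` at level `N' * q * q`. -/
theorem s36_if_swapBar_exists (N' q : ℕ) [NeZero N'] [NeZero q] [NeZero (N' * q * q)]
    (hcop : Nat.Coprime (q * q) N') :
    ∃ W : modularFunctionFieldBar (N' * q * q) ≃ₐ[Qb] modularFunctionFieldBar (N' * q * q),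
      s36_IsSwapBar N' q W := by
  have key : ∀ (M : ℕ) (_ : M = N' * (q * q)),
      ∃ W : modularFunctionFieldBar M ≃ₐ[Qb] modularFunctionFieldBar M,
        ∀ (d m : ℕ) (_ : d ∣ N') (_ : m ∣ q * q)
          (h1 : s37_ew_s (d * m) ∈ modularFunctionFieldBar M),
          ((W ⟨s37_ew_s (d * m), h1⟩ : modularFunctionFieldBar M) : LaurentSeries Qb) =
            s37_ew_s (d * (q * q / m)) := by
    intro M hM
    subst hM
    exact s37_ew_swap_field N' (q * q) hcop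
  exact key (N' * q * q) (mul_assoc N' q q)

/-- Existence of the swap over `K₀` at level `N' * q * q`. -/
theorem s36_if_swapK_exists (K₀ : IntermediateField ℚ Qb) (N' q : ℕ) [NeZero N'] [NeZero q]
    [NeZero (N' * q * q)] (hcop : Nat.Coprime (q * q) N') :
    ∃ W₁, s36_IsSwapK K₀ N' q W₁ := by
  have key : ∀ (M : ℕ) (_ : M = N' * (q * q)),
      ∃ W₁ : s18_F1 K₀ M ≃ₐ[K₀] s18_F1 K₀ M, (∀ x, W₁ (W₁ x) = x) ∧
        ∀ (d m : ℕ) (_ : d ∣ N') (_ : m ∣ q * q) (h1 : s34_sw_s K₀ (d * m) ∈ s18_F1 K₀ M),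
          ((W₁ ⟨s34_sw_s K₀ (d * m), h1⟩ : s18_F1 K₀ M) : LaurentSeries K₀) =
            s34_sw_s K₀ (d * (q * q / m)) := by
    intro M hM
    subst hM
    obtain ⟨W, -, -, h3, -, h5⟩ := s34_sw_swap_K1 K₀ N' (q * q) hcop
    exact ⟨W, h3, h5⟩
  exact key (N' * q * q) (mul_assoc N' q q)

set_option maxHeartbeats 1000000 in
/-- Compatibility of a swap over `K₀` and a swap over `Q̄` with the extension of constants. -/
theorem s36_if_baseIncl_swap (K₀ : IntermediateField ℚ Qb) (N' q : ℕ) [NeZero N'] [NeZero q]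
    [NeZero (N' * q * q)]
    (W₁ : s18_F1 K₀ (N' * q * q) ≃ₐ[K₀] s18_F1 K₀ (N' * q * q)) (hW₁ : s36_IsSwapK K₀ N' q W₁)
    (W : modularFunctionFieldBar (N' * q * q) ≃ₐ[Qb] modularFunctionFieldBar (N' * q * q))
    (hW : s36_IsSwapBar N' q W) (x : s18_F1 K₀ (N' * q * q)) :
    s18_baseIncl K₀ (N' * q * q) (W₁ x) = W (s18_baseIncl K₀ (N' * q * q) x) := by
  have key : (s18_baseIncl K₀ (N' * q * q)).comp
      (W₁ : s18_F1 K₀ (N' * q * q) →+* s18_F1 K₀ (N' * q * q)) =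
      (W : modularFunctionFieldBar (N' * q * q) →+* modularFunctionFieldBar (N' * q * q)).comp
        (s18_baseIncl K₀ (N' * q * q)) := by
    apply s34_sw_ringHom_ext (N' * q * q)
    · intro c
      show s18_baseIncl K₀ (N' * q * q) (W₁ (algebraMap K₀ _ c)) =
        W (s18_baseIncl K₀ (N' * q * q) (algebraMap K₀ _ c))
      rw [AlgEquiv.commutes, s18_baseIncl_algebraMap, AlgEquiv.commutes]
    · intro e _ he
      rw [mul_assoc] at he
      obtain ⟨d, m, hd, hm, rfl⟩ := (Nat.dvd_mul).mp he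
      have h1 : s34_sw_s K₀ (d * m) ∈ s18_F1 K₀ (N' * q * q) := by
        rw [s34_sw_s_eq]
        exact s34_sw_s_mem K₀ (N' * q * q) (d * m) (by rw [mul_assoc]; exact he)
      have e1 : (⟨coeffEmb K₀ (qExpand ℚ (d * m) jq),
          s34_sw_s_mem K₀ (N' * q * q) (d * m) (by rw [mul_assoc]; exact he)⟩ :
          s18_F1 K₀ (N' * q * q)) = ⟨s34_sw_s K₀ (d * m), h1⟩ :=
        Subtype.ext (s34_sw_s_eq K₀ (d * m)).symm
      rw [e1]
      show s18_baseIncl K₀ (N' * q * q) (W₁ ⟨s34_sw_s K₀ (d * m), h1⟩) =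
        W (s18_baseIncl K₀ (N' * q * q) ⟨s34_sw_s K₀ (d * m), h1⟩)
      apply Subtype.ext
      rw [s18_baseIncl_coe, hW₁.2 d m hd hm h1, s34_sw_coeffMap_s]
      have h2 : s37_ew_s (d * m) ∈ modularFunctionFieldBar (N' * q * q) := by
        rw [← s34_sw_coeffMap_s (algebraMap K₀ Qb) (d * m)]
        exact (s18_baseIncl K₀ (N' * q * q) ⟨s34_sw_s K₀ (d * m), h1⟩).2
      have e2 : s18_baseIncl K₀ (N' * q * q) ⟨s34_sw_s K₀ (d * m), h1⟩ =
          ⟨s37_ew_s (d * m), h2⟩ :=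
        Subtype.ext (s34_sw_coeffMap_s (algebraMap K₀ Qb) (d * m))
      rw [e2, hW d m hd hm h2]
  exact DFunLike.congr_fun key x

/-! ### The `K₀`-level statement -/

set_option maxHeartbeats 2000000 in
/-- The two `K₀`-level norm relations for `g₁` and `W₁ g₁`, with constants `q ^ γ`. -/
def s36_if_NormRel (K₀ : IntermediateField ℚ Qb) (N' q : ℕ) [NeZero (N' * q)] [NeZero q]
    [NeZero (N' * q * q)] (m : ℕ)
    (W₁ : s18_F1 K₀ (N' * q * q) ≃ₐ[K₀] s18_F1 K₀ (N' * q * q))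
    (g₁ : s18_F1 K₀ (N' * q * q)) : Prop :=
  ∃ (γ₁ γ₂ : ℤ) (f₁ f₂ : s18_F1 K₀ (N' * q)), f₁ ≠ 0 ∧ f₂ ≠ 0 ∧
    s35_nmAlong (heckeAlphaBar K₀ (N' * q) q).toRingHom g₁ =
      algebraMap K₀ (s18_F1 K₀ (N' * q * q)) ((q : K₀) ^ γ₁) *
        (heckeAlphaBar K₀ (N' * q) q f₁) ^ m ∧
    s35_nmAlong (heckeAlphaBar K₀ (N' * q) q).toRingHom (W₁ g₁) =
      algebraMap K₀ (s18_F1 K₀ (N' * q * q)) ((q : K₀) ^ γ₂) *
        (heckeAlphaBar K₀ (N' * q) q f₂) ^ m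

set_option maxHeartbeats 2000000 in
/-- **The `K₀`-level statement** which the three-component model of `X₀(N' q²)` has to deliver:
`K₀` any number field inside the inertia field of `P` containing a primitive `m`-th root of
unity. -/
def s36_Model (N' q c : ℕ) [NeZero (N' * q)] [NeZero q] [NeZero (N' * q * q)] : Prop :=
  ∀ P : ValuationSubring Qb, P.LiesOverPrime q →
  ∀ K₀ : IntermediateField ℚ Qb, FiniteDimensional ℚ K₀ →
    (∀ a ∈ K₀, ∀ τ ∈ P.inertiaSubgroupIn ℚ, τ a = a) →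
  ∀ m : ℕ, 0 < m → ¬ q ∣ m →
  ∀ ζ : K₀, IsPrimitiveRoot ζ m →
  ∀ W₁ : s18_F1 K₀ (N' * q * q) ≃ₐ[K₀] s18_F1 K₀ (N' * q * q), s36_IsSwapK K₀ N' q W₁ →
  ∀ g₁ : s18_F1 K₀ (N' * q * q), g₁ ≠ 0 →
    (∀ v : Place Qb (modularFunctionFieldBar (N' * q * q)),
      (m : ℤ) ∣ v.ord (s18_baseIncl K₀ (N' * q * q) g₁)) →
    s36_if_NormRel K₀ N' q m W₁ g₁ →
    ∃ x : modularFunctionFieldBar (N' * q * q),
      x ^ m = (s18_baseIncl K₀ (N' * q * q) g₁) ^ c

/-! ### Auxiliary facts -/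

/-- Elements defined over a field fixed pointwise by `τ` are fixed by `τ`. -/
theorem s36_if_aut_baseIncl (T : IntermediateField ℚ Qb) (N : ℕ) [NeZero N] (τ : Qb ≃ₐ[ℚ] Qb)
    (hτ : ∀ a ∈ T, τ a = a) (y : s18_F1 T N) :
    arithmeticRingAut (modularFunctionFieldFull N) τ (s18_baseIncl T N y) =
      s18_baseIncl T N y := by
  apply Subtype.ext
  rw [coe_arithmeticRingAut_apply, s18_baseIncl_coe, coeffMap_coeffMap]
  exact coeffMap_congr (RingHom.ext fun a => hτ _ a.2) _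

set_option maxHeartbeats 1000000 in
/-- **Normal form of a norm relation.**  If `X ≠ 0` is fixed by the inertia group of `P` and is
a constant times an `m`-th power (`q ∤ m`), then `X = q ^ γ * F₁ ^ m` with `F₁` fixed by
inertia. -/
theorem s36_if_normal_form (P : ValuationSubring Qb) (q : ℕ) [Fact q.Prime]
    (hP : P.LiesOverPrime q) (N : ℕ) [NeZero N] (m : ℕ) (hm : 0 < m) (hqm : ¬ q ∣ m)
    (X : modularFunctionFieldBar N) (hX0 : X ≠ 0)
    (hXfix : ∀ τ ∈ P.inertiaSubgroupIn ℚ,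
      arithmeticRingAut (modularFunctionFieldFull N) τ X = X)
    (hX : ∃ (c : Qb) (f : modularFunctionFieldBar N),
      X = algebraMap Qb (modularFunctionFieldBar N) c * f ^ m) :
    ∃ (γ : ℤ) (F₁ : modularFunctionFieldBar N), F₁ ≠ 0 ∧
      (∀ τ ∈ P.inertiaSubgroupIn ℚ,
        arithmeticRingAut (modularFunctionFieldFull N) τ F₁ = F₁) ∧
      X = algebraMap Qb (modularFunctionFieldBar N) ((q : Qb) ^ γ) * F₁ ^ m := by
  obtain ⟨c, f, hcf⟩ := hX
  have hc0 : c ≠ 0 := by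
    rintro rfl
    apply hX0
    rw [hcf, map_zero, zero_mul]
  have hf0 : f ≠ 0 := by
    rintro rfl
    apply hX0
    rw [hcf, zero_pow hm.ne', mul_zero]
  have hl0 : s36_bi_lc N f ≠ 0 := fun h => hf0 ((s36_bi_lc_eq_zero N f).mp h)
  set l := s36_bi_lc N f with hl
  -- the normalised root
  set f' : modularFunctionFieldBar N := algebraMap Qb (modularFunctionFieldBar N) l⁻¹ * f
    with hf'
  have hf'0 : f' ≠ 0 := mul_ne_zero ((map_ne_zero _).mpr (inv_ne_zero hl0)) hf0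
  have hf'l : s36_bi_lc N f' = 1 := by
    rw [hf', s36_bi_lc_mul, s36_bi_lc_algebraMap, ← hl, inv_mul_cancel₀ hl0]
  set c' : Qb := c * l ^ m with hc'
  have hc'0 : c' ≠ 0 := mul_ne_zero hc0 (pow_ne_zero m hl0)
  have hX' : X = algebraMap Qb (modularFunctionFieldBar N) c' * f' ^ m := by
    rw [hcf, hc', hf', mul_pow, map_mul, map_pow, ← map_pow, ← map_pow]
    rw [mul_assoc, ← mul_assoc (algebraMap Qb (modularFunctionFieldBar N) (l ^ m)), ← map_mul,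
      ← mul_pow, mul_inv_cancel₀ hl0, one_pow, map_one, one_mul]
  have hXl : s36_bi_lc N X = c' := by
    rw [hX', s36_bi_lc_mul, s36_bi_lc_algebraMap, s36_bi_lc_pow, hf'l, one_pow, mul_one]
  have hc'fix : ∀ τ ∈ P.inertiaSubgroupIn ℚ, τ c' = c' := by
    intro τ hτ
    rw [← hXl, ← s36_bi_lc_aut, hXfix τ hτ]
  -- `f'` is fixed
  have hf'm : f' ^ m = algebraMap Qb (modularFunctionFieldBar N) c'⁻¹ * X := by
    rw [hX', ← mul_assoc, ← map_mul, inv_mul_cancel₀ hc'0, map_one, one_mul]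
  have hf'fix : ∀ τ ∈ P.inertiaSubgroupIn ℚ,
      arithmeticRingAut (modularFunctionFieldFull N) τ f' = f' := by
    intro τ hτ
    have hτf'0 : arithmeticRingAut (modularFunctionFieldFull N) τ f' ≠ 0 := by
      intro h0
      apply hf'0
      apply (arithmeticRingAut (modularFunctionFieldFull N) τ).injective
      rw [h0, map_zero]
    have hpow : (arithmeticRingAut (modularFunctionFieldFull N) τ f') ^ m = f' ^ m := by
      rw [← map_pow, hf'm, map_mul, arithmeticRingAut_algebraMap, hXfix τ hτ, map_inv₀,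
        hc'fix τ hτ]
    apply s36_bi_unique N _ _ hτf'0 hf'0
    · rw [s36_bi_lc_aut, hf'l, map_one]
    · exact hf'l
    · intro w
      have hm' : (m : ℤ) ≠ 0 := by exact_mod_cast hm.ne'
      apply mul_left_cancel₀ hm'
      rw [← ord_pow, ← ord_pow, hpow]
  -- the constant
  obtain ⟨γ, hγ1, hγfix⟩ := s36_bu_unit_part P q hP c' hc'0 hc'fix
  obtain ⟨w, hw⟩ := IsAlgClosed.exists_pow_nat_eq (c' / (q : Qb) ^ γ) hm
  have hq0 : (q : Qb) ≠ 0 := Nat.cast_ne_zero.mpr (Fact.out : q.Prime).ne_zero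
  have hqγ0 : (q : Qb) ^ γ ≠ 0 := zpow_ne_zero γ hq0
  have hw0 : w ≠ 0 := by
    rintro rfl
    rw [zero_pow hm.ne'] at hw
    exact div_ne_zero hc'0 hqγ0 hw.symm
  have hwfix : ∀ τ ∈ P.inertiaSubgroupIn ℚ, τ w = w := fun τ hτ =>
    s36_bu_root_fixed P q hP m hm hqm _ w hw hγ1 τ hτ (hγfix τ hτ)
  refine ⟨γ, algebraMap Qb (modularFunctionFieldBar N) w * f',
    mul_ne_zero ((map_ne_zero _).mpr hw0) hf'0, fun τ hτ => ?_, ?_⟩
  · rw [map_mul, arithmeticRingAut_algebraMap, hwfix τ hτ, hf'fix τ hτ]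
  · rw [mul_pow, ← map_pow, hw, ← mul_assoc, ← map_mul, mul_div_cancel₀ _ hqγ0]
    exact hX'

/-! ### The front end -/

set_option maxHeartbeats 4000000 in
/-- **(FUN36)** the hub statement from the `K₀`-level statement. -/
theorem s36_if_finv (N' q c : ℕ) [NeZero N'] [NeZero (N' * q)] [NeZero q] [NeZero (N' * q * q)]
    (hq : q.Prime) (hqN : ¬ q ∣ N') (hmod : s36_Model N' q c) : s36_FInv N' q c := by
  intro P hP m hm hqm g hg0 hdiv hgfix h₁ h₂
  have : Fact q.Prime := ⟨hq⟩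
  have hcop1 : Nat.Coprime q N' := (Nat.Prime.coprime_iff_not_dvd hq).mpr hqN
  have hcop : Nat.Coprime (q * q) N' := Nat.Coprime.mul_left hcop1 hcop1
  have hqdvd : q ∣ N' * q := dvd_mul_left q N'
  obtain ⟨W, hW⟩ := s36_if_swapBar_exists N' q hcop
  have h₂' := h₂ W hW
  have hgfix' : ∀ τ ∈ P.inertiaSubgroupIn ℚ,
      arithmeticRingAut (modularFunctionFieldFull (N' * q * q)) τ g = g :=
    fun τ hτ => hgfix τ hτ
  -- finiteness along `α`
  have hfin : FiniteAlong Qb (heckeAlphaBar Qb (N' * q) q) := by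
    have h1 := s36_dg_bar_dvd (N' * q) q hq hqdvd
    let _ := algebraAlong (heckeAlphaBar Qb (N' * q) q)
    show Module.Finite (modularFunctionFieldBar (N' * q)) (modularFunctionFieldBar (N' * q * q))
    apply Module.finite_of_finrank_pos
    have h2 : Module.finrank (modularFunctionFieldBar (N' * q))
        (modularFunctionFieldBar (N' * q * q)) = q := h1
    rw [h2]
    exact hq.pos
  have hWg0 : W g ≠ 0 := (map_ne_zero W).mpr hg0
  have hX1 : s29_kh_normAlong (heckeAlphaBar Qb (N' * q) q) g ≠ 0 :=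
    s29_kh_normAlong_ne_zero _ hfin hg0
  have hX2 : s29_kh_normAlong (heckeAlphaBar Qb (N' * q) q) (W g) ≠ 0 :=
    s29_kh_normAlong_ne_zero _ hfin hWg0
  -- step 1: the norms are fixed by inertia
  obtain ⟨Ka, hKa, hfa⟩ := s36_bi_field (N' * q * q) (P.inertiaSubgroupIn ℚ) g hgfix'
  obtain ⟨ga, hga⟩ := hfa Ka le_rfl (s36_bi_T (P.inertiaSubgroupIn ℚ) Ka)
    (fun a ha hτ => (s36_bi_mem_T (P.inertiaSubgroupIn ℚ) Ka a).mpr ⟨ha, hτ⟩)
  have hTa : ∀ a ∈ s36_bi_T (P.inertiaSubgroupIn ℚ) Ka, ∀ τ ∈ P.inertiaSubgroupIn ℚ,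
      τ a = a := fun a ha τ hτ => ((s36_bi_mem_T (P.inertiaSubgroupIn ℚ) Ka a).mp ha).2 τ hτ
  obtain ⟨Wa, hWa⟩ := s36_if_swapK_exists (s36_bi_T (P.inertiaSubgroupIn ℚ) Ka) N' q hcop
  have hX1fix : ∀ τ ∈ P.inertiaSubgroupIn ℚ,
      arithmeticRingAut (modularFunctionFieldFull (N' * q)) τ
        (s29_kh_normAlong (heckeAlphaBar Qb (N' * q) q) g) =
        s29_kh_normAlong (heckeAlphaBar Qb (N' * q) q) g := by
    intro τ hτ
    rw [← hga, s36_dg_descent_dvd (↥(s36_bi_T (P.inertiaSubgroupIn ℚ) Ka)) (N' * q) q hq hqdvd ga]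
    exact s36_if_aut_baseIncl _ _ τ (fun a ha => hTa a ha τ hτ) _
  have hX2fix : ∀ τ ∈ P.inertiaSubgroupIn ℚ,
      arithmeticRingAut (modularFunctionFieldFull (N' * q)) τ
        (s29_kh_normAlong (heckeAlphaBar Qb (N' * q) q) (W g)) =
        s29_kh_normAlong (heckeAlphaBar Qb (N' * q) q) (W g) := by
    intro τ hτ
    rw [← hga, ← s36_if_baseIncl_swap (s36_bi_T (P.inertiaSubgroupIn ℚ) Ka) N' q Wa hWa W hW ga,
      s36_dg_descent_dvd (↥(s36_bi_T (P.inertiaSubgroupIn ℚ) Ka)) (N' * q) q hq hqdvd (Wa ga)]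
    exact s36_if_aut_baseIncl _ _ τ (fun a ha => hTa a ha τ hτ) _
  -- step 2: normal forms over `Q̄`
  obtain ⟨γ₁, F₁, hF₁0, hF₁fix, hF₁⟩ := s36_if_normal_form P q hP (N' * q) m hm hqm _ hX1
    hX1fix h₁
  obtain ⟨γ₂, F₂, hF₂0, hF₂fix, hF₂⟩ := s36_if_normal_form P q hP (N' * q) m hm hqm _ hX2
    hX2fix h₂'
  -- step 3: the field `K₀`
  have : NeZero ((m : ℕ) : Qb) := ⟨Nat.cast_ne_zero.mpr hm.ne'⟩
  obtain ⟨ζ, hζ⟩ := HasEnoughRootsOfUnity.exists_primitiveRoot Qb m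
  obtain ⟨Kb, hKb, hfb⟩ := s36_bi_field (N' * q) (P.inertiaSubgroupIn ℚ) F₁ hF₁fix
  obtain ⟨Kc, hKc, hfc⟩ := s36_bi_field (N' * q) (P.inertiaSubgroupIn ℚ) F₂ hF₂fix
  obtain ⟨Kd, hKd, hfd⟩ := s35_ck_consts {ζ}
  set K₁ : IntermediateField ℚ Qb := Ka ⊔ Kb ⊔ Kc ⊔ Kd with hK₁
  have hK₁G : s18_d1_IsGaloisNF K₁ := ((hKa.sup hKb).sup hKc).sup hKd
  have hKa' : Ka ≤ K₁ := le_trans (le_trans le_sup_left le_sup_left) le_sup_left
  have hKb' : Kb ≤ K₁ := le_trans (le_trans le_sup_right le_sup_left) le_sup_left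
  have hKc' : Kc ≤ K₁ := le_trans le_sup_right le_sup_left
  have hKd' : Kd ≤ K₁ := le_sup_right
  set K₀ : IntermediateField ℚ Qb := s36_bi_T (P.inertiaSubgroupIn ℚ) K₁ with hK₀
  have hK₀mem : ∀ a ∈ K₁, (∀ τ ∈ P.inertiaSubgroupIn ℚ, τ a = a) → a ∈ K₀ :=
    fun a ha hτ => (s36_bi_mem_T (P.inertiaSubgroupIn ℚ) K₁ a).mpr ⟨ha, hτ⟩
  have hK₀fix : ∀ a ∈ K₀, ∀ τ ∈ P.inertiaSubgroupIn ℚ, τ a = a :=
    fun a ha τ hτ => ((s36_bi_mem_T (P.inertiaSubgroupIn ℚ) K₁ a).mp ha).2 τ hτ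
  have : FiniteDimensional ℚ K₁ := hK₁G.1
  have hK₀fin : FiniteDimensional ℚ K₀ := s36_bi_T_finite (P.inertiaSubgroupIn ℚ) K₁
  obtain ⟨g₁, hg₁⟩ := hfa K₁ hKa' K₀ hK₀mem
  obtain ⟨f₁, hf₁⟩ := hfb K₁ hKb' K₀ hK₀mem
  obtain ⟨f₂, hf₂⟩ := hfc K₁ hKc' K₀ hK₀mem
  have hζK₀ : ζ ∈ K₀ := hK₀mem ζ (hKd' (hfd ζ (Finset.mem_singleton_self ζ)))
    (fun τ hτ => s36_bu_zeta_fixed P q hP m hm hqm ζ hζ.pow_eq_one τ hτ)
  have hζ₀ : IsPrimitiveRoot (⟨ζ, hζK₀⟩ : K₀) m :=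
    IsPrimitiveRoot.of_map_of_injective (f := algebraMap K₀ Qb) hζ (algebraMap K₀ Qb).injective
  have hg₁0 : g₁ ≠ 0 := by
    rintro rfl
    apply hg0
    rw [← hg₁, map_zero]
  have hf₁0 : f₁ ≠ 0 := by
    rintro rfl
    apply hF₁0
    rw [← hf₁, map_zero]
  have hf₂0 : f₂ ≠ 0 := by
    rintro rfl
    apply hF₂0
    rw [← hf₂, map_zero]
  obtain ⟨W₁, hW₁⟩ := s36_if_swapK_exists K₀ N' q hcop
  -- step 4: the `K₀`-level relations
  have hinj : Function.Injective (s18_baseIncl K₀ (N' * q * q)) :=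
    (s18_baseIncl K₀ (N' * q * q)).injective
  have hqK : algebraMap K₀ Qb ((q : K₀)) = (q : Qb) := map_natCast _ q
  have hrel : ∀ (x : s18_F1 K₀ (N' * q * q)) (γ : ℤ) (F : modularFunctionFieldBar (N' * q))
      (f : s18_F1 K₀ (N' * q)), s18_baseIncl K₀ (N' * q) f = F →
      s29_kh_normAlong (heckeAlphaBar Qb (N' * q) q) (s18_baseIncl K₀ (N' * q * q) x) =
        algebraMap Qb (modularFunctionFieldBar (N' * q)) ((q : Qb) ^ γ) * F ^ m →
      s35_nmAlong (heckeAlphaBar K₀ (N' * q) q).toRingHom x =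
        algebraMap K₀ (s18_F1 K₀ (N' * q * q)) ((q : K₀) ^ γ) *
          (heckeAlphaBar K₀ (N' * q) q f) ^ m := by
    intro x γ F f hfF hx
    have hqγ : algebraMap K₀ Qb ((q : K₀) ^ γ) = (q : Qb) ^ γ := by rw [map_zpow₀, hqK]
    apply hinj
    rw [← s36_dg_nmAlong_dvd (↥K₀) (N' * q) q hq hqdvd x, hx, map_mul, map_pow, AlgHom.commutes,
      map_mul, map_pow, s18_baseIncl_algebraMap, s34_sw_baseIncl_alpha, hfF, hqγ]
  have hrel1 := hrel g₁ γ₁ F₁ f₁ hf₁ (by rw [hg₁]; exact hF₁)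
  have hrel2 := hrel (W₁ g₁) γ₂ F₂ f₂ hf₂ (by
    rw [s36_if_baseIncl_swap K₀ N' q W₁ hW₁ W hW g₁, hg₁]
    exact hF₂)
  -- step 5: the model
  have key := hmod P hP K₀ hK₀fin hK₀fix m hm hqm ⟨ζ, hζK₀⟩ hζ₀ W₁ hW₁ g₁ hg₁0
    (by rw [hg₁]; exact hdiv) ⟨γ₁, γ₂, f₁, f₂, hf₁0, hf₂0, hrel1, hrel2⟩
  rw [hg₁] at key
  exact key

end Fermat.Agent.S36
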