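import Mathlib
import Fermat.Agent.S36.InstFun

/-!
# S36 (NODE-3), glue for the final assembly: the norm package over `K₀`

With `F'' = K₀ · F(N' q)`, `F = K₀ · F(N' q²)`, `ι = α` (the inclusion, degree `q`),
`ϖ'' = q` (as a constant of `F''`) and `Nm = Algebra.norm F''` (algebra structure via `ι`):

* `s36_in_nm_map` : `Nm (ι y) = y ^ q`;
* `s36_in_nm_of_nmAlong` : `s35_nmAlong ι x = ι Y → Nm x = Y`;
* `s36_in_normRel` : the relations `s36_if_NormRel` in the form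
  `Nm g₁ = ϖ'' ^ γ₁ * f₁ ^ m`, `Nm (W₁ g₁) = ϖ'' ^ γ₂ * f₂ ^ m` consumed by `s36_pm_chain1`;
* `s36_in_swap_const`, `s36_in_alpha_const` : constants are fixed by `W₁`, preserved by `α`.
-/

set_option autoImplicit false
set_option synthInstance.maxHeartbeats 400000
set_option linter.style.haveILetI false
set_option linter.unusedSectionVars false

open ModularCurve AlgebraicCurve

noncomputable section

namespace Fermat.Agent.S36

open Fermat.Agent.S18 Fermat.Agent.S24 Fermat.Agent.S29 Fermat.Agent.S34 Fermat.Agent.S35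
  Fermat.Agent.S37

local notation "Qb" => AlgebraicClosure ℚ

section Abs

variable {F'' F : Type*} [Field F''] [Field F]

/-- The norm along `ι` of an element of the base is its `d`-th power, `d` the degree. -/
theorem s36_in_nm_map_abs (ι : F'' →+* F) (d : ℕ)
    (hfin : letI := ι.toAlgebra; Module.Finite F'' F ∧ Module.finrank F'' F = d) (y : F'') :
    @Algebra.norm F'' F _ _ ι.toAlgebra (ι y) = y ^ d := by
  letI := ι.toAlgebra
  haveI : Module.Finite F'' F := hfin.1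
  have h : ι y = algebraMap F'' F y := rfl
  rw [h, Algebra.norm_algebraMap, hfin.2]

/-- From the `F`-valued norm `s35_nmAlong` back to the `F''`-valued norm. -/
theorem s36_in_nm_of_nmAlong (ι : F'' →+* F) (x : F) (Y : F'') (h : s35_nmAlong ι x = ι Y) :
    @Algebra.norm F'' F _ _ ι.toAlgebra x = Y :=
  ι.injective h

end Abs

section Model

variable (K₀ : IntermediateField ℚ Qb) (N' q : ℕ) [NeZero (N' * q)] [NeZero q]
  [NeZero (N' * q * q)]

/-- `Nm (α y) = y ^ q`. -/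
theorem s36_in_nm_map (hq : q.Prime) (y : s18_F1 K₀ (N' * q)) :
    @Algebra.norm (s18_F1 K₀ (N' * q)) (s18_F1 K₀ (N' * q * q)) _ _
      (heckeAlphaBar K₀ (N' * q) q).toRingHom.toAlgebra (heckeAlphaBar K₀ (N' * q) q y) =
      y ^ q :=
  s36_in_nm_map_abs (heckeAlphaBar K₀ (N' * q) q).toRingHom q
    (s36_dg_finrank_dvd (↥K₀) (N' * q) q hq (dvd_mul_left q N')) y

/-- `α` preserves constants. -/
theorem s36_in_alpha_const (c : K₀) :
    heckeAlphaBar K₀ (N' * q) q (algebraMap K₀ (s18_F1 K₀ (N' * q)) c) =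
      algebraMap K₀ (s18_F1 K₀ (N' * q * q)) c :=
  AlgHom.commutes _ c

/-- A swap fixes constants. -/
theorem s36_in_swap_const
    (W₁ : s18_F1 K₀ (N' * q * q) ≃ₐ[K₀] s18_F1 K₀ (N' * q * q)) (c : K₀) :
    W₁ (algebraMap K₀ (s18_F1 K₀ (N' * q * q)) c) = algebraMap K₀ (s18_F1 K₀ (N' * q * q)) c :=
  AlgEquiv.commutes _ c

set_option maxHeartbeats 1000000 in
/-- The `K₀`-level norm relations in the `F''`-valued form `Nm g₁ = ϖ'' ^ γ * f ^ m`. -/
theorem s36_in_normRel (m : ℕ)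
    (W₁ : s18_F1 K₀ (N' * q * q) ≃ₐ[K₀] s18_F1 K₀ (N' * q * q))
    (g₁ : s18_F1 K₀ (N' * q * q)) (h : s36_if_NormRel K₀ N' q m W₁ g₁) :
    ∃ (γ₁ γ₂ : ℤ) (f₁ f₂ : s18_F1 K₀ (N' * q)), f₁ ≠ 0 ∧ f₂ ≠ 0 ∧
      @Algebra.norm (s18_F1 K₀ (N' * q)) (s18_F1 K₀ (N' * q * q)) _ _
        (heckeAlphaBar K₀ (N' * q) q).toRingHom.toAlgebra g₁ =
        (algebraMap K₀ (s18_F1 K₀ (N' * q)) (q : K₀)) ^ γ₁ * f₁ ^ m ∧
      @Algebra.norm (s18_F1 K₀ (N' * q)) (s18_F1 K₀ (N' * q * q)) _ _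
        (heckeAlphaBar K₀ (N' * q) q).toRingHom.toAlgebra (W₁ g₁) =
        (algebraMap K₀ (s18_F1 K₀ (N' * q)) (q : K₀)) ^ γ₂ * f₂ ^ m := by
  obtain ⟨γ₁, γ₂, f₁, f₂, hf₁, hf₂, h₁, h₂⟩ := h
  have key : ∀ (x : s18_F1 K₀ (N' * q * q)) (γ : ℤ) (f : s18_F1 K₀ (N' * q)),
      s35_nmAlong (heckeAlphaBar K₀ (N' * q) q).toRingHom x =
        algebraMap K₀ (s18_F1 K₀ (N' * q * q)) ((q : K₀) ^ γ) *
          (heckeAlphaBar K₀ (N' * q) q f) ^ m →
      @Algebra.norm (s18_F1 K₀ (N' * q)) (s18_F1 K₀ (N' * q * q)) _ _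
        (heckeAlphaBar K₀ (N' * q) q).toRingHom.toAlgebra x =
        (algebraMap K₀ (s18_F1 K₀ (N' * q)) (q : K₀)) ^ γ * f ^ m := by
    intro x γ f hx
    apply s36_in_nm_of_nmAlong (heckeAlphaBar K₀ (N' * q) q).toRingHom x
    have e : heckeAlphaBar K₀ (N' * q) q
        ((algebraMap K₀ (s18_F1 K₀ (N' * q)) (q : K₀)) ^ γ * f ^ m) =
        algebraMap K₀ (s18_F1 K₀ (N' * q * q)) ((q : K₀) ^ γ) *
          (heckeAlphaBar K₀ (N' * q) q f) ^ m := by
      rw [map_mul, map_pow, ← map_zpow₀ (algebraMap K₀ (s18_F1 K₀ (N' * q))) (q : K₀) γ,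
        s36_in_alpha_const]
    rw [hx]
    exact e.symm
  exact ⟨γ₁, γ₂, f₁, f₂, hf₁, hf₂, key g₁ γ₁ f₁ h₁, key (W₁ g₁) γ₂ f₂ h₂⟩

end Model

end Fermat.Agent.S36
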