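import Mathlib
import Fermat.Agent.S34.ExtTwo
import Fermat.Agent.S35.NormRes
import Fermat.Agent.S36.ExtRam

/-!
# S36 (NODE-3), leaf (EXT'): "no third valuation"

If `V₁ ⊓ V₂` is integral over the discrete valuation ring `R` (the conclusion `hint` of
`s34_ext_main`, `s36_ext_ram`, `s36_ei_ram`, `s36_nm_AC`), then `V₁` and `V₂` are the ONLY
valuation rings of `F` dominating `R`: every valuation ring `V₃ ⊇ R` in which the uniformizer of
`R` is not a unit equals `V₁` or `V₂`.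

* `s36_eo_only` : `ValuationSubring` form over a discrete valuation ring `R`;
* `s36_eo_only_one` : the same for a single `V` (conclusion of `s36_ext_insep`);
* `s36_eo_two`, `s36_eo_one` : subring / two-field forms (`s35_Unif`, `ι : F'' →+* F`);
* `s36_eo_swap` : an involution `W` of `F` fixing the uniformizer with `W (ι V') ⊆ V₂` and
  `W⁻¹ V₁ ≠ V₂` satisfies `W V₂ = V₂`  (use: `W₁ V_C = V_C` from `β (V'₀) ⊆ V_C`, `V_B ≠ V_C`).
-/

set_option autoImplicit false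
set_option linter.style.haveILetI false

namespace Fermat.Agent.S36

open IsDedekindDomain Fermat.Agent.S34 Fermat.Agent.S35

/-- **No third valuation.** -/
theorem s36_eo_only {R F' F : Type*} [CommRing R] [IsDomain R] [IsDiscreteValuationRing R]
    [Field F'] [Field F] [Algebra R F'] [IsFractionRing R F'] [Algebra F' F] [Algebra R F]
    [IsScalarTower R F' F] [FiniteDimensional F' F] [Algebra.IsSeparable F' F]
    {ϖ : R} (hϖ : Irreducible ϖ)
    (V₁ V₂ V₃ : ValuationSubring F)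
    (hR₁ : ∀ r : R, algebraMap R F r ∈ V₁) (hϖ₁ : (algebraMap R F ϖ)⁻¹ ∉ V₁)
    (hR₂ : ∀ r : R, algebraMap R F r ∈ V₂) (hϖ₂ : (algebraMap R F ϖ)⁻¹ ∉ V₂)
    (hR₃ : ∀ r : R, algebraMap R F r ∈ V₃) (hϖ₃ : (algebraMap R F ϖ)⁻¹ ∉ V₃)
    (hint : ∀ x : F, x ∈ V₁ → x ∈ V₂ → IsIntegral R x) :
    V₃ = V₁ ∨ V₃ = V₂ := by
  classical
  have : IsDedekindDomain (integralClosure R F) := integralClosure.isDedekindDomain R F' F
  have : IsFractionRing (integralClosure R F) F :=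
    integralClosure.isFractionRing_of_finite_extension F' F
  have hinj : Function.Injective (algebraMap R F) := by
    rw [IsScalarTower.algebraMap_eq R F' F]
    exact (algebraMap F' F).injective.comp (IsFractionRing.injective R F')
  have : FaithfulSMul R F := (faithfulSMul_iff_algebraMap_injective R F).2 hinj
  obtain ⟨v₁, -, ha2, -, -⟩ := s34_ext_prime hϖ V₁ hR₁ hϖ₁
  obtain ⟨v₂, -, hb2, -, -⟩ := s34_ext_prime hϖ V₂ hR₂ hϖ₂
  obtain ⟨v₃, -, hc2, -, -⟩ := s34_ext_prime hϖ V₃ hR₃ hϖ₃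
  by_contra hcon
  rw [not_or] at hcon
  have h31 : ¬ v₃.asIdeal ≤ v₁.asIdeal := by
    intro hle
    have h := v₃.isMaximal.eq_of_le v₁.isPrime.ne_top hle
    have h' : v₃ = v₁ := HeightOneSpectrum.ext h
    apply hcon.1
    ext x
    rw [hc2, ha2, h']
  have h32 : ¬ v₃.asIdeal ≤ v₂.asIdeal := by
    intro hle
    have h := v₃.isMaximal.eq_of_le v₂.isPrime.ne_top hle
    have h' : v₃ = v₂ := HeightOneSpectrum.ext h
    apply hcon.2
    ext x
    rw [hc2, hb2, h']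
  have hnot : ¬ ((v₃.asIdeal : Set (integralClosure R F)) ⊆ v₁.asIdeal ∪ v₂.asIdeal) := by
    rw [Ideal.subset_union]
    rintro (h | h)
    · exact h31 h
    · exact h32 h
  rw [Set.not_subset] at hnot
  obtain ⟨s, hs3, hs12⟩ := hnot
  rw [Set.mem_union, not_or] at hs12
  have hs1 : v₁.valuation F (algebraMap (integralClosure R F) F s) = 1 :=
    (HeightOneSpectrum.valuation_eq_one_iff_notMem v₁).2 hs12.1
  have hs2 : v₂.valuation F (algebraMap (integralClosure R F) F s) = 1 :=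
    (HeightOneSpectrum.valuation_eq_one_iff_notMem v₂).2 hs12.2
  have hs3' : v₃.valuation F (algebraMap (integralClosure R F) F s) < 1 :=
    (v₃.valuation_lt_one_iff_mem s).2 hs3
  have hx1 : (algebraMap (integralClosure R F) F s)⁻¹ ∈ V₁ := by
    rw [ha2, map_inv₀, hs1, inv_one]
  have hx2 : (algebraMap (integralClosure R F) F s)⁻¹ ∈ V₂ := by
    rw [hb2, map_inv₀, hs2, inv_one]
  have hx3 : (algebraMap (integralClosure R F) F s)⁻¹ ∈ V₃ :=
    s34_ext_mem_of_integral V₃ hR₃ (hint _ hx1 hx2)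
  rw [hc2, map_inv₀] at hx3
  have hsF0 : algebraMap (integralClosure R F) F s ≠ 0 := by
    intro h0
    rw [h0, map_zero] at hs1
    exact zero_ne_one hs1
  have hs0 : v₃.valuation F (algebraMap (integralClosure R F) F s) ≠ 0 :=
    (Valuation.ne_zero_iff _).2 hsF0
  have h1 : 1 ≤ v₃.valuation F (algebraMap (integralClosure R F) F s) :=
    (inv_le_one₀ (zero_lt_iff.2 hs0)).1 hx3
  exact absurd hs3' (not_lt.2 h1)

/-- **No second valuation**: if `V` is integral over `R`, it is the only valuation ring of `F`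
dominating `R`. -/
theorem s36_eo_only_one {R F' F : Type*} [CommRing R] [IsDomain R] [IsDiscreteValuationRing R]
    [Field F'] [Field F] [Algebra R F'] [IsFractionRing R F'] [Algebra F' F] [Algebra R F]
    [IsScalarTower R F' F] [FiniteDimensional F' F] [Algebra.IsSeparable F' F]
    {ϖ : R} (hϖ : Irreducible ϖ)
    (V V₃ : ValuationSubring F)
    (hR : ∀ r : R, algebraMap R F r ∈ V) (hϖV : (algebraMap R F ϖ)⁻¹ ∉ V)
    (hR₃ : ∀ r : R, algebraMap R F r ∈ V₃) (hϖ₃ : (algebraMap R F ϖ)⁻¹ ∉ V₃)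
    (hint : ∀ x : F, x ∈ V → IsIntegral R x) :
    V₃ = V := by
  rcases s36_eo_only (R := R) (F' := F') (F := F) hϖ V V V₃ hR hϖV hR hϖV hR₃ hϖ₃
    (fun x hx _ => hint x hx) with h | h
  · exact h
  · exact h

section TwoField

variable {F'' F : Type*} [Field F''] [Field F]

/-- **No third valuation, subring / two-field form.** -/
theorem s36_eo_two [CharZero F''] (ι : F'' →+* F)
    (hfin : letI := ι.toAlgebra; Module.Finite F'' F)
    {ϖ'' : F''} (V' : Subring F'') (hV' : s35_Unif ϖ'' V')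
    (V₁ V₂ V₃ : Subring F) {z₁ z₂ z₃ : F}
    (hV₁ : s35_Unif z₁ V₁) (hV₂ : s35_Unif z₂ V₂) (hV₃ : s35_Unif z₃ V₃)
    (h₁ : ∀ x ∈ V', ι x ∈ V₁) (h₂ : ∀ x ∈ V', ι x ∈ V₂) (h₃ : ∀ x ∈ V', ι x ∈ V₃)
    (hϖ₁ : (ι ϖ'')⁻¹ ∉ V₁) (hϖ₂ : (ι ϖ'')⁻¹ ∉ V₂) (hϖ₃ : (ι ϖ'')⁻¹ ∉ V₃)
    (hint : ∀ y ∈ V₁, y ∈ V₂ →
      ∃ P : Polynomial V', P.Monic ∧ P.eval₂ (ι.comp V'.subtype) y = 0) :
    V₃ = V₁ ∨ V₃ = V₂ := by
  letI : Algebra F'' F := ι.toAlgebra
  letI : Algebra V' F := (ι.comp V'.subtype).toAlgebra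
  haveI : IsScalarTower V' F'' F := IsScalarTower.of_algebraMap_eq (fun _ => rfl)
  haveI : IsDiscreteValuationRing V' := hV'.isDVR
  haveI : IsFractionRing V' F'' := hV'.isFractionRing
  haveI : FiniteDimensional F'' F := hfin
  haveI : Algebra.IsSeparable F'' F := inferInstance
  have key := s36_eo_only (R := V') (F' := F'') (F := F) (ϖ := ⟨ϖ'', hV'.mem⟩) hV'.irreducible
    (s36_ei_vs V₁ hV₁) (s36_ei_vs V₂ hV₂) (s36_ei_vs V₃ hV₃)
    (fun r => h₁ r r.2) hϖ₁ (fun r => h₂ r r.2) hϖ₂ (fun r => h₃ r r.2) hϖ₃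
    (fun x hx1 hx2 => by
      obtain ⟨P, hP, hPx⟩ := hint x hx1 hx2
      exact ⟨P, hP, hPx⟩)
  rcases key with h | h
  · left
    ext x
    rw [← s36_ei_mem_vs hV₃, ← s36_ei_mem_vs hV₁, h]
  · right
    ext x
    rw [← s36_ei_mem_vs hV₃, ← s36_ei_mem_vs hV₂, h]

/-- **No second valuation, subring / two-field form.** -/
theorem s36_eo_one [CharZero F''] (ι : F'' →+* F)
    (hfin : letI := ι.toAlgebra; Module.Finite F'' F)
    {ϖ'' : F''} (V' : Subring F'') (hV' : s35_Unif ϖ'' V')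
    (V V₃ : Subring F) {z z₃ : F} (hV : s35_Unif z V) (hV₃ : s35_Unif z₃ V₃)
    (h₁ : ∀ x ∈ V', ι x ∈ V) (h₃ : ∀ x ∈ V', ι x ∈ V₃)
    (hϖ₁ : (ι ϖ'')⁻¹ ∉ V) (hϖ₃ : (ι ϖ'')⁻¹ ∉ V₃)
    (hint : ∀ y ∈ V, ∃ P : Polynomial V', P.Monic ∧ P.eval₂ (ι.comp V'.subtype) y = 0) :
    V₃ = V := by
  rcases s36_eo_two ι hfin V' hV' V V V₃ hV hV hV₃ h₁ h₁ h₃ hϖ₁ hϖ₁ hϖ₃
    (fun y hy _ => hint y hy) with h | h
  · exact h
  · exact h

/-- The pull-back of a uniformized ring by an automorphism. -/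
theorem s36_eo_unif_comap {z : F} {V : Subring F} (hV : s35_Unif z V) (W : F ≃+* F) :
    s35_Unif (W.symm z) (V.comap (W : F →+* F)) := by
  refine ⟨?_, ?_, ?_⟩
  · show W (W.symm z) ∈ V
    rw [RingEquiv.apply_symm_apply]
    exact hV.mem
  · intro h
    have h1 : W ((W.symm z)⁻¹) ∈ V := h
    rw [map_inv₀, RingEquiv.apply_symm_apply] at h1
    exact hV.inv_not_mem h1
  · intro x hx
    have hWx : W x ≠ 0 := by
      rw [Ne, map_eq_zero]
      exact hx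
    obtain ⟨j, u, hu, hu', hxu⟩ := hV.decomp (W x) hWx
    refine ⟨j, W.symm u, ?_, ?_, ?_⟩
    · show W (W.symm u) ∈ V
      rw [RingEquiv.apply_symm_apply]
      exact hu
    · show W ((W.symm u)⁻¹) ∈ V
      rw [map_inv₀, RingEquiv.apply_symm_apply]
      exact hu'
    · apply W.injective
      rw [map_mul, map_zpow₀, RingEquiv.apply_symm_apply, RingEquiv.apply_symm_apply]
      exact hxu

/-- **An involution preserving the base preserves the second valuation ring.**  In the situation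
"`V₁`, `V₂` are the only valuation rings over `ι V'`", let `W` be an involution of `F` fixing
`ι ϖ''` with `W (ι V') ⊆ V₂`, and suppose `W⁻¹ V₁ ≠ V₂` (some `x` with `W x ∈ V₁`, `x ∉ V₂`).
Then `W V₂ = V₂`. -/
theorem s36_eo_swap [CharZero F''] (ι : F'' →+* F)
    (hfin : letI := ι.toAlgebra; Module.Finite F'' F)
    {ϖ'' : F''} (V' : Subring F'') (hV' : s35_Unif ϖ'' V')
    (V₁ V₂ : Subring F) {z₁ z₂ : F} (hV₁ : s35_Unif z₁ V₁) (hV₂ : s35_Unif z₂ V₂)
    (h₁ : ∀ x ∈ V', ι x ∈ V₁) (h₂ : ∀ x ∈ V', ι x ∈ V₂)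
    (hϖ₁ : (ι ϖ'')⁻¹ ∉ V₁) (hϖ₂ : (ι ϖ'')⁻¹ ∉ V₂)
    (hint : ∀ y ∈ V₁, y ∈ V₂ →
      ∃ P : Polynomial V', P.Monic ∧ P.eval₂ (ι.comp V'.subtype) y = 0)
    (W : F ≃+* F) (hWW : ∀ x, W (W x) = x) (hWϖ : W (ι ϖ'') = ι ϖ'')
    (hW₂ : ∀ y ∈ V', W (ι y) ∈ V₂)
    (hne : ∃ x, W x ∈ V₁ ∧ x ∉ V₂) (x : F) :
    W x ∈ V₂ ↔ x ∈ V₂ := by
  have hV₃ := s36_eo_unif_comap hV₂ W
  have hϖ₃ : (ι ϖ'')⁻¹ ∉ V₂.comap (W : F →+* F) := by
    intro h
    have h1 : W ((ι ϖ'')⁻¹) ∈ V₂ := h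
    rw [map_inv₀, hWϖ] at h1
    exact hϖ₂ h1
  rcases s36_eo_two ι hfin V' hV' V₁ V₂ (V₂.comap (W : F →+* F)) hV₁ hV₂ hV₃ h₁ h₂
    (fun y hy => hW₂ y hy) hϖ₁ hϖ₂ hϖ₃ hint with h | h
  · exfalso
    obtain ⟨y, hy1, hy2⟩ := hne
    have h3 : W y ∈ V₂.comap (W : F →+* F) := by
      rw [h]
      exact hy1
    have h4 : W (W y) ∈ V₂ := h3
    rw [hWW] at h4
    exact hy2 h4
  · constructor
    · intro hx
      have h3 : x ∈ V₂.comap (W : F →+* F) := hx
      rw [h] at h3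
      exact h3
    · intro hx
      have h3 : x ∈ V₂.comap (W : F →+* F) := by
        rw [h]
        exact hx
      exact h3

end TwoField

end Fermat.Agent.S36
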