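import Mathlib
import Fermat.Agent.S34.SmoothPoint
import Fermat.Agent.S36.NrPkg
import Fermat.Agent.S36.ExtOnly

/-!
# S36 (NODE-3): the components block of `s36_pow_of_model` (PowModel), from the `V_C`-contract

* `s36_nc_Pkg ι ϖ'' z n Vi V0 VA VB VC W` : the hypotheses of `s36_pow_of_model` on the three
  components `V_A`, `V_B`, `V_C`, the level below, the norm `Nm = Algebra.norm` along `ι`
  (the monoid homomorphism `@Algebra.norm F'' F _ _ ι.toAlgebra`) and the swap `W`, verbatim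
  (same names, `s34_Unif` vocabulary).
* `s36_nc_abs` : the package from the minimal valuation-theoretic inputs (abstract).
  (The model instance is `s36_ncm_model` in `S36/NrChainModel.lean`.)
-/

set_option autoImplicit false
set_option linter.unusedSectionVars false
set_option linter.style.haveILetI false

noncomputable section

namespace Fermat.Agent.S36

open Fermat.Agent.S18 Fermat.Agent.S34 Fermat.Agent.S35

section Abstract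

/-- From the `s34_Unif` to the `s35_Unif` vocabulary. -/
theorem s36_nc_to35 {E : Type*} [Field E] {ϖ : E} {V : Subring E} (h : s34_Unif ϖ V) :
    s35_Unif ϖ V :=
  ⟨h.mem, h.inv_not_mem, h.decomp⟩

/-- From the `s35_Unif` to the `s34_Unif` vocabulary. -/
theorem s36_nc_to34 {E : Type*} [Field E] {ϖ : E} {V : Subring E} (h : s35_Unif ϖ V) :
    s34_Unif ϖ V :=
  ⟨h.mem, h.inv_not_mem, h.decomp⟩

variable {F'' F : Type*} [Field F''] [Field F]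

/-- The hypotheses of `s36_pow_of_model` on the three components, the level below, the norm and
the swap. -/
structure s36_nc_Pkg (ι : F'' →+* F) (ϖ'' : F'') (z : F) (n : ℕ)
    (Vi V0 : Subring F'') (VA VB VC : Subring F) (W : F ≃+* F) : Prop where
  hA : s34_Unif (ι ϖ'') VA
  hB : s34_Unif (ι ϖ'') VB
  hC : s34_Unif z VC
  hAB : VA ≠ VB
  hAC : VA ≠ VC
  hBC : VB ≠ VC
  hVi : s34_Unif ϖ'' Vi
  hV0 : s34_Unif ϖ'' V0
  hιA : ∀ x ∈ Vi, ι x ∈ VA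
  hιC : ∀ x ∈ Vi, ι x ∈ VC
  hιB : ∀ x ∈ V0, ι x ∈ VB
  hn : 1 ≤ n
  hzn : ι ϖ'' * (z ^ n)⁻¹ ∈ VC
  hzn' : z ^ n * (ι ϖ'')⁻¹ ∈ VC
  hresA : ∀ y ∈ VA, ∃ y' ∈ Vi, (ι ϖ'')⁻¹ * (y - ι y') ∈ VA
  hresC : ∀ y ∈ VC, ∃ y' ∈ Vi, z⁻¹ * (y - ι y') ∈ VC
  hresB : ∀ y ∈ VB, ∃ b ∈ V0, (ι ϖ'')⁻¹ * (y ^ (n + 1) - ι b) ∈ VB
  hNϖ : @Algebra.norm F'' F _ _ ι.toAlgebra (ι ϖ'') = ϖ'' ^ (n + 1)
  hNRram : ∀ h ∈ VA, h ∈ VC → ∀ a ∈ Vi, ∀ c ∈ Vi, (ι ϖ'')⁻¹ * (h - ι a) ∈ VA →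
    z⁻¹ * (h - ι c) ∈ VC → ϖ''⁻¹ * (@Algebra.norm F'' F _ _ ι.toAlgebra h - a * c ^ n) ∈ Vi
  hNRins : ∀ h ∈ VB, ∀ b ∈ V0, (ι ϖ'')⁻¹ * (h ^ (n + 1) - ι b) ∈ VB →
    ϖ''⁻¹ * (@Algebra.norm F'' F _ _ ι.toAlgebra h - b) ∈ V0
  hWAB : ∀ x, x ∈ VB ↔ W x ∈ VA
  hWC : ∀ x, x ∈ VC ↔ W x ∈ VC
  hWϖ : W (ι ϖ'') = ι ϖ''
  hWW : ∀ x, W (W x) = x
  hintAC : ∀ y ∈ VA, y ∈ VC → ∃ P : Polynomial Vi, P.Monic ∧ P.eval₂ (ι.comp Vi.subtype) y = 0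
  hintB : ∀ y ∈ VB, ∃ P : Polynomial V0, P.Monic ∧ P.eval₂ (ι.comp V0.subtype) y = 0

/-- An element of `F''` whose image lies in a discrete valuation ring `V` over `V'` (same
uniformizer) lies in `V'`. -/
theorem s36_nc_pull (ι : F'' →+* F) {ϖ'' : F''} {V' : Subring F''} {V : Subring F}
    (hV' : s35_Unif ϖ'' V') (hV : s35_Unif (ι ϖ'') V) (hι : ∀ x ∈ V', ι x ∈ V)
    (y : F'') (hy : ι y ∈ V) : y ∈ V' := by
  by_cases hy0 : y = 0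
  · rw [hy0]; exact V'.zero_mem
  obtain ⟨j, u, hu, hu', rfl⟩ := hV'.decomp y hy0
  have hu0 : u ≠ 0 := by rintro rfl; simp at hy0
  rw [hV'.mem_iff hu0 hu hu']
  have hιu0 : ι u ≠ 0 := (map_ne_zero ι).mpr hu0
  have h1 : ι (ϖ'' ^ j * u) = ι ϖ'' ^ j * ι u := by rw [map_mul, map_zpow₀]
  rw [h1] at hy
  have h2 : (ι u)⁻¹ ∈ V := by rw [← map_inv₀]; exact hι _ hu'
  exact (hV.mem_iff hιu0 (hι _ hu) h2).mp hy

/-- Two uniformizers of the same ring divide each other. -/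
theorem s36_nc_unif_dvd {E : Type*} [Field E] {a b : E} {V : Subring E} (ha : s35_Unif a V)
    (hb : s35_Unif b V) : a⁻¹ * b ∈ V := by
  rcases ha.dvd_or_inv_mem hb.mem hb.ne_zero with h | h
  · exact h
  · exact absurd h hb.inv_not_mem

set_option maxHeartbeats 1600000 in
/-- **The components block, abstract.** -/
theorem s36_nc_abs [CharZero F''] (ι : F'' →+* F) (q n : ℕ) (hqn : q = n + 1) (hq : q.Prime)
    (hfin : letI := ι.toAlgebra; Module.Finite F'' F ∧ Module.finrank F'' F = q)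
    {ϖ'' : F''} {Vi V0 : Subring F''} (hVi : s35_Unif ϖ'' Vi) (hV0 : s35_Unif ϖ'' V0)
    {VA VB VC : Subring F} (hVA : s35_Unif (ι ϖ'') VA) {zB : F} (hVB : s35_Unif zB VB)
    {z : F} (hVC : s35_Unif z VC)
    (hιA : ∀ x ∈ Vi, ι x ∈ VA) (hιC : ∀ x ∈ Vi, ι x ∈ VC) (hιB : ∀ x ∈ V0, ι x ∈ VB)
    (hzA : z⁻¹ ∈ VA) (hzB : z⁻¹ ∈ VB) (hzn : ι ϖ'' * (z ^ n)⁻¹ ∈ VC)
    (hϖB : (ι ϖ'')⁻¹ ∉ VB) (hqϖ : ϖ''⁻¹ * ((q : ℕ) : F'') ∈ V0)
    (θ : F) (c : F'') (hc : c ∈ V0) (hθ : θ ∈ VB) (hθc : zB⁻¹ * (θ ^ q - ι c) ∈ VB)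
    (hpow : ∀ d ∈ V0, ϖ''⁻¹ * (d ^ q - c) ∉ V0)
    (W : F ≃+* F) (hWW : ∀ x, W (W x) = x) (hWϖ : W (ι ϖ'') = ι ϖ'')
    (hWAB : ∀ x, x ∈ VB ↔ W x ∈ VA) (hWC : ∀ y ∈ Vi, W (ι y) ∈ VC) :
    s36_nc_Pkg ι ϖ'' z n Vi V0 VA VB VC W := by
  subst hqn
  have hn : 1 ≤ n := by have := hq.two_le; omega
  have hAC : VA ≠ VC := fun h => hVC.inv_not_mem (h ▸ hzA)
  have hBC : VB ≠ VC := fun h => hVC.inv_not_mem (h ▸ hzB)
  obtain ⟨hintAC, hresA, hzn', hresC, hNRram, -⟩ :=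
    s36_nrp_ram ι n hn hfin hVi hVA hVC hιA hιC hAC hzn
  obtain ⟨hVB', hintB, hNRins, hexB⟩ :=
    s36_nrp_insep ι (n + 1) hq hfin hV0 hVB hιB hϖB hqϖ θ c hc hθ hθc hpow
  have hϖ0 : ϖ'' ≠ 0 := hVi.ne_zero
  have hιϖ0 : ι ϖ'' ≠ 0 := hVA.ne_zero
  have hz0 : z ≠ 0 := hVC.ne_zero
  -- `V_A ≠ V_B`
  have hAB : VA ≠ VB := by
    intro h
    obtain ⟨y', hy', hy'A⟩ := hresA θ (h ▸ hθ)
    have hy'0 : y' ∈ V0 := s36_nc_pull ι hV0 hVB' hιB y' (h ▸ hιA y' hy')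
    apply hpow y' hy'0
    apply s36_nc_pull ι hV0 hVB' hιB
    rw [map_mul, map_inv₀, map_sub, map_pow]
    -- `θ ^ (n + 1) ≡ (ι y') ^ (n + 1)` modulo `ι ϖ''` in `V_B`
    have h1 : (ι ϖ'')⁻¹ * (θ ^ (n + 1) - ι y' ^ (n + 1)) ∈ VB := by
      obtain ⟨k, hk⟩ := sub_dvd_pow_sub_pow (⟨θ, hθ⟩ : VB) ⟨ι y', hιB y' hy'0⟩ (n + 1)
      have hk' : θ ^ (n + 1) - ι y' ^ (n + 1) = (θ - ι y') * (k : F) := by
        have := congrArg (Subtype.val : VB → F) hk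
        simpa using this
      rw [hk', ← mul_assoc]
      exact VB.mul_mem (h ▸ hy'A) k.2
    have h2 : (ι ϖ'')⁻¹ * (θ ^ (n + 1) - ι c) ∈ VB := by
      have e : (ι ϖ'')⁻¹ * (θ ^ (n + 1) - ι c) =
          (ι ϖ'')⁻¹ * zB * (zB⁻¹ * (θ ^ (n + 1) - ι c)) := by
        field_simp [hVB.ne_zero]
      rw [e]
      exact VB.mul_mem (s36_nc_unif_dvd hVB' hVB) hθc
    have e : (ι ϖ'')⁻¹ * (ι y' ^ (n + 1) - ι c) =
        (ι ϖ'')⁻¹ * (θ ^ (n + 1) - ι c) - (ι ϖ'')⁻¹ * (θ ^ (n + 1) - ι y' ^ (n + 1)) := by ring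
    rw [e]
    exact VB.sub_mem h2 h1
  -- the swap preserves `V_C`
  have hϖC : (ι ϖ'')⁻¹ ∉ VC := by
    intro h
    apply hVC.inv_not_mem
    obtain ⟨k, rfl⟩ : ∃ k, n = k + 1 := ⟨n - 1, by omega⟩
    have e : z⁻¹ = (ι ϖ'')⁻¹ * (ι ϖ'' * (z ^ (k + 1))⁻¹) * z ^ k := by
      rw [pow_succ]; field_simp
    rw [e]
    exact VC.mul_mem (VC.mul_mem h hzn) (VC.pow_mem hVC.mem k)
  have hWC' : ∀ x, x ∈ VC ↔ W x ∈ VC := fun x =>
    (s36_eo_swap ι hfin.1 Vi hVi VA VC hVA hVC hιA hιC hVA.inv_not_mem hϖC hintAC W hWW hWϖ hWC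
      ⟨z⁻¹, (hWAB _).mp hzB, hVC.inv_not_mem⟩ x).symm
  letI : Algebra F'' F := ι.toAlgebra
  haveI : FiniteDimensional F'' F := hfin.1
  refine
    { hA := s36_nc_to34 hVA
      hB := s36_nc_to34 hVB'
      hC := s36_nc_to34 hVC
      hAB := hAB
      hAC := hAC
      hBC := hBC
      hVi := s36_nc_to34 hVi
      hV0 := s36_nc_to34 hV0
      hιA := hιA
      hιC := hιC
      hιB := hιB
      hn := hn
      hzn := hzn
      hzn' := hzn'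
      hresA := hresA
      hresC := hresC
      hresB := ?_
      hNϖ := ?_
      hNRram := ?_
      hNRins := ?_
      hWAB := hWAB
      hWC := hWC'
      hWϖ := hWϖ
      hWW := hWW
      hintAC := hintAC
      hintB := hintB }
  · intro y hy
    obtain ⟨b, hb, -, -, hb', -⟩ := hexB y hy
    exact ⟨b, hb, hb'⟩
  · have h1 : Algebra.norm F'' (algebraMap F'' F ϖ'') = ϖ'' ^ Module.finrank F'' F :=
      Algebra.norm_algebraMap ϖ''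
    rw [hfin.2] at h1
    exact h1
  · intro h hA hC a ha c' hc' ha₁ hc₂
    obtain ⟨w, hw, hnm⟩ := hNRram h hA hC a ha c' hc' ha₁ hc₂
    have h1 : Algebra.norm F'' h = a * c' ^ n + ϖ'' * w := by
      apply ι.injective
      rw [← hnm, s35_nmAlong_eq]
    rw [h1, add_sub_cancel_left, inv_mul_cancel_left₀ hϖ0]
    exact hw
  · intro h hB b hb hb'
    obtain ⟨w, hw, hnm⟩ := hNRins h hB b hb hb'
    have h1 : Algebra.norm F'' h = b + ϖ'' * w := by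
      apply ι.injective
      rw [← hnm, s35_nmAlong_eq]
    rw [h1, add_sub_cancel_left, inv_mul_cancel_left₀ hϖ0]
    exact hw

end Abstract

end Fermat.Agent.S36
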