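import Mathlib
import Fermat.Agent.S34.SmoothPoint

/-!
# S36 (NODE-3), leaf (approx3): weak approximation for uniformized discrete valuation rings

Abstract algebra over a field `F` with two or three pairwise distinct discrete valuation rings
`V₁, V₂, V₃` given in the elementary form `s34_Unif ϖᵢ Vᵢ` — the uniformizers `ϖᵢ` may be
different (e.g. `π` for the reduced components and `z` for the component of multiplicity `q - 1`).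

Congruences `x ≡ y mod ϖ^N V` are written `ϖ⁻¹ ^ N * (x - y) ∈ V`.

* `s36_wa_le_of_le`, `s36_wa_not_le` : distinct uniformized DVRs are incomparable;
* `s36_wa_sep2`, `s36_wa_sep3` : an element with a pole at `V₁` and zeros at the other rings;
* `s36_wa_idem3` (`s36_wa_idem2`) : approximate idempotents of any precision;
* `s36_wa_crt3` (`s36_wa_crt2`) : simultaneous approximation of ARBITRARY `x₁, x₂, x₃ ∈ F` to any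
  precision `N` (prescribed residues);
* `s36_wa_res3` (`s36_wa_res2`) : the case `N = 1`, with membership;
* `s36_wa_val3` (`s36_wa_val2`) : prescribed valuations `n₁, n₂, n₃ ∈ ℤ`.
-/

set_option autoImplicit false

namespace Fermat.Agent.S36

open Fermat.Agent.S34

variable {F : Type*} [Field F]

/-! ### One ring -/

/-- An element of `ϖ V` lies in `V`. -/
theorem s36_wa_mem_of_small {ϖ : F} {V : Subring F} (hV : s34_Unif ϖ V) {x : F}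
    (hx : ϖ⁻¹ * x ∈ V) : x ∈ V := by
  have e : x = ϖ * (ϖ⁻¹ * x) := by
    rw [← mul_assoc, mul_inv_cancel₀ hV.ne_zero, one_mul]
  rw [e]; exact V.mul_mem hV.mem hx

/-- `1 + ϖ w ≠ 0` for `w ∈ V`. -/
theorem s36_wa_one_add_ne {ϖ : F} {V : Subring F} (hV : s34_Unif ϖ V) {w : F} (hw : w ∈ V) :
    1 + ϖ * w ≠ 0 := by
  intro h0
  apply hV.inv_not_mem
  have hϖ := hV.ne_zero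
  have e : ϖ⁻¹ = ϖ⁻¹ * (1 + ϖ * w) - w := by
    field_simp; ring
  rw [h0, mul_zero, zero_sub] at e
  rw [e]; exact V.neg_mem hw

/-- `(1 + Y⁻¹)⁻¹ = Y / (1 + Y)`. -/
theorem s36_wa_inv_one_add_inv (Y : F) (hY : Y ≠ 0) : (1 + Y⁻¹)⁻¹ = Y * (1 + Y)⁻¹ := by
  have h : 1 + Y⁻¹ = (1 + Y) * Y⁻¹ := by
    rw [add_mul, one_mul, mul_inv_cancel₀ hY, add_comm]
  rw [h, mul_inv, inv_inv, mul_comm]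

/-- `(1 + A)⁻¹ - 1 = -A / (1 + A)`. -/
theorem s36_wa_inv_sub_one (A : F) (h : 1 + A ≠ 0) : (1 + A)⁻¹ - 1 = -(A * (1 + A)⁻¹) := by
  have h1 : (1 + A) * (1 + A)⁻¹ = 1 := mul_inv_cancel₀ h
  linear_combination h1

/-- An element outside `V` has its inverse in `ϖ V`. -/
theorem s36_wa_inv_small {ϖ : F} {V : Subring F} (hV : s34_Unif ϖ V) {x : F} (hx : x ∉ V) :
    ϖ⁻¹ * x⁻¹ ∈ V := by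
  have hϖ := hV.ne_zero
  have hx0 : x ≠ 0 := by rintro rfl; exact hx V.zero_mem
  obtain ⟨j, w, hw, hwi, rfl⟩ := hV.decomp x hx0
  have hw0 : w ≠ 0 := by rintro rfl; simp at hx0
  have hj : ¬ 0 ≤ j := fun h => hx ((hV.mem_iff hw0 hw hwi).mpr h)
  have e : ϖ⁻¹ * (ϖ ^ j * w)⁻¹ = ϖ ^ (-j - 1) * w⁻¹ := by
    rw [mul_inv, ← zpow_neg, zpow_sub₀ hϖ, zpow_one]
    field_simp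
  rw [e]
  exact (hV.mem_iff (inv_ne_zero hw0) hwi (by rwa [inv_inv])).mpr (by omega)

/-- A power of an element of `ϖ V` lies in `ϖ V` (positive exponent). -/
theorem s36_wa_pow_small {ϖ : F} {V : Subring F} (hV : s34_Unif ϖ V) {x : F}
    (hx : ϖ⁻¹ * x ∈ V) (n : ℕ) : ϖ⁻¹ * x ^ (n + 1) ∈ V := by
  have e : ϖ⁻¹ * x ^ (n + 1) = ϖ⁻¹ * x * x ^ n := by rw [pow_succ]; ring
  rw [e]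
  exact V.mul_mem hx (V.pow_mem (s36_wa_mem_of_small hV hx) n)

/-- The `n`-th power of an element of `ϖ V` lies in `ϖ^n V`. -/
theorem s36_wa_pow_pow_small {ϖ : F} {V : Subring F} {x : F}
    (hx : ϖ⁻¹ * x ∈ V) (n : ℕ) : ϖ⁻¹ ^ n * x ^ n ∈ V := by
  rw [← mul_pow]; exact V.pow_mem hx n

/-- Integral powers of a unit of `V` are units of `V`. -/
theorem s36_wa_zpow_unit {V : Subring F} {u : F} (hu : u ∈ V) (hu' : u⁻¹ ∈ V) (n : ℤ) :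
    u ^ n ∈ V ∧ (u ^ n)⁻¹ ∈ V := by
  rcases Int.eq_nat_or_neg n with ⟨k, rfl | rfl⟩
  · rw [zpow_natCast, ← inv_pow]
    exact ⟨V.pow_mem hu k, V.pow_mem hu' k⟩
  · rw [zpow_neg, zpow_natCast, inv_inv, ← inv_pow]
    exact ⟨V.pow_mem hu' k, V.pow_mem hu k⟩

/-- A small term: `e ∈ ϖ^n V`, `ϖ^K x ∈ V`, `N + K ≤ n` give `e x ∈ ϖ^N V`. -/
theorem s36_wa_term {ϖ : F} {V : Subring F} (hV : s34_Unif ϖ V) {e x : F} {n N K : ℕ}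
    (hn : N + K ≤ n) (he : ϖ⁻¹ ^ n * e ∈ V) (hx : ϖ ^ K * x ∈ V) :
    ϖ⁻¹ ^ N * (e * x) ∈ V := by
  have hϖ := hV.ne_zero
  obtain ⟨d, rfl⟩ := Nat.exists_eq_add_of_le hn
  have e1 : ϖ⁻¹ ^ N * (e * x) = ϖ ^ d * (ϖ⁻¹ ^ (N + K + d) * e) * (ϖ ^ K * x) := by
    simp only [inv_pow, pow_add]
    field_simp
  rw [e1]
  exact V.mul_mem (V.mul_mem (V.pow_mem hV.mem d) he) hx

/-! ### Two rings -/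

/-- Two uniformized DVRs of `F` (possibly different uniformizers): an inclusion is an equality. -/
theorem s36_wa_le_of_le {ϖ₁ ϖ₂ : F} {V₁ V₂ : Subring F} (hV₁ : s34_Unif ϖ₁ V₁)
    (hV₂ : s34_Unif ϖ₂ V₂) (h : V₁ ≤ V₂) : V₂ ≤ V₁ := by
  intro x hx
  by_cases hx0 : x = 0
  · rw [hx0]; exact V₁.zero_mem
  by_contra hx1
  -- `x⁻¹ ∈ ϖ₁ V₁ ⊆ V₂`, so `ϖ₁⁻¹ ∈ V₂`
  have h1 : ϖ₁⁻¹ * x⁻¹ ∈ V₁ := s36_wa_inv_small hV₁ hx1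
  have h2 : ϖ₁⁻¹ ∈ V₂ := by
    have e : ϖ₁⁻¹ = ϖ₁⁻¹ * x⁻¹ * x := by field_simp
    rw [e]; exact V₂.mul_mem (h h1) hx
  -- then every element of `F` is in `V₂`
  apply hV₂.inv_not_mem
  have hϖ₂ : ϖ₂⁻¹ ≠ 0 := inv_ne_zero hV₂.ne_zero
  obtain ⟨j, u, hu, -, hju⟩ := hV₁.decomp ϖ₂⁻¹ hϖ₂
  rw [hju]
  refine V₂.mul_mem ?_ (h hu)
  exact (s36_wa_zpow_unit (h hV₁.mem) h2 j).1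

/-- Two distinct uniformized DVRs of `F` are incomparable. -/
theorem s36_wa_not_le {ϖ₁ ϖ₂ : F} {V₁ V₂ : Subring F} (hV₁ : s34_Unif ϖ₁ V₁)
    (hV₂ : s34_Unif ϖ₂ V₂) (hne : V₁ ≠ V₂) : ∃ x : F, x ∈ V₁ ∧ x ∉ V₂ := by
  by_contra hcon
  push Not at hcon
  have h12 : V₁ ≤ V₂ := fun x hx => hcon x hx
  exact hne (le_antisymm h12 (s36_wa_le_of_le hV₁ hV₂ h12))

/-- A unit of `V₁` lying in `ϖ₂ V₂`. -/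
theorem s36_wa_unit_small {ϖ₁ ϖ₂ : F} {V₁ V₂ : Subring F} (hV₁ : s34_Unif ϖ₁ V₁)
    (hV₂ : s34_Unif ϖ₂ V₂) (hne : V₁ ≠ V₂) :
    ∃ p : F, p ≠ 0 ∧ p ∈ V₁ ∧ p⁻¹ ∈ V₁ ∧ ϖ₂⁻¹ * p ∈ V₂ := by
  obtain ⟨a, ha1, ha2⟩ := s36_wa_not_le hV₁ hV₂ hne
  have ha0 : a ≠ 0 := by rintro rfl; exact ha2 V₂.zero_mem
  by_cases hai : a⁻¹ ∈ V₁
  · exact ⟨a⁻¹, inv_ne_zero ha0, hai, by rwa [inv_inv], s36_wa_inv_small hV₂ ha2⟩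
  · have h1 : ϖ₁⁻¹ * a ∈ V₁ := by
      have := s36_wa_inv_small hV₁ hai
      rwa [inv_inv] at this
    have h2 : (1 + a)⁻¹ ∈ V₁ := by
      have e : 1 + a = 1 + ϖ₁ * (ϖ₁⁻¹ * a) := by
        rw [← mul_assoc, mul_inv_cancel₀ hV₁.ne_zero, one_mul]
      rw [e]; exact hV₁.one_add_inv_mem h1
    have h3 : 1 + a ≠ 0 := by
      have e : 1 + a = 1 + ϖ₁ * (ϖ₁⁻¹ * a) := by
        rw [← mul_assoc, mul_inv_cancel₀ hV₁.ne_zero, one_mul]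
      rw [e]; exact s36_wa_one_add_ne hV₁ h1
    have h4 : 1 + a ∉ V₂ := by
      intro h
      apply ha2
      have e : a = (1 + a) - 1 := by ring
      rw [e]; exact V₂.sub_mem h V₂.one_mem
    exact ⟨(1 + a)⁻¹, inv_ne_zero h3, h2, by rw [inv_inv]; exact V₁.add_mem V₁.one_mem ha1,
      s36_wa_inv_small hV₂ h4⟩

/-- An element with a pole at `V₁` and a zero at `V₂`. -/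
theorem s36_wa_sep2 {ϖ₁ ϖ₂ : F} {V₁ V₂ : Subring F} (hV₁ : s34_Unif ϖ₁ V₁)
    (hV₂ : s34_Unif ϖ₂ V₂) (hne : V₁ ≠ V₂) :
    ∃ y : F, y ≠ 0 ∧ ϖ₁⁻¹ * y⁻¹ ∈ V₁ ∧ ϖ₂⁻¹ * y ∈ V₂ := by
  obtain ⟨p, hp0, -, hp', hp2⟩ := s36_wa_unit_small hV₁ hV₂ hne
  obtain ⟨r, hr0, -, hr', hr1⟩ := s36_wa_unit_small hV₂ hV₁ (Ne.symm hne)
  refine ⟨p * r⁻¹, mul_ne_zero hp0 (inv_ne_zero hr0), ?_, ?_⟩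
  · have e : ϖ₁⁻¹ * (p * r⁻¹)⁻¹ = ϖ₁⁻¹ * r * p⁻¹ := by
      rw [mul_inv, inv_inv]; ring
    rw [e]; exact V₁.mul_mem hr1 hp'
  · have e : ϖ₂⁻¹ * (p * r⁻¹) = ϖ₂⁻¹ * p * r⁻¹ := by ring
    rw [e]; exact V₂.mul_mem hp2 hr'

/-! ### Three rings -/

/-- An element with a pole at `V₁` and zeros at `V₂` and `V₃`. -/
theorem s36_wa_sep3 {ϖ₁ ϖ₂ ϖ₃ : F} {V₁ V₂ V₃ : Subring F} (hV₁ : s34_Unif ϖ₁ V₁)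
    (hV₂ : s34_Unif ϖ₂ V₂) (hV₃ : s34_Unif ϖ₃ V₃) (h12 : V₁ ≠ V₂) (h13 : V₁ ≠ V₃) :
    ∃ a : F, a ≠ 0 ∧ ϖ₁⁻¹ * a⁻¹ ∈ V₁ ∧ ϖ₂⁻¹ * a ∈ V₂ ∧ ϖ₃⁻¹ * a ∈ V₃ := by
  obtain ⟨y, hy0, hy1, hy2⟩ := s36_wa_sep2 hV₁ hV₂ h12
  obtain ⟨z, hz0, hz1, hz3⟩ := s36_wa_sep2 hV₁ hV₃ h13
  obtain ⟨k, hk⟩ := hV₂.exists_pow_mul_mem z
  have hϖ₁ := hV₁.ne_zero
  have hϖ₂ := hV₂.ne_zero
  have hϖ₃ := hV₃.ne_zero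
  have hyi1 : y⁻¹ ∈ V₁ := s36_wa_mem_of_small hV₁ hy1
  by_cases hy3 : y ∈ V₃
  · refine ⟨y ^ (k + 1) * z, mul_ne_zero (pow_ne_zero _ hy0) hz0, ?_, ?_, ?_⟩
    · have e : ϖ₁⁻¹ * (y ^ (k + 1) * z)⁻¹ = y⁻¹ ^ (k + 1) * (ϖ₁⁻¹ * z⁻¹) := by
        rw [mul_inv, inv_pow]; ring
      rw [e]; exact V₁.mul_mem (V₁.pow_mem hyi1 _) hz1
    · have e0 : ϖ₂⁻¹ ^ (k + 1) * ϖ₂ ^ k = ϖ₂⁻¹ := by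
        rw [pow_succ, mul_assoc, mul_comm ϖ₂⁻¹, ← mul_assoc, ← mul_pow, inv_mul_cancel₀ hϖ₂,
          one_pow, one_mul]
      have e : ϖ₂⁻¹ * (y ^ (k + 1) * z) = (ϖ₂⁻¹ * y) ^ (k + 1) * (ϖ₂ ^ k * z) := by
        rw [mul_pow]
        linear_combination (-(y ^ (k + 1) * z)) * e0
      rw [e]; exact V₂.mul_mem (V₂.pow_mem hy2 _) hk
    · have e : ϖ₃⁻¹ * (y ^ (k + 1) * z) = y ^ (k + 1) * (ϖ₃⁻¹ * z) := by ring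
      rw [e]; exact V₃.mul_mem (V₃.pow_mem hy3 _) hz3
  · have hy3' : ϖ₃⁻¹ * y⁻¹ ∈ V₃ := s36_wa_inv_small hV₃ hy3
    -- `c = (1 + y⁻ⁿ)⁻¹ = yⁿ / (1 + yⁿ)`, `n = k + 1`
    have hs1 : ϖ₁⁻¹ * y⁻¹ ^ (k + 1) ∈ V₁ := s36_wa_pow_small hV₁ hy1 k
    have hs3 : ϖ₃⁻¹ * y⁻¹ ^ (k + 1) ∈ V₃ := s36_wa_pow_small hV₃ hy3' k
    have hs2 : ϖ₂⁻¹ * y ^ (k + 1) ∈ V₂ := s36_wa_pow_small hV₂ hy2 k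
    have e1 : 1 + y⁻¹ ^ (k + 1) = 1 + ϖ₁ * (ϖ₁⁻¹ * y⁻¹ ^ (k + 1)) := by
      rw [← mul_assoc, mul_inv_cancel₀ hϖ₁, one_mul]
    have e3 : 1 + y⁻¹ ^ (k + 1) = 1 + ϖ₃ * (ϖ₃⁻¹ * y⁻¹ ^ (k + 1)) := by
      rw [← mul_assoc, mul_inv_cancel₀ hϖ₃, one_mul]
    have e2 : 1 + y ^ (k + 1) = 1 + ϖ₂ * (ϖ₂⁻¹ * y ^ (k + 1)) := by
      rw [← mul_assoc, mul_inv_cancel₀ hϖ₂, one_mul]
    have hc0 : 1 + y⁻¹ ^ (k + 1) ≠ 0 := by rw [e1]; exact s36_wa_one_add_ne hV₁ hs1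
    have hd0 : 1 + y ^ (k + 1) ≠ 0 := by rw [e2]; exact s36_wa_one_add_ne hV₂ hs2
    have hc1 : 1 + y⁻¹ ^ (k + 1) ∈ V₁ :=
      V₁.add_mem V₁.one_mem (s36_wa_mem_of_small hV₁ hs1)
    have hci3 : (1 + y⁻¹ ^ (k + 1))⁻¹ ∈ V₃ := by rw [e3]; exact hV₃.one_add_inv_mem hs3
    have hdi2 : (1 + y ^ (k + 1))⁻¹ ∈ V₂ := by rw [e2]; exact hV₂.one_add_inv_mem hs2
    refine ⟨z * (1 + y⁻¹ ^ (k + 1))⁻¹, mul_ne_zero hz0 (inv_ne_zero hc0), ?_, ?_, ?_⟩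
    · have e : ϖ₁⁻¹ * (z * (1 + y⁻¹ ^ (k + 1))⁻¹)⁻¹ = ϖ₁⁻¹ * z⁻¹ * (1 + y⁻¹ ^ (k + 1)) := by
        rw [mul_inv, inv_inv]; ring
      rw [e]; exact V₁.mul_mem hz1 hc1
    · have e0 : ϖ₂⁻¹ ^ (k + 1) * ϖ₂ ^ k = ϖ₂⁻¹ := by
        rw [pow_succ, mul_assoc, mul_comm ϖ₂⁻¹, ← mul_assoc, ← mul_pow, inv_mul_cancel₀ hϖ₂,
          one_pow, one_mul]
      have e : ϖ₂⁻¹ * (z * (1 + y⁻¹ ^ (k + 1))⁻¹) =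
          (ϖ₂⁻¹ * y) ^ (k + 1) * (ϖ₂ ^ k * z) * (1 + y ^ (k + 1))⁻¹ := by
        have hyk : y ^ (k + 1) ≠ 0 := pow_ne_zero _ hy0
        have h1 : (1 + y⁻¹ ^ (k + 1))⁻¹ = y ^ (k + 1) * (1 + y ^ (k + 1))⁻¹ := by
          rw [inv_pow]; exact s36_wa_inv_one_add_inv _ hyk
        rw [h1, mul_pow]
        linear_combination (-(y ^ (k + 1) * z * (1 + y ^ (k + 1))⁻¹)) * e0
      rw [e]; exact V₂.mul_mem (V₂.mul_mem (V₂.pow_mem hy2 _) hk) hdi2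
    · have e : ϖ₃⁻¹ * (z * (1 + y⁻¹ ^ (k + 1))⁻¹) = ϖ₃⁻¹ * z * (1 + y⁻¹ ^ (k + 1))⁻¹ := by ring
      rw [e]; exact V₃.mul_mem hz3 hci3

/-- From a separating element to an approximate idempotent: `e ≡ 1 mod ϖ₁^n V₁` and
`e ∈ ϖ^n V` for every ring `V` at which `a` is small. -/
theorem s36_wa_idem_core {ϖ₁ : F} {V₁ : Subring F} (hV₁ : s34_Unif ϖ₁ V₁) {a : F} (ha0 : a ≠ 0)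
    (ha1 : ϖ₁⁻¹ * a⁻¹ ∈ V₁) (n : ℕ) :
    ϖ₁⁻¹ ^ (n + 1) * ((1 + a⁻¹ ^ (n + 1))⁻¹ - 1) ∈ V₁ ∧
    ∀ (ϖ : F) (V : Subring F), s34_Unif ϖ V → ϖ⁻¹ * a ∈ V →
      ϖ⁻¹ ^ (n + 1) * (1 + a⁻¹ ^ (n + 1))⁻¹ ∈ V := by
  have hϖ₁ := hV₁.ne_zero
  have hs1 : ϖ₁⁻¹ * a⁻¹ ^ (n + 1) ∈ V₁ := s36_wa_pow_small hV₁ ha1 n
  have e1 : 1 + a⁻¹ ^ (n + 1) = 1 + ϖ₁ * (ϖ₁⁻¹ * a⁻¹ ^ (n + 1)) := by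
    rw [← mul_assoc, mul_inv_cancel₀ hϖ₁, one_mul]
  have hc0 : 1 + a⁻¹ ^ (n + 1) ≠ 0 := by rw [e1]; exact s36_wa_one_add_ne hV₁ hs1
  have hci1 : (1 + a⁻¹ ^ (n + 1))⁻¹ ∈ V₁ := by rw [e1]; exact hV₁.one_add_inv_mem hs1
  refine ⟨?_, ?_⟩
  · have e : ϖ₁⁻¹ ^ (n + 1) * ((1 + a⁻¹ ^ (n + 1))⁻¹ - 1) =
        -((ϖ₁⁻¹ * a⁻¹) ^ (n + 1) * (1 + a⁻¹ ^ (n + 1))⁻¹) := by
      rw [s36_wa_inv_sub_one _ hc0, mul_pow]; ring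
    rw [e]
    exact V₁.neg_mem (V₁.mul_mem (V₁.pow_mem ha1 _) hci1)
  · intro ϖ V hV ha
    have hϖ := hV.ne_zero
    have hs : ϖ⁻¹ * a ^ (n + 1) ∈ V := s36_wa_pow_small hV ha n
    have e2 : 1 + a ^ (n + 1) = 1 + ϖ * (ϖ⁻¹ * a ^ (n + 1)) := by
      rw [← mul_assoc, mul_inv_cancel₀ hϖ, one_mul]
    have hd0 : 1 + a ^ (n + 1) ≠ 0 := by rw [e2]; exact s36_wa_one_add_ne hV hs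
    have hdi : (1 + a ^ (n + 1))⁻¹ ∈ V := by rw [e2]; exact hV.one_add_inv_mem hs
    have hak : a ^ (n + 1) ≠ 0 := pow_ne_zero _ ha0
    have h1 : (1 + a⁻¹ ^ (n + 1))⁻¹ = a ^ (n + 1) * (1 + a ^ (n + 1))⁻¹ := by
      rw [inv_pow]; exact s36_wa_inv_one_add_inv _ hak
    have e : ϖ⁻¹ ^ (n + 1) * (1 + a⁻¹ ^ (n + 1))⁻¹ =
        (ϖ⁻¹ * a) ^ (n + 1) * (1 + a ^ (n + 1))⁻¹ := by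
      rw [h1, mul_pow]; ring
    rw [e]
    exact V.mul_mem (V.pow_mem ha _) hdi

/-- Approximate idempotents for three pairwise distinct uniformized DVRs. -/
theorem s36_wa_idem3 {ϖ₁ ϖ₂ ϖ₃ : F} {V₁ V₂ V₃ : Subring F} (hV₁ : s34_Unif ϖ₁ V₁)
    (hV₂ : s34_Unif ϖ₂ V₂) (hV₃ : s34_Unif ϖ₃ V₃) (h12 : V₁ ≠ V₂) (h13 : V₁ ≠ V₃) (n : ℕ) :
    ∃ e : F, ϖ₁⁻¹ ^ (n + 1) * (e - 1) ∈ V₁ ∧ ϖ₂⁻¹ ^ (n + 1) * e ∈ V₂ ∧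
      ϖ₃⁻¹ ^ (n + 1) * e ∈ V₃ := by
  obtain ⟨a, ha0, ha1, ha2, ha3⟩ := s36_wa_sep3 hV₁ hV₂ hV₃ h12 h13
  obtain ⟨h1, h⟩ := s36_wa_idem_core hV₁ ha0 ha1 n
  exact ⟨_, h1, h ϖ₂ V₂ hV₂ ha2, h ϖ₃ V₃ hV₃ ha3⟩

/-- Approximate idempotents for two distinct uniformized DVRs. -/
theorem s36_wa_idem2 {ϖ₁ ϖ₂ : F} {V₁ V₂ : Subring F} (hV₁ : s34_Unif ϖ₁ V₁)
    (hV₂ : s34_Unif ϖ₂ V₂) (h12 : V₁ ≠ V₂) (n : ℕ) :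
    ∃ e : F, ϖ₁⁻¹ ^ (n + 1) * (e - 1) ∈ V₁ ∧ ϖ₂⁻¹ ^ (n + 1) * e ∈ V₂ := by
  obtain ⟨a, ha0, ha1, ha2⟩ := s36_wa_sep2 hV₁ hV₂ h12
  obtain ⟨h1, h⟩ := s36_wa_idem_core hV₁ ha0 ha1 n
  exact ⟨_, h1, h ϖ₂ V₂ hV₂ ha2⟩

/-- A common bound for the poles of finitely many elements at one ring. -/
theorem s36_wa_pole3 {ϖ : F} {V : Subring F} (hV : s34_Unif ϖ V) (x₁ x₂ x₃ : F) :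
    ∃ K : ℕ, ϖ ^ K * x₁ ∈ V ∧ ϖ ^ K * x₂ ∈ V ∧ ϖ ^ K * x₃ ∈ V := by
  obtain ⟨k₁, h₁⟩ := hV.exists_pow_mul_mem x₁
  obtain ⟨k₂, h₂⟩ := hV.exists_pow_mul_mem x₂
  obtain ⟨k₃, h₃⟩ := hV.exists_pow_mul_mem x₃
  refine ⟨k₁ + k₂ + k₃, ?_, ?_, ?_⟩
  · have e : ϖ ^ (k₁ + k₂ + k₃) * x₁ = ϖ ^ (k₂ + k₃) * (ϖ ^ k₁ * x₁) := by
      rw [pow_add, pow_add, pow_add]; ring
    rw [e]; exact V.mul_mem (V.pow_mem hV.mem _) h₁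
  · have e : ϖ ^ (k₁ + k₂ + k₃) * x₂ = ϖ ^ (k₁ + k₃) * (ϖ ^ k₂ * x₂) := by
      rw [pow_add, pow_add, pow_add]; ring
    rw [e]; exact V.mul_mem (V.pow_mem hV.mem _) h₂
  · have e : ϖ ^ (k₁ + k₂ + k₃) * x₃ = ϖ ^ (k₁ + k₂) * (ϖ ^ k₃ * x₃) := by
      rw [pow_add, pow_add]; ring
    rw [e]; exact V.mul_mem (V.pow_mem hV.mem _) h₃

/-- Weakening the precision of a congruence. -/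
theorem s36_wa_weaken {ϖ : F} {V : Subring F} (hV : s34_Unif ϖ V) {x : F} {n m : ℕ}
    (hnm : n ≤ m) (hx : ϖ⁻¹ ^ m * x ∈ V) : ϖ⁻¹ ^ n * x ∈ V := by
  obtain ⟨d, rfl⟩ := Nat.exists_eq_add_of_le hnm
  have hϖ := hV.ne_zero
  have e : ϖ⁻¹ ^ n * x = ϖ ^ d * (ϖ⁻¹ ^ (n + d) * x) := by
    simp only [inv_pow, pow_add]
    field_simp
  rw [e]; exact V.mul_mem (V.pow_mem hV.mem d) hx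

/-- **Weak approximation (prescribed residues)** for three pairwise distinct uniformized DVRs:
arbitrary `x₁, x₂, x₃ ∈ F` are approximated simultaneously to any precision `N`. -/
theorem s36_wa_crt3 {ϖ₁ ϖ₂ ϖ₃ : F} {V₁ V₂ V₃ : Subring F} (hV₁ : s34_Unif ϖ₁ V₁)
    (hV₂ : s34_Unif ϖ₂ V₂) (hV₃ : s34_Unif ϖ₃ V₃) (h12 : V₁ ≠ V₂) (h13 : V₁ ≠ V₃)
    (h23 : V₂ ≠ V₃) (N : ℕ) (x₁ x₂ x₃ : F) :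
    ∃ z : F, ϖ₁⁻¹ ^ N * (z - x₁) ∈ V₁ ∧ ϖ₂⁻¹ ^ N * (z - x₂) ∈ V₂ ∧
      ϖ₃⁻¹ ^ N * (z - x₃) ∈ V₃ := by
  obtain ⟨K₁, a₁, a₂, a₃⟩ := s36_wa_pole3 hV₁ x₁ x₂ x₃
  obtain ⟨K₂, b₁, b₂, b₃⟩ := s36_wa_pole3 hV₂ x₁ x₂ x₃
  obtain ⟨K₃, c₁, c₂, c₃⟩ := s36_wa_pole3 hV₃ x₁ x₂ x₃
  obtain ⟨e₁, p₁, p₂, p₃⟩ := s36_wa_idem3 hV₁ hV₂ hV₃ h12 h13 (N + K₁ + K₂ + K₃)
  obtain ⟨e₂, q₂, q₁, q₃⟩ := s36_wa_idem3 hV₂ hV₁ hV₃ (Ne.symm h12) h23 (N + K₁ + K₂ + K₃)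
  obtain ⟨e₃, r₃, r₁, r₂⟩ := s36_wa_idem3 hV₃ hV₁ hV₂ (Ne.symm h13) (Ne.symm h23)
    (N + K₁ + K₂ + K₃)
  refine ⟨e₁ * x₁ + e₂ * x₂ + e₃ * x₃, ?_, ?_, ?_⟩
  · have e : ϖ₁⁻¹ ^ N * (e₁ * x₁ + e₂ * x₂ + e₃ * x₃ - x₁) =
        ϖ₁⁻¹ ^ N * ((e₁ - 1) * x₁) + ϖ₁⁻¹ ^ N * (e₂ * x₂) + ϖ₁⁻¹ ^ N * (e₃ * x₃) := by ring
    rw [e]
    exact V₁.add_mem (V₁.add_mem (s36_wa_term hV₁ (by omega) p₁ a₁)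
      (s36_wa_term hV₁ (by omega) q₁ a₂)) (s36_wa_term hV₁ (by omega) r₁ a₃)
  · have e : ϖ₂⁻¹ ^ N * (e₁ * x₁ + e₂ * x₂ + e₃ * x₃ - x₂) =
        ϖ₂⁻¹ ^ N * (e₁ * x₁) + ϖ₂⁻¹ ^ N * ((e₂ - 1) * x₂) + ϖ₂⁻¹ ^ N * (e₃ * x₃) := by ring
    rw [e]
    exact V₂.add_mem (V₂.add_mem (s36_wa_term hV₂ (by omega) p₂ b₁)
      (s36_wa_term hV₂ (by omega) q₂ b₂)) (s36_wa_term hV₂ (by omega) r₂ b₃)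
  · have e : ϖ₃⁻¹ ^ N * (e₁ * x₁ + e₂ * x₂ + e₃ * x₃ - x₃) =
        ϖ₃⁻¹ ^ N * (e₁ * x₁) + ϖ₃⁻¹ ^ N * (e₂ * x₂) + ϖ₃⁻¹ ^ N * ((e₃ - 1) * x₃) := by ring
    rw [e]
    exact V₃.add_mem (V₃.add_mem (s36_wa_term hV₃ (by omega) p₃ c₁)
      (s36_wa_term hV₃ (by omega) q₃ c₂)) (s36_wa_term hV₃ (by omega) r₃ c₃)

/-- **Weak approximation (prescribed residues)** for two distinct uniformized DVRs with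
possibly different uniformizers. -/
theorem s36_wa_crt2 {ϖ₁ ϖ₂ : F} {V₁ V₂ : Subring F} (hV₁ : s34_Unif ϖ₁ V₁)
    (hV₂ : s34_Unif ϖ₂ V₂) (h12 : V₁ ≠ V₂) (N : ℕ) (x₁ x₂ : F) :
    ∃ z : F, ϖ₁⁻¹ ^ N * (z - x₁) ∈ V₁ ∧ ϖ₂⁻¹ ^ N * (z - x₂) ∈ V₂ := by
  obtain ⟨K₁, a₁, a₂, -⟩ := s36_wa_pole3 hV₁ x₁ x₂ 0
  obtain ⟨K₂, b₁, b₂, -⟩ := s36_wa_pole3 hV₂ x₁ x₂ 0
  obtain ⟨e₁, p₁, p₂⟩ := s36_wa_idem2 hV₁ hV₂ h12 (N + K₁ + K₂)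
  obtain ⟨e₂, q₂, q₁⟩ := s36_wa_idem2 hV₂ hV₁ (Ne.symm h12) (N + K₁ + K₂)
  refine ⟨e₁ * x₁ + e₂ * x₂, ?_, ?_⟩
  · have e : ϖ₁⁻¹ ^ N * (e₁ * x₁ + e₂ * x₂ - x₁) =
        ϖ₁⁻¹ ^ N * ((e₁ - 1) * x₁) + ϖ₁⁻¹ ^ N * (e₂ * x₂) := by ring
    rw [e]
    exact V₁.add_mem (s36_wa_term hV₁ (by omega) p₁ a₁) (s36_wa_term hV₁ (by omega) q₁ a₂)
  · have e : ϖ₂⁻¹ ^ N * (e₁ * x₁ + e₂ * x₂ - x₂) =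
        ϖ₂⁻¹ ^ N * (e₁ * x₁) + ϖ₂⁻¹ ^ N * ((e₂ - 1) * x₂) := by ring
    rw [e]
    exact V₂.add_mem (s36_wa_term hV₂ (by omega) p₂ b₁) (s36_wa_term hV₂ (by omega) q₂ b₂)

/-- An element congruent to an element of `V` modulo `ϖ V` lies in `V`. -/
theorem s36_wa_mem_of_cg {ϖ : F} {V : Subring F} (hV : s34_Unif ϖ V) {z x : F} (hx : x ∈ V)
    (h : ϖ⁻¹ * (z - x) ∈ V) : z ∈ V := by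
  have e : z = x + ϖ * (ϖ⁻¹ * (z - x)) := by
    rw [← mul_assoc, mul_inv_cancel₀ hV.ne_zero, one_mul]; ring
  rw [e]; exact V.add_mem hx (V.mul_mem hV.mem h)

/-- An element congruent to a unit of `V` modulo `ϖ V` is a unit of `V`. -/
theorem s36_wa_unit_of_cg {ϖ : F} {V : Subring F} (hV : s34_Unif ϖ V) {z x : F} (hx : x ∈ V)
    (hx' : x⁻¹ ∈ V) (hx0 : x ≠ 0) (h : ϖ⁻¹ * (z - x) ∈ V) : z ≠ 0 ∧ z ∈ V ∧ z⁻¹ ∈ V := by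
  have hϖ := hV.ne_zero
  have hw : ϖ⁻¹ * (z - x) * x⁻¹ ∈ V := V.mul_mem h hx'
  have e : z = x * (1 + ϖ * (ϖ⁻¹ * (z - x) * x⁻¹)) := by
    field_simp; ring
  have h1 := s36_wa_one_add_ne hV hw
  have h2 := hV.one_add_inv_mem hw
  refine ⟨?_, s36_wa_mem_of_cg hV hx h, ?_⟩
  · rw [e]; exact mul_ne_zero hx0 h1
  · rw [e, mul_inv]; exact V.mul_mem hx' h2

/-- **Prescribed residues, with membership** (`N = 1`): for `xᵢ ∈ Vᵢ` there is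
`z ∈ V₁ ⊓ V₂ ⊓ V₃` with `z ≡ xᵢ mod ϖᵢ Vᵢ`. -/
theorem s36_wa_res3 {ϖ₁ ϖ₂ ϖ₃ : F} {V₁ V₂ V₃ : Subring F} (hV₁ : s34_Unif ϖ₁ V₁)
    (hV₂ : s34_Unif ϖ₂ V₂) (hV₃ : s34_Unif ϖ₃ V₃) (h12 : V₁ ≠ V₂) (h13 : V₁ ≠ V₃)
    (h23 : V₂ ≠ V₃) (x₁ x₂ x₃ : F) (hx₁ : x₁ ∈ V₁) (hx₂ : x₂ ∈ V₂) (hx₃ : x₃ ∈ V₃) :
    ∃ z : F, z ∈ V₁ ⊓ V₂ ⊓ V₃ ∧ ϖ₁⁻¹ * (z - x₁) ∈ V₁ ∧ ϖ₂⁻¹ * (z - x₂) ∈ V₂ ∧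
      ϖ₃⁻¹ * (z - x₃) ∈ V₃ := by
  obtain ⟨z, h1, h2, h3⟩ := s36_wa_crt3 hV₁ hV₂ hV₃ h12 h13 h23 1 x₁ x₂ x₃
  rw [pow_one] at h1 h2 h3
  exact ⟨z, ⟨⟨s36_wa_mem_of_cg hV₁ hx₁ h1, s36_wa_mem_of_cg hV₂ hx₂ h2⟩,
    s36_wa_mem_of_cg hV₃ hx₃ h3⟩, h1, h2, h3⟩

/-- Two-ring form of `s36_wa_res3`. -/
theorem s36_wa_res2 {ϖ₁ ϖ₂ : F} {V₁ V₂ : Subring F} (hV₁ : s34_Unif ϖ₁ V₁)
    (hV₂ : s34_Unif ϖ₂ V₂) (h12 : V₁ ≠ V₂) (x₁ x₂ : F) (hx₁ : x₁ ∈ V₁) (hx₂ : x₂ ∈ V₂) :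
    ∃ z : F, z ∈ V₁ ⊓ V₂ ∧ ϖ₁⁻¹ * (z - x₁) ∈ V₁ ∧ ϖ₂⁻¹ * (z - x₂) ∈ V₂ := by
  obtain ⟨z, h1, h2⟩ := s36_wa_crt2 hV₁ hV₂ h12 1 x₁ x₂
  rw [pow_one] at h1 h2
  exact ⟨z, ⟨s36_wa_mem_of_cg hV₁ hx₁ h1, s36_wa_mem_of_cg hV₂ hx₂ h2⟩, h1, h2⟩

/-! ### Prescribed valuations -/

/-- An element which is a uniformizer of `V₁` and a unit of `V₂` and `V₃`. -/
theorem s36_wa_unif3 {ϖ₁ ϖ₂ ϖ₃ : F} {V₁ V₂ V₃ : Subring F} (hV₁ : s34_Unif ϖ₁ V₁)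
    (hV₂ : s34_Unif ϖ₂ V₂) (hV₃ : s34_Unif ϖ₃ V₃) (h12 : V₁ ≠ V₂) (h13 : V₁ ≠ V₃)
    (h23 : V₂ ≠ V₃) :
    ∃ b : F, b ≠ 0 ∧ (∃ u : F, u ∈ V₁ ∧ u⁻¹ ∈ V₁ ∧ b = ϖ₁ * u) ∧ (b ∈ V₂ ∧ b⁻¹ ∈ V₂) ∧
      (b ∈ V₃ ∧ b⁻¹ ∈ V₃) := by
  have hϖ₁ := hV₁.ne_zero
  obtain ⟨b, h1, h2, h3⟩ := s36_wa_crt3 hV₁ hV₂ hV₃ h12 h13 h23 2 ϖ₁ 1 1
  have h2' : ϖ₂⁻¹ * (b - 1) ∈ V₂ := by
    have := s36_wa_weaken hV₂ (show 1 ≤ 2 by norm_num) h2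
    rwa [pow_one] at this
  have h3' : ϖ₃⁻¹ * (b - 1) ∈ V₃ := by
    have := s36_wa_weaken hV₃ (show 1 ≤ 2 by norm_num) h3
    rwa [pow_one] at this
  obtain ⟨hb0, hb2, hb2'⟩ := s36_wa_unit_of_cg hV₂ V₂.one_mem (by rw [inv_one]; exact V₂.one_mem)
    one_ne_zero h2'
  obtain ⟨-, hb3, hb3'⟩ := s36_wa_unit_of_cg hV₃ V₃.one_mem (by rw [inv_one]; exact V₃.one_mem)
    one_ne_zero h3'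
  refine ⟨b, hb0, ⟨1 + ϖ₁ * (ϖ₁⁻¹ ^ 2 * (b - ϖ₁)), ?_, ?_, ?_⟩, ⟨hb2, hb2'⟩, ⟨hb3, hb3'⟩⟩
  · exact V₁.add_mem V₁.one_mem (V₁.mul_mem hV₁.mem h1)
  · exact hV₁.one_add_inv_mem h1
  · field_simp; ring

/-- **Weak approximation (prescribed valuations)** for three pairwise distinct uniformized DVRs:
for `n₁, n₂, n₃ ∈ ℤ` there is `φ ≠ 0` with `φ = ϖᵢ^nᵢ · unit` in `Vᵢ`. -/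
theorem s36_wa_val3 {ϖ₁ ϖ₂ ϖ₃ : F} {V₁ V₂ V₃ : Subring F} (hV₁ : s34_Unif ϖ₁ V₁)
    (hV₂ : s34_Unif ϖ₂ V₂) (hV₃ : s34_Unif ϖ₃ V₃) (h12 : V₁ ≠ V₂) (h13 : V₁ ≠ V₃)
    (h23 : V₂ ≠ V₃) (n₁ n₂ n₃ : ℤ) :
    ∃ φ : F, φ ≠ 0 ∧ (∃ u : F, u ∈ V₁ ∧ u⁻¹ ∈ V₁ ∧ φ = ϖ₁ ^ n₁ * u) ∧
      (∃ u : F, u ∈ V₂ ∧ u⁻¹ ∈ V₂ ∧ φ = ϖ₂ ^ n₂ * u) ∧
      (∃ u : F, u ∈ V₃ ∧ u⁻¹ ∈ V₃ ∧ φ = ϖ₃ ^ n₃ * u) := by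
  obtain ⟨b₁, hb₁0, ⟨u₁, hu₁, hu₁', rfl⟩, ⟨hb₁2, hb₁2'⟩, ⟨hb₁3, hb₁3'⟩⟩ :=
    s36_wa_unif3 hV₁ hV₂ hV₃ h12 h13 h23
  obtain ⟨b₂, hb₂0, ⟨u₂, hu₂, hu₂', rfl⟩, ⟨hb₂1, hb₂1'⟩, ⟨hb₂3, hb₂3'⟩⟩ :=
    s36_wa_unif3 hV₂ hV₁ hV₃ (Ne.symm h12) h23 h13
  obtain ⟨b₃, hb₃0, ⟨u₃, hu₃, hu₃', rfl⟩, ⟨hb₃1, hb₃1'⟩, ⟨hb₃2, hb₃2'⟩⟩ :=
    s36_wa_unif3 hV₃ hV₁ hV₂ (Ne.symm h13) (Ne.symm h23) h12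
  have hϖ₁ := hV₁.ne_zero
  have hϖ₂ := hV₂.ne_zero
  have hϖ₃ := hV₃.ne_zero
  refine ⟨(ϖ₁ * u₁) ^ n₁ * (ϖ₂ * u₂) ^ n₂ * (ϖ₃ * u₃) ^ n₃,
    mul_ne_zero (mul_ne_zero (zpow_ne_zero _ hb₁0) (zpow_ne_zero _ hb₂0)) (zpow_ne_zero _ hb₃0),
    ⟨u₁ ^ n₁ * (ϖ₂ * u₂) ^ n₂ * (ϖ₃ * u₃) ^ n₃, ?_, ?_, ?_⟩,
    ⟨(ϖ₁ * u₁) ^ n₁ * u₂ ^ n₂ * (ϖ₃ * u₃) ^ n₃, ?_, ?_, ?_⟩,
    ⟨(ϖ₁ * u₁) ^ n₁ * (ϖ₂ * u₂) ^ n₂ * u₃ ^ n₃, ?_, ?_, ?_⟩⟩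
  · exact V₁.mul_mem (V₁.mul_mem (s36_wa_zpow_unit hu₁ hu₁' n₁).1
      (s36_wa_zpow_unit hb₂1 hb₂1' n₂).1) (s36_wa_zpow_unit hb₃1 hb₃1' n₃).1
  · rw [mul_inv, mul_inv]
    exact V₁.mul_mem (V₁.mul_mem (s36_wa_zpow_unit hu₁ hu₁' n₁).2
      (s36_wa_zpow_unit hb₂1 hb₂1' n₂).2) (s36_wa_zpow_unit hb₃1 hb₃1' n₃).2
  · rw [mul_zpow]; ring
  · exact V₂.mul_mem (V₂.mul_mem (s36_wa_zpow_unit hb₁2 hb₁2' n₁).1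
      (s36_wa_zpow_unit hu₂ hu₂' n₂).1) (s36_wa_zpow_unit hb₃2 hb₃2' n₃).1
  · rw [mul_inv, mul_inv]
    exact V₂.mul_mem (V₂.mul_mem (s36_wa_zpow_unit hb₁2 hb₁2' n₁).2
      (s36_wa_zpow_unit hu₂ hu₂' n₂).2) (s36_wa_zpow_unit hb₃2 hb₃2' n₃).2
  · rw [mul_zpow ϖ₂ u₂]; ring
  · exact V₃.mul_mem (V₃.mul_mem (s36_wa_zpow_unit hb₁3 hb₁3' n₁).1
      (s36_wa_zpow_unit hb₂3 hb₂3' n₂).1) (s36_wa_zpow_unit hu₃ hu₃' n₃).1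
  · rw [mul_inv, mul_inv]
    exact V₃.mul_mem (V₃.mul_mem (s36_wa_zpow_unit hb₁3 hb₁3' n₁).2
      (s36_wa_zpow_unit hb₂3 hb₂3' n₂).2) (s36_wa_zpow_unit hu₃ hu₃' n₃).2
  · rw [mul_zpow ϖ₃ u₃]; ring

end Fermat.Agent.S36
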