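import Mathlib

/-!
# S36 (NODE-3): Newton normalisation `h ≡ 1 mod d ⟹ h · w⁻ᵖ ≡ 1 mod d^(2^k)`

On a component of multiplicity `e > 1` of the special fibre the norm–residue analysis only gives
`h ≡ 1` in the residue field, i.e. `h ≡ 1 mod z V_C` (`z` a uniformiser of the valuation ring `V_C`
of the component), whereas the two-chart theorem needs `h ≡ 1 mod ϖ V_C`, `ϖ = ε z ^ e`.  Since
the exponent `p` is invertible, `w := 1 + (h - 1) / p` satisfies `h / w ^ p ≡ 1 mod z² V_C`;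
iterating, `h / w ^ p ≡ 1 mod z ^ (2 ^ k) V_C`.  The same `w` works simultaneously for any family
of pairs `(V i, d i)` (no weak approximation is needed), in particular it keeps
`h / w ^ p ≡ 1 mod ϖ` on the reduced components.

* `s36_newton_step` : one step.
* `s36_newton` : `k` steps, for a family `(V i, d i)`.
* `s36_newton_exp`, `s36_newton_pi` : the forms with prescribed exponents `e i`, resp. with
  `ϖ = ε i * d i ^ e i`.
* `s36_ne_zero_of_congr_one` : `w ≡ 1 mod d V` with `d` a non-unit of `V` forces `w ≠ 0`.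
-/

set_option autoImplicit false

namespace Fermat.Agent.S36

variable {F : Type*} [Field F]

/-- `(1 + d y) ^ p = 1 + p d y + d² R` with `R ∈ V`. -/
theorem s36_binom_two (V : Subring F) (d y : F) (hd : d ∈ V) (hy : y ∈ V) (p : ℕ) :
    ∃ R ∈ V, (1 + d * y) ^ p = 1 + (p : F) * (d * y) + d ^ 2 * R := by
  induction p with
  | zero => exact ⟨0, V.zero_mem, by simp⟩
  | succ p ih =>
    obtain ⟨R, hR, hR'⟩ := ih
    refine ⟨(p : F) * y ^ 2 + R + R * (d * y), ?_, ?_⟩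
    · exact V.add_mem (V.add_mem (V.mul_mem (natCast_mem V p) (V.pow_mem hy 2)) hR)
        (V.mul_mem hR (V.mul_mem hd hy))
    · rw [pow_succ, hR']; push_cast; ring

/-- One Newton step: if `h ≡ 1 mod d V` then `w := 1 + (h - 1) / p` satisfies `w ≡ 1 mod d V`,
`w⁻¹ ∈ V` and `h / w ^ p ≡ 1 mod d² V`. -/
theorem s36_newton_step (V : Subring F) (p : ℕ) (hp0 : (p : F) ≠ 0) (hpV : ((p : F))⁻¹ ∈ V)
    (d h : F) (hd0 : d ≠ 0) (hdV : d ∈ V) (hVu : ∀ x ∈ V, (1 + d * x)⁻¹ ∈ V)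
    (hh : d⁻¹ * (h - 1) ∈ V) :
    d⁻¹ * ((1 + ((p : F))⁻¹ * (h - 1)) - 1) ∈ V ∧ (1 + ((p : F))⁻¹ * (h - 1))⁻¹ ∈ V ∧
      (d ^ 2)⁻¹ * (h * ((1 + ((p : F))⁻¹ * (h - 1))⁻¹) ^ p - 1) ∈ V := by
  set y : F := ((p : F))⁻¹ * (d⁻¹ * (h - 1)) with hy
  have hyV : y ∈ V := V.mul_mem hpV hh
  have hw : 1 + ((p : F))⁻¹ * (h - 1) = 1 + d * y := by
    rw [hy]; field_simp
  have hpdy : (p : F) * (d * y) = h - 1 := by
    rw [hy]; field_simp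
  rw [hw]
  refine ⟨?_, hVu y hyV, ?_⟩
  · have e : d⁻¹ * (1 + d * y - 1) = y := by
      rw [add_sub_cancel_left, ← mul_assoc, inv_mul_cancel₀ hd0, one_mul]
    rw [e]; exact hyV
  · obtain ⟨R, hR, hR'⟩ := s36_binom_two V d y hdV hyV p
    have hwp : (1 + d * y) ^ p = h + d ^ 2 * R := by rw [hR', hpdy]; ring
    by_cases hw0 : 1 + d * y = 0
    · -- then `d` is a unit of `V`
      have hp1 : p ≠ 0 := by
        rintro rfl
        exact hp0 (by simp)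
      have hdinv : d⁻¹ = -y := by
        have h1 : d * (-y) = 1 := by linear_combination -hw0
        exact inv_eq_of_mul_eq_one_right h1
      have e : (d ^ 2)⁻¹ * (h * ((1 + d * y)⁻¹) ^ p - 1) = -(y ^ 2) := by
        rw [hw0, inv_zero, zero_pow hp1, mul_zero, zero_sub, mul_neg, mul_one, ← inv_pow, hdinv]
        ring
      rw [e]
      exact V.neg_mem (V.pow_mem hyV 2)
    · have e : (d ^ 2)⁻¹ * (h * ((1 + d * y)⁻¹) ^ p - 1) = -(R * ((1 + d * y)⁻¹) ^ p) := by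
        have h1 : h = (1 + d * y) ^ p - d ^ 2 * R := by rw [hwp]; ring
        have h2 : (1 + d * y) ^ p * ((1 + d * y)⁻¹) ^ p = 1 := by
          rw [← mul_pow, mul_inv_cancel₀ hw0, one_pow]
        have hd2 : d ^ 2 ≠ 0 := pow_ne_zero 2 hd0
        rw [h1, sub_mul, h2]
        field_simp
        ring
      rw [e]
      exact V.neg_mem (V.mul_mem hR (V.pow_mem (hVu y hyV) p))

/-- `w ≡ 1 mod d V` with `d` a non-unit of `V` forces `w ≠ 0`. -/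
theorem s36_ne_zero_of_congr_one (V : Subring F) (d w : F) (hd : d⁻¹ ∉ V)
    (hw : d⁻¹ * (w - 1) ∈ V) : w ≠ 0 := by
  rintro rfl
  apply hd
  have e : d⁻¹ = -(d⁻¹ * (0 - 1)) := by ring
  rw [e]; exact V.neg_mem hw

/-- Newton normalisation, `k` steps, simultaneously for a family of pairs `(V i, d i)`. -/
theorem s36_newton {ι : Type*} (V : ι → Subring F) (d : ι → F) (p : ℕ) (hp0 : (p : F) ≠ 0)
    (hpV : ∀ i, ((p : F))⁻¹ ∈ V i) (hd0 : ∀ i, d i ≠ 0) (hdV : ∀ i, d i ∈ V i)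
    (hVu : ∀ i, ∀ x ∈ V i, (1 + d i * x)⁻¹ ∈ V i)
    (h : F) (hh : ∀ i, (d i)⁻¹ * (h - 1) ∈ V i) (k : ℕ) :
    ∃ w : F, ∀ i, (d i)⁻¹ * (w - 1) ∈ V i ∧ w⁻¹ ∈ V i ∧
      ((d i) ^ (2 ^ k))⁻¹ * (h * (w⁻¹) ^ p - 1) ∈ V i := by
  induction k with
  | zero =>
    refine ⟨1, fun i => ⟨?_, ?_, ?_⟩⟩
    · rw [sub_self, mul_zero]; exact (V i).zero_mem
    · rw [inv_one]; exact (V i).one_mem
    · rw [pow_zero, pow_one, inv_one, one_pow, mul_one]; exact hh i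
  | succ k ih =>
    obtain ⟨w, hw⟩ := ih
    set h' : F := h * (w⁻¹) ^ p with hh'
    set w' : F := 1 + ((p : F))⁻¹ * (h' - 1) with hw'
    refine ⟨w * w', fun i => ?_⟩
    obtain ⟨hw1, hw2, hw3⟩ := hw i
    have hdk0 : d i ^ (2 ^ k) ≠ 0 := pow_ne_zero _ (hd0 i)
    have hdkV : d i ^ (2 ^ k) ∈ V i := (V i).pow_mem (hdV i) _
    have hpos : 0 < 2 ^ k := Nat.pos_of_ne_zero (by positivity)
    have hsplit : d i ^ (2 ^ k) = d i * d i ^ (2 ^ k - 1) := by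
      rw [← pow_succ']; congr 1; omega
    have hVu' : ∀ x ∈ V i, (1 + d i ^ (2 ^ k) * x)⁻¹ ∈ V i := by
      intro x hx
      rw [hsplit, mul_assoc]
      exact hVu i _ ((V i).mul_mem ((V i).pow_mem (hdV i) _) hx)
    obtain ⟨s1, s2, s3⟩ := s36_newton_step (V i) p hp0 (hpV i) (d i ^ (2 ^ k)) h' hdk0 hdkV
      hVu' hw3
    rw [← hw'] at s1 s2 s3
    have hw'V : w' ∈ V i := by
      have e : w' = 1 + d i ^ (2 ^ k) * ((d i ^ (2 ^ k))⁻¹ * (w' - 1)) := by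
        rw [← mul_assoc, mul_inv_cancel₀ hdk0]; ring
      rw [e]
      exact (V i).add_mem (V i).one_mem ((V i).mul_mem hdkV s1)
    refine ⟨?_, ?_, ?_⟩
    · have e : (d i)⁻¹ * (w * w' - 1) = (d i)⁻¹ * (w - 1) * w' +
          d i ^ (2 ^ k - 1) * ((d i ^ (2 ^ k))⁻¹ * (w' - 1)) := by
        have h1 : (d i)⁻¹ * (w' - 1) = d i ^ (2 ^ k - 1) * ((d i ^ (2 ^ k))⁻¹ * (w' - 1)) := by
          rw [hsplit, mul_inv]
          have := hd0 i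
          have h2 : d i ^ (2 ^ k - 1) ≠ 0 := pow_ne_zero _ this
          field_simp
        rw [← h1]; ring
      rw [e]
      exact (V i).add_mem ((V i).mul_mem hw1 hw'V)
        ((V i).mul_mem ((V i).pow_mem (hdV i) _) s1)
    · rw [mul_inv]; exact (V i).mul_mem hw2 s2
    · have e : (d i ^ (2 ^ (k + 1)))⁻¹ * (h * ((w * w')⁻¹) ^ p - 1) =
          ((d i ^ (2 ^ k)) ^ 2)⁻¹ * (h' * (w'⁻¹) ^ p - 1) := by
        rw [hh', mul_inv, mul_pow, ← pow_mul, pow_succ, mul_assoc]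
      rw [e]; exact s3

/-- Newton normalisation with prescribed (bounded) exponents `e i`. -/
theorem s36_newton_exp {ι : Type*} (V : ι → Subring F) (d : ι → F) (p : ℕ) (hp0 : (p : F) ≠ 0)
    (hpV : ∀ i, ((p : F))⁻¹ ∈ V i) (hd0 : ∀ i, d i ≠ 0) (hdV : ∀ i, d i ∈ V i)
    (hVu : ∀ i, ∀ x ∈ V i, (1 + d i * x)⁻¹ ∈ V i)
    (h : F) (hh : ∀ i, (d i)⁻¹ * (h - 1) ∈ V i) (e : ι → ℕ) (E : ℕ) (hE : ∀ i, e i ≤ E) :
    ∃ w : F, ∀ i, (d i)⁻¹ * (w - 1) ∈ V i ∧ w⁻¹ ∈ V i ∧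
      ((d i) ^ (e i))⁻¹ * (h * (w⁻¹) ^ p - 1) ∈ V i := by
  obtain ⟨w, hw⟩ := s36_newton V d p hp0 hpV hd0 hdV hVu h hh E
  refine ⟨w, fun i => ⟨(hw i).1, (hw i).2.1, ?_⟩⟩
  have hle : e i ≤ 2 ^ E := (hE i).trans (Nat.lt_two_pow_self).le
  have hsplit : d i ^ (2 ^ E) = d i ^ (e i) * d i ^ (2 ^ E - e i) := by
    rw [← pow_add]; congr 1; omega
  have h1 : d i ^ (e i) ≠ 0 := pow_ne_zero _ (hd0 i)
  have h2 : d i ^ (2 ^ E - e i) ≠ 0 := pow_ne_zero _ (hd0 i)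
  have e1 : ((d i) ^ (e i))⁻¹ * (h * (w⁻¹) ^ p - 1) =
      d i ^ (2 ^ E - e i) * (((d i) ^ (2 ^ E))⁻¹ * (h * (w⁻¹) ^ p - 1)) := by
    rw [hsplit, mul_inv]
    field_simp
  rw [e1]
  exact (V i).mul_mem ((V i).pow_mem (hdV i) _) (hw i).2.2

/-- Newton normalisation for a uniformiser `ϖ = ε i * d i ^ e i` (`ε i` a unit of `V i`): from
`h ≡ 1 mod d i V i` for all `i` to `h · w⁻ᵖ ≡ 1 mod ϖ V i` for all `i`, with `w ≡ 1 mod d i V i`. -/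
theorem s36_newton_pi {ι : Type*} (V : ι → Subring F) (d : ι → F) (p : ℕ) (hp0 : (p : F) ≠ 0)
    (hpV : ∀ i, ((p : F))⁻¹ ∈ V i) (hd0 : ∀ i, d i ≠ 0) (hdV : ∀ i, d i ∈ V i)
    (hVu : ∀ i, ∀ x ∈ V i, (1 + d i * x)⁻¹ ∈ V i)
    (h : F) (hh : ∀ i, (d i)⁻¹ * (h - 1) ∈ V i) (ϖ : F) (ε : ι → F) (e : ι → ℕ) (E : ℕ)
    (hE : ∀ i, e i ≤ E) (hϖ : ∀ i, ϖ = ε i * d i ^ e i) (hε : ∀ i, (ε i)⁻¹ ∈ V i) :
    ∃ w : F, ∀ i, (d i)⁻¹ * (w - 1) ∈ V i ∧ w⁻¹ ∈ V i ∧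
      ϖ⁻¹ * (h * (w⁻¹) ^ p - 1) ∈ V i := by
  obtain ⟨w, hw⟩ := s36_newton_exp V d p hp0 hpV hd0 hdV hVu h hh e E hE
  refine ⟨w, fun i => ⟨(hw i).1, (hw i).2.1, ?_⟩⟩
  have e1 : ϖ⁻¹ * (h * (w⁻¹) ^ p - 1) =
      (ε i)⁻¹ * (((d i) ^ (e i))⁻¹ * (h * (w⁻¹) ^ p - 1)) := by
    rw [hϖ i, mul_inv, mul_assoc]
  rw [e1]
  exact (V i).mul_mem (hε i) (hw i).2.2

end Fermat.Agent.S36
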