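import Mathlib
import Fermat.Agent.S35.FrobAlg
import Fermat.Agent.S35.NodeFrobG
import Fermat.Agent.S36.NewtonOne
import Fermat.Agent.S36.Approx3

/-!
# S36 (NODE-3), layer L4 (MOD36), part 1: the toric chain on the three components

Abstract algebra over a field `F` with three uniformized discrete valuation rings
`V_A`, `V_B` (uniformizer `ϖ = ι ϖ''`) and `V_C` (uniformizer `z`, `ϖ = ε z ^ n`, `n = q - 1`),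
a field embedding `ι : F'' →+* F` of degree `q = n + 1` (the degeneracy map) with two uniformized
discrete valuation rings `V'_∞`, `V'_0` of `F''` below (`V_A`, `V_C` over `V'_∞`; `V_B` over
`V'_0`), the norm `Nm : F →* F''` with its two norm–residue formulas, and the swap `W`.

Congruences between units are written multiplicatively: `s35_fa_one d V (x / y)` means
`x ≡ y mod d V`.

* `s36_pm_U V x` : `x` is a unit of the subring `V`;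
* `s36_pm_dom`, `s36_pm_one_map`, `s36_pm_one_comap` : domination along `ι`;
* `s36_pm_root_unity` : `x ^ m ≡ 1 mod z V` forces `x ≡ ξ mod z V` for an `m`-th root of unity;
* `s36_pm_newton3` : Newton normalisation on the three components;
* `s36_pm_rootB`, `s36_pm_rootA`, `s36_pm_rootC` : the branch roots (step 1);
* `s36_pm_chain2` : steps 1–4 for a function which is a unit on the three components;
* `s36_pm_chain1` : step 0 (the vertical orders).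
-/

set_option autoImplicit false

namespace Fermat.Agent.S36

open Fermat.Agent.S34 Fermat.Agent.S35

section Basic

variable {F : Type*} [Field F]

/-- `x` is a unit of the subring `V`. -/
def s36_pm_U (V : Subring F) (x : F) : Prop := x ≠ 0 ∧ x ∈ V ∧ x⁻¹ ∈ V

namespace s36_pm_U

variable {V : Subring F} {x y : F}

theorem one : s36_pm_U V 1 := ⟨one_ne_zero, V.one_mem, by rw [inv_one]; exact V.one_mem⟩

theorem mul (hx : s36_pm_U V x) (hy : s36_pm_U V y) : s36_pm_U V (x * y) :=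
  ⟨mul_ne_zero hx.1 hy.1, V.mul_mem hx.2.1 hy.2.1, by
    rw [mul_inv]; exact V.mul_mem hx.2.2 hy.2.2⟩

theorem inv (hx : s36_pm_U V x) : s36_pm_U V x⁻¹ :=
  ⟨inv_ne_zero hx.1, hx.2.2, by rw [inv_inv]; exact hx.2.1⟩

theorem div (hx : s36_pm_U V x) (hy : s36_pm_U V y) : s36_pm_U V (x / y) := by
  rw [div_eq_mul_inv]; exact hx.mul hy.inv

theorem pow (hx : s36_pm_U V x) (n : ℕ) : s36_pm_U V (x ^ n) :=
  ⟨pow_ne_zero n hx.1, V.pow_mem hx.2.1 n, by rw [← inv_pow]; exact V.pow_mem hx.2.2 n⟩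

theorem zpow (hx : s36_pm_U V x) (k : ℤ) : s36_pm_U V (x ^ k) := by
  rcases Int.eq_nat_or_neg k with ⟨n, rfl | rfl⟩
  · rw [zpow_natCast]; exact hx.pow n
  · rw [zpow_neg, zpow_natCast]; exact (hx.pow n).inv

theorem of_pow {ϖ : F} (hV : s34_Unif ϖ V) {m : ℕ} (hm : 0 < m) (hx : s36_pm_U V (x ^ m)) :
    s36_pm_U V x := by
  have hx0 : x ≠ 0 := by
    rintro rfl
    exact hx.1 (zero_pow hm.ne')
  exact ⟨hx0, s35_nfo_mem_of_pow hV hm hx.2.1,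
    s35_nfo_mem_of_pow hV hm (by rw [inv_pow]; exact hx.2.2)⟩

theorem of_one {ϖ : F} (hV : s34_Unif ϖ V) (h : s35_fa_one ϖ V x) : s36_pm_U V x :=
  ⟨h.ne_zero hV, h.mem hV, h.inv_mem hV⟩

theorem of_one_div {ϖ : F} (hV : s34_Unif ϖ V) (hy : s36_pm_U V y)
    (h : s35_fa_one ϖ V (x / y)) : s36_pm_U V x := by
  have e : x = x / y * y := by
    have := hy.1
    field_simp
  rw [e]; exact (of_one hV h).mul hy

theorem of_le {V' : Subring F} (h : V ≤ V') (hx : s36_pm_U V x) : s36_pm_U V' x :=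
  ⟨hx.1, h hx.2.1, h hx.2.2⟩

end s36_pm_U

/-- Integer powers in `1 + ϖ V`. -/
theorem s36_pm_one_zpow {ϖ : F} {V : Subring F} (hV : s34_Unif ϖ V) {x : F}
    (hx : s35_fa_one ϖ V x) (k : ℤ) : s35_fa_one ϖ V (x ^ k) := by
  rcases Int.eq_nat_or_neg k with ⟨n, rfl | rfl⟩
  · rw [zpow_natCast]; exact hx.pow hV n
  · rw [zpow_neg, zpow_natCast]; exact (hx.pow hV n).inv hV

/-- Weakening the modulus. -/
theorem s36_pm_one_weaken {ϖ z : F} {V : Subring F} (hz : z⁻¹ * ϖ ∈ V) (hϖ : ϖ ≠ 0) {x : F}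
    (hx : s35_fa_one ϖ V x) : s35_fa_one z V x := by
  unfold s35_fa_one at *
  have e : z⁻¹ * (x - 1) = z⁻¹ * ϖ * (ϖ⁻¹ * (x - 1)) := by
    rw [mul_assoc, mul_inv_cancel_left₀ hϖ]
  rw [e]; exact V.mul_mem hz hx

/-- The congruence `x ≡ y` from the additive form, `y` a unit. -/
theorem s36_pm_one_of_cg {ϖ : F} {V : Subring F} {x y : F} (hy : s36_pm_U V y)
    (h : ϖ⁻¹ * (x - y) ∈ V) : s35_fa_one ϖ V (x / y) :=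
  s35_fa_one.of_cg h hy.1 hy.2.2

/-- The congruence `x ≡ y` from the additive form `y ≡ x`, `x` a unit. -/
theorem s36_pm_one_of_cg' {ϖ : F} {V : Subring F} {x y : F}
    (hx : s36_pm_U V x) (h : ϖ⁻¹ * (x - y) ∈ V) : s35_fa_one ϖ V (y / x) := by
  have h1 : ϖ⁻¹ * (y - x) ∈ V := by
    have e : ϖ⁻¹ * (y - x) = -(ϖ⁻¹ * (x - y)) := by ring
    rw [e]; exact V.neg_mem h
  exact s35_fa_one.of_cg h1 hx.1 hx.2.2

/-- `x ^ m ≡ 1 mod z V` forces `x ≡ ξ mod z V` for an `m`-th root of unity `ξ`. -/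
theorem s36_pm_root_unity {z : F} {V : Subring F} (hV : s34_Unif z V) {m : ℕ} (hm : 0 < m)
    {ζ : F} (hζ : IsPrimitiveRoot ζ m) (hμ : ∀ ξ : F, ξ ^ m = 1 → ξ ∈ V) {x : F} (hx : x ∈ V)
    (h : z⁻¹ * (x ^ m - 1) ∈ V) : ∃ ξ : F, ξ ^ m = 1 ∧ z⁻¹ * (x - ξ) ∈ V := by
  classical
  have hprod : x ^ m - 1 = ∏ ξ ∈ Polynomial.nthRootsFinset m (1 : F), (x - ξ) := by
    have := congrArg (Polynomial.eval x) (Polynomial.X_pow_sub_one_eq_prod hm hζ)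
    simpa [Polynomial.eval_prod] using this
  rw [hprod] at h
  have key : ∀ s : Finset F, (∀ ξ ∈ s, ξ ∈ V) → z⁻¹ * ∏ ξ ∈ s, (x - ξ) ∈ V →
      ∃ ξ ∈ s, z⁻¹ * (x - ξ) ∈ V := by
    intro s
    induction s using Finset.induction_on with
    | empty =>
      intro _ h1
      rw [Finset.prod_empty, mul_one] at h1
      exact absurd h1 hV.inv_not_mem
    | insert a s ha ih =>
      intro hs h1
      rw [Finset.prod_insert ha] at h1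
      rcases hV.prime (V.sub_mem hx (hs a (Finset.mem_insert_self a s)))
        (V.prod_mem (fun ξ hξ => V.sub_mem hx (hs ξ (Finset.mem_insert_of_mem hξ)))) h1
        with h2 | h2
      · exact ⟨a, Finset.mem_insert_self a s, h2⟩
      · obtain ⟨ξ, hξ, h3⟩ := ih (fun ξ hξ => hs ξ (Finset.mem_insert_of_mem hξ)) h2
        exact ⟨ξ, Finset.mem_insert_of_mem hξ, h3⟩
  obtain ⟨ξ, hξ, h3⟩ := key _
    (fun ξ hξ => hμ ξ ((Polynomial.mem_nthRootsFinset hm 1).mp hξ)) h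
  exact ⟨ξ, (Polynomial.mem_nthRootsFinset hm 1).mp hξ, h3⟩

/-- Newton normalisation on the three components. -/
theorem s36_pm_newton3 {ϖ z : F} {VA VB VC : Subring F} (hA : s34_Unif ϖ VA)
    (hB : s34_Unif ϖ VB) (hC : s34_Unif z VC) (n : ℕ)
    (hzn' : z ^ n * ϖ⁻¹ ∈ VC) (m : ℕ) (hm0 : (m : F) ≠ 0) (hmA : ((m : F))⁻¹ ∈ VA)
    (hmB : ((m : F))⁻¹ ∈ VB) (hmC : ((m : F))⁻¹ ∈ VC) (h : F) (hhA : s35_fa_one ϖ VA h)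
    (hhB : s35_fa_one ϖ VB h) (hhC : s35_fa_one z VC h) :
    ∃ w : F, s35_fa_one ϖ VA w ∧ s35_fa_one ϖ VB w ∧ s35_fa_one z VC w ∧
      ϖ⁻¹ * (h * (w⁻¹) ^ m - 1) ∈ VA ∧ ϖ⁻¹ * (h * (w⁻¹) ^ m - 1) ∈ VB ∧
      ϖ⁻¹ * (h * (w⁻¹) ^ m - 1) ∈ VC := by
  have hϖ0 : ϖ ≠ 0 := hA.ne_zero
  have hz0 : z ≠ 0 := hC.ne_zero
  let V : Option Bool → Subring F := fun i =>
    match i with
    | none => VC
    | some true => VA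
    | some false => VB
  let d : Option Bool → F := fun i =>
    match i with
    | none => z
    | some _ => ϖ
  let ε : Option Bool → F := fun i =>
    match i with
    | none => ϖ * (z ^ n)⁻¹
    | some _ => 1
  let e : Option Bool → ℕ := fun i =>
    match i with
    | none => n
    | some _ => 1
  obtain ⟨w, hw⟩ := s36_newton_pi V d m hm0
    (by rintro (_ | _ | _); exacts [hmC, hmB, hmA])
    (by rintro (_ | _ | _); exacts [hz0, hϖ0, hϖ0])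
    (by rintro (_ | _ | _); exacts [hC.mem, hB.mem, hA.mem])
    (by
      rintro (_ | _ | _)
      · exact fun x hx => hC.one_add_inv_mem hx
      · exact fun x hx => hB.one_add_inv_mem hx
      · exact fun x hx => hA.one_add_inv_mem hx)
    h (by rintro (_ | _ | _); exacts [hhC, hhB, hhA]) ϖ ε e (n + 1)
    (by
      rintro (_ | _ | _)
      · exact Nat.le_succ n
      · exact Nat.succ_le_succ (Nat.zero_le n)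
      · exact Nat.succ_le_succ (Nat.zero_le n))
    (by
      rintro (_ | _ | _)
      · show ϖ = ϖ * (z ^ n)⁻¹ * z ^ n
        rw [mul_assoc, inv_mul_cancel₀ (pow_ne_zero n hz0), mul_one]
      · show ϖ = 1 * ϖ ^ 1
        rw [one_mul, pow_one]
      · show ϖ = 1 * ϖ ^ 1
        rw [one_mul, pow_one])
    (by
      rintro (_ | _ | _)
      · show (ϖ * (z ^ n)⁻¹)⁻¹ ∈ VC
        rw [mul_inv, inv_inv, mul_comm]; exact hzn'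
      · show (1 : F)⁻¹ ∈ VB
        rw [inv_one]; exact VB.one_mem
      · show (1 : F)⁻¹ ∈ VA
        rw [inv_one]; exact VA.one_mem)
  exact ⟨w, (hw (some true)).1, (hw (some false)).1, (hw none).1, (hw (some true)).2.2,
    (hw (some false)).2.2, (hw none).2.2⟩

/-- The exponent identity behind the branch roots: `r q + s m = 1`. -/
theorem s36_pm_rs (x y : F) (hx : x ≠ 0) (hy : y ≠ 0) (q m : ℕ) (r s : ℤ)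
    (hrs : r * q + s * m = 1) : x / (y ^ r * x ^ s) ^ m = (x ^ q / y ^ m) ^ r := by
  have h1 : (y ^ r * x ^ s) ^ m = y ^ (r * m) * x ^ (s * m) := by
    rw [mul_pow, ← zpow_natCast (y ^ r) m, ← zpow_mul, ← zpow_natCast (x ^ s) m, ← zpow_mul]
  have h2 : (x ^ q / y ^ m) ^ r = x ^ (r * q) / y ^ (r * m) := by
    rw [div_zpow, ← zpow_natCast x q, ← zpow_mul, ← zpow_natCast y m, ← zpow_mul,
      mul_comm (q : ℤ) r, mul_comm (m : ℤ) r]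
  have h3 : x = x ^ (r * q) * x ^ (s * m) := by
    rw [← zpow_add₀ hx, hrs, zpow_one]
  rw [h1, h2]
  have hy' : y ^ (r * m) ≠ 0 := zpow_ne_zero _ hy
  have hx' : x ^ (s * m) ≠ 0 := zpow_ne_zero _ hx
  rw [div_eq_div_iff (mul_ne_zero hy' hx') hy']
  nth_rewrite 1 [h3]
  ring

/-- A monoid homomorphism between fields commutes with integer powers of nonzero elements. -/
theorem s36_pm_map_inv {F'' : Type*} [Field F''] (Nm : F →* F'') (x : F) (hx : x ≠ 0) :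
    Nm x⁻¹ = (Nm x)⁻¹ := by
  have h1 : Nm x * Nm x⁻¹ = 1 := by rw [← map_mul, mul_inv_cancel₀ hx, map_one]
  exact eq_inv_of_mul_eq_one_right h1

theorem s36_pm_map_ne {F'' : Type*} [Field F''] (Nm : F →* F'') (x : F) (hx : x ≠ 0) :
    Nm x ≠ 0 := by
  intro h0
  have h1 : Nm x * Nm x⁻¹ = 1 := by rw [← map_mul, mul_inv_cancel₀ hx, map_one]
  rw [h0, zero_mul] at h1
  exact zero_ne_one h1

theorem s36_pm_map_zpow {F'' : Type*} [Field F''] (Nm : F →* F'') (x : F) (hx : x ≠ 0)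
    (k : ℤ) : Nm (x ^ k) = (Nm x) ^ k := by
  rcases Int.eq_nat_or_neg k with ⟨n, rfl | rfl⟩
  · rw [zpow_natCast, zpow_natCast, map_pow]
  · rw [zpow_neg, zpow_neg, zpow_natCast, zpow_natCast, s36_pm_map_inv Nm _ (pow_ne_zero n hx),
      map_pow]

end Basic

section Two

variable {F'' F : Type*} [Field F''] [Field F] (ι : F'' →+* F)

/-- Domination: an element of `F''` whose image lies in `V` lies in `V'`. -/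
theorem s36_pm_dom {ϖ'' : F''} {V' : Subring F''} {V : Subring F} (hV' : s34_Unif ϖ'' V')
    (hnot : (ι ϖ'')⁻¹ ∉ V) (hι : ∀ x ∈ V', ι x ∈ V) (x : F'') (hx : ι x ∈ V) : x ∈ V' := by
  by_cases hx0 : x = 0
  · rw [hx0]; exact V'.zero_mem
  obtain ⟨j, u, hu, hu', rfl⟩ := hV'.decomp x hx0
  have hu0 : u ≠ 0 := by rintro rfl; simp at hx0
  rw [hV'.mem_iff hu0 hu hu']
  by_contra hj
  apply hnot
  have hϖ0 := hV'.ne_zero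
  have e : ϖ''⁻¹ = (ϖ'' ^ j * u) * (ϖ'' ^ (-j - 1) * u⁻¹) := by
    have h1 : ϖ'' ^ j * ϖ'' ^ (-j - 1) = ϖ''⁻¹ := by
      rw [← zpow_add₀ hϖ0]
      have h2 : j + (-j - 1) = -1 := by ring
      rw [h2, zpow_neg_one]
    calc ϖ''⁻¹ = ϖ'' ^ j * ϖ'' ^ (-j - 1) * (u * u⁻¹) := by
          rw [h1, mul_inv_cancel₀ hu0, mul_one]
      _ = _ := by ring
  rw [← map_inv₀, e, map_mul]
  exact V.mul_mem hx (hι _ (V'.mul_mem (hV'.zpow_mem (by omega)) hu'))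

theorem s36_pm_one_map {ϖ'' : F''} {V' : Subring F''} {V : Subring F}
    (hι : ∀ x ∈ V', ι x ∈ V) {x : F''} (hx : s35_fa_one ϖ'' V' x) :
    s35_fa_one (ι ϖ'') V (ι x) := by
  unfold s35_fa_one at *
  have e : (ι ϖ'')⁻¹ * (ι x - 1) = ι (ϖ''⁻¹ * (x - 1)) := by
    rw [map_mul, map_inv₀, map_sub, map_one]
  rw [e]; exact hι _ hx

theorem s36_pm_one_comap {ϖ'' : F''} {V' : Subring F''} {V : Subring F}
    (hV' : s34_Unif ϖ'' V') (hnot : (ι ϖ'')⁻¹ ∉ V) (hι : ∀ x ∈ V', ι x ∈ V) {x : F''}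
    (hx : s35_fa_one (ι ϖ'') V (ι x)) : s35_fa_one ϖ'' V' x := by
  unfold s35_fa_one at *
  apply s36_pm_dom ι hV' hnot hι
  rw [map_mul, map_inv₀, map_sub, map_one]; exact hx

theorem s36_pm_U_map {V' : Subring F''} {V : Subring F} (hι : ∀ x ∈ V', ι x ∈ V) {x : F''}
    (hx : s36_pm_U V' x) : s36_pm_U V (ι x) :=
  ⟨(map_ne_zero ι).mpr hx.1, hι _ hx.2.1, by rw [← map_inv₀]; exact hι _ hx.2.2⟩

theorem s36_pm_U_comap {ϖ'' : F''} {V' : Subring F''} {V : Subring F}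
    (hV' : s34_Unif ϖ'' V') (hnot : (ι ϖ'')⁻¹ ∉ V) (hι : ∀ x ∈ V', ι x ∈ V) {x : F''}
    (hx : s36_pm_U V (ι x)) : s36_pm_U V' x :=
  ⟨(map_ne_zero ι).mp hx.1, s36_pm_dom ι hV' hnot hι x hx.2.1,
    s36_pm_dom ι hV' hnot hι x⁻¹ (by rw [map_inv₀]; exact hx.2.2)⟩

end Two

section Val

variable {F : Type*} [Field F]

/-- `x = ϖ ^ i * unit` in `V` (the valuation of `x` is `i`). -/
def s36_pm_D (ϖ : F) (V : Subring F) (x : F) (i : ℤ) : Prop :=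
  ∃ u : F, s36_pm_U V u ∧ x = ϖ ^ i * u

namespace s36_pm_D

variable {ϖ : F} {V : Subring F} {x y : F} {i j : ℤ}

theorem of_decomp (hV : s34_Unif ϖ V) (hx : x ≠ 0) : ∃ i, s36_pm_D ϖ V x i := by
  obtain ⟨j, u, hu, hu', rfl⟩ := hV.decomp x hx
  have hu0 : u ≠ 0 := by rintro rfl; simp at hx
  exact ⟨j, u, ⟨hu0, hu, hu'⟩, rfl⟩

theorem ne_zero (hϖ : ϖ ≠ 0) (h : s36_pm_D ϖ V x i) : x ≠ 0 := by
  obtain ⟨u, hu, rfl⟩ := h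
  exact mul_ne_zero (zpow_ne_zero _ hϖ) hu.1

theorem mul (hϖ : ϖ ≠ 0) (hx : s36_pm_D ϖ V x i) (hy : s36_pm_D ϖ V y j) :
    s36_pm_D ϖ V (x * y) (i + j) := by
  obtain ⟨u, hu, rfl⟩ := hx
  obtain ⟨v, hv, rfl⟩ := hy
  exact ⟨u * v, hu.mul hv, by rw [zpow_add₀ hϖ]; ring⟩

theorem inv (h : s36_pm_D ϖ V x i) : s36_pm_D ϖ V x⁻¹ (-i) := by
  obtain ⟨u, hu, rfl⟩ := h
  exact ⟨u⁻¹, hu.inv, by rw [mul_inv, zpow_neg]⟩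

theorem pow (h : s36_pm_D ϖ V x i) (k : ℕ) : s36_pm_D ϖ V (x ^ k) (k * i) := by
  obtain ⟨u, hu, rfl⟩ := h
  exact ⟨u ^ k, hu.pow k, by
    rw [mul_pow, ← zpow_natCast (ϖ ^ i) k, ← zpow_mul, mul_comm i (k : ℤ)]⟩

theorem zpow (h : s36_pm_D ϖ V x i) (k : ℤ) : s36_pm_D ϖ V (x ^ k) (k * i) := by
  obtain ⟨u, hu, rfl⟩ := h
  exact ⟨u ^ k, hu.zpow k, by rw [mul_zpow, ← zpow_mul, mul_comm i k]⟩

theorem unif (V : Subring F) (ϖ : F) : s36_pm_D ϖ V ϖ 1 :=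
  ⟨1, s36_pm_U.one, by rw [zpow_one, mul_one]⟩

theorem of_U (ϖ : F) (h : s36_pm_U V x) : s36_pm_D ϖ V x 0 := ⟨x, h, by rw [zpow_zero, one_mul]⟩

theorem to_U (h : s36_pm_D ϖ V x 0) : s36_pm_U V x := by
  obtain ⟨u, hu, rfl⟩ := h
  rw [zpow_zero, one_mul]; exact hu

theorem congr (h : s36_pm_D ϖ V x i) (hij : i = j) : s36_pm_D ϖ V x j := hij ▸ h

theorem unique (hV : s34_Unif ϖ V) (hx : s36_pm_D ϖ V x i) (hy : s36_pm_D ϖ V x j) : i = j := by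
  obtain ⟨u, hu, rfl⟩ := hx
  obtain ⟨v, hv, h⟩ := hy
  have hϖ := hV.ne_zero
  have hu0 := hu.1
  have hv0 := hv.1
  have hi := zpow_ne_zero i hϖ
  have hj := zpow_ne_zero j hϖ
  have h1 : ϖ ^ (i - j) * (u * v⁻¹) = 1 := by
    calc ϖ ^ (i - j) * (u * v⁻¹) = (ϖ ^ i * u) * (ϖ ^ j)⁻¹ * v⁻¹ := by
          rw [zpow_sub₀ hϖ]; ring
      _ = (ϖ ^ j * v) * (ϖ ^ j)⁻¹ * v⁻¹ := by rw [h]
      _ = 1 := by field_simp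
  have h2 : ϖ ^ (j - i) * (v * u⁻¹) = 1 := by
    calc ϖ ^ (j - i) * (v * u⁻¹) = (ϖ ^ j * v) * (ϖ ^ i)⁻¹ * u⁻¹ := by
          rw [zpow_sub₀ hϖ]; ring
      _ = (ϖ ^ i * u) * (ϖ ^ i)⁻¹ * u⁻¹ := by rw [h]
      _ = 1 := by field_simp
  have h3 : 0 ≤ i - j := (hV.mem_iff (hu.mul hv.inv).1 (hu.mul hv.inv).2.1 (hu.mul hv.inv).2.2).mp
    (by rw [h1]; exact V.one_mem)
  have h4 : 0 ≤ j - i := (hV.mem_iff (hv.mul hu.inv).1 (hv.mul hu.inv).2.1 (hv.mul hu.inv).2.2).mp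
    (by rw [h2]; exact V.one_mem)
  omega

/-- Transport along a ring automorphism. -/
theorem map {V' : Subring F} {ϖ' : F} (W : F ≃+* F)
    (hWU : ∀ u, s36_pm_U V u → s36_pm_U V' (W u)) (c : F) (hc : s36_pm_U V' c)
    (hWϖ : W ϖ = ϖ' * c) (h : s36_pm_D ϖ V x i) : s36_pm_D ϖ' V' (W x) i := by
  obtain ⟨u, hu, rfl⟩ := h
  exact ⟨c ^ i * W u, (hc.zpow i).mul (hWU u hu), by
    rw [map_mul, map_zpow₀, hWϖ, mul_zpow]; ring⟩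

theorem mem_of_nonneg (hV : s34_Unif ϖ V) (h : s36_pm_D ϖ V x i) (hi : 0 ≤ i) : x ∈ V := by
  obtain ⟨u, hu, rfl⟩ := h
  exact (hV.mem_iff hu.1 hu.2.1 hu.2.2).mpr hi

theorem dvd_iff (hV : s34_Unif ϖ V) (h : s36_pm_D ϖ V x i) : ϖ⁻¹ * x ∈ V ↔ 1 ≤ i := by
  obtain ⟨u, hu, rfl⟩ := h
  have hϖ := hV.ne_zero
  have e : ϖ⁻¹ * (ϖ ^ i * u) = ϖ ^ (i - 1) * u := by
    rw [zpow_sub₀ hϖ, zpow_one]; field_simp
  rw [e, hV.mem_iff hu.1 hu.2.1 hu.2.2]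
  omega

end s36_pm_D

/-- Exponent bookkeeping for the norms. -/
theorem s36_pm_normexp (x : F) (hx : x ≠ 0) (i j k : ℤ) (N m : ℕ) (f P : F)
    (hX : i * N + j = k * m) :
    (x ^ i * f ^ m) ^ N * x ^ j * P ^ m = (x ^ k * f ^ N * P) ^ m := by
  have h1 : (x ^ i) ^ N = x ^ (i * N) := by rw [← zpow_natCast (x ^ i) N, ← zpow_mul]
  have h2 : (x ^ k) ^ m = x ^ (k * m) := by rw [← zpow_natCast (x ^ k) m, ← zpow_mul]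
  have h3 : x ^ (k * m) = x ^ (i * N) * x ^ j := by rw [← hX, zpow_add₀ hx]
  rw [mul_pow, mul_pow (x ^ k * f ^ N), mul_pow (x ^ k), h1, h2, h3, ← pow_mul, ← pow_mul,
    mul_comm N m]
  ring

end Val

/-- A swap preserving `V` multiplies the uniformizer by a unit. -/
theorem s36_pm_swap_unif {F : Type*} [Field F] {z : F} {V : Subring F} (hV : s34_Unif z V)
    (W : F ≃+* F) (hW : ∀ x, x ∈ V ↔ W x ∈ V) : z⁻¹ * W z ∈ V := by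
  have hWz : W z ∈ V := (hW z).mp hV.mem
  by_contra h
  have h1 : (W z)⁻¹ ∈ V := hV.inv_mem_of_not_dvd hWz h
  rw [← map_inv₀] at h1
  exact hV.inv_not_mem ((hW _).mpr h1)

section Chain

variable {F'' F : Type*} [Field F''] [Field F] (ι : F'' →+* F)

/-- Step 1, the branch `B` (purely inseparable residue extension of degree `q`): for a unit `g` of
`V_B` with `Nm g = f ^ m`, `g ≡ (ι f ^ r * g ^ s) ^ m` modulo `ϖ V_B` (`r q + s m = 1`). -/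
theorem s36_pm_rootB {ϖ'' : F''} {VB : Subring F} {V0 : Subring F''}
    (hB : s34_Unif (ι ϖ'') VB) (hV0 : s34_Unif ϖ'' V0) (hιB : ∀ x ∈ V0, ι x ∈ VB) (q : ℕ)
    (hresB : ∀ y ∈ VB, ∃ b ∈ V0, (ι ϖ'')⁻¹ * (y ^ q - ι b) ∈ VB)
    (Nm : F →* F'')
    (hNRins : ∀ h ∈ VB, ∀ b ∈ V0, (ι ϖ'')⁻¹ * (h ^ q - ι b) ∈ VB → ϖ''⁻¹ * (Nm h - b) ∈ V0)
    (m : ℕ) (hm : 0 < m) (r s : ℤ) (hrs : r * q + s * m = 1)
    (g : F) (hg : s36_pm_U VB g) (f : F'') (hf : Nm g = f ^ m) :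
    s36_pm_U V0 f ∧ s35_fa_one (ι ϖ'') VB (g / (ι f ^ r * g ^ s) ^ m) := by
  obtain ⟨b, hb, hb1⟩ := hresB g hg.2.1
  have hb2 := hNRins g hg.2.1 b hb hb1
  rw [hf] at hb2
  have h1 : s35_fa_one (ι ϖ'') VB (ι b / g ^ q) := s36_pm_one_of_cg' (hg.pow q) hb1
  have hιb : s36_pm_U VB (ι b) := s36_pm_U.of_one_div hB (hg.pow q) h1
  have hbU : s36_pm_U V0 b := s36_pm_U_comap ι hV0 hB.inv_not_mem hιB hιb
  have h2 : s35_fa_one ϖ'' V0 (f ^ m / b) := s36_pm_one_of_cg hbU hb2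
  have hfU : s36_pm_U V0 f := s36_pm_U.of_pow hV0 hm (s36_pm_U.of_one_div hV0 hbU h2)
  have h3 : s35_fa_one (ι ϖ'') VB (ι (f ^ m / b)) := s36_pm_one_map ι hιB h2
  have hg0 := hg.1
  have hιf0 : ι f ≠ 0 := (map_ne_zero ι).mpr hfU.1
  have hιb0 := hιb.1
  have h4 : s35_fa_one (ι ϖ'') VB (g ^ q / (ι f) ^ m) := by
    have e : g ^ q / (ι f) ^ m = (ι b / g ^ q)⁻¹ * (ι (f ^ m / b))⁻¹ := by
      rw [map_div₀, map_pow]; field_simp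
    rw [e]; exact (h1.inv hB).mul hB (h3.inv hB)
  refine ⟨hfU, ?_⟩
  rw [s36_pm_rs g (ι f) hg0 hιf0 q m r s hrs]
  exact s36_pm_one_zpow hB h4 r

/-- Step 1, the branch `A`: transport of `s36_pm_rootB` by the swap. -/
theorem s36_pm_rootA {ϖ'' : F''} {VA VB : Subring F} {V0 : Subring F''}
    (hB : s34_Unif (ι ϖ'') VB) (hV0 : s34_Unif ϖ'' V0) (hιB : ∀ x ∈ V0, ι x ∈ VB) (q : ℕ)
    (hresB : ∀ y ∈ VB, ∃ b ∈ V0, (ι ϖ'')⁻¹ * (y ^ q - ι b) ∈ VB)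
    (Nm : F →* F'')
    (hNRins : ∀ h ∈ VB, ∀ b ∈ V0, (ι ϖ'')⁻¹ * (h ^ q - ι b) ∈ VB → ϖ''⁻¹ * (Nm h - b) ∈ V0)
    (W : F ≃+* F) (hWBA : ∀ x ∈ VB, W x ∈ VA) (hWAB : ∀ x ∈ VA, W x ∈ VB)
    (hWϖ : W (ι ϖ'') = ι ϖ'') (hWW : ∀ x, W (W x) = x)
    (m : ℕ) (hm : 0 < m) (r s : ℤ) (hrs : r * q + s * m = 1)
    (g : F) (hg : s36_pm_U VA g) (f' : F'') (hf' : Nm (W g) = f' ^ m) :
    s36_pm_U V0 f' ∧ s35_fa_one (ι ϖ'') VA (g / (W (ι f') ^ r * g ^ s) ^ m) := by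
  have hWg : s36_pm_U VB (W g) :=
    ⟨(map_ne_zero W).mpr hg.1, hWAB _ hg.2.1, by rw [← map_inv₀]; exact hWAB _ hg.2.2⟩
  obtain ⟨hf'U, h1⟩ := s36_pm_rootB ι hB hV0 hιB q hresB Nm hNRins m hm r s hrs (W g) hWg f' hf'
  have h2 := s35_fa_one.map W hWBA (by
    rw [hWϖ, inv_mul_cancel₀ hB.ne_zero]; exact VA.one_mem) hB.ne_zero h1
  have e : W (W g / (ι f' ^ r * W g ^ s) ^ m) = g / (W (ι f') ^ r * g ^ s) ^ m := by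
    rw [map_div₀, map_pow, map_mul, map_zpow₀, map_zpow₀, hWW]
  rw [e] at h2
  exact ⟨hf'U, h2⟩

/-- Step 1, the branch `C` (ramification index `n = q - 1` over `V'_∞`): for a unit `g` of
`V_A` and `V_C` with `Nm g = f ^ m` and a root `Ψ_A` on the branch `A`,
`g ^ n ≡ (ι (f / ψ)) ^ m` modulo `z V_C`, where `ψ ∈ V'_∞` lifts `Ψ_A`. -/
theorem s36_pm_rootC {ϖ'' : F''} {z : F} {VA VC : Subring F} {Vi : Subring F''}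
    (hA : s34_Unif (ι ϖ'') VA) (hC : s34_Unif z VC) (hVi : s34_Unif ϖ'' Vi)
    (hιA : ∀ x ∈ Vi, ι x ∈ VA) (hιC : ∀ x ∈ Vi, ι x ∈ VC)
    (n : ℕ) (hn : 1 ≤ n) (hzn : ι ϖ'' * (z ^ n)⁻¹ ∈ VC)
    (hresA : ∀ y ∈ VA, ∃ y' ∈ Vi, (ι ϖ'')⁻¹ * (y - ι y') ∈ VA)
    (hresC : ∀ y ∈ VC, ∃ y' ∈ Vi, z⁻¹ * (y - ι y') ∈ VC)
    (Nm : F →* F'')
    (hNRram : ∀ h ∈ VA, h ∈ VC → ∀ a ∈ Vi, ∀ c ∈ Vi, (ι ϖ'')⁻¹ * (h - ι a) ∈ VA →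
      z⁻¹ * (h - ι c) ∈ VC → ϖ''⁻¹ * (Nm h - a * c ^ n) ∈ Vi)
    (m : ℕ) (hm : 0 < m)
    (g : F) (hgA : s36_pm_U VA g) (hgC : s36_pm_U VC g) (f : F'') (hf : Nm g = f ^ m)
    (ΨA : F) (hΨA : s36_pm_U VA ΨA) (hΨ : s35_fa_one (ι ϖ'') VA (g / ΨA ^ m)) :
    ∃ ψ : F'', s36_pm_U Vi ψ ∧ s35_fa_one (ι ϖ'') VA (ι ψ / ΨA) ∧ s36_pm_U Vi f ∧
      s35_fa_one z VC (g ^ n / (ι (f / ψ)) ^ m) := by
  have hϖ0 := hA.ne_zero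
  have hz0 := hC.ne_zero
  have hzϖ : z⁻¹ * ι ϖ'' ∈ VC := by
    obtain ⟨k, rfl⟩ : ∃ k, n = k + 1 := ⟨n - 1, by omega⟩
    have e : z⁻¹ * ι ϖ'' = ι ϖ'' * (z ^ (k + 1))⁻¹ * z ^ k := by
      rw [pow_succ]; field_simp
    rw [e]; exact VC.mul_mem hzn (VC.pow_mem hC.mem k)
  have hnotC : (ι ϖ'')⁻¹ ∉ VC := by
    intro h
    apply hC.inv_not_mem
    have e : z⁻¹ = z⁻¹ * ι ϖ'' * (ι ϖ'')⁻¹ := by
      rw [mul_assoc, mul_inv_cancel₀ hϖ0, mul_one]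
    rw [e]; exact VC.mul_mem hzϖ h
  obtain ⟨ψ, hψ, hψ1⟩ := hresA ΨA hΨA.2.1
  have h1 : s35_fa_one (ι ϖ'') VA (ι ψ / ΨA) := s36_pm_one_of_cg' hΨA hψ1
  have hιψ : s36_pm_U VA (ι ψ) := s36_pm_U.of_one_div hA hΨA h1
  have hψU : s36_pm_U Vi ψ := s36_pm_U_comap ι hVi hA.inv_not_mem hιA hιψ
  obtain ⟨a, ha, ha1⟩ := hresA g hgA.2.1
  obtain ⟨c, hc, hc1⟩ := hresC g hgC.2.1
  have hN := hNRram g hgA.2.1 hgC.2.1 a ha c hc ha1 hc1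
  rw [hf] at hN
  have h2 : s35_fa_one (ι ϖ'') VA (ι a / g) := s36_pm_one_of_cg' hgA ha1
  have hιa : s36_pm_U VA (ι a) := s36_pm_U.of_one_div hA hgA h2
  have haU : s36_pm_U Vi a := s36_pm_U_comap ι hVi hA.inv_not_mem hιA hιa
  have h3 : s35_fa_one z VC (ι c / g) := s36_pm_one_of_cg' hgC hc1
  have hιc : s36_pm_U VC (ι c) := s36_pm_U.of_one_div hC hgC h3
  have hcU : s36_pm_U Vi c := s36_pm_U_comap ι hVi hnotC hιC hιc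
  have hacU : s36_pm_U Vi (a * c ^ n) := haU.mul (hcU.pow n)
  have h4 : s35_fa_one ϖ'' Vi (f ^ m / (a * c ^ n)) := s36_pm_one_of_cg hacU hN
  have hfU : s36_pm_U Vi f := s36_pm_U.of_pow hVi hm (s36_pm_U.of_one_div hVi hacU h4)
  have hg0 := hgA.1
  have hΨ0 := hΨA.1
  have hιa0 := hιa.1
  have hιc0 := hιc.1
  have hιψ0 := hιψ.1
  have ha0 := haU.1
  have hc0 := hcU.1
  have hψ0 := hψU.1
  have hf0 := hfU.1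
  have hιf0 : ι f ≠ 0 := (map_ne_zero ι).mpr hf0
  have h5 : s35_fa_one (ι ϖ'') VA (ι (a / ψ ^ m)) := by
    have e : ι (a / ψ ^ m) = ι a / g * (g / ΨA ^ m) * ((ι ψ / ΨA) ^ m)⁻¹ := by
      rw [map_div₀, map_pow, div_pow]; field_simp
    rw [e]; exact (h2.mul hA hΨ).mul hA ((h1.pow hA m).inv hA)
  have h6 : s35_fa_one ϖ'' Vi (a / ψ ^ m) := s36_pm_one_comap ι hVi hA.inv_not_mem hιA h5
  have h7 : s35_fa_one ϖ'' Vi ((f / ψ) ^ m / c ^ n) := by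
    have e : (f / ψ) ^ m / c ^ n = f ^ m / (a * c ^ n) * (a / ψ ^ m) := by
      rw [div_pow]; field_simp
    rw [e]; exact h4.mul hVi h6
  have h8 : s35_fa_one z VC (ι ((f / ψ) ^ m / c ^ n)) :=
    s36_pm_one_weaken hzϖ hϖ0 (s36_pm_one_map ι hιC h7)
  refine ⟨ψ, hψU, h1, hfU, ?_⟩
  have e : g ^ n / (ι (f / ψ)) ^ m = ((ι c / g) ^ n)⁻¹ * (ι ((f / ψ) ^ m / c ^ n))⁻¹ := by
    simp only [map_div₀, map_pow, div_pow]; field_simp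
  rw [e]; exact ((h3.pow hC n).inv hC).mul hC (h8.inv hC)

/-- **Steps 1–4 of the toric chain.**  Let `g` be a unit of `V_A`, `V_B`, `V_C` with
`Nm g = f ^ m` and `Nm (W g) = f' ^ m`.  With the branch roots
`Ψ_A = W (ι f') ^ r * g ^ s`, `Ψ_B = ι f ^ r * g ^ s`, `Ψ_C = ι (f / ψ)` (`ψ` a lift of `Ψ_A`)
and the constant `ξ ∈ μ_m` comparing `Ψ_C` with the transport of the root of `W g`, there is
`Ψ` congruent to `Ψ_A ^ (q² - 1)`, `ξ ^ (q - 1) Ψ_B ^ (q² - 1)`, `ξ ^ q Ψ_C ^ (q + 1)` on the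
three components such that `g ^ (q² - 1) / Ψ ^ m ≡ 1` modulo `ϖ (V_A ⊓ V_B ⊓ V_C)`
(`q = n + 1`). -/
theorem s36_pm_chain2 {ϖ'' : F''} {z : F} {VA VB VC : Subring F} {Vi V0 : Subring F''}
    (hA : s34_Unif (ι ϖ'') VA) (hB : s34_Unif (ι ϖ'') VB) (hC : s34_Unif z VC)
    (hAB : VA ≠ VB) (hAC : VA ≠ VC) (hBC : VB ≠ VC)
    (hVi : s34_Unif ϖ'' Vi) (hV0 : s34_Unif ϖ'' V0)
    (hιA : ∀ x ∈ Vi, ι x ∈ VA) (hιC : ∀ x ∈ Vi, ι x ∈ VC) (hιB : ∀ x ∈ V0, ι x ∈ VB)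
    (n : ℕ) (hn : 1 ≤ n) (hzn : ι ϖ'' * (z ^ n)⁻¹ ∈ VC) (hzn' : z ^ n * (ι ϖ'')⁻¹ ∈ VC)
    (hresA : ∀ y ∈ VA, ∃ y' ∈ Vi, (ι ϖ'')⁻¹ * (y - ι y') ∈ VA)
    (hresC : ∀ y ∈ VC, ∃ y' ∈ Vi, z⁻¹ * (y - ι y') ∈ VC)
    (hresB : ∀ y ∈ VB, ∃ b ∈ V0, (ι ϖ'')⁻¹ * (y ^ (n + 1) - ι b) ∈ VB)
    (Nm : F →* F'')
    (hNRram : ∀ h ∈ VA, h ∈ VC → ∀ a ∈ Vi, ∀ c ∈ Vi, (ι ϖ'')⁻¹ * (h - ι a) ∈ VA →
      z⁻¹ * (h - ι c) ∈ VC → ϖ''⁻¹ * (Nm h - a * c ^ n) ∈ Vi)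
    (hNRins : ∀ h ∈ VB, ∀ b ∈ V0, (ι ϖ'')⁻¹ * (h ^ (n + 1) - ι b) ∈ VB →
      ϖ''⁻¹ * (Nm h - b) ∈ V0)
    (W : F ≃+* F) (hWAB : ∀ x, x ∈ VB ↔ W x ∈ VA) (hWC : ∀ x, x ∈ VC ↔ W x ∈ VC)
    (hWϖ : W (ι ϖ'') = ι ϖ'') (hWW : ∀ x, W (W x) = x)
    (m : ℕ) (hm : 0 < m) (r s : ℤ) (hrs : r * ((n + 1 : ℕ) : ℤ) + s * m = 1)
    (hm0 : (m : F) ≠ 0) (hmA : ((m : F))⁻¹ ∈ VA) (hmB : ((m : F))⁻¹ ∈ VB)
    (hmC : ((m : F))⁻¹ ∈ VC)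
    (ζ : F) (hζ : IsPrimitiveRoot ζ m) (hμB : ∀ ξ : F, ξ ^ m = 1 → ξ ∈ VB)
    (hμC : ∀ ξ : F, ξ ^ m = 1 → ξ ∈ VC)
    (g : F) (hgA : s36_pm_U VA g) (hgB : s36_pm_U VB g) (hgC : s36_pm_U VC g)
    (f f' : F'') (hf : Nm g = f ^ m) (hf' : Nm (W g) = f' ^ m) :
    ∃ (ψ ψ' : F'') (ξ Ψ : F),
      s36_pm_U Vi ψ ∧ s36_pm_U Vi ψ' ∧ s36_pm_U Vi f ∧ s36_pm_U V0 f ∧ s36_pm_U Vi f' ∧
      s36_pm_U V0 f' ∧
      s35_fa_one (ι ϖ'') VA (ι ψ / (W (ι f') ^ r * g ^ s)) ∧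
      s35_fa_one (ι ϖ'') VA (ι ψ' / (W (ι f) ^ r * W g ^ s)) ∧
      ξ ^ m = 1 ∧
      s35_fa_one z VC (W (ι (f' / ψ')) / (ξ * ι (f / ψ))) ∧
      s35_fa_one (ι ϖ'') VA (Ψ / (W (ι f') ^ r * g ^ s) ^ (n * (n + 2))) ∧
      s35_fa_one (ι ϖ'') VB (Ψ / (ξ ^ n * (ι f ^ r * g ^ s) ^ (n * (n + 2)))) ∧
      s35_fa_one z VC (Ψ / (ξ ^ (n + 1) * (ι (f / ψ)) ^ (n + 2))) ∧
      (ι ϖ'')⁻¹ * (g ^ (n * (n + 2)) / Ψ ^ m - 1) ∈ VA ∧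
      (ι ϖ'')⁻¹ * (g ^ (n * (n + 2)) / Ψ ^ m - 1) ∈ VB ∧
      (ι ϖ'')⁻¹ * (g ^ (n * (n + 2)) / Ψ ^ m - 1) ∈ VC := by
  classical
  have hz0 := hC.ne_zero
  have hWA : ∀ x ∈ VA, W x ∈ VB := fun x hx => (hWAB (W x)).mpr (by rw [hWW]; exact hx)
  have hWB : ∀ x ∈ VB, W x ∈ VA := fun x hx => (hWAB x).mp hx
  have hWCm : ∀ x ∈ VC, W x ∈ VC := fun x hx => (hWC x).mp hx
  have hWU_AB : ∀ x, s36_pm_U VA x → s36_pm_U VB (W x) := fun x hx =>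
    ⟨(map_ne_zero W).mpr hx.1, hWA _ hx.2.1, by rw [← map_inv₀]; exact hWA _ hx.2.2⟩
  have hWU_BA : ∀ x, s36_pm_U VB x → s36_pm_U VA (W x) := fun x hx =>
    ⟨(map_ne_zero W).mpr hx.1, hWB _ hx.2.1, by rw [← map_inv₀]; exact hWB _ hx.2.2⟩
  have hWU_C : ∀ x, s36_pm_U VC x → s36_pm_U VC (W x) := fun x hx =>
    ⟨(map_ne_zero W).mpr hx.1, hWCm _ hx.2.1, by rw [← map_inv₀]; exact hWCm _ hx.2.2⟩
  have hWz : z⁻¹ * W z ∈ VC := s36_pm_swap_unif hC W hWC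
  have hg'A : s36_pm_U VA (W g) := hWU_BA g hgB
  have hg'C : s36_pm_U VC (W g) := hWU_C g hgC
  have hfW : Nm (W (W g)) = f ^ m := by rw [hWW]; exact hf
  -- the roots on the branches `A`, `B`
  obtain ⟨hfU0, hB1⟩ := s36_pm_rootB ι hB hV0 hιB (n + 1) hresB Nm hNRins m hm r s hrs g hgB f hf
  obtain ⟨hf'U0, hA1⟩ := s36_pm_rootA ι hB hV0 hιB (n + 1) hresB Nm hNRins W hWB hWA hWϖ hWW
    m hm r s hrs g hgA f' hf'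
  obtain ⟨-, hA1'⟩ := s36_pm_rootA ι hB hV0 hιB (n + 1) hresB Nm hNRins W hWB hWA hWϖ hWW
    m hm r s hrs (W g) hg'A f hfW
  have hιfB : s36_pm_U VB (ι f) := s36_pm_U_map ι hιB hfU0
  have hιf'B : s36_pm_U VB (ι f') := s36_pm_U_map ι hιB hf'U0
  have hΨAU : s36_pm_U VA (W (ι f') ^ r * g ^ s) := ((hWU_BA _ hιf'B).zpow r).mul (hgA.zpow s)
  have hΨBU : s36_pm_U VB (ι f ^ r * g ^ s) := (hιfB.zpow r).mul (hgB.zpow s)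
  have hΨA'U : s36_pm_U VA (W (ι f) ^ r * W g ^ s) :=
    ((hWU_BA _ hιfB).zpow r).mul (hg'A.zpow s)
  -- the roots on the branch `C`
  obtain ⟨ψ, hψU, hψ1, hfUi, hC1⟩ := s36_pm_rootC ι hA hC hVi hιA hιC n hn hzn hresA hresC Nm
    hNRram m hm g hgA hgC f hf _ hΨAU hA1
  obtain ⟨ψ', hψ'U, hψ'1, hf'Ui, hC1'⟩ := s36_pm_rootC ι hA hC hVi hιA hιC n hn hzn hresA hresC
    Nm hNRram m hm (W g) hg'A hg'C f' hf' _ hΨA'U hA1'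
  have hΨCU : s36_pm_U VC (ι (f / ψ)) := s36_pm_U_map ι hιC (hfUi.div hψU)
  have hΨC'U : s36_pm_U VC (ι (f' / ψ')) := s36_pm_U_map ι hιC (hf'Ui.div hψ'U)
  have hWΨC'U : s36_pm_U VC (W (ι (f' / ψ'))) := hWU_C _ hΨC'U
  have hC2 : s35_fa_one z VC (g ^ n / (W (ι (f' / ψ'))) ^ m) := by
    have h2 := s35_fa_one.map W hWCm hWz hz0 hC1'
    have e : W (W g ^ n / (ι (f' / ψ')) ^ m) = g ^ n / (W (ι (f' / ψ'))) ^ m := by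
      rw [map_div₀, map_pow, map_pow, hWW]
    rwa [e] at h2
  have hg0 := hgA.1
  have hΨC0 := hΨCU.1
  have hWΨC'0 := hWΨC'U.1
  have hxU : s36_pm_U VC (W (ι (f' / ψ')) / ι (f / ψ)) := hWΨC'U.div hΨCU
  have hx1 : z⁻¹ * ((W (ι (f' / ψ')) / ι (f / ψ)) ^ m - 1) ∈ VC := by
    have e : (W (ι (f' / ψ')) / ι (f / ψ)) ^ m =
        g ^ n / (ι (f / ψ)) ^ m * (g ^ n / (W (ι (f' / ψ'))) ^ m)⁻¹ := by
      rw [div_pow]; field_simp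
    rw [e]; exact hC1.mul hC (hC2.inv hC)
  obtain ⟨ξ, hξm, hξ1⟩ := s36_pm_root_unity hC hm hζ hμC hxU.2.1 hx1
  have hξ0 : ξ ≠ 0 := by
    rintro rfl
    rw [zero_pow hm.ne'] at hξm
    exact zero_ne_one hξm
  have hξinv : (ξ⁻¹) ^ m = 1 := by rw [inv_pow, hξm, inv_one]
  have hξC : s36_pm_U VC ξ := ⟨hξ0, hμC ξ hξm, hμC _ hξinv⟩
  have hξB : s36_pm_U VB ξ := ⟨hξ0, hμB ξ hξm, hμB _ hξinv⟩
  have hξx : s35_fa_one z VC (W (ι (f' / ψ')) / (ξ * ι (f / ψ))) := by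
    have h3 : s35_fa_one z VC (W (ι (f' / ψ')) / ι (f / ψ) / ξ) := s36_pm_one_of_cg hξC hξ1
    have e : W (ι (f' / ψ')) / (ξ * ι (f / ψ)) = W (ι (f' / ψ')) / ι (f / ψ) / ξ := by
      rw [div_div, mul_comm]
    rwa [e]
  -- the corrected roots of `g ^ (q² - 1)`
  have hξn : (ξ ^ n) ^ m = 1 := by rw [pow_right_comm, hξm, one_pow]
  have hξn1 : (ξ ^ (n + 1)) ^ m = 1 := by rw [pow_right_comm, hξm, one_pow]
  have hΦAU : s36_pm_U VA ((W (ι f') ^ r * g ^ s) ^ (n * (n + 2))) := hΨAU.pow _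
  have hΦBU : s36_pm_U VB (ξ ^ n * (ι f ^ r * g ^ s) ^ (n * (n + 2))) :=
    (hξB.pow n).mul (hΨBU.pow _)
  have hΦCU : s36_pm_U VC (ξ ^ (n + 1) * (ι (f / ψ)) ^ (n + 2)) :=
    (hξC.pow _).mul (hΨCU.pow _)
  have hgA5 : s35_fa_one (ι ϖ'') VA
      (g ^ (n * (n + 2)) / ((W (ι f') ^ r * g ^ s) ^ (n * (n + 2))) ^ m) := by
    have e : g ^ (n * (n + 2)) / ((W (ι f') ^ r * g ^ s) ^ (n * (n + 2))) ^ m =
        (g / (W (ι f') ^ r * g ^ s) ^ m) ^ (n * (n + 2)) := by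
      rw [div_pow, pow_right_comm (W (ι f') ^ r * g ^ s) (n * (n + 2)) m]
    rw [e]; exact hA1.pow hA _
  have hgB5 : s35_fa_one (ι ϖ'') VB
      (g ^ (n * (n + 2)) / (ξ ^ n * (ι f ^ r * g ^ s) ^ (n * (n + 2))) ^ m) := by
    have e : g ^ (n * (n + 2)) / (ξ ^ n * (ι f ^ r * g ^ s) ^ (n * (n + 2))) ^ m =
        (g / (ι f ^ r * g ^ s) ^ m) ^ (n * (n + 2)) := by
      rw [mul_pow, hξn, one_mul, div_pow, pow_right_comm (ι f ^ r * g ^ s) (n * (n + 2)) m]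
    rw [e]; exact hB1.pow hB _
  have hgC5 : s35_fa_one z VC
      (g ^ (n * (n + 2)) / (ξ ^ (n + 1) * (ι (f / ψ)) ^ (n + 2)) ^ m) := by
    have e : g ^ (n * (n + 2)) / (ξ ^ (n + 1) * (ι (f / ψ)) ^ (n + 2)) ^ m =
        (g ^ n / (ι (f / ψ)) ^ m) ^ (n + 2) := by
      rw [mul_pow, hξn1, one_mul, div_pow, pow_right_comm (ι (f / ψ)) (n + 2) m, pow_mul]
    rw [e]; exact hC1.pow hC _
  -- weak approximation
  obtain ⟨Ψ₀, -, hΨ₀A, hΨ₀B, hΨ₀C⟩ := s36_wa_res3 hA hB hC hAB hAC hBC _ _ _ hΦAU.2.1 hΦBU.2.1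
    hΦCU.2.1
  have hΨ₀A1 := s36_pm_one_of_cg hΦAU hΨ₀A
  have hΨ₀B1 := s36_pm_one_of_cg hΦBU hΨ₀B
  have hΨ₀C1 := s36_pm_one_of_cg hΦCU hΨ₀C
  have hΨ₀0 : Ψ₀ ≠ 0 := (s36_pm_U.of_one_div hA hΦAU hΨ₀A1).1
  have hh : ∀ (d : F) (V : Subring F) (_ : s34_Unif d V) (Φ : F), Φ ≠ 0 →
      s35_fa_one d V (g ^ (n * (n + 2)) / Φ ^ m) → s35_fa_one d V (Ψ₀ / Φ) →
      s35_fa_one d V (g ^ (n * (n + 2)) / Ψ₀ ^ m) := by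
    intro d V hV Φ hΦ0 h1 h2
    have e : g ^ (n * (n + 2)) / Ψ₀ ^ m = g ^ (n * (n + 2)) / Φ ^ m * ((Ψ₀ / Φ) ^ m)⁻¹ := by
      rw [div_pow]; field_simp
    rw [e]; exact h1.mul hV ((h2.pow hV m).inv hV)
  obtain ⟨w, hwA, hwB, hwC, hHA, hHB, hHC⟩ := s36_pm_newton3 hA hB hC n hzn' m hm0 hmA hmB hmC
    (g ^ (n * (n + 2)) / Ψ₀ ^ m) (hh _ _ hA _ hΦAU.1 hgA5 hΨ₀A1) (hh _ _ hB _ hΦBU.1 hgB5 hΨ₀B1)
    (hh _ _ hC _ hΦCU.1 hgC5 hΨ₀C1)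
  have hw0 : w ≠ 0 := hwA.ne_zero hA
  have eH : g ^ (n * (n + 2)) / (Ψ₀ * w) ^ m = g ^ (n * (n + 2)) / Ψ₀ ^ m * (w⁻¹) ^ m := by
    rw [mul_pow, inv_pow]; field_simp
  have eΨ : ∀ Φ : F, Ψ₀ * w / Φ = Ψ₀ / Φ * w := fun Φ => by ring
  refine ⟨ψ, ψ', ξ, Ψ₀ * w, hψU, hψ'U, hfUi, hfU0, hf'Ui, hf'U0, hψ1, hψ'1, hξm, hξx, ?_, ?_,
    ?_, ?_, ?_, ?_⟩
  · rw [eΨ]; exact hΨ₀A1.mul hA hwA
  · rw [eΨ]; exact hΨ₀B1.mul hB hwB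
  · rw [eΨ]; exact hΨ₀C1.mul hC hwC
  · rw [eH]; exact hHA
  · rw [eH]; exact hHB
  · rw [eH]; exact hHC

/-- **Step 0 of the toric chain** (the vertical orders).  If `Nm g = ϖ'' ^ γ₁ * f₁ ^ m` and
`Nm (W g) = ϖ'' ^ γ₂ * f₂ ^ m`, then `g ^ (q + 1) = g₂ * ϖ ^ ((q + 1) a) * φ ^ m` with `g₂` a
unit of `V_A`, `V_B`, `V_C` whose norm and the norm of whose swap are exact `m`-th powers.
`hNVi`, `hNV0` : the valuations of a norm (`v'_∞ (Nm h) = v_A h + v_C h`,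
`v'_0 (Nm h) = q v_B h`). -/
theorem s36_pm_chain1 {ϖ'' : F''} {z : F} {VA VB VC : Subring F} {Vi V0 : Subring F''}
    (hA : s34_Unif (ι ϖ'') VA) (hB : s34_Unif (ι ϖ'') VB) (hC : s34_Unif z VC)
    (hAB : VA ≠ VB) (hAC : VA ≠ VC) (hBC : VB ≠ VC)
    (hVi : s34_Unif ϖ'' Vi) (hV0 : s34_Unif ϖ'' V0)
    (n : ℕ) (hzn : ι ϖ'' * (z ^ n)⁻¹ ∈ VC) (hzn' : z ^ n * (ι ϖ'')⁻¹ ∈ VC)
    (Nm : F →* F'') (hNϖ : Nm (ι ϖ'') = ϖ'' ^ (n + 1))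
    (hNVi : ∀ (h : F) (a c : ℤ), s36_pm_D (ι ϖ'') VA h a → s36_pm_D z VC h c →
      s36_pm_D ϖ'' Vi (Nm h) (a + c))
    (hNV0 : ∀ (h : F) (b : ℤ), s36_pm_D (ι ϖ'') VB h b →
      s36_pm_D ϖ'' V0 (Nm h) (((n + 1 : ℕ) : ℤ) * b))
    (W : F ≃+* F) (hWAB : ∀ x, x ∈ VB ↔ W x ∈ VA) (hWC : ∀ x, x ∈ VC ↔ W x ∈ VC)
    (hWϖ : W (ι ϖ'') = ι ϖ'') (hWW : ∀ x, W (W x) = x)
    (m : ℕ)
    (g : F) (hg : g ≠ 0) (γ₁ γ₂ : ℤ) (f₁ f₂ : F'') (hf₁ : f₁ ≠ 0) (hf₂ : f₂ ≠ 0)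
    (hN₁ : Nm g = ϖ'' ^ γ₁ * f₁ ^ m) (hN₂ : Nm (W g) = ϖ'' ^ γ₂ * f₂ ^ m) :
    ∃ (a : ℤ) (φ g2 : F) (f f' : F''), φ ≠ 0 ∧
      g ^ (n + 2) = g2 * (ι ϖ'') ^ (((n + 2 : ℕ) : ℤ) * a) * φ ^ m ∧
      s36_pm_U VA g2 ∧ s36_pm_U VB g2 ∧ s36_pm_U VC g2 ∧ Nm g2 = f ^ m ∧
      Nm (W g2) = f' ^ m := by
  have hϖ0 := hA.ne_zero
  have hϖ''0 := hVi.ne_zero
  have hz0 := hC.ne_zero
  have hWA : ∀ x ∈ VA, W x ∈ VB := fun x hx => (hWAB (W x)).mpr (by rw [hWW]; exact hx)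
  have hWB : ∀ x ∈ VB, W x ∈ VA := fun x hx => (hWAB x).mp hx
  have hWCm : ∀ x ∈ VC, W x ∈ VC := fun x hx => (hWC x).mp hx
  have hWU_AB : ∀ x, s36_pm_U VA x → s36_pm_U VB (W x) := fun x hx =>
    ⟨(map_ne_zero W).mpr hx.1, hWA _ hx.2.1, by rw [← map_inv₀]; exact hWA _ hx.2.2⟩
  have hWU_BA : ∀ x, s36_pm_U VB x → s36_pm_U VA (W x) := fun x hx =>
    ⟨(map_ne_zero W).mpr hx.1, hWB _ hx.2.1, by rw [← map_inv₀]; exact hWB _ hx.2.2⟩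
  have hWU_C : ∀ x, s36_pm_U VC x → s36_pm_U VC (W x) := fun x hx =>
    ⟨(map_ne_zero W).mpr hx.1, hWCm _ hx.2.1, by rw [← map_inv₀]; exact hWCm _ hx.2.2⟩
  have hWz : z⁻¹ * W z ∈ VC := s36_pm_swap_unif hC W hWC
  have hWzU : s36_pm_U VC (z⁻¹ * W z) :=
    ⟨mul_ne_zero (inv_ne_zero hz0) ((map_ne_zero W).mpr hz0), hWz, by
      have e : (z⁻¹ * W z)⁻¹ = W (z⁻¹ * W z) := by
        rw [map_mul, map_inv₀, hWW, mul_inv, inv_inv, mul_comm]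
      rw [e]; exact hWCm _ hWz⟩
  have hWz' : W z = z * (z⁻¹ * W z) := by rw [mul_inv_cancel_left₀ hz0]
  -- the valuations of `g` and `W g`
  obtain ⟨a, hDa⟩ := s36_pm_D.of_decomp hA hg
  obtain ⟨b, hDb⟩ := s36_pm_D.of_decomp hB hg
  obtain ⟨c, hDc⟩ := s36_pm_D.of_decomp hC hg
  have hDWa : s36_pm_D (ι ϖ'') VA (W g) b :=
    hDb.map W hWU_BA 1 s36_pm_U.one (by rw [hWϖ, mul_one])
  have hDWb : s36_pm_D (ι ϖ'') VB (W g) a :=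
    hDa.map W hWU_AB 1 s36_pm_U.one (by rw [hWϖ, mul_one])
  have hDWc : s36_pm_D z VC (W g) c := hDc.map W hWU_C _ hWzU hWz'
  obtain ⟨j₁, hj₁⟩ := s36_pm_D.of_decomp hVi hf₁
  obtain ⟨j₁', hj₁'⟩ := s36_pm_D.of_decomp hV0 hf₁
  obtain ⟨j₂, hj₂⟩ := s36_pm_D.of_decomp hVi hf₂
  obtain ⟨j₂', hj₂'⟩ := s36_pm_D.of_decomp hV0 hf₂
  have E1 : a + c = γ₁ * 1 + (m : ℤ) * j₁ := (hNVi g a c hDa hDc).unique hVi (by
    rw [hN₁]; exact ((s36_pm_D.unif Vi ϖ'').zpow γ₁).mul hϖ''0 (hj₁.pow m))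
  have E2 : ((n + 1 : ℕ) : ℤ) * b = γ₁ * 1 + (m : ℤ) * j₁' := (hNV0 g b hDb).unique hV0 (by
    rw [hN₁]; exact ((s36_pm_D.unif V0 ϖ'').zpow γ₁).mul hϖ''0 (hj₁'.pow m))
  have E3 : b + c = γ₂ * 1 + (m : ℤ) * j₂ := (hNVi (W g) b c hDWa hDWc).unique hVi (by
    rw [hN₂]; exact ((s36_pm_D.unif Vi ϖ'').zpow γ₂).mul hϖ''0 (hj₂.pow m))
  have E4 : ((n + 1 : ℕ) : ℤ) * a = γ₂ * 1 + (m : ℤ) * j₂' := (hNV0 (W g) a hDWb).unique hV0 (by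
    rw [hN₂]; exact ((s36_pm_D.unif V0 ϖ'').zpow γ₂).mul hϖ''0 (hj₂'.pow m))
  push_cast at E2 E4
  obtain ⟨kB, hkB⟩ : ∃ k : ℤ, k = j₂ - j₂' - j₁ + j₁' := ⟨_, rfl⟩
  obtain ⟨kC, hkC⟩ : ∃ k : ℤ, k = ((n : ℤ) + 1) * kB + ((n : ℤ) + 2) * (j₁ - j₁') := ⟨_, rfl⟩
  have hmkB : (m : ℤ) * kB = ((n : ℤ) + 2) * (b - a) := by
    linear_combination (m : ℤ) * hkB - E3 + E4 + E1 - E2
  have hmkC : (m : ℤ) * kC = ((n : ℤ) + 2) * (c - n * a) := by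
    linear_combination (m : ℤ) * hkC + ((n : ℤ) + 1) * hmkB - ((n : ℤ) + 2) * E1 +
      ((n : ℤ) + 2) * E2
  -- the correcting function
  obtain ⟨φ, hφ0, ⟨uA, huA, huA', hφA⟩, ⟨uB, huB, huB', hφB⟩, ⟨uC, huC, huC', hφC⟩⟩ :=
    s36_wa_val3 hA hB hC hAB hAC hBC 0 kB kC
  have huA0 : uA ≠ 0 := by rintro rfl; rw [mul_zero] at hφA; exact hφ0 hφA
  have huB0 : uB ≠ 0 := by rintro rfl; rw [mul_zero] at hφB; exact hφ0 hφB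
  have huC0 : uC ≠ 0 := by rintro rfl; rw [mul_zero] at hφC; exact hφ0 hφC
  have hDφA : s36_pm_D (ι ϖ'') VA φ 0 := ⟨uA, ⟨huA0, huA, huA'⟩, hφA⟩
  have hDφB : s36_pm_D (ι ϖ'') VB φ kB := ⟨uB, ⟨huB0, huB, huB'⟩, hφB⟩
  have hDφC : s36_pm_D z VC φ kC := ⟨uC, ⟨huC0, huC, huC'⟩, hφC⟩
  have hDϖC : s36_pm_D z VC (ι ϖ'') n :=
    ⟨ι ϖ'' * (z ^ n)⁻¹, ⟨mul_ne_zero hϖ0 (inv_ne_zero (pow_ne_zero n hz0)), hzn, by
      rw [mul_inv, inv_inv, mul_comm]; exact hzn'⟩, by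
      rw [zpow_natCast, mul_comm, mul_assoc, inv_mul_cancel₀ (pow_ne_zero n hz0), mul_one]⟩
  obtain ⟨g2, hg2⟩ : ∃ g2 : F, g2 = g ^ (n + 2) * (ι ϖ'') ^ (-(((n + 2 : ℕ) : ℤ) * a)) *
      (φ⁻¹) ^ m := ⟨_, rfl⟩
  have hg2A : s36_pm_U VA g2 := by
    have h := ((hDa.pow (n + 2)).mul hϖ0
      ((s36_pm_D.unif VA (ι ϖ'')).zpow (-(((n + 2 : ℕ) : ℤ) * a)))).mul hϖ0 (hDφA.inv.pow m)
    rw [← hg2] at h
    exact (h.congr (by push_cast; ring)).to_U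
  have hg2B : s36_pm_U VB g2 := by
    have h := ((hDb.pow (n + 2)).mul hϖ0
      ((s36_pm_D.unif VB (ι ϖ'')).zpow (-(((n + 2 : ℕ) : ℤ) * a)))).mul hϖ0 (hDφB.inv.pow m)
    rw [← hg2] at h
    exact (h.congr (by push_cast; linear_combination -hmkB)).to_U
  have hg2C : s36_pm_U VC g2 := by
    have h := ((hDc.pow (n + 2)).mul hz0
      (hDϖC.zpow (-(((n + 2 : ℕ) : ℤ) * a)))).mul hz0 (hDφC.inv.pow m)
    rw [← hg2] at h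
    exact (h.congr (by push_cast; linear_combination -hmkC)).to_U
  have hrel : g ^ (n + 2) = g2 * (ι ϖ'') ^ (((n + 2 : ℕ) : ℤ) * a) * φ ^ m := by
    have h1 := zpow_ne_zero (((n + 2 : ℕ) : ℤ) * a) hϖ0
    have h2 := pow_ne_zero m hφ0
    rw [hg2, zpow_neg, inv_pow]
    field_simp
  have hNg2 : Nm g2 = (Nm g) ^ (n + 2) * (Nm (ι ϖ'')) ^ (-(((n + 2 : ℕ) : ℤ) * a)) *
      ((Nm φ)⁻¹) ^ m := by
    rw [hg2, map_mul, map_mul, map_pow, map_pow, s36_pm_map_zpow Nm _ hϖ0,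
      s36_pm_map_inv Nm _ hφ0]
  have hWg2 : W g2 = (W g) ^ (n + 2) * (ι ϖ'') ^ (-(((n + 2 : ℕ) : ℤ) * a)) *
      ((W φ)⁻¹) ^ m := by
    rw [hg2, map_mul, map_mul, map_pow, map_pow, map_zpow₀, map_inv₀, hWϖ]
  have hNWg2 : Nm (W g2) = (Nm (W g)) ^ (n + 2) *
      (Nm (ι ϖ'')) ^ (-(((n + 2 : ℕ) : ℤ) * a)) * ((Nm (W φ))⁻¹) ^ m := by
    rw [hWg2, map_mul, map_mul, map_pow, map_pow, s36_pm_map_zpow Nm _ hϖ0,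
      s36_pm_map_inv Nm _ ((map_ne_zero W).mpr hφ0)]
  have hNϖz : (Nm (ι ϖ'')) ^ (-(((n + 2 : ℕ) : ℤ) * a)) =
      ϖ'' ^ (((n + 1 : ℕ) : ℤ) * (-(((n + 2 : ℕ) : ℤ) * a))) := by
    rw [hNϖ, ← zpow_natCast ϖ'' (n + 1), ← zpow_mul]
  refine ⟨a, φ, g2, ϖ'' ^ (kC - ((n : ℤ) + 2) * j₁) * f₁ ^ (n + 2) * (Nm φ)⁻¹,
    ϖ'' ^ (kB + kC - ((n : ℤ) + 2) * j₂) * f₂ ^ (n + 2) * (Nm (W φ))⁻¹, hφ0, hrel, hg2A, hg2B,
    hg2C, ?_, ?_⟩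
  · rw [hNg2, hN₁, hNϖz]
    exact s36_pm_normexp ϖ'' hϖ''0 γ₁ _ _ (n + 2) m f₁ _ (by
      push_cast; linear_combination -((n : ℤ) + 2) * E1 - hmkC)
  · rw [hNWg2, hN₂, hNϖz]
    exact s36_pm_normexp ϖ'' hϖ''0 γ₂ _ _ (n + 2) m f₂ _ (by
      push_cast; linear_combination -((n : ℤ) + 2) * E3 - hmkB - hmkC)

/-- The norm of a unit of `V_B` is a unit of `V'_0`. -/
theorem s36_pm_nmU0 {ϖ'' : F''} {VB : Subring F} {V0 : Subring F''}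
    (hB : s34_Unif (ι ϖ'') VB) (hV0 : s34_Unif ϖ'' V0) (hιB : ∀ x ∈ V0, ι x ∈ VB) (q : ℕ)
    (hresB : ∀ y ∈ VB, ∃ b ∈ V0, (ι ϖ'')⁻¹ * (y ^ q - ι b) ∈ VB)
    (Nm : F →* F'')
    (hNRins : ∀ h ∈ VB, ∀ b ∈ V0, (ι ϖ'')⁻¹ * (h ^ q - ι b) ∈ VB → ϖ''⁻¹ * (Nm h - b) ∈ V0)
    (u : F) (hu : s36_pm_U VB u) : s36_pm_U V0 (Nm u) := by
  obtain ⟨b, hb, hb1⟩ := hresB u hu.2.1
  have hb2 := hNRins u hu.2.1 b hb hb1
  have h1 : s35_fa_one (ι ϖ'') VB (ι b / u ^ q) := s36_pm_one_of_cg' (hu.pow q) hb1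
  have hιb : s36_pm_U VB (ι b) := s36_pm_U.of_one_div hB (hu.pow q) h1
  have hbU : s36_pm_U V0 b := s36_pm_U_comap ι hV0 hB.inv_not_mem hιB hιb
  exact s36_pm_U.of_one_div hV0 hbU (s36_pm_one_of_cg hbU hb2)

/-- The valuation of a norm on the branch `B`: `v'_0 (Nm h) = q v_B h`. -/
theorem s36_pm_nv0 {ϖ'' : F''} {VB : Subring F} {V0 : Subring F''}
    (hB : s34_Unif (ι ϖ'') VB) (hV0 : s34_Unif ϖ'' V0) (hιB : ∀ x ∈ V0, ι x ∈ VB) (q : ℕ)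
    (hresB : ∀ y ∈ VB, ∃ b ∈ V0, (ι ϖ'')⁻¹ * (y ^ q - ι b) ∈ VB)
    (Nm : F →* F'') (hNϖ : Nm (ι ϖ'') = ϖ'' ^ q)
    (hNRins : ∀ h ∈ VB, ∀ b ∈ V0, (ι ϖ'')⁻¹ * (h ^ q - ι b) ∈ VB → ϖ''⁻¹ * (Nm h - b) ∈ V0)
    (h : F) (b : ℤ) (hD : s36_pm_D (ι ϖ'') VB h b) : s36_pm_D ϖ'' V0 (Nm h) ((q : ℤ) * b) := by
  obtain ⟨u, hu, rfl⟩ := hD
  refine ⟨Nm u, s36_pm_nmU0 ι hB hV0 hιB q hresB Nm hNRins u hu, ?_⟩
  rw [map_mul, s36_pm_map_zpow Nm _ hB.ne_zero, hNϖ, ← zpow_natCast ϖ'' q, ← zpow_mul]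

/-- The norm of a unit of `V_A` and `V_C` is a unit of `V'_∞`. -/
theorem s36_pm_nmUi {ϖ'' : F''} {z : F} {VA VC : Subring F} {Vi : Subring F''}
    (hA : s34_Unif (ι ϖ'') VA) (hC : s34_Unif z VC) (hVi : s34_Unif ϖ'' Vi)
    (hιA : ∀ x ∈ Vi, ι x ∈ VA) (hιC : ∀ x ∈ Vi, ι x ∈ VC)
    (n : ℕ) (hn : 1 ≤ n) (hzn : ι ϖ'' * (z ^ n)⁻¹ ∈ VC)
    (hresA : ∀ y ∈ VA, ∃ y' ∈ Vi, (ι ϖ'')⁻¹ * (y - ι y') ∈ VA)
    (hresC : ∀ y ∈ VC, ∃ y' ∈ Vi, z⁻¹ * (y - ι y') ∈ VC)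
    (Nm : F →* F'')
    (hNRram : ∀ h ∈ VA, h ∈ VC → ∀ a ∈ Vi, ∀ c ∈ Vi, (ι ϖ'')⁻¹ * (h - ι a) ∈ VA →
      z⁻¹ * (h - ι c) ∈ VC → ϖ''⁻¹ * (Nm h - a * c ^ n) ∈ Vi)
    (u : F) (huA : s36_pm_U VA u) (huC : s36_pm_U VC u) : s36_pm_U Vi (Nm u) := by
  have hϖ0 := hA.ne_zero
  have hz0 := hC.ne_zero
  have hzϖ : z⁻¹ * ι ϖ'' ∈ VC := by
    obtain ⟨k, rfl⟩ : ∃ k, n = k + 1 := ⟨n - 1, by omega⟩
    have e : z⁻¹ * ι ϖ'' = ι ϖ'' * (z ^ (k + 1))⁻¹ * z ^ k := by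
      rw [pow_succ]; field_simp
    rw [e]; exact VC.mul_mem hzn (VC.pow_mem hC.mem k)
  have hnotC : (ι ϖ'')⁻¹ ∉ VC := by
    intro h
    apply hC.inv_not_mem
    have e : z⁻¹ = z⁻¹ * ι ϖ'' * (ι ϖ'')⁻¹ := by
      rw [mul_assoc, mul_inv_cancel₀ hϖ0, mul_one]
    rw [e]; exact VC.mul_mem hzϖ h
  obtain ⟨a, ha, ha1⟩ := hresA u huA.2.1
  obtain ⟨c, hc, hc1⟩ := hresC u huC.2.1
  have hN := hNRram u huA.2.1 huC.2.1 a ha c hc ha1 hc1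
  have h2 : s35_fa_one (ι ϖ'') VA (ι a / u) := s36_pm_one_of_cg' huA ha1
  have hιa : s36_pm_U VA (ι a) := s36_pm_U.of_one_div hA huA h2
  have haU : s36_pm_U Vi a := s36_pm_U_comap ι hVi hA.inv_not_mem hιA hιa
  have h3 : s35_fa_one z VC (ι c / u) := s36_pm_one_of_cg' huC hc1
  have hιc : s36_pm_U VC (ι c) := s36_pm_U.of_one_div hC huC h3
  have hcU : s36_pm_U Vi c := s36_pm_U_comap ι hVi hnotC hιC hιc
  have hacU : s36_pm_U Vi (a * c ^ n) := haU.mul (hcU.pow n)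
  exact s36_pm_U.of_one_div hVi hacU (s36_pm_one_of_cg hacU hN)

/-- The valuation of a norm on the branches `A`, `C`: `v'_∞ (Nm h) = v_A h + v_C h`. -/
theorem s36_pm_nvi {ϖ'' : F''} {z : F} {VA VC : Subring F} {Vi : Subring F''}
    (hA : s34_Unif (ι ϖ'') VA) (hC : s34_Unif z VC) (hAC : VA ≠ VC) (hVi : s34_Unif ϖ'' Vi)
    (hιA : ∀ x ∈ Vi, ι x ∈ VA) (hιC : ∀ x ∈ Vi, ι x ∈ VC)
    (n : ℕ) (hn : 1 ≤ n) (hzn : ι ϖ'' * (z ^ n)⁻¹ ∈ VC) (hzn' : z ^ n * (ι ϖ'')⁻¹ ∈ VC)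
    (hresA : ∀ y ∈ VA, ∃ y' ∈ Vi, (ι ϖ'')⁻¹ * (y - ι y') ∈ VA)
    (hresC : ∀ y ∈ VC, ∃ y' ∈ Vi, z⁻¹ * (y - ι y') ∈ VC)
    (Nm : F →* F'') (hNϖ : Nm (ι ϖ'') = ϖ'' ^ (n + 1))
    (hNRram : ∀ h ∈ VA, h ∈ VC → ∀ a ∈ Vi, ∀ c ∈ Vi, (ι ϖ'')⁻¹ * (h - ι a) ∈ VA →
      z⁻¹ * (h - ι c) ∈ VC → ϖ''⁻¹ * (Nm h - a * c ^ n) ∈ Vi)
    (h : F) (a c : ℤ) (hDa : s36_pm_D (ι ϖ'') VA h a) (hDc : s36_pm_D z VC h c) :
    s36_pm_D ϖ'' Vi (Nm h) (a + c) := by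
  have hϖ0 := hA.ne_zero
  have hϖ''0 := hVi.ne_zero
  have hz0 := hC.ne_zero
  have hU : ∀ u, s36_pm_U VA u → s36_pm_U VC u → s36_pm_U Vi (Nm u) :=
    s36_pm_nmUi ι hA hC hVi hιA hιC n hn hzn hresA hresC Nm hNRram
  have hDϖC : s36_pm_D z VC (ι ϖ'') n :=
    ⟨ι ϖ'' * (z ^ n)⁻¹, ⟨mul_ne_zero hϖ0 (inv_ne_zero (pow_ne_zero n hz0)), hzn, by
      rw [mul_inv, inv_inv, mul_comm]; exact hzn'⟩, by
      rw [zpow_natCast, mul_comm, mul_assoc, inv_mul_cancel₀ (pow_ne_zero n hz0), mul_one]⟩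
  -- uniformizers of the two branches
  obtain ⟨θA, hθA1, hθA2⟩ := s36_wa_crt2 hA hC hAC 2 (ι ϖ'') 1
  obtain ⟨θC, hθC1, hθC2⟩ := s36_wa_crt2 hA hC hAC 2 1 z
  have hDθAA : s36_pm_D (ι ϖ'') VA θA 1 := by
    refine ⟨1 + ι ϖ'' * ((ι ϖ'')⁻¹ ^ 2 * (θA - ι ϖ'')), s36_pm_U.of_one hA ?_, ?_⟩
    · unfold s35_fa_one
      rw [add_sub_cancel_left, inv_mul_cancel_left₀ hϖ0]; exact hθA1
    · rw [zpow_one]; field_simp; ring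
  have hDθAC : s36_pm_D z VC θA 0 := by
    refine s36_pm_D.of_U z (s36_pm_U.of_one hC ?_)
    unfold s35_fa_one
    have e : z⁻¹ * (θA - 1) = z * (z⁻¹ ^ 2 * (θA - 1)) := by field_simp
    rw [e]; exact VC.mul_mem hC.mem hθA2
  have hDθCA : s36_pm_D (ι ϖ'') VA θC 0 := by
    refine s36_pm_D.of_U _ (s36_pm_U.of_one hA ?_)
    unfold s35_fa_one
    have e : (ι ϖ'')⁻¹ * (θC - 1) = ι ϖ'' * ((ι ϖ'')⁻¹ ^ 2 * (θC - 1)) := by field_simp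
    rw [e]; exact VA.mul_mem hA.mem hθC1
  have hDθCC : s36_pm_D z VC θC 1 := by
    refine ⟨1 + z * (z⁻¹ ^ 2 * (θC - z)), s36_pm_U.of_one hC ?_, ?_⟩
    · unfold s35_fa_one
      rw [add_sub_cancel_left, inv_mul_cancel_left₀ hz0]; exact hθC2
    · rw [zpow_one]; field_simp; ring
  have hθA0 : θA ≠ 0 := hDθAA.ne_zero hϖ0
  have hθC0 : θC ≠ 0 := hDθCC.ne_zero hz0
  -- the norms of the uniformizers are divisible by `ϖ''`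
  have hNθA : ϖ''⁻¹ * Nm θA ∈ Vi := by
    obtain ⟨c', hc', hc1⟩ := hresC θA (hDθAC.mem_of_nonneg hC le_rfl)
    have h1 := hNRram θA (hDθAA.mem_of_nonneg hA zero_le_one) (hDθAC.mem_of_nonneg hC le_rfl) 0
      Vi.zero_mem c' hc' (by
        rw [map_zero, sub_zero]; exact (hDθAA.dvd_iff hA).mpr le_rfl) hc1
    rwa [zero_mul, sub_zero] at h1
  have hNθC : ϖ''⁻¹ * Nm θC ∈ Vi := by
    obtain ⟨a', ha', ha1⟩ := hresA θC (hDθCA.mem_of_nonneg hA le_rfl)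
    have h1 := hNRram θC (hDθCA.mem_of_nonneg hA le_rfl) (hDθCC.mem_of_nonneg hC zero_le_one) a'
      ha' 0 Vi.zero_mem ha1 (by
        rw [map_zero, sub_zero]; exact (hDθCC.dvd_iff hC).mpr le_rfl)
    rwa [zero_pow (by omega), mul_zero, sub_zero] at h1
  obtain ⟨iA, hiA⟩ := s36_pm_D.of_decomp hVi (s36_pm_map_ne Nm θA hθA0)
  obtain ⟨iC, hiC⟩ := s36_pm_D.of_decomp hVi (s36_pm_map_ne Nm θC hθC0)
  have hiA1 : 1 ≤ iA := (hiA.dvd_iff hVi).mp hNθA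
  have hiC1 : 1 ≤ iC := (hiC.dvd_iff hVi).mp hNθC
  -- `ϖ = θ_A θ_C ^ n η`
  have hηA : s36_pm_U VA (ι ϖ'' * (θA * θC ^ n)⁻¹) := by
    have h := (s36_pm_D.unif VA (ι ϖ'')).mul hϖ0 (hDθAA.mul hϖ0 (hDθCA.pow n)).inv
    exact (h.congr (by ring)).to_U
  have hηC : s36_pm_U VC (ι ϖ'' * (θA * θC ^ n)⁻¹) := by
    have h := hDϖC.mul hz0 (hDθAC.mul hz0 (hDθCC.pow n)).inv
    exact (h.congr (by ring)).to_U
  have hNη := hU _ hηA hηC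
  have hϖeq : ι ϖ'' = θA * θC ^ n * (ι ϖ'' * (θA * θC ^ n)⁻¹) := by
    have := pow_ne_zero n hθC0
    field_simp
  have hsum : iA + (n : ℤ) * iC + 0 = ((n + 1 : ℕ) : ℤ) * 1 := by
    have h1 : s36_pm_D ϖ'' Vi (Nm (ι ϖ'')) (iA + (n : ℤ) * iC + 0) := by
      rw [hϖeq, map_mul, map_mul, map_pow]
      exact (hiA.mul hϖ''0 (hiC.pow n)).mul hϖ''0 (s36_pm_D.of_U _ hNη)
    have h2 : s36_pm_D ϖ'' Vi (Nm (ι ϖ'')) (((n + 1 : ℕ) : ℤ) * 1) := by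
      rw [hNϖ]; exact (s36_pm_D.unif Vi ϖ'').pow (n + 1)
    exact h1.unique hVi h2
  push_cast at hsum
  have hn' : (1 : ℤ) ≤ n := by exact_mod_cast hn
  have hiC' : iC = 1 := by
    by_contra hne
    have h2 : 2 ≤ iC := by omega
    have h3 : (n : ℤ) * 2 ≤ (n : ℤ) * iC := mul_le_mul_of_nonneg_left h2 (by omega)
    omega
  have hiA' : iA = 1 := by
    rw [hiC'] at hsum; omega
  rw [hiA'] at hiA
  rw [hiC'] at hiC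
  -- the general element
  have hηhA : s36_pm_U VA (h * (θA ^ a * θC ^ c)⁻¹) := by
    have h1 := hDa.mul hϖ0 ((hDθAA.zpow a).mul hϖ0 (hDθCA.zpow c)).inv
    exact (h1.congr (by ring)).to_U
  have hηhC : s36_pm_U VC (h * (θA ^ a * θC ^ c)⁻¹) := by
    have h1 := hDc.mul hz0 ((hDθAC.zpow a).mul hz0 (hDθCC.zpow c)).inv
    exact (h1.congr (by ring)).to_U
  have hNηh := hU _ hηhA hηhC
  have hheq : h = θA ^ a * θC ^ c * (h * (θA ^ a * θC ^ c)⁻¹) := by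
    have h1 := zpow_ne_zero a hθA0
    have h2 := zpow_ne_zero c hθC0
    field_simp
  rw [hheq, map_mul, map_mul, s36_pm_map_zpow Nm _ hθA0, s36_pm_map_zpow Nm _ hθC0]
  exact (((hiA.zpow a).mul hϖ''0 (hiC.zpow c)).mul hϖ''0 (s36_pm_D.of_U _ hNηh)).congr (by ring)

end Chain

end Fermat.Agent.S36
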