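import Mathlib
import Fermat.Agent.S34.GlueNodal

/-!
# S36 (NODE-3), block (G''): the two-chart theorem for a non-reduced special fibre

The special fibre of the level-`q²` model has a component of multiplicity `e = q - 1`; at a point
lying only on that component the uniformiser `ϖ` of the base is `ε * z ^ e` with `z` a local
equation of the (reduced) component and `ε` a unit.  The landed two-chart machinery of NODE-1
(`s34_glue_main`, `s34_chart_approx_of_local`, `s34_local_away`, `s34_local_node`) is abstract in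
the semi-local Gauss ring `V`, and `s18_Chart z B'`, `s18_as_chart_approx` are abstract in the prime
element.  Hence only the "smooth point" disjunct has to be generalised:

* `s36_local_mult` : chart approximation at a point having a neighbourhood `B' = B[1/f]` which is
  an honest `s18_Chart z B'` for a prime element `z` with `ϖ = ε * z ^ e`, `ε ∈ B'ˣ`.
* `s36_PointData ϖ B V p h 𝔪` : the local datum at a closed point of the special fibre: either the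
  multiplicity-`e` smooth datum, or (verbatim the node disjunct of `s34_PointData`, which does not
  depend on the number of branches) a local factorisation `h = g ^ p * w`.
* `s36_pointData_of_s34` : `s34_PointData → s36_PointData` (`e = 1`, `z = ϖ`, `ε = 1`).
* `s36_chart_approx`, `s36_two_chart` : the analogues of `s34_chart_approx`,
  `s34_two_chart_nodal`.
-/

set_option autoImplicit false

namespace Fermat.Agent.S36

open Fermat.Agent.S18 Fermat.Agent.S34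

variable {F : Type*} [Field F] {ϖ : F}

/-- A point with a neighbourhood `B' = B[1/f]` which is an honest S18 chart for a prime element
`z` such that `ϖ = ε * z ^ e` with `ε` a unit of `B'` (a point lying only on a component of
multiplicity `e` of the special fibre). -/
theorem s36_local_mult (hϖ0 : ϖ ≠ 0) (B B' V : Subring F) (hBB' : B ≤ B') (hBV : B ≤ V)
    (f : F) (hf : f ∈ B) (hfB' : ∀ x ∈ B', ∃ k : ℕ, f ^ k * x ∈ B)
    (z ε : F) (e : ℕ) (he : 0 < e) (hB' : s18_Chart z B') (hε : ε ∈ B') (hε' : ε⁻¹ ∈ B')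
    (hϖ : ϖ = ε * z ^ e)
    (hVg : ∀ x ∈ V, x ∈ s18_gauss z B')
    (hgV : ∀ y ∈ s18_gauss z B', ∃ k : ℕ, f ^ k * y ∈ V)
    (p : ℕ) (hp : 0 < p) (hp0 : (p : F) ≠ 0) (hpu : ((p : F))⁻¹ ∈ B)
    (h : F) (hh1 : ϖ⁻¹ * (h - 1) ∈ V)
    (hdiv : ∀ W : ValuationSubring F, IsDiscreteValuationRing W → B ≤ W.toSubring → ϖ⁻¹ ∈ W →
      ∃ g u : F, u ∈ W ∧ u⁻¹ ∈ W ∧ h = u * g ^ p)
    (M : F) (hM : M ∈ B) (hMh : M * h ∈ B) (n : ℕ) (u : F) (hu : ϖ⁻¹ * (u - 1) ∈ V)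
    (hun : ϖ⁻¹ ^ n * (u ^ p - h) ∈ V) :
    ∃ k : ℕ, ∃ x ∈ B, ϖ⁻¹ ^ n * (f ^ k * (M * u) - x) ∈ V := by
  have hz0 : z ≠ 0 := hB'.ϖ_ne
  have hε0 : ε ≠ 0 := by
    rintro rfl
    exact hϖ0 (by rw [hϖ, zero_mul])
  have hB'G : B' ≤ s18_gaussRing hB' := s18_le_gaussRing hB'
  have hzG : z ∈ s18_gaussRing hB' := hB'G hB'.ϖ_mem
  have hεG : ε ∈ s18_gaussRing hB' := hB'G hε
  have hε'G : ε⁻¹ ∈ s18_gaussRing hB' := hB'G hε'
  -- `z⁻¹ y = ε z^(e-1) (ϖ⁻¹ y)`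
  have key1 : ∀ y : F, ϖ⁻¹ * y ∈ V → z⁻¹ * y ∈ s18_gauss z B' := by
    intro y hy
    obtain ⟨e', rfl⟩ : ∃ e', e = e' + 1 := ⟨e - 1, by omega⟩
    have e1 : z⁻¹ * y = ε * z ^ e' * (ϖ⁻¹ * y) := by
      rw [hϖ, pow_succ]; field_simp
    rw [e1]
    exact (s18_gaussRing hB').mul_mem ((s18_gaussRing hB').mul_mem hεG
      ((s18_gaussRing hB').pow_mem hzG _)) (hVg _ hy)
  -- `(z⁻¹)^(e n) = ε^n (ϖ⁻¹)^n`
  have key2 : ∀ m : ℕ, (z⁻¹) ^ (e * m) = ε ^ m * ϖ⁻¹ ^ m := by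
    intro m
    have e1 : ϖ⁻¹ = ε⁻¹ * (z⁻¹) ^ e := by rw [hϖ, mul_inv, inv_pow]
    rw [e1, mul_pow, ← mul_assoc, ← mul_pow, mul_inv_cancel₀ hε0, one_pow, one_mul, pow_mul]
  -- Gauss normal form of `h` in `B'`
  obtain ⟨a', ha', b', hb', hb'z, hab'⟩ := key1 _ hh1
  have hb'0 : b' ≠ 0 := s18_ne_zero_of_not_dvd hb'z
  have hh : h = (b' + z * a') / b' := by
    have e1 : h = 1 + z * (z⁻¹ * (h - 1)) := by
      rw [← mul_assoc, mul_inv_cancel₀ hz0]; ring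
    rw [e1, hab']; field_simp
  have hab : z⁻¹ * ((b' + z * a') - b') ∈ B' := by
    have e1 : z⁻¹ * ((b' + z * a') - b') = a' := by
      rw [add_sub_cancel_left, ← mul_assoc, inv_mul_cancel₀ hz0, one_mul]
    rw [e1]; exact ha'
  have hun' : (z⁻¹) ^ (e * n) * (u ^ p - h) ∈ s18_gauss z B' := by
    rw [key2, mul_assoc]
    exact (s18_gaussRing hB').mul_mem ((s18_gaussRing hB').pow_mem hεG n) (hVg _ hun)
  obtain ⟨x', hx', hx'V⟩ := s18_as_chart_approx hB' p hp hp0 (hBB' hpu) h (b' + z * a') b'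
    (B'.add_mem hb' (B'.mul_mem hB'.ϖ_mem ha')) hb' hb'z hab hh
    (fun W hW hBW hzW => hdiv W hW (hBB'.trans hBW) (by
      have e1 : ϖ⁻¹ = ε⁻¹ * (z⁻¹) ^ e := by rw [hϖ, mul_inv, inv_pow]
      rw [e1]
      exact mul_mem (hBW hε') (pow_mem hzW e)))
    M (hBB' hM) (hBB' hMh) (e * n) u (key1 _ hu) hun'
  -- back to `ϖ`
  have hx'G : ϖ⁻¹ ^ n * (x' - M * u) ∈ s18_gauss z B' := by
    have e1 : ϖ⁻¹ ^ n * (x' - M * u) = (ε⁻¹) ^ n * ((z⁻¹) ^ (e * n) * (x' - M * u)) := by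
      rw [key2, ← mul_assoc, ← mul_assoc, ← mul_pow, inv_mul_cancel₀ hε0, one_pow, one_mul]
    rw [e1]
    exact (s18_gaussRing hB').mul_mem ((s18_gaussRing hB').pow_mem hε'G n) hx'V
  obtain ⟨k₁, hk₁⟩ := hfB' x' hx'
  obtain ⟨k₂, hk₂⟩ := hgV _ hx'G
  refine ⟨k₁ + k₂, f ^ (k₁ + k₂) * x', ?_, ?_⟩
  · have e1 : f ^ (k₁ + k₂) * x' = f ^ k₂ * (f ^ k₁ * x') := by rw [pow_add]; ring
    rw [e1]; exact B.mul_mem (B.pow_mem hf k₂) hk₁
  · have e1 : ϖ⁻¹ ^ n * (f ^ (k₁ + k₂) * (M * u) - f ^ (k₁ + k₂) * x') =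
        -(f ^ k₁ * (f ^ k₂ * (ϖ⁻¹ ^ n * (x' - M * u)))) := by rw [pow_add]; ring
    rw [e1]
    exact V.neg_mem (V.mul_mem (V.pow_mem (hBV hf) k₁) hk₂)

/-- The local data at a closed point `𝔪` of the special fibre of the chart `B`, for a possibly
non-reduced special fibre: either a neighbourhood `B' = B[1/f]` which is an honest S18 chart for a
prime element `z` with `ϖ = ε * z ^ e`, `ε` a unit of `B'` (a point lying on one component only,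
of multiplicity `e`), or a local factorisation `h = g ^ p * w` (a point where all the components
of `V` meet). -/
def s36_PointData {F : Type*} [Field F] (ϖ : F) (B V : Subring F) (p : ℕ) (h : F)
    (𝔪 : Ideal B) : Prop :=
  (∃ (B' : Subring F) (f : B) (z ε : F) (e : ℕ), f ∉ 𝔪 ∧ B ≤ B' ∧
    (∀ x ∈ B', ∃ k : ℕ, (f : F) ^ k * x ∈ B) ∧ 0 < e ∧ s18_Chart z B' ∧ ε ∈ B' ∧ ε⁻¹ ∈ B' ∧
    ϖ = ε * z ^ e ∧ (∀ x ∈ V, x ∈ s18_gauss z B') ∧
    (∀ y ∈ s18_gauss z B', ∃ k : ℕ, (f : F) ^ k * y ∈ V)) ∨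
  ((∀ s : B, s ∉ 𝔪 → ((s : F))⁻¹ ∈ V) ∧ (∀ z : F, z ^ p ∈ s18_loc B 𝔪 → z ∈ s18_loc B 𝔪) ∧
    ∃ g w : F, h = g ^ p * w ∧ w ∈ s18_loc B 𝔪 ∧ w⁻¹ ∈ s18_loc B 𝔪 ∧ ϖ⁻¹ * (g - 1) ∈ V)

/-- The point data of NODE-1 (reduced special fibre) are point data in the new sense. -/
theorem s36_pointData_of_s34 {B V : Subring F} {p : ℕ} {h : F} {𝔪 : Ideal B}
    (H : s34_PointData ϖ B V p h 𝔪) : s36_PointData ϖ B V p h 𝔪 := by
  rcases H with ⟨B', f, hf, hBB', hfB', hB', hVg, hgV⟩ | H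
  · exact Or.inl ⟨B', f, ϖ, 1, 1, hf, hBB', hfB', Nat.one_pos, hB', B'.one_mem,
      by rw [inv_one]; exact B'.one_mem, by rw [one_mul, pow_one], hVg, hgV⟩
  · exact Or.inr H

/-- The smooth disjunct of `s36_PointData` from its ingredients. -/
theorem s36_pointData_mult {B V : Subring F} {p : ℕ} {h : F} {𝔪 : Ideal B}
    (B' : Subring F) (f : B) (z ε : F) (e : ℕ) (hf : f ∉ 𝔪) (hBB' : B ≤ B')
    (hfB' : ∀ x ∈ B', ∃ k : ℕ, (f : F) ^ k * x ∈ B) (he : 0 < e) (hB' : s18_Chart z B')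
    (hε : ε ∈ B') (hε' : ε⁻¹ ∈ B') (hϖ : ϖ = ε * z ^ e) (hVg : ∀ x ∈ V, x ∈ s18_gauss z B')
    (hgV : ∀ y ∈ s18_gauss z B', ∃ k : ℕ, (f : F) ^ k * y ∈ V) :
    s36_PointData ϖ B V p h 𝔪 :=
  Or.inl ⟨B', f, z, ε, e, hf, hBB', hfB', he, hB', hε, hε', hϖ, hVg, hgV⟩

/-- The multi-branch disjunct of `s36_PointData` from its ingredients. -/
theorem s36_pointData_fact {B V : Subring F} {p : ℕ} {h : F} {𝔪 : Ideal B}
    (hlocV : ∀ s : B, s ∉ 𝔪 → ((s : F))⁻¹ ∈ V)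
    (hroot : ∀ z : F, z ^ p ∈ s18_loc B 𝔪 → z ∈ s18_loc B 𝔪)
    (g w : F) (hgw : h = g ^ p * w) (hw : w ∈ s18_loc B 𝔪) (hw' : w⁻¹ ∈ s18_loc B 𝔪)
    (hg1 : ϖ⁻¹ * (g - 1) ∈ V) : s36_PointData ϖ B V p h 𝔪 :=
  Or.inr ⟨hlocV, hroot, g, w, hgw, hw, hw', hg1⟩

/-- (G''2) chart approximation in a chart `B` with semi-local Gauss ring `V`, for a possibly
non-reduced special fibre. -/
theorem s36_chart_approx (hϖ0 : ϖ ≠ 0) (B V : Subring F) (hBV : B ≤ V) (hϖB : ϖ ∈ B)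
    (hcap : ∀ x ∈ B, ϖ⁻¹ * x ∈ V → ϖ⁻¹ * x ∈ B)
    (hVu : ∀ x ∈ V, (1 + ϖ * x)⁻¹ ∈ V)
    (p : ℕ) (hp : 0 < p) (hp0 : (p : F) ≠ 0) (hpu : ((p : F))⁻¹ ∈ B)
    (h : F) (hh1 : ϖ⁻¹ * (h - 1) ∈ V)
    (hdiv : ∀ W : ValuationSubring F, IsDiscreteValuationRing W → B ≤ W.toSubring → ϖ⁻¹ ∈ W →
      ∃ g u : F, u ∈ W ∧ u⁻¹ ∈ W ∧ h = u * g ^ p)
    (hpts : ∀ 𝔪 : Ideal B, 𝔪.IsMaximal → (⟨ϖ, hϖB⟩ : B) ∈ 𝔪 → s36_PointData ϖ B V p h 𝔪)
    (M : F) (hM : M ∈ B) (hMh : M * h ∈ B) (n : ℕ) (u : F) (hu : ϖ⁻¹ * (u - 1) ∈ V)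
    (hun : ϖ⁻¹ ^ n * (u ^ p - h) ∈ V) :
    ∃ x ∈ B, ϖ⁻¹ ^ n * (x - M * u) ∈ V := by
  apply s34_chart_approx_of_local B V hBV M u n
  intro 𝔪 h𝔪
  have h𝔪p : 𝔪.IsPrime := h𝔪.isPrime
  have huV : u ∈ V := by
    have e : u = 1 + ϖ * (ϖ⁻¹ * (u - 1)) := by
      rw [← mul_assoc, mul_inv_cancel₀ hϖ0]; ring
    rw [e]
    exact V.add_mem V.one_mem (V.mul_mem (hBV hϖB) hu)
  by_cases hϖ𝔪 : (⟨ϖ, hϖB⟩ : B) ∈ 𝔪
  · rcases hpts 𝔪 h𝔪 hϖ𝔪 with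
      ⟨B', f, z, ε, e, hf, hBB', hfB', he, hB', hε, hε', hϖ, hVg, hgV⟩ |
      ⟨hlocV, hroot, g, w, hgw, hw, hw', hg1⟩
    · obtain ⟨k, x, hx, hxV⟩ := s36_local_mult hϖ0 B B' V hBB' hBV (f : F) f.2 hfB' z ε e he
        hB' hε hε' hϖ hVg hgV p hp hp0 hpu h hh1 hdiv M hM hMh n u hu hun
      exact ⟨f ^ k, fun hk => hf (h𝔪.isPrime.mem_of_pow_mem k hk), x, hx, by
        simpa only [Subring.coe_pow] using hxV⟩
    · exact s34_local_node hϖ0 B V hBV hϖB hcap hVu 𝔪 hlocV p hp hp0 hpu hroot h hh1 g w hgw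
        hw hw' hg1 M hM hMh n u hu hun
  · exact s34_local_away hϖ0 B V hϖB M u (hBV hM) huV n 𝔪 hϖ𝔪

/-- (G'') the two-chart theorem for a possibly non-reduced special fibre with multi-branch points.

`V` is the semi-local Gauss ring (the intersection of the valuation rings of all the components of
the special fibre); `hcap0`, `hcapi` say that the charts are `ϖ`-saturated in `V` (normality);
`hVu` says that `ϖ` is in the Jacobson radical of `V`; `hh1` says `h ≡ 1 mod ϖ V`; `hdiv` says that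
the divisor of `h` on the generic fibre is divisible by `p`; `hpts0`, `hptsi` give the local data
at the closed points of the special fibre. -/
theorem s36_two_chart {A₀ F : Type*} [CommRing A₀] [IsDomain A₀]
    [IsDiscreteValuationRing A₀] [Field F] [Algebra A₀ F]
    (hinj : Function.Injective (algebraMap A₀ F)) {π : A₀}
    (hπ : Irreducible π) {t : F} {B0 Binf : Subalgebra A₀ F} (V : Subring F)
    (hB0V : ∀ x ∈ B0, x ∈ V) (hBiV : ∀ x ∈ Binf, x ∈ V)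
    (hcap0 : ∀ x ∈ B0, (algebraMap A₀ F π)⁻¹ * x ∈ V → (algebraMap A₀ F π)⁻¹ * x ∈ B0)
    (hcapi : ∀ x ∈ Binf, (algebraMap A₀ F π)⁻¹ * x ∈ V → (algebraMap A₀ F π)⁻¹ * x ∈ Binf)
    (hVu : ∀ x ∈ V, (1 + algebraMap A₀ F π * x)⁻¹ ∈ V)
    (t_ne : t ≠ 0) (t_mem : t ∈ B0) (tinv_mem : t⁻¹ ∈ Binf)
    (glue0 : ∀ x ∈ B0, ∃ k : ℕ, t⁻¹ ^ k * x ∈ Binf)
    (glueInf : ∀ x ∈ Binf, ∃ k : ℕ, t ^ k * x ∈ B0)
    (h1 : ∃ c₁ : ℕ, ∀ c, c₁ ≤ c → ∀ x ∈ B0, ∀ k : ℕ,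
      ∃ a ∈ B0, ∃ b ∈ Binf, t⁻¹ ^ k * x = a + t ^ c * b)
    (fin : ∀ c : ℕ, ∃ s : Finset F, ∀ x ∈ B0, t⁻¹ ^ c * x ∈ Binf →
      x ∈ Submodule.span A₀ (s : Set F))
    (p : ℕ) (hp : 0 < p) (hpu : IsUnit (p : A₀))
    (h b : F) (hh1 : (algebraMap A₀ F π)⁻¹ * (h - 1) ∈ V)
    (hb0 : b ≠ 0) (hb : b ∈ B0) (hbh : b * h ∈ B0)
    (hdiv : ∀ W : ValuationSubring F, IsDiscreteValuationRing W →
      (∀ x : A₀, algebraMap A₀ F x ∈ W) → (algebraMap A₀ F π)⁻¹ ∈ W →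
      ∃ g u : F, u ∈ W ∧ u⁻¹ ∈ W ∧ h = u * g ^ p)
    (hpts0 : ∀ 𝔪 : Ideal B0.toSubring, 𝔪.IsMaximal →
      (⟨algebraMap A₀ F π, B0.algebraMap_mem π⟩ : B0.toSubring) ∈ 𝔪 →
      s36_PointData (algebraMap A₀ F π) B0.toSubring V p h 𝔪)
    (hptsi : ∀ 𝔪 : Ideal Binf.toSubring, 𝔪.IsMaximal →
      (⟨algebraMap A₀ F π, Binf.algebraMap_mem π⟩ : Binf.toSubring) ∈ 𝔪 →
      s36_PointData (algebraMap A₀ F π) Binf.toSubring V p h 𝔪)
    {Ω E : Type*} [Field Ω] [IsAlgClosed Ω] [CommRing E] (φ : A₀ →+* Ω)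
    (hφ : Function.Injective φ) (ιF : F →+* E) (ιΩ : Ω →+* E)
    (hc : ∀ x : A₀, ιΩ (φ x) = ιF (algebraMap A₀ F x)) :
    ∃ (n : ℕ) (ω : Fin n → Ω) (e : Fin n → F) (M : F), M ≠ 0 ∧
      (∑ i, ιΩ (ω i) * ιF (e i)) ^ p = ιF (M ^ p * h) := by
  have hϖ0 : algebraMap A₀ F π ≠ 0 := by
    intro h0
    exact hπ.ne_zero (hinj (by rw [h0, map_zero]))
  -- `p` is invertible
  obtain ⟨q, hq⟩ := hpu.exists_right_inv
  have hpq : (p : F) * algebraMap A₀ F q = 1 := by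
    have := congrArg (algebraMap A₀ F) hq
    simpa using this
  have hp0 : (p : F) ≠ 0 := left_ne_zero_of_mul_eq_one hpq
  have hpinv : (p : F)⁻¹ = algebraMap A₀ F q := (eq_inv_of_mul_eq_one_right hpq).symm
  have hpu0 : (p : F)⁻¹ ∈ B0.toSubring := by rw [hpinv]; exact B0.algebraMap_mem q
  have hpui : (p : F)⁻¹ ∈ Binf.toSubring := by rw [hpinv]; exact Binf.algebraMap_mem q
  refine s34_glue_main hinj hπ V hB0V hBiV hcap0 hcapi t_ne t_mem tinv_mem glue0 glueInf h1 fin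
    p hp hpu h b hh1 hb0 hb hbh ?_ ?_ φ hφ ιF ιΩ hc
  · intro M hM hMh n u hu hun
    exact s36_chart_approx hϖ0 B0.toSubring V (fun x hx => hB0V x hx) (B0.algebraMap_mem π)
      hcap0 hVu p hp hp0 hpu0 h hh1
      (fun W hW hBW hϖW => hdiv W hW (fun x => hBW (B0.algebraMap_mem x)) hϖW)
      hpts0 M hM hMh n u hu hun
  · intro M hM hMh n u hu hun
    exact s36_chart_approx hϖ0 Binf.toSubring V (fun x hx => hBiV x hx) (Binf.algebraMap_mem π)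
      hcapi hVu p hp hp0 hpui h hh1
      (fun W hW hBW hϖW => hdiv W hW (fun x => hBW (Binf.algebraMap_mem x)) hϖW)
      hptsi M hM hMh n u hu hun

end Fermat.Agent.S36
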