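import Mathlib
import Fermat.Agent.S36.GlueMult
import Fermat.Agent.S36.NewtonOne

/-!
# S36 (NODE-3): the Newton correction inside `B_𝔪` at a multi-branch point

At a triple point `𝔪` of the special fibre the function-dependent analysis (TRI36) produces a
local factorisation `h = G ^ p * w` with `w` a unit of `B_𝔪` and `G ≡ 1` on every component, i.e.
`G ≡ 1` modulo the *radical* of `ϖ V` only (`V` the semi-local Gauss ring; the component `C` has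
multiplicity `q - 1`).  The fact-disjunct of `s36_PointData` asks for `g ≡ 1` modulo `ϖ V`.
Since `h ≡ 1 mod ϖ V` (global Newton normalisation) and `p` is invertible this can be repaired
inside `B_𝔪`:

* `w ≡ 1` modulo the radical, so Newton's iteration in the local ring `B_𝔪` gives a unit `v` of
  `B_𝔪`, `v ≡ 1`, with `w * v⁻ᵖ ≡ 1 mod ϖ V`;
* `g := G * v` satisfies `g ^ p ≡ 1 mod ϖ V` and `g ≡ 1` modulo the radical, hence `g ≡ 1 mod ϖ V`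
  (`∑ g ^ i ≡ p` is a unit of `V`).

Main results: `s36_pdn_main`, `s36_pdn_pointData`.
-/

set_option autoImplicit false

namespace Fermat.Agent.S36

open Fermat.Agent.S18 Fermat.Agent.S34

variable {F : Type*} [Field F] {ϖ : F}

/-- `x` lies in the radical of the ideal `ϖ V` of `V`. -/
def s36_pdn_Rad (ϖ : F) (V : Subring F) (x : F) : Prop :=
  x ∈ V ∧ ∃ N : ℕ, ϖ⁻¹ * x ^ N ∈ V

theorem s36_pdn_rad_iff (hϖ0 : ϖ ≠ 0) (V : Subring F) (hϖV : ϖ ∈ V) (x : F) :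
    s36_pdn_Rad ϖ V x ↔
      ∃ hx : x ∈ V, (⟨x, hx⟩ : V) ∈ (Ideal.span {(⟨ϖ, hϖV⟩ : V)}).radical := by
  constructor
  · rintro ⟨hx, N, hN⟩
    refine ⟨hx, Ideal.mem_radical_iff.2 ⟨N, ?_⟩⟩
    rw [Ideal.mem_span_singleton']
    refine ⟨⟨ϖ⁻¹ * x ^ N, hN⟩, ?_⟩
    apply Subtype.ext
    simp only [Subring.coe_mul, Subring.coe_pow]
    field_simp
  · rintro ⟨hx, hrad⟩
    obtain ⟨N, hN⟩ := Ideal.mem_radical_iff.1 hrad
    refine ⟨hx, N, ?_⟩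
    rw [Ideal.mem_span_singleton'] at hN
    obtain ⟨a, ha⟩ := hN
    have h1 : (a : F) * ϖ = x ^ N := by
      have := congrArg (Subtype.val) ha
      simpa using this
    have e : ϖ⁻¹ * x ^ N = a := by
      rw [← h1]; field_simp
    rw [e]; exact a.2

theorem s36_pdn_rad_add (hϖ0 : ϖ ≠ 0) (V : Subring F) (hϖV : ϖ ∈ V) {x y : F}
    (hx : s36_pdn_Rad ϖ V x) (hy : s36_pdn_Rad ϖ V y) : s36_pdn_Rad ϖ V (x + y) := by
  rw [s36_pdn_rad_iff hϖ0 V hϖV] at hx hy ⊢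
  obtain ⟨hx, hx'⟩ := hx
  obtain ⟨hy, hy'⟩ := hy
  exact ⟨V.add_mem hx hy, Ideal.add_mem _ hx' hy'⟩

theorem s36_pdn_rad_mul (V : Subring F) {x c : F} (hx : s36_pdn_Rad ϖ V x) (hc : c ∈ V) :
    s36_pdn_Rad ϖ V (c * x) := by
  obtain ⟨hxV, N, hN⟩ := hx
  refine ⟨V.mul_mem hc hxV, N, ?_⟩
  have e : ϖ⁻¹ * (c * x) ^ N = c ^ N * (ϖ⁻¹ * x ^ N) := by rw [mul_pow]; ring
  rw [e]; exact V.mul_mem (V.pow_mem hc N) hN

theorem s36_pdn_rad_neg (V : Subring F) {x : F} (hx : s36_pdn_Rad ϖ V x) :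
    s36_pdn_Rad ϖ V (-x) := by
  have := s36_pdn_rad_mul V hx (V.neg_mem V.one_mem)
  rwa [neg_one_mul] at this

theorem s36_pdn_rad_of_dvd (hϖ0 : ϖ ≠ 0) (V : Subring F) (hϖV : ϖ ∈ V) {x : F}
    (hx : ϖ⁻¹ * x ∈ V) : s36_pdn_Rad ϖ V x := by
  refine ⟨?_, 1, by rwa [pow_one]⟩
  have e : x = ϖ * (ϖ⁻¹ * x) := by rw [← mul_assoc, mul_inv_cancel₀ hϖ0, one_mul]
  rw [e]; exact V.mul_mem hϖV hx

/-- The radical of `ϖ V` lies in the Jacobson radical of `V`. -/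
theorem s36_pdn_rad_unit (hϖ0 : ϖ ≠ 0) (V : Subring F) (hϖinv : ϖ⁻¹ ∉ V)
    (hVu : ∀ x ∈ V, (1 + ϖ * x)⁻¹ ∈ V) {x : F} (hx : s36_pdn_Rad ϖ V x) :
    1 + x ≠ 0 ∧ (1 + x)⁻¹ ∈ V := by
  obtain ⟨hxV, N, hN⟩ := hx
  set c : F := ϖ⁻¹ * x ^ N with hc
  have hxN : x ^ N = ϖ * c := by rw [hc, ← mul_assoc, mul_inv_cancel₀ hϖ0, one_mul]
  set S : F := ∑ i ∈ Finset.range N, (-x) ^ i with hS
  have hSV : S ∈ V := V.sum_mem (fun i _ => V.pow_mem (V.neg_mem hxV) i)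
  have hgeom : (1 + x) * S = 1 - (-x) ^ N := by
    have := mul_neg_geom_sum (-x) N
    rw [sub_neg_eq_add] at this
    exact this
  set c' : F := -((-1) ^ N * c) with hc'
  have hc'V : c' ∈ V := V.neg_mem (V.mul_mem (V.pow_mem (V.neg_mem V.one_mem) N) hN)
  have hu : 1 - (-x) ^ N = 1 + ϖ * c' := by
    rw [neg_pow, hxN, hc']; ring
  have hu0 : 1 + ϖ * c' ≠ 0 := by
    intro h0
    apply hϖinv
    have h1 : ϖ * c' = -1 := by linear_combination h0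
    have h2 : ϖ⁻¹ = -c' := by
      rw [eq_neg_iff_add_eq_zero]
      have : ϖ⁻¹ + c' = ϖ⁻¹ * (1 + ϖ * c') := by
        rw [mul_add, mul_one, ← mul_assoc, inv_mul_cancel₀ hϖ0, one_mul]
      rw [this, h0, mul_zero]
    rw [h2]; exact V.neg_mem hc'V
  have hprod : (1 + x) * S ≠ 0 := by rw [hgeom, hu]; exact hu0
  have hne : 1 + x ≠ 0 := left_ne_zero_of_mul hprod
  have hS0 : S ≠ 0 := right_ne_zero_of_mul hprod
  refine ⟨hne, ?_⟩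
  have e : (1 + x)⁻¹ = S * (1 + ϖ * c')⁻¹ := by
    rw [← hu, ← hgeom, mul_inv, mul_comm (1 + x)⁻¹, ← mul_assoc, mul_inv_cancel₀ hS0, one_mul]
  rw [e]; exact V.mul_mem hSV (hVu c' hc'V)

/-- `∑_{i<n} g^i = n + (g - 1) * C` with `C ∈ V`. -/
theorem s36_pdn_geom (V : Subring F) (g : F) (hg : g ∈ V) (n : ℕ) :
    ∃ C ∈ V, ∑ i ∈ Finset.range n, g ^ i = (n : F) + (g - 1) * C := by
  induction n with
  | zero => exact ⟨0, V.zero_mem, by simp⟩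
  | succ n ih =>
    obtain ⟨C, hC, hC'⟩ := ih
    refine ⟨C + ∑ i ∈ Finset.range n, g ^ i,
      V.add_mem hC (V.sum_mem (fun i _ => V.pow_mem hg i)), ?_⟩
    have h1 : g ^ n = 1 + (g - 1) * ∑ i ∈ Finset.range n, g ^ i := by
      rw [mul_geom_sum]; ring
    rw [Finset.sum_range_succ]
    push_cast
    linear_combination hC' + h1

/-- A `p`-th root of `1` modulo `ϖ V` which is `≡ 1` modulo the radical is `≡ 1` modulo `ϖ V`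
(`p` invertible). -/
theorem s36_pdn_root_one (hϖ0 : ϖ ≠ 0) (V : Subring F) (hϖinv : ϖ⁻¹ ∉ V)
    (hVu : ∀ x ∈ V, (1 + ϖ * x)⁻¹ ∈ V) (p : ℕ) (hp0 : (p : F) ≠ 0) (hpV : ((p : F))⁻¹ ∈ V)
    (g : F) (hg : s36_pdn_Rad ϖ V (g - 1)) (hgp : ϖ⁻¹ * (g ^ p - 1) ∈ V) :
    ϖ⁻¹ * (g - 1) ∈ V := by
  have hgV : g ∈ V := by
    have e : g = 1 + (g - 1) := by ring
    rw [e]; exact V.add_mem V.one_mem hg.1
  obtain ⟨C, hC, hC'⟩ := s36_pdn_geom V g hgV p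
  set S : F := ∑ i ∈ Finset.range p, g ^ i with hS
  have hxrad : s36_pdn_Rad ϖ V (((p : F))⁻¹ * C * (g - 1)) :=
    s36_pdn_rad_mul V hg (V.mul_mem hpV hC)
  obtain ⟨hne, hinv⟩ := s36_pdn_rad_unit hϖ0 V hϖinv hVu hxrad
  have hSeq : S = (p : F) * (1 + ((p : F))⁻¹ * C * (g - 1)) := by
    rw [hC']; field_simp
  have hS0 : S ≠ 0 := by rw [hSeq]; exact mul_ne_zero hp0 hne
  have hSinv : S⁻¹ ∈ V := by
    rw [hSeq, mul_inv]; exact V.mul_mem hpV hinv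
  have hfact : g ^ p - 1 = (g - 1) * S := by rw [hS, mul_geom_sum]
  have e : ϖ⁻¹ * (g - 1) = S⁻¹ * (ϖ⁻¹ * (g ^ p - 1)) := by
    rw [hfact]; field_simp
  rw [e]; exact V.mul_mem hSinv hgp

/-- `B_𝔪` is a local ring: `1 + x y` is a unit for a non-unit `x`. -/
theorem s36_pdn_loc_unit (B : Subring F) (𝔪 : Ideal B) [h𝔪 : 𝔪.IsPrime] {x y : F}
    (hx : x ∈ s18_loc B 𝔪) (hx' : x⁻¹ ∉ s18_loc B 𝔪) (hy : y ∈ s18_loc B 𝔪) :
    (1 + x * y)⁻¹ ∈ s18_loc B 𝔪 := by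
  obtain ⟨a, b, hb, rfl⟩ := hx
  obtain ⟨c, e, he, rfl⟩ := hy
  have ha : a ∈ 𝔪 := by
    by_contra ha
    exact hx' (s18_loc_inv_mem ha)
  have hb0 : (b : F) ≠ 0 := fun h => hb (by
    have : b = 0 := Subtype.ext h
    rw [this]; exact 𝔪.zero_mem)
  have he0 : (e : F) ≠ 0 := fun h => he (by
    have : e = 0 := Subtype.ext h
    rw [this]; exact 𝔪.zero_mem)
  have hden : b * e + a * c ∉ 𝔪 := by
    intro h
    have h2 : b * e ∈ 𝔪 := by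
      have := 𝔪.sub_mem h (𝔪.mul_mem_right c ha)
      simpa using this
    exact (h𝔪.mem_or_mem h2).elim hb he
  have hden0 : ((b * e + a * c : B) : F) ≠ 0 := fun h => hden (by
    have : b * e + a * c = 0 := Subtype.ext h
    rw [this]; exact 𝔪.zero_mem)
  refine ⟨b * e, b * e + a * c, hden, ?_⟩
  simp only [Subring.coe_add, Subring.coe_mul] at hden0 ⊢
  have h1 : 1 + (a : F) / (b : F) * ((c : F) / (e : F)) =
      ((b : F) * (e : F) + (a : F) * (c : F)) / ((b : F) * (e : F)) := by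
    field_simp
  rw [h1, inv_div]

/-- Newton in `B_𝔪`: a unit `w` of `B_𝔪` which is `≡ 1` modulo the radical of `ϖ V` is
`v ^ p * w₁` with `v` a unit of `B_𝔪`, `v ≡ 1` modulo the radical, `w₁ ≡ 1 mod ϖ V`. -/
theorem s36_pdn_newton_loc (B V : Subring F) (hϖinv : ϖ⁻¹ ∉ V)
    (𝔪 : Ideal B) [h𝔪 : 𝔪.IsPrime] (hLV : ∀ y, y ∈ s18_loc B 𝔪 → y ∈ V)
    (p : ℕ) (hp0 : (p : F) ≠ 0) (hpu : ((p : F))⁻¹ ∈ B)
    (w : F) (hw : w ∈ s18_loc B 𝔪) (hwrad : s36_pdn_Rad ϖ V (w - 1)) :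
    ∃ v : F, v ∈ s18_loc B 𝔪 ∧ v⁻¹ ∈ s18_loc B 𝔪 ∧ s36_pdn_Rad ϖ V (v - 1) ∧
      ϖ⁻¹ * (w * (v⁻¹) ^ p - 1) ∈ V := by
  set L := s18_locRing B 𝔪 with hL
  by_cases hw1 : w = 1
  · refine ⟨1, L.one_mem, by rw [inv_one]; exact L.one_mem, ?_, ?_⟩
    · rw [sub_self]; exact ⟨V.zero_mem, 1, by rw [pow_one, mul_zero]; exact V.zero_mem⟩
    · rw [hw1, inv_one, one_pow, mul_one, sub_self, mul_zero]; exact V.zero_mem
  · set d : F := w - 1 with hd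
    have hd0 : d ≠ 0 := sub_ne_zero.2 hw1
    have hdL : d ∈ L := L.sub_mem hw L.one_mem
    obtain ⟨hdV, n, hn⟩ := hwrad
    -- `d` is not a unit of `B_𝔪`
    have hdinv : d⁻¹ ∉ s18_loc B 𝔪 := by
      intro hinv
      apply hϖinv
      have e : ϖ⁻¹ = (ϖ⁻¹ * d ^ n) * (d⁻¹) ^ n := by
        rw [mul_assoc, ← mul_pow, mul_inv_cancel₀ hd0, one_pow, mul_one]
      rw [e]; exact V.mul_mem hn (V.pow_mem (hLV _ hinv) n)
    obtain ⟨v, hv⟩ := s36_newton (fun _ : Unit => L) (fun _ => d) p hp0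
      (fun _ => s18_le_locRing B 𝔪 hpu) (fun _ => hd0) (fun _ => hdL)
      (fun _ x hx => s36_pdn_loc_unit B 𝔪 hdL hdinv hx) w
      (fun _ => by
        show d⁻¹ * (w - 1) ∈ L
        rw [← hd, inv_mul_cancel₀ hd0]; exact L.one_mem) n
    obtain ⟨hv1, hv2, hv3⟩ := hv ()
    have hv1' : d⁻¹ * (v - 1) ∈ L := hv1
    have hv3' : (d ^ (2 ^ n))⁻¹ * (w * (v⁻¹) ^ p - 1) ∈ L := hv3
    have hvd : v - 1 = d * (d⁻¹ * (v - 1)) := by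
      rw [← mul_assoc, mul_inv_cancel₀ hd0, one_mul]
    have hvL : v ∈ L := by
      have e : v = 1 + d * (d⁻¹ * (v - 1)) := by rw [← hvd]; ring
      rw [e]; exact L.add_mem L.one_mem (L.mul_mem hdL hv1')
    refine ⟨v, hvL, hv2, ?_, ?_⟩
    · rw [hvd, mul_comm]
      exact s36_pdn_rad_mul V ⟨hdV, n, hn⟩ (hLV _ hv1')
    · have hle : n ≤ 2 ^ n := (Nat.lt_two_pow_self).le
      have hsplit : d ^ (2 ^ n) = d ^ n * d ^ (2 ^ n - n) := by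
        rw [← pow_add]; congr 1; omega
      have h1 : d ^ (2 ^ n) ≠ 0 := pow_ne_zero _ hd0
      have e : ϖ⁻¹ * (w * (v⁻¹) ^ p - 1) =
          (ϖ⁻¹ * d ^ n) * (d ^ (2 ^ n - n) * ((d ^ (2 ^ n))⁻¹ * (w * (v⁻¹) ^ p - 1))) := by
        have e2 : w * (v⁻¹) ^ p - 1 =
            d ^ (2 ^ n) * ((d ^ (2 ^ n))⁻¹ * (w * (v⁻¹) ^ p - 1)) := by
          rw [← mul_assoc, mul_inv_cancel₀ h1, one_mul]
        rw [e2, hsplit]
        have h3 : d ^ n * d ^ (2 ^ n - n) ≠ 0 := by rw [← hsplit]; exact h1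
        rw [← mul_assoc (d ^ n * d ^ (2 ^ n - n))⁻¹, inv_mul_cancel₀ h3, one_mul]
        ring
      rw [e]
      exact V.mul_mem hn (V.mul_mem (V.pow_mem hdV _) (hLV _ hv3'))

/-- **Newton correction inside `B_𝔪`.**  From `h ≡ 1 mod ϖ V`, a local factorisation
`h = G ^ p * w` with `w` a unit of `B_𝔪` and `G ≡ 1` modulo the radical of `ϖ V`, to the local
factorisation required by the fact-disjunct of `s36_PointData` (`g ≡ 1 mod ϖ V`). -/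
theorem s36_pdn_main (hϖ0 : ϖ ≠ 0) (B V : Subring F) (hBV : B ≤ V) (hϖB : ϖ ∈ B)
    (hϖinv : ϖ⁻¹ ∉ V) (hVu : ∀ x ∈ V, (1 + ϖ * x)⁻¹ ∈ V)
    (𝔪 : Ideal B) [h𝔪 : 𝔪.IsPrime] (hlocV : ∀ s : B, s ∉ 𝔪 → ((s : F))⁻¹ ∈ V)
    (p : ℕ) (hp0 : (p : F) ≠ 0) (hpu : ((p : F))⁻¹ ∈ B)
    (h : F) (hh1 : ϖ⁻¹ * (h - 1) ∈ V)
    (G w : F) (hGw : h = G ^ p * w) (hw : w ∈ s18_loc B 𝔪) (hw' : w⁻¹ ∈ s18_loc B 𝔪)
    (hGV : G - 1 ∈ V) (N : ℕ) (hGN : ϖ⁻¹ * (G - 1) ^ N ∈ V) :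
    ∃ g w' : F, h = g ^ p * w' ∧ w' ∈ s18_loc B 𝔪 ∧ w'⁻¹ ∈ s18_loc B 𝔪 ∧
      ϖ⁻¹ * (g - 1) ∈ V := by
  set L := s18_locRing B 𝔪 with hL
  have hϖV : ϖ ∈ V := hBV hϖB
  have hpV : ((p : F))⁻¹ ∈ V := hBV hpu
  have hLV : ∀ y, y ∈ s18_loc B 𝔪 → y ∈ V := by
    rintro y ⟨a, b, hb, rfl⟩
    rw [div_eq_mul_inv]
    exact V.mul_mem (hBV a.2) (hlocV b hb)
  -- `G` is a unit of `V`
  have hGrad : s36_pdn_Rad ϖ V (G - 1) := ⟨hGV, N, hGN⟩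
  have hGe : G = 1 + (G - 1) := by ring
  have hGV' : G ∈ V := by rw [hGe]; exact V.add_mem V.one_mem hGV
  obtain ⟨hG0', hGinv'⟩ := s36_pdn_rad_unit hϖ0 V hϖinv hVu hGrad
  rw [← hGe] at hG0' hGinv'
  -- `w ≡ 1` modulo the radical
  have hhrad : s36_pdn_Rad ϖ V (h - 1) := s36_pdn_rad_of_dvd hϖ0 V hϖV hh1
  have hGprad : s36_pdn_Rad ϖ V (G ^ p - 1) := by
    have e : G ^ p - 1 = (∑ i ∈ Finset.range p, G ^ i) * (G - 1) := by rw [geom_sum_mul]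
    rw [e]
    exact s36_pdn_rad_mul V hGrad (V.sum_mem (fun i _ => V.pow_mem hGV' i))
  have hwrad : s36_pdn_Rad ϖ V (w - 1) := by
    have e : w - 1 = (G⁻¹) ^ p * ((h - 1) + -(G ^ p - 1)) := by
      rw [hGw, inv_pow]
      have hGp0 : G ^ p ≠ 0 := pow_ne_zero _ hG0'
      field_simp
      ring
    rw [e]
    exact s36_pdn_rad_mul V (s36_pdn_rad_add hϖ0 V hϖV hhrad (s36_pdn_rad_neg V hGprad))
      (V.pow_mem hGinv' p)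
  obtain ⟨v, hvL, hvinvL, hvrad, hw1⟩ :=
    s36_pdn_newton_loc B V hϖinv 𝔪 hLV p hp0 hpu w hw hwrad
  have hve : v = 1 + (v - 1) := by ring
  obtain ⟨hv0', -⟩ := s36_pdn_rad_unit hϖ0 V hϖinv hVu hvrad
  rw [← hve] at hv0'
  have hvV : v ∈ V := hLV v hvL
  -- the new factorisation
  set w₁ : F := w * (v⁻¹) ^ p with hw₁
  have hfac : h = (G * v) ^ p * w₁ := by
    rw [hw₁, hGw, mul_pow, inv_pow]
    have hvp0 : v ^ p ≠ 0 := pow_ne_zero _ hv0'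
    field_simp
  have hw₁L : w₁ ∈ L := L.mul_mem hw (L.pow_mem hvinvL p)
  have hw₁invL : w₁⁻¹ ∈ L := by
    have e : w₁⁻¹ = w⁻¹ * v ^ p := by rw [hw₁, mul_inv, inv_pow, inv_inv]
    rw [e]; exact L.mul_mem hw' (L.pow_mem hvL p)
  refine ⟨G * v, w₁, hfac, hw₁L, hw₁invL, ?_⟩
  -- `w₁` is a unit of `V`, `≡ 1 mod ϖ V`
  set c₁ : F := ϖ⁻¹ * (w₁ - 1) with hc₁
  have hw₁e : w₁ = 1 + ϖ * c₁ := by
    rw [hc₁, ← mul_assoc, mul_inv_cancel₀ hϖ0, one_mul]; ring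
  have hw₁inv : w₁⁻¹ ∈ V := by rw [hw₁e]; exact hVu c₁ hw1
  have hw₁0 : w₁ ≠ 0 := by
    obtain ⟨h0, -⟩ := s36_pdn_rad_unit hϖ0 V hϖinv hVu
      (s36_pdn_rad_of_dvd hϖ0 V hϖV (x := w₁ - 1) hw1)
    have e : w₁ = 1 + (w₁ - 1) := by ring
    rw [e]; exact h0
  -- `(G v)^p ≡ 1 mod ϖ V`
  have hgp : ϖ⁻¹ * ((G * v) ^ p - 1) ∈ V := by
    have e : ϖ⁻¹ * ((G * v) ^ p - 1) = w₁⁻¹ * (ϖ⁻¹ * (h - 1) - ϖ⁻¹ * (w₁ - 1)) := by
      rw [hfac]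
      field_simp
      ring
    rw [e]
    exact V.mul_mem hw₁inv (V.sub_mem hh1 hw1)
  -- `G v ≡ 1` modulo the radical
  have hgrad : s36_pdn_Rad ϖ V (G * v - 1) := by
    have e : G * v - 1 = v * (G - 1) + (v - 1) := by ring
    rw [e]
    exact s36_pdn_rad_add hϖ0 V hϖV (s36_pdn_rad_mul V hGrad hvV) hvrad
  exact s36_pdn_root_one hϖ0 V hϖinv hVu p hp0 hpV (G * v) hgrad hgp

/-- The fact-disjunct of `s36_PointData` at a multi-branch point from a local factorisation with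
`G ≡ 1` modulo the radical of `ϖ V` only. -/
theorem s36_pdn_pointData (hϖ0 : ϖ ≠ 0) (B V : Subring F) (hBV : B ≤ V) (hϖB : ϖ ∈ B)
    (hϖinv : ϖ⁻¹ ∉ V) (hVu : ∀ x ∈ V, (1 + ϖ * x)⁻¹ ∈ V)
    (𝔪 : Ideal B) [h𝔪 : 𝔪.IsPrime] (hlocV : ∀ s : B, s ∉ 𝔪 → ((s : F))⁻¹ ∈ V)
    (p : ℕ) (hp0 : (p : F) ≠ 0) (hpu : ((p : F))⁻¹ ∈ B)
    (hroot : ∀ z : F, z ^ p ∈ s18_loc B 𝔪 → z ∈ s18_loc B 𝔪)
    (h : F) (hh1 : ϖ⁻¹ * (h - 1) ∈ V)
    (G w : F) (hGw : h = G ^ p * w) (hw : w ∈ s18_loc B 𝔪) (hw' : w⁻¹ ∈ s18_loc B 𝔪)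
    (hGV : G - 1 ∈ V) (N : ℕ) (hGN : ϖ⁻¹ * (G - 1) ^ N ∈ V) :
    s36_PointData ϖ B V p h 𝔪 := by
  obtain ⟨g, w', hgw, hw1, hw2, hg1⟩ := s36_pdn_main hϖ0 B V hBV hϖB hϖinv hVu 𝔪 hlocV p hp0
    hpu h hh1 G w hGw hw hw' hGV N hGN
  exact s36_pointData_fact hlocV hroot g w' hgw hw1 hw2 hg1

end Fermat.Agent.S36
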