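import Mathlib
import Fermat.Agent.S24.PlaceBasic
import Fermat.Agent.S36.PowChain
import Fermat.Agent.S36.PowCore
import Fermat.Agent.S36.TriplePD

/-!
# S36 (NODE-3), layer L4 (MOD36): the power statement at level `N₁ q²` from the model

`s36_pow_of_model` : assumption-passing assembly.  Given, over a number field `K₁ ⊆ Q̄` with
`A₁ = A ∩ K₁` a discrete valuation ring (uniformizer `π`),

* the two charts `B0`, `Binf` of `F = K₁ · F(L)` (`L = N₁ q²`) with the two-chart data of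
  `s36_two_chart` for the semi-local Gauss ring `V = V_A ⊓ V_B ⊓ V_C`;
* the three components `V_A`, `V_B` (uniformizer `π`), `V_C` (uniformizer `z`, `π = ε z ^ n`,
  `n = q - 1`), the level below (`ι : F'' →+* F`, `V'_∞`, `V'_0`), the norm `Nm : F →* F''` with
  the (EXT) data and the two norm–residue formulas (the shapes of `S36/NrPkg`), the swap `W`;
* a function `g₁` all of whose orders are divisible by `m` with the two norm relations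
  `Nm g₁ = ϖ'' ^ γ₁ * f₁ ^ m`, `Nm (W g₁) = ϖ'' ^ γ₂ * f₂ ^ m`;
* at every closed point of the special fibre of a chart: either function-independent point data
  (`s36_PointData` for every function: points on one component only), or the contract
  `s36_pm_TriOut` of the triple points (TRI36);

the function `g₁ ^ ((q + 1) (q² - 1))` is an `m`-th power in `Q̄ · F(L)`.

Proof: `s36_pm_chain1`, `s36_pm_chain2` (toric chain), `s36_pdn_pointData` (Newton correction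
inside `B_𝔪`), `s36_pm_core` (two-chart theorem).
-/

set_option autoImplicit false
set_option synthInstance.maxHeartbeats 400000

open ModularCurve AlgebraicCurve

noncomputable section

namespace Fermat.Agent.S36

open Fermat.Agent.S18 Fermat.Agent.S34 Fermat.Agent.S35

/-- **(TRI36), the contract at a triple point `𝔪` of the chart `B`.**  For every function `g`
which is a unit on the three components, whose horizontal divisor is divisible by `m`, with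
`Nm g = f ^ m`, `Nm (W g) = f' ^ m`, and for the data `ψ`, `ψ'`, `ξ` of the toric chain
(`s36_pm_chain2`): there is `Θ` congruent to the three corrected branch roots
`Ψ_A ^ (q² - 1)`, `ξ ^ (q - 1) Ψ_B ^ (q² - 1)`, `ξ ^ q Ψ_C ^ (q + 1)` such that
`g ^ (q² - 1) / Θ ^ m` is a unit of `B_𝔪`. -/
def s36_pm_TriOut {F'' F : Type*} [Field F''] [Field F] (ι : F'' →+* F) (ϖ'' : F'') (z : F)
    (VA VB VC : Subring F) (Vi V0 : Subring F'') (Nm : F →* F'') (W : F ≃+* F) (n m : ℕ)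
    (r s : ℤ) (B : Subring F) (𝔪 : Ideal B) : Prop :=
  ∀ (g : F) (f f' ψ ψ' : F'') (ξ : F),
    s36_pm_U VA g → s36_pm_U VB g → s36_pm_U VC g →
    (∀ W' : ValuationSubring F, IsDiscreteValuationRing W' → B ≤ W'.toSubring →
      (ι ϖ'')⁻¹ ∈ W' → ∃ g' u : F, u ∈ W' ∧ u⁻¹ ∈ W' ∧ g = u * g' ^ m) →
    Nm g = f ^ m → Nm (W g) = f' ^ m →
    s36_pm_U Vi ψ → s36_pm_U Vi ψ' → s36_pm_U Vi f → s36_pm_U V0 f → s36_pm_U Vi f' →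
    s36_pm_U V0 f' →
    s35_fa_one (ι ϖ'') VA (ι ψ / (W (ι f') ^ r * g ^ s)) →
    s35_fa_one (ι ϖ'') VA (ι ψ' / (W (ι f) ^ r * W g ^ s)) →
    ξ ^ m = 1 →
    s35_fa_one z VC (W (ι (f' / ψ')) / (ξ * ι (f / ψ))) →
    ∃ Θ : F, s35_fa_one (ι ϖ'') VA (Θ / (W (ι f') ^ r * g ^ s) ^ (n * (n + 2))) ∧
      s35_fa_one (ι ϖ'') VB (Θ / (ξ ^ n * (ι f ^ r * g ^ s) ^ (n * (n + 2)))) ∧
      s35_fa_one z VC (Θ / (ξ ^ (n + 1) * (ι (f / ψ)) ^ (n + 2))) ∧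
      g ^ (n * (n + 2)) / Θ ^ m ∈ s18_loc B 𝔪 ∧ (g ^ (n * (n + 2)) / Θ ^ m)⁻¹ ∈ s18_loc B 𝔪

/-- The point data at a triple point from the contract `s36_pm_TriOut` and the output of the
toric chain. -/
theorem s36_pm_pointData_tri {F'' F : Type*} [Field F''] [Field F] (ι : F'' →+* F)
    {ϖ'' : F''} {z : F} {VA VB VC : Subring F} {Vi V0 : Subring F''}
    (hA : s34_Unif (ι ϖ'') VA) (hB : s34_Unif (ι ϖ'') VB) (hC : s34_Unif z VC)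
    (n : ℕ) (hn : 1 ≤ n) (hzn : ι ϖ'' * (z ^ n)⁻¹ ∈ VC) (hzn' : z ^ n * (ι ϖ'')⁻¹ ∈ VC)
    (Nm : F →* F'') (W : F ≃+* F) (m : ℕ) (hm0 : (m : F) ≠ 0) (r s : ℤ)
    (B : Subring F) (hBA : B ≤ VA) (hBB : B ≤ VB) (hBC : B ≤ VC) (hϖB : ι ϖ'' ∈ B)
    (hmB : ((m : F))⁻¹ ∈ B) (𝔪 : Ideal B) [h𝔪 : 𝔪.IsPrime]
    (hlocV : ∀ b : B, b ∉ 𝔪 → ((b : F))⁻¹ ∈ VA ⊓ VB ⊓ VC)
    (hroot : ∀ x : F, x ^ m ∈ s18_loc B 𝔪 → x ∈ s18_loc B 𝔪)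
    (hTri : s36_pm_TriOut ι ϖ'' z VA VB VC Vi V0 Nm W n m r s B 𝔪)
    (g : F) (f f' ψ ψ' : F'') (ξ Ψ : F)
    (hgA : s36_pm_U VA g) (hgB : s36_pm_U VB g) (hgC : s36_pm_U VC g)
    (hdiv : ∀ W' : ValuationSubring F, IsDiscreteValuationRing W' → B ≤ W'.toSubring →
      (ι ϖ'')⁻¹ ∈ W' → ∃ g' u : F, u ∈ W' ∧ u⁻¹ ∈ W' ∧ g = u * g' ^ m)
    (hf : Nm g = f ^ m) (hf' : Nm (W g) = f' ^ m)
    (hψU : s36_pm_U Vi ψ) (hψ'U : s36_pm_U Vi ψ') (hfUi : s36_pm_U Vi f) (hfU0 : s36_pm_U V0 f)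
    (hf'Ui : s36_pm_U Vi f') (hf'U0 : s36_pm_U V0 f')
    (hψ1 : s35_fa_one (ι ϖ'') VA (ι ψ / (W (ι f') ^ r * g ^ s)))
    (hψ'1 : s35_fa_one (ι ϖ'') VA (ι ψ' / (W (ι f) ^ r * W g ^ s)))
    (hξm : ξ ^ m = 1)
    (hξx : s35_fa_one z VC (W (ι (f' / ψ')) / (ξ * ι (f / ψ))))
    (hΨA : s35_fa_one (ι ϖ'') VA (Ψ / (W (ι f') ^ r * g ^ s) ^ (n * (n + 2))))
    (hΨB : s35_fa_one (ι ϖ'') VB (Ψ / (ξ ^ n * (ι f ^ r * g ^ s) ^ (n * (n + 2)))))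
    (hΨC : s35_fa_one z VC (Ψ / (ξ ^ (n + 1) * (ι (f / ψ)) ^ (n + 2))))
    (hHA : (ι ϖ'')⁻¹ * (g ^ (n * (n + 2)) / Ψ ^ m - 1) ∈ VA)
    (hHB : (ι ϖ'')⁻¹ * (g ^ (n * (n + 2)) / Ψ ^ m - 1) ∈ VB)
    (hHC : (ι ϖ'')⁻¹ * (g ^ (n * (n + 2)) / Ψ ^ m - 1) ∈ VC) :
    s36_PointData (ι ϖ'') B (VA ⊓ VB ⊓ VC) m (g ^ (n * (n + 2)) / Ψ ^ m) 𝔪 := by
  have hϖ0 := hA.ne_zero
  have hz0 := hC.ne_zero
  obtain ⟨Θ, hΘA, hΘB, hΘC, hw, hw'⟩ := hTri g f f' ψ ψ' ξ hgA hgB hgC hdiv hf hf' hψU hψ'U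
    hfUi hfU0 hf'Ui hf'U0 hψ1 hψ'1 hξm hξx
  -- `G := Θ / Ψ ≡ 1` on the three components
  have hG : ∀ (d : F) (V : Subring F) (_ : s34_Unif d V) (Φ : F),
      s35_fa_one d V (Θ / Φ) → s35_fa_one d V (Ψ / Φ) → s35_fa_one d V (Θ / Ψ) := by
    intro d V hV Φ h1 h2
    have hΘ0 : Θ / Φ ≠ 0 := h1.ne_zero hV
    have hΨ0 : Ψ / Φ ≠ 0 := h2.ne_zero hV
    have hΦ0 : Φ ≠ 0 := fun h => hΘ0 (by rw [h, div_zero])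
    have hΨ00 : Ψ ≠ 0 := fun h => hΨ0 (by rw [h, zero_div])
    have e : Θ / Ψ = Θ / Φ / (Ψ / Φ) := by field_simp
    rw [e]; exact h1.div hV h2
  have hGA := hG _ _ hA _ hΘA hΨA
  have hGB := hG _ _ hB _ hΘB hΨB
  have hGC := hG _ _ hC _ hΘC hΨC
  have hΨ0 : Ψ ≠ 0 := by
    have h1 : Ψ / (W (ι f') ^ r * g ^ s) ^ (n * (n + 2)) ≠ 0 := hΨA.ne_zero hA
    exact fun h => h1 (by rw [h, zero_div])
  have hΘ0 : Θ ≠ 0 := by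
    have h1 : Θ / Ψ ≠ 0 := hGA.ne_zero hA
    exact fun h => h1 (by rw [h, zero_div])
  have hVu : ∀ x ∈ VA ⊓ VB ⊓ VC, (1 + ι ϖ'' * x)⁻¹ ∈ VA ⊓ VB ⊓ VC := by
    rintro x ⟨⟨hxA, hxB⟩, hxC⟩
    refine ⟨⟨hA.one_add_inv_mem hxA, hB.one_add_inv_mem hxB⟩, ?_⟩
    obtain ⟨k, rfl⟩ : ∃ k, n = k + 1 := ⟨n - 1, by omega⟩
    have e : 1 + ι ϖ'' * x = 1 + z * (ι ϖ'' * (z ^ (k + 1))⁻¹ * z ^ k * x) := by
      rw [pow_succ]; field_simp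
    rw [e]
    exact hC.one_add_inv_mem (VC.mul_mem (VC.mul_mem hzn (VC.pow_mem hC.mem k)) hxC)
  have hGV : Θ / Ψ - 1 ∈ VA ⊓ VB ⊓ VC := by
    refine ⟨⟨?_, ?_⟩, ?_⟩
    · have e : Θ / Ψ - 1 = ι ϖ'' * ((ι ϖ'')⁻¹ * (Θ / Ψ - 1)) := by
        rw [mul_inv_cancel_left₀ hϖ0]
      rw [e]; exact VA.mul_mem hA.mem hGA
    · have e : Θ / Ψ - 1 = ι ϖ'' * ((ι ϖ'')⁻¹ * (Θ / Ψ - 1)) := by
        rw [mul_inv_cancel_left₀ hϖ0]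
      rw [e]; exact VB.mul_mem hB.mem hGB
    · have e : Θ / Ψ - 1 = z * (z⁻¹ * (Θ / Ψ - 1)) := by
        rw [mul_inv_cancel_left₀ hz0]
      rw [e]; exact VC.mul_mem hC.mem hGC
  have hGN : (ι ϖ'')⁻¹ * (Θ / Ψ - 1) ^ n ∈ VA ⊓ VB ⊓ VC := by
    obtain ⟨k, hk⟩ : ∃ k, n = k + 1 := ⟨n - 1, by omega⟩
    refine ⟨⟨?_, ?_⟩, ?_⟩
    · have e : (ι ϖ'')⁻¹ * (Θ / Ψ - 1) ^ n = (ι ϖ'')⁻¹ * (Θ / Ψ - 1) * (Θ / Ψ - 1) ^ k := by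
        rw [hk, pow_succ]; ring
      rw [e]; exact VA.mul_mem hGA (VA.pow_mem hGV.1.1 k)
    · have e : (ι ϖ'')⁻¹ * (Θ / Ψ - 1) ^ n = (ι ϖ'')⁻¹ * (Θ / Ψ - 1) * (Θ / Ψ - 1) ^ k := by
        rw [hk, pow_succ]; ring
      rw [e]; exact VB.mul_mem hGB (VB.pow_mem hGV.1.2 k)
    · have e : (ι ϖ'')⁻¹ * (Θ / Ψ - 1) ^ n = z ^ n * (ι ϖ'')⁻¹ * (z⁻¹ * (Θ / Ψ - 1)) ^ n := by
        rw [mul_pow, inv_pow]
        have := pow_ne_zero n hz0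
        field_simp
      rw [e]; exact VC.mul_mem hzn' (VC.pow_mem hGC n)
  have hfac : g ^ (n * (n + 2)) / Ψ ^ m = (Θ / Ψ) ^ m * (g ^ (n * (n + 2)) / Θ ^ m) := by
    rw [div_pow]
    have h1 := pow_ne_zero m hΘ0
    have h2 := pow_ne_zero m hΨ0
    field_simp
  have hϖinv : (ι ϖ'')⁻¹ ∉ VA ⊓ VB ⊓ VC := fun h => hA.inv_not_mem h.1.1
  exact s36_pdn_pointData hϖ0 B (VA ⊓ VB ⊓ VC) (fun x hx => ⟨⟨hBA hx, hBB hx⟩, hBC hx⟩) hϖB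
    hϖinv hVu 𝔪 hlocV m hm0 hmB hroot _ ⟨⟨hHA, hHB⟩, hHC⟩ (Θ / Ψ) _ hfac hw hw' hGV n hGN

local notation "Qb" => AlgebraicClosure ℚ

set_option maxHeartbeats 4000000 in
/-- **(MOD36)** the power statement at level `L` (`= N₁ q²`) from the three-component model over
`K₁`: `g₁ ^ ((q + 1) (q² - 1))` is an `m`-th power in `Q̄ · F(L)` (`q = n + 1`).

Hypotheses:
* `ι : F'' →+* F` (the degeneracy map from the level below), `ι ϖ'' = π`; the components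
  `V_A`, `V_B`, `V_C` and `V'_∞ = Vi`, `V'_0 = V0` with the (EXT) data `hresA`, `hresC`, `hresB`
  and the norm–residue formulas `hNRram`, `hNRins` (the shapes of `S36/NrPkg`, with the norm
  `Nm : F →* F''`); the swap `W`;
* the charts `B0`, `Binf` with the two-chart data of `s36_two_chart` for
  `V = V_A ⊓ V_B ⊓ V_C`;
* `ζ₀` : a primitive `m`-th root of unity in `A₁`; `r (n + 1) + s m = 1`;
* `g₁` with the two norm relations `hN₁`, `hN₂`;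
* `hpts0`, `hptsi` : at every closed point of the special fibre either function-independent
  point data, or a triple point with the contract `s36_pm_TriOut`. -/
theorem s36_pow_of_model (L : ℕ) [NeZero L] (A : ValuationSubring Qb)
    (K₁ : IntermediateField ℚ Qb) [IsDiscreteValuationRing (s18_A1 A K₁)]
    {π : s18_A1 A K₁} (hπ : Irreducible π)
    {t : s18_F1 K₁ L} {B0 Binf : Subalgebra (s18_A1 A K₁) (s18_F1 K₁ L)}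
    -- the level below and the three components
    {F'' : Type*} [Field F''] (ι : F'' →+* s18_F1 K₁ L) {ϖ'' : F''}
    (hιϖ : ι ϖ'' = algebraMap (s18_A1 A K₁) (s18_F1 K₁ L) π)
    {z : s18_F1 K₁ L} (VA VB VC : Subring (s18_F1 K₁ L)) (Vi V0 : Subring F'')
    (hA : s34_Unif (ι ϖ'') VA) (hB : s34_Unif (ι ϖ'') VB) (hC : s34_Unif z VC)
    (hAB : VA ≠ VB) (hAC : VA ≠ VC) (hBC : VB ≠ VC)
    (hVi : s34_Unif ϖ'' Vi) (hV0 : s34_Unif ϖ'' V0)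
    (hιA : ∀ x ∈ Vi, ι x ∈ VA) (hιC : ∀ x ∈ Vi, ι x ∈ VC) (hιB : ∀ x ∈ V0, ι x ∈ VB)
    (n : ℕ) (hn : 1 ≤ n) (hzn : ι ϖ'' * (z ^ n)⁻¹ ∈ VC) (hzn' : z ^ n * (ι ϖ'')⁻¹ ∈ VC)
    (hresA : ∀ y ∈ VA, ∃ y' ∈ Vi, (ι ϖ'')⁻¹ * (y - ι y') ∈ VA)
    (hresC : ∀ y ∈ VC, ∃ y' ∈ Vi, z⁻¹ * (y - ι y') ∈ VC)
    (hresB : ∀ y ∈ VB, ∃ b ∈ V0, (ι ϖ'')⁻¹ * (y ^ (n + 1) - ι b) ∈ VB)
    (Nm : s18_F1 K₁ L →* F'') (hNϖ : Nm (ι ϖ'') = ϖ'' ^ (n + 1))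
    (hNRram : ∀ h ∈ VA, h ∈ VC → ∀ a ∈ Vi, ∀ c ∈ Vi, (ι ϖ'')⁻¹ * (h - ι a) ∈ VA →
      z⁻¹ * (h - ι c) ∈ VC → ϖ''⁻¹ * (Nm h - a * c ^ n) ∈ Vi)
    (hNRins : ∀ h ∈ VB, ∀ b ∈ V0, (ι ϖ'')⁻¹ * (h ^ (n + 1) - ι b) ∈ VB →
      ϖ''⁻¹ * (Nm h - b) ∈ V0)
    (W : s18_F1 K₁ L ≃+* s18_F1 K₁ L) (hWAB : ∀ x, x ∈ VB ↔ W x ∈ VA)
    (hWC : ∀ x, x ∈ VC ↔ W x ∈ VC) (hWϖ : W (ι ϖ'') = ι ϖ'') (hWW : ∀ x, W (W x) = x)
    -- the charts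
    (hB0A : B0.toSubring ≤ VA) (hB0B : B0.toSubring ≤ VB) (hB0C : B0.toSubring ≤ VC)
    (hBiA : Binf.toSubring ≤ VA) (hBiB : Binf.toSubring ≤ VB) (hBiC : Binf.toSubring ≤ VC)
    (hcap0 : ∀ x ∈ B0, (algebraMap (s18_A1 A K₁) (s18_F1 K₁ L) π)⁻¹ * x ∈ VA ⊓ VB ⊓ VC →
      (algebraMap (s18_A1 A K₁) (s18_F1 K₁ L) π)⁻¹ * x ∈ B0)
    (hcapi : ∀ x ∈ Binf, (algebraMap (s18_A1 A K₁) (s18_F1 K₁ L) π)⁻¹ * x ∈ VA ⊓ VB ⊓ VC →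
      (algebraMap (s18_A1 A K₁) (s18_F1 K₁ L) π)⁻¹ * x ∈ Binf)
    (frac0 : ∀ x : s18_F1 K₁ L, ∃ a ∈ B0.toSubring, ∃ b ∈ B0.toSubring, b ≠ 0 ∧ x = a / b)
    (t_ne : t ≠ 0) (t_mem : t ∈ B0) (tinv_mem : t⁻¹ ∈ Binf)
    (glue0 : ∀ x ∈ B0, ∃ k : ℕ, t⁻¹ ^ k * x ∈ Binf)
    (glueInf : ∀ x ∈ Binf, ∃ k : ℕ, t ^ k * x ∈ B0)
    (h1 : ∃ c₁ : ℕ, ∀ c, c₁ ≤ c → ∀ x ∈ B0, ∀ k : ℕ,
      ∃ a ∈ B0, ∃ b ∈ Binf, t⁻¹ ^ k * x = a + t ^ c * b)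
    (fin : ∀ c : ℕ, ∃ s : Finset (s18_F1 K₁ L), ∀ x ∈ B0, t⁻¹ ^ c * x ∈ Binf →
      x ∈ Submodule.span (s18_A1 A K₁) (s : Set (s18_F1 K₁ L)))
    -- the exponent
    (m : ℕ) (hm0 : 0 < m) (hmu : IsUnit ((m : ℕ) : s18_A1 A K₁))
    (r s : ℤ) (hrs : r * ((n + 1 : ℕ) : ℤ) + s * m = 1)
    (ζ₀ : s18_A1 A K₁) (hζ₀ : IsPrimitiveRoot ζ₀ m)
    -- the function and its two norm relations
    (g₁ : s18_F1 K₁ L) (hg₁ : g₁ ≠ 0)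
    (hdivg : ∀ P : Place Qb (modularFunctionFieldBar L),
      (m : ℤ) ∣ P.ord (s18_baseIncl K₁ L g₁))
    (γ₁ γ₂ : ℤ) (f₁ f₂ : F'') (hf₁ : f₁ ≠ 0) (hf₂ : f₂ ≠ 0)
    (hN₁ : Nm g₁ = ϖ'' ^ γ₁ * f₁ ^ m) (hN₂ : Nm (W g₁) = ϖ'' ^ γ₂ * f₂ ^ m)
    -- the closed points of the special fibres
    (hpts0 : ∀ 𝔪 : Ideal B0.toSubring, 𝔪.IsMaximal →
      (⟨algebraMap (s18_A1 A K₁) (s18_F1 K₁ L) π, B0.algebraMap_mem π⟩ : B0.toSubring) ∈ 𝔪 →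
      (∀ (p : ℕ) (h : s18_F1 K₁ L),
        s36_PointData (algebraMap (s18_A1 A K₁) (s18_F1 K₁ L) π) B0.toSubring
          (VA ⊓ VB ⊓ VC) p h 𝔪) ∨
      ((∀ b : B0.toSubring, b ∉ 𝔪 → ((b : s18_F1 K₁ L))⁻¹ ∈ VA ⊓ VB ⊓ VC) ∧
        (∀ x : s18_F1 K₁ L, x ^ m ∈ s18_loc B0.toSubring 𝔪 → x ∈ s18_loc B0.toSubring 𝔪) ∧
        s36_pm_TriOut ι ϖ'' z VA VB VC Vi V0 Nm W n m r s B0.toSubring 𝔪))
    (hptsi : ∀ 𝔪 : Ideal Binf.toSubring, 𝔪.IsMaximal →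
      (⟨algebraMap (s18_A1 A K₁) (s18_F1 K₁ L) π, Binf.algebraMap_mem π⟩ : Binf.toSubring) ∈ 𝔪 →
      (∀ (p : ℕ) (h : s18_F1 K₁ L),
        s36_PointData (algebraMap (s18_A1 A K₁) (s18_F1 K₁ L) π) Binf.toSubring
          (VA ⊓ VB ⊓ VC) p h 𝔪) ∨
      ((∀ b : Binf.toSubring, b ∉ 𝔪 → ((b : s18_F1 K₁ L))⁻¹ ∈ VA ⊓ VB ⊓ VC) ∧
        (∀ x : s18_F1 K₁ L, x ^ m ∈ s18_loc Binf.toSubring 𝔪 → x ∈ s18_loc Binf.toSubring 𝔪) ∧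
        s36_pm_TriOut ι ϖ'' z VA VB VC Vi V0 Nm W n m r s Binf.toSubring 𝔪)) :
    ∃ x : modularFunctionFieldBar L,
      x ^ m = (s18_baseIncl K₁ L g₁) ^ ((n + 2) * (n * (n + 2))) := by
  classical
  have hϖ0 : ι ϖ'' ≠ 0 := hA.ne_zero
  have hz0 := hC.ne_zero
  have hinj : Function.Injective (algebraMap (s18_A1 A K₁) (s18_F1 K₁ L)) := fun x y h =>
    Subtype.ext ((algebraMap K₁ (s18_F1 K₁ L)).injective h)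
  -- `m` is invertible
  obtain ⟨mi, hmi⟩ := hmu.exists_right_inv
  have hmF : (m : s18_F1 K₁ L) * algebraMap (s18_A1 A K₁) (s18_F1 K₁ L) mi = 1 := by
    have := congrArg (algebraMap (s18_A1 A K₁) (s18_F1 K₁ L)) hmi
    simpa using this
  have hm0F : (m : s18_F1 K₁ L) ≠ 0 := left_ne_zero_of_mul_eq_one hmF
  have hminv : ((m : s18_F1 K₁ L))⁻¹ = algebraMap (s18_A1 A K₁) (s18_F1 K₁ L) mi :=
    (eq_inv_of_mul_eq_one_right hmF).symm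
  have hmB0 : ((m : s18_F1 K₁ L))⁻¹ ∈ B0.toSubring := by
    rw [hminv]; exact B0.algebraMap_mem mi
  have hmBi : ((m : s18_F1 K₁ L))⁻¹ ∈ Binf.toSubring := by
    rw [hminv]; exact Binf.algebraMap_mem mi
  -- roots of unity
  have hζF : IsPrimitiveRoot (algebraMap (s18_A1 A K₁) (s18_F1 K₁ L) ζ₀) m :=
    hζ₀.map_of_injective hinj
  have hμ : ∀ ξ : s18_F1 K₁ L, ξ ^ m = 1 → ξ ∈ B0.toSubring := by
    intro ξ hξ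
    have : NeZero m := ⟨hm0.ne'⟩
    obtain ⟨i, -, rfl⟩ := hζF.eq_pow_of_pow_eq_one hξ
    rw [← map_pow]; exact B0.algebraMap_mem _
  -- the toric chain
  obtain ⟨a, φ, g2, f, f', hφ0, hrel, hg2A, hg2B, hg2C, hNf, hNf'⟩ :=
    s36_pm_chain1 ι hA hB hC hAB hAC hBC hVi hV0 n hzn hzn' Nm hNϖ
      (s36_pm_nvi ι hA hC hAC hVi hιA hιC n hn hzn hzn' hresA hresC Nm hNϖ hNRram)
      (s36_pm_nv0 ι hB hV0 hιB (n + 1) hresB Nm hNϖ hNRins)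
      W hWAB hWC hWϖ hWW m g₁ hg₁ γ₁ γ₂ f₁ f₂ hf₁ hf₂ hN₁ hN₂
  obtain ⟨ψ, ψ', ξ, Ψ, hψU, hψ'U, hfUi, hfU0, hf'Ui, hf'U0, hψ1, hψ'1, hξm, hξx, hΨA, hΨB, hΨC,
      hHA, hHB, hHC⟩ :=
    s36_pm_chain2 ι hA hB hC hAB hAC hBC hVi hV0 hιA hιC hιB n hn hzn hzn' hresA hresC hresB Nm
      hNRram hNRins W hWAB hWC hWϖ hWW m hm0 r s hrs hm0F (hB0A hmB0) (hB0B hmB0) (hB0C hmB0)
      _ hζF (fun ξ h => hB0B (hμ ξ h)) (fun ξ h => hB0C (hμ ξ h)) g2 hg2A hg2B hg2C f f' hNf hNf'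
  have hg20 : g2 ≠ 0 := hg2A.1
  have hΨ0 : Ψ ≠ 0 := by
    have h1 : Ψ / (W (ι f') ^ r * g2 ^ s) ^ (n * (n + 2)) ≠ 0 := hΨA.ne_zero hA
    exact fun h => h1 (by rw [h, zero_div])
  have hH0 : g2 ^ (n * (n + 2)) / Ψ ^ m ≠ 0 :=
    div_ne_zero (pow_ne_zero _ hg20) (pow_ne_zero _ hΨ0)
  -- images in `Q̄ · F(L)`
  have hbI : ∀ x : s18_F1 K₁ L, x ≠ 0 → s18_baseIncl K₁ L x ≠ 0 := fun x hx =>
    (map_ne_zero_iff _ (s18_baseIncl K₁ L).injective).mpr hx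
  have hbϖ : s18_baseIncl K₁ L (ι ϖ'') =
      algebraMap Qb (modularFunctionFieldBar L) (algebraMap K₁ Qb (π : K₁)) := by
    rw [hιϖ]; exact s18_baseIncl_algebraMap K₁ L (π : K₁)
  have hrel' : s18_baseIncl K₁ L g₁ ^ (n + 2) =
      s18_baseIncl K₁ L g2 * s18_baseIncl K₁ L (ι ϖ'') ^ (((n + 2 : ℕ) : ℤ) * a) *
        s18_baseIncl K₁ L φ ^ m := by
    rw [← map_pow, hrel, map_mul, map_mul, map_zpow₀, map_pow]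
  -- divisibility of the orders
  have hdiv2 : ∀ P : Place Qb (modularFunctionFieldBar L),
      (m : ℤ) ∣ P.ord (s18_baseIncl K₁ L g2) := by
    intro P
    have e := congrArg P.ord hrel'
    rw [Fermat.Agent.S24.ord_pow,
      P.ord_mul (mul_ne_zero (hbI _ hg20) (zpow_ne_zero _ (hbI _ hϖ0)))
        (pow_ne_zero _ (hbI _ hφ0)),
      P.ord_mul (hbI _ hg20) (zpow_ne_zero _ (hbI _ hϖ0)), P.ord_zpow,
      Fermat.Agent.S24.ord_pow, hbϖ, Fermat.Agent.S24.ord_algebraMap, mul_zero, add_zero] at e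
    have e2 : P.ord (s18_baseIncl K₁ L g2) =
        ((n + 2 : ℕ) : ℤ) * P.ord (s18_baseIncl K₁ L g₁) -
          (m : ℤ) * P.ord (s18_baseIncl K₁ L φ) := by
      rw [e]; ring
    rw [e2]
    exact dvd_sub (Dvd.dvd.mul_left (hdivg P) _) (dvd_mul_right _ _)
  have hdivH : ∀ P : Place Qb (modularFunctionFieldBar L),
      (m : ℤ) ∣ P.ord (s18_baseIncl K₁ L (g2 ^ (n * (n + 2)) / Ψ ^ m)) := by
    intro P
    rw [map_div₀, map_pow, map_pow, div_eq_mul_inv,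
      P.ord_mul (pow_ne_zero _ (hbI _ hg20)) (inv_ne_zero (pow_ne_zero _ (hbI _ hΨ0))),
      P.ord_inv, Fermat.Agent.S24.ord_pow, Fermat.Agent.S24.ord_pow]
    exact dvd_add (Dvd.dvd.mul_left (hdiv2 P) _) (dvd_neg.mpr (dvd_mul_right _ _))
  -- the horizontal divisor of `g2` in the chart form
  have hdivW : ∀ (B : Subalgebra (s18_A1 A K₁) (s18_F1 K₁ L))
      (W' : ValuationSubring (s18_F1 K₁ L)), IsDiscreteValuationRing W' →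
      B.toSubring ≤ W'.toSubring → (ι ϖ'')⁻¹ ∈ W' →
      ∃ g' u : s18_F1 K₁ L, u ∈ W' ∧ u⁻¹ ∈ W' ∧ g2 = u * g' ^ m := by
    intro B W' hW' hBW hϖW
    exact s18_d3_hdiv K₁ L m g2 hg20 hdiv2 W' hW'
      (s18_K_mem_of_A1 L A K₁ hπ W' (fun x => hBW (B.algebraMap_mem x))
        (by rw [← hιϖ]; exact hϖW))
  -- point data in a chart
  have hpts : ∀ (B : Subalgebra (s18_A1 A K₁) (s18_F1 K₁ L)) (_ : B.toSubring ≤ VA)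
      (_ : B.toSubring ≤ VB) (_ : B.toSubring ≤ VC)
      (_ : ((m : s18_F1 K₁ L))⁻¹ ∈ B.toSubring) (𝔪 : Ideal B.toSubring), 𝔪.IsMaximal →
      ((∀ (p : ℕ) (h : s18_F1 K₁ L),
        s36_PointData (algebraMap (s18_A1 A K₁) (s18_F1 K₁ L) π) B.toSubring
          (VA ⊓ VB ⊓ VC) p h 𝔪) ∨
      ((∀ b : B.toSubring, b ∉ 𝔪 → ((b : s18_F1 K₁ L))⁻¹ ∈ VA ⊓ VB ⊓ VC) ∧
        (∀ x : s18_F1 K₁ L, x ^ m ∈ s18_loc B.toSubring 𝔪 → x ∈ s18_loc B.toSubring 𝔪) ∧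
        s36_pm_TriOut ι ϖ'' z VA VB VC Vi V0 Nm W n m r s B.toSubring 𝔪)) →
      s36_PointData (algebraMap (s18_A1 A K₁) (s18_F1 K₁ L) π) B.toSubring (VA ⊓ VB ⊓ VC) m
        (g2 ^ (n * (n + 2)) / Ψ ^ m) 𝔪 := by
    intro B hBA hBB hBC hmB 𝔪 h𝔪 hd
    rcases hd with hd | ⟨hlocV, hroot, hTri⟩
    · exact hd m _
    · have h𝔪p : 𝔪.IsPrime := h𝔪.isPrime
      have hpd := s36_pm_pointData_tri ι hA hB hC n hn hzn hzn' Nm W m hm0F r s B.toSubring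
        hBA hBB hBC (by rw [hιϖ]; exact B.algebraMap_mem π) hmB 𝔪 hlocV hroot hTri g2 f f' ψ ψ'
        ξ Ψ hg2A hg2B hg2C (hdivW B) hNf hNf' hψU hψ'U hfUi hfU0 hf'Ui hf'U0 hψ1 hψ'1 hξm hξx
        hΨA hΨB hΨC hHA hHB hHC
      rw [hιϖ] at hpd
      exact hpd
  -- the two-chart theorem
  have hVu : ∀ x ∈ VA ⊓ VB ⊓ VC,
      (1 + algebraMap (s18_A1 A K₁) (s18_F1 K₁ L) π * x)⁻¹ ∈ VA ⊓ VB ⊓ VC := by
    rintro x ⟨⟨hxA, hxB⟩, hxC⟩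
    rw [← hιϖ]
    refine ⟨⟨hA.one_add_inv_mem hxA, hB.one_add_inv_mem hxB⟩, ?_⟩
    obtain ⟨k, rfl⟩ : ∃ k, n = k + 1 := ⟨n - 1, by omega⟩
    have e : 1 + ι ϖ'' * x = 1 + z * (ι ϖ'' * (z ^ (k + 1))⁻¹ * z ^ k * x) := by
      rw [pow_succ]; field_simp
    rw [e]
    exact hC.one_add_inv_mem (VC.mul_mem (VC.mul_mem hzn (VC.pow_mem hC.mem k)) hxC)
  obtain ⟨a0, ha0, b0, hb0, hb00, hHab⟩ := frac0 (g2 ^ (n * (n + 2)) / Ψ ^ m)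
  have hbH : b0 * (g2 ^ (n * (n + 2)) / Ψ ^ m) ∈ B0 := by
    rw [hHab, mul_div_cancel₀ _ hb00]; exact ha0
  obtain ⟨x, hx⟩ := s36_pm_core L A K₁ hπ (VA ⊓ VB ⊓ VC)
    (fun x hx => ⟨⟨hB0A hx, hB0B hx⟩, hB0C hx⟩) (fun x hx => ⟨⟨hBiA hx, hBiB hx⟩, hBiC hx⟩)
    hcap0 hcapi hVu t_ne t_mem tinv_mem glue0 glueInf h1 fin m hm0 hmu
    (g2 ^ (n * (n + 2)) / Ψ ^ m) b0 hH0
    (by rw [← hιϖ]; exact ⟨⟨hHA, hHB⟩, hHC⟩) hb00 hb0 hbH hdivH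
    (fun 𝔪 h𝔪 hϖ𝔪 => hpts B0 hB0A hB0B hB0C hmB0 𝔪 h𝔪 (hpts0 𝔪 h𝔪 hϖ𝔪))
    (fun 𝔪 h𝔪 hϖ𝔪 => hpts Binf hBiA hBiB hBiC hmBi 𝔪 h𝔪 (hptsi 𝔪 h𝔪 hϖ𝔪))
  -- conclusion
  obtain ⟨ρ, hρ⟩ := IsAlgClosed.exists_pow_nat_eq
    (((algebraMap K₁ Qb (π : K₁)) ^ (((n + 2 : ℕ) : ℤ) * a)) ^ (n * (n + 2))) hm0
  refine ⟨x * s18_baseIncl K₁ L Ψ * algebraMap Qb (modularFunctionFieldBar L) ρ *
    s18_baseIncl K₁ L φ ^ (n * (n + 2)), ?_⟩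
  have hx' : x ^ m * s18_baseIncl K₁ L Ψ ^ m = s18_baseIncl K₁ L g2 ^ (n * (n + 2)) := by
    rw [hx, map_div₀, map_pow, map_pow, div_mul_cancel₀ _ (pow_ne_zero _ (hbI _ hΨ0))]
  have hρ' : algebraMap Qb (modularFunctionFieldBar L) ρ ^ m =
      (s18_baseIncl K₁ L (ι ϖ'') ^ (((n + 2 : ℕ) : ℤ) * a)) ^ (n * (n + 2)) := by
    rw [hbϖ, ← map_pow, hρ, map_pow, map_zpow₀]
  have e1 : s18_baseIncl K₁ L g₁ ^ ((n + 2) * (n * (n + 2))) =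
      (s18_baseIncl K₁ L g₁ ^ (n + 2)) ^ (n * (n + 2)) := pow_mul _ _ _
  rw [e1, hrel', mul_pow, mul_pow, mul_pow, mul_pow, mul_pow, hx', hρ',
    pow_right_comm (s18_baseIncl K₁ L φ) (n * (n + 2)) m]

end Fermat.Agent.S36
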