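import Mathlib

/-!
# S36 (NODE-3), abstract leaf (PRIN): a branch prime is principal, hence the point is regular

Coordinate-free replacement of the divided-difference step (T) at crossing / triple points.

`B ⊆ F` a chart, `V₁` the valuation ring of ONE vertical component through the point `𝔪`
(uniformized by `ϖ`), `V₂` any subring containing `B` (the intersection of the valuation rings of
the OTHER vertical components), `hcap : B ∩ ϖ (V₁ ∩ V₂) = ϖ B` (normality of the chart).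

If `u v = ϖ γ` with `u, v, γ ∈ B`, `γ ∉ 𝔪` (a unit at the point) and `v` vanishes on the other
components to full multiplicity (`ϖ⁻¹ v ∈ V₂`), then every element of `B` vanishing on the
component `V₁` is a multiple of `u` locally at `𝔪` (`s36_pb_prin`): the branch prime is principal,
generated by `u`.  If moreover the branch `B_𝔪 / P₁` is generated at the point by one element `x`
(`hext`, the (EXT)/(RES) datum of the component), then `𝔪` is generated locally by `u` and `x`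
(`s36_pb_gen`) — the hypothesis `hgen` of `s36_tf_hG` (`TripleFact.lean`).

Use at a level-`q` crossing point: `V₁ = V∞`, `V₂ = V0`, `u = s(qz) - s(z)^q`,
`v = s(z) - s(qz)^q`, `γ = -Γ_s`.  Use at a level-`q²` triple point: `V₁ = V_A`,
`V₂ = V_B ⊓ V_C`, `u = s(qz)^q - s(q²z)`, `v = s(qz) - s(q²z)^q`, `γ = ± β(Γ_s)`; no Hauptmodul,
no modular polynomial, no restriction on `q`.

* `s36_pb_prin` : the branch prime is principal at the point;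
* `s36_pb_gen` : `𝔪` is generated locally by `u` and `x`;
* `s36_pb_ext` : the hypothesis `hext` from the decomposition `B = ι B₁ + (B ∩ ϖ V₁)` (RES) and a
  local generator `x₁` of the level-`N'` chart `B₁` at the image point;
* `s36_pb_main` : the combination.
-/

set_option autoImplicit false

namespace Fermat.Agent.S36

variable {F : Type*} [Field F]

/-- **(PRIN)** The branch prime of the component `V₁` is generated by `u` locally at `𝔪`: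
if `p ∈ B` vanishes on `V₁` then `γ p ∈ u B`. -/
theorem s36_pb_prin (B V₁ V₂ : Subring F) (hB₁ : B ≤ V₁) (hB₂ : B ≤ V₂) (ϖ : F) (hϖ0 : ϖ ≠ 0)
    (hcap : ∀ x ∈ B, ϖ⁻¹ * x ∈ V₁ → ϖ⁻¹ * x ∈ V₂ → ϖ⁻¹ * x ∈ B)
    (u v γ : B) (huv : (u : F) * (v : F) = ϖ * (γ : F)) (hv₂ : ϖ⁻¹ * (v : F) ∈ V₂) (hv0 : v ≠ 0)
    (p : B) (hp : ϖ⁻¹ * (p : F) ∈ V₁) :
    ∃ b : B, γ * p = b * u := by
  have h1 : ϖ⁻¹ * ((p : F) * (v : F)) ∈ V₁ := by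
    have : ϖ⁻¹ * ((p : F) * (v : F)) = (ϖ⁻¹ * (p : F)) * (v : F) := by ring
    rw [this]
    exact V₁.mul_mem hp (hB₁ v.2)
  have h2 : ϖ⁻¹ * ((p : F) * (v : F)) ∈ V₂ := by
    have : ϖ⁻¹ * ((p : F) * (v : F)) = (p : F) * (ϖ⁻¹ * (v : F)) := by ring
    rw [this]
    exact V₂.mul_mem (hB₂ p.2) hv₂
  have h3 := hcap ((p : F) * (v : F)) (B.mul_mem p.2 v.2) h1 h2
  refine ⟨⟨_, h3⟩, ?_⟩
  apply Subtype.ext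
  have hv0' : (v : F) ≠ 0 := fun h => hv0 (Subtype.ext h)
  show (γ : F) * (p : F) = ϖ⁻¹ * ((p : F) * (v : F)) * (u : F)
  have e : ϖ⁻¹ * ((p : F) * (v : F)) * (u : F) = ϖ⁻¹ * (p : F) * ((u : F) * (v : F)) := by ring
  rw [e, huv]
  field_simp

/-- **(PRIN) ⟹ two local generators.**  If moreover every element of `𝔪` is, up to a unit at
`𝔪`, congruent to a multiple of `x` modulo the branch prime of `V₁`, then `𝔪` is generated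
locally by `u` and `x`. -/
theorem s36_pb_gen (B V₁ V₂ : Subring F) (hB₁ : B ≤ V₁) (hB₂ : B ≤ V₂) (ϖ : F) (hϖ0 : ϖ ≠ 0)
    (hcap : ∀ x ∈ B, ϖ⁻¹ * x ∈ V₁ → ϖ⁻¹ * x ∈ V₂ → ϖ⁻¹ * x ∈ B)
    (𝔪 : Ideal B) [𝔪.IsPrime]
    (u v γ x : B) (huv : (u : F) * (v : F) = ϖ * (γ : F)) (hγ : γ ∉ 𝔪)
    (hv₂ : ϖ⁻¹ * (v : F) ∈ V₂) (hv0 : v ≠ 0)
    (hext : ∀ y ∈ 𝔪, ∃ d r : B, d ∉ 𝔪 ∧
      ϖ⁻¹ * ((d : F) * (y : F) - (r : F) * (x : F)) ∈ V₁) :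
    ∀ y ∈ 𝔪, ∃ w, w ∉ 𝔪 ∧ w * y ∈ Ideal.span {u, x} := by
  intro y hy
  obtain ⟨d, r, hd, hp⟩ := hext y hy
  obtain ⟨b, hb⟩ := s36_pb_prin B V₁ V₂ hB₁ hB₂ ϖ hϖ0 hcap u v γ huv hv₂ hv0 (d * y - r * x)
    (by simpa using hp)
  refine ⟨γ * d, fun h => ?_, ?_⟩
  · rcases Ideal.IsPrime.mem_or_mem inferInstance h with h | h
    · exact hγ h
    · exact hd h
  · rw [Ideal.mem_span_pair]
    refine ⟨b, γ * r, ?_⟩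
    rw [← hb]
    ring

/-- The hypothesis `hext` of `s36_pb_gen` from (RES) `B = ι B₁ + (B ∩ ϖ V₁)` and a local generator
`x₁` of the lower chart `B₁` at the image point: `B₁ ∩ ι⁻¹ 𝔪` is generated, locally, by `ϖ''` and
`x₁`. -/
theorem s36_pb_ext {F'' : Type*} [Field F''] (ι : F'' →+* F) (B₁ : Subring F'')
    (B V₁ : Subring F) (ϖ'' : F'') (hB₁B : ∀ x ∈ B₁, ι x ∈ B) (hBV₁ : B ≤ V₁)
    (hres : ∀ y ∈ B, ∃ y' ∈ B₁, (ι ϖ'')⁻¹ * (y - ι y') ∈ V₁)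
    (𝔪 : Ideal B)
    (hP₁ : ∀ p : B, (ι ϖ'')⁻¹ * (p : F) ∈ V₁ → p ∈ 𝔪)
    (x₁ : F'')
    (hreg : ∀ y₁ (hy₁ : y₁ ∈ B₁), (⟨ι y₁, hB₁B y₁ hy₁⟩ : B) ∈ 𝔪 →
      ∃ d₁ a₁ r₁ : F'', ∃ hd₁ : d₁ ∈ B₁, a₁ ∈ B₁ ∧ r₁ ∈ B₁ ∧
        (⟨ι d₁, hB₁B d₁ hd₁⟩ : B) ∉ 𝔪 ∧ d₁ * y₁ = a₁ * ϖ'' + r₁ * x₁) :
    ∀ y ∈ 𝔪, ∃ d r : B, d ∉ 𝔪 ∧
      (ι ϖ'')⁻¹ * ((d : F) * (y : F) - (r : F) * ι x₁) ∈ V₁ := by
  intro y hy
  obtain ⟨y', hy', hyy'⟩ := hres (y : F) y.2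
  -- `ι y' ∈ 𝔪`
  have hp𝔪 : (y - ⟨ι y', hB₁B y' hy'⟩ : B) ∈ 𝔪 := hP₁ _ hyy'
  have hy'𝔪 : (⟨ι y', hB₁B y' hy'⟩ : B) ∈ 𝔪 := by
    have := 𝔪.sub_mem hy hp𝔪
    simpa using this
  obtain ⟨d₁, a₁, r₁, hd₁, ha₁, hr₁, hd𝔪, hrel⟩ := hreg y' hy' hy'𝔪
  refine ⟨⟨ι d₁, hB₁B d₁ hd₁⟩, ⟨ι r₁, hB₁B r₁ hr₁⟩, hd𝔪, ?_⟩
  show (ι ϖ'')⁻¹ * (ι d₁ * (y : F) - ι r₁ * ι x₁) ∈ V₁
  have hrel' : ι d₁ * ι y' = ι a₁ * ι ϖ'' + ι r₁ * ι x₁ := by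
    rw [← map_mul, hrel, map_add, map_mul, map_mul]
  by_cases h0 : ι ϖ'' = 0
  · rw [h0, inv_zero, zero_mul]
    exact V₁.zero_mem
  · have e : (ι ϖ'')⁻¹ * (ι d₁ * (y : F) - ι r₁ * ι x₁) =
        ι d₁ * ((ι ϖ'')⁻¹ * ((y : F) - ι y')) + ι a₁ := by
      have h1 : ι r₁ * ι x₁ = ι d₁ * ι y' - ι a₁ * ι ϖ'' := by rw [hrel']; ring
      rw [h1]
      field_simp
      ring
    rw [e]
    exact V₁.add_mem (V₁.mul_mem (hBV₁ (hB₁B d₁ hd₁)) hyy') (hBV₁ (hB₁B a₁ ha₁))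

/-- **(PRIN), combined form**: at a point `𝔪` of the chart `B` lying on the component `V₁`, with
(RES) for `V₁` over the lower chart `B₁`, a local generator `x₁` of `B₁` at the image point, and
`u v = ϖ γ` (`γ` a unit at `𝔪`, `v` vanishing on the other components): `𝔪` is generated locally
by `u` and `ι x₁`. -/
theorem s36_pb_main {F'' : Type*} [Field F''] (ι : F'' →+* F) (B₁ : Subring F'')
    (B V₁ V₂ : Subring F) (ϖ'' : F'') (hϖ0 : ι ϖ'' ≠ 0)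
    (hB₁B : ∀ x ∈ B₁, ι x ∈ B) (hB₁ : B ≤ V₁) (hB₂ : B ≤ V₂)
    (hcap : ∀ x ∈ B, (ι ϖ'')⁻¹ * x ∈ V₁ → (ι ϖ'')⁻¹ * x ∈ V₂ → (ι ϖ'')⁻¹ * x ∈ B)
    (hres : ∀ y ∈ B, ∃ y' ∈ B₁, (ι ϖ'')⁻¹ * (y - ι y') ∈ V₁)
    (𝔪 : Ideal B) [𝔪.IsPrime]
    (hP₁ : ∀ p : B, (ι ϖ'')⁻¹ * (p : F) ∈ V₁ → p ∈ 𝔪)
    (x₁ : F'') (hx₁ : x₁ ∈ B₁)
    (hreg : ∀ y₁ (hy₁ : y₁ ∈ B₁), (⟨ι y₁, hB₁B y₁ hy₁⟩ : B) ∈ 𝔪 →
      ∃ d₁ a₁ r₁ : F'', ∃ hd₁ : d₁ ∈ B₁, a₁ ∈ B₁ ∧ r₁ ∈ B₁ ∧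
        (⟨ι d₁, hB₁B d₁ hd₁⟩ : B) ∉ 𝔪 ∧ d₁ * y₁ = a₁ * ϖ'' + r₁ * x₁)
    (u v γ : B) (huv : (u : F) * (v : F) = ι ϖ'' * (γ : F)) (hγ : γ ∉ 𝔪)
    (hv₂ : (ι ϖ'')⁻¹ * (v : F) ∈ V₂) (hv0 : v ≠ 0) :
    ∀ y ∈ 𝔪, ∃ w, w ∉ 𝔪 ∧ w * y ∈ Ideal.span {u, (⟨ι x₁, hB₁B x₁ hx₁⟩ : B)} :=
  s36_pb_gen B V₁ V₂ hB₁ hB₂ (ι ϖ'') hϖ0 hcap 𝔪 u v γ ⟨ι x₁, hB₁B x₁ hx₁⟩ huv hγ hv₂ hv0
    (s36_pb_ext ι B₁ B V₁ ϖ'' hB₁B hB₁ hres 𝔪 hP₁ x₁ hreg)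

end Fermat.Agent.S36
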