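import Mathlib
import Fermat.Agent.S18.ChartDefs
import Fermat.Agent.S34.ChartQuot
import Fermat.Agent.S34.ResChart
import Fermat.Agent.S34.ResTwo
import Fermat.Agent.S34.SmoothPoint
import Fermat.Agent.S36.GlueMult

/-!
# S36 (NODE-3), abstract leaf (REG-C): the regular chart at a point of a multiplicity-`e` component

This supplies the first disjunct of `s36_PointData` at a closed point `𝔪` of a chart `B` lying on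
one component only, of multiplicity `e`, of the special fibre (the component `C` of the level-`q²`
model, `e = q - 1`).  It is the analogue, with a local equation `z` of the component in place of
the uniformiser `ϖ` of the base, of the landed NODE-1 leaves `s34_away_chart`,
`s34_pointData_smooth` (SmoothPoint), `s34_sm_reg` (AwayReg), `s34_res_two` (ResTwo).

Setting: `B` a noetherian subring of the field `F` with fraction field `F`; `V₁` a discrete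
valuation ring of `F` with uniformiser `z` (`s34_Unif z V₁`, the component through the point); `V'`
any subring (the intersection of the valuation rings of the other components); `B ≤ V₁`, `B ≤ V'`;
`hcap : B ∩ ϖ (V₁ ⊓ V') = ϖ B` (normality); `ϖ = ε * z ^ e` with `ε⁻¹ ∈ V₁`.

* `s36_rm_cap` : `B[1/f] ∩ z V₁ = z B[1/f]` when `f` vanishes on the other components and
  `z, ε ∈ B[1/f]`.
* `s36_rm_chart` : `B[1/f]` is an `s18_Chart z` as soon as it is regular at its closed points on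
  the component (`hreg`).
* `s36_rm_pointData` : the first disjunct of `s36_PointData ϖ B (V₁ ⊓ V') p h 𝔪` from `hreg`.
* `s36_rm_reg` : `hreg` from (RES): the branch along `V₁` is the special fibre of an S18 chart `B₁`
  (of another field `F''`, embedded by `ι`): `B = ι B₁ + (B ∩ z V₁)`.
* `s36_rm_res` : (RES) from integrality of `B` over `ι B₁` and equality of residue fields.
* `s36_rm_pole` : the hypothesis `hpole` for `V' = V_A ⊓ V_B`.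
* `s36_rm_pointData_loc` : the point-local form: `z, ε ∈ B_𝔪` suffice (the open `B[1/f]` is found
  by shrinking), with (RES) as the regularity input.
-/

set_option autoImplicit false
set_option linter.style.haveILetI false

namespace Fermat.Agent.S36

open IsLocalRing Fermat.Agent.S18 Fermat.Agent.S34 Polynomial

section Away

variable {F : Type*} [Field F] {ϖ z ε : F} {B V₁ V' : Subring F}

/-- `ε⁻¹ = ϖ⁻¹ z^e` lies in `B[1/f]` as soon as it lies in `V₁`. -/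
theorem s36_rm_eps_inv (hB₁ : B ≤ V₁) (hB' : B ≤ V')
    (hcap : ∀ x ∈ B, ϖ⁻¹ * x ∈ V₁ → ϖ⁻¹ * x ∈ V' → ϖ⁻¹ * x ∈ B)
    (f : F) (hf : f ∈ B) (hf' : ϖ⁻¹ * f ∈ V')
    (hz : z ∈ s34_away B f hf) (hϖ0 : ϖ ≠ 0) (e : ℕ) (hε₁ : ε⁻¹ ∈ V₁) (hϖ : ϖ = ε * z ^ e) :
    ε⁻¹ ∈ s34_away B f hf := by
  have hze : z ^ e ≠ 0 := by
    intro h0
    exact hϖ0 (by rw [hϖ, h0, mul_zero])
  have e1 : ε⁻¹ = ϖ⁻¹ * z ^ e := by
    rw [hϖ, mul_inv, mul_assoc, inv_mul_cancel₀ hze, mul_one]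
  rw [e1]
  apply s34_away_cap hB₁ hB' hcap f hf hf' ((s34_away B f hf).pow_mem hz e)
  rw [← e1]
  exact hε₁

/-- Divisibility by the local equation `z` in `B[1/f]` is detected by `V₁`, when `f` vanishes on
the other components and `ϖ = ε * z ^ e` with `ε` a unit of `B[1/f]`. -/
theorem s36_rm_cap (hB₁ : B ≤ V₁) (hB' : B ≤ V')
    (hcap : ∀ x ∈ B, ϖ⁻¹ * x ∈ V₁ → ϖ⁻¹ * x ∈ V' → ϖ⁻¹ * x ∈ B)
    (f : F) (hf : f ∈ B) (hf' : ϖ⁻¹ * f ∈ V')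
    (hz : z ∈ s34_away B f hf) (hϖ0 : ϖ ≠ 0) (e : ℕ) (he : 0 < e)
    (hε : ε ∈ s34_away B f hf) (hε₁ : ε⁻¹ ∈ V₁) (hϖ : ϖ = ε * z ^ e)
    {x : F} (hx : x ∈ s34_away B f hf) (hx₁ : z⁻¹ * x ∈ V₁) : z⁻¹ * x ∈ s34_away B f hf := by
  obtain ⟨e', rfl⟩ : ∃ e', e = e' + 1 := ⟨e - 1, by omega⟩
  have hε0 : ε ≠ 0 := by
    rintro rfl
    exact hϖ0 (by rw [hϖ, zero_mul])
  have hz0 : z ≠ 0 := by
    rintro rfl
    exact hϖ0 (by rw [hϖ, zero_pow (Nat.succ_ne_zero e'), mul_zero])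
  have e1 : ϖ⁻¹ * (z ^ e' * x) = ε⁻¹ * (z⁻¹ * x) := by
    rw [hϖ, pow_succ]; field_simp
  have h1 : ϖ⁻¹ * (z ^ e' * x) ∈ s34_away B f hf := by
    apply s34_away_cap hB₁ hB' hcap f hf hf'
      ((s34_away B f hf).mul_mem ((s34_away B f hf).pow_mem hz e') hx)
    rw [e1]
    exact V₁.mul_mem hε₁ hx₁
  have e2 : z⁻¹ * x = ε * (ϖ⁻¹ * (z ^ e' * x)) := by
    rw [e1, ← mul_assoc, mul_inv_cancel₀ hε0, one_mul]
  rw [e2]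
  exact (s34_away B f hf).mul_mem hε h1

/-- `B[1/f]` is an `s18_Chart` for the local equation `z` of the component `V₁` as soon as it is
regular at its closed points on that component. -/
theorem s36_rm_chart (hV₁ : s34_Unif z V₁) (hB₁ : B ≤ V₁) (hB' : B ≤ V')
    (hcap : ∀ x ∈ B, ϖ⁻¹ * x ∈ V₁ → ϖ⁻¹ * x ∈ V' → ϖ⁻¹ * x ∈ B)
    (hnoeth : IsNoetherianRing B) (hfrac : ∀ x : F, ∃ a ∈ B, ∃ b ∈ B, b ≠ 0 ∧ x = a / b)
    (f : F) (hf : f ∈ B) (hf0 : f ≠ 0) (hf₁ : f⁻¹ ∈ V₁) (hf' : ϖ⁻¹ * f ∈ V')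
    (hz : z ∈ s34_away B f hf) (hϖ0 : ϖ ≠ 0) (e : ℕ) (he : 0 < e)
    (hε : ε ∈ s34_away B f hf) (hε₁ : ε⁻¹ ∈ V₁) (hϖ : ϖ = ε * z ^ e)
    (hreg : ∀ 𝔫 : Ideal (s34_away B f hf), 𝔫.IsMaximal → (⟨z, hz⟩ : s34_away B f hf) ∈ 𝔫 →
      ∃ s ∈ 𝔫, ∀ x ∈ 𝔫, ∃ u, u ∉ 𝔫 ∧ u * x ∈ Ideal.span {(⟨z, hz⟩ : s34_away B f hf), s}) :
    s18_Chart z (s34_away B f hf) where
  ϖ_mem := hz
  ϖ_ne := hV₁.ne_zero
  noeth := s34_away_noeth B f hf hf0 hnoeth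
  frac := fun x => by
    obtain ⟨a, ha, b, hb, hb0, rfl⟩ := hfrac x
    exact ⟨a, s34_le_away B f hf ha, b, s34_le_away B f hf hb, hb0, rfl⟩
  prime := fun x hx y hy hxy => by
    have hle := s34_away_le hB₁ f hf hf0 hf₁
    rcases hV₁.prime (hle hx) (hle hy) (hle hxy) with h | h
    · left; exact s36_rm_cap hB₁ hB' hcap f hf hf' hz hϖ0 e he hε hε₁ hϖ hx h
    · right; exact s36_rm_cap hB₁ hB' hcap f hf hf' hz hϖ0 e he hε hε₁ hϖ hy h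
  nonunit := fun h => hV₁.inv_not_mem (s34_away_le hB₁ f hf hf0 hf₁ h)
  reg := hreg

/-- **The multiplicity-`e` smooth case of `s36_PointData`** (point on the component `V₁` only):
`f ∈ B \ 𝔪` is a unit of `V₁` vanishing on the other components (`ϖ⁻¹ f ∈ V'`, and `hpole`: powers
of `f` kill the poles along them), `z ∈ B[1/f]` is a uniformiser of `V₁` with `ϖ = ε * z ^ e`,
`ε ∈ B[1/f]`, `ε⁻¹ ∈ V₁`, and `B[1/f]` is regular at its closed points on the component. -/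
theorem s36_rm_pointData (hV₁ : s34_Unif z V₁) (hB₁ : B ≤ V₁) (hB' : B ≤ V')
    (hcap : ∀ x ∈ B, ϖ⁻¹ * x ∈ V₁ → ϖ⁻¹ * x ∈ V' → ϖ⁻¹ * x ∈ B)
    (hnoeth : IsNoetherianRing B) (hfrac : ∀ x : F, ∃ a ∈ B, ∃ b ∈ B, b ≠ 0 ∧ x = a / b)
    (𝔪 : Ideal B) (f : B) (hf𝔪 : f ∉ 𝔪) (hf₁ : ((f : F))⁻¹ ∈ V₁) (hf' : ϖ⁻¹ * (f : F) ∈ V')
    (hpole : ∀ y : F, ∃ k : ℕ, (f : F) ^ k * y ∈ V')
    (hz : z ∈ s34_away B (f : F) f.2) (hϖ0 : ϖ ≠ 0) (e : ℕ) (he : 0 < e)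
    (hε : ε ∈ s34_away B (f : F) f.2) (hε₁ : ε⁻¹ ∈ V₁) (hϖ : ϖ = ε * z ^ e)
    (hreg : ∀ 𝔫 : Ideal (s34_away B (f : F) f.2), 𝔫.IsMaximal →
      (⟨z, hz⟩ : s34_away B (f : F) f.2) ∈ 𝔫 →
      ∃ s ∈ 𝔫, ∀ x ∈ 𝔫, ∃ u, u ∉ 𝔫 ∧
        u * x ∈ Ideal.span {(⟨z, hz⟩ : s34_away B (f : F) f.2), s})
    (p : ℕ) (h : F) : s36_PointData ϖ B (V₁ ⊓ V') p h 𝔪 := by
  have hz0 := hV₁.ne_zero
  have hf0 : (f : F) ≠ 0 := fun h0 => hf𝔪 (by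
    have : f = 0 := Subtype.ext h0
    rw [this]; exact 𝔪.zero_mem)
  have hchart := s36_rm_chart hV₁ hB₁ hB' hcap hnoeth hfrac (f : F) f.2 hf0 hf₁ hf' hz hϖ0 e he
    hε hε₁ hϖ hreg
  have hle := s34_away_le hB₁ (f : F) f.2 hf0 hf₁
  have hcapz : ∀ x ∈ s34_away B (f : F) f.2, z⁻¹ * x ∈ V₁ → z⁻¹ * x ∈ s34_away B (f : F) f.2 :=
    fun x hx hx₁ => s36_rm_cap hB₁ hB' hcap (f : F) f.2 hf' hz hϖ0 e he hε hε₁ hϖ hx hx₁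
  have hε' := s36_rm_eps_inv hB₁ hB' hcap (f : F) f.2 hf' hz hϖ0 e hε₁ hϖ
  refine s36_pointData_mult (s34_away B (f : F) f.2) f z ε e hf𝔪 (s34_le_away B (f : F) f.2)
    (fun x hx => hx) he hchart hε hε' hϖ ?_ ?_
  · -- `V₁ ⊓ V' ⊆ s18_gauss z B[1/f]`
    rintro x ⟨hx₁, -⟩
    by_cases hx0 : x = 0
    · exact ⟨0, (s34_away B (f : F) f.2).zero_mem, 1, (s34_away B (f : F) f.2).one_mem,
        by rw [mul_one]; exact hchart.nonunit, by rw [hx0, zero_div]⟩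
    obtain ⟨a, ha, b, hb, hb0, rfl⟩ := hfrac x
    obtain ⟨k, hk, hk'⟩ := hV₁.exists_pow (hB₁ hb) hb0
    have hb' : z⁻¹ ^ k * b ∈ s34_away B (f : F) f.2 :=
      s34_cap_pow hz0 (s34_away B (f : F) f.2) V₁ hV₁.mem hcapz
        (s34_le_away B (f : F) f.2 hb) k hk
    have ha' : z⁻¹ ^ k * a ∈ s34_away B (f : F) f.2 := by
      apply s34_cap_pow hz0 (s34_away B (f : F) f.2) V₁ hV₁.mem hcapz
        (s34_le_away B (f : F) f.2 ha) k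
      have e1 : z⁻¹ ^ k * a = (z⁻¹ ^ k * b) * (a / b) := by field_simp
      rw [e1]
      exact V₁.mul_mem hk hx₁
    refine ⟨_, ha', _, hb', ?_, ?_⟩
    · intro hcon
      have h1 := hle hcon
      have hne : z⁻¹ ^ k * b ≠ 0 := mul_ne_zero (pow_ne_zero _ (inv_ne_zero hz0)) hb0
      exact hV₁.not_dvd_of_inv_mem hne hk' h1
    · have hne : z⁻¹ ^ k ≠ 0 := pow_ne_zero _ (inv_ne_zero hz0)
      rw [mul_div_mul_left _ _ hne]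
  · -- poles along the other components are killed by powers of `f`
    rintro y ⟨a, ha, b, hb, hbz, rfl⟩
    have hb₁ : b⁻¹ ∈ V₁ := by
      apply hV₁.inv_mem_of_not_dvd (hle hb)
      intro hcon
      exact hbz (hcapz b hb hcon)
    have hy₁ : a / b ∈ V₁ := by
      rw [div_eq_mul_inv]; exact V₁.mul_mem (hle ha) hb₁
    obtain ⟨k, hk⟩ := hpole (a / b)
    exact ⟨k, V₁.mul_mem (V₁.pow_mem (hB₁ f.2) k) hy₁, hk⟩

/-- The hypothesis `hpole` for the intersection of two discrete valuation rings with uniformiser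
`ϖ` on which `f` vanishes. -/
theorem s36_rm_pole {VA VB : Subring F} (hVA : s34_Unif ϖ VA) (hVB : s34_Unif ϖ VB)
    (f : F) (hf : ϖ⁻¹ * f ∈ VA ⊓ VB) (y : F) : ∃ k : ℕ, f ^ k * y ∈ VA ⊓ VB := by
  obtain ⟨k₁, hk₁⟩ := hVA.exists_pow_mul_mem y
  obtain ⟨k₂, hk₂⟩ := hVB.exists_pow_mul_mem y
  have hϖ0 := hVA.ne_zero
  have hfA : f ∈ VA := by
    have e1 : f = ϖ * (ϖ⁻¹ * f) := by rw [← mul_assoc, mul_inv_cancel₀ hϖ0, one_mul]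
    rw [e1]; exact VA.mul_mem hVA.mem hf.1
  have hfB : f ∈ VB := by
    have e1 : f = ϖ * (ϖ⁻¹ * f) := by rw [← mul_assoc, mul_inv_cancel₀ hϖ0, one_mul]
    rw [e1]; exact VB.mul_mem hVB.mem hf.2
  refine ⟨k₁ + k₂, ?_, ?_⟩
  · have e1 : f ^ (k₁ + k₂) * y = f ^ k₂ * ((ϖ⁻¹ * f) ^ k₁ * (ϖ ^ k₁ * y)) := by
      rw [pow_add, mul_pow, inv_pow]; field_simp
    rw [e1]
    exact VA.mul_mem (VA.pow_mem hfA k₂) (VA.mul_mem (VA.pow_mem hf.1 k₁) hk₁)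
  · have e1 : f ^ (k₁ + k₂) * y = f ^ k₁ * ((ϖ⁻¹ * f) ^ k₂ * (ϖ ^ k₂ * y)) := by
      rw [pow_add, mul_pow, inv_pow]; field_simp
    rw [e1]
    exact VB.mul_mem (VB.pow_mem hfB k₁) (VB.mul_mem (VB.pow_mem hf.2 k₂) hk₂)

end Away

section Reg

variable {F'' F : Type*} [Field F''] [Field F] {ϖ z ε : F}

/-- **(REG-C).**  Regularity of `B[1/f]` at its closed points on the component `V₁` (with local
equation `z`, `ϖ = ε * z ^ e`) when `f` vanishes on the other components and the branch along `V₁`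
is the special fibre of the S18 chart `B₁`:  `B = ι B₁ + (B ∩ z V₁)` (`hres`). -/
theorem s36_rm_reg (ι : F'' →+* F) {ϖ'' : F''} (B₁ : Subring F'') (hB₁c : s18_Chart ϖ'' B₁)
    {B V₁ V' : Subring F} (hB₁ : B ≤ V₁) (hB' : B ≤ V')
    (hcap : ∀ x ∈ B, ϖ⁻¹ * x ∈ V₁ → ϖ⁻¹ * x ∈ V' → ϖ⁻¹ * x ∈ B)
    (hB₁B : ∀ x ∈ B₁, ι x ∈ B) (hϖ'' : z⁻¹ * ι ϖ'' ∈ V₁)
    (hres : ∀ x ∈ B, ∃ x' ∈ B₁, z⁻¹ * (x - ι x') ∈ V₁)
    (f : F) (hf : f ∈ B) (hf' : ϖ⁻¹ * f ∈ V')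
    (hz : z ∈ s34_away B f hf) (hϖ0 : ϖ ≠ 0) (e : ℕ) (he : 0 < e)
    (hε : ε ∈ s34_away B f hf) (hε₁ : ε⁻¹ ∈ V₁) (hϖ : ϖ = ε * z ^ e)
    (𝔫 : Ideal (s34_away B f hf)) (h𝔫 : 𝔫.IsMaximal)
    (hz𝔫 : (⟨z, hz⟩ : s34_away B f hf) ∈ 𝔫) :
    ∃ s ∈ 𝔫, ∀ x ∈ 𝔫, ∃ u, u ∉ 𝔫 ∧
      u * x ∈ Ideal.span {(⟨z, hz⟩ : s34_away B f hf), s} := by
  classical
  have hz0 : z ≠ 0 := by
    rintro rfl
    exact hϖ0 (by rw [hϖ, zero_pow (by omega), mul_zero])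
  have hBB' := s34_le_away B f hf
  have h𝔫p : 𝔫.IsPrime := h𝔫.isPrime
  -- `f ≠ 0`
  have hfne : f ≠ 0 := by
    rintro rfl
    apply h𝔫p.ne_top
    rw [Ideal.eq_top_iff_one]
    have hinv : z⁻¹ ∈ s34_away B (0 : F) hf :=
      ⟨1, by rw [pow_one, zero_mul]; exact B.zero_mem⟩
    have e1 : (1 : s34_away B (0 : F) hf) = ⟨z⁻¹, hinv⟩ * ⟨z, hz⟩ := by
      apply Subtype.ext
      show (1 : F) = z⁻¹ * z
      rw [inv_mul_cancel₀ hz0]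
    rw [e1]
    exact 𝔫.mul_mem_left _ hz𝔫
  have hfinv : f⁻¹ ∈ s34_away B f hf := s34_inv_mem_away B f hf
  have hdvd : ∀ y ∈ s34_away B f hf, z⁻¹ * y ∈ V₁ → z⁻¹ * y ∈ s34_away B f hf :=
    fun y hy hy₁ => s36_rm_cap hB₁ hB' hcap f hf hf' hz hϖ0 e he hε hε₁ hϖ hy hy₁
  -- `ι ϖ''` is divisible by `z` in `B[1/f]`
  have hϖz : z⁻¹ * ι ϖ'' ∈ s34_away B f hf := hdvd _ (hBB' (hB₁B _ hB₁c.ϖ_mem)) hϖ''
  let incl : B₁ →+* s34_away B f hf :=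
    RingHom.codRestrict (ι.comp B₁.subtype) (s34_away B f hf) (fun x => hBB' (hB₁B _ x.2))
  have h𝔮 : (𝔫.comap incl).IsPrime := Ideal.comap_isPrime incl 𝔫
  have hϖ𝔮 : (⟨ϖ'', hB₁c.ϖ_mem⟩ : B₁) ∈ 𝔫.comap incl := by
    show incl ⟨ϖ'', hB₁c.ϖ_mem⟩ ∈ 𝔫
    have e1 : incl ⟨ϖ'', hB₁c.ϖ_mem⟩ = ⟨_, hϖz⟩ * ⟨z, hz⟩ := by
      apply Subtype.ext
      show ι ϖ'' = z⁻¹ * ι ϖ'' * z
      rw [mul_comm, ← mul_assoc, mul_inv_cancel₀ hz0, one_mul]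
    rw [e1]
    exact 𝔫.mul_mem_left _ hz𝔫
  obtain ⟨s, hs, hreg⟩ := s34_cq_prime_reg hB₁c (𝔫.comap incl) h𝔮 hϖ𝔮
  refine ⟨incl s, hs, fun x hx => ?_⟩
  obtain ⟨k, hk⟩ := x.2
  obtain ⟨x', hx', hxx'⟩ := hres _ hk
  -- `y = f^k x - ι x'` is divisible by `z` in `B[1/f]`
  have hyB' : f ^ k * (x : F) - ι x' ∈ s34_away B f hf :=
    hBB' (B.sub_mem hk (hB₁B x' hx'))
  have hy := hdvd _ hyB' hxx'
  have hfk : (⟨f ^ k, hBB' (B.pow_mem hf k)⟩ : s34_away B f hf) ∉ 𝔫 := by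
    intro hmem
    apply h𝔫p.ne_top
    rw [Ideal.eq_top_iff_one]
    have : (1 : s34_away B f hf) =
        ⟨(f⁻¹) ^ k, (s34_away B f hf).pow_mem hfinv k⟩ *
          ⟨f ^ k, hBB' (B.pow_mem hf k)⟩ := by
      apply Subtype.ext
      show (1 : F) = (f⁻¹) ^ k * f ^ k
      rw [← mul_pow, inv_mul_cancel₀ hfne, one_pow]
    rw [this]
    exact 𝔫.mul_mem_left _ hmem
  -- `x' ∈ 𝔫`
  have hx'𝔫 : incl ⟨x', hx'⟩ ∈ 𝔫 := by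
    have e1 : incl ⟨x', hx'⟩ = ⟨f ^ k, hBB' (B.pow_mem hf k)⟩ * x -
        ⟨z, hz⟩ * ⟨_, hy⟩ := by
      apply Subtype.ext
      show ι x' = f ^ k * (x : F) - z * (z⁻¹ * (f ^ k * (x : F) - ι x'))
      rw [← mul_assoc, mul_inv_cancel₀ hz0, one_mul]
      ring
    rw [e1]
    exact 𝔫.sub_mem (𝔫.mul_mem_left _ hx) (𝔫.mul_mem_right _ hz𝔫)
  obtain ⟨u, hu, hux⟩ := hreg ⟨x', hx'⟩ hx'𝔫
  rw [Ideal.mem_span_pair] at hux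
  obtain ⟨a, b, hab⟩ := hux
  refine ⟨incl u * ⟨f ^ k, hBB' (B.pow_mem hf k)⟩, fun hmem => ?_, ?_⟩
  · rcases h𝔫p.mem_or_mem hmem with h | h
    · exact hu h
    · exact hfk h
  · rw [Ideal.mem_span_pair]
    refine ⟨incl a * ⟨_, hϖz⟩ + incl u * ⟨_, hy⟩, incl b, ?_⟩
    apply Subtype.ext
    have hab' : ι (a : F'') * ι ϖ'' + ι (b : F'') * ι (s : F'') = ι (u : F'') * ι x' := by
      have h1 := congrArg (fun w : B₁ => ι (w : F'')) hab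
      simp only [Subring.coe_add, Subring.coe_mul, map_add, map_mul] at h1
      exact h1
    show (ι (a : F'') * (z⁻¹ * ι ϖ'') + ι (u : F'') * (z⁻¹ * (f ^ k * (x : F) - ι x'))) * z +
        ι (b : F'') * ι (s : F'') = ι (u : F'') * f ^ k * (x : F)
    have e1 : (ι (a : F'') * (z⁻¹ * ι ϖ'') + ι (u : F'') * (z⁻¹ * (f ^ k * (x : F) - ι x'))) * z +
        ι (b : F'') * ι (s : F'') =
        (ι (a : F'') * ι ϖ'' + ι (b : F'') * ι (s : F'')) * (z⁻¹ * z) +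
          ι (u : F'') * (f ^ k * (x : F) - ι x') * (z⁻¹ * z) +
          ι (b : F'') * ι (s : F'') * (1 - z⁻¹ * z) := by
      ring
    rw [e1, hab', inv_mul_cancel₀ hz0]
    ring

end Reg

section Res

variable {F'' F : Type*} [Field F''] [Field F]

/-- (RES) for a valuation subring with uniformiser `z` lying over the Gauss valuation of the S18
chart `B₁` (of the field `F''`, embedded by `ι`) with trivial residue field extension. -/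
theorem s36_rm_res_vs (ι : F'' →+* F) {ϖ'' : F''} {z : F} (B₁ : Subring F'')
    (hB₁ : s18_Chart ϖ'' B₁) (B : Subring F) (Vinf : ValuationSubring F)
    (hB₁B : ∀ x ∈ B₁, ι x ∈ B) (hBV : ∀ x ∈ B, x ∈ Vinf) (hzn : z⁻¹ ∉ Vinf)
    (hunif : ∀ x ∈ Vinf, x⁻¹ ∈ Vinf ∨ z⁻¹ * x ∈ Vinf)
    (hϖ'' : z⁻¹ * ι ϖ'' ∈ Vinf)
    (hgauss : ∀ b ∈ B₁, z⁻¹ * ι b ∈ Vinf → ϖ''⁻¹ * b ∈ B₁)
    (hint : ∀ x ∈ B, ∃ P : Polynomial B₁, P.Monic ∧ P.eval₂ (ι.comp B₁.subtype) x = 0)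
    (hres : ∀ y ∈ B, ∃ y' ∈ s18_gauss ϖ'' B₁, z⁻¹ * (y - ι y') ∈ Vinf) :
    ∀ x ∈ B, ∃ x' ∈ B₁, z⁻¹ * (x - ι x') ∈ Vinf := by
  classical
  haveI := s34_cq_isDomain hB₁
  haveI := s34_cq_integrallyClosed hB₁
  have hϖ0 : ι ϖ'' ≠ 0 := (map_ne_zero ι).mpr hB₁.ϖ_ne
  have hB₁V : ∀ x ∈ B₁, ι x ∈ Vinf := fun x hx => hBV _ (hB₁B x hx)
  -- the residue map on `B₁`
  let j : B₁ →+* Vinf := RingHom.codRestrict (ι.comp B₁.subtype) Vinf (fun x => hB₁V _ x.2)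
  let ρ₁ : B₁ →+* ResidueField Vinf := (residue Vinf).comp j
  have hρ₁ : ∀ x : B₁, ρ₁ x = 0 ↔ x ∈ Ideal.span {(⟨ϖ'', hB₁.ϖ_mem⟩ : B₁)} := by
    intro x
    rw [s34_cq_mem_iff hB₁.ϖ_ne]
    show residue Vinf (j x) = 0 ↔ _
    rw [residue_eq_zero_iff, s34_res_mem_max Vinf hzn hunif]
    refine ⟨fun h => hgauss _ x.2 h, fun h => ?_⟩
    have h1 := hB₁V _ h
    rw [map_mul, map_inv₀] at h1
    have e1 : z⁻¹ * ((j x : Vinf) : F) = (z⁻¹ * ι ϖ'') * ((ι ϖ'')⁻¹ * ι (x : F'')) := by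
      show z⁻¹ * ι (x : F'') = _
      rw [mul_assoc, ← mul_assoc (ι ϖ''), mul_inv_cancel₀ hϖ0, one_mul]
    rw [e1]
    exact mul_mem hϖ'' h1
  let ι₁ : B₁ ⧸ Ideal.span {(⟨ϖ'', hB₁.ϖ_mem⟩ : B₁)} →+* ResidueField Vinf :=
    Ideal.Quotient.lift _ ρ₁ (fun a ha => (hρ₁ a).mpr ha)
  have hι₁ : Function.Injective ι₁ := by
    rw [Ideal.injective_lift_iff]
    ext x
    rw [RingHom.mem_ker, hρ₁]
  let ι' : FractionRing (B₁ ⧸ Ideal.span {(⟨ϖ'', hB₁.ϖ_mem⟩ : B₁)}) →+* ResidueField Vinf :=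
    IsFractionRing.lift hι₁
  have hι' : ∀ d, ι' (algebraMap _ _ d) = ι₁ d := fun d => IsFractionRing.lift_algebraMap hι₁ d
  have hι'inj : Function.Injective ι' := ι'.injective
  intro x hx
  obtain ⟨y', ⟨a, ha, b, hb, hbn, rfl⟩, hy'⟩ := hres x hx
  have hxV : x ∈ Vinf := hBV x hx
  have hb0 : b ≠ 0 := by
    rintro rfl
    apply hbn
    rw [mul_zero]; exact B₁.zero_mem
  have hιb0 : ι b ≠ 0 := (map_ne_zero ι).mpr hb0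
  have hbI : (⟨b, hb⟩ : B₁) ∉ Ideal.span {(⟨ϖ'', hB₁.ϖ_mem⟩ : B₁)} := by
    rw [s34_cq_mem_iff hB₁.ϖ_ne]
    exact hbn
  have hρb : ρ₁ ⟨b, hb⟩ ≠ 0 := fun h => hbI ((hρ₁ _).mp h)
  -- `res x * res b = res a`
  have hxab : residue Vinf ⟨x, hxV⟩ * ρ₁ ⟨b, hb⟩ = ρ₁ ⟨a, ha⟩ := by
    have h1 : (⟨x, hxV⟩ * j ⟨b, hb⟩ - j ⟨a, ha⟩ : Vinf) ∈ maximalIdeal Vinf := by
      rw [s34_res_mem_max Vinf hzn hunif]
      have e : z⁻¹ * ((⟨x, hxV⟩ * j ⟨b, hb⟩ - j ⟨a, ha⟩ : Vinf) : F) =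
          z⁻¹ * (x - ι (a / b)) * ι b := by
        show z⁻¹ * (x * ι b - ι a) = _
        rw [map_div₀, mul_assoc, sub_mul, div_mul_cancel₀ _ hιb0]
      rw [e]
      exact mul_mem hy' (hB₁V b hb)
    have h2 := (residue_eq_zero_iff _).mpr h1
    rw [map_sub, map_mul, sub_eq_zero] at h2
    exact h2
  -- the class of `a / b` in the fraction field of the special fibre
  set w : FractionRing (B₁ ⧸ Ideal.span {(⟨ϖ'', hB₁.ϖ_mem⟩ : B₁)}) :=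
    algebraMap _ _ (Ideal.Quotient.mk (Ideal.span {(⟨ϖ'', hB₁.ϖ_mem⟩ : B₁)}) ⟨a, ha⟩) /
      algebraMap _ _ (Ideal.Quotient.mk (Ideal.span {(⟨ϖ'', hB₁.ϖ_mem⟩ : B₁)}) ⟨b, hb⟩) with hw
  have hιw : ι' w = residue Vinf ⟨x, hxV⟩ := by
    rw [hw, map_div₀, hι', hι']
    show ρ₁ ⟨a, ha⟩ / ρ₁ ⟨b, hb⟩ = _
    rw [← hxab, mul_div_cancel_right₀ _ hρb]
  -- integrality
  obtain ⟨P, hPm, hP⟩ := hint x hx
  have hP1 : eval₂ j (⟨x, hxV⟩ : Vinf) P = 0 := by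
    apply Subtype.ext
    have h1 := Polynomial.hom_eval₂ P j Vinf.subtype ⟨x, hxV⟩
    have h2 : (Vinf.subtype : Vinf →+* F).comp j = ι.comp B₁.subtype := rfl
    rw [h2] at h1
    exact h1.trans hP
  have hP2 : eval₂ ρ₁ (residue Vinf ⟨x, hxV⟩) P = 0 := by
    have h1 := Polynomial.hom_eval₂ P j (residue Vinf) ⟨x, hxV⟩
    rw [hP1, map_zero] at h1
    exact h1.symm
  have hwint : IsIntegral (B₁ ⧸ Ideal.span {(⟨ϖ'', hB₁.ϖ_mem⟩ : B₁)}) w := by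
    refine ⟨P.map (Ideal.Quotient.mk _), hPm.map _, ?_⟩
    apply hι'inj
    rw [map_zero, Polynomial.hom_eval₂, hιw, Polynomial.eval₂_map]
    have h3 : (ι'.comp (algebraMap (B₁ ⧸ Ideal.span {(⟨ϖ'', hB₁.ϖ_mem⟩ : B₁)})
        (FractionRing (B₁ ⧸ Ideal.span {(⟨ϖ'', hB₁.ϖ_mem⟩ : B₁)})))).comp
          (Ideal.Quotient.mk (Ideal.span {(⟨ϖ'', hB₁.ϖ_mem⟩ : B₁)})) = ρ₁ := by
      ext c
      show ι' (algebraMap _ _ (Ideal.Quotient.mk _ c)) = ρ₁ c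
      rw [hι']
      rfl
    rw [h3]
    exact hP2
  obtain ⟨d, hd⟩ := IsIntegrallyClosed.isIntegral_iff.mp hwint
  obtain ⟨x', rfl⟩ := Ideal.Quotient.mk_surjective d
  refine ⟨x', x'.2, ?_⟩
  have h4 : residue Vinf ⟨x, hxV⟩ = residue Vinf (j x') := by
    rw [← hιw, ← hd, hι']
    rfl
  have h5 : (⟨x, hxV⟩ - j x' : Vinf) ∈ maximalIdeal Vinf := by
    rw [← residue_eq_zero_iff, map_sub, h4, sub_self]
  rw [s34_res_mem_max Vinf hzn hunif] at h5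
  exact h5

/-- **(RES) on a multiplicity-`e` component.**  `B = ι B₁ + (B ∩ z V)` for the S18 chart
`B₁ ⊆ F''`, a field embedding `ι : F'' →+* F`, and a discrete valuation ring `V ⊇ B` of `F` with
uniformiser `z` which lies over the Gauss valuation of `B₁` (`hϖ''`, `hgauss`), when `B` is
integral over `ι B₁` and the residue field of `V` is that of the Gauss ring of `B₁` (`hres`). -/
theorem s36_rm_res (ι : F'' →+* F) {ϖ'' : F''} {z : F} (B₁ : Subring F'')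
    (hB₁ : s18_Chart ϖ'' B₁) (B V : Subring F) (hV : s34_Unif z V)
    (hB₁B : ∀ x ∈ B₁, ι x ∈ B) (hBV : B ≤ V) (hϖ'' : z⁻¹ * ι ϖ'' ∈ V)
    (hgauss : ∀ b ∈ B₁, z⁻¹ * ι b ∈ V → ϖ''⁻¹ * b ∈ B₁)
    (hint : ∀ x ∈ B, ∃ P : Polynomial B₁, P.Monic ∧ P.eval₂ (ι.comp B₁.subtype) x = 0)
    (hres : ∀ y ∈ B, ∃ y' ∈ s18_gauss ϖ'' B₁, z⁻¹ * (y - ι y') ∈ V) :
    ∀ x ∈ B, ∃ x' ∈ B₁, z⁻¹ * (x - ι x') ∈ V :=
  s36_rm_res_vs ι B₁ hB₁ B (s34_res_vs V hV) hB₁B (fun x hx => hBV hx) hV.inv_not_mem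
    (fun x hx => by
      by_cases h : z⁻¹ * x ∈ V
      · exact Or.inr h
      · exact Or.inl (hV.inv_mem_of_not_dvd hx h))
    hϖ'' hgauss hint hres

end Res

section Loc

variable {F'' F : Type*} [Field F''] [Field F] {ϖ z ε : F}

/-- At a point `𝔪` of the special fibre which does not lie on the other components
(`f₀ ∉ 𝔪` vanishes on them), every element of `B` outside `𝔪` is a unit of `V₁`: the point lies
on the component `V₁`. -/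
theorem s36_rm_unit_of_not_mem {B V₁ V' : Subring F} (hV₁ : s34_Unif z V₁) (hB₁ : B ≤ V₁)
    (hB' : B ≤ V') (hϖB : ϖ ∈ B) (hϖ0 : ϖ ≠ 0)
    (hcap : ∀ x ∈ B, ϖ⁻¹ * x ∈ V₁ → ϖ⁻¹ * x ∈ V' → ϖ⁻¹ * x ∈ B)
    (𝔪 : Ideal B) [h𝔪 : 𝔪.IsPrime] (hϖ𝔪 : (⟨ϖ, hϖB⟩ : B) ∈ 𝔪)
    (f₀ : B) (hf₀ : f₀ ∉ 𝔪) (hf₀' : ϖ⁻¹ * (f₀ : F) ∈ V')
    (e : ℕ) (hε₁ : ε⁻¹ ∈ V₁) (hϖ : ϖ = ε * z ^ e)
    (s : B) (hs : s ∉ 𝔪) : ((s : F))⁻¹ ∈ V₁ := by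
  apply hV₁.inv_mem_of_not_dvd (hB₁ s.2)
  intro hcon
  have hz0 : z ≠ 0 := hV₁.ne_zero
  have hε0 : ε ≠ 0 := by
    rintro rfl
    exact hϖ0 (by rw [hϖ, zero_mul])
  have e1 : ϖ⁻¹ * ((s : F) ^ e * (f₀ : F)) = ε⁻¹ * (z⁻¹ * (s : F)) ^ e * (f₀ : F) := by
    rw [hϖ, mul_pow, inv_pow]; field_simp
  have e2 : ϖ⁻¹ * ((s : F) ^ e * (f₀ : F)) = (ϖ⁻¹ * (f₀ : F)) * (s : F) ^ e := by ring
  have hmem : ϖ⁻¹ * ((s : F) ^ e * (f₀ : F)) ∈ B := by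
    apply hcap _ (B.mul_mem (B.pow_mem s.2 e) f₀.2)
    · rw [e1]; exact V₁.mul_mem (V₁.mul_mem hε₁ (V₁.pow_mem hcon e)) (hB₁ f₀.2)
    · rw [e2]; exact V'.mul_mem hf₀' (V'.pow_mem (hB' s.2) e)
  have h1 : s ^ e * f₀ = ⟨ϖ, hϖB⟩ * ⟨_, hmem⟩ := by
    apply Subtype.ext
    simp only [Subring.coe_mul, Subring.coe_pow]
    rw [← mul_assoc, mul_inv_cancel₀ hϖ0, one_mul]
  have h2 : s ^ e * f₀ ∈ 𝔪 := by rw [h1]; exact 𝔪.mul_mem_right _ hϖ𝔪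
  rcases h𝔪.mem_or_mem h2 with h | h
  · exact hs (h𝔪.mem_of_pow_mem e h)
  · exact hf₀ h

/-- **(REG-C), point-local form.**  Let `𝔪` be a prime of the chart `B` containing `ϖ` which does
not lie on the other components (`f₀ ∉ 𝔪`, `ϖ⁻¹ f₀ ∈ V'`).  If the uniformiser `z` of `V₁` lies in
`B_𝔪`, `ϖ = ε * z ^ e` with `ε ∈ B_𝔪` and `ε⁻¹ ∈ V₁`, and the branch along `V₁` is the special
fibre of the S18 chart `B₁` (`hres`, from `s36_rm_res`), then the first disjunct of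
`s36_PointData ϖ B (V₁ ⊓ V') p h 𝔪` holds. -/
theorem s36_rm_pointData_loc (ι : F'' →+* F) {ϖ'' : F''} (B₁ : Subring F'')
    (hB₁c : s18_Chart ϖ'' B₁) {B V₁ V' : Subring F} (hV₁ : s34_Unif z V₁) (hB₁ : B ≤ V₁)
    (hB' : B ≤ V') (hϖB : ϖ ∈ B) (hϖ0 : ϖ ≠ 0)
    (hcap : ∀ x ∈ B, ϖ⁻¹ * x ∈ V₁ → ϖ⁻¹ * x ∈ V' → ϖ⁻¹ * x ∈ B)
    (hnoeth : IsNoetherianRing B) (hfrac : ∀ x : F, ∃ a ∈ B, ∃ b ∈ B, b ≠ 0 ∧ x = a / b)
    (hpole : ∀ g ∈ B, ϖ⁻¹ * g ∈ V' → ∀ y : F, ∃ k : ℕ, g ^ k * y ∈ V')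
    (hB₁B : ∀ x ∈ B₁, ι x ∈ B) (hϖ'' : z⁻¹ * ι ϖ'' ∈ V₁)
    (hres : ∀ x ∈ B, ∃ x' ∈ B₁, z⁻¹ * (x - ι x') ∈ V₁)
    (𝔪 : Ideal B) [h𝔪 : 𝔪.IsPrime] (hϖ𝔪 : (⟨ϖ, hϖB⟩ : B) ∈ 𝔪)
    (f₀ : B) (hf₀ : f₀ ∉ 𝔪) (hf₀' : ϖ⁻¹ * (f₀ : F) ∈ V')
    (hz : z ∈ s18_loc B 𝔪) (e : ℕ) (he : 0 < e) (hε : ε ∈ s18_loc B 𝔪) (hε₁ : ε⁻¹ ∈ V₁)
    (hϖ : ϖ = ε * z ^ e) (p : ℕ) (h : F) : s36_PointData ϖ B (V₁ ⊓ V') p h 𝔪 := by
  obtain ⟨c, d, hd, hzcd⟩ := hz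
  obtain ⟨a, b, hb, hεab⟩ := hε
  have hunit := s36_rm_unit_of_not_mem hV₁ hB₁ hB' hϖB hϖ0 hcap 𝔪 hϖ𝔪 f₀ hf₀ hf₀' e hε₁ hϖ
  have hd0 : (d : F) ≠ 0 := fun h0 => hd (by
    have : d = 0 := Subtype.ext h0
    rw [this]; exact 𝔪.zero_mem)
  have hb0 : (b : F) ≠ 0 := fun h0 => hb (by
    have : b = 0 := Subtype.ext h0
    rw [this]; exact 𝔪.zero_mem)
  have hf𝔪 : f₀ * b * d ∉ 𝔪 := by
    intro hmem
    rcases h𝔪.mem_or_mem hmem with h1 | h1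
    · rcases h𝔪.mem_or_mem h1 with h2 | h2
      · exact hf₀ h2
      · exact hb h2
    · exact hd h1
  have hf₁ : (((f₀ * b * d : B) : F))⁻¹ ∈ V₁ := hunit _ hf𝔪
  have hf' : ϖ⁻¹ * ((f₀ * b * d : B) : F) ∈ V' := by
    have e1 : ϖ⁻¹ * ((f₀ * b * d : B) : F) = ϖ⁻¹ * (f₀ : F) * ((b : F) * (d : F)) := by
      simp only [Subring.coe_mul]; ring
    rw [e1]; exact V'.mul_mem hf₀' (V'.mul_mem (hB' b.2) (hB' d.2))
  have hzB' : z ∈ s34_away B ((f₀ * b * d : B) : F) (f₀ * b * d : B).2 := by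
    refine ⟨1, ?_⟩
    have e1 : ((f₀ * b * d : B) : F) ^ 1 * z = ((f₀ * b * c : B) : F) := by
      rw [hzcd]
      simp only [Subring.coe_mul, pow_one]
      field_simp
    rw [e1]; exact (f₀ * b * c : B).2
  have hεB' : ε ∈ s34_away B ((f₀ * b * d : B) : F) (f₀ * b * d : B).2 := by
    refine ⟨1, ?_⟩
    have e1 : ((f₀ * b * d : B) : F) ^ 1 * ε = ((f₀ * d * a : B) : F) := by
      rw [hεab]
      simp only [Subring.coe_mul, pow_one]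
      field_simp
    rw [e1]; exact (f₀ * d * a : B).2
  exact s36_rm_pointData hV₁ hB₁ hB' hcap hnoeth hfrac 𝔪 (f₀ * b * d) hf𝔪 hf₁ hf'
    (hpole _ (f₀ * b * d : B).2 hf') hzB' hϖ0 e he hεB' hε₁ hϖ
    (fun 𝔫 h𝔫 hz𝔫 => s36_rm_reg ι B₁ hB₁c hB₁ hB' hcap hB₁B hϖ'' hres _ (f₀ * b * d : B).2 hf'
      hzB' hϖ0 e he hεB' hε₁ hϖ 𝔫 h𝔫 hz𝔫) p h

end Loc

end Fermat.Agent.S36
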