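import Mathlib
import Fermat.Agent.S18.ChartDefs
import Fermat.Agent.S34.ResTwo
import Fermat.Agent.S34.SmoothPoint
import Fermat.Agent.S34.AwayRegSwap
import Fermat.Agent.S36.GlueMult
import Fermat.Agent.S36.RegMult

/-!
# S36 (NODE-3), contract item (c-sm) and the (RES) inputs at level `N₁ q²` (abstract form)

Everything is stated for subrings of abstract fields (`s34_Unif` vocabulary, a field embedding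
`ι : F₀ →+* F`), so it is independent of the base field.

* `s36_rs_hgauss` : the hypothesis `hgauss` of `s34_res_two` / `s36_rm_res` for any discrete
  valuation ring `V` of `F` lying over the Gauss ring `V''` of the level-`N₁` chart `B₁`.
* `s36_rs_kappa2` : composition of two residue-lifting statements (`κ(V) = κ(V₁) = κ(V'')` through
  the intermediate level `N₁ q`).
* `s36_rs_res` : **(RES)** `B = ι B₁ + (B ∩ z V)` in one call (`RES_A`: `z = π`, `V = V_A`;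
  `RES_C`: `V = V_C`; `RES_B` is `RES_A` transported by `s34_sm_res_comap`).
* `s36_rs_unif_of_dvd`, `s36_rs_unif_of_pow`, `s36_rs_dvd_of_unif` : change of uniformiser.
* `s36_rs_pole`, `s36_rs_pole_inf` : powers of a function vanishing on two components kill the
  poles along them.
* `s36_rs_pd` : the first disjunct of `s36_PointData` for the intersection of three uniformised
  rings at a point lying on the first one only; `s36_rs_pd_A`, `s36_rs_pd_B`, `s36_rs_pd_C` : the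
  three cases for `V_A ⊓ V_B ⊓ V_C` (`V_A`, `V_B` with uniformiser `π`, `V_C` of multiplicity `e`).
* `s36_rs_cases` : the classification of a point of the special fibre: it lies on exactly one
  component (and then a function `f₀ ∉ 𝔪` vanishing on the two others exists) or on at least two.
-/

set_option autoImplicit false

namespace Fermat.Agent.S36

open Fermat.Agent.S18 Fermat.Agent.S34

section Res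

variable {F₀ F₁ F : Type*} [Field F₀] [Field F₁] [Field F]

/-- The hypothesis `hgauss` of `s34_res_two` / `s36_rm_res` for a discrete valuation ring `V` with
uniformiser `z` containing the image of the Gauss ring `V''` of the chart `B₁`. -/
theorem s36_rs_hgauss (ι : F₀ →+* F) {ϖ'' : F₀} {z : F} (B₁ V'' : Subring F₀) (V : Subring F)
    (hV'' : s34_Unif ϖ'' V'') (hB₁V : B₁ ≤ V'')
    (hsat : ∀ x ∈ V'', ϖ'' * x ∈ B₁ → x ∈ B₁) (hιV : ∀ y ∈ V'', ι y ∈ V) (hzV : z⁻¹ ∉ V)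
    (b : F₀) (hb : b ∈ B₁) (h : z⁻¹ * ι b ∈ V) : ϖ''⁻¹ * b ∈ B₁ := by
  by_contra hcon
  have h1 : ϖ''⁻¹ * b ∉ V'' := fun h1 => hcon (hsat _ h1 (by
    rw [← mul_assoc, mul_inv_cancel₀ hV''.ne_zero, one_mul]; exact hb))
  have h2 : b⁻¹ ∈ V'' := hV''.inv_mem_of_not_dvd (hB₁V hb) h1
  have hb0 : b ≠ 0 := by
    rintro rfl
    exact h1 (by rw [mul_zero]; exact V''.zero_mem)
  apply hzV
  have e : z⁻¹ = z⁻¹ * ι b * ι b⁻¹ := by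
    rw [mul_assoc, ← map_mul, mul_inv_cancel₀ hb0, map_one, mul_one]
  rw [e]
  exact V.mul_mem h (hιV _ h2)

/-- Composition of two residue-lifting statements: if every element of `V₁` is congruent modulo
`ϖ₁ V₁` to an element of `ι₁ G₀`, and every element of `S` is congruent modulo `z V` to an element
of `ι₂ V₁`, then every element of `S` is congruent modulo `z V` to an element of `ι₂ (ι₁ G₀)`. -/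
theorem s36_rs_kappa2 (ι₁ : F₀ →+* F₁) (ι₂ : F₁ →+* F) (G₀ : Set F₀) (V₁ : Subring F₁)
    {ϖ₁ : F₁} (hϖ₁0 : ϖ₁ ≠ 0) (V : Subring F) {z : F} (S : Set F)
    (hκ₁ : ∀ y ∈ V₁, ∃ y' ∈ G₀, ϖ₁⁻¹ * (y - ι₁ y') ∈ V₁)
    (hκ₂ : ∀ y ∈ S, ∃ y' ∈ V₁, z⁻¹ * (y - ι₂ y') ∈ V)
    (hι₂ : ∀ y ∈ V₁, ι₂ y ∈ V) (hzϖ : z⁻¹ * ι₂ ϖ₁ ∈ V) :
    ∀ y ∈ S, ∃ y' ∈ G₀, z⁻¹ * (y - ι₂ (ι₁ y')) ∈ V := by
  intro y hy
  obtain ⟨y₁, hy₁, h₁⟩ := hκ₂ y hy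
  obtain ⟨y₀, hy₀, h₀⟩ := hκ₁ y₁ hy₁
  refine ⟨y₀, hy₀, ?_⟩
  have hne : ι₂ ϖ₁ ≠ 0 := (map_ne_zero ι₂).mpr hϖ₁0
  have e : z⁻¹ * (y - ι₂ (ι₁ y₀)) =
      z⁻¹ * (y - ι₂ y₁) + (z⁻¹ * ι₂ ϖ₁) * ι₂ (ϖ₁⁻¹ * (y₁ - ι₁ y₀)) := by
    rw [map_mul, map_inv₀, map_sub, mul_assoc, ← mul_assoc (ι₂ ϖ₁), mul_inv_cancel₀ hne, one_mul]
    ring
  rw [e]
  exact V.add_mem h₁ (V.mul_mem hzϖ (hι₂ _ h₀))

/-- **(RES) at a component `V ⊇ B` with uniformiser `z`**, over the level-`N₁` chart `B₁` with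
Gauss ring `V''`:  `B = ι B₁ + (B ∩ z V)`, from integrality of `B` over `ι B₁` and
`κ(V) = κ(V'')` (`hκ`). -/
theorem s36_rs_res (ι : F₀ →+* F) {ϖ'' : F₀} {z : F} (B₁ : Subring F₀) (hB₁ : s18_Chart ϖ'' B₁)
    (V'' : Subring F₀) (hV'' : s34_Unif ϖ'' V'') (hB₁V : B₁ ≤ V'')
    (hsat : ∀ x ∈ V'', ϖ'' * x ∈ B₁ → x ∈ B₁)
    (hgV : ∀ x ∈ V'', x ∈ s18_gauss ϖ'' B₁)
    (B V : Subring F) (hV : s34_Unif z V) (hB₁B : ∀ x ∈ B₁, ι x ∈ B) (hBV : B ≤ V)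
    (hιV : ∀ y ∈ V'', ι y ∈ V) (hzϖ : z⁻¹ * ι ϖ'' ∈ V)
    (hint : ∀ x ∈ B, ∃ P : Polynomial B₁, P.Monic ∧ P.eval₂ (ι.comp B₁.subtype) x = 0)
    (hκ : ∀ y ∈ B, ∃ y' ∈ V'', z⁻¹ * (y - ι y') ∈ V) :
    ∀ x ∈ B, ∃ x' ∈ B₁, z⁻¹ * (x - ι x') ∈ V :=
  s36_rm_res ι B₁ hB₁ B V hV hB₁B hBV hzϖ
    (fun b hb h => s36_rs_hgauss ι B₁ V'' V hV'' hB₁V hsat hιV hV.inv_not_mem b hb h) hint
    (fun y hy => by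
      obtain ⟨y', hy', h⟩ := hκ y hy
      exact ⟨y', hgV y' hy', h⟩)

end Res

section Unif

variable {F : Type*} [Field F] {V : Subring F} {z z' : F}

/-- A uniformiser divides every non-unit: for two uniformisers `z`, `z'` of the same ring,
`z⁻¹ * z' ∈ V`. -/
theorem s36_rs_unif_div (hV : s34_Unif z V) (hz' : z' ∈ V) (hz'n : z'⁻¹ ∉ V) : z⁻¹ * z' ∈ V := by
  by_contra hcon
  exact hz'n (hV.inv_mem_of_not_dvd hz' hcon)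

/-- Divisibility by one uniformiser is divisibility by any other. -/
theorem s36_rs_dvd_of_unif (hV : s34_Unif z V) (hV' : s34_Unif z' V) {y : F}
    (h : z⁻¹ * y ∈ V) : z'⁻¹ * y ∈ V := by
  have h1 : z'⁻¹ * z ∈ V := s36_rs_unif_div hV' hV.mem hV.inv_not_mem
  have e : z'⁻¹ * y = (z'⁻¹ * z) * (z⁻¹ * y) := by
    rw [mul_assoc, ← mul_assoc z, mul_inv_cancel₀ hV.ne_zero, one_mul]
  rw [e]
  exact V.mul_mem h1 h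

/-- An element of `V` associated to a uniformiser is a uniformiser. -/
theorem s36_rs_unif_of_dvd (hV : s34_Unif z V) (hz' : z' ∈ V) (hz'n : z'⁻¹ ∉ V)
    (hdvd : z'⁻¹ * z ∈ V) : s34_Unif z' V where
  mem := hz'
  inv_not_mem := hz'n
  decomp := fun x hx => by
    have hz0 := hV.ne_zero
    have hz'0 : z' ≠ 0 := by
      rintro rfl
      apply hz'n
      rw [inv_zero]; exact V.zero_mem
    have h1 : z⁻¹ * z' ∈ V := s36_rs_unif_div hV hz' hz'n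
    obtain ⟨j, u, hu, hu', rfl⟩ := hV.decomp x hx
    -- `z^j = z'^j * (z'⁻¹ z)^j`
    have hunit : ∀ j : ℤ, (z'⁻¹ * z) ^ j ∈ V := by
      intro j
      by_cases hj : 0 ≤ j
      · obtain ⟨k, rfl⟩ := Int.eq_ofNat_of_zero_le hj
        rw [zpow_natCast]; exact V.pow_mem hdvd k
      · obtain ⟨k, hk⟩ := Int.eq_ofNat_of_zero_le (show 0 ≤ -j by omega)
        have e : (z'⁻¹ * z) ^ j = (z⁻¹ * z') ^ k := by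
          have hj' : j = -(k : ℤ) := by omega
          rw [hj', zpow_neg, zpow_natCast, ← inv_pow, mul_inv, inv_inv, mul_comm]
        rw [e]; exact V.pow_mem h1 k
    refine ⟨j, (z'⁻¹ * z) ^ j * u, V.mul_mem (hunit j) hu, ?_, ?_⟩
    · have e : ((z'⁻¹ * z) ^ j * u)⁻¹ = (z'⁻¹ * z) ^ (-j) * u⁻¹ := by
        rw [mul_inv, zpow_neg]
      rw [e]
      exact V.mul_mem (hunit (-j)) hu'
    · rw [← mul_assoc, ← mul_zpow, mul_inv_cancel_left₀ hz'0]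

/-- If `ϖ = ε * z' ^ e = εC * z ^ e` with `ε`, `εC` units of `V` and `z` a uniformiser, then `z'`
is a uniformiser (`(z'/z)^e` is a unit, hence so is `z'/z`). -/
theorem s36_rs_unif_of_pow (hV : s34_Unif z V) {ϖ ε εC : F} (hϖ0 : ϖ ≠ 0) (e : ℕ) (he : 0 < e)
    (hε : ε ∈ V) (hε' : ε⁻¹ ∈ V) (hϖ : ϖ = ε * z' ^ e)
    (hεC : εC ∈ V) (hεC' : εC⁻¹ ∈ V) (hϖC : ϖ = εC * z ^ e) : s34_Unif z' V := by
  have hz0 := hV.ne_zero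
  have hε0 : ε ≠ 0 := by
    rintro rfl
    exact hϖ0 (by rw [hϖ, zero_mul])
  have hεC0 : εC ≠ 0 := by
    rintro rfl
    exact hϖ0 (by rw [hϖC, zero_mul])
  have hz'0 : z' ≠ 0 := by
    rintro rfl
    exact hϖ0 (by rw [hϖ, zero_pow (by omega), mul_zero])
  obtain ⟨j, u, hu, hu', hzu⟩ := hV.decomp z' hz'0
  have hu0 : u ≠ 0 := by
    rintro rfl
    exact hz'0 (by rw [hzu, mul_zero])
  -- `z ^ (j e - e) = εC ε⁻¹ u^{-e}` is a unit, so `j e = e`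
  have hkey : z ^ (j * (e : ℤ) - (e : ℤ)) * (ε * εC⁻¹ * u ^ e) = 1 := by
    have h1 : ε * z' ^ e = εC * z ^ e := by rw [← hϖ, ← hϖC]
    rw [hzu, mul_pow, ← zpow_natCast (z ^ j) e, ← zpow_mul] at h1
    rw [zpow_sub₀ hz0, zpow_natCast]
    have h2 : z ^ (j * (e : ℤ)) * (ε * u ^ e) = εC * z ^ e := by rw [← h1]; ring
    field_simp
    linear_combination h2
  have hU : ε * εC⁻¹ * u ^ e ∈ V := V.mul_mem (V.mul_mem hε hεC') (V.pow_mem hu e)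
  have hU' : (ε * εC⁻¹ * u ^ e)⁻¹ ∈ V := by
    have e1 : (ε * εC⁻¹ * u ^ e)⁻¹ = ε⁻¹ * εC * (u⁻¹) ^ e := by
      rw [mul_inv, mul_inv, inv_inv, inv_pow]
    rw [e1]
    exact V.mul_mem (V.mul_mem hε' hεC) (V.pow_mem hu' e)
  have hU0 : ε * εC⁻¹ * u ^ e ≠ 0 :=
    mul_ne_zero (mul_ne_zero hε0 (inv_ne_zero hεC0)) (pow_ne_zero _ hu0)
  have hj1 : 0 ≤ j * (e : ℤ) - (e : ℤ) := by
    rw [← hV.mem_iff hU0 hU hU', hkey]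
    exact V.one_mem
  have hj2 : 0 ≤ -(j * (e : ℤ) - (e : ℤ)) := by
    have hkey' : z ^ (-(j * (e : ℤ) - (e : ℤ))) * (ε * εC⁻¹ * u ^ e)⁻¹ = 1 := by
      rw [zpow_neg, ← mul_inv, hkey, inv_one]
    rw [← hV.mem_iff (inv_ne_zero hU0) hU' (by rw [inv_inv]; exact hU), hkey']
    exact V.one_mem
  have hj : j = 1 := by
    have h3 : j * (e : ℤ) = (e : ℤ) := by omega
    have he' : (e : ℤ) ≠ 0 := by exact_mod_cast he.ne'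
    have h4 : (j - 1) * (e : ℤ) = 0 := by rw [sub_mul, one_mul, h3, sub_self]
    rcases mul_eq_zero.mp h4 with h5 | h5
    · omega
    · exact absurd h5 he'
  rw [hj, zpow_one] at hzu
  have hz'V : z' ∈ V := by rw [hzu]; exact V.mul_mem hV.mem hu
  have hdvd : z'⁻¹ * z ∈ V := by
    have e1 : z'⁻¹ * z = u⁻¹ := by rw [hzu]; field_simp
    rw [e1]; exact hu'
  refine s36_rs_unif_of_dvd hV hz'V (fun hcon => ?_) hdvd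
  apply hV.inv_not_mem
  have e1 : z⁻¹ = z'⁻¹ * u := by rw [hzu]; field_simp
  rw [e1]; exact V.mul_mem hcon hu

end Unif

section PD

variable {F'' F : Type*} [Field F''] [Field F] {ϖ : F}

/-- Large powers of a function divisible by `ϖ` in a discrete valuation ring `V` (with uniformiser
`z` dividing `ϖ`) kill any pole along `V`. -/
theorem s36_rs_pole {V : Subring F} {z : F} (hV : s34_Unif z V) (hzϖ : z⁻¹ * ϖ ∈ V)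
    (hϖ0 : ϖ ≠ 0) (g : F) (hg : ϖ⁻¹ * g ∈ V) (y : F) :
    ∃ k₀ : ℕ, ∀ k, k₀ ≤ k → g ^ k * y ∈ V := by
  have hz0 := hV.ne_zero
  obtain ⟨k₀, hk₀⟩ := hV.exists_pow_mul_mem y
  have hc : z⁻¹ * g ∈ V := by
    have e : z⁻¹ * g = (z⁻¹ * ϖ) * (ϖ⁻¹ * g) := by
      rw [mul_assoc, ← mul_assoc ϖ, mul_inv_cancel₀ hϖ0, one_mul]
    rw [e]; exact V.mul_mem hzϖ hg
  refine ⟨k₀, fun k hk => ?_⟩
  obtain ⟨d, rfl⟩ := Nat.exists_eq_add_of_le hk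
  have e : g ^ (k₀ + d) * y = (z⁻¹ * g) ^ (k₀ + d) * z ^ d * (z ^ k₀ * y) := by
    rw [mul_pow, inv_pow, pow_add z]; field_simp
  rw [e]
  exact V.mul_mem (V.mul_mem (V.pow_mem hc _) (V.pow_mem hV.mem d)) hk₀

/-- The hypothesis `hpole` of `s36_rm_pointData_loc` for the intersection of two discrete valuation
rings whose uniformisers divide `ϖ`. -/
theorem s36_rs_pole_inf {V₂ V₃ : Subring F} {z₂ z₃ : F} (hV₂ : s34_Unif z₂ V₂)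
    (hV₃ : s34_Unif z₃ V₃) (h₂ : z₂⁻¹ * ϖ ∈ V₂) (h₃ : z₃⁻¹ * ϖ ∈ V₃) (hϖ0 : ϖ ≠ 0)
    (g : F) (hg : ϖ⁻¹ * g ∈ V₂ ⊓ V₃) (y : F) : ∃ k : ℕ, g ^ k * y ∈ V₂ ⊓ V₃ := by
  obtain ⟨k₂, hk₂⟩ := s36_rs_pole hV₂ h₂ hϖ0 g hg.1 y
  obtain ⟨k₃, hk₃⟩ := s36_rs_pole hV₃ h₃ hϖ0 g hg.2 y
  exact ⟨max k₂ k₃, hk₂ _ (le_max_left _ _), hk₃ _ (le_max_right _ _)⟩

/-- **One-component point data for three components.**  At a prime `𝔪 ∋ ϖ` of the chart `B` which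
does not lie on `V₂`, `V₃` (`f₀ ∉ 𝔪`, `ϖ⁻¹ f₀ ∈ V₂ ⊓ V₃`), with a local equation `z ∈ B_𝔪` of the
component `V₁` (`ϖ = ε * z ^ e`, `ε ∈ B_𝔪`, `ε⁻¹ ∈ V₁`) and (RES) along `V₁`. -/
theorem s36_rs_pd (ι : F'' →+* F) {ϖ'' : F''} (B₁ : Subring F'') (hB₁c : s18_Chart ϖ'' B₁)
    {B V₁ V₂ V₃ : Subring F} {z z₂ z₃ ε : F}
    (hV₁ : s34_Unif z V₁) (hV₂ : s34_Unif z₂ V₂) (hV₃ : s34_Unif z₃ V₃)
    (h₂ϖ : z₂⁻¹ * ϖ ∈ V₂) (h₃ϖ : z₃⁻¹ * ϖ ∈ V₃)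
    (hB₁ : B ≤ V₁) (hB₂ : B ≤ V₂) (hB₃ : B ≤ V₃) (hϖB : ϖ ∈ B) (hϖ0 : ϖ ≠ 0)
    (hcap : ∀ x ∈ B, ϖ⁻¹ * x ∈ V₁ → ϖ⁻¹ * x ∈ V₂ → ϖ⁻¹ * x ∈ V₃ → ϖ⁻¹ * x ∈ B)
    (hnoeth : IsNoetherianRing B) (hfrac : ∀ x : F, ∃ a ∈ B, ∃ b ∈ B, b ≠ 0 ∧ x = a / b)
    (hB₁B : ∀ x ∈ B₁, ι x ∈ B) (hϖ'' : z⁻¹ * ι ϖ'' ∈ V₁)
    (hres : ∀ x ∈ B, ∃ x' ∈ B₁, z⁻¹ * (x - ι x') ∈ V₁)
    (𝔪 : Ideal B) [𝔪.IsPrime] (hϖ𝔪 : (⟨ϖ, hϖB⟩ : B) ∈ 𝔪)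
    (f₀ : B) (hf₀ : f₀ ∉ 𝔪) (hf₀' : ϖ⁻¹ * (f₀ : F) ∈ V₂ ⊓ V₃)
    (hz : z ∈ s18_loc B 𝔪) (e : ℕ) (he : 0 < e) (hε : ε ∈ s18_loc B 𝔪) (hε₁ : ε⁻¹ ∈ V₁)
    (hϖ : ϖ = ε * z ^ e) (p : ℕ) (h : F) : s36_PointData ϖ B (V₁ ⊓ (V₂ ⊓ V₃)) p h 𝔪 :=
  s36_rm_pointData_loc ι B₁ hB₁c hV₁ hB₁ (le_inf hB₂ hB₃) hϖB hϖ0
    (fun x hx h1 h23 => hcap x hx h1 h23.1 h23.2) hnoeth hfrac
    (fun g _ hg y => s36_rs_pole_inf hV₂ hV₃ h₂ϖ h₃ϖ hϖ0 g hg y) hB₁B hϖ'' hres 𝔪 hϖ𝔪 f₀ hf₀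
    hf₀' hz e he hε hε₁ hϖ p h

/-- `ϖ` and `1` lie in the local ring at a prime. -/
theorem s36_rs_mem_loc {B : Subring F} (𝔪 : Ideal B) [h𝔪 : 𝔪.IsPrime] {x : F} (hx : x ∈ B) :
    x ∈ s18_loc B 𝔪 :=
  ⟨⟨x, hx⟩, 1, fun h1 => h𝔪.ne_top ((Ideal.eq_top_iff_one _).mpr h1), by
    simp only [Subring.coe_one, div_one]⟩

section Three

variable {B VA VB VC : Subring F} {zC : F}

/-- **(c-sm), component `A`**: point data for `V_A ⊓ V_B ⊓ V_C` at a point lying on `V_A` only. -/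
theorem s36_rs_pd_A (ι : F'' →+* F) {ϖ'' : F''} (B₁ : Subring F'') (hB₁c : s18_Chart ϖ'' B₁)
    (hVA : s34_Unif ϖ VA) (hVB : s34_Unif ϖ VB) (hVC : s34_Unif zC VC) (hCϖ : zC⁻¹ * ϖ ∈ VC)
    (hBA : B ≤ VA) (hBB : B ≤ VB) (hBC : B ≤ VC) (hϖB : ϖ ∈ B)
    (hcap : ∀ x ∈ B, ϖ⁻¹ * x ∈ VA ⊓ VB ⊓ VC → ϖ⁻¹ * x ∈ B)
    (hnoeth : IsNoetherianRing B) (hfrac : ∀ x : F, ∃ a ∈ B, ∃ b ∈ B, b ≠ 0 ∧ x = a / b)
    (hB₁B : ∀ x ∈ B₁, ι x ∈ B) (hϖ'' : ϖ⁻¹ * ι ϖ'' ∈ VA)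
    (hres : ∀ x ∈ B, ∃ x' ∈ B₁, ϖ⁻¹ * (x - ι x') ∈ VA)
    (𝔪 : Ideal B) [𝔪.IsPrime] (hϖ𝔪 : (⟨ϖ, hϖB⟩ : B) ∈ 𝔪)
    (f₀ : B) (hf₀ : f₀ ∉ 𝔪) (hf₀' : ϖ⁻¹ * (f₀ : F) ∈ VB ⊓ VC) (p : ℕ) (h : F) :
    s36_PointData ϖ B (VA ⊓ VB ⊓ VC) p h 𝔪 := by
  have hϖ0 := hVA.ne_zero
  have h1 : ϖ⁻¹ * ϖ ∈ VB := by rw [inv_mul_cancel₀ hϖ0]; exact VB.one_mem
  have key := s36_rs_pd ι B₁ hB₁c hVA hVB hVC h1 hCϖ hBA hBB hBC hϖB hϖ0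
    (fun x hx ha hb hc => hcap x hx ⟨⟨ha, hb⟩, hc⟩) hnoeth hfrac hB₁B hϖ'' hres 𝔪 hϖ𝔪 f₀ hf₀ hf₀'
    (s36_rs_mem_loc 𝔪 hϖB) 1 Nat.one_pos (ε := 1) (s36_rs_mem_loc 𝔪 B.one_mem)
    (by rw [inv_one]; exact VA.one_mem) (by rw [one_mul, pow_one]) p h
  rwa [← inf_assoc] at key

/-- **(c-sm), component `B`**: point data for `V_A ⊓ V_B ⊓ V_C` at a point lying on `V_B` only. -/
theorem s36_rs_pd_B (ι : F'' →+* F) {ϖ'' : F''} (B₁ : Subring F'') (hB₁c : s18_Chart ϖ'' B₁)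
    (hVA : s34_Unif ϖ VA) (hVB : s34_Unif ϖ VB) (hVC : s34_Unif zC VC) (hCϖ : zC⁻¹ * ϖ ∈ VC)
    (hBA : B ≤ VA) (hBB : B ≤ VB) (hBC : B ≤ VC) (hϖB : ϖ ∈ B)
    (hcap : ∀ x ∈ B, ϖ⁻¹ * x ∈ VA ⊓ VB ⊓ VC → ϖ⁻¹ * x ∈ B)
    (hnoeth : IsNoetherianRing B) (hfrac : ∀ x : F, ∃ a ∈ B, ∃ b ∈ B, b ≠ 0 ∧ x = a / b)
    (hB₁B : ∀ x ∈ B₁, ι x ∈ B) (hϖ'' : ϖ⁻¹ * ι ϖ'' ∈ VB)
    (hres : ∀ x ∈ B, ∃ x' ∈ B₁, ϖ⁻¹ * (x - ι x') ∈ VB)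
    (𝔪 : Ideal B) [𝔪.IsPrime] (hϖ𝔪 : (⟨ϖ, hϖB⟩ : B) ∈ 𝔪)
    (f₀ : B) (hf₀ : f₀ ∉ 𝔪) (hf₀' : ϖ⁻¹ * (f₀ : F) ∈ VA ⊓ VC) (p : ℕ) (h : F) :
    s36_PointData ϖ B (VA ⊓ VB ⊓ VC) p h 𝔪 := by
  have hϖ0 := hVA.ne_zero
  have h1 : ϖ⁻¹ * ϖ ∈ VA := by rw [inv_mul_cancel₀ hϖ0]; exact VA.one_mem
  have key := s36_rs_pd ι B₁ hB₁c hVB hVA hVC h1 hCϖ hBB hBA hBC hϖB hϖ0
    (fun x hx hb ha hc => hcap x hx ⟨⟨ha, hb⟩, hc⟩) hnoeth hfrac hB₁B hϖ'' hres 𝔪 hϖ𝔪 f₀ hf₀ hf₀'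
    (s36_rs_mem_loc 𝔪 hϖB) 1 Nat.one_pos (ε := 1) (s36_rs_mem_loc 𝔪 B.one_mem)
    (by rw [inv_one]; exact VB.one_mem) (by rw [one_mul, pow_one]) p h
  rwa [← inf_assoc, inf_comm VB VA] at key

/-- **C-only points**: point data for `V_A ⊓ V_B ⊓ V_C` at a point lying on `V_C` only, where
`z ∈ B_𝔪` is a local equation of the component (`ϖ = ε * z ^ e`, `ε ∈ B_𝔪`, `ε⁻¹ ∈ V_C`);
`zC` is any (global) uniformiser of `V_C`, with respect to which (RES) is stated. -/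
theorem s36_rs_pd_C (ι : F'' →+* F) {ϖ'' : F''} (B₁ : Subring F'') (hB₁c : s18_Chart ϖ'' B₁)
    (hVA : s34_Unif ϖ VA) (hVB : s34_Unif ϖ VB) (hVC : s34_Unif zC VC)
    (hBA : B ≤ VA) (hBB : B ≤ VB) (hBC : B ≤ VC) (hϖB : ϖ ∈ B)
    (hcap : ∀ x ∈ B, ϖ⁻¹ * x ∈ VA ⊓ VB ⊓ VC → ϖ⁻¹ * x ∈ B)
    (hnoeth : IsNoetherianRing B) (hfrac : ∀ x : F, ∃ a ∈ B, ∃ b ∈ B, b ≠ 0 ∧ x = a / b)
    (hB₁B : ∀ x ∈ B₁, ι x ∈ B) (hϖ'' : zC⁻¹ * ι ϖ'' ∈ VC)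
    (hres : ∀ x ∈ B, ∃ x' ∈ B₁, zC⁻¹ * (x - ι x') ∈ VC)
    (𝔪 : Ideal B) [𝔪.IsPrime] (hϖ𝔪 : (⟨ϖ, hϖB⟩ : B) ∈ 𝔪)
    (f₀ : B) (hf₀ : f₀ ∉ 𝔪) (hf₀' : ϖ⁻¹ * (f₀ : F) ∈ VA ⊓ VB)
    {z ε : F} (hVz : s34_Unif z VC) (hz : z ∈ s18_loc B 𝔪) (e : ℕ) (he : 0 < e)
    (hε : ε ∈ s18_loc B 𝔪) (hε₁ : ε⁻¹ ∈ VC) (hϖ : ϖ = ε * z ^ e) (p : ℕ) (h : F) :
    s36_PointData ϖ B (VA ⊓ VB ⊓ VC) p h 𝔪 := by
  have hϖ0 := hVA.ne_zero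
  have hA : ϖ⁻¹ * ϖ ∈ VA := by rw [inv_mul_cancel₀ hϖ0]; exact VA.one_mem
  have hB : ϖ⁻¹ * ϖ ∈ VB := by rw [inv_mul_cancel₀ hϖ0]; exact VB.one_mem
  have key := s36_rs_pd ι B₁ hB₁c hVz hVA hVB hA hB hBC hBA hBB hϖB hϖ0
    (fun x hx hc ha hb => hcap x hx ⟨⟨ha, hb⟩, hc⟩) hnoeth hfrac hB₁B
    (s36_rs_dvd_of_unif hVC hVz hϖ'')
    (fun x hx => by
      obtain ⟨x', hx', hxx'⟩ := hres x hx
      exact ⟨x', hx', s36_rs_dvd_of_unif hVC hVz hxx'⟩)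
    𝔪 hϖ𝔪 f₀ hf₀ hf₀' hz e he hε hε₁ hϖ p h
  rwa [inf_comm] at key

/-- **Classification of the points of the special fibre.**  A prime `𝔪` of `B` either has a
function `f₀ ∉ 𝔪` vanishing on two of the three components (so `𝔪` lies on one component only), or
lies on at least two components (`𝔪` lies on `V` when every `s ∉ 𝔪` is a unit of `V`).
Here `ϖ⁻¹ * zC ^ e ∈ V_C` (`v_C(ϖ) ≤ e`). -/
theorem s36_rs_cases (hVA : s34_Unif ϖ VA) (hVB : s34_Unif ϖ VB) (hVC : s34_Unif zC VC)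
    (e : ℕ) (hCe : ϖ⁻¹ * zC ^ e ∈ VC)
    (hBA : B ≤ VA) (hBB : B ≤ VB) (hBC : B ≤ VC) (𝔪 : Ideal B) [h𝔪 : 𝔪.IsPrime] :
    (∃ f₀ : B, f₀ ∉ 𝔪 ∧ ϖ⁻¹ * (f₀ : F) ∈ VB ⊓ VC) ∨
    (∃ f₀ : B, f₀ ∉ 𝔪 ∧ ϖ⁻¹ * (f₀ : F) ∈ VA ⊓ VC) ∨
    (∃ f₀ : B, f₀ ∉ 𝔪 ∧ ϖ⁻¹ * (f₀ : F) ∈ VA ⊓ VB) ∨
    ((∀ s : B, s ∉ 𝔪 → ((s : F))⁻¹ ∈ VA) ∧ (∀ s : B, s ∉ 𝔪 → ((s : F))⁻¹ ∈ VB)) ∨
    ((∀ s : B, s ∉ 𝔪 → ((s : F))⁻¹ ∈ VA) ∧ (∀ s : B, s ∉ 𝔪 → ((s : F))⁻¹ ∈ VC)) ∨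
    ((∀ s : B, s ∉ 𝔪 → ((s : F))⁻¹ ∈ VB) ∧ (∀ s : B, s ∉ 𝔪 → ((s : F))⁻¹ ∈ VC)) := by
  have hϖ0 := hVA.ne_zero
  -- a point not on a component with uniformiser `ϖ`
  have offϖ : ∀ V : Subring F, s34_Unif ϖ V → B ≤ V → ¬ (∀ s : B, s ∉ 𝔪 → ((s : F))⁻¹ ∈ V) →
      ∃ s : B, s ∉ 𝔪 ∧ ϖ⁻¹ * (s : F) ∈ V := by
    intro V hV hBV hnot
    push Not at hnot
    obtain ⟨s, hs, hsV⟩ := hnot
    refine ⟨s, hs, ?_⟩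
    by_contra hcon
    exact hsV (hV.inv_mem_of_not_dvd (hBV s.2) hcon)
  have offC : ¬ (∀ s : B, s ∉ 𝔪 → ((s : F))⁻¹ ∈ VC) →
      ∃ s : B, s ∉ 𝔪 ∧ ϖ⁻¹ * (s : F) ∈ VC := by
    intro hnot
    push Not at hnot
    obtain ⟨s, hs, hsV⟩ := hnot
    have h1 : zC⁻¹ * (s : F) ∈ VC := by
      by_contra hcon
      exact hsV (hVC.inv_mem_of_not_dvd (hBC s.2) hcon)
    refine ⟨s ^ e, fun h => hs (h𝔪.mem_of_pow_mem e h), ?_⟩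
    have e1 : ϖ⁻¹ * ((s ^ e : B) : F) = (ϖ⁻¹ * zC ^ e) * (zC⁻¹ * (s : F)) ^ e := by
      have hz0 := hVC.ne_zero
      rw [Subring.coe_pow, mul_pow, inv_pow]; field_simp
    rw [e1]
    exact VC.mul_mem hCe (VC.pow_mem h1 e)
  -- the product of two such functions
  have prod : ∀ (V V' : Subring F), B ≤ V → B ≤ V' → (∃ s : B, s ∉ 𝔪 ∧ ϖ⁻¹ * (s : F) ∈ V) →
      (∃ s : B, s ∉ 𝔪 ∧ ϖ⁻¹ * (s : F) ∈ V') → ∃ f₀ : B, f₀ ∉ 𝔪 ∧ ϖ⁻¹ * (f₀ : F) ∈ V ⊓ V' := by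
    rintro V V' hBV hBV' ⟨s, hs, hsV⟩ ⟨s', hs', hsV'⟩
    refine ⟨s * s', fun h => ?_, ?_, ?_⟩
    · rcases h𝔪.mem_or_mem h with h | h
      · exact hs h
      · exact hs' h
    · have e1 : ϖ⁻¹ * ((s * s' : B) : F) = (ϖ⁻¹ * (s : F)) * (s' : F) := by
        rw [Subring.coe_mul]; ring
      rw [e1]; exact V.mul_mem hsV (hBV s'.2)
    · have e1 : ϖ⁻¹ * ((s * s' : B) : F) = (s : F) * (ϖ⁻¹ * (s' : F)) := by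
        rw [Subring.coe_mul]; ring
      rw [e1]; exact V'.mul_mem (hBV' s.2) hsV'
  by_cases hA : ∀ s : B, s ∉ 𝔪 → ((s : F))⁻¹ ∈ VA
  · by_cases hB : ∀ s : B, s ∉ 𝔪 → ((s : F))⁻¹ ∈ VB
    · exact Or.inr (Or.inr (Or.inr (Or.inl ⟨hA, hB⟩)))
    · by_cases hC : ∀ s : B, s ∉ 𝔪 → ((s : F))⁻¹ ∈ VC
      · exact Or.inr (Or.inr (Or.inr (Or.inr (Or.inl ⟨hA, hC⟩))))
      · exact Or.inl (prod VB VC hBB hBC (offϖ VB hVB hBB hB) (offC hC))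
  · by_cases hB : ∀ s : B, s ∉ 𝔪 → ((s : F))⁻¹ ∈ VB
    · by_cases hC : ∀ s : B, s ∉ 𝔪 → ((s : F))⁻¹ ∈ VC
      · exact Or.inr (Or.inr (Or.inr (Or.inr (Or.inr ⟨hB, hC⟩))))
      · exact Or.inr (Or.inl (prod VA VC hBA hBC (offϖ VA hVA hBA hA) (offC hC)))
    · exact Or.inr (Or.inr (Or.inl (prod VA VB hBA hBB (offϖ VA hVA hBA hA)
        (offϖ VB hVB hBB hB))))

end Three

end PD

end Fermat.Agent.S36
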