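import Mathlib
import Fermat.Agent.S36.PrinBranch
import Fermat.Agent.S36.ResSq

/-!
# S36 (NODE-3), contract item (c-class), abstract form: no point on exactly two components

`B ⊆ F` the chart of level `N₁ q²`, `V_A`, `V_B`, `V_C` the valuation rings of the three vertical
components (`V_A`, `V_B` uniformised by `ϖ`, `V_C` by `z`, `ϖ⁻¹ z ^ n ∈ V_C`), `P_X = B ∩ 𝔪_{V_X}`
the three vertical primes, `hcap : B ∩ ϖ (V_A ∩ V_B ∩ V_C) = ϖ B`.  Two degeneracy embeddings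
`α β : F' →+* F` of the field of level `N₁ q`, with chart `B'`: along `α` the components `A`, `C`
lie over the component `∞` and `B` over `0`; along `β` the component `A` lies over `∞` and
`B`, `C` lie over `0`.

A prime `𝔪` of `B` containing two of `P_A`, `P_B`, `P_C` contains the third (`s36_cl_main`):

* `(A, B ⟹ C)` (`s36_cl_ab`), directly at the point: with the level-`q` crossing data
  `a₁ a₀ = ϖ γ_α` (along `α`) and `b₁ b₀ = ϖ γ_β` (along `β`), `γ_α, γ_β ∉ 𝔪`, and the congruence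
  `a₁ ≡ b₁² c mod P_B` (in the model `a₁ = s' - s^q ≡ (s'' - s'^q)^q = b₁^q`), the element
  `c₁ = ϖ⁻¹ a₁ b₀` of `B` would be a unit at `𝔪` if `P_C ⊄ 𝔪`, and lies in `P_B + b₁ B ⊆ 𝔪`.
  A variant (`s36_cl_ab_pow`) uses going-up along `α` and the pure inseparability of `B / P_B`
  over `B'` instead of the congruence.
* `(B, C ⟹ A)`: going-up along `α` gives a prime `𝔫 ⊇ P_A` with `α⁻¹ 𝔫 = α⁻¹ 𝔪`, a level-`q`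
  crossing point; the crossing data along `α` and `s36_pb_prin` give `P_B ⊆ 𝔫`, so `P_C ⊆ 𝔫` by
  the first case, and `𝔫 ⊆ 𝔪` because `B = α B' + P_C` (`s36_cl_uniq`).
* `(A, C ⟹ B)`: the same along `β`.

`s36_cl_cases` : the classification `s36_rs_cases` sharpened: a prime of `B` lies on exactly one
component (with a function `f₀ ∉ 𝔪` vanishing on the two others) or on all three.
-/

set_option autoImplicit false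

namespace Fermat.Agent.S36

open Fermat.Agent.S34

section Internal

variable {F : Type*} [Field F]

/-- The ideal of the elements of `B` vanishing on the component `V` (uniformised by `z`). -/
def s36_cl_van (B V : Subring F) (hBV : B ≤ V) (z : F) : Ideal B where
  carrier := {x | z⁻¹ * (x : F) ∈ V}
  add_mem' := by
    intro x y hx hy
    show z⁻¹ * ((x + y : B) : F) ∈ V
    rw [Subring.coe_add, mul_add]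
    exact V.add_mem hx hy
  zero_mem' := by
    show z⁻¹ * ((0 : B) : F) ∈ V
    rw [Subring.coe_zero, mul_zero]
    exact V.zero_mem
  smul_mem' := by
    intro c x hx
    show z⁻¹ * ((c * x : B) : F) ∈ V
    have e : z⁻¹ * ((c * x : B) : F) = (c : F) * (z⁻¹ * (x : F)) := by
      rw [Subring.coe_mul]; ring
    rw [e]
    exact V.mul_mem (hBV c.2) hx

theorem s36_cl_mem_van (B V : Subring F) (hBV : B ≤ V) (z : F) (x : B) :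
    x ∈ s36_cl_van B V hBV z ↔ z⁻¹ * (x : F) ∈ V := Iff.rfl

/-- **(A, B ⟹ C), direct form.**  At a prime `𝔪 ⊇ P_B` of `B` with `b₁ ∈ 𝔪`: from the two
crossing relations `a₁ a₀ = ϖ γ_α`, `b₁ b₀ = ϖ γ_β` (`γ_α, γ_β ∉ 𝔪`; `a₁`, `b₁` vanish on `A`,
`a₀` on `B`, `b₀` on `B` and `C`), `b₁` a unit of `V_B` and `a₁ ≡ b₁² c mod P_B`: `P_C ⊆ 𝔪`. -/
theorem s36_cl_ab (B VA VB VC : Subring F) (hBA : B ≤ VA) (hBB : B ≤ VB) (hBC : B ≤ VC)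
    (ϖ z : F) (hϖ0 : ϖ ≠ 0) (hz0 : z ≠ 0)
    (hcap : ∀ x ∈ B, ϖ⁻¹ * x ∈ VA → ϖ⁻¹ * x ∈ VB → ϖ⁻¹ * x ∈ VC → ϖ⁻¹ * x ∈ B)
    (n : ℕ) (hzn : ϖ⁻¹ * z ^ n ∈ VC)
    (𝔪 : Ideal B) [h𝔪 : 𝔪.IsPrime]
    (hPB : ∀ p : B, ϖ⁻¹ * (p : F) ∈ VB → p ∈ 𝔪)
    (a1 a0 γα b1 b0 γβ c : B)
    (ha : (a1 : F) * (a0 : F) = ϖ * (γα : F)) (hb : (b1 : F) * (b0 : F) = ϖ * (γβ : F))
    (ha1 : ϖ⁻¹ * (a1 : F) ∈ VA) (ha0 : ϖ⁻¹ * (a0 : F) ∈ VB)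
    (hb1 : ϖ⁻¹ * (b1 : F) ∈ VA) (hb0B : ϖ⁻¹ * (b0 : F) ∈ VB) (hb0C : ϖ⁻¹ * (b0 : F) ∈ VC)
    (hb1B : ((b1 : F))⁻¹ ∈ VB) (hb1𝔪 : b1 ∈ 𝔪)
    (hcong : ϖ⁻¹ * ((a1 : F) - (b1 : F) ^ 2 * (c : F)) ∈ VB)
    (hγα : γα ∉ 𝔪) (hγβ : γβ ∉ 𝔪)
    (p : B) (hp : z⁻¹ * (p : F) ∈ VC) : p ∈ 𝔪 := by
  by_contra hp𝔪
  -- `c₁ = ϖ⁻¹ a₁ b₀ ∈ B`
  have hc1 : ϖ⁻¹ * ((a1 : F) * (b0 : F)) ∈ B := by
    apply hcap _ (B.mul_mem a1.2 b0.2)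
    · have e : ϖ⁻¹ * ((a1 : F) * (b0 : F)) = (ϖ⁻¹ * (a1 : F)) * (b0 : F) := by ring
      rw [e]; exact VA.mul_mem ha1 (hBA b0.2)
    · have e : ϖ⁻¹ * ((a1 : F) * (b0 : F)) = (a1 : F) * (ϖ⁻¹ * (b0 : F)) := by ring
      rw [e]; exact VB.mul_mem (hBB a1.2) hb0B
    · have e : ϖ⁻¹ * ((a1 : F) * (b0 : F)) = (a1 : F) * (ϖ⁻¹ * (b0 : F)) := by ring
      rw [e]; exact VC.mul_mem (hBC a1.2) hb0C
  -- `d = ϖ⁻¹ p ^ n b₁ a₀ ∈ B`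
  have hd : ϖ⁻¹ * ((p : F) ^ n * (b1 : F) * (a0 : F)) ∈ B := by
    apply hcap _ (B.mul_mem (B.mul_mem (B.pow_mem p.2 n) b1.2) a0.2)
    · have e : ϖ⁻¹ * ((p : F) ^ n * (b1 : F) * (a0 : F)) =
          (p : F) ^ n * (ϖ⁻¹ * (b1 : F)) * (a0 : F) := by ring
      rw [e]; exact VA.mul_mem (VA.mul_mem (VA.pow_mem (hBA p.2) n) hb1) (hBA a0.2)
    · have e : ϖ⁻¹ * ((p : F) ^ n * (b1 : F) * (a0 : F)) =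
          (p : F) ^ n * (b1 : F) * (ϖ⁻¹ * (a0 : F)) := by ring
      rw [e]; exact VB.mul_mem (VB.mul_mem (VB.pow_mem (hBB p.2) n) (hBB b1.2)) ha0
    · have e : ϖ⁻¹ * ((p : F) ^ n * (b1 : F) * (a0 : F)) =
          (ϖ⁻¹ * z ^ n) * (z⁻¹ * (p : F)) ^ n * ((b1 : F) * (a0 : F)) := by
        rw [mul_pow, inv_pow]; field_simp
      rw [e]
      exact VC.mul_mem (VC.mul_mem hzn (VC.pow_mem hp n)) (VC.mul_mem (hBC b1.2) (hBC a0.2))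
  -- `c₁ d = p ^ n γ_α γ_β`
  have hprod : (⟨_, hc1⟩ : B) * ⟨_, hd⟩ = p ^ n * γα * γβ := by
    apply Subtype.ext
    show ϖ⁻¹ * ((a1 : F) * (b0 : F)) * (ϖ⁻¹ * ((p : F) ^ n * (b1 : F) * (a0 : F))) =
      (p : F) ^ n * (γα : F) * (γβ : F)
    have e : ϖ⁻¹ * ((a1 : F) * (b0 : F)) * (ϖ⁻¹ * ((p : F) ^ n * (b1 : F) * (a0 : F))) =
        ϖ⁻¹ * ϖ⁻¹ * (p : F) ^ n * ((a1 : F) * (a0 : F)) * ((b1 : F) * (b0 : F)) := by ring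
    rw [e, ha, hb]; field_simp
  have hc1𝔪 : (⟨_, hc1⟩ : B) ∉ 𝔪 := by
    intro h
    have h1 : p ^ n * γα * γβ ∈ 𝔪 := by rw [← hprod]; exact 𝔪.mul_mem_right _ h
    rcases h𝔪.mem_or_mem h1 with h2 | h2
    · rcases h𝔪.mem_or_mem h2 with h3 | h3
      · exact hp𝔪 (h𝔪.mem_of_pow_mem n h3)
      · exact hγα h3
    · exact hγβ h2
  -- `b₁ ≠ 0`
  have hb1ne : (b1 : F) ≠ 0 := by
    intro h0
    apply hγβ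
    have h1 : ϖ * (γβ : F) = 0 := by rw [← hb, h0, zero_mul]
    have h2 : (γβ : F) = 0 := (mul_eq_zero.mp h1).resolve_left hϖ0
    have h3 : γβ = 0 := Subtype.ext h2
    rw [h3]; exact 𝔪.zero_mem
  -- `c₁ - γ_β b₁ c ∈ P_B`
  have he : ϖ⁻¹ * (((⟨_, hc1⟩ : B) - γβ * b1 * c : B) : F) ∈ VB := by
    have e1 : ϖ⁻¹ * (((⟨_, hc1⟩ : B) - γβ * b1 * c : B) : F) =
        (b1 : F)⁻¹ * (γβ : F) * (ϖ⁻¹ * ((a1 : F) - (b1 : F) ^ 2 * (c : F))) := by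
      show ϖ⁻¹ * (ϖ⁻¹ * ((a1 : F) * (b0 : F)) - (γβ : F) * (b1 : F) * (c : F)) = _
      have hγ : (γβ : F) = ϖ⁻¹ * ((b1 : F) * (b0 : F)) := by rw [hb]; field_simp
      rw [hγ]; field_simp
    rw [e1]
    exact VB.mul_mem (VB.mul_mem hb1B (hBB γβ.2)) hcong
  apply hc1𝔪
  have h1 := hPB _ he
  have h2 : (⟨_, hc1⟩ : B) = ((⟨_, hc1⟩ : B) - γβ * b1 * c) + γβ * c * b1 := by ring
  rw [h2]
  exact 𝔪.add_mem h1 (𝔪.mul_mem_left _ hb1𝔪)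

end Internal

section GoingUp

variable {F' F : Type*} [Field F'] [Field F]

/-- **Going-up** along `ι : F' →+* F` in the vocabulary of the stack: `B` integral over `ι B'`
(polynomial form), `𝔪` a prime of `B`, `I` an ideal of `B` with `ι⁻¹ I ⊆ ι⁻¹ 𝔪`: there is a prime
`𝔫 ⊇ I` of `B` with `ι⁻¹ 𝔫 = ι⁻¹ 𝔪`. -/
theorem s36_cl_goingUp (ι : F' →+* F) (B' : Subring F') (B : Subring F)
    (hB'B : ∀ x ∈ B', ι x ∈ B)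
    (hint : ∀ x ∈ B, ∃ P : Polynomial B', P.Monic ∧ P.eval₂ (ι.comp B'.subtype) x = 0)
    (𝔪 : Ideal B) [h𝔪 : 𝔪.IsPrime] (I : Ideal B)
    (hI : ∀ x (hx : x ∈ B'), (⟨ι x, hB'B x hx⟩ : B) ∈ I → (⟨ι x, hB'B x hx⟩ : B) ∈ 𝔪) :
    ∃ 𝔫 : Ideal B, 𝔫.IsPrime ∧ I ≤ 𝔫 ∧
      ∀ x (hx : x ∈ B'), ((⟨ι x, hB'B x hx⟩ : B) ∈ 𝔫 ↔ (⟨ι x, hB'B x hx⟩ : B) ∈ 𝔪) := by
  let φ : B' →+* B := (ι.comp B'.subtype).codRestrict B (fun x => hB'B x x.2)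
  let _ : Algebra B' B := φ.toAlgebra
  have halg : algebraMap B' B = φ := rfl
  have hφ : B.subtype.comp φ = ι.comp B'.subtype := by ext y; rfl
  have : Algebra.IsIntegral B' B := by
    refine ⟨fun x => ?_⟩
    obtain ⟨P, hP, hPx⟩ := hint x x.2
    refine ⟨P, hP, ?_⟩
    apply Subtype.ext
    have h1 : B.subtype (P.eval₂ φ x) = P.eval₂ (B.subtype.comp φ) (B.subtype x) :=
      Polynomial.hom_eval₂ P φ B.subtype x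
    rw [hφ] at h1
    rw [halg]
    show B.subtype (P.eval₂ φ x) = 0
    rw [h1]
    exact hPx
  have : (𝔪.comap φ).IsPrime := Ideal.comap_isPrime φ 𝔪
  obtain ⟨Q, hIQ, hQ, hQc⟩ := Ideal.exists_ideal_over_prime_of_isIntegral (𝔪.comap φ) I (by
    intro x hx
    exact hI x x.2 hx)
  refine ⟨Q, hQ, hIQ, fun x hx => ?_⟩
  have h1 : (⟨x, hx⟩ : B') ∈ Q.comap (algebraMap B' B) ↔ (⟨x, hx⟩ : B') ∈ 𝔪.comap φ := by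
    rw [hQc]
  exact h1

/-- **Uniqueness of the point on a birational component.**  If `B = ι B' + (B ∩ z V)` (RES) then a
prime of `B` containing `P_V = B ∩ z V` is determined by its contraction to `B'`. -/
theorem s36_cl_uniq (ι : F' →+* F) (B' : Subring F') (B V : Subring F)
    (hB'B : ∀ x ∈ B', ι x ∈ B) (z : F)
    (hres : ∀ y ∈ B, ∃ y' ∈ B', z⁻¹ * (y - ι y') ∈ V)
    (𝔪 𝔫 : Ideal B)
    (h𝔪 : ∀ p : B, z⁻¹ * (p : F) ∈ V → p ∈ 𝔪) (h𝔫 : ∀ p : B, z⁻¹ * (p : F) ∈ V → p ∈ 𝔫)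
    (hc : ∀ x (hx : x ∈ B'), (⟨ι x, hB'B x hx⟩ : B) ∈ 𝔪 → (⟨ι x, hB'B x hx⟩ : B) ∈ 𝔫) :
    𝔪 ≤ 𝔫 := by
  intro y hy
  obtain ⟨y', hy', h⟩ := hres (y : F) y.2
  have hp𝔪 : (y - ⟨ι y', hB'B y' hy'⟩ : B) ∈ 𝔪 := h𝔪 _ h
  have hp𝔫 : (y - ⟨ι y', hB'B y' hy'⟩ : B) ∈ 𝔫 := h𝔫 _ h
  have h1 : (⟨ι y', hB'B y' hy'⟩ : B) ∈ 𝔪 := by
    have := 𝔪.sub_mem hy hp𝔪
    simpa using this
  have h2 := hc y' hy' h1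
  have := 𝔫.add_mem hp𝔫 h2
  simpa using this

/-- **Uniqueness of the point on a purely inseparable component.**  If every `k`-th power of an
element of `B` is congruent to an element of `ι B'` modulo `P_V = B ∩ z V` (`k ≠ 0`), then a prime
of `B` containing `P_V` is determined by its contraction to `B'`. -/
theorem s36_cl_uniq_pow (ι : F' →+* F) (B' : Subring F') (B V : Subring F)
    (hB'B : ∀ x ∈ B', ι x ∈ B) (z : F) (k : ℕ) (hk : k ≠ 0)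
    (hpow : ∀ y ∈ B, ∃ y' ∈ B', z⁻¹ * (y ^ k - ι y') ∈ V)
    (𝔪 𝔫 : Ideal B) [h𝔫p : 𝔫.IsPrime]
    (h𝔪 : ∀ p : B, z⁻¹ * (p : F) ∈ V → p ∈ 𝔪) (h𝔫 : ∀ p : B, z⁻¹ * (p : F) ∈ V → p ∈ 𝔫)
    (hc : ∀ x (hx : x ∈ B'), (⟨ι x, hB'B x hx⟩ : B) ∈ 𝔪 → (⟨ι x, hB'B x hx⟩ : B) ∈ 𝔫) :
    𝔪 ≤ 𝔫 := by
  intro y hy
  obtain ⟨y', hy', h⟩ := hpow (y : F) y.2
  have hyk : y ^ k ∈ 𝔪 := Ideal.pow_mem_of_mem 𝔪 hy k (Nat.pos_of_ne_zero hk)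
  have hp𝔪 : (y ^ k - ⟨ι y', hB'B y' hy'⟩ : B) ∈ 𝔪 := h𝔪 _ h
  have hp𝔫 : (y ^ k - ⟨ι y', hB'B y' hy'⟩ : B) ∈ 𝔫 := h𝔫 _ h
  have h1 : (⟨ι y', hB'B y' hy'⟩ : B) ∈ 𝔪 := by
    have := 𝔪.sub_mem hyk hp𝔪
    simpa using this
  have h2 := hc y' hy' h1
  have h3 : y ^ k ∈ 𝔫 := by
    have := 𝔫.add_mem hp𝔫 h2
    simpa using this
  exact h𝔫p.mem_of_pow_mem k h3

/-- **(A, B ⟹ C), going-up form.**  `B` integral over `α B'`; `A` and `C` lie over the same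
component along `α` (`hACα`, `hCAα`); crossing data along `α` at the primes over level-`q`
crossing points (`hα`); `B / P_B` purely inseparable over `α B'` (`hpow`).  Then a prime of `B`
containing `P_A` and `P_B` contains `P_C`. -/
theorem s36_cl_ab_pow (α : F' →+* F) (B' : Subring F') (B VA VB VC : Subring F)
    (hαB : ∀ x ∈ B', α x ∈ B)
    (hintα : ∀ x ∈ B, ∃ P : Polynomial B', P.Monic ∧ P.eval₂ (α.comp B'.subtype) x = 0)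
    (hBA : B ≤ VA) (hBB : B ≤ VB) (hBC : B ≤ VC) (ϖ z : F) (hϖ0 : ϖ ≠ 0)
    (hcap : ∀ x ∈ B, ϖ⁻¹ * x ∈ VA → ϖ⁻¹ * x ∈ VB → ϖ⁻¹ * x ∈ VC → ϖ⁻¹ * x ∈ B)
    (hACα : ∀ x ∈ B', ϖ⁻¹ * α x ∈ VA → z⁻¹ * α x ∈ VC)
    (hCAα : ∀ x ∈ B', z⁻¹ * α x ∈ VC → ϖ⁻¹ * α x ∈ VA)
    (k : ℕ) (hk : k ≠ 0) (hpow : ∀ y ∈ B, ∃ y' ∈ B', ϖ⁻¹ * (y ^ k - α y') ∈ VB)
    (hα : ∀ 𝔫 : Ideal B, 𝔫.IsPrime →
      (∀ x (hx : x ∈ B'), ϖ⁻¹ * α x ∈ VA → (⟨α x, hαB x hx⟩ : B) ∈ 𝔫) →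
      (∀ x (hx : x ∈ B'), ϖ⁻¹ * α x ∈ VB → (⟨α x, hαB x hx⟩ : B) ∈ 𝔫) →
      ∃ u v γ : B, (u : F) * (v : F) = ϖ * (γ : F) ∧ u ∈ 𝔫 ∧ γ ∉ 𝔫 ∧
        ϖ⁻¹ * (v : F) ∈ VA ∧ ϖ⁻¹ * (v : F) ∈ VC)
    (𝔪 : Ideal B) [h𝔪 : 𝔪.IsPrime]
    (hA : ∀ p : B, ϖ⁻¹ * (p : F) ∈ VA → p ∈ 𝔪) (hB : ∀ p : B, ϖ⁻¹ * (p : F) ∈ VB → p ∈ 𝔪)
    (p : B) (hp : z⁻¹ * (p : F) ∈ VC) : p ∈ 𝔪 := by
  obtain ⟨𝔫, h𝔫, hI𝔫, hiff⟩ := s36_cl_goingUp α B' B hαB hintα 𝔪 (s36_cl_van B VC hBC z)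
    (fun x hx h => hA _ (hCAα x hx h))
  obtain ⟨u, v, γ, huv, hu, hγ, hvA, hvC⟩ := hα 𝔫 h𝔫
    (fun x hx h => hI𝔫 (hACα x hx h))
    (fun x hx h => (hiff x hx).mpr (hB _ h))
  have hv0 : v ≠ 0 := by
    rintro rfl
    apply hγ
    have h1 : ϖ * (γ : F) = 0 := by rw [← huv, Subring.coe_zero, mul_zero]
    have h2 : γ = 0 := Subtype.ext ((mul_eq_zero.mp h1).resolve_left hϖ0)
    rw [h2]; exact 𝔫.zero_mem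
  have hB𝔫 : ∀ p : B, ϖ⁻¹ * (p : F) ∈ VB → p ∈ 𝔫 := by
    intro p hp
    obtain ⟨b, hb⟩ := s36_pb_prin B VB (VA ⊓ VC) hBB (le_inf hBA hBC) ϖ hϖ0
      (fun x hx h1 h2 => hcap x hx h2.1 h1 h2.2) u v γ huv ⟨hvA, hvC⟩ hv0 p hp
    have h1 : γ * p ∈ 𝔫 := by rw [hb]; exact 𝔫.mul_mem_left _ hu
    exact (h𝔫.mem_or_mem h1).resolve_left hγ
  have hle : 𝔫 ≤ 𝔪 := s36_cl_uniq_pow α B' B VB hαB ϖ k hk hpow 𝔫 𝔪 hB𝔫 hB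
    (fun x hx h => (hiff x hx).mp h)
  exact hle (hI𝔫 hp)

/-- **(c-class), abstract form.**  A prime of the chart `B` containing two of the three vertical
primes `P_A`, `P_B`, `P_C` contains the third.  Inputs: `B` integral over `α B'` and over `β B'`;
`hcap`; along `α` the components `A`, `C` lie over the same one (`hACα`) and `B = α B' + P_C`
(`hresα`); along `β` the components `B`, `C` lie over the same one (`hBCβ`) and `B = β B' + P_C`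
(`hresβ`); crossing data at the primes of `B` over level-`q` crossing points along `α` (`hα`:
`u = α u₀ ∈ 𝔫`, `v = α u_∞`) and along `β` (`hβ`: `u = β u_∞ ∈ 𝔫`, `v = β u₀`); and the case
`(A, B ⟹ C)` (`hAB`, from `s36_cl_ab` or `s36_cl_ab_pow`). -/
theorem s36_cl_main (α β : F' →+* F) (B' : Subring F') (B VA VB VC : Subring F)
    (hαB : ∀ x ∈ B', α x ∈ B) (hβB : ∀ x ∈ B', β x ∈ B)
    (hintα : ∀ x ∈ B, ∃ P : Polynomial B', P.Monic ∧ P.eval₂ (α.comp B'.subtype) x = 0)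
    (hintβ : ∀ x ∈ B, ∃ P : Polynomial B', P.Monic ∧ P.eval₂ (β.comp B'.subtype) x = 0)
    (hBA : B ≤ VA) (hBB : B ≤ VB) (hBC : B ≤ VC) (ϖ z : F) (hϖ0 : ϖ ≠ 0)
    (hcap : ∀ x ∈ B, ϖ⁻¹ * x ∈ VA → ϖ⁻¹ * x ∈ VB → ϖ⁻¹ * x ∈ VC → ϖ⁻¹ * x ∈ B)
    (hACα : ∀ x ∈ B', ϖ⁻¹ * α x ∈ VA → z⁻¹ * α x ∈ VC)
    (hBCβ : ∀ x ∈ B', ϖ⁻¹ * β x ∈ VB → z⁻¹ * β x ∈ VC)
    (hresα : ∀ y ∈ B, ∃ y' ∈ B', z⁻¹ * (y - α y') ∈ VC)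
    (hresβ : ∀ y ∈ B, ∃ y' ∈ B', z⁻¹ * (y - β y') ∈ VC)
    (hα : ∀ 𝔫 : Ideal B, 𝔫.IsPrime →
      (∀ x (hx : x ∈ B'), ϖ⁻¹ * α x ∈ VA → (⟨α x, hαB x hx⟩ : B) ∈ 𝔫) →
      (∀ x (hx : x ∈ B'), ϖ⁻¹ * α x ∈ VB → (⟨α x, hαB x hx⟩ : B) ∈ 𝔫) →
      ∃ u v γ : B, (u : F) * (v : F) = ϖ * (γ : F) ∧ u ∈ 𝔫 ∧ γ ∉ 𝔫 ∧
        ϖ⁻¹ * (v : F) ∈ VA ∧ ϖ⁻¹ * (v : F) ∈ VC)
    (hβ : ∀ 𝔫 : Ideal B, 𝔫.IsPrime →
      (∀ x (hx : x ∈ B'), ϖ⁻¹ * β x ∈ VA → (⟨β x, hβB x hx⟩ : B) ∈ 𝔫) →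
      (∀ x (hx : x ∈ B'), ϖ⁻¹ * β x ∈ VB → (⟨β x, hβB x hx⟩ : B) ∈ 𝔫) →
      ∃ u v γ : B, (u : F) * (v : F) = ϖ * (γ : F) ∧ u ∈ 𝔫 ∧ γ ∉ 𝔫 ∧
        ϖ⁻¹ * (v : F) ∈ VB ∧ ϖ⁻¹ * (v : F) ∈ VC)
    (hAB : ∀ 𝔫 : Ideal B, 𝔫.IsPrime → (∀ p : B, ϖ⁻¹ * (p : F) ∈ VA → p ∈ 𝔫) →
      (∀ p : B, ϖ⁻¹ * (p : F) ∈ VB → p ∈ 𝔫) → ∀ p : B, z⁻¹ * (p : F) ∈ VC → p ∈ 𝔫)
    (𝔪 : Ideal B) [h𝔪 : 𝔪.IsPrime] :
    ((∀ p : B, ϖ⁻¹ * (p : F) ∈ VA → p ∈ 𝔪) → (∀ p : B, ϖ⁻¹ * (p : F) ∈ VB → p ∈ 𝔪) →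
      ∀ p : B, z⁻¹ * (p : F) ∈ VC → p ∈ 𝔪) ∧
    ((∀ p : B, ϖ⁻¹ * (p : F) ∈ VB → p ∈ 𝔪) → (∀ p : B, z⁻¹ * (p : F) ∈ VC → p ∈ 𝔪) →
      ∀ p : B, ϖ⁻¹ * (p : F) ∈ VA → p ∈ 𝔪) ∧
    ((∀ p : B, ϖ⁻¹ * (p : F) ∈ VA → p ∈ 𝔪) → (∀ p : B, z⁻¹ * (p : F) ∈ VC → p ∈ 𝔪) →
      ∀ p : B, ϖ⁻¹ * (p : F) ∈ VB → p ∈ 𝔪) := by
  refine ⟨hAB 𝔪 h𝔪, ?_, ?_⟩
  · -- `B, C ⟹ A` : going-up along `α`
    intro hB hC p hp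
    obtain ⟨𝔫, h𝔫, hI𝔫, hiff⟩ := s36_cl_goingUp α B' B hαB hintα 𝔪 (s36_cl_van B VA hBA ϖ)
      (fun x hx h => hC _ (hACα x hx h))
    have hA𝔫 : ∀ p : B, ϖ⁻¹ * (p : F) ∈ VA → p ∈ 𝔫 := fun p hp => hI𝔫 hp
    obtain ⟨u, v, γ, huv, hu, hγ, hvA, hvC⟩ := hα 𝔫 h𝔫
      (fun x hx h => hA𝔫 _ h)
      (fun x hx h => (hiff x hx).mpr (hB _ h))
    have hv0 : v ≠ 0 := by
      rintro rfl
      apply hγ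
      have h1 : ϖ * (γ : F) = 0 := by rw [← huv, Subring.coe_zero, mul_zero]
      have h2 : γ = 0 := Subtype.ext ((mul_eq_zero.mp h1).resolve_left hϖ0)
      rw [h2]; exact 𝔫.zero_mem
    have hB𝔫 : ∀ p : B, ϖ⁻¹ * (p : F) ∈ VB → p ∈ 𝔫 := by
      intro p hp
      obtain ⟨b, hb⟩ := s36_pb_prin B VB (VA ⊓ VC) hBB (le_inf hBA hBC) ϖ hϖ0
        (fun x hx h1 h2 => hcap x hx h2.1 h1 h2.2) u v γ huv ⟨hvA, hvC⟩ hv0 p hp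
      have h1 : γ * p ∈ 𝔫 := by rw [hb]; exact 𝔫.mul_mem_left _ hu
      exact (h𝔫.mem_or_mem h1).resolve_left hγ
    have hC𝔫 := hAB 𝔫 h𝔫 hA𝔫 hB𝔫
    have hle : 𝔫 ≤ 𝔪 := s36_cl_uniq α B' B VC hαB z hresα 𝔫 𝔪 hC𝔫 hC
      (fun x hx h => (hiff x hx).mp h)
    exact hle (hA𝔫 p hp)
  · -- `A, C ⟹ B` : going-up along `β`
    intro hA hC p hp
    obtain ⟨𝔫, h𝔫, hI𝔫, hiff⟩ := s36_cl_goingUp β B' B hβB hintβ 𝔪 (s36_cl_van B VB hBB ϖ)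
      (fun x hx h => hC _ (hBCβ x hx h))
    have hB𝔫 : ∀ p : B, ϖ⁻¹ * (p : F) ∈ VB → p ∈ 𝔫 := fun p hp => hI𝔫 hp
    obtain ⟨u, v, γ, huv, hu, hγ, hvB, hvC⟩ := hβ 𝔫 h𝔫
      (fun x hx h => (hiff x hx).mpr (hA _ h))
      (fun x hx h => hB𝔫 _ h)
    have hv0 : v ≠ 0 := by
      rintro rfl
      apply hγ
      have h1 : ϖ * (γ : F) = 0 := by rw [← huv, Subring.coe_zero, mul_zero]
      have h2 : γ = 0 := Subtype.ext ((mul_eq_zero.mp h1).resolve_left hϖ0)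
      rw [h2]; exact 𝔫.zero_mem
    have hA𝔫 : ∀ p : B, ϖ⁻¹ * (p : F) ∈ VA → p ∈ 𝔫 := by
      intro p hp
      obtain ⟨b, hb⟩ := s36_pb_prin B VA (VB ⊓ VC) hBA (le_inf hBB hBC) ϖ hϖ0
        (fun x hx h1 h2 => hcap x hx h1 h2.1 h2.2) u v γ huv ⟨hvB, hvC⟩ hv0 p hp
      have h1 : γ * p ∈ 𝔫 := by rw [hb]; exact 𝔫.mul_mem_left _ hu
      exact (h𝔫.mem_or_mem h1).resolve_left hγ
    have hC𝔫 := hAB 𝔫 h𝔫 hA𝔫 hB𝔫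
    have hle : 𝔫 ≤ 𝔪 := s36_cl_uniq β B' B VC hβB z hresβ 𝔫 𝔪 hC𝔫 hC
      (fun x hx h => (hiff x hx).mp h)
    exact hle (hB𝔫 p hp)

end GoingUp

section Cases

variable {F : Type*} [Field F]

/-- "`𝔪` lies on the component `V`" in the two vocabularies: every `s ∉ 𝔪` is a unit of `V`
(`s36_rs_cases`) iff `𝔪` contains `P_V = B ∩ z V`. -/
theorem s36_cl_on_iff {B V : Subring F} {z : F} (hV : s34_Unif z V) (hBV : B ≤ V)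
    (𝔪 : Ideal B) :
    (∀ s : B, s ∉ 𝔪 → ((s : F))⁻¹ ∈ V) ↔ (∀ p : B, z⁻¹ * (p : F) ∈ V → p ∈ 𝔪) := by
  constructor
  · intro h p hp
    by_contra hp𝔪
    have h1 := h p hp𝔪
    have hp0 : (p : F) ≠ 0 := by
      intro h0
      apply hp𝔪
      have : p = 0 := Subtype.ext h0
      rw [this]; exact 𝔪.zero_mem
    apply hV.inv_not_mem
    have e : z⁻¹ = (z⁻¹ * (p : F)) * ((p : F))⁻¹ := by
      rw [mul_assoc, mul_inv_cancel₀ hp0, mul_one]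
    rw [e]
    exact V.mul_mem hp h1
  · intro h s hs
    exact hV.inv_mem_of_not_dvd (hBV s.2) (fun hcon => hs (h s hcon))

/-- **Classification of the points of the special fibre, final form.**  Given (c-class)
(`hcl`: two of the three vertical primes in `𝔪` imply the third, e.g. from `s36_cl_main`), a
prime `𝔪` of `B` lies on exactly one component — and then there is `f₀ ∉ 𝔪` vanishing on the two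
others — or on all three. -/
theorem s36_cl_cases {B VA VB VC : Subring F} {ϖ zC : F}
    (hVA : s34_Unif ϖ VA) (hVB : s34_Unif ϖ VB) (hVC : s34_Unif zC VC)
    (e : ℕ) (hCe : ϖ⁻¹ * zC ^ e ∈ VC)
    (hBA : B ≤ VA) (hBB : B ≤ VB) (hBC : B ≤ VC) (𝔪 : Ideal B) [h𝔪 : 𝔪.IsPrime]
    (hcl : ((∀ p : B, ϖ⁻¹ * (p : F) ∈ VA → p ∈ 𝔪) → (∀ p : B, ϖ⁻¹ * (p : F) ∈ VB → p ∈ 𝔪) →
        ∀ p : B, zC⁻¹ * (p : F) ∈ VC → p ∈ 𝔪) ∧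
      ((∀ p : B, ϖ⁻¹ * (p : F) ∈ VB → p ∈ 𝔪) → (∀ p : B, zC⁻¹ * (p : F) ∈ VC → p ∈ 𝔪) →
        ∀ p : B, ϖ⁻¹ * (p : F) ∈ VA → p ∈ 𝔪) ∧
      ((∀ p : B, ϖ⁻¹ * (p : F) ∈ VA → p ∈ 𝔪) → (∀ p : B, zC⁻¹ * (p : F) ∈ VC → p ∈ 𝔪) →
        ∀ p : B, ϖ⁻¹ * (p : F) ∈ VB → p ∈ 𝔪)) :
    (∃ f₀ : B, f₀ ∉ 𝔪 ∧ ϖ⁻¹ * (f₀ : F) ∈ VB ⊓ VC) ∨
    (∃ f₀ : B, f₀ ∉ 𝔪 ∧ ϖ⁻¹ * (f₀ : F) ∈ VA ⊓ VC) ∨
    (∃ f₀ : B, f₀ ∉ 𝔪 ∧ ϖ⁻¹ * (f₀ : F) ∈ VA ⊓ VB) ∨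
    ((∀ s : B, s ∉ 𝔪 → ((s : F))⁻¹ ∈ VA) ∧ (∀ s : B, s ∉ 𝔪 → ((s : F))⁻¹ ∈ VB) ∧
      (∀ s : B, s ∉ 𝔪 → ((s : F))⁻¹ ∈ VC)) := by
  have iA := s36_cl_on_iff hVA hBA 𝔪
  have iB := s36_cl_on_iff hVB hBB 𝔪
  have iC := s36_cl_on_iff hVC hBC 𝔪
  rcases s36_rs_cases hVA hVB hVC e hCe hBA hBB hBC 𝔪 with h | h | h | h | h | h
  · exact Or.inl h
  · exact Or.inr (Or.inl h)
  · exact Or.inr (Or.inr (Or.inl h))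
  · exact Or.inr (Or.inr (Or.inr ⟨h.1, h.2, iC.mpr (hcl.1 (iA.mp h.1) (iB.mp h.2))⟩))
  · exact Or.inr (Or.inr (Or.inr ⟨h.1, iB.mpr (hcl.2.2 (iA.mp h.1) (iC.mp h.2)), h.2⟩))
  · exact Or.inr (Or.inr (Or.inr ⟨iA.mpr (hcl.2.1 (iB.mp h.1) (iC.mp h.2)), h.1, h.2⟩))

end Cases

end Fermat.Agent.S36
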