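import Mathlib
import Fermat.Agent.S34.NodeUnit
import Fermat.Agent.S36.ClassPt

/-!
# S36 (NODE-3), the closed-point block of the three-component model (abstract wiring)

`B ⊆ F` a chart of the level-`N₁ q²` model, `V_A`, `V_B` (uniformiser `ϖ`), `V_C` (uniformiser
`zC`) the valuation rings of the three vertical components.  The assembly `s36_pow_of_model`
(`S36/PowModel`) asks, at every closed point `𝔪 ∋ ϖ` of the chart, for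

* either function-independent point data (`∀ p h, s36_PointData ϖ B (V_A ⊓ V_B ⊓ V_C) p h 𝔪`),
* or: every `b ∉ 𝔪` is a unit of `V_A ⊓ V_B ⊓ V_C`, the local ring `B_𝔪` is closed under `m`-th
  roots, and the triple-point contract holds at `𝔪`.

`s36_ptb_point` produces this disjunction at one point, `s36_ptb_block` at all points, from

* (c-class) the conclusion of `s36_cl_main` at `𝔪` (a point on two components is on the third);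
* (RES) along the three components (`B = ι_X B₁ + (B ∩ 𝔪_{V_X})`, `B₁` an S18 chart), (cap),
  noetherianity and the fraction-field property of `B`: the inputs of `s36_rs_pd_A/_B/_C`;
* (c-Cpt) at a point lying on `C` only: a local equation `z ∈ B_𝔪` of `C` with `ϖ = ε z ^ e`,
  `ε ∈ B_𝔪`, `ε⁻¹ ∈ V_C`;
* root-closedness of `B` (for the exponent `m`) and the contract `T 𝔪` at the triple points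
  (`T` is an arbitrary predicate: take `T := s36_pm_TriOut … B`).
-/

set_option autoImplicit false

namespace Fermat.Agent.S36

open Fermat.Agent.S18 Fermat.Agent.S34

section Block

variable {FA FB FC F : Type*} [Field FA] [Field FB] [Field FC] [Field F]

/-- **The closed-point block at one point.**  Classification (`s36_cl_cases`), the one-component
point data (`s36_rs_pd_A`, `s36_rs_pd_B`, `s36_rs_pd_C`) and the triple-point contract `T 𝔪`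
give the disjunction consumed by `s36_pow_of_model` at the closed point `𝔪`. -/
theorem s36_ptb_point {ϖ zC : F} {B VA VB VC : Subring F}
    (hVA : s34_Unif ϖ VA) (hVB : s34_Unif ϖ VB) (hVC : s34_Unif zC VC)
    (n : ℕ) (hCe : ϖ⁻¹ * zC ^ n ∈ VC) (hCϖ : zC⁻¹ * ϖ ∈ VC)
    (hBA : B ≤ VA) (hBB : B ≤ VB) (hBC : B ≤ VC) (hϖB : ϖ ∈ B)
    (hcap : ∀ x ∈ B, ϖ⁻¹ * x ∈ VA ⊓ VB ⊓ VC → ϖ⁻¹ * x ∈ B)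
    (hnoeth : IsNoetherianRing B) (hfrac : ∀ x : F, ∃ a ∈ B, ∃ b ∈ B, b ≠ 0 ∧ x = a / b)
    -- (RES) along `A`
    (ιA : FA →+* F) {ϖA : FA} (BA₁ : Subring FA) (hBA₁ : s18_Chart ϖA BA₁)
    (hιA : ∀ x ∈ BA₁, ιA x ∈ B) (hϖA : ϖ⁻¹ * ιA ϖA ∈ VA)
    (hresA : ∀ x ∈ B, ∃ x' ∈ BA₁, ϖ⁻¹ * (x - ιA x') ∈ VA)
    -- (RES) along `B`
    (ιB : FB →+* F) {ϖB : FB} (BB₁ : Subring FB) (hBB₁ : s18_Chart ϖB BB₁)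
    (hιB : ∀ x ∈ BB₁, ιB x ∈ B) (hϖB' : ϖ⁻¹ * ιB ϖB ∈ VB)
    (hresB : ∀ x ∈ B, ∃ x' ∈ BB₁, ϖ⁻¹ * (x - ιB x') ∈ VB)
    -- (RES) along `C`
    (ιC : FC →+* F) {ϖC : FC} (BC₁ : Subring FC) (hBC₁ : s18_Chart ϖC BC₁)
    (hιC : ∀ x ∈ BC₁, ιC x ∈ B) (hϖC : zC⁻¹ * ιC ϖC ∈ VC)
    (hresC : ∀ x ∈ B, ∃ x' ∈ BC₁, zC⁻¹ * (x - ιC x') ∈ VC)
    -- the exponent and the triple-point contract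
    (m : ℕ) (hm : 0 < m) (hroot : ∀ x : F, x ^ m ∈ B → x ∈ B) (T : Ideal B → Prop)
    (𝔪 : Ideal B) (h𝔪 : 𝔪.IsMaximal) (hϖ𝔪 : (⟨ϖ, hϖB⟩ : B) ∈ 𝔪)
    -- (c-class) at `𝔪`
    (hcl : ((∀ p : B, ϖ⁻¹ * (p : F) ∈ VA → p ∈ 𝔪) → (∀ p : B, ϖ⁻¹ * (p : F) ∈ VB → p ∈ 𝔪) →
        ∀ p : B, zC⁻¹ * (p : F) ∈ VC → p ∈ 𝔪) ∧
      ((∀ p : B, ϖ⁻¹ * (p : F) ∈ VB → p ∈ 𝔪) → (∀ p : B, zC⁻¹ * (p : F) ∈ VC → p ∈ 𝔪) →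
        ∀ p : B, ϖ⁻¹ * (p : F) ∈ VA → p ∈ 𝔪) ∧
      ((∀ p : B, ϖ⁻¹ * (p : F) ∈ VA → p ∈ 𝔪) → (∀ p : B, zC⁻¹ * (p : F) ∈ VC → p ∈ 𝔪) →
        ∀ p : B, ϖ⁻¹ * (p : F) ∈ VB → p ∈ 𝔪))
    -- (c-Cpt) at `𝔪`
    (hCpt : (∃ f₀ : B, f₀ ∉ 𝔪 ∧ ϖ⁻¹ * (f₀ : F) ∈ VA ⊓ VB) →
      ∃ (z ε : F) (e : ℕ), s34_Unif z VC ∧ z ∈ s18_loc B 𝔪 ∧ 0 < e ∧ ε ∈ s18_loc B 𝔪 ∧
        ε⁻¹ ∈ VC ∧ ϖ = ε * z ^ e)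
    -- the contract at a triple point
    (hTri : (∀ s : B, s ∉ 𝔪 → ((s : F))⁻¹ ∈ VA) → (∀ s : B, s ∉ 𝔪 → ((s : F))⁻¹ ∈ VB) →
      (∀ s : B, s ∉ 𝔪 → ((s : F))⁻¹ ∈ VC) → T 𝔪) :
    (∀ (p : ℕ) (h : F), s36_PointData ϖ B (VA ⊓ VB ⊓ VC) p h 𝔪) ∨
      ((∀ b : B, b ∉ 𝔪 → ((b : F))⁻¹ ∈ VA ⊓ VB ⊓ VC) ∧
        (∀ x : F, x ^ m ∈ s18_loc B 𝔪 → x ∈ s18_loc B 𝔪) ∧ T 𝔪) := by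
  have : 𝔪.IsPrime := h𝔪.isPrime
  rcases s36_cl_cases hVA hVB hVC n hCe hBA hBB hBC 𝔪 hcl with
    ⟨f₀, hf₀, hf₀'⟩ | ⟨f₀, hf₀, hf₀'⟩ | ⟨f₀, hf₀, hf₀'⟩ | ⟨hA, hB, hC⟩
  · exact Or.inl fun p h =>
      s36_rs_pd_A ιA BA₁ hBA₁ hVA hVB hVC hCϖ hBA hBB hBC hϖB hcap hnoeth hfrac hιA hϖA hresA
        𝔪 hϖ𝔪 f₀ hf₀ hf₀' p h
  · exact Or.inl fun p h =>
      s36_rs_pd_B ιB BB₁ hBB₁ hVA hVB hVC hCϖ hBA hBB hBC hϖB hcap hnoeth hfrac hιB hϖB' hresB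
        𝔪 hϖ𝔪 f₀ hf₀ hf₀' p h
  · obtain ⟨z, ε, e, hVz, hz, he, hε, hε₁, hϖ⟩ := hCpt ⟨f₀, hf₀, hf₀'⟩
    exact Or.inl fun p h =>
      s36_rs_pd_C ιC BC₁ hBC₁ hVA hVB hVC hBA hBB hBC hϖB hcap hnoeth hfrac hιC hϖC hresC
        𝔪 hϖ𝔪 f₀ hf₀ hf₀' hVz hz e he hε hε₁ hϖ p h
  · exact Or.inr ⟨fun b hb => ⟨⟨hA b hb, hB b hb⟩, hC b hb⟩,
      fun x hx => s34_root_closed_loc B m hm hroot 𝔪 x hx, hTri hA hB hC⟩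

/-- **The closed-point block of a chart**: the hypothesis `hpts0` / `hptsi` of `s36_pow_of_model`
(with `T := s36_pm_TriOut … B`) from (c-class), (RES), (cap), (c-Cpt) and the triple-point
contract. -/
theorem s36_ptb_block {ϖ zC : F} {B VA VB VC : Subring F}
    (hVA : s34_Unif ϖ VA) (hVB : s34_Unif ϖ VB) (hVC : s34_Unif zC VC)
    (n : ℕ) (hCe : ϖ⁻¹ * zC ^ n ∈ VC) (hCϖ : zC⁻¹ * ϖ ∈ VC)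
    (hBA : B ≤ VA) (hBB : B ≤ VB) (hBC : B ≤ VC) (hϖB : ϖ ∈ B)
    (hcap : ∀ x ∈ B, ϖ⁻¹ * x ∈ VA ⊓ VB ⊓ VC → ϖ⁻¹ * x ∈ B)
    (hnoeth : IsNoetherianRing B) (hfrac : ∀ x : F, ∃ a ∈ B, ∃ b ∈ B, b ≠ 0 ∧ x = a / b)
    (ιA : FA →+* F) {ϖA : FA} (BA₁ : Subring FA) (hBA₁ : s18_Chart ϖA BA₁)
    (hιA : ∀ x ∈ BA₁, ιA x ∈ B) (hϖA : ϖ⁻¹ * ιA ϖA ∈ VA)
    (hresA : ∀ x ∈ B, ∃ x' ∈ BA₁, ϖ⁻¹ * (x - ιA x') ∈ VA)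
    (ιB : FB →+* F) {ϖB : FB} (BB₁ : Subring FB) (hBB₁ : s18_Chart ϖB BB₁)
    (hιB : ∀ x ∈ BB₁, ιB x ∈ B) (hϖB' : ϖ⁻¹ * ιB ϖB ∈ VB)
    (hresB : ∀ x ∈ B, ∃ x' ∈ BB₁, ϖ⁻¹ * (x - ιB x') ∈ VB)
    (ιC : FC →+* F) {ϖC : FC} (BC₁ : Subring FC) (hBC₁ : s18_Chart ϖC BC₁)
    (hιC : ∀ x ∈ BC₁, ιC x ∈ B) (hϖC : zC⁻¹ * ιC ϖC ∈ VC)
    (hresC : ∀ x ∈ B, ∃ x' ∈ BC₁, zC⁻¹ * (x - ιC x') ∈ VC)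
    (m : ℕ) (hm : 0 < m) (hroot : ∀ x : F, x ^ m ∈ B → x ∈ B) (T : Ideal B → Prop)
    (hcl : ∀ 𝔪 : Ideal B, 𝔪.IsMaximal → (⟨ϖ, hϖB⟩ : B) ∈ 𝔪 →
      ((∀ p : B, ϖ⁻¹ * (p : F) ∈ VA → p ∈ 𝔪) → (∀ p : B, ϖ⁻¹ * (p : F) ∈ VB → p ∈ 𝔪) →
        ∀ p : B, zC⁻¹ * (p : F) ∈ VC → p ∈ 𝔪) ∧
      ((∀ p : B, ϖ⁻¹ * (p : F) ∈ VB → p ∈ 𝔪) → (∀ p : B, zC⁻¹ * (p : F) ∈ VC → p ∈ 𝔪) →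
        ∀ p : B, ϖ⁻¹ * (p : F) ∈ VA → p ∈ 𝔪) ∧
      ((∀ p : B, ϖ⁻¹ * (p : F) ∈ VA → p ∈ 𝔪) → (∀ p : B, zC⁻¹ * (p : F) ∈ VC → p ∈ 𝔪) →
        ∀ p : B, ϖ⁻¹ * (p : F) ∈ VB → p ∈ 𝔪))
    (hCpt : ∀ 𝔪 : Ideal B, 𝔪.IsMaximal → (⟨ϖ, hϖB⟩ : B) ∈ 𝔪 →
      (∃ f₀ : B, f₀ ∉ 𝔪 ∧ ϖ⁻¹ * (f₀ : F) ∈ VA ⊓ VB) →
      ∃ (z ε : F) (e : ℕ), s34_Unif z VC ∧ z ∈ s18_loc B 𝔪 ∧ 0 < e ∧ ε ∈ s18_loc B 𝔪 ∧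
        ε⁻¹ ∈ VC ∧ ϖ = ε * z ^ e)
    (hTri : ∀ 𝔪 : Ideal B, 𝔪.IsMaximal → (⟨ϖ, hϖB⟩ : B) ∈ 𝔪 →
      (∀ s : B, s ∉ 𝔪 → ((s : F))⁻¹ ∈ VA) → (∀ s : B, s ∉ 𝔪 → ((s : F))⁻¹ ∈ VB) →
      (∀ s : B, s ∉ 𝔪 → ((s : F))⁻¹ ∈ VC) → T 𝔪) :
    ∀ 𝔪 : Ideal B, 𝔪.IsMaximal → (⟨ϖ, hϖB⟩ : B) ∈ 𝔪 →
      (∀ (p : ℕ) (h : F), s36_PointData ϖ B (VA ⊓ VB ⊓ VC) p h 𝔪) ∨
      ((∀ b : B, b ∉ 𝔪 → ((b : F))⁻¹ ∈ VA ⊓ VB ⊓ VC) ∧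
        (∀ x : F, x ^ m ∈ s18_loc B 𝔪 → x ∈ s18_loc B 𝔪) ∧ T 𝔪) :=
  fun 𝔪 h𝔪 hϖ𝔪 =>
    s36_ptb_point hVA hVB hVC n hCe hCϖ hBA hBB hBC hϖB hcap hnoeth hfrac ιA BA₁ hBA₁ hιA hϖA
      hresA ιB BB₁ hBB₁ hιB hϖB' hresB ιC BC₁ hBC₁ hιC hϖC hresC m hm hroot T 𝔪 h𝔪 hϖ𝔪
      (hcl 𝔪 h𝔪 hϖ𝔪) (hCpt 𝔪 h𝔪 hϖ𝔪) (hTri 𝔪 h𝔪 hϖ𝔪)

end Block

end Fermat.Agent.S36
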