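import Mathlib
import Fermat.Agent.S36.PowModel
import Fermat.Agent.S36.ChartPkg3
import Fermat.Agent.S36.PtsBlock

/-!
# S36 (NODE-3), layer L4: the power statement from the model with the chart block and the
closed-point block in structured form

`s36_ptb_pow` is `s36_pow_of_model` (`S36/PowModel`) with

* the chart hypotheses (`hB0A … fin`) replaced by the structure `s36_cp3_Chart` of
  `S36/ChartPkg3` (the output of `s36_cp3_chart_t2` / `_t3`);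
* the closed-point hypotheses `hpts0`, `hptsi` replaced by the inputs of `s36_ptb_block`
  (`S36/PtsBlock`) for each of the two charts, bundled in `s36_ptb_Pts`: (RES) along the three
  components, (c-class), (c-Cpt) and the triple-point contract `s36_pm_TriOut`.
-/

set_option autoImplicit false
set_option synthInstance.maxHeartbeats 400000

open ModularCurve AlgebraicCurve

noncomputable section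

namespace Fermat.Agent.S36

open Fermat.Agent.S18 Fermat.Agent.S34 Fermat.Agent.S35

/-- The function-independent closed-point inputs of a chart `B` of the three-component model
(`ϖ` the uniformiser of the base, `zC` the uniformiser of `V_C`), and the contract `T` at the
triple points: the inputs of `s36_ptb_block` which are not already part of the chart block.
The three (RES) statements are along embeddings `ιA`, `ιB`, `ιC` of ONE field `F₀` (the function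
field of level `N₁`) with S18 chart `B₁` (uniformiser `ϖ₀`). -/
structure s36_ptb_Pts {F₀ F : Type*} [Field F₀] [Field F] (ϖ zC : F) (B VA VB VC : Subring F)
    (hϖB : ϖ ∈ B) (ϖ₀ : F₀) (B₁ : Subring F₀) (ιA ιB ιC : F₀ →+* F) (T : Ideal B → Prop) :
    Prop where
  chart : s18_Chart ϖ₀ B₁
  mapA : ∀ x ∈ B₁, ιA x ∈ B
  mapB : ∀ x ∈ B₁, ιB x ∈ B
  mapC : ∀ x ∈ B₁, ιC x ∈ B
  unifA : ϖ⁻¹ * ιA ϖ₀ ∈ VA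
  unifB : ϖ⁻¹ * ιB ϖ₀ ∈ VB
  unifC : zC⁻¹ * ιC ϖ₀ ∈ VC
  resA : ∀ x ∈ B, ∃ x' ∈ B₁, ϖ⁻¹ * (x - ιA x') ∈ VA
  resB : ∀ x ∈ B, ∃ x' ∈ B₁, ϖ⁻¹ * (x - ιB x') ∈ VB
  resC : ∀ x ∈ B, ∃ x' ∈ B₁, zC⁻¹ * (x - ιC x') ∈ VC
  cls : ∀ 𝔪 : Ideal B, 𝔪.IsMaximal → (⟨ϖ, hϖB⟩ : B) ∈ 𝔪 →
    ((∀ p : B, ϖ⁻¹ * (p : F) ∈ VA → p ∈ 𝔪) → (∀ p : B, ϖ⁻¹ * (p : F) ∈ VB → p ∈ 𝔪) →
      ∀ p : B, zC⁻¹ * (p : F) ∈ VC → p ∈ 𝔪) ∧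
    ((∀ p : B, ϖ⁻¹ * (p : F) ∈ VB → p ∈ 𝔪) → (∀ p : B, zC⁻¹ * (p : F) ∈ VC → p ∈ 𝔪) →
      ∀ p : B, ϖ⁻¹ * (p : F) ∈ VA → p ∈ 𝔪) ∧
    ((∀ p : B, ϖ⁻¹ * (p : F) ∈ VA → p ∈ 𝔪) → (∀ p : B, zC⁻¹ * (p : F) ∈ VC → p ∈ 𝔪) →
      ∀ p : B, ϖ⁻¹ * (p : F) ∈ VB → p ∈ 𝔪)
  cpt : ∀ 𝔪 : Ideal B, 𝔪.IsMaximal → (⟨ϖ, hϖB⟩ : B) ∈ 𝔪 →
    (∃ f₀ : B, f₀ ∉ 𝔪 ∧ ϖ⁻¹ * (f₀ : F) ∈ VA ⊓ VB) →
    ∃ (z ε : F) (e : ℕ), s34_Unif z VC ∧ z ∈ s18_loc B 𝔪 ∧ 0 < e ∧ ε ∈ s18_loc B 𝔪 ∧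
      ε⁻¹ ∈ VC ∧ ϖ = ε * z ^ e
  tri : ∀ 𝔪 : Ideal B, 𝔪.IsMaximal → (⟨ϖ, hϖB⟩ : B) ∈ 𝔪 →
    (∀ s : B, s ∉ 𝔪 → ((s : F))⁻¹ ∈ VA) → (∀ s : B, s ∉ 𝔪 → ((s : F))⁻¹ ∈ VB) →
    (∀ s : B, s ∉ 𝔪 → ((s : F))⁻¹ ∈ VC) → T 𝔪

/-- The closed-point block of a chart from the bundled inputs. -/
theorem s36_ptb_of_pts {F₀ F : Type*} [Field F₀] [Field F] {ϖ zC : F}
    {B VA VB VC : Subring F}
    (hVA : s34_Unif ϖ VA) (hVB : s34_Unif ϖ VB) (hVC : s34_Unif zC VC)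
    (n : ℕ) (hCe : ϖ⁻¹ * zC ^ n ∈ VC) (hCϖ : zC⁻¹ * ϖ ∈ VC)
    (hBA : B ≤ VA) (hBB : B ≤ VB) (hBC : B ≤ VC) (hϖB : ϖ ∈ B)
    (hcap : ∀ x ∈ B, ϖ⁻¹ * x ∈ VA ⊓ VB ⊓ VC → ϖ⁻¹ * x ∈ B)
    (hnoeth : IsNoetherianRing B) (hfrac : ∀ x : F, ∃ a ∈ B, ∃ b ∈ B, b ≠ 0 ∧ x = a / b)
    (m : ℕ) (hm : 0 < m) (hroot : ∀ x : F, x ^ m ∈ B → x ∈ B)
    {ϖ₀ : F₀} {B₁ : Subring F₀} {ιA ιB ιC : F₀ →+* F} {T : Ideal B → Prop}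
    (H : s36_ptb_Pts ϖ zC B VA VB VC hϖB ϖ₀ B₁ ιA ιB ιC T) :
    ∀ 𝔪 : Ideal B, 𝔪.IsMaximal → (⟨ϖ, hϖB⟩ : B) ∈ 𝔪 →
      (∀ (p : ℕ) (h : F), s36_PointData ϖ B (VA ⊓ VB ⊓ VC) p h 𝔪) ∨
      ((∀ b : B, b ∉ 𝔪 → ((b : F))⁻¹ ∈ VA ⊓ VB ⊓ VC) ∧
        (∀ x : F, x ^ m ∈ s18_loc B 𝔪 → x ∈ s18_loc B 𝔪) ∧ T 𝔪) :=
  s36_ptb_block hVA hVB hVC n hCe hCϖ hBA hBB hBC hϖB hcap hnoeth hfrac ιA B₁ H.chart H.mapA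
    H.unifA H.resA ιB B₁ H.chart H.mapB H.unifB H.resB ιC B₁ H.chart H.mapC H.unifC H.resC
    m hm hroot T H.cls H.cpt H.tri

local notation "Qb" => AlgebraicClosure ℚ

set_option maxHeartbeats 1000000 in
/-- **(MOD36), structured form.**  `s36_pow_of_model` with the chart block given as
`s36_cp3_Chart` and the closed points given as `s36_ptb_Pts` for the two charts. -/
theorem s36_ptb_pow (L : ℕ) [NeZero L] (A : ValuationSubring Qb)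
    (K₁ : IntermediateField ℚ Qb) [IsDiscreteValuationRing (s18_A1 A K₁)]
    {π : s18_A1 A K₁} (hπ : Irreducible π)
    {t : s18_F1 K₁ L} {B0 Binf : Subalgebra (s18_A1 A K₁) (s18_F1 K₁ L)}
    {F'' : Type*} [Field F''] (ι : F'' →+* s18_F1 K₁ L) {ϖ'' : F''}
    (hιϖ : ι ϖ'' = algebraMap (s18_A1 A K₁) (s18_F1 K₁ L) π)
    {z : s18_F1 K₁ L} (VA VB VC : Subring (s18_F1 K₁ L)) (Vi V0 : Subring F'')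
    (hA : s34_Unif (ι ϖ'') VA) (hB : s34_Unif (ι ϖ'') VB) (hC : s34_Unif z VC)
    (hAB : VA ≠ VB) (hAC : VA ≠ VC) (hBC : VB ≠ VC)
    (hVi : s34_Unif ϖ'' Vi) (hV0 : s34_Unif ϖ'' V0)
    (hιA : ∀ x ∈ Vi, ι x ∈ VA) (hιC : ∀ x ∈ Vi, ι x ∈ VC) (hιB : ∀ x ∈ V0, ι x ∈ VB)
    (n : ℕ) (hn : 1 ≤ n) (hzn : ι ϖ'' * (z ^ n)⁻¹ ∈ VC) (hzn' : z ^ n * (ι ϖ'')⁻¹ ∈ VC)
    (hresA : ∀ y ∈ VA, ∃ y' ∈ Vi, (ι ϖ'')⁻¹ * (y - ι y') ∈ VA)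
    (hresC : ∀ y ∈ VC, ∃ y' ∈ Vi, z⁻¹ * (y - ι y') ∈ VC)
    (hresB : ∀ y ∈ VB, ∃ b ∈ V0, (ι ϖ'')⁻¹ * (y ^ (n + 1) - ι b) ∈ VB)
    (Nm : s18_F1 K₁ L →* F'') (hNϖ : Nm (ι ϖ'') = ϖ'' ^ (n + 1))
    (hNRram : ∀ h ∈ VA, h ∈ VC → ∀ a ∈ Vi, ∀ c ∈ Vi, (ι ϖ'')⁻¹ * (h - ι a) ∈ VA →
      z⁻¹ * (h - ι c) ∈ VC → ϖ''⁻¹ * (Nm h - a * c ^ n) ∈ Vi)
    (hNRins : ∀ h ∈ VB, ∀ b ∈ V0, (ι ϖ'')⁻¹ * (h ^ (n + 1) - ι b) ∈ VB →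
      ϖ''⁻¹ * (Nm h - b) ∈ V0)
    (W : s18_F1 K₁ L ≃+* s18_F1 K₁ L) (hWAB : ∀ x, x ∈ VB ↔ W x ∈ VA)
    (hWC : ∀ x, x ∈ VC ↔ W x ∈ VC) (hWϖ : W (ι ϖ'') = ι ϖ'') (hWW : ∀ x, W (W x) = x)
    -- the chart block
    (hch : s36_cp3_Chart π t B0 Binf (VA ⊓ VB ⊓ VC))
    -- the exponent
    (m : ℕ) (hm0 : 0 < m) (hmu : IsUnit ((m : ℕ) : s18_A1 A K₁))
    (r s : ℤ) (hrs : r * ((n + 1 : ℕ) : ℤ) + s * m = 1)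
    (ζ₀ : s18_A1 A K₁) (hζ₀ : IsPrimitiveRoot ζ₀ m)
    -- the function and its two norm relations
    (g₁ : s18_F1 K₁ L) (hg₁ : g₁ ≠ 0)
    (hdivg : ∀ P : Place Qb (modularFunctionFieldBar L),
      (m : ℤ) ∣ P.ord (s18_baseIncl K₁ L g₁))
    (γ₁ γ₂ : ℤ) (f₁ f₂ : F'') (hf₁ : f₁ ≠ 0) (hf₂ : f₂ ≠ 0)
    (hN₁ : Nm g₁ = ϖ'' ^ γ₁ * f₁ ^ m) (hN₂ : Nm (W g₁) = ϖ'' ^ γ₂ * f₂ ^ m)
    -- the closed points of the two charts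
    {F₀ : Type*} [Field F₀] {ϖ₀ : F₀} {B₁0 B₁i : Subring F₀} {ιA ιB ιC : F₀ →+* s18_F1 K₁ L}
    (hpts0 : s36_ptb_Pts (algebraMap (s18_A1 A K₁) (s18_F1 K₁ L) π) z B0.toSubring VA VB VC
      (B0.algebraMap_mem π) ϖ₀ B₁0 ιA ιB ιC
      (fun 𝔪 => s36_pm_TriOut ι ϖ'' z VA VB VC Vi V0 Nm W n m r s B0.toSubring 𝔪))
    (hptsi : s36_ptb_Pts (algebraMap (s18_A1 A K₁) (s18_F1 K₁ L) π) z Binf.toSubring VA VB VC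
      (Binf.algebraMap_mem π) ϖ₀ B₁i ιA ιB ιC
      (fun 𝔪 => s36_pm_TriOut ι ϖ'' z VA VB VC Vi V0 Nm W n m r s Binf.toSubring 𝔪)) :
    ∃ x : modularFunctionFieldBar L,
      x ^ m = (s18_baseIncl K₁ L g₁) ^ ((n + 2) * (n * (n + 2))) := by
  have hA' : s34_Unif (algebraMap (s18_A1 A K₁) (s18_F1 K₁ L) π) VA := hιϖ ▸ hA
  have hB' : s34_Unif (algebraMap (s18_A1 A K₁) (s18_F1 K₁ L) π) VB := hιϖ ▸ hB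
  have hϖ0 : algebraMap (s18_A1 A K₁) (s18_F1 K₁ L) π ≠ 0 := hA'.ne_zero
  have hz0 : z ≠ 0 := hC.ne_zero
  have hzpow : z ^ n ≠ 0 := pow_ne_zero n hz0
  have hCe : (algebraMap (s18_A1 A K₁) (s18_F1 K₁ L) π)⁻¹ * z ^ n ∈ VC := by
    rw [← hιϖ, mul_comm]; exact hzn'
  have hCϖ : z⁻¹ * algebraMap (s18_A1 A K₁) (s18_F1 K₁ L) π ∈ VC := by
    obtain ⟨k, rfl⟩ : ∃ k, n = k + 1 := ⟨n - 1, by omega⟩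
    have e : z⁻¹ * algebraMap (s18_A1 A K₁) (s18_F1 K₁ L) π =
        ι ϖ'' * (z ^ (k + 1))⁻¹ * z ^ k := by
      rw [hιϖ, pow_succ]; field_simp
    rw [e]; exact VC.mul_mem hzn (VC.pow_mem hC.mem k)
  have hB0A : B0.toSubring ≤ VA := fun x hx => (hch.hB0V x hx).1.1
  have hB0B : B0.toSubring ≤ VB := fun x hx => (hch.hB0V x hx).1.2
  have hB0C : B0.toSubring ≤ VC := fun x hx => (hch.hB0V x hx).2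
  have hBiA : Binf.toSubring ≤ VA := fun x hx => (hch.hBiV x hx).1.1
  have hBiB : Binf.toSubring ≤ VB := fun x hx => (hch.hBiV x hx).1.2
  have hBiC : Binf.toSubring ≤ VC := fun x hx => (hch.hBiV x hx).2
  exact s36_pow_of_model L A K₁ hπ ι hιϖ VA VB VC Vi V0 hA hB hC hAB hAC hBC hVi hV0 hιA hιC hιB
    n hn hzn hzn' hresA hresC hresB Nm hNϖ hNRram hNRins W hWAB hWC hWϖ hWW
    hB0A hB0B hB0C hBiA hBiB hBiC hch.hcap0 hch.hcapi hch.frac0 hch.t_ne hch.t_mem hch.tinv_mem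
    hch.glue0 hch.glueInf hch.h1 hch.fin m hm0 hmu r s hrs ζ₀ hζ₀ g₁ hg₁ hdivg γ₁ γ₂ f₁ f₂ hf₁
    hf₂ hN₁ hN₂
    (s36_ptb_of_pts hA' hB' hC n hCe hCϖ hB0A hB0B hB0C (B0.algebraMap_mem π) hch.hcap0
      hch.noeth0 hch.frac0 m hm0 (hch.hroot0 m hm0) hpts0)
    (s36_ptb_of_pts hA' hB' hC n hCe hCϖ hBiA hBiB hBiC (Binf.algebraMap_mem π) hch.hcapi
      hch.noethi hch.fraci m hm0 (hch.hrooti m hm0) hptsi)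

end Fermat.Agent.S36
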