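import Mathlib
import Fermat.Agent.S36.NrChain
import Fermat.Agent.S36.PtsPow
import Fermat.Agent.S36.InstNorm
import Fermat.Agent.S18.A1Facts
import Fermat.Agent.S34.FrobRes

/-!
# S36 (NODE-3), layer L4: the power statement from the three structured blocks

`s36_ptb_pow_pkg` : `s36_pow_of_model` with its function-independent hypotheses given as

* `s36_nc_Pkg ι ϖ'' z n Vi V0 VA VB VC W` (`S36/NrChain`): the components block (uniformisers,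
  (EXT), the norm–residue formulas for `Nm = Algebra.norm` along `ι`, the swap);
* `s36_cp3_Chart π t B0 Binf (VA ⊓ VB ⊓ VC)` (`S36/ChartPkg3`): the chart block;
* `s36_ptb_Pts …` for `B0` and `Binf` (`S36/PtsPow`): the closed points.

`s36_ptb_Contract N' q P K₀ W₁ m r s` : the existence of the three blocks in the model of level
`N' q q` over `K₀` (`ι = heckeAlphaBar K₀ (N' q) q`, `ϖ'' = q`, `n = q - 1`, `Nm = Algebra.norm`
along `ι`, uniformiser `π = q` of `s18_A1 P K₀`).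

`s36_ptb_ContractAll N' q` : the contract for all `(P, K₀, m, ζ, W₁, r, s)`;
`s36_ptb_model` : it gives the `K₀`-level model
statement `s36_Model N' q c` of `S36/InstFun` with `c = (q + 1) (q - 1) (q + 1)`.
-/

set_option autoImplicit false
set_option synthInstance.maxHeartbeats 400000

open ModularCurve AlgebraicCurve

noncomputable section

namespace Fermat.Agent.S36

open Fermat.Agent.S18 Fermat.Agent.S34 Fermat.Agent.S35

local notation "Qb" => AlgebraicClosure ℚ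

set_option maxHeartbeats 1000000 in
/-- **(MOD36) from the three blocks.** -/
theorem s36_ptb_pow_pkg (L : ℕ) [NeZero L] (A : ValuationSubring Qb)
    (K₁ : IntermediateField ℚ Qb) [IsDiscreteValuationRing (s18_A1 A K₁)]
    {π : s18_A1 A K₁} (hπ : Irreducible π)
    {t : s18_F1 K₁ L} {B0 Binf : Subalgebra (s18_A1 A K₁) (s18_F1 K₁ L)}
    {F'' : Type*} [Field F''] (ι : F'' →+* s18_F1 K₁ L) {ϖ'' : F''}
    (hιϖ : ι ϖ'' = algebraMap (s18_A1 A K₁) (s18_F1 K₁ L) π)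
    {z : s18_F1 K₁ L} (VA VB VC : Subring (s18_F1 K₁ L)) (Vi V0 : Subring F'') (n : ℕ)
    (W : s18_F1 K₁ L ≃+* s18_F1 K₁ L)
    -- the components block
    (hpk : s36_nc_Pkg ι ϖ'' z n Vi V0 VA VB VC W)
    -- the chart block
    (hch : s36_cp3_Chart π t B0 Binf (VA ⊓ VB ⊓ VC))
    -- the exponent
    (m : ℕ) (hm0 : 0 < m) (hmu : IsUnit ((m : ℕ) : s18_A1 A K₁))
    (r s : ℤ) (hrs : r * ((n + 1 : ℕ) : ℤ) + s * m = 1)
    (ζ₀ : s18_A1 A K₁) (hζ₀ : IsPrimitiveRoot ζ₀ m)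
    -- the function and its two norm relations
    (g₁ : s18_F1 K₁ L) (hg₁ : g₁ ≠ 0)
    (hdivg : ∀ P : Place Qb (modularFunctionFieldBar L),
      (m : ℤ) ∣ P.ord (s18_baseIncl K₁ L g₁))
    (γ₁ γ₂ : ℤ) (f₁ f₂ : F'') (hf₁ : f₁ ≠ 0) (hf₂ : f₂ ≠ 0)
    (hN₁ : @Algebra.norm F'' (s18_F1 K₁ L) _ _ ι.toAlgebra g₁ = ϖ'' ^ γ₁ * f₁ ^ m)
    (hN₂ : @Algebra.norm F'' (s18_F1 K₁ L) _ _ ι.toAlgebra (W g₁) = ϖ'' ^ γ₂ * f₂ ^ m)
    -- the closed points of the two charts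
    {F₀ : Type*} [Field F₀] {ϖ₀ : F₀} {B₁0 B₁i : Subring F₀} {ιA ιB ιC : F₀ →+* s18_F1 K₁ L}
    (hpts0 : s36_ptb_Pts (algebraMap (s18_A1 A K₁) (s18_F1 K₁ L) π) z B0.toSubring VA VB VC
      (B0.algebraMap_mem π) ϖ₀ B₁0 ιA ιB ιC
      (fun 𝔪 => s36_pm_TriOut ι ϖ'' z VA VB VC Vi V0
        (@Algebra.norm F'' (s18_F1 K₁ L) _ _ ι.toAlgebra) W n m r s B0.toSubring 𝔪))
    (hptsi : s36_ptb_Pts (algebraMap (s18_A1 A K₁) (s18_F1 K₁ L) π) z Binf.toSubring VA VB VC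
      (Binf.algebraMap_mem π) ϖ₀ B₁i ιA ιB ιC
      (fun 𝔪 => s36_pm_TriOut ι ϖ'' z VA VB VC Vi V0
        (@Algebra.norm F'' (s18_F1 K₁ L) _ _ ι.toAlgebra) W n m r s Binf.toSubring 𝔪)) :
    ∃ x : modularFunctionFieldBar L,
      x ^ m = (s18_baseIncl K₁ L g₁) ^ ((n + 2) * (n * (n + 2))) :=
  s36_ptb_pow L A K₁ hπ ι hιϖ VA VB VC Vi V0 hpk.hA hpk.hB hpk.hC hpk.hAB hpk.hAC hpk.hBC
    hpk.hVi hpk.hV0 hpk.hιA hpk.hιC hpk.hιB n hpk.hn hpk.hzn hpk.hzn' hpk.hresA hpk.hresC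
    hpk.hresB (@Algebra.norm F'' (s18_F1 K₁ L) _ _ ι.toAlgebra) hpk.hNϖ hpk.hNRram hpk.hNRins
    W hpk.hWAB hpk.hWC hpk.hWϖ hpk.hWW hch m hm0 hmu r s hrs ζ₀ hζ₀ g₁ hg₁ hdivg γ₁ γ₂ f₁ f₂
    hf₁ hf₂ hN₁ hN₂ hpts0 hptsi

/-- **The contract of the three-component model** at level `N' * q * q` over `K₀`, for the
exponent data `m`, `r`, `s`: a uniformiser `π = q` of `s18_A1 P K₀`, charts `B0`, `Binf` glued
along `t`, the components `V_A`, `V_B`, `V_C` (uniformiser `z` of `V_C`), the components `V'_∞`,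
`V'_0` of the level below, a lower field `F₀` with S18 charts `B₁0`, `B₁i` and embeddings
`ιA`, `ιB`, `ιC`, such that the components block (`s36_nc_Pkg`), the chart block
(`s36_cp3_Chart`) and the closed-point blocks of the two charts (`s36_ptb_Pts`, with the
triple-point contract `s36_pm_TriOut`) hold. -/
def s36_ptb_Contract (N' q : ℕ) [NeZero (N' * q)] [NeZero q] [NeZero (N' * q * q)]
    (P : ValuationSubring Qb) (K₀ : IntermediateField ℚ Qb)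
    (W₁ : s18_F1 K₀ (N' * q * q) ≃ₐ[K₀] s18_F1 K₀ (N' * q * q)) (m : ℕ) (r s : ℤ) : Prop :=
  ∃ (π : s18_A1 P K₀) (t : s18_F1 K₀ (N' * q * q))
    (B0 Binf : Subalgebra (s18_A1 P K₀) (s18_F1 K₀ (N' * q * q)))
    (z : s18_F1 K₀ (N' * q * q)) (VA VB VC : Subring (s18_F1 K₀ (N' * q * q)))
    (Vi V0 : Subring (s18_F1 K₀ (N' * q)))
    (F₀ : Type) (_ : Field F₀) (ϖ₀ : F₀) (B₁0 B₁i : Subring F₀)
    (ιA ιB ιC : F₀ →+* s18_F1 K₀ (N' * q * q)),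
    Irreducible π ∧ ((π : s18_A1 P K₀) : K₀) = (q : K₀) ∧
    s36_nc_Pkg (heckeAlphaBar K₀ (N' * q) q).toRingHom
      (algebraMap K₀ (s18_F1 K₀ (N' * q)) (q : K₀)) z (q - 1) Vi V0 VA VB VC
      (W₁ : s18_F1 K₀ (N' * q * q) ≃+* s18_F1 K₀ (N' * q * q)) ∧
    s36_cp3_Chart π t B0 Binf (VA ⊓ VB ⊓ VC) ∧
    s36_ptb_Pts (algebraMap (s18_A1 P K₀) (s18_F1 K₀ (N' * q * q)) π) z B0.toSubring VA VB VC
      (B0.algebraMap_mem π) ϖ₀ B₁0 ιA ιB ιC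
      (fun 𝔪 => s36_pm_TriOut (heckeAlphaBar K₀ (N' * q) q).toRingHom
        (algebraMap K₀ (s18_F1 K₀ (N' * q)) (q : K₀)) z VA VB VC Vi V0
        (@Algebra.norm (s18_F1 K₀ (N' * q)) (s18_F1 K₀ (N' * q * q)) _ _
          (heckeAlphaBar K₀ (N' * q) q).toRingHom.toAlgebra)
        (W₁ : s18_F1 K₀ (N' * q * q) ≃+* s18_F1 K₀ (N' * q * q)) (q - 1) m r s
        B0.toSubring 𝔪) ∧
    s36_ptb_Pts (algebraMap (s18_A1 P K₀) (s18_F1 K₀ (N' * q * q)) π) z Binf.toSubring VA VB VC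
      (Binf.algebraMap_mem π) ϖ₀ B₁i ιA ιB ιC
      (fun 𝔪 => s36_pm_TriOut (heckeAlphaBar K₀ (N' * q) q).toRingHom
        (algebraMap K₀ (s18_F1 K₀ (N' * q)) (q : K₀)) z VA VB VC Vi V0
        (@Algebra.norm (s18_F1 K₀ (N' * q)) (s18_F1 K₀ (N' * q * q)) _ _
          (heckeAlphaBar K₀ (N' * q) q).toRingHom.toAlgebra)
        (W₁ : s18_F1 K₀ (N' * q * q) ≃+* s18_F1 K₀ (N' * q * q)) (q - 1) m r s
        Binf.toSubring 𝔪)

/-- The contract for every valuation `P` over `q`, every inertia-fixed number field `K₀`, every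
exponent `m` prime to `q` with a primitive `m`-th root of unity in `K₀`, every swap `W₁` and every
Bezout pair `r q + s m = 1`. -/
def s36_ptb_ContractAll (N' q : ℕ) [NeZero (N' * q)] [NeZero q] [NeZero (N' * q * q)] : Prop :=
  ∀ P : ValuationSubring Qb, P.LiesOverPrime q →
  ∀ K₀ : IntermediateField ℚ Qb, FiniteDimensional ℚ K₀ →
    (∀ a ∈ K₀, ∀ τ ∈ P.inertiaSubgroupIn ℚ, τ a = a) →
  ∀ m : ℕ, 0 < m → ¬ q ∣ m → ∀ ζ : K₀, IsPrimitiveRoot ζ m →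
  ∀ W₁ : s18_F1 K₀ (N' * q * q) ≃ₐ[K₀] s18_F1 K₀ (N' * q * q), s36_IsSwapK K₀ N' q W₁ →
  ∀ r s : ℤ, r * (q : ℤ) + s * (m : ℤ) = 1 → s36_ptb_Contract N' q P K₀ W₁ m r s

set_option maxHeartbeats 2000000 in
/-- **(INST36)** the `K₀`-level model statement from the contract. -/
theorem s36_ptb_model (N' q : ℕ) [NeZero (N' * q)] [NeZero q] [NeZero (N' * q * q)]
    (hq : q.Prime) (hpkg : s36_ptb_ContractAll N' q) :
    s36_Model N' q ((q - 1 + 2) * ((q - 1) * (q - 1 + 2))) := by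
  intro P hP K₀ hfin hK₀ m hm hqm ζ hζ W₁ hW₁ g₁ hg₁ hdiv hNR
  have : Fact q.Prime := ⟨hq⟩
  have := hfin
  have hDVR : IsDiscreteValuationRing (s18_A1 P K₀) := s18_a1_dvr P hP K₀
  -- Bezout
  have hcop : Nat.Coprime q m := (hq.coprime_iff_not_dvd).mpr hqm
  have hbez := Nat.gcd_eq_gcd_ab q m
  rw [hcop.gcd_eq_one] at hbez
  have hrs : (q.gcdA m) * (q : ℤ) + (q.gcdB m) * (m : ℤ) = 1 := by
    have : ((1 : ℕ) : ℤ) = 1 := Nat.cast_one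
    linarith
  obtain ⟨π, t, B0, Binf, z, VA, VB, VC, Vi, V0, F₀, _, ϖ₀, B₁0, B₁i, ιA, ιB, ιC, hπ, hπq, hpk,
    hch, hpts0, hptsi⟩ := hpkg P hP K₀ hfin hK₀ m hm hqm ζ hζ W₁ hW₁ _ _ hrs
  -- the exponent
  have hmu : IsUnit ((m : ℕ) : s18_A1 P K₀) := s18_a1_isUnit_natCast P hP K₀ m hqm
  have hζA : ζ ∈ s18_A1 P K₀ :=
    s34_fc_root_mem_valuationSubring (s18_A1 P K₀) ζ m hm hζ.pow_eq_one
  have hζ₀ : IsPrimitiveRoot (⟨ζ, hζA⟩ : s18_A1 P K₀) m :=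
    IsPrimitiveRoot.of_map_of_injective (f := (s18_A1 P K₀).subtype) hζ Subtype.coe_injective
  have hq1 : q - 1 + 1 = q := Nat.sub_add_cancel hq.one_lt.le
  have hrs' : (q.gcdA m) * (((q - 1 + 1 : ℕ)) : ℤ) + (q.gcdB m) * (m : ℤ) = 1 := by
    rw [hq1]; exact hrs
  -- the uniformiser
  have hιϖ : (heckeAlphaBar K₀ (N' * q) q).toRingHom
      (algebraMap K₀ (s18_F1 K₀ (N' * q)) (q : K₀)) =
      algebraMap (s18_A1 P K₀) (s18_F1 K₀ (N' * q * q)) π := by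
    rw [← hπq]
    exact s36_in_alpha_const K₀ N' q (π : K₀)
  -- the norm relations
  obtain ⟨γ₁, γ₂, f₁, f₂, hf₁, hf₂, hN₁, hN₂⟩ := s36_in_normRel K₀ N' q m W₁ g₁ hNR
  exact s36_ptb_pow_pkg (N' * q * q) P K₀ hπ (heckeAlphaBar K₀ (N' * q) q).toRingHom hιϖ
    VA VB VC Vi V0 (q - 1) (W₁ : s18_F1 K₀ (N' * q * q) ≃+* s18_F1 K₀ (N' * q * q)) hpk hch
    m hm hmu _ _ hrs' ⟨ζ, hζA⟩ hζ₀ g₁ hg₁ hdiv γ₁ γ₂ f₁ f₂ hf₁ hf₂ hN₁ hN₂ hpts0 hptsi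

/-- The exponent of `s36_ptb_model` is nonzero. -/
theorem s36_ptb_exp_ne (q : ℕ) (hq : q.Prime) : (q - 1 + 2) * ((q - 1) * (q - 1 + 2)) ≠ 0 := by
  have h2 := hq.two_le
  have h1 : q - 1 ≠ 0 := by omega
  exact Nat.mul_ne_zero (by omega) (Nat.mul_ne_zero h1 (by omega))

end Fermat.Agent.S36
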