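import Fermat.Agent.S36.FinalCases
import Fermat.Agent.S36.PtsPkg

/-!
# S36 (NODE-3): the conclusion of S36 from the contract of the three-component model

`s36_final_contract` : if the contract `s36_ptb_ContractAll L' q` (`S36/PtsPkg`: the components
block `s36_nc_Pkg`, the chart block `s36_cp3_Chart` and the closed-point blocks `s36_ptb_Pts` of
the model of level `L' q q` over every inertia-fixed number field) holds

* for every prime `q ≥ 5` and every `L'` prime to `q` divisible by `6`,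
* for `q = 3` and every `L'` prime to `3` divisible by `4`,
* for `q = 2` and every odd `L'` divisible by `9`,

then the conclusion of S36 holds.  (`s36_ptb_model`, `s36_final_cases`.)
-/

set_option autoImplicit false

open Polynomial
open CuspForm

noncomputable section

namespace Fermat.Agent.S36

/-- **S36 from the contract of the model.** -/
theorem s36_final_contract
    (h5 : ∀ (q : ℕ) [NeZero q], q.Prime → 5 ≤ q → ∀ (L' : ℕ) [NeZero L'], ¬ q ∣ L' → 6 ∣ L' →
      s36_ptb_ContractAll L' q)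
    (h3 : ∀ (L' : ℕ) [NeZero L'], ¬ 3 ∣ L' → 4 ∣ L' → s36_ptb_ContractAll L' 3)
    (h2 : ∀ (L' : ℕ) [NeZero L'], ¬ 2 ∣ L' → 9 ∣ L' → s36_ptb_ContractAll L' 2)
    {M : ℕ} [NeZero M] {g : CuspForm (CongruenceSubgroup.Gamma0 M) 2} (hg : g.IsNewform)
    (lam : ℕ) [Fact lam.Prime]
    (S : Finset ℕ)
    (O' : Type) [CommRing O'] [IsDomain O'] [IsDiscreteValuationRing O']
    [IsAdicComplete (IsLocalRing.maximalIdeal O') O'] [Finite (IsLocalRing.ResidueField O')]
    [CharZero O'] (hlamO' : (lam : O') ∈ IsLocalRing.maximalIdeal O')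
    (hlam2 : lam ≠ 2)
    (chig : CuspForm.heckeAlgebra M 2 (↑S : Set ℕ) →+* ℂ)
    (hchig : ∀ (ℓ : ℕ) (hℓ : ℓ.Prime) (hℓM : ¬ ℓ ∣ M) (hℓS : ℓ ∉ (↑S : Set ℕ)),
      chig (CuspForm.heckeAlgebra.T hℓ hℓM hℓS) = ModularFormClass.qCoeff g ℓ)
    (iota : chig.range →+* O')
    (hlamS : lam ∈ S) (hMS : ∀ q : ℕ, q.Prime → q ∣ M → q ∈ S) :
    ∃ (O'' : Type) (_ : CommRing O'') (_ : IsDomain O'') (_ : IsDiscreteValuationRing O'')
      (_ : IsAdicComplete (IsLocalRing.maximalIdeal O'') O'') (_ : Finite (IsLocalRing.ResidueField O''))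
      (_ : CharZero O'') (_ : Algebra O' O'') (_ : Module.Finite O' O'') (_ : IsLocalHom (algebraMap O' O'')),
      Function.Injective (algebraMap O' O'') ∧
      ∃ ρ : GaloisRepAdic O'',
        (∀ (ℓ : ℕ) (hℓ : ℓ.Prime) (hℓM : ¬ ℓ ∣ M) (hℓS : ℓ ∉ (↑S : Set ℕ)),
          ∀ A : ValuationSubring (AlgebraicClosure ℚ), A.LiesOverPrime ℓ →
            ∀ σ : AlgebraicClosure ℚ ≃ₐ[ℚ] AlgebraicClosure ℚ, A.IsFrobeniusAt σ ℓ →
              LinearMap.charpoly (ρ.ρ σ) =
                X ^ 2 - C (algebraMap O' O'' ((iota.comp chig.rangeRestrict) (CuspForm.heckeAlgebra.T hℓ hℓM hℓS))) * X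
                  + C ((ℓ : O''))) ∧
        (∀ q : ℕ, q.Prime → q ≠ lam → M.factorization q = 2 → ¬ ρ.IsUnipotentOnInertiaAt q) :=
  s36_final_cases
    (fun q _ hq h5q L' _ hqL h6 =>
      ⟨_, s36_ptb_exp_ne q hq, s36_ptb_model L' q hq (h5 q hq h5q L' hqL h6)⟩)
    (fun L' _ hqL h4 =>
      ⟨_, s36_ptb_exp_ne 3 Nat.prime_three, s36_ptb_model L' 3 Nat.prime_three (h3 L' hqL h4)⟩)
    (fun L' _ hqL h9 =>
      ⟨_, s36_ptb_exp_ne 2 Nat.prime_two, s36_ptb_model L' 2 Nat.prime_two (h2 L' hqL h9)⟩)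
    hg lam S O' hlamO' hlam2 chig hchig iota hlamS hMS

end Fermat.Agent.S36
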