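import Fermat.Agent.S36.GaussInst

/-!
# S36 (NODE-3), contract item (c-C): the DATA behind the third valuation ring `V_C`

`S36/GaussInst.lean` (`s36_gu_main`) proves the existence of a ring `V` with the basic properties
of the third component.  All other facts about `V_C` (`S36/GaussC.lean`, `S36/CPtTheta.lean`, …)
are stated for the explicit ring `s36_gc_V κ A M Θ` under the hypotheses `s36_gc_IsCusp N q ζ Θ`
and `s36_gc_IsUnif ζ`.  To apply all of them to ONE ring, this file exports the data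
`(K, A, ζ, Θ)` itself (same proof as `s36_gu_main_aux` / `s36_gu_main`):

* `s36_gd_aux` : abstract form (`K₀ ⊆ K ⊆ Q̄` through `κ`, `ι`), `A := P.comap ι`;
* `s36_gd_main` : for `K₀ : IntermediateField ℚ Q̄` all of whose nonzero elements have
  `P`-valuation in `v(q)^ℤ`: there are `K : IntermediateField K₀ Q̄`, a unit `ζ` of
  `A := P.comap (algebraMap K Q̄)` and `Θ : K · F(M) →ₐ[K] K((Q))` with `s36_gc_IsCusp N q ζ Θ`,
  `s36_gc_IsUnif ζ`, `ζ` a primitive `q`-th root of unity, `q` a non-unit of `A`, and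
  `P ∩ K₀ ⊆ A`;
* `s36_gd_props` : the five clauses of `s36_gu_main` for the explicit ring `s36_gc_V κ A M Θ`.
-/

set_option autoImplicit false
set_option linter.style.haveILetI false
set_option linter.unusedSectionVars false
set_option linter.unusedVariables false
set_option synthInstance.maxHeartbeats 400000

open ModularCurve

noncomputable section

namespace Fermat.Agent.S36

open Fermat.Agent.S28 (twistQ)
open Fermat.Agent.S18 Fermat.Agent.S34 Fermat.Agent.S24

/-- **The data of `V_C`, abstract form**: the conclusion of the construction in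
`s36_gu_main_aux` before the ring `s36_gc_V κ (P.comap ι) M Θ` is hidden. -/
theorem s36_gd_aux {K0 K : Type*} [Field K0] [Field K] [Algebra ℚ K0] [Algebra ℚ K]
    (κ : K0 →+* K) (ι : K →+* Kbar) (P : ValuationSubring Kbar)
    (N q M : ℕ) [NeZero N] (hq : q.Prime) (hM : M = N * q ^ 2) (hP : P.LiesOverPrime q)
    (a e : ℤ) (hae : a * N + e * q = 1) (ζ : Kˣ)
    (hζ : iotaK (ι (ζ : K)) =
      Fermat.Agent.S28.zetaN (N * q ^ 2) ^ (a * ((N * q ^ 2 / q : ℕ) : ℤ)))
    (hζprim : IsPrimitiveRoot (ζ : K) q)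
    (hunif : ∀ b : K0, b ≠ 0 → ∃ m : ℤ, P.valuation (ι (κ b)) = P.valuation (q : Kbar) ^ m)
    (hspan : ∀ x : K, ∃ (d : ℕ) (b : ℕ → K0), d ≤ q - 1 ∧
      x = ∑ i ∈ Finset.range d, κ (b i) * ((ζ : K) - 1) ^ i) :
    ∃ (ζA : (P.comap ι)ˣ)
      (Θ : laurentBaseChange K (modularFunctionFieldFull M) →ₐ[K] LaurentSeries K),
      s36_gc_IsCusp N q ζA Θ ∧ s36_gc_IsUnif ζA ∧ IsPrimitiveRoot (ζA : P.comap ι) q ∧
      IsLocalRing.residue (P.comap ι) ((q : ℕ) : P.comap ι) = 0 ∧
      ((ζA : P.comap ι) : K) = (ζ : K) := by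
  subst hM
  -- the valuation ring of `K`
  set A : ValuationSubring K := P.comap ι with hA
  have hmemA : ∀ x : K, x ∈ A ↔ ι x ∈ P := fun x => ValuationSubring.mem_comap
  -- `ζ` as a unit of `A`
  have hζq : (ζ : K) ^ q = 1 := hζprim.pow_eq_one
  have hζinvq : ((ζ⁻¹ : Kˣ) : K) ^ q = 1 := by
    have hζq' : ζ ^ q = 1 := Units.ext (by rw [Units.val_pow_eq_pow_val]; exact hζq)
    rw [← Units.val_pow_eq_pow_val, inv_pow, hζq', inv_one]
    rfl
  have h1 : (ζ : K) ∈ A := s36_gu_mem_of_pow_eq_one A _ q hq.ne_zero hζq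
  have h2 : ((ζ⁻¹ : Kˣ) : K) ∈ A := s36_gu_mem_of_pow_eq_one A _ q hq.ne_zero hζinvq
  let ζA : Aˣ := ⟨⟨(ζ : K), h1⟩, ⟨((ζ⁻¹ : Kˣ) : K), h2⟩, Subtype.ext (Units.mul_inv ζ),
    Subtype.ext (Units.inv_mul ζ)⟩
  have hζA : Units.map (A.subtype : A →* K) ζA = ζ := Units.ext rfl
  have hprimA : IsPrimitiveRoot (ζA : A) q :=
    IsPrimitiveRoot.of_map_of_injective (f := A.subtype) hζprim Subtype.val_injective
  -- the embedding at the cusp
  obtain ⟨Θ, hΘ⟩ := s36_ce_theta ι N q hq a e hae ζ hζ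
  have hcusp : s36_gc_IsCusp N q ζA Θ := by
    refine ⟨fun d m hd hm hmem => ?_, fun x hx hmem => s36_ce_theta_low N q hq ζ Θ hΘ x hx hmem⟩
    rw [hζA]
    exact hΘ d m hd hm hmem
  -- `q` is not a unit of `A`
  have hqA : IsLocalRing.residue A (q : A) = 0 := by
    rw [IsLocalRing.residue_eq_zero_iff]
    by_contra hnot
    have hu : IsUnit (q : A) := IsLocalRing.notMem_maximalIdeal.mp hnot
    obtain ⟨w, hw⟩ := hu.exists_right_inv
    have h3 : (q : Kbar) * ι (w : K) = 1 := by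
      have h4 : ((q : A) : K) * (w : K) = 1 := congrArg Subtype.val hw
      have h5 := congrArg ι h4
      rw [map_mul, map_one] at h5
      rw [← h5]
      congr 1
      simp
    have h5 : ι (w : K) ∈ P := (hmemA _).mp w.2
    have h6 : P.valuation (q : Kbar) < 1 := (ValuationSubring.mem_nonunits_iff _).mp hP
    have h7 : P.valuation (ι (w : K)) ≤ 1 := (P.valuation_le_one_iff _).mpr h5
    have h8 : P.valuation (q : Kbar) * P.valuation (ι (w : K)) = 1 := by
      rw [← map_mul, h3, map_one]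
    have h9 : P.valuation (q : Kbar) * P.valuation (ι (w : K)) < 1 :=
      lt_of_le_of_lt (mul_le_of_le_one_right' h7) h6
    rw [h8] at h9
    exact lt_irrefl _ h9
  -- valuations of `K₀`
  have hK0 : ∀ b : K0, b ≠ 0 → ∃ m : ℤ, A.valuation (κ b) = A.valuation (q : K) ^ m := by
    intro b hb
    obtain ⟨m, hm⟩ := hunif b hb
    refine ⟨m, ?_⟩
    have hq0 : (q : K) ≠ 0 := by
      intro h0
      have h3 : (q : Kbar) = 0 := by
        have := congrArg ι h0
        simpa using this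
      exact hq.ne_zero (by exact_mod_cast h3)
    have h3 : A.valuation (κ b * ((q : K) ^ m)⁻¹) = 1 := by
      apply s36_gu_val_comap
      rw [map_mul, map_inv₀, map_zpow₀, map_natCast, map_mul, map_inv₀, map_zpow₀, hm]
      have hq0' : P.valuation (q : Kbar) ≠ 0 := by
        rw [Ne, map_eq_zero]
        exact_mod_cast hq.ne_zero
      exact mul_inv_cancel₀ (zpow_ne_zero _ hq0')
    have h4 : κ b = κ b * ((q : K) ^ m)⁻¹ * (q : K) ^ m := by
      rw [mul_assoc, inv_mul_cancel₀ (zpow_ne_zero _ hq0), mul_one]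
    rw [h4, map_mul, h3, one_mul, map_zpow₀]
  have hunifA : s36_gc_IsUnif ζA := s36_gu_isUnif κ A q hq ζA hprimA hqA hK0 hspan
  exact ⟨ζA, Θ, hcusp, hunifA, hprimA, hqA, rfl⟩

/-- **The data of `V_C`.**  `P` a valuation ring of `Q̄` over `q`, `K₀ ⊆ Q̄` a field all of whose
nonzero elements have `P`-valuation in `v(q)^ℤ`, `q ∤ N`, `M = N q²`.  There are a field
`K₀ ⊆ K ⊆ Q̄` (`K = K₀(ζ_q)`), a unit `ζ` of `A := P ∩ K` and the embedding `Θ` of `K · F(M)` at
the cusp `1/q`, satisfying the hypotheses `s36_gc_IsCusp`, `s36_gc_IsUnif` of `S36/GaussC.lean`.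
The third valuation ring is `V_C := s36_gc_V (algebraMap K₀ K) A M Θ`. -/
theorem s36_gd_main (P : ValuationSubring Kbar) (K0 : IntermediateField ℚ Kbar) (N q M : ℕ)
    [NeZero N] (hq : q.Prime) (hqN : ¬ q ∣ N) (hM : M = N * q ^ 2) (hP : P.LiesOverPrime q)
    (hunif : ∀ b : K0, b ≠ 0 → ∃ m : ℤ, P.valuation (b : Kbar) = P.valuation (q : Kbar) ^ m) :
    ∃ (K : IntermediateField K0 Kbar) (ζ : (P.comap (algebraMap K Kbar))ˣ)
      (Θ : laurentBaseChange K (modularFunctionFieldFull M) →ₐ[K] LaurentSeries K),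
      s36_gc_IsCusp N q ζ Θ ∧ s36_gc_IsUnif ζ ∧
      IsPrimitiveRoot (ζ : P.comap (algebraMap K Kbar)) q ∧
      IsLocalRing.residue (P.comap (algebraMap K Kbar))
        ((q : ℕ) : P.comap (algebraMap K Kbar)) = 0 ∧
      (∀ b ∈ s18_A1 P K0, algebraMap K0 K b ∈ P.comap (algebraMap K Kbar)) := by
  obtain ⟨a, e, ζ₁, hae, hζ₁, hζ₁c⟩ := s36_gu_root N q hq hqN
  have hint : IsIntegral K0 (ζ₁ - 1) :=
    (s18_d1_qbar_isAlgebraic.isAlgebraic (ζ₁ - 1)).isIntegral.tower_top
  have hlam : ζ₁ - 1 ∈ IntermediateField.adjoin K0 ({ζ₁ - 1} : Set Kbar) :=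
    IntermediateField.mem_adjoin_simple_self K0 _
  have hζmem : ζ₁ ∈ IntermediateField.adjoin K0 ({ζ₁ - 1} : Set Kbar) := by
    have := add_mem hlam (one_mem _)
    rwa [sub_add_cancel] at this
  have hζ0 : ζ₁ ≠ 0 := hζ₁.ne_zero hq.ne_zero
  refine Exists.elim (s36_gd_aux (K := IntermediateField.adjoin K0 ({ζ₁ - 1} : Set Kbar))
    (algebraMap K0 (IntermediateField.adjoin K0 ({ζ₁ - 1} : Set Kbar)))
    (algebraMap (IntermediateField.adjoin K0 ({ζ₁ - 1} : Set Kbar)) Kbar) P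
    N q M hq hM hP a e hae
    (Units.mk0 ⟨ζ₁, hζmem⟩ (fun h => hζ0 (congrArg Subtype.val h))) hζ₁c ?_
    (fun b hb => hunif b hb) ?_) (fun ζA hζA => ?_)
  · exact IsPrimitiveRoot.of_map_of_injective
      (f := algebraMap (IntermediateField.adjoin K0 ({ζ₁ - 1} : Set Kbar)) Kbar) hζ₁
      (algebraMap (IntermediateField.adjoin K0 ({ζ₁ - 1} : Set Kbar)) Kbar).injective
  · intro x
    obtain ⟨f, hf, hx⟩ := (IntermediateField.adjoin.powerBasis hint).exists_eq_aeval x
    refine ⟨(IntermediateField.adjoin.powerBasis hint).dim, fun i => f.coeff i, ?_, ?_⟩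
    · rw [IntermediateField.adjoin.powerBasis_dim]
      have hmonic : ((Polynomial.cyclotomic q K0).comp
          (Polynomial.X + Polynomial.C (1 : K0))).Monic :=
        (Polynomial.cyclotomic.monic q K0).comp (Polynomial.monic_X_add_C 1)
          (by rw [Polynomial.natDegree_X_add_C]; exact one_ne_zero)
      have hroot : Polynomial.aeval (ζ₁ - 1) ((Polynomial.cyclotomic q K0).comp
          (Polynomial.X + Polynomial.C (1 : K0))) = 0 := by
        rw [Polynomial.aeval_comp]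
        have e1 : Polynomial.aeval (ζ₁ - 1) (Polynomial.X + Polynomial.C (1 : K0)) = ζ₁ := by
          simp
        rw [e1, Polynomial.aeval_def, Polynomial.eval₂_eq_eval_map, Polynomial.map_cyclotomic]
        exact hζ₁.isRoot_cyclotomic hq.pos
      have h1 := Polynomial.natDegree_le_natDegree (minpoly.min K0 (ζ₁ - 1) hmonic hroot)
      rw [Polynomial.natDegree_comp, Polynomial.natDegree_cyclotomic, Polynomial.natDegree_X_add_C,
        mul_one, Nat.totient_prime hq] at h1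
      exact h1
    · rw [hx, Polynomial.aeval_eq_sum_range' hf]
      refine Finset.sum_congr rfl (fun i _ => ?_)
      rw [Algebra.smul_def]
      congr 1
  · obtain ⟨Θ, h1, h2, h3, h4, -⟩ := hζA
    exact ⟨IntermediateField.adjoin K0 ({ζ₁ - 1} : Set Kbar), ζA, Θ, h1, h2, h3, h4,
      fun b hb => hb⟩

/-- The five clauses of `s36_gu_main` for the explicit ring `s36_gc_V κ A M Θ`, from the data. -/
theorem s36_gd_props {K0 K : Type*} [Field K0] [Field K] [Algebra ℚ K0] [Algebra ℚ K]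
    (κ : K0 →+* K) (A : ValuationSubring K) (A0 : ValuationSubring K0)
    (hA0 : ∀ b ∈ A0, κ b ∈ A) (N q M : ℕ) [NeZero N] (hq : q.Prime) (hM : M = N * q ^ 2)
    (hqM : q ^ 2 ∣ M) (ζ : Aˣ)
    (Θ : laurentBaseChange K (modularFunctionFieldFull M) →ₐ[K] LaurentSeries K)
    (hcusp : s36_gc_IsCusp N q ζ Θ) (hunifA : s36_gc_IsUnif ζ)
    (hprimA : IsPrimitiveRoot (ζ : A) q) :
    s34_Unif (s36_gc_z K0 q M hq hqM) (s36_gc_V κ A M Θ) ∧
      algebraMap K0 (laurentBaseChange K0 (modularFunctionFieldFull M)) (q : K0) *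
        (s36_gc_z K0 q M hq hqM ^ (q - 1))⁻¹ ∈ s36_gc_V κ A M Θ ∧
      s36_gc_z K0 q M hq hqM ^ (q - 1) *
        (algebraMap K0 (laurentBaseChange K0 (modularFunctionFieldFull M)) (q : K0))⁻¹ ∈
          s36_gc_V κ A M Θ ∧
      (∀ b ∈ A0, algebraMap K0 (laurentBaseChange K0 (modularFunctionFieldFull M)) b ∈
        s36_gc_V κ A M Θ) ∧
      (∀ (x : laurentBaseChange K0 (modularFunctionFieldFull M))
        (x' : laurentBaseChange K0 (modularFunctionFieldFull (N * q))),
        (x : LaurentSeries K0) = (x' : LaurentSeries K0) → x' ∈ s34_gi_V A0 (N * q) →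
          x ∈ s36_gc_V κ A M Θ) := by
  obtain ⟨c, hcu, hc⟩ := s36_gu_q_eq q hq (ζ : A) hprimA
  exact ⟨s36_gc_unif hcusp hq hM hunifA _ rfl, s36_gc_q_div hcusp hq hqM hunifA.1 c hc _ rfl,
    s36_gc_zpow_div_q hcusp hq hqM hunifA.1 c hc hcu _ rfl,
    fun b hb => s36_gc_const_mem b (hA0 b hb),
    fun x x' hxx' hx' => s36_gc_low_mem hcusp A0 hA0 x x' hxx' hx'⟩

end Fermat.Agent.S36
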