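import Fermat.Agent.S36.GaussC
import Fermat.Agent.S18.Setup

/-!
# S36 (NODE-3), leaf (GC), instantiation: `ζ - 1` is a uniformizer of `A ∩ K₀(ζ)`

`K = K₀(ζ)`, `ζ` a primitive `q`-th root of unity, `A` a valuation ring of `K` such that `q` is a
uniformizer of `A ∩ K₀`.  Every `x ∈ K` is `∑_{i < q-1} b_i (ζ-1)^i` with `b_i ∈ K₀`, and the
nonzero terms have pairwise distinct valuations (`v(b_i) ∈ v(q)^ℤ = v(ζ-1)^((q-1)ℤ)`).  Hence
`v(x) ∈ v(ζ-1)^ℤ`: `ζ - 1` is a uniformizer of `A` (`s36_gu_isUnif`), which is the hypothesis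
`s36_gc_IsUnif` of `S36/GaussC.lean`.
-/

set_option autoImplicit false
set_option linter.style.haveILetI false
set_option linter.unusedSectionVars false
set_option synthInstance.maxHeartbeats 400000

open ModularCurve

noncomputable section

namespace Fermat.Agent.S36

open Fermat.Agent.S28 (twistQ)
open Fermat.Agent.S18 Fermat.Agent.S34 Fermat.Agent.S24

/-! ### Sums of terms with pairwise distinct valuations -/

section Val

variable {K : Type*} [Field K] {Γ₀ : Type*} [LinearOrderedCommGroupWithZero Γ₀]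
  (v : Valuation K Γ₀)

/-- If `v(μ)^n = v(ϖ) < 1` and the `t i` (`i < d ≤ n`) have valuations in `v(ϖ)^ℤ`, then the
valuation of `∑ t i μ'^i` (any `μ'` with `v μ' = v μ`) is the valuation of one of its terms. -/
theorem s36_gu_val (n : ℕ) (ϖ μ : K) (hμ : v μ ^ n = v ϖ) (hϖ1 : v ϖ < 1) (hϖ0 : v ϖ ≠ 0)
    (d : ℕ) (hd : d ≤ n) (t : ℕ → K) (ht : ∀ i, t i ≠ 0 → ∃ m : ℤ, v (t i) = v ϖ ^ m)
    (hne : ∃ i ∈ Finset.range d, t i ≠ 0) :
    ∃ i₀ ∈ Finset.range d, t i₀ ≠ 0 ∧ ∀ μ' : K, v μ' = v μ →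
      v (∑ i ∈ Finset.range d, t i * μ' ^ i) = v (t i₀) * v μ ^ i₀ := by
  classical
  have hn : 0 < n := by
    obtain ⟨i, hi, -⟩ := hne
    rw [Finset.mem_range] at hi
    omega
  have hμ0 : v μ ≠ 0 := by
    intro h0
    rw [h0, zero_pow hn.ne'] at hμ
    exact hϖ0 hμ.symm
  have hμpos : 0 < v μ := zero_lt_iff.mpr hμ0
  have hμ1 : v μ < 1 := by
    by_contra h
    rw [not_lt] at h
    have h1 : 1 ≤ v μ ^ n := one_le_pow₀ h
    rw [hμ] at h1
    exact absurd hϖ1 (not_lt.mpr h1)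
  obtain ⟨i₀, hi₀, hmax⟩ := Finset.exists_max_image (Finset.range d)
    (fun i => v (t i) * v μ ^ i) (by obtain ⟨i, hi, -⟩ := hne; exact ⟨i, hi⟩)
  have hpos : ∀ i, t i ≠ 0 → v (t i) * v μ ^ i ≠ 0 := fun i hi =>
    mul_ne_zero ((map_ne_zero v).mpr hi) (pow_ne_zero _ hμ0)
  have hi₀ne : t i₀ ≠ 0 := by
    obtain ⟨i, hi, hti⟩ := hne
    intro h0
    have h1 := hmax i hi
    rw [h0, map_zero, zero_mul] at h1
    exact hpos i hti (le_antisymm h1 zero_le)
  refine ⟨i₀, hi₀, hi₀ne, ?_⟩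
  intro μ' hμ'
  have hterm : ∀ i, v (t i * μ' ^ i) = v (t i) * v μ ^ i := fun i => by
    rw [map_mul, map_pow, hμ']
  rw [Valuation.map_sum_eq_of_lt v hi₀ (f := fun i => t i * μ' ^ i), hterm]
  intro j hj
  rw [Finset.mem_sdiff, Finset.mem_singleton] at hj
  rw [hterm, hterm]
  refine lt_of_le_of_ne (hmax j hj.1) ?_
  intro heq
  have htj : t j ≠ 0 := by
    intro h0
    apply hpos i₀ hi₀ne
    rw [← heq, h0, map_zero, zero_mul]
  obtain ⟨m₁, hm₁⟩ := ht i₀ hi₀ne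
  obtain ⟨m₂, hm₂⟩ := ht j htj
  have e : ∀ (i : ℕ) (m : ℤ), v ϖ ^ m * v μ ^ i = v μ ^ ((n : ℤ) * m + i) := by
    intro i m
    rw [← hμ, zpow_add₀ hμ0, zpow_mul, zpow_natCast, zpow_natCast]
  have h3 : v μ ^ ((n : ℤ) * m₂ + j) = v μ ^ ((n : ℤ) * m₁ + i₀) := by
    rw [← e, ← e, ← hm₁, ← hm₂]
    exact heq
  have h4 := (zpow_right_inj₀ hμpos hμ1.ne).mp h3
  have hj' := Finset.mem_range.mp hj.1
  have hi' := Finset.mem_range.mp hi₀
  have h6 : (n : ℤ) ∣ (i₀ : ℤ) - j := ⟨m₂ - m₁, by linarith⟩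
  have h7 : |(i₀ : ℤ) - j| < n := by
    rw [abs_lt]
    constructor <;> omega
  have h8 := Int.eq_zero_of_abs_lt_dvd h6 h7
  exact hj.2 (by omega)

end Val

/-! ### `ζ - 1` is a uniformizer -/

section Unif

/-- `q = (ζ - 1)^(q-1) · c` with `c` a unit. -/
theorem s36_gu_q_eq {R : Type*} [CommRing R] [IsDomain R] (q : ℕ) (hq : q.Prime) (ζ : R)
    (hζ : IsPrimitiveRoot ζ q) :
    ∃ c : R, IsUnit c ∧ (q : R) = (ζ - 1) ^ (q - 1) * c := by
  obtain ⟨n, rfl⟩ : ∃ n, q = n + 1 := ⟨q - 1, (Nat.succ_pred_eq_of_pos hq.pos).symm⟩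
  have h1 := hζ.prod_one_sub_pow_eq_order
  refine ⟨∏ k ∈ Finset.range n, -∑ i ∈ Finset.range (k + 1), ζ ^ i, ?_, ?_⟩
  · rw [IsUnit.prod_iff]
    intro k hk
    rw [Finset.mem_range] at hk
    refine (hζ.geom_sum_isUnit hq.two_le ?_).neg
    exact ((Nat.Prime.coprime_iff_not_dvd hq).mpr
      (Nat.not_dvd_of_pos_of_lt (Nat.succ_pos k) (by omega))).symm
  · have h2 : ∀ k ∈ Finset.range n, (1 - ζ ^ (k + 1)) =
        (ζ - 1) * -∑ i ∈ Finset.range (k + 1), ζ ^ i := by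
      intro k _
      have := mul_geom_sum ζ (k + 1)
      linear_combination this
    rw [Finset.prod_congr rfl h2, Finset.prod_mul_distrib, Finset.prod_const,
      Finset.card_range] at h1
    rw [Nat.add_sub_cancel, h1]
    push_cast
    ring

variable {K0 K : Type*} [Field K0] [Field K] (κ : K0 →+* K) (A : ValuationSubring K)

/-- **(U')** If `q` is a uniformizer of `A ∩ K₀` (valuations of `K₀ˣ` are powers of `v(q)`) and
every element of `K` is a `K₀`-combination of `(ζ-1)^i`, `i < q - 1`, then `ζ - 1` is a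
uniformizer of `A`. -/
theorem s36_gu_isUnif (q : ℕ) (hq : q.Prime) (ζ : Aˣ) (hζ : IsPrimitiveRoot (ζ : A) q)
    (hqA : IsLocalRing.residue A (q : A) = 0)
    (hK0 : ∀ b : K0, b ≠ 0 → ∃ m : ℤ, A.valuation (κ b) = A.valuation (q : K) ^ m)
    (hspan : ∀ x : K, ∃ (d : ℕ) (b : ℕ → K0), d ≤ q - 1 ∧
      x = ∑ i ∈ Finset.range d, κ (b i) * (((ζ : A) : K) - 1) ^ i) :
    s36_gc_IsUnif ζ := by
  have hζ1 : (ζ : A) ≠ 1 := hζ.ne_one hq.one_lt
  refine ⟨hζ1, s36_gc_res_zeta q hq (ζ : A) hζ hqA, ?_⟩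
  have hlam0 : (((ζ : A) : K) - 1) ≠ 0 := by
    intro h0
    apply hζ1
    apply Subtype.ext
    exact sub_eq_zero.mp h0
  obtain ⟨c, hcu, hc⟩ := s36_gu_q_eq q hq (ζ : A) hζ
  have hvc : A.valuation (c : K) = 1 := (A.valuation_eq_one_iff c).mp hcu
  have hvq : A.valuation (((ζ : A) : K) - 1) ^ (q - 1) = A.valuation (q : K) := by
    have h1 : (q : K) = (((ζ : A) : K) - 1) ^ (q - 1) * (c : K) := by
      have h2 := congrArg (Subtype.val) hc
      push_cast at h2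
      exact h2
    rw [h1, map_mul, map_pow, hvc, mul_one]
  have hvlam0 : A.valuation (((ζ : A) : K) - 1) ≠ 0 := (map_ne_zero _).mpr hlam0
  have hvq0 : A.valuation (q : K) ≠ 0 := by
    rw [← hvq]
    exact pow_ne_zero _ hvlam0
  have hvq1 : A.valuation (q : K) < 1 := by
    have h1 : (q : A) ∈ IsLocalRing.maximalIdeal A := (IsLocalRing.residue_eq_zero_iff _).mp hqA
    have h2 := (A.valuation_lt_one_iff (q : A)).mp h1
    simpa using h2
  have hvlam1 : A.valuation (((ζ : A) : K) - 1) < 1 := by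
    by_contra h
    rw [not_lt] at h
    have h1 : 1 ≤ A.valuation (((ζ : A) : K) - 1) ^ (q - 1) := one_le_pow₀ h
    rw [hvq] at h1
    exact absurd hvq1 (not_lt.mpr h1)
  intro r hr
  have hx0 : (r : K) ≠ 0 := fun h => hr (Subtype.ext h)
  obtain ⟨d, b, hd, hx⟩ := hspan (r : K)
  have hne : ∃ i ∈ Finset.range d, κ (b i) ≠ 0 := by
    by_contra hcon
    apply hx0
    rw [hx]
    refine Finset.sum_eq_zero (fun i hi => ?_)
    have : κ (b i) = 0 := by
      by_contra h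
      exact hcon ⟨i, hi, h⟩
    rw [this, zero_mul]
  obtain ⟨i₀, -, hti₀, hval⟩ := s36_gu_val A.valuation (q - 1) (q : K) (((ζ : A) : K) - 1) hvq
    hvq1 hvq0 d hd (fun i => κ (b i))
    (fun i hi => hK0 (b i) (fun h0 => hi (by rw [h0, map_zero]))) hne
  have h1 := hval (((ζ : A) : K) - 1) rfl
  rw [← hx] at h1
  obtain ⟨m, hm⟩ := hK0 (b i₀) (fun h0 => hti₀ (by rw [h0, map_zero]))
  have h2 : A.valuation (r : K) =
      A.valuation (((ζ : A) : K) - 1) ^ (((q - 1 : ℕ) : ℤ) * m + i₀) := by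
    rw [h1, hm, ← hvq, zpow_add₀ hvlam0, zpow_mul, zpow_natCast, zpow_natCast]
  have he0 : 0 ≤ ((q - 1 : ℕ) : ℤ) * m + i₀ := by
    have h3 : A.valuation (r : K) ≤ 1 := A.valuation_le_one r
    rw [h2] at h3
    exact (zpow_le_one_iff_right_of_lt_one₀ (zero_lt_iff.mpr hvlam0) hvlam1).mp h3
  obtain ⟨n, hn⟩ := Int.eq_ofNat_of_zero_le he0
  have hr'v : A.valuation ((r : K) * ((((ζ : A) : K) - 1) ^ n)⁻¹) = 1 := by
    rw [map_mul, map_inv₀, map_pow, h2, hn, zpow_natCast,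
      mul_inv_cancel₀ (pow_ne_zero _ hvlam0)]
  have hr'mem : (r : K) * ((((ζ : A) : K) - 1) ^ n)⁻¹ ∈ A :=
    (A.valuation_le_one_iff _).mp hr'v.le
  refine ⟨n, ⟨_, hr'mem⟩, ?_, ?_⟩
  · apply Subtype.ext
    show (r : K) = (((ζ : A) : K) - 1) ^ n * ((r : K) * ((((ζ : A) : K) - 1) ^ n)⁻¹)
    field_simp
  · rw [Ne, IsLocalRing.residue_eq_zero_iff]
    intro hmem
    exact (IsLocalRing.mem_maximalIdeal _).mp hmem
      ((A.valuation_eq_one_iff ⟨_, hr'mem⟩).mpr hr'v)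

end Unif

/-! ### The instantiation -/

section Inst

/-- A root of unity lies in every valuation ring. -/
theorem s36_gu_mem_of_pow_eq_one {K : Type*} [Field K] (A : ValuationSubring K) (x : K) (n : ℕ)
    (hn : n ≠ 0) (hx : x ^ n = 1) : x ∈ A := by
  rcases A.mem_or_inv_mem x with h | h
  · exact h
  · have hx0 : x ≠ 0 := by
      rintro rfl
      rw [zero_pow hn] at hx
      exact zero_ne_one hx
    have e : x = (x⁻¹) ^ (n - 1) := by
      rw [inv_pow]
      exact eq_inv_of_mul_eq_one_left (by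
        rw [← pow_succ', Nat.sub_add_cancel (Nat.pos_of_ne_zero hn), hx])
    rw [e]
    exact pow_mem h _

/-- Valuation one upstairs gives valuation one for the pulled-back valuation ring. -/
theorem s36_gu_val_comap {K L : Type*} [Field K] [Field L] (ι : K →+* L) (P : ValuationSubring L)
    (x : K) (hx : P.valuation (ι x) = 1) : (P.comap ι).valuation x = 1 := by
  have hx0 : x ≠ 0 := by
    rintro rfl
    rw [map_zero, map_zero] at hx
    exact zero_ne_one hx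
  have h1 : x ∈ P.comap ι := by
    rw [ValuationSubring.mem_comap, ← ValuationSubring.valuation_le_one_iff, hx]
  have h2 : x⁻¹ ∈ P.comap ι := by
    rw [ValuationSubring.mem_comap, ← ValuationSubring.valuation_le_one_iff, map_inv₀, map_inv₀,
      hx, inv_one]
  have h3 := ((P.comap ι).valuation_le_one_iff x).mpr h1
  have h4 := ((P.comap ι).valuation_le_one_iff x⁻¹).mpr h2
  rw [map_inv₀] at h4
  have hpos : 0 < (P.comap ι).valuation x := zero_lt_iff.mpr ((map_ne_zero _).mpr hx0)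
  exact le_antisymm h3 ((inv_le_one₀ hpos).mp h4)

/-- **(c-C), abstract instantiation.**  `K₀ ⊆ K ⊆ Q̄` (`κ`, `ι`), `P` a valuation ring of `Q̄` over
`q`, `q` a uniformizer of `P ∩ K₀`, `ζ ∈ K` the primitive `q`-th root of unity `e^{2πi a/q}`
(`a N ≡ 1 mod q`), `K = K₀[ζ]`.  Then `K₀ · F(N q²)` has a discrete valuation ring `V_C` with
uniformizer `z_C = j(Q^(q²)) - j(Q)`, `q = unit · z_C^(q-1)`, containing `P ∩ K₀` and the Gauss
ring at infinity of level `N q`. -/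
theorem s36_gu_main_aux {K0 K : Type*} [Field K0] [Field K] [Algebra ℚ K0] [Algebra ℚ K]
    (κ : K0 →+* K) (ι : K →+* Kbar) (P : ValuationSubring Kbar) (A0 : ValuationSubring K0)
    (hA0 : ∀ b ∈ A0, ι (κ b) ∈ P)
    (N q M : ℕ) [NeZero N] (hq : q.Prime) (hM : M = N * q ^ 2) (hP : P.LiesOverPrime q)
    (a e : ℤ) (hae : a * N + e * q = 1) (ζ : Kˣ)
    (hζ : iotaK (ι (ζ : K)) =
      Fermat.Agent.S28.zetaN (N * q ^ 2) ^ (a * ((N * q ^ 2 / q : ℕ) : ℤ)))
    (hζprim : IsPrimitiveRoot (ζ : K) q)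
    (hunif : ∀ b : K0, b ≠ 0 → ∃ m : ℤ, P.valuation (ι (κ b)) = P.valuation (q : Kbar) ^ m)
    (hspan : ∀ x : K, ∃ (d : ℕ) (b : ℕ → K0), d ≤ q - 1 ∧
      x = ∑ i ∈ Finset.range d, κ (b i) * ((ζ : K) - 1) ^ i)
    (hqM : q ^ 2 ∣ M) :
    ∃ V : Subring (laurentBaseChange K0 (modularFunctionFieldFull M)),
      s34_Unif (s36_gc_z K0 q M hq hqM) V ∧
      algebraMap K0 (laurentBaseChange K0 (modularFunctionFieldFull M)) (q : K0) *
        (s36_gc_z K0 q M hq hqM ^ (q - 1))⁻¹ ∈ V ∧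
      s36_gc_z K0 q M hq hqM ^ (q - 1) *
        (algebraMap K0 (laurentBaseChange K0 (modularFunctionFieldFull M)) (q : K0))⁻¹ ∈ V ∧
      (∀ b ∈ A0, algebraMap K0 (laurentBaseChange K0 (modularFunctionFieldFull M)) b ∈ V) ∧
      (∀ (x : laurentBaseChange K0 (modularFunctionFieldFull M))
        (x' : laurentBaseChange K0 (modularFunctionFieldFull (N * q))),
        (x : LaurentSeries K0) = (x' : LaurentSeries K0) → x' ∈ s34_gi_V A0 (N * q) → x ∈ V) := by
  subst hM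
  -- the valuation ring of `K`
  set A : ValuationSubring K := P.comap ι with hA
  have hmemA : ∀ x : K, x ∈ A ↔ ι x ∈ P := fun x => ValuationSubring.mem_comap
  -- `ζ` as a unit of `A`
  have hζq : (ζ : K) ^ q = 1 := hζprim.pow_eq_one
  have hζinvq : ((ζ⁻¹ : Kˣ) : K) ^ q = 1 := by
    have hζq' : ζ ^ q = 1 := Units.ext (by rw [Units.val_pow_eq_pow_val]; exact hζq)
    rw [← Units.val_pow_eq_pow_val, inv_pow, hζq', inv_one]
    rfl
  have h1 : (ζ : K) ∈ A := s36_gu_mem_of_pow_eq_one A _ q hq.ne_zero hζq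
  have h2 : ((ζ⁻¹ : Kˣ) : K) ∈ A := s36_gu_mem_of_pow_eq_one A _ q hq.ne_zero hζinvq
  let ζA : Aˣ := ⟨⟨(ζ : K), h1⟩, ⟨((ζ⁻¹ : Kˣ) : K), h2⟩, Subtype.ext (Units.mul_inv ζ),
    Subtype.ext (Units.inv_mul ζ)⟩
  have hζA : Units.map (A.subtype : A →* K) ζA = ζ := Units.ext rfl
  have hprimA : IsPrimitiveRoot (ζA : A) q :=
    IsPrimitiveRoot.of_map_of_injective (f := A.subtype) hζprim Subtype.val_injective
  -- the embedding at the cusp
  obtain ⟨Θ, hΘ⟩ := s36_ce_theta ι N q hq a e hae ζ hζ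
  have hcusp : s36_gc_IsCusp N q ζA Θ := by
    refine ⟨fun d m hd hm hmem => ?_, fun x hx hmem => s36_ce_theta_low N q hq ζ Θ hΘ x hx hmem⟩
    rw [hζA]
    exact hΘ d m hd hm hmem
  -- `q` is not a unit of `A`
  have hqA : IsLocalRing.residue A (q : A) = 0 := by
    rw [IsLocalRing.residue_eq_zero_iff]
    by_contra hnot
    have hu : IsUnit (q : A) := IsLocalRing.notMem_maximalIdeal.mp hnot
    obtain ⟨w, hw⟩ := hu.exists_right_inv
    have h3 : (q : Kbar) * ι (w : K) = 1 := by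
      have h4 : ((q : A) : K) * (w : K) = 1 := congrArg Subtype.val hw
      have h5 := congrArg ι h4
      rw [map_mul, map_one] at h5
      rw [← h5]
      congr 1
      simp
    have h5 : ι (w : K) ∈ P := (hmemA _).mp w.2
    have h6 : P.valuation (q : Kbar) < 1 := (ValuationSubring.mem_nonunits_iff _).mp hP
    have h7 : P.valuation (ι (w : K)) ≤ 1 := (P.valuation_le_one_iff _).mpr h5
    have h8 : P.valuation (q : Kbar) * P.valuation (ι (w : K)) = 1 := by
      rw [← map_mul, h3, map_one]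
    have h9 : P.valuation (q : Kbar) * P.valuation (ι (w : K)) < 1 :=
      lt_of_le_of_lt (mul_le_of_le_one_right' h7) h6
    rw [h8] at h9
    exact lt_irrefl _ h9
  -- valuations of `K₀`
  have hK0 : ∀ b : K0, b ≠ 0 → ∃ m : ℤ, A.valuation (κ b) = A.valuation (q : K) ^ m := by
    intro b hb
    obtain ⟨m, hm⟩ := hunif b hb
    refine ⟨m, ?_⟩
    have hq0 : (q : K) ≠ 0 := by
      intro h0
      have h3 : (q : Kbar) = 0 := by
        have := congrArg ι h0
        simpa using this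
      exact hq.ne_zero (by exact_mod_cast h3)
    have h3 : A.valuation (κ b * ((q : K) ^ m)⁻¹) = 1 := by
      apply s36_gu_val_comap
      rw [map_mul, map_inv₀, map_zpow₀, map_natCast, map_mul, map_inv₀, map_zpow₀, hm]
      have hq0' : P.valuation (q : Kbar) ≠ 0 := by
        rw [Ne, map_eq_zero]
        exact_mod_cast hq.ne_zero
      exact mul_inv_cancel₀ (zpow_ne_zero _ hq0')
    have h4 : κ b = κ b * ((q : K) ^ m)⁻¹ * (q : K) ^ m := by
      rw [mul_assoc, inv_mul_cancel₀ (zpow_ne_zero _ hq0), mul_one]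
    rw [h4, map_mul, h3, one_mul, map_zpow₀]
  have hunifA : s36_gc_IsUnif ζA := s36_gu_isUnif κ A q hq ζA hprimA hqA hK0 hspan
  obtain ⟨c, hcu, hc⟩ := s36_gu_q_eq q hq (ζA : A) hprimA
  refine ⟨s36_gc_V κ A (N * q ^ 2) Θ, s36_gc_unif hcusp hq rfl hunifA _ rfl,
    s36_gc_q_div hcusp hq hqM hunifA.1 c hc _ rfl,
    s36_gc_zpow_div_q hcusp hq hqM hunifA.1 c hc hcu _ rfl, ?_, ?_⟩
  · intro b hb
    exact s36_gc_const_mem b ((hmemA _).mpr (hA0 b hb))
  · intro x x' hxx' hx'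
    exact s36_gc_low_mem hcusp A0 (fun b hb => (hmemA _).mpr (hA0 b hb)) x x' hxx' hx'

/-- A primitive `q`-th root of unity of `Q̄` with the complex embedding `e^{2πi a/q}`,
`a N ≡ 1 mod q`. -/
theorem s36_gu_root (N q : ℕ) [NeZero N] (hq : q.Prime) (hqN : ¬ q ∣ N) :
    ∃ (a e : ℤ) (ζ₁ : Kbar), a * N + e * q = 1 ∧ IsPrimitiveRoot ζ₁ q ∧
      iotaK ζ₁ = Fermat.Agent.S28.zetaN (N * q ^ 2) ^ (a * ((N * q ^ 2 / q : ℕ) : ℤ)) := by
  haveI : NeZero q := ⟨hq.ne_zero⟩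
  haveI : NeZero (N * q ^ 2) := ⟨Nat.mul_ne_zero (NeZero.ne N) (pow_ne_zero 2 hq.ne_zero)⟩
  have hcop : Nat.Coprime N q := ((Nat.Prime.coprime_iff_not_dvd hq).mpr hqN).symm
  have hbez := Nat.gcd_eq_gcd_ab N q
  rw [hcop] at hbez
  have hae : (Nat.gcdA N q : ℤ) * N + (Nat.gcdB N q : ℤ) * q = 1 := by
    have : ((1 : ℕ) : ℤ) = (N : ℤ) * Nat.gcdA N q + (q : ℤ) * Nat.gcdB N q := hbez
    push_cast at this
    linarith
  have hdiv : N * q ^ 2 / q = N * q := by
    rw [show N * q ^ 2 = N * q * q by ring]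
    exact Nat.mul_div_cancel _ hq.pos
  have hz : IsPrimitiveRoot
      (Fermat.Agent.S28.zetaN (N * q ^ 2) ^ ((Nat.gcdA N q : ℤ) * ((N * q ^ 2 / q : ℕ) : ℤ)))
      q := by
    have h1 : IsPrimitiveRoot (Fermat.Agent.S28.zetaN (N * q ^ 2) ^ (N * q)) q :=
      (Complex.isPrimitiveRoot_exp (N * q ^ 2) (NeZero.ne (N * q ^ 2))).pow
        (Nat.pos_of_ne_zero (NeZero.ne (N * q ^ 2))) (by ring)
    have h2 : (Nat.gcdA N q : ℤ).gcd q = 1 := by
      rw [← Int.isCoprime_iff_gcd_eq_one]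
      exact ⟨N, Nat.gcdB N q, by rw [mul_comm]; exact hae⟩
    have h3 := h1.zpow_of_gcd_eq_one (Nat.gcdA N q) h2
    rw [hdiv, mul_comm (Nat.gcdA N q : ℤ), zpow_mul, zpow_natCast]
    exact h3
  haveI : NeZero ((q : ℕ) : ℚ) := ⟨Nat.cast_ne_zero.mpr hq.ne_zero⟩
  obtain ⟨ζ', hζ'⟩ := HasEnoughRootsOfUnity.exists_primitiveRoot Kbar q
  have hinj : Function.Injective (iotaK : Kbar →+* ℂ) := RingHom.injective _
  have hw : IsPrimitiveRoot (iotaK ζ') q := hζ'.map_of_injective hinj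
  obtain ⟨i, -, hi⟩ := hw.eq_pow_of_pow_eq_one hz.pow_eq_one
  refine ⟨Nat.gcdA N q, Nat.gcdB N q, ζ' ^ i, hae, ?_, ?_⟩
  · refine IsPrimitiveRoot.of_map_of_injective (f := (iotaK : Kbar →+* ℂ)) ?_ hinj
    rw [map_pow, hi]
    exact hz
  · rw [map_pow, hi]

/-- **(c-C)** `P` a valuation ring of `Q̄` over `q`, `K₀ ⊆ Q̄` a field all of whose nonzero
elements have `P`-valuation in `v(q)^ℤ` (e.g. a subfield of the fixed field of the inertia group
of `P`, by `S13.inertia_fixed_valuation`), `q ∤ N`, `M = N q²`.  Then `K₀ · F(M)` has a discrete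
valuation ring `V_C` with uniformizer `z_C = j(Q^(q²)) - j(Q)`, `q = unit · z_C^(q-1)`, which
contains `P ∩ K₀` and the Gauss ring at infinity of level `N q` (via the inclusion
`K₀ · F(N q) ⊆ K₀ · F(M)`). -/
theorem s36_gu_main (P : ValuationSubring Kbar) (K0 : IntermediateField ℚ Kbar) (N q M : ℕ)
    [NeZero N] (hq : q.Prime) (hqN : ¬ q ∣ N) (hM : M = N * q ^ 2) (hP : P.LiesOverPrime q)
    (hunif : ∀ b : K0, b ≠ 0 → ∃ m : ℤ, P.valuation (b : Kbar) = P.valuation (q : Kbar) ^ m)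
    (hqM : q ^ 2 ∣ M) :
    ∃ V : Subring (laurentBaseChange K0 (modularFunctionFieldFull M)),
      s34_Unif (s36_gc_z K0 q M hq hqM) V ∧
      algebraMap K0 (laurentBaseChange K0 (modularFunctionFieldFull M)) (q : K0) *
        (s36_gc_z K0 q M hq hqM ^ (q - 1))⁻¹ ∈ V ∧
      s36_gc_z K0 q M hq hqM ^ (q - 1) *
        (algebraMap K0 (laurentBaseChange K0 (modularFunctionFieldFull M)) (q : K0))⁻¹ ∈ V ∧
      (∀ b ∈ s18_A1 P K0,
        algebraMap K0 (laurentBaseChange K0 (modularFunctionFieldFull M)) b ∈ V) ∧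
      (∀ (x : laurentBaseChange K0 (modularFunctionFieldFull M))
        (x' : laurentBaseChange K0 (modularFunctionFieldFull (N * q))),
        (x : LaurentSeries K0) = (x' : LaurentSeries K0) →
          x' ∈ s34_gi_V (s18_A1 P K0) (N * q) → x ∈ V) := by
  obtain ⟨a, e, ζ₁, hae, hζ₁, hζ₁c⟩ := s36_gu_root N q hq hqN
  have hint : IsIntegral K0 (ζ₁ - 1) :=
    (s18_d1_qbar_isAlgebraic.isAlgebraic (ζ₁ - 1)).isIntegral.tower_top
  have hlam : ζ₁ - 1 ∈ IntermediateField.adjoin K0 ({ζ₁ - 1} : Set Kbar) :=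
    IntermediateField.mem_adjoin_simple_self K0 _
  have hζmem : ζ₁ ∈ IntermediateField.adjoin K0 ({ζ₁ - 1} : Set Kbar) := by
    have := add_mem hlam (one_mem _)
    rwa [sub_add_cancel] at this
  have hζ0 : ζ₁ ≠ 0 := hζ₁.ne_zero hq.ne_zero
  refine s36_gu_main_aux (K := IntermediateField.adjoin K0 ({ζ₁ - 1} : Set Kbar))
    (algebraMap K0 (IntermediateField.adjoin K0 ({ζ₁ - 1} : Set Kbar)))
    (algebraMap (IntermediateField.adjoin K0 ({ζ₁ - 1} : Set Kbar)) Kbar) P (s18_A1 P K0)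
    (fun b hb => hb) N q M hq hM hP a e hae
    (Units.mk0 ⟨ζ₁, hζmem⟩ (fun h => hζ0 (congrArg Subtype.val h))) hζ₁c ?_
    (fun b hb => hunif b hb) ?_ hqM
  · exact IsPrimitiveRoot.of_map_of_injective
      (f := algebraMap (IntermediateField.adjoin K0 ({ζ₁ - 1} : Set Kbar)) Kbar) hζ₁
      (algebraMap (IntermediateField.adjoin K0 ({ζ₁ - 1} : Set Kbar)) Kbar).injective
  · intro x
    obtain ⟨f, hf, hx⟩ := (IntermediateField.adjoin.powerBasis hint).exists_eq_aeval x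
    refine ⟨(IntermediateField.adjoin.powerBasis hint).dim, fun i => f.coeff i, ?_, ?_⟩
    · rw [IntermediateField.adjoin.powerBasis_dim]
      have hmonic : ((Polynomial.cyclotomic q K0).comp
          (Polynomial.X + Polynomial.C (1 : K0))).Monic :=
        (Polynomial.cyclotomic.monic q K0).comp (Polynomial.monic_X_add_C 1)
          (by rw [Polynomial.natDegree_X_add_C]; exact one_ne_zero)
      have hroot : Polynomial.aeval (ζ₁ - 1) ((Polynomial.cyclotomic q K0).comp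
          (Polynomial.X + Polynomial.C (1 : K0))) = 0 := by
        rw [Polynomial.aeval_comp]
        have e1 : Polynomial.aeval (ζ₁ - 1) (Polynomial.X + Polynomial.C (1 : K0)) = ζ₁ := by
          simp
        rw [e1, Polynomial.aeval_def, Polynomial.eval₂_eq_eval_map, Polynomial.map_cyclotomic]
        exact hζ₁.isRoot_cyclotomic hq.pos
      have h1 := Polynomial.natDegree_le_natDegree (minpoly.min K0 (ζ₁ - 1) hmonic hroot)
      rw [Polynomial.natDegree_comp, Polynomial.natDegree_cyclotomic, Polynomial.natDegree_X_add_C,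
        mul_one, Nat.totient_prime hq] at h1
      exact h1
    · rw [hx, Polynomial.aeval_eq_sum_range' hf]
      refine Finset.sum_congr rfl (fun i _ => ?_)
      rw [Algebra.smul_def]
      congr 1

end Inst

end Fermat.Agent.S36
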