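import Mathlib
import Fermat.Prelude.Def_ModularCurve_HeckeOperator
import Fermat.Prelude.Def_ModularCurve_JqCoeff
import Fermat.Agent.S36.NrModel

/-!
# S36 (NODE-3), contract item (c-EXT): component `B` with the coordinate `j` (every level)

The function `j` lies in `K · F(N)` for every level `N` and has the integral `q`-expansion
`jqModC ℤ` with leading term `q⁻¹`.  So the component-`B` package `s36_nm_B` needs no Hauptmodul
(no hypothesis `2 ∣ N` or `3 ∣ N`; in particular it is available for `q = 2, 3`):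

* `s36_nj_j K N` : `j ∈ K · F(N)`; `s36_nj_hT`, `s36_nj_lead`, `s36_nj_low`;
* `s36_nj_B` : `s36_nm_B` for algebra automorphisms `w`, `W` with `W ∘ α = β ∘ w` and `x = j`
  (use with the swaps of `s36_sr_main` at `N = N₁ * q`, `ℓ = q`).
-/

set_option autoImplicit false
set_option linter.unusedSectionVars false
set_option linter.style.haveILetI false

open ModularCurve

noncomputable section

namespace Fermat.Agent.S36

open Fermat.Agent.S18 Fermat.Agent.S34 Fermat.Agent.S35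

/-- `j` as an element of `K · F(N)`. -/
def s36_nj_j (K : Type*) [Field K] [Algebra ℚ K] (N : ℕ) [NeZero N] :
    laurentBaseChange K (modularFunctionFieldFull N) :=
  ⟨coeffEmb K jq, coeffEmb_mem_laurentBaseChange K (modularFunctionField_le_full N (jq_mem N))⟩

/-- The integral `q`-expansion of `j`. -/
theorem s36_nj_jq_int : jq = coeffMap (Int.castRingHom ℚ) (jqModC ℤ) := by
  rw [← jqModC_rat, jqModC_eq_map_intCast ℚ]
  rfl

theorem s36_nj_hT (K : Type*) [Field K] [Algebra ℚ K] (N : ℕ) [NeZero N] :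
    ((s36_nj_j K N : laurentBaseChange K (modularFunctionFieldFull N)) : LaurentSeries K) =
      coeffMap (Int.castRingHom K) (jqModC ℤ) := by
  show coeffEmb K jq = _
  rw [s36_nj_jq_int]
  show coeffMap (algebraMap ℚ K) (coeffMap (Int.castRingHom ℚ) (jqModC ℤ)) = _
  rw [coeffMap_coeffMap]
  exact coeffMap_congr (RingHom.ext_int _ _) (jqModC ℤ)

theorem s36_nj_lead : (jqModC ℤ).coeff (-1) = 1 := by
  have h := coeff_jq_neg_one
  rw [s36_nj_jq_int, coeffMap_coeff] at h
  have h' : (((jqModC ℤ).coeff (-1) : ℤ) : ℚ) = ((1 : ℤ) : ℚ) := by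
    rw [Int.cast_one]
    exact h
  exact Int.cast_injective h'

theorem s36_nj_low (n : ℤ) (hn : n < -1) : (jqModC ℤ).coeff n = 0 := by
  have h := coeff_jq_of_lt hn
  rw [s36_nj_jq_int, coeffMap_coeff] at h
  have h' : (((jqModC ℤ).coeff n : ℤ) : ℚ) = ((0 : ℤ) : ℚ) := by
    rw [Int.cast_zero]
    exact h
  exact Int.cast_injective h'

section Model

variable {K : Type*} [Field K] [Algebra ℚ K] [Algebra K (AlgebraicClosure ℚ)]
variable {A₁ : ValuationSubring K}
variable {N ℓ : ℕ} [NeZero N] [NeZero ℓ] [NeZero (N * ℓ)]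
variable [IsDiscreteValuationRing A₁] {π : A₁}

local notation "F'" => laurentBaseChange K (modularFunctionFieldFull N)
local notation "FF" => laurentBaseChange K (modularFunctionFieldFull (N * ℓ))

/-- **(c-EXT), component `B`, in the model, with the coordinate `j`** (no Hauptmodul). -/
theorem s36_nj_B [Fact ℓ.Prime] (hℓN : ℓ ∣ N) (hπ : Irreducible π) (c : A₁)
    (hℓ : (ℓ : A₁) = π * c)
    (w : F' ≃ₐ[K] F') (W : FF ≃ₐ[K] FF)
    (hrel : ∀ y : F', W (heckeAlphaBar K N ℓ y) = heckeBetaBar K N ℓ (w y)) :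
    (∀ y ∈ (s34_gi_V A₁ (N * ℓ)).comap ((W : FF ≃+* FF) : FF →+* FF),
      ∃ P : Polynomial ((s34_gi_V A₁ N).comap ((w : F' ≃+* F') : F' →+* F')), P.Monic ∧
        P.eval₂ ((heckeAlphaBar K N ℓ).toRingHom.comp
          ((s34_gi_V A₁ N).comap ((w : F' ≃+* F') : F' →+* F')).subtype) y = 0) ∧
    (∀ h ∈ (s34_gi_V A₁ (N * ℓ)).comap ((W : FF ≃+* FF) : FF →+* FF),
      ∀ b ∈ (s34_gi_V A₁ N).comap ((w : F' ≃+* F') : F' →+* F'),
      (algebraMap K FF (π : K))⁻¹ * (h ^ ℓ - (heckeAlphaBar K N ℓ).toRingHom b) ∈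
        (s34_gi_V A₁ (N * ℓ)).comap ((W : FF ≃+* FF) : FF →+* FF) →
      ∃ u ∈ (s34_gi_V A₁ N).comap ((w : F' ≃+* F') : F' →+* F'),
        s35_nmAlong (heckeAlphaBar K N ℓ).toRingHom h =
          (heckeAlphaBar K N ℓ).toRingHom (b + algebraMap K F' (π : K) * u)) ∧
    (∀ h ∈ (s34_gi_V A₁ (N * ℓ)).comap ((W : FF ≃+* FF) : FF →+* FF),
      ∃ b ∈ (s34_gi_V A₁ N).comap ((w : F' ≃+* F') : F' →+* F'),
      ∃ u ∈ (s34_gi_V A₁ N).comap ((w : F' ≃+* F') : F' →+* F'),
        (algebraMap K FF (π : K))⁻¹ * (h ^ ℓ - (heckeAlphaBar K N ℓ).toRingHom b) ∈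
          (s34_gi_V A₁ (N * ℓ)).comap ((W : FF ≃+* FF) : FF →+* FF) ∧
        s35_nmAlong (heckeAlphaBar K N ℓ).toRingHom h =
          (heckeAlphaBar K N ℓ).toRingHom (b + algebraMap K F' (π : K) * u)) :=
  s36_nm_B hℓN hπ c hℓ (w : F' ≃+* F') (w.commutes _) (W : FF ≃+* FF) (W.commutes _)
    hrel (s36_nj_j K N) (jqModC ℤ) (s36_nj_hT K N) s36_nj_lead s36_nj_low

end Model

end Fermat.Agent.S36
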