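import Mathlib
import Fermat.Agent.S36.NrChain
import Fermat.Agent.S36.NrModelJ

/-!
# S36 (NODE-3): the components block of `s36_pow_of_model` in the model

`s36_ncm_model` : the package `s36_nc_Pkg` (`S36/NrChain.lean`) in the model (`K` any field of
constants, no Galois hypothesis; `ℓ = n + 1` a prime dividing the level `N`; `ι = α`;
`Vi = s34_gi_V A₁ N`, `V0 = Vi.comap w`, `VA = s34_gi_V A₁ (N * ℓ)`, `VB = VA.comap W`), for any
subring `VC` with the `V_C`-contract: `VC` has a uniformizer `z` with `z⁻¹ ∈ VA`, `z⁻¹ ∈ VB`,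
`π * (z ^ n)⁻¹ ∈ VC`, and `α (Vi) ⊆ VC`, `W (α (Vi)) ⊆ VC`.
-/

set_option autoImplicit false
set_option linter.unusedSectionVars false
set_option linter.style.haveILetI false

open ModularCurve

noncomputable section

namespace Fermat.Agent.S36

open Fermat.Agent.S18 Fermat.Agent.S34 Fermat.Agent.S35

section Model

variable {K : Type*} [Field K] [Algebra ℚ K] [Algebra K (AlgebraicClosure ℚ)]
variable {A₁ : ValuationSubring K}
variable {N ℓ : ℕ} [NeZero N] [NeZero ℓ] [NeZero (N * ℓ)]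
variable [IsDiscreteValuationRing A₁] {π : A₁}

local notation "F'" => laurentBaseChange K (modularFunctionFieldFull N)
local notation "FF" => laurentBaseChange K (modularFunctionFieldFull (N * ℓ))

set_option maxHeartbeats 1600000 in
set_option synthInstance.maxHeartbeats 400000 in
/-- **The components block in the model**, from the `V_C`-contract. -/
theorem s36_ncm_model [Fact ℓ.Prime] (hℓN : ℓ ∣ N) (hπ : Irreducible π) (c : A₁)
    (hℓ : (ℓ : A₁) = π * c) (n : ℕ) (hℓn : ℓ = n + 1)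
    (w : F' ≃ₐ[K] F') (W : FF ≃ₐ[K] FF) (hWW : ∀ x, W (W x) = x)
    (hrel : ∀ y : F', W (heckeAlphaBar K N ℓ y) = heckeBetaBar K N ℓ (w y))
    (VC : Subring FF) (z : FF) (hVC : s34_Unif z VC)
    (hαC : ∀ y ∈ s34_gi_V A₁ N, (heckeAlphaBar K N ℓ).toRingHom y ∈ VC)
    (hβC : ∀ y ∈ s34_gi_V A₁ N, W ((heckeAlphaBar K N ℓ).toRingHom y) ∈ VC)
    (hzA : z⁻¹ ∈ s34_gi_V A₁ (N * ℓ)) (hzB : W z⁻¹ ∈ s34_gi_V A₁ (N * ℓ))
    (hzn : algebraMap K FF (π : K) * (z ^ n)⁻¹ ∈ VC) :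
    s36_nc_Pkg (heckeAlphaBar K N ℓ).toRingHom (algebraMap K F' (π : K)) z n
      (s34_gi_V A₁ N) ((s34_gi_V A₁ N).comap ((w : F' ≃+* F') : F' →+* F'))
      (s34_gi_V A₁ (N * ℓ)) ((s34_gi_V A₁ (N * ℓ)).comap ((W : FF ≃+* FF) : FF →+* FF)) VC
      (W : FF ≃+* FF) := by
  have hℓp : ℓ.Prime := Fact.out
  haveI : CharZero K := algebraRat.charZero K
  haveI : CharZero F' := charZero_of_injective_algebraMap (algebraMap K F').injective
  have hιϖ : (heckeAlphaBar K N ℓ).toRingHom (algebraMap K F' (π : K)) =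
      algebraMap K FF (π : K) := (heckeAlphaBar K N ℓ).commutes (π : K)
  have hwϖ : (w : F' ≃+* F') (algebraMap K F' (π : K)) = algebraMap K F' (π : K) :=
    w.commutes _
  have hWϖ : (W : FF ≃+* FF) (algebraMap K FF (π : K)) = algebraMap K FF (π : K) :=
    W.commutes _
  have hVi := s36_nm_unif (A₁ := A₁) N hπ
  have hVA0 := s36_nm_unif (A₁ := A₁) (N * ℓ) hπ
  have hV' := s36_nm_unif_comap (A₁ := A₁) N hπ (w : F' ≃+* F') hwϖ
  have hV := s36_nm_unif_comap (A₁ := A₁) (N * ℓ) hπ (W : FF ≃+* FF) hWϖ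
  have hfin := s36_dg_finrank_dvd K N ℓ hℓp hℓN
  -- the element `θ` with `W θ = α x`, and `c₀` with `w c₀ = x`, for `x = j`
  have hT := s36_nj_hT K N
  have hx : s36_nj_j K N ∈ s34_gi_V A₁ N := s34_gz_mem_int (s36_nj_j K N) (jqModC ℤ) hT
  have hθ : (W : FF ≃+* FF).symm (heckeAlphaBar K N ℓ (s36_nj_j K N)) ∈
      (s34_gi_V A₁ (N * ℓ)).comap ((W : FF ≃+* FF) : FF →+* FF) := by
    show (W : FF ≃+* FF) ((W : FF ≃+* FF).symm (heckeAlphaBar K N ℓ (s36_nj_j K N))) ∈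
      s34_gi_V A₁ (N * ℓ)
    rw [RingEquiv.apply_symm_apply]
    exact (s34_gz_alpha_mem_iff (s36_nj_j K N)).mpr hx
  have hc₀ : (w : F' ≃+* F').symm (s36_nj_j K N) ∈
      (s34_gi_V A₁ N).comap ((w : F' ≃+* F') : F' →+* F') := by
    show (w : F' ≃+* F') ((w : F' ≃+* F').symm (s36_nj_j K N)) ∈ s34_gi_V A₁ N
    rw [RingEquiv.apply_symm_apply]
    exact hx
  have hθc : (algebraMap K FF (π : K))⁻¹ *
      (((W : FF ≃+* FF).symm (heckeAlphaBar K N ℓ (s36_nj_j K N))) ^ ℓ -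
        (heckeAlphaBar K N ℓ).toRingHom ((w : F' ≃+* F').symm (s36_nj_j K N))) ∈
        (s34_gi_V A₁ (N * ℓ)).comap ((W : FF ≃+* FF) : FF →+* FF) := by
    show (W : FF ≃+* FF) ((algebraMap K FF (π : K))⁻¹ *
      (((W : FF ≃+* FF).symm (heckeAlphaBar K N ℓ (s36_nj_j K N))) ^ ℓ -
        heckeAlphaBar K N ℓ ((w : F' ≃+* F').symm (s36_nj_j K N)))) ∈ s34_gi_V A₁ (N * ℓ)
    rw [map_mul, map_inv₀, hWϖ, map_sub, map_pow, RingEquiv.apply_symm_apply]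
    have e : (W : FF ≃+* FF) (heckeAlphaBar K N ℓ ((w : F' ≃+* F').symm (s36_nj_j K N))) =
        heckeBetaBar K N ℓ (s36_nj_j K N) := by
      have h1 := hrel ((w : F' ≃+* F').symm (s36_nj_j K N))
      have h2 : w ((w : F' ≃+* F').symm (s36_nj_j K N)) = s36_nj_j K N :=
        (w : F' ≃+* F').apply_symm_apply _
      rw [h2] at h1
      exact h1
    rw [e]
    exact s34_gz_frob hπ c hℓ (s36_nj_j K N) (jqModC ℤ) hT
  have hnd : ¬ ((ℓ : ℤ) ∣ (-1 : ℤ)) := by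
    intro h
    have h1 : (ℓ : ℤ) ∣ 1 := (dvd_neg).mp h
    have h2 : ℓ ∣ 1 := by exact_mod_cast h1
    exact hℓp.one_lt.ne' (Nat.dvd_one.mp h2)
  have hpow : ∀ d ∈ (s34_gi_V A₁ N).comap ((w : F' ≃+* F') : F' →+* F'),
      (algebraMap K F' (π : K))⁻¹ * (d ^ ℓ - (w : F' ≃+* F').symm (s36_nj_j K N)) ∉
        (s34_gi_V A₁ N).comap ((w : F' ≃+* F') : F' →+* F') := by
    intro d hd hcon
    have h1 : (w : F' ≃+* F') ((algebraMap K F' (π : K))⁻¹ *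
        (d ^ ℓ - (w : F' ≃+* F').symm (s36_nj_j K N))) ∈ s34_gi_V A₁ N := hcon
    rw [map_mul, map_inv₀, hwϖ, map_sub, map_pow, RingEquiv.apply_symm_apply] at h1
    exact s34_gz_not_pow_model hπ (s36_nj_j K N) (jqModC ℤ) hT (-1) s36_nj_lead s36_nj_low hnd
      ((w : F' ≃+* F') d) hd h1
  have hqϖ : (algebraMap K F' (π : K))⁻¹ * ((ℓ : ℕ) : F') ∈
      (s34_gi_V A₁ N).comap ((w : F' ≃+* F') : F' →+* F') := by
    show (w : F' ≃+* F') ((algebraMap K F' (π : K))⁻¹ * ((ℓ : ℕ) : F')) ∈ s34_gi_V A₁ N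
    rw [map_mul, map_inv₀, hwϖ, map_natCast]
    exact s36_nm_char N hπ c hℓ
  have hιB : ∀ y ∈ (s34_gi_V A₁ N).comap ((w : F' ≃+* F') : F' →+* F'),
      (heckeAlphaBar K N ℓ).toRingHom y ∈
        (s34_gi_V A₁ (N * ℓ)).comap ((W : FF ≃+* FF) : FF →+* FF) := by
    intro y hy
    show W (heckeAlphaBar K N ℓ y) ∈ s34_gi_V A₁ (N * ℓ)
    rw [hrel]
    exact s34_gz_beta_mem hy
  have hιA : ∀ y ∈ s34_gi_V A₁ N,
      (heckeAlphaBar K N ℓ).toRingHom y ∈ s34_gi_V A₁ (N * ℓ) :=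
    fun y hy => (s34_gz_alpha_mem_iff y).mpr hy
  have hϖB : ((heckeAlphaBar K N ℓ).toRingHom (algebraMap K F' (π : K)))⁻¹ ∉
      (s34_gi_V A₁ (N * ℓ)).comap ((W : FF ≃+* FF) : FF →+* FF) := by
    rw [hιϖ]
    exact hV.inv_not_mem
  have hVA : s35_Unif ((heckeAlphaBar K N ℓ).toRingHom (algebraMap K F' (π : K)))
      (s34_gi_V A₁ (N * ℓ)) := by
    rw [hιϖ]
    exact hVA0
  have hzn' : (heckeAlphaBar K N ℓ).toRingHom (algebraMap K F' (π : K)) * (z ^ n)⁻¹ ∈ VC := by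
    rw [hιϖ]
    exact hzn
  have hWϖ' : (W : FF ≃+* FF) ((heckeAlphaBar K N ℓ).toRingHom (algebraMap K F' (π : K))) =
      (heckeAlphaBar K N ℓ).toRingHom (algebraMap K F' (π : K)) := by
    rw [hιϖ]
    exact hWϖ
  have hVC' := s36_nc_to35 hVC
  exact s36_nc_abs (heckeAlphaBar K N ℓ).toRingHom ℓ n hℓn hℓp hfin hVi hV' hVA hV
    hVC' hιA hαC hιB hzA hzB hzn' hϖB hqϖ
    ((W : FF ≃+* FF).symm (heckeAlphaBar K N ℓ (s36_nj_j K N)))
    ((w : F' ≃+* F').symm (s36_nj_j K N)) hc₀ hθ hθc hpow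
    (W : FF ≃+* FF) hWW hWϖ' (fun _ => Iff.rfl) hβC

end Model

end Fermat.Agent.S36
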