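import Fermat.Agent.S34.SwapK

/-!
# S36 (NODE-3), model glue: the swaps of the levels `N₁ q` and `N₁ q q` and `W ∘ α = β ∘ w`

For a field `K` with an embedding `ι : K →+* ℚ̄` and coprime `q, N₁`:

* `w`, the Atkin–Lehner swap of the pair `(N₁, q)` on `K · F(N₁ q)` (`s34_sw_swap`);
* `W`, the Atkin–Lehner swap of the pair `(N₁, q q)`, transported to the level expression
  `N₁ * q * q` (`s36_sr_swap_at`): `W (j(Q^(d m))) = j(Q^(d (q q / m)))`, `d ∣ N₁`, `m ∣ q q`;
* `s36_sr_rel` : `W ∘ α = β ∘ w` for the degeneracy maps `α, β : K · F(N₁ q) → K · F(N₁ q q)`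
  (`heckeAlphaBar K (N₁ * q) q`, `heckeBetaBar K (N₁ * q) q`), and `W ∘ β = α ∘ w`;
* `s36_sr_main` : the package.
-/

set_option autoImplicit false
set_option linter.style.haveILetI false
set_option linter.unusedSectionVars false

open ModularCurve

noncomputable section

namespace Fermat.Agent.S36

open Fermat.Agent.S37 Fermat.Agent.S24 Fermat.Agent.S34

variable {K : Type*} [Field K] [Algebra ℚ K]

/-- `j(Q^(e q)) = j(Q^e)(Q^q)`. -/
theorem s36_sr_s_mul (e q : ℕ) [NeZero e] [NeZero q] :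
    s34_sw_s K (e * q) = qExpand K q (s34_sw_s K e) := by
  haveI : NeZero (e * q) := ⟨Nat.mul_ne_zero (NeZero.ne e) (NeZero.ne q)⟩
  haveI : NeZero (q * e) := ⟨Nat.mul_ne_zero (NeZero.ne q) (NeZero.ne e)⟩
  rw [s34_sw_s_eq, s34_sw_s_eq]
  show _ = qExpand K q (coeffMap (algebraMap ℚ K) (qExpand ℚ e jq))
  rw [← coeffMap_qExpand, qExpand_qExpand, qExpand_congr (mul_comm q e)]
  rfl

/-- The Atkin–Lehner swap of the pair `(N, ℓ)` at a level `M = N * ℓ` given up to a propositional
equality. -/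
theorem s36_sr_swap_at (ι : K →+* Kbar) (N ℓ M : ℕ) [NeZero N] [NeZero ℓ] (hM : M = N * ℓ)
    (hcop : Nat.Coprime ℓ N) :
    ∃ W : laurentBaseChange K (modularFunctionFieldFull M) ≃ₐ[K]
        laurentBaseChange K (modularFunctionFieldFull M),
      (∀ x, W (W x) = x) ∧
      (∀ (σ : K ≃ₐ[ℚ] K) (x : laurentBaseChange K (modularFunctionFieldFull M)),
        W (arithmeticRingAut (modularFunctionFieldFull M) σ x) =
          arithmeticRingAut (modularFunctionFieldFull M) σ (W x)) ∧
      (∀ (d m : ℕ) (_ : d ∣ N) (_ : m ∣ ℓ)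
        (h1 : s34_sw_s K (d * m) ∈ laurentBaseChange K (modularFunctionFieldFull M)),
        ((W ⟨s34_sw_s K (d * m), h1⟩ :
          laurentBaseChange K (modularFunctionFieldFull M)) : LaurentSeries K) =
          s34_sw_s K (d * (ℓ / m))) := by
  subst hM
  obtain ⟨W, -, -, h3, h4, h5⟩ := s34_sw_swap ι N ℓ hcop
  exact ⟨W, h3, h4, h5⟩

/-- **`W ∘ α = β ∘ w`** from the generator-wise descriptions of the two swaps. -/
theorem s36_sr_rel (N₁ q : ℕ) [NeZero N₁] [NeZero q]
    (w : laurentBaseChange K (modularFunctionFieldFull (N₁ * q)) ≃ₐ[K]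
      laurentBaseChange K (modularFunctionFieldFull (N₁ * q)))
    (hw : ∀ (d m : ℕ) (_ : d ∣ N₁) (_ : m ∣ q)
      (h1 : s34_sw_s K (d * m) ∈ laurentBaseChange K (modularFunctionFieldFull (N₁ * q))),
      ((w ⟨s34_sw_s K (d * m), h1⟩ :
        laurentBaseChange K (modularFunctionFieldFull (N₁ * q))) : LaurentSeries K) =
        s34_sw_s K (d * (q / m)))
    (W : laurentBaseChange K (modularFunctionFieldFull (N₁ * q * q)) ≃ₐ[K]
      laurentBaseChange K (modularFunctionFieldFull (N₁ * q * q)))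
    (hW : ∀ (d m : ℕ) (_ : d ∣ N₁) (_ : m ∣ q * q)
      (h1 : s34_sw_s K (d * m) ∈ laurentBaseChange K (modularFunctionFieldFull (N₁ * q * q))),
      ((W ⟨s34_sw_s K (d * m), h1⟩ :
        laurentBaseChange K (modularFunctionFieldFull (N₁ * q * q))) : LaurentSeries K) =
        s34_sw_s K (d * (q * q / m)))
    (y : laurentBaseChange K (modularFunctionFieldFull (N₁ * q))) :
    W (heckeAlphaBar K (N₁ * q) q y) = heckeBetaBar K (N₁ * q) q (w y) := by
  have hq0 := NeZero.ne q
  have hN0 := NeZero.ne N₁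
  haveI : NeZero (N₁ * q) := ⟨Nat.mul_ne_zero hN0 hq0⟩
  have key : (W : laurentBaseChange K (modularFunctionFieldFull (N₁ * q * q)) →+*
        laurentBaseChange K (modularFunctionFieldFull (N₁ * q * q))).comp
      (heckeAlphaBar K (N₁ * q) q : laurentBaseChange K (modularFunctionFieldFull (N₁ * q)) →+*
        laurentBaseChange K (modularFunctionFieldFull (N₁ * q * q))) =
      (heckeBetaBar K (N₁ * q) q : laurentBaseChange K (modularFunctionFieldFull (N₁ * q)) →+*
        laurentBaseChange K (modularFunctionFieldFull (N₁ * q * q))).comp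
      (w : laurentBaseChange K (modularFunctionFieldFull (N₁ * q)) →+*
        laurentBaseChange K (modularFunctionFieldFull (N₁ * q))) := by
    apply s34_sw_ringHom_ext
    · intro c
      show W (heckeAlphaBar K (N₁ * q) q (algebraMap K _ c)) =
        heckeBetaBar K (N₁ * q) q (w (algebraMap K _ c))
      rw [AlgHom.commutes, AlgEquiv.commutes, AlgEquiv.commutes, AlgHom.commutes]
    · intro e _ he
      obtain ⟨d, m, hd, hm, rfl⟩ := (Nat.dvd_mul).mp he
      have hs : s34_sw_s K (d * m) = coeffEmb K (qExpand ℚ (d * m) jq) := s34_sw_s_eq K (d * m)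
      have hmem1 : s34_sw_s K (d * m) ∈ laurentBaseChange K (modularFunctionFieldFull (N₁ * q)) := by
        rw [hs]
        exact s34_sw_s_mem K (N₁ * q) (d * m) he
      have hmem2 : s34_sw_s K (d * m) ∈
          laurentBaseChange K (modularFunctionFieldFull (N₁ * q * q)) := by
        rw [hs]
        exact s34_sw_s_mem K (N₁ * q * q) (d * m) (Dvd.dvd.mul_right he q)
      have e1 : heckeAlphaBar K (N₁ * q) q
          ⟨coeffEmb K (qExpand ℚ (d * m) jq), s34_sw_s_mem K (N₁ * q) (d * m) he⟩ =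
          ⟨s34_sw_s K (d * m), hmem2⟩ := by
        apply Subtype.ext
        rw [coe_heckeAlphaBar]
        exact hs.symm
      have e2 : (⟨coeffEmb K (qExpand ℚ (d * m) jq), s34_sw_s_mem K (N₁ * q) (d * m) he⟩ :
          laurentBaseChange K (modularFunctionFieldFull (N₁ * q))) =
          ⟨s34_sw_s K (d * m), hmem1⟩ := Subtype.ext hs.symm
      show W (heckeAlphaBar K (N₁ * q) q _) = heckeBetaBar K (N₁ * q) q (w _)
      rw [e1, e2]
      apply Subtype.ext
      rw [hW d m hd (Dvd.dvd.mul_right hm q) hmem2, coe_heckeBetaBar, hw d m hd hm hmem1]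
      have hd0 : d ≠ 0 := ne_zero_of_dvd_ne_zero hN0 hd
      have hqm0 : q / m ≠ 0 := by
        obtain ⟨k, hk⟩ := hm
        have hm0 : m ≠ 0 := by
          rintro rfl
          rw [zero_mul] at hk
          exact hq0 hk
        have hk0 : k ≠ 0 := by
          rintro rfl
          rw [mul_zero] at hk
          exact hq0 hk
        rw [hk, Nat.mul_div_cancel_left k (Nat.pos_of_ne_zero hm0)]
        exact hk0
      haveI : NeZero (d * (q / m)) := ⟨Nat.mul_ne_zero hd0 hqm0⟩
      rw [← s36_sr_s_mul (d * (q / m)) q]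
      congr 1
      rw [Nat.mul_comm q q, Nat.mul_div_assoc q hm, Nat.mul_comm q (q / m), Nat.mul_assoc]
  exact DFunLike.congr_fun key y

/-- **The package.**  The swaps `w` of `K · F(N₁ q)` and `W` of `K · F(N₁ q q)` with
`W ∘ α = β ∘ w` and `W ∘ β = α ∘ w`. -/
theorem s36_sr_main (ι : K →+* Kbar) (N₁ q : ℕ) [NeZero N₁] [NeZero q]
    (hcop : Nat.Coprime q N₁) :
    ∃ (w : laurentBaseChange K (modularFunctionFieldFull (N₁ * q)) ≃ₐ[K]
        laurentBaseChange K (modularFunctionFieldFull (N₁ * q)))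
      (W : laurentBaseChange K (modularFunctionFieldFull (N₁ * q * q)) ≃ₐ[K]
        laurentBaseChange K (modularFunctionFieldFull (N₁ * q * q))),
      (∀ x, w (heckeAlphaBar K N₁ q x) = heckeBetaBar K N₁ q x) ∧
      (∀ x, w (heckeBetaBar K N₁ q x) = heckeAlphaBar K N₁ q x) ∧
      (∀ x, w (w x) = x) ∧
      (∀ (σ : K ≃ₐ[ℚ] K) (x : laurentBaseChange K (modularFunctionFieldFull (N₁ * q))),
        w (arithmeticRingAut (modularFunctionFieldFull (N₁ * q)) σ x) =
          arithmeticRingAut (modularFunctionFieldFull (N₁ * q)) σ (w x)) ∧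
      (∀ (d m : ℕ) (_ : d ∣ N₁) (_ : m ∣ q)
        (h1 : s34_sw_s K (d * m) ∈ laurentBaseChange K (modularFunctionFieldFull (N₁ * q))),
        ((w ⟨s34_sw_s K (d * m), h1⟩ :
          laurentBaseChange K (modularFunctionFieldFull (N₁ * q))) : LaurentSeries K) =
          s34_sw_s K (d * (q / m))) ∧
      (∀ x, W (W x) = x) ∧
      (∀ (σ : K ≃ₐ[ℚ] K) (x : laurentBaseChange K (modularFunctionFieldFull (N₁ * q * q))),
        W (arithmeticRingAut (modularFunctionFieldFull (N₁ * q * q)) σ x) =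
          arithmeticRingAut (modularFunctionFieldFull (N₁ * q * q)) σ (W x)) ∧
      (∀ (d m : ℕ) (_ : d ∣ N₁) (_ : m ∣ q * q)
        (h1 : s34_sw_s K (d * m) ∈ laurentBaseChange K (modularFunctionFieldFull (N₁ * q * q))),
        ((W ⟨s34_sw_s K (d * m), h1⟩ :
          laurentBaseChange K (modularFunctionFieldFull (N₁ * q * q))) : LaurentSeries K) =
          s34_sw_s K (d * (q * q / m))) ∧
      (∀ y, W (heckeAlphaBar K (N₁ * q) q y) = heckeBetaBar K (N₁ * q) q (w y)) ∧
      (∀ y, W (heckeBetaBar K (N₁ * q) q y) = heckeAlphaBar K (N₁ * q) q (w y)) := by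
  have hq0 := NeZero.ne q
  haveI : NeZero (q * q) := ⟨Nat.mul_ne_zero hq0 hq0⟩
  obtain ⟨w, hw1, hw2, hw3, hw4, hw5⟩ := s34_sw_swap ι N₁ q hcop
  obtain ⟨W, hW3, hW4, hW5⟩ := s36_sr_swap_at ι N₁ (q * q) (N₁ * q * q) (Nat.mul_assoc N₁ q q)
    (Nat.Coprime.mul_left hcop hcop)
  have hrel := s36_sr_rel N₁ q w hw5 W hW5
  refine ⟨w, W, hw1, hw2, hw3, hw4, hw5, hW3, hW4, hW5, hrel, ?_⟩
  intro y
  have h1 := hrel (w y)
  rw [hw3] at h1
  rw [← h1, hW3]

end Fermat.Agent.S36
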