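import Mathlib
import Fermat.Agent.S36.NrChainModel
import Fermat.Agent.S36.SwapRel
import Fermat.Agent.S36.GaussInst
import Fermat.Agent.S18.Setup

/-!
# S36 (NODE-3), item (U2): the components block of `s36_pow_of_model` for the concrete `V_C`

`K₀` a field of constants (`[Algebra ℚ K₀] [Algebra K₀ Q̄]`, no Galois hypothesis), `A₀` a discrete
valuation ring of `K₀` in which the prime `q` is a uniformizer, `N` a level, `α = heckeAlphaBar
K₀ (N q) q : K₀ · F(N q) → K₀ · F(N q q)`, `w` and `W` generator-wise swaps of levels `(N, q)` and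
`(N, q q)`, and the data `(κ : K₀ → K, A, ζ, Θ)` of the third valuation ring
`V_C = s36_gc_V κ A (N q q) Θ` (`S36/GaussC.lean`, `S36/GaussData.lean`).

`s36_ni_pkg` : the package `s36_nc_Pkg` (all hypotheses of `s36_pow_of_model` on the three
components, the level below, the norm and the swap) for

* `ι = α`, `ϖ'' = q`, `z = s36_gc_z K₀ q (N q q)`, `n = q - 1`,
* `Vi = s34_gi_V A₀ (N q)`, `V0 = Vi.comap w`, `VA = s34_gi_V A₀ (N q q)`, `VB = VA.comap W`,
  `VC = s36_gc_V κ A (N q q) Θ`,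

from the single model input `hβC : W (α (Vi)) ⊆ V_C` (the `Θ`-identity `Θ ∘ β = twist_ζ ∘ w`).
-/

set_option autoImplicit false
set_option linter.unusedSectionVars false
set_option linter.style.haveILetI false

open ModularCurve

noncomputable section

namespace Fermat.Agent.S36

open Fermat.Agent.S18 Fermat.Agent.S34 Fermat.Agent.S35

section Inst

variable {K0 K : Type*} [Field K0] [Field K] [Algebra ℚ K0] [Algebra ℚ K]
  [Algebra K0 (AlgebraicClosure ℚ)]

set_option maxHeartbeats 1600000 in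
set_option synthInstance.maxHeartbeats 400000 in
/-- **The components block for the concrete `V_C`.** -/
theorem s36_ni_pkg (κ : K0 →+* K) (A : ValuationSubring K) (A0 : ValuationSubring K0)
    [IsDiscreteValuationRing A0] (hA0 : ∀ b ∈ A0, κ b ∈ A)
    (N q : ℕ) [NeZero N] [NeZero q] [NeZero (N * q)] [NeZero (N * q * q)]
    (hq : q.Prime) (hqM : q ^ 2 ∣ N * q * q) (hirr : Irreducible ((q : ℕ) : A0))
    (ζ : Aˣ)
    (Θ : laurentBaseChange K (modularFunctionFieldFull (N * q * q)) →ₐ[K] LaurentSeries K)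
    (hcusp : s36_gc_IsCusp N q ζ Θ) (hunifA : s36_gc_IsUnif ζ)
    (hprimA : IsPrimitiveRoot (ζ : A) q)
    (w : laurentBaseChange K0 (modularFunctionFieldFull (N * q)) ≃ₐ[K0]
      laurentBaseChange K0 (modularFunctionFieldFull (N * q)))
    (hw : ∀ (d m : ℕ) (_ : d ∣ N) (_ : m ∣ q)
      (h1 : s34_sw_s K0 (d * m) ∈ laurentBaseChange K0 (modularFunctionFieldFull (N * q))),
      ((w ⟨s34_sw_s K0 (d * m), h1⟩ :
        laurentBaseChange K0 (modularFunctionFieldFull (N * q))) : LaurentSeries K0) =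
        s34_sw_s K0 (d * (q / m)))
    (W : laurentBaseChange K0 (modularFunctionFieldFull (N * q * q)) ≃ₐ[K0]
      laurentBaseChange K0 (modularFunctionFieldFull (N * q * q)))
    (hWW : ∀ x, W (W x) = x)
    (hW : ∀ (d m : ℕ) (_ : d ∣ N) (_ : m ∣ q * q)
      (h1 : s34_sw_s K0 (d * m) ∈ laurentBaseChange K0 (modularFunctionFieldFull (N * q * q))),
      ((W ⟨s34_sw_s K0 (d * m), h1⟩ :
        laurentBaseChange K0 (modularFunctionFieldFull (N * q * q))) : LaurentSeries K0) =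
        s34_sw_s K0 (d * (q * q / m)))
    (hβC : ∀ y ∈ s34_gi_V A0 (N * q),
      W ((heckeAlphaBar K0 (N * q) q).toRingHom y) ∈ s36_gc_V κ A (N * q * q) Θ) :
    s36_nc_Pkg (heckeAlphaBar K0 (N * q) q).toRingHom
      (algebraMap K0 (laurentBaseChange K0 (modularFunctionFieldFull (N * q))) (q : K0))
      (s36_gc_z K0 q (N * q * q) hq hqM) (q - 1)
      (s34_gi_V A0 (N * q))
      ((s34_gi_V A0 (N * q)).comap
        ((w : laurentBaseChange K0 (modularFunctionFieldFull (N * q)) ≃+*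
          laurentBaseChange K0 (modularFunctionFieldFull (N * q))) : _ →+* _))
      (s34_gi_V A0 (N * q * q))
      ((s34_gi_V A0 (N * q * q)).comap
        ((W : laurentBaseChange K0 (modularFunctionFieldFull (N * q * q)) ≃+*
          laurentBaseChange K0 (modularFunctionFieldFull (N * q * q))) : _ →+* _))
      (s36_gc_V κ A (N * q * q) Θ)
      (W : laurentBaseChange K0 (modularFunctionFieldFull (N * q * q)) ≃+*
        laurentBaseChange K0 (modularFunctionFieldFull (N * q * q))) := by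
  haveI : Fact q.Prime := ⟨hq⟩
  have hM : N * q * q = N * q ^ 2 := by ring
  have hVC : s34_Unif (s36_gc_z K0 q (N * q * q) hq hqM) (s36_gc_V κ A (N * q * q) Θ) :=
    s36_gc_unif hcusp hq hM hunifA _ rfl
  have hαC : ∀ y ∈ s34_gi_V A0 (N * q),
      (heckeAlphaBar K0 (N * q) q).toRingHom y ∈ s36_gc_V κ A (N * q * q) Θ :=
    fun y hy => s36_gc_low_mem hcusp A0 hA0 _ y (coe_heckeAlphaBar (N * q) q y) hy
  have hzA : (s36_gc_z K0 q (N * q * q) hq hqM)⁻¹ ∈ s34_gi_V A0 (N * q * q) :=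
    s36_gc_z_inv_mem_gi A0 hq _ rfl
  have hW' : ∀ (d m : ℕ) (_ : d ∣ N) (_ : m ∣ q ^ 2)
      (h1 : s34_sw_s K0 (d * m) ∈ laurentBaseChange K0 (modularFunctionFieldFull (N * q * q))),
      (((W : laurentBaseChange K0 (modularFunctionFieldFull (N * q * q)) →+*
          laurentBaseChange K0 (modularFunctionFieldFull (N * q * q))) ⟨s34_sw_s K0 (d * m), h1⟩ :
        laurentBaseChange K0 (modularFunctionFieldFull (N * q * q))) : LaurentSeries K0) =
        s34_sw_s K0 (d * (q ^ 2 / m)) := by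
    intro d m hd hm h1
    rw [pow_two] at hm ⊢
    exact hW d m hd hm h1
  have hWz := s36_gc_swap_z (N := N) hq hqM
    (W : laurentBaseChange K0 (modularFunctionFieldFull (N * q * q)) →+*
      laurentBaseChange K0 (modularFunctionFieldFull (N * q * q))) hW'
    (s36_gc_z K0 q (N * q * q) hq hqM) rfl
  have hzB : W (s36_gc_z K0 q (N * q * q) hq hqM)⁻¹ ∈ s34_gi_V A0 (N * q * q) :=
    s36_gc_z_inv_mem_comap A0 hq _ rfl
      (W : laurentBaseChange K0 (modularFunctionFieldFull (N * q * q)) →+*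
        laurentBaseChange K0 (modularFunctionFieldFull (N * q * q))) hWz
  obtain ⟨c, -, hc⟩ := s36_gu_q_eq q hq (ζ : A) hprimA
  have hzn : algebraMap K0 (laurentBaseChange K0 (modularFunctionFieldFull (N * q * q)))
      ((((q : ℕ) : A0) : A0) : K0) * ((s36_gc_z K0 q (N * q * q) hq hqM) ^ (q - 1))⁻¹ ∈
        s36_gc_V κ A (N * q * q) Θ :=
    s36_gc_q_div hcusp hq hqM hunifA.1 c hc _ rfl
  have hrel := s36_sr_rel N q w hw W hW
  have hqn : q = q - 1 + 1 := by have := hq.pos; omega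
  exact s36_ncm_model (N := N * q) (ℓ := q) (dvd_mul_left q N) hirr 1 (mul_one _).symm (q - 1) hqn
    w W hWW hrel _ _ hVC hαC hβC hzA hzB hzn

end Inst

section InstK

local notation "Qb" => AlgebraicClosure ℚ

set_option maxHeartbeats 1600000 in
set_option synthInstance.maxHeartbeats 400000 in
/-- **The components block for the concrete `V_C`, over `K₀ ⊆ Q̄`** (the vocabulary of
`S36/InstFun.lean`, `S36/InstNorm.lean`: `F'' = s18_F1 K₀ (N' q)`, `F = s18_F1 K₀ (N' q q)`,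
`A₀ = s18_A1 P K₀`, `ϖ'' = q`; `W₁` any swap with the two clauses of `s36_IsSwapK`). -/
theorem s36_ni_pkgK (P : ValuationSubring Qb) (K₀ : IntermediateField ℚ Qb)
    [IsDiscreteValuationRing (s18_A1 P K₀)]
    {K : Type*} [Field K] [Algebra ℚ K] (κ : K₀ →+* K) (A : ValuationSubring K)
    (hA0 : ∀ b ∈ s18_A1 P K₀, κ b ∈ A)
    (N' q : ℕ) [NeZero N'] [NeZero (N' * q)] [NeZero q] [NeZero (N' * q * q)]
    (hq : q.Prime) (hqM : q ^ 2 ∣ N' * q * q) (hirr : Irreducible ((q : ℕ) : s18_A1 P K₀))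
    (ζ : Aˣ)
    (Θ : laurentBaseChange K (modularFunctionFieldFull (N' * q * q)) →ₐ[K] LaurentSeries K)
    (hcusp : s36_gc_IsCusp N' q ζ Θ) (hunifA : s36_gc_IsUnif ζ)
    (hprimA : IsPrimitiveRoot (ζ : A) q)
    (w : s18_F1 K₀ (N' * q) ≃ₐ[K₀] s18_F1 K₀ (N' * q))
    (hw : ∀ (d m : ℕ) (_ : d ∣ N') (_ : m ∣ q)
      (h1 : s34_sw_s K₀ (d * m) ∈ s18_F1 K₀ (N' * q)),
      ((w ⟨s34_sw_s K₀ (d * m), h1⟩ : s18_F1 K₀ (N' * q)) : LaurentSeries K₀) =
        s34_sw_s K₀ (d * (q / m)))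
    (W₁ : s18_F1 K₀ (N' * q * q) ≃ₐ[K₀] s18_F1 K₀ (N' * q * q))
    (hWW : ∀ x, W₁ (W₁ x) = x)
    (hW : ∀ (d m : ℕ) (_ : d ∣ N') (_ : m ∣ q * q)
      (h1 : s34_sw_s K₀ (d * m) ∈ s18_F1 K₀ (N' * q * q)),
      ((W₁ ⟨s34_sw_s K₀ (d * m), h1⟩ : s18_F1 K₀ (N' * q * q)) : LaurentSeries K₀) =
        s34_sw_s K₀ (d * (q * q / m)))
    (hβC : ∀ y ∈ s34_gi_V (s18_A1 P K₀) (N' * q),
      W₁ ((heckeAlphaBar K₀ (N' * q) q).toRingHom y) ∈ s36_gc_V κ A (N' * q * q) Θ) :
    s36_nc_Pkg (heckeAlphaBar K₀ (N' * q) q).toRingHom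
      (algebraMap K₀ (s18_F1 K₀ (N' * q)) (q : K₀))
      (s36_gc_z K₀ q (N' * q * q) hq hqM) (q - 1)
      (s34_gi_V (s18_A1 P K₀) (N' * q))
      ((s34_gi_V (s18_A1 P K₀) (N' * q)).comap
        ((w : s18_F1 K₀ (N' * q) ≃+* s18_F1 K₀ (N' * q)) :
          s18_F1 K₀ (N' * q) →+* s18_F1 K₀ (N' * q)))
      (s34_gi_V (s18_A1 P K₀) (N' * q * q))
      ((s34_gi_V (s18_A1 P K₀) (N' * q * q)).comap
        ((W₁ : s18_F1 K₀ (N' * q * q) ≃+* s18_F1 K₀ (N' * q * q)) :
          s18_F1 K₀ (N' * q * q) →+* s18_F1 K₀ (N' * q * q)))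
      (s36_gc_V κ A (N' * q * q) Θ)
      (W₁ : s18_F1 K₀ (N' * q * q) ≃+* s18_F1 K₀ (N' * q * q)) :=
  s36_ni_pkg κ A (s18_A1 P K₀) hA0 N' q hq hqM hirr ζ Θ hcusp hunifA hprimA w hw W₁ hWW hW hβC

end InstK

end Fermat.Agent.S36
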