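import Fermat.Agent.S36.GaussC
import Fermat.Agent.S37.EsTwist

/-!
# S36 (NODE-3): the swap maps `α(V'_∞)` into `V_C`  (`β(V'_0) ⊆ V_C`)

`V_C = s36_gc_V κ A (N q q) Θ` is the pull-back of the coefficientwise Gauss ring of `A` along the
embedding `Θ` at the cusp `1/q` (`S36/GaussC.lean`).  For a generator-wise swap `W` of
`K₀ · F(N q q)` (`j(Q^(d m)) ↦ j(Q^(d q²/m))`, `d ∣ N`, `m ∣ q²`) and every `y ∈ K₀ · F(N q)`:

  `Θ (W (α y)) = y(ζ Q)`   (`s36_swc_theta`),

because both sides are ring homomorphisms of `K₀ · F(N q)` which agree on the constants and on the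
generators `j(Q^(d m))`, `d ∣ N`, `m ∈ {1, q}` (for `m = 1`: `Θ j(Q^(d q²)) = j((ζ Q)^d)`; for
`m = q`: the twist by a `q`-th root of unity fixes the series in `Q^q`).  The twist preserves the
coefficientwise Gauss ring, hence

  `W (α (Gauss(N q))) ⊆ V_C`   (`s36_swc_mem`, `s36_swc_hbC`),

which is the hypothesis `hβC` of `s36_ncm_model` (`S36/NrChainModel.lean`).
-/

set_option autoImplicit false
set_option linter.style.haveILetI false
set_option linter.unusedSectionVars false

open ModularCurve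

noncomputable section

namespace Fermat.Agent.S36

open Fermat.Agent.S28 (twistQ)
open Fermat.Agent.S18 Fermat.Agent.S34 Fermat.Agent.S37

/-- `twistQ` is the ring homomorphism `s37_ec_twist`. -/
theorem s36_swc_twistQ_eq {R : Type*} [CommRing R] (c : Rˣ) (s : LaurentSeries R) :
    twistQ c s = s37_ec_twist c s := by
  ext n
  rfl

/-- The twist by a `q`-th root of unity fixes `j(Q^(d q))`. -/
theorem s36_swc_twist_s {K : Type*} [Field K] [Algebra ℚ K] (u : Kˣ) (d q : ℕ) [NeZero d]
    [NeZero q] (hu : u ^ q = 1) :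
    s37_ec_twist u (s34_sw_s K (d * q)) = s34_sw_s K (d * q) := by
  haveI : NeZero (d * q) := ⟨Nat.mul_ne_zero (NeZero.ne d) (NeZero.ne q)⟩
  have e : s34_sw_s K (d * q) = qExpand K q (coeffEmb K (qExpand ℚ d jq)) := by
    rw [s34_sw_s_eq]
    show coeffMap (algebraMap ℚ K) (qExpand ℚ (d * q) jq) =
      qExpand K q (coeffMap (algebraMap ℚ K) (qExpand ℚ d jq))
    rw [← coeffMap_qExpand, qExpand_qExpand]
    congr 1
    exact qExpand_congr (mul_comm d q) _
  rw [e]
  exact s37_ec_twist_qExpand u q hu _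

section SwapC

variable {K0 K : Type*} [Field K0] [Field K] [Algebra ℚ K0] [Algebra ℚ K]
  {κ : K0 →+* K} {A : ValuationSubring K} {N q : ℕ} [NeZero N] [NeZero q] [NeZero (N * q)]
  [NeZero (N * q * q)]
  {Θ : laurentBaseChange K (modularFunctionFieldFull (N * q * q)) →ₐ[K] LaurentSeries K}
  {ζ : Aˣ}

set_option maxHeartbeats 1000000 in
/-- **`Θ (W (α y)) = y(ζ Q)`** for every `y` of level `N q`. -/
theorem s36_swc_theta (hq : q.Prime) (hΘ : s36_gc_IsCusp N q ζ Θ) (hζ : ζ ^ q = 1)
    (W : laurentBaseChange K0 (modularFunctionFieldFull (N * q * q)) →+*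
      laurentBaseChange K0 (modularFunctionFieldFull (N * q * q)))
    (hWc : ∀ c : K0,
      W (algebraMap K0 (laurentBaseChange K0 (modularFunctionFieldFull (N * q * q))) c) =
        algebraMap K0 (laurentBaseChange K0 (modularFunctionFieldFull (N * q * q))) c)
    (hW : ∀ (d m : ℕ) (_ : d ∣ N) (_ : m ∣ q * q)
      (h1 : s34_sw_s K0 (d * m) ∈ laurentBaseChange K0 (modularFunctionFieldFull (N * q * q))),
      ((W ⟨s34_sw_s K0 (d * m), h1⟩ :
        laurentBaseChange K0 (modularFunctionFieldFull (N * q * q))) : LaurentSeries K0) =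
        s34_sw_s K0 (d * (q * q / m)))
    (y : laurentBaseChange K0 (modularFunctionFieldFull (N * q))) :
    Θ (s36_gc_incl κ (N * q * q) (W (heckeAlphaBar K0 (N * q) q y))) =
      s37_ec_twist (Units.map (A.subtype : A →* K) ζ) (coeffMap κ (y : LaurentSeries K0)) := by
  set u : Kˣ := Units.map (A.subtype : A →* K) ζ with hu
  have huq : u ^ q = 1 := by rw [hu, ← map_pow, hζ, map_one]
  let φ₁ : laurentBaseChange K0 (modularFunctionFieldFull (N * q)) →+* LaurentSeries K :=
    (Θ : laurentBaseChange K (modularFunctionFieldFull (N * q * q)) →+* LaurentSeries K).comp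
      ((s36_gc_incl κ (N * q * q)).comp (W.comp (heckeAlphaBar K0 (N * q) q).toRingHom))
  let φ₂ : laurentBaseChange K0 (modularFunctionFieldFull (N * q)) →+* LaurentSeries K :=
    (s37_ec_twist u).comp ((coeffMap κ).comp
      ((laurentBaseChange K0 (modularFunctionFieldFull (N * q))).val :
        laurentBaseChange K0 (modularFunctionFieldFull (N * q)) →+* LaurentSeries K0))
  have key : φ₁ = φ₂ := by
    apply s34_sw_ringHom_ext (N * q)
    · intro c
      show Θ (s36_gc_incl κ (N * q * q) (W (heckeAlphaBar K0 (N * q) q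
          (algebraMap K0 (laurentBaseChange K0 (modularFunctionFieldFull (N * q))) c)))) =
        s37_ec_twist u (coeffMap κ (algebraMap K0 (LaurentSeries K0) c))
      have hR : s37_ec_twist u (coeffMap κ (algebraMap K0 (LaurentSeries K0) c)) =
          HahnSeries.single 0 (κ c) := by
        rw [algebraMap_laurentSeries_eq_single, coeffMap_single, ← HahnSeries.C_apply,
          s37_ec_twist_C]
      rw [AlgHom.commutes, hWc, s36_gc_incl_algebraMap, AlgHom.commutes,
        algebraMap_laurentSeries_eq_single, hR]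
    · intro e _ he
      obtain ⟨d, m, hd, hm, rfl⟩ := (Nat.dvd_mul).mp he
      haveI : NeZero d := ⟨fun h => NeZero.ne (d * m) (by rw [h, zero_mul])⟩
      have hdm0 : d * m ≠ 0 := NeZero.ne (d * m)
      have hm0 : m ≠ 0 := fun h => hdm0 (by rw [h, mul_zero])
      have hmqq : m ∣ q * q := hm.trans (dvd_mul_right q q)
      -- the generator upstairs
      have h1 : s34_sw_s K0 (d * m) ∈
          laurentBaseChange K0 (modularFunctionFieldFull (N * q * q)) := by
        rw [s34_sw_s_eq]
        exact s34_sw_s_mem K0 (N * q * q) (d * m) (he.trans (dvd_mul_right (N * q) q))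
      have e1 : heckeAlphaBar K0 (N * q) q
          (⟨coeffEmb K0 (qExpand ℚ (d * m) jq), s34_sw_s_mem K0 (N * q) (d * m) he⟩ :
            laurentBaseChange K0 (modularFunctionFieldFull (N * q))) =
          ⟨s34_sw_s K0 (d * m), h1⟩ := by
        apply Subtype.ext
        rw [coe_heckeAlphaBar]
        exact (s34_sw_s_eq K0 (d * m)).symm
      have h2 : s34_sw_s K (d * (q * q / m)) ∈
          laurentBaseChange K (modularFunctionFieldFull (N * q * q)) := by
        have h3 := (s36_gc_incl κ (N * q * q) (W ⟨s34_sw_s K0 (d * m), h1⟩)).2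
        rw [s36_gc_incl_coe, hW d m hd hmqq h1, s36_gc_coeffMap_s] at h3
        exact h3
      have e2 : s36_gc_incl κ (N * q * q) (W ⟨s34_sw_s K0 (d * m), h1⟩) =
          ⟨s34_sw_s K (d * (q * q / m)), h2⟩ := by
        apply Subtype.ext
        rw [s36_gc_incl_coe, hW d m hd hmqq h1, s36_gc_coeffMap_s]
      have hR : φ₂ ⟨coeffEmb K0 (qExpand ℚ (d * m) jq), s34_sw_s_mem K0 (N * q) (d * m) he⟩ =
          s37_ec_twist u (s34_sw_s K (d * m)) := by
        show s37_ec_twist u (coeffMap κ (coeffEmb K0 (qExpand ℚ (d * m) jq))) = _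
        rw [← s34_sw_s_eq K0 (d * m), s36_gc_coeffMap_s]
      have hL : φ₁ ⟨coeffEmb K0 (qExpand ℚ (d * m) jq), s34_sw_s_mem K0 (N * q) (d * m) he⟩ =
          Θ ⟨s34_sw_s K (d * (q * q / m)), h2⟩ := by
        show Θ (s36_gc_incl κ (N * q * q) (W (heckeAlphaBar K0 (N * q) q _))) = _
        rw [e1, e2]
      rw [hL, hR]
      have hmq : q * q / m ∣ q ^ 2 := by
        rw [pow_two]
        exact Nat.div_dvd_of_dvd hmqq
      rw [hΘ.1 d (q * q / m) hd hmq h2]
      rcases (Nat.dvd_prime hq).mp hm with hm1 | hmq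
      · rw [hm1, Nat.div_one, if_pos (pow_two q).symm, mul_one, s36_swc_twistQ_eq]
      · have hqq : q * q / q = q := Nat.mul_div_cancel q hq.pos
        have hne : q ≠ q ^ 2 := by
          intro h
          have h2q : 2 ≤ q := hq.two_le
          nlinarith [h]
        rw [hmq, hqq, if_neg hne, s36_swc_twist_s u d q huq]
  exact DFunLike.congr_fun key y

set_option maxHeartbeats 1000000 in
/-- **`W (α (Gauss(N q))) ⊆ V_C`.** -/
theorem s36_swc_mem (hq : q.Prime) (hΘ : s36_gc_IsCusp N q ζ Θ) (hζ : ζ ^ q = 1)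
    (A0 : ValuationSubring K0) (hA0 : ∀ a ∈ A0, κ a ∈ A)
    (W : laurentBaseChange K0 (modularFunctionFieldFull (N * q * q)) →+*
      laurentBaseChange K0 (modularFunctionFieldFull (N * q * q)))
    (hWc : ∀ c : K0,
      W (algebraMap K0 (laurentBaseChange K0 (modularFunctionFieldFull (N * q * q))) c) =
        algebraMap K0 (laurentBaseChange K0 (modularFunctionFieldFull (N * q * q))) c)
    (hW : ∀ (d m : ℕ) (_ : d ∣ N) (_ : m ∣ q * q)
      (h1 : s34_sw_s K0 (d * m) ∈ laurentBaseChange K0 (modularFunctionFieldFull (N * q * q))),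
      ((W ⟨s34_sw_s K0 (d * m), h1⟩ :
        laurentBaseChange K0 (modularFunctionFieldFull (N * q * q))) : LaurentSeries K0) =
        s34_sw_s K0 (d * (q * q / m)))
    (y : laurentBaseChange K0 (modularFunctionFieldFull (N * q)))
    (hy : y ∈ s34_gi_V A0 (N * q)) :
    W (heckeAlphaBar K0 (N * q) q y) ∈ s36_gc_V κ A (N * q * q) Θ := by
  rw [s36_gc_mem_V, s36_swc_theta hq hΘ hζ W hWc hW y]
  obtain ⟨s, y', hs, h⟩ := s34_gi_mem_V.mp hy
  have hcomp : (A.subtype : A →+* K).comp (s36_gc_res A0 hA0) = κ.comp A0.subtype := rfl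
  refine ⟨s37_ec_twist ζ (coeffMap (s36_gc_res A0 hA0) s),
    s37_ec_twist ζ (coeffMap (s36_gc_res A0 hA0) y'), ?_, ?_⟩
  · rw [s37_ec_coeffMap_twist]
    intro h0
    have h1 := congrArg
      (s37_ec_twist (Units.map ((IsLocalRing.residue A : A →+* IsLocalRing.ResidueField A) :
        A →* IsLocalRing.ResidueField A) ζ)⁻¹) h0
    rw [s37_ec_twist_twist, inv_mul_cancel, s37_ec_twist_one, map_zero] at h1
    apply hs
    ext n
    have h2 := congrArg (fun z : LaurentSeries (IsLocalRing.ResidueField A) => z.coeff n) h1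
    simp only [coeffMap_coeff, HahnSeries.coeff_zero] at h2 ⊢
    rw [IsLocalRing.residue_eq_zero_iff] at h2 ⊢
    by_contra hn
    have hu : IsUnit (s.coeff n) := IsLocalRing.notMem_maximalIdeal.mp hn
    exact (IsLocalRing.mem_maximalIdeal _).mp h2 (hu.map (s36_gc_res A0 hA0))
  · rw [s37_ec_coeffMap_twist, s37_ec_coeffMap_twist, ← map_mul]
    congr 1
    rw [coeffMap_coeffMap, coeffMap_coeffMap, hcomp, ← coeffMap_coeffMap, ← coeffMap_coeffMap,
      ← h, map_mul]

/-- **The hypothesis `hβC` of `s36_ncm_model`** for the concrete `V_C`: for an algebra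
automorphism `W₁` which is a generator-wise swap (the second component of `s36_IsSwapK`). -/
theorem s36_swc_hbC (hq : q.Prime) (hΘ : s36_gc_IsCusp N q ζ Θ) (hζ : ζ ^ q = 1)
    (A0 : ValuationSubring K0) (hA0 : ∀ a ∈ A0, κ a ∈ A)
    (W₁ : laurentBaseChange K0 (modularFunctionFieldFull (N * q * q)) ≃ₐ[K0]
      laurentBaseChange K0 (modularFunctionFieldFull (N * q * q)))
    (hW : ∀ (d m : ℕ) (_ : d ∣ N) (_ : m ∣ q * q)
      (h1 : s34_sw_s K0 (d * m) ∈ laurentBaseChange K0 (modularFunctionFieldFull (N * q * q))),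
      ((W₁ ⟨s34_sw_s K0 (d * m), h1⟩ :
        laurentBaseChange K0 (modularFunctionFieldFull (N * q * q))) : LaurentSeries K0) =
        s34_sw_s K0 (d * (q * q / m))) :
    ∀ y ∈ s34_gi_V A0 (N * q),
      W₁ ((heckeAlphaBar K0 (N * q) q).toRingHom y) ∈ s36_gc_V κ A (N * q * q) Θ :=
  fun y hy => s36_swc_mem hq hΘ hζ A0 hA0
    (W₁ : laurentBaseChange K0 (modularFunctionFieldFull (N * q * q)) →+*
      laurentBaseChange K0 (modularFunctionFieldFull (N * q * q)))
    (fun c => W₁.commutes c) hW y hy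

end SwapC

end Fermat.Agent.S36
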