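import Mathlib
import Fermat.Agent.S36.FinalContract
import Fermat.Agent.S36.NrInst
import Fermat.Agent.S36.ChartPkg3Full
import Fermat.Agent.S36.GaussData
import Fermat.Agent.S36.SwapC
import Fermat.Agent.S36.BaseUnram

/-!
# S36 (NODE-3): the contract `s36_ptb_ContractAll` for the concrete three-component model

The contract of `S36/PtsPkg` (components block, chart block, closed-point blocks) is
instantiated on the concrete model of level `N₁ q q` over an inertia-fixed number field `K₀`: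

* `π = q`, `A₀ = s18_A1 P K₀` (`s36_bu_irreducible`, `s18_a1_dvr`);
* the swaps `w` (level `N₁ q`, `s34_md_exists_swap`) and the given `W₁` (`s36_sr_rel`);
* the third component `V_C = s36_gc_V κ A (N₁ q q) Θ` with the data `(K, ζ, Θ)` of
  `s36_gd_main`, `A = P ∩ K` (a discrete valuation ring by `s36_ci_dvr`);
* components block: `s36_ni_pkgK` (`S36/NrInst`) with `hβC` from `s36_swc_hbC` (`S36/SwapC`);
* chart block: `s36_cp3f_chart_t2` / `_t3` (`S36/ChartPkg3Full`).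

The closed-point blocks of the two charts are the remaining hypothesis, `s36_ci_PtsAll`.

* `s36_ci_contract` : `s36_ptb_ContractAll N₁ q` from `s36_ci_PtsAll` (Hauptmodul `t₂` or `t₃`);
* `s36_ci_final` : the conclusion of S36 from the closed-point blocks of the concrete models.
-/

set_option autoImplicit false
set_option synthInstance.maxHeartbeats 400000
set_option linter.style.haveILetI false
set_option linter.unusedSectionVars false
set_option linter.unusedVariables false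

open ModularCurve AlgebraicCurve

noncomputable section

namespace Fermat.Agent.S36

open Fermat.Agent.S18 Fermat.Agent.S34 Fermat.Agent.S35

local notation "Qb" => AlgebraicClosure ℚ

/-- A valuation ring in which `ζ - 1` is a uniformizer (`s36_gc_IsUnif`) is a discrete valuation
ring. -/
theorem s36_ci_dvr {K : Type*} [Field K] (A : ValuationSubring K) (ζ : Aˣ)
    (h : s36_gc_IsUnif ζ) : IsDiscreteValuationRing A := by
  obtain ⟨h1, h2, h3⟩ := h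
  have hp0 : (ζ : A) - 1 ≠ 0 := sub_ne_zero.mpr h1
  have hpu : ¬ IsUnit ((ζ : A) - 1) := by
    intro hu
    exact (IsLocalRing.residue_ne_zero_iff_isUnit _).mpr hu h2
  have hunit : ∀ r : A, IsLocalRing.residue A r ≠ 0 → IsUnit r :=
    fun r hr => (IsLocalRing.residue_ne_zero_iff_isUnit r).mp hr
  have hirr : Irreducible ((ζ : A) - 1) := by
    rw [irreducible_iff]
    refine ⟨hpu, ?_⟩
    intro a b hab
    have ha0 : a ≠ 0 := by
      rintro rfl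
      exact hp0 (by rw [hab, zero_mul])
    have hb0 : b ≠ 0 := by
      rintro rfl
      exact hp0 (by rw [hab, mul_zero])
    obtain ⟨n, a', rfl, ha'⟩ := h3 a ha0
    obtain ⟨k, b', rfl, hb'⟩ := h3 b hb0
    have hua := hunit a' ha'
    have hub := hunit b' hb'
    rcases Nat.eq_zero_or_pos n with rfl | hn
    · left
      simpa using hua
    rcases Nat.eq_zero_or_pos k with rfl | hk
    · right
      simpa using hub
    exfalso
    obtain ⟨n, rfl⟩ : ∃ n', n = n' + 1 := ⟨n - 1, by omega⟩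
    obtain ⟨k, rfl⟩ : ∃ k', k = k' + 1 := ⟨k - 1, by omega⟩
    have e : ((ζ : A) - 1) * 1 =
        ((ζ : A) - 1) * (((ζ : A) - 1) * (((ζ : A) - 1) ^ (n + k) * (a' * b'))) := by
      rw [mul_one]
      conv_lhs => rw [hab]
      ring
    have e2 := mul_left_cancel₀ hp0 e
    exact hpu (IsUnit.of_mul_eq_one _ e2.symm)
  apply IsDiscreteValuationRing.ofHasUnitMulPowIrreducibleFactorization
  refine ⟨(ζ : A) - 1, hirr, ?_⟩
  intro x hx
  obtain ⟨n, x', rfl, hx'⟩ := h3 x hx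
  obtain ⟨u, hu⟩ := hunit x' hx'
  exact ⟨n, u, by rw [hu]⟩

/-- **The closed-point blocks of the concrete model** of level `N₁ q q` with coordinate `tLL`
(the Hauptmodul `t₂` or `t₃`): for every inertia-fixed number field `K₀`, every exponent datum
`(m, r, s)`, every swap `w` of level `N₁ q`, every swap `W₁` of level `N₁ q q` and every datum
`(K, ζ, Θ)` of the third component (as delivered by `s36_gd_main`), there are a field `F₀` with
two S18 charts and three embeddings into `K₀ · F(N₁ q q)` such that the closed-point inputs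
`s36_ptb_Pts` hold for the two integral-closure charts, with the triple-point contract
`s36_pm_TriOut`. -/
def s36_ci_PtsAll (N₁ q : ℕ) [NeZero N₁] [NeZero q] [NeZero (N₁ * q)] [NeZero (N₁ * q * q)]
    (hq : q.Prime) (tLL : modularFunctionFieldFull (N₁ * q * q)) : Prop :=
  ∀ (P : ValuationSubring Qb) (_ : P.LiesOverPrime q) (K₀ : IntermediateField ℚ Qb)
    (_ : FiniteDimensional ℚ K₀) (_ : ∀ a ∈ K₀, ∀ τ ∈ P.inertiaSubgroupIn ℚ, τ a = a)
    (_ : IsDiscreteValuationRing (s18_A1 P K₀)) (_ : Irreducible ((q : ℕ) : s18_A1 P K₀))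
    (m : ℕ) (_ : 0 < m) (_ : ¬ q ∣ m) (ζm : K₀) (_ : IsPrimitiveRoot ζm m)
    (w : s18_F1 K₀ (N₁ * q) ≃ₐ[K₀] s18_F1 K₀ (N₁ * q)) (_ : s34_md_IsSwap K₀ N₁ q w)
    (W₁ : s18_F1 K₀ (N₁ * q * q) ≃ₐ[K₀] s18_F1 K₀ (N₁ * q * q)) (_ : s36_IsSwapK K₀ N₁ q W₁)
    (_ : ∀ y, W₁ (heckeAlphaBar K₀ (N₁ * q) q y) = heckeBetaBar K₀ (N₁ * q) q (w y))
    (r s : ℤ) (_ : r * (q : ℤ) + s * (m : ℤ) = 1)
    (K : IntermediateField K₀ Qb) (ζ : (P.comap (algebraMap K Qb))ˣ)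
    (Θ : laurentBaseChange K (modularFunctionFieldFull (N₁ * q * q)) →ₐ[K] LaurentSeries K)
    (_ : s36_gc_IsCusp N₁ q ζ Θ) (_ : s36_gc_IsUnif ζ)
    (_ : IsPrimitiveRoot (ζ : P.comap (algebraMap K Qb)) q)
    (_ : IsLocalRing.residue (P.comap (algebraMap K Qb))
      ((q : ℕ) : P.comap (algebraMap K Qb)) = 0)
    (_ : ∀ b ∈ s18_A1 P K₀, algebraMap K₀ K b ∈ P.comap (algebraMap K Qb)),
    ∃ (F₀ : Type) (_ : Field F₀) (ϖ₀ : F₀) (B₁0 B₁i : Subring F₀)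
      (ιA ιB ιC : F₀ →+* s18_F1 K₀ (N₁ * q * q)),
      s36_ptb_Pts
        (algebraMap (s18_A1 P K₀) (s18_F1 K₀ (N₁ * q * q)) ((q : ℕ) : s18_A1 P K₀))
        (s36_gc_z K₀ q (N₁ * q * q) hq (s36_cp3i_sq_dvd N₁ q))
        (s34_md_B0 P K₀ (N₁ * q * q) tLL).toSubring
        (s34_gi_V (s18_A1 P K₀) (N₁ * q * q))
        ((s34_gi_V (s18_A1 P K₀) (N₁ * q * q)).comap
          ((W₁ : s18_F1 K₀ (N₁ * q * q) ≃+* s18_F1 K₀ (N₁ * q * q)) :
            s18_F1 K₀ (N₁ * q * q) →+* s18_F1 K₀ (N₁ * q * q)))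
        (s36_gc_V (algebraMap K₀ K) (P.comap (algebraMap K Qb)) (N₁ * q * q) Θ)
        ((s34_md_B0 P K₀ (N₁ * q * q) tLL).algebraMap_mem ((q : ℕ) : s18_A1 P K₀))
        ϖ₀ B₁0 ιA ιB ιC
        (fun 𝔪 => s36_pm_TriOut (heckeAlphaBar K₀ (N₁ * q) q).toRingHom
          (algebraMap K₀ (s18_F1 K₀ (N₁ * q)) (q : K₀))
          (s36_gc_z K₀ q (N₁ * q * q) hq (s36_cp3i_sq_dvd N₁ q))
          (s34_gi_V (s18_A1 P K₀) (N₁ * q * q))
          ((s34_gi_V (s18_A1 P K₀) (N₁ * q * q)).comap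
            ((W₁ : s18_F1 K₀ (N₁ * q * q) ≃+* s18_F1 K₀ (N₁ * q * q)) :
              s18_F1 K₀ (N₁ * q * q) →+* s18_F1 K₀ (N₁ * q * q)))
          (s36_gc_V (algebraMap K₀ K) (P.comap (algebraMap K Qb)) (N₁ * q * q) Θ)
          (s34_gi_V (s18_A1 P K₀) (N₁ * q))
          ((s34_gi_V (s18_A1 P K₀) (N₁ * q)).comap
            ((w : s18_F1 K₀ (N₁ * q) ≃+* s18_F1 K₀ (N₁ * q)) :
              s18_F1 K₀ (N₁ * q) →+* s18_F1 K₀ (N₁ * q)))
          (@Algebra.norm (s18_F1 K₀ (N₁ * q)) (s18_F1 K₀ (N₁ * q * q)) _ _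
            (heckeAlphaBar K₀ (N₁ * q) q).toRingHom.toAlgebra)
          (W₁ : s18_F1 K₀ (N₁ * q * q) ≃+* s18_F1 K₀ (N₁ * q * q)) (q - 1) m r s
          (s34_md_B0 P K₀ (N₁ * q * q) tLL).toSubring 𝔪) ∧
      s36_ptb_Pts
        (algebraMap (s18_A1 P K₀) (s18_F1 K₀ (N₁ * q * q)) ((q : ℕ) : s18_A1 P K₀))
        (s36_gc_z K₀ q (N₁ * q * q) hq (s36_cp3i_sq_dvd N₁ q))
        (s34_md_Binf P K₀ (N₁ * q * q) tLL).toSubring
        (s34_gi_V (s18_A1 P K₀) (N₁ * q * q))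
        ((s34_gi_V (s18_A1 P K₀) (N₁ * q * q)).comap
          ((W₁ : s18_F1 K₀ (N₁ * q * q) ≃+* s18_F1 K₀ (N₁ * q * q)) :
            s18_F1 K₀ (N₁ * q * q) →+* s18_F1 K₀ (N₁ * q * q)))
        (s36_gc_V (algebraMap K₀ K) (P.comap (algebraMap K Qb)) (N₁ * q * q) Θ)
        ((s34_md_Binf P K₀ (N₁ * q * q) tLL).algebraMap_mem ((q : ℕ) : s18_A1 P K₀))
        ϖ₀ B₁i ιA ιB ιC
        (fun 𝔪 => s36_pm_TriOut (heckeAlphaBar K₀ (N₁ * q) q).toRingHom
          (algebraMap K₀ (s18_F1 K₀ (N₁ * q)) (q : K₀))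
          (s36_gc_z K₀ q (N₁ * q * q) hq (s36_cp3i_sq_dvd N₁ q))
          (s34_gi_V (s18_A1 P K₀) (N₁ * q * q))
          ((s34_gi_V (s18_A1 P K₀) (N₁ * q * q)).comap
            ((W₁ : s18_F1 K₀ (N₁ * q * q) ≃+* s18_F1 K₀ (N₁ * q * q)) :
              s18_F1 K₀ (N₁ * q * q) →+* s18_F1 K₀ (N₁ * q * q)))
          (s36_gc_V (algebraMap K₀ K) (P.comap (algebraMap K Qb)) (N₁ * q * q) Θ)
          (s34_gi_V (s18_A1 P K₀) (N₁ * q))
          ((s34_gi_V (s18_A1 P K₀) (N₁ * q)).comap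
            ((w : s18_F1 K₀ (N₁ * q) ≃+* s18_F1 K₀ (N₁ * q)) :
              s18_F1 K₀ (N₁ * q) →+* s18_F1 K₀ (N₁ * q)))
          (@Algebra.norm (s18_F1 K₀ (N₁ * q)) (s18_F1 K₀ (N₁ * q * q)) _ _
            (heckeAlphaBar K₀ (N₁ * q) q).toRingHom.toAlgebra)
          (W₁ : s18_F1 K₀ (N₁ * q * q) ≃+* s18_F1 K₀ (N₁ * q * q)) (q - 1) m r s
          (s34_md_Binf P K₀ (N₁ * q * q) tLL).toSubring 𝔪)

set_option maxHeartbeats 4000000 in
/-- **The contract of the concrete model, Hauptmodul `t₂`.** -/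
theorem s36_ci_contract_t2 (N₁ q : ℕ) [NeZero N₁] [NeZero q] [NeZero (N₁ * q)]
    [NeZero (N₁ * q * q)] (hq : q.Prime) (hqN : ¬ q ∣ N₁) (h2 : 2 ∣ N₁)
    (h2'' : 2 ∣ N₁ * q * q)
    (hpts : s36_ci_PtsAll N₁ q hq (s18_cz_t2 (N₁ * q * q) h2'')) :
    s36_ptb_ContractAll N₁ q := by
  intro P hP K₀ hfin hK₀ m hm hqm ζm hζm W₁ hW₁ r s hrs
  haveI : Fact q.Prime := ⟨hq⟩
  haveI := hfin
  haveI hDVR : IsDiscreteValuationRing (s18_A1 P K₀) := s18_a1_dvr P hP K₀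
  have hcop : Nat.Coprime q N₁ := (Nat.Prime.coprime_iff_not_dvd hq).mpr hqN
  have hirr : Irreducible ((q : ℕ) : s18_A1 P K₀) := s36_bu_irreducible P q hP K₀ hK₀
  -- the swap of level `N₁ q`
  obtain ⟨w, hw⟩ := s34_md_exists_swap K₀ N₁ q hcop
  have hrel : ∀ y, W₁ (heckeAlphaBar K₀ (N₁ * q) q y) = heckeBetaBar K₀ (N₁ * q) q (w y) :=
    fun y => s36_sr_rel N₁ q w hw.2.2.2.2 W₁ hW₁.2 y
  -- the third component
  have hunif : ∀ b : K₀, b ≠ 0 → ∃ k : ℤ, P.valuation (b : Qb) = P.valuation (q : Qb) ^ k := by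
    intro b hb
    exact Fermat.Agent.S13.inertia_fixed_valuation P hq hP (b : Qb)
      (by exact_mod_cast hb) (fun τ hτ => hK₀ b b.2 τ hτ)
  obtain ⟨K, ζ, Θ, hcusp, hunifA, hprimA, hres, hA0⟩ :=
    s36_gd_main P K₀ N₁ q (N₁ * q * q) hq hqN (s36_cp3i_level N₁ q) hP hunif
  haveI hDVRA : IsDiscreteValuationRing (P.comap (algebraMap K Qb)) := s36_ci_dvr _ ζ hunifA
  obtain ⟨c, hc⟩ := s36_gc_q_eq q hq (ζ : P.comap (algebraMap K Qb)) hprimA
  -- components block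
  have hζq : ζ ^ q = 1 := Units.ext (by
    rw [Units.val_pow_eq_pow_val]; exact hprimA.pow_eq_one)
  have hβC := s36_swc_hbC (κ := algebraMap K₀ K) hq hcusp hζq (s18_A1 P K₀) hA0 W₁ hW₁.2
  have hpk := s36_ni_pkgK P K₀ (algebraMap K₀ K) (P.comap (algebraMap K Qb)) hA0 N₁ q hq
    (s36_cp3i_sq_dvd N₁ q) hirr ζ Θ hcusp hunifA hprimA w hw.2.2.2.2 W₁ hW₁.1 hW₁.2 hβC
  -- chart block
  have h2' : 2 ∣ N₁ * q := Dvd.dvd.mul_right h2 q
  have hch := s36_cp3f_chart_t2 P K₀ N₁ q (algebraMap K₀ K) (P.comap (algebraMap K Qb)) Θ ζ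
    hP hqN h2 h2' h2'' hirr w hw W₁ hrel hcusp hunifA hA0 c hc
  -- closed points
  obtain ⟨F₀, hF₀, ϖ₀, B₁0, B₁i, ιA, ιB, ιC, hp0, hpi⟩ :=
    hpts P hP K₀ hfin hK₀ hDVR hirr m hm hqm ζm hζm w hw W₁ hW₁ hrel r s hrs K ζ Θ hcusp hunifA
      hprimA hres hA0
  exact ⟨((q : ℕ) : s18_A1 P K₀), _, _, _, _, _, _, _, _, _, F₀, hF₀, ϖ₀, B₁0, B₁i, ιA, ιB, ιC,
    hirr, by simp, hpk, hch, hp0, hpi⟩

set_option maxHeartbeats 4000000 in
/-- **The contract of the concrete model, Hauptmodul `t₃`.** -/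
theorem s36_ci_contract_t3 (N₁ q : ℕ) [NeZero N₁] [NeZero q] [NeZero (N₁ * q)]
    [NeZero (N₁ * q * q)] (hq : q.Prime) (hqN : ¬ q ∣ N₁) (h3 : 3 ∣ N₁)
    (h3'' : 3 ∣ N₁ * q * q)
    (hpts : s36_ci_PtsAll N₁ q hq (s18_cz_t3 (N₁ * q * q) h3'')) :
    s36_ptb_ContractAll N₁ q := by
  intro P hP K₀ hfin hK₀ m hm hqm ζm hζm W₁ hW₁ r s hrs
  haveI : Fact q.Prime := ⟨hq⟩
  haveI := hfin
  haveI hDVR : IsDiscreteValuationRing (s18_A1 P K₀) := s18_a1_dvr P hP K₀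
  have hcop : Nat.Coprime q N₁ := (Nat.Prime.coprime_iff_not_dvd hq).mpr hqN
  have hirr : Irreducible ((q : ℕ) : s18_A1 P K₀) := s36_bu_irreducible P q hP K₀ hK₀
  -- the swap of level `N₁ q`
  obtain ⟨w, hw⟩ := s34_md_exists_swap K₀ N₁ q hcop
  have hrel : ∀ y, W₁ (heckeAlphaBar K₀ (N₁ * q) q y) = heckeBetaBar K₀ (N₁ * q) q (w y) :=
    fun y => s36_sr_rel N₁ q w hw.2.2.2.2 W₁ hW₁.2 y
  -- the third component
  have hunif : ∀ b : K₀, b ≠ 0 → ∃ k : ℤ, P.valuation (b : Qb) = P.valuation (q : Qb) ^ k := by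
    intro b hb
    exact Fermat.Agent.S13.inertia_fixed_valuation P hq hP (b : Qb)
      (by exact_mod_cast hb) (fun τ hτ => hK₀ b b.2 τ hτ)
  obtain ⟨K, ζ, Θ, hcusp, hunifA, hprimA, hres, hA0⟩ :=
    s36_gd_main P K₀ N₁ q (N₁ * q * q) hq hqN (s36_cp3i_level N₁ q) hP hunif
  haveI hDVRA : IsDiscreteValuationRing (P.comap (algebraMap K Qb)) := s36_ci_dvr _ ζ hunifA
  obtain ⟨c, hc⟩ := s36_gc_q_eq q hq (ζ : P.comap (algebraMap K Qb)) hprimA
  -- components block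
  have hζq : ζ ^ q = 1 := Units.ext (by
    rw [Units.val_pow_eq_pow_val]; exact hprimA.pow_eq_one)
  have hβC := s36_swc_hbC (κ := algebraMap K₀ K) hq hcusp hζq (s18_A1 P K₀) hA0 W₁ hW₁.2
  have hpk := s36_ni_pkgK P K₀ (algebraMap K₀ K) (P.comap (algebraMap K Qb)) hA0 N₁ q hq
    (s36_cp3i_sq_dvd N₁ q) hirr ζ Θ hcusp hunifA hprimA w hw.2.2.2.2 W₁ hW₁.1 hW₁.2 hβC
  -- chart block
  have h3' : 3 ∣ N₁ * q := Dvd.dvd.mul_right h3 q
  have hch := s36_cp3f_chart_t3 P K₀ N₁ q (algebraMap K₀ K) (P.comap (algebraMap K Qb)) Θ ζ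
    hP hqN h3 h3' h3'' hirr w hw W₁ hrel hcusp hunifA hA0 c hc
  -- closed points
  obtain ⟨F₀, hF₀, ϖ₀, B₁0, B₁i, ιA, ιB, ιC, hp0, hpi⟩ :=
    hpts P hP K₀ hfin hK₀ hDVR hirr m hm hqm ζm hζm w hw W₁ hW₁ hrel r s hrs K ζ Θ hcusp hunifA
      hprimA hres hA0
  exact ⟨((q : ℕ) : s18_A1 P K₀), _, _, _, _, _, _, _, _, _, F₀, hF₀, ϖ₀, B₁0, B₁i, ιA, ιB, ιC,
    hirr, by simp, hpk, hch, hp0, hpi⟩

/-- **S36 from the closed-point blocks of the concrete models.**  The conclusion of S36 follows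
from `s36_ci_PtsAll` (the closed-point inputs `s36_ptb_Pts` of the two integral-closure charts of
the concrete three-component model) for

* every prime `q ≥ 5` and every `L'` prime to `q` divisible by `6` (Hauptmodul `t₂`),
* `q = 3` and every `L'` prime to `3` divisible by `4` (Hauptmodul `t₂`),
* `q = 2` and every odd `L'` divisible by `9` (Hauptmodul `t₃`). -/
theorem s36_ci_final
    (h5 : ∀ (q : ℕ) [NeZero q] (hq : q.Prime), 5 ≤ q → ∀ (L' : ℕ) [NeZero L'], ¬ q ∣ L' →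
      6 ∣ L' → ∀ h2'' : 2 ∣ L' * q * q, s36_ci_PtsAll L' q hq (s18_cz_t2 (L' * q * q) h2''))
    (h3 : ∀ (L' : ℕ) [NeZero L'], ¬ 3 ∣ L' → 4 ∣ L' → ∀ h2'' : 2 ∣ L' * 3 * 3,
      s36_ci_PtsAll L' 3 Nat.prime_three (s18_cz_t2 (L' * 3 * 3) h2''))
    (h2 : ∀ (L' : ℕ) [NeZero L'], ¬ 2 ∣ L' → 9 ∣ L' → ∀ h3'' : 3 ∣ L' * 2 * 2,
      s36_ci_PtsAll L' 2 Nat.prime_two (s18_cz_t3 (L' * 2 * 2) h3''))
    {M : ℕ} [NeZero M] {g : CuspForm (CongruenceSubgroup.Gamma0 M) 2} (hg : g.IsNewform)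
    (lam : ℕ) [Fact lam.Prime]
    (S : Finset ℕ)
    (O' : Type) [CommRing O'] [IsDomain O'] [IsDiscreteValuationRing O']
    [IsAdicComplete (IsLocalRing.maximalIdeal O') O'] [Finite (IsLocalRing.ResidueField O')]
    [CharZero O'] (hlamO' : (lam : O') ∈ IsLocalRing.maximalIdeal O')
    (hlam2 : lam ≠ 2)
    (chig : CuspForm.heckeAlgebra M 2 (↑S : Set ℕ) →+* ℂ)
    (hchig : ∀ (ℓ : ℕ) (hℓ : ℓ.Prime) (hℓM : ¬ ℓ ∣ M) (hℓS : ℓ ∉ (↑S : Set ℕ)),
      chig (CuspForm.heckeAlgebra.T hℓ hℓM hℓS) = ModularFormClass.qCoeff g ℓ)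
    (iota : chig.range →+* O')
    (hlamS : lam ∈ S) (hMS : ∀ q : ℕ, q.Prime → q ∣ M → q ∈ S) :
    ∃ (O'' : Type) (_ : CommRing O'') (_ : IsDomain O'') (_ : IsDiscreteValuationRing O'')
      (_ : IsAdicComplete (IsLocalRing.maximalIdeal O'') O'') (_ : Finite (IsLocalRing.ResidueField O''))
      (_ : CharZero O'') (_ : Algebra O' O'') (_ : Module.Finite O' O'') (_ : IsLocalHom (algebraMap O' O'')),
      Function.Injective (algebraMap O' O'') ∧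
      ∃ ρ : GaloisRepAdic O'',
        (∀ (ℓ : ℕ) (hℓ : ℓ.Prime) (hℓM : ¬ ℓ ∣ M) (hℓS : ℓ ∉ (↑S : Set ℕ)),
          ∀ A : ValuationSubring (AlgebraicClosure ℚ), A.LiesOverPrime ℓ →
            ∀ σ : AlgebraicClosure ℚ ≃ₐ[ℚ] AlgebraicClosure ℚ, A.IsFrobeniusAt σ ℓ →
              LinearMap.charpoly (ρ.ρ σ) =
                Polynomial.X ^ 2 - Polynomial.C (algebraMap O' O'' ((iota.comp chig.rangeRestrict)
                  (CuspForm.heckeAlgebra.T hℓ hℓM hℓS))) * Polynomial.X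
                  + Polynomial.C ((ℓ : O''))) ∧
        (∀ q : ℕ, q.Prime → q ≠ lam → M.factorization q = 2 → ¬ ρ.IsUnipotentOnInertiaAt q) :=
  s36_final_contract
    (fun q _ hq h5q L' _ hqL h6 =>
      have h2 : 2 ∣ L' := Dvd.dvd.trans (by norm_num) h6
      s36_ci_contract_t2 L' q hq hqL h2 ((h2.mul_right q).mul_right q)
        (h5 q hq h5q L' hqL h6 _))
    (fun L' _ hqL h4 =>
      have h2 : 2 ∣ L' := Dvd.dvd.trans (by norm_num) h4
      s36_ci_contract_t2 L' 3 Nat.prime_three hqL h2 ((h2.mul_right 3).mul_right 3)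
        (h3 L' hqL h4 _))
    (fun L' _ hqL h9 =>
      have h3' : 3 ∣ L' := Dvd.dvd.trans (by norm_num) h9
      s36_ci_contract_t3 L' 2 Nat.prime_two hqL h3' ((h3'.mul_right 2).mul_right 2)
        (h2 L' hqL h9 _))
    hg lam S O' hlamO' hlam2 chig hchig iota hlamS hMS

end Fermat.Agent.S36
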