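import Mathlib
import Fermat.Agent.S34.LevelGauss
import Fermat.Agent.S34.LevelChart
import Fermat.Agent.S34.IcUnif
import Fermat.Agent.S34.GaussZeroModel
import Fermat.Agent.S36.ResSq

/-!
# S36 (NODE-3), (RES) at level `N₁ q²` in the generic model

Setting (as in `S34/RegInst`, section `Generic`; no Galois hypothesis): `K` a field over `ℚ`, `A` a
valuation subring of `K` which is a DVR with uniformizer `π` and residue characteristic `ℓ`; `N` a
level prime to `ℓ` with an S18 coordinate `t`, `B₁ = s18_chAlg N ℓ A t ⊆ F' = K · F_N` the S18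
chart, `V'' = s34_gi_V A N` its Gauss ring.

* `s36_rsm_incl_mem_ic`, `s36_rsm_hint` : for ANY field `FF` with an `A`-algebra structure and any
  ring embedding `ι : F' →+* FF` compatible with `A`, `ι B₁` lies in the integral-closure chart
  `s34_ic_chart A (ι t)` and the latter is integral over `ι B₁`.
* `s36_rsm_res` : **(RES)** for the chart `B = s34_ic_chart A (ι t)` and any discrete valuation
  ring `V ⊇ A, ι V''` of `FF` with uniformiser `z` dividing `π`, from `κ(V) = κ(V'')`: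
  `B = ι B₁ + (B ∩ z V)`.
* `s36_rsm_kappaA`, `s36_rsm_kappaC` : `κ(V) = κ(V'')` through the intermediate level, for the
  composite inclusion `K · F_N → K · F_{N q} → K · F_{N q q}`, `V = V_A` (the Gauss ring at
  infinity) and `V = V_C` (any ring as in helper9's `s36_nm_AC`).
* `s36_rsm_resA`, `s36_rsm_resC` : the resulting (RES) statements `RES_A`, `RES_C`.
-/

set_option autoImplicit false
set_option synthInstance.maxHeartbeats 400000
set_option linter.unusedSectionVars false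
set_option linter.unusedVariables false

open ModularCurve ModularCurve.IgusaScheme Fermat.Agent.S28 Polynomial

noncomputable section

namespace Fermat.Agent.S36

open Fermat.Agent.S18 Fermat.Agent.S34

section Generic

variable {N : ℕ} [NeZero N] {ℓ : ℕ} [Fact ℓ.Prime]
variable {K : Type*} [Field K] [Algebra ℚ K] {A : ValuationSubring K}
variable {t : modularFunctionFieldFull N}
variable [IsDiscreteValuationRing A] {π : A}
variable {FF : Type*} [Field FF] [Algebra A FF]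

local notation "F'" => laurentBaseChange K (modularFunctionFieldFull N)

/-- The image of the smooth chart lies in the integral-closure chart of the image of the
coordinate, for any embedding compatible with `A`. -/
theorem s36_rsm_incl_mem_ic (ι : F' →+* FF)
    (hι : ∀ a : A, ι (algebraMap A F' a) = algebraMap A FF a)
    (hsm : s18_SmHyp π (s18_coord K t) (s18_chAlg N ℓ A t))
    (x : F') (hx : x ∈ s18_chAlg N ℓ A t) :
    ι x ∈ s34_ic_chart A (ι (s18_coord K t)) := by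
  have h1 := s34_lc_integral hsm x hx
  rw [s34_ic_mem_iff] at h1 ⊢
  obtain ⟨p, hp, hpx⟩ := h1
  refine ⟨p, hp, ?_⟩
  have hcomp : ι.comp ((aeval (s18_coord K t) : A[X] →ₐ[A] F') : A[X] →+* F') =
      ((aeval (ι (s18_coord K t)) : A[X] →ₐ[A] FF) : A[X] →+* FF) := by
    apply Polynomial.ringHom_ext
    · intro a
      simp only [RingHom.comp_apply, RingHom.coe_coe, aeval_C]
      exact hι a
    · simp only [RingHom.comp_apply, RingHom.coe_coe, aeval_X]
  have h3 := Polynomial.hom_eval₂ p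
    ((aeval (s18_coord K t) : A[X] →ₐ[A] F') : A[X] →+* F') ι x
  rw [hpx, map_zero] at h3
  rw [← hcomp]
  exact h3.symm

/-- The integral-closure chart of `ι t` is integral over `ι B₁` (polynomial form). -/
theorem s36_rsm_hint (ι : F' →+* FF)
    (hι : ∀ a : A, ι (algebraMap A F' a) = algebraMap A FF a)
    (hsm : s18_SmHyp π (s18_coord K t) (s18_chAlg N ℓ A t)) :
    ∀ x ∈ (s34_ic_chart A (ι (s18_coord K t))).toSubring,
      ∃ P : Polynomial (s18_chAlg N ℓ A t).toSubring, P.Monic ∧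
        P.eval₂ (ι.comp (s18_chAlg N ℓ A t).toSubring.subtype) x = 0 := by
  intro x hx
  apply s34_res_hint_of_isIntegral
  refine (s34_ic_isIntegral_iff (A₀ := A) (ι (s18_coord K t))
    ((s18_chAlg N ℓ A t).toSubring.map ι) ?_ ?_ ?_ x).mpr hx
  · intro a
    exact ⟨algebraMap A F' a, Subalgebra.algebraMap_mem _ a, hι a⟩
  · exact ⟨s18_coord K t, s18_coord_mem t, rfl⟩
  · rintro _ ⟨y, hy, rfl⟩
    exact s36_rsm_incl_mem_ic ι hι hsm y hy

/-- **(RES) in the generic model**, for the integral-closure chart `B = s34_ic_chart A (ι t)` of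
any field `FF ⊇ ι F'` and any discrete valuation ring `V` of `FF` (uniformiser `z`) containing
`A` and `ι V''`, with `z ∣ π` in `V` and `κ(V) = κ(V'')`. -/
theorem s36_rsm_res (hR : s18_ResBasis ℓ A π) (h : s18_cz_Coord N ℓ t)
    {B : Subring (LaurentSeries ℚ)} (hB : CoreData N ℓ B)
    (hchart : s18_Chart (algebraMap A F' π) (s18_chAlg N ℓ A t).toSubring)
    (hsm : s18_SmHyp π (s18_coord K t) (s18_chAlg N ℓ A t))
    (ι : F' →+* FF) (hι : ∀ a : A, ι (algebraMap A F' a) = algebraMap A FF a)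
    (V : Subring FF) {z : FF} (hV : s34_Unif z V) (hAV : ∀ a : A, algebraMap A FF a ∈ V)
    (hιV : ∀ y ∈ s34_gi_V A N, ι y ∈ V) (hzϖ : z⁻¹ * algebraMap A FF π ∈ V)
    (hκ : ∀ y ∈ V, ∃ y' ∈ s34_gi_V A N, z⁻¹ * (y - ι y') ∈ V) :
    ∀ x ∈ (s34_ic_chart A (ι (s18_coord K t))).toSubring,
      ∃ x' ∈ (s18_chAlg N ℓ A t).toSubring, z⁻¹ * (x - ι x') ∈ V := by
  have hBV : (s34_ic_chart A (ι (s18_coord K t))).toSubring ≤ V :=
    s34_ic_le_unif hV hAV (hιV _ (s34_lg_chart_le_V hR.unit h hB (s18_coord_mem t)))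
  have hπ0 : algebraMap A F' π ≠ 0 := (s34_lg_unif (N := N) hR.irr).ne_zero
  exact s36_rs_res ι (s18_chAlg N ℓ A t).toSubring hchart (s34_gi_V A N)
    (s34_lg_unif hR.irr) (s34_lg_chart_le hR.unit h hB)
    (fun x hxV hx => by
      have h1 := s34_lg_cap hR h hB hx (by rw [inv_mul_cancel_left₀ hπ0]; exact hxV)
      rwa [inv_mul_cancel_left₀ hπ0] at h1)
    (fun y hy => (s34_lg_mem_gauss_iff hR h hB y).mpr hy)
    _ V hV (fun x hx => s36_rsm_incl_mem_ic ι hι hsm x hx) hBV hιV (by rw [hι]; exact hzϖ)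
    (s36_rsm_hint ι hι hsm) (fun y hy => hκ y (hBV hy))

end Generic

section TwoStep

variable {N q : ℕ} [NeZero N] [NeZero q] [NeZero (N * q)] [NeZero (N * q * q)]
variable {K : Type*} [Field K] [Algebra ℚ K] {A : ValuationSubring K}
variable [IsDiscreteValuationRing A] {π : A}

local notation "F₀" => laurentBaseChange K (modularFunctionFieldFull N)
local notation "F₁" => laurentBaseChange K (modularFunctionFieldFull (N * q))
local notation "F₂" => laurentBaseChange K (modularFunctionFieldFull (N * q * q))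

/-- The composite inclusion `K · F_N → K · F_{N q} → K · F_{N q q}`. -/
abbrev s36_rsm_incl2 (K : Type*) [Field K] [Algebra ℚ K] (N q : ℕ) [NeZero N] [NeZero q]
    [NeZero (N * q)] [NeZero (N * q * q)] :
    laurentBaseChange K (modularFunctionFieldFull N) →+*
      laurentBaseChange K (modularFunctionFieldFull (N * q * q)) :=
  (heckeAlphaBar K (N * q) q).toRingHom.comp (heckeAlphaBar K N q).toRingHom

/-- The composite inclusion is the identity on `q`-expansions. -/
theorem s36_rsm_coe_incl2 (x : F₀) :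
    ((s36_rsm_incl2 K N q x : F₂) : LaurentSeries K) = (x : LaurentSeries K) := by
  show ((heckeAlphaBar K (N * q) q (heckeAlphaBar K N q x) : F₂) : LaurentSeries K) = _
  rw [coe_heckeAlphaBar, coe_heckeAlphaBar]

/-- The composite inclusion commutes with the constants. -/
theorem s36_rsm_incl2_algebraMap (a : K) :
    s36_rsm_incl2 K N q (algebraMap K F₀ a) = algebraMap K F₂ a := by
  show heckeAlphaBar K (N * q) q (heckeAlphaBar K N q (algebraMap K F₀ a)) = _
  rw [AlgHom.commutes, AlgHom.commutes]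

/-- The composite inclusion preserves and reflects the Gauss rings at infinity. -/
theorem s36_rsm_incl2_mem_iff (x : F₀) :
    s36_rsm_incl2 K N q x ∈ s34_gi_V A (N * q * q) ↔ x ∈ s34_gi_V A N := by
  show heckeAlphaBar K (N * q) q (heckeAlphaBar K N q x) ∈ _ ↔ _
  rw [s34_gz_alpha_mem_iff, s34_gz_alpha_mem_iff]

/-- `κ(V_A) = κ(V'')` through the level `N q`. -/
theorem s36_rsm_kappaA (hπ : Irreducible π)
    (hκ₁ : ∀ y ∈ s34_gi_V A (N * q), ∃ y' ∈ s34_gi_V A N,
      (algebraMap K F₁ (π : K))⁻¹ * (y - (heckeAlphaBar K N q).toRingHom y') ∈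
        s34_gi_V A (N * q))
    (hκ₂ : ∀ y ∈ s34_gi_V A (N * q * q), ∃ y' ∈ s34_gi_V A (N * q),
      (algebraMap K F₂ (π : K))⁻¹ * (y - (heckeAlphaBar K (N * q) q).toRingHom y') ∈
        s34_gi_V A (N * q * q)) :
    ∀ y ∈ s34_gi_V A (N * q * q), ∃ y' ∈ s34_gi_V A N,
      (algebraMap K F₂ (π : K))⁻¹ * (y - s36_rsm_incl2 K N q y') ∈ s34_gi_V A (N * q * q) := by
  have hπ1 : algebraMap K F₁ (π : K) ≠ 0 := (s34_gi_unif (A₁ := A) (N := N * q) hπ).ne_zero
  have hπ2 : algebraMap K F₂ (π : K) ≠ 0 :=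
    (s34_gi_unif (A₁ := A) (N := N * q * q) hπ).ne_zero
  have e : (heckeAlphaBar K (N * q) q).toRingHom (algebraMap K F₁ (π : K)) =
      algebraMap K F₂ (π : K) := (heckeAlphaBar K (N * q) q).commutes (π : K)
  exact s36_rs_kappa2 (heckeAlphaBar K N q).toRingHom (heckeAlphaBar K (N * q) q).toRingHom
    (s34_gi_V A N : Set F₀) (s34_gi_V A (N * q)) hπ1 (s34_gi_V A (N * q * q))
    (s34_gi_V A (N * q * q) : Set F₂) hκ₁ hκ₂
    (fun y hy => (s34_gz_alpha_mem_iff y).mpr hy)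
    (by rw [e, inv_mul_cancel₀ hπ2]; exact Subring.one_mem _)

/-- `κ(V_C) = κ(V'')` through the level `N q`, for a ring `V_C` as in `s36_nm_AC`. -/
theorem s36_rsm_kappaC (hπ : Irreducible π) (VC : Subring F₂) {z : F₂}
    (hκ₁ : ∀ y ∈ s34_gi_V A (N * q), ∃ y' ∈ s34_gi_V A N,
      (algebraMap K F₁ (π : K))⁻¹ * (y - (heckeAlphaBar K N q).toRingHom y') ∈
        s34_gi_V A (N * q))
    (hκ₂ : ∀ y ∈ VC, ∃ y' ∈ s34_gi_V A (N * q),
      z⁻¹ * (y - (heckeAlphaBar K (N * q) q).toRingHom y') ∈ VC)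
    (hαC : ∀ y ∈ s34_gi_V A (N * q), (heckeAlphaBar K (N * q) q).toRingHom y ∈ VC)
    (hzϖ : z⁻¹ * algebraMap K F₂ (π : K) ∈ VC) :
    ∀ y ∈ VC, ∃ y' ∈ s34_gi_V A N, z⁻¹ * (y - s36_rsm_incl2 K N q y') ∈ VC := by
  have hπ1 : algebraMap K F₁ (π : K) ≠ 0 := (s34_gi_unif (A₁ := A) (N := N * q) hπ).ne_zero
  have e : (heckeAlphaBar K (N * q) q).toRingHom (algebraMap K F₁ (π : K)) =
      algebraMap K F₂ (π : K) := (heckeAlphaBar K (N * q) q).commutes (π : K)
  exact s36_rs_kappa2 (heckeAlphaBar K N q).toRingHom (heckeAlphaBar K (N * q) q).toRingHom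
    (s34_gi_V A N : Set F₀) (s34_gi_V A (N * q)) hπ1 VC (VC : Set F₂) hκ₁ hκ₂ hαC
    (by rw [e]; exact hzϖ)

variable {ℓ : ℕ} [Fact ℓ.Prime] {t : modularFunctionFieldFull N}

/-- **`RES_A` at level `N q q`**: the chart `B = s34_ic_chart A (ι t)` (`ι` the composite
inclusion) is `ι B₁ + (B ∩ π V_A)`, `V_A = s34_gi_V A (N q q)`. -/
theorem s36_rsm_resA (hR : s18_ResBasis ℓ A π) (h : s18_cz_Coord N ℓ t)
    {B : Subring (LaurentSeries ℚ)} (hB : CoreData N ℓ B)
    (hchart : s18_Chart (algebraMap A F₀ π) (s18_chAlg N ℓ A t).toSubring)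
    (hsm : s18_SmHyp π (s18_coord K t) (s18_chAlg N ℓ A t))
    (hκ₁ : ∀ y ∈ s34_gi_V A (N * q), ∃ y' ∈ s34_gi_V A N,
      (algebraMap K F₁ (π : K))⁻¹ * (y - (heckeAlphaBar K N q).toRingHom y') ∈
        s34_gi_V A (N * q))
    (hκ₂ : ∀ y ∈ s34_gi_V A (N * q * q), ∃ y' ∈ s34_gi_V A (N * q),
      (algebraMap K F₂ (π : K))⁻¹ * (y - (heckeAlphaBar K (N * q) q).toRingHom y') ∈
        s34_gi_V A (N * q * q)) :
    ∀ x ∈ (s34_ic_chart A (s36_rsm_incl2 K N q (s18_coord K t))).toSubring,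
      ∃ x' ∈ (s18_chAlg N ℓ A t).toSubring,
        (algebraMap A F₂ π)⁻¹ * (x - s36_rsm_incl2 K N q x') ∈ s34_gi_V A (N * q * q) := by
  have hV := s34_lg_unif (A := A) (N := N * q * q) hR.irr
  exact s36_rsm_res hR h hB hchart hsm (s36_rsm_incl2 K N q)
    (fun a => s36_rsm_incl2_algebraMap (a : K)) (s34_gi_V A (N * q * q)) hV
    (fun a => s34_gi_algebraMap_mem a) (fun y hy => (s36_rsm_incl2_mem_iff y).mpr hy)
    (by rw [inv_mul_cancel₀ hV.ne_zero]; exact Subring.one_mem _)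
    (s36_rsm_kappaA hR.irr hκ₁ hκ₂)

/-- **`RES_C` at level `N q q`**: the chart `B = s34_ic_chart A (ι t)` is `ι B₁ + (B ∩ z V_C)` for
a discrete valuation ring `V_C` with uniformiser `z` as in `s36_nm_AC`. -/
theorem s36_rsm_resC (hR : s18_ResBasis ℓ A π) (h : s18_cz_Coord N ℓ t)
    {B : Subring (LaurentSeries ℚ)} (hB : CoreData N ℓ B)
    (hchart : s18_Chart (algebraMap A F₀ π) (s18_chAlg N ℓ A t).toSubring)
    (hsm : s18_SmHyp π (s18_coord K t) (s18_chAlg N ℓ A t))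
    (VC : Subring F₂) {z : F₂} (hVC : s34_Unif z VC)
    (hAC : ∀ a : A, algebraMap A F₂ a ∈ VC)
    (hκ₁ : ∀ y ∈ s34_gi_V A (N * q), ∃ y' ∈ s34_gi_V A N,
      (algebraMap K F₁ (π : K))⁻¹ * (y - (heckeAlphaBar K N q).toRingHom y') ∈
        s34_gi_V A (N * q))
    (hκ₂ : ∀ y ∈ VC, ∃ y' ∈ s34_gi_V A (N * q),
      z⁻¹ * (y - (heckeAlphaBar K (N * q) q).toRingHom y') ∈ VC)
    (hαC : ∀ y ∈ s34_gi_V A (N * q), (heckeAlphaBar K (N * q) q).toRingHom y ∈ VC)
    (hzϖ : z⁻¹ * algebraMap K F₂ (π : K) ∈ VC) :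
    ∀ x ∈ (s34_ic_chart A (s36_rsm_incl2 K N q (s18_coord K t))).toSubring,
      ∃ x' ∈ (s18_chAlg N ℓ A t).toSubring, z⁻¹ * (x - s36_rsm_incl2 K N q x') ∈ VC :=
  s36_rsm_res hR h hB hchart hsm (s36_rsm_incl2 K N q)
    (fun a => s36_rsm_incl2_algebraMap (a : K)) VC hVC hAC
    (fun y hy => hαC _ ((s34_gz_alpha_mem_iff y).mpr hy)) hzϖ
    (s36_rsm_kappaC hR.irr VC hκ₁ hκ₂ hαC hzϖ)

end TwoStep

end Fermat.Agent.S36
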