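import Mathlib
import Fermat.Agent.S34.SwapStable
import Fermat.Agent.S34.InstDefs
import Fermat.Agent.S36.ResSqModel

/-!
# S36 (NODE-3): the integral-closure charts of level `N q q` are stable under the swap

`N` a level, `q ∤ N` a prime, `M ∈ {2, 3}`, `M ∣ N`; `K₁ ⊆ Q̄` ANY intermediate field (no Galois
hypothesis), `A` a valuation ring of `Q̄` over `q`, `A₁ = A ∩ K₁`; `F₂ = K₁ · F_{N q q}`,
`t ∈ F₂` the Hauptmodul `t_M` (coming from level `N`).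

* `s36_ws2_ic_trans`, `s36_ws2_ic_map` : transitivity of the integral-closure charts and their
  functoriality under ring homomorphisms between two fields.
* `s36_ws2_vqq_mem`, `s36_ws2_core` : `t'(Q^{q q})` lies in the chart `s34_ic_chart A₁ t'`
  of `F₂`, for `t' ∈ {t, t⁻¹}` (two applications of the level-`q` statement `s34_ws_vq_mem`).
* `s36_ws2_map_mem` : every ring endomorphism of `F₂` fixing the constants and mapping
  `t` to `t(Q^{q q})` preserves the two charts.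
* `s36_ws2_coord_t2`, `s36_ws2_coord_t3` : the Hauptmodul of level `N q q` is the image of the
  Hauptmodul of level `N` under the composite inclusion `s36_rsm_incl2`.
* `s36_ws2_stable_t2`, `s36_ws2_stable_t3` : the charts `s34_md_B0`, `s34_md_Binf` of level
  `N q q` are stable under an involutive swap `W` and under `W.symm`.
-/

set_option autoImplicit false
set_option linter.style.haveILetI false
set_option linter.unusedSimpArgs false
set_option linter.unusedSectionVars false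
set_option linter.unusedVariables false
set_option synthInstance.maxHeartbeats 400000

namespace Fermat.Agent.S36

open ModularCurve AlgebraicCurve Polynomial
open Fermat.Agent.S18 Fermat.Agent.S34 Fermat.Agent.S37

noncomputable section

local notation "Qb" => AlgebraicClosure ℚ

section Abs

variable {A₀ : Type*} {F F' : Type*} [CommRing A₀] [Field F] [Field F'] [Algebra A₀ F]
  [Algebra A₀ F']

/-- Transitivity: if `u` lies in the chart of `t`, the chart of `u` lies in the chart of `t`. -/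
theorem s36_ws2_ic_trans {t u : F} (hu : u ∈ s34_ic_chart A₀ t) {x : F}
    (hx : x ∈ s34_ic_chart A₀ u) : x ∈ s34_ic_chart A₀ t := by
  apply s34_ic_normal
  rw [s34_ic_mem] at hx
  have hle : Algebra.adjoin A₀ ({u} : Set F) ≤ s34_ic_chart A₀ t :=
    Algebra.adjoin_le (by
      intro y hy
      rw [Set.mem_singleton_iff] at hy
      rw [hy]
      exact hu)
  obtain ⟨p, hp, hpx⟩ := hx
  refine ⟨p.map (Subalgebra.inclusion hle).toRingHom, hp.map _, ?_⟩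
  rw [Polynomial.eval₂_map]
  exact hpx

/-- Functoriality: a ring homomorphism compatible with `A₀` maps the chart of `t` into the chart
of the image of `t`. -/
theorem s36_ws2_ic_map (φ : F →+* F')
    (hφ : ∀ a : A₀, φ (algebraMap A₀ F a) = algebraMap A₀ F' a) {t x : F}
    (hx : x ∈ s34_ic_chart A₀ t) : φ x ∈ s34_ic_chart A₀ (φ t) := by
  rw [s34_ic_mem_iff] at hx ⊢
  obtain ⟨p, hp, hpx⟩ := hx
  refine ⟨p, hp, ?_⟩
  have hcomp : φ.comp ((aeval t : A₀[X] →ₐ[A₀] F) : A₀[X] →+* F) =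
      ((aeval (φ t) : A₀[X] →ₐ[A₀] F') : A₀[X] →+* F') := by
    apply Polynomial.ringHom_ext
    · intro a
      simp only [RingHom.comp_apply, RingHom.coe_coe, aeval_C]
      exact hφ a
    · simp only [RingHom.comp_apply, RingHom.coe_coe, aeval_X]
  have h3 := Polynomial.hom_eval₂ p ((aeval t : A₀[X] →ₐ[A₀] F) : A₀[X] →+* F) φ x
  rw [hpx, map_zero] at h3
  rw [← hcomp]
  exact h3.symm

end Abs

section Concrete

variable (N q M : ℕ) [NeZero N] [NeZero q] [NeZero (N * q)] [NeZero (N * q * q)]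

/-- `V_q V_q t' = t'(Q^{q q})` lies in the chart of `t'` at level `N q q`: the statement for a
Hauptmodul `t₁` of level `N q` and `y₁ = t₁'(Q^q)`. -/
theorem s36_ws2_vqq_mem (hq : q.Prime) (hqN : ¬ q ∣ N) (hqM : q ≠ M) (hMN : M ∣ N)
    (A : ValuationSubring Qb) (hA : A.LiesOverPrime q) (K₁ : IntermediateField ℚ Qb)
    (t₁ : s18_F1 K₁ (N * q)) (ht₁ : s37_IsHaupt M (s18_baseIncl K₁ (N * q) t₁))
    (u₁ : s18_F1 K₁ (N * q)) (hu₁ : u₁ = t₁ ∨ u₁ = t₁⁻¹)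
    (y₁ : s18_F1 K₁ (N * q))
    (hy₁ : (y₁ : LaurentSeries K₁) = qExpand K₁ q (u₁ : LaurentSeries K₁)) :
    heckeBetaBar K₁ (N * q) q y₁ ∈
      s34_ic_chart (s18_A1 A K₁) (heckeAlphaBar K₁ (N * q) q u₁) := by
  have h1 : y₁ ∈ s34_ic_chart (s18_A1 A K₁) u₁ :=
    s34_ws_vq_mem N q M hq hqN hqM hMN A hA K₁ t₁ ht₁ u₁ hu₁ y₁ hy₁
  have hα : ∀ a : s18_A1 A K₁, (heckeAlphaBar K₁ (N * q) q).toRingHom
      (algebraMap (s18_A1 A K₁) (s18_F1 K₁ (N * q)) a) =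
      algebraMap (s18_A1 A K₁) (s18_F1 K₁ (N * q * q)) a := fun a =>
    (heckeAlphaBar K₁ (N * q) q).commutes (a : K₁)
  have hβ : ∀ a : s18_A1 A K₁, (heckeBetaBar K₁ (N * q) q).toRingHom
      (algebraMap (s18_A1 A K₁) (s18_F1 K₁ (N * q)) a) =
      algebraMap (s18_A1 A K₁) (s18_F1 K₁ (N * q * q)) a := fun a =>
    (heckeBetaBar K₁ (N * q) q).commutes (a : K₁)
  have h2 : heckeAlphaBar K₁ (N * q) q y₁ ∈
      s34_ic_chart (s18_A1 A K₁) (heckeAlphaBar K₁ (N * q) q u₁) :=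
    s36_ws2_ic_map (heckeAlphaBar K₁ (N * q) q).toRingHom hα h1
  have h3 : heckeBetaBar K₁ (N * q) q y₁ ∈
      s34_ic_chart (s18_A1 A K₁) (heckeBetaBar K₁ (N * q) q u₁) :=
    s36_ws2_ic_map (heckeBetaBar K₁ (N * q) q).toRingHom hβ h1
  have e : heckeBetaBar K₁ (N * q) q u₁ = heckeAlphaBar K₁ (N * q) q y₁ := by
    apply Subtype.ext
    rw [coe_heckeBetaBar, coe_heckeAlphaBar, hy₁]
  rw [e] at h3
  exact s36_ws2_ic_trans h2 h3

/-- The same for a coordinate coming from level `N`. -/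
theorem s36_ws2_core (hq : q.Prime) (hqN : ¬ q ∣ N) (hqM : q ≠ M) (hMN : M ∣ N)
    (A : ValuationSubring Qb) (hA : A.LiesOverPrime q) (K₁ : IntermediateField ℚ Qb)
    (T₀ : s18_F1 K₁ N)
    (hT₀ : s37_IsHaupt M (s18_baseIncl K₁ (N * q) (heckeAlphaBar K₁ N q T₀)))
    (U₀ : s18_F1 K₁ N) (hU₀ : U₀ = T₀ ∨ U₀ = T₀⁻¹) :
    heckeBetaBar K₁ (N * q) q (heckeBetaBar K₁ N q U₀) ∈
      s34_ic_chart (s18_A1 A K₁) (heckeAlphaBar K₁ (N * q) q (heckeAlphaBar K₁ N q U₀)) := by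
  refine s36_ws2_vqq_mem N q M hq hqN hqM hMN A hA K₁ (heckeAlphaBar K₁ N q T₀) hT₀
    (heckeAlphaBar K₁ N q U₀) ?_ (heckeBetaBar K₁ N q U₀) ?_
  · rcases hU₀ with rfl | rfl
    · exact Or.inl rfl
    · exact Or.inr (map_inv₀ _ _)
  · rw [coe_heckeBetaBar, coe_heckeAlphaBar]

/-- **(WST) at level `N q q`**: a ring endomorphism `W₁` of `K₁ · F_{N q q}` which fixes the
constants and maps the Hauptmodul `t` (from level `N`) to `t(Q^{q q})` maps the chart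
`s34_ic_chart A₁ t'` (`t' = t` or `t⁻¹`) into itself. -/
theorem s36_ws2_map_mem (hq : q.Prime) (hqN : ¬ q ∣ N) (hqM : q ≠ M) (hMN : M ∣ N)
    (A : ValuationSubring Qb) (hA : A.LiesOverPrime q) (K₁ : IntermediateField ℚ Qb)
    (T₀ : s18_F1 K₁ N)
    (hT₀ : s37_IsHaupt M (s18_baseIncl K₁ (N * q) (heckeAlphaBar K₁ N q T₀)))
    (U₀ : s18_F1 K₁ N) (hU₀ : U₀ = T₀ ∨ U₀ = T₀⁻¹)
    (W₁ : s18_F1 K₁ (N * q * q) →+* s18_F1 K₁ (N * q * q))
    (hWc : ∀ c : K₁, W₁ (algebraMap K₁ (s18_F1 K₁ (N * q * q)) c) =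
      algebraMap K₁ (s18_F1 K₁ (N * q * q)) c)
    (hWt : W₁ (heckeAlphaBar K₁ (N * q) q (heckeAlphaBar K₁ N q T₀)) =
      heckeBetaBar K₁ (N * q) q (heckeBetaBar K₁ N q T₀))
    {x : s18_F1 K₁ (N * q * q)}
    (hx : x ∈ s34_ic_chart (s18_A1 A K₁)
      (heckeAlphaBar K₁ (N * q) q (heckeAlphaBar K₁ N q U₀))) :
    W₁ x ∈ s34_ic_chart (s18_A1 A K₁)
      (heckeAlphaBar K₁ (N * q) q (heckeAlphaBar K₁ N q U₀)) := by
  refine s34_ic_map_mem W₁ (fun a => ?_) ?_ hx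
  · have e : algebraMap (s18_A1 A K₁) (s18_F1 K₁ (N * q * q)) a =
        algebraMap K₁ (s18_F1 K₁ (N * q * q)) (a : K₁) := rfl
    rw [e, hWc, ← e]
    exact Subalgebra.algebraMap_mem _ a
  · have hWU : W₁ (heckeAlphaBar K₁ (N * q) q (heckeAlphaBar K₁ N q U₀)) =
        heckeBetaBar K₁ (N * q) q (heckeBetaBar K₁ N q U₀) := by
      rcases hU₀ with rfl | rfl
      · exact hWt
      · have e1 : heckeAlphaBar K₁ N q T₀⁻¹ = (heckeAlphaBar K₁ N q T₀)⁻¹ :=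
          map_inv₀ (heckeAlphaBar K₁ N q) T₀
        have e2 : heckeAlphaBar K₁ (N * q) q (heckeAlphaBar K₁ N q T₀)⁻¹ =
            (heckeAlphaBar K₁ (N * q) q (heckeAlphaBar K₁ N q T₀))⁻¹ :=
          map_inv₀ (heckeAlphaBar K₁ (N * q) q) _
        have e3 : W₁ (heckeAlphaBar K₁ (N * q) q (heckeAlphaBar K₁ N q T₀))⁻¹ =
            (W₁ (heckeAlphaBar K₁ (N * q) q (heckeAlphaBar K₁ N q T₀)))⁻¹ :=
          map_inv₀ W₁ _
        have f1 : heckeBetaBar K₁ N q T₀⁻¹ = (heckeBetaBar K₁ N q T₀)⁻¹ :=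
          map_inv₀ (heckeBetaBar K₁ N q) T₀
        have f2 : heckeBetaBar K₁ (N * q) q (heckeBetaBar K₁ N q T₀)⁻¹ =
            (heckeBetaBar K₁ (N * q) q (heckeBetaBar K₁ N q T₀))⁻¹ :=
          map_inv₀ (heckeBetaBar K₁ (N * q) q) _
        have e : W₁ (heckeAlphaBar K₁ (N * q) q (heckeAlphaBar K₁ N q T₀⁻¹)) =
            (W₁ (heckeAlphaBar K₁ (N * q) q (heckeAlphaBar K₁ N q T₀)))⁻¹ :=
          (congrArg W₁ ((congrArg (heckeAlphaBar K₁ (N * q) q) e1).trans e2)).trans e3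
        have f : heckeBetaBar K₁ (N * q) q (heckeBetaBar K₁ N q T₀⁻¹) =
            (heckeBetaBar K₁ (N * q) q (heckeBetaBar K₁ N q T₀))⁻¹ :=
          (congrArg (heckeBetaBar K₁ (N * q) q) f1).trans f2
        exact e.trans ((congrArg (fun y => y⁻¹) hWt).trans f.symm)
    have hcore := s36_ws2_core N q M hq hqN hqM hMN A hA K₁ T₀ hT₀ U₀ hU₀
    exact Eq.mpr (congrArg (fun y => y ∈ s34_ic_chart (s18_A1 A K₁)
      (heckeAlphaBar K₁ (N * q) q (heckeAlphaBar K₁ N q U₀))) hWU) hcore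

end Concrete

section Haupt

variable (N q : ℕ) [NeZero N] [NeZero q] [NeZero (N * q)] [NeZero (N * q * q)]
variable (K₁ : IntermediateField ℚ Qb)

/-- The `q`-expansion of the base-changed coordinate. -/
theorem s36_ws2_coe_coord (L : ℕ) [NeZero L] (t : modularFunctionFieldFull L) :
    ((s18_coord K₁ t : s18_F1 K₁ L) : LaurentSeries K₁) = coeffEmb K₁ (t : LaurentSeries ℚ) :=
  rfl

/-- The Hauptmodul `t₂` of level `N q q` is the image of the one of level `N`. -/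
theorem s36_ws2_coord_t2 (h2 : 2 ∣ N) (h2L : 2 ∣ N * q * q) :
    s18_coord K₁ (s18_cz_t2 (N * q * q) h2L) =
      s36_rsm_incl2 K₁ N q (s18_coord K₁ (s18_cz_t2 N h2)) := by
  apply Subtype.ext
  rw [s36_rsm_coe_incl2, s36_ws2_coe_coord, s36_ws2_coe_coord, s18_cz_coe_t2, s18_cz_coe_t2]

/-- The Hauptmodul `t₃` of level `N q q` is the image of the one of level `N`. -/
theorem s36_ws2_coord_t3 (h3 : 3 ∣ N) (h3L : 3 ∣ N * q * q) :
    s18_coord K₁ (s18_cz_t3 (N * q * q) h3L) =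
      s36_rsm_incl2 K₁ N q (s18_coord K₁ (s18_cz_t3 N h3)) := by
  apply Subtype.ext
  rw [s36_rsm_coe_incl2, s36_ws2_coe_coord, s36_ws2_coe_coord, s18_cz_coe_t3, s18_cz_coe_t3]

/-- The Hauptmodul `t₂` of level `N`, seen at level `N q`, is a Hauptmodul. -/
theorem s36_ws2_isHaupt_t2 (h2 : 2 ∣ N) :
    s37_IsHaupt 2 (s18_baseIncl K₁ (N * q)
      (heckeAlphaBar K₁ N q (s18_coord K₁ (s18_cz_t2 N h2)))) := by
  refine Or.inl ⟨rfl, ?_⟩
  rw [s18_baseIncl_coe, coe_heckeAlphaBar, ← s18_baseIncl_coe]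
  exact s18_br_coe_t2 N K₁ h2

/-- The Hauptmodul `t₃` of level `N`, seen at level `N q`, is a Hauptmodul. -/
theorem s36_ws2_isHaupt_t3 (h3 : 3 ∣ N) :
    s37_IsHaupt 3 (s18_baseIncl K₁ (N * q)
      (heckeAlphaBar K₁ N q (s18_coord K₁ (s18_cz_t3 N h3)))) := by
  refine Or.inr ⟨rfl, ?_⟩
  rw [s18_baseIncl_coe, coe_heckeAlphaBar, ← s18_baseIncl_coe]
  exact s18_br_coe_t3 N K₁ h3

variable (A : ValuationSubring Qb)

/-- **The charts of `t₂` at level `N q q` are stable under an involutive swap.** -/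
theorem s36_ws2_stable_t2 (hq : q.Prime) (hqN : ¬ q ∣ N) (h2 : 2 ∣ N) (h2L : 2 ∣ N * q * q)
    (hA : A.LiesOverPrime q)
    (W : s18_F1 K₁ (N * q * q) ≃+* s18_F1 K₁ (N * q * q)) (hWW : ∀ x, W (W x) = x)
    (hWc : ∀ c : K₁, W (algebraMap K₁ (s18_F1 K₁ (N * q * q)) c) =
      algebraMap K₁ (s18_F1 K₁ (N * q * q)) c)
    (hWt : W (s36_rsm_incl2 K₁ N q (s18_coord K₁ (s18_cz_t2 N h2))) =
      heckeBetaBar K₁ (N * q) q (heckeBetaBar K₁ N q (s18_coord K₁ (s18_cz_t2 N h2)))) :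
    (∀ x ∈ (s34_md_B0 A K₁ (N * q * q) (s18_cz_t2 (N * q * q) h2L)).toSubring,
      W x ∈ (s34_md_B0 A K₁ (N * q * q) (s18_cz_t2 (N * q * q) h2L)).toSubring ∧
      W.symm x ∈ (s34_md_B0 A K₁ (N * q * q) (s18_cz_t2 (N * q * q) h2L)).toSubring) ∧
    (∀ x ∈ (s34_md_Binf A K₁ (N * q * q) (s18_cz_t2 (N * q * q) h2L)).toSubring,
      W x ∈ (s34_md_Binf A K₁ (N * q * q) (s18_cz_t2 (N * q * q) h2L)).toSubring ∧
      W.symm x ∈ (s34_md_Binf A K₁ (N * q * q) (s18_cz_t2 (N * q * q) h2L)).toSubring) := by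
  have hq2 : q ≠ 2 := fun h => hqN (h ▸ h2)
  have hsymm : ∀ x, W.symm x = W x := fun x => by
    rw [RingEquiv.symm_apply_eq, hWW]
  have h0 : ∀ x ∈ s34_ic_chart (s18_A1 A K₁)
      (heckeAlphaBar K₁ (N * q) q (heckeAlphaBar K₁ N q (s18_coord K₁ (s18_cz_t2 N h2)))),
      W x ∈ s34_ic_chart (s18_A1 A K₁)
        (heckeAlphaBar K₁ (N * q) q (heckeAlphaBar K₁ N q (s18_coord K₁ (s18_cz_t2 N h2)))) :=
    fun x hx => s36_ws2_map_mem N q 2 hq hqN hq2 h2 A hA K₁ _ (s36_ws2_isHaupt_t2 N q K₁ h2) _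
      (Or.inl rfl) (W : s18_F1 K₁ (N * q * q) →+* s18_F1 K₁ (N * q * q)) hWc hWt hx
  have hi : ∀ x ∈ s34_ic_chart (s18_A1 A K₁)
      (heckeAlphaBar K₁ (N * q) q (heckeAlphaBar K₁ N q (s18_coord K₁ (s18_cz_t2 N h2))⁻¹)),
      W x ∈ s34_ic_chart (s18_A1 A K₁)
        (heckeAlphaBar K₁ (N * q) q (heckeAlphaBar K₁ N q (s18_coord K₁ (s18_cz_t2 N h2))⁻¹)) :=
    fun x hx => s36_ws2_map_mem N q 2 hq hqN hq2 h2 A hA K₁ _ (s36_ws2_isHaupt_t2 N q K₁ h2) _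
      (Or.inr rfl) (W : s18_F1 K₁ (N * q * q) →+* s18_F1 K₁ (N * q * q)) hWc hWt hx
  have e0 : s18_coord K₁ (s18_cz_t2 (N * q * q) h2L) =
      heckeAlphaBar K₁ (N * q) q (heckeAlphaBar K₁ N q (s18_coord K₁ (s18_cz_t2 N h2))) :=
    s36_ws2_coord_t2 N q K₁ h2 h2L
  have ei : (s18_coord K₁ (s18_cz_t2 (N * q * q) h2L))⁻¹ =
      heckeAlphaBar K₁ (N * q) q (heckeAlphaBar K₁ N q (s18_coord K₁ (s18_cz_t2 N h2))⁻¹) := by
    have e1 : heckeAlphaBar K₁ N q (s18_coord K₁ (s18_cz_t2 N h2))⁻¹ =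
        (heckeAlphaBar K₁ N q (s18_coord K₁ (s18_cz_t2 N h2)))⁻¹ :=
      map_inv₀ (heckeAlphaBar K₁ N q) _
    have e2 : heckeAlphaBar K₁ (N * q) q
        (heckeAlphaBar K₁ N q (s18_coord K₁ (s18_cz_t2 N h2)))⁻¹ =
        (heckeAlphaBar K₁ (N * q) q
          (heckeAlphaBar K₁ N q (s18_coord K₁ (s18_cz_t2 N h2))))⁻¹ :=
      map_inv₀ (heckeAlphaBar K₁ (N * q) q) _
    rw [e1, e2, e0]
  refine ⟨fun x hx => ?_, fun x hx => ?_⟩
  · have hx' : x ∈ s34_ic_chart (s18_A1 A K₁)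
        (heckeAlphaBar K₁ (N * q) q (heckeAlphaBar K₁ N q (s18_coord K₁ (s18_cz_t2 N h2)))) := by
      rw [← e0]; exact hx
    have h := h0 x hx'
    rw [← e0] at h
    exact ⟨h, by rw [hsymm]; exact h⟩
  · have hx' : x ∈ s34_ic_chart (s18_A1 A K₁)
        (heckeAlphaBar K₁ (N * q) q
          (heckeAlphaBar K₁ N q (s18_coord K₁ (s18_cz_t2 N h2))⁻¹)) := by
      rw [← ei]; exact hx
    have h := hi x hx'
    rw [← ei] at h
    exact ⟨h, by rw [hsymm]; exact h⟩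

/-- **The charts of `t₃` at level `N q q` are stable under an involutive swap.** -/
theorem s36_ws2_stable_t3 (hq : q.Prime) (hqN : ¬ q ∣ N) (h3 : 3 ∣ N) (h3L : 3 ∣ N * q * q)
    (hA : A.LiesOverPrime q)
    (W : s18_F1 K₁ (N * q * q) ≃+* s18_F1 K₁ (N * q * q)) (hWW : ∀ x, W (W x) = x)
    (hWc : ∀ c : K₁, W (algebraMap K₁ (s18_F1 K₁ (N * q * q)) c) =
      algebraMap K₁ (s18_F1 K₁ (N * q * q)) c)
    (hWt : W (s36_rsm_incl2 K₁ N q (s18_coord K₁ (s18_cz_t3 N h3))) =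
      heckeBetaBar K₁ (N * q) q (heckeBetaBar K₁ N q (s18_coord K₁ (s18_cz_t3 N h3)))) :
    (∀ x ∈ (s34_md_B0 A K₁ (N * q * q) (s18_cz_t3 (N * q * q) h3L)).toSubring,
      W x ∈ (s34_md_B0 A K₁ (N * q * q) (s18_cz_t3 (N * q * q) h3L)).toSubring ∧
      W.symm x ∈ (s34_md_B0 A K₁ (N * q * q) (s18_cz_t3 (N * q * q) h3L)).toSubring) ∧
    (∀ x ∈ (s34_md_Binf A K₁ (N * q * q) (s18_cz_t3 (N * q * q) h3L)).toSubring,
      W x ∈ (s34_md_Binf A K₁ (N * q * q) (s18_cz_t3 (N * q * q) h3L)).toSubring ∧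
      W.symm x ∈ (s34_md_Binf A K₁ (N * q * q) (s18_cz_t3 (N * q * q) h3L)).toSubring) := by
  have hq3 : q ≠ 3 := fun h => hqN (h ▸ h3)
  have hsymm : ∀ x, W.symm x = W x := fun x => by
    rw [RingEquiv.symm_apply_eq, hWW]
  have h0 : ∀ x ∈ s34_ic_chart (s18_A1 A K₁)
      (heckeAlphaBar K₁ (N * q) q (heckeAlphaBar K₁ N q (s18_coord K₁ (s18_cz_t3 N h3)))),
      W x ∈ s34_ic_chart (s18_A1 A K₁)
        (heckeAlphaBar K₁ (N * q) q (heckeAlphaBar K₁ N q (s18_coord K₁ (s18_cz_t3 N h3)))) :=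
    fun x hx => s36_ws2_map_mem N q 3 hq hqN hq3 h3 A hA K₁ _ (s36_ws2_isHaupt_t3 N q K₁ h3) _
      (Or.inl rfl) (W : s18_F1 K₁ (N * q * q) →+* s18_F1 K₁ (N * q * q)) hWc hWt hx
  have hi : ∀ x ∈ s34_ic_chart (s18_A1 A K₁)
      (heckeAlphaBar K₁ (N * q) q (heckeAlphaBar K₁ N q (s18_coord K₁ (s18_cz_t3 N h3))⁻¹)),
      W x ∈ s34_ic_chart (s18_A1 A K₁)
        (heckeAlphaBar K₁ (N * q) q (heckeAlphaBar K₁ N q (s18_coord K₁ (s18_cz_t3 N h3))⁻¹)) :=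
    fun x hx => s36_ws2_map_mem N q 3 hq hqN hq3 h3 A hA K₁ _ (s36_ws2_isHaupt_t3 N q K₁ h3) _
      (Or.inr rfl) (W : s18_F1 K₁ (N * q * q) →+* s18_F1 K₁ (N * q * q)) hWc hWt hx
  have e0 : s18_coord K₁ (s18_cz_t3 (N * q * q) h3L) =
      heckeAlphaBar K₁ (N * q) q (heckeAlphaBar K₁ N q (s18_coord K₁ (s18_cz_t3 N h3))) :=
    s36_ws2_coord_t3 N q K₁ h3 h3L
  have ei : (s18_coord K₁ (s18_cz_t3 (N * q * q) h3L))⁻¹ =
      heckeAlphaBar K₁ (N * q) q (heckeAlphaBar K₁ N q (s18_coord K₁ (s18_cz_t3 N h3))⁻¹) := by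
    have e1 : heckeAlphaBar K₁ N q (s18_coord K₁ (s18_cz_t3 N h3))⁻¹ =
        (heckeAlphaBar K₁ N q (s18_coord K₁ (s18_cz_t3 N h3)))⁻¹ :=
      map_inv₀ (heckeAlphaBar K₁ N q) _
    have e2 : heckeAlphaBar K₁ (N * q) q
        (heckeAlphaBar K₁ N q (s18_coord K₁ (s18_cz_t3 N h3)))⁻¹ =
        (heckeAlphaBar K₁ (N * q) q
          (heckeAlphaBar K₁ N q (s18_coord K₁ (s18_cz_t3 N h3))))⁻¹ :=
      map_inv₀ (heckeAlphaBar K₁ (N * q) q) _
    rw [e1, e2, e0]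
  refine ⟨fun x hx => ?_, fun x hx => ?_⟩
  · have hx' : x ∈ s34_ic_chart (s18_A1 A K₁)
        (heckeAlphaBar K₁ (N * q) q (heckeAlphaBar K₁ N q (s18_coord K₁ (s18_cz_t3 N h3)))) := by
      rw [← e0]; exact hx
    have h := h0 x hx'
    rw [← e0] at h
    exact ⟨h, by rw [hsymm]; exact h⟩
  · have hx' : x ∈ s34_ic_chart (s18_A1 A K₁)
        (heckeAlphaBar K₁ (N * q) q
          (heckeAlphaBar K₁ N q (s18_coord K₁ (s18_cz_t3 N h3))⁻¹)) := by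
      rw [← ei]; exact hx
    have h := hi x hx'
    rw [← ei] at h
    exact ⟨h, by rw [hsymm]; exact h⟩

end Haupt

end

end Fermat.Agent.S36
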