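import Mathlib
import Fermat.Agent.S34.ExtInst
import Fermat.Agent.S36.SwapStab2
import Fermat.Agent.S36.CapNG
import Fermat.Agent.S36.NrModel
import Fermat.Agent.S36.PtsPow

/-!
# S36 (NODE-3): the (RES) block of the closed-point inputs, in the concrete model

`K₁ ⊆ Q̄` a number field (no Galois hypothesis), `A` a valuation ring of `Q̄` over `q`,
`A₁ = A ∩ K₁` a discrete valuation ring with uniformizer `π`; `N` a level prime to `q`,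
divisible by `M ∈ {2, 3}`; `F₀ = K₁ · F_N`, `F₂ = K₁ · F_{N q q}`;
`V_A = s34_gi_V A₁ (N q q)`, `V_B = V_A.comap W` for an involutive swap `W`, `V_C` a discrete
valuation ring as in `s36_nm_AC`.

* `s36_rsi_Res` : the ten function-independent fields `chart`, `mapA/B/C`, `unifA/B/C`,
  `resA/B/C` of `s36_ptb_Pts` (`S36/PtsPow`); `s36_rsi_Res.pts` rebuilds `s36_ptb_Pts` from them
  and the three remaining fields `cls`, `cpt`, `tri`.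
* `s36_rsi_core` : the ten fields for the integral-closure chart of the image of a coordinate
  of level `N` (S18 chart package at level `N`), from the two `κ`-statements and the stability
  of the chart under `W`.
* `s36_rsi_res_t2`, `s36_rsi_res_t3` : the ten fields for BOTH charts `s34_md_B0`, `s34_md_Binf`
  of the Hauptmodul `t₂` / `t₃` at level `N q q`, with `ιA = ιC = s36_rsm_incl2 K₁ N q` and
  `ιB = W.symm ∘ ιA`, from the level-`q` swap `w` (for `s34_ei_model_haupt`), the data of `V_C`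
  (for `s36_nm_AC`) and the level-`q q` swap `W`.
-/

set_option autoImplicit false
set_option synthInstance.maxHeartbeats 400000
set_option maxHeartbeats 1000000
set_option linter.unusedSectionVars false
set_option linter.unusedVariables false
set_option linter.style.haveILetI false

open ModularCurve ModularCurve.IgusaScheme Fermat.Agent.S28 Polynomial

noncomputable section

namespace Fermat.Agent.S36

open Fermat.Agent.S18 Fermat.Agent.S34 Fermat.Agent.S35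

/-- The (RES) block of the closed-point inputs of a chart `B` of the three-component model:
the fields of `s36_ptb_Pts` which do not depend on the triple-point contract. -/
structure s36_rsi_Res {F₀ F : Type*} [Field F₀] [Field F] (ϖ zC : F) (B VA VB VC : Subring F)
    (ϖ₀ : F₀) (B₁ : Subring F₀) (ιA ιB ιC : F₀ →+* F) : Prop where
  chart : s18_Chart ϖ₀ B₁
  mapA : ∀ x ∈ B₁, ιA x ∈ B
  mapB : ∀ x ∈ B₁, ιB x ∈ B
  mapC : ∀ x ∈ B₁, ιC x ∈ B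
  unifA : ϖ⁻¹ * ιA ϖ₀ ∈ VA
  unifB : ϖ⁻¹ * ιB ϖ₀ ∈ VB
  unifC : zC⁻¹ * ιC ϖ₀ ∈ VC
  resA : ∀ x ∈ B, ∃ x' ∈ B₁, ϖ⁻¹ * (x - ιA x') ∈ VA
  resB : ∀ x ∈ B, ∃ x' ∈ B₁, ϖ⁻¹ * (x - ιB x') ∈ VB
  resC : ∀ x ∈ B, ∃ x' ∈ B₁, zC⁻¹ * (x - ιC x') ∈ VC

/-- The closed-point inputs `s36_ptb_Pts` from the (RES) block and the three remaining fields
(classification, local equation of `C`, triple-point contract). -/
theorem s36_rsi_Res.pts {F₀ F : Type*} [Field F₀] [Field F] {ϖ zC : F}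
    {B VA VB VC : Subring F} {ϖ₀ : F₀} {B₁ : Subring F₀} {ιA ιB ιC : F₀ →+* F}
    (H : s36_rsi_Res ϖ zC B VA VB VC ϖ₀ B₁ ιA ιB ιC) (hϖB : ϖ ∈ B) (T : Ideal B → Prop)
    (cls : ∀ 𝔪 : Ideal B, 𝔪.IsMaximal → (⟨ϖ, hϖB⟩ : B) ∈ 𝔪 →
      ((∀ p : B, ϖ⁻¹ * (p : F) ∈ VA → p ∈ 𝔪) → (∀ p : B, ϖ⁻¹ * (p : F) ∈ VB → p ∈ 𝔪) →
        ∀ p : B, zC⁻¹ * (p : F) ∈ VC → p ∈ 𝔪) ∧
      ((∀ p : B, ϖ⁻¹ * (p : F) ∈ VB → p ∈ 𝔪) → (∀ p : B, zC⁻¹ * (p : F) ∈ VC → p ∈ 𝔪) →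
        ∀ p : B, ϖ⁻¹ * (p : F) ∈ VA → p ∈ 𝔪) ∧
      ((∀ p : B, ϖ⁻¹ * (p : F) ∈ VA → p ∈ 𝔪) → (∀ p : B, zC⁻¹ * (p : F) ∈ VC → p ∈ 𝔪) →
        ∀ p : B, ϖ⁻¹ * (p : F) ∈ VB → p ∈ 𝔪))
    (cpt : ∀ 𝔪 : Ideal B, 𝔪.IsMaximal → (⟨ϖ, hϖB⟩ : B) ∈ 𝔪 →
      (∃ f₀ : B, f₀ ∉ 𝔪 ∧ ϖ⁻¹ * (f₀ : F) ∈ VA ⊓ VB) →
      ∃ (z ε : F) (e : ℕ), s34_Unif z VC ∧ z ∈ s18_loc B 𝔪 ∧ 0 < e ∧ ε ∈ s18_loc B 𝔪 ∧
        ε⁻¹ ∈ VC ∧ ϖ = ε * z ^ e)
    (tri : ∀ 𝔪 : Ideal B, 𝔪.IsMaximal → (⟨ϖ, hϖB⟩ : B) ∈ 𝔪 →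
      (∀ s : B, s ∉ 𝔪 → ((s : F))⁻¹ ∈ VA) → (∀ s : B, s ∉ 𝔪 → ((s : F))⁻¹ ∈ VB) →
      (∀ s : B, s ∉ 𝔪 → ((s : F))⁻¹ ∈ VC) → T 𝔪) :
    s36_ptb_Pts ϖ zC B VA VB VC hϖB ϖ₀ B₁ ιA ιB ιC T :=
  { chart := H.chart
    mapA := H.mapA
    mapB := H.mapB
    mapC := H.mapC
    unifA := H.unifA
    unifB := H.unifB
    unifC := H.unifC
    resA := H.resA
    resB := H.resB
    resC := H.resC
    cls := cls
    cpt := cpt
    tri := tri }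

local notation "Qb" => AlgebraicClosure ℚ

section Model

variable {N q : ℕ} [NeZero N] [NeZero q] [NeZero (N * q)] [NeZero (N * q * q)] [Fact q.Prime]
variable (A : ValuationSubring Qb) (hA : A.LiesOverPrime q)
variable (K₁ : IntermediateField ℚ Qb) [NumberField K₁]
variable [IsDiscreteValuationRing (s18_A1 A K₁)]

include hA in
/-- **The (RES) block for the chart of one coordinate.**  `t₀` a coordinate of level `N` with its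
S18 chart package, `T` its image at level `N q q`, `B = s34_ic_chart A₁ T`. -/
theorem s36_rsi_core (hqN : ¬ q ∣ N) {π : s18_A1 A K₁} (hπ : Irreducible π)
    (t₀ : modularFunctionFieldFull N) (h : s18_cz_Coord N q t₀)
    (hchart : s18_Chart (algebraMap (s18_A1 A K₁) (s18_F1 K₁ N) π)
      (s18_chAlg N q (s18_A1 A K₁) t₀).toSubring)
    (hsm : s18_SmHyp π (s18_coord K₁ t₀) (s18_chAlg N q (s18_A1 A K₁) t₀))
    (T : s18_F1 K₁ (N * q * q)) (hT : s36_rsm_incl2 K₁ N q (s18_coord K₁ t₀) = T)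
    (hκ₁ : ∀ y ∈ s34_gi_V (s18_A1 A K₁) (N * q), ∃ y' ∈ s34_gi_V (s18_A1 A K₁) N,
      (algebraMap K₁ (s18_F1 K₁ (N * q)) (π : K₁))⁻¹ *
        (y - (heckeAlphaBar K₁ N q).toRingHom y') ∈ s34_gi_V (s18_A1 A K₁) (N * q))
    (hκA : ∀ y ∈ s34_gi_V (s18_A1 A K₁) (N * q * q), ∃ y' ∈ s34_gi_V (s18_A1 A K₁) (N * q),
      (algebraMap K₁ (s18_F1 K₁ (N * q * q)) (π : K₁))⁻¹ *
        (y - (heckeAlphaBar K₁ (N * q) q).toRingHom y') ∈ s34_gi_V (s18_A1 A K₁) (N * q * q))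
    (VC : Subring (s18_F1 K₁ (N * q * q))) {z : s18_F1 K₁ (N * q * q)} (hVC : s34_Unif z VC)
    (hκC : ∀ y ∈ VC, ∃ y' ∈ s34_gi_V (s18_A1 A K₁) (N * q),
      z⁻¹ * (y - (heckeAlphaBar K₁ (N * q) q).toRingHom y') ∈ VC)
    (hαC : ∀ y ∈ s34_gi_V (s18_A1 A K₁) (N * q), (heckeAlphaBar K₁ (N * q) q).toRingHom y ∈ VC)
    (hzϖ : z⁻¹ * algebraMap K₁ (s18_F1 K₁ (N * q * q)) (π : K₁) ∈ VC)
    (W : s18_F1 K₁ (N * q * q) ≃+* s18_F1 K₁ (N * q * q))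
    (hWϖ : W (algebraMap (s18_A1 A K₁) (s18_F1 K₁ (N * q * q)) π) =
      algebraMap (s18_A1 A K₁) (s18_F1 K₁ (N * q * q)) π)
    (hWB : ∀ x ∈ (s34_ic_chart (s18_A1 A K₁) T).toSubring,
      W x ∈ (s34_ic_chart (s18_A1 A K₁) T).toSubring)
    (hWB' : ∀ x ∈ (s34_ic_chart (s18_A1 A K₁) T).toSubring,
      W.symm x ∈ (s34_ic_chart (s18_A1 A K₁) T).toSubring) :
    s36_rsi_Res (algebraMap (s18_A1 A K₁) (s18_F1 K₁ (N * q * q)) π) z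
      (s34_ic_chart (s18_A1 A K₁) T).toSubring
      (s34_gi_V (s18_A1 A K₁) (N * q * q))
      ((s34_gi_V (s18_A1 A K₁) (N * q * q)).comap
        (W : s18_F1 K₁ (N * q * q) →+* s18_F1 K₁ (N * q * q)))
      VC
      (algebraMap (s18_A1 A K₁) (s18_F1 K₁ N) π) (s18_chAlg N q (s18_A1 A K₁) t₀).toSubring
      (s36_rsm_incl2 K₁ N q)
      ((W.symm : s18_F1 K₁ (N * q * q) →+* s18_F1 K₁ (N * q * q)).comp (s36_rsm_incl2 K₁ N q))
      (s36_rsm_incl2 K₁ N q) := by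
  subst hT
  have hR : s18_ResBasis q (s18_A1 A K₁) π := s18_a1_resbasis A hA K₁ π hπ
  obtain ⟨Bc, hBc⟩ := core N q hqN
  have hVA : s34_Unif (algebraMap (s18_A1 A K₁) (s18_F1 K₁ (N * q * q)) π)
      (s34_gi_V (s18_A1 A K₁) (N * q * q)) := s34_lg_unif hπ
  have hϖ0 := hVA.ne_zero
  have hιϖ : s36_rsm_incl2 K₁ N q (algebraMap (s18_A1 A K₁) (s18_F1 K₁ N) π) =
      algebraMap (s18_A1 A K₁) (s18_F1 K₁ (N * q * q)) π :=
    s36_rsm_incl2_algebraMap (π : K₁)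
  have hmapA : ∀ x ∈ (s18_chAlg N q (s18_A1 A K₁) t₀).toSubring,
      s36_rsm_incl2 K₁ N q x ∈
        (s34_ic_chart (s18_A1 A K₁) (s36_rsm_incl2 K₁ N q (s18_coord K₁ t₀))).toSubring :=
    fun x hx => s36_rsm_incl_mem_ic (s36_rsm_incl2 K₁ N q)
      (fun a => s36_rsm_incl2_algebraMap (a : K₁)) hsm x hx
  have hresA := s36_rsm_resA hR h hBc hchart hsm hκ₁ hκA
  have hAC : ∀ a : s18_A1 A K₁,
      algebraMap (s18_A1 A K₁) (s18_F1 K₁ (N * q * q)) a ∈ VC := by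
    intro a
    have h1 := hαC _ (s34_gi_algebraMap_mem (A₁ := s18_A1 A K₁) (N := N * q) a)
    have h2 : (heckeAlphaBar K₁ (N * q) q).toRingHom
        (algebraMap K₁ (s18_F1 K₁ (N * q)) (a : K₁)) =
        algebraMap (s18_A1 A K₁) (s18_F1 K₁ (N * q * q)) a :=
      (heckeAlphaBar K₁ (N * q) q).commutes (a : K₁)
    rw [h2] at h1
    exact h1
  have hresC := s36_rsm_resC hR h hBc hchart hsm VC hVC hAC hκ₁ hκC hαC hzϖ
  have hresB := s34_sm_res_comap W hWϖ hWB (s36_rsm_incl2 K₁ N q)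
    (s18_chAlg N q (s18_A1 A K₁) t₀).toSubring hresA
  have hWsϖ : W.symm (algebraMap (s18_A1 A K₁) (s18_F1 K₁ (N * q * q)) π) =
      algebraMap (s18_A1 A K₁) (s18_F1 K₁ (N * q * q)) π := by
    rw [RingEquiv.symm_apply_eq, hWϖ]
  exact
    { chart := hchart
      mapA := hmapA
      mapB := fun x hx => hWB' _ (hmapA x hx)
      mapC := hmapA
      unifA := by
        rw [hιϖ, inv_mul_cancel₀ hϖ0]
        exact Subring.one_mem _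
      unifB := by
        show (algebraMap (s18_A1 A K₁) (s18_F1 K₁ (N * q * q)) π)⁻¹ *
          W.symm (s36_rsm_incl2 K₁ N q (algebraMap (s18_A1 A K₁) (s18_F1 K₁ N) π)) ∈ _
        rw [hιϖ, hWsϖ, inv_mul_cancel₀ hϖ0]
        exact Subring.one_mem _
      unifC := by
        rw [hιϖ]
        exact hzϖ
      resA := hresA
      resB := hresB
      resC := hresC }

include hA in
/-- **The (RES) block for both charts of the Hauptmodul `t₂` at level `N q q`.** -/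
theorem s36_rsi_res_t2 (hqN : ¬ q ∣ N) (h2 : 2 ∣ N) (h2L : 2 ∣ N * q * q)
    {π : s18_A1 A K₁} (hπ : Irreducible π) (c : s18_A1 A K₁)
    (hc : ((q : ℕ) : s18_A1 A K₁) = π * c)
    -- the swap of level `N q`
    (w : s18_F1 K₁ (N * q) ≃+* s18_F1 K₁ (N * q))
    (hwϖ : w (algebraMap K₁ (s18_F1 K₁ (N * q)) (π : K₁)) =
      algebraMap K₁ (s18_F1 K₁ (N * q)) (π : K₁))
    (hwα : ∀ x : s18_F1 K₁ N, w (heckeAlphaBar K₁ N q x) = heckeBetaBar K₁ N q x)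
    (hwβ : ∀ x : s18_F1 K₁ N, w (heckeBetaBar K₁ N q x) = heckeAlphaBar K₁ N q x)
    -- the component `C`
    (VC : Subring (s18_F1 K₁ (N * q * q))) {z : s18_F1 K₁ (N * q * q)} (hVC : s34_Unif z VC)
    (hαC : ∀ y ∈ s34_gi_V (s18_A1 A K₁) (N * q), (heckeAlphaBar K₁ (N * q) q).toRingHom y ∈ VC)
    (hne : s34_gi_V (s18_A1 A K₁) (N * q * q) ≠ VC)
    (hzn : algebraMap K₁ (s18_F1 K₁ (N * q * q)) (π : K₁) * (z ^ (q - 1))⁻¹ ∈ VC)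
    -- the swap of level `N q q`
    (W : s18_F1 K₁ (N * q * q) ≃+* s18_F1 K₁ (N * q * q)) (hWW : ∀ x, W (W x) = x)
    (hWc : ∀ c : K₁, W (algebraMap K₁ (s18_F1 K₁ (N * q * q)) c) =
      algebraMap K₁ (s18_F1 K₁ (N * q * q)) c)
    (hWt : W (s36_rsm_incl2 K₁ N q (s18_coord K₁ (s18_cz_t2 N h2))) =
      heckeBetaBar K₁ (N * q) q (heckeBetaBar K₁ N q (s18_coord K₁ (s18_cz_t2 N h2)))) :
    s36_rsi_Res (algebraMap (s18_A1 A K₁) (s18_F1 K₁ (N * q * q)) π) z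
      (s34_md_B0 A K₁ (N * q * q) (s18_cz_t2 (N * q * q) h2L)).toSubring
      (s34_gi_V (s18_A1 A K₁) (N * q * q))
      ((s34_gi_V (s18_A1 A K₁) (N * q * q)).comap
        (W : s18_F1 K₁ (N * q * q) →+* s18_F1 K₁ (N * q * q)))
      VC
      (algebraMap (s18_A1 A K₁) (s18_F1 K₁ N) π)
      (s18_chAlg N q (s18_A1 A K₁) (s18_cz_t2 N h2)).toSubring
      (s36_rsm_incl2 K₁ N q)
      ((W.symm : s18_F1 K₁ (N * q * q) →+* s18_F1 K₁ (N * q * q)).comp (s36_rsm_incl2 K₁ N q))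
      (s36_rsm_incl2 K₁ N q) ∧
    s36_rsi_Res (algebraMap (s18_A1 A K₁) (s18_F1 K₁ (N * q * q)) π) z
      (s34_md_Binf A K₁ (N * q * q) (s18_cz_t2 (N * q * q) h2L)).toSubring
      (s34_gi_V (s18_A1 A K₁) (N * q * q))
      ((s34_gi_V (s18_A1 A K₁) (N * q * q)).comap
        (W : s18_F1 K₁ (N * q * q) →+* s18_F1 K₁ (N * q * q)))
      VC
      (algebraMap (s18_A1 A K₁) (s18_F1 K₁ N) π)
      (s18_chAlg N q (s18_A1 A K₁) (s18_cz_t2 N h2)⁻¹).toSubring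
      (s36_rsm_incl2 K₁ N q)
      ((W.symm : s18_F1 K₁ (N * q * q) →+* s18_F1 K₁ (N * q * q)).comp (s36_rsm_incl2 K₁ N q))
      (s36_rsm_incl2 K₁ N q) := by
  have hq : q.Prime := Fact.out
  have hq2 : q ≠ 2 := fun h => hqN (h ▸ h2)
  have hℓ : ((q : K₁))⁻¹ ∉ s18_A1 A K₁ := s18_a1_ell A hA K₁
  have hTC := s36_cn_twoChart_t2 N A hA K₁ hqN h2 π hπ
  have hP := s36_ng_ch_pkg_t2 (K := K₁) (A := s18_A1 A K₁) hℓ hqN h2 π hπ
  have hcoord := s18_cz_coord_t2 N q h2 hq2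
  have hsmInf : s18_SmHyp π (s18_coord K₁ (s18_cz_t2 N h2)⁻¹)
      (s18_chAlg N q (s18_A1 A K₁) (s18_cz_t2 N h2)⁻¹) := by
    rw [s18_coord_inv]
    exact hP.smInf
  -- the two `κ`-statements
  have hκ₁ := (s34_ei_model_haupt (K := K₁) (A₁ := s18_A1 A K₁) (N := N) (ℓ := q)
    (Or.inl h2) hqN hπ c hc w hwϖ hwα hwβ).2
  obtain ⟨-, hκA, -, hκC, -, -⟩ := s36_nm_AC (K := K₁) (A₁ := s18_A1 A K₁) (N := N * q)
    (ℓ := q) (Dvd.intro_left N rfl) hπ VC z ⟨hVC.mem, hVC.inv_not_mem, hVC.decomp⟩ hαC hne hzn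
  have hz0 := hVC.ne_zero
  have hzϖ : z⁻¹ * algebraMap K₁ (s18_F1 K₁ (N * q * q)) (π : K₁) ∈ VC := by
    obtain ⟨k, hk⟩ : ∃ k, q - 1 = k + 1 := ⟨q - 2, by have := hq.two_le; omega⟩
    rw [hk] at hzn
    have e : z⁻¹ * algebraMap K₁ (s18_F1 K₁ (N * q * q)) (π : K₁) =
        z ^ k * (algebraMap K₁ (s18_F1 K₁ (N * q * q)) (π : K₁) * (z ^ (k + 1))⁻¹) := by
      rw [pow_succ]
      field_simp
    rw [e]
    exact VC.mul_mem (VC.pow_mem hVC.mem k) hzn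
  -- the swap
  have hWϖ : W (algebraMap (s18_A1 A K₁) (s18_F1 K₁ (N * q * q)) π) =
      algebraMap (s18_A1 A K₁) (s18_F1 K₁ (N * q * q)) π := hWc (π : K₁)
  obtain ⟨hW0, hWi⟩ := s36_ws2_stable_t2 N q K₁ A hq hqN h2 h2L hA W hWW hWc hWt
  have e0 : s36_rsm_incl2 K₁ N q (s18_coord K₁ (s18_cz_t2 N h2)) =
      s18_coord K₁ (s18_cz_t2 (N * q * q) h2L) := (s36_ws2_coord_t2 N q K₁ h2 h2L).symm
  have ei : s36_rsm_incl2 K₁ N q (s18_coord K₁ (s18_cz_t2 N h2)⁻¹) =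
      (s18_coord K₁ (s18_cz_t2 (N * q * q) h2L))⁻¹ := by
    have e1 : s18_coord K₁ (s18_cz_t2 N h2)⁻¹ = (s18_coord K₁ (s18_cz_t2 N h2))⁻¹ :=
      s18_coord_inv _
    have e2 : s36_rsm_incl2 K₁ N q (s18_coord K₁ (s18_cz_t2 N h2))⁻¹ =
        (s36_rsm_incl2 K₁ N q (s18_coord K₁ (s18_cz_t2 N h2)))⁻¹ :=
      map_inv₀ (s36_rsm_incl2 K₁ N q) _
    exact (congrArg (s36_rsm_incl2 K₁ N q) e1).trans (e2.trans (congrArg (fun y => y⁻¹) e0))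
  exact ⟨s36_rsi_core A hA K₁ hqN hπ (s18_cz_t2 N h2) hcoord hTC.chart0 hP.sm0 _ e0 hκ₁ hκA VC
      hVC hκC hαC hzϖ W hWϖ (fun x hx => (hW0 x hx).1) (fun x hx => (hW0 x hx).2),
    s36_rsi_core A hA K₁ hqN hπ (s18_cz_t2 N h2)⁻¹ hcoord.inv hTC.chartInf hsmInf _ ei hκ₁ hκA VC
      hVC hκC hαC hzϖ W hWϖ (fun x hx => (hWi x hx).1) (fun x hx => (hWi x hx).2)⟩

include hA in
/-- **The (RES) block for both charts of the Hauptmodul `t₃` at level `N q q`.** -/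
theorem s36_rsi_res_t3 (hqN : ¬ q ∣ N) (h3 : 3 ∣ N) (h3L : 3 ∣ N * q * q)
    {π : s18_A1 A K₁} (hπ : Irreducible π) (c : s18_A1 A K₁)
    (hc : ((q : ℕ) : s18_A1 A K₁) = π * c)
    -- the swap of level `N q`
    (w : s18_F1 K₁ (N * q) ≃+* s18_F1 K₁ (N * q))
    (hwϖ : w (algebraMap K₁ (s18_F1 K₁ (N * q)) (π : K₁)) =
      algebraMap K₁ (s18_F1 K₁ (N * q)) (π : K₁))
    (hwα : ∀ x : s18_F1 K₁ N, w (heckeAlphaBar K₁ N q x) = heckeBetaBar K₁ N q x)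
    (hwβ : ∀ x : s18_F1 K₁ N, w (heckeBetaBar K₁ N q x) = heckeAlphaBar K₁ N q x)
    -- the component `C`
    (VC : Subring (s18_F1 K₁ (N * q * q))) {z : s18_F1 K₁ (N * q * q)} (hVC : s34_Unif z VC)
    (hαC : ∀ y ∈ s34_gi_V (s18_A1 A K₁) (N * q), (heckeAlphaBar K₁ (N * q) q).toRingHom y ∈ VC)
    (hne : s34_gi_V (s18_A1 A K₁) (N * q * q) ≠ VC)
    (hzn : algebraMap K₁ (s18_F1 K₁ (N * q * q)) (π : K₁) * (z ^ (q - 1))⁻¹ ∈ VC)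
    -- the swap of level `N q q`
    (W : s18_F1 K₁ (N * q * q) ≃+* s18_F1 K₁ (N * q * q)) (hWW : ∀ x, W (W x) = x)
    (hWc : ∀ c : K₁, W (algebraMap K₁ (s18_F1 K₁ (N * q * q)) c) =
      algebraMap K₁ (s18_F1 K₁ (N * q * q)) c)
    (hWt : W (s36_rsm_incl2 K₁ N q (s18_coord K₁ (s18_cz_t3 N h3))) =
      heckeBetaBar K₁ (N * q) q (heckeBetaBar K₁ N q (s18_coord K₁ (s18_cz_t3 N h3)))) :
    s36_rsi_Res (algebraMap (s18_A1 A K₁) (s18_F1 K₁ (N * q * q)) π) z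
      (s34_md_B0 A K₁ (N * q * q) (s18_cz_t3 (N * q * q) h3L)).toSubring
      (s34_gi_V (s18_A1 A K₁) (N * q * q))
      ((s34_gi_V (s18_A1 A K₁) (N * q * q)).comap
        (W : s18_F1 K₁ (N * q * q) →+* s18_F1 K₁ (N * q * q)))
      VC
      (algebraMap (s18_A1 A K₁) (s18_F1 K₁ N) π)
      (s18_chAlg N q (s18_A1 A K₁) (s18_cz_t3 N h3)).toSubring
      (s36_rsm_incl2 K₁ N q)
      ((W.symm : s18_F1 K₁ (N * q * q) →+* s18_F1 K₁ (N * q * q)).comp (s36_rsm_incl2 K₁ N q))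
      (s36_rsm_incl2 K₁ N q) ∧
    s36_rsi_Res (algebraMap (s18_A1 A K₁) (s18_F1 K₁ (N * q * q)) π) z
      (s34_md_Binf A K₁ (N * q * q) (s18_cz_t3 (N * q * q) h3L)).toSubring
      (s34_gi_V (s18_A1 A K₁) (N * q * q))
      ((s34_gi_V (s18_A1 A K₁) (N * q * q)).comap
        (W : s18_F1 K₁ (N * q * q) →+* s18_F1 K₁ (N * q * q)))
      VC
      (algebraMap (s18_A1 A K₁) (s18_F1 K₁ N) π)
      (s18_chAlg N q (s18_A1 A K₁) (s18_cz_t3 N h3)⁻¹).toSubring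
      (s36_rsm_incl2 K₁ N q)
      ((W.symm : s18_F1 K₁ (N * q * q) →+* s18_F1 K₁ (N * q * q)).comp (s36_rsm_incl2 K₁ N q))
      (s36_rsm_incl2 K₁ N q) := by
  have hq : q.Prime := Fact.out
  have hq3 : q ≠ 3 := fun h => hqN (h ▸ h3)
  have hℓ : ((q : K₁))⁻¹ ∉ s18_A1 A K₁ := s18_a1_ell A hA K₁
  have hTC := s36_cn_twoChart_t3 N A hA K₁ hqN h3 π hπ
  have hP := s36_ng_ch_pkg_t3 (K := K₁) (A := s18_A1 A K₁) hℓ hqN h3 π hπ
  have hcoord := s18_cz_coord_t3 N q h3 hq3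
  have hsmInf : s18_SmHyp π (s18_coord K₁ (s18_cz_t3 N h3)⁻¹)
      (s18_chAlg N q (s18_A1 A K₁) (s18_cz_t3 N h3)⁻¹) := by
    rw [s18_coord_inv]
    exact hP.smInf
  -- the two `κ`-statements
  have hκ₁ := (s34_ei_model_haupt (K := K₁) (A₁ := s18_A1 A K₁) (N := N) (ℓ := q)
    (Or.inr h3) hqN hπ c hc w hwϖ hwα hwβ).2
  obtain ⟨-, hκA, -, hκC, -, -⟩ := s36_nm_AC (K := K₁) (A₁ := s18_A1 A K₁) (N := N * q)
    (ℓ := q) (Dvd.intro_left N rfl) hπ VC z ⟨hVC.mem, hVC.inv_not_mem, hVC.decomp⟩ hαC hne hzn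
  have hz0 := hVC.ne_zero
  have hzϖ : z⁻¹ * algebraMap K₁ (s18_F1 K₁ (N * q * q)) (π : K₁) ∈ VC := by
    obtain ⟨k, hk⟩ : ∃ k, q - 1 = k + 1 := ⟨q - 2, by have := hq.two_le; omega⟩
    rw [hk] at hzn
    have e : z⁻¹ * algebraMap K₁ (s18_F1 K₁ (N * q * q)) (π : K₁) =
        z ^ k * (algebraMap K₁ (s18_F1 K₁ (N * q * q)) (π : K₁) * (z ^ (k + 1))⁻¹) := by
      rw [pow_succ]
      field_simp
    rw [e]
    exact VC.mul_mem (VC.pow_mem hVC.mem k) hzn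
  -- the swap
  have hWϖ : W (algebraMap (s18_A1 A K₁) (s18_F1 K₁ (N * q * q)) π) =
      algebraMap (s18_A1 A K₁) (s18_F1 K₁ (N * q * q)) π := hWc (π : K₁)
  obtain ⟨hW0, hWi⟩ := s36_ws2_stable_t3 N q K₁ A hq hqN h3 h3L hA W hWW hWc hWt
  have e0 : s36_rsm_incl2 K₁ N q (s18_coord K₁ (s18_cz_t3 N h3)) =
      s18_coord K₁ (s18_cz_t3 (N * q * q) h3L) := (s36_ws2_coord_t3 N q K₁ h3 h3L).symm
  have ei : s36_rsm_incl2 K₁ N q (s18_coord K₁ (s18_cz_t3 N h3)⁻¹) =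
      (s18_coord K₁ (s18_cz_t3 (N * q * q) h3L))⁻¹ := by
    have e1 : s18_coord K₁ (s18_cz_t3 N h3)⁻¹ = (s18_coord K₁ (s18_cz_t3 N h3))⁻¹ :=
      s18_coord_inv _
    have e2 : s36_rsm_incl2 K₁ N q (s18_coord K₁ (s18_cz_t3 N h3))⁻¹ =
        (s36_rsm_incl2 K₁ N q (s18_coord K₁ (s18_cz_t3 N h3)))⁻¹ :=
      map_inv₀ (s36_rsm_incl2 K₁ N q) _
    exact (congrArg (s36_rsm_incl2 K₁ N q) e1).trans (e2.trans (congrArg (fun y => y⁻¹) e0))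
  exact ⟨s36_rsi_core A hA K₁ hqN hπ (s18_cz_t3 N h3) hcoord hTC.chart0 hP.sm0 _ e0 hκ₁ hκA VC
      hVC hκC hαC hzϖ W hWϖ (fun x hx => (hW0 x hx).1) (fun x hx => (hW0 x hx).2),
    s36_rsi_core A hA K₁ hqN hπ (s18_cz_t3 N h3)⁻¹ hcoord.inv hTC.chartInf hsmInf _ ei hκ₁ hκA VC
      hVC hκC hαC hzϖ W hWϖ (fun x hx => (hWi x hx).1) (fun x hx => (hWi x hx).2)⟩

end Model

end Fermat.Agent.S36
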