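import Mathlib
import Fermat.Agent.S36.ContractInst
import Fermat.Agent.S36.ResSqInst

/-!
# S36 (NODE-3): the closed-point blocks of the concrete model from `cls`, `cpt`, `tri`

`S36/ContractInst` reduces S36 to `s36_ci_PtsAll` (the closed-point inputs `s36_ptb_Pts` of the
two integral-closure charts of the concrete three-component model).  Here the ten (RES) fields
`chart`, `mapA/B/C`, `unifA/B/C`, `resA/B/C` are discharged by `s36_rsi_res_t2` / `_t3`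
(`S36/ResSqInst`), with

* `F₀ = K₀ · F(N₁)`, `ϖ₀ = q`, `B₁0 = s18_chAlg N₁ q A₀ t`, `B₁i = s18_chAlg N₁ q A₀ t⁻¹`,
* `ιA = ιC = s36_rsm_incl2 K₀ N₁ q`, `ιB = W₁⁻¹ ∘ ιA`.

What remains is `s36_ci_LocAll` : for each of the two charts the three fields `cls` (class
statement at every closed point), `cpt` (local equation at the `C`-only points) and `tri` (the
triple-point contract `s36_pm_TriOut`), bundled in `s36_ci_Loc`.

* `s36_ci_pts_t2`, `s36_ci_pts_t3` : `s36_ci_PtsAll` from `s36_ci_LocAll`;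
* `s36_ci_final_loc` : the conclusion of S36 from `s36_ci_LocAll` of the concrete models.
-/

set_option autoImplicit false
set_option synthInstance.maxHeartbeats 400000
set_option linter.style.haveILetI false
set_option linter.unusedSectionVars false
set_option linter.unusedVariables false

open ModularCurve AlgebraicCurve

noncomputable section

namespace Fermat.Agent.S36

open Fermat.Agent.S18 Fermat.Agent.S34 Fermat.Agent.S35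

local notation "Qb" => AlgebraicClosure ℚ

/-- The three closed-point inputs of a chart `B` of the three-component model which are not part
of the (RES) block: the last three fields of `s36_ptb_Pts`, verbatim. -/
structure s36_ci_Loc {F : Type*} [Field F] (ϖ zC : F) (B VA VB VC : Subring F)
    (hϖB : ϖ ∈ B) (T : Ideal B → Prop) : Prop where
  cls : ∀ 𝔪 : Ideal B, 𝔪.IsMaximal → (⟨ϖ, hϖB⟩ : B) ∈ 𝔪 →
    ((∀ p : B, ϖ⁻¹ * (p : F) ∈ VA → p ∈ 𝔪) → (∀ p : B, ϖ⁻¹ * (p : F) ∈ VB → p ∈ 𝔪) →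
      ∀ p : B, zC⁻¹ * (p : F) ∈ VC → p ∈ 𝔪) ∧
    ((∀ p : B, ϖ⁻¹ * (p : F) ∈ VB → p ∈ 𝔪) → (∀ p : B, zC⁻¹ * (p : F) ∈ VC → p ∈ 𝔪) →
      ∀ p : B, ϖ⁻¹ * (p : F) ∈ VA → p ∈ 𝔪) ∧
    ((∀ p : B, ϖ⁻¹ * (p : F) ∈ VA → p ∈ 𝔪) → (∀ p : B, zC⁻¹ * (p : F) ∈ VC → p ∈ 𝔪) →
      ∀ p : B, ϖ⁻¹ * (p : F) ∈ VB → p ∈ 𝔪)
  cpt : ∀ 𝔪 : Ideal B, 𝔪.IsMaximal → (⟨ϖ, hϖB⟩ : B) ∈ 𝔪 →
    (∃ f₀ : B, f₀ ∉ 𝔪 ∧ ϖ⁻¹ * (f₀ : F) ∈ VA ⊓ VB) →
    ∃ (z ε : F) (e : ℕ), s34_Unif z VC ∧ z ∈ s18_loc B 𝔪 ∧ 0 < e ∧ ε ∈ s18_loc B 𝔪 ∧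
      ε⁻¹ ∈ VC ∧ ϖ = ε * z ^ e
  tri : ∀ 𝔪 : Ideal B, 𝔪.IsMaximal → (⟨ϖ, hϖB⟩ : B) ∈ 𝔪 →
    (∀ s : B, s ∉ 𝔪 → ((s : F))⁻¹ ∈ VA) → (∀ s : B, s ∉ 𝔪 → ((s : F))⁻¹ ∈ VB) →
    (∀ s : B, s ∉ 𝔪 → ((s : F))⁻¹ ∈ VC) → T 𝔪

/-- **The three remaining closed-point inputs of the concrete model** of level `N₁ q q` with
coordinate `tLL`: `s36_ci_Loc` for the two integral-closure charts, for all the data of
`s36_ci_PtsAll`. -/
def s36_ci_LocAll (N₁ q : ℕ) [NeZero N₁] [NeZero q] [NeZero (N₁ * q)] [NeZero (N₁ * q * q)]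
    (hq : q.Prime) (tLL : modularFunctionFieldFull (N₁ * q * q)) : Prop :=
  ∀ (P : ValuationSubring Qb) (_ : P.LiesOverPrime q) (K₀ : IntermediateField ℚ Qb)
    (_ : FiniteDimensional ℚ K₀) (_ : ∀ a ∈ K₀, ∀ τ ∈ P.inertiaSubgroupIn ℚ, τ a = a)
    (_ : IsDiscreteValuationRing (s18_A1 P K₀)) (_ : Irreducible ((q : ℕ) : s18_A1 P K₀))
    (m : ℕ) (_ : 0 < m) (_ : ¬ q ∣ m) (ζm : K₀) (_ : IsPrimitiveRoot ζm m)
    (w : s18_F1 K₀ (N₁ * q) ≃ₐ[K₀] s18_F1 K₀ (N₁ * q)) (_ : s34_md_IsSwap K₀ N₁ q w)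
    (W₁ : s18_F1 K₀ (N₁ * q * q) ≃ₐ[K₀] s18_F1 K₀ (N₁ * q * q)) (_ : s36_IsSwapK K₀ N₁ q W₁)
    (_ : ∀ y, W₁ (heckeAlphaBar K₀ (N₁ * q) q y) = heckeBetaBar K₀ (N₁ * q) q (w y))
    (r s : ℤ) (_ : r * (q : ℤ) + s * (m : ℤ) = 1)
    (K : IntermediateField K₀ Qb) (ζ : (P.comap (algebraMap K Qb))ˣ)
    (Θ : laurentBaseChange K (modularFunctionFieldFull (N₁ * q * q)) →ₐ[K] LaurentSeries K)
    (_ : s36_gc_IsCusp N₁ q ζ Θ) (_ : s36_gc_IsUnif ζ)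
    (_ : IsPrimitiveRoot (ζ : P.comap (algebraMap K Qb)) q)
    (_ : IsLocalRing.residue (P.comap (algebraMap K Qb))
      ((q : ℕ) : P.comap (algebraMap K Qb)) = 0)
    (_ : ∀ b ∈ s18_A1 P K₀, algebraMap K₀ K b ∈ P.comap (algebraMap K Qb)),
    s36_ci_Loc
      (algebraMap (s18_A1 P K₀) (s18_F1 K₀ (N₁ * q * q)) ((q : ℕ) : s18_A1 P K₀))
      (s36_gc_z K₀ q (N₁ * q * q) hq (s36_cp3i_sq_dvd N₁ q))
      (s34_md_B0 P K₀ (N₁ * q * q) tLL).toSubring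
      (s34_gi_V (s18_A1 P K₀) (N₁ * q * q))
      ((s34_gi_V (s18_A1 P K₀) (N₁ * q * q)).comap
        ((W₁ : s18_F1 K₀ (N₁ * q * q) ≃+* s18_F1 K₀ (N₁ * q * q)) :
          s18_F1 K₀ (N₁ * q * q) →+* s18_F1 K₀ (N₁ * q * q)))
      (s36_gc_V (algebraMap K₀ K) (P.comap (algebraMap K Qb)) (N₁ * q * q) Θ)
      ((s34_md_B0 P K₀ (N₁ * q * q) tLL).algebraMap_mem ((q : ℕ) : s18_A1 P K₀))
      (fun 𝔪 => s36_pm_TriOut (heckeAlphaBar K₀ (N₁ * q) q).toRingHom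
        (algebraMap K₀ (s18_F1 K₀ (N₁ * q)) (q : K₀))
        (s36_gc_z K₀ q (N₁ * q * q) hq (s36_cp3i_sq_dvd N₁ q))
        (s34_gi_V (s18_A1 P K₀) (N₁ * q * q))
        ((s34_gi_V (s18_A1 P K₀) (N₁ * q * q)).comap
          ((W₁ : s18_F1 K₀ (N₁ * q * q) ≃+* s18_F1 K₀ (N₁ * q * q)) :
            s18_F1 K₀ (N₁ * q * q) →+* s18_F1 K₀ (N₁ * q * q)))
        (s36_gc_V (algebraMap K₀ K) (P.comap (algebraMap K Qb)) (N₁ * q * q) Θ)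
        (s34_gi_V (s18_A1 P K₀) (N₁ * q))
        ((s34_gi_V (s18_A1 P K₀) (N₁ * q)).comap
          ((w : s18_F1 K₀ (N₁ * q) ≃+* s18_F1 K₀ (N₁ * q)) :
            s18_F1 K₀ (N₁ * q) →+* s18_F1 K₀ (N₁ * q)))
        (@Algebra.norm (s18_F1 K₀ (N₁ * q)) (s18_F1 K₀ (N₁ * q * q)) _ _
          (heckeAlphaBar K₀ (N₁ * q) q).toRingHom.toAlgebra)
        (W₁ : s18_F1 K₀ (N₁ * q * q) ≃+* s18_F1 K₀ (N₁ * q * q)) (q - 1) m r s
        (s34_md_B0 P K₀ (N₁ * q * q) tLL).toSubring 𝔪) ∧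
    s36_ci_Loc
      (algebraMap (s18_A1 P K₀) (s18_F1 K₀ (N₁ * q * q)) ((q : ℕ) : s18_A1 P K₀))
      (s36_gc_z K₀ q (N₁ * q * q) hq (s36_cp3i_sq_dvd N₁ q))
      (s34_md_Binf P K₀ (N₁ * q * q) tLL).toSubring
      (s34_gi_V (s18_A1 P K₀) (N₁ * q * q))
      ((s34_gi_V (s18_A1 P K₀) (N₁ * q * q)).comap
        ((W₁ : s18_F1 K₀ (N₁ * q * q) ≃+* s18_F1 K₀ (N₁ * q * q)) :
          s18_F1 K₀ (N₁ * q * q) →+* s18_F1 K₀ (N₁ * q * q)))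
      (s36_gc_V (algebraMap K₀ K) (P.comap (algebraMap K Qb)) (N₁ * q * q) Θ)
      ((s34_md_Binf P K₀ (N₁ * q * q) tLL).algebraMap_mem ((q : ℕ) : s18_A1 P K₀))
      (fun 𝔪 => s36_pm_TriOut (heckeAlphaBar K₀ (N₁ * q) q).toRingHom
        (algebraMap K₀ (s18_F1 K₀ (N₁ * q)) (q : K₀))
        (s36_gc_z K₀ q (N₁ * q * q) hq (s36_cp3i_sq_dvd N₁ q))
        (s34_gi_V (s18_A1 P K₀) (N₁ * q * q))
        ((s34_gi_V (s18_A1 P K₀) (N₁ * q * q)).comap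
          ((W₁ : s18_F1 K₀ (N₁ * q * q) ≃+* s18_F1 K₀ (N₁ * q * q)) :
            s18_F1 K₀ (N₁ * q * q) →+* s18_F1 K₀ (N₁ * q * q)))
        (s36_gc_V (algebraMap K₀ K) (P.comap (algebraMap K Qb)) (N₁ * q * q) Θ)
        (s34_gi_V (s18_A1 P K₀) (N₁ * q))
        ((s34_gi_V (s18_A1 P K₀) (N₁ * q)).comap
          ((w : s18_F1 K₀ (N₁ * q) ≃+* s18_F1 K₀ (N₁ * q)) :
            s18_F1 K₀ (N₁ * q) →+* s18_F1 K₀ (N₁ * q)))
        (@Algebra.norm (s18_F1 K₀ (N₁ * q)) (s18_F1 K₀ (N₁ * q * q)) _ _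
          (heckeAlphaBar K₀ (N₁ * q) q).toRingHom.toAlgebra)
        (W₁ : s18_F1 K₀ (N₁ * q * q) ≃+* s18_F1 K₀ (N₁ * q * q)) (q - 1) m r s
        (s34_md_Binf P K₀ (N₁ * q * q) tLL).toSubring 𝔪)

set_option maxHeartbeats 4000000 in
/-- **The closed-point blocks of the concrete model from `cls`, `cpt`, `tri`, Hauptmodul
`t_2`.** -/
theorem s36_ci_pts_t2 (N₁ q : ℕ) [NeZero N₁] [NeZero q] [NeZero (N₁ * q)]
    [NeZero (N₁ * q * q)] (hq : q.Prime) (hqN : ¬ q ∣ N₁) (h2 : 2 ∣ N₁)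
    (h2'' : 2 ∣ N₁ * q * q)
    (hloc : s36_ci_LocAll N₁ q hq (s18_cz_t2 (N₁ * q * q) h2'')) :
    s36_ci_PtsAll N₁ q hq (s18_cz_t2 (N₁ * q * q) h2'') := by
  intro P hP K₀ hfin hK₀ hDVR hirr m hm hqm ζm hζm w hw W₁ hW₁ hrel r s hrs K ζ Θ hcusp hunifA
    hprimA hres hA0
  haveI : Fact q.Prime := ⟨hq⟩
  haveI := hfin
  haveI := hDVR
  haveI : NumberField K₀ := NumberField.mk
  haveI hDVRA : IsDiscreteValuationRing (P.comap (algebraMap K Qb)) := s36_ci_dvr _ ζ hunifA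
  obtain ⟨hl0, hli⟩ := hloc P hP K₀ hfin hK₀ hDVR hirr m hm hqm ζm hζm w hw W₁ hW₁ hrel r s hrs
    K ζ Θ hcusp hunifA hprimA hres hA0
  -- the data of `V_C`
  have hVC := s36_cp3i_unifC (K₀ := K₀) N₁ q (algebraMap K₀ K)
    (P.comap (algebraMap K Qb)) Θ ζ hq hcusp hunifA
  have hαC : ∀ y ∈ s34_gi_V (s18_A1 P K₀) (N₁ * q),
      (heckeAlphaBar K₀ (N₁ * q) q).toRingHom y ∈
        s36_gc_V (algebraMap K₀ K) (P.comap (algebraMap K Qb)) (N₁ * q * q) Θ :=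
    fun y hy => s36_cp3f_alphaC P K₀ N₁ q (algebraMap K₀ K) (P.comap (algebraMap K Qb)) Θ ζ
      hcusp hA0 y hy
  have hne := s36_cp3f_ne P K₀ N₁ q (algebraMap K₀ K) (P.comap (algebraMap K Qb)) Θ ζ hq hcusp
    hunifA
  have hprops := s36_gd_props (algebraMap K₀ K) (P.comap (algebraMap K Qb)) (s18_A1 P K₀) hA0
    N₁ q (N₁ * q * q) hq (s36_cp3i_level N₁ q) (s36_cp3i_sq_dvd N₁ q) ζ Θ hcusp hunifA hprimA
  have hzn : algebraMap K₀ (s18_F1 K₀ (N₁ * q * q)) (((q : ℕ) : s18_A1 P K₀) : K₀) *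
      (s36_gc_z K₀ q (N₁ * q * q) hq (s36_cp3i_sq_dvd N₁ q) ^ (q - 1))⁻¹ ∈
        s36_gc_V (algebraMap K₀ K) (P.comap (algebraMap K Qb)) (N₁ * q * q) Θ := by
    have h := hprops.2.1
    simpa using h
  -- the swaps
  have hWt : (W₁ : s18_F1 K₀ (N₁ * q * q) ≃+* s18_F1 K₀ (N₁ * q * q))
      (s36_rsm_incl2 K₀ N₁ q (s18_coord K₀ (s18_cz_t2 N₁ h2))) =
      heckeBetaBar K₀ (N₁ * q) q (heckeBetaBar K₀ N₁ q (s18_coord K₀ (s18_cz_t2 N₁ h2))) := by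
    show W₁ (heckeAlphaBar K₀ (N₁ * q) q (heckeAlphaBar K₀ N₁ q _)) = _
    rw [hrel, hw.1]
  obtain ⟨h0, hi⟩ := s36_rsi_res_t2 (A := P) hP K₀ hqN h2 h2'' hirr 1 (mul_one _).symm
    (w : s18_F1 K₀ (N₁ * q) ≃+* s18_F1 K₀ (N₁ * q)) (w.commutes _) hw.1 hw.2.1
    (s36_gc_V (algebraMap K₀ K) (P.comap (algebraMap K Qb)) (N₁ * q * q) Θ) hVC hαC hne hzn
    (W₁ : s18_F1 K₀ (N₁ * q * q) ≃+* s18_F1 K₀ (N₁ * q * q)) hW₁.1 (W₁.commutes) hWt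
  exact ⟨s18_F1 K₀ N₁, inferInstance, _, _, _, _, _, _,
    h0.pts _ _ hl0.cls hl0.cpt hl0.tri, hi.pts _ _ hli.cls hli.cpt hli.tri⟩

set_option maxHeartbeats 4000000 in
/-- **The closed-point blocks of the concrete model from `cls`, `cpt`, `tri`, Hauptmodul
`t_3`.** -/
theorem s36_ci_pts_t3 (N₁ q : ℕ) [NeZero N₁] [NeZero q] [NeZero (N₁ * q)]
    [NeZero (N₁ * q * q)] (hq : q.Prime) (hqN : ¬ q ∣ N₁) (h3 : 3 ∣ N₁)
    (h3'' : 3 ∣ N₁ * q * q)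
    (hloc : s36_ci_LocAll N₁ q hq (s18_cz_t3 (N₁ * q * q) h3'')) :
    s36_ci_PtsAll N₁ q hq (s18_cz_t3 (N₁ * q * q) h3'') := by
  intro P hP K₀ hfin hK₀ hDVR hirr m hm hqm ζm hζm w hw W₁ hW₁ hrel r s hrs K ζ Θ hcusp hunifA
    hprimA hres hA0
  haveI : Fact q.Prime := ⟨hq⟩
  haveI := hfin
  haveI := hDVR
  haveI : NumberField K₀ := NumberField.mk
  haveI hDVRA : IsDiscreteValuationRing (P.comap (algebraMap K Qb)) := s36_ci_dvr _ ζ hunifA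
  obtain ⟨hl0, hli⟩ := hloc P hP K₀ hfin hK₀ hDVR hirr m hm hqm ζm hζm w hw W₁ hW₁ hrel r s hrs
    K ζ Θ hcusp hunifA hprimA hres hA0
  -- the data of `V_C`
  have hVC := s36_cp3i_unifC (K₀ := K₀) N₁ q (algebraMap K₀ K)
    (P.comap (algebraMap K Qb)) Θ ζ hq hcusp hunifA
  have hαC : ∀ y ∈ s34_gi_V (s18_A1 P K₀) (N₁ * q),
      (heckeAlphaBar K₀ (N₁ * q) q).toRingHom y ∈
        s36_gc_V (algebraMap K₀ K) (P.comap (algebraMap K Qb)) (N₁ * q * q) Θ :=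
    fun y hy => s36_cp3f_alphaC P K₀ N₁ q (algebraMap K₀ K) (P.comap (algebraMap K Qb)) Θ ζ
      hcusp hA0 y hy
  have hne := s36_cp3f_ne P K₀ N₁ q (algebraMap K₀ K) (P.comap (algebraMap K Qb)) Θ ζ hq hcusp
    hunifA
  have hprops := s36_gd_props (algebraMap K₀ K) (P.comap (algebraMap K Qb)) (s18_A1 P K₀) hA0
    N₁ q (N₁ * q * q) hq (s36_cp3i_level N₁ q) (s36_cp3i_sq_dvd N₁ q) ζ Θ hcusp hunifA hprimA
  have hzn : algebraMap K₀ (s18_F1 K₀ (N₁ * q * q)) (((q : ℕ) : s18_A1 P K₀) : K₀) *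
      (s36_gc_z K₀ q (N₁ * q * q) hq (s36_cp3i_sq_dvd N₁ q) ^ (q - 1))⁻¹ ∈
        s36_gc_V (algebraMap K₀ K) (P.comap (algebraMap K Qb)) (N₁ * q * q) Θ := by
    have h := hprops.2.1
    simpa using h
  -- the swaps
  have hWt : (W₁ : s18_F1 K₀ (N₁ * q * q) ≃+* s18_F1 K₀ (N₁ * q * q))
      (s36_rsm_incl2 K₀ N₁ q (s18_coord K₀ (s18_cz_t3 N₁ h3))) =
      heckeBetaBar K₀ (N₁ * q) q (heckeBetaBar K₀ N₁ q (s18_coord K₀ (s18_cz_t3 N₁ h3))) := by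
    show W₁ (heckeAlphaBar K₀ (N₁ * q) q (heckeAlphaBar K₀ N₁ q _)) = _
    rw [hrel, hw.1]
  obtain ⟨h0, hi⟩ := s36_rsi_res_t3 (A := P) hP K₀ hqN h3 h3'' hirr 1 (mul_one _).symm
    (w : s18_F1 K₀ (N₁ * q) ≃+* s18_F1 K₀ (N₁ * q)) (w.commutes _) hw.1 hw.2.1
    (s36_gc_V (algebraMap K₀ K) (P.comap (algebraMap K Qb)) (N₁ * q * q) Θ) hVC hαC hne hzn
    (W₁ : s18_F1 K₀ (N₁ * q * q) ≃+* s18_F1 K₀ (N₁ * q * q)) hW₁.1 (W₁.commutes) hWt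
  exact ⟨s18_F1 K₀ N₁, inferInstance, _, _, _, _, _, _,
    h0.pts _ _ hl0.cls hl0.cpt hl0.tri, hi.pts _ _ hli.cls hli.cpt hli.tri⟩

/-- **S36 from `cls`, `cpt`, `tri` of the concrete models.**  The conclusion of S36 follows from
`s36_ci_LocAll` (class statement, local equation at the `C`-only points, triple-point contract,
for the two integral-closure charts of the concrete three-component model) for

* every prime `q ≥ 5` and every `L'` prime to `q` divisible by `6` (Hauptmodul `t₂`),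
* `q = 3` and every `L'` prime to `3` divisible by `4` (Hauptmodul `t₂`),
* `q = 2` and every odd `L'` divisible by `9` (Hauptmodul `t₃`). -/
theorem s36_ci_final_loc
    (h5 : ∀ (q : ℕ) [NeZero q] (hq : q.Prime), 5 ≤ q → ∀ (L' : ℕ) [NeZero L'], ¬ q ∣ L' →
      6 ∣ L' → ∀ h2'' : 2 ∣ L' * q * q, s36_ci_LocAll L' q hq (s18_cz_t2 (L' * q * q) h2''))
    (h3 : ∀ (L' : ℕ) [NeZero L'], ¬ 3 ∣ L' → 4 ∣ L' → ∀ h2'' : 2 ∣ L' * 3 * 3,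
      s36_ci_LocAll L' 3 Nat.prime_three (s18_cz_t2 (L' * 3 * 3) h2''))
    (h2 : ∀ (L' : ℕ) [NeZero L'], ¬ 2 ∣ L' → 9 ∣ L' → ∀ h3'' : 3 ∣ L' * 2 * 2,
      s36_ci_LocAll L' 2 Nat.prime_two (s18_cz_t3 (L' * 2 * 2) h3''))
    {M : ℕ} [NeZero M] {g : CuspForm (CongruenceSubgroup.Gamma0 M) 2} (hg : g.IsNewform)
    (lam : ℕ) [Fact lam.Prime]
    (S : Finset ℕ)
    (O' : Type) [CommRing O'] [IsDomain O'] [IsDiscreteValuationRing O']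
    [IsAdicComplete (IsLocalRing.maximalIdeal O') O'] [Finite (IsLocalRing.ResidueField O')]
    [CharZero O'] (hlamO' : (lam : O') ∈ IsLocalRing.maximalIdeal O')
    (hlam2 : lam ≠ 2)
    (chig : CuspForm.heckeAlgebra M 2 (↑S : Set ℕ) →+* ℂ)
    (hchig : ∀ (ℓ : ℕ) (hℓ : ℓ.Prime) (hℓM : ¬ ℓ ∣ M) (hℓS : ℓ ∉ (↑S : Set ℕ)),
      chig (CuspForm.heckeAlgebra.T hℓ hℓM hℓS) = ModularFormClass.qCoeff g ℓ)
    (iota : chig.range →+* O')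
    (hlamS : lam ∈ S) (hMS : ∀ q : ℕ, q.Prime → q ∣ M → q ∈ S) :
    ∃ (O'' : Type) (_ : CommRing O'') (_ : IsDomain O'') (_ : IsDiscreteValuationRing O'')
      (_ : IsAdicComplete (IsLocalRing.maximalIdeal O'') O'') (_ : Finite (IsLocalRing.ResidueField O''))
      (_ : CharZero O'') (_ : Algebra O' O'') (_ : Module.Finite O' O'') (_ : IsLocalHom (algebraMap O' O'')),
      Function.Injective (algebraMap O' O'') ∧
      ∃ ρ : GaloisRepAdic O'',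
        (∀ (ℓ : ℕ) (hℓ : ℓ.Prime) (hℓM : ¬ ℓ ∣ M) (hℓS : ℓ ∉ (↑S : Set ℕ)),
          ∀ A : ValuationSubring (AlgebraicClosure ℚ), A.LiesOverPrime ℓ →
            ∀ σ : AlgebraicClosure ℚ ≃ₐ[ℚ] AlgebraicClosure ℚ, A.IsFrobeniusAt σ ℓ →
              LinearMap.charpoly (ρ.ρ σ) =
                Polynomial.X ^ 2 - Polynomial.C (algebraMap O' O'' ((iota.comp chig.rangeRestrict)
                  (CuspForm.heckeAlgebra.T hℓ hℓM hℓS))) * Polynomial.X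
                  + Polynomial.C ((ℓ : O''))) ∧
        (∀ q : ℕ, q.Prime → q ≠ lam → M.factorization q = 2 → ¬ ρ.IsUnipotentOnInertiaAt q) :=
  s36_ci_final
    (fun q _ hq h5q L' _ hqL h6 h2'' =>
      s36_ci_pts_t2 L' q hq hqL (Dvd.dvd.trans (by norm_num) h6) h2''
        (h5 q hq h5q L' hqL h6 h2''))
    (fun L' _ hqL h4 h2'' =>
      s36_ci_pts_t2 L' 3 Nat.prime_three hqL (Dvd.dvd.trans (by norm_num) h4) h2''
        (h3 L' hqL h4 h2''))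
    (fun L' _ hqL h9 h3'' =>
      s36_ci_pts_t3 L' 2 Nat.prime_two hqL (Dvd.dvd.trans (by norm_num) h9) h3''
        (h2 L' hqL h9 h3''))
    hg lam S O' hlamO' hlam2 chig hchig iota hlamS hMS

end Fermat.Agent.S36
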