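import Mathlib
import Fermat.Agent.S36.ContractInst2

/-!
# S36 (NODE-3): the residual hypotheses of the concrete model — thickness one and `cpt`

* `s36_ci_res_t2`, `s36_ci_res_t3` : the (RES) block `s36_rsi_Res` of the two integral-closure
  charts on exactly the objects of `s36_ci_PtsAll` (standalone form of the step inside
  `s36_ci_pts_t2` / `_t3`).
* `s36_ci_Thick ϖ'' Vi V0 B'` : thickness one at every crossing point of a chart `B'` of the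
  level below (the binder `hq` of `s36_clq_main`, `s36_pta_tri`, `s36_plq_pts_w`);
  `s36_ci_ThickAll N₁ q tL` : it holds for the two integral-closure charts of level `N₁ q`
  (coordinate `tL`) over every inertia-fixed number field.
* `s36_ci_Cpt ϖ B VA VB VC hϖB` : the field `cpt` of `s36_ptb_Pts` (local equation of `V_C` at
  the `C`-only points); `s36_ci_CptAll N₁ q tLL` : it holds for the two integral-closure charts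
  of the concrete model of level `N₁ q q`.
-/

set_option autoImplicit false
set_option synthInstance.maxHeartbeats 400000
set_option linter.style.haveILetI false
set_option linter.unusedSectionVars false
set_option linter.unusedVariables false

open ModularCurve AlgebraicCurve

noncomputable section

namespace Fermat.Agent.S36

open Fermat.Agent.S18 Fermat.Agent.S34 Fermat.Agent.S35

local notation "Qb" => AlgebraicClosure ℚ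

/-- **Thickness one** at every crossing point of a chart `B'` of the two-component model of the
level below (components `Vi`, `V0`, uniformiser `ϖ''`). -/
def s36_ci_Thick {F'' : Type*} [Field F''] (ϖ'' : F'') (Vi V0 B' : Subring F'') : Prop :=
  ∀ 𝔪' : Ideal B', 𝔪'.IsPrime → (∀ p : B', ϖ''⁻¹ * (p : F'') ∈ Vi → p ∈ 𝔪') →
    (∀ p : B', ϖ''⁻¹ * (p : F'') ∈ V0 → p ∈ 𝔪') →
    ∃ u₁ u₂ γ : B', (u₁ : F'') * (u₂ : F'') = ϖ'' * (γ : F'') ∧ ϖ''⁻¹ * (u₁ : F'') ∈ Vi ∧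
      ϖ''⁻¹ * (u₂ : F'') ∈ V0 ∧ γ ∉ 𝔪'

/-- **Thickness one for the two charts of level `N₁ q`** with coordinate `tL`, over every
inertia-fixed number field `K₀` and for every swap `w` of level `N₁ q`. -/
def s36_ci_ThickAll (N₁ q : ℕ) [NeZero N₁] [NeZero q] [NeZero (N₁ * q)]
    (tL : modularFunctionFieldFull (N₁ * q)) : Prop :=
  ∀ (P : ValuationSubring Qb) (_ : P.LiesOverPrime q) (K₀ : IntermediateField ℚ Qb)
    (_ : FiniteDimensional ℚ K₀) (_ : ∀ a ∈ K₀, ∀ τ ∈ P.inertiaSubgroupIn ℚ, τ a = a)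
    (_ : IsDiscreteValuationRing (s18_A1 P K₀)) (_ : Irreducible ((q : ℕ) : s18_A1 P K₀))
    (w : s18_F1 K₀ (N₁ * q) ≃ₐ[K₀] s18_F1 K₀ (N₁ * q)) (_ : s34_md_IsSwap K₀ N₁ q w),
    s36_ci_Thick (algebraMap K₀ (s18_F1 K₀ (N₁ * q)) (q : K₀))
      (s34_gi_V (s18_A1 P K₀) (N₁ * q))
      ((s34_gi_V (s18_A1 P K₀) (N₁ * q)).comap
        ((w : s18_F1 K₀ (N₁ * q) ≃+* s18_F1 K₀ (N₁ * q)) :
          s18_F1 K₀ (N₁ * q) →+* s18_F1 K₀ (N₁ * q)))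
      (s34_md_B0 P K₀ (N₁ * q) tL).toSubring ∧
    s36_ci_Thick (algebraMap K₀ (s18_F1 K₀ (N₁ * q)) (q : K₀))
      (s34_gi_V (s18_A1 P K₀) (N₁ * q))
      ((s34_gi_V (s18_A1 P K₀) (N₁ * q)).comap
        ((w : s18_F1 K₀ (N₁ * q) ≃+* s18_F1 K₀ (N₁ * q)) :
          s18_F1 K₀ (N₁ * q) →+* s18_F1 K₀ (N₁ * q)))
      (s34_md_Binf P K₀ (N₁ * q) tL).toSubring

/-- **The local equation of `V_C` at the `C`-only points** of a chart `B` (the field `cpt` of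
`s36_ptb_Pts`, verbatim). -/
def s36_ci_Cpt {F : Type*} [Field F] (ϖ : F) (B VA VB VC : Subring F) (hϖB : ϖ ∈ B) : Prop :=
  ∀ 𝔪 : Ideal B, 𝔪.IsMaximal → (⟨ϖ, hϖB⟩ : B) ∈ 𝔪 →
    (∃ f₀ : B, f₀ ∉ 𝔪 ∧ ϖ⁻¹ * (f₀ : F) ∈ VA ⊓ VB) →
    ∃ (z ε : F) (e : ℕ), s34_Unif z VC ∧ z ∈ s18_loc B 𝔪 ∧ 0 < e ∧ ε ∈ s18_loc B 𝔪 ∧
      ε⁻¹ ∈ VC ∧ ϖ = ε * z ^ e

/-- **`cpt` for the two charts of the concrete model** of level `N₁ q q` with coordinate `tLL`,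
for all the data of `s36_ci_PtsAll` (the exponent data `m`, `r`, `s` play no role). -/
def s36_ci_CptAll (N₁ q : ℕ) [NeZero N₁] [NeZero q] [NeZero (N₁ * q)] [NeZero (N₁ * q * q)]
    (tLL : modularFunctionFieldFull (N₁ * q * q)) : Prop :=
  ∀ (P : ValuationSubring Qb) (_ : P.LiesOverPrime q) (K₀ : IntermediateField ℚ Qb)
    (_ : FiniteDimensional ℚ K₀) (_ : ∀ a ∈ K₀, ∀ τ ∈ P.inertiaSubgroupIn ℚ, τ a = a)
    (_ : IsDiscreteValuationRing (s18_A1 P K₀)) (_ : Irreducible ((q : ℕ) : s18_A1 P K₀))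
    (w : s18_F1 K₀ (N₁ * q) ≃ₐ[K₀] s18_F1 K₀ (N₁ * q)) (_ : s34_md_IsSwap K₀ N₁ q w)
    (W₁ : s18_F1 K₀ (N₁ * q * q) ≃ₐ[K₀] s18_F1 K₀ (N₁ * q * q)) (_ : s36_IsSwapK K₀ N₁ q W₁)
    (_ : ∀ y, W₁ (heckeAlphaBar K₀ (N₁ * q) q y) = heckeBetaBar K₀ (N₁ * q) q (w y))
    (K : IntermediateField K₀ Qb) (ζ : (P.comap (algebraMap K Qb))ˣ)
    (Θ : laurentBaseChange K (modularFunctionFieldFull (N₁ * q * q)) →ₐ[K] LaurentSeries K)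
    (_ : s36_gc_IsCusp N₁ q ζ Θ) (_ : s36_gc_IsUnif ζ)
    (_ : IsPrimitiveRoot (ζ : P.comap (algebraMap K Qb)) q)
    (_ : IsLocalRing.residue (P.comap (algebraMap K Qb))
      ((q : ℕ) : P.comap (algebraMap K Qb)) = 0)
    (_ : ∀ b ∈ s18_A1 P K₀, algebraMap K₀ K b ∈ P.comap (algebraMap K Qb)),
    s36_ci_Cpt
      (algebraMap (s18_A1 P K₀) (s18_F1 K₀ (N₁ * q * q)) ((q : ℕ) : s18_A1 P K₀))
      (s34_md_B0 P K₀ (N₁ * q * q) tLL).toSubring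
      (s34_gi_V (s18_A1 P K₀) (N₁ * q * q))
      ((s34_gi_V (s18_A1 P K₀) (N₁ * q * q)).comap
        ((W₁ : s18_F1 K₀ (N₁ * q * q) ≃+* s18_F1 K₀ (N₁ * q * q)) :
          s18_F1 K₀ (N₁ * q * q) →+* s18_F1 K₀ (N₁ * q * q)))
      (s36_gc_V (algebraMap K₀ K) (P.comap (algebraMap K Qb)) (N₁ * q * q) Θ)
      ((s34_md_B0 P K₀ (N₁ * q * q) tLL).algebraMap_mem ((q : ℕ) : s18_A1 P K₀)) ∧
    s36_ci_Cpt
      (algebraMap (s18_A1 P K₀) (s18_F1 K₀ (N₁ * q * q)) ((q : ℕ) : s18_A1 P K₀))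
      (s34_md_Binf P K₀ (N₁ * q * q) tLL).toSubring
      (s34_gi_V (s18_A1 P K₀) (N₁ * q * q))
      ((s34_gi_V (s18_A1 P K₀) (N₁ * q * q)).comap
        ((W₁ : s18_F1 K₀ (N₁ * q * q) ≃+* s18_F1 K₀ (N₁ * q * q)) :
          s18_F1 K₀ (N₁ * q * q) →+* s18_F1 K₀ (N₁ * q * q)))
      (s36_gc_V (algebraMap K₀ K) (P.comap (algebraMap K Qb)) (N₁ * q * q) Θ)
      ((s34_md_Binf P K₀ (N₁ * q * q) tLL).algebraMap_mem ((q : ℕ) : s18_A1 P K₀))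

set_option maxHeartbeats 4000000 in
/-- **The (RES) block of the two charts of the concrete model, Hauptmodul `t_2`**: the ten
fields `chart`, `mapA/B/C`, `unifA/B/C`, `resA/B/C` of `s36_ptb_Pts` on the objects of
`s36_ci_PtsAll`. -/
theorem s36_ci_res_t2 (N₁ q : ℕ) [NeZero N₁] [NeZero q] [NeZero (N₁ * q)]
    [NeZero (N₁ * q * q)] (hq : q.Prime) (hqN : ¬ q ∣ N₁) (h2 : 2 ∣ N₁)
    (h2'' : 2 ∣ N₁ * q * q)
    (P : ValuationSubring Qb) (hP : P.LiesOverPrime q) (K₀ : IntermediateField ℚ Qb)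
    [FiniteDimensional ℚ K₀] [IsDiscreteValuationRing (s18_A1 P K₀)]
    (hirr : Irreducible ((q : ℕ) : s18_A1 P K₀))
    (w : s18_F1 K₀ (N₁ * q) ≃ₐ[K₀] s18_F1 K₀ (N₁ * q)) (hw : s34_md_IsSwap K₀ N₁ q w)
    (W₁ : s18_F1 K₀ (N₁ * q * q) ≃ₐ[K₀] s18_F1 K₀ (N₁ * q * q)) (hW₁ : s36_IsSwapK K₀ N₁ q W₁)
    (hrel : ∀ y, W₁ (heckeAlphaBar K₀ (N₁ * q) q y) = heckeBetaBar K₀ (N₁ * q) q (w y))
    (K : IntermediateField K₀ Qb) (ζ : (P.comap (algebraMap K Qb))ˣ)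
    (Θ : laurentBaseChange K (modularFunctionFieldFull (N₁ * q * q)) →ₐ[K] LaurentSeries K)
    (hcusp : s36_gc_IsCusp N₁ q ζ Θ) (hunifA : s36_gc_IsUnif ζ)
    (hprimA : IsPrimitiveRoot (ζ : P.comap (algebraMap K Qb)) q)
    (hA0 : ∀ b ∈ s18_A1 P K₀, algebraMap K₀ K b ∈ P.comap (algebraMap K Qb)) :
    s36_rsi_Res
      (algebraMap (s18_A1 P K₀) (s18_F1 K₀ (N₁ * q * q)) ((q : ℕ) : s18_A1 P K₀))
      (s36_gc_z K₀ q (N₁ * q * q) hq (s36_cp3i_sq_dvd N₁ q))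
      (s34_md_B0 P K₀ (N₁ * q * q) (s18_cz_t2 (N₁ * q * q) h2'')).toSubring
      (s34_gi_V (s18_A1 P K₀) (N₁ * q * q))
      ((s34_gi_V (s18_A1 P K₀) (N₁ * q * q)).comap
        ((W₁ : s18_F1 K₀ (N₁ * q * q) ≃+* s18_F1 K₀ (N₁ * q * q)) :
          s18_F1 K₀ (N₁ * q * q) →+* s18_F1 K₀ (N₁ * q * q)))
      (s36_gc_V (algebraMap K₀ K) (P.comap (algebraMap K Qb)) (N₁ * q * q) Θ)
      (algebraMap (s18_A1 P K₀) (s18_F1 K₀ N₁) ((q : ℕ) : s18_A1 P K₀))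
      (s18_chAlg N₁ q (s18_A1 P K₀) (s18_cz_t2 N₁ h2)).toSubring
      (s36_rsm_incl2 K₀ N₁ q)
      ((((W₁ : s18_F1 K₀ (N₁ * q * q) ≃+* s18_F1 K₀ (N₁ * q * q)).symm :
          s18_F1 K₀ (N₁ * q * q) ≃+* s18_F1 K₀ (N₁ * q * q)) :
        s18_F1 K₀ (N₁ * q * q) →+* s18_F1 K₀ (N₁ * q * q)).comp (s36_rsm_incl2 K₀ N₁ q))
      (s36_rsm_incl2 K₀ N₁ q) ∧
    s36_rsi_Res
      (algebraMap (s18_A1 P K₀) (s18_F1 K₀ (N₁ * q * q)) ((q : ℕ) : s18_A1 P K₀))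
      (s36_gc_z K₀ q (N₁ * q * q) hq (s36_cp3i_sq_dvd N₁ q))
      (s34_md_Binf P K₀ (N₁ * q * q) (s18_cz_t2 (N₁ * q * q) h2'')).toSubring
      (s34_gi_V (s18_A1 P K₀) (N₁ * q * q))
      ((s34_gi_V (s18_A1 P K₀) (N₁ * q * q)).comap
        ((W₁ : s18_F1 K₀ (N₁ * q * q) ≃+* s18_F1 K₀ (N₁ * q * q)) :
          s18_F1 K₀ (N₁ * q * q) →+* s18_F1 K₀ (N₁ * q * q)))
      (s36_gc_V (algebraMap K₀ K) (P.comap (algebraMap K Qb)) (N₁ * q * q) Θ)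
      (algebraMap (s18_A1 P K₀) (s18_F1 K₀ N₁) ((q : ℕ) : s18_A1 P K₀))
      (s18_chAlg N₁ q (s18_A1 P K₀) (s18_cz_t2 N₁ h2)⁻¹).toSubring
      (s36_rsm_incl2 K₀ N₁ q)
      ((((W₁ : s18_F1 K₀ (N₁ * q * q) ≃+* s18_F1 K₀ (N₁ * q * q)).symm :
          s18_F1 K₀ (N₁ * q * q) ≃+* s18_F1 K₀ (N₁ * q * q)) :
        s18_F1 K₀ (N₁ * q * q) →+* s18_F1 K₀ (N₁ * q * q)).comp (s36_rsm_incl2 K₀ N₁ q))
      (s36_rsm_incl2 K₀ N₁ q) := by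
  haveI : Fact q.Prime := ⟨hq⟩
  haveI : NumberField K₀ := NumberField.mk
  haveI hDVRA : IsDiscreteValuationRing (P.comap (algebraMap K Qb)) := s36_ci_dvr _ ζ hunifA
  -- the data of `V_C`
  have hVC := s36_cp3i_unifC (K₀ := K₀) N₁ q (algebraMap K₀ K)
    (P.comap (algebraMap K Qb)) Θ ζ hq hcusp hunifA
  have hαC : ∀ y ∈ s34_gi_V (s18_A1 P K₀) (N₁ * q),
      (heckeAlphaBar K₀ (N₁ * q) q).toRingHom y ∈
        s36_gc_V (algebraMap K₀ K) (P.comap (algebraMap K Qb)) (N₁ * q * q) Θ :=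
    fun y hy => s36_cp3f_alphaC P K₀ N₁ q (algebraMap K₀ K) (P.comap (algebraMap K Qb)) Θ ζ
      hcusp hA0 y hy
  have hne := s36_cp3f_ne P K₀ N₁ q (algebraMap K₀ K) (P.comap (algebraMap K Qb)) Θ ζ hq hcusp
    hunifA
  have hprops := s36_gd_props (algebraMap K₀ K) (P.comap (algebraMap K Qb)) (s18_A1 P K₀) hA0
    N₁ q (N₁ * q * q) hq (s36_cp3i_level N₁ q) (s36_cp3i_sq_dvd N₁ q) ζ Θ hcusp hunifA hprimA
  have hzn : algebraMap K₀ (s18_F1 K₀ (N₁ * q * q)) (((q : ℕ) : s18_A1 P K₀) : K₀) *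
      (s36_gc_z K₀ q (N₁ * q * q) hq (s36_cp3i_sq_dvd N₁ q) ^ (q - 1))⁻¹ ∈
        s36_gc_V (algebraMap K₀ K) (P.comap (algebraMap K Qb)) (N₁ * q * q) Θ := by
    have h := hprops.2.1
    simpa using h
  -- the swaps
  have hWt : (W₁ : s18_F1 K₀ (N₁ * q * q) ≃+* s18_F1 K₀ (N₁ * q * q))
      (s36_rsm_incl2 K₀ N₁ q (s18_coord K₀ (s18_cz_t2 N₁ h2))) =
      heckeBetaBar K₀ (N₁ * q) q (heckeBetaBar K₀ N₁ q (s18_coord K₀ (s18_cz_t2 N₁ h2))) := by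
    show W₁ (heckeAlphaBar K₀ (N₁ * q) q (heckeAlphaBar K₀ N₁ q _)) = _
    rw [hrel, hw.1]
  exact s36_rsi_res_t2 (A := P) hP K₀ hqN h2 h2'' hirr 1 (mul_one _).symm
    (w : s18_F1 K₀ (N₁ * q) ≃+* s18_F1 K₀ (N₁ * q)) (w.commutes _) hw.1 hw.2.1
    (s36_gc_V (algebraMap K₀ K) (P.comap (algebraMap K Qb)) (N₁ * q * q) Θ) hVC hαC hne hzn
    (W₁ : s18_F1 K₀ (N₁ * q * q) ≃+* s18_F1 K₀ (N₁ * q * q)) hW₁.1 (W₁.commutes) hWt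

set_option maxHeartbeats 4000000 in
/-- **The (RES) block of the two charts of the concrete model, Hauptmodul `t_3`**: the ten
fields `chart`, `mapA/B/C`, `unifA/B/C`, `resA/B/C` of `s36_ptb_Pts` on the objects of
`s36_ci_PtsAll`. -/
theorem s36_ci_res_t3 (N₁ q : ℕ) [NeZero N₁] [NeZero q] [NeZero (N₁ * q)]
    [NeZero (N₁ * q * q)] (hq : q.Prime) (hqN : ¬ q ∣ N₁) (h3 : 3 ∣ N₁)
    (h3'' : 3 ∣ N₁ * q * q)
    (P : ValuationSubring Qb) (hP : P.LiesOverPrime q) (K₀ : IntermediateField ℚ Qb)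
    [FiniteDimensional ℚ K₀] [IsDiscreteValuationRing (s18_A1 P K₀)]
    (hirr : Irreducible ((q : ℕ) : s18_A1 P K₀))
    (w : s18_F1 K₀ (N₁ * q) ≃ₐ[K₀] s18_F1 K₀ (N₁ * q)) (hw : s34_md_IsSwap K₀ N₁ q w)
    (W₁ : s18_F1 K₀ (N₁ * q * q) ≃ₐ[K₀] s18_F1 K₀ (N₁ * q * q)) (hW₁ : s36_IsSwapK K₀ N₁ q W₁)
    (hrel : ∀ y, W₁ (heckeAlphaBar K₀ (N₁ * q) q y) = heckeBetaBar K₀ (N₁ * q) q (w y))
    (K : IntermediateField K₀ Qb) (ζ : (P.comap (algebraMap K Qb))ˣ)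
    (Θ : laurentBaseChange K (modularFunctionFieldFull (N₁ * q * q)) →ₐ[K] LaurentSeries K)
    (hcusp : s36_gc_IsCusp N₁ q ζ Θ) (hunifA : s36_gc_IsUnif ζ)
    (hprimA : IsPrimitiveRoot (ζ : P.comap (algebraMap K Qb)) q)
    (hA0 : ∀ b ∈ s18_A1 P K₀, algebraMap K₀ K b ∈ P.comap (algebraMap K Qb)) :
    s36_rsi_Res
      (algebraMap (s18_A1 P K₀) (s18_F1 K₀ (N₁ * q * q)) ((q : ℕ) : s18_A1 P K₀))
      (s36_gc_z K₀ q (N₁ * q * q) hq (s36_cp3i_sq_dvd N₁ q))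
      (s34_md_B0 P K₀ (N₁ * q * q) (s18_cz_t3 (N₁ * q * q) h3'')).toSubring
      (s34_gi_V (s18_A1 P K₀) (N₁ * q * q))
      ((s34_gi_V (s18_A1 P K₀) (N₁ * q * q)).comap
        ((W₁ : s18_F1 K₀ (N₁ * q * q) ≃+* s18_F1 K₀ (N₁ * q * q)) :
          s18_F1 K₀ (N₁ * q * q) →+* s18_F1 K₀ (N₁ * q * q)))
      (s36_gc_V (algebraMap K₀ K) (P.comap (algebraMap K Qb)) (N₁ * q * q) Θ)
      (algebraMap (s18_A1 P K₀) (s18_F1 K₀ N₁) ((q : ℕ) : s18_A1 P K₀))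
      (s18_chAlg N₁ q (s18_A1 P K₀) (s18_cz_t3 N₁ h3)).toSubring
      (s36_rsm_incl2 K₀ N₁ q)
      ((((W₁ : s18_F1 K₀ (N₁ * q * q) ≃+* s18_F1 K₀ (N₁ * q * q)).symm :
          s18_F1 K₀ (N₁ * q * q) ≃+* s18_F1 K₀ (N₁ * q * q)) :
        s18_F1 K₀ (N₁ * q * q) →+* s18_F1 K₀ (N₁ * q * q)).comp (s36_rsm_incl2 K₀ N₁ q))
      (s36_rsm_incl2 K₀ N₁ q) ∧
    s36_rsi_Res
      (algebraMap (s18_A1 P K₀) (s18_F1 K₀ (N₁ * q * q)) ((q : ℕ) : s18_A1 P K₀))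
      (s36_gc_z K₀ q (N₁ * q * q) hq (s36_cp3i_sq_dvd N₁ q))
      (s34_md_Binf P K₀ (N₁ * q * q) (s18_cz_t3 (N₁ * q * q) h3'')).toSubring
      (s34_gi_V (s18_A1 P K₀) (N₁ * q * q))
      ((s34_gi_V (s18_A1 P K₀) (N₁ * q * q)).comap
        ((W₁ : s18_F1 K₀ (N₁ * q * q) ≃+* s18_F1 K₀ (N₁ * q * q)) :
          s18_F1 K₀ (N₁ * q * q) →+* s18_F1 K₀ (N₁ * q * q)))
      (s36_gc_V (algebraMap K₀ K) (P.comap (algebraMap K Qb)) (N₁ * q * q) Θ)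
      (algebraMap (s18_A1 P K₀) (s18_F1 K₀ N₁) ((q : ℕ) : s18_A1 P K₀))
      (s18_chAlg N₁ q (s18_A1 P K₀) (s18_cz_t3 N₁ h3)⁻¹).toSubring
      (s36_rsm_incl2 K₀ N₁ q)
      ((((W₁ : s18_F1 K₀ (N₁ * q * q) ≃+* s18_F1 K₀ (N₁ * q * q)).symm :
          s18_F1 K₀ (N₁ * q * q) ≃+* s18_F1 K₀ (N₁ * q * q)) :
        s18_F1 K₀ (N₁ * q * q) →+* s18_F1 K₀ (N₁ * q * q)).comp (s36_rsm_incl2 K₀ N₁ q))
      (s36_rsm_incl2 K₀ N₁ q) := by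
  haveI : Fact q.Prime := ⟨hq⟩
  haveI : NumberField K₀ := NumberField.mk
  haveI hDVRA : IsDiscreteValuationRing (P.comap (algebraMap K Qb)) := s36_ci_dvr _ ζ hunifA
  -- the data of `V_C`
  have hVC := s36_cp3i_unifC (K₀ := K₀) N₁ q (algebraMap K₀ K)
    (P.comap (algebraMap K Qb)) Θ ζ hq hcusp hunifA
  have hαC : ∀ y ∈ s34_gi_V (s18_A1 P K₀) (N₁ * q),
      (heckeAlphaBar K₀ (N₁ * q) q).toRingHom y ∈
        s36_gc_V (algebraMap K₀ K) (P.comap (algebraMap K Qb)) (N₁ * q * q) Θ :=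
    fun y hy => s36_cp3f_alphaC P K₀ N₁ q (algebraMap K₀ K) (P.comap (algebraMap K Qb)) Θ ζ
      hcusp hA0 y hy
  have hne := s36_cp3f_ne P K₀ N₁ q (algebraMap K₀ K) (P.comap (algebraMap K Qb)) Θ ζ hq hcusp
    hunifA
  have hprops := s36_gd_props (algebraMap K₀ K) (P.comap (algebraMap K Qb)) (s18_A1 P K₀) hA0
    N₁ q (N₁ * q * q) hq (s36_cp3i_level N₁ q) (s36_cp3i_sq_dvd N₁ q) ζ Θ hcusp hunifA hprimA
  have hzn : algebraMap K₀ (s18_F1 K₀ (N₁ * q * q)) (((q : ℕ) : s18_A1 P K₀) : K₀) *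
      (s36_gc_z K₀ q (N₁ * q * q) hq (s36_cp3i_sq_dvd N₁ q) ^ (q - 1))⁻¹ ∈
        s36_gc_V (algebraMap K₀ K) (P.comap (algebraMap K Qb)) (N₁ * q * q) Θ := by
    have h := hprops.2.1
    simpa using h
  -- the swaps
  have hWt : (W₁ : s18_F1 K₀ (N₁ * q * q) ≃+* s18_F1 K₀ (N₁ * q * q))
      (s36_rsm_incl2 K₀ N₁ q (s18_coord K₀ (s18_cz_t3 N₁ h3))) =
      heckeBetaBar K₀ (N₁ * q) q (heckeBetaBar K₀ N₁ q (s18_coord K₀ (s18_cz_t3 N₁ h3))) := by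
    show W₁ (heckeAlphaBar K₀ (N₁ * q) q (heckeAlphaBar K₀ N₁ q _)) = _
    rw [hrel, hw.1]
  exact s36_rsi_res_t3 (A := P) hP K₀ hqN h3 h3'' hirr 1 (mul_one _).symm
    (w : s18_F1 K₀ (N₁ * q) ≃+* s18_F1 K₀ (N₁ * q)) (w.commutes _) hw.1 hw.2.1
    (s36_gc_V (algebraMap K₀ K) (P.comap (algebraMap K Qb)) (N₁ * q * q) Θ) hVC hαC hne hzn
    (W₁ : s18_F1 K₀ (N₁ * q * q) ≃+* s18_F1 K₀ (N₁ * q * q)) hW₁.1 (W₁.commutes) hWt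

end Fermat.Agent.S36
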