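import Mathlib
import Fermat.Agent.S36.SwapStab2

/-!
# S36 (NODE-3): the two degeneracy maps between the charts of level `N q` and level `N q q`

`N` a level, `q ∤ N` a prime, `M ∈ {2, 3}`, `M ∣ N`; `K₁ ⊆ Q̄` ANY intermediate field (no Galois
hypothesis), `A` a valuation ring of `Q̄` over `q`, `A₁ = A ∩ K₁`.  `F' = K₁ · F_{N q}`,
`F = K₁ · F_{N q q}`, `α = heckeAlphaBar K₁ (N q) q`, `β = heckeBetaBar K₁ (N q) q : F' → F`.
For the integral-closure charts `B' = s34_ic_chart A₁ t'` of `F'` and `B = s34_ic_chart A₁ (α t')`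
of `F` (`t'` the Hauptmodul `t_M` or its inverse) we prove the chart-level inputs of
`s36_clq_main` (`hαB hβB hintα hintβ`) and of `s36_tloc_side` (`hB'B`, `hint`, `hNB`):

* `s36_chm_Maps α β B' B` : `α B' ⊆ B`, `β B' ⊆ B`, `B` is integral over `α B'` and over `β B'`
  (monic polynomial form), and the norm along `α` maps `B` into `B'`.
* `s36_chm_core` : `s36_chm_Maps` for the charts of a coordinate coming from level `N`.
* `s36_chm_t2`, `s36_chm_t3` : `s36_chm_Maps` for the concrete charts `s34_md_B0`, `s34_md_Binf`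
  of the Hauptmoduln `t₂`, `t₃`.
* `s36_chm_swap_abs` : the same three facts for `W ∘ α` (and the norm `Nm ∘ W`) from the
  `W`-stability of `B`.
-/

set_option autoImplicit false
set_option linter.style.haveILetI false
set_option linter.unusedSimpArgs false
set_option linter.unusedSectionVars false
set_option linter.unusedVariables false
set_option synthInstance.maxHeartbeats 400000

namespace Fermat.Agent.S36

open ModularCurve AlgebraicCurve Polynomial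
open Fermat.Agent.S18 Fermat.Agent.S34 Fermat.Agent.S37

noncomputable section

local notation "Qb" => AlgebraicClosure ℚ

/-- The chart-level facts about two ring homomorphisms `α β : F' → F` and charts `B' ⊆ F'`,
`B ⊆ F`: both maps send `B'` into `B`, `B` is integral over both images, and the norm along
`α` maps `B` into `B'`. -/
structure s36_chm_Maps {F' F : Type*} [Field F'] [Field F] (α β : F' →+* F) (B' : Subring F')
    (B : Subring F) : Prop where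
  mapα : ∀ x ∈ B', α x ∈ B
  mapβ : ∀ x ∈ B', β x ∈ B
  intα : ∀ x ∈ B, ∃ P : Polynomial B', P.Monic ∧ P.eval₂ (α.comp B'.subtype) x = 0
  intβ : ∀ x ∈ B, ∃ P : Polynomial B', P.Monic ∧ P.eval₂ (β.comp B'.subtype) x = 0
  norm : ∀ b ∈ B, @Algebra.norm F' F _ _ α.toAlgebra b ∈ B'

section Abs

variable {A₀ : Type*} {F F' : Type*} [CommRing A₀] [Field F] [Field F'] [Algebra A₀ F]
  [Algebra A₀ F']

/-- A ring homomorphism compatible with `A₀` maps the chart of `t` into the chart of `u` as soon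
as the image of `t` lies in the chart of `u`. -/
theorem s36_chm_map_abs (φ : F →+* F')
    (hφ : ∀ a : A₀, φ (algebraMap A₀ F a) = algebraMap A₀ F' a) {t : F} {u : F'}
    (hu : φ t ∈ s34_ic_chart A₀ u) {x : F} (hx : x ∈ s34_ic_chart A₀ t) :
    φ x ∈ s34_ic_chart A₀ u :=
  s36_ws2_ic_trans hu (s36_ws2_ic_map φ hφ hx)

/-- The chart of `u` is integral over the image of the chart of `t` as soon as `u` lies in the
chart of `φ t` (monic polynomial form). -/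
theorem s36_chm_hint_abs (φ : F →+* F')
    (hφ : ∀ a : A₀, φ (algebraMap A₀ F a) = algebraMap A₀ F' a) {t : F} {u : F'}
    (hu : u ∈ s34_ic_chart A₀ (φ t)) :
    ∀ x ∈ (s34_ic_chart A₀ u).toSubring,
      ∃ P : Polynomial (s34_ic_chart A₀ t).toSubring, P.Monic ∧
        P.eval₂ (φ.comp (s34_ic_chart A₀ t).toSubring.subtype) x = 0 := by
  intro x hx
  apply s34_res_hint_of_isIntegral
  refine (s34_ic_isIntegral_iff (A₀ := A₀) (φ t) ((s34_ic_chart A₀ t).toSubring.map φ)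
    ?_ ?_ ?_ x).mpr (s36_ws2_ic_trans hu hx)
  · intro a
    exact ⟨algebraMap A₀ F a, Subalgebra.algebraMap_mem _ a, hφ a⟩
  · exact ⟨t, s34_ic_t_mem t, rfl⟩
  · rintro _ ⟨y, hy, rfl⟩
    exact s36_ws2_ic_map φ hφ hy

/-- The norm along `α` maps the chart of `α t` into the chart of `t`. -/
theorem s36_chm_norm_abs (α : F →+* F')
    (hα : ∀ a : A₀, α (algebraMap A₀ F a) = algebraMap A₀ F' a) (t : F) {x : F'}
    (hx : x ∈ s34_ic_chart A₀ (α t)) :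
    @Algebra.norm F F' _ _ α.toAlgebra x ∈ s34_ic_chart A₀ t := by
  letI : Algebra F F' := α.toAlgebra
  letI : Algebra A₀[X] F := ((aeval t : A₀[X] →ₐ[A₀] F) : A₀[X] →+* F).toAlgebra
  letI : Algebra A₀[X] F' :=
    (α.comp ((aeval t : A₀[X] →ₐ[A₀] F) : A₀[X] →+* F)).toAlgebra
  haveI : IsScalarTower A₀[X] F F' := IsScalarTower.of_algebraMap_eq (fun _ => rfl)
  have hcomp : α.comp ((aeval t : A₀[X] →ₐ[A₀] F) : A₀[X] →+* F) =
      ((aeval (α t) : A₀[X] →ₐ[A₀] F') : A₀[X] →+* F') := by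
    apply Polynomial.ringHom_ext
    · intro a
      simp only [RingHom.comp_apply, RingHom.coe_coe, aeval_C]
      exact hα a
    · simp only [RingHom.comp_apply, RingHom.coe_coe, aeval_X]
  rw [s34_ic_mem_iff] at hx ⊢
  have hx' : IsIntegral A₀[X] x := by
    show (α.comp ((aeval t : A₀[X] →ₐ[A₀] F) : A₀[X] →+* F)).IsIntegralElem x
    rw [hcomp]
    exact hx
  exact Algebra.isIntegral_norm F hx'

end Abs

section Swap

variable {F' F : Type*} [Field F'] [Field F]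

/-- The three facts `hB'B`, `hint`, `hNB` for `W ∘ α` (norm `Nm ∘ W`) from those for `α` and the
`W`-stability of the chart `B`, `W` an involution. -/
theorem s36_chm_swap_abs (α : F' →+* F) (B' : Subring F') (B : Subring F) (W : F ≃+* F)
    (hWW : ∀ x, W (W x) = x) (hWB : ∀ x ∈ B, W x ∈ B)
    (hmap : ∀ x ∈ B', α x ∈ B)
    (hint : ∀ x ∈ B, ∃ P : Polynomial B', P.Monic ∧ P.eval₂ (α.comp B'.subtype) x = 0)
    (Nm : F →* F') (hN : ∀ b ∈ B, Nm b ∈ B') :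
    (∀ x ∈ B', ((W : F →+* F).comp α) x ∈ B) ∧
    (∀ x ∈ B, ∃ P : Polynomial B', P.Monic ∧
      P.eval₂ (((W : F →+* F).comp α).comp B'.subtype) x = 0) ∧
    (∀ b ∈ B, Nm (W b) ∈ B') := by
  refine ⟨fun x hx => hWB _ (hmap x hx), fun x hx => ?_, fun b hb => hN _ (hWB b hb)⟩
  obtain ⟨P, hP, h0⟩ := hint (W x) (hWB x hx)
  refine ⟨P, hP, ?_⟩
  have h1 := Polynomial.hom_eval₂ P (α.comp B'.subtype) (W : F →+* F) (W x)
  rw [h0, map_zero] at h1
  have h2 : (W : F →+* F) (W x) = x := hWW x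
  rw [h2] at h1
  rw [RingHom.comp_assoc]
  exact h1.symm

end Swap

section Concrete

variable (N q M : ℕ) [NeZero N] [NeZero q] [NeZero (N * q)] [NeZero (N * q * q)]

/-- `t'(Q^q)` lies in the chart of `t'` at level `N q q` (`t'` from level `N`, written with the
second degeneracy map of the upper level). -/
theorem s36_chm_beta_coord (hq : q.Prime) (hqN : ¬ q ∣ N) (hqM : q ≠ M) (hMN : M ∣ N)
    (A : ValuationSubring Qb) (hA : A.LiesOverPrime q) (K₁ : IntermediateField ℚ Qb)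
    (T₀ : s18_F1 K₁ N)
    (hT₀ : s37_IsHaupt M (s18_baseIncl K₁ (N * q) (heckeAlphaBar K₁ N q T₀)))
    (U₀ : s18_F1 K₁ N) (hU₀ : U₀ = T₀ ∨ U₀ = T₀⁻¹) :
    heckeBetaBar K₁ (N * q) q (heckeAlphaBar K₁ N q U₀) ∈
      s34_ic_chart (s18_A1 A K₁) (heckeAlphaBar K₁ (N * q) q (heckeAlphaBar K₁ N q U₀)) := by
  have h1 : heckeBetaBar K₁ N q U₀ ∈ s34_ic_chart (s18_A1 A K₁) (heckeAlphaBar K₁ N q U₀) := by
    refine s34_ws_vq_mem N q M hq hqN hqM hMN A hA K₁ (heckeAlphaBar K₁ N q T₀) hT₀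
      (heckeAlphaBar K₁ N q U₀) ?_ (heckeBetaBar K₁ N q U₀) ?_
    · rcases hU₀ with rfl | rfl
      · exact Or.inl rfl
      · exact Or.inr (map_inv₀ _ _)
    · rw [coe_heckeBetaBar, coe_heckeAlphaBar]
  have hα : ∀ a : s18_A1 A K₁, (heckeAlphaBar K₁ (N * q) q).toRingHom
      (algebraMap (s18_A1 A K₁) (s18_F1 K₁ (N * q)) a) =
      algebraMap (s18_A1 A K₁) (s18_F1 K₁ (N * q * q)) a := fun a =>
    (heckeAlphaBar K₁ (N * q) q).commutes (a : K₁)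
  have h2 : heckeAlphaBar K₁ (N * q) q (heckeBetaBar K₁ N q U₀) ∈
      s34_ic_chart (s18_A1 A K₁) (heckeAlphaBar K₁ (N * q) q (heckeAlphaBar K₁ N q U₀)) :=
    s36_ws2_ic_map (heckeAlphaBar K₁ (N * q) q).toRingHom hα h1
  have e : heckeBetaBar K₁ (N * q) q (heckeAlphaBar K₁ N q U₀) =
      heckeAlphaBar K₁ (N * q) q (heckeBetaBar K₁ N q U₀) := by
    apply Subtype.ext
    rw [coe_heckeBetaBar, coe_heckeAlphaBar, coe_heckeAlphaBar, coe_heckeBetaBar]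
  rw [e]
  exact h2

/-- `t'` lies in the chart of `t'(Q^q)` at level `N q q` (uses the swap `w` of level `N q`). -/
theorem s36_chm_alpha_coord (hq : q.Prime) (hqN : ¬ q ∣ N) (hqM : q ≠ M) (hMN : M ∣ N)
    (A : ValuationSubring Qb) (hA : A.LiesOverPrime q) (K₁ : IntermediateField ℚ Qb)
    (T₀ : s18_F1 K₁ N)
    (hT₀ : s37_IsHaupt M (s18_baseIncl K₁ (N * q) (heckeAlphaBar K₁ N q T₀)))
    (U₀ : s18_F1 K₁ N) (hU₀ : U₀ = T₀ ∨ U₀ = T₀⁻¹)
    (w : s18_F1 K₁ (N * q) ≃ₐ[K₁] s18_F1 K₁ (N * q))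
    (hw1 : ∀ x, w (heckeAlphaBar K₁ N q x) = heckeBetaBar K₁ N q x)
    (hw2 : ∀ x, w (heckeBetaBar K₁ N q x) = heckeAlphaBar K₁ N q x) :
    heckeAlphaBar K₁ (N * q) q (heckeAlphaBar K₁ N q U₀) ∈
      s34_ic_chart (s18_A1 A K₁) (heckeBetaBar K₁ (N * q) q (heckeAlphaBar K₁ N q U₀)) := by
  have h1 : heckeBetaBar K₁ N q U₀ ∈ s34_ic_chart (s18_A1 A K₁) (heckeAlphaBar K₁ N q U₀) := by
    refine s34_ws_vq_mem N q M hq hqN hqM hMN A hA K₁ (heckeAlphaBar K₁ N q T₀) hT₀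
      (heckeAlphaBar K₁ N q U₀) ?_ (heckeBetaBar K₁ N q U₀) ?_
    · rcases hU₀ with rfl | rfl
      · exact Or.inl rfl
      · exact Or.inr (map_inv₀ _ _)
    · rw [coe_heckeBetaBar, coe_heckeAlphaBar]
  have hwc : ∀ a : s18_A1 A K₁, (w : s18_F1 K₁ (N * q) →+* s18_F1 K₁ (N * q))
      (algebraMap (s18_A1 A K₁) (s18_F1 K₁ (N * q)) a) =
      algebraMap (s18_A1 A K₁) (s18_F1 K₁ (N * q)) a := fun a => w.commutes (a : K₁)
  have h2 : w (heckeBetaBar K₁ N q U₀) ∈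
      s34_ic_chart (s18_A1 A K₁) (w (heckeAlphaBar K₁ N q U₀)) :=
    s36_ws2_ic_map (w : s18_F1 K₁ (N * q) →+* s18_F1 K₁ (N * q)) hwc h1
  rw [hw1, hw2] at h2
  have hα : ∀ a : s18_A1 A K₁, (heckeAlphaBar K₁ (N * q) q).toRingHom
      (algebraMap (s18_A1 A K₁) (s18_F1 K₁ (N * q)) a) =
      algebraMap (s18_A1 A K₁) (s18_F1 K₁ (N * q * q)) a := fun a =>
    (heckeAlphaBar K₁ (N * q) q).commutes (a : K₁)
  have h3 : heckeAlphaBar K₁ (N * q) q (heckeAlphaBar K₁ N q U₀) ∈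
      s34_ic_chart (s18_A1 A K₁) (heckeAlphaBar K₁ (N * q) q (heckeBetaBar K₁ N q U₀)) :=
    s36_ws2_ic_map (heckeAlphaBar K₁ (N * q) q).toRingHom hα h2
  have e : heckeBetaBar K₁ (N * q) q (heckeAlphaBar K₁ N q U₀) =
      heckeAlphaBar K₁ (N * q) q (heckeBetaBar K₁ N q U₀) := by
    apply Subtype.ext
    rw [coe_heckeBetaBar, coe_heckeAlphaBar, coe_heckeAlphaBar, coe_heckeBetaBar]
  rw [e]
  exact h3

/-- **The chart-level facts for a coordinate coming from level `N`.** -/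
theorem s36_chm_core (hq : q.Prime) (hqN : ¬ q ∣ N) (hqM : q ≠ M) (hMN : M ∣ N)
    (A : ValuationSubring Qb) (hA : A.LiesOverPrime q) (K₁ : IntermediateField ℚ Qb)
    (T₀ : s18_F1 K₁ N)
    (hT₀ : s37_IsHaupt M (s18_baseIncl K₁ (N * q) (heckeAlphaBar K₁ N q T₀)))
    (U₀ : s18_F1 K₁ N) (hU₀ : U₀ = T₀ ∨ U₀ = T₀⁻¹)
    (w : s18_F1 K₁ (N * q) ≃ₐ[K₁] s18_F1 K₁ (N * q))
    (hw1 : ∀ x, w (heckeAlphaBar K₁ N q x) = heckeBetaBar K₁ N q x)
    (hw2 : ∀ x, w (heckeBetaBar K₁ N q x) = heckeAlphaBar K₁ N q x) :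
    s36_chm_Maps (heckeAlphaBar K₁ (N * q) q).toRingHom (heckeBetaBar K₁ (N * q) q).toRingHom
      (s34_ic_chart (s18_A1 A K₁) (heckeAlphaBar K₁ N q U₀)).toSubring
      (s34_ic_chart (s18_A1 A K₁)
        (heckeAlphaBar K₁ (N * q) q (heckeAlphaBar K₁ N q U₀))).toSubring := by
  have hα : ∀ a : s18_A1 A K₁, (heckeAlphaBar K₁ (N * q) q).toRingHom
      (algebraMap (s18_A1 A K₁) (s18_F1 K₁ (N * q)) a) =
      algebraMap (s18_A1 A K₁) (s18_F1 K₁ (N * q * q)) a := fun a =>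
    (heckeAlphaBar K₁ (N * q) q).commutes (a : K₁)
  have hβ : ∀ a : s18_A1 A K₁, (heckeBetaBar K₁ (N * q) q).toRingHom
      (algebraMap (s18_A1 A K₁) (s18_F1 K₁ (N * q)) a) =
      algebraMap (s18_A1 A K₁) (s18_F1 K₁ (N * q * q)) a := fun a =>
    (heckeBetaBar K₁ (N * q) q).commutes (a : K₁)
  have hbc := s36_chm_beta_coord N q M hq hqN hqM hMN A hA K₁ T₀ hT₀ U₀ hU₀
  have hac := s36_chm_alpha_coord N q M hq hqN hqM hMN A hA K₁ T₀ hT₀ U₀ hU₀ w hw1 hw2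
  refine ⟨fun x hx => ?_, fun x hx => ?_, ?_, ?_, fun b hb => ?_⟩
  · exact s36_ws2_ic_map (heckeAlphaBar K₁ (N * q) q).toRingHom hα hx
  · exact s36_chm_map_abs (heckeBetaBar K₁ (N * q) q).toRingHom hβ hbc hx
  · exact s36_chm_hint_abs (heckeAlphaBar K₁ (N * q) q).toRingHom hα
      (t := heckeAlphaBar K₁ N q U₀) (s34_ic_t_mem _)
  · exact s36_chm_hint_abs (heckeBetaBar K₁ (N * q) q).toRingHom hβ
      (t := heckeAlphaBar K₁ N q U₀) hac
  · exact s36_chm_norm_abs (heckeAlphaBar K₁ (N * q) q).toRingHom hα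
      (heckeAlphaBar K₁ N q U₀) hb

end Concrete

section Haupt

variable (N q : ℕ) [NeZero N] [NeZero q] [NeZero (N * q)] [NeZero (N * q * q)]
variable (K₁ : IntermediateField ℚ Qb) (A : ValuationSubring Qb)

/-- The Hauptmodul `t₂` of level `N q` is the image of the one of level `N`. -/
theorem s36_chm_coord_t2 (h2 : 2 ∣ N) (h2' : 2 ∣ N * q) :
    s18_coord K₁ (s18_cz_t2 (N * q) h2') =
      heckeAlphaBar K₁ N q (s18_coord K₁ (s18_cz_t2 N h2)) := by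
  apply Subtype.ext
  rw [coe_heckeAlphaBar, s36_ws2_coe_coord, s36_ws2_coe_coord, s18_cz_coe_t2, s18_cz_coe_t2]

/-- The Hauptmodul `t₃` of level `N q` is the image of the one of level `N`. -/
theorem s36_chm_coord_t3 (h3 : 3 ∣ N) (h3' : 3 ∣ N * q) :
    s18_coord K₁ (s18_cz_t3 (N * q) h3') =
      heckeAlphaBar K₁ N q (s18_coord K₁ (s18_cz_t3 N h3)) := by
  apply Subtype.ext
  rw [coe_heckeAlphaBar, s36_ws2_coe_coord, s36_ws2_coe_coord, s18_cz_coe_t3, s18_cz_coe_t3]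

/-- **The chart-level facts for the concrete charts of `t₂`**: level `N q` → level `N q q`,
both charts. -/
theorem s36_chm_t2 (hq : q.Prime) (hqN : ¬ q ∣ N) (h2 : 2 ∣ N) (h2' : 2 ∣ N * q)
    (h2'' : 2 ∣ N * q * q) (hA : A.LiesOverPrime q)
    (w : s18_F1 K₁ (N * q) ≃ₐ[K₁] s18_F1 K₁ (N * q))
    (hw1 : ∀ x, w (heckeAlphaBar K₁ N q x) = heckeBetaBar K₁ N q x)
    (hw2 : ∀ x, w (heckeBetaBar K₁ N q x) = heckeAlphaBar K₁ N q x) :
    s36_chm_Maps (heckeAlphaBar K₁ (N * q) q).toRingHom (heckeBetaBar K₁ (N * q) q).toRingHom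
      (s34_md_B0 A K₁ (N * q) (s18_cz_t2 (N * q) h2')).toSubring
      (s34_md_B0 A K₁ (N * q * q) (s18_cz_t2 (N * q * q) h2'')).toSubring ∧
    s36_chm_Maps (heckeAlphaBar K₁ (N * q) q).toRingHom (heckeBetaBar K₁ (N * q) q).toRingHom
      (s34_md_Binf A K₁ (N * q) (s18_cz_t2 (N * q) h2')).toSubring
      (s34_md_Binf A K₁ (N * q * q) (s18_cz_t2 (N * q * q) h2'')).toSubring := by
  have hq2 : q ≠ 2 := fun h => hqN (h ▸ h2)
  have c0 := s36_chm_core N q 2 hq hqN hq2 h2 A hA K₁ _ (s36_ws2_isHaupt_t2 N q K₁ h2)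
    (s18_coord K₁ (s18_cz_t2 N h2)) (Or.inl rfl) w hw1 hw2
  have ci := s36_chm_core N q 2 hq hqN hq2 h2 A hA K₁ _ (s36_ws2_isHaupt_t2 N q K₁ h2)
    (s18_coord K₁ (s18_cz_t2 N h2))⁻¹ (Or.inr rfl) w hw1 hw2
  have e1 : s18_coord K₁ (s18_cz_t2 (N * q) h2') =
      heckeAlphaBar K₁ N q (s18_coord K₁ (s18_cz_t2 N h2)) := s36_chm_coord_t2 N q K₁ h2 h2'
  have e0 : s18_coord K₁ (s18_cz_t2 (N * q * q) h2'') =
      heckeAlphaBar K₁ (N * q) q (heckeAlphaBar K₁ N q (s18_coord K₁ (s18_cz_t2 N h2))) :=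
    s36_ws2_coord_t2 N q K₁ h2 h2''
  have f1 : (s18_coord K₁ (s18_cz_t2 (N * q) h2'))⁻¹ =
      heckeAlphaBar K₁ N q (s18_coord K₁ (s18_cz_t2 N h2))⁻¹ := by
    rw [e1]
    exact (map_inv₀ (heckeAlphaBar K₁ N q) _).symm
  have f0 : (s18_coord K₁ (s18_cz_t2 (N * q * q) h2''))⁻¹ =
      heckeAlphaBar K₁ (N * q) q (heckeAlphaBar K₁ N q (s18_coord K₁ (s18_cz_t2 N h2))⁻¹) := by
    have g1 : heckeAlphaBar K₁ N q (s18_coord K₁ (s18_cz_t2 N h2))⁻¹ =
        (heckeAlphaBar K₁ N q (s18_coord K₁ (s18_cz_t2 N h2)))⁻¹ :=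
      map_inv₀ (heckeAlphaBar K₁ N q) _
    have g2 : heckeAlphaBar K₁ (N * q) q
        (heckeAlphaBar K₁ N q (s18_coord K₁ (s18_cz_t2 N h2)))⁻¹ =
        (heckeAlphaBar K₁ (N * q) q
          (heckeAlphaBar K₁ N q (s18_coord K₁ (s18_cz_t2 N h2))))⁻¹ :=
      map_inv₀ (heckeAlphaBar K₁ (N * q) q) _
    rw [g1, g2, e0]
  rw [← e0, ← e1] at c0
  rw [← f0, ← f1] at ci
  exact ⟨c0, ci⟩

/-- **The chart-level facts for the concrete charts of `t₃`**: level `N q` → level `N q q`,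
both charts. -/
theorem s36_chm_t3 (hq : q.Prime) (hqN : ¬ q ∣ N) (h3 : 3 ∣ N) (h3' : 3 ∣ N * q)
    (h3'' : 3 ∣ N * q * q) (hA : A.LiesOverPrime q)
    (w : s18_F1 K₁ (N * q) ≃ₐ[K₁] s18_F1 K₁ (N * q))
    (hw1 : ∀ x, w (heckeAlphaBar K₁ N q x) = heckeBetaBar K₁ N q x)
    (hw2 : ∀ x, w (heckeBetaBar K₁ N q x) = heckeAlphaBar K₁ N q x) :
    s36_chm_Maps (heckeAlphaBar K₁ (N * q) q).toRingHom (heckeBetaBar K₁ (N * q) q).toRingHom
      (s34_md_B0 A K₁ (N * q) (s18_cz_t3 (N * q) h3')).toSubring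
      (s34_md_B0 A K₁ (N * q * q) (s18_cz_t3 (N * q * q) h3'')).toSubring ∧
    s36_chm_Maps (heckeAlphaBar K₁ (N * q) q).toRingHom (heckeBetaBar K₁ (N * q) q).toRingHom
      (s34_md_Binf A K₁ (N * q) (s18_cz_t3 (N * q) h3')).toSubring
      (s34_md_Binf A K₁ (N * q * q) (s18_cz_t3 (N * q * q) h3'')).toSubring := by
  have hq3 : q ≠ 3 := fun h => hqN (h ▸ h3)
  have c0 := s36_chm_core N q 3 hq hqN hq3 h3 A hA K₁ _ (s36_ws2_isHaupt_t3 N q K₁ h3)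
    (s18_coord K₁ (s18_cz_t3 N h3)) (Or.inl rfl) w hw1 hw2
  have ci := s36_chm_core N q 3 hq hqN hq3 h3 A hA K₁ _ (s36_ws2_isHaupt_t3 N q K₁ h3)
    (s18_coord K₁ (s18_cz_t3 N h3))⁻¹ (Or.inr rfl) w hw1 hw2
  have e1 : s18_coord K₁ (s18_cz_t3 (N * q) h3') =
      heckeAlphaBar K₁ N q (s18_coord K₁ (s18_cz_t3 N h3)) := s36_chm_coord_t3 N q K₁ h3 h3'
  have e0 : s18_coord K₁ (s18_cz_t3 (N * q * q) h3'') =
      heckeAlphaBar K₁ (N * q) q (heckeAlphaBar K₁ N q (s18_coord K₁ (s18_cz_t3 N h3))) :=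
    s36_ws2_coord_t3 N q K₁ h3 h3''
  have f1 : (s18_coord K₁ (s18_cz_t3 (N * q) h3'))⁻¹ =
      heckeAlphaBar K₁ N q (s18_coord K₁ (s18_cz_t3 N h3))⁻¹ := by
    rw [e1]
    exact (map_inv₀ (heckeAlphaBar K₁ N q) _).symm
  have f0 : (s18_coord K₁ (s18_cz_t3 (N * q * q) h3''))⁻¹ =
      heckeAlphaBar K₁ (N * q) q (heckeAlphaBar K₁ N q (s18_coord K₁ (s18_cz_t3 N h3))⁻¹) := by
    have g1 : heckeAlphaBar K₁ N q (s18_coord K₁ (s18_cz_t3 N h3))⁻¹ =
        (heckeAlphaBar K₁ N q (s18_coord K₁ (s18_cz_t3 N h3)))⁻¹ :=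
      map_inv₀ (heckeAlphaBar K₁ N q) _
    have g2 : heckeAlphaBar K₁ (N * q) q
        (heckeAlphaBar K₁ N q (s18_coord K₁ (s18_cz_t3 N h3)))⁻¹ =
        (heckeAlphaBar K₁ (N * q) q
          (heckeAlphaBar K₁ N q (s18_coord K₁ (s18_cz_t3 N h3))))⁻¹ :=
      map_inv₀ (heckeAlphaBar K₁ (N * q) q) _
    rw [g1, g2, e0]
  rw [← e0, ← e1] at c0
  rw [← f0, ← f1] at ci
  exact ⟨c0, ci⟩

end Haupt

end

end Fermat.Agent.S36
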