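import Mathlib
import Fermat.Agent.S36.ClassPt

/-!
# S36 (NODE-3), contract item (c-class): adapters from the level-`q` contract

`ClassPt.lean` proves (c-class) from hypotheses stated in the field of level `N₁ q²`.  This file
derives those hypotheses from the shapes in which the level-`q` facts are available:

* `s36_clq_res_pow` : (RES) for `k`-th powers (`s36_rs_res` is the case `k = 1`): the chart-level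
  form of "`B / P_B` is purely inseparable over the lower chart", from the residue-field statement;
* `s36_clq_transport` : the crossing data `u v = ϖ γ`, `γ ∉ 𝔫` at a prime `𝔫` of the upper chart
  lying over a level-`q` crossing point, from the level-`q` statement "at every crossing point
  `𝔪'` of `B'` there are `u₁ u₂ = ϖ' γ` with `γ ∉ 𝔪'`" (thickness one);
* `s36_clq_same` : the two components over the same lower component have the same contraction;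
* `s36_clq_ab_coord` : the case `(A, B ⟹ C)` of `s36_cl_ab` in coordinates `s₀ = s`, `s₁ = s'`,
  `s₂ = s''` (the congruence `a₁ ≡ b₁^q mod P_B` is proved from the binomial theorem);
* `s36_clq_main` : (c-class) in one call from the level-`q` thickness statement `hq` and the
  chart-level pure inseparability `hpow`.
-/

set_option autoImplicit false

namespace Fermat.Agent.S36

open Fermat.Agent.S18 Fermat.Agent.S34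

section ResPow

variable {F₀ F : Type*} [Field F₀] [Field F]

/-- **(RES) for `k`-th powers.**  If every `k`-th power of an element of `B` is congruent modulo
`z V` to an element of `ι V''` (residue fields: `κ(V)^k ⊆ κ(V'')`), then it is congruent to an
element of `ι B₁`.  (`k = 1` is `s36_rs_res`; `k = q` is the purely inseparable component.) -/
theorem s36_clq_res_pow (ι : F₀ →+* F) {ϖ'' : F₀} {z : F} (B₁ : Subring F₀)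
    (hB₁ : s18_Chart ϖ'' B₁)
    (V'' : Subring F₀) (hV'' : s34_Unif ϖ'' V'') (hB₁V : B₁ ≤ V'')
    (hsat : ∀ x ∈ V'', ϖ'' * x ∈ B₁ → x ∈ B₁)
    (hgV : ∀ x ∈ V'', x ∈ s18_gauss ϖ'' B₁)
    (B V : Subring F) (hV : s34_Unif z V) (hB₁B : ∀ x ∈ B₁, ι x ∈ B) (hBV : B ≤ V)
    (hιV : ∀ y ∈ V'', ι y ∈ V) (hzϖ : z⁻¹ * ι ϖ'' ∈ V)
    (hint : ∀ x ∈ B, ∃ P : Polynomial B₁, P.Monic ∧ P.eval₂ (ι.comp B₁.subtype) x = 0)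
    (k : ℕ) (hκ : ∀ y ∈ B, ∃ y' ∈ V'', z⁻¹ * (y ^ k - ι y') ∈ V) :
    ∀ x ∈ B, ∃ x' ∈ B₁, z⁻¹ * (x ^ k - ι x') ∈ V := by
  -- the subring of the elements of `B` whose residue lies in `κ(V'')`
  let Bq : Subring F :=
    { carrier := {y | y ∈ B ∧ ∃ y' ∈ V'', z⁻¹ * (y - ι y') ∈ V}
      mul_mem' := by
        rintro a b ⟨ha, a', ha', h1⟩ ⟨hb, b', hb', h2⟩
        refine ⟨B.mul_mem ha hb, a' * b', V''.mul_mem ha' hb', ?_⟩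
        have e : z⁻¹ * (a * b - ι (a' * b')) =
            a * (z⁻¹ * (b - ι b')) + ι b' * (z⁻¹ * (a - ι a')) := by
          rw [map_mul]; ring
        rw [e]
        exact V.add_mem (V.mul_mem (hBV ha) h2) (V.mul_mem (hιV _ hb') h1)
      one_mem' := by
        refine ⟨B.one_mem, 1, V''.one_mem, ?_⟩
        rw [map_one, sub_self, mul_zero]
        exact V.zero_mem
      add_mem' := by
        rintro a b ⟨ha, a', ha', h1⟩ ⟨hb, b', hb', h2⟩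
        refine ⟨B.add_mem ha hb, a' + b', V''.add_mem ha' hb', ?_⟩
        have e : z⁻¹ * (a + b - ι (a' + b')) =
            z⁻¹ * (a - ι a') + z⁻¹ * (b - ι b') := by
          rw [map_add]; ring
        rw [e]
        exact V.add_mem h1 h2
      zero_mem' := by
        refine ⟨B.zero_mem, 0, V''.zero_mem, ?_⟩
        rw [map_zero, sub_self, mul_zero]
        exact V.zero_mem
      neg_mem' := by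
        rintro a ⟨ha, a', ha', h1⟩
        refine ⟨B.neg_mem ha, -a', V''.neg_mem ha', ?_⟩
        have e : z⁻¹ * (-a - ι (-a')) = -(z⁻¹ * (a - ι a')) := by
          rw [map_neg]; ring
        rw [e]
        exact V.neg_mem h1 }
  have h := s36_rs_res ι B₁ hB₁ V'' hV'' hB₁V hsat hgV Bq V hV
    (fun x hx => ⟨hB₁B x hx, x, hB₁V hx, by rw [sub_self, mul_zero]; exact V.zero_mem⟩)
    (fun y hy => hBV hy.1) hιV hzϖ (fun x hx => hint x hx.1) (fun y hy => hy.2)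
  intro x hx
  exact h (x ^ k) ⟨B.pow_mem hx k, hκ x hx⟩

end ResPow

section Transport

variable {F' F : Type*} [Field F'] [Field F]

/-- **Transport of the level-`q` crossing data.**  `V₁'`, `V₂'` the two components of level `q`,
`ι V₁' ⊆ X, Z` and `ι V₂' ⊆ Y`.  If at every crossing point `𝔪'` of the level-`q` chart `B'`
there are `u₁ u₂ = ϖ' γ` with `u₁ ∈ ϖ' V₁'`, `u₂ ∈ ϖ' V₂'`, `γ ∉ 𝔪'` (thickness one), then at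
every prime `𝔫` of the upper chart `B` whose contraction contains the traces of `P_X` and `P_Y`
there are `u v = ϖ γ` with `u ∈ 𝔫`, `γ ∉ 𝔫`, `v ∈ ϖ X ∩ ϖ Z`. -/
theorem s36_clq_transport (ι : F' →+* F) (B' V₁' V₂' : Subring F') (B X Y Z : Subring F)
    (hB'B : ∀ x ∈ B', ι x ∈ B) (ϖ' : F') (ϖ : F) (hιϖ : ι ϖ' = ϖ)
    (hιX : ∀ y ∈ V₁', ι y ∈ X) (hιZ : ∀ y ∈ V₁', ι y ∈ Z) (hιY : ∀ y ∈ V₂', ι y ∈ Y)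
    (hq : ∀ 𝔪' : Ideal B', 𝔪'.IsPrime → (∀ p : B', ϖ'⁻¹ * (p : F') ∈ V₁' → p ∈ 𝔪') →
      (∀ p : B', ϖ'⁻¹ * (p : F') ∈ V₂' → p ∈ 𝔪') →
      ∃ u₁ u₂ γ : B', (u₁ : F') * (u₂ : F') = ϖ' * (γ : F') ∧ ϖ'⁻¹ * (u₁ : F') ∈ V₁' ∧
        ϖ'⁻¹ * (u₂ : F') ∈ V₂' ∧ γ ∉ 𝔪')
    (𝔫 : Ideal B) (h𝔫 : 𝔫.IsPrime)
    (h1 : ∀ x (hx : x ∈ B'), ϖ⁻¹ * ι x ∈ X → (⟨ι x, hB'B x hx⟩ : B) ∈ 𝔫)
    (h2 : ∀ x (hx : x ∈ B'), ϖ⁻¹ * ι x ∈ Y → (⟨ι x, hB'B x hx⟩ : B) ∈ 𝔫) :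
    ∃ u v γ : B, (u : F) * (v : F) = ϖ * (γ : F) ∧ u ∈ 𝔫 ∧ γ ∉ 𝔫 ∧
      ϖ⁻¹ * (v : F) ∈ X ∧ ϖ⁻¹ * (v : F) ∈ Z := by
  let φ : B' →+* B := (ι.comp B'.subtype).codRestrict B (fun x => hB'B x x.2)
  have hdiv : ∀ x : F', ϖ⁻¹ * ι x = ι (ϖ'⁻¹ * x) := by
    intro x; rw [map_mul, map_inv₀, hιϖ]
  have hprime : (𝔫.comap φ).IsPrime := Ideal.comap_isPrime φ 𝔫
  obtain ⟨u₁, u₂, γ, huv, hu₁, hu₂, hγ⟩ := hq (𝔫.comap φ) hprime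
    (fun p hp => h1 (p : F') p.2 (by rw [hdiv]; exact hιX _ hp))
    (fun p hp => h2 (p : F') p.2 (by rw [hdiv]; exact hιY _ hp))
  refine ⟨φ u₂, φ u₁, φ γ, ?_, ?_, hγ, ?_, ?_⟩
  · show ι (u₂ : F') * ι (u₁ : F') = ϖ * ι (γ : F')
    rw [← map_mul, mul_comm, huv, map_mul, hιϖ]
  · exact h2 (u₂ : F') u₂.2 (by rw [hdiv]; exact hιY _ hu₂)
  · show ϖ⁻¹ * ι (u₁ : F') ∈ X
    rw [hdiv]; exact hιX _ hu₁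
  · show ϖ⁻¹ * ι (u₁ : F') ∈ Z
    rw [hdiv]; exact hιZ _ hu₁

/-- **Two components over the same one have the same contraction.**  `V'` a component of level
`q` (uniformised by `ϖ'`), `X` a component of the upper level with `ι V' ⊆ X` on which `ϖ = ι ϖ'`
is not a unit (`z⁻¹ ∉ X`, `z⁻¹ ϖ ∈ X` for its uniformiser `z`): an element of the lower chart
`B' ⊆ V'` whose image vanishes on `X` lies in `ϖ' V'`. -/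
theorem s36_clq_contr (ι : F' →+* F) (B' V' : Subring F') (X : Subring F) (ϖ' : F') (z : F)
    (hV' : s34_Unif ϖ' V') (hB'V' : B' ≤ V') (hιX : ∀ y ∈ V', ι y ∈ X) (hzX : z⁻¹ ∉ X)
    (x : F') (hx : x ∈ B') (h : z⁻¹ * ι x ∈ X) : ϖ'⁻¹ * x ∈ V' := by
  by_contra hcon
  have h1 : x⁻¹ ∈ V' := hV'.inv_mem_of_not_dvd (hB'V' hx) hcon
  have hx0 : x ≠ 0 := by
    rintro rfl
    exact hcon (by rw [mul_zero]; exact V'.zero_mem)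
  apply hzX
  have e : z⁻¹ = (z⁻¹ * ι x) * ι x⁻¹ := by
    rw [mul_assoc, ← map_mul, mul_inv_cancel₀ hx0, map_one, mul_one]
  rw [e]
  exact X.mul_mem h (hιX _ h1)

/-- `s36_clq_contr` combined: if `X` and `Z` (uniformisers `z₁`, `z₂`) both lie over `V'` along
`ι`, an element of `ι B'` vanishing on `X` vanishes on `Z`. -/
theorem s36_clq_same (ι : F' →+* F) (B' V' : Subring F') (X Z : Subring F) (ϖ' : F')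
    (ϖ z₁ z₂ : F) (hιϖ : ι ϖ' = ϖ)
    (hV' : s34_Unif ϖ' V') (hB'V' : B' ≤ V') (hιX : ∀ y ∈ V', ι y ∈ X)
    (hιZ : ∀ y ∈ V', ι y ∈ Z) (hzX : z₁⁻¹ ∉ X) (hzZ : z₂⁻¹ * ϖ ∈ Z)
    (x : F') (hx : x ∈ B') (h : z₁⁻¹ * ι x ∈ X) : z₂⁻¹ * ι x ∈ Z := by
  have h1 := s36_clq_contr ι B' V' X ϖ' z₁ hV' hB'V' hιX hzX x hx h
  have hϖ'0 := hV'.ne_zero
  have e : z₂⁻¹ * ι x = (z₂⁻¹ * ϖ) * ι (ϖ'⁻¹ * x) := by
    rw [← hιϖ, mul_assoc, ← map_mul, ← mul_assoc, mul_inv_cancel₀ hϖ'0, one_mul]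
  rw [e]
  exact Z.mul_mem hzZ (hιZ _ h1)

end Transport

section Coord

variable {F : Type*} [Field F]

/-- **(A, B ⟹ C) in coordinates.**  `s₀ = s`, `s₁ = s'`, `s₂ = s''` in `B`, `q` prime with
`q ∈ ϖ V_B`; the two crossing relations `(s₁ - s₀^q)(s₀ - s₁^q) = ϖ γ_α` and
`(s₂ - s₁^q)(s₁ - s₂^q) = ϖ γ_β` with `γ_α, γ_β ∉ 𝔪`; `s₁ - s₀^q`, `s₂ - s₁^q` vanish on `A`,
`s₀ - s₁^q` on `B`, `s₁ - s₂^q` on `B` and `C`; `s₂ - s₁^q` is a unit of `V_B` and lies in `𝔪`.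
Then a prime `𝔪 ⊇ P_B` contains `P_C`.  (The congruence of `s36_cl_ab` is automatic.) -/
theorem s36_clq_ab_coord (B VA VB VC : Subring F) (hBA : B ≤ VA) (hBB : B ≤ VB) (hBC : B ≤ VC)
    (ϖ z : F) (hϖ0 : ϖ ≠ 0) (hz0 : z ≠ 0)
    (hcap : ∀ x ∈ B, ϖ⁻¹ * x ∈ VA → ϖ⁻¹ * x ∈ VB → ϖ⁻¹ * x ∈ VC → ϖ⁻¹ * x ∈ B)
    (n : ℕ) (hzn : ϖ⁻¹ * z ^ n ∈ VC) (q : ℕ) (hq : q.Prime) (hqϖ : ϖ⁻¹ * (q : F) ∈ VB)
    (𝔪 : Ideal B) [h𝔪 : 𝔪.IsPrime]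
    (hPB : ∀ p : B, ϖ⁻¹ * (p : F) ∈ VB → p ∈ 𝔪)
    (s0 s1 s2 γα γβ : B)
    (ha : ((s1 : F) - (s0 : F) ^ q) * ((s0 : F) - (s1 : F) ^ q) = ϖ * (γα : F))
    (hb : ((s2 : F) - (s1 : F) ^ q) * ((s1 : F) - (s2 : F) ^ q) = ϖ * (γβ : F))
    (ha1 : ϖ⁻¹ * ((s1 : F) - (s0 : F) ^ q) ∈ VA) (ha0 : ϖ⁻¹ * ((s0 : F) - (s1 : F) ^ q) ∈ VB)
    (hb1 : ϖ⁻¹ * ((s2 : F) - (s1 : F) ^ q) ∈ VA)
    (hb0B : ϖ⁻¹ * ((s1 : F) - (s2 : F) ^ q) ∈ VB) (hb0C : ϖ⁻¹ * ((s1 : F) - (s2 : F) ^ q) ∈ VC)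
    (hb1B : ((s2 : F) - (s1 : F) ^ q)⁻¹ ∈ VB) (hb1𝔪 : s2 - s1 ^ q ∈ 𝔪)
    (hγα : γα ∉ 𝔪) (hγβ : γβ ∉ 𝔪)
    (p : B) (hp : z⁻¹ * (p : F) ∈ VC) : p ∈ 𝔪 := by
  have hq2 : 2 ≤ q := hq.two_le
  -- binomial expansions in `B`
  obtain ⟨r1, hr1⟩ := exists_add_pow_prime_eq hq s2 (-(s1 ^ q))
  obtain ⟨r0, hr0⟩ := exists_add_pow_prime_eq hq s0 (-(s1 ^ q))
  -- `a₁ - b₁^q = b₀ - a₀^q + q * e`
  have key : (s1 - s0 ^ q) - (s2 - s1 ^ q) ^ q =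
      (s1 - s2 ^ q) - (s0 - s1 ^ q) ^ q +
        (q : B) * (s0 * (-(s1 ^ q)) * r0 - s2 * (-(s1 ^ q)) * r1) := by
    have e1 : (s2 - s1 ^ q) ^ q = s2 ^ q + (-(s1 ^ q)) ^ q + (q : B) * s2 * (-(s1 ^ q)) * r1 := by
      rw [← hr1, sub_eq_add_neg]
    have e0 : (s0 - s1 ^ q) ^ q = s0 ^ q + (-(s1 ^ q)) ^ q + (q : B) * s0 * (-(s1 ^ q)) * r0 := by
      rw [← hr0, sub_eq_add_neg]
    rw [e1, e0]; ring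
  have hcong : ϖ⁻¹ * (((s1 - s0 ^ q : B) : F) - ((s2 - s1 ^ q : B) : F) ^ 2 *
      (((s2 - s1 ^ q) ^ (q - 2) : B) : F)) ∈ VB := by
    have e2 : ((s2 - s1 ^ q : B) : F) ^ 2 * (((s2 - s1 ^ q) ^ (q - 2) : B) : F) =
        (((s2 - s1 ^ q) ^ q : B) : F) := by
      rw [← Subring.coe_pow, ← Subring.coe_mul, ← pow_add]
      congr 2; omega
    rw [e2, ← AddSubgroupClass.coe_sub, key]
    have e3 : (s0 - s1 ^ q) ^ q = (s0 - s1 ^ q) * (s0 - s1 ^ q) ^ (q - 1) := by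
      rw [← pow_succ']; congr 1; omega
    rw [e3]
    have e4 : ϖ⁻¹ * (((s1 - s2 ^ q) - (s0 - s1 ^ q) * (s0 - s1 ^ q) ^ (q - 1) +
        (q : B) * (s0 * (-(s1 ^ q)) * r0 - s2 * (-(s1 ^ q)) * r1) : B) : F) =
        ϖ⁻¹ * ((s1 : F) - (s2 : F) ^ q) -
          (ϖ⁻¹ * ((s0 : F) - (s1 : F) ^ q)) * (((s0 - s1 ^ q) ^ (q - 1) : B) : F) +
          (ϖ⁻¹ * (q : F)) * ((s0 * (-(s1 ^ q)) * r0 - s2 * (-(s1 ^ q)) * r1 : B) : F) := by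
      push_cast; ring
    rw [e4]
    exact VB.add_mem (VB.sub_mem hb0B (VB.mul_mem ha0 (hBB (Subtype.property _))))
      (VB.mul_mem hqϖ (hBB (Subtype.property _)))
  exact s36_cl_ab B VA VB VC hBA hBB hBC ϖ z hϖ0 hz0 hcap n hzn 𝔪 hPB
    (s1 - s0 ^ q) (s0 - s1 ^ q) γα (s2 - s1 ^ q) (s1 - s2 ^ q) γβ ((s2 - s1 ^ q) ^ (q - 2))
    (by push_cast; exact ha) (by push_cast; exact hb)
    (by push_cast; exact ha1) (by push_cast; exact ha0) (by push_cast; exact hb1)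
    (by push_cast; exact hb0B) (by push_cast; exact hb0C) (by push_cast; exact hb1B) hb1𝔪
    hcong hγα hγβ p hp

end Coord

section Main

variable {F' F : Type*} [Field F'] [Field F]

/-- **(c-class) from the level-`q` contract, one call.**  `V'∞`, `V'0` the two components of
level `q` (uniformised by `ϖ'`), `B'` the level-`q` chart; `α`: `V'∞ → V_A, V_C`, `V'0 → V_B`;
`β`: `V'∞ → V_A`, `V'0 → V_B, V_C`.  Inputs: integrality of `B` over `α B'` and `β B'`, `hcap`,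
(RES) for `C` along `α` and `β`, thickness one at the level-`q` crossing points (`hq`), and the
case `(A, B ⟹ C)` (`hAB`; e.g. `s36_cl_ab_pow` with `hα := s36_clq_transport …`, or
`s36_clq_ab_coord`).  Then a prime of `B` containing two of `P_A`, `P_B`, `P_C` contains the
third. -/
theorem s36_clq_main (α β : F' →+* F) (B' Vi V0 : Subring F') (B VA VB VC : Subring F)
    (hαB : ∀ x ∈ B', α x ∈ B) (hβB : ∀ x ∈ B', β x ∈ B)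
    (hintα : ∀ x ∈ B, ∃ P : Polynomial B', P.Monic ∧ P.eval₂ (α.comp B'.subtype) x = 0)
    (hintβ : ∀ x ∈ B, ∃ P : Polynomial B', P.Monic ∧ P.eval₂ (β.comp B'.subtype) x = 0)
    (hBA : B ≤ VA) (hBB : B ≤ VB) (hBC : B ≤ VC) (ϖ' : F') (ϖ z : F) (hϖ0 : ϖ ≠ 0)
    (hαϖ : α ϖ' = ϖ) (hβϖ : β ϖ' = ϖ)
    (hVi : s34_Unif ϖ' Vi) (hV0 : s34_Unif ϖ' V0) (hB'i : B' ≤ Vi) (hB'0 : B' ≤ V0)
    (hAϖ : ϖ⁻¹ ∉ VA) (hBϖ : ϖ⁻¹ ∉ VB) (hzϖ : z⁻¹ * ϖ ∈ VC)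
    (hαiA : ∀ y ∈ Vi, α y ∈ VA) (hαiC : ∀ y ∈ Vi, α y ∈ VC) (hα0B : ∀ y ∈ V0, α y ∈ VB)
    (hβiA : ∀ y ∈ Vi, β y ∈ VA) (hβ0B : ∀ y ∈ V0, β y ∈ VB) (hβ0C : ∀ y ∈ V0, β y ∈ VC)
    (hcap : ∀ x ∈ B, ϖ⁻¹ * x ∈ VA → ϖ⁻¹ * x ∈ VB → ϖ⁻¹ * x ∈ VC → ϖ⁻¹ * x ∈ B)
    (hresα : ∀ y ∈ B, ∃ y' ∈ B', z⁻¹ * (y - α y') ∈ VC)
    (hresβ : ∀ y ∈ B, ∃ y' ∈ B', z⁻¹ * (y - β y') ∈ VC)
    (hq : ∀ 𝔪' : Ideal B', 𝔪'.IsPrime → (∀ p : B', ϖ'⁻¹ * (p : F') ∈ Vi → p ∈ 𝔪') →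
      (∀ p : B', ϖ'⁻¹ * (p : F') ∈ V0 → p ∈ 𝔪') →
      ∃ u₁ u₂ γ : B', (u₁ : F') * (u₂ : F') = ϖ' * (γ : F') ∧ ϖ'⁻¹ * (u₁ : F') ∈ Vi ∧
        ϖ'⁻¹ * (u₂ : F') ∈ V0 ∧ γ ∉ 𝔪')
    (hAB : ∀ 𝔫 : Ideal B, 𝔫.IsPrime → (∀ p : B, ϖ⁻¹ * (p : F) ∈ VA → p ∈ 𝔫) →
      (∀ p : B, ϖ⁻¹ * (p : F) ∈ VB → p ∈ 𝔫) → ∀ p : B, z⁻¹ * (p : F) ∈ VC → p ∈ 𝔫)
    (𝔪 : Ideal B) [h𝔪 : 𝔪.IsPrime] :
    ((∀ p : B, ϖ⁻¹ * (p : F) ∈ VA → p ∈ 𝔪) → (∀ p : B, ϖ⁻¹ * (p : F) ∈ VB → p ∈ 𝔪) →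
      ∀ p : B, z⁻¹ * (p : F) ∈ VC → p ∈ 𝔪) ∧
    ((∀ p : B, ϖ⁻¹ * (p : F) ∈ VB → p ∈ 𝔪) → (∀ p : B, z⁻¹ * (p : F) ∈ VC → p ∈ 𝔪) →
      ∀ p : B, ϖ⁻¹ * (p : F) ∈ VA → p ∈ 𝔪) ∧
    ((∀ p : B, ϖ⁻¹ * (p : F) ∈ VA → p ∈ 𝔪) → (∀ p : B, z⁻¹ * (p : F) ∈ VC → p ∈ 𝔪) →
      ∀ p : B, ϖ⁻¹ * (p : F) ∈ VB → p ∈ 𝔪) := by
  refine s36_cl_main α β B' B VA VB VC hαB hβB hintα hintβ hBA hBB hBC ϖ z hϖ0 hcap
    (fun x hx h => s36_clq_same α B' Vi VA VC ϖ' ϖ ϖ z hαϖ hVi hB'i hαiA hαiC hAϖ hzϖ x hx h)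
    (fun x hx h => s36_clq_same β B' V0 VB VC ϖ' ϖ ϖ z hβϖ hV0 hB'0 hβ0B hβ0C hBϖ hzϖ x hx h)
    hresα hresβ ?_ ?_ hAB 𝔪
  · intro 𝔫 h𝔫 h1 h2
    exact s36_clq_transport α B' Vi V0 B VA VB VC hαB ϖ' ϖ hαϖ hαiA hαiC hα0B hq 𝔫 h𝔫 h1 h2
  · intro 𝔫 h𝔫 h1 h2
    have hq' : ∀ 𝔪' : Ideal B', 𝔪'.IsPrime → (∀ p : B', ϖ'⁻¹ * (p : F') ∈ V0 → p ∈ 𝔪') →
        (∀ p : B', ϖ'⁻¹ * (p : F') ∈ Vi → p ∈ 𝔪') →
        ∃ u₁ u₂ γ : B', (u₁ : F') * (u₂ : F') = ϖ' * (γ : F') ∧ ϖ'⁻¹ * (u₁ : F') ∈ V0 ∧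
          ϖ'⁻¹ * (u₂ : F') ∈ Vi ∧ γ ∉ 𝔪' := by
      intro 𝔪' h𝔪' h0 hi
      obtain ⟨u₁, u₂, γ, huv, hu₁, hu₂, hγ⟩ := hq 𝔪' h𝔪' hi h0
      exact ⟨u₂, u₁, γ, by rw [mul_comm]; exact huv, hu₂, hu₁, hγ⟩
    exact s36_clq_transport β B' V0 Vi B VB VA VC hβB ϖ' ϖ hβϖ hβ0B hβ0C hβiA hq' 𝔫 h𝔫 h2 h1

/-- The hypothesis `hAB` of `s36_clq_main` from the level-`q` thickness statement `hq` and the
chart-level pure inseparability of `B / P_B` over `α B'` (`hpow`, e.g. from `s36_clq_res_pow`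
composed with the level-`N₁` → level-`q` inclusion). -/
theorem s36_clq_ab_pow (α : F' →+* F) (B' Vi V0 : Subring F') (B VA VB VC : Subring F)
    (hαB : ∀ x ∈ B', α x ∈ B)
    (hintα : ∀ x ∈ B, ∃ P : Polynomial B', P.Monic ∧ P.eval₂ (α.comp B'.subtype) x = 0)
    (hBA : B ≤ VA) (hBB : B ≤ VB) (hBC : B ≤ VC) (ϖ' : F') (ϖ z : F) (hϖ0 : ϖ ≠ 0)
    (hαϖ : α ϖ' = ϖ)
    (hVi : s34_Unif ϖ' Vi) (hB'i : B' ≤ Vi)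
    (hAϖ : ϖ⁻¹ ∉ VA) (hzϖ : z⁻¹ * ϖ ∈ VC) (hzC : z⁻¹ ∉ VC)
    (hαiA : ∀ y ∈ Vi, α y ∈ VA) (hαiC : ∀ y ∈ Vi, α y ∈ VC) (hα0B : ∀ y ∈ V0, α y ∈ VB)
    (hcap : ∀ x ∈ B, ϖ⁻¹ * x ∈ VA → ϖ⁻¹ * x ∈ VB → ϖ⁻¹ * x ∈ VC → ϖ⁻¹ * x ∈ B)
    (k : ℕ) (hk : k ≠ 0) (hpow : ∀ y ∈ B, ∃ y' ∈ B', ϖ⁻¹ * (y ^ k - α y') ∈ VB)
    (hq : ∀ 𝔪' : Ideal B', 𝔪'.IsPrime → (∀ p : B', ϖ'⁻¹ * (p : F') ∈ Vi → p ∈ 𝔪') →
      (∀ p : B', ϖ'⁻¹ * (p : F') ∈ V0 → p ∈ 𝔪') →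
      ∃ u₁ u₂ γ : B', (u₁ : F') * (u₂ : F') = ϖ' * (γ : F') ∧ ϖ'⁻¹ * (u₁ : F') ∈ Vi ∧
        ϖ'⁻¹ * (u₂ : F') ∈ V0 ∧ γ ∉ 𝔪')
    (𝔫 : Ideal B) (h𝔫 : 𝔫.IsPrime) (hA : ∀ p : B, ϖ⁻¹ * (p : F) ∈ VA → p ∈ 𝔫)
    (hB : ∀ p : B, ϖ⁻¹ * (p : F) ∈ VB → p ∈ 𝔫) (p : B) (hp : z⁻¹ * (p : F) ∈ VC) : p ∈ 𝔫 := by
  have := h𝔫
  refine s36_cl_ab_pow α B' B VA VB VC hαB hintα hBA hBB hBC ϖ z hϖ0 hcap
    (fun x hx h => s36_clq_same α B' Vi VA VC ϖ' ϖ ϖ z hαϖ hVi hB'i hαiA hαiC hAϖ hzϖ x hx h)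
    (fun x hx h => ?_) k hk hpow ?_ 𝔫 hA hB p hp
  · have h1 := s36_clq_contr α B' Vi VC ϖ' z hVi hB'i hαiC hzC x hx h
    have e : ϖ⁻¹ * α x = α (ϖ'⁻¹ * x) := by rw [map_mul, map_inv₀, hαϖ]
    rw [e]
    exact hαiA _ h1
  · intro 𝔫' h𝔫' h1 h2
    exact s36_clq_transport α B' Vi V0 B VA VB VC hαB ϖ' ϖ hαϖ hαiA hαiC hα0B hq 𝔫' h𝔫' h1 h2

end Main

end Fermat.Agent.S36
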