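import Mathlib
import Fermat.Agent.S35.FrobAlg

/-!
# S36 (NODE-3), leaf TRI36: the function-dependent data at a triple point

Abstract algebra (Mathlib + the `s34_Unif` / `s35_fa_one` calculus).  `F` is the function field of
the level-`q²` curve, `V_A`, `V_B`, `V_C` the valuation rings of the three components of the
special fibre (uniformizers `d_A = d_B = ϖ`, `d_C = z`), `R ⊆ F` the local ring of a chart at a
triple point, `I` its maximal ideal (as a subset of `F`).  Congruences between units are written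
multiplicatively: `s35_fa_one d V (x / y)` is `x ≡ y mod d V`.

* `s36_tri_rel` : **the relation coming from one degeneracy map.**  `ι : F' →+* F` a degeneracy
  map, `Nm` the norm along it, `V₁` (unramified, residue degree one over `Vi`), `V₃` (ramified
  of index `p + 1` over `Vi`), `V₂` (purely inseparable of degree `p + 1` over `V0`).  For
  `g = w G ^ m` (`w ∈ Rˣ`) with `Nm g = f ^ m` and the branch roots `Ψ₁ ≡ ι ψ`, `Ψ₂ ^ (p+1) ≡ ι f`,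
  `Ψ₃ ≡ ι (f / ψ)`, the local roots `r₁ ≡ Ψ₁ / G`, `r₂ ≡ Ψ₂ / G`, `r₃ ≡ Ψ₃ / G ^ p` (units of
  `R`) satisfy `r₁ r₃ ≡ r₂ ^ (p + 1)` modulo `I`.
* `s36_tri_crt` : three-branch Chinese remaindering of `m`-th roots (field version of
  `s36_crt_root_three`).
* `s36_tri_lift` : branch lifting in multiplicative form.
* `s36_tri_theta` : from the two relations (for the two degeneracy maps) to a local function
  `Θ = r G ^ (p (p + 2))` with `Θ ≡ Ψ_A ^ (p (p+2))`, `Θ ≡ ξ ^ p Ψ_B ^ (p (p+2))`,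
  `Θ ≡ ξ ^ (p+1) Ψ_C ^ (p+2)` on the three branches and `g ^ (p (p+2)) / Θ ^ m ∈ Rˣ`.
* `s36_TriLoc R I` : `R ⊆ F` is a local ring with maximal ideal `I` (elementary form), with the
  calculus of `1 + I` (`one_mul`, `one_inv`, `one_div`, `one_pow`, `unit_of_sub`).

(`q = p + 1`, so `q - 1 = p`, `q + 1 = p + 2`, `q² - 1 = p (p + 2)`; the exponents are those of
`s36_pm_chain2`.  The Newton correction inside `R` and the `s36_PointData` disjunct are in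
`S36/TriplePD.lean`.)
-/

set_option autoImplicit false

namespace Fermat.Agent.S36

open Fermat.Agent.S34 Fermat.Agent.S35

variable {F : Type*} [Field F]

/-! ### Small facts on `1 + d V` -/

/-- An element of `1 + d V` is nonzero and a unit of `V`. -/
theorem s36_tri_unit {d : F} {V : Subring F} (hV : s34_Unif d V) {x : F} (h : s35_fa_one d V x) :
    x ≠ 0 ∧ x ∈ V ∧ x⁻¹ ∈ V :=
  ⟨h.ne_zero hV, h.mem hV, h.inv_mem hV⟩

/-- Rewriting the argument of `s35_fa_one`. -/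
theorem s36_tri_congr {d : F} {V : Subring F} {x y : F} (h : s35_fa_one d V x) (e : x = y) :
    s35_fa_one d V y := e ▸ h

/-- `x ≡ 1 mod d V` and `e ∈ V` give `x ≡ 1 mod (d e) V`-type transport: if `d'⁻¹ d ∈ V` then
`1 + d V ⊆ 1 + d' V`. -/
theorem s36_tri_coarsen {d d' : F} {V : Subring F} (hd : d ≠ 0) (hdd : d'⁻¹ * d ∈ V) {x : F}
    (h : s35_fa_one d V x) : s35_fa_one d' V x := by
  unfold s35_fa_one at *
  have e : d'⁻¹ * (x - 1) = d'⁻¹ * d * (d⁻¹ * (x - 1)) := by field_simp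
  rw [e]; exact V.mul_mem hdd h

/-- A ring homomorphism `ι` with `ι V' ⊆ V` and `ι d' ∈ d V` maps `1 + d' V'` to `1 + d V`. -/
theorem s36_tri_map {F' : Type*} [Field F'] (ι : F' →+* F) {d : F} {d' : F'} {V : Subring F}
    {V' : Subring F'} (hι : ∀ x ∈ V', ι x ∈ V) (hd : d⁻¹ * ι d' ∈ V) (hd' : d' ≠ 0) {x : F'}
    (h : s35_fa_one d' V' x) : s35_fa_one d V (ι x) := by
  unfold s35_fa_one at *
  have hιd : ι d' ≠ 0 := (map_ne_zero ι).mpr hd'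
  have e : d⁻¹ * (ι x - 1) = d⁻¹ * ι d' * ι (d'⁻¹ * (x - 1)) := by
    rw [map_mul, map_inv₀, map_sub, map_one]
    field_simp
  rw [e]; exact V.mul_mem hd (hι _ h)

/-- Reflection: a unit `u` of `V'` with `ι u ∈ 1 + d V` lies in `1 + d' V'` (`ι V' ⊆ V`). -/
theorem s36_tri_reflect {F' : Type*} [Field F'] (ι : F' →+* F) {d : F} {d' : F'} {V : Subring F}
    {V' : Subring F'} (hV : s34_Unif d V) (hV' : s34_Unif d' V') (hι : ∀ x ∈ V', ι x ∈ V)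
    {u : F'} (hu : u ∈ V') (h : s35_fa_one d V (ι u)) : s35_fa_one d' V' u := by
  unfold s35_fa_one at *
  by_contra hcon
  have h1 : (u - 1)⁻¹ ∈ V' := hV'.inv_mem_of_not_dvd (V'.sub_mem hu V'.one_mem) hcon
  have h2 : (ι u - 1)⁻¹ ∈ V := by
    have := hι _ h1
    rwa [map_inv₀, map_sub, map_one] at this
  have hne : ι u - 1 ≠ 0 := by
    intro h0
    apply hcon
    have : u - 1 = 0 := by
      have h3 : ι (u - 1) = 0 := by rw [map_sub, map_one]; exact h0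
      exact (map_eq_zero ι).mp h3
    rw [this, mul_zero]; exact V'.zero_mem
  apply hV.inv_not_mem
  have e : d⁻¹ = d⁻¹ * (ι u - 1) * (ι u - 1)⁻¹ := by field_simp
  rw [e]; exact V.mul_mem h h2

/-! ### Chinese remaindering of `m`-th roots (field version) -/

/-- The geometric sum `∑ a^i b^(n-1-i)`, defined recursively. -/
def s36_tri_S (a b : F) : ℕ → F
  | 0 => 0
  | n + 1 => a ^ n + b * s36_tri_S a b n

theorem s36_tri_S_mul (a b : F) (n : ℕ) : s36_tri_S a b n * (a - b) = a ^ n - b ^ n := by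
  induction n with
  | zero => simp [s36_tri_S]
  | succ n ih =>
    have e : s36_tri_S a b (n + 1) * (a - b) = a ^ n * (a - b) + b * (s36_tri_S a b n * (a - b)) := by
      simp only [s36_tri_S]; ring
    rw [e, ih]; ring

theorem s36_tri_S_mem (R : Subring F) {a b : F} (ha : a ∈ R) (hb : b ∈ R) (n : ℕ) :
    s36_tri_S a b n ∈ R := by
  induction n with
  | zero => simp only [s36_tri_S]; exact R.zero_mem
  | succ n ih => simp only [s36_tri_S]; exact R.add_mem (R.pow_mem ha n) (R.mul_mem hb ih)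

/-- The structure of a local ring `R ⊆ F` with maximal ideal `I` (as a subset of `F`). -/
structure s36_TriLoc (R : Subring F) (I : Set F) : Prop where
  add : ∀ x y, x ∈ I → y ∈ I → x + y ∈ I
  mul : ∀ x y, x ∈ R → y ∈ I → x * y ∈ I
  unit : ∀ x, x - 1 ∈ I → x ∈ R ∧ x⁻¹ ∈ R
  proper : (1 : F) ∉ I

namespace s36_TriLoc

variable {R : Subring F} {I : Set F}

theorem mem (h : s36_TriLoc R I) {x : F} (hx : x ∈ I) : x ∈ R := by
  have h1 := (h.unit (x + 1) (by rwa [add_sub_cancel_right])).1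
  have e : x = (x + 1) - 1 := by ring
  rw [e]; exact R.sub_mem h1 R.one_mem

theorem neg (h : s36_TriLoc R I) {x : F} (hx : x ∈ I) : -x ∈ I := by
  have := h.mul (-1) x (R.neg_mem R.one_mem) hx
  rwa [neg_one_mul] at this

theorem sub (h : s36_TriLoc R I) {x y : F} (hx : x ∈ I) (hy : y ∈ I) : x - y ∈ I := by
  rw [sub_eq_add_neg]; exact h.add _ _ hx (h.neg hy)

theorem zero (h : s36_TriLoc R I) {x : F} (hx : x ∈ I) : (0 : F) ∈ I := by
  have := h.mul 0 x R.zero_mem hx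
  rwa [zero_mul] at this

theorem ne_zero (h : s36_TriLoc R I) {x : F} (hx : x - 1 ∈ I) : x ≠ 0 := by
  rintro rfl
  rw [zero_sub] at hx
  have := h.neg hx
  rw [neg_neg] at this
  exact h.proper this

/-- `1 + I` is closed under multiplication. -/
theorem one_mul (h : s36_TriLoc R I) {x y : F} (hx : x - 1 ∈ I) (hy : y - 1 ∈ I) :
    x * y - 1 ∈ I := by
  have e : x * y - 1 = x * (y - 1) + (x - 1) := by ring
  rw [e]; exact h.add _ _ (h.mul _ _ (h.unit x hx).1 hy) hx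

/-- `1 + I` is closed under inversion. -/
theorem one_inv (h : s36_TriLoc R I) {x : F} (hx : x - 1 ∈ I) : x⁻¹ - 1 ∈ I := by
  have hx0 := h.ne_zero hx
  have e : x⁻¹ - 1 = -x⁻¹ * (x - 1) := by field_simp; ring
  rw [e]; exact h.mul _ _ (R.neg_mem (h.unit x hx).2) hx

theorem one_div (h : s36_TriLoc R I) {x y : F} (hx : x - 1 ∈ I) (hy : y - 1 ∈ I) :
    x / y - 1 ∈ I := by
  rw [div_eq_mul_inv]; exact h.one_mul hx (h.one_inv hy)

theorem one_pow (h : s36_TriLoc R I) {x : F} (hx : x - 1 ∈ I) (n : ℕ) : x ^ n - 1 ∈ I := by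
  induction n with
  | zero => rw [pow_zero, sub_self]; exact h.zero hx
  | succ n ih => rw [pow_succ]; exact h.one_mul ih hx

/-- A unit of `R` congruent to a unit: if `x - a ∈ I` and `a` is a unit of `R` then so is `x`. -/
theorem unit_of_sub (h : s36_TriLoc R I) {x a : F} (ha : a ∈ R) (ha' : a⁻¹ ∈ R) (ha0 : a ≠ 0)
    (hx : x - a ∈ I) : x ∈ R ∧ x⁻¹ ∈ R ∧ x ≠ 0 ∧ x / a - 1 ∈ I := by
  have h1 : x / a - 1 ∈ I := by
    have e : x / a - 1 = a⁻¹ * (x - a) := by field_simp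
    rw [e]; exact h.mul _ _ ha' hx
  obtain ⟨h2, h3⟩ := h.unit _ h1
  have hx0 : x ≠ 0 := by
    intro h0
    apply h.ne_zero h1
    rw [h0, zero_div]
  refine ⟨?_, ?_, hx0, h1⟩
  · have e : x = x / a * a := by field_simp
    rw [e]; exact R.mul_mem h2 ha
  · have e : x⁻¹ = (x / a)⁻¹ * a⁻¹ := by field_simp
    rw [e]; exact R.mul_mem h3 ha'

end s36_TriLoc

/-- Two-branch step: for units `a ≡ b` modulo `I` there is `c ∈ R` with
`(a - c (a^m - γ)) - b = - c (b^m - γ)` for every `γ`. -/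
theorem s36_tri_crt_step {R : Subring F} {I : Set F} (hL : s36_TriLoc R I) (m : ℕ)
    (hmR : ((m : F))⁻¹ ∈ R) (hm0 : (m : F) ≠ 0) (a b : F) (ha : a ∈ R) (ha' : a⁻¹ ∈ R)
    (ha0 : a ≠ 0) (hb : b ∈ R) (hab : b - a ∈ I) :
    ∃ c ∈ R, ∀ γ : F, a - c * (a ^ m - γ) - b = -(c * (b ^ m - γ)) := by
  -- `a * S n - n * a^n ∈ I`
  have key : ∀ n : ℕ, a * s36_tri_S a b n - (n : F) * a ^ n ∈ I := by
    intro n
    induction n with
    | zero =>
      simp only [s36_tri_S, mul_zero, Nat.cast_zero, zero_mul, sub_self]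
      exact hL.zero hab
    | succ n ih =>
      have e : a * s36_tri_S a b (n + 1) - ((n + 1 : ℕ) : F) * a ^ (n + 1) =
          b * (a * s36_tri_S a b n - (n : F) * a ^ n) + (n : F) * a ^ n * (b - a) := by
        simp only [s36_tri_S]; push_cast; ring
      rw [e]
      exact hL.add _ _ (hL.mul _ _ hb ih)
        (hL.mul _ _ (R.mul_mem (natCast_mem R n) (R.pow_mem ha n)) hab)
  set S := s36_tri_S a b m with hS
  have hman : ((m : F) * a ^ m)⁻¹ ∈ R := by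
    rw [mul_inv, ← inv_pow]; exact R.mul_mem hmR (R.pow_mem ha' m)
  have hman0 : (m : F) * a ^ m ≠ 0 := mul_ne_zero hm0 (pow_ne_zero m ha0)
  have h1 : a * S / ((m : F) * a ^ m) - 1 ∈ I := by
    have e : a * S / ((m : F) * a ^ m) - 1 =
        ((m : F) * a ^ m)⁻¹ * (a * S - (m : F) * a ^ m) := by
      field_simp
    rw [e]; exact hL.mul _ _ hman (key m)
  obtain ⟨-, h3⟩ := hL.unit _ h1
  have hS0 : S ≠ 0 := by
    intro h0
    apply hL.ne_zero h1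
    rw [h0, mul_zero, zero_div]
  have hSinv : S⁻¹ ∈ R := by
    have e : S⁻¹ = (a * S / ((m : F) * a ^ m))⁻¹ * (a * ((m : F) * a ^ m)⁻¹) := by
      field_simp
    rw [e]; exact R.mul_mem h3 (R.mul_mem ha hman)
  refine ⟨S⁻¹, hSinv, fun γ => ?_⟩
  have h7 : S * (a - b) = a ^ m - b ^ m := s36_tri_S_mul a b m
  field_simp
  linear_combination h7

/-- **Three-branch Chinese remaindering of `m`-th roots.**  Units `a`, `b`, `c` of the local ring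
`R`, congruent modulo the maximal ideal `I`, with `a ^ m ≡ γ` modulo `I`: there is `r` with
`r - a ∈ R (a^m - γ)`, `r - b ∈ R (b^m - γ)`, `r - c ∈ R (c^m - γ)`. -/
theorem s36_tri_crt {R : Subring F} {I : Set F} (hL : s36_TriLoc R I) (m : ℕ)
    (hmR : ((m : F))⁻¹ ∈ R) (hm0 : (m : F) ≠ 0) (a b c γ : F) (ha : a ∈ R) (ha' : a⁻¹ ∈ R)
    (ha0 : a ≠ 0) (hb : b ∈ R) (hc : c ∈ R) (hab : b - a ∈ I) (hac : c - a ∈ I)
    (hγ : a ^ m - γ ∈ I) :
    ∃ r eA eB eC : F, eA ∈ R ∧ eB ∈ R ∧ eC ∈ R ∧ r - a = eA * (a ^ m - γ) ∧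
      r - b = eB * (b ^ m - γ) ∧ r - c = eC * (c ^ m - γ) := by
  obtain ⟨c₁, hc₁, h₁⟩ := s36_tri_crt_step hL m hmR hm0 a b ha ha' ha0 hb hab
  set r₁ := a - c₁ * (a ^ m - γ) with hr₁
  have hr₁a : r₁ - a ∈ I := by
    have e : r₁ - a = (-c₁) * (a ^ m - γ) := by rw [hr₁]; ring
    rw [e]; exact hL.mul _ _ (R.neg_mem hc₁) hγ
  obtain ⟨hr₁R, hr₁R', hr₁0, -⟩ := hL.unit_of_sub ha ha' ha0 hr₁a
  have hcr₁ : c - r₁ ∈ I := by
    have e : c - r₁ = (c - a) - (r₁ - a) := by ring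
    rw [e]; exact hL.sub hac hr₁a
  obtain ⟨c₂, hc₂, h₂⟩ := s36_tri_crt_step hL m hmR hm0 r₁ c hr₁R hr₁R' hr₁0 hc hcr₁
  -- `r₁^m - γ` as a multiple of `a^m - γ` and of `b^m - γ`
  have hTa : r₁ ^ m - γ = (1 - c₁ * s36_tri_S r₁ a m) * (a ^ m - γ) := by
    have h := s36_tri_S_mul r₁ a m
    have e : r₁ - a = -(c₁ * (a ^ m - γ)) := by rw [hr₁]; ring
    rw [e] at h
    linear_combination -h
  have hTb : r₁ ^ m - γ = (1 - c₁ * s36_tri_S r₁ b m) * (b ^ m - γ) := by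
    have h := s36_tri_S_mul r₁ b m
    rw [h₁ γ] at h
    linear_combination -h
  refine ⟨r₁ - c₂ * (r₁ ^ m - γ), -(c₁ + c₂ * (1 - c₁ * s36_tri_S r₁ a m)),
    -(c₁ + c₂ * (1 - c₁ * s36_tri_S r₁ b m)), -c₂, ?_, ?_, R.neg_mem hc₂, ?_, ?_, ?_⟩
  · exact R.neg_mem (R.add_mem hc₁ (R.mul_mem hc₂ (R.sub_mem R.one_mem
      (R.mul_mem hc₁ (s36_tri_S_mem R hr₁R ha m)))))
  · exact R.neg_mem (R.add_mem hc₁ (R.mul_mem hc₂ (R.sub_mem R.one_mem
      (R.mul_mem hc₁ (s36_tri_S_mem R hr₁R hb m)))))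
  · have e : r₁ - a = -(c₁ * (a ^ m - γ)) := by rw [hr₁]; ring
    linear_combination e - c₂ * hTa
  · linear_combination h₁ γ - c₂ * hTb
  · linear_combination h₂ γ

/-! ### Branch lifting -/

/-- Branch lifting in multiplicative form: if the branch `R / (R ∩ d V)` is `m`-root closed in
the residue field of `V` (`hA`, the hypothesis of `s35_nf_main`), an `x` with `x ^ m ≡ w`
(`w ∈ Rˣ`) is congruent to a unit of `R`. -/
theorem s36_tri_lift {d : F} {V : Subring F} (hV : s34_Unif d V) (R : Subring F) (hRV : R ≤ V)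
    (m : ℕ) (hm : 0 < m)
    (hA : ∀ x w : F, w ∈ R → w⁻¹ ∈ R → d⁻¹ * (x ^ m - w) ∈ V →
      ∃ y : F, y ∈ R ∧ y⁻¹ ∈ R ∧ d⁻¹ * (x - y) ∈ V)
    (x w : F) (hw : w ∈ R) (hw' : w⁻¹ ∈ R) (h : s35_fa_one d V (x ^ m / w)) :
    ∃ y : F, y ∈ R ∧ y⁻¹ ∈ R ∧ s35_fa_one d V (x / y) := by
  have hne := h.ne_zero hV
  have hw0 : w ≠ 0 := by
    rintro rfl
    exact hne (div_zero _)
  have hx0 : x ≠ 0 := by
    rintro rfl
    apply hne
    rw [zero_pow hm.ne', zero_div]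
  obtain ⟨y, hy, hy', hxy⟩ := hA x w hw hw' (h.to_cg hw0 (hRV hw))
  have hy0 : y ≠ 0 := by
    rintro rfl
    rw [sub_zero] at hxy
    -- `x ∈ d V`, but `x ^ m` is a unit of `V`
    have hxm : (x ^ m)⁻¹ ∈ V := by
      have e : (x ^ m)⁻¹ = (x ^ m / w)⁻¹ * w⁻¹ := by field_simp
      rw [e]; exact V.mul_mem (h.inv_mem hV) (hRV hw')
    have hxV : x ∈ V := by
      have e : x = d * (d⁻¹ * x) := by
        have := hV.ne_zero
        field_simp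
      rw [e]; exact V.mul_mem hV.mem hxy
    obtain ⟨m', rfl⟩ : ∃ m', m = m' + 1 := ⟨m - 1, by omega⟩
    apply hV.inv_not_mem
    have e : d⁻¹ = d⁻¹ * x * (x ^ m' * (x ^ (m' + 1))⁻¹) := by
      have := hV.ne_zero
      field_simp
      ring
    rw [e]; exact V.mul_mem hxy (V.mul_mem (V.pow_mem hxV m') hxm)
  exact ⟨y, hy, hy', s35_fa_one.of_cg hxy hy0 (hRV hy')⟩

/-! ### The relation coming from one degeneracy map -/

/-- The norm of an inverse. -/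
theorem s36_tri_nm_inv {F' : Type*} [Field F'] (Nm : F →* F') {x : F} (hx : x ≠ 0) :
    Nm x⁻¹ = (Nm x)⁻¹ := by
  have h : Nm x⁻¹ * Nm x = 1 := by rw [← map_mul, inv_mul_cancel₀ hx, map_one]
  exact eq_inv_of_mul_eq_one_left h

/-- **The point relation for one degeneracy map** `ι : F' →+* F` with norm `Nm`.

`V₁` lies over `Vi` with `e = f = 1`, `V₃` lies over `Vi` with ramification index `p + 1`
(residue degree one), `V₂` lies over `V0` with purely inseparable residue extension of degree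
`p + 1`; these facts enter through the global lifting hypotheses `hG₁`, `hG₃`, `hG₂` and the
norm–residue congruences `hN₁₃`, `hN₂`.  `R` is the local ring at the triple point, `R'` the local
ring of the level-`q` chart below it (`hroot'`: `m`-root closed; `hNunit`: norms of units of `R`
are in `R'`; `hE₁`, `hE₃`, `hE₂`: the local lifting properties), `K` the congruence
`≡ 1` modulo the maximal ideal of `R`. -/
theorem s36_tri_rel {F' : Type*} [Field F'] (ι : F' →+* F) (Nm : F →* F')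
    {d₁ d₂ d₃ : F} {ϖ' : F'} {V₁ V₂ V₃ : Subring F} {Vi V0 : Subring F'}
    (hV₁ : s34_Unif d₁ V₁) (hV₂ : s34_Unif d₂ V₂) (hV₃ : s34_Unif d₃ V₃)
    (hVi : s34_Unif ϖ' Vi) (hV0 : s34_Unif ϖ' V0)
    (hιi₁ : ∀ x ∈ Vi, ι x ∈ V₁) (hιi₃ : ∀ x ∈ Vi, ι x ∈ V₃) (hι0₂ : ∀ x ∈ V0, ι x ∈ V₂)
    (hd₁ : d₁⁻¹ * ι ϖ' ∈ V₁) (hd₂ : d₂⁻¹ * ι ϖ' ∈ V₂)
    (R : Subring F)
    (R' : Subring F') (hR'i : R' ≤ Vi) (hR'0 : R' ≤ V0) (hιR : ∀ x ∈ R', ι x ∈ R)
    (K : F → Prop) (hKmul : ∀ x y, K x → K y → K (x * y)) (hKinv : ∀ x, K x → K x⁻¹)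
    (hK₁ : ∀ x, x ∈ R → x⁻¹ ∈ R → s35_fa_one d₁ V₁ x → K x)
    (hK₂ : ∀ x, x ∈ R → x⁻¹ ∈ R → s35_fa_one d₂ V₂ x → K x)
    (hK₃ : ∀ x, x ∈ R → x⁻¹ ∈ R → s35_fa_one d₃ V₃ x → K x)
    (m p : ℕ)
    (hroot' : ∀ y : F', y ^ m ∈ R' → y ∈ R')
    (hNunit : ∀ y, y ∈ R → y⁻¹ ∈ R → Nm y ∈ R')
    (hE₁ : ∀ y, y ∈ R → y⁻¹ ∈ R →
      ∃ y' : F', y' ∈ R' ∧ y'⁻¹ ∈ R' ∧ s35_fa_one d₁ V₁ (y / ι y'))
    (hE₃ : ∀ y, y ∈ R → y⁻¹ ∈ R →
      ∃ y' : F', y' ∈ R' ∧ y'⁻¹ ∈ R' ∧ s35_fa_one d₃ V₃ (y / ι y'))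
    (hE₂ : ∀ y, y ∈ R → y⁻¹ ∈ R →
      ∃ y' : F', y' ∈ R' ∧ y'⁻¹ ∈ R' ∧ s35_fa_one d₂ V₂ (y ^ (p + 1) / ι y'))
    (hG₁ : ∀ y, y ∈ V₁ → y⁻¹ ∈ V₁ →
      ∃ a : F', a ∈ Vi ∧ a⁻¹ ∈ Vi ∧ s35_fa_one d₁ V₁ (y / ι a))
    (hG₃ : ∀ y, y ∈ V₃ → y⁻¹ ∈ V₃ →
      ∃ c : F', c ∈ Vi ∧ c⁻¹ ∈ Vi ∧ s35_fa_one d₃ V₃ (y / ι c))
    (hG₂ : ∀ y, y ∈ V₂ → y⁻¹ ∈ V₂ →
      ∃ b : F', b ∈ V0 ∧ b⁻¹ ∈ V0 ∧ s35_fa_one d₂ V₂ (y ^ (p + 1) / ι b))
    (hN₁₃ : ∀ (h : F) (a c : F'), a ∈ Vi → a⁻¹ ∈ Vi → c ∈ Vi → c⁻¹ ∈ Vi →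
      s35_fa_one d₁ V₁ (h / ι a) → s35_fa_one d₃ V₃ (h / ι c) →
      s35_fa_one ϖ' Vi (Nm h / (a * c ^ p)))
    (hN₂ : ∀ (h : F) (b : F'), b ∈ V0 → b⁻¹ ∈ V0 →
      s35_fa_one d₂ V₂ (h ^ (p + 1) / ι b) → s35_fa_one ϖ' V0 (Nm h / b))
    (g G Ψ₁ Ψ₂ Ψ₃ r₁ r₂ r₃ : F) (f ψ : F')
    (hg0 : g ≠ 0) (hG0 : G ≠ 0)
    (hG₁V : G ∈ V₁) (hG₁V' : G⁻¹ ∈ V₁) (hG₂V : G ∈ V₂) (hG₂V' : G⁻¹ ∈ V₂)
    (hG₃V : G ∈ V₃) (hG₃V' : G⁻¹ ∈ V₃)
    (hw : g * (G⁻¹) ^ m ∈ R) (hw' : G ^ m * g⁻¹ ∈ R)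
    (hNg : Nm g = f ^ m)
    (hfi' : f⁻¹ ∈ Vi) (hf0' : f⁻¹ ∈ V0)
    (hψ : ψ ∈ Vi) (hψ' : ψ⁻¹ ∈ Vi)
    (hΨ₁ : s35_fa_one d₁ V₁ (Ψ₁ / ι ψ))
    (hΨ₂ : s35_fa_one d₂ V₂ (Ψ₂ ^ (p + 1) / ι f))
    (hΨ₃ : s35_fa_one d₃ V₃ (Ψ₃ / ι (f / ψ)))
    (hr₁ : r₁ ∈ R) (hr₁' : r₁⁻¹ ∈ R) (hr₂ : r₂ ∈ R) (hr₂' : r₂⁻¹ ∈ R)
    (hr₃ : r₃ ∈ R) (hr₃' : r₃⁻¹ ∈ R)
    (hl₁ : s35_fa_one d₁ V₁ (Ψ₁ / (G * r₁)))
    (hl₂ : s35_fa_one d₂ V₂ (Ψ₂ / (G * r₂)))
    (hl₃ : s35_fa_one d₃ V₃ (Ψ₃ / (G ^ p * r₃))) :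
    K (r₁ * r₃ / r₂ ^ (p + 1)) := by
  have hϖ'0 : ϖ' ≠ 0 := hVi.ne_zero
  -- nonvanishing
  have hNG0 : Nm G ≠ 0 := by
    intro h0
    have h1 : Nm G * Nm G⁻¹ = 1 := by rw [← map_mul, mul_inv_cancel₀ hG0, map_one]
    rw [h0, zero_mul] at h1
    exact zero_ne_one h1
  have hf0ne : f ≠ 0 := by
    intro h0
    have h1 : Nm g * Nm g⁻¹ = 1 := by rw [← map_mul, mul_inv_cancel₀ hg0, map_one]
    rw [hNg, h0] at h1
    by_cases hm0 : m = 0
    · -- then `w = g` is a unit of `R`; `f = 0` contradicts `hΨ₂`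
      have := (s36_tri_unit hV₂ hΨ₂).1
      rw [h0, map_zero, div_zero] at this
      exact this rfl
    · rw [zero_pow hm0, zero_mul] at h1
      exact zero_ne_one h1
  have hιf0 : ι f ≠ 0 := (map_ne_zero ι).mpr hf0ne
  have hψ0 : ψ ≠ 0 := by
    intro h0
    have := (s36_tri_unit hV₁ hΨ₁).1
    rw [h0, map_zero, div_zero] at this
    exact this rfl
  have hιψ0 : ι ψ ≠ 0 := (map_ne_zero ι).mpr hψ0
  have hΨ₁0 : Ψ₁ ≠ 0 := by
    intro h0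
    have := (s36_tri_unit hV₁ hΨ₁).1
    rw [h0, zero_div] at this
    exact this rfl
  have hΨ₂0 : Ψ₂ ≠ 0 := by
    intro h0
    have := (s36_tri_unit hV₂ hΨ₂).1
    rw [h0, zero_pow (Nat.succ_ne_zero p), zero_div] at this
    exact this rfl
  have hΨ₃0 : Ψ₃ ≠ 0 := by
    intro h0
    have := (s36_tri_unit hV₃ hΨ₃).1
    rw [h0, zero_div] at this
    exact this rfl
  have hr₁0 : r₁ ≠ 0 := by
    intro h0
    have := (s36_tri_unit hV₁ hl₁).1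
    rw [h0, mul_zero, div_zero] at this
    exact this rfl
  have hr₂0 : r₂ ≠ 0 := by
    intro h0
    have := (s36_tri_unit hV₂ hl₂).1
    rw [h0, mul_zero, div_zero] at this
    exact this rfl
  have hr₃0 : r₃ ≠ 0 := by
    intro h0
    have := (s36_tri_unit hV₃ hl₃).1
    rw [h0, mul_zero, div_zero] at this
    exact this rfl
  -- the unit `v₁ = f / Nm G` of `R'`
  have hNGinv : Nm G⁻¹ = (Nm G)⁻¹ := s36_tri_nm_inv Nm hG0
  have hNginv : Nm g⁻¹ = (Nm g)⁻¹ := s36_tri_nm_inv Nm hg0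
  have hv₁ : f / Nm G ∈ R' := by
    apply hroot'
    have e : (f / Nm G) ^ m = Nm (g * (G⁻¹) ^ m) := by
      rw [map_mul, map_pow, hNGinv, hNg, div_pow, inv_pow, div_eq_mul_inv]
    rw [e]
    refine hNunit _ hw ?_
    have e2 : (g * (G⁻¹) ^ m)⁻¹ = G ^ m * g⁻¹ := by
      rw [mul_inv, inv_pow, inv_inv, mul_comm]
    rw [e2]; exact hw'
  have hv₁' : (f / Nm G)⁻¹ ∈ R' := by
    apply hroot'
    have e : ((f / Nm G)⁻¹) ^ m = Nm (G ^ m * g⁻¹) := by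
      rw [map_mul, map_pow, hNginv, hNg, inv_div, div_pow, div_eq_mul_inv]
    rw [e]
    refine hNunit _ hw' ?_
    have e2 : (G ^ m * g⁻¹)⁻¹ = g * (G⁻¹) ^ m := by
      rw [mul_inv, inv_inv, inv_pow, mul_comm]
    rw [e2]; exact hw
  -- global lifts of `G`
  obtain ⟨a, ha, ha', hGa⟩ := hG₁ G hG₁V hG₁V'
  obtain ⟨c, hc, hc', hGc⟩ := hG₃ G hG₃V hG₃V'
  obtain ⟨b, hb, hb', hGb⟩ := hG₂ G hG₂V hG₂V'
  have ha0 : a ≠ 0 := by
    intro h0
    have := (s36_tri_unit hV₁ hGa).1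
    rw [h0, map_zero, div_zero] at this
    exact this rfl
  have hc0 : c ≠ 0 := by
    intro h0
    have := (s36_tri_unit hV₃ hGc).1
    rw [h0, map_zero, div_zero] at this
    exact this rfl
  have hb0 : b ≠ 0 := by
    intro h0
    have := (s36_tri_unit hV₂ hGb).1
    rw [h0, map_zero, div_zero] at this
    exact this rfl
  have hιa0 : ι a ≠ 0 := (map_ne_zero ι).mpr ha0
  have hιc0 : ι c ≠ 0 := (map_ne_zero ι).mpr hc0
  have hιb0 : ι b ≠ 0 := (map_ne_zero ι).mpr hb0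
  -- norm residue
  have hNi := hN₁₃ G a c ha ha' hc hc' hGa hGc
  have hN0 := hN₂ G b hb hb' hGb
  -- local lifts
  obtain ⟨s₁, hs₁, hs₁', hrs₁⟩ := hE₁ r₁ hr₁ hr₁'
  obtain ⟨s₃, hs₃, hs₃', hrs₃⟩ := hE₃ r₃ hr₃ hr₃'
  obtain ⟨s₂, hs₂, hs₂', hrs₂⟩ := hE₂ r₂ hr₂ hr₂'
  have hs₁0 : s₁ ≠ 0 := by
    intro h0
    have := (s36_tri_unit hV₁ hrs₁).1
    rw [h0, map_zero, div_zero] at this
    exact this rfl
  have hs₃0 : s₃ ≠ 0 := by
    intro h0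
    have := (s36_tri_unit hV₃ hrs₃).1
    rw [h0, map_zero, div_zero] at this
    exact this rfl
  have hs₂0 : s₂ ≠ 0 := by
    intro h0
    have := (s36_tri_unit hV₂ hrs₂).1
    rw [h0, map_zero, div_zero] at this
    exact this rfl
  have hιs₁0 : ι s₁ ≠ 0 := (map_ne_zero ι).mpr hs₁0
  have hιs₃0 : ι s₃ ≠ 0 := (map_ne_zero ι).mpr hs₃0
  have hιs₂0 : ι s₂ ≠ 0 := (map_ne_zero ι).mpr hs₂0
  -- branch 1: `a s₁ / ψ ∈ 1 + ϖ' Vi`
  have hb1 : s35_fa_one ϖ' Vi (a * s₁ / ψ) := by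
    have hmem : a * s₁ / ψ ∈ Vi := by
      rw [div_eq_mul_inv]; exact Vi.mul_mem (Vi.mul_mem ha (hR'i hs₁)) hψ'
    refine s36_tri_reflect ι hV₁ hVi hιi₁ hmem ?_
    have h := (((hGa.inv hV₁).mul hV₁ (hl₁.inv hV₁)).mul hV₁ hΨ₁).mul hV₁ (hrs₁.inv hV₁)
    refine s36_tri_congr h ?_
    simp only [map_div₀, map_mul, map_pow, div_pow, mul_pow]
    field_simp
  -- branch 3: `c^p s₃ ψ / f ∈ 1 + ϖ' Vi`
  have hb3 : s35_fa_one ϖ' Vi (c ^ p * s₃ * ψ / f) := by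
    have hmem : c ^ p * s₃ * ψ / f ∈ Vi := by
      rw [div_eq_mul_inv]
      exact Vi.mul_mem (Vi.mul_mem (Vi.mul_mem (Vi.pow_mem hc p) (hR'i hs₃)) hψ) hfi'
    refine s36_tri_reflect ι hV₃ hVi hιi₃ hmem ?_
    have h := ((((hGc.pow hV₃ p).inv hV₃).mul hV₃ (hl₃.inv hV₃)).mul hV₃ hΨ₃).mul hV₃
      (hrs₃.inv hV₃)
    refine s36_tri_congr h ?_
    simp only [map_div₀, map_mul, map_pow, div_pow, mul_pow]
    field_simp
  -- hence `s₁ s₃ / v₁ ∈ 1 + ϖ' Vi`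
  have hi : s35_fa_one ϖ' Vi (s₁ * s₃ / (f / Nm G)) := by
    have h := (hb1.mul hVi hb3).mul hVi hNi
    refine s36_tri_congr h ?_
    field_simp
  -- branch 2: `b s₂ / f ∈ 1 + ϖ' V0`
  have hb2 : s35_fa_one ϖ' V0 (b * s₂ / f) := by
    have hmem : b * s₂ / f ∈ V0 := by
      rw [div_eq_mul_inv]; exact V0.mul_mem (V0.mul_mem hb (hR'0 hs₂)) hf0'
    refine s36_tri_reflect ι hV₂ hV0 hι0₂ hmem ?_
    have h := (((hGb.inv hV₂).mul hV₂ ((hl₂.pow hV₂ (p + 1)).inv hV₂)).mul hV₂ hΨ₂).mul hV₂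
      (hrs₂.inv hV₂)
    refine s36_tri_congr h ?_
    simp only [map_div₀, map_mul, map_pow, div_pow, mul_pow]
    field_simp
  have h0 : s35_fa_one ϖ' V0 (s₂ / (f / Nm G)) := by
    have h := hb2.mul hV0 hN0
    refine s36_tri_congr h ?_
    field_simp
  -- transport to `R`
  have hv₁0 : f / Nm G ≠ 0 := div_ne_zero hf0ne hNG0
  have hKi : K (ι (s₁ * s₃ / (f / Nm G))) := by
    have hmem : s₁ * s₃ / (f / Nm G) ∈ R' := by
      rw [div_eq_mul_inv]; exact R'.mul_mem (R'.mul_mem hs₁ hs₃) hv₁'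
    have hmem' : (s₁ * s₃ / (f / Nm G))⁻¹ ∈ R' := by
      rw [inv_div, div_eq_mul_inv, mul_inv]
      exact R'.mul_mem hv₁ (R'.mul_mem hs₁' hs₃')
    refine hK₁ _ (hιR _ hmem) ?_ (s36_tri_map ι hιi₁ hd₁ hϖ'0 hi)
    rw [← map_inv₀]
    exact hιR _ hmem'
  have hK0 : K (ι (s₂ / (f / Nm G))) := by
    have hmem : s₂ / (f / Nm G) ∈ R' := by
      rw [div_eq_mul_inv]; exact R'.mul_mem hs₂ hv₁'
    have hmem' : (s₂ / (f / Nm G))⁻¹ ∈ R' := by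
      rw [inv_div, div_eq_mul_inv]
      exact R'.mul_mem hv₁ hs₂'
    refine hK₂ _ (hιR _ hmem) ?_ (s36_tri_map ι hι0₂ hd₂ hϖ'0 h0)
    rw [← map_inv₀]
    exact hιR _ hmem'
  have hK1 : K (r₁ / ι s₁) := by
    have hmem : r₁ / ι s₁ ∈ R := by
      rw [div_eq_mul_inv, ← map_inv₀]; exact R.mul_mem hr₁ (hιR _ hs₁')
    refine hK₁ _ hmem ?_ hrs₁
    rw [inv_div, div_eq_mul_inv]
    exact R.mul_mem (hιR _ hs₁) hr₁'
  have hK3 : K (r₃ / ι s₃) := by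
    have hmem : r₃ / ι s₃ ∈ R := by
      rw [div_eq_mul_inv, ← map_inv₀]; exact R.mul_mem hr₃ (hιR _ hs₃')
    refine hK₃ _ hmem ?_ hrs₃
    rw [inv_div, div_eq_mul_inv]
    exact R.mul_mem (hιR _ hs₃) hr₃'
  have hK2 : K (r₂ ^ (p + 1) / ι s₂) := by
    have hmem : r₂ ^ (p + 1) / ι s₂ ∈ R := by
      rw [div_eq_mul_inv, ← map_inv₀]; exact R.mul_mem (R.pow_mem hr₂ _) (hιR _ hs₂')
    refine hK₂ _ hmem ?_ hrs₂
    rw [inv_div, div_eq_mul_inv, ← inv_pow]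
    exact R.mul_mem (hιR _ hs₂) (R.pow_mem hr₂' _)
  have hfin := hKmul _ _ (hKmul _ _ (hKmul _ _ hK1 hK3) (hKinv _ hK2))
    (hKmul _ _ hKi (hKinv _ hK0))
  have e : r₁ / ι s₁ * (r₃ / ι s₃) * (r₂ ^ (p + 1) / ι s₂)⁻¹ *
      (ι (s₁ * s₃ / (f / Nm G)) * (ι (s₂ / (f / Nm G)))⁻¹) = r₁ * r₃ / r₂ ^ (p + 1) := by
    have hιv : ι (f / Nm G) ≠ 0 := (map_ne_zero ι).mpr hv₁0
    have hιNG : ι (Nm G) ≠ 0 := (map_ne_zero ι).mpr hNG0
    simp only [map_div₀, map_mul, map_pow, div_pow, mul_pow]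
    field_simp
  rw [e] at hfin
  exact hfin

/-! ### The local function `Θ` -/

/-- **The local function `Θ` at a triple point.**  `R` the local ring with maximal ideal `I`;
`g = w G ^ m` with `w ∈ Rˣ`; `Ψ_A`, `Ψ_B` branch `m`-th roots of `g`, `Ψ_C` a branch `m`-th root
of `g ^ p`; `r_A`, `r_B`, `r_C` units of `R` with `Ψ_A ≡ G r_A`, `Ψ_B ≡ G r_B`, `Ψ_C ≡ G ^ p r_C`;
`ξ` an `m`-th root of unity in `R`; and the two point relations `r_A r_C ≡ r_B ^ (p+1)`,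
`ξ r_B r_C ≡ r_A ^ (p+1)` modulo `I` (from `s36_tri_rel` for the two degeneracy maps).  Then
`Θ := r G ^ (p (p + 2))` (`r ∈ Rˣ` from the three-branch Chinese remainder theorem) is congruent
to `Ψ_A ^ (p (p+2))`, `ξ ^ p Ψ_B ^ (p (p+2))`, `ξ ^ (p+1) Ψ_C ^ (p+2)` on the three branches
and `g ^ (p (p+2)) / Θ ^ m` is a unit of `R`. -/
theorem s36_tri_theta {dA dB dC : F} {VA VB VC : Subring F}
    (hVA : s34_Unif dA VA) (hVB : s34_Unif dB VB) (hVC : s34_Unif dC VC)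
    (R : Subring F) (hRA : R ≤ VA) (hRB : R ≤ VB) (hRC : R ≤ VC)
    (I : Set F) (hL : s36_TriLoc R I)
    (hKA : ∀ x, x ∈ R → x⁻¹ ∈ R → s35_fa_one dA VA x → x - 1 ∈ I)
    (m p : ℕ) (hmR : ((m : F))⁻¹ ∈ R) (hm0 : (m : F) ≠ 0)
    (g G ΨA ΨB ΨC ξ rA rB rC : F) (hg0 : g ≠ 0) (hG0 : G ≠ 0)
    (hw : g * (G⁻¹) ^ m ∈ R) (hw' : G ^ m * g⁻¹ ∈ R)
    (hξ : ξ ∈ R) (hξm : ξ ^ m = 1)
    (hrA : rA ∈ R) (hrA' : rA⁻¹ ∈ R) (hrB : rB ∈ R) (hrB' : rB⁻¹ ∈ R)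
    (hrC : rC ∈ R) (hrC' : rC⁻¹ ∈ R)
    (hΨA : s35_fa_one dA VA (g / ΨA ^ m)) (hΨB : s35_fa_one dB VB (g / ΨB ^ m))
    (hΨC : s35_fa_one dC VC (g ^ p / ΨC ^ m))
    (hlA : s35_fa_one dA VA (ΨA / (G * rA))) (hlB : s35_fa_one dB VB (ΨB / (G * rB)))
    (hlC : s35_fa_one dC VC (ΨC / (G ^ p * rC)))
    (hα : rA * rC / rB ^ (p + 1) - 1 ∈ I) (hβ : ξ * rB * rC / rA ^ (p + 1) - 1 ∈ I) :
    ∃ Θ : F, Θ ≠ 0 ∧ s35_fa_one dA VA (Θ / ΨA ^ (p * (p + 2))) ∧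
      s35_fa_one dB VB (Θ / (ξ ^ p * ΨB ^ (p * (p + 2)))) ∧
      s35_fa_one dC VC (Θ / (ξ ^ (p + 1) * ΨC ^ (p + 2))) ∧
      g ^ (p * (p + 2)) * (Θ⁻¹) ^ m ∈ R ∧ Θ ^ m * (g ^ (p * (p + 2)))⁻¹ ∈ R := by
  -- nonvanishing
  have hm1 : m ≠ 0 := by
    rintro rfl
    exact hm0 (by simp)
  have hξ0 : ξ ≠ 0 := by
    rintro rfl
    rw [zero_pow hm1] at hξm
    exact zero_ne_one hξm
  have hξ' : ξ⁻¹ ∈ R := by
    obtain ⟨m', rfl⟩ : ∃ m', m = m' + 1 := ⟨m - 1, by omega⟩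
    have e : ξ⁻¹ = ξ ^ m' := by
      have h1 : ξ ^ m' * ξ = 1 := by rw [← pow_succ]; exact hξm
      exact inv_eq_of_mul_eq_one_left h1
    rw [e]; exact R.pow_mem hξ m'
  have hΨA0 : ΨA ≠ 0 := by
    intro h0
    have := (s36_tri_unit hVA hlA).1
    rw [h0, zero_div] at this
    exact this rfl
  have hΨB0 : ΨB ≠ 0 := by
    intro h0
    have := (s36_tri_unit hVB hlB).1
    rw [h0, zero_div] at this
    exact this rfl
  have hΨC0 : ΨC ≠ 0 := by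
    intro h0
    have := (s36_tri_unit hVC hlC).1
    rw [h0, zero_div] at this
    exact this rfl
  have hrA0 : rA ≠ 0 := by
    intro h0
    have := (s36_tri_unit hVA hlA).1
    rw [h0, mul_zero, div_zero] at this
    exact this rfl
  have hrB0 : rB ≠ 0 := by
    intro h0
    have := (s36_tri_unit hVB hlB).1
    rw [h0, mul_zero, div_zero] at this
    exact this rfl
  have hrC0 : rC ≠ 0 := by
    intro h0
    have := (s36_tri_unit hVC hlC).1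
    rw [h0, mul_zero, div_zero] at this
    exact this rfl
  -- the unit `w` and `γ = w ^ (p (p+2))`
  set w : F := g * (G⁻¹) ^ m with hwdef
  have hw0 : w ≠ 0 := mul_ne_zero hg0 (pow_ne_zero m (inv_ne_zero hG0))
  have hwinv : w⁻¹ = G ^ m * g⁻¹ := by
    rw [hwdef, mul_inv, inv_pow, inv_inv, mul_comm]
  have hwR' : w⁻¹ ∈ R := by rw [hwinv]; exact hw'
  set N : ℕ := p * (p + 2) with hN
  set γ : F := w ^ N with hγ
  have hγ0 : γ ≠ 0 := pow_ne_zero N hw0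
  have hγR : γ ∈ R := R.pow_mem hw N
  have hγR' : γ⁻¹ ∈ R := by rw [hγ, ← inv_pow]; exact R.pow_mem hwR' N
  -- the three corrected local roots
  set a : F := rA ^ N with ha
  set b : F := ξ ^ p * rB ^ N with hb
  set c : F := ξ ^ (p + 1) * rC ^ (p + 2) with hc
  have haR : a ∈ R := R.pow_mem hrA N
  have haR' : a⁻¹ ∈ R := by rw [ha, ← inv_pow]; exact R.pow_mem hrA' N
  have ha0 : a ≠ 0 := pow_ne_zero N hrA0
  have hbR : b ∈ R := R.mul_mem (R.pow_mem hξ p) (R.pow_mem hrB N)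
  have hbR' : b⁻¹ ∈ R := by
    rw [hb, mul_inv, ← inv_pow, ← inv_pow]
    exact R.mul_mem (R.pow_mem hξ' p) (R.pow_mem hrB' N)
  have hb0 : b ≠ 0 := mul_ne_zero (pow_ne_zero p hξ0) (pow_ne_zero N hrB0)
  have hcR : c ∈ R := R.mul_mem (R.pow_mem hξ (p + 1)) (R.pow_mem hrC (p + 2))
  have hcR' : c⁻¹ ∈ R := by
    rw [hc, mul_inv, ← inv_pow, ← inv_pow]
    exact R.mul_mem (R.pow_mem hξ' (p + 1)) (R.pow_mem hrC' (p + 2))
  have hc0 : c ≠ 0 := mul_ne_zero (pow_ne_zero (p + 1) hξ0) (pow_ne_zero (p + 2) hrC0)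
  have hξpow : ∀ k : ℕ, (ξ ^ k) ^ m = 1 := by
    intro k
    rw [← pow_mul, mul_comm, pow_mul, hξm, one_pow]
  -- `a ^ m ≡ γ`, `b ^ m ≡ γ`, `c ^ m ≡ γ` on the branches
  have hAroot : s35_fa_one dA VA (a ^ m / γ) := by
    have h := (((hΨA.mul hVA (hlA.pow hVA m)).inv hVA).pow hVA N)
    refine s36_tri_congr h ?_
    rw [ha, hγ, hwdef]
    simp only [div_pow, mul_pow, inv_pow]
    field_simp
    ring
  have hBroot : s35_fa_one dB VB (b ^ m / γ) := by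
    have h := (((hΨB.mul hVB (hlB.pow hVB m)).inv hVB).pow hVB N)
    refine s36_tri_congr h ?_
    have e : b ^ m = (rB ^ N) ^ m := by rw [hb, mul_pow, hξpow, one_mul]
    rw [e, hγ, hwdef]
    simp only [div_pow, mul_pow, inv_pow]
    field_simp
    ring
  have hCroot : s35_fa_one dC VC (c ^ m / γ) := by
    have h := (((hΨC.mul hVC (hlC.pow hVC m)).inv hVC).pow hVC (p + 2))
    refine s36_tri_congr h ?_
    have e : c ^ m = (rC ^ (p + 2)) ^ m := by rw [hc, mul_pow, hξpow, one_mul]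
    rw [e, hγ, hwdef, hN]
    simp only [div_pow, mul_pow, inv_pow]
    field_simp
    ring
  -- residues
  have hκ : ξ * rB ^ (p + 2) / rA ^ (p + 2) - 1 ∈ I := by
    have h := hL.one_div hβ hα
    have e : ξ * rB * rC / rA ^ (p + 1) / (rA * rC / rB ^ (p + 1)) =
        ξ * rB ^ (p + 2) / rA ^ (p + 2) := by
      rw [div_div_div_eq, div_eq_div_iff (mul_ne_zero (pow_ne_zero _ hrA0)
        (mul_ne_zero hrA0 hrC0)) (pow_ne_zero _ hrA0)]
      ring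
    rwa [e] at h
  have hba : b / a - 1 ∈ I := by
    have h := hL.one_pow hκ p
    have e : (ξ * rB ^ (p + 2) / rA ^ (p + 2)) ^ p = b / a := by
      rw [hb, ha, hN, div_pow, div_eq_div_iff (pow_ne_zero _ (pow_ne_zero _ hrA0))
        (pow_ne_zero _ hrA0)]
      ring
    rwa [e] at h
  have hca : c / a - 1 ∈ I := by
    have h := hL.one_mul (hL.one_pow hα (p + 2)) (hL.one_pow hκ (p + 1))
    have e : (rA * rC / rB ^ (p + 1)) ^ (p + 2) * (ξ * rB ^ (p + 2) / rA ^ (p + 2)) ^ (p + 1) =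
        c / a := by
      rw [hc, ha, hN, div_pow, div_pow, div_mul_div_comm,
        div_eq_div_iff (mul_ne_zero (pow_ne_zero _ (pow_ne_zero _ hrB0))
          (pow_ne_zero _ (pow_ne_zero _ hrA0))) (pow_ne_zero _ hrA0)]
      ring
    rwa [e] at h
  have hbaI : b - a ∈ I := by
    have e : b - a = a * (b / a - 1) := by field_simp
    rw [e]; exact hL.mul _ _ haR hba
  have hcaI : c - a ∈ I := by
    have e : c - a = a * (c / a - 1) := by field_simp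
    rw [e]; exact hL.mul _ _ haR hca
  have hγI : a ^ m - γ ∈ I := by
    have h1 : a ^ m / γ - 1 ∈ I := by
      refine hKA _ ?_ ?_ hAroot
      · rw [div_eq_mul_inv]; exact R.mul_mem (R.pow_mem haR m) hγR'
      · rw [inv_div, div_eq_mul_inv, ← inv_pow]; exact R.mul_mem hγR (R.pow_mem haR' m)
    have e : a ^ m - γ = γ * (a ^ m / γ - 1) := by field_simp
    rw [e]; exact hL.mul _ _ hγR h1
  -- Chinese remainder theorem
  obtain ⟨r, eA, eB, eC, heA, heB, heC, hrA1, hrB1, hrC1⟩ :=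
    s36_tri_crt hL m hmR hm0 a b c γ haR haR' ha0 hbR hcR hbaI hcaI hγI
  have hraI : r - a ∈ I := by rw [hrA1]; exact hL.mul _ _ heA hγI
  obtain ⟨hrR, hrR', hr0, -⟩ := hL.unit_of_sub haR haR' ha0 hraI
  -- branchwise congruences `r ≡ a, b, c`
  have hbr : ∀ {d : F} {V : Subring F} (hV : s34_Unif d V) (_ : R ≤ V) (x e : F)
      (_ : x ∈ R) (_ : x⁻¹ ∈ R) (_ : x ≠ 0) (_ : e ∈ R) (_ : r - x = e * (x ^ m - γ))
      (_ : s35_fa_one d V (x ^ m / γ)), s35_fa_one d V (r / x) := by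
    intro d V hV hRV x e hx hx' hx0 he hrx hroot
    have h1 : d⁻¹ * (x ^ m - γ) ∈ V := hroot.to_cg hγ0 (hRV hγR)
    have h2 : d⁻¹ * (r - x) ∈ V := by
      have e2 : d⁻¹ * (r - x) = e * (d⁻¹ * (x ^ m - γ)) := by rw [hrx]; ring
      rw [e2]; exact V.mul_mem (hRV he) h1
    exact s35_fa_one.of_cg h2 hx0 (hRV hx')
  have hrAone := hbr hVA hRA a eA haR haR' ha0 heA hrA1 hAroot
  have hrBone := hbr hVB hRB b eB hbR hbR' hb0 heB hrB1 hBroot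
  have hrCone := hbr hVC hRC c eC hcR hcR' hc0 heC hrC1 hCroot
  refine ⟨r * G ^ N, mul_ne_zero hr0 (pow_ne_zero N hG0), ?_, ?_, ?_, ?_, ?_⟩
  · have h := hrAone.mul hVA ((hlA.inv hVA).pow hVA N)
    refine s36_tri_congr h ?_
    rw [ha]
    simp only [div_pow, mul_pow, inv_pow]
    field_simp
  · have h := hrBone.mul hVB ((hlB.inv hVB).pow hVB N)
    refine s36_tri_congr h ?_
    rw [hb]
    simp only [div_pow, mul_pow, inv_pow]
    field_simp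
  · have h := hrCone.mul hVC ((hlC.inv hVC).pow hVC (p + 2))
    refine s36_tri_congr h ?_
    rw [hc, hN]
    simp only [div_pow, mul_pow, inv_pow]
    field_simp
    ring
  · have e : g ^ N * ((r * G ^ N)⁻¹) ^ m = γ * (r⁻¹) ^ m := by
      rw [hγ, hwdef]
      simp only [mul_pow, inv_pow, mul_inv]
      field_simp
      ring
    rw [e]; exact R.mul_mem hγR (R.pow_mem hrR' m)
  · have e : (r * G ^ N) ^ m * (g ^ N)⁻¹ = r ^ m * γ⁻¹ := by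
      rw [hγ, hwdef]
      simp only [mul_pow, inv_pow, mul_inv]
      field_simp
      ring
    rw [e]; exact R.mul_mem (R.pow_mem hrR m) hγR'

end Fermat.Agent.S36
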