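import Mathlib
import Fermat.Agent.S35.NodeFrob
import Fermat.Agent.S36.TriFun
import Fermat.Agent.S36.PowModel

/-!
# S36 (NODE-3), TRI36 bridge: the contract `s36_pm_TriOut` from local data at a triple point

`s36_pt_triOut` proves the named contract `s36_pm_TriOut` (the only function-dependent input of
`s36_pow_of_model` at a triple point `𝔪` of a chart `B`) from

* the global data of `s36_pow_of_model` (components `V_A`, `V_B`, `V_C`, residue hypotheses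
  `hresA`, `hresC`, `hresB`, norm residues `hNRram`, `hNRins`, the swap `W`);
* the local factorisation `hGloc` of a function with `m`-divisible horizontal divisor;
* the branch hypotheses `hLA`, `hLB`, `hLC` (shape of `hA₁` of `s35_nf_main`);
* for each of the two degeneracy maps `ι` and `W ∘ ι` a local ring `R'` of the level below with
  the data `s36_pt_Below` (local version of the residue hypotheses, `m`-root closedness of `R'`,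
  norms of units of `B_𝔪` lie in `R'`).

The proof combines `s36_tri_lift`, a corrected copy `s36_pt_rel0` of `s36_tri_rel` (the lifting
hypotheses are restricted to nonzero elements) applied twice, and `s36_tri_theta`.
-/

set_option autoImplicit false

namespace Fermat.Agent.S36

open Fermat.Agent.S18 Fermat.Agent.S34 Fermat.Agent.S35

section Rel

variable {F' F : Type*} [Field F'] [Field F]

/-- **Local data below a triple point for one degeneracy map** `j : F' → F` with norm `N`.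
`R` is the local ring at the triple point, `R'` the local ring of the level below:
`R'` lies in both components `Vi`, `V0`; `j R' ⊆ R`; `R'` is `m`-root closed; norms of units of
`R` lie in `R'`; and the three local lifting properties (the branch of `V₁` and of `V₃` at the
point maps isomorphically to the branch of `Vi`, the branch of `V₂` purely inseparably of degree
`p + 1` to the branch of `V0`). -/
structure s36_pt_Below (j : F' → F) (N : F → F') (d₁ d₂ d₃ : F) (V₁ V₂ V₃ : Subring F)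
    (Vi V0 : Subring F') (R : Subring F) (m p : ℕ) (R' : Subring F') : Prop where
  le_i : R' ≤ Vi
  le_0 : R' ≤ V0
  map : ∀ x ∈ R', j x ∈ R
  root : ∀ y : F', y ^ m ∈ R' → y ∈ R'
  norm : ∀ y, y ∈ R → y⁻¹ ∈ R → N y ∈ R'
  ext₁ : ∀ y, y ≠ 0 → y ∈ R → y⁻¹ ∈ R →
    ∃ y' : F', y' ∈ R' ∧ y'⁻¹ ∈ R' ∧ s35_fa_one d₁ V₁ (y / j y')
  ext₃ : ∀ y, y ≠ 0 → y ∈ R → y⁻¹ ∈ R →
    ∃ y' : F', y' ∈ R' ∧ y'⁻¹ ∈ R' ∧ s35_fa_one d₃ V₃ (y / j y')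
  ext₂ : ∀ y, y ≠ 0 → y ∈ R → y⁻¹ ∈ R →
    ∃ y' : F', y' ∈ R' ∧ y'⁻¹ ∈ R' ∧ s35_fa_one d₂ V₂ (y ^ (p + 1) / j y')

/-- **The point relation for one degeneracy map** (`s36_tri_rel` with the lifting hypotheses
restricted to nonzero elements). -/
theorem s36_pt_rel0 {F' : Type*} [Field F'] (ι : F' →+* F) (Nm : F →* F')
    {d₁ d₂ d₃ : F} {ϖ' : F'} {V₁ V₂ V₃ : Subring F} {Vi V0 : Subring F'}
    (hV₁ : s34_Unif d₁ V₁) (hV₂ : s34_Unif d₂ V₂) (hV₃ : s34_Unif d₃ V₃)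
    (hVi : s34_Unif ϖ' Vi) (hV0 : s34_Unif ϖ' V0)
    (hιi₁ : ∀ x ∈ Vi, ι x ∈ V₁) (hιi₃ : ∀ x ∈ Vi, ι x ∈ V₃) (hι0₂ : ∀ x ∈ V0, ι x ∈ V₂)
    (hd₁ : d₁⁻¹ * ι ϖ' ∈ V₁) (hd₂ : d₂⁻¹ * ι ϖ' ∈ V₂)
    (R : Subring F)
    (R' : Subring F') (hR'i : R' ≤ Vi) (hR'0 : R' ≤ V0) (hιR : ∀ x ∈ R', ι x ∈ R)
    (K : F → Prop) (hKmul : ∀ x y, K x → K y → K (x * y)) (hKinv : ∀ x, K x → K x⁻¹)
    (hK₁ : ∀ x, x ∈ R → x⁻¹ ∈ R → s35_fa_one d₁ V₁ x → K x)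
    (hK₂ : ∀ x, x ∈ R → x⁻¹ ∈ R → s35_fa_one d₂ V₂ x → K x)
    (hK₃ : ∀ x, x ∈ R → x⁻¹ ∈ R → s35_fa_one d₃ V₃ x → K x)
    (m p : ℕ)
    (hroot' : ∀ y : F', y ^ m ∈ R' → y ∈ R')
    (hNunit : ∀ y, y ∈ R → y⁻¹ ∈ R → Nm y ∈ R')
    (hE₁ : ∀ y, y ≠ 0 → y ∈ R → y⁻¹ ∈ R →
      ∃ y' : F', y' ∈ R' ∧ y'⁻¹ ∈ R' ∧ s35_fa_one d₁ V₁ (y / ι y'))
    (hE₃ : ∀ y, y ≠ 0 → y ∈ R → y⁻¹ ∈ R →
      ∃ y' : F', y' ∈ R' ∧ y'⁻¹ ∈ R' ∧ s35_fa_one d₃ V₃ (y / ι y'))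
    (hE₂ : ∀ y, y ≠ 0 → y ∈ R → y⁻¹ ∈ R →
      ∃ y' : F', y' ∈ R' ∧ y'⁻¹ ∈ R' ∧ s35_fa_one d₂ V₂ (y ^ (p + 1) / ι y'))
    (hG₁ : ∀ y, y ≠ 0 → y ∈ V₁ → y⁻¹ ∈ V₁ →
      ∃ a : F', a ∈ Vi ∧ a⁻¹ ∈ Vi ∧ s35_fa_one d₁ V₁ (y / ι a))
    (hG₃ : ∀ y, y ≠ 0 → y ∈ V₃ → y⁻¹ ∈ V₃ →
      ∃ c : F', c ∈ Vi ∧ c⁻¹ ∈ Vi ∧ s35_fa_one d₃ V₃ (y / ι c))
    (hG₂ : ∀ y, y ≠ 0 → y ∈ V₂ → y⁻¹ ∈ V₂ →
      ∃ b : F', b ∈ V0 ∧ b⁻¹ ∈ V0 ∧ s35_fa_one d₂ V₂ (y ^ (p + 1) / ι b))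
    (hN₁₃ : ∀ (h : F) (a c : F'), a ∈ Vi → a⁻¹ ∈ Vi → c ∈ Vi → c⁻¹ ∈ Vi →
      s35_fa_one d₁ V₁ (h / ι a) → s35_fa_one d₃ V₃ (h / ι c) →
      s35_fa_one ϖ' Vi (Nm h / (a * c ^ p)))
    (hN₂ : ∀ (h : F) (b : F'), b ∈ V0 → b⁻¹ ∈ V0 →
      s35_fa_one d₂ V₂ (h ^ (p + 1) / ι b) → s35_fa_one ϖ' V0 (Nm h / b))
    (g G Ψ₁ Ψ₂ Ψ₃ r₁ r₂ r₃ : F) (f ψ : F')
    (hg0 : g ≠ 0) (hG0 : G ≠ 0)
    (hG₁V : G ∈ V₁) (hG₁V' : G⁻¹ ∈ V₁) (hG₂V : G ∈ V₂) (hG₂V' : G⁻¹ ∈ V₂)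
    (hG₃V : G ∈ V₃) (hG₃V' : G⁻¹ ∈ V₃)
    (hw : g * (G⁻¹) ^ m ∈ R) (hw' : G ^ m * g⁻¹ ∈ R)
    (hNg : Nm g = f ^ m)
    (hfi' : f⁻¹ ∈ Vi) (hf0' : f⁻¹ ∈ V0)
    (hψ : ψ ∈ Vi) (hψ' : ψ⁻¹ ∈ Vi)
    (hΨ₁ : s35_fa_one d₁ V₁ (Ψ₁ / ι ψ))
    (hΨ₂ : s35_fa_one d₂ V₂ (Ψ₂ ^ (p + 1) / ι f))
    (hΨ₃ : s35_fa_one d₃ V₃ (Ψ₃ / ι (f / ψ)))
    (hr₁ : r₁ ∈ R) (hr₁' : r₁⁻¹ ∈ R) (hr₂ : r₂ ∈ R) (hr₂' : r₂⁻¹ ∈ R)
    (hr₃ : r₃ ∈ R) (hr₃' : r₃⁻¹ ∈ R)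
    (hl₁ : s35_fa_one d₁ V₁ (Ψ₁ / (G * r₁)))
    (hl₂ : s35_fa_one d₂ V₂ (Ψ₂ / (G * r₂)))
    (hl₃ : s35_fa_one d₃ V₃ (Ψ₃ / (G ^ p * r₃))) :
    K (r₁ * r₃ / r₂ ^ (p + 1)) := by
  have hϖ'0 : ϖ' ≠ 0 := hVi.ne_zero
  -- nonvanishing
  have hNG0 : Nm G ≠ 0 := by
    intro h0
    have h1 : Nm G * Nm G⁻¹ = 1 := by rw [← map_mul, mul_inv_cancel₀ hG0, map_one]
    rw [h0, zero_mul] at h1
    exact zero_ne_one h1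
  have hf0ne : f ≠ 0 := by
    intro h0
    have h1 : Nm g * Nm g⁻¹ = 1 := by rw [← map_mul, mul_inv_cancel₀ hg0, map_one]
    rw [hNg, h0] at h1
    by_cases hm0 : m = 0
    · -- then `w = g` is a unit of `R`; `f = 0` contradicts `hΨ₂`
      have := (s36_tri_unit hV₂ hΨ₂).1
      rw [h0, map_zero, div_zero] at this
      exact this rfl
    · rw [zero_pow hm0, zero_mul] at h1
      exact zero_ne_one h1
  have hιf0 : ι f ≠ 0 := (map_ne_zero ι).mpr hf0ne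
  have hψ0 : ψ ≠ 0 := by
    intro h0
    have := (s36_tri_unit hV₁ hΨ₁).1
    rw [h0, map_zero, div_zero] at this
    exact this rfl
  have hιψ0 : ι ψ ≠ 0 := (map_ne_zero ι).mpr hψ0
  have hΨ₁0 : Ψ₁ ≠ 0 := by
    intro h0
    have := (s36_tri_unit hV₁ hΨ₁).1
    rw [h0, zero_div] at this
    exact this rfl
  have hΨ₂0 : Ψ₂ ≠ 0 := by
    intro h0
    have := (s36_tri_unit hV₂ hΨ₂).1
    rw [h0, zero_pow (Nat.succ_ne_zero p), zero_div] at this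
    exact this rfl
  have hΨ₃0 : Ψ₃ ≠ 0 := by
    intro h0
    have := (s36_tri_unit hV₃ hΨ₃).1
    rw [h0, zero_div] at this
    exact this rfl
  have hr₁0 : r₁ ≠ 0 := by
    intro h0
    have := (s36_tri_unit hV₁ hl₁).1
    rw [h0, mul_zero, div_zero] at this
    exact this rfl
  have hr₂0 : r₂ ≠ 0 := by
    intro h0
    have := (s36_tri_unit hV₂ hl₂).1
    rw [h0, mul_zero, div_zero] at this
    exact this rfl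
  have hr₃0 : r₃ ≠ 0 := by
    intro h0
    have := (s36_tri_unit hV₃ hl₃).1
    rw [h0, mul_zero, div_zero] at this
    exact this rfl
  -- the unit `v₁ = f / Nm G` of `R'`
  have hNGinv : Nm G⁻¹ = (Nm G)⁻¹ := s36_tri_nm_inv Nm hG0
  have hNginv : Nm g⁻¹ = (Nm g)⁻¹ := s36_tri_nm_inv Nm hg0
  have hv₁ : f / Nm G ∈ R' := by
    apply hroot'
    have e : (f / Nm G) ^ m = Nm (g * (G⁻¹) ^ m) := by
      rw [map_mul, map_pow, hNGinv, hNg, div_pow, inv_pow, div_eq_mul_inv]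
    rw [e]
    refine hNunit _ hw ?_
    have e2 : (g * (G⁻¹) ^ m)⁻¹ = G ^ m * g⁻¹ := by
      rw [mul_inv, inv_pow, inv_inv, mul_comm]
    rw [e2]; exact hw'
  have hv₁' : (f / Nm G)⁻¹ ∈ R' := by
    apply hroot'
    have e : ((f / Nm G)⁻¹) ^ m = Nm (G ^ m * g⁻¹) := by
      rw [map_mul, map_pow, hNginv, hNg, inv_div, div_pow, div_eq_mul_inv]
    rw [e]
    refine hNunit _ hw' ?_
    have e2 : (G ^ m * g⁻¹)⁻¹ = g * (G⁻¹) ^ m := by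
      rw [mul_inv, inv_inv, inv_pow, mul_comm]
    rw [e2]; exact hw
  -- global lifts of `G`
  obtain ⟨a, ha, ha', hGa⟩ := hG₁ G hG0 hG₁V hG₁V'
  obtain ⟨c, hc, hc', hGc⟩ := hG₃ G hG0 hG₃V hG₃V'
  obtain ⟨b, hb, hb', hGb⟩ := hG₂ G hG0 hG₂V hG₂V'
  have ha0 : a ≠ 0 := by
    intro h0
    have := (s36_tri_unit hV₁ hGa).1
    rw [h0, map_zero, div_zero] at this
    exact this rfl
  have hc0 : c ≠ 0 := by
    intro h0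
    have := (s36_tri_unit hV₃ hGc).1
    rw [h0, map_zero, div_zero] at this
    exact this rfl
  have hb0 : b ≠ 0 := by
    intro h0
    have := (s36_tri_unit hV₂ hGb).1
    rw [h0, map_zero, div_zero] at this
    exact this rfl
  have hιa0 : ι a ≠ 0 := (map_ne_zero ι).mpr ha0
  have hιc0 : ι c ≠ 0 := (map_ne_zero ι).mpr hc0
  have hιb0 : ι b ≠ 0 := (map_ne_zero ι).mpr hb0
  -- norm residue
  have hNi := hN₁₃ G a c ha ha' hc hc' hGa hGc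
  have hN0 := hN₂ G b hb hb' hGb
  -- local lifts
  obtain ⟨s₁, hs₁, hs₁', hrs₁⟩ := hE₁ r₁ hr₁0 hr₁ hr₁'
  obtain ⟨s₃, hs₃, hs₃', hrs₃⟩ := hE₃ r₃ hr₃0 hr₃ hr₃'
  obtain ⟨s₂, hs₂, hs₂', hrs₂⟩ := hE₂ r₂ hr₂0 hr₂ hr₂'
  have hs₁0 : s₁ ≠ 0 := by
    intro h0
    have := (s36_tri_unit hV₁ hrs₁).1
    rw [h0, map_zero, div_zero] at this
    exact this rfl
  have hs₃0 : s₃ ≠ 0 := by
    intro h0
    have := (s36_tri_unit hV₃ hrs₃).1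
    rw [h0, map_zero, div_zero] at this
    exact this rfl
  have hs₂0 : s₂ ≠ 0 := by
    intro h0
    have := (s36_tri_unit hV₂ hrs₂).1
    rw [h0, map_zero, div_zero] at this
    exact this rfl
  have hιs₁0 : ι s₁ ≠ 0 := (map_ne_zero ι).mpr hs₁0
  have hιs₃0 : ι s₃ ≠ 0 := (map_ne_zero ι).mpr hs₃0
  have hιs₂0 : ι s₂ ≠ 0 := (map_ne_zero ι).mpr hs₂0
  -- branch 1: `a s₁ / ψ ∈ 1 + ϖ' Vi`
  have hb1 : s35_fa_one ϖ' Vi (a * s₁ / ψ) := by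
    have hmem : a * s₁ / ψ ∈ Vi := by
      rw [div_eq_mul_inv]; exact Vi.mul_mem (Vi.mul_mem ha (hR'i hs₁)) hψ'
    refine s36_tri_reflect ι hV₁ hVi hιi₁ hmem ?_
    have h := (((hGa.inv hV₁).mul hV₁ (hl₁.inv hV₁)).mul hV₁ hΨ₁).mul hV₁ (hrs₁.inv hV₁)
    refine s36_tri_congr h ?_
    simp only [map_div₀, map_mul, map_pow, div_pow, mul_pow]
    field_simp
  -- branch 3: `c^p s₃ ψ / f ∈ 1 + ϖ' Vi`
  have hb3 : s35_fa_one ϖ' Vi (c ^ p * s₃ * ψ / f) := by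
    have hmem : c ^ p * s₃ * ψ / f ∈ Vi := by
      rw [div_eq_mul_inv]
      exact Vi.mul_mem (Vi.mul_mem (Vi.mul_mem (Vi.pow_mem hc p) (hR'i hs₃)) hψ) hfi'
    refine s36_tri_reflect ι hV₃ hVi hιi₃ hmem ?_
    have h := ((((hGc.pow hV₃ p).inv hV₃).mul hV₃ (hl₃.inv hV₃)).mul hV₃ hΨ₃).mul hV₃
      (hrs₃.inv hV₃)
    refine s36_tri_congr h ?_
    simp only [map_div₀, map_mul, map_pow, div_pow, mul_pow]
    field_simp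
  -- hence `s₁ s₃ / v₁ ∈ 1 + ϖ' Vi`
  have hi : s35_fa_one ϖ' Vi (s₁ * s₃ / (f / Nm G)) := by
    have h := (hb1.mul hVi hb3).mul hVi hNi
    refine s36_tri_congr h ?_
    field_simp
  -- branch 2: `b s₂ / f ∈ 1 + ϖ' V0`
  have hb2 : s35_fa_one ϖ' V0 (b * s₂ / f) := by
    have hmem : b * s₂ / f ∈ V0 := by
      rw [div_eq_mul_inv]; exact V0.mul_mem (V0.mul_mem hb (hR'0 hs₂)) hf0'
    refine s36_tri_reflect ι hV₂ hV0 hι0₂ hmem ?_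
    have h := (((hGb.inv hV₂).mul hV₂ ((hl₂.pow hV₂ (p + 1)).inv hV₂)).mul hV₂ hΨ₂).mul hV₂
      (hrs₂.inv hV₂)
    refine s36_tri_congr h ?_
    simp only [map_div₀, map_mul, map_pow, div_pow, mul_pow]
    field_simp
  have h0 : s35_fa_one ϖ' V0 (s₂ / (f / Nm G)) := by
    have h := hb2.mul hV0 hN0
    refine s36_tri_congr h ?_
    field_simp
  -- transport to `R`
  have hv₁0 : f / Nm G ≠ 0 := div_ne_zero hf0ne hNG0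
  have hKi : K (ι (s₁ * s₃ / (f / Nm G))) := by
    have hmem : s₁ * s₃ / (f / Nm G) ∈ R' := by
      rw [div_eq_mul_inv]; exact R'.mul_mem (R'.mul_mem hs₁ hs₃) hv₁'
    have hmem' : (s₁ * s₃ / (f / Nm G))⁻¹ ∈ R' := by
      rw [inv_div, div_eq_mul_inv, mul_inv]
      exact R'.mul_mem hv₁ (R'.mul_mem hs₁' hs₃')
    refine hK₁ _ (hιR _ hmem) ?_ (s36_tri_map ι hιi₁ hd₁ hϖ'0 hi)
    rw [← map_inv₀]
    exact hιR _ hmem'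
  have hK0 : K (ι (s₂ / (f / Nm G))) := by
    have hmem : s₂ / (f / Nm G) ∈ R' := by
      rw [div_eq_mul_inv]; exact R'.mul_mem hs₂ hv₁'
    have hmem' : (s₂ / (f / Nm G))⁻¹ ∈ R' := by
      rw [inv_div, div_eq_mul_inv]
      exact R'.mul_mem hv₁ hs₂'
    refine hK₂ _ (hιR _ hmem) ?_ (s36_tri_map ι hι0₂ hd₂ hϖ'0 h0)
    rw [← map_inv₀]
    exact hιR _ hmem'
  have hK1 : K (r₁ / ι s₁) := by
    have hmem : r₁ / ι s₁ ∈ R := by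
      rw [div_eq_mul_inv, ← map_inv₀]; exact R.mul_mem hr₁ (hιR _ hs₁')
    refine hK₁ _ hmem ?_ hrs₁
    rw [inv_div, div_eq_mul_inv]
    exact R.mul_mem (hιR _ hs₁) hr₁'
  have hK3 : K (r₃ / ι s₃) := by
    have hmem : r₃ / ι s₃ ∈ R := by
      rw [div_eq_mul_inv, ← map_inv₀]; exact R.mul_mem hr₃ (hιR _ hs₃')
    refine hK₃ _ hmem ?_ hrs₃
    rw [inv_div, div_eq_mul_inv]
    exact R.mul_mem (hιR _ hs₃) hr₃'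
  have hK2 : K (r₂ ^ (p + 1) / ι s₂) := by
    have hmem : r₂ ^ (p + 1) / ι s₂ ∈ R := by
      rw [div_eq_mul_inv, ← map_inv₀]; exact R.mul_mem (R.pow_mem hr₂ _) (hιR _ hs₂')
    refine hK₂ _ hmem ?_ hrs₂
    rw [inv_div, div_eq_mul_inv, ← inv_pow]
    exact R.mul_mem (hιR _ hs₂) (R.pow_mem hr₂' _)
  have hfin := hKmul _ _ (hKmul _ _ (hKmul _ _ hK1 hK3) (hKinv _ hK2))
    (hKmul _ _ hKi (hKinv _ hK0))
  have e : r₁ / ι s₁ * (r₃ / ι s₃) * (r₂ ^ (p + 1) / ι s₂)⁻¹ *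
      (ι (s₁ * s₃ / (f / Nm G)) * (ι (s₂ / (f / Nm G)))⁻¹) = r₁ * r₃ / r₂ ^ (p + 1) := by
    have hιv : ι (f / Nm G) ≠ 0 := (map_ne_zero ι).mpr hv₁0
    have hιNG : ι (Nm G) ≠ 0 := (map_ne_zero ι).mpr hNG0
    simp only [map_div₀, map_mul, map_pow, div_pow, mul_pow]
    field_simp
  rw [e] at hfin
  exact hfin
/-- Global lifting in unit form from the additive residue hypothesis. -/
theorem s36_pt_resU (ι : F' →+* F) {d : F} {ϖ' : F'} {V : Subring F} {V' : Subring F'}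
    (hV : s34_Unif d V) (hV' : s34_Unif ϖ' V') (hι : ∀ x ∈ V', ι x ∈ V)
    (hnot : (ι ϖ')⁻¹ ∉ V) (k : ℕ)
    (hres : ∀ y ∈ V, ∃ y' ∈ V', d⁻¹ * (y ^ k - ι y') ∈ V)
    (y : F) (hy0 : y ≠ 0) (hy : y ∈ V) (hy' : y⁻¹ ∈ V) :
    ∃ a : F', a ∈ V' ∧ a⁻¹ ∈ V' ∧ s35_fa_one d V (y ^ k / ι a) := by
  have hyU0 : s36_pm_U V y := ⟨hy0, hy, hy'⟩
  have hyU : s36_pm_U V (y ^ k) := hyU0.pow k
  obtain ⟨a, ha, ha1⟩ := hres y hy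
  have h1 : s35_fa_one d V (ι a / y ^ k) := s36_pm_one_of_cg' hyU ha1
  have hιa : s36_pm_U V (ι a) := s36_pm_U.of_one_div hV hyU h1
  have haU : s36_pm_U V' a := s36_pm_U_comap ι hV' hnot hι hιa
  refine ⟨a, haU.2.1, haU.2.2, ?_⟩
  have e : y ^ k / ι a = (ι a / y ^ k)⁻¹ := by rw [inv_div]
  rw [e]; exact h1.inv hV

/-- The ramified norm residue in unit form. -/
theorem s36_pt_nr13 (ι : F' →+* F) (Nm : F →* F') {d₁ d₃ : F} {ϖ' : F'} {V₁ V₃ : Subring F}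
    {Vi : Subring F'} (hV₁ : s34_Unif d₁ V₁) (hV₃ : s34_Unif d₃ V₃)
    (hιi₁ : ∀ x ∈ Vi, ι x ∈ V₁) (hιi₃ : ∀ x ∈ Vi, ι x ∈ V₃) (p : ℕ)
    (hNR : ∀ h ∈ V₁, h ∈ V₃ → ∀ a ∈ Vi, ∀ c ∈ Vi, d₁⁻¹ * (h - ι a) ∈ V₁ →
      d₃⁻¹ * (h - ι c) ∈ V₃ → ϖ'⁻¹ * (Nm h - a * c ^ p) ∈ Vi)
    (h : F) (a c : F') (ha : a ∈ Vi) (ha' : a⁻¹ ∈ Vi) (hc : c ∈ Vi) (hc' : c⁻¹ ∈ Vi)
    (h1 : s35_fa_one d₁ V₁ (h / ι a)) (h3 : s35_fa_one d₃ V₃ (h / ι c)) :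
    s35_fa_one ϖ' Vi (Nm h / (a * c ^ p)) := by
  have ha0 : a ≠ 0 := by
    rintro rfl
    exact h1.ne_zero hV₁ (by rw [map_zero, div_zero])
  have hc0 : c ≠ 0 := by
    rintro rfl
    exact h3.ne_zero hV₃ (by rw [map_zero, div_zero])
  have hιa0 : ι a ≠ 0 := (map_ne_zero ι).mpr ha0
  have hιc0 : ι c ≠ 0 := (map_ne_zero ι).mpr hc0
  have hh1 : h ∈ V₁ := by
    have e : h = h / ι a * ι a := by field_simp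
    rw [e]; exact V₁.mul_mem (h1.mem hV₁) (hιi₁ _ ha)
  have hh3 : h ∈ V₃ := by
    have e : h = h / ι c * ι c := by field_simp
    rw [e]; exact V₃.mul_mem (h3.mem hV₃) (hιi₃ _ hc)
  have hN := hNR h hh1 hh3 a ha c hc (h1.to_cg hιa0 (hιi₁ _ ha)) (h3.to_cg hιc0 (hιi₃ _ hc))
  refine s35_fa_one.of_cg hN (mul_ne_zero ha0 (pow_ne_zero p hc0)) ?_
  rw [mul_inv, ← inv_pow]; exact Vi.mul_mem ha' (Vi.pow_mem hc' p)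

/-- The inseparable norm residue in unit form. -/
theorem s36_pt_nr2 (ι : F' →+* F) (Nm : F →* F') {d₂ : F} {ϖ' : F'} {V₂ : Subring F}
    {V0 : Subring F'} (hV₂ : s34_Unif d₂ V₂) (hι0₂ : ∀ x ∈ V0, ι x ∈ V₂) (k : ℕ) (hk : 0 < k)
    (hNR : ∀ h ∈ V₂, ∀ b ∈ V0, d₂⁻¹ * (h ^ k - ι b) ∈ V₂ → ϖ'⁻¹ * (Nm h - b) ∈ V0)
    (h : F) (b : F') (hb : b ∈ V0) (hb' : b⁻¹ ∈ V0)
    (h2 : s35_fa_one d₂ V₂ (h ^ k / ι b)) : s35_fa_one ϖ' V0 (Nm h / b) := by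
  have hb0 : b ≠ 0 := by
    rintro rfl
    exact h2.ne_zero hV₂ (by rw [map_zero, div_zero])
  have hιb0 : ι b ≠ 0 := (map_ne_zero ι).mpr hb0
  have hbU : s36_pm_U V₂ (ι b) := s36_pm_U_map ι hι0₂ ⟨hb0, hb, hb'⟩
  have hhkU : s36_pm_U V₂ (h ^ k) := by
    have e : h ^ k = h ^ k / ι b * ι b := by field_simp
    rw [e]; exact (s36_pm_U.of_one hV₂ h2).mul hbU
  have hhU : s36_pm_U V₂ h := s36_pm_U.of_pow hV₂ hk hhkU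
  have hN := hNR h hhU.2.1 b hb (h2.to_cg hιb0 (hι0₂ _ hb))
  exact s35_fa_one.of_cg hN hb0 hb'

/-- **The point relation for one degeneracy map, additive global hypotheses.**  The global
lifting and norm-residue hypotheses are in the additive form of `s36_pow_of_model`; the local
data at the point is `s36_pt_Below`. -/
theorem s36_pt_rel (ι : F' →+* F) (Nm : F →* F')
    {d₁ d₂ d₃ : F} {ϖ' : F'} {V₁ V₂ V₃ : Subring F} {Vi V0 : Subring F'}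
    (hV₁ : s34_Unif d₁ V₁) (hV₂ : s34_Unif d₂ V₂) (hV₃ : s34_Unif d₃ V₃)
    (hVi : s34_Unif ϖ' Vi) (hV0 : s34_Unif ϖ' V0)
    (hιi₁ : ∀ x ∈ Vi, ι x ∈ V₁) (hιi₃ : ∀ x ∈ Vi, ι x ∈ V₃) (hι0₂ : ∀ x ∈ V0, ι x ∈ V₂)
    (hd₁ : d₁⁻¹ * ι ϖ' ∈ V₁) (hd₂ : d₂⁻¹ * ι ϖ' ∈ V₂)
    (hnot₁ : (ι ϖ')⁻¹ ∉ V₁) (hnot₂ : (ι ϖ')⁻¹ ∉ V₂) (hnot₃ : (ι ϖ')⁻¹ ∉ V₃)
    (p : ℕ)
    (hres₁ : ∀ y ∈ V₁, ∃ y' ∈ Vi, d₁⁻¹ * (y - ι y') ∈ V₁)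
    (hres₃ : ∀ y ∈ V₃, ∃ y' ∈ Vi, d₃⁻¹ * (y - ι y') ∈ V₃)
    (hres₂ : ∀ y ∈ V₂, ∃ b ∈ V0, d₂⁻¹ * (y ^ (p + 1) - ι b) ∈ V₂)
    (hNR₁₃ : ∀ h ∈ V₁, h ∈ V₃ → ∀ a ∈ Vi, ∀ c ∈ Vi, d₁⁻¹ * (h - ι a) ∈ V₁ →
      d₃⁻¹ * (h - ι c) ∈ V₃ → ϖ'⁻¹ * (Nm h - a * c ^ p) ∈ Vi)
    (hNR₂ : ∀ h ∈ V₂, ∀ b ∈ V0, d₂⁻¹ * (h ^ (p + 1) - ι b) ∈ V₂ → ϖ'⁻¹ * (Nm h - b) ∈ V0)
    (R : Subring F) (R' : Subring F') (m : ℕ)
    (hBel : s36_pt_Below (fun x => ι x) (fun y => Nm y) d₁ d₂ d₃ V₁ V₂ V₃ Vi V0 R m p R')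
    (K : F → Prop) (hKmul : ∀ x y, K x → K y → K (x * y)) (hKinv : ∀ x, K x → K x⁻¹)
    (hK₁ : ∀ x, x ∈ R → x⁻¹ ∈ R → s35_fa_one d₁ V₁ x → K x)
    (hK₂ : ∀ x, x ∈ R → x⁻¹ ∈ R → s35_fa_one d₂ V₂ x → K x)
    (hK₃ : ∀ x, x ∈ R → x⁻¹ ∈ R → s35_fa_one d₃ V₃ x → K x)
    (g G Ψ₁ Ψ₂ Ψ₃ r₁ r₂ r₃ : F) (f ψ : F')
    (hg0 : g ≠ 0) (hG₁ : s36_pm_U V₁ G) (hG₂ : s36_pm_U V₂ G) (hG₃ : s36_pm_U V₃ G)
    (hw : g * (G⁻¹) ^ m ∈ R) (hw' : G ^ m * g⁻¹ ∈ R)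
    (hNg : Nm g = f ^ m)
    (hfi : s36_pm_U Vi f) (hf0 : s36_pm_U V0 f) (hψ : s36_pm_U Vi ψ)
    (hΨ₁ : s35_fa_one d₁ V₁ (Ψ₁ / ι ψ))
    (hΨ₂ : s35_fa_one d₂ V₂ (Ψ₂ ^ (p + 1) / ι f))
    (hΨ₃ : s35_fa_one d₃ V₃ (Ψ₃ / ι (f / ψ)))
    (hr₁ : r₁ ∈ R) (hr₁' : r₁⁻¹ ∈ R) (hr₂ : r₂ ∈ R) (hr₂' : r₂⁻¹ ∈ R)
    (hr₃ : r₃ ∈ R) (hr₃' : r₃⁻¹ ∈ R)
    (hl₁ : s35_fa_one d₁ V₁ (Ψ₁ / (G * r₁)))
    (hl₂ : s35_fa_one d₂ V₂ (Ψ₂ / (G * r₂)))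
    (hl₃ : s35_fa_one d₃ V₃ (Ψ₃ / (G ^ p * r₃))) :
    K (r₁ * r₃ / r₂ ^ (p + 1)) := by
  refine s36_pt_rel0 ι Nm hV₁ hV₂ hV₃ hVi hV0 hιi₁ hιi₃ hι0₂ hd₁ hd₂
    R R' hBel.le_i hBel.le_0 hBel.map K hKmul hKinv hK₁ hK₂ hK₃ m p hBel.root hBel.norm
    hBel.ext₁ hBel.ext₃ hBel.ext₂ ?_ ?_ ?_ ?_ ?_ g G Ψ₁ Ψ₂ Ψ₃ r₁ r₂ r₃ f ψ hg0 hG₁.1
    hG₁.2.1 hG₁.2.2 hG₂.2.1 hG₂.2.2 hG₃.2.1 hG₃.2.2 hw hw' hNg hfi.2.2 hf0.2.2 hψ.2.1 hψ.2.2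
    hΨ₁ hΨ₂ hΨ₃ hr₁ hr₁' hr₂ hr₂' hr₃ hr₃' hl₁ hl₂ hl₃
  · intro y hy0 hy hy'
    obtain ⟨a, ha, ha', h⟩ := s36_pt_resU ι hV₁ hVi hιi₁ hnot₁ 1
      (fun y hy => by rw [pow_one]; exact hres₁ y hy) y hy0 hy hy'
    exact ⟨a, ha, ha', by rwa [pow_one] at h⟩
  · intro y hy0 hy hy'
    obtain ⟨a, ha, ha', h⟩ := s36_pt_resU ι hV₃ hVi hιi₃ hnot₃ 1
      (fun y hy => by rw [pow_one]; exact hres₃ y hy) y hy0 hy hy'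
    exact ⟨a, ha, ha', by rwa [pow_one] at h⟩
  · intro y hy0 hy hy'
    exact s36_pt_resU ι hV₂ hV0 hι0₂ hnot₂ (p + 1) hres₂ y hy0 hy hy'
  · exact s36_pt_nr13 ι Nm hV₁ hV₃ hιi₁ hιi₃ p hNR₁₃
  · exact s36_pt_nr2 ι Nm hV₂ hι0₂ (p + 1) (Nat.succ_pos p) hNR₂

end Rel

section Main

variable {F'' F : Type*} [Field F''] [Field F]

/-- `B_𝔪` with `𝔪 B_𝔪` is a local ring in the sense of `s36_TriLoc`. -/
theorem s36_pt_triLoc (B : Subring F) (𝔪 : Ideal B) [h𝔪 : 𝔪.IsPrime] :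
    s36_TriLoc (s18_locRing B 𝔪) (s35_nf_max B 𝔪) where
  add := by
    rintro x y ⟨a, b, ha, hb, rfl⟩ ⟨c, d, hc, hd, rfl⟩
    have hb0 := s35_nf_ne_zero hb
    have hd0 := s35_nf_ne_zero hd
    refine ⟨a * d + b * c, b * d, 𝔪.add_mem (𝔪.mul_mem_right _ ha) (𝔪.mul_mem_left _ hc),
      fun h => (h𝔪.mem_or_mem h).elim hb hd, ?_⟩
    push_cast
    rw [div_add_div _ _ hb0 hd0]
  mul := by
    intro x y hx hy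
    obtain ⟨a, b, hb, rfl⟩ := (hx : x ∈ s18_loc B 𝔪)
    obtain ⟨c, d, hc, hd, rfl⟩ := hy
    refine ⟨a * c, b * d, 𝔪.mul_mem_left _ hc, fun h => (h𝔪.mem_or_mem h).elim hb hd, ?_⟩
    push_cast
    rw [div_mul_div_comm]
  unit := fun x hx => ⟨(s35_nf_unit_of_sub_one hx).1, (s35_nf_unit_of_sub_one hx).2.1⟩
  proper := by
    rintro ⟨a, b, ha, hb, h⟩
    have hb0 := s35_nf_ne_zero hb
    have hab : (a : F) = (b : F) := by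
      rw [eq_div_iff hb0, one_mul] at h
      exact h.symm
    have hab' : a = b := Subtype.ext hab
    exact hb (hab' ▸ ha)

/-- A component through the point: `B_𝔪 ∩ (1 + d V) ⊆ 1 + 𝔪 B_𝔪` when the functions of `B`
not vanishing at `𝔪` are units of `V`. -/
theorem s36_pt_K {d : F} {V : Subring F} (hV : s34_Unif d V) {B : Subring F} (hBV : B ≤ V)
    (𝔪 : Ideal B) (hloc : ∀ b : B, b ∉ 𝔪 → ((b : F))⁻¹ ∈ V)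
    (x : F) (hx : x ∈ s18_loc B 𝔪) (h : s35_fa_one d V x) : x - 1 ∈ s35_nf_max B 𝔪 := by
  obtain ⟨a, b, hb, rfl⟩ := hx
  have hb0 := s35_nf_ne_zero hb
  refine ⟨a - b, b, ?_, hb, ?_⟩
  · by_contra hab
    have h1 := hloc (a - b) hab
    apply hV.inv_not_mem
    have h2 : d⁻¹ * ((a : F) - b) ∈ V := by
      have e : d⁻¹ * ((a : F) - b) = d⁻¹ * ((a : F) / b - 1) * b := by field_simp
      rw [e]; exact V.mul_mem h (hBV b.2)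
    have hab0 : ((a - b : B) : F) ≠ 0 := s35_nf_ne_zero hab
    have hab1 : ((a - b : B) : F) = (a : F) - b := by push_cast; ring
    rw [hab1] at hab0 h1
    have e : d⁻¹ = d⁻¹ * ((a : F) - b) * ((a : F) - b)⁻¹ := by
      rw [mul_assoc, mul_inv_cancel₀ hab0, mul_one]
    rw [e]; exact V.mul_mem h2 h1
  · push_cast
    field_simp

/-- Transport of units by a ring automorphism. -/
theorem s36_pt_U_W {V V' : Subring F} (W : F ≃+* F) (hW : ∀ x ∈ V, W x ∈ V') {x : F}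
    (h : s36_pm_U V x) : s36_pm_U V' (W x) :=
  ⟨(map_ne_zero W).mpr h.1, hW _ h.2.1, by rw [← map_inv₀]; exact hW _ h.2.2⟩

/-- Transport of a divisibility by a ring automorphism. -/
theorem s36_pt_tr {V V' : Subring F} (W : F ≃+* F) (hW : ∀ x ∈ V, W x ∈ V') {d d' : F}
    (hd0 : d ≠ 0) (hd : d'⁻¹ * W d ∈ V') {x : F} (h : d⁻¹ * x ∈ V) : d'⁻¹ * W x ∈ V' := by
  have hWd0 : W d ≠ 0 := (map_ne_zero W).mpr hd0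
  have e : d'⁻¹ * W x = d'⁻¹ * W d * W (d⁻¹ * x) := by
    rw [map_mul, map_inv₀]; field_simp
  rw [e]; exact V'.mul_mem hd (hW _ h)

/-- The branch `B` congruence `g ^ q ≡ (ι f) ^ m` modulo `ϖ V_B`. -/
theorem s36_pt_cgB (ι : F'' →+* F) {ϖ'' : F''} {VB : Subring F} {V0 : Subring F''}
    (hB : s34_Unif (ι ϖ'') VB) (hV0 : s34_Unif ϖ'' V0) (hιB : ∀ x ∈ V0, ι x ∈ VB) (q : ℕ)
    (hresB : ∀ y ∈ VB, ∃ b ∈ V0, (ι ϖ'')⁻¹ * (y ^ q - ι b) ∈ VB)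
    (Nm : F →* F'')
    (hNRins : ∀ h ∈ VB, ∀ b ∈ V0, (ι ϖ'')⁻¹ * (h ^ q - ι b) ∈ VB → ϖ''⁻¹ * (Nm h - b) ∈ V0)
    (m : ℕ) (hm : 0 < m)
    (g : F) (hg : s36_pm_U VB g) (f : F'') (hf : Nm g = f ^ m) :
    s36_pm_U V0 f ∧ s35_fa_one (ι ϖ'') VB (g ^ q / (ι f) ^ m) := by
  obtain ⟨b, hb, hb1⟩ := hresB g hg.2.1
  have hb2 := hNRins g hg.2.1 b hb hb1
  rw [hf] at hb2
  have h1 : s35_fa_one (ι ϖ'') VB (ι b / g ^ q) := s36_pm_one_of_cg' (hg.pow q) hb1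
  have hιb : s36_pm_U VB (ι b) := s36_pm_U.of_one_div hB (hg.pow q) h1
  have hbU : s36_pm_U V0 b := s36_pm_U_comap ι hV0 hB.inv_not_mem hιB hιb
  have h2 : s35_fa_one ϖ'' V0 (f ^ m / b) := s36_pm_one_of_cg hbU hb2
  have hfU : s36_pm_U V0 f := s36_pm_U.of_pow hV0 hm (s36_pm_U.of_one_div hV0 hbU h2)
  have h3 : s35_fa_one (ι ϖ'') VB (ι (f ^ m / b)) := s36_pm_one_map ι hιB h2
  have hg0 := hg.1
  have hιf0 : ι f ≠ 0 := (map_ne_zero ι).mpr hfU.1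
  have hιb0 := hιb.1
  refine ⟨hfU, ?_⟩
  have e : g ^ q / (ι f) ^ m = (ι b / g ^ q)⁻¹ * (ι (f ^ m / b))⁻¹ := by
    rw [map_div₀, map_pow]; field_simp
  rw [e]; exact (h1.inv hB).mul hB (h3.inv hB)

/-- The exponent identity behind `Ψ_B ^ q ≡ ι f`: `r q + s m = 1`. -/
theorem s36_pt_rs2 (x y : F) (hy : y ≠ 0) (q m : ℕ) (r s : ℤ)
    (hrs : r * q + s * m = 1) : (y ^ r * x ^ s) ^ q / y = (x ^ q / y ^ m) ^ s := by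
  have h1 : (y ^ r * x ^ s) ^ q = y ^ (r * q) * x ^ (s * q) := by
    rw [mul_pow, ← zpow_natCast (y ^ r) q, ← zpow_mul, ← zpow_natCast (x ^ s) q, ← zpow_mul]
  have h2 : (x ^ q / y ^ m) ^ s = x ^ (s * q) / y ^ (s * m) := by
    rw [div_zpow, ← zpow_natCast x q, ← zpow_mul, ← zpow_natCast y m, ← zpow_mul,
      mul_comm (q : ℤ) s, mul_comm (m : ℤ) s]
  have h3 : y ^ (r * q) * y ^ (s * m) = y := by
    rw [← zpow_add₀ hy, hrs, zpow_one]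
  rw [h1, h2]
  have hy' : y ^ (s * (m : ℤ)) ≠ 0 := zpow_ne_zero _ hy
  rw [div_eq_div_iff hy hy']
  calc y ^ (r * (q : ℤ)) * x ^ (s * (q : ℤ)) * y ^ (s * (m : ℤ))
      = x ^ (s * (q : ℤ)) * (y ^ (r * (q : ℤ)) * y ^ (s * (m : ℤ))) := by ring
    _ = x ^ (s * (q : ℤ)) * y := by rw [h3]

end Main

section Bridge

variable {F'' F : Type*} [Field F''] [Field F]

/-- **TRI36 bridge: the contract `s36_pm_TriOut` from local data at a triple point.**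

Global data as in `s36_pow_of_model`.  Local data at the triple point `𝔪` of the chart `B`
(`hlocV`: the three components pass through `𝔪`; `hroot`: `B_𝔪` is `m`-root closed):

* `hGloc`: a function which is a unit on the three components and whose horizontal divisor is
  divisible by `m` is, up to a unit of `B_𝔪`, the `m`-th power of a function `G` which is a unit
  on the three components;
* `hLA`, `hLB`, `hLC`: the three branches at `𝔪` are `m`-root closed in the residue fields of the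
  components (shape of `hA₁` of `s35_nf_main`);
* `hα`, `hβ`: the local data `s36_pt_Below` for the degeneracy maps `ι` and `W ∘ ι` (with the
  local rings `R'α`, `R'β` of the level below). -/
theorem s36_pt_triOut (ι : F'' →+* F)
    {ϖ'' : F''} {z : F} {VA VB VC : Subring F} {Vi V0 : Subring F''}
    (hA : s34_Unif (ι ϖ'') VA) (hB : s34_Unif (ι ϖ'') VB) (hC : s34_Unif z VC)
    (hVi : s34_Unif ϖ'' Vi) (hV0 : s34_Unif ϖ'' V0)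
    (hιA : ∀ x ∈ Vi, ι x ∈ VA) (hιC : ∀ x ∈ Vi, ι x ∈ VC) (hιB : ∀ x ∈ V0, ι x ∈ VB)
    (n : ℕ) (hn : 1 ≤ n) (hzn : ι ϖ'' * (z ^ n)⁻¹ ∈ VC)
    (hresA : ∀ y ∈ VA, ∃ y' ∈ Vi, (ι ϖ'')⁻¹ * (y - ι y') ∈ VA)
    (hresC : ∀ y ∈ VC, ∃ y' ∈ Vi, z⁻¹ * (y - ι y') ∈ VC)
    (hresB : ∀ y ∈ VB, ∃ b ∈ V0, (ι ϖ'')⁻¹ * (y ^ (n + 1) - ι b) ∈ VB)
    (Nm : F →* F'')
    (hNRram : ∀ h ∈ VA, h ∈ VC → ∀ a ∈ Vi, ∀ c ∈ Vi, (ι ϖ'')⁻¹ * (h - ι a) ∈ VA →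
      z⁻¹ * (h - ι c) ∈ VC → ϖ''⁻¹ * (Nm h - a * c ^ n) ∈ Vi)
    (hNRins : ∀ h ∈ VB, ∀ b ∈ V0, (ι ϖ'')⁻¹ * (h ^ (n + 1) - ι b) ∈ VB →
      ϖ''⁻¹ * (Nm h - b) ∈ V0)
    (W : F ≃+* F) (hWAB : ∀ x, x ∈ VB ↔ W x ∈ VA) (hWC : ∀ x, x ∈ VC ↔ W x ∈ VC)
    (hWϖ : W (ι ϖ'') = ι ϖ'') (hWW : ∀ x, W (W x) = x)
    (m : ℕ) (hm0 : (m : F) ≠ 0) (r s : ℤ) (hrs : r * ((n + 1 : ℕ) : ℤ) + s * m = 1)
    (B : Subring F) (hBA : B ≤ VA) (hBB : B ≤ VB) (hBC : B ≤ VC)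
    (hmB : ((m : F))⁻¹ ∈ B) (𝔪 : Ideal B) [h𝔪 : 𝔪.IsPrime]
    (hlocV : ∀ b : B, b ∉ 𝔪 → ((b : F))⁻¹ ∈ VA ⊓ VB ⊓ VC)
    (hroot : ∀ x : F, x ^ m ∈ s18_loc B 𝔪 → x ∈ s18_loc B 𝔪)
    (hGloc : ∀ g : F, s36_pm_U VA g → s36_pm_U VB g → s36_pm_U VC g →
      (∀ W' : ValuationSubring F, IsDiscreteValuationRing W' → B ≤ W'.toSubring →
        (ι ϖ'')⁻¹ ∈ W' → ∃ g' u : F, u ∈ W' ∧ u⁻¹ ∈ W' ∧ g = u * g' ^ m) →
      ∃ G : F, s36_pm_U VA G ∧ s36_pm_U VB G ∧ s36_pm_U VC G ∧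
        g * (G⁻¹) ^ m ∈ s18_loc B 𝔪 ∧ G ^ m * g⁻¹ ∈ s18_loc B 𝔪)
    (hLA : ∀ x w : F, w ∈ s18_loc B 𝔪 → w⁻¹ ∈ s18_loc B 𝔪 → (ι ϖ'')⁻¹ * (x ^ m - w) ∈ VA →
      ∃ y : F, y ∈ s18_loc B 𝔪 ∧ y⁻¹ ∈ s18_loc B 𝔪 ∧ (ι ϖ'')⁻¹ * (x - y) ∈ VA)
    (hLB : ∀ x w : F, w ∈ s18_loc B 𝔪 → w⁻¹ ∈ s18_loc B 𝔪 → (ι ϖ'')⁻¹ * (x ^ m - w) ∈ VB →
      ∃ y : F, y ∈ s18_loc B 𝔪 ∧ y⁻¹ ∈ s18_loc B 𝔪 ∧ (ι ϖ'')⁻¹ * (x - y) ∈ VB)
    (hLC : ∀ x w : F, w ∈ s18_loc B 𝔪 → w⁻¹ ∈ s18_loc B 𝔪 → z⁻¹ * (x ^ m - w) ∈ VC →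
      ∃ y : F, y ∈ s18_loc B 𝔪 ∧ y⁻¹ ∈ s18_loc B 𝔪 ∧ z⁻¹ * (x - y) ∈ VC)
    (R'α R'β : Subring F'')
    (hα : s36_pt_Below (fun x => ι x) (fun y => Nm y) (ι ϖ'') (ι ϖ'') z VA VB VC Vi V0
      (s18_locRing B 𝔪) m n R'α)
    (hβ : s36_pt_Below (fun x => W (ι x)) (fun y => Nm (W y)) (ι ϖ'') (ι ϖ'') z VB VA VC Vi V0
      (s18_locRing B 𝔪) m n R'β) :
    s36_pm_TriOut ι ϖ'' z VA VB VC Vi V0 Nm W n m r s B 𝔪 := by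
  intro g f f' ψ ψ' ξ hgA hgB hgC hdiv hf hf' hψU hψ'U hfUi hfU0 hf'Ui hf'U0 hψ1 hψ'1 hξm hξx
  have hm : 0 < m := Nat.pos_of_ne_zero (by rintro rfl; exact hm0 (by simp))
  have hϖ0 := hA.ne_zero
  have hz0 := hC.ne_zero
  have hg0 := hgA.1
  have hzϖ : z⁻¹ * ι ϖ'' ∈ VC := by
    obtain ⟨k, rfl⟩ : ∃ k, n = k + 1 := ⟨n - 1, by omega⟩
    have e : z⁻¹ * ι ϖ'' = ι ϖ'' * (z ^ (k + 1))⁻¹ * z ^ k := by
      rw [pow_succ]; field_simp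
    rw [e]; exact VC.mul_mem hzn (VC.pow_mem hC.mem k)
  have hnotC : (ι ϖ'')⁻¹ ∉ VC := by
    intro h
    apply hC.inv_not_mem
    have e : z⁻¹ = z⁻¹ * ι ϖ'' * (ι ϖ'')⁻¹ := by
      rw [mul_assoc, mul_inv_cancel₀ hϖ0, mul_one]
    rw [e]; exact VC.mul_mem hzϖ h
  -- the swap
  have hWAtoB : ∀ x ∈ VA, W x ∈ VB := fun x hx => (hWAB (W x)).mpr (by rw [hWW]; exact hx)
  have hWBtoA : ∀ x ∈ VB, W x ∈ VA := fun x hx => (hWAB x).mp hx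
  have hWCC : ∀ x ∈ VC, W x ∈ VC := fun x hx => (hWC x).mp hx
  have hdA : (ι ϖ'')⁻¹ * W (ι ϖ'') ∈ VA := by
    rw [hWϖ, inv_mul_cancel₀ hϖ0]; exact VA.one_mem
  have hdB : (ι ϖ'')⁻¹ * W (ι ϖ'') ∈ VB := by
    rw [hWϖ, inv_mul_cancel₀ hϖ0]; exact VB.one_mem
  have hdC : z⁻¹ * W z ∈ VC := s36_pm_swap_unif hC W hWC
  -- the local ring
  have hRA : s18_locRing B 𝔪 ≤ VA := fun x hx =>
    s35_nf_loc_le hBA 𝔪 (fun b hb => (hlocV b hb).1.1) hx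
  have hRB : s18_locRing B 𝔪 ≤ VB := fun x hx =>
    s35_nf_loc_le hBB 𝔪 (fun b hb => (hlocV b hb).1.2) hx
  have hRC : s18_locRing B 𝔪 ≤ VC := fun x hx =>
    s35_nf_loc_le hBC 𝔪 (fun b hb => (hlocV b hb).2) hx
  have hL := s36_pt_triLoc B 𝔪
  have hKA : ∀ x, x ∈ s18_locRing B 𝔪 → x⁻¹ ∈ s18_locRing B 𝔪 →
      s35_fa_one (ι ϖ'') VA x → x - 1 ∈ s35_nf_max B 𝔪 :=
    fun x hx _ h => s36_pt_K hA hBA 𝔪 (fun b hb => (hlocV b hb).1.1) x hx h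
  have hKB : ∀ x, x ∈ s18_locRing B 𝔪 → x⁻¹ ∈ s18_locRing B 𝔪 →
      s35_fa_one (ι ϖ'') VB x → x - 1 ∈ s35_nf_max B 𝔪 :=
    fun x hx _ h => s36_pt_K hB hBB 𝔪 (fun b hb => (hlocV b hb).1.2) x hx h
  have hKC : ∀ x, x ∈ s18_locRing B 𝔪 → x⁻¹ ∈ s18_locRing B 𝔪 →
      s35_fa_one z VC x → x - 1 ∈ s35_nf_max B 𝔪 :=
    fun x hx _ h => s36_pt_K hC hBC 𝔪 (fun b hb => (hlocV b hb).2) x hx h
  -- units
  have hιfB : s36_pm_U VB (ι f) := s36_pm_U_map ι hιB hfU0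
  have hιf'B : s36_pm_U VB (ι f') := s36_pm_U_map ι hιB hf'U0
  have hWιf'A : s36_pm_U VA (W (ι f')) := s36_pt_U_W W hWBtoA hιf'B
  have hWgB : s36_pm_U VB (W g) := s36_pt_U_W W hWAtoB hgA
  have hιf0 : ι f ≠ 0 := hιfB.1
  have hWιf'0 : W (ι f') ≠ 0 := hWιf'A.1
  have hΨAU : s36_pm_U VA (W (ι f') ^ r * g ^ s) := (hWιf'A.zpow r).mul (hgA.zpow s)
  have hΨBU : s36_pm_U VB (ι f ^ r * g ^ s) := (hιfB.zpow r).mul (hgB.zpow s)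
  -- the branch congruences
  have hcB : s35_fa_one (ι ϖ'') VB (g ^ (n + 1) / (ι f) ^ m) :=
    (s36_pt_cgB ι hB hV0 hιB (n + 1) hresB Nm hNRins m hm g hgB f hf).2
  have hcB' : s35_fa_one (ι ϖ'') VB (W g ^ (n + 1) / (ι f') ^ m) :=
    (s36_pt_cgB ι hB hV0 hιB (n + 1) hresB Nm hNRins m hm (W g) hWgB f' hf').2
  have hcA : s35_fa_one (ι ϖ'') VA (g ^ (n + 1) / (W (ι f')) ^ m) := by
    have h2 := s35_fa_one.map W hWBtoA hdA hϖ0 hcB'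
    have e : W (W g ^ (n + 1) / ι f' ^ m) = g ^ (n + 1) / W (ι f') ^ m := by
      rw [map_div₀, map_pow, map_pow, hWW]
    rwa [e] at h2
  have hΨA : s35_fa_one (ι ϖ'') VA (g / (W (ι f') ^ r * g ^ s) ^ m) := by
    rw [s36_pm_rs g (W (ι f')) hg0 hWιf'0 (n + 1) m r s hrs]
    exact s36_pm_one_zpow hA hcA r
  have hΨB : s35_fa_one (ι ϖ'') VB (g / (ι f ^ r * g ^ s) ^ m) := by
    rw [s36_pm_rs g (ι f) hg0 hιf0 (n + 1) m r s hrs]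
    exact s36_pm_one_zpow hB hcB r
  -- the branch `C`
  obtain ⟨ψ₀, hψ₀U, hψ₀1, -, hC0⟩ := s36_pm_rootC ι hA hC hVi hιA hιC n hn hzn hresA hresC Nm
    hNRram m hm g hgA hgC f hf (W (ι f') ^ r * g ^ s) hΨAU hΨA
  have hψ0 := hψU.1
  have hψ₀0 := hψ₀U.1
  have hιψ0 : ι ψ ≠ 0 := (map_ne_zero ι).mpr hψ0
  have hιψ₀0 : ι ψ₀ ≠ 0 := (map_ne_zero ι).mpr hψ₀0
  have hf0 := hfUi.1
  have hιfψ0 : ι (f / ψ) ≠ 0 := (map_ne_zero ι).mpr (div_ne_zero hf0 hψ0)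
  -- generic names for the branch roots
  obtain ⟨ΨA, hΨAdef⟩ : ∃ ΨA : F, ΨA = W (ι f') ^ r * g ^ s := ⟨_, rfl⟩
  obtain ⟨ΨB, hΨBdef⟩ : ∃ ΨB : F, ΨB = ι f ^ r * g ^ s := ⟨_, rfl⟩
  rw [← hΨAdef] at hΨAU hΨA hψ₀1 hψ1
  rw [← hΨBdef] at hΨBU hΨB
  have hΨA0 := hΨAU.1
  have hΨB0 := hΨBU.1
  have h1 : s35_fa_one (ι ϖ'') VA (ι (ψ / ψ₀)) := by
    have e : ι (ψ / ψ₀) = ι ψ / ΨA / (ι ψ₀ / ΨA) := by
      rw [map_div₀]; field_simp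
    rw [e]; exact hψ1.div hA hψ₀1
  have h2 : s35_fa_one ϖ'' Vi (ψ / ψ₀) := s36_pm_one_comap ι hVi hA.inv_not_mem hιA h1
  have h3 : s35_fa_one z VC (ι (ψ / ψ₀)) :=
    s36_pm_one_weaken hzϖ hϖ0 (s36_pm_one_map ι hιC h2)
  have hΨC : s35_fa_one z VC (g ^ n / (ι (f / ψ)) ^ m) := by
    have e : g ^ n / (ι (f / ψ)) ^ m = g ^ n / (ι (f / ψ₀)) ^ m * (ι (ψ / ψ₀)) ^ m := by
      simp only [map_div₀, div_pow]; field_simp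
    rw [e]; exact hC0.mul hC (h3.pow hC m)
  -- the local factorisation
  obtain ⟨G, hGA, hGB, hGC, hw, hw'⟩ := hGloc g hgA hgB hgC hdiv
  have hG0 := hGA.1
  have hwinv : (g * (G⁻¹) ^ m)⁻¹ = G ^ m * g⁻¹ := by
    rw [mul_inv, inv_pow, inv_inv, mul_comm]
  have key1 : ∀ Ψ : F, Ψ ≠ 0 → (Ψ / G) ^ m / (g * (G⁻¹) ^ m) = (g / Ψ ^ m)⁻¹ := by
    intro Ψ hΨ
    rw [inv_div, div_pow, inv_pow]; field_simp
  have keyn : ∀ Ψ : F, Ψ ≠ 0 →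
      (Ψ / G ^ n) ^ m / (g * (G⁻¹) ^ m) ^ n = (g ^ n / Ψ ^ m)⁻¹ := by
    intro Ψ hΨ
    rw [inv_div, div_pow, mul_pow, inv_pow, ← pow_mul, inv_pow, ← pow_mul, mul_comm m n]
    field_simp
  -- the three lifts
  obtain ⟨rA, hrA, hrA', hlA0⟩ := s36_tri_lift hA (s18_locRing B 𝔪) hRA m hm hLA (ΨA / G)
    (g * (G⁻¹) ^ m) hw (by rw [hwinv]; exact hw') (by rw [key1 ΨA hΨA0]; exact hΨA.inv hA)
  have hlA : s35_fa_one (ι ϖ'') VA (ΨA / (G * rA)) := by rw [← div_div]; exact hlA0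
  obtain ⟨rB, hrB, hrB', hlB0⟩ := s36_tri_lift hB (s18_locRing B 𝔪) hRB m hm hLB (ΨB / G)
    (g * (G⁻¹) ^ m) hw (by rw [hwinv]; exact hw') (by rw [key1 ΨB hΨB0]; exact hΨB.inv hB)
  have hlB : s35_fa_one (ι ϖ'') VB (ΨB / (G * rB)) := by rw [← div_div]; exact hlB0
  obtain ⟨rC, hrC, hrC', hlC0⟩ := s36_tri_lift hC (s18_locRing B 𝔪) hRC m hm hLC
    (ι (f / ψ) / G ^ n) ((g * (G⁻¹) ^ m) ^ n) (Subring.pow_mem _ hw n)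
    (by rw [← inv_pow, hwinv]; exact Subring.pow_mem _ hw' n)
    (by rw [keyn _ hιfψ0]; exact hΨC.inv hC)
  have hlC : s35_fa_one z VC (ι (f / ψ) / (G ^ n * rC)) := by rw [← div_div]; exact hlC0
  have hrC0 : rC ≠ 0 := by
    rintro rfl
    exact hlC.ne_zero hC (by rw [mul_zero, div_zero])
  -- the relation for `ι`
  have hα' : rA * rC / rB ^ (n + 1) - 1 ∈ s35_nf_max B 𝔪 := by
    refine s36_pt_rel ι Nm hA hB hC hVi hV0 hιA hιC hιB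
      (by rw [inv_mul_cancel₀ hϖ0]; exact VA.one_mem)
      (by rw [inv_mul_cancel₀ hϖ0]; exact VB.one_mem)
      hA.inv_not_mem hB.inv_not_mem hnotC n hresA hresC hresB hNRram hNRins
      (s18_locRing B 𝔪) R'α m hα (fun x => x - 1 ∈ s35_nf_max B 𝔪)
      (fun x y hx hy => hL.one_mul hx hy) (fun x hx => hL.one_inv hx) hKA hKB hKC
      g G ΨA ΨB (ι (f / ψ)) rA rB rC f ψ hg0 hGA hGB hGC hw hw' hf hfUi hfU0 hψU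
      ?_ ?_ ?_ hrA hrA' hrB hrB' hrC hrC' hlA hlB hlC
    · have e : ΨA / ι ψ = (ι ψ / ΨA)⁻¹ := by rw [inv_div]
      rw [e]; exact hψ1.inv hA
    · rw [hΨBdef, s36_pt_rs2 g (ι f) hιf0 (n + 1) m r s hrs]
      exact s36_pm_one_zpow hB hcB s
    · rw [div_self hιfψ0]; exact s35_fa_one.one
  -- the relation for `W ∘ ι`
  have hξR : ξ ∈ s18_loc B 𝔪 := hroot ξ (by rw [hξm]; exact (s18_locRing B 𝔪).one_mem)
  have hξR' : ξ⁻¹ ∈ s18_loc B 𝔪 :=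
    hroot ξ⁻¹ (by rw [inv_pow, hξm, inv_one]; exact (s18_locRing B 𝔪).one_mem)
  have hξ0 : ξ ≠ 0 := by
    rintro rfl
    rw [zero_pow hm.ne'] at hξm
    exact zero_ne_one hξm
  have hf'0 := hf'Ui.1
  have hψ'0 := hψ'U.1
  have hWιfψ'0 : W (ι (f' / ψ')) ≠ 0 :=
    (map_ne_zero W).mpr ((map_ne_zero ι).mpr (div_ne_zero hf'0 hψ'0))
  have hβ' : rB * (ξ * rC) / rA ^ (n + 1) - 1 ∈ s35_nf_max B 𝔪 := by
    refine s36_pt_rel ((W : F →+* F).comp ι) (Nm.comp (W : F →* F)) (d₁ := ι ϖ'')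
      (d₂ := ι ϖ'') (d₃ := z) (ϖ' := ϖ'') hB hA hC hVi hV0
      (fun x hx => hWAtoB _ (hιA x hx)) (fun x hx => hWCC _ (hιC x hx))
      (fun x hx => hWBtoA _ (hιB x hx)) hdB hdA ?_ ?_ ?_ n ?_ ?_ ?_ ?_ ?_
      (s18_locRing B 𝔪) R'β m hβ (fun x => x - 1 ∈ s35_nf_max B 𝔪)
      (fun x y hx hy => hL.one_mul hx hy) (fun x hx => hL.one_inv hx) hKB hKA hKC
      g G ΨB ΨA (W (ι (f' / ψ'))) rB rA (ξ * rC) f' ψ' hg0 hGB hGA hGC hw hw' hf' hf'Ui hf'U0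
      hψ'U ?_ ?_ ?_ hrB hrB' hrA hrA' ((s18_locRing B 𝔪).mul_mem hξR hrC)
      (by rw [mul_inv]; exact (s18_locRing B 𝔪).mul_mem hξR' hrC') hlB hlA ?_
    · show (W (ι ϖ''))⁻¹ ∉ VB
      rw [hWϖ]; exact hB.inv_not_mem
    · show (W (ι ϖ''))⁻¹ ∉ VA
      rw [hWϖ]; exact hA.inv_not_mem
    · show (W (ι ϖ''))⁻¹ ∉ VC
      rw [hWϖ]; exact hnotC
    · -- residues of `V_B` over `Vi` through `W ∘ ι`
      intro y hy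
      obtain ⟨y', hy', h⟩ := hresA (W y) (hWBtoA y hy)
      refine ⟨y', hy', ?_⟩
      have h' := s36_pt_tr W hWAtoB hϖ0 hdB h
      rwa [map_sub, hWW] at h'
    · intro y hy
      obtain ⟨y', hy', h⟩ := hresC (W y) (hWCC y hy)
      refine ⟨y', hy', ?_⟩
      have h' := s36_pt_tr W hWCC hz0 hdC h
      rwa [map_sub, hWW] at h'
    · intro y hy
      obtain ⟨b, hb, h⟩ := hresB (W y) (hWAtoB y hy)
      refine ⟨b, hb, ?_⟩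
      have h' := s36_pt_tr W hWBtoA hϖ0 hdA h
      rwa [map_sub, map_pow, hWW] at h'
    · intro h hhB hhC a ha c hc h1 h3
      refine hNRram (W h) (hWBtoA h hhB) (hWCC h hhC) a ha c hc ?_ ?_
      · have h' := s36_pt_tr W hWBtoA hϖ0 hdA h1
        rw [map_sub] at h'
        have e : W (((W : F →+* F).comp ι) a) = ι a := hWW _
        rwa [e] at h'
      · have h' := s36_pt_tr W hWCC hz0 hdC h3
        rw [map_sub] at h'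
        have e : W (((W : F →+* F).comp ι) c) = ι c := hWW _
        rwa [e] at h'
    · intro h hh b hb h2
      refine hNRins (W h) (hWAtoB h hh) b hb ?_
      have h' := s36_pt_tr W hWAtoB hϖ0 hdB h2
      rw [map_sub, map_pow] at h'
      have e : W (((W : F →+* F).comp ι) b) = ι b := hWW _
      rwa [e] at h'
    · -- `Ψ_B ≡ W (ι ψ')`
      show s35_fa_one (ι ϖ'') VB (ΨB / W (ι ψ'))
      have h := s35_fa_one.map W hWAtoB hdB hϖ0 hψ'1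
      have e : W (ι ψ' / (W (ι f) ^ r * W g ^ s)) = W (ι ψ') / ΨB := by
        rw [map_div₀, map_mul, map_zpow₀, map_zpow₀, hWW, hWW, hΨBdef]
      rw [e] at h
      have e2 : ΨB / W (ι ψ') = (W (ι ψ') / ΨB)⁻¹ := by rw [inv_div]
      rw [e2]; exact h.inv hB
    · show s35_fa_one (ι ϖ'') VA (ΨA ^ (n + 1) / W (ι f'))
      rw [hΨAdef, s36_pt_rs2 g (W (ι f')) hWιf'0 (n + 1) m r s hrs]
      exact s36_pm_one_zpow hA hcA s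
    · show s35_fa_one z VC (W (ι (f' / ψ')) / W (ι (f' / ψ')))
      rw [div_self hWιfψ'0]; exact s35_fa_one.one
    · have e : W (ι (f' / ψ')) / (G ^ n * (ξ * rC)) =
          W (ι (f' / ψ')) / (ξ * ι (f / ψ)) * (ι (f / ψ) / (G ^ n * rC)) := by
        field_simp
      rw [e]; exact hξx.mul hC hlC
  have hβ'' : ξ * rB * rC / rA ^ (n + 1) - 1 ∈ s35_nf_max B 𝔪 := by
    have e : ξ * rB * rC / rA ^ (n + 1) = rB * (ξ * rC) / rA ^ (n + 1) := by ring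
    rw [e]; exact hβ'
  -- the local function
  obtain ⟨Θ, -, h1, h2, h3, h4, h5⟩ := s36_tri_theta hA hB hC (s18_locRing B 𝔪) hRA hRB hRC
    (s35_nf_max B 𝔪) hL hKA m n (s18_le_locRing B 𝔪 hmB) hm0 g G ΨA ΨB (ι (f / ψ)) ξ rA rB rC
    hg0 hG0 hw hw' hξR hξm hrA hrA' hrB hrB' hrC hrC' hΨA hΨB hΨC hlA hlB hlC hα' hβ''
  rw [hΨAdef] at h1
  rw [hΨBdef] at h2
  refine ⟨Θ, h1, h2, h3, ?_, ?_⟩
  · have e : g ^ (n * (n + 2)) / Θ ^ m = g ^ (n * (n + 2)) * (Θ⁻¹) ^ m := by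
      rw [div_eq_mul_inv, inv_pow]
    rw [e]; exact h4
  · have e : (g ^ (n * (n + 2)) / Θ ^ m)⁻¹ = Θ ^ m * (g ^ (n * (n + 2)))⁻¹ := by
      rw [inv_div, div_eq_mul_inv]
    rw [e]; exact h5

end Bridge

end Fermat.Agent.S36
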