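import Mathlib
import Fermat.Agent.S35.FrobAlg
import Fermat.Agent.S36.ClassPtQ

/-!
# S36 (NODE-3): the point of the level-`q²` chart over a level-`q` crossing point

`ι : F' →+* F` a degeneracy embedding (`α` or `β`), `B'` the level-`q` chart with its two
components `V₁'`, `V₂'`, `B` the level-`q²` chart; `X`, `Z` the components of `B` over `V₁'`
(`X` with uniformiser `ϖ`, `Z` with uniformiser `z`), `Y` the component over `V₂'`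
(`α`: `(X, Y, Z) = (A, B, C)`; `β`: `(X, Y, Z) = (B, A, C)`).

* `s36_cu_transport` : the crossing data at a prime of `B` over a level-`q` crossing point
  (enriched form of `s36_clq_transport`);
* `s36_cu_triple` : a prime of `B` over a level-`q` crossing point is a triple point;
* `s36_cu_unique` : it is the only prime of `B` over that crossing point;
* `s36_cu_local` : hence every `s ∈ B ∖ 𝔪` divides some `ι d`, `d ∈ B' ∖ 𝔪'`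
  (`B_𝔪 = B · B'_𝔪'` is integral over `B'_𝔪'`);
* `s36_cu_norm` : the norm maps `B_𝔪` into `B'_𝔪'` (the hypothesis `hNunit` of TRI36);
* `s36_cu_ext_pow`, `s36_cu_ext` : the local (EXT) data in unit form (`hE₁`, `hE₂`, `hE₃` of
  TRI36) from the chart-level (RES) statements;
* `s36_cu_one` : a unit of `B_𝔪` congruent to `1` on a component through `𝔪` is `≡ 1 mod 𝔪`.
-/

set_option autoImplicit false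

namespace Fermat.Agent.S36

open Fermat.Agent.S18 Fermat.Agent.S34 Fermat.Agent.S35

section Crossing

variable {F' F : Type*} [Field F'] [Field F]

/-- Transport of the level-`q` crossing data, enriched form: `u v = ϖ γ`, `u, v ∈ 𝔫`, `γ ∉ 𝔫`,
`u ∈ ϖ Y`, `v ∈ ϖ X ∩ ϖ Z`. -/
theorem s36_cu_transport (ι : F' →+* F) (B' V₁' V₂' : Subring F') (B X Y Z : Subring F)
    (hB'B : ∀ x ∈ B', ι x ∈ B) (ϖ' : F') (ϖ : F) (hιϖ : ι ϖ' = ϖ)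
    (hιX : ∀ y ∈ V₁', ι y ∈ X) (hιZ : ∀ y ∈ V₁', ι y ∈ Z) (hιY : ∀ y ∈ V₂', ι y ∈ Y)
    (hq : ∀ 𝔪' : Ideal B', 𝔪'.IsPrime → (∀ p : B', ϖ'⁻¹ * (p : F') ∈ V₁' → p ∈ 𝔪') →
      (∀ p : B', ϖ'⁻¹ * (p : F') ∈ V₂' → p ∈ 𝔪') →
      ∃ u₁ u₂ γ : B', (u₁ : F') * (u₂ : F') = ϖ' * (γ : F') ∧ ϖ'⁻¹ * (u₁ : F') ∈ V₁' ∧
        ϖ'⁻¹ * (u₂ : F') ∈ V₂' ∧ γ ∉ 𝔪')
    (𝔫 : Ideal B) (h𝔫 : 𝔫.IsPrime)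
    (h1 : ∀ x (hx : x ∈ B'), ϖ⁻¹ * ι x ∈ X → (⟨ι x, hB'B x hx⟩ : B) ∈ 𝔫)
    (h2 : ∀ x (hx : x ∈ B'), ϖ⁻¹ * ι x ∈ Y → (⟨ι x, hB'B x hx⟩ : B) ∈ 𝔫) :
    ∃ u v γ : B, (u : F) * (v : F) = ϖ * (γ : F) ∧ u ∈ 𝔫 ∧ v ∈ 𝔫 ∧ γ ∉ 𝔫 ∧
      ϖ⁻¹ * (u : F) ∈ Y ∧ ϖ⁻¹ * (v : F) ∈ X ∧ ϖ⁻¹ * (v : F) ∈ Z := by
  let φ : B' →+* B := (ι.comp B'.subtype).codRestrict B (fun x => hB'B x x.2)
  have hdiv : ∀ x : F', ϖ⁻¹ * ι x = ι (ϖ'⁻¹ * x) := by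
    intro x; rw [map_mul, map_inv₀, hιϖ]
  have hprime : (𝔫.comap φ).IsPrime := Ideal.comap_isPrime φ 𝔫
  obtain ⟨u₁, u₂, γ, huv, hu₁, hu₂, hγ⟩ := hq (𝔫.comap φ) hprime
    (fun p hp => h1 (p : F') p.2 (by rw [hdiv]; exact hιX _ hp))
    (fun p hp => h2 (p : F') p.2 (by rw [hdiv]; exact hιY _ hp))
  refine ⟨φ u₂, φ u₁, φ γ, ?_, ?_, ?_, hγ, ?_, ?_, ?_⟩
  · show ι (u₂ : F') * ι (u₁ : F') = ϖ * ι (γ : F')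
    rw [← map_mul, mul_comm, huv, map_mul, hιϖ]
  · exact h2 (u₂ : F') u₂.2 (by rw [hdiv]; exact hιY _ hu₂)
  · exact h1 (u₁ : F') u₁.2 (by rw [hdiv]; exact hιX _ hu₁)
  · show ϖ⁻¹ * ι (u₂ : F') ∈ Y
    rw [hdiv]; exact hιY _ hu₂
  · show ϖ⁻¹ * ι (u₁ : F') ∈ X
    rw [hdiv]; exact hιX _ hu₁
  · show ϖ⁻¹ * ι (u₁ : F') ∈ Z
    rw [hdiv]; exact hιZ _ hu₁

/-- **A prime over a level-`q` crossing point is a triple point.**  `𝔫` a prime of `B` whose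
contraction to `B'` contains the traces of `P_X` and `P_Y` (`h1`, `h2`); thickness one at level
`q` (`hq`); `hXY`, `hYZ` : the two relevant cases of (c-class) at `𝔫`.  Then `𝔫` contains `P_X`,
`P_Y` and `P_Z`. -/
theorem s36_cu_triple (ι : F' →+* F) (B' V₁' V₂' : Subring F') (B X Y Z : Subring F)
    (hB'B : ∀ x ∈ B', ι x ∈ B) (hBX : B ≤ X) (hBY : B ≤ Y) (hBZ : B ≤ Z)
    (ϖ' : F') (ϖ z : F) (hϖ0 : ϖ ≠ 0) (hz0 : z ≠ 0) (hιϖ : ι ϖ' = ϖ)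
    (hιX : ∀ y ∈ V₁', ι y ∈ X) (hιZ : ∀ y ∈ V₁', ι y ∈ Z) (hιY : ∀ y ∈ V₂', ι y ∈ Y)
    (hcap : ∀ x ∈ B, ϖ⁻¹ * x ∈ X → ϖ⁻¹ * x ∈ Y → ϖ⁻¹ * x ∈ Z → ϖ⁻¹ * x ∈ B)
    (n : ℕ) (hzn : ϖ⁻¹ * z ^ n ∈ Z)
    (hq : ∀ 𝔪' : Ideal B', 𝔪'.IsPrime → (∀ p : B', ϖ'⁻¹ * (p : F') ∈ V₁' → p ∈ 𝔪') →
      (∀ p : B', ϖ'⁻¹ * (p : F') ∈ V₂' → p ∈ 𝔪') →
      ∃ u₁ u₂ γ : B', (u₁ : F') * (u₂ : F') = ϖ' * (γ : F') ∧ ϖ'⁻¹ * (u₁ : F') ∈ V₁' ∧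
        ϖ'⁻¹ * (u₂ : F') ∈ V₂' ∧ γ ∉ 𝔪')
    (𝔫 : Ideal B) (h𝔫 : 𝔫.IsPrime)
    (hXY : (∀ p : B, ϖ⁻¹ * (p : F) ∈ X → p ∈ 𝔫) → (∀ p : B, ϖ⁻¹ * (p : F) ∈ Y → p ∈ 𝔫) →
      ∀ p : B, z⁻¹ * (p : F) ∈ Z → p ∈ 𝔫)
    (hYZ : (∀ p : B, ϖ⁻¹ * (p : F) ∈ Y → p ∈ 𝔫) → (∀ p : B, z⁻¹ * (p : F) ∈ Z → p ∈ 𝔫) →
      ∀ p : B, ϖ⁻¹ * (p : F) ∈ X → p ∈ 𝔫)
    (h1 : ∀ x (hx : x ∈ B'), ϖ⁻¹ * ι x ∈ X → (⟨ι x, hB'B x hx⟩ : B) ∈ 𝔫)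
    (h2 : ∀ x (hx : x ∈ B'), ϖ⁻¹ * ι x ∈ Y → (⟨ι x, hB'B x hx⟩ : B) ∈ 𝔫) :
    (∀ p : B, ϖ⁻¹ * (p : F) ∈ X → p ∈ 𝔫) ∧ (∀ p : B, ϖ⁻¹ * (p : F) ∈ Y → p ∈ 𝔫) ∧
      (∀ p : B, z⁻¹ * (p : F) ∈ Z → p ∈ 𝔫) := by
  obtain ⟨u, v, γ, huv, hu, hv, hγ, huY, hvX, hvZ⟩ := s36_cu_transport ι B' V₁' V₂' B X Y Z
    hB'B ϖ' ϖ hιϖ hιX hιZ hιY hq 𝔫 h𝔫 h1 h2
  have hv0 : v ≠ 0 := by
    rintro rfl
    apply hγ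
    have e1 : ϖ * (γ : F) = 0 := by rw [← huv, Subring.coe_zero, mul_zero]
    have e2 : γ = 0 := Subtype.ext ((mul_eq_zero.mp e1).resolve_left hϖ0)
    rw [e2]; exact 𝔫.zero_mem
  -- `P_Y ⊆ 𝔫`
  have hY : ∀ p : B, ϖ⁻¹ * (p : F) ∈ Y → p ∈ 𝔫 := by
    intro p hp
    obtain ⟨b, hb⟩ := s36_pb_prin B Y (X ⊓ Z) hBY (le_inf hBX hBZ) ϖ hϖ0
      (fun x hx h1 h2 => hcap x hx h2.1 h1 h2.2) u v γ huv ⟨hvX, hvZ⟩ hv0 p hp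
    have e1 : γ * p ∈ 𝔫 := by rw [hb]; exact 𝔫.mul_mem_left _ hu
    exact (h𝔫.mem_or_mem e1).resolve_left hγ
  -- `P_X ⊆ 𝔫` or `P_Z ⊆ 𝔫`
  have hXZ : (∀ p : B, ϖ⁻¹ * (p : F) ∈ X → p ∈ 𝔫) ∨ (∀ p : B, z⁻¹ * (p : F) ∈ Z → p ∈ 𝔫) := by
    by_contra hcon
    push Not at hcon
    obtain ⟨⟨pX, hpX, hpX𝔫⟩, ⟨pZ, hpZ, hpZ𝔫⟩⟩ := hcon
    have hb : ϖ⁻¹ * ((pZ : F) ^ n * (pX : F) * (u : F)) ∈ B := by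
      apply hcap _ (B.mul_mem (B.mul_mem (B.pow_mem pZ.2 n) pX.2) u.2)
      · have e : ϖ⁻¹ * ((pZ : F) ^ n * (pX : F) * (u : F)) =
            (pZ : F) ^ n * (ϖ⁻¹ * (pX : F)) * (u : F) := by ring
        rw [e]; exact X.mul_mem (X.mul_mem (X.pow_mem (hBX pZ.2) n) hpX) (hBX u.2)
      · have e : ϖ⁻¹ * ((pZ : F) ^ n * (pX : F) * (u : F)) =
            (pZ : F) ^ n * (pX : F) * (ϖ⁻¹ * (u : F)) := by ring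
        rw [e]; exact Y.mul_mem (Y.mul_mem (Y.pow_mem (hBY pZ.2) n) (hBY pX.2)) huY
      · have e : ϖ⁻¹ * ((pZ : F) ^ n * (pX : F) * (u : F)) =
            (ϖ⁻¹ * z ^ n) * (z⁻¹ * (pZ : F)) ^ n * ((pX : F) * (u : F)) := by
          rw [mul_pow, inv_pow]; field_simp
        rw [e]
        exact Z.mul_mem (Z.mul_mem hzn (Z.pow_mem hpZ n)) (Z.mul_mem (hBZ pX.2) (hBZ u.2))
    have hprod : v * (⟨_, hb⟩ : B) = pZ ^ n * pX * γ := by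
      apply Subtype.ext
      show (v : F) * (ϖ⁻¹ * ((pZ : F) ^ n * (pX : F) * (u : F))) =
        (pZ : F) ^ n * (pX : F) * (γ : F)
      have e : (v : F) * (ϖ⁻¹ * ((pZ : F) ^ n * (pX : F) * (u : F))) =
          ϖ⁻¹ * ((pZ : F) ^ n * (pX : F)) * ((u : F) * (v : F)) := by ring
      rw [e, huv]; field_simp
    have e1 : pZ ^ n * pX * γ ∈ 𝔫 := by rw [← hprod]; exact 𝔫.mul_mem_right _ hv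
    rcases h𝔫.mem_or_mem e1 with e2 | e2
    · rcases h𝔫.mem_or_mem e2 with e3 | e3
      · exact hpZ𝔫 (h𝔫.mem_of_pow_mem n e3)
      · exact hpX𝔫 e3
    · exact hγ e2
  rcases hXZ with hX | hZ
  · exact ⟨hX, hY, hXY hX hY⟩
  · exact ⟨hYZ hY hZ, hY, hZ⟩

/-- **The point over a level-`q` crossing point is unique.**  Two primes of `B` with the same
contraction to `B'`, one of them lying over a crossing point, are equal (given (RES) for `Z`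
along `ι` and (c-class) at both primes). -/
theorem s36_cu_unique (ι : F' →+* F) (B' V₁' V₂' : Subring F') (B X Y Z : Subring F)
    (hB'B : ∀ x ∈ B', ι x ∈ B) (hBX : B ≤ X) (hBY : B ≤ Y) (hBZ : B ≤ Z)
    (ϖ' : F') (ϖ z : F) (hϖ0 : ϖ ≠ 0) (hz0 : z ≠ 0) (hιϖ : ι ϖ' = ϖ)
    (hιX : ∀ y ∈ V₁', ι y ∈ X) (hιZ : ∀ y ∈ V₁', ι y ∈ Z) (hιY : ∀ y ∈ V₂', ι y ∈ Y)
    (hcap : ∀ x ∈ B, ϖ⁻¹ * x ∈ X → ϖ⁻¹ * x ∈ Y → ϖ⁻¹ * x ∈ Z → ϖ⁻¹ * x ∈ B)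
    (n : ℕ) (hzn : ϖ⁻¹ * z ^ n ∈ Z)
    (hres : ∀ y ∈ B, ∃ y' ∈ B', z⁻¹ * (y - ι y') ∈ Z)
    (hq : ∀ 𝔪' : Ideal B', 𝔪'.IsPrime → (∀ p : B', ϖ'⁻¹ * (p : F') ∈ V₁' → p ∈ 𝔪') →
      (∀ p : B', ϖ'⁻¹ * (p : F') ∈ V₂' → p ∈ 𝔪') →
      ∃ u₁ u₂ γ : B', (u₁ : F') * (u₂ : F') = ϖ' * (γ : F') ∧ ϖ'⁻¹ * (u₁ : F') ∈ V₁' ∧
        ϖ'⁻¹ * (u₂ : F') ∈ V₂' ∧ γ ∉ 𝔪')
    (hcl : ∀ 𝔭 : Ideal B, 𝔭.IsPrime →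
      ((∀ p : B, ϖ⁻¹ * (p : F) ∈ X → p ∈ 𝔭) → (∀ p : B, ϖ⁻¹ * (p : F) ∈ Y → p ∈ 𝔭) →
        ∀ p : B, z⁻¹ * (p : F) ∈ Z → p ∈ 𝔭) ∧
      ((∀ p : B, ϖ⁻¹ * (p : F) ∈ Y → p ∈ 𝔭) → (∀ p : B, z⁻¹ * (p : F) ∈ Z → p ∈ 𝔭) →
        ∀ p : B, ϖ⁻¹ * (p : F) ∈ X → p ∈ 𝔭))
    (𝔪 𝔫 : Ideal B) (h𝔪 : 𝔪.IsPrime) (h𝔫 : 𝔫.IsPrime)
    (h1 : ∀ x (hx : x ∈ B'), ϖ⁻¹ * ι x ∈ X → (⟨ι x, hB'B x hx⟩ : B) ∈ 𝔪)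
    (h2 : ∀ x (hx : x ∈ B'), ϖ⁻¹ * ι x ∈ Y → (⟨ι x, hB'B x hx⟩ : B) ∈ 𝔪)
    (hc : ∀ x (hx : x ∈ B'), ((⟨ι x, hB'B x hx⟩ : B) ∈ 𝔫 ↔ (⟨ι x, hB'B x hx⟩ : B) ∈ 𝔪)) :
    𝔫 = 𝔪 := by
  have t𝔪 := s36_cu_triple ι B' V₁' V₂' B X Y Z hB'B hBX hBY hBZ ϖ' ϖ z hϖ0 hz0 hιϖ hιX hιZ
    hιY hcap n hzn hq 𝔪 h𝔪 (hcl 𝔪 h𝔪).1 (hcl 𝔪 h𝔪).2 h1 h2
  have t𝔫 := s36_cu_triple ι B' V₁' V₂' B X Y Z hB'B hBX hBY hBZ ϖ' ϖ z hϖ0 hz0 hιϖ hιX hιZ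
    hιY hcap n hzn hq 𝔫 h𝔫 (hcl 𝔫 h𝔫).1 (hcl 𝔫 h𝔫).2
    (fun x hx h => (hc x hx).mpr (h1 x hx h)) (fun x hx h => (hc x hx).mpr (h2 x hx h))
  exact le_antisymm
    (s36_cl_uniq ι B' B Z hB'B z hres 𝔫 𝔪 t𝔫.2.2 t𝔪.2.2 (fun x hx h => (hc x hx).mp h))
    (s36_cl_uniq ι B' B Z hB'B z hres 𝔪 𝔫 t𝔪.2.2 t𝔫.2.2 (fun x hx h => (hc x hx).mpr h))

/-- **`B_𝔪 = B · B'_𝔪'` at a point over a level-`q` crossing point.**  Every `s ∈ B ∖ 𝔪` divides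
(in `B`) the image `ι d` of some `d ∈ B'` with `ι d ∉ 𝔪`. -/
theorem s36_cu_local (ι : F' →+* F) (B' V₁' V₂' : Subring F') (B X Y Z : Subring F)
    (hB'B : ∀ x ∈ B', ι x ∈ B)
    (hint : ∀ x ∈ B, ∃ P : Polynomial B', P.Monic ∧ P.eval₂ (ι.comp B'.subtype) x = 0)
    (hBX : B ≤ X) (hBY : B ≤ Y) (hBZ : B ≤ Z)
    (ϖ' : F') (ϖ z : F) (hϖ0 : ϖ ≠ 0) (hz0 : z ≠ 0) (hιϖ : ι ϖ' = ϖ)
    (hιX : ∀ y ∈ V₁', ι y ∈ X) (hιZ : ∀ y ∈ V₁', ι y ∈ Z) (hιY : ∀ y ∈ V₂', ι y ∈ Y)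
    (hcap : ∀ x ∈ B, ϖ⁻¹ * x ∈ X → ϖ⁻¹ * x ∈ Y → ϖ⁻¹ * x ∈ Z → ϖ⁻¹ * x ∈ B)
    (n : ℕ) (hzn : ϖ⁻¹ * z ^ n ∈ Z)
    (hres : ∀ y ∈ B, ∃ y' ∈ B', z⁻¹ * (y - ι y') ∈ Z)
    (hq : ∀ 𝔪' : Ideal B', 𝔪'.IsPrime → (∀ p : B', ϖ'⁻¹ * (p : F') ∈ V₁' → p ∈ 𝔪') →
      (∀ p : B', ϖ'⁻¹ * (p : F') ∈ V₂' → p ∈ 𝔪') →
      ∃ u₁ u₂ γ : B', (u₁ : F') * (u₂ : F') = ϖ' * (γ : F') ∧ ϖ'⁻¹ * (u₁ : F') ∈ V₁' ∧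
        ϖ'⁻¹ * (u₂ : F') ∈ V₂' ∧ γ ∉ 𝔪')
    (hcl : ∀ 𝔭 : Ideal B, 𝔭.IsPrime →
      ((∀ p : B, ϖ⁻¹ * (p : F) ∈ X → p ∈ 𝔭) → (∀ p : B, ϖ⁻¹ * (p : F) ∈ Y → p ∈ 𝔭) →
        ∀ p : B, z⁻¹ * (p : F) ∈ Z → p ∈ 𝔭) ∧
      ((∀ p : B, ϖ⁻¹ * (p : F) ∈ Y → p ∈ 𝔭) → (∀ p : B, z⁻¹ * (p : F) ∈ Z → p ∈ 𝔭) →
        ∀ p : B, ϖ⁻¹ * (p : F) ∈ X → p ∈ 𝔭))
    (𝔪 : Ideal B) (h𝔪 : 𝔪.IsPrime)
    (h1 : ∀ x (hx : x ∈ B'), ϖ⁻¹ * ι x ∈ X → (⟨ι x, hB'B x hx⟩ : B) ∈ 𝔪)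
    (h2 : ∀ x (hx : x ∈ B'), ϖ⁻¹ * ι x ∈ Y → (⟨ι x, hB'B x hx⟩ : B) ∈ 𝔪)
    (s : B) (hs : s ∉ 𝔪) :
    ∃ c : B, ∃ d : F', ∃ hd : d ∈ B', (⟨ι d, hB'B d hd⟩ : B) ∉ 𝔪 ∧
      s * c = ⟨ι d, hB'B d hd⟩ := by
  by_contra hno
  push Not at hno
  let φ : B' →+* B := (ι.comp B'.subtype).codRestrict B (fun x => hB'B x x.2)
  have hprime : (𝔪.comap φ).IsPrime := Ideal.comap_isPrime φ 𝔪
  let S : Submonoid B := (𝔪.comap φ).primeCompl.map φ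
  have hdisj : Disjoint ((Ideal.span {s} : Ideal B) : Set B) (S : Set B) := by
    rw [Set.disjoint_left]
    rintro x hx ⟨d, hd, rfl⟩
    obtain ⟨c, hc⟩ := Ideal.mem_span_singleton'.mp hx
    have hd' : φ d ∉ 𝔪 := hd
    exact hno c (d : F') d.2 hd' (by rw [mul_comm]; exact hc)
  obtain ⟨𝔭, h𝔭, hle, hdisj'⟩ := Ideal.exists_le_prime_disjoint _ S hdisj
  obtain ⟨𝔫, h𝔫, h𝔭𝔫, hiff⟩ := s36_cl_goingUp ι B' B hB'B hint 𝔪 𝔭 (by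
    intro x hx hmem
    by_contra hx𝔪
    have hS : (⟨ι x, hB'B x hx⟩ : B) ∈ S := ⟨⟨x, hx⟩, hx𝔪, rfl⟩
    exact Set.disjoint_left.mp hdisj' hmem hS)
  have heq := s36_cu_unique ι B' V₁' V₂' B X Y Z hB'B hBX hBY hBZ ϖ' ϖ z hϖ0 hz0 hιϖ hιX hιZ
    hιY hcap n hzn hres hq hcl 𝔪 𝔫 h𝔪 h𝔫 h1 h2 hiff
  apply hs
  rw [← heq]
  exact h𝔭𝔫 (hle (Ideal.mem_span_singleton_self s))

end Crossing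

section Local

variable {F' F : Type*} [Field F'] [Field F]

/-- **The norm maps `B_𝔪` into `B'_𝔪'`** when `B_𝔪 = B · B'_𝔪'` (`hloc`, from `s36_cu_local`),
`Nm (ι d) = d ^ k` and `Nm B ⊆ B'`. -/
theorem s36_cu_norm (ι : F' →+* F) (B' : Subring F') (B : Subring F)
    (hB'B : ∀ x ∈ B', ι x ∈ B) (Nm : F →* F') (k : ℕ)
    (hNι : ∀ d ∈ B', Nm (ι d) = d ^ k) (hNB : ∀ b ∈ B, Nm b ∈ B')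
    (𝔪 : Ideal B) (𝔪' : Ideal B') [h𝔪' : 𝔪'.IsPrime]
    (hcomap : ∀ d (hd : d ∈ B'), (⟨d, hd⟩ : B') ∈ 𝔪' ↔ (⟨ι d, hB'B d hd⟩ : B) ∈ 𝔪)
    (hloc : ∀ s : B, s ∉ 𝔪 → ∃ c : B, ∃ d : F', ∃ hd : d ∈ B', (⟨ι d, hB'B d hd⟩ : B) ∉ 𝔪 ∧
      s * c = ⟨ι d, hB'B d hd⟩)
    (y : F) (hy : y ∈ s18_loc B 𝔪) : Nm y ∈ s18_loc B' 𝔪' := by
  obtain ⟨a, b, hb, rfl⟩ := hy
  obtain ⟨c, d, hd, hd𝔪, hbc⟩ := hloc b hb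
  have hd' : (⟨d, hd⟩ : B') ∉ 𝔪' := fun h => hd𝔪 ((hcomap d hd).mp h)
  have hd0 : d ≠ 0 := by
    rintro rfl
    exact hd' (by
      have : (⟨0, hd⟩ : B') = 0 := rfl
      rw [this]; exact 𝔪'.zero_mem)
  have hιd0 : ι d ≠ 0 := (map_ne_zero ι).mpr hd0
  have hbc' : (b : F) * (c : F) = ι d := congrArg Subtype.val hbc
  have hb0 : (b : F) ≠ 0 := left_ne_zero_of_mul (hbc' ▸ hιd0)
  have e : (a : F) / (b : F) * ι d = (a : F) * (c : F) := by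
    rw [← hbc']; field_simp
  have hN : Nm ((a : F) / (b : F)) * d ^ k = Nm ((a : F) * (c : F)) := by
    rw [← hNι d hd, ← map_mul, e]
  have hdk0 : d ^ k ≠ 0 := pow_ne_zero k hd0
  refine ⟨⟨_, hNB _ (B.mul_mem a.2 c.2)⟩, ⟨d, hd⟩ ^ k, fun h => hd' (h𝔪'.mem_of_pow_mem k h), ?_⟩
  rw [Subring.coe_pow]
  show Nm ((a : F) / (b : F)) = Nm ((a : F) * (c : F)) / d ^ k
  rw [← hN, mul_div_cancel_right₀ _ hdk0]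

/-- **Local (EXT), power form**: from the chart-level statement "every `k`-th power of an element
of `B` is congruent modulo `P_V = B ∩ d V` to an element of `ι B'`", at a prime `𝔪 ⊇ P_V`: every
unit `y` of `B_𝔪` has `y ^ k ≡ ι y'` (multiplicatively, modulo `d V`) for a unit `y'` of
`B'_𝔪'`. -/
theorem s36_cu_ext_pow (ι : F' →+* F) (B' : Subring F') (B V : Subring F)
    (hB'B : ∀ x ∈ B', ι x ∈ B) {d : F} (hV : s34_Unif d V) (hBV : B ≤ V) (k : ℕ)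
    (hres : ∀ y ∈ B, ∃ y' ∈ B', d⁻¹ * (y ^ k - ι y') ∈ V)
    (𝔪 : Ideal B) [h𝔪 : 𝔪.IsPrime] (𝔪' : Ideal B')
    (hcomap : ∀ x (hx : x ∈ B'), (⟨x, hx⟩ : B') ∈ 𝔪' ↔ (⟨ι x, hB'B x hx⟩ : B) ∈ 𝔪)
    (hP : ∀ p : B, d⁻¹ * (p : F) ∈ V → p ∈ 𝔪)
    (y : F) (hy0 : y ≠ 0) (hy : y ∈ s18_loc B 𝔪) (hy' : y⁻¹ ∈ s18_loc B 𝔪) :
    ∃ y' : F', y' ∈ s18_loc B' 𝔪' ∧ y'⁻¹ ∈ s18_loc B' 𝔪' ∧ s35_fa_one d V (y ^ k / ι y') := by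
  obtain ⟨a, b, hb, rfl⟩ := hy
  obtain ⟨c, e, he, hce⟩ := hy'
  have hb0 : (b : F) ≠ 0 := fun h => hb (by
    have : b = 0 := Subtype.ext h
    rw [this]; exact 𝔪.zero_mem)
  have he0 : (e : F) ≠ 0 := fun h => he (by
    have : e = 0 := Subtype.ext h
    rw [this]; exact 𝔪.zero_mem)
  have ha0 : (a : F) ≠ 0 := fun h => hy0 (by rw [h, zero_div])
  -- `a ∉ 𝔪`
  have ha : a ∉ 𝔪 := by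
    intro ha
    have h1 : b * e = a * c := by
      apply Subtype.ext
      show (b : F) * (e : F) = (a : F) * (c : F)
      have h2 : ((a : F) / (b : F))⁻¹ = (c : F) / (e : F) := hce
      rw [inv_div] at h2
      field_simp at h2
      linear_combination h2
    have h3 : b * e ∈ 𝔪 := by rw [h1]; exact 𝔪.mul_mem_right _ ha
    exact (h𝔪.mem_or_mem h3).elim hb he
  have hak : a ^ k ∉ 𝔪 := fun h => ha (h𝔪.mem_of_pow_mem k h)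
  have hbk : b ^ k ∉ 𝔪 := fun h => hb (h𝔪.mem_of_pow_mem k h)
  obtain ⟨a', ha', haa'⟩ := hres (a : F) a.2
  obtain ⟨b', hb', hbb'⟩ := hres (b : F) b.2
  -- the images are outside `𝔪`
  have key : ∀ (x : B) (x' : F') (hx' : x' ∈ B'), x ^ k ∉ 𝔪 → d⁻¹ * ((x : F) ^ k - ι x') ∈ V →
      (⟨ι x', hB'B x' hx'⟩ : B) ∉ 𝔪 := by
    intro x x' hx' hxk hxx' hmem
    have h1 : (x ^ k - ⟨ι x', hB'B x' hx'⟩ : B) ∈ 𝔪 := hP _ hxx'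
    apply hxk
    have := 𝔪.add_mem h1 hmem
    simpa using this
  have ha'𝔪 := key a a' ha' hak haa'
  have hb'𝔪 := key b b' hb' hbk hbb'
  have ha'' : (⟨a', ha'⟩ : B') ∉ 𝔪' := fun h => ha'𝔪 ((hcomap a' ha').mp h)
  have hb'' : (⟨b', hb'⟩ : B') ∉ 𝔪' := fun h => hb'𝔪 ((hcomap b' hb').mp h)
  have hιa0 : ι a' ≠ 0 := fun h => ha'𝔪 (by
    have : (⟨ι a', hB'B a' ha'⟩ : B) = 0 := Subtype.ext h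
    rw [this]; exact 𝔪.zero_mem)
  have hιb0 : ι b' ≠ 0 := fun h => hb'𝔪 (by
    have : (⟨ι b', hB'B b' hb'⟩ : B) = 0 := Subtype.ext h
    rw [this]; exact 𝔪.zero_mem)
  have ha'0 : a' ≠ 0 := fun h => hιa0 (by rw [h, map_zero])
  have hb'0 : b' ≠ 0 := fun h => hιb0 (by rw [h, map_zero])
  -- units of `V`
  have unitV : ∀ x : B, x ∉ 𝔪 → ((x : F))⁻¹ ∈ V := fun x hx =>
    hV.inv_mem_of_not_dvd (hBV x.2) (fun hcon => hx (hP x hcon))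
  refine ⟨a' / b', ⟨⟨a', ha'⟩, ⟨b', hb'⟩, hb'', rfl⟩, ⟨⟨b', hb'⟩, ⟨a', ha'⟩, ha'', ?_⟩, ?_⟩
  · show (a' / b')⁻¹ = b' / a'
    rw [inv_div]
  · show d⁻¹ * (((a : F) / (b : F)) ^ k / ι (a' / b') - 1) ∈ V
    have e1 : d⁻¹ * (((a : F) / (b : F)) ^ k / ι (a' / b') - 1) =
        ((d⁻¹ * ((a : F) ^ k - ι a')) * ι b' - (d⁻¹ * ((b : F) ^ k - ι b')) * ι a') *
          (((b ^ k : B) : F))⁻¹ * (ι a')⁻¹ := by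
      rw [map_div₀, div_pow, Subring.coe_pow]
      have hbk0 : (b : F) ^ k ≠ 0 := pow_ne_zero k hb0
      field_simp
      ring
    rw [e1]
    exact V.mul_mem (V.mul_mem (V.sub_mem (V.mul_mem haa' (hBV (hB'B b' hb')))
      (V.mul_mem hbb' (hBV (hB'B a' ha')))) (unitV _ hbk)) (unitV ⟨ι a', hB'B a' ha'⟩ ha'𝔪)

/-- **Local (EXT)** (`k = 1`): from (RES) `B = ι B' + P_V` at a prime `𝔪 ⊇ P_V`: every unit `y` of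
`B_𝔪` is `≡ ι y'` (multiplicatively, modulo `d V`) for a unit `y'` of `B'_𝔪'`. -/
theorem s36_cu_ext (ι : F' →+* F) (B' : Subring F') (B V : Subring F)
    (hB'B : ∀ x ∈ B', ι x ∈ B) {d : F} (hV : s34_Unif d V) (hBV : B ≤ V)
    (hres : ∀ y ∈ B, ∃ y' ∈ B', d⁻¹ * (y - ι y') ∈ V)
    (𝔪 : Ideal B) [h𝔪 : 𝔪.IsPrime] (𝔪' : Ideal B')
    (hcomap : ∀ x (hx : x ∈ B'), (⟨x, hx⟩ : B') ∈ 𝔪' ↔ (⟨ι x, hB'B x hx⟩ : B) ∈ 𝔪)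
    (hP : ∀ p : B, d⁻¹ * (p : F) ∈ V → p ∈ 𝔪)
    (y : F) (hy0 : y ≠ 0) (hy : y ∈ s18_loc B 𝔪) (hy' : y⁻¹ ∈ s18_loc B 𝔪) :
    ∃ y' : F', y' ∈ s18_loc B' 𝔪' ∧ y'⁻¹ ∈ s18_loc B' 𝔪' ∧ s35_fa_one d V (y / ι y') := by
  have h := s36_cu_ext_pow ι B' B V hB'B hV hBV 1 (fun y hy => by
    obtain ⟨y', hy', h⟩ := hres y hy
    exact ⟨y', hy', by rw [pow_one]; exact h⟩) 𝔪 𝔪' hcomap hP y hy0 hy hy'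
  simpa only [pow_one] using h

/-- A unit of `B_𝔪` congruent to `1` on a component `V` through `𝔪` (`P_V ⊆ 𝔪`) is congruent to
`1` modulo the maximal ideal of `B_𝔪`. -/
theorem s36_cu_one (B V : Subring F) {d : F} (hBV : B ≤ V) (𝔪 : Ideal B)
    (hP : ∀ p : B, d⁻¹ * (p : F) ∈ V → p ∈ 𝔪)
    (x : F) (hx : x ∈ s18_loc B 𝔪) (h : s35_fa_one d V x) :
    ∃ a b : B, a ∈ 𝔪 ∧ b ∉ 𝔪 ∧ x - 1 = (a : F) / (b : F) := by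
  obtain ⟨a, b, hb, rfl⟩ := hx
  have hb0 : (b : F) ≠ 0 := fun h0 => hb (by
    have : b = 0 := Subtype.ext h0
    rw [this]; exact 𝔪.zero_mem)
  refine ⟨a - b, b, hP _ ?_, hb, ?_⟩
  · have e : d⁻¹ * ((a - b : B) : F) = (b : F) * (d⁻¹ * ((a : F) / (b : F) - 1)) := by
      rw [AddSubgroupClass.coe_sub]; field_simp
    rw [e]
    exact V.mul_mem (hBV b.2) h
  · rw [AddSubgroupClass.coe_sub]; field_simp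

end Local

end Fermat.Agent.S36
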