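import Mathlib
import Fermat.Agent.S18.AsUfd

/-!
# S36 (NODE-3): factoriality at regular closed points and the function `G`

At a closed point `𝔪` of the special fibre where the local ring `B_𝔪` is regular of dimension two
(maximal ideal generated by two elements, e.g. the triple points of the level-`q²` model, or the
ordinary points of the non-reduced component), `B_𝔪` is a unique factorisation domain, and every
function `g₁` whose horizontal divisor is divisible by `p` is, near `𝔪` and up to vertical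
components, a `p`-th power: there is `G` with `g₁ / G ^ p` a unit at every horizontal prime through
`𝔪`.  This is the conclusion of the hypotheses `hG0`, `hGi` of the NODE-1/NODE-2 model theorems;
no rational points (normal form (CG)) are needed.

* `s36_tf_prime_of_param` : in a noetherian local domain with `𝔪 = (x, y)` of dimension two (a
  nonzero non-maximal prime exists), `x` is a prime element.
* `s36_tf_strip` : in a UFD, `a = v * h` with `v ∣ π ^ N` and `h` prime to `π`.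
* `s36_tf_hG` : the function `G`.
-/

set_option autoImplicit false

namespace Fermat.Agent.S36

open Fermat.Agent.S18 IsLocalRing

/-- A regular parameter of a two-dimensional regular local domain is a prime element. -/
theorem s36_tf_prime_of_param {R : Type*} [CommRing R] [IsDomain R] [IsNoetherianRing R]
    [IsLocalRing R] (x y : R) (hm : maximalIdeal R = Ideal.span {x, y}) (P : Ideal R)
    [hP : P.IsPrime] (hP0 : P ≠ ⊥) (hPm : P ≠ maximalIdeal R) : Prime x := by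
  classical
  have hPlt : P < maximalIdeal R := lt_of_le_of_ne (IsLocalRing.le_maximalIdeal hP.ne_top) hPm
  have h0lt : (⊥ : Ideal R) < P := bot_lt_iff_ne_bot.mpr hP0
  have hbot : (⊥ : Ideal R).IsPrime := Ideal.isPrime_bot
  have hht1 : (⊥ : Ideal R).height < P.height :=
    Ideal.height_strict_mono_of_isPrime_of_isPrime h0lt
  have hht2 : P.height < (maximalIdeal R).height :=
    Ideal.height_strict_mono_of_isPrime_of_isPrime hPlt
  have hht : ¬ (maximalIdeal R).height ≤ 1 := by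
    intro h
    have h1 : P.height < 1 := lt_of_lt_of_le hht2 h
    have h2 : P.height = 0 := Order.lt_one_iff.mp h1
    rw [h2] at hht1
    exact not_lt_bot hht1
  have hxm : x ∈ maximalIdeal R := by rw [hm]; exact Ideal.subset_span (by simp)
  have hym : y ∈ maximalIdeal R := by rw [hm]; exact Ideal.subset_span (by simp)
  -- `x ≠ 0`
  have hx0 : x ≠ 0 := by
    rintro rfl
    apply hht
    have hmy : maximalIdeal R = Ideal.span {y} := by
      rw [hm]
      apply le_antisymm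
      · rw [Ideal.span_le]
        rintro z (rfl | rfl)
        · exact Ideal.zero_mem _
        · exact Ideal.subset_span rfl
      · exact Ideal.span_mono (by simp)
    have hmem : maximalIdeal R ∈ (Ideal.span {y}).minimalPrimes := by
      have h1 : (Ideal.span {y}).IsPrime := by rw [← hmy]; infer_instance
      rw [Ideal.minimalPrimes_eq_subsingleton_self, ← hmy]
      rfl
    exact Ideal.height_le_one_of_isPrincipal_of_mem_minimalPrimes _ _ hmem
  -- a minimal prime over `(x)`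
  obtain ⟨𝔭, h𝔭, h𝔭le⟩ := Ideal.exists_minimalPrimes_le (I := Ideal.span {x})
    (J := maximalIdeal R) ((Ideal.span_singleton_le_iff_mem _).mpr hxm)
  have h𝔭prime : 𝔭.IsPrime := h𝔭.1.1
  have hx𝔭 : x ∈ 𝔭 := h𝔭.1.2 (Ideal.subset_span rfl)
  have h𝔭ne : 𝔭 ≠ maximalIdeal R := by
    rintro rfl
    exact hht (Ideal.height_le_one_of_isPrincipal_of_mem_minimalPrimes _ _ h𝔭)
  have hy𝔭 : y ∉ 𝔭 := by
    intro hy
    apply h𝔭ne
    refine le_antisymm h𝔭le ?_
    rw [hm, Ideal.span_le]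
    rintro z (rfl | rfl)
    · exact hx𝔭
    · exact hy
  have hle : 𝔭 ≤ Ideal.span {x} ⊔ maximalIdeal R • 𝔭 := by
    intro z hz
    have hz𝔪 : z ∈ Ideal.span {x, y} := by rw [← hm]; exact h𝔭le hz
    obtain ⟨a, b, rfl⟩ := Ideal.mem_span_pair.mp hz𝔪
    have hb : b ∈ 𝔭 := by
      have h1 : b * y ∈ 𝔭 := by
        have h2 := 𝔭.sub_mem hz (𝔭.mul_mem_left a hx𝔭)
        rwa [add_sub_cancel_left] at h2
      exact (h𝔭prime.mem_or_mem h1).resolve_right hy𝔭
    refine Submodule.add_mem_sup (Ideal.mul_mem_left _ a (Ideal.subset_span rfl)) ?_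
    rw [mul_comm]
    exact Submodule.smul_mem_smul hym hb
  have h𝔭eq : 𝔭 = Ideal.span {x} :=
    le_antisymm (Submodule.le_of_le_smul_of_le_jacobson_bot (IsNoetherian.noetherian 𝔭)
      (IsLocalRing.maximalIdeal_le_jacobson ⊥) hle)
      ((Ideal.span_singleton_le_iff_mem _).mpr hx𝔭)
  rw [h𝔭eq] at h𝔭prime
  exact (Ideal.span_singleton_prime hx0).mp h𝔭prime

/-- In a UFD every nonzero `a` is `v * h` with `v ∣ π ^ N` and `h` prime to `π`. -/
theorem s36_tf_strip {R : Type*} [CommRing R] [IsDomain R] [UniqueFactorizationMonoid R]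
    (π : R) (a : R) (ha : a ≠ 0) :
    ∃ (v h : R) (N : ℕ) (c : R), a = v * h ∧ v * c = π ^ N ∧
      ∀ f : R, Prime f → f ∣ h → ¬ f ∣ π := by
  revert ha
  refine UniqueFactorizationMonoid.induction_on_prime a (fun h => absurd rfl h) ?_ ?_
  · intro x hx _
    refine ⟨1, x, 0, 1, by rw [one_mul], by rw [one_mul, pow_zero], ?_⟩
    intro f hf hfx _
    exact hf.not_isUnit (isUnit_of_dvd_unit hfx hx)
  · intro a p ha0 hp ih _
    obtain ⟨v, h, N, c, hav, hvc, hh⟩ := ih ha0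
    by_cases hpπ : p ∣ π
    · obtain ⟨d, hd⟩ := hpπ
      refine ⟨p * v, h, N + 1, d * c, by rw [hav]; ring, ?_, hh⟩
      rw [pow_succ, ← hvc, hd]; ring
    · refine ⟨v, p * h, N, c, by rw [hav]; ring, hvc, ?_⟩
      intro f hf hfph hfπ
      rcases hf.dvd_or_dvd hfph with hfp | hfh
      · obtain ⟨e, he⟩ := hfp
        have heu : IsUnit e := (hp.irreducible.isUnit_or_isUnit he).resolve_left hf.not_isUnit
        apply hpπ
        obtain ⟨u, rfl⟩ := heu
        have hpf : p ∣ f := ⟨↑u⁻¹, by rw [he, mul_assoc, Units.mul_inv, mul_one]⟩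
        exact hpf.trans hfπ
      · exact hh f hf hfh hfπ

/-- **The function `G` at a regular closed point.**  `B ⊆ F` noetherian with fraction field `F`,
`𝔪` a maximal ideal generated locally by two elements `x`, `y`, of height two (a nonzero prime
`𝔮₀ < 𝔪`), and `g₁ ≠ 0` a function whose divisor away from the special fibre (`ϖ = 0`) is
divisible by `p`.  Then there is `G ≠ 0` such that `g₁ / G ^ p` is a unit at every prime `𝔮 ≤ 𝔪`
not containing `ϖ`. -/
theorem s36_tf_hG {F : Type*} [Field F] (B : Subring F) (hnoeth : IsNoetherianRing B)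
    (hfrac : ∀ x : F, ∃ a ∈ B, ∃ b ∈ B, b ≠ 0 ∧ x = a / b)
    (ϖ : F) (hϖB : ϖ ∈ B)
    (𝔪 : Ideal B) (h𝔪 : 𝔪.IsMaximal) (x y : B) (hx : x ∈ 𝔪) (hy : y ∈ 𝔪)
    (hgen : ∀ z ∈ 𝔪, ∃ u, u ∉ 𝔪 ∧ u * z ∈ Ideal.span {x, y})
    (𝔮₀ : Ideal B) (h𝔮₀ : 𝔮₀.IsPrime) (h𝔮₀0 : 𝔮₀ ≠ ⊥) (h𝔮₀𝔪 : 𝔮₀ < 𝔪)
    (p : ℕ) (hp : 0 < p) (g₁ : F) (hg₁ : g₁ ≠ 0)
    (hdiv : ∀ W : ValuationSubring F, IsDiscreteValuationRing W → B ≤ W.toSubring → ϖ⁻¹ ∈ W →
      ∃ g u : F, u ∈ W ∧ u⁻¹ ∈ W ∧ g₁ = u * g ^ p) :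
    ∃ G : F, G ≠ 0 ∧ ∀ 𝔮 : Ideal B, 𝔮.IsPrime → 𝔮 ≤ 𝔪 → (⟨ϖ, hϖB⟩ : B) ∉ 𝔮 →
      g₁ * (G⁻¹) ^ p ∈ s18_loc B 𝔮 ∧ G ^ p * g₁⁻¹ ∈ s18_loc B 𝔮 := by
  classical
  have hprime𝔪 : 𝔪.IsPrime := h𝔪.isPrime
  have hfracI : IsFractionRing B F := by
    refine IsFractionRing.of_field B F fun z => ?_
    obtain ⟨x, hx, y, hy, hy0, rfl⟩ := hfrac z
    exact ⟨⟨x, hx⟩, ⟨y, hy⟩, rfl⟩
  have hS : 𝔪.primeCompl ≤ nonZeroDivisors B := Ideal.primeCompl_le_nonZeroDivisors 𝔪
  let R : Subalgebra B F := Localization.subalgebra.ofField F 𝔪.primeCompl hS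
  have hmemR : ∀ x : F, x ∈ R ↔ x ∈ s18_loc B 𝔪 := by
    intro x
    constructor
    · rintro ⟨a, s, hs, rfl⟩
      exact ⟨a, s, hs, by rw [div_eq_mul_inv]; rfl⟩
    · rintro ⟨a, s, hs, rfl⟩
      exact ⟨a, s, hs, by rw [div_eq_mul_inv]; rfl⟩
  have hloc : IsLocalization.AtPrime R 𝔪 :=
    Localization.subalgebra.isLocalization_ofField F 𝔪.primeCompl hS
  have hRnoeth : IsNoetherianRing R := IsLocalization.isNoetherianRing 𝔪.primeCompl R hnoeth
  have hRlocal : IsLocalRing R := IsLocalization.AtPrime.isLocalRing R 𝔪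
  have hRfrac : IsFractionRing R F := Localization.subalgebra.isFractionRing_ofField F _ hS
  let ι : B →+* R := algebraMap B R
  have hι : ∀ z : B, ((ι z : R) : F) = (z : F) := fun z => rfl
  have hιinj : Function.Injective ι := by
    intro a b hab
    apply Subtype.ext
    have := congrArg (Subtype.val : R → F) hab
    exact this
  -- the maximal ideal of `R`
  have hmax : maximalIdeal R = Ideal.span {ι x, ι y} := by
    rw [← IsLocalization.AtPrime.map_eq_maximalIdeal 𝔪 R]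
    apply le_antisymm
    · rw [Ideal.map_le_iff_le_comap]
      intro z hz
      obtain ⟨u, hu, huz⟩ := hgen z hz
      have h1 : ι (u * z) ∈ Ideal.map ι (Ideal.span {x, y}) := Ideal.mem_map_of_mem ι huz
      rw [Ideal.map_span, Set.image_pair, map_mul] at h1
      have hunit : IsUnit (ι u) := IsLocalization.map_units R (⟨u, hu⟩ : 𝔪.primeCompl)
      exact (Ideal.unit_mul_mem_iff_mem _ hunit).mp h1
    · rw [Ideal.span_le]
      rintro z (rfl | rfl)
      · exact Ideal.mem_map_of_mem _ hx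
      · exact Ideal.mem_map_of_mem _ hy
  -- a nonzero non-maximal prime of `R`
  have hdisj : Disjoint (𝔪.primeCompl : Set B) (𝔮₀ : Set B) := by
    rw [Set.disjoint_left]
    intro z hz hz'
    exact hz (h𝔮₀𝔪.le hz')
  have hPprime : (Ideal.map ι 𝔮₀).IsPrime :=
    IsLocalization.isPrime_of_isPrime_disjoint 𝔪.primeCompl R _ h𝔮₀ hdisj
  have hP0 : Ideal.map ι 𝔮₀ ≠ ⊥ := by
    obtain ⟨z, hz, hz0⟩ := Submodule.exists_mem_ne_zero_of_ne_bot h𝔮₀0
    intro hbot
    have h1 : ι z ∈ Ideal.map ι 𝔮₀ := Ideal.mem_map_of_mem ι hz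
    rw [hbot, Ideal.mem_bot] at h1
    exact hz0 (hιinj (by rw [h1, map_zero]))
  have hPm : Ideal.map ι 𝔮₀ ≠ maximalIdeal R := by
    intro heq
    have h1 : (Ideal.map ι 𝔮₀).under B = 𝔮₀ :=
      IsLocalization.under_map_of_isPrime_disjoint 𝔪.primeCompl R h𝔮₀ hdisj
    have h2 : (maximalIdeal R).under B = 𝔪 := IsLocalization.AtPrime.under_maximalIdeal R 𝔪
    rw [heq, h2] at h1
    exact h𝔮₀𝔪.ne h1.symm
  have hxprime : Prime (ι x) := s36_tf_prime_of_param (ι x) (ι y) hmax (Ideal.map ι 𝔮₀) hP0 hPm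
  have hUFD : UniqueFactorizationMonoid R := as1_ufd_of_regular (ι x) (ι y) hxprime hmax
  -- `g₁ = a / b`
  obtain ⟨a, ha, b, hb, hb0, hab⟩ := hfrac g₁
  have ha0 : a ≠ 0 := by
    rintro rfl
    exact hg₁ (by rw [hab, zero_div])
  let aR : R := ι ⟨a, ha⟩
  let bR : R := ι ⟨b, hb⟩
  have haR0 : aR ≠ 0 := fun h0 => ha0 (congrArg Subtype.val h0)
  have hbR0 : bR ≠ 0 := fun h0 => hb0 (congrArg Subtype.val h0)
  let πR : R := ι ⟨ϖ, hϖB⟩
  obtain ⟨av, ah, Na, ca, hav, hca, hah⟩ := s36_tf_strip πR aR haR0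
  obtain ⟨bv, bh, Nb, cb, hbv, hcb, hbh⟩ := s36_tf_strip πR bR hbR0
  have hav0 : av ≠ 0 := left_ne_zero_of_mul (hav ▸ haR0)
  have hah0 : ah ≠ 0 := right_ne_zero_of_mul (hav ▸ haR0)
  have hbv0 : bv ≠ 0 := left_ne_zero_of_mul (hbv ▸ hbR0)
  have hbh0 : bh ≠ 0 := right_ne_zero_of_mul (hbv ▸ hbR0)
  have hF0 : ∀ r : R, r ≠ 0 → (r : F) ≠ 0 := fun r hr h0 => hr (Subtype.ext h0)
  have haF : a = (av : F) * (ah : F) := congrArg (Subtype.val : R → F) hav
  have hbF : b = (bv : F) * (bh : F) := congrArg (Subtype.val : R → F) hbv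
  -- a prime not dividing `π` does not divide the vertical parts
  have hndv : ∀ f : R, Prime f → ¬ f ∣ πR → ∀ (v c : R) (N : ℕ), v * c = πR ^ N → ¬ f ∣ v := by
    intro f hf hfπ v c N hvc hfv
    exact hfπ (hf.dvd_of_dvd_pow ((hfv.mul_right c).trans (dvd_of_eq hvc)))
  have hmod : ∀ f : R, Prime f → multiplicity f ah ≡ multiplicity f bh [MOD p] := by
    intro f hf
    by_cases hfπ : f ∣ πR
    · rw [multiplicity_eq_zero.mpr (fun h => hah f hf h hfπ),
        multiplicity_eq_zero.mpr (fun h => hbh f hf h hfπ)]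
    · have hBW : B ≤ (as1_primeVal (F := F) f hf).toSubring := by
        intro z hz
        exact as1_algebraMap_mem_primeVal hf (ι ⟨z, hz⟩)
      have hϖW : ϖ⁻¹ ∈ as1_primeVal (F := F) f hf := as1_inv_mem_primeVal hf hfπ
      obtain ⟨g, u, hu, hu', hgu⟩ := hdiv _ (as1_primeVal_isDVR hf) hBW hϖW
      have hfav := hndv f hf hfπ av ca Na hca
      have hfbv := hndv f hf hfπ bv cb Nb hcb
      have havW : (av : F) ∈ as1_primeVal (F := F) f hf := as1_algebraMap_mem_primeVal hf av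
      have hbvW : (bv : F) ∈ as1_primeVal (F := F) f hf := as1_algebraMap_mem_primeVal hf bv
      have havW' : ((av : F))⁻¹ ∈ as1_primeVal (F := F) f hf := as1_inv_mem_primeVal hf hfav
      have hbvW' : ((bv : F))⁻¹ ∈ as1_primeVal (F := F) f hf := as1_inv_mem_primeVal hf hfbv
      have havF0 := hF0 av hav0
      have hbvF0 := hF0 bv hbv0
      have hahF0 := hF0 ah hah0
      have hbhF0 := hF0 bh hbh0
      refine as1_multiplicity_modEq hf p hp hah0 hbh0 (g := g)
        (u := u * ((bv : F) * ((av : F))⁻¹)) (mul_mem hu (mul_mem hbvW havW')) ?_ ?_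
      · have e : (u * ((bv : F) * ((av : F))⁻¹))⁻¹ = u⁻¹ * ((av : F) * ((bv : F))⁻¹) := by
          rw [mul_inv, mul_inv, inv_inv, mul_comm ((bv : F))⁻¹]
        rw [e]
        exact mul_mem hu' (mul_mem havW hbvW')
      · show (ah : F) / (bh : F) = u * ((bv : F) * ((av : F))⁻¹) * g ^ p
        have h1 : (av : F) * (ah : F) / ((bv : F) * (bh : F)) = u * g ^ p := by
          rw [← haF, ← hbF, ← hab]; exact hgu
        have h2 : (ah : F) / (bh : F) =
            ((av : F) * (ah : F) / ((bv : F) * (bh : F))) * ((bv : F) * ((av : F))⁻¹) := by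
          field_simp
        rw [h2, h1]; ring
  obtain ⟨gp, gm, w, hgp0, hgm0, hrel, -⟩ := as1_pow_factor p hp ah bh hah0 hbh0 hmod
  have hgpF : (gp : F) ≠ 0 := hF0 gp hgp0
  have hgmF : (gm : F) ≠ 0 := hF0 gm hgm0
  have hrelF : (ah : F) * (gm : F) ^ p = ((w : R) : F) * (bh : F) * (gp : F) ^ p := by
    have := congrArg (Subtype.val : R → F) hrel
    exact this
  have hwinv : (((w⁻¹ : Rˣ) : R) : F) = (((w : R) : F))⁻¹ := by
    have h1 : ((w : R) : F) * (((w⁻¹ : Rˣ) : R) : F) = 1 := by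
      have := congrArg (Subtype.val : R → F) (Units.mul_inv w)
      exact this
    exact eq_inv_of_mul_eq_one_right h1
  have hwF0 : ((w : R) : F) ≠ 0 := hF0 _ w.ne_zero
  refine ⟨(gp : F) / (gm : F), div_ne_zero hgpF hgmF, ?_⟩
  intro 𝔮 h𝔮 h𝔮𝔪 hϖ𝔮
  -- `R ⊆ B_𝔮`
  have hR𝔮 : ∀ r : R, (r : F) ∈ s18_locRing B 𝔮 := by
    intro r
    obtain ⟨a', s', hs', hr⟩ := (hmemR _).mp r.2
    exact ⟨a', s', fun h => hs' (h𝔮𝔪 h), hr⟩
  have hϖinv : ϖ⁻¹ ∈ s18_locRing B 𝔮 := ⟨1, ⟨ϖ, hϖB⟩, hϖ𝔮, by simp⟩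
  have hvinv : ∀ (v c : R) (N : ℕ), v * c = πR ^ N → v ≠ 0 →
      ((v : F))⁻¹ ∈ s18_locRing B 𝔮 := by
    intro v c N hvc hv0
    have h1 : (v : F) * (c : F) = ϖ ^ N := by
      have := congrArg (Subtype.val : R → F) hvc
      exact this
    have hvF := hF0 v hv0
    have hϖ0 : ϖ ≠ 0 := by
      rintro rfl
      exact hϖ𝔮 (by
        have : (⟨0, hϖB⟩ : B) = 0 := rfl
        rw [this]; exact 𝔮.zero_mem)
    have hcF : (c : F) ≠ 0 := right_ne_zero_of_mul (h1 ▸ pow_ne_zero N hϖ0)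
    have e : ((v : F))⁻¹ = (c : F) * (ϖ⁻¹) ^ N := by
      rw [inv_pow, ← h1, mul_inv, mul_comm ((v : F))⁻¹, ← mul_assoc, mul_inv_cancel₀ hcF, one_mul]
    rw [e]
    exact (s18_locRing B 𝔮).mul_mem (hR𝔮 c) ((s18_locRing B 𝔮).pow_mem hϖinv N)
  have havF0 := hF0 av hav0
  have hbvF0 := hF0 bv hbv0
  have hahF0 := hF0 ah hah0
  have hbhF0 := hF0 bh hbh0
  have hah' : (ah : F) = ((w : R) : F) * (bh : F) * ((gp : F) / (gm : F)) ^ p := by
    rw [div_pow, mul_div_assoc', eq_div_iff (pow_ne_zero p hgmF)]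
    exact hrelF
  have hg₁eq : g₁ = ((w : R) : F) * ((av : F) * ((bv : F))⁻¹) * ((gp : F) / (gm : F)) ^ p := by
    rw [hab, haF, hbF, hah']
    field_simp
  constructor
  · have e : g₁ * (((gp : F) / (gm : F))⁻¹) ^ p = ((w : R) : F) * ((av : F) * ((bv : F))⁻¹) := by
      rw [hg₁eq, inv_pow, mul_assoc, mul_inv_cancel₀ (pow_ne_zero p (div_ne_zero hgpF hgmF)),
        mul_one]
    rw [e]
    exact (s18_locRing B 𝔮).mul_mem (hR𝔮 w) ((s18_locRing B 𝔮).mul_mem (hR𝔮 av)
      (hvinv bv cb Nb hcb hbv0))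
  · have e : ((gp : F) / (gm : F)) ^ p * g₁⁻¹ =
        (((w⁻¹ : Rˣ) : R) : F) * ((bv : F) * ((av : F))⁻¹) := by
      rw [hwinv, hg₁eq]
      have h3 : ((gp : F) / (gm : F)) ^ p ≠ 0 := pow_ne_zero p (div_ne_zero hgpF hgmF)
      field_simp
    rw [e]
    exact (s18_locRing B 𝔮).mul_mem (hR𝔮 _) ((s18_locRing B 𝔮).mul_mem (hR𝔮 bv)
      (hvinv av ca Na hca hav0))

end Fermat.Agent.S36
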