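import Mathlib
import Fermat.Agent.S36.ClassUniq
import Fermat.Agent.S36.TripleFact

/-!
# S36 (NODE-3): the local data at a triple point of the level-`q²` chart

`B ⊆ F` a chart of the three-component model, `X`, `Y`, `Z` the valuation rings of the three
vertical components (`X`, `Y` uniformised by `ϖ`, `Z` by `z`), `𝔪` a closed point lying on all
three.  Everything the triple-point contract consumes is produced from chart-level statements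
only; no rational point, no Hauptmodul, no tower:

* (RES) along a component `V` over a lower chart `B₁` which is an S18 chart (`s18_Chart`):
  `B = ι₀ B₁ + (B ∩ d V)`;
* the crossing relation `u v = ϖ γ` at `𝔪` (`γ ∉ 𝔪`, `u` vanishing on `Y`, `v` on `X` and `Z`),
  transported from the level-`q` thickness statement by `s36_cu_transport`;
* (cap) for the three components.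

Results:

* `s36_tloc_reg` : the contraction of `𝔪` to `B₁` is a closed point of the special fibre, so `B₁`
  has a local generator `x₁` there (`s18_Chart.reg`), in the shape of `hreg` of `s36_pb_ext`;
* `s36_tloc_ext` : the branch of `V` at `𝔪` is generated by `ι₀ x₁` (any uniformiser `d`);
* `s36_tloc_ne`, `s36_tloc_cross` : `ι₀ x₁` does not vanish on `V`; the crossing functions `u`, `v`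
  do not vanish on the other components;
* `s36_tloc_branch` : the branch statement of one component (one `x ∈ 𝔪 ∖ P_V` generating the
  branch);
* `s36_tloc_gen` : `𝔪` is generated locally by `u` and `ι₀ x₁` (two-dimensional regularity);
* `s36_tloc_hG` : the local factorisation `G` of `s36_tf_hG` at `𝔪`;
* `s36_tloc_fact` : the same starting from the level-`q` thickness statement;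
* `s36_tloc_side` : for one degeneracy map `ι : F' →+* F`, the point `𝔪'` of the level-`q` chart
  below `𝔪` and the local hypotheses of the point relation (`B'_𝔪' ⊆ V₁' ⊓ V₂'`,
  `ι B'_𝔪' ⊆ B_𝔪`, `Nm B_𝔪 ⊆ B'_𝔪'`, the three local (EXT) statements in unit form);
* `s36_tloc_triple` : the three branch statements, two local generators and the local
  factorisation at a triple point, in one call.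
-/

set_option autoImplicit false

namespace Fermat.Agent.S36

open Fermat.Agent.S18 Fermat.Agent.S34 Fermat.Agent.S35

section Reg

variable {F₀ F : Type*} [Field F₀] [Field F]

/-- **The image point in the lower chart is closed, with a local generator.**  (RES) along the
component `V` over the S18 chart `B₁` and `P_V ⊆ 𝔪` (`𝔪` maximal): the contraction of `𝔪` to `B₁`
is a maximal ideal containing `ϖ₀`, hence generated locally by `ϖ₀` and one more element `x₁`. -/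
theorem s36_tloc_reg (ι₀ : F₀ →+* F) {ϖ₀ : F₀} (B₁ : Subring F₀) (hB₁c : s18_Chart ϖ₀ B₁)
    (B V : Subring F) (d : F) (hB₁B : ∀ x ∈ B₁, ι₀ x ∈ B) (hd₀ : d⁻¹ * ι₀ ϖ₀ ∈ V)
    (hres : ∀ y ∈ B, ∃ y' ∈ B₁, d⁻¹ * (y - ι₀ y') ∈ V)
    (𝔪 : Ideal B) (h𝔪 : 𝔪.IsMaximal)
    (hP : ∀ p : B, d⁻¹ * (p : F) ∈ V → p ∈ 𝔪) :
    ∃ x₁ : F₀, ∃ hx₁ : x₁ ∈ B₁, (⟨ι₀ x₁, hB₁B x₁ hx₁⟩ : B) ∈ 𝔪 ∧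
      ∀ y₁ (hy₁ : y₁ ∈ B₁), (⟨ι₀ y₁, hB₁B y₁ hy₁⟩ : B) ∈ 𝔪 →
        ∃ d₁ a₁ r₁ : F₀, ∃ hd₁ : d₁ ∈ B₁, a₁ ∈ B₁ ∧ r₁ ∈ B₁ ∧
          (⟨ι₀ d₁, hB₁B d₁ hd₁⟩ : B) ∉ 𝔪 ∧ d₁ * y₁ = a₁ * ϖ₀ + r₁ * x₁ := by
  let φ : B₁ →+* B := (ι₀.comp B₁.subtype).codRestrict B (fun x => hB₁B x x.2)
  have hmem : ∀ x : B₁, x ∈ 𝔪.comap φ ↔ (⟨ι₀ (x : F₀), hB₁B _ x.2⟩ : B) ∈ 𝔪 := fun x => Iff.rfl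
  have hmax : (𝔪.comap φ).IsMaximal := by
    rw [Ideal.isMaximal_iff]
    refine ⟨fun h1 => ?_, ?_⟩
    · have h2 : φ 1 ∈ 𝔪 := h1
      rw [map_one] at h2
      exact h𝔪.ne_top ((Ideal.eq_top_iff_one _).mpr h2)
    · intro J x hJ hx hxJ
      have hx' : φ x ∉ 𝔪 := hx
      obtain ⟨b, i, hi, hbi⟩ := h𝔪.exists_inv hx'
      obtain ⟨b', hb', hbb'⟩ := hres (b : F) b.2
      have h1 : (b - φ ⟨b', hb'⟩ : B) ∈ 𝔪 := hP _ hbb'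
      have h2 : φ (1 - ⟨b', hb'⟩ * x) ∈ 𝔪 := by
        have e : φ (1 - ⟨b', hb'⟩ * x) = (b - φ ⟨b', hb'⟩) * φ x + i := by
          rw [map_sub, map_one, map_mul, ← hbi]; ring
        rw [e]
        exact 𝔪.add_mem (𝔪.mul_mem_right _ h1) hi
      have h3 : (1 - ⟨b', hb'⟩ * x : B₁) ∈ J := hJ h2
      have h4 : (⟨b', hb'⟩ * x : B₁) ∈ J := J.mul_mem_left _ hxJ
      have := J.add_mem h3 h4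
      simpa using this
  have hϖ₀ : (⟨ϖ₀, hB₁c.ϖ_mem⟩ : B₁) ∈ 𝔪.comap φ := (hmem _).mpr (hP _ hd₀)
  obtain ⟨s, hs, hgen⟩ := hB₁c.reg (𝔪.comap φ) hmax hϖ₀
  refine ⟨(s : F₀), s.2, (hmem s).mp hs, ?_⟩
  intro y₁ hy₁ hy₁𝔪
  obtain ⟨u, hu, hspan⟩ := hgen ⟨y₁, hy₁⟩ ((hmem _).mpr hy₁𝔪)
  rw [Ideal.mem_span_pair] at hspan
  obtain ⟨a, r, har⟩ := hspan
  refine ⟨(u : F₀), (a : F₀), (r : F₀), u.2, a.2, r.2, fun h => hu ((hmem u).mpr h), ?_⟩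
  have := congrArg Subtype.val har
  simpa using this.symm

/-- **The branch of `V` at `𝔪` is generated by `ι₀ x₁`** (any uniformiser `d` of `V`): the
hypothesis `hext` of `s36_pb_gen`, from (RES) and the local generator of `s36_tloc_reg`. -/
theorem s36_tloc_ext (ι₀ : F₀ →+* F) (B₁ : Subring F₀) (B V : Subring F) (ϖ₀ : F₀) (d : F)
    (hB₁B : ∀ x ∈ B₁, ι₀ x ∈ B) (hBV : B ≤ V) (hd₀ : d⁻¹ * ι₀ ϖ₀ ∈ V)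
    (hres : ∀ y ∈ B, ∃ y' ∈ B₁, d⁻¹ * (y - ι₀ y') ∈ V)
    (𝔪 : Ideal B) (hP : ∀ p : B, d⁻¹ * (p : F) ∈ V → p ∈ 𝔪) (x₁ : F₀)
    (hreg : ∀ y₁ (hy₁ : y₁ ∈ B₁), (⟨ι₀ y₁, hB₁B y₁ hy₁⟩ : B) ∈ 𝔪 →
      ∃ d₁ a₁ r₁ : F₀, ∃ hd₁ : d₁ ∈ B₁, a₁ ∈ B₁ ∧ r₁ ∈ B₁ ∧
        (⟨ι₀ d₁, hB₁B d₁ hd₁⟩ : B) ∉ 𝔪 ∧ d₁ * y₁ = a₁ * ϖ₀ + r₁ * x₁) :
    ∀ y ∈ 𝔪, ∃ e r : B, e ∉ 𝔪 ∧ d⁻¹ * ((e : F) * (y : F) - (r : F) * ι₀ x₁) ∈ V := by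
  intro y hy
  obtain ⟨y', hy', hyy'⟩ := hres (y : F) y.2
  have hp𝔪 : (y - ⟨ι₀ y', hB₁B y' hy'⟩ : B) ∈ 𝔪 := hP _ hyy'
  have hy'𝔪 : (⟨ι₀ y', hB₁B y' hy'⟩ : B) ∈ 𝔪 := by
    have := 𝔪.sub_mem hy hp𝔪
    simpa using this
  obtain ⟨d₁, a₁, r₁, hd₁, ha₁, hr₁, hd𝔪, hrel⟩ := hreg y' hy' hy'𝔪
  refine ⟨⟨ι₀ d₁, hB₁B d₁ hd₁⟩, ⟨ι₀ r₁, hB₁B r₁ hr₁⟩, hd𝔪, ?_⟩
  show d⁻¹ * (ι₀ d₁ * (y : F) - ι₀ r₁ * ι₀ x₁) ∈ V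
  have hrel' : ι₀ d₁ * ι₀ y' = ι₀ a₁ * ι₀ ϖ₀ + ι₀ r₁ * ι₀ x₁ := by
    rw [← map_mul, hrel, map_add, map_mul, map_mul]
  have e : d⁻¹ * (ι₀ d₁ * (y : F) - ι₀ r₁ * ι₀ x₁) =
      ι₀ d₁ * (d⁻¹ * ((y : F) - ι₀ y')) + ι₀ a₁ * (d⁻¹ * ι₀ ϖ₀) := by
    linear_combination d⁻¹ * hrel'
  rw [e]
  exact V.add_mem (V.mul_mem (hBV (hB₁B d₁ hd₁)) hyy') (V.mul_mem (hBV (hB₁B a₁ ha₁)) hd₀)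

end Reg

section Branch

variable {F : Type*} [Field F]

/-- A generator `x` of the branch of `V` at `𝔪` does not vanish on `V` as soon as some `v ∈ 𝔪`
does not. -/
theorem s36_tloc_ne (B V : Subring F) {d : F} (hV : s34_Unif d V) (hBV : B ≤ V) (𝔪 : Ideal B)
    (hP : ∀ p : B, d⁻¹ * (p : F) ∈ V → p ∈ 𝔪) (x : F)
    (hext : ∀ y ∈ 𝔪, ∃ e r : B, e ∉ 𝔪 ∧ d⁻¹ * ((e : F) * (y : F) - (r : F) * x) ∈ V)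
    (v : B) (hv : v ∈ 𝔪) (hvV : d⁻¹ * (v : F) ∉ V) : d⁻¹ * x ∉ V := by
  intro hx
  obtain ⟨e, r, he, h⟩ := hext v hv
  have h1 : d⁻¹ * ((e : F) * (v : F)) ∈ V := by
    have e1 : d⁻¹ * ((e : F) * (v : F)) =
        d⁻¹ * ((e : F) * (v : F) - (r : F) * x) + (r : F) * (d⁻¹ * x) := by ring
    rw [e1]
    exact V.add_mem h (V.mul_mem (hBV r.2) hx)
  rcases hV.prime (hBV e.2) (hBV v.2) h1 with h2 | h2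
  · exact he (hP e h2)
  · exact hvV h2

/-- **The crossing functions do not vanish on the other components.**  `u v = ϖ γ` with `γ ∉ 𝔪`,
`u` vanishing on `Y`, `v` vanishing on `X` and (to full multiplicity) on `Z`, at a point `𝔪` on
the three components: `u` vanishes neither on `X` nor on `Z`, `v` does not vanish on `Y`. -/
theorem s36_tloc_cross (B X Y Z : Subring F) {ϖ z : F} (hϖ0 : ϖ ≠ 0) (𝔪 : Ideal B)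
    (hPX : ∀ p : B, ϖ⁻¹ * (p : F) ∈ X → p ∈ 𝔪) (hPY : ∀ p : B, ϖ⁻¹ * (p : F) ∈ Y → p ∈ 𝔪)
    (hPZ : ∀ p : B, z⁻¹ * (p : F) ∈ Z → p ∈ 𝔪)
    (u v γ : B) (huv : (u : F) * (v : F) = ϖ * (γ : F)) (hγ : γ ∉ 𝔪)
    (huY : ϖ⁻¹ * (u : F) ∈ Y) (hvX : ϖ⁻¹ * (v : F) ∈ X) (hvZ : ϖ⁻¹ * (v : F) ∈ Z) :
    ϖ⁻¹ * (u : F) ∉ X ∧ z⁻¹ * (u : F) ∉ Z ∧ ϖ⁻¹ * (v : F) ∉ Y := by
  have key : ∀ c : F, c * (γ : F) = (c * (u : F)) * (ϖ⁻¹ * (v : F)) := by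
    intro c
    have e : (c * (u : F)) * (ϖ⁻¹ * (v : F)) = c * (ϖ⁻¹ * ((u : F) * (v : F))) := by ring
    rw [e, huv, inv_mul_cancel_left₀ hϖ0]
  refine ⟨fun h => hγ (hPX γ ?_), fun h => hγ (hPZ γ ?_), fun h => hγ (hPY γ ?_)⟩
  · rw [key]; exact X.mul_mem h hvX
  · rw [key]; exact Z.mul_mem h hvZ
  · rw [key]; exact Y.mul_mem huY h

end Branch

section Gen

variable {F₀ F : Type*} [Field F₀] [Field F]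

/-- **The branch statement of one component.**  (RES) along `V` over an S18 chart and one `v ∈ 𝔪`
not vanishing on `V`: there is `x ∈ 𝔪 ∖ P_V` generating the branch of `V` at `𝔪` (every `y ∈ 𝔪` is,
up to a unit at `𝔪`, a multiple of `x` modulo `P_V = B ∩ d V`). -/
theorem s36_tloc_branch (ι₀ : F₀ →+* F) {ϖ₀ : F₀} (B₁ : Subring F₀) (hB₁c : s18_Chart ϖ₀ B₁)
    (B V : Subring F) {d : F} (hV : s34_Unif d V) (hB₁B : ∀ x ∈ B₁, ι₀ x ∈ B) (hBV : B ≤ V)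
    (hd₀ : d⁻¹ * ι₀ ϖ₀ ∈ V) (hres : ∀ y ∈ B, ∃ y' ∈ B₁, d⁻¹ * (y - ι₀ y') ∈ V)
    (𝔪 : Ideal B) (h𝔪 : 𝔪.IsMaximal) (hP : ∀ p : B, d⁻¹ * (p : F) ∈ V → p ∈ 𝔪)
    (v : B) (hv : v ∈ 𝔪) (hvV : d⁻¹ * (v : F) ∉ V) :
    ∃ x : B, x ∈ 𝔪 ∧ d⁻¹ * (x : F) ∉ V ∧
      ∀ y ∈ 𝔪, ∃ e r : B, e ∉ 𝔪 ∧ d⁻¹ * ((e : F) * (y : F) - (r : F) * (x : F)) ∈ V := by
  obtain ⟨x₁, hx₁, hx₁𝔪, hreg⟩ := s36_tloc_reg ι₀ B₁ hB₁c B V d hB₁B hd₀ hres 𝔪 h𝔪 hP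
  have hext := s36_tloc_ext ι₀ B₁ B V ϖ₀ d hB₁B hBV hd₀ hres 𝔪 hP x₁ hreg
  exact ⟨⟨ι₀ x₁, hB₁B x₁ hx₁⟩, hx₁𝔪, s36_tloc_ne B V hV hBV 𝔪 hP (ι₀ x₁) hext v hv hvV, hext⟩

/-- **Two local generators at a triple point.**  (RES) along `Y` over an S18 chart, (cap), and the
crossing relation `u v = ϖ γ` (`γ ∉ 𝔪`, `v` vanishing on `X` and `Z`): `𝔪` is generated locally
by `u` and `ι₀ x₁`. -/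
theorem s36_tloc_gen (ι₀ : F₀ →+* F) {ϖ₀ : F₀} (B₁ : Subring F₀) (hB₁c : s18_Chart ϖ₀ B₁)
    (B X Y Z : Subring F) (hB₁B : ∀ x ∈ B₁, ι₀ x ∈ B) (hBX : B ≤ X) (hBY : B ≤ Y) (hBZ : B ≤ Z)
    {ϖ : F} (hϖ0 : ϖ ≠ 0)
    (hcap : ∀ x ∈ B, ϖ⁻¹ * x ∈ X → ϖ⁻¹ * x ∈ Y → ϖ⁻¹ * x ∈ Z → ϖ⁻¹ * x ∈ B)
    (hd₀ : ϖ⁻¹ * ι₀ ϖ₀ ∈ Y) (hres : ∀ y ∈ B, ∃ y' ∈ B₁, ϖ⁻¹ * (y - ι₀ y') ∈ Y)
    (𝔪 : Ideal B) (h𝔪 : 𝔪.IsMaximal) (hPY : ∀ p : B, ϖ⁻¹ * (p : F) ∈ Y → p ∈ 𝔪)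
    (u v γ : B) (huv : (u : F) * (v : F) = ϖ * (γ : F)) (hγ : γ ∉ 𝔪)
    (hvX : ϖ⁻¹ * (v : F) ∈ X) (hvZ : ϖ⁻¹ * (v : F) ∈ Z) :
    ∃ x : B, x ∈ 𝔪 ∧
      (∀ y ∈ 𝔪, ∃ e r : B, e ∉ 𝔪 ∧ ϖ⁻¹ * ((e : F) * (y : F) - (r : F) * (x : F)) ∈ Y) ∧
      ∀ y ∈ 𝔪, ∃ w, w ∉ 𝔪 ∧ w * y ∈ Ideal.span {u, x} := by
  have hprime : 𝔪.IsPrime := h𝔪.isPrime
  obtain ⟨x₁, hx₁, hx₁𝔪, hreg⟩ := s36_tloc_reg ι₀ B₁ hB₁c B Y ϖ hB₁B hd₀ hres 𝔪 h𝔪 hPY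
  have hext := s36_tloc_ext ι₀ B₁ B Y ϖ₀ ϖ hB₁B hBY hd₀ hres 𝔪 hPY x₁ hreg
  have hγ0 : (γ : F) ≠ 0 := fun h => hγ (by
    have : γ = 0 := Subtype.ext h
    rw [this]; exact 𝔪.zero_mem)
  have hv0 : v ≠ 0 := by
    rintro rfl
    rw [Subring.coe_zero, mul_zero] at huv
    exact mul_ne_zero hϖ0 hγ0 huv.symm
  refine ⟨⟨ι₀ x₁, hB₁B x₁ hx₁⟩, hx₁𝔪, hext, ?_⟩
  exact s36_pb_gen B Y (X ⊓ Z) hBY (le_inf hBX hBZ) ϖ hϖ0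
    (fun x hx hy hxz => hcap x hx hxz.1 hy hxz.2) 𝔪 u v γ ⟨ι₀ x₁, hB₁B x₁ hx₁⟩ huv hγ
    ⟨hvX, hvZ⟩ hv0 hext

/-- **The local factorisation at a triple point** (`s36_tf_hG` with its regularity hypotheses
discharged): for a function `g₁` whose horizontal divisor is divisible by `p` there is `G ≠ 0`
with `g₁ / G ^ p` a unit at every horizontal prime through `𝔪`. -/
theorem s36_tloc_hG (ι₀ : F₀ →+* F) {ϖ₀ : F₀} (B₁ : Subring F₀) (hB₁c : s18_Chart ϖ₀ B₁)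
    (B X Y Z : Subring F) (hnoeth : IsNoetherianRing B)
    (hfrac : ∀ x : F, ∃ a ∈ B, ∃ b ∈ B, b ≠ 0 ∧ x = a / b)
    (hB₁B : ∀ x ∈ B₁, ι₀ x ∈ B) (hBX : B ≤ X) (hBY : B ≤ Y) (hBZ : B ≤ Z)
    {ϖ : F} (hY : s34_Unif ϖ Y) (hϖB : ϖ ∈ B)
    (hcap : ∀ x ∈ B, ϖ⁻¹ * x ∈ X → ϖ⁻¹ * x ∈ Y → ϖ⁻¹ * x ∈ Z → ϖ⁻¹ * x ∈ B)
    (hd₀ : ϖ⁻¹ * ι₀ ϖ₀ ∈ Y) (hres : ∀ y ∈ B, ∃ y' ∈ B₁, ϖ⁻¹ * (y - ι₀ y') ∈ Y)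
    (𝔪 : Ideal B) (h𝔪 : 𝔪.IsMaximal) (hPY : ∀ p : B, ϖ⁻¹ * (p : F) ∈ Y → p ∈ 𝔪)
    (u v γ : B) (huv : (u : F) * (v : F) = ϖ * (γ : F)) (hu : u ∈ 𝔪) (hv : v ∈ 𝔪) (hγ : γ ∉ 𝔪)
    (huY : ϖ⁻¹ * (u : F) ∈ Y) (hvX : ϖ⁻¹ * (v : F) ∈ X) (hvZ : ϖ⁻¹ * (v : F) ∈ Z)
    (p : ℕ) (hp : 0 < p) (g₁ : F) (hg₁ : g₁ ≠ 0)
    (hdiv : ∀ W : ValuationSubring F, IsDiscreteValuationRing W → B ≤ W.toSubring → ϖ⁻¹ ∈ W →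
      ∃ g u : F, u ∈ W ∧ u⁻¹ ∈ W ∧ g₁ = u * g ^ p) :
    ∃ G : F, G ≠ 0 ∧ ∀ 𝔮 : Ideal B, 𝔮.IsPrime → 𝔮 ≤ 𝔪 → (⟨ϖ, hϖB⟩ : B) ∉ 𝔮 →
      g₁ * (G⁻¹) ^ p ∈ s18_loc B 𝔮 ∧ G ^ p * g₁⁻¹ ∈ s18_loc B 𝔮 := by
  have hϖ0 := hY.ne_zero
  obtain ⟨x, hx, -, hgen⟩ := s36_tloc_gen ι₀ B₁ hB₁c B X Y Z hB₁B hBX hBY hBZ hϖ0 hcap hd₀ hres
    𝔪 h𝔪 hPY u v γ huv hγ hvX hvZ
  -- the vertical prime `P_Y`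
  have hprime : (s36_cl_van B Y hBY ϖ).IsPrime := by
    refine ⟨fun htop => ?_, fun {a b} hab => ?_⟩
    · have h1 : (1 : B) ∈ s36_cl_van B Y hBY ϖ := by rw [htop]; exact Submodule.mem_top
      have h2 : ϖ⁻¹ * ((1 : B) : F) ∈ Y := h1
      rw [Subring.coe_one, mul_one] at h2
      exact hY.inv_not_mem h2
    · have h1 : ϖ⁻¹ * ((a : F) * (b : F)) ∈ Y := by
        have h2 : ϖ⁻¹ * ((a * b : B) : F) ∈ Y := hab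
        rwa [Subring.coe_mul] at h2
      exact hY.prime (hBY a.2) (hBY b.2) h1
  have hne : s36_cl_van B Y hBY ϖ ≠ ⊥ := by
    intro hbot
    have h1 : (⟨ϖ, hϖB⟩ : B) ∈ s36_cl_van B Y hBY ϖ := by
      show ϖ⁻¹ * ϖ ∈ Y
      rw [inv_mul_cancel₀ hϖ0]; exact Y.one_mem
    rw [hbot, Ideal.mem_bot] at h1
    exact hϖ0 (congrArg Subtype.val h1)
  have hlt : s36_cl_van B Y hBY ϖ < 𝔪 := by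
    refine lt_of_le_of_ne (fun p hp => hPY p hp) (fun heq => ?_)
    have h1 : v ∈ s36_cl_van B Y hBY ϖ := by rw [heq]; exact hv
    have h2 : ϖ⁻¹ * (v : F) ∈ Y := h1
    apply hγ
    apply hPY
    have e : ϖ⁻¹ * (γ : F) = (ϖ⁻¹ * (u : F)) * (ϖ⁻¹ * (v : F)) := by
      have e' : (ϖ⁻¹ * (u : F)) * (ϖ⁻¹ * (v : F)) = ϖ⁻¹ * (ϖ⁻¹ * ((u : F) * (v : F))) := by ring
      rw [e', huv, inv_mul_cancel_left₀ hϖ0]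
    rw [e]
    exact Y.mul_mem huY h2
  exact s36_tf_hG B hnoeth hfrac ϖ hϖB 𝔪 h𝔪 u x hu hx hgen (s36_cl_van B Y hBY ϖ) hprime hne hlt
    p hp g₁ hg₁ hdiv

end Gen

section Side

variable {F' F₀ F : Type*} [Field F'] [Field F₀] [Field F]

/-- **The local factorisation at a point over a level-`q` crossing point**, from the level-`q`
thickness statement `hq` along the degeneracy map `ι` and (RES) along `Y` over an S18 chart. -/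
theorem s36_tloc_fact (ι : F' →+* F) (B' V₁' V₂' : Subring F') (B X Y Z : Subring F)
    (hB'B : ∀ x ∈ B', ι x ∈ B) (hBX : B ≤ X) (hBY : B ≤ Y) (hBZ : B ≤ Z)
    {ϖ' : F'} {ϖ : F} (hY : s34_Unif ϖ Y) (hιϖ : ι ϖ' = ϖ)
    (hιX : ∀ y ∈ V₁', ι y ∈ X) (hιZ : ∀ y ∈ V₁', ι y ∈ Z) (hιY : ∀ y ∈ V₂', ι y ∈ Y)
    (hcap : ∀ x ∈ B, ϖ⁻¹ * x ∈ X → ϖ⁻¹ * x ∈ Y → ϖ⁻¹ * x ∈ Z → ϖ⁻¹ * x ∈ B)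
    (hq : ∀ 𝔪' : Ideal B', 𝔪'.IsPrime → (∀ p : B', ϖ'⁻¹ * (p : F') ∈ V₁' → p ∈ 𝔪') →
      (∀ p : B', ϖ'⁻¹ * (p : F') ∈ V₂' → p ∈ 𝔪') →
      ∃ u₁ u₂ γ : B', (u₁ : F') * (u₂ : F') = ϖ' * (γ : F') ∧ ϖ'⁻¹ * (u₁ : F') ∈ V₁' ∧
        ϖ'⁻¹ * (u₂ : F') ∈ V₂' ∧ γ ∉ 𝔪')
    (ι₀ : F₀ →+* F) {ϖ₀ : F₀} (B₁ : Subring F₀) (hB₁c : s18_Chart ϖ₀ B₁)
    (hB₁B : ∀ x ∈ B₁, ι₀ x ∈ B) (hd₀ : ϖ⁻¹ * ι₀ ϖ₀ ∈ Y)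
    (hres : ∀ y ∈ B, ∃ y' ∈ B₁, ϖ⁻¹ * (y - ι₀ y') ∈ Y)
    (hnoeth : IsNoetherianRing B) (hfrac : ∀ x : F, ∃ a ∈ B, ∃ b ∈ B, b ≠ 0 ∧ x = a / b)
    (hϖB : ϖ ∈ B) (𝔪 : Ideal B) (h𝔪 : 𝔪.IsMaximal)
    (hPX : ∀ p : B, ϖ⁻¹ * (p : F) ∈ X → p ∈ 𝔪) (hPY : ∀ p : B, ϖ⁻¹ * (p : F) ∈ Y → p ∈ 𝔪)
    (p : ℕ) (hp : 0 < p) (g₁ : F) (hg₁ : g₁ ≠ 0)
    (hdiv : ∀ W : ValuationSubring F, IsDiscreteValuationRing W → B ≤ W.toSubring → ϖ⁻¹ ∈ W →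
      ∃ g u : F, u ∈ W ∧ u⁻¹ ∈ W ∧ g₁ = u * g ^ p) :
    ∃ G : F, G ≠ 0 ∧ ∀ 𝔮 : Ideal B, 𝔮.IsPrime → 𝔮 ≤ 𝔪 → (⟨ϖ, hϖB⟩ : B) ∉ 𝔮 →
      g₁ * (G⁻¹) ^ p ∈ s18_loc B 𝔮 ∧ G ^ p * g₁⁻¹ ∈ s18_loc B 𝔮 := by
  obtain ⟨u, v, γ, huv, hu, hv, hγ, huY, hvX, hvZ⟩ := s36_cu_transport ι B' V₁' V₂' B X Y Z hB'B
    ϖ' ϖ hιϖ hιX hιZ hιY hq 𝔪 h𝔪.isPrime (fun x hx h => hPX ⟨ι x, hB'B x hx⟩ h)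
    (fun x hx h => hPY ⟨ι x, hB'B x hx⟩ h)
  exact s36_tloc_hG ι₀ B₁ hB₁c B X Y Z hnoeth hfrac hB₁B hBX hBY hBZ hY hϖB hcap hd₀ hres 𝔪 h𝔪 hPY
    u v γ huv hu hv hγ huY hvX hvZ p hp g₁ hg₁ hdiv

/-- **The level-`q` point below a triple point and the local hypotheses of the point relation**
for one degeneracy map `ι : F' →+* F` (`X`, `Z` over `V₁'`, `Y` over `V₂'`; norm `Nm`).  With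
`𝔪'` the contraction of `𝔪` to the level-`q` chart `B'`:
`B'_𝔪' ⊆ V₁' ⊓ V₂'`, `ι B'_𝔪' ⊆ B_𝔪`, `Nm B_𝔪 ⊆ B'_𝔪'`, and every unit `y` of `B_𝔪` is congruent
to `ι y'` on `X` and on `Z`, and `y ^ k` is congruent to `ι y'` on `Y`, for units `y'` of
`B'_𝔪'`. -/
theorem s36_tloc_side (ι : F' →+* F) (B' V₁' V₂' : Subring F') (B X Y Z : Subring F)
    (hB'B : ∀ x ∈ B', ι x ∈ B)
    (hint : ∀ x ∈ B, ∃ P : Polynomial B', P.Monic ∧ P.eval₂ (ι.comp B'.subtype) x = 0)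
    (hBX : B ≤ X) (hBY : B ≤ Y) (hBZ : B ≤ Z) (hB'1 : B' ≤ V₁') (hB'2 : B' ≤ V₂')
    {ϖ' : F'} {ϖ z : F} (hX : s34_Unif ϖ X) (hY : s34_Unif ϖ Y) (hZ : s34_Unif z Z)
    (hV₁' : s34_Unif ϖ' V₁') (hV₂' : s34_Unif ϖ' V₂') (hιϖ : ι ϖ' = ϖ)
    (hιX : ∀ y ∈ V₁', ι y ∈ X) (hιZ : ∀ y ∈ V₁', ι y ∈ Z) (hιY : ∀ y ∈ V₂', ι y ∈ Y)
    (hcap : ∀ x ∈ B, ϖ⁻¹ * x ∈ X → ϖ⁻¹ * x ∈ Y → ϖ⁻¹ * x ∈ Z → ϖ⁻¹ * x ∈ B)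
    (n : ℕ) (hzn : ϖ⁻¹ * z ^ n ∈ Z)
    (hresX : ∀ y ∈ B, ∃ y' ∈ B', ϖ⁻¹ * (y - ι y') ∈ X)
    (hresZ : ∀ y ∈ B, ∃ y' ∈ B', z⁻¹ * (y - ι y') ∈ Z)
    (k : ℕ) (hresY : ∀ y ∈ B, ∃ y' ∈ B', ϖ⁻¹ * (y ^ k - ι y') ∈ Y)
    (hq : ∀ 𝔪' : Ideal B', 𝔪'.IsPrime → (∀ p : B', ϖ'⁻¹ * (p : F') ∈ V₁' → p ∈ 𝔪') →
      (∀ p : B', ϖ'⁻¹ * (p : F') ∈ V₂' → p ∈ 𝔪') →
      ∃ u₁ u₂ γ : B', (u₁ : F') * (u₂ : F') = ϖ' * (γ : F') ∧ ϖ'⁻¹ * (u₁ : F') ∈ V₁' ∧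
        ϖ'⁻¹ * (u₂ : F') ∈ V₂' ∧ γ ∉ 𝔪')
    (hcl : ∀ 𝔭 : Ideal B, 𝔭.IsPrime →
      ((∀ p : B, ϖ⁻¹ * (p : F) ∈ X → p ∈ 𝔭) → (∀ p : B, ϖ⁻¹ * (p : F) ∈ Y → p ∈ 𝔭) →
        ∀ p : B, z⁻¹ * (p : F) ∈ Z → p ∈ 𝔭) ∧
      ((∀ p : B, ϖ⁻¹ * (p : F) ∈ Y → p ∈ 𝔭) → (∀ p : B, z⁻¹ * (p : F) ∈ Z → p ∈ 𝔭) →
        ∀ p : B, ϖ⁻¹ * (p : F) ∈ X → p ∈ 𝔭))
    (Nm : F →* F') (kN : ℕ) (hNι : ∀ d ∈ B', Nm (ι d) = d ^ kN) (hNB : ∀ b ∈ B, Nm b ∈ B')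
    (𝔪 : Ideal B) (h𝔪 : 𝔪.IsPrime)
    (hPX : ∀ p : B, ϖ⁻¹ * (p : F) ∈ X → p ∈ 𝔪) (hPY : ∀ p : B, ϖ⁻¹ * (p : F) ∈ Y → p ∈ 𝔪)
    (hPZ : ∀ p : B, z⁻¹ * (p : F) ∈ Z → p ∈ 𝔪) :
    ∃ 𝔪' : Ideal B', 𝔪'.IsPrime ∧
      (∀ x (hx : x ∈ B'), (⟨x, hx⟩ : B') ∈ 𝔪' ↔ (⟨ι x, hB'B x hx⟩ : B) ∈ 𝔪) ∧
      (∀ x ∈ s18_loc B' 𝔪', x ∈ V₁') ∧ (∀ x ∈ s18_loc B' 𝔪', x ∈ V₂') ∧
      (∀ x ∈ s18_loc B' 𝔪', ι x ∈ s18_loc B 𝔪) ∧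
      (∀ y ∈ s18_loc B 𝔪, Nm y ∈ s18_loc B' 𝔪') ∧
      (∀ y : F, y ≠ 0 → y ∈ s18_loc B 𝔪 → y⁻¹ ∈ s18_loc B 𝔪 →
        ∃ y' : F', y' ∈ s18_loc B' 𝔪' ∧ y'⁻¹ ∈ s18_loc B' 𝔪' ∧ s35_fa_one ϖ X (y / ι y')) ∧
      (∀ y : F, y ≠ 0 → y ∈ s18_loc B 𝔪 → y⁻¹ ∈ s18_loc B 𝔪 →
        ∃ y' : F', y' ∈ s18_loc B' 𝔪' ∧ y'⁻¹ ∈ s18_loc B' 𝔪' ∧ s35_fa_one z Z (y / ι y')) ∧
      (∀ y : F, y ≠ 0 → y ∈ s18_loc B 𝔪 → y⁻¹ ∈ s18_loc B 𝔪 →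
        ∃ y' : F', y' ∈ s18_loc B' 𝔪' ∧ y'⁻¹ ∈ s18_loc B' 𝔪' ∧
          s35_fa_one ϖ Y (y ^ k / ι y')) := by
  let φ : B' →+* B := (ι.comp B'.subtype).codRestrict B (fun x => hB'B x x.2)
  have hprime : (𝔪.comap φ).IsPrime := Ideal.comap_isPrime φ 𝔪
  have hcomap : ∀ x (hx : x ∈ B'),
      (⟨x, hx⟩ : B') ∈ 𝔪.comap φ ↔ (⟨ι x, hB'B x hx⟩ : B) ∈ 𝔪 := fun x hx => Iff.rfl
  have hdiv : ∀ x : F', ϖ⁻¹ * ι x = ι (ϖ'⁻¹ * x) := by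
    intro x; rw [map_mul, map_inv₀, hιϖ]
  have hon1 : ∀ s : B', s ∉ 𝔪.comap φ → ((s : F'))⁻¹ ∈ V₁' := by
    intro s hs
    apply hV₁'.inv_mem_of_not_dvd (hB'1 s.2)
    intro hcon
    exact hs ((hcomap (s : F') s.2).mpr (hPX ⟨ι (s : F'), hB'B _ s.2⟩ (by
      show ϖ⁻¹ * ι (s : F') ∈ X
      rw [hdiv]; exact hιX _ hcon)))
  have hon2 : ∀ s : B', s ∉ 𝔪.comap φ → ((s : F'))⁻¹ ∈ V₂' := by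
    intro s hs
    apply hV₂'.inv_mem_of_not_dvd (hB'2 s.2)
    intro hcon
    exact hs ((hcomap (s : F') s.2).mpr (hPY ⟨ι (s : F'), hB'B _ s.2⟩ (by
      show ϖ⁻¹ * ι (s : F') ∈ Y
      rw [hdiv]; exact hιY _ hcon)))
  have hloc := s36_cu_local ι B' V₁' V₂' B X Y Z hB'B hint hBX hBY hBZ ϖ' ϖ z hX.ne_zero
    hZ.ne_zero hιϖ hιX hιZ hιY hcap n hzn hresZ hq hcl 𝔪 h𝔪
    (fun x hx h => hPX ⟨ι x, hB'B x hx⟩ h) (fun x hx h => hPY ⟨ι x, hB'B x hx⟩ h)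
  refine ⟨𝔪.comap φ, hprime, hcomap, ?_, ?_, ?_, ?_, ?_, ?_, ?_⟩
  · rintro x ⟨a, b, hb, rfl⟩
    rw [div_eq_mul_inv]
    exact V₁'.mul_mem (hB'1 a.2) (hon1 b hb)
  · rintro x ⟨a, b, hb, rfl⟩
    rw [div_eq_mul_inv]
    exact V₂'.mul_mem (hB'2 a.2) (hon2 b hb)
  · rintro x ⟨a, b, hb, rfl⟩
    exact ⟨φ a, φ b, hb, by rw [map_div₀]; rfl⟩
  · intro y hy
    exact s36_cu_norm ι B' B hB'B Nm kN hNι hNB 𝔪 (𝔪.comap φ) hcomap hloc y hy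
  · intro y hy0 hy hy'
    exact s36_cu_ext ι B' B X hB'B hX hBX hresX 𝔪 (𝔪.comap φ) hcomap hPX y hy0 hy hy'
  · intro y hy0 hy hy'
    exact s36_cu_ext ι B' B Z hB'B hZ hBZ hresZ 𝔪 (𝔪.comap φ) hcomap hPZ y hy0 hy hy'
  · intro y hy0 hy hy'
    exact s36_cu_ext_pow ι B' B Y hB'B hY hBY k hresY 𝔪 (𝔪.comap φ) hcomap hPY y hy0 hy hy'

/-- **The triple point, in one call.**  At a closed point `𝔪` of the chart `B` lying on the three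
components, with the level-`q` thickness statement along `ι` (`X`, `Z` over `V₁'`, `Y` over
`V₂'`), (cap), and (RES) along the three components over ONE S18 chart `B₁` (three embeddings):

* the branch statements of `X`, `Y`, `Z` (one `x ∈ 𝔪 ∖ P_V` generating the branch);
* two local generators of `𝔪`;
* the local factorisation of every function whose horizontal divisor is divisible by `p`. -/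
theorem s36_tloc_triple (ι : F' →+* F) (B' V₁' V₂' : Subring F') (B X Y Z : Subring F)
    (hB'B : ∀ x ∈ B', ι x ∈ B) (hBX : B ≤ X) (hBY : B ≤ Y) (hBZ : B ≤ Z)
    {ϖ' : F'} {ϖ z : F} (hX : s34_Unif ϖ X) (hY : s34_Unif ϖ Y) (hZ : s34_Unif z Z)
    (hιϖ : ι ϖ' = ϖ)
    (hιX : ∀ y ∈ V₁', ι y ∈ X) (hιZ : ∀ y ∈ V₁', ι y ∈ Z) (hιY : ∀ y ∈ V₂', ι y ∈ Y)
    (hcap : ∀ x ∈ B, ϖ⁻¹ * x ∈ X → ϖ⁻¹ * x ∈ Y → ϖ⁻¹ * x ∈ Z → ϖ⁻¹ * x ∈ B)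
    (hq : ∀ 𝔪' : Ideal B', 𝔪'.IsPrime → (∀ p : B', ϖ'⁻¹ * (p : F') ∈ V₁' → p ∈ 𝔪') →
      (∀ p : B', ϖ'⁻¹ * (p : F') ∈ V₂' → p ∈ 𝔪') →
      ∃ u₁ u₂ γ : B', (u₁ : F') * (u₂ : F') = ϖ' * (γ : F') ∧ ϖ'⁻¹ * (u₁ : F') ∈ V₁' ∧
        ϖ'⁻¹ * (u₂ : F') ∈ V₂' ∧ γ ∉ 𝔪')
    (ιX ιY ιZ : F₀ →+* F) {ϖ₀ : F₀} (B₁ : Subring F₀) (hB₁c : s18_Chart ϖ₀ B₁)
    (hmapX : ∀ x ∈ B₁, ιX x ∈ B) (hmapY : ∀ x ∈ B₁, ιY x ∈ B) (hmapZ : ∀ x ∈ B₁, ιZ x ∈ B)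
    (hunifX : ϖ⁻¹ * ιX ϖ₀ ∈ X) (hunifY : ϖ⁻¹ * ιY ϖ₀ ∈ Y) (hunifZ : z⁻¹ * ιZ ϖ₀ ∈ Z)
    (hresX : ∀ x ∈ B, ∃ x' ∈ B₁, ϖ⁻¹ * (x - ιX x') ∈ X)
    (hresY : ∀ x ∈ B, ∃ x' ∈ B₁, ϖ⁻¹ * (x - ιY x') ∈ Y)
    (hresZ : ∀ x ∈ B, ∃ x' ∈ B₁, z⁻¹ * (x - ιZ x') ∈ Z)
    (hnoeth : IsNoetherianRing B) (hfrac : ∀ x : F, ∃ a ∈ B, ∃ b ∈ B, b ≠ 0 ∧ x = a / b)
    (hϖB : ϖ ∈ B) (𝔪 : Ideal B) (h𝔪 : 𝔪.IsMaximal)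
    (hPX : ∀ p : B, ϖ⁻¹ * (p : F) ∈ X → p ∈ 𝔪) (hPY : ∀ p : B, ϖ⁻¹ * (p : F) ∈ Y → p ∈ 𝔪)
    (hPZ : ∀ p : B, z⁻¹ * (p : F) ∈ Z → p ∈ 𝔪) :
    (∃ x : B, x ∈ 𝔪 ∧ ϖ⁻¹ * (x : F) ∉ X ∧
      ∀ y ∈ 𝔪, ∃ e r : B, e ∉ 𝔪 ∧ ϖ⁻¹ * ((e : F) * (y : F) - (r : F) * (x : F)) ∈ X) ∧
    (∃ x : B, x ∈ 𝔪 ∧ ϖ⁻¹ * (x : F) ∉ Y ∧
      ∀ y ∈ 𝔪, ∃ e r : B, e ∉ 𝔪 ∧ ϖ⁻¹ * ((e : F) * (y : F) - (r : F) * (x : F)) ∈ Y) ∧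
    (∃ x : B, x ∈ 𝔪 ∧ z⁻¹ * (x : F) ∉ Z ∧
      ∀ y ∈ 𝔪, ∃ e r : B, e ∉ 𝔪 ∧ z⁻¹ * ((e : F) * (y : F) - (r : F) * (x : F)) ∈ Z) ∧
    (∃ x y : B, x ∈ 𝔪 ∧ y ∈ 𝔪 ∧ ∀ t ∈ 𝔪, ∃ w, w ∉ 𝔪 ∧ w * t ∈ Ideal.span {x, y}) ∧
    (∀ p : ℕ, 0 < p → ∀ g₁ : F, g₁ ≠ 0 →
      (∀ W : ValuationSubring F, IsDiscreteValuationRing W → B ≤ W.toSubring → ϖ⁻¹ ∈ W →
        ∃ g u : F, u ∈ W ∧ u⁻¹ ∈ W ∧ g₁ = u * g ^ p) →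
      ∃ G : F, G ≠ 0 ∧ ∀ 𝔮 : Ideal B, 𝔮.IsPrime → 𝔮 ≤ 𝔪 → (⟨ϖ, hϖB⟩ : B) ∉ 𝔮 →
        g₁ * (G⁻¹) ^ p ∈ s18_loc B 𝔮 ∧ G ^ p * g₁⁻¹ ∈ s18_loc B 𝔮) := by
  have hϖ0 := hX.ne_zero
  obtain ⟨u, v, γ, huv, hu, hv, hγ, huY, hvX, hvZ⟩ := s36_cu_transport ι B' V₁' V₂' B X Y Z hB'B
    ϖ' ϖ hιϖ hιX hιZ hιY hq 𝔪 h𝔪.isPrime (fun x hx h => hPX ⟨ι x, hB'B x hx⟩ h)
    (fun x hx h => hPY ⟨ι x, hB'B x hx⟩ h)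
  obtain ⟨huX, huZ, hvY⟩ := s36_tloc_cross B X Y Z hϖ0 𝔪 hPX hPY hPZ u v γ huv hγ huY hvX hvZ
  obtain ⟨x, hx, -, hgen⟩ := s36_tloc_gen ιY B₁ hB₁c B X Y Z hmapY hBX hBY hBZ hϖ0 hcap hunifY
    hresY 𝔪 h𝔪 hPY u v γ huv hγ hvX hvZ
  refine ⟨?_, ?_, ?_, ⟨u, x, hu, hx, hgen⟩, ?_⟩
  · exact s36_tloc_branch ιX B₁ hB₁c B X hX hmapX hBX hunifX hresX 𝔪 h𝔪 hPX u hu huX
  · exact s36_tloc_branch ιY B₁ hB₁c B Y hY hmapY hBY hunifY hresY 𝔪 h𝔪 hPY v hv hvY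
  · exact s36_tloc_branch ιZ B₁ hB₁c B Z hZ hmapZ hBZ hunifZ hresZ 𝔪 h𝔪 hPZ u hu huZ
  · intro p hp g₁ hg₁ hdiv
    exact s36_tloc_hG ιY B₁ hB₁c B X Y Z hnoeth hfrac hmapY hBX hBY hBZ hY hϖB hcap hunifY hresY
      𝔪 h𝔪 hPY u v γ huv hu hv hγ huY hvX hvZ p hp g₁ hg₁ hdiv

end Side

end Fermat.Agent.S36
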