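import Mathlib
import Fermat.Agent.S34.NodeUnit
import Fermat.Agent.S36.TriLocal
import Fermat.Agent.S36.PowTriOut

/-!
# S36 (NODE-3), TRI36: the triple-point contract from chart-level hypotheses

* `s36_ptc_below` : the local data `s36_pt_Below` of `s36_pt_triOut` for one degeneracy map, from
  the chart-level hypotheses of `s36_tloc_side` (integrality over the level-`q` chart `B'`,
  (RES) over `B'` along the three components, thickness one at the level-`q` crossing points,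
  the class statement, the norm) and `m`-root closedness of `B'`.
* `s36_ptc_triOut` : the contract `s36_pm_TriOut` at a triple point `𝔪` of a `W`-stable chart `B`,
  from the global data of `s36_pow_of_model`, the chart-level data for the degeneracy map `ι`
  only (the data for `W ∘ ι` is obtained by transport), the local factorisation `hGloc` and the
  branch hypotheses `hLA`, `hLB`, `hLC`.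
-/

set_option autoImplicit false

namespace Fermat.Agent.S36

open Fermat.Agent.S18 Fermat.Agent.S34 Fermat.Agent.S35

section Below

variable {F' F : Type*} [Field F'] [Field F]

/-- **The local data below a triple point from chart-level hypotheses** (one degeneracy map
`ι : F' →+* F`; `X`, `Z` over `V₁'`, `Y` over `V₂'`; `R' := B'_𝔪'`, `𝔪'` the contraction of `𝔪`). -/
theorem s36_ptc_below (ι : F' →+* F) (B' V₁' V₂' : Subring F') (B X Y Z : Subring F)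
    (hB'B : ∀ x ∈ B', ι x ∈ B)
    (hint : ∀ x ∈ B, ∃ P : Polynomial B', P.Monic ∧ P.eval₂ (ι.comp B'.subtype) x = 0)
    (hBX : B ≤ X) (hBY : B ≤ Y) (hBZ : B ≤ Z) (hB'1 : B' ≤ V₁') (hB'2 : B' ≤ V₂')
    {ϖ' : F'} {ϖ z : F} (hX : s34_Unif ϖ X) (hY : s34_Unif ϖ Y) (hZ : s34_Unif z Z)
    (hV₁' : s34_Unif ϖ' V₁') (hV₂' : s34_Unif ϖ' V₂') (hιϖ : ι ϖ' = ϖ)
    (hιX : ∀ y ∈ V₁', ι y ∈ X) (hιZ : ∀ y ∈ V₁', ι y ∈ Z) (hιY : ∀ y ∈ V₂', ι y ∈ Y)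
    (hcap : ∀ x ∈ B, ϖ⁻¹ * x ∈ X → ϖ⁻¹ * x ∈ Y → ϖ⁻¹ * x ∈ Z → ϖ⁻¹ * x ∈ B)
    (n : ℕ) (hzn : ϖ⁻¹ * z ^ n ∈ Z)
    (hresX : ∀ y ∈ B, ∃ y' ∈ B', ϖ⁻¹ * (y - ι y') ∈ X)
    (hresZ : ∀ y ∈ B, ∃ y' ∈ B', z⁻¹ * (y - ι y') ∈ Z)
    (p : ℕ) (hresY : ∀ y ∈ B, ∃ y' ∈ B', ϖ⁻¹ * (y ^ (p + 1) - ι y') ∈ Y)
    (hq : ∀ 𝔪' : Ideal B', 𝔪'.IsPrime → (∀ p : B', ϖ'⁻¹ * (p : F') ∈ V₁' → p ∈ 𝔪') →
      (∀ p : B', ϖ'⁻¹ * (p : F') ∈ V₂' → p ∈ 𝔪') →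
      ∃ u₁ u₂ γ : B', (u₁ : F') * (u₂ : F') = ϖ' * (γ : F') ∧ ϖ'⁻¹ * (u₁ : F') ∈ V₁' ∧
        ϖ'⁻¹ * (u₂ : F') ∈ V₂' ∧ γ ∉ 𝔪')
    (hcl : ∀ 𝔭 : Ideal B, 𝔭.IsPrime →
      ((∀ p : B, ϖ⁻¹ * (p : F) ∈ X → p ∈ 𝔭) → (∀ p : B, ϖ⁻¹ * (p : F) ∈ Y → p ∈ 𝔭) →
        ∀ p : B, z⁻¹ * (p : F) ∈ Z → p ∈ 𝔭) ∧
      ((∀ p : B, ϖ⁻¹ * (p : F) ∈ Y → p ∈ 𝔭) → (∀ p : B, z⁻¹ * (p : F) ∈ Z → p ∈ 𝔭) →
        ∀ p : B, ϖ⁻¹ * (p : F) ∈ X → p ∈ 𝔭))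
    (Nm : F →* F') (kN : ℕ) (hNι : ∀ d ∈ B', Nm (ι d) = d ^ kN) (hNB : ∀ b ∈ B, Nm b ∈ B')
    (m : ℕ) (hm : 0 < m) (hroot' : ∀ x : F', x ^ m ∈ B' → x ∈ B')
    (𝔪 : Ideal B) [h𝔪 : 𝔪.IsPrime]
    (hPX : ∀ p : B, ϖ⁻¹ * (p : F) ∈ X → p ∈ 𝔪) (hPY : ∀ p : B, ϖ⁻¹ * (p : F) ∈ Y → p ∈ 𝔪)
    (hPZ : ∀ p : B, z⁻¹ * (p : F) ∈ Z → p ∈ 𝔪) :
    ∃ R' : Subring F', s36_pt_Below (fun x => ι x) (fun y => Nm y) ϖ ϖ z X Y Z V₁' V₂'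
      (s18_locRing B 𝔪) m p R' := by
  obtain ⟨𝔪', h𝔪', -, h1, h2, hmap, hnorm, hEX, hEZ, hEY⟩ := s36_tloc_side ι B' V₁' V₂' B X Y Z
    hB'B hint hBX hBY hBZ hB'1 hB'2 hX hY hZ hV₁' hV₂' hιϖ hιX hιZ hιY hcap n hzn hresX hresZ
    (p + 1) hresY hq hcl Nm kN hNι hNB 𝔪 h𝔪 hPX hPY hPZ
  haveI := h𝔪'
  exact ⟨s18_locRing B' 𝔪', ⟨fun x hx => h1 x hx, fun x hx => h2 x hx, fun x hx => hmap x hx,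
    fun y hy => s34_root_closed_loc B' m hm hroot' 𝔪' y hy, fun y hy _ => hnorm y hy,
    hEX, hEZ, hEY⟩⟩

end Below

section Chart

variable {F'' F : Type*} [Field F''] [Field F]

/-- **The triple-point contract from chart-level hypotheses.**  Global data as in
`s36_pow_of_model`; `B` a `W`-stable chart, `𝔪` a prime on the three components; `B'` a chart of
the level below with `ι B' ⊆ B`, `B` integral over `ι B'`, (RES) over `B'` along `ι` on the three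
components (`hresαA`, `hresαC`, `hresαB`), thickness one at the crossing points of `B'` (`hq`),
the class statement (`hcl`, the conclusion of `s36_clq_main`), the norm (`hNι`, `hNB`), `B'`
`m`-root closed.  The remaining local inputs are `hGloc` and `hLA`, `hLB`, `hLC` of
`s36_pt_triOut`. -/
theorem s36_ptc_triOut (ι : F'' →+* F)
    {ϖ'' : F''} {z : F} {VA VB VC : Subring F} {Vi V0 : Subring F''}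
    (hA : s34_Unif (ι ϖ'') VA) (hB : s34_Unif (ι ϖ'') VB) (hC : s34_Unif z VC)
    (hVi : s34_Unif ϖ'' Vi) (hV0 : s34_Unif ϖ'' V0)
    (hιA : ∀ x ∈ Vi, ι x ∈ VA) (hιC : ∀ x ∈ Vi, ι x ∈ VC) (hιB : ∀ x ∈ V0, ι x ∈ VB)
    (n : ℕ) (hn : 1 ≤ n) (hzn : ι ϖ'' * (z ^ n)⁻¹ ∈ VC) (hzn' : z ^ n * (ι ϖ'')⁻¹ ∈ VC)
    (hresA : ∀ y ∈ VA, ∃ y' ∈ Vi, (ι ϖ'')⁻¹ * (y - ι y') ∈ VA)
    (hresC : ∀ y ∈ VC, ∃ y' ∈ Vi, z⁻¹ * (y - ι y') ∈ VC)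
    (hresB : ∀ y ∈ VB, ∃ b ∈ V0, (ι ϖ'')⁻¹ * (y ^ (n + 1) - ι b) ∈ VB)
    (Nm : F →* F'')
    (hNRram : ∀ h ∈ VA, h ∈ VC → ∀ a ∈ Vi, ∀ c ∈ Vi, (ι ϖ'')⁻¹ * (h - ι a) ∈ VA →
      z⁻¹ * (h - ι c) ∈ VC → ϖ''⁻¹ * (Nm h - a * c ^ n) ∈ Vi)
    (hNRins : ∀ h ∈ VB, ∀ b ∈ V0, (ι ϖ'')⁻¹ * (h ^ (n + 1) - ι b) ∈ VB →
      ϖ''⁻¹ * (Nm h - b) ∈ V0)
    (W : F ≃+* F) (hWAB : ∀ x, x ∈ VB ↔ W x ∈ VA) (hWC : ∀ x, x ∈ VC ↔ W x ∈ VC)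
    (hWϖ : W (ι ϖ'') = ι ϖ'') (hWW : ∀ x, W (W x) = x)
    (m : ℕ) (hm0 : (m : F) ≠ 0) (r s : ℤ) (hrs : r * ((n + 1 : ℕ) : ℤ) + s * m = 1)
    (B : Subring F) (hBA : B ≤ VA) (hBB : B ≤ VB) (hBC : B ≤ VC)
    (hmB : ((m : F))⁻¹ ∈ B) (hWB : ∀ x ∈ B, W x ∈ B) (𝔪 : Ideal B) [h𝔪 : 𝔪.IsPrime]
    (hlocV : ∀ b : B, b ∉ 𝔪 → ((b : F))⁻¹ ∈ VA ⊓ VB ⊓ VC)
    (hroot : ∀ x : F, x ^ m ∈ s18_loc B 𝔪 → x ∈ s18_loc B 𝔪)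
    (hGloc : ∀ g : F, s36_pm_U VA g → s36_pm_U VB g → s36_pm_U VC g →
      (∀ W' : ValuationSubring F, IsDiscreteValuationRing W' → B ≤ W'.toSubring →
        (ι ϖ'')⁻¹ ∈ W' → ∃ g' u : F, u ∈ W' ∧ u⁻¹ ∈ W' ∧ g = u * g' ^ m) →
      ∃ G : F, s36_pm_U VA G ∧ s36_pm_U VB G ∧ s36_pm_U VC G ∧
        g * (G⁻¹) ^ m ∈ s18_loc B 𝔪 ∧ G ^ m * g⁻¹ ∈ s18_loc B 𝔪)
    (hLA : ∀ x w : F, w ∈ s18_loc B 𝔪 → w⁻¹ ∈ s18_loc B 𝔪 → (ι ϖ'')⁻¹ * (x ^ m - w) ∈ VA →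
      ∃ y : F, y ∈ s18_loc B 𝔪 ∧ y⁻¹ ∈ s18_loc B 𝔪 ∧ (ι ϖ'')⁻¹ * (x - y) ∈ VA)
    (hLB : ∀ x w : F, w ∈ s18_loc B 𝔪 → w⁻¹ ∈ s18_loc B 𝔪 → (ι ϖ'')⁻¹ * (x ^ m - w) ∈ VB →
      ∃ y : F, y ∈ s18_loc B 𝔪 ∧ y⁻¹ ∈ s18_loc B 𝔪 ∧ (ι ϖ'')⁻¹ * (x - y) ∈ VB)
    (hLC : ∀ x w : F, w ∈ s18_loc B 𝔪 → w⁻¹ ∈ s18_loc B 𝔪 → z⁻¹ * (x ^ m - w) ∈ VC →
      ∃ y : F, y ∈ s18_loc B 𝔪 ∧ y⁻¹ ∈ s18_loc B 𝔪 ∧ z⁻¹ * (x - y) ∈ VC)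
    -- the chart of the level below
    (B' : Subring F'') (hB'i : B' ≤ Vi) (hB'0 : B' ≤ V0)
    (hroot' : ∀ x : F'', x ^ m ∈ B' → x ∈ B')
    (hαB : ∀ x ∈ B', ι x ∈ B)
    (hint : ∀ x ∈ B, ∃ P : Polynomial B', P.Monic ∧ P.eval₂ (ι.comp B'.subtype) x = 0)
    (hcap : ∀ x ∈ B, (ι ϖ'')⁻¹ * x ∈ VA → (ι ϖ'')⁻¹ * x ∈ VB → (ι ϖ'')⁻¹ * x ∈ VC →
      (ι ϖ'')⁻¹ * x ∈ B)
    (hresαA : ∀ y ∈ B, ∃ y' ∈ B', (ι ϖ'')⁻¹ * (y - ι y') ∈ VA)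
    (hresαC : ∀ y ∈ B, ∃ y' ∈ B', z⁻¹ * (y - ι y') ∈ VC)
    (hresαB : ∀ y ∈ B, ∃ y' ∈ B', (ι ϖ'')⁻¹ * (y ^ (n + 1) - ι y') ∈ VB)
    (hq : ∀ 𝔪' : Ideal B', 𝔪'.IsPrime → (∀ p : B', ϖ''⁻¹ * (p : F'') ∈ Vi → p ∈ 𝔪') →
      (∀ p : B', ϖ''⁻¹ * (p : F'') ∈ V0 → p ∈ 𝔪') →
      ∃ u₁ u₂ γ : B', (u₁ : F'') * (u₂ : F'') = ϖ'' * (γ : F'') ∧ ϖ''⁻¹ * (u₁ : F'') ∈ Vi ∧
        ϖ''⁻¹ * (u₂ : F'') ∈ V0 ∧ γ ∉ 𝔪')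
    (hcl : ∀ 𝔭 : Ideal B, 𝔭.IsPrime →
      ((∀ p : B, (ι ϖ'')⁻¹ * (p : F) ∈ VA → p ∈ 𝔭) →
        (∀ p : B, (ι ϖ'')⁻¹ * (p : F) ∈ VB → p ∈ 𝔭) → ∀ p : B, z⁻¹ * (p : F) ∈ VC → p ∈ 𝔭) ∧
      ((∀ p : B, (ι ϖ'')⁻¹ * (p : F) ∈ VB → p ∈ 𝔭) → (∀ p : B, z⁻¹ * (p : F) ∈ VC → p ∈ 𝔭) →
        ∀ p : B, (ι ϖ'')⁻¹ * (p : F) ∈ VA → p ∈ 𝔭) ∧
      ((∀ p : B, (ι ϖ'')⁻¹ * (p : F) ∈ VA → p ∈ 𝔭) → (∀ p : B, z⁻¹ * (p : F) ∈ VC → p ∈ 𝔭) →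
        ∀ p : B, (ι ϖ'')⁻¹ * (p : F) ∈ VB → p ∈ 𝔭))
    (kN : ℕ) (hNι : ∀ d ∈ B', Nm (ι d) = d ^ kN) (hNB : ∀ b ∈ B, Nm b ∈ B') :
    s36_pm_TriOut ι ϖ'' z VA VB VC Vi V0 Nm W n m r s B 𝔪 := by
  have hm : 0 < m := Nat.pos_of_ne_zero (by rintro rfl; exact hm0 (by simp))
  have hϖ0 := hA.ne_zero
  have hz0 := hC.ne_zero
  have hWAtoB : ∀ x ∈ VA, W x ∈ VB := fun x hx => (hWAB (W x)).mpr (by rw [hWW]; exact hx)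
  have hWBtoA : ∀ x ∈ VB, W x ∈ VA := fun x hx => (hWAB x).mp hx
  have hWCC : ∀ x ∈ VC, W x ∈ VC := fun x hx => (hWC x).mp hx
  have hdA : (ι ϖ'')⁻¹ * W (ι ϖ'') ∈ VA := by
    rw [hWϖ, inv_mul_cancel₀ hϖ0]; exact VA.one_mem
  have hdB : (ι ϖ'')⁻¹ * W (ι ϖ'') ∈ VB := by
    rw [hWϖ, inv_mul_cancel₀ hϖ0]; exact VB.one_mem
  have hdC : z⁻¹ * W z ∈ VC := s36_pm_swap_unif hC W hWC
  have hznC : (ι ϖ'')⁻¹ * z ^ n ∈ VC := by rw [mul_comm]; exact hzn'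
  -- the three components pass through `𝔪`
  have hP : ∀ (d : F) (V : Subring F), s34_Unif d V → (∀ b : B, b ∉ 𝔪 → ((b : F))⁻¹ ∈ V) →
      ∀ p : B, d⁻¹ * (p : F) ∈ V → p ∈ 𝔪 := by
    intro d V hV hloc p hp
    by_contra hpm
    apply hV.inv_not_mem
    have hp0 : (p : F) ≠ 0 := s35_nf_ne_zero hpm
    have e : d⁻¹ = d⁻¹ * (p : F) * ((p : F))⁻¹ := by
      rw [mul_assoc, mul_inv_cancel₀ hp0, mul_one]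
    rw [e]; exact V.mul_mem hp (hloc p hpm)
  have hPA := hP _ _ hA (fun b hb => (hlocV b hb).1.1)
  have hPB := hP _ _ hB (fun b hb => (hlocV b hb).1.2)
  have hPC := hP _ _ hC (fun b hb => (hlocV b hb).2)
  -- the data for `ι`
  obtain ⟨R'α, hα⟩ := s36_ptc_below ι B' Vi V0 B VA VB VC hαB hint hBA hBB hBC hB'i hB'0 hA hB hC
    hVi hV0 rfl hιA hιC hιB hcap n hznC hresαA hresαC n hresαB hq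
    (fun 𝔭 h𝔭 => ⟨(hcl 𝔭 h𝔭).1, (hcl 𝔭 h𝔭).2.1⟩) Nm kN hNι hNB m hm hroot' 𝔪 hPA hPB hPC
  -- the data for `W ∘ ι`
  obtain ⟨R'β, hβ⟩ := s36_ptc_below ((W : F →+* F).comp ι) B' Vi V0 B VB VA VC
    (fun x hx => hWB _ (hαB x hx))
    (by
      intro x hx
      obtain ⟨P, hP1, hPx⟩ := hint (W x) (hWB x hx)
      refine ⟨P, hP1, ?_⟩
      have h := Polynomial.hom_eval₂ P (ι.comp B'.subtype) (W : F →+* F) (W x)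
      rw [hPx, map_zero] at h
      have e : (W : F →+* F) (W x) = x := hWW x
      rw [e] at h
      rw [RingHom.comp_assoc]
      exact h.symm)
    hBB hBA hBC hB'i hB'0 hB hA hC hVi hV0 hWϖ
    (fun y hy => hWAtoB _ (hιA y hy)) (fun y hy => hWCC _ (hιC y hy))
    (fun y hy => hWBtoA _ (hιB y hy))
    (fun x hx hxB hxA hxC => hcap x hx hxA hxB hxC) n hznC
    (by
      intro y hy
      obtain ⟨y', hy', h⟩ := hresαA (W y) (hWB y hy)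
      refine ⟨y', hy', ?_⟩
      have h' := s36_pt_tr W hWAtoB hϖ0 hdB h
      rw [map_sub, hWW] at h'
      exact h')
    (by
      intro y hy
      obtain ⟨y', hy', h⟩ := hresαC (W y) (hWB y hy)
      refine ⟨y', hy', ?_⟩
      have h' := s36_pt_tr W hWCC hz0 hdC h
      rw [map_sub, hWW] at h'
      exact h')
    n
    (by
      intro y hy
      obtain ⟨y', hy', h⟩ := hresαB (W y) (hWB y hy)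
      refine ⟨y', hy', ?_⟩
      have h' := s36_pt_tr W hWBtoA hϖ0 hdA h
      rw [map_sub, map_pow, hWW] at h'
      exact h')
    hq
    (fun 𝔭 h𝔭 => ⟨fun h1 h2 => (hcl 𝔭 h𝔭).1 h2 h1, (hcl 𝔭 h𝔭).2.2⟩)
    (Nm.comp (W : F →* F)) kN
    (by
      intro d hd
      show Nm (W (W (ι d))) = d ^ kN
      rw [hWW]; exact hNι d hd)
    (fun b hb => hNB _ (hWB b hb)) m hm hroot' 𝔪 hPB hPA hPC
  exact s36_pt_triOut ι hA hB hC hVi hV0 hιA hιC hιB n hn hzn hresA hresC hresB Nm hNRram hNRins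
    W hWAB hWC hWϖ hWW m hm0 r s hrs B hBA hBB hBC hmB 𝔪 hlocV hroot hGloc hLA hLB hLC R'α R'β
    hα hβ

end Chart

end Fermat.Agent.S36
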