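import Mathlib
import Fermat.Agent.S35.NodeBranch

/-!
# S36 (NODE-3), TRI36: the branch hypothesis `hA` of `s36_tri_lift` at a multi-branch point

`s36_tri_lift` (S36/TriFun.lean) consumes, for each component `V_X` (uniformiser `d_X`) through a
closed point `𝔪` of the chart `B`, the *function-independent* hypothesis

  `hA : ∀ x w, w ∈ B_𝔪 → w⁻¹ ∈ B_𝔪 → d⁻¹ * (x ^ m - w) ∈ V → ∃ y, y ∈ B_𝔪 ∧ y⁻¹ ∈ B_𝔪 ∧ d⁻¹ * (x - y) ∈ V`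

("the branch of `V` through `𝔪` is a discrete valuation ring, hence `m`-root closed").  NODE-2
proved it for two reduced components (`s35_nb_branch`).  Here it is proved one component at a
time, for a component of any multiplicity:

* `s36_te_cap_pow`, `s36_te_frac` : a uniformised ring `V` (uniformiser `d`, `ϖ = unit * d ^ e`)
  containing the chart `B` is the localisation of `B` at its centre (multiplicity-`e` version of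
  `s35_nb_frac`; input: cap and ONE `x ∈ B` divisible by `ϖ` on the other components, unit of `V`).
* `s36_te_branch` : `hA` from `hfracV` (`s36_te_frac`), noetherianity of `B`, and one element `x` of
  `𝔪` generating the maximal ideal of the branch (clone of `s35_nb_branch`).
* `s36_te_hx` : that generator from (RES) `B = ι B₁ + (B ∩ d V)` and a local generator `x₁` of the
  lower chart `B₁` at the image point (`s18_Chart.reg` shape; variant of `s36_pb_ext` with the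
  uniformiser `d` of `V` not necessarily `ι ϖ''`, as needed for the component `C`).
* `s36_te_hA` : the composition: `hA` for `(V, d)` from (RES), `reg`, `hfracV`.
-/

set_option autoImplicit false

namespace Fermat.Agent.S36

open Fermat.Agent.S18 Fermat.Agent.S34 Fermat.Agent.S35

variable {F : Type*} [Field F]

/-! ### `V` is the localisation of `B` at its centre -/

/-- Divisibility transfer: if `y ∈ B` is divisible by `ϖ ^ j` in `V`, then `(ϖ⁻¹ x) ^ j * y ∈ B`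
for every `x ∈ B` divisible by `ϖ` on the other components. -/
theorem s36_te_cap_pow {B V V' : Subring F} {ϖ : F} (hBV : B ≤ V) (hBV' : B ≤ V')
    (hϖ0 : ϖ ≠ 0) (hϖV : ϖ ∈ V)
    (hcap : ∀ x ∈ B, ϖ⁻¹ * x ∈ V → ϖ⁻¹ * x ∈ V' → ϖ⁻¹ * x ∈ B)
    (x : B) (hx' : ϖ⁻¹ * (x : F) ∈ V') :
    ∀ (j : ℕ) (y : F), y ∈ B → ϖ⁻¹ ^ j * y ∈ V → (ϖ⁻¹ * (x : F)) ^ j * y ∈ B := by
  intro j
  induction j with
  | zero =>
    intro y hy _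
    rw [pow_zero, one_mul]; exact hy
  | succ j ih =>
    intro y hy hyV
    have h1 : ϖ⁻¹ * y ∈ V := by
      have e : ϖ⁻¹ * y = ϖ ^ j * (ϖ⁻¹ ^ (j + 1) * y) := by
        rw [pow_succ, inv_pow]; field_simp
      rw [e]; exact V.mul_mem (V.pow_mem hϖV j) hyV
    have h2 : ϖ⁻¹ * ((x : F) * y) ∈ B := by
      refine hcap _ (B.mul_mem x.2 hy) ?_ ?_
      · rw [mul_left_comm]; exact V.mul_mem (hBV x.2) h1
      · rw [← mul_assoc]; exact V'.mul_mem hx' (hBV' hy)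
    have h3 : ϖ⁻¹ ^ j * (ϖ⁻¹ * ((x : F) * y)) ∈ V := by
      have e : ϖ⁻¹ ^ j * (ϖ⁻¹ * ((x : F) * y)) = (x : F) * (ϖ⁻¹ ^ (j + 1) * y) := by
        rw [pow_succ]; ring
      rw [e]; exact V.mul_mem (hBV x.2) hyV
    have h4 := ih _ h2 h3
    have e : (ϖ⁻¹ * (x : F)) ^ (j + 1) * y = (ϖ⁻¹ * (x : F)) ^ j * (ϖ⁻¹ * ((x : F) * y)) := by
      rw [pow_succ]; ring
    rw [e]; exact h4

/-- **`V` is the localisation of `B` at its centre** (component of multiplicity `e`).  `V` is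
uniformised by `d`, `ϖ = unit * d ^ e` in `V`, `V'` is the intersection of the valuation rings of
the other components, `B ∩ ϖ (V ⊓ V') = ϖ B`, and `x ∈ B` is divisible by `ϖ` on the other
components and a unit of `V`.  Then every element of `V` is a quotient of elements of `B` with
denominator a unit of `V`. -/
theorem s36_te_frac {B V V' : Subring F} {ϖ d : F} (hV : s34_Unif d V) (hBV : B ≤ V)
    (hBV' : B ≤ V') (hϖ0 : ϖ ≠ 0) (hϖV : ϖ ∈ V)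
    (hcap : ∀ x ∈ B, ϖ⁻¹ * x ∈ V → ϖ⁻¹ * x ∈ V' → ϖ⁻¹ * x ∈ B)
    (hfrac : ∀ x : F, ∃ a ∈ B, ∃ b ∈ B, b ≠ 0 ∧ x = a / b)
    (e : ℕ) (he : 0 < e) (hη : ϖ⁻¹ * d ^ e ∈ V) (hη' : (ϖ⁻¹ * d ^ e)⁻¹ ∈ V)
    (x : B) (hx' : ϖ⁻¹ * (x : F) ∈ V') (hx0 : (x : F) ≠ 0) (hxi : ((x : F))⁻¹ ∈ V)
    {v : F} (hv : v ∈ V) : ∃ a b : B, d⁻¹ * (b : F) ∉ V ∧ v = (a : F) / (b : F) := by
  have hd0 := hV.ne_zero
  obtain ⟨a, ha, c, hc, hc0, rfl⟩ := hfrac v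
  obtain ⟨k, hk, hki⟩ := hV.exists_pow (hBV hc) hc0
  set u : F := d⁻¹ ^ k * c with hu
  have hu0 : u ≠ 0 := mul_ne_zero (pow_ne_zero _ (inv_ne_zero hd0)) hc0
  have hcu : c = d ^ k * u := by
    rw [hu, ← mul_assoc, ← mul_pow, mul_inv_cancel₀ hd0, one_pow, one_mul]
  set η : F := ϖ⁻¹ * d ^ e with hηdef
  have hη0 : η ≠ 0 := mul_ne_zero (inv_ne_zero hϖ0) (pow_ne_zero _ hd0)
  -- `ϖ⁻ᵏ c ^ e` is a unit of `V`
  have e1 : ϖ⁻¹ ^ k * c ^ e = η ^ k * u ^ e := by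
    rw [hcu, hηdef, mul_pow, mul_pow, ← pow_mul, ← pow_mul, mul_comm k e]; ring
  have hce : ϖ⁻¹ ^ k * c ^ e ∈ V := by
    rw [e1]; exact V.mul_mem (V.pow_mem hη k) (V.pow_mem hk e)
  have hcei : (ϖ⁻¹ ^ k * c ^ e)⁻¹ ∈ V := by
    rw [e1, mul_inv, ← inv_pow, ← inv_pow]
    exact V.mul_mem (V.pow_mem hη' k) (V.pow_mem hki e)
  -- the numerator
  obtain ⟨e', rfl⟩ : ∃ e', e = e' + 1 := ⟨e - 1, by omega⟩
  have hae : ϖ⁻¹ ^ k * (a * c ^ e') ∈ V := by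
    have e2 : ϖ⁻¹ ^ k * (a * c ^ e') = (a / c) * (ϖ⁻¹ ^ k * c ^ (e' + 1)) := by
      rw [pow_succ]; field_simp
    rw [e2]; exact V.mul_mem hv hce
  have hA := s36_te_cap_pow hBV hBV' hϖ0 hϖV hcap x hx' k (a * c ^ e')
    (B.mul_mem ha (B.pow_mem hc e')) hae
  have hB := s36_te_cap_pow hBV hBV' hϖ0 hϖV hcap x hx' k (c ^ (e' + 1))
    (B.pow_mem hc (e' + 1)) hce
  have hxk0 : (ϖ⁻¹ * (x : F)) ^ k ≠ 0 := pow_ne_zero _ (mul_ne_zero (inv_ne_zero hϖ0) hx0)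
  have hb0 : (ϖ⁻¹ * (x : F)) ^ k * c ^ (e' + 1) ≠ 0 :=
    mul_ne_zero hxk0 (pow_ne_zero _ hc0)
  refine ⟨⟨_, hA⟩, ⟨_, hB⟩, ?_, ?_⟩
  · apply hV.not_dvd_of_inv_mem hb0
    have e3 : ((ϖ⁻¹ * (x : F)) ^ k * c ^ (e' + 1))⁻¹
        = ((x : F)⁻¹) ^ k * (ϖ⁻¹ ^ k * c ^ (e' + 1))⁻¹ := by
      rw [mul_pow, mul_inv, mul_inv, mul_inv, inv_pow, inv_pow]; ring
    show ((ϖ⁻¹ * (x : F)) ^ k * c ^ (e' + 1))⁻¹ ∈ V
    rw [e3]; exact V.mul_mem (V.pow_mem hxi k) hcei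
  · show a / c = ((ϖ⁻¹ * (x : F)) ^ k * (a * c ^ e')) / ((ϖ⁻¹ * (x : F)) ^ k * c ^ (e' + 1))
    rw [pow_succ]
    field_simp

/-! ### The branch hypothesis `hA` -/

set_option maxHeartbeats 1000000 in
/-- **The branch hypothesis `hA` of `s36_tri_lift`**, one component at a time: on the branch `V₁`
(uniformiser `ϖ`, any multiplicity) through the point `𝔪`, an `m`-th root of a unit of `B_𝔪` modulo
`ϖ V₁` is a unit of `B_𝔪` modulo `ϖ V₁`.  Inputs: `V₁` is the localisation of `B` at its centre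
(`hfracV`, from `s36_te_frac`), `B` is noetherian, and the branch is a discrete valuation ring
with uniformiser the image of `x` (`hx`). -/
theorem s36_te_branch {ϖ : F} {B V₁ : Subring F} (hV₁ : s34_Unif ϖ V₁) (hB₁ : B ≤ V₁)
    (hnoeth : IsNoetherianRing B)
    (hfracV : ∀ v ∈ V₁, ∃ a b : B, ϖ⁻¹ * (b : F) ∉ V₁ ∧ v = (a : F) / (b : F))
    (𝔪 : Ideal B) [h𝔪 : 𝔪.IsPrime]
    (hnode₁ : ∀ b : B, b ∉ 𝔪 → ϖ⁻¹ * (b : F) ∉ V₁)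
    (x : B) (hx₁ : x ∉ s34_ni_P ϖ B V₁ hB₁) (hx𝔪 : x ∈ 𝔪)
    (hx : ∀ m' ∈ 𝔪, ∃ r u : B, u ∉ 𝔪 ∧ u * m' - x * r ∈ s34_ni_P ϖ B V₁ hB₁)
    (m : ℕ) (hm : 0 < m) :
    ∀ X w : F, w ∈ s18_loc B 𝔪 → w⁻¹ ∈ s18_loc B 𝔪 → ϖ⁻¹ * (X ^ m - w) ∈ V₁ →
      ∃ y : F, y ∈ s18_loc B 𝔪 ∧ y⁻¹ ∈ s18_loc B 𝔪 ∧ ϖ⁻¹ * (X - y) ∈ V₁ := by
  intro X w hw hwi hXw
  have hϖ0 := hV₁.ne_zero
  have h1 : (1 : B) ∉ 𝔪 := fun h => h𝔪.ne_top ((Ideal.eq_top_iff_one _).mpr h)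
  have hloc : ∀ b : B, b ∉ 𝔪 → ((b : F))⁻¹ ∈ V₁ := fun b hb =>
    hV₁.inv_mem_of_not_dvd (hB₁ b.2) (hnode₁ b hb)
  have hm' : (0 : ℤ) < (m : ℤ) := by exact_mod_cast hm
  by_cases hw0 : w = 0
  · -- the degenerate case `w = 0`
    subst hw0
    rw [sub_zero] at hXw
    refine ⟨0, ⟨0, 1, h1, by simp⟩, by rw [inv_zero]; exact ⟨0, 1, h1, by simp⟩, ?_⟩
    rw [sub_zero]
    by_cases hX0 : X = 0
    · rw [hX0, mul_zero]; exact V₁.zero_mem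
    obtain ⟨j, u, hu, hui, rfl⟩ := hV₁.decomp X hX0
    have hu0 : u ≠ 0 := by rintro rfl; simp at hX0
    have e1 : ϖ⁻¹ * (ϖ ^ j * u) ^ m = ϖ ^ (j * (m : ℤ) - 1) * u ^ m := by
      rw [mul_pow, ← zpow_natCast (ϖ ^ j), ← zpow_mul, zpow_sub₀ hϖ0, zpow_one]; field_simp
    rw [e1, hV₁.mem_iff (pow_ne_zero m hu0) (V₁.pow_mem hu m)
      (by rw [← inv_pow]; exact V₁.pow_mem hui m)] at hXw
    have hj : 1 ≤ j := by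
      by_contra hcon
      have hj0 : j ≤ 0 := by omega
      have : j * (m : ℤ) ≤ 0 := mul_nonpos_of_nonpos_of_nonneg hj0 hm'.le
      omega
    have e2 : ϖ⁻¹ * (ϖ ^ j * u) = ϖ ^ (j - 1) * u := by
      rw [zpow_sub₀ hϖ0, zpow_one]; field_simp
    rw [e2, hV₁.mem_iff hu0 hu hui]; omega
  -- the main case: `w` is a unit of `B_𝔪`
  obtain ⟨cw, uw, hcw, huw, rfl⟩ := s35_nb_loc_unit 𝔪 hw0 hw hwi
  have hwV : (cw : F) / uw ∈ V₁ := by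
    rw [div_eq_mul_inv]; exact V₁.mul_mem (hB₁ cw.2) (hloc uw huw)
  have hwVi : ((cw : F) / uw)⁻¹ ∈ V₁ := by
    rw [inv_div, div_eq_mul_inv]; exact V₁.mul_mem (hB₁ uw.2) (hloc cw hcw)
  have huw0 : (uw : F) ≠ 0 := by
    intro h0
    apply huw
    have : uw = 0 := Subtype.ext h0
    rw [this]; exact 𝔪.zero_mem
  -- `X ^ m` is a unit of `V₁`
  have hXm : X ^ m ∈ V₁ := by
    have e : X ^ m = ϖ * (ϖ⁻¹ * (X ^ m - (cw : F) / uw)) + (cw : F) / uw := by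
      field_simp; ring
    rw [e]; exact V₁.add_mem (V₁.mul_mem hV₁.mem hXw) hwV
  have hXm' : ϖ⁻¹ * X ^ m ∉ V₁ := by
    intro h
    apply hV₁.not_dvd_of_inv_mem hw0 hwVi
    have e : ϖ⁻¹ * ((cw : F) / uw) = ϖ⁻¹ * X ^ m - ϖ⁻¹ * (X ^ m - (cw : F) / uw) := by ring
    rw [e]; exact V₁.sub_mem h hXw
  have hX0 : X ≠ 0 := by
    rintro rfl
    apply hXm'
    rw [zero_pow hm.ne', mul_zero]; exact V₁.zero_mem
  -- hence `X` is a unit of `V₁`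
  have hXu : X ∈ V₁ ∧ X⁻¹ ∈ V₁ := by
    obtain ⟨j, u, hu, hui, rfl⟩ := hV₁.decomp X hX0
    have hu0 : u ≠ 0 := by rintro rfl; simp at hX0
    have hum0 : u ^ m ≠ 0 := pow_ne_zero m hu0
    have humi : (u ^ m)⁻¹ ∈ V₁ := by rw [← inv_pow]; exact V₁.pow_mem hui m
    have e0 : (ϖ ^ j * u) ^ m = ϖ ^ (j * (m : ℤ)) * u ^ m := by
      rw [mul_pow, ← zpow_natCast (ϖ ^ j), ← zpow_mul]
    have e1 : ϖ⁻¹ * (ϖ ^ j * u) ^ m = ϖ ^ (j * (m : ℤ) - 1) * u ^ m := by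
      rw [e0, zpow_sub₀ hϖ0, zpow_one]; field_simp
    rw [e0, hV₁.mem_iff hum0 (V₁.pow_mem hu m) humi] at hXm
    rw [e1, hV₁.mem_iff hum0 (V₁.pow_mem hu m) humi] at hXm'
    have hjm : j * (m : ℤ) = 0 := by omega
    have hj : j = 0 := by
      rcases mul_eq_zero.mp hjm with h | h
      · exact h
      · omega
    subst hj
    rw [zpow_zero, one_mul]
    exact ⟨hu, hui⟩
  obtain ⟨hXV, hXVi⟩ := hXu
  -- write `X = a / b` with `a`, `b` outside `𝔓₁`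
  have hx₁' : ϖ⁻¹ * (x : F) ∉ V₁ := hx₁
  obtain ⟨a, b, hb, rfl⟩ := hfracV X hXV
  have hb0 : (b : F) ≠ 0 := by
    intro h0; apply hb; rw [h0, mul_zero]; exact V₁.zero_mem
  have ha0 : (a : F) ≠ 0 := by
    intro h0; apply hX0; rw [h0, zero_div]
  have ha : ϖ⁻¹ * (a : F) ∉ V₁ := by
    intro h
    apply hb
    have e : ϖ⁻¹ * (b : F) = ((a : F) / b)⁻¹ * (ϖ⁻¹ * (a : F)) := by field_simp
    rw [e]; exact V₁.mul_mem hXVi h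
  have hbi : ((b : F))⁻¹ ∈ V₁ := hV₁.inv_mem_of_not_dvd (hB₁ b.2) hb
  -- the prime `𝔓₁`
  have hP : (s34_ni_P ϖ B V₁ hB₁).IsPrime := s34_ni_P_prime hV₁ hB₁
  have hP𝔪 : s34_ni_P ϖ B V₁ hB₁ ≤ 𝔪 := by
    intro c hc
    by_contra hc𝔪
    exact hnode₁ c hc𝔪 hc
  have h0 : uw * a ^ m - cw * b ^ m ∈ s34_ni_P ϖ B V₁ hB₁ := by
    show ϖ⁻¹ * ((uw * a ^ m - cw * b ^ m : B) : F) ∈ V₁
    have e : ϖ⁻¹ * ((uw * a ^ m - cw * b ^ m : B) : F)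
        = (ϖ⁻¹ * (((a : F) / b) ^ m - (cw : F) / uw)) * ((uw : F) * (b : F) ^ m) := by
      have hbm0 : (b : F) ^ m ≠ 0 := pow_ne_zero m hb0
      push_cast; rw [div_pow]; field_simp
    rw [e]
    exact V₁.mul_mem hXw (V₁.mul_mem (hB₁ uw.2) (V₁.pow_mem (hB₁ b.2) m))
  obtain ⟨i, ra, ua, hua, hra, h_a⟩ :=
    s35_nb_decomp (s34_ni_P ϖ B V₁ hB₁) 𝔪 hP𝔪 x hx𝔪 hx a ha
  obtain ⟨j, rb, ub, hub, hrb, h_b⟩ :=
    s35_nb_decomp (s34_ni_P ϖ B V₁ hB₁) 𝔪 hP𝔪 x hx𝔪 hx b hb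
  -- the three congruences in the quotient `B ⧸ 𝔓₁`
  have Ea : Ideal.Quotient.mk (s34_ni_P ϖ B V₁ hB₁) ua * Ideal.Quotient.mk _ a
      = Ideal.Quotient.mk _ x ^ i * Ideal.Quotient.mk _ ra := by
    rw [← map_mul, ← map_pow, ← map_mul, Ideal.Quotient.eq]; exact h_a
  have Eb : Ideal.Quotient.mk (s34_ni_P ϖ B V₁ hB₁) ub * Ideal.Quotient.mk _ b
      = Ideal.Quotient.mk _ x ^ j * Ideal.Quotient.mk _ rb := by
    rw [← map_mul, ← map_pow, ← map_mul, Ideal.Quotient.eq]; exact h_b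
  have E0 : Ideal.Quotient.mk (s34_ni_P ϖ B V₁ hB₁) uw * Ideal.Quotient.mk _ a ^ m
      = Ideal.Quotient.mk _ cw * Ideal.Quotient.mk _ b ^ m := by
    rw [← map_pow, ← map_mul, ← map_pow, ← map_mul, Ideal.Quotient.eq]; exact h0
  have Eam : (Ideal.Quotient.mk (s34_ni_P ϖ B V₁ hB₁) ua * Ideal.Quotient.mk _ a) ^ m
      = (Ideal.Quotient.mk _ x ^ i * Ideal.Quotient.mk _ ra) ^ m := by rw [Ea]
  have Ebm : (Ideal.Quotient.mk (s34_ni_P ϖ B V₁ hB₁) ub * Ideal.Quotient.mk _ b) ^ m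
      = (Ideal.Quotient.mk _ x ^ j * Ideal.Quotient.mk _ rb) ^ m := by rw [Eb]
  have hexp : x ^ (i * m) * (uw * ub ^ m * ra ^ m) - x ^ (j * m) * (cw * ua ^ m * rb ^ m)
      ∈ s34_ni_P ϖ B V₁ hB₁ := by
    rw [← Ideal.Quotient.eq]
    simp only [map_mul, map_pow]
    linear_combination (-(Ideal.Quotient.mk (s34_ni_P ϖ B V₁ hB₁) uw)
      * Ideal.Quotient.mk (s34_ni_P ϖ B V₁ hB₁) ub ^ m) * Eam
      + Ideal.Quotient.mk (s34_ni_P ϖ B V₁ hB₁) ub ^ m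
        * Ideal.Quotient.mk (s34_ni_P ϖ B V₁ hB₁) ua ^ m * E0
      + Ideal.Quotient.mk (s34_ni_P ϖ B V₁ hB₁) cw
        * Ideal.Quotient.mk (s34_ni_P ϖ B V₁ hB₁) ua ^ m * Ebm
  have hnm : ∀ {c : B} (k : ℕ), c ∉ 𝔪 → c ^ k ∉ 𝔪 := fun k hc h => hc (h𝔪.mem_of_pow_mem k h)
  have hα : uw * ub ^ m * ra ^ m ∉ 𝔪 := fun h =>
    (h𝔪.mem_or_mem h).elim (fun h' => (h𝔪.mem_or_mem h').elim huw (hnm m hub)) (hnm m hra)
  have hβ : cw * ua ^ m * rb ^ m ∉ 𝔪 := fun h =>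
    (h𝔪.mem_or_mem h).elim (fun h' => (h𝔪.mem_or_mem h').elim hcw (hnm m hua)) (hnm m hrb)
  have him : i * m = j * m := s35_nb_exp_eq (s34_ni_P ϖ B V₁ hB₁) 𝔪 hP𝔪 x hx𝔪 hx₁ hα hβ hexp
  have hij : i = j := Nat.eq_of_mul_eq_mul_right hm him
  subst hij
  -- the unit `y` of `B_𝔪`
  have hden : ua * rb ∉ 𝔪 := fun h => (h𝔪.mem_or_mem h).elim hua hrb
  have hnum : ra * ub ∉ 𝔪 := fun h => (h𝔪.mem_or_mem h).elim hra hub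
  have hn : a * ua * rb - b * ub * ra ∈ s34_ni_P ϖ B V₁ hB₁ := by
    rw [← Ideal.Quotient.eq]
    simp only [map_mul]
    linear_combination Ideal.Quotient.mk (s34_ni_P ϖ B V₁ hB₁) rb * Ea
      - Ideal.Quotient.mk (s34_ni_P ϖ B V₁ hB₁) ra * Eb
  have hn' : ϖ⁻¹ * ((a * ua * rb - b * ub * ra : B) : F) ∈ V₁ := hn
  have hua0 : (ua : F) ≠ 0 := by
    intro h0
    apply hua
    have : ua = 0 := Subtype.ext h0
    rw [this]; exact 𝔪.zero_mem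
  have hrb0 : (rb : F) ≠ 0 := by
    intro h0
    apply hrb
    have : rb = 0 := Subtype.ext h0
    rw [this]; exact 𝔪.zero_mem
  refine ⟨((ra * ub : B) : F) / ((ua * rb : B) : F), ⟨ra * ub, ua * rb, hden, rfl⟩,
    ⟨ua * rb, ra * ub, hnum, by rw [inv_div]⟩, ?_⟩
  have e : ϖ⁻¹ * ((a : F) / b - ((ra * ub : B) : F) / ((ua * rb : B) : F))
      = (ϖ⁻¹ * ((a * ua * rb - b * ub * ra : B) : F))
        * (((b : F))⁻¹ * (((ua : F))⁻¹ * ((rb : F))⁻¹)) := by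
    push_cast; field_simp
  rw [e]
  exact V₁.mul_mem hn' (V₁.mul_mem hbi (V₁.mul_mem (hloc ua hua) (hloc rb hrb)))

/-! ### The branch generator from (RES) -/

/-- **The branch generator.**  (RES) `B = ι B₁ + (B ∩ d V)` for the component `V` (uniformiser
`d`, with `ι ϖ''` divisible by `d` in `V`) and a local generator `x₁` of the lower chart `B₁` at
the image point (`B₁ ∩ ι⁻¹ 𝔪 = (ϖ'', x₁)` locally): `ι x₁` generates `𝔪` modulo `B ∩ d V`,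
locally. -/
theorem s36_te_hx {F'' : Type*} [Field F''] (ι : F'' →+* F) (B₁ : Subring F'') {d : F}
    {B V : Subring F} (hBV : B ≤ V) (ϖ'' : F'')
    (hB₁B : ∀ x ∈ B₁, ι x ∈ B) (hdϖ : d⁻¹ * ι ϖ'' ∈ V)
    (hres : ∀ y ∈ B, ∃ y' ∈ B₁, d⁻¹ * (y - ι y') ∈ V)
    (𝔪 : Ideal B) (hP : ∀ p : B, d⁻¹ * (p : F) ∈ V → p ∈ 𝔪)
    (x₁ : F'') (hx₁ : x₁ ∈ B₁)
    (hreg : ∀ y₁ (hy₁ : y₁ ∈ B₁), (⟨ι y₁, hB₁B y₁ hy₁⟩ : B) ∈ 𝔪 →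
      ∃ d₁ a₁ r₁ : F'', ∃ hd₁ : d₁ ∈ B₁, a₁ ∈ B₁ ∧ r₁ ∈ B₁ ∧
        (⟨ι d₁, hB₁B d₁ hd₁⟩ : B) ∉ 𝔪 ∧ d₁ * y₁ = a₁ * ϖ'' + r₁ * x₁) :
    ∀ m' ∈ 𝔪, ∃ r u : B, u ∉ 𝔪 ∧
      u * m' - (⟨ι x₁, hB₁B x₁ hx₁⟩ : B) * r ∈ s34_ni_P d B V hBV := by
  intro y hy
  obtain ⟨y', hy', hyy'⟩ := hres (y : F) y.2
  have hp𝔪 : (y - ⟨ι y', hB₁B y' hy'⟩ : B) ∈ 𝔪 := hP _ hyy'
  have hy'𝔪 : (⟨ι y', hB₁B y' hy'⟩ : B) ∈ 𝔪 := by
    have := 𝔪.sub_mem hy hp𝔪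
    simpa using this
  obtain ⟨d₁, a₁, r₁, hd₁, ha₁, hr₁, hd𝔪, hrel⟩ := hreg y' hy' hy'𝔪
  refine ⟨⟨ι r₁, hB₁B r₁ hr₁⟩, ⟨ι d₁, hB₁B d₁ hd₁⟩, hd𝔪, ?_⟩
  show d⁻¹ * ((⟨ι d₁, hB₁B d₁ hd₁⟩ * y - (⟨ι x₁, hB₁B x₁ hx₁⟩ : B) * ⟨ι r₁, hB₁B r₁ hr₁⟩ : B) : F)
    ∈ V
  have hrel' : ι d₁ * ι y' = ι a₁ * ι ϖ'' + ι r₁ * ι x₁ := by
    rw [← map_mul, hrel, map_add, map_mul, map_mul]
  have e : d⁻¹ * ((⟨ι d₁, hB₁B d₁ hd₁⟩ * y - (⟨ι x₁, hB₁B x₁ hx₁⟩ : B) * ⟨ι r₁, hB₁B r₁ hr₁⟩ : B)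
      : F) = ι d₁ * (d⁻¹ * ((y : F) - ι y')) + ι a₁ * (d⁻¹ * ι ϖ'') := by
    have h1 : ι x₁ * ι r₁ = ι d₁ * ι y' - ι a₁ * ι ϖ'' := by rw [hrel']; ring
    push_cast
    rw [h1]
    ring
  rw [e]
  exact V.add_mem (V.mul_mem (hBV (hB₁B d₁ hd₁)) hyy') (V.mul_mem (hBV (hB₁B a₁ ha₁)) hdϖ)

/-- **`hA` for one component, from (RES).**  The hypothesis `hA` of `s36_tri_lift` for the
component `(V, d)` through `𝔪`, from: `V` is the localisation of `B` at its centre (`hfracV`,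
e.g. `s36_te_frac`), `B` noetherian, (RES) over a lower chart `B₁`, and a local generator `x₁` of
`B₁` at the image point with `ι x₁ ∈ 𝔪` not vanishing on the component. -/
theorem s36_te_hA {F'' : Type*} [Field F''] (ι : F'' →+* F) (B₁ : Subring F'') {d : F}
    {B V : Subring F} (hV : s34_Unif d V) (hBV : B ≤ V) (hnoeth : IsNoetherianRing B)
    (hfracV : ∀ v ∈ V, ∃ a b : B, d⁻¹ * (b : F) ∉ V ∧ v = (a : F) / (b : F))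
    (ϖ'' : F'') (hB₁B : ∀ x ∈ B₁, ι x ∈ B) (hdϖ : d⁻¹ * ι ϖ'' ∈ V)
    (hres : ∀ y ∈ B, ∃ y' ∈ B₁, d⁻¹ * (y - ι y') ∈ V)
    (𝔪 : Ideal B) [h𝔪 : 𝔪.IsPrime] (hP : ∀ p : B, d⁻¹ * (p : F) ∈ V → p ∈ 𝔪)
    (x₁ : F'') (hx₁ : x₁ ∈ B₁) (hx₁𝔪 : (⟨ι x₁, hB₁B x₁ hx₁⟩ : B) ∈ 𝔪)
    (hx₁V : d⁻¹ * ι x₁ ∉ V)
    (hreg : ∀ y₁ (hy₁ : y₁ ∈ B₁), (⟨ι y₁, hB₁B y₁ hy₁⟩ : B) ∈ 𝔪 →
      ∃ d₁ a₁ r₁ : F'', ∃ hd₁ : d₁ ∈ B₁, a₁ ∈ B₁ ∧ r₁ ∈ B₁ ∧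
        (⟨ι d₁, hB₁B d₁ hd₁⟩ : B) ∉ 𝔪 ∧ d₁ * y₁ = a₁ * ϖ'' + r₁ * x₁)
    (m : ℕ) (hm : 0 < m) :
    ∀ X w : F, w ∈ s18_loc B 𝔪 → w⁻¹ ∈ s18_loc B 𝔪 → d⁻¹ * (X ^ m - w) ∈ V →
      ∃ y : F, y ∈ s18_loc B 𝔪 ∧ y⁻¹ ∈ s18_loc B 𝔪 ∧ d⁻¹ * (X - y) ∈ V :=
  s36_te_branch hV hBV hnoeth hfracV 𝔪 (fun b hb hbV => hb (hP b hbV))
    ⟨ι x₁, hB₁B x₁ hx₁⟩ hx₁V hx₁𝔪
    (s36_te_hx ι B₁ hBV ϖ'' hB₁B hdϖ hres 𝔪 hP x₁ hx₁ hreg) m hm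

end Fermat.Agent.S36
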