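import Mathlib
import Fermat.Agent.S36.TriExt

/-!
# S36 (NODE-3), TRI36: `hfracV` of `s36_te_branch` from thickness relations

`s36_te_frac` (S36/TriExt.lean) shows that a component `V` is the localisation of the chart `B`
at its centre, given ONE element `x ∈ B` divisible by `ϖ` on the other components and a unit of
`V`.  At a point `𝔪` lying on `V`, such an element is the cofactor `v` of a thickness relation
`u * v = ϖ * γ` (`γ ∉ 𝔪`, `u` divisible by `ϖ` in `V`): the relations pulled back from the level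
below along the two degeneracy maps.

* `s36_te_unit_of_uv` : the cofactor `v` is a nonzero unit of `V`.
* `s36_te_frac_uv` : `hfracV` for `V` from one relation (`v` divisible by `ϖ` on the other
  components).
* `s36_te_frac_uv2` : `hfracV` for `V` from two relations (`v₁ * v₂` divisible by `ϖ` on the
  other components) — the component of multiplicity `e`.
-/

set_option autoImplicit false

namespace Fermat.Agent.S36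

open Fermat.Agent.S18 Fermat.Agent.S34 Fermat.Agent.S35

variable {F : Type*} [Field F]

/-- The cofactor `v` of a thickness relation `u * v = ϖ * γ` with `γ ∉ 𝔪` and `u` divisible by
`ϖ` in `V` is a nonzero unit of `V` (`𝔪` contains the centre of `V`). -/
theorem s36_te_unit_of_uv {B V : Subring F} {ϖ d : F} (hV : s34_Unif d V) (hBV : B ≤ V)
    (hϖ0 : ϖ ≠ 0) (𝔪 : Ideal B) (hP : ∀ p : B, d⁻¹ * (p : F) ∈ V → p ∈ 𝔪)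
    (u v γ : B) (huv : (u : F) * (v : F) = ϖ * (γ : F)) (hγ : γ ∉ 𝔪)
    (hu : ϖ⁻¹ * (u : F) ∈ V) : (v : F) ≠ 0 ∧ ((v : F))⁻¹ ∈ V := by
  have hγV : ((γ : F))⁻¹ ∈ V := hV.inv_mem_of_not_dvd (hBV γ.2) (fun h => hγ (hP γ h))
  have hγ0 : (γ : F) ≠ 0 := by
    intro h0
    apply hγ
    have : γ = 0 := Subtype.ext h0
    rw [this]; exact 𝔪.zero_mem
  have hprod : (u : F) * (v : F) ≠ 0 := by rw [huv]; exact mul_ne_zero hϖ0 hγ0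
  have hu0 : (u : F) ≠ 0 := left_ne_zero_of_mul hprod
  have hv0 : (v : F) ≠ 0 := right_ne_zero_of_mul hprod
  refine ⟨hv0, ?_⟩
  have e : ((v : F))⁻¹ = ϖ⁻¹ * (u : F) * ((γ : F))⁻¹ := by
    have h1 : (v : F) = ϖ * (γ : F) / (u : F) := by
      rw [← huv]; field_simp
    rw [h1]; field_simp
  rw [e]; exact V.mul_mem hu hγV

/-- **`hfracV` from one thickness relation.**  `V` (uniformiser `d`, `ϖ = unit * d ^ e`) is the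
localisation of `B` at its centre, given a relation `u * v = ϖ * γ` with `γ ∉ 𝔪`, `u` divisible by
`ϖ` in `V` and `v` divisible by `ϖ` on the other components `V'`. -/
theorem s36_te_frac_uv {B V V' : Subring F} {ϖ d : F} (hV : s34_Unif d V) (hBV : B ≤ V)
    (hBV' : B ≤ V') (hϖ0 : ϖ ≠ 0) (hϖV : ϖ ∈ V)
    (hcap : ∀ x ∈ B, ϖ⁻¹ * x ∈ V → ϖ⁻¹ * x ∈ V' → ϖ⁻¹ * x ∈ B)
    (hfrac : ∀ x : F, ∃ a ∈ B, ∃ b ∈ B, b ≠ 0 ∧ x = a / b)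
    (e : ℕ) (he : 0 < e) (hη : ϖ⁻¹ * d ^ e ∈ V) (hη' : (ϖ⁻¹ * d ^ e)⁻¹ ∈ V)
    (𝔪 : Ideal B) (hP : ∀ p : B, d⁻¹ * (p : F) ∈ V → p ∈ 𝔪)
    (u v γ : B) (huv : (u : F) * (v : F) = ϖ * (γ : F)) (hγ : γ ∉ 𝔪)
    (hu : ϖ⁻¹ * (u : F) ∈ V) (hv' : ϖ⁻¹ * (v : F) ∈ V') :
    ∀ y ∈ V, ∃ a b : B, d⁻¹ * (b : F) ∉ V ∧ y = (a : F) / (b : F) := by
  obtain ⟨hv0, hvi⟩ := s36_te_unit_of_uv hV hBV hϖ0 𝔪 hP u v γ huv hγ hu
  intro y hy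
  exact s36_te_frac hV hBV hBV' hϖ0 hϖV hcap hfrac e he hη hη' v hv' hv0 hvi hy

/-- **`hfracV` from two thickness relations** (for the component which is a cofactor in neither
of the two pulled-back relations alone): `x := v₁ * v₂`. -/
theorem s36_te_frac_uv2 {B V V' : Subring F} {ϖ d : F} (hV : s34_Unif d V) (hBV : B ≤ V)
    (hBV' : B ≤ V') (hϖ0 : ϖ ≠ 0) (hϖV : ϖ ∈ V)
    (hcap : ∀ x ∈ B, ϖ⁻¹ * x ∈ V → ϖ⁻¹ * x ∈ V' → ϖ⁻¹ * x ∈ B)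
    (hfrac : ∀ x : F, ∃ a ∈ B, ∃ b ∈ B, b ≠ 0 ∧ x = a / b)
    (e : ℕ) (he : 0 < e) (hη : ϖ⁻¹ * d ^ e ∈ V) (hη' : (ϖ⁻¹ * d ^ e)⁻¹ ∈ V)
    (𝔪 : Ideal B) (hP : ∀ p : B, d⁻¹ * (p : F) ∈ V → p ∈ 𝔪)
    (u₁ v₁ γ₁ u₂ v₂ γ₂ : B)
    (huv₁ : (u₁ : F) * (v₁ : F) = ϖ * (γ₁ : F)) (hγ₁ : γ₁ ∉ 𝔪) (hu₁ : ϖ⁻¹ * (u₁ : F) ∈ V)
    (huv₂ : (u₂ : F) * (v₂ : F) = ϖ * (γ₂ : F)) (hγ₂ : γ₂ ∉ 𝔪) (hu₂ : ϖ⁻¹ * (u₂ : F) ∈ V)
    (hv' : ϖ⁻¹ * ((v₁ : F) * (v₂ : F)) ∈ V') :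
    ∀ y ∈ V, ∃ a b : B, d⁻¹ * (b : F) ∉ V ∧ y = (a : F) / (b : F) := by
  obtain ⟨hv₁0, hv₁i⟩ := s36_te_unit_of_uv hV hBV hϖ0 𝔪 hP u₁ v₁ γ₁ huv₁ hγ₁ hu₁
  obtain ⟨hv₂0, hv₂i⟩ := s36_te_unit_of_uv hV hBV hϖ0 𝔪 hP u₂ v₂ γ₂ huv₂ hγ₂ hu₂
  intro y hy
  refine s36_te_frac hV hBV hBV' hϖ0 hϖV hcap hfrac e he hη hη' (v₁ * v₂) ?_ ?_ ?_ hy
  · rw [Subring.coe_mul]; exact hv'
  · rw [Subring.coe_mul]; exact mul_ne_zero hv₁0 hv₂0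
  · rw [Subring.coe_mul, mul_inv]; exact V.mul_mem hv₁i hv₂i

end Fermat.Agent.S36
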