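import Mathlib
import Fermat.Agent.S36.TriExtUV
import Fermat.Agent.S36.TriLocal

/-!
# S36 (NODE-3), TRI36: the three branch hypotheses `hLA`, `hLB`, `hLC` of `s36_pt_triOut`

`s36_pt_triOut` (S36/PowTriOut) consumes, at a triple point `𝔪` of the chart `B`, for each of the
three components `V_A`, `V_B` (uniformiser `ϖ`) and `V_C` (uniformiser `z`) the statement

  `∀ x w, w ∈ B_𝔪 → w⁻¹ ∈ B_𝔪 → d⁻¹ * (x ^ m - w) ∈ V → ∃ y, y ∈ B_𝔪 ∧ y⁻¹ ∈ B_𝔪 ∧ d⁻¹ * (x - y) ∈ V`.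

* `s36_tb3_one` : one component, from the branch statement in the shape produced by
  `s36_tloc_triple` (S36/TriLocal) and `hfracV` (`V` is the localisation of `B` at its centre).
* `s36_tb3_main` : the conjunction `hLA ∧ hLB ∧ hLC`, from the three branch statements and the two
  thickness relations at `𝔪` (pulled back along the two degeneracy maps, in the shape produced by
  `s36_cu_transport`), (cap) and `Frac B = F`.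
* `s36_tb3_triple` : the same conjunction from the inputs of `s36_tloc_triple` and the data of the
  second degeneracy map.
-/

set_option autoImplicit false

namespace Fermat.Agent.S36

open Fermat.Agent.S18 Fermat.Agent.S34 Fermat.Agent.S35

section One

variable {F : Type*} [Field F]

/-- The centre of `V` is contained in `𝔪` as soon as every element of `B` outside `𝔪` is a unit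
of `V`. -/
theorem s36_tb3_centre {d : F} {B V : Subring F} (hV : s34_Unif d V) (𝔪 : Ideal B)
    (hloc : ∀ b : B, b ∉ 𝔪 → ((b : F))⁻¹ ∈ V) :
    ∀ p : B, d⁻¹ * (p : F) ∈ V → p ∈ 𝔪 := by
  intro p hp
  by_contra hcon
  have hp0 : (p : F) ≠ 0 := by
    intro h0
    apply hcon
    have : p = 0 := Subtype.ext h0
    rw [this]; exact 𝔪.zero_mem
  apply hV.inv_not_mem
  have e : d⁻¹ = d⁻¹ * (p : F) * ((p : F))⁻¹ := by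
    rw [mul_assoc, mul_inv_cancel₀ hp0, mul_one]
  rw [e]; exact V.mul_mem hp (hloc p hcon)

/-- **One branch.**  The branch hypothesis of `s36_pt_triOut` for one component `V` (uniformiser
`d`) through `𝔪`, from the branch statement in the shape of `s36_tloc_triple` and `hfracV`. -/
theorem s36_tb3_one {d : F} {B V : Subring F} (hV : s34_Unif d V) (hBV : B ≤ V)
    (hnoeth : IsNoetherianRing B)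
    (hfracV : ∀ v ∈ V, ∃ a b : B, d⁻¹ * (b : F) ∉ V ∧ v = (a : F) / (b : F))
    (𝔪 : Ideal B) [h𝔪 : 𝔪.IsPrime]
    (hloc : ∀ b : B, b ∉ 𝔪 → ((b : F))⁻¹ ∈ V)
    (hbr : ∃ x : B, x ∈ 𝔪 ∧ d⁻¹ * (x : F) ∉ V ∧
      ∀ y ∈ 𝔪, ∃ e r : B, e ∉ 𝔪 ∧ d⁻¹ * ((e : F) * (y : F) - (r : F) * (x : F)) ∈ V)
    (m : ℕ) (hm : 0 < m) :
    ∀ x w : F, w ∈ s18_loc B 𝔪 → w⁻¹ ∈ s18_loc B 𝔪 → d⁻¹ * (x ^ m - w) ∈ V →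
      ∃ y : F, y ∈ s18_loc B 𝔪 ∧ y⁻¹ ∈ s18_loc B 𝔪 ∧ d⁻¹ * (x - y) ∈ V := by
  obtain ⟨x₀, hx₀𝔪, hx₀V, hext⟩ := hbr
  have hnode : ∀ b : B, b ∉ 𝔪 → d⁻¹ * (b : F) ∉ V :=
    fun b hb h => hb (s36_tb3_centre hV 𝔪 hloc b h)
  refine s36_te_branch hV hBV hnoeth hfracV 𝔪 hnode x₀ ?_ hx₀𝔪 ?_ m hm
  · intro h
    exact hx₀V (s34_ni_mem_P.mp h)
  · intro m' hm'
    obtain ⟨e, r, he, h⟩ := hext m' hm'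
    refine ⟨r, e, he, ?_⟩
    rw [s34_ni_mem_P]
    have e1 : (((e * m' - x₀ * r : B)) : F) = (e : F) * (m' : F) - (r : F) * (x₀ : F) := by
      push_cast; ring
    rw [e1]; exact h

end One

section Three

variable {F'' F : Type*} [Field F''] [Field F]

/-- **The three branch hypotheses of `s36_pt_triOut`, in one statement.**  At a point `𝔪` of the
chart `B` on the three components (`hlocV`), from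

* (cap) and `Frac B = F`, `B` noetherian;
* `ϖ = unit * z ^ n` in `V_C` (`hzn`, `hzn'`);
* the two thickness relations at `𝔪`, in the shape produced by `s36_cu_transport` for the two
  degeneracy maps (`hrel₁`: `u` vanishes on `V_B`, `v` on `V_A` and `V_C`; `hrel₂`: `u` vanishes
  on `V_A`, `v` on `V_B` and `V_C`);
* the three branch statements, in the shape produced by `s36_tloc_triple`. -/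
theorem s36_tb3_main (ι : F'' →+* F) {ϖ'' : F''} {z : F} {VA VB VC : Subring F}
    (hA : s34_Unif (ι ϖ'') VA) (hB : s34_Unif (ι ϖ'') VB) (hC : s34_Unif z VC)
    (n : ℕ) (hn : 1 ≤ n) (hzn : ι ϖ'' * (z ^ n)⁻¹ ∈ VC) (hzn' : z ^ n * (ι ϖ'')⁻¹ ∈ VC)
    (m : ℕ) (hm : 0 < m)
    (B : Subring F) (hBA : B ≤ VA) (hBB : B ≤ VB) (hBC : B ≤ VC)
    (hnoeth : IsNoetherianRing B) (hfrac : ∀ x : F, ∃ a ∈ B, ∃ b ∈ B, b ≠ 0 ∧ x = a / b)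
    (hcap : ∀ x ∈ B, (ι ϖ'')⁻¹ * x ∈ VA → (ι ϖ'')⁻¹ * x ∈ VB → (ι ϖ'')⁻¹ * x ∈ VC →
      (ι ϖ'')⁻¹ * x ∈ B)
    (𝔪 : Ideal B) [h𝔪 : 𝔪.IsPrime]
    (hlocV : ∀ b : B, b ∉ 𝔪 → ((b : F))⁻¹ ∈ VA ⊓ VB ⊓ VC)
    (hrel₁ : ∃ u v γ : B, (u : F) * (v : F) = ι ϖ'' * (γ : F) ∧ u ∈ 𝔪 ∧ v ∈ 𝔪 ∧ γ ∉ 𝔪 ∧
      (ι ϖ'')⁻¹ * (u : F) ∈ VB ∧ (ι ϖ'')⁻¹ * (v : F) ∈ VA ∧ (ι ϖ'')⁻¹ * (v : F) ∈ VC)
    (hrel₂ : ∃ u v γ : B, (u : F) * (v : F) = ι ϖ'' * (γ : F) ∧ u ∈ 𝔪 ∧ v ∈ 𝔪 ∧ γ ∉ 𝔪 ∧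
      (ι ϖ'')⁻¹ * (u : F) ∈ VA ∧ (ι ϖ'')⁻¹ * (v : F) ∈ VB ∧ (ι ϖ'')⁻¹ * (v : F) ∈ VC)
    (hbrA : ∃ x : B, x ∈ 𝔪 ∧ (ι ϖ'')⁻¹ * (x : F) ∉ VA ∧
      ∀ y ∈ 𝔪, ∃ e r : B, e ∉ 𝔪 ∧ (ι ϖ'')⁻¹ * ((e : F) * (y : F) - (r : F) * (x : F)) ∈ VA)
    (hbrB : ∃ x : B, x ∈ 𝔪 ∧ (ι ϖ'')⁻¹ * (x : F) ∉ VB ∧
      ∀ y ∈ 𝔪, ∃ e r : B, e ∉ 𝔪 ∧ (ι ϖ'')⁻¹ * ((e : F) * (y : F) - (r : F) * (x : F)) ∈ VB)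
    (hbrC : ∃ x : B, x ∈ 𝔪 ∧ z⁻¹ * (x : F) ∉ VC ∧
      ∀ y ∈ 𝔪, ∃ e r : B, e ∉ 𝔪 ∧ z⁻¹ * ((e : F) * (y : F) - (r : F) * (x : F)) ∈ VC) :
    (∀ x w : F, w ∈ s18_loc B 𝔪 → w⁻¹ ∈ s18_loc B 𝔪 → (ι ϖ'')⁻¹ * (x ^ m - w) ∈ VA →
      ∃ y : F, y ∈ s18_loc B 𝔪 ∧ y⁻¹ ∈ s18_loc B 𝔪 ∧ (ι ϖ'')⁻¹ * (x - y) ∈ VA) ∧
    (∀ x w : F, w ∈ s18_loc B 𝔪 → w⁻¹ ∈ s18_loc B 𝔪 → (ι ϖ'')⁻¹ * (x ^ m - w) ∈ VB →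
      ∃ y : F, y ∈ s18_loc B 𝔪 ∧ y⁻¹ ∈ s18_loc B 𝔪 ∧ (ι ϖ'')⁻¹ * (x - y) ∈ VB) ∧
    (∀ x w : F, w ∈ s18_loc B 𝔪 → w⁻¹ ∈ s18_loc B 𝔪 → z⁻¹ * (x ^ m - w) ∈ VC →
      ∃ y : F, y ∈ s18_loc B 𝔪 ∧ y⁻¹ ∈ s18_loc B 𝔪 ∧ z⁻¹ * (x - y) ∈ VC) := by
  have hϖ0 : ι ϖ'' ≠ 0 := hA.ne_zero
  have hz0 : z ≠ 0 := hC.ne_zero
  have hlocA : ∀ b : B, b ∉ 𝔪 → ((b : F))⁻¹ ∈ VA := fun b hb => (hlocV b hb).1.1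
  have hlocB : ∀ b : B, b ∉ 𝔪 → ((b : F))⁻¹ ∈ VB := fun b hb => (hlocV b hb).1.2
  have hlocC : ∀ b : B, b ∉ 𝔪 → ((b : F))⁻¹ ∈ VC := fun b hb => (hlocV b hb).2
  have hPA := s36_tb3_centre hA 𝔪 hlocA
  have hPB := s36_tb3_centre hB 𝔪 hlocB
  have hPC := s36_tb3_centre hC 𝔪 hlocC
  obtain ⟨u₁, v₁, γ₁, huv₁, -, -, hγ₁, hu₁B, hv₁A, hv₁C⟩ := hrel₁
  obtain ⟨u₂, v₂, γ₂, huv₂, -, -, hγ₂, hu₂A, hv₂B, hv₂C⟩ := hrel₂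
  have hone : (ι ϖ'')⁻¹ * (ι ϖ'') ^ 1 = 1 := by rw [pow_one, inv_mul_cancel₀ hϖ0]
  -- `V_A` is the localisation of `B` at its centre
  have hfracA : ∀ v ∈ VA, ∃ a b : B, (ι ϖ'')⁻¹ * (b : F) ∉ VA ∧ v = (a : F) / (b : F) :=
    s36_te_frac_uv (V := VA) (V' := VB ⊓ VC) hA hBA (le_inf hBB hBC) hϖ0 hA.mem
      (fun x hx h1 h2 => hcap x hx h1 h2.1 h2.2) hfrac 1 one_pos
      (by rw [hone]; exact VA.one_mem) (by rw [hone, inv_one]; exact VA.one_mem)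
      𝔪 hPA u₂ v₂ γ₂ huv₂ hγ₂ hu₂A ⟨hv₂B, hv₂C⟩
  -- `V_B` is the localisation of `B` at its centre
  have hfracB : ∀ v ∈ VB, ∃ a b : B, (ι ϖ'')⁻¹ * (b : F) ∉ VB ∧ v = (a : F) / (b : F) :=
    s36_te_frac_uv (V := VB) (V' := VA ⊓ VC) hB hBB (le_inf hBA hBC) hϖ0 hB.mem
      (fun x hx h1 h2 => hcap x hx h2.1 h1 h2.2) hfrac 1 one_pos
      (by rw [hone]; exact VB.one_mem) (by rw [hone, inv_one]; exact VB.one_mem)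
      𝔪 hPB u₁ v₁ γ₁ huv₁ hγ₁ hu₁B ⟨hv₁A, hv₁C⟩
  -- `V_C` is the localisation of `B` at its centre
  have hzpow : z ^ n ≠ 0 := pow_ne_zero n hz0
  have hη : (ι ϖ'')⁻¹ * z ^ n ∈ VC := by rw [mul_comm]; exact hzn'
  have hη' : ((ι ϖ'')⁻¹ * z ^ n)⁻¹ ∈ VC := by
    rw [mul_inv, inv_inv]; exact hzn
  have hϖC : ι ϖ'' ∈ VC := by
    have e : ι ϖ'' = ι ϖ'' * (z ^ n)⁻¹ * z ^ n := by
      rw [mul_assoc, inv_mul_cancel₀ hzpow, mul_one]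
    rw [e]; exact VC.mul_mem hzn (VC.pow_mem hC.mem n)
  have hfracC : ∀ v ∈ VC, ∃ a b : B, z⁻¹ * (b : F) ∉ VC ∧ v = (a : F) / (b : F) := by
    refine s36_te_frac_uv2 (V := VC) (V' := VA ⊓ VB) hC hBC (le_inf hBA hBB) hϖ0 hϖC
      (fun x hx h1 h2 => hcap x hx h2.1 h2.2 h1) hfrac n (by omega) hη hη'
      𝔪 hPC v₁ u₁ γ₁ v₂ u₂ γ₂ (by rw [mul_comm]; exact huv₁) hγ₁ hv₁C
      (by rw [mul_comm]; exact huv₂) hγ₂ hv₂C ⟨?_, ?_⟩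
    · have e : (ι ϖ'')⁻¹ * ((u₁ : F) * (u₂ : F)) = (u₁ : F) * ((ι ϖ'')⁻¹ * (u₂ : F)) := by ring
      rw [e]; exact VA.mul_mem (hBA u₁.2) hu₂A
    · have e : (ι ϖ'')⁻¹ * ((u₁ : F) * (u₂ : F)) = (ι ϖ'')⁻¹ * (u₁ : F) * (u₂ : F) := by ring
      rw [e]; exact VB.mul_mem hu₁B (hBB u₂.2)
  exact ⟨s36_tb3_one hA hBA hnoeth hfracA 𝔪 hlocA hbrA m hm,
    s36_tb3_one hB hBB hnoeth hfracB 𝔪 hlocB hbrB m hm,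
    s36_tb3_one hC hBC hnoeth hfracC 𝔪 hlocC hbrC m hm⟩

end Three

section Triple

variable {F'' F₀ F : Type*} [Field F''] [Field F₀] [Field F]

/-- **The three branch hypotheses of `s36_pt_triOut` from the inputs of `s36_tloc_triple`** and
the second degeneracy map `ι₂` (`V_B`, `V_C` over `Vi`, `V_A` over `V0`; level-`q` chart `B'₂`
with its thickness statement `hq₂`; for `ι₂ = W ∘ ι`, `hι₂ϖ` is `hWϖ`). -/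
theorem s36_tb3_triple (ι : F'' →+* F) {ϖ'' : F''} {z : F} {VA VB VC : Subring F}
    {Vi V0 : Subring F''}
    (hA : s34_Unif (ι ϖ'') VA) (hB : s34_Unif (ι ϖ'') VB) (hC : s34_Unif z VC)
    (hιA : ∀ x ∈ Vi, ι x ∈ VA) (hιC : ∀ x ∈ Vi, ι x ∈ VC) (hιB : ∀ x ∈ V0, ι x ∈ VB)
    (n : ℕ) (hn : 1 ≤ n) (hzn : ι ϖ'' * (z ^ n)⁻¹ ∈ VC) (hzn' : z ^ n * (ι ϖ'')⁻¹ ∈ VC)
    (m : ℕ) (hm : 0 < m)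
    (B : Subring F) (hBA : B ≤ VA) (hBB : B ≤ VB) (hBC : B ≤ VC)
    (hnoeth : IsNoetherianRing B) (hfrac : ∀ x : F, ∃ a ∈ B, ∃ b ∈ B, b ≠ 0 ∧ x = a / b)
    (hcap : ∀ x ∈ B, (ι ϖ'')⁻¹ * x ∈ VA → (ι ϖ'')⁻¹ * x ∈ VB → (ι ϖ'')⁻¹ * x ∈ VC →
      (ι ϖ'')⁻¹ * x ∈ B)
    (hϖB : ι ϖ'' ∈ B)
    -- the level-`q` chart and thickness statement along `ι`
    (B' : Subring F'') (hB'B : ∀ x ∈ B', ι x ∈ B)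
    (hq : ∀ 𝔪' : Ideal B', 𝔪'.IsPrime → (∀ p : B', ϖ''⁻¹ * (p : F'') ∈ Vi → p ∈ 𝔪') →
      (∀ p : B', ϖ''⁻¹ * (p : F'') ∈ V0 → p ∈ 𝔪') →
      ∃ u₁ u₂ γ : B', (u₁ : F'') * (u₂ : F'') = ϖ'' * (γ : F'') ∧ ϖ''⁻¹ * (u₁ : F'') ∈ Vi ∧
        ϖ''⁻¹ * (u₂ : F'') ∈ V0 ∧ γ ∉ 𝔪')
    -- the second degeneracy map, its level-`q` chart and thickness statement
    (ι₂ : F'' →+* F) (hι₂ϖ : ι₂ ϖ'' = ι ϖ'')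
    (hι₂B : ∀ x ∈ Vi, ι₂ x ∈ VB) (hι₂C : ∀ x ∈ Vi, ι₂ x ∈ VC) (hι₂A : ∀ x ∈ V0, ι₂ x ∈ VA)
    (B'₂ : Subring F'') (hB'B₂ : ∀ x ∈ B'₂, ι₂ x ∈ B)
    (hq₂ : ∀ 𝔪' : Ideal B'₂, 𝔪'.IsPrime → (∀ p : B'₂, ϖ''⁻¹ * (p : F'') ∈ Vi → p ∈ 𝔪') →
      (∀ p : B'₂, ϖ''⁻¹ * (p : F'') ∈ V0 → p ∈ 𝔪') →
      ∃ u₁ u₂ γ : B'₂, (u₁ : F'') * (u₂ : F'') = ϖ'' * (γ : F'') ∧ ϖ''⁻¹ * (u₁ : F'') ∈ Vi ∧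
        ϖ''⁻¹ * (u₂ : F'') ∈ V0 ∧ γ ∉ 𝔪')
    -- (RES) along the three components over one S18 chart
    (ιX ιY ιZ : F₀ →+* F) {ϖ₀ : F₀} (B₁ : Subring F₀) (hB₁c : s18_Chart ϖ₀ B₁)
    (hmapX : ∀ x ∈ B₁, ιX x ∈ B) (hmapY : ∀ x ∈ B₁, ιY x ∈ B) (hmapZ : ∀ x ∈ B₁, ιZ x ∈ B)
    (hunifX : (ι ϖ'')⁻¹ * ιX ϖ₀ ∈ VA) (hunifY : (ι ϖ'')⁻¹ * ιY ϖ₀ ∈ VB)
    (hunifZ : z⁻¹ * ιZ ϖ₀ ∈ VC)
    (hresX : ∀ x ∈ B, ∃ x' ∈ B₁, (ι ϖ'')⁻¹ * (x - ιX x') ∈ VA)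
    (hresY : ∀ x ∈ B, ∃ x' ∈ B₁, (ι ϖ'')⁻¹ * (x - ιY x') ∈ VB)
    (hresZ : ∀ x ∈ B, ∃ x' ∈ B₁, z⁻¹ * (x - ιZ x') ∈ VC)
    (𝔪 : Ideal B) (h𝔪 : 𝔪.IsMaximal)
    (hlocV : ∀ b : B, b ∉ 𝔪 → ((b : F))⁻¹ ∈ VA ⊓ VB ⊓ VC) :
    (∀ x w : F, w ∈ s18_loc B 𝔪 → w⁻¹ ∈ s18_loc B 𝔪 → (ι ϖ'')⁻¹ * (x ^ m - w) ∈ VA →
      ∃ y : F, y ∈ s18_loc B 𝔪 ∧ y⁻¹ ∈ s18_loc B 𝔪 ∧ (ι ϖ'')⁻¹ * (x - y) ∈ VA) ∧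
    (∀ x w : F, w ∈ s18_loc B 𝔪 → w⁻¹ ∈ s18_loc B 𝔪 → (ι ϖ'')⁻¹ * (x ^ m - w) ∈ VB →
      ∃ y : F, y ∈ s18_loc B 𝔪 ∧ y⁻¹ ∈ s18_loc B 𝔪 ∧ (ι ϖ'')⁻¹ * (x - y) ∈ VB) ∧
    (∀ x w : F, w ∈ s18_loc B 𝔪 → w⁻¹ ∈ s18_loc B 𝔪 → z⁻¹ * (x ^ m - w) ∈ VC →
      ∃ y : F, y ∈ s18_loc B 𝔪 ∧ y⁻¹ ∈ s18_loc B 𝔪 ∧ z⁻¹ * (x - y) ∈ VC) := by
  have h𝔪p : 𝔪.IsPrime := h𝔪.isPrime
  have hPA := s36_tb3_centre hA 𝔪 (fun b hb => (hlocV b hb).1.1)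
  have hPB := s36_tb3_centre hB 𝔪 (fun b hb => (hlocV b hb).1.2)
  have hPC := s36_tb3_centre hC 𝔪 (fun b hb => (hlocV b hb).2)
  obtain ⟨hbrA, hbrB, hbrC, -, -⟩ := s36_tloc_triple ι B' Vi V0 B VA VB VC hB'B hBA hBB hBC
    hA hB hC rfl hιA hιC hιB hcap hq ιX ιY ιZ B₁ hB₁c hmapX hmapY hmapZ hunifX hunifY hunifZ
    hresX hresY hresZ hnoeth hfrac hϖB 𝔪 h𝔪 hPA hPB hPC
  have hrel₁ := s36_cu_transport ι B' Vi V0 B VA VB VC hB'B ϖ'' (ι ϖ'') rfl hιA hιC hιB hq 𝔪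
    h𝔪.isPrime (fun x hx h => hPA ⟨ι x, hB'B x hx⟩ h) (fun x hx h => hPB ⟨ι x, hB'B x hx⟩ h)
  have hrel₂ := s36_cu_transport ι₂ B'₂ Vi V0 B VB VA VC hB'B₂ ϖ'' (ι ϖ'') hι₂ϖ hι₂B hι₂C hι₂A
    hq₂ 𝔪 h𝔪.isPrime (fun x hx h => hPB ⟨ι₂ x, hB'B₂ x hx⟩ h)
    (fun x hx h => hPA ⟨ι₂ x, hB'B₂ x hx⟩ h)
  exact s36_tb3_main ι hA hB hC n hn hzn hzn' m hm B hBA hBB hBC hnoeth hfrac hcap 𝔪 hlocV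
    hrel₁ hrel₂ hbrA hbrB hbrC

end Triple

end Fermat.Agent.S36
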