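import Mathlib
import Fermat.Agent.S36.TripleFact
import Fermat.Agent.S36.PowChain
import Fermat.Agent.S34.NodeInst

/-!
# S36 (NODE-3): the local factorisation `g = w G ^ m` at a triple point

`B ⊆ F` a chart of the three-component model, `V_A`, `V_B` (uniformiser `ϖ`) and `V_C`
(uniformiser `z`, `ϖ ∼ z ^ e` with `1 ≤ e ≤ n`) the valuation rings of the vertical components,
`𝔪` a closed point lying on the three components at which `B_𝔪` is regular of dimension two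
(`𝔪` locally generated by two elements, a nonzero prime strictly below `𝔪`).

`s36_to_fact` : a function `g` which is a unit on the three components and whose horizontal
divisor is divisible by `m` is, up to a unit of `B_𝔪`, the `m`-th power of a function `G` which
is a unit on the three components.  This is the hypothesis `hGloc` of `s36_pt_triOut`
(`S36/PowTriOut`) and `hfact` of `s36_to_main` (`S36/TriOut`).

Proof.  `R = B_𝔪` is a unique factorisation domain (`s36_tf_prime_of_param`,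
`as1_ufd_of_regular`).  For a prime element `f` of `R` not dividing `ϖ` the multiplicity of `f`
in `g` is divisible by `m` by the hypothesis on the horizontal divisor.  For a prime element `f`
dividing `ϖ`, the cap property `B ∩ ϖ (V_A ⊓ V_B ⊓ V_C) = ϖ B` shows that one of the three
components is centred at `f R`, and then the valuation ring of this component is contained in
`R_(f)`, so `g` is a unit of `R_(f)`.  Hence all multiplicities are divisible by `m`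
(`as1_pow_factor`).

`s36_to_fact_of_elt` : the same with the auxiliary prime produced from one element `c ∈ B`
vanishing on `V_B` and not on `V_A`.
-/

set_option autoImplicit false

namespace Fermat.Agent.S36

open Fermat.Agent.S18 Fermat.Agent.S34 IsLocalRing

/-- **The local factorisation at a regular triple point** (`hGloc` of `s36_pt_triOut`). -/
theorem s36_to_fact {F : Type*} [Field F] {ϖ z : F} {B VA VB VC : Subring F}
    (hVA : s34_Unif ϖ VA) (hVB : s34_Unif ϖ VB) (hVC : s34_Unif z VC)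
    (n : ℕ) (hCe : ϖ⁻¹ * z ^ n ∈ VC) (hCϖ : z⁻¹ * ϖ ∈ VC)
    (hBA : B ≤ VA) (hBB : B ≤ VB) (hBC : B ≤ VC) (hϖB : ϖ ∈ B)
    (hcap : ∀ x ∈ B, ϖ⁻¹ * x ∈ VA ⊓ VB ⊓ VC → ϖ⁻¹ * x ∈ B)
    (hnoeth : IsNoetherianRing B) (hfrac : ∀ x : F, ∃ a ∈ B, ∃ b ∈ B, b ≠ 0 ∧ x = a / b)
    (𝔪 : Ideal B) (h𝔪 : 𝔪.IsMaximal)
    (hlocV : ∀ b : B, b ∉ 𝔪 → ((b : F))⁻¹ ∈ VA ⊓ VB ⊓ VC)
    (x y : B) (hx : x ∈ 𝔪) (hy : y ∈ 𝔪)
    (hgen : ∀ t ∈ 𝔪, ∃ u, u ∉ 𝔪 ∧ u * t ∈ Ideal.span {x, y})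
    (𝔮₀ : Ideal B) (h𝔮₀ : 𝔮₀.IsPrime) (h𝔮₀0 : 𝔮₀ ≠ ⊥) (h𝔮₀𝔪 : 𝔮₀ < 𝔪)
    (m : ℕ) (hm : 0 < m) :
    ∀ g : F, s36_pm_U VA g → s36_pm_U VB g → s36_pm_U VC g →
      (∀ W' : ValuationSubring F, IsDiscreteValuationRing W' → B ≤ W'.toSubring →
        ϖ⁻¹ ∈ W' → ∃ g' u : F, u ∈ W' ∧ u⁻¹ ∈ W' ∧ g = u * g' ^ m) →
      ∃ G : F, s36_pm_U VA G ∧ s36_pm_U VB G ∧ s36_pm_U VC G ∧
        g * (G⁻¹) ^ m ∈ s18_loc B 𝔪 ∧ G ^ m * g⁻¹ ∈ s18_loc B 𝔪 := by
  classical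
  intro g hgA hgB hgC hdiv
  have hϖ0 : ϖ ≠ 0 := hVA.ne_zero
  have hz0 : z ≠ 0 := hVC.ne_zero
  have hg0 : g ≠ 0 := hgA.1
  have hprime𝔪 : 𝔪.IsPrime := h𝔪.isPrime
  have hfracI : IsFractionRing B F := by
    refine IsFractionRing.of_field B F fun t => ?_
    obtain ⟨a, ha, b, hb, hb0, rfl⟩ := hfrac t
    exact ⟨⟨a, ha⟩, ⟨b, hb⟩, rfl⟩
  have hS : 𝔪.primeCompl ≤ nonZeroDivisors B := Ideal.primeCompl_le_nonZeroDivisors 𝔪
  let R : Subalgebra B F := Localization.subalgebra.ofField F 𝔪.primeCompl hS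
  have hmemR : ∀ t : F, t ∈ R ↔ t ∈ s18_loc B 𝔪 := by
    intro t
    constructor
    · rintro ⟨a, s, hs, rfl⟩
      exact ⟨a, s, hs, by rw [div_eq_mul_inv]; rfl⟩
    · rintro ⟨a, s, hs, rfl⟩
      exact ⟨a, s, hs, by rw [div_eq_mul_inv]; rfl⟩
  have hloc : IsLocalization.AtPrime R 𝔪 :=
    Localization.subalgebra.isLocalization_ofField F 𝔪.primeCompl hS
  have hRnoeth : IsNoetherianRing R := IsLocalization.isNoetherianRing 𝔪.primeCompl R hnoeth
  have hRlocal : IsLocalRing R := IsLocalization.AtPrime.isLocalRing R 𝔪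
  have hRfrac : IsFractionRing R F := Localization.subalgebra.isFractionRing_ofField F _ hS
  let ι : B →+* R := algebraMap B R
  have hιinj : Function.Injective ι := by
    intro a b hab
    apply Subtype.ext
    have := congrArg (Subtype.val : R → F) hab
    exact this
  -- the maximal ideal of `R`
  have hmax : maximalIdeal R = Ideal.span {ι x, ι y} := by
    rw [← IsLocalization.AtPrime.map_eq_maximalIdeal 𝔪 R]
    apply le_antisymm
    · rw [Ideal.map_le_iff_le_comap]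
      intro t ht
      obtain ⟨u, hu, hut⟩ := hgen t ht
      have h1 : ι (u * t) ∈ Ideal.map ι (Ideal.span {x, y}) := Ideal.mem_map_of_mem ι hut
      rw [Ideal.map_span, Set.image_pair, map_mul] at h1
      have hunit : IsUnit (ι u) := IsLocalization.map_units R (⟨u, hu⟩ : 𝔪.primeCompl)
      exact (Ideal.unit_mul_mem_iff_mem _ hunit).mp h1
    · rw [Ideal.span_le]
      rintro t (rfl | rfl)
      · exact Ideal.mem_map_of_mem _ hx
      · exact Ideal.mem_map_of_mem _ hy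
  -- a nonzero non-maximal prime of `R`
  have hdisj : Disjoint (𝔪.primeCompl : Set B) (𝔮₀ : Set B) := by
    rw [Set.disjoint_left]
    intro t ht ht'
    exact ht (h𝔮₀𝔪.le ht')
  have hPprime : (Ideal.map ι 𝔮₀).IsPrime :=
    IsLocalization.isPrime_of_isPrime_disjoint 𝔪.primeCompl R _ h𝔮₀ hdisj
  have hP0 : Ideal.map ι 𝔮₀ ≠ ⊥ := by
    obtain ⟨t, ht, ht0⟩ := Submodule.exists_mem_ne_zero_of_ne_bot h𝔮₀0
    intro hbot
    have h1 : ι t ∈ Ideal.map ι 𝔮₀ := Ideal.mem_map_of_mem ι ht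
    rw [hbot, Ideal.mem_bot] at h1
    exact ht0 (hιinj (by rw [h1, map_zero]))
  have hPm : Ideal.map ι 𝔮₀ ≠ maximalIdeal R := by
    intro heq
    have h1 : (Ideal.map ι 𝔮₀).under B = 𝔮₀ :=
      IsLocalization.under_map_of_isPrime_disjoint 𝔪.primeCompl R h𝔮₀ hdisj
    have h2 : (maximalIdeal R).under B = 𝔪 := IsLocalization.AtPrime.under_maximalIdeal R 𝔪
    rw [heq, h2] at h1
    exact h𝔮₀𝔪.ne h1.symm
  have hxprime : Prime (ι x) := s36_tf_prime_of_param (ι x) (ι y) hmax (Ideal.map ι 𝔮₀) hP0 hPm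
  have hUFD : UniqueFactorizationMonoid R := as1_ufd_of_regular (ι x) (ι y) hxprime hmax
  have hF0 : ∀ r : R, r ≠ 0 → (r : F) ≠ 0 := fun r hr h0 => hr (Subtype.ext h0)
  -- `R ⊆ V_A ⊓ V_B ⊓ V_C`
  have hRV : ∀ r : R, (r : F) ∈ VA ⊓ VB ⊓ VC := by
    intro r
    obtain ⟨a, s, hs, hr⟩ := (hmemR _).mp r.2
    rw [hr, div_eq_mul_inv]
    exact (VA ⊓ VB ⊓ VC).mul_mem ⟨⟨hBA a.2, hBB a.2⟩, hBC a.2⟩ (hlocV s hs)
  have hRA : ∀ r : R, (r : F) ∈ VA := fun r => (hRV r).1.1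
  have hRB : ∀ r : R, (r : F) ∈ VB := fun r => (hRV r).1.2
  have hRC : ∀ r : R, (r : F) ∈ VC := fun r => (hRV r).2
  let πR : R := ι ⟨ϖ, hϖB⟩
  have hπR0 : πR ≠ 0 := fun h0 => hϖ0 (congrArg Subtype.val h0)
  -- the cap property in `R`
  have hcapR : ∀ r : R, ϖ⁻¹ * (r : F) ∈ VA ⊓ VB ⊓ VC → πR ∣ r := by
    intro r hr
    obtain ⟨a, s, hs, hras⟩ := (hmemR _).mp r.2
    have hs0 : (s : F) ≠ 0 := by
      intro h0
      apply hs
      have : s = 0 := Subtype.ext h0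
      rw [this]; exact 𝔪.zero_mem
    have h1 : ϖ⁻¹ * (a : F) ∈ VA ⊓ VB ⊓ VC := by
      have e : ϖ⁻¹ * (a : F) = (s : F) * (ϖ⁻¹ * (r : F)) := by
        rw [hras]; field_simp
      rw [e]
      exact (VA ⊓ VB ⊓ VC).mul_mem ⟨⟨hBA s.2, hBB s.2⟩, hBC s.2⟩ hr
    have h2 : ϖ⁻¹ * (a : F) ∈ B := hcap _ a.2 h1
    have h3 : (ϖ⁻¹ * (a : F)) / (s : F) ∈ R :=
      (hmemR _).mpr ⟨⟨_, h2⟩, s, hs, rfl⟩
    refine ⟨⟨_, h3⟩, ?_⟩
    apply Subtype.ext
    show (r : F) = ϖ * ((ϖ⁻¹ * (a : F)) / (s : F))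
    rw [hras]; field_simp
  -- a component centred at `f R` has its valuation ring inside `R_(f)`
  have hcenter : ∀ (d : F) (V : Subring F), s34_Unif d V → (∀ r : R, (r : F) ∈ V) →
      d⁻¹ * ϖ ∈ V → ∀ (f : R) (hf : Prime f), f ∣ πR →
      (∀ r : R, d⁻¹ * (r : F) ∈ V → f ∣ r) →
      ∀ v : F, v ∈ V → v ∈ as1_primeVal (F := F) f hf := by
    intro d V hV hRV' hdϖ f hf hfπ hcen v hv
    have hf0 : (f : F) ≠ 0 := hF0 f hf.ne_zero
    have hfV : d⁻¹ * (f : F) ∈ V := by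
      by_contra hnot
      have hfinv : ((f : F))⁻¹ ∈ V := hV.inv_mem_of_not_dvd (hRV' f) hnot
      obtain ⟨t, ht, hft⟩ :=
        (FiniteMultiplicity.of_not_isUnit hf.not_isUnit hπR0).exists_eq_pow_mul_and_not_dvd
      apply hft
      apply hcen
      have h1 : ϖ = (f : F) ^ (multiplicity f πR) * (t : F) := by
        have := congrArg (Subtype.val : R → F) ht
        exact this
      have e : d⁻¹ * (t : F) = d⁻¹ * ϖ * (((f : F))⁻¹) ^ (multiplicity f πR) := by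
        rw [h1, inv_pow]
        have := pow_ne_zero (multiplicity f πR) hf0
        field_simp
      rw [e]
      exact V.mul_mem hdϖ (V.pow_mem hfinv _)
    rcases (as1_primeVal (F := F) f hf).mem_or_inv_mem v with h | h
    · exact h
    · by_cases hv0 : v = 0
      · rw [hv0]; exact zero_mem _
      obtain ⟨a, c, hc, hvac⟩ := h
      have hvac' : v⁻¹ = (a : F) / (c : F) := hvac
      have hcF : (c : F) ≠ 0 := hF0 c (fun h0 => hc (h0 ▸ dvd_zero f))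
      have hceq : (c : F) = v * (a : F) := by
        have h1 : v * v⁻¹ = 1 := mul_inv_cancel₀ hv0
        rw [hvac'] at h1
        field_simp at h1
        exact h1.symm
      by_cases hfa : f ∣ a
      · exfalso
        obtain ⟨a', rfl⟩ := hfa
        apply hc
        apply hcen
        have e : d⁻¹ * (c : F) = d⁻¹ * (f : F) * (v * (a' : F)) := by
          rw [hceq]
          show d⁻¹ * (v * ((f : F) * (a' : F))) = d⁻¹ * (f : F) * (v * (a' : F))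
          ring
        rw [e]
        exact V.mul_mem hfV (V.mul_mem hv (hRV' a'))
      · have haF : (a : F) ≠ 0 := hF0 a (fun h0 => hfa (h0 ▸ dvd_zero f))
        refine ⟨c, a, hfa, ?_⟩
        show v = (c : F) / (a : F)
        rw [hceq]; field_simp
  -- one of the three components is centred at a prime factor of `ϖ`
  have hex : ∀ f : R, Prime f → f ∣ πR →
      (∀ r : R, ϖ⁻¹ * (r : F) ∈ VA → f ∣ r) ∨ (∀ r : R, ϖ⁻¹ * (r : F) ∈ VB → f ∣ r) ∨
        (∀ r : R, z⁻¹ * (r : F) ∈ VC → f ∣ r) := by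
    intro f hf hfπ
    by_contra hcon
    push Not at hcon
    obtain ⟨⟨rA, hrA, hfA⟩, ⟨rB, hrB, hfB⟩, ⟨rC, hrC, hfC⟩⟩ := hcon
    have hmem : ϖ⁻¹ * ((rA * rB * rC ^ n : R) : F) ∈ VA ⊓ VB ⊓ VC := by
      refine ⟨⟨?_, ?_⟩, ?_⟩
      · have e : ϖ⁻¹ * ((rA * rB * rC ^ n : R) : F) =
            ϖ⁻¹ * (rA : F) * ((rB : F) * (rC : F) ^ n) := by
          show ϖ⁻¹ * ((rA : F) * (rB : F) * (rC : F) ^ n) = _
          ring
        rw [e]
        exact VA.mul_mem hrA (VA.mul_mem (hRA rB) (VA.pow_mem (hRA rC) n))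
      · have e : ϖ⁻¹ * ((rA * rB * rC ^ n : R) : F) =
            ϖ⁻¹ * (rB : F) * ((rA : F) * (rC : F) ^ n) := by
          show ϖ⁻¹ * ((rA : F) * (rB : F) * (rC : F) ^ n) = _
          ring
        rw [e]
        exact VB.mul_mem hrB (VB.mul_mem (hRB rA) (VB.pow_mem (hRB rC) n))
      · have e : ϖ⁻¹ * ((rA * rB * rC ^ n : R) : F) =
            ϖ⁻¹ * z ^ n * (z⁻¹ * (rC : F)) ^ n * ((rA : F) * (rB : F)) := by
          show ϖ⁻¹ * ((rA : F) * (rB : F) * (rC : F) ^ n) = _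
          rw [mul_pow, inv_pow]
          have := pow_ne_zero n hz0
          field_simp
        rw [e]
        exact VC.mul_mem (VC.mul_mem hCe (VC.pow_mem hrC n)) (VC.mul_mem (hRC rA) (hRC rB))
    have h1 : f ∣ rA * rB * rC ^ n := hfπ.trans (hcapR _ hmem)
    rcases hf.dvd_or_dvd h1 with h2 | h2
    · rcases hf.dvd_or_dvd h2 with h3 | h3
      · exact hfA h3
      · exact hfB h3
    · exact hfC (hf.dvd_of_dvd_pow h2)
  -- `g = a / b`
  obtain ⟨a, ha, b, hb, hb0, hab⟩ := hfrac g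
  have ha0 : a ≠ 0 := by
    rintro rfl
    exact hg0 (by rw [hab, zero_div])
  let aR : R := ι ⟨a, ha⟩
  let bR : R := ι ⟨b, hb⟩
  have haR0 : aR ≠ 0 := fun h0 => ha0 (congrArg Subtype.val h0)
  have hbR0 : bR ≠ 0 := fun h0 => hb0 (congrArg Subtype.val h0)
  have hmod : ∀ f : R, Prime f → multiplicity f aR ≡ multiplicity f bR [MOD m] := by
    intro f hf
    by_cases hfπ : f ∣ πR
    · have hgW : g ∈ as1_primeVal (F := F) f hf ∧ g⁻¹ ∈ as1_primeVal (F := F) f hf := by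
        rcases hex f hf hfπ with h | h | h
        · have hVW := hcenter ϖ VA hVA hRA (by rw [inv_mul_cancel₀ hϖ0]; exact VA.one_mem)
            f hf hfπ h
          exact ⟨hVW g hgA.2.1, hVW _ hgA.2.2⟩
        · have hVW := hcenter ϖ VB hVB hRB (by rw [inv_mul_cancel₀ hϖ0]; exact VB.one_mem)
            f hf hfπ h
          exact ⟨hVW g hgB.2.1, hVW _ hgB.2.2⟩
        · have hVW := hcenter z VC hVC hRC hCϖ f hf hfπ h
          exact ⟨hVW g hgC.2.1, hVW _ hgC.2.2⟩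
      refine as1_multiplicity_modEq hf m hm haR0 hbR0 (g := 1) (u := g) hgW.1 hgW.2 ?_
      show (a : F) / (b : F) = g * 1 ^ m
      rw [one_pow, mul_one, hab]
    · have hBW : B ≤ (as1_primeVal (F := F) f hf).toSubring := by
        intro t ht
        exact as1_algebraMap_mem_primeVal hf (ι ⟨t, ht⟩)
      have hϖW : ϖ⁻¹ ∈ as1_primeVal (F := F) f hf := as1_inv_mem_primeVal hf hfπ
      obtain ⟨g', u, hu, hu', hgu⟩ := hdiv _ (as1_primeVal_isDVR hf) hBW hϖW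
      refine as1_multiplicity_modEq hf m hm haR0 hbR0 (g := g') (u := u) hu hu' ?_
      show (a : F) / (b : F) = u * g' ^ m
      rw [← hab]; exact hgu
  obtain ⟨gp, gm, w, hgp0, hgm0, hrel, -⟩ := as1_pow_factor m hm aR bR haR0 hbR0 hmod
  have hgpF : (gp : F) ≠ 0 := hF0 gp hgp0
  have hgmF : (gm : F) ≠ 0 := hF0 gm hgm0
  have haF0 : (a : F) ≠ 0 := ha0
  have hrelF : (a : F) * (gm : F) ^ m = ((w : R) : F) * (b : F) * (gp : F) ^ m := by
    have := congrArg (Subtype.val : R → F) hrel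
    exact this
  have hwinv : (((w⁻¹ : Rˣ) : R) : F) = (((w : R) : F))⁻¹ := by
    have h1 : ((w : R) : F) * (((w⁻¹ : Rˣ) : R) : F) = 1 := by
      have := congrArg (Subtype.val : R → F) (Units.mul_inv w)
      exact this
    exact eq_inv_of_mul_eq_one_right h1
  have hwF0 : ((w : R) : F) ≠ 0 := hF0 _ w.ne_zero
  have hG0 : (gp : F) / (gm : F) ≠ 0 := div_ne_zero hgpF hgmF
  have hgeq : g = ((w : R) : F) * ((gp : F) / (gm : F)) ^ m := by
    rw [hab, div_pow, div_eq_iff hb0]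
    have := pow_ne_zero m hgmF
    field_simp
    linear_combination hrelF
  have e1 : g * (((gp : F) / (gm : F))⁻¹) ^ m = ((w : R) : F) := by
    rw [hgeq, inv_pow, mul_assoc, mul_inv_cancel₀ (pow_ne_zero m hG0), mul_one]
  have e2 : ((gp : F) / (gm : F)) ^ m * g⁻¹ = (((w⁻¹ : Rˣ) : R) : F) := by
    rw [hwinv, hgeq]
    have h3 : ((gp : F) / (gm : F)) ^ m ≠ 0 := pow_ne_zero m hG0
    field_simp
  -- `G` is a unit on the three components
  have hGm : ((gp : F) / (gm : F)) ^ m = g * (((w⁻¹ : Rˣ) : R) : F) := by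
    rw [hwinv, hgeq]; field_simp
  have hwU : ∀ V : Subring F, (∀ r : R, (r : F) ∈ V) → s36_pm_U V ((((w⁻¹ : Rˣ) : R) : F)) := by
    intro V hV
    refine ⟨?_, hV _, ?_⟩
    · rw [hwinv]; exact inv_ne_zero hwF0
    · rw [hwinv, inv_inv]; exact hV _
  refine ⟨(gp : F) / (gm : F), ?_, ?_, ?_, ?_, ?_⟩
  · exact s36_pm_U.of_pow hVA hm (by rw [hGm]; exact hgA.mul (hwU VA hRA))
  · exact s36_pm_U.of_pow hVB hm (by rw [hGm]; exact hgB.mul (hwU VB hRB))
  · exact s36_pm_U.of_pow hVC hm (by rw [hGm]; exact hgC.mul (hwU VC hRC))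
  · rw [e1]; exact (hmemR _).mp (w : R).2
  · rw [e2]; exact (hmemR _).mp ((w⁻¹ : Rˣ) : R).2

/-- **The local factorisation at a regular triple point**, with the auxiliary prime below `𝔪`
taken to be the component `B ∩ ϖ V_A`: it is enough to know one element `c ∈ B` which vanishes
on `V_B` and not on `V_A`. -/
theorem s36_to_fact_of_elt {F : Type*} [Field F] {ϖ z : F} {B VA VB VC : Subring F}
    (hVA : s34_Unif ϖ VA) (hVB : s34_Unif ϖ VB) (hVC : s34_Unif z VC)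
    (n : ℕ) (hCe : ϖ⁻¹ * z ^ n ∈ VC) (hCϖ : z⁻¹ * ϖ ∈ VC)
    (hBA : B ≤ VA) (hBB : B ≤ VB) (hBC : B ≤ VC) (hϖB : ϖ ∈ B)
    (hcap : ∀ x ∈ B, ϖ⁻¹ * x ∈ VA ⊓ VB ⊓ VC → ϖ⁻¹ * x ∈ B)
    (hnoeth : IsNoetherianRing B) (hfrac : ∀ x : F, ∃ a ∈ B, ∃ b ∈ B, b ≠ 0 ∧ x = a / b)
    (𝔪 : Ideal B) (h𝔪 : 𝔪.IsMaximal)
    (hlocV : ∀ b : B, b ∉ 𝔪 → ((b : F))⁻¹ ∈ VA ⊓ VB ⊓ VC)
    (x y : B) (hx : x ∈ 𝔪) (hy : y ∈ 𝔪)
    (hgen : ∀ t ∈ 𝔪, ∃ u, u ∉ 𝔪 ∧ u * t ∈ Ideal.span {x, y})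
    (c : F) (hcB : c ∈ B) (hcVB : ϖ⁻¹ * c ∈ VB) (hcVA : ϖ⁻¹ * c ∉ VA)
    (m : ℕ) (hm : 0 < m) :
    ∀ g : F, s36_pm_U VA g → s36_pm_U VB g → s36_pm_U VC g →
      (∀ W' : ValuationSubring F, IsDiscreteValuationRing W' → B ≤ W'.toSubring →
        ϖ⁻¹ ∈ W' → ∃ g' u : F, u ∈ W' ∧ u⁻¹ ∈ W' ∧ g = u * g' ^ m) →
      ∃ G : F, s36_pm_U VA G ∧ s36_pm_U VB G ∧ s36_pm_U VC G ∧
        g * (G⁻¹) ^ m ∈ s18_loc B 𝔪 ∧ G ^ m * g⁻¹ ∈ s18_loc B 𝔪 := by
  have hϖ0 : ϖ ≠ 0 := hVA.ne_zero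
  -- a function vanishing on a component through `𝔪` lies in `𝔪`
  have hin : ∀ (V : Subring F), s34_Unif ϖ V → (∀ b : B, b ∉ 𝔪 → ((b : F))⁻¹ ∈ V) →
      ∀ b : B, ϖ⁻¹ * (b : F) ∈ V → b ∈ 𝔪 := by
    intro V hV hlV b hb
    by_contra hnot
    apply hV.inv_not_mem
    have hb0 : (b : F) ≠ 0 := by
      intro h0
      apply hnot
      have : b = 0 := Subtype.ext h0
      rw [this]; exact 𝔪.zero_mem
    have e : ϖ⁻¹ = ϖ⁻¹ * (b : F) * ((b : F))⁻¹ := by field_simp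
    rw [e]
    exact V.mul_mem hb (hlV b hnot)
  have hne : s34_ni_P ϖ B VA hBA ≠ ⊥ := by
    intro hbot
    have h1 : (⟨ϖ, hϖB⟩ : B) ∈ s34_ni_P ϖ B VA hBA := s34_ni_ϖ_mem_P hVA hBA hϖB
    rw [hbot, Ideal.mem_bot] at h1
    exact hϖ0 (congrArg Subtype.val h1)
  have hlt : s34_ni_P ϖ B VA hBA < 𝔪 := by
    refine lt_of_le_of_ne ?_ ?_
    · intro b hb
      exact hin VA hVA (fun b hb => (hlocV b hb).1.1) b hb
    · intro heq
      have h1 : (⟨c, hcB⟩ : B) ∈ 𝔪 := hin VB hVB (fun b hb => (hlocV b hb).1.2) ⟨c, hcB⟩ hcVB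
      rw [← heq] at h1
      exact hcVA h1
  exact s36_to_fact hVA hVB hVC n hCe hCϖ hBA hBB hBC hϖB hcap hnoeth hfrac 𝔪 h𝔪 hlocV x y hx hy
    hgen (s34_ni_P ϖ B VA hBA) (s34_ni_P_prime hVA hBA) hne hlt m hm

end Fermat.Agent.S36
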