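import Mathlib
import Fermat.Agent.S36.PowTriChart
import Fermat.Agent.S36.TriBranch3
import Fermat.Agent.S36.TriFact

/-!
# S36 (NODE-3), TRI36: the triple-point contract with no local hypothesis

`s36_pta_tri` : the contract `s36_pm_TriOut` at a closed point `𝔪` of a `W`-stable chart `B`
lying on the three components, from chart-level hypotheses only:

* the global data of `s36_pow_of_model`;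
* the chart `B` : noetherian, `Frac B = F`, (cap), `m`-root closed, `W B ⊆ B`;
* the chart `B'` of the level below along `ι` : `ι B' ⊆ B`, `B` integral over `ι B'`, (RES) on
  the three components, thickness one at the crossing points (`hq`), the class statement
  (`hcl`), the norm (`hNι`, `hNB`), `B'` `m`-root closed;
* (RES) along the three components over one S18 chart `B₁`.

Composition of `s36_ptc_triOut` (this library), `s36_tb3_triple` (branch hypotheses) and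
`s36_to_fact_of_elt` (local factorisation).  The conclusion is the field `tri` of `s36_ptb_Pts`
at `𝔪`.
-/

set_option autoImplicit false

namespace Fermat.Agent.S36

open Fermat.Agent.S18 Fermat.Agent.S34 Fermat.Agent.S35

variable {F'' F₀ F : Type*} [Field F''] [Field F₀] [Field F]

/-- **The triple-point contract from chart-level hypotheses only.** -/
theorem s36_pta_tri (ι : F'' →+* F)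
    {ϖ'' : F''} {z : F} {VA VB VC : Subring F} {Vi V0 : Subring F''}
    (hA : s34_Unif (ι ϖ'') VA) (hB : s34_Unif (ι ϖ'') VB) (hC : s34_Unif z VC)
    (hVi : s34_Unif ϖ'' Vi) (hV0 : s34_Unif ϖ'' V0)
    (hιA : ∀ x ∈ Vi, ι x ∈ VA) (hιC : ∀ x ∈ Vi, ι x ∈ VC) (hιB : ∀ x ∈ V0, ι x ∈ VB)
    (n : ℕ) (hn : 1 ≤ n) (hzn : ι ϖ'' * (z ^ n)⁻¹ ∈ VC) (hzn' : z ^ n * (ι ϖ'')⁻¹ ∈ VC)
    (hresA : ∀ y ∈ VA, ∃ y' ∈ Vi, (ι ϖ'')⁻¹ * (y - ι y') ∈ VA)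
    (hresC : ∀ y ∈ VC, ∃ y' ∈ Vi, z⁻¹ * (y - ι y') ∈ VC)
    (hresB : ∀ y ∈ VB, ∃ b ∈ V0, (ι ϖ'')⁻¹ * (y ^ (n + 1) - ι b) ∈ VB)
    (Nm : F →* F'')
    (hNRram : ∀ h ∈ VA, h ∈ VC → ∀ a ∈ Vi, ∀ c ∈ Vi, (ι ϖ'')⁻¹ * (h - ι a) ∈ VA →
      z⁻¹ * (h - ι c) ∈ VC → ϖ''⁻¹ * (Nm h - a * c ^ n) ∈ Vi)
    (hNRins : ∀ h ∈ VB, ∀ b ∈ V0, (ι ϖ'')⁻¹ * (h ^ (n + 1) - ι b) ∈ VB →
      ϖ''⁻¹ * (Nm h - b) ∈ V0)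
    (W : F ≃+* F) (hWAB : ∀ x, x ∈ VB ↔ W x ∈ VA) (hWC : ∀ x, x ∈ VC ↔ W x ∈ VC)
    (hWϖ : W (ι ϖ'') = ι ϖ'') (hWW : ∀ x, W (W x) = x)
    (m : ℕ) (hm0 : (m : F) ≠ 0) (r s : ℤ) (hrs : r * ((n + 1 : ℕ) : ℤ) + s * m = 1)
    -- the chart
    (B : Subring F) (hBA : B ≤ VA) (hBB : B ≤ VB) (hBC : B ≤ VC)
    (hmB : ((m : F))⁻¹ ∈ B) (hWB : ∀ x ∈ B, W x ∈ B)
    (hnoeth : IsNoetherianRing B) (hfrac : ∀ x : F, ∃ a ∈ B, ∃ b ∈ B, b ≠ 0 ∧ x = a / b)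
    (hcap : ∀ x ∈ B, (ι ϖ'')⁻¹ * x ∈ VA → (ι ϖ'')⁻¹ * x ∈ VB → (ι ϖ'')⁻¹ * x ∈ VC →
      (ι ϖ'')⁻¹ * x ∈ B)
    (hϖB : ι ϖ'' ∈ B) (hrootB : ∀ x : F, x ^ m ∈ B → x ∈ B)
    -- the chart of the level below
    (B' : Subring F'') (hB'i : B' ≤ Vi) (hB'0 : B' ≤ V0)
    (hroot' : ∀ x : F'', x ^ m ∈ B' → x ∈ B')
    (hαB : ∀ x ∈ B', ι x ∈ B)
    (hint : ∀ x ∈ B, ∃ P : Polynomial B', P.Monic ∧ P.eval₂ (ι.comp B'.subtype) x = 0)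
    (hresαA : ∀ y ∈ B, ∃ y' ∈ B', (ι ϖ'')⁻¹ * (y - ι y') ∈ VA)
    (hresαC : ∀ y ∈ B, ∃ y' ∈ B', z⁻¹ * (y - ι y') ∈ VC)
    (hresαB : ∀ y ∈ B, ∃ y' ∈ B', (ι ϖ'')⁻¹ * (y ^ (n + 1) - ι y') ∈ VB)
    (hq : ∀ 𝔪' : Ideal B', 𝔪'.IsPrime → (∀ p : B', ϖ''⁻¹ * (p : F'') ∈ Vi → p ∈ 𝔪') →
      (∀ p : B', ϖ''⁻¹ * (p : F'') ∈ V0 → p ∈ 𝔪') →
      ∃ u₁ u₂ γ : B', (u₁ : F'') * (u₂ : F'') = ϖ'' * (γ : F'') ∧ ϖ''⁻¹ * (u₁ : F'') ∈ Vi ∧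
        ϖ''⁻¹ * (u₂ : F'') ∈ V0 ∧ γ ∉ 𝔪')
    (hcl : ∀ 𝔭 : Ideal B, 𝔭.IsPrime →
      ((∀ p : B, (ι ϖ'')⁻¹ * (p : F) ∈ VA → p ∈ 𝔭) →
        (∀ p : B, (ι ϖ'')⁻¹ * (p : F) ∈ VB → p ∈ 𝔭) → ∀ p : B, z⁻¹ * (p : F) ∈ VC → p ∈ 𝔭) ∧
      ((∀ p : B, (ι ϖ'')⁻¹ * (p : F) ∈ VB → p ∈ 𝔭) → (∀ p : B, z⁻¹ * (p : F) ∈ VC → p ∈ 𝔭) →
        ∀ p : B, (ι ϖ'')⁻¹ * (p : F) ∈ VA → p ∈ 𝔭) ∧
      ((∀ p : B, (ι ϖ'')⁻¹ * (p : F) ∈ VA → p ∈ 𝔭) → (∀ p : B, z⁻¹ * (p : F) ∈ VC → p ∈ 𝔭) →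
        ∀ p : B, (ι ϖ'')⁻¹ * (p : F) ∈ VB → p ∈ 𝔭))
    (kN : ℕ) (hNι : ∀ d ∈ B', Nm (ι d) = d ^ kN) (hNB : ∀ b ∈ B, Nm b ∈ B')
    -- (RES) along the three components over one S18 chart
    (ιX ιY ιZ : F₀ →+* F) {ϖ₀ : F₀} (B₁ : Subring F₀) (hB₁c : s18_Chart ϖ₀ B₁)
    (hmapX : ∀ x ∈ B₁, ιX x ∈ B) (hmapY : ∀ x ∈ B₁, ιY x ∈ B) (hmapZ : ∀ x ∈ B₁, ιZ x ∈ B)
    (hunifX : (ι ϖ'')⁻¹ * ιX ϖ₀ ∈ VA) (hunifY : (ι ϖ'')⁻¹ * ιY ϖ₀ ∈ VB)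
    (hunifZ : z⁻¹ * ιZ ϖ₀ ∈ VC)
    (hresX : ∀ x ∈ B, ∃ x' ∈ B₁, (ι ϖ'')⁻¹ * (x - ιX x') ∈ VA)
    (hresY : ∀ x ∈ B, ∃ x' ∈ B₁, (ι ϖ'')⁻¹ * (x - ιY x') ∈ VB)
    (hresZ : ∀ x ∈ B, ∃ x' ∈ B₁, z⁻¹ * (x - ιZ x') ∈ VC)
    -- the point
    (𝔪 : Ideal B) (h𝔪 : 𝔪.IsMaximal)
    (hlocA : ∀ s : B, s ∉ 𝔪 → ((s : F))⁻¹ ∈ VA) (hlocB : ∀ s : B, s ∉ 𝔪 → ((s : F))⁻¹ ∈ VB)
    (hlocC : ∀ s : B, s ∉ 𝔪 → ((s : F))⁻¹ ∈ VC) :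
    s36_pm_TriOut ι ϖ'' z VA VB VC Vi V0 Nm W n m r s B 𝔪 := by
  haveI h𝔪p : 𝔪.IsPrime := h𝔪.isPrime
  have hm : 0 < m := Nat.pos_of_ne_zero (by rintro rfl; exact hm0 (by simp))
  have hϖ0 := hA.ne_zero
  have hz0 := hC.ne_zero
  have hlocV : ∀ b : B, b ∉ 𝔪 → ((b : F))⁻¹ ∈ VA ⊓ VB ⊓ VC := fun b hb =>
    ⟨⟨hlocA b hb, hlocB b hb⟩, hlocC b hb⟩
  have hroot : ∀ x : F, x ^ m ∈ s18_loc B 𝔪 → x ∈ s18_loc B 𝔪 := fun x hx =>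
    s34_root_closed_loc B m hm hrootB 𝔪 x hx
  have hWAtoB : ∀ x ∈ VA, W x ∈ VB := fun x hx => (hWAB (W x)).mpr (by rw [hWW]; exact hx)
  have hWBtoA : ∀ x ∈ VB, W x ∈ VA := fun x hx => (hWAB x).mp hx
  have hWCC : ∀ x ∈ VC, W x ∈ VC := fun x hx => (hWC x).mp hx
  have hznC : (ι ϖ'')⁻¹ * z ^ n ∈ VC := by rw [mul_comm]; exact hzn'
  have hzϖ : z⁻¹ * ι ϖ'' ∈ VC := by
    obtain ⟨k, rfl⟩ : ∃ k, n = k + 1 := ⟨n - 1, by omega⟩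
    have e : z⁻¹ * ι ϖ'' = ι ϖ'' * (z ^ (k + 1))⁻¹ * z ^ k := by
      rw [pow_succ]; field_simp
    rw [e]; exact VC.mul_mem hzn (VC.pow_mem hC.mem k)
  have hPA := s36_tb3_centre hA 𝔪 hlocA
  have hPB := s36_tb3_centre hB 𝔪 hlocB
  have hPC := s36_tb3_centre hC 𝔪 hlocC
  -- the branch hypotheses
  obtain ⟨hLA, hLB, hLC⟩ := s36_tb3_triple ι hA hB hC hιA hιC hιB n hn hzn hzn' m hm B hBA hBB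
    hBC hnoeth hfrac hcap hϖB B' hαB hq ((W : F →+* F).comp ι) hWϖ
    (fun x hx => hWAtoB _ (hιA x hx)) (fun x hx => hWCC _ (hιC x hx))
    (fun x hx => hWBtoA _ (hιB x hx)) B' (fun x hx => hWB _ (hαB x hx)) hq ιX ιY ιZ B₁ hB₁c
    hmapX hmapY hmapZ hunifX hunifY hunifZ hresX hresY hresZ 𝔪 h𝔪 hlocV
  -- the local factorisation
  obtain ⟨-, -, -, ⟨x, y, hx, hy, hgen⟩, -⟩ := s36_tloc_triple ι B' Vi V0 B VA VB VC hαB hBA hBB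
    hBC hA hB hC rfl hιA hιC hιB hcap hq ιX ιY ιZ B₁ hB₁c hmapX hmapY hmapZ hunifX hunifY hunifZ
    hresX hresY hresZ hnoeth hfrac hϖB 𝔪 h𝔪 hPA hPB hPC
  obtain ⟨u, v, γ, huv, -, -, hγ, huB, hvA, hvC⟩ := s36_cu_transport ι B' Vi V0 B VA VB VC hαB
    ϖ'' (ι ϖ'') rfl hιA hιC hιB hq 𝔪 h𝔪p (fun x hx h => hPA ⟨ι x, hαB x hx⟩ h)
    (fun x hx h => hPB ⟨ι x, hαB x hx⟩ h)
  obtain ⟨huA, -, -⟩ := s36_tloc_cross B VA VB VC hϖ0 𝔪 hPA hPB hPC u v γ huv hγ huB hvA hvC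
  have hGloc := s36_to_fact_of_elt hA hB hC n hznC hzϖ hBA hBB hBC hϖB
    (fun x hx h => hcap x hx h.1.1 h.1.2 h.2) hnoeth hfrac 𝔪 h𝔪 hlocV x y hx hy hgen
    (u : F) u.2 huB huA m hm
  exact s36_ptc_triOut ι hA hB hC hVi hV0 hιA hιC hιB n hn hzn hzn' hresA hresC hresB Nm hNRram
    hNRins W hWAB hWC hWϖ hWW m hm0 r s hrs B hBA hBB hBC hmB hWB 𝔪 hlocV hroot hGloc hLA hLB
    hLC B' hB'i hB'0 hroot' hαB hint hcap hresαA hresαC hresαB hq hcl kN hNι hNB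

end Fermat.Agent.S36
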