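import Mathlib
import Fermat.Agent.S36.PowTriAll
import Fermat.Agent.S36.ClassPtQ
import Fermat.Agent.S36.NrChain
import Fermat.Agent.S36.ResSqInst

/-!
# S36 (NODE-3): the closed-point block of a chart from the chart of the level below

For a chart `B` of the three-component model (components `V_A`, `V_B`, `V_C`, swap `W`,
degeneracy map `ι` from the level below with components `V'_∞ = Vi`, `V'_0 = V0`) and a chart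
`B'` of the level below:

* `s36_plq_cls` : the classification (c-class) at every prime of `B` (the field `cls` of
  `s36_ptb_Pts`, and the hypothesis `hcl` of `s36_pta_tri`), from `s36_clq_main` and
  `s36_clq_ab_pow`, for a second degeneracy map `β`;
* `s36_plq_beta` : the hypotheses on `β` for `β = W ∘ ι ∘ w`, `w` a swap of the level below;
* `s36_plq_pts` : the structure `s36_ptb_Pts` with the triple-point contract `s36_pm_TriOut`,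
  from the components block `s36_nc_Pkg`, the chart-level hypotheses, the (RES) block
  `s36_rsi_Res` and the local equation of `C` (`cpt`);
* `s36_plq_pts_w` : the same for `β = W ∘ ι ∘ w`.
-/

set_option autoImplicit false

namespace Fermat.Agent.S36

open Fermat.Agent.S18 Fermat.Agent.S34 Fermat.Agent.S35

variable {F'' F₀ F : Type*} [Field F''] [Field F₀] [Field F]

/-- **(c-class) at every prime of the chart**, from the chart of the level below. -/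
theorem s36_plq_cls (ι β : F'' →+* F) {ϖ'' : F''} {z : F} {n : ℕ} {Vi V0 : Subring F''}
    {VA VB VC : Subring F} {W : F ≃+* F}
    (hpk : s36_nc_Pkg ι ϖ'' z n Vi V0 VA VB VC W)
    (hβϖ : β ϖ'' = ι ϖ'') (hβiA : ∀ y ∈ Vi, β y ∈ VA) (hβ0B : ∀ y ∈ V0, β y ∈ VB)
    (hβ0C : ∀ y ∈ V0, β y ∈ VC)
    (B : Subring F) (hBV : ∀ x ∈ B, x ∈ VA ⊓ VB ⊓ VC)
    (hcap : ∀ x ∈ B, (ι ϖ'')⁻¹ * x ∈ VA ⊓ VB ⊓ VC → (ι ϖ'')⁻¹ * x ∈ B)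
    (B' : Subring F'') (hB'i : B' ≤ Vi) (hB'0 : B' ≤ V0)
    (hαB : ∀ x ∈ B', ι x ∈ B) (hβB : ∀ x ∈ B', β x ∈ B)
    (hintα : ∀ x ∈ B, ∃ P : Polynomial B', P.Monic ∧ P.eval₂ (ι.comp B'.subtype) x = 0)
    (hintβ : ∀ x ∈ B, ∃ P : Polynomial B', P.Monic ∧ P.eval₂ (β.comp B'.subtype) x = 0)
    (hresαC : ∀ y ∈ B, ∃ y' ∈ B', z⁻¹ * (y - ι y') ∈ VC)
    (hresβC : ∀ y ∈ B, ∃ y' ∈ B', z⁻¹ * (y - β y') ∈ VC)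
    (hresαB : ∀ y ∈ B, ∃ y' ∈ B', (ι ϖ'')⁻¹ * (y ^ (n + 1) - ι y') ∈ VB)
    (hq : ∀ 𝔪' : Ideal B', 𝔪'.IsPrime → (∀ p : B', ϖ''⁻¹ * (p : F'') ∈ Vi → p ∈ 𝔪') →
      (∀ p : B', ϖ''⁻¹ * (p : F'') ∈ V0 → p ∈ 𝔪') →
      ∃ u₁ u₂ γ : B', (u₁ : F'') * (u₂ : F'') = ϖ'' * (γ : F'') ∧ ϖ''⁻¹ * (u₁ : F'') ∈ Vi ∧
        ϖ''⁻¹ * (u₂ : F'') ∈ V0 ∧ γ ∉ 𝔪')
    (𝔭 : Ideal B) (h𝔭 : 𝔭.IsPrime) :
    ((∀ p : B, (ι ϖ'')⁻¹ * (p : F) ∈ VA → p ∈ 𝔭) →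
      (∀ p : B, (ι ϖ'')⁻¹ * (p : F) ∈ VB → p ∈ 𝔭) → ∀ p : B, z⁻¹ * (p : F) ∈ VC → p ∈ 𝔭) ∧
    ((∀ p : B, (ι ϖ'')⁻¹ * (p : F) ∈ VB → p ∈ 𝔭) → (∀ p : B, z⁻¹ * (p : F) ∈ VC → p ∈ 𝔭) →
      ∀ p : B, (ι ϖ'')⁻¹ * (p : F) ∈ VA → p ∈ 𝔭) ∧
    ((∀ p : B, (ι ϖ'')⁻¹ * (p : F) ∈ VA → p ∈ 𝔭) → (∀ p : B, z⁻¹ * (p : F) ∈ VC → p ∈ 𝔭) →
      ∀ p : B, (ι ϖ'')⁻¹ * (p : F) ∈ VB → p ∈ 𝔭) := by
  have hBA : B ≤ VA := fun x hx => (hBV x hx).1.1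
  have hBB : B ≤ VB := fun x hx => (hBV x hx).1.2
  have hBC : B ≤ VC := fun x hx => (hBV x hx).2
  have hϖ0 : ι ϖ'' ≠ 0 := hpk.hA.ne_zero
  have hcap' : ∀ x ∈ B, (ι ϖ'')⁻¹ * x ∈ VA → (ι ϖ'')⁻¹ * x ∈ VB → (ι ϖ'')⁻¹ * x ∈ VC →
      (ι ϖ'')⁻¹ * x ∈ B := fun x hx h1 h2 h3 => hcap x hx ⟨⟨h1, h2⟩, h3⟩
  have hzϖ : z⁻¹ * ι ϖ'' ∈ VC := by
    have hz0 := hpk.hC.ne_zero
    obtain ⟨k, hk⟩ : ∃ k, n = k + 1 := ⟨n - 1, by have := hpk.hn; omega⟩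
    have e : z⁻¹ * ι ϖ'' = ι ϖ'' * (z ^ n)⁻¹ * z ^ k := by
      rw [hk, pow_succ]; field_simp
    rw [e]; exact VC.mul_mem hpk.hzn (VC.pow_mem hpk.hC.mem k)
  have := h𝔭
  exact s36_clq_main ι β B' Vi V0 B VA VB VC hαB hβB hintα hintβ hBA hBB hBC ϖ'' (ι ϖ'') z hϖ0
    rfl hβϖ hpk.hVi hpk.hV0 hB'i hB'0 hpk.hA.inv_not_mem hpk.hB.inv_not_mem hzϖ hpk.hιA hpk.hιC
    hpk.hιB hβiA hβ0B hβ0C hcap' hresαC hresβC hq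
    (fun 𝔫 h𝔫 hA hB p hp => s36_clq_ab_pow ι B' Vi V0 B VA VB VC hαB hintα hBA hBB hBC ϖ''
      (ι ϖ'') z hϖ0 rfl hpk.hVi hB'i hpk.hA.inv_not_mem hzϖ hpk.hC.inv_not_mem hpk.hιA hpk.hιC
      hpk.hιB hcap' (n + 1) (Nat.succ_ne_zero n) hresαB hq 𝔫 h𝔫 hA hB p hp) 𝔭

/-- **The second degeneracy map `β = W ∘ ι ∘ w`**: all hypotheses on `β` of `s36_plq_cls`, from
a swap `w` of the level below (an involution exchanging `V'_∞` and `V'_0`, fixing `ϖ''`,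
stabilising the chart `B'`) and the stability of `B` under `W`. -/
theorem s36_plq_beta (ι : F'' →+* F) {ϖ'' : F''} {z : F} {n : ℕ} {Vi V0 : Subring F''}
    {VA VB VC : Subring F} {W : F ≃+* F}
    (hpk : s36_nc_Pkg ι ϖ'' z n Vi V0 VA VB VC W)
    (w : F'' →+* F'') (hww : ∀ x, w (w x) = x) (hwV : ∀ x, x ∈ V0 ↔ w x ∈ Vi)
    (hwϖ : w ϖ'' = ϖ'')
    (B : Subring F) (hWB : ∀ x ∈ B, W x ∈ B)
    (B' : Subring F'') (hwB' : ∀ x ∈ B', w x ∈ B')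
    (hαB : ∀ x ∈ B', ι x ∈ B)
    (hintα : ∀ x ∈ B, ∃ P : Polynomial B', P.Monic ∧ P.eval₂ (ι.comp B'.subtype) x = 0)
    (hresαC : ∀ y ∈ B, ∃ y' ∈ B', z⁻¹ * (y - ι y') ∈ VC) :
    ((W : F →+* F).comp (ι.comp w)) ϖ'' = ι ϖ'' ∧
    (∀ y ∈ Vi, ((W : F →+* F).comp (ι.comp w)) y ∈ VA) ∧
    (∀ y ∈ V0, ((W : F →+* F).comp (ι.comp w)) y ∈ VB) ∧
    (∀ y ∈ V0, ((W : F →+* F).comp (ι.comp w)) y ∈ VC) ∧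
    (∀ x ∈ B', ((W : F →+* F).comp (ι.comp w)) x ∈ B) ∧
    (∀ x ∈ B, ∃ P : Polynomial B', P.Monic ∧
      P.eval₂ (((W : F →+* F).comp (ι.comp w)).comp B'.subtype) x = 0) ∧
    (∀ y ∈ B, ∃ y' ∈ B', z⁻¹ * (y - ((W : F →+* F).comp (ι.comp w)) y') ∈ VC) := by
  have hWW := hpk.hWW
  have hβ : ∀ y, ((W : F →+* F).comp (ι.comp w)) y = W (ι (w y)) := fun y => rfl
  have hwi : ∀ y ∈ Vi, w y ∈ V0 := fun y hy => (hwV (w y)).mpr (by rw [hww]; exact hy)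
  have hw0 : ∀ y ∈ V0, w y ∈ Vi := fun y hy => (hwV y).mp hy
  have hWAtoB : ∀ x ∈ VA, W x ∈ VB := fun x hx => (hpk.hWAB (W x)).mpr (by rw [hWW]; exact hx)
  refine ⟨?_, ?_, ?_, ?_, ?_, ?_, ?_⟩
  · rw [hβ, hwϖ, hpk.hWϖ]
  · intro y hy
    rw [hβ]
    exact (hpk.hWAB _).mp (hpk.hιB _ (hwi y hy))
  · intro y hy
    rw [hβ]
    exact hWAtoB _ (hpk.hιA _ (hw0 y hy))
  · intro y hy
    rw [hβ]
    exact (hpk.hWC _).mp (hpk.hιC _ (hw0 y hy))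
  · intro x hx
    rw [hβ]
    exact hWB _ (hαB _ (hwB' x hx))
  · intro x hx
    obtain ⟨P, hP, hPx⟩ := hintα (W x) (hWB x hx)
    refine ⟨P.map ((w.comp B'.subtype).codRestrict B' (fun c => hwB' c c.2)), hP.map _, ?_⟩
    rw [Polynomial.eval₂_map]
    have e : ((((W : F →+* F).comp (ι.comp w)).comp B'.subtype).comp
        ((w.comp B'.subtype).codRestrict B' (fun c => hwB' c c.2))) =
        (W : F →+* F).comp (ι.comp B'.subtype) := by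
      ext c
      show W (ι (w (w (c : F'')))) = W (ι (c : F''))
      rw [hww]
    rw [e]
    have h2 := Polynomial.hom_eval₂ P (ι.comp B'.subtype) (W : F →+* F) (W x)
    rw [hPx, map_zero] at h2
    have h3 : (W : F →+* F) (W x) = x := hWW x
    rw [h3] at h2
    exact h2.symm
  · intro y hy
    obtain ⟨y', hy', h⟩ := hresαC (W y) (hWB y hy)
    refine ⟨w y', hwB' y' hy', ?_⟩
    rw [hβ, hww]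
    have hz0 := hpk.hC.ne_zero
    have hWz0 : W z ≠ 0 := (map_ne_zero W).mpr hz0
    have hWz : W z ∈ VC := (hpk.hWC z).mp hpk.hC.mem
    have hdvd : z⁻¹ * W z ∈ VC := by
      by_contra hnot
      have h1 : (W z)⁻¹ ∈ VC := hpk.hC.inv_mem_of_not_dvd hWz hnot
      have h2 : W ((W z)⁻¹) ∈ VC := (hpk.hWC _).mp h1
      rw [map_inv₀, hWW] at h2
      exact hpk.hC.inv_not_mem h2
    have h4 : W (z⁻¹ * (W y - ι y')) ∈ VC := (hpk.hWC _).mp h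
    rw [map_mul, map_inv₀, map_sub, hWW] at h4
    have e : z⁻¹ * (y - W (ι y')) = z⁻¹ * W z * ((W z)⁻¹ * (y - W (ι y'))) := by
      field_simp
    rw [e]
    exact VC.mul_mem hdvd h4

/-- **The closed-point block of a chart** (`s36_ptb_Pts` with the triple-point contract
`s36_pm_TriOut`) from the components block, the chart of the level below, the (RES) block and
the local equation of `C`. -/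
theorem s36_plq_pts (ι β : F'' →+* F) {ϖ'' : F''} {z : F} {n : ℕ} {Vi V0 : Subring F''}
    {VA VB VC : Subring F} {W : F ≃+* F}
    (hpk : s36_nc_Pkg ι ϖ'' z n Vi V0 VA VB VC W)
    (hβϖ : β ϖ'' = ι ϖ'') (hβiA : ∀ y ∈ Vi, β y ∈ VA) (hβ0B : ∀ y ∈ V0, β y ∈ VB)
    (hβ0C : ∀ y ∈ V0, β y ∈ VC)
    (m : ℕ) (hm0 : (m : F) ≠ 0) (r s : ℤ) (hrs : r * ((n + 1 : ℕ) : ℤ) + s * m = 1)
    -- the chart
    (B : Subring F) (hBV : ∀ x ∈ B, x ∈ VA ⊓ VB ⊓ VC)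
    (hcap : ∀ x ∈ B, (ι ϖ'')⁻¹ * x ∈ VA ⊓ VB ⊓ VC → (ι ϖ'')⁻¹ * x ∈ B)
    (hnoeth : IsNoetherianRing B) (hfrac : ∀ x : F, ∃ a ∈ B, ∃ b ∈ B, b ≠ 0 ∧ x = a / b)
    (hrootB : ∀ x : F, x ^ m ∈ B → x ∈ B)
    (hmB : ((m : F))⁻¹ ∈ B) (hWB : ∀ x ∈ B, W x ∈ B)
    {ϖ : F} (hιϖ : ι ϖ'' = ϖ) (hϖB : ϖ ∈ B)
    -- the chart of the level below
    (B' : Subring F'') (hB'i : B' ≤ Vi) (hB'0 : B' ≤ V0)
    (hroot' : ∀ x : F'', x ^ m ∈ B' → x ∈ B')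
    (hαB : ∀ x ∈ B', ι x ∈ B) (hβB : ∀ x ∈ B', β x ∈ B)
    (hintα : ∀ x ∈ B, ∃ P : Polynomial B', P.Monic ∧ P.eval₂ (ι.comp B'.subtype) x = 0)
    (hintβ : ∀ x ∈ B, ∃ P : Polynomial B', P.Monic ∧ P.eval₂ (β.comp B'.subtype) x = 0)
    (hresαA : ∀ y ∈ B, ∃ y' ∈ B', (ι ϖ'')⁻¹ * (y - ι y') ∈ VA)
    (hresαC : ∀ y ∈ B, ∃ y' ∈ B', z⁻¹ * (y - ι y') ∈ VC)
    (hresβC : ∀ y ∈ B, ∃ y' ∈ B', z⁻¹ * (y - β y') ∈ VC)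
    (hresαB : ∀ y ∈ B, ∃ y' ∈ B', (ι ϖ'')⁻¹ * (y ^ (n + 1) - ι y') ∈ VB)
    (hq : ∀ 𝔪' : Ideal B', 𝔪'.IsPrime → (∀ p : B', ϖ''⁻¹ * (p : F'') ∈ Vi → p ∈ 𝔪') →
      (∀ p : B', ϖ''⁻¹ * (p : F'') ∈ V0 → p ∈ 𝔪') →
      ∃ u₁ u₂ γ : B', (u₁ : F'') * (u₂ : F'') = ϖ'' * (γ : F'') ∧ ϖ''⁻¹ * (u₁ : F'') ∈ Vi ∧
        ϖ''⁻¹ * (u₂ : F'') ∈ V0 ∧ γ ∉ 𝔪')
    (kN : ℕ) (hNι : ∀ d ∈ B', @Algebra.norm F'' F _ _ ι.toAlgebra (ι d) = d ^ kN)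
    (hNB : ∀ b ∈ B, @Algebra.norm F'' F _ _ ι.toAlgebra b ∈ B')
    -- (RES) along the three components over one S18 chart
    {ϖ₀ : F₀} {B₁ : Subring F₀} {ιA ιB ιC : F₀ →+* F}
    (H : s36_rsi_Res ϖ z B VA VB VC ϖ₀ B₁ ιA ιB ιC)
    -- the local equation of `C`
    (cpt : ∀ 𝔪 : Ideal B, 𝔪.IsMaximal → (⟨ϖ, hϖB⟩ : B) ∈ 𝔪 →
      (∃ f₀ : B, f₀ ∉ 𝔪 ∧ ϖ⁻¹ * (f₀ : F) ∈ VA ⊓ VB) →
      ∃ (z' ε : F) (e : ℕ), s34_Unif z' VC ∧ z' ∈ s18_loc B 𝔪 ∧ 0 < e ∧ ε ∈ s18_loc B 𝔪 ∧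
        ε⁻¹ ∈ VC ∧ ϖ = ε * z' ^ e) :
    s36_ptb_Pts ϖ z B VA VB VC hϖB ϖ₀ B₁ ιA ιB ιC
      (fun 𝔪 => s36_pm_TriOut ι ϖ'' z VA VB VC Vi V0 (@Algebra.norm F'' F _ _ ι.toAlgebra) W n m
        r s B 𝔪) := by
  subst hιϖ
  have hcls := s36_plq_cls ι β hpk hβϖ hβiA hβ0B hβ0C B hBV hcap B' hB'i hB'0 hαB hβB hintα
    hintβ hresαC hresβC hresαB hq
  refine H.pts hϖB _ (fun 𝔪 h𝔪 _ => hcls 𝔪 h𝔪.isPrime) cpt ?_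
  intro 𝔪 h𝔪 _ hlocA hlocB hlocC
  exact s36_pta_tri ι hpk.hA hpk.hB hpk.hC hpk.hVi hpk.hV0 hpk.hιA hpk.hιC hpk.hιB n hpk.hn
    hpk.hzn hpk.hzn' hpk.hresA hpk.hresC hpk.hresB (@Algebra.norm F'' F _ _ ι.toAlgebra)
    hpk.hNRram hpk.hNRins W hpk.hWAB hpk.hWC hpk.hWϖ hpk.hWW m hm0 r s hrs B
    (fun x hx => (hBV x hx).1.1) (fun x hx => (hBV x hx).1.2) (fun x hx => (hBV x hx).2) hmB hWB
    hnoeth hfrac (fun x hx h1 h2 h3 => hcap x hx ⟨⟨h1, h2⟩, h3⟩) hϖB hrootB B' hB'i hB'0 hroot'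
    hαB hintα hresαA hresαC hresαB hq hcls kN hNι hNB ιA ιB ιC B₁ H.chart H.mapA H.mapB H.mapC
    H.unifA H.unifB H.unifC H.resA H.resB H.resC 𝔪 h𝔪 hlocA hlocB hlocC

/-- **The closed-point block of a chart**, with the second degeneracy map `β = W ∘ ι ∘ w`
derived from a swap `w` of the level below: no hypothesis on `β`. -/
theorem s36_plq_pts_w (ι : F'' →+* F) {ϖ'' : F''} {z : F} {n : ℕ} {Vi V0 : Subring F''}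
    {VA VB VC : Subring F} {W : F ≃+* F}
    (hpk : s36_nc_Pkg ι ϖ'' z n Vi V0 VA VB VC W)
    (w : F'' →+* F'') (hww : ∀ x, w (w x) = x) (hwV : ∀ x, x ∈ V0 ↔ w x ∈ Vi)
    (hwϖ : w ϖ'' = ϖ'')
    (m : ℕ) (hm0 : (m : F) ≠ 0) (r s : ℤ) (hrs : r * ((n + 1 : ℕ) : ℤ) + s * m = 1)
    -- the chart
    (B : Subring F) (hBV : ∀ x ∈ B, x ∈ VA ⊓ VB ⊓ VC)
    (hcap : ∀ x ∈ B, (ι ϖ'')⁻¹ * x ∈ VA ⊓ VB ⊓ VC → (ι ϖ'')⁻¹ * x ∈ B)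
    (hnoeth : IsNoetherianRing B) (hfrac : ∀ x : F, ∃ a ∈ B, ∃ b ∈ B, b ≠ 0 ∧ x = a / b)
    (hrootB : ∀ x : F, x ^ m ∈ B → x ∈ B)
    (hmB : ((m : F))⁻¹ ∈ B) (hWB : ∀ x ∈ B, W x ∈ B)
    {ϖ : F} (hιϖ : ι ϖ'' = ϖ) (hϖB : ϖ ∈ B)
    -- the chart of the level below
    (B' : Subring F'') (hB'i : B' ≤ Vi) (hB'0 : B' ≤ V0) (hwB' : ∀ x ∈ B', w x ∈ B')
    (hroot' : ∀ x : F'', x ^ m ∈ B' → x ∈ B')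
    (hαB : ∀ x ∈ B', ι x ∈ B)
    (hintα : ∀ x ∈ B, ∃ P : Polynomial B', P.Monic ∧ P.eval₂ (ι.comp B'.subtype) x = 0)
    (hresαA : ∀ y ∈ B, ∃ y' ∈ B', (ι ϖ'')⁻¹ * (y - ι y') ∈ VA)
    (hresαC : ∀ y ∈ B, ∃ y' ∈ B', z⁻¹ * (y - ι y') ∈ VC)
    (hresαB : ∀ y ∈ B, ∃ y' ∈ B', (ι ϖ'')⁻¹ * (y ^ (n + 1) - ι y') ∈ VB)
    (hq : ∀ 𝔪' : Ideal B', 𝔪'.IsPrime → (∀ p : B', ϖ''⁻¹ * (p : F'') ∈ Vi → p ∈ 𝔪') →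
      (∀ p : B', ϖ''⁻¹ * (p : F'') ∈ V0 → p ∈ 𝔪') →
      ∃ u₁ u₂ γ : B', (u₁ : F'') * (u₂ : F'') = ϖ'' * (γ : F'') ∧ ϖ''⁻¹ * (u₁ : F'') ∈ Vi ∧
        ϖ''⁻¹ * (u₂ : F'') ∈ V0 ∧ γ ∉ 𝔪')
    (kN : ℕ) (hNι : ∀ d ∈ B', @Algebra.norm F'' F _ _ ι.toAlgebra (ι d) = d ^ kN)
    (hNB : ∀ b ∈ B, @Algebra.norm F'' F _ _ ι.toAlgebra b ∈ B')
    -- (RES) along the three components over one S18 chart
    {ϖ₀ : F₀} {B₁ : Subring F₀} {ιA ιB ιC : F₀ →+* F}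
    (H : s36_rsi_Res ϖ z B VA VB VC ϖ₀ B₁ ιA ιB ιC)
    -- the local equation of `C`
    (cpt : ∀ 𝔪 : Ideal B, 𝔪.IsMaximal → (⟨ϖ, hϖB⟩ : B) ∈ 𝔪 →
      (∃ f₀ : B, f₀ ∉ 𝔪 ∧ ϖ⁻¹ * (f₀ : F) ∈ VA ⊓ VB) →
      ∃ (z' ε : F) (e : ℕ), s34_Unif z' VC ∧ z' ∈ s18_loc B 𝔪 ∧ 0 < e ∧ ε ∈ s18_loc B 𝔪 ∧
        ε⁻¹ ∈ VC ∧ ϖ = ε * z' ^ e) :
    s36_ptb_Pts ϖ z B VA VB VC hϖB ϖ₀ B₁ ιA ιB ιC
      (fun 𝔪 => s36_pm_TriOut ι ϖ'' z VA VB VC Vi V0 (@Algebra.norm F'' F _ _ ι.toAlgebra) W n m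
        r s B 𝔪) := by
  obtain ⟨hβϖ, hβiA, hβ0B, hβ0C, hβB, hintβ, hresβC⟩ := s36_plq_beta ι hpk w hww hwV hwϖ B hWB
    B' hwB' hαB hintα hresαC
  exact s36_plq_pts ι ((W : F →+* F).comp (ι.comp w)) hpk hβϖ hβiA hβ0B hβ0C m hm0 r s hrs B
    hBV hcap hnoeth hfrac hrootB hmB hWB hιϖ hϖB B' hB'i hB'0 hroot' hαB hβB hintα hintβ hresαA
    hresαC hresβC hresαB hq kN hNι hNB H cpt

end Fermat.Agent.S36
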