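import Mathlib
import Fermat.Agent.S36.PtsLvlQ
import Fermat.Agent.S36.InstNorm

/-!
# S36 (NODE-3): the closed-point block on the objects of the concrete model, generic charts

`s36_pgl_pts` is `s36_plq_pts_w` (`S36/PtsLvlQ`) on the objects of the concrete model of level
`N₁ q q` over `K₀` (`ι = α = heckeAlphaBar K₀ (N₁ q) q`, `ϖ'' = q`, `n = q - 1`,
`Nm = Algebra.norm` along `α`, `Vi = s34_gi_V A₀ (N₁ q)`, `V0 = Vi.comap w`,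
`VA = s34_gi_V A₀ (N₁ q q)`, `VB = VA.comap W₁`, uniformiser `q` of `A₀ = s18_A1 P K₀`), for a
generic chart `B` (a subalgebra over `A₀`) and a generic chart `B'` of the level below.  The
conclusion is the conjunct of `s36_ci_PtsAll` (`S36/ContractInst`) for the chart `B`.

The glue discharged here: `(m : F) ≠ 0` and `(m : F)⁻¹ ∈ B` from `m ∈ A₀ˣ`, the Bezout relation
for `n + 1 = q - 1 + 1`, `α q = q`, `w q = q`, `V0 = Vi.comap w`, `Nm (α d) = d ^ q`, and the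
change of uniformiser/exponent in the chart-level hypotheses (stated with
`ϖ = algebraMap A₀ F q` and the exponent `q`).
-/

set_option autoImplicit false
set_option synthInstance.maxHeartbeats 400000

open ModularCurve AlgebraicCurve

noncomputable section

namespace Fermat.Agent.S36

open Fermat.Agent.S18 Fermat.Agent.S34 Fermat.Agent.S35

local notation "Qb" => AlgebraicClosure ℚ

set_option maxHeartbeats 1600000 in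
/-- **The closed-point block of a chart of the concrete model**, from the components block, the
chart-level hypotheses (chart `B`, chart `B'` of the level below), the (RES) block and the local
equation of `C`. -/
theorem s36_pgl_pts (N₁ q : ℕ) [NeZero N₁] [NeZero q] [NeZero (N₁ * q)] [NeZero (N₁ * q * q)]
    (hq : q.Prime) (P : ValuationSubring Qb) (K₀ : IntermediateField ℚ Qb)
    (m : ℕ) (hmu : IsUnit ((m : ℕ) : s18_A1 P K₀))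
    (w : s18_F1 K₀ (N₁ * q) ≃ₐ[K₀] s18_F1 K₀ (N₁ * q)) (hww : ∀ x, w (w x) = x)
    (W₁ : s18_F1 K₀ (N₁ * q * q) ≃ₐ[K₀] s18_F1 K₀ (N₁ * q * q))
    (r s : ℤ) (hrs : r * (q : ℤ) + s * (m : ℤ) = 1)
    {z : s18_F1 K₀ (N₁ * q * q)} {VC : Subring (s18_F1 K₀ (N₁ * q * q))}
    -- the components block
    (hpk : s36_nc_Pkg (heckeAlphaBar K₀ (N₁ * q) q).toRingHom
      (algebraMap K₀ (s18_F1 K₀ (N₁ * q)) (q : K₀)) z (q - 1)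
      (s34_gi_V (s18_A1 P K₀) (N₁ * q))
      ((s34_gi_V (s18_A1 P K₀) (N₁ * q)).comap
        ((w : s18_F1 K₀ (N₁ * q) ≃+* s18_F1 K₀ (N₁ * q)) :
          s18_F1 K₀ (N₁ * q) →+* s18_F1 K₀ (N₁ * q)))
      (s34_gi_V (s18_A1 P K₀) (N₁ * q * q))
      ((s34_gi_V (s18_A1 P K₀) (N₁ * q * q)).comap
        ((W₁ : s18_F1 K₀ (N₁ * q * q) ≃+* s18_F1 K₀ (N₁ * q * q)) :
          s18_F1 K₀ (N₁ * q * q) →+* s18_F1 K₀ (N₁ * q * q)))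
      VC (W₁ : s18_F1 K₀ (N₁ * q * q) ≃+* s18_F1 K₀ (N₁ * q * q)))
    -- the chart
    (B : Subalgebra (s18_A1 P K₀) (s18_F1 K₀ (N₁ * q * q)))
    (hBV : ∀ x ∈ B, x ∈ s34_gi_V (s18_A1 P K₀) (N₁ * q * q) ⊓
      (s34_gi_V (s18_A1 P K₀) (N₁ * q * q)).comap
        ((W₁ : s18_F1 K₀ (N₁ * q * q) ≃+* s18_F1 K₀ (N₁ * q * q)) :
          s18_F1 K₀ (N₁ * q * q) →+* s18_F1 K₀ (N₁ * q * q)) ⊓ VC)
    (hcap : ∀ x ∈ B,
      (algebraMap (s18_A1 P K₀) (s18_F1 K₀ (N₁ * q * q)) ((q : ℕ) : s18_A1 P K₀))⁻¹ * x ∈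
        s34_gi_V (s18_A1 P K₀) (N₁ * q * q) ⊓
        (s34_gi_V (s18_A1 P K₀) (N₁ * q * q)).comap
          ((W₁ : s18_F1 K₀ (N₁ * q * q) ≃+* s18_F1 K₀ (N₁ * q * q)) :
            s18_F1 K₀ (N₁ * q * q) →+* s18_F1 K₀ (N₁ * q * q)) ⊓ VC →
      (algebraMap (s18_A1 P K₀) (s18_F1 K₀ (N₁ * q * q)) ((q : ℕ) : s18_A1 P K₀))⁻¹ * x ∈ B)
    (hnoeth : IsNoetherianRing B.toSubring)
    (hfrac : ∀ x : s18_F1 K₀ (N₁ * q * q), ∃ a ∈ B.toSubring, ∃ b ∈ B.toSubring,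
      b ≠ 0 ∧ x = a / b)
    (hroot : ∀ x : s18_F1 K₀ (N₁ * q * q), x ^ m ∈ B.toSubring → x ∈ B.toSubring)
    (hWB : ∀ x ∈ B.toSubring, W₁ x ∈ B.toSubring)
    -- the chart of the level below
    (B' : Subring (s18_F1 K₀ (N₁ * q)))
    (hB'i : B' ≤ s34_gi_V (s18_A1 P K₀) (N₁ * q))
    (hB'0 : B' ≤ (s34_gi_V (s18_A1 P K₀) (N₁ * q)).comap
      ((w : s18_F1 K₀ (N₁ * q) ≃+* s18_F1 K₀ (N₁ * q)) :
        s18_F1 K₀ (N₁ * q) →+* s18_F1 K₀ (N₁ * q)))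
    (hwB' : ∀ x ∈ B', w x ∈ B')
    (hroot' : ∀ x : s18_F1 K₀ (N₁ * q), x ^ m ∈ B' → x ∈ B')
    (hαB : ∀ x ∈ B', (heckeAlphaBar K₀ (N₁ * q) q).toRingHom x ∈ B.toSubring)
    (hint : ∀ x ∈ B.toSubring, ∃ Q : Polynomial B', Q.Monic ∧
      Q.eval₂ ((heckeAlphaBar K₀ (N₁ * q) q).toRingHom.comp B'.subtype) x = 0)
    (hNB : ∀ b ∈ B.toSubring, @Algebra.norm (s18_F1 K₀ (N₁ * q)) (s18_F1 K₀ (N₁ * q * q)) _ _
      (heckeAlphaBar K₀ (N₁ * q) q).toRingHom.toAlgebra b ∈ B')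
    (hresαA : ∀ y ∈ B.toSubring, ∃ y' ∈ B',
      (algebraMap (s18_A1 P K₀) (s18_F1 K₀ (N₁ * q * q)) ((q : ℕ) : s18_A1 P K₀))⁻¹ *
        (y - (heckeAlphaBar K₀ (N₁ * q) q).toRingHom y') ∈ s34_gi_V (s18_A1 P K₀) (N₁ * q * q))
    (hresαC : ∀ y ∈ B.toSubring, ∃ y' ∈ B',
      z⁻¹ * (y - (heckeAlphaBar K₀ (N₁ * q) q).toRingHom y') ∈ VC)
    (hresαB : ∀ y ∈ B.toSubring, ∃ y' ∈ B',
      (algebraMap (s18_A1 P K₀) (s18_F1 K₀ (N₁ * q * q)) ((q : ℕ) : s18_A1 P K₀))⁻¹ *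
        (y ^ q - (heckeAlphaBar K₀ (N₁ * q) q).toRingHom y') ∈
        (s34_gi_V (s18_A1 P K₀) (N₁ * q * q)).comap
          ((W₁ : s18_F1 K₀ (N₁ * q * q) ≃+* s18_F1 K₀ (N₁ * q * q)) :
            s18_F1 K₀ (N₁ * q * q) →+* s18_F1 K₀ (N₁ * q * q)))
    (hthick : ∀ 𝔪' : Ideal B', 𝔪'.IsPrime →
      (∀ p : B', (algebraMap K₀ (s18_F1 K₀ (N₁ * q)) (q : K₀))⁻¹ * (p : s18_F1 K₀ (N₁ * q)) ∈
        s34_gi_V (s18_A1 P K₀) (N₁ * q) → p ∈ 𝔪') →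
      (∀ p : B', (algebraMap K₀ (s18_F1 K₀ (N₁ * q)) (q : K₀))⁻¹ * (p : s18_F1 K₀ (N₁ * q)) ∈
        (s34_gi_V (s18_A1 P K₀) (N₁ * q)).comap
          ((w : s18_F1 K₀ (N₁ * q) ≃+* s18_F1 K₀ (N₁ * q)) :
            s18_F1 K₀ (N₁ * q) →+* s18_F1 K₀ (N₁ * q)) → p ∈ 𝔪') →
      ∃ u₁ u₂ γ : B', (u₁ : s18_F1 K₀ (N₁ * q)) * (u₂ : s18_F1 K₀ (N₁ * q)) =
          algebraMap K₀ (s18_F1 K₀ (N₁ * q)) (q : K₀) * (γ : s18_F1 K₀ (N₁ * q)) ∧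
        (algebraMap K₀ (s18_F1 K₀ (N₁ * q)) (q : K₀))⁻¹ * (u₁ : s18_F1 K₀ (N₁ * q)) ∈
          s34_gi_V (s18_A1 P K₀) (N₁ * q) ∧
        (algebraMap K₀ (s18_F1 K₀ (N₁ * q)) (q : K₀))⁻¹ * (u₂ : s18_F1 K₀ (N₁ * q)) ∈
          (s34_gi_V (s18_A1 P K₀) (N₁ * q)).comap
            ((w : s18_F1 K₀ (N₁ * q) ≃+* s18_F1 K₀ (N₁ * q)) :
              s18_F1 K₀ (N₁ * q) →+* s18_F1 K₀ (N₁ * q)) ∧ γ ∉ 𝔪')
    -- (RES) along the three components over one S18 chart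
    {F₀ : Type*} [Field F₀] {ϖ₀ : F₀} {B₁ : Subring F₀}
    {ιA ιB ιC : F₀ →+* s18_F1 K₀ (N₁ * q * q)}
    (H : s36_rsi_Res
      (algebraMap (s18_A1 P K₀) (s18_F1 K₀ (N₁ * q * q)) ((q : ℕ) : s18_A1 P K₀)) z B.toSubring
      (s34_gi_V (s18_A1 P K₀) (N₁ * q * q))
      ((s34_gi_V (s18_A1 P K₀) (N₁ * q * q)).comap
        ((W₁ : s18_F1 K₀ (N₁ * q * q) ≃+* s18_F1 K₀ (N₁ * q * q)) :
          s18_F1 K₀ (N₁ * q * q) →+* s18_F1 K₀ (N₁ * q * q)))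
      VC ϖ₀ B₁ ιA ιB ιC)
    -- the local equation of `C`
    (cpt : ∀ 𝔪 : Ideal B.toSubring, 𝔪.IsMaximal →
      (⟨algebraMap (s18_A1 P K₀) (s18_F1 K₀ (N₁ * q * q)) ((q : ℕ) : s18_A1 P K₀),
        B.algebraMap_mem ((q : ℕ) : s18_A1 P K₀)⟩ : B.toSubring) ∈ 𝔪 →
      (∃ f₀ : B.toSubring, f₀ ∉ 𝔪 ∧
        (algebraMap (s18_A1 P K₀) (s18_F1 K₀ (N₁ * q * q)) ((q : ℕ) : s18_A1 P K₀))⁻¹ *
          (f₀ : s18_F1 K₀ (N₁ * q * q)) ∈ s34_gi_V (s18_A1 P K₀) (N₁ * q * q) ⊓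
          (s34_gi_V (s18_A1 P K₀) (N₁ * q * q)).comap
            ((W₁ : s18_F1 K₀ (N₁ * q * q) ≃+* s18_F1 K₀ (N₁ * q * q)) :
              s18_F1 K₀ (N₁ * q * q) →+* s18_F1 K₀ (N₁ * q * q))) →
      ∃ (z' ε : s18_F1 K₀ (N₁ * q * q)) (e : ℕ), s34_Unif z' VC ∧ z' ∈ s18_loc B.toSubring 𝔪 ∧
        0 < e ∧ ε ∈ s18_loc B.toSubring 𝔪 ∧ ε⁻¹ ∈ VC ∧
        algebraMap (s18_A1 P K₀) (s18_F1 K₀ (N₁ * q * q)) ((q : ℕ) : s18_A1 P K₀) =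
          ε * z' ^ e) :
    s36_ptb_Pts
      (algebraMap (s18_A1 P K₀) (s18_F1 K₀ (N₁ * q * q)) ((q : ℕ) : s18_A1 P K₀)) z B.toSubring
      (s34_gi_V (s18_A1 P K₀) (N₁ * q * q))
      ((s34_gi_V (s18_A1 P K₀) (N₁ * q * q)).comap
        ((W₁ : s18_F1 K₀ (N₁ * q * q) ≃+* s18_F1 K₀ (N₁ * q * q)) :
          s18_F1 K₀ (N₁ * q * q) →+* s18_F1 K₀ (N₁ * q * q)))
      VC (B.algebraMap_mem ((q : ℕ) : s18_A1 P K₀)) ϖ₀ B₁ ιA ιB ιC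
      (fun 𝔪 => s36_pm_TriOut (heckeAlphaBar K₀ (N₁ * q) q).toRingHom
        (algebraMap K₀ (s18_F1 K₀ (N₁ * q)) (q : K₀)) z
        (s34_gi_V (s18_A1 P K₀) (N₁ * q * q))
        ((s34_gi_V (s18_A1 P K₀) (N₁ * q * q)).comap
          ((W₁ : s18_F1 K₀ (N₁ * q * q) ≃+* s18_F1 K₀ (N₁ * q * q)) :
            s18_F1 K₀ (N₁ * q * q) →+* s18_F1 K₀ (N₁ * q * q)))
        VC (s34_gi_V (s18_A1 P K₀) (N₁ * q))
        ((s34_gi_V (s18_A1 P K₀) (N₁ * q)).comap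
          ((w : s18_F1 K₀ (N₁ * q) ≃+* s18_F1 K₀ (N₁ * q)) :
            s18_F1 K₀ (N₁ * q) →+* s18_F1 K₀ (N₁ * q)))
        (@Algebra.norm (s18_F1 K₀ (N₁ * q)) (s18_F1 K₀ (N₁ * q * q)) _ _
          (heckeAlphaBar K₀ (N₁ * q) q).toRingHom.toAlgebra)
        (W₁ : s18_F1 K₀ (N₁ * q * q) ≃+* s18_F1 K₀ (N₁ * q * q)) (q - 1) m r s
        B.toSubring 𝔪) := by
  have hq1 : q - 1 + 1 = q := Nat.sub_add_cancel hq.one_lt.le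
  -- `α q = q`
  have hιϖ : (heckeAlphaBar K₀ (N₁ * q) q).toRingHom
      (algebraMap K₀ (s18_F1 K₀ (N₁ * q)) (q : K₀)) =
      algebraMap (s18_A1 P K₀) (s18_F1 K₀ (N₁ * q * q)) ((q : ℕ) : s18_A1 P K₀) := by
    have h1 : (((q : ℕ) : s18_A1 P K₀) : K₀) = (q : K₀) := by simp
    rw [← h1]
    exact s36_in_alpha_const K₀ N₁ q (((q : ℕ) : s18_A1 P K₀) : K₀)
  -- the exponent
  obtain ⟨u, hu⟩ := hmu
  have hmm : ((m : ℕ) : s18_F1 K₀ (N₁ * q * q)) *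
      algebraMap (s18_A1 P K₀) (s18_F1 K₀ (N₁ * q * q)) ((u⁻¹ : (s18_A1 P K₀)ˣ) : s18_A1 P K₀)
      = 1 := by
    have h1 : ((m : ℕ) : s18_F1 K₀ (N₁ * q * q)) =
        algebraMap (s18_A1 P K₀) (s18_F1 K₀ (N₁ * q * q)) ((m : ℕ) : s18_A1 P K₀) := by
      rw [map_natCast]
    rw [h1, ← hu, ← map_mul, Units.mul_inv, map_one]
  have hm0 : ((m : ℕ) : s18_F1 K₀ (N₁ * q * q)) ≠ 0 := left_ne_zero_of_mul_eq_one hmm
  have hmB : (((m : ℕ) : s18_F1 K₀ (N₁ * q * q)))⁻¹ ∈ B.toSubring := by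
    have h1 : (((m : ℕ) : s18_F1 K₀ (N₁ * q * q)))⁻¹ =
        algebraMap (s18_A1 P K₀) (s18_F1 K₀ (N₁ * q * q))
          ((u⁻¹ : (s18_A1 P K₀)ˣ) : s18_A1 P K₀) := by
      exact inv_eq_of_mul_eq_one_right hmm
    rw [h1]
    exact B.algebraMap_mem _
  have hrs' : r * (((q - 1 + 1 : ℕ)) : ℤ) + s * (m : ℤ) = 1 := by
    rw [hq1]; exact hrs
  -- the swap of the level below
  have hwϖ : ((w : s18_F1 K₀ (N₁ * q) ≃+* s18_F1 K₀ (N₁ * q)) :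
      s18_F1 K₀ (N₁ * q) →+* s18_F1 K₀ (N₁ * q))
      (algebraMap K₀ (s18_F1 K₀ (N₁ * q)) (q : K₀)) =
      algebraMap K₀ (s18_F1 K₀ (N₁ * q)) (q : K₀) := w.commutes _
  exact s36_plq_pts_w (heckeAlphaBar K₀ (N₁ * q) q).toRingHom hpk
    ((w : s18_F1 K₀ (N₁ * q) ≃+* s18_F1 K₀ (N₁ * q)) :
      s18_F1 K₀ (N₁ * q) →+* s18_F1 K₀ (N₁ * q)) hww (fun _ => Iff.rfl) hwϖ m hm0 r s hrs'
    B.toSubring hBV (fun x hx h => by rw [hιϖ] at h ⊢; exact hcap x hx h) hnoeth hfrac hroot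
    hmB hWB hιϖ (B.algebraMap_mem _) B' hB'i hB'0 hwB' hroot' hαB hint
    (fun y hy => by rw [hιϖ]; exact hresαA y hy) hresαC
    (fun y hy => by rw [hιϖ, hq1]; exact hresαB y hy) hthick q
    (fun d _ => s36_in_nm_map K₀ N₁ q hq d) hNB H cpt

end Fermat.Agent.S36
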