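import Mathlib
import Fermat.Agent.S34.FrobModel
import Fermat.Agent.S36.ResSqInst

/-!
# S36 (NODE-3): chart-level (RES) over the level-`q` chart, in the concrete model

`B ⊆ F₂ = K · F_{N q q}` a chart of level `N q q`, `B' ⊆ F₁ = K · F_{N q}` the chart of level
`N q`, `α, β : F₁ → F₂` the two degeneracy maps, `V_A` the Gauss ring at infinity,
`V_B = V_A.comap W`, `V_C` the third component.

* `s36_rq_add`, `s36_rq_pow_step`, `s36_rq_pow_abs`, `s36_rq_beta_abs` : abstract steps.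
* `s36_rq_twist` : **Frobenius twist**: for `u` of level `N q q` with `q`-expansion in the S18
  chart of level `N` there is `v` in the S18 chart with `v(Q^q) ≡ u ^ q` modulo `π V_A`.
* `s36_rq_core` : `B = α B' + (B ∩ π V_A)`, `B = α B' + (B ∩ z V_C)` and
  `y ^ q ∈ α B' + (B ∩ π V_B)` for `y ∈ B`, from the (RES) block `s36_rsi_Res` of level `N`.
* `s36_rq_core_beta` : `B = β B' + (B ∩ z V_C)` when `W` preserves `V_C`.
-/

set_option autoImplicit false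
set_option synthInstance.maxHeartbeats 400000
set_option maxHeartbeats 1000000
set_option linter.unusedSectionVars false
set_option linter.unusedVariables false
set_option linter.style.haveILetI false

open ModularCurve ModularCurve.IgusaScheme Fermat.Agent.S28 Polynomial

noncomputable section

namespace Fermat.Agent.S36

open Fermat.Agent.S18 Fermat.Agent.S34 Fermat.Agent.S35

section Abs

variable {F₀ F₁ F : Type*} [Field F₀] [Field F₁] [Field F]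

/-- Additivity of the Frobenius congruence modulo `ϖ V` (`q ∈ ϖ V`). -/
theorem s36_rq_add {V : Subring F} {ϖ : F} {q : ℕ} (hq : q.Prime) (hqV : ϖ⁻¹ * (q : F) ∈ V)
    {u₁ u₂ g₁ g₂ : F} (hu₁ : u₁ ∈ V) (hu₂ : u₂ ∈ V) (h₁ : ϖ⁻¹ * (g₁ - u₁ ^ q) ∈ V)
    (h₂ : ϖ⁻¹ * (g₂ - u₂ ^ q) ∈ V) : ϖ⁻¹ * (g₁ + g₂ - (u₁ + u₂) ^ q) ∈ V := by
  obtain ⟨r, hr⟩ := exists_add_pow_prime_eq hq (⟨u₁, hu₁⟩ : V) ⟨u₂, hu₂⟩
  have h3 : (u₁ + u₂) ^ q = u₁ ^ q + u₂ ^ q + (q : F) * u₁ * u₂ * (r : F) := by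
    have := congrArg (fun x : V => (x : F)) hr
    simpa using this
  have e : ϖ⁻¹ * (g₁ + g₂ - (u₁ + u₂) ^ q) =
      ϖ⁻¹ * (g₁ - u₁ ^ q) + ϖ⁻¹ * (g₂ - u₂ ^ q) - ϖ⁻¹ * (q : F) * (u₁ * u₂ * (r : F)) := by
    rw [h3]; ring
  rw [e]
  exact V.sub_mem (V.add_mem h₁ h₂) (V.mul_mem hqV (V.mul_mem (V.mul_mem hu₁ hu₂) r.2))

/-- The `q`-th power of `u + ϖ d` modulo `ϖ V`. -/
theorem s36_rq_pow_step {V : Subring F} {ϖ : F} (hϖ0 : ϖ ≠ 0) (hϖV : ϖ ∈ V) {q : ℕ}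
    (hq : q.Prime) (hqV : ϖ⁻¹ * (q : F) ∈ V) {u d g : F} (hu : u ∈ V) (hd : d ∈ V)
    (he : ϖ⁻¹ * (g - u ^ q) ∈ V) : ϖ⁻¹ * ((u + ϖ * d) ^ q - g) ∈ V := by
  obtain ⟨r, hr⟩ := exists_add_pow_prime_eq hq (⟨u, hu⟩ : V) ⟨ϖ * d, V.mul_mem hϖV hd⟩
  have h3 : (u + ϖ * d) ^ q = u ^ q + (ϖ * d) ^ q + (q : F) * u * (ϖ * d) * (r : F) := by
    have := congrArg (fun x : V => (x : F)) hr
    simpa using this
  have hp : (ϖ * d) ^ q = ϖ * (ϖ ^ (q - 1) * d ^ q) := by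
    rw [mul_pow, ← mul_assoc, ← pow_succ', Nat.sub_add_cancel hq.one_le]
  have e : ϖ⁻¹ * ((u + ϖ * d) ^ q - g) =
      ϖ ^ (q - 1) * d ^ q + ϖ⁻¹ * (q : F) * (u * (ϖ * d) * (r : F)) - ϖ⁻¹ * (g - u ^ q) := by
    rw [h3, hp]
    field_simp
    ring
  rw [e]
  exact V.sub_mem (V.add_mem (V.mul_mem (V.pow_mem hϖV _) (V.pow_mem hd _))
    (V.mul_mem hqV (V.mul_mem (V.mul_mem hu (V.mul_mem hϖV hd)) r.2))) he

/-- **(RES) for `q`-th powers** along a `W`-fixed embedding `μ`, from (RES) along `W.symm ∘ ι`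
and the Frobenius congruence `μ v ≡ (ι x) ^ q`. -/
theorem s36_rq_pow_abs (W : F ≃+* F) {ϖ : F} (hϖ0 : ϖ ≠ 0) (hWϖ : W ϖ = ϖ) (VA : Subring F)
    (hϖA : ϖ ∈ VA) {q : ℕ} (hq : q.Prime) (hqV : ϖ⁻¹ * (q : F) ∈ VA) (ι μ : F₀ →+* F)
    (B₁ : Set F₀) (hιV : ∀ x ∈ B₁, ι x ∈ VA) (hWμ : ∀ v : F₀, W (μ v) = μ v)
    (hFT : ∀ x ∈ B₁, ∃ v ∈ B₁, ϖ⁻¹ * (μ v - ι x ^ q) ∈ VA) (B : Set F)
    (hres : ∀ y ∈ B, ∃ x' ∈ B₁, ϖ⁻¹ * (y - W.symm (ι x')) ∈ VA.comap (W : F →+* F)) :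
    ∀ y ∈ B, ∃ v ∈ B₁, ϖ⁻¹ * (y ^ q - μ v) ∈ VA.comap (W : F →+* F) := by
  intro y hy
  obtain ⟨x', hx', h⟩ := hres y hy
  obtain ⟨v, hv, hvx⟩ := hFT x' hx'
  refine ⟨v, hv, ?_⟩
  rw [Subring.mem_comap] at h ⊢
  have h' : ϖ⁻¹ * (W y - ι x') ∈ VA := by
    have e : (W : F →+* F) (ϖ⁻¹ * (y - W.symm (ι x'))) = ϖ⁻¹ * (W y - ι x') := by
      show W (ϖ⁻¹ * (y - W.symm (ι x'))) = _
      rw [map_mul, map_inv₀, hWϖ, map_sub, RingEquiv.apply_symm_apply]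
    rw [← e]; exact h
  have hWy : W y = ι x' + ϖ * (ϖ⁻¹ * (W y - ι x')) := by
    rw [mul_inv_cancel_left₀ hϖ0]; ring
  have e2 : (W : F →+* F) (ϖ⁻¹ * (y ^ q - μ v)) =
      ϖ⁻¹ * ((ι x' + ϖ * (ϖ⁻¹ * (W y - ι x'))) ^ q - μ v) := by
    show W (ϖ⁻¹ * (y ^ q - μ v)) = _
    rw [map_mul, map_inv₀, hWϖ, map_sub, map_pow, hWμ, ← hWy]
  rw [e2]
  exact s36_rq_pow_step hϖ0 hϖA hq hqV (hιV x' hx') h' hvx

/-- **(RES) along `β` from (RES) along `α`** by transport with a swap `W` preserving `V_C`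
(`W ∘ α = β ∘ w`). -/
theorem s36_rq_beta_abs (W : F ≃+* F) (hWW : ∀ x, W (W x) = x) (w : F₁ → F₁)
    (α β : F₁ →+* F) (hWα : ∀ y, W (α y) = β (w y)) (VC : Subring F) {z : F} (hz0 : z ≠ 0)
    (hWC : ∀ x ∈ VC, W x ∈ VC) (hzW : z⁻¹ * W z ∈ VC) (B : Set F) (hWB : ∀ x ∈ B, W x ∈ B)
    (B' : Set F₁) (hwB' : ∀ x ∈ B', w x ∈ B')
    (hres : ∀ y ∈ B, ∃ y' ∈ B', z⁻¹ * (y - α y') ∈ VC) :
    ∀ y ∈ B, ∃ y' ∈ B', z⁻¹ * (y - β y') ∈ VC := by
  intro y hy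
  obtain ⟨y'', hy'', h⟩ := hres (W y) (hWB y hy)
  refine ⟨w y'', hwB' _ hy'', ?_⟩
  have hWz : W z ≠ 0 := (map_ne_zero W).mpr hz0
  have e : z⁻¹ * (y - β (w y'')) = z⁻¹ * W z * W (z⁻¹ * (W y - α y'')) := by
    rw [map_mul, map_inv₀, map_sub, hWW, hWα]
    field_simp
  rw [e]
  exact VC.mul_mem hzW (hWC _ h)

end Abs

section Model

variable {N q : ℕ} [NeZero N] [NeZero q] [NeZero (N * q)] [NeZero (N * q * q)] [Fact q.Prime]
variable {K : Type*} [Field K] [Algebra ℚ K] (A : ValuationSubring K)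
variable [IsDiscreteValuationRing A] {π : A}

local notation "F₀" => laurentBaseChange K (modularFunctionFieldFull N)
local notation "F₁" => laurentBaseChange K (modularFunctionFieldFull (N * q))
local notation "F₂" => laurentBaseChange K (modularFunctionFieldFull (N * q * q))

/-- The middle embedding `x ↦ x(Q^q)` of level `N` into level `N q q`. -/
abbrev s36_rq_mid (K : Type*) [Field K] [Algebra ℚ K] (N q : ℕ) [NeZero N] [NeZero q]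
    [NeZero (N * q)] [NeZero (N * q * q)] :
    laurentBaseChange K (modularFunctionFieldFull N) →+*
      laurentBaseChange K (modularFunctionFieldFull (N * q * q)) :=
  (heckeAlphaBar K (N * q) q).toRingHom.comp (heckeBetaBar K N q).toRingHom

/-- The `q`-expansion of the middle embedding. -/
theorem s36_rq_coe_mid (x : F₀) :
    ((s36_rq_mid K N q x : F₂) : LaurentSeries K) = qExpand K q (x : LaurentSeries K) := by
  show ((heckeAlphaBar K (N * q) q (heckeBetaBar K N q x) : F₂) : LaurentSeries K) = _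
  rw [coe_heckeAlphaBar, coe_heckeBetaBar]

/-- The middle embedding commutes with the constants. -/
theorem s36_rq_mid_algebraMap (a : K) :
    s36_rq_mid K N q (algebraMap K F₀ a) = algebraMap K F₂ a := by
  show heckeAlphaBar K (N * q) q (heckeBetaBar K N q (algebraMap K F₀ a)) = _
  rw [AlgHom.commutes, AlgHom.commutes]

/-- The middle embedding is also `β ∘ α`. -/
theorem s36_rq_mid_eq (x : F₀) :
    heckeBetaBar K (N * q) q (heckeAlphaBar K N q x) = s36_rq_mid K N q x := by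
  apply Subtype.ext
  rw [s36_rq_coe_mid, coe_heckeBetaBar, coe_heckeAlphaBar]

/-- **Frobenius twist.**  For `u` of level `N q q` whose `q`-expansion lies in the S18 chart of
level `N`: `u` lies in the Gauss ring and there is `v` in the S18 chart with
`v(Q^q) ≡ u ^ q` modulo `π`. -/
theorem s36_rq_twist (hℓ : ((q : K))⁻¹ ∉ A) (hπ : Irreducible π) (c : A)
    (hc : ((q : ℕ) : A) = π * c) (t₀ : modularFunctionFieldFull N)
    (hCW : ∀ x ∈ s18_czRing N q t₀, x ∈ Wring q)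
    (u : F₂) (hu : (u : LaurentSeries K) ∈ s18_chRing N q A t₀) :
    u ∈ s34_gi_V A (N * q * q) ∧ ∃ v : F₀, v ∈ s18_chAlg N q A t₀ ∧
      (algebraMap K F₂ (π : K))⁻¹ * (s36_rq_mid K N q v - u ^ q) ∈ s34_gi_V A (N * q * q) := by
  have hq : q.Prime := Fact.out
  have hϖ0 : algebraMap K F₂ (π : K) ≠ 0 :=
    (map_ne_zero (algebraMap K F₂)).mpr (fun h => hπ.ne_zero (Subtype.ext h))
  have hqV : (algebraMap K F₂ (π : K))⁻¹ * ((q : ℕ) : F₂) ∈ s34_gi_V A (N * q * q) := by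
    have e0 : ((q : ℕ) : K) = (π : K) * (c : K) := by
      have := congrArg (fun a : A => (a : K)) hc
      simpa using this
    have e : ((q : ℕ) : F₂) = algebraMap K F₂ (π : K) * algebraMap K F₂ (c : K) := by
      rw [← map_mul, ← e0, map_natCast]
    rw [e, inv_mul_cancel_left₀ hϖ0]
    exact s34_gi_algebraMap_mem c
  have hmidA : ∀ b : A, s36_rq_mid K N q (algebraMap A F₀ b) = algebraMap A F₂ b :=
    fun b => s36_rq_mid_algebraMap (b : K)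
  have hAV : ∀ b : A, algebraMap A F₂ b ∈ s34_gi_V A (N * q * q) :=
    fun b => s34_gi_algebraMap_mem b
  have hspan := s34_fc_span (K := K) (N' := N) (N := N * q * q) (ℓ := q) A
    (Dvd.intro (q * q) (mul_assoc N q q).symm) t₀ u hu
  refine AddSubgroup.closure_induction
    (p := fun u _ => u ∈ s34_gi_V A (N * q * q) ∧ ∃ v : F₀, v ∈ s18_chAlg N q A t₀ ∧
      (algebraMap K F₂ (π : K))⁻¹ * (s36_rq_mid K N q v - u ^ q) ∈ s34_gi_V A (N * q * q))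
    ?_ ?_ ?_ ?_ hspan
  · -- generators
    rintro u ⟨a, f, hf, rfl⟩
    obtain ⟨x₀, hx₀, hfx⟩ := id hf
    have hv₀mem : coeffMap (algebraMap ℚ K) x₀ ∈ laurentBaseChange K (modularFunctionFieldFull N) :=
      s34_fc_rat_mem (K := K) (N' := N) (N := N) (ℓ := q) (dvd_refl N) hx₀
    have hv₀ : (⟨coeffMap (algebraMap ℚ K) x₀, hv₀mem⟩ : F₀) ∈ s18_chAlg N q A t₀ := by
      show coeffMap (algebraMap ℚ K) x₀ ∈ s18_chRing N q A t₀
      exact s18_map_mem_chSpan hx₀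
    have hg : ((s36_rq_mid K N q ⟨coeffMap (algebraMap ℚ K) x₀, hv₀mem⟩ : F₂) :
        LaurentSeries K) = qExpand K q (f : LaurentSeries K) := by
      rw [s36_rq_coe_mid, hfx]
    have hfrob := s34_fc_frob_inf (K := K) (N' := N) (N := N * q * q) A hℓ hπ t₀ hCW f
      (s36_rq_mid K N q ⟨coeffMap (algebraMap ℚ K) x₀, hv₀mem⟩) hf hg
    have hfV : f ∈ s34_gi_V A (N * q * q) := by
      show (f : LaurentSeries K) ∈ s18_W A.subtype (IsLocalRing.residue A)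
      rw [hfx]
      exact s34_fc_rat_mem_W q A hℓ x₀ (hCW x₀ hx₀)
    refine ⟨Subring.mul_mem _ (hAV a) hfV,
      algebraMap A F₀ (a ^ q) * ⟨coeffMap (algebraMap ℚ K) x₀, hv₀mem⟩,
      (s18_chAlg N q A t₀).mul_mem ((s18_chAlg N q A t₀).algebraMap_mem _) hv₀, ?_⟩
    have e : (algebraMap K F₂ (π : K))⁻¹ *
        (s36_rq_mid K N q (algebraMap A F₀ (a ^ q) * ⟨coeffMap (algebraMap ℚ K) x₀, hv₀mem⟩) -
          (algebraMap A F₂ a * f) ^ q) =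
        algebraMap A F₂ (a ^ q) * ((algebraMap K F₂ (π : K))⁻¹ *
          (s36_rq_mid K N q ⟨coeffMap (algebraMap ℚ K) x₀, hv₀mem⟩ - f ^ q)) := by
      rw [map_mul, hmidA, mul_pow, map_pow]
      ring
    rw [e]
    exact Subring.mul_mem _ (hAV _) hfrob
  · -- zero
    refine ⟨Subring.zero_mem _, 0, Subalgebra.zero_mem _, ?_⟩
    rw [map_zero, zero_pow hq.ne_zero, sub_zero, mul_zero]
    exact Subring.zero_mem _
  · -- sums
    rintro u u' - - ⟨hu1, v, hv, hvu⟩ ⟨hu1', v', hv', hvu'⟩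
    refine ⟨Subring.add_mem _ hu1 hu1', v + v', Subalgebra.add_mem _ hv hv', ?_⟩
    rw [map_add]
    exact s36_rq_add hq hqV hu1 hu1' hvu hvu'
  · -- negatives
    rintro u - ⟨hu1, v, hv, hvu⟩
    refine ⟨Subring.neg_mem _ hu1, algebraMap A F₀ ((-1) ^ q) * v,
      (s18_chAlg N q A t₀).mul_mem ((s18_chAlg N q A t₀).algebraMap_mem _) hv, ?_⟩
    have e : (algebraMap K F₂ (π : K))⁻¹ *
        (s36_rq_mid K N q (algebraMap A F₀ ((-1) ^ q) * v) - (-u) ^ q) =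
        algebraMap A F₂ ((-1) ^ q) * ((algebraMap K F₂ (π : K))⁻¹ *
          (s36_rq_mid K N q v - u ^ q)) := by
      have e1 : (-u) ^ q = (-1 : F₂) ^ q * u ^ q := neg_pow u q
      have e2 : algebraMap A F₂ ((-1) ^ q) = (-1 : F₂) ^ q := by
        rw [map_pow, map_neg, map_one]
      rw [map_mul, hmidA, e1, e2]
      ring
    rw [e]
    exact Subring.mul_mem _ (hAV _) hvu

/-- **(RES) over the level-`q` chart** along `α`, for the components `A`, `C` and (for `q`-th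
powers) `B`, from the (RES) block of level `N`. -/
theorem s36_rq_core (hℓ : ((q : K))⁻¹ ∉ A) (hπ : Irreducible π) (c : A)
    (hc : ((q : ℕ) : A) = π * c) (t₀ : modularFunctionFieldFull N)
    (hCW : ∀ x ∈ s18_czRing N q t₀, x ∈ Wring q)
    (B : Subring F₂) (VC : Subring F₂) {z : F₂}
    (W : F₂ ≃+* F₂) (hWϖ : W (algebraMap A F₂ π) = algebraMap A F₂ π)
    (hWmid : ∀ v : F₀, W (s36_rq_mid K N q v) = s36_rq_mid K N q v)
    (H : s36_rsi_Res (algebraMap A F₂ π) z B (s34_gi_V A (N * q * q))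
      ((s34_gi_V A (N * q * q)).comap (W : F₂ →+* F₂)) VC
      (algebraMap A F₀ π) (s18_chAlg N q A t₀).toSubring (s36_rsm_incl2 K N q)
      ((W.symm : F₂ →+* F₂).comp (s36_rsm_incl2 K N q)) (s36_rsm_incl2 K N q))
    (B' : Subring F₁)
    (hαB' : ∀ x ∈ s18_chAlg N q A t₀, heckeAlphaBar K N q x ∈ B')
    (hβB' : ∀ x ∈ s18_chAlg N q A t₀, heckeBetaBar K N q x ∈ B') :
    (∀ y ∈ B, ∃ y' ∈ B', (algebraMap A F₂ π)⁻¹ *
      (y - (heckeAlphaBar K (N * q) q).toRingHom y') ∈ s34_gi_V A (N * q * q)) ∧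
    (∀ y ∈ B, ∃ y' ∈ B', z⁻¹ * (y - (heckeAlphaBar K (N * q) q).toRingHom y') ∈ VC) ∧
    (∀ y ∈ B, ∃ y' ∈ B', (algebraMap A F₂ π)⁻¹ *
      (y ^ q - (heckeAlphaBar K (N * q) q).toRingHom y') ∈
        (s34_gi_V A (N * q * q)).comap (W : F₂ →+* F₂)) := by
  have hq : q.Prime := Fact.out
  have hVA : s34_Unif (algebraMap A F₂ π) (s34_gi_V A (N * q * q)) := s34_lg_unif hπ
  have hϖ0 := hVA.ne_zero
  have htw : ∀ x ∈ s18_chAlg N q A t₀,
      s36_rsm_incl2 K N q x ∈ s34_gi_V A (N * q * q) ∧ ∃ v : F₀, v ∈ s18_chAlg N q A t₀ ∧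
        (algebraMap K F₂ (π : K))⁻¹ * (s36_rq_mid K N q v - s36_rsm_incl2 K N q x ^ q) ∈
          s34_gi_V A (N * q * q) := by
    intro x hx
    refine s36_rq_twist A hℓ hπ c hc t₀ hCW (s36_rsm_incl2 K N q x) ?_
    rw [s36_rsm_coe_incl2]
    exact s18_mem_chAlg.mp hx
  have hqV : (algebraMap A F₂ π)⁻¹ * ((q : ℕ) : F₂) ∈ s34_gi_V A (N * q * q) := by
    have e0 : ((q : ℕ) : K) = (π : K) * (c : K) := by
      have := congrArg (fun a : A => (a : K)) hc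
      simpa using this
    have e : ((q : ℕ) : F₂) = algebraMap A F₂ π * algebraMap K F₂ (c : K) := by
      show ((q : ℕ) : F₂) = algebraMap K F₂ (π : K) * algebraMap K F₂ (c : K)
      rw [← map_mul, ← e0, map_natCast]
    rw [e, inv_mul_cancel_left₀ hϖ0]
    exact s34_gi_algebraMap_mem c
  refine ⟨fun y hy => ?_, fun y hy => ?_, fun y hy => ?_⟩
  · obtain ⟨x', hx', h⟩ := H.resA y hy
    exact ⟨heckeAlphaBar K N q x', hαB' x' hx', h⟩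
  · obtain ⟨x', hx', h⟩ := H.resC y hy
    exact ⟨heckeAlphaBar K N q x', hαB' x' hx', h⟩
  · obtain ⟨v, hv, h⟩ := s36_rq_pow_abs W hϖ0 hWϖ (s34_gi_V A (N * q * q)) hVA.mem hq hqV
      (s36_rsm_incl2 K N q) (s36_rq_mid K N q) (B₁ := {x | x ∈ s18_chAlg N q A t₀})
      (fun x hx => (htw x hx).1) hWmid (fun x hx => (htw x hx).2) (B := {y | y ∈ B})
      (fun y hy => H.resB y hy) y hy
    exact ⟨heckeBetaBar K N q v, hβB' v hv, h⟩

/-- **(RES) over the level-`q` chart along `β`** for the component `C`, when the swap `W`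
preserves `V_C`. -/
theorem s36_rq_core_beta (B : Subring F₂) (VC : Subring F₂) {z : F₂} (hVC : s34_Unif z VC)
    (W : F₂ ≃+* F₂) (hWW : ∀ x, W (W x) = x) (w : F₁ ≃+* F₁)
    (hWα : ∀ y : F₁, W (heckeAlphaBar K (N * q) q y) = heckeBetaBar K (N * q) q (w y))
    (hWC : ∀ x, x ∈ VC ↔ W x ∈ VC) (hWB : ∀ x ∈ B, W x ∈ B)
    (B' : Subring F₁) (hwB' : ∀ x ∈ B', w x ∈ B')
    (hres : ∀ y ∈ B, ∃ y' ∈ B', z⁻¹ * (y - (heckeAlphaBar K (N * q) q).toRingHom y') ∈ VC) :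
    ∀ y ∈ B, ∃ y' ∈ B', z⁻¹ * (y - (heckeBetaBar K (N * q) q).toRingHom y') ∈ VC :=
  s36_rq_beta_abs W hWW w (heckeAlphaBar K (N * q) q).toRingHom
    (heckeBetaBar K (N * q) q).toRingHom hWα VC hVC.ne_zero (fun x hx => (hWC x).mp hx)
    (s36_pm_swap_unif hVC W hWC) {y | y ∈ B} hWB {y | y ∈ B'} hwB' hres

/-- The S18 chart of level `N` maps into the integral-closure chart of level `N q` under both
degeneracy maps (given that `t(Q^q)` lies in that chart). -/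
theorem s36_rq_lvlq {t₀ : modularFunctionFieldFull N}
    (hsm : s18_SmHyp π (s18_coord K t₀) (s18_chAlg N q A t₀)) (T₁ : F₁)
    (hT₁ : heckeAlphaBar K N q (s18_coord K t₀) = T₁)
    (hvq : heckeBetaBar K N q (s18_coord K t₀) ∈ s34_ic_chart A T₁) :
    (∀ x ∈ s18_chAlg N q A t₀, heckeAlphaBar K N q x ∈ (s34_ic_chart A T₁).toSubring) ∧
    (∀ x ∈ s18_chAlg N q A t₀, heckeBetaBar K N q x ∈ (s34_ic_chart A T₁).toSubring) := by
  subst hT₁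
  have hα : ∀ a : A, (heckeAlphaBar K N q).toRingHom (algebraMap A F₀ a) = algebraMap A F₁ a :=
    fun a => (heckeAlphaBar K N q).commutes (a : K)
  have hβ : ∀ a : A, (heckeBetaBar K N q).toRingHom (algebraMap A F₀ a) = algebraMap A F₁ a :=
    fun a => (heckeBetaBar K N q).commutes (a : K)
  exact ⟨fun x hx => s36_rsm_incl_mem_ic (A := A) (heckeAlphaBar K N q).toRingHom hα hsm x hx,
    fun x hx => s36_ws2_ic_trans hvq
      (s36_rsm_incl_mem_ic (A := A) (heckeBetaBar K N q).toRingHom hβ hsm x hx)⟩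

end Model

local notation "Qb" => AlgebraicClosure ℚ

section Concrete

variable {N q : ℕ} [NeZero N] [NeZero q] [NeZero (N * q)] [NeZero (N * q * q)] [Fact q.Prime]
variable (A : ValuationSubring Qb) (hA : A.LiesOverPrime q)
variable (K₁ : IntermediateField ℚ Qb) [NumberField K₁]
variable [IsDiscreteValuationRing (s18_A1 A K₁)]

/-- The four (RES) statements over the level-`q` chart `B'`, for a chart `B` of level `N q q`. -/
def s36_rq_Four (π : s18_A1 A K₁) (z : s18_F1 K₁ (N * q * q))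
    (B VC : Subring (s18_F1 K₁ (N * q * q))) (B' : Subring (s18_F1 K₁ (N * q)))
    (W : s18_F1 K₁ (N * q * q) ≃+* s18_F1 K₁ (N * q * q)) : Prop :=
  (∀ y ∈ B, ∃ y' ∈ B', (algebraMap (s18_A1 A K₁) (s18_F1 K₁ (N * q * q)) π)⁻¹ *
    (y - (heckeAlphaBar K₁ (N * q) q).toRingHom y') ∈ s34_gi_V (s18_A1 A K₁) (N * q * q)) ∧
  (∀ y ∈ B, ∃ y' ∈ B', z⁻¹ * (y - (heckeAlphaBar K₁ (N * q) q).toRingHom y') ∈ VC) ∧
  (∀ y ∈ B, ∃ y' ∈ B', (algebraMap (s18_A1 A K₁) (s18_F1 K₁ (N * q * q)) π)⁻¹ *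
    (y ^ q - (heckeAlphaBar K₁ (N * q) q).toRingHom y') ∈
      (s34_gi_V (s18_A1 A K₁) (N * q * q)).comap
        (W : s18_F1 K₁ (N * q * q) →+* s18_F1 K₁ (N * q * q))) ∧
  ((∀ x, x ∈ VC ↔ W x ∈ VC) →
    ∀ y ∈ B, ∃ y' ∈ B', z⁻¹ * (y - (heckeBetaBar K₁ (N * q) q).toRingHom y') ∈ VC)

include hA in
/-- **The four (RES) statements over the level-`q` chart, one coordinate.** -/
theorem s36_rq_pair (hqN : ¬ q ∣ N) (M : ℕ) (hqM : q ≠ M) (hMN : M ∣ N)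
    {π : s18_A1 A K₁} (hπ : Irreducible π) (c : s18_A1 A K₁)
    (hc : ((q : ℕ) : s18_A1 A K₁) = π * c)
    (t₀ : modularFunctionFieldFull N) (hcoord : s18_cz_Coord N q t₀)
    (hsm : s18_SmHyp π (s18_coord K₁ t₀) (s18_chAlg N q (s18_A1 A K₁) t₀))
    (Th : s18_F1 K₁ N)
    (hHaupt : Fermat.Agent.S37.s37_IsHaupt M
      (s18_baseIncl K₁ (N * q) (heckeAlphaBar K₁ N q Th)))
    (hU : s18_coord K₁ t₀ = Th ∨ s18_coord K₁ t₀ = Th⁻¹)
    (T₁ : s18_F1 K₁ (N * q)) (hT₁ : heckeAlphaBar K₁ N q (s18_coord K₁ t₀) = T₁)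
    (w : s18_F1 K₁ (N * q) ≃+* s18_F1 K₁ (N * q))
    (hwα : ∀ x : s18_F1 K₁ N, w (heckeAlphaBar K₁ N q x) = heckeBetaBar K₁ N q x)
    (hwβ : ∀ x : s18_F1 K₁ N, w (heckeBetaBar K₁ N q x) = heckeAlphaBar K₁ N q x)
    (hwB' : ∀ x ∈ (s34_ic_chart (s18_A1 A K₁) T₁).toSubring,
      w x ∈ (s34_ic_chart (s18_A1 A K₁) T₁).toSubring)
    (VC : Subring (s18_F1 K₁ (N * q * q))) {z : s18_F1 K₁ (N * q * q)} (hVC : s34_Unif z VC)
    (W : s18_F1 K₁ (N * q * q) ≃+* s18_F1 K₁ (N * q * q)) (hWW : ∀ x, W (W x) = x)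
    (hWϖ : W (algebraMap (s18_A1 A K₁) (s18_F1 K₁ (N * q * q)) π) =
      algebraMap (s18_A1 A K₁) (s18_F1 K₁ (N * q * q)) π)
    (hWα : ∀ y : s18_F1 K₁ (N * q),
      W (heckeAlphaBar K₁ (N * q) q y) = heckeBetaBar K₁ (N * q) q (w y))
    (B : Subring (s18_F1 K₁ (N * q * q))) (hWB : ∀ x ∈ B, W x ∈ B)
    (H : s36_rsi_Res (algebraMap (s18_A1 A K₁) (s18_F1 K₁ (N * q * q)) π) z B
      (s34_gi_V (s18_A1 A K₁) (N * q * q))
      ((s34_gi_V (s18_A1 A K₁) (N * q * q)).comap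
        (W : s18_F1 K₁ (N * q * q) →+* s18_F1 K₁ (N * q * q)))
      VC
      (algebraMap (s18_A1 A K₁) (s18_F1 K₁ N) π) (s18_chAlg N q (s18_A1 A K₁) t₀).toSubring
      (s36_rsm_incl2 K₁ N q)
      ((W.symm : s18_F1 K₁ (N * q * q) →+* s18_F1 K₁ (N * q * q)).comp (s36_rsm_incl2 K₁ N q))
      (s36_rsm_incl2 K₁ N q)) :
    s36_rq_Four A K₁ π z B VC (s34_ic_chart (s18_A1 A K₁) T₁).toSubring W := by
  have hq : q.Prime := Fact.out
  have hℓ : ((q : K₁))⁻¹ ∉ s18_A1 A K₁ := s18_a1_ell A hA K₁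
  obtain ⟨Bc, hBc⟩ := core N q hqN
  have hCW : ∀ x ∈ s18_czRing N q t₀, x ∈ Wring q := by
    intro x hx
    have := s18_czRing_le_W hcoord hBc x hx
    rwa [← s18_Wring_eq] at this
  -- `t(Q^q)` lies in the level-`q` chart
  have ht' : heckeAlphaBar K₁ N q (s18_coord K₁ t₀) = heckeAlphaBar K₁ N q Th ∨
      heckeAlphaBar K₁ N q (s18_coord K₁ t₀) = (heckeAlphaBar K₁ N q Th)⁻¹ := by
    rcases hU with h | h
    · exact Or.inl (congrArg _ h)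
    · exact Or.inr ((congrArg (heckeAlphaBar K₁ N q) h).trans
        (map_inv₀ (heckeAlphaBar K₁ N q) Th))
  have hvq0 : heckeBetaBar K₁ N q (s18_coord K₁ t₀) ∈
      s34_ic_chart (s18_A1 A K₁) (heckeAlphaBar K₁ N q (s18_coord K₁ t₀)) :=
    s34_ws_vq_mem N q M hq hqN hqM hMN A hA K₁ (heckeAlphaBar K₁ N q Th) hHaupt
      (heckeAlphaBar K₁ N q (s18_coord K₁ t₀)) ht' (heckeBetaBar K₁ N q (s18_coord K₁ t₀))
      (by rw [coe_heckeBetaBar, coe_heckeAlphaBar])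
  have hvq : heckeBetaBar K₁ N q (s18_coord K₁ t₀) ∈ s34_ic_chart (s18_A1 A K₁) T₁ :=
    Eq.mp (congrArg (fun T => heckeBetaBar K₁ N q (s18_coord K₁ t₀) ∈
      s34_ic_chart (s18_A1 A K₁) T) hT₁) hvq0
  obtain ⟨hαB', hβB'⟩ := s36_rq_lvlq (s18_A1 A K₁) hsm T₁ hT₁ hvq
  have hWmid : ∀ v : s18_F1 K₁ N, W (s36_rq_mid K₁ N q v) = s36_rq_mid K₁ N q v := by
    intro v
    show W (heckeAlphaBar K₁ (N * q) q (heckeBetaBar K₁ N q v)) = _
    rw [hWα, hwβ]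
    exact s36_rq_mid_eq v
  obtain ⟨hA1, hC1, hB1⟩ := s36_rq_core (s18_A1 A K₁) hℓ hπ c hc t₀ hCW B VC W hWϖ hWmid H
    (s34_ic_chart (s18_A1 A K₁) T₁).toSubring hαB' hβB'
  exact ⟨hA1, hC1, hB1, fun hWC => s36_rq_core_beta B VC hVC W hWW w hWα hWC hWB
    (s34_ic_chart (s18_A1 A K₁) T₁).toSubring hwB' hC1⟩

include hA in
/-- **The four (RES) statements over the level-`q` charts, for both charts of `t2`.** -/
theorem s36_rq_res_t2 (hqN : ¬ q ∣ N) (hM : 2 ∣ N) (hMq : 2 ∣ N * q) (hML : 2 ∣ N * q * q)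
    {π : s18_A1 A K₁} (hπ : Irreducible π) (c : s18_A1 A K₁)
    (hc : ((q : ℕ) : s18_A1 A K₁) = π * c)
    -- the swap of level `N q`
    (w : s18_F1 K₁ (N * q) ≃+* s18_F1 K₁ (N * q))
    (hwc : ∀ c : K₁, w (algebraMap K₁ (s18_F1 K₁ (N * q)) c) =
      algebraMap K₁ (s18_F1 K₁ (N * q)) c)
    (hwα : ∀ x : s18_F1 K₁ N, w (heckeAlphaBar K₁ N q x) = heckeBetaBar K₁ N q x)
    (hwβ : ∀ x : s18_F1 K₁ N, w (heckeBetaBar K₁ N q x) = heckeAlphaBar K₁ N q x)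
    -- the component `C`
    (VC : Subring (s18_F1 K₁ (N * q * q))) {z : s18_F1 K₁ (N * q * q)} (hVC : s34_Unif z VC)
    (hαC : ∀ y ∈ s34_gi_V (s18_A1 A K₁) (N * q), (heckeAlphaBar K₁ (N * q) q).toRingHom y ∈ VC)
    (hne : s34_gi_V (s18_A1 A K₁) (N * q * q) ≠ VC)
    (hzn : algebraMap K₁ (s18_F1 K₁ (N * q * q)) (π : K₁) * (z ^ (q - 1))⁻¹ ∈ VC)
    -- the swap of level `N q q`
    (W : s18_F1 K₁ (N * q * q) ≃+* s18_F1 K₁ (N * q * q)) (hWW : ∀ x, W (W x) = x)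
    (hWc : ∀ c : K₁, W (algebraMap K₁ (s18_F1 K₁ (N * q * q)) c) =
      algebraMap K₁ (s18_F1 K₁ (N * q * q)) c)
    (hWα : ∀ y : s18_F1 K₁ (N * q),
      W (heckeAlphaBar K₁ (N * q) q y) = heckeBetaBar K₁ (N * q) q (w y)) :
    s36_rq_Four A K₁ π z (s34_md_B0 A K₁ (N * q * q) (s18_cz_t2 (N * q * q) hML)).toSubring VC
      (s34_md_B0 A K₁ (N * q) (s18_cz_t2 (N * q) hMq)).toSubring W ∧
    s36_rq_Four A K₁ π z (s34_md_Binf A K₁ (N * q * q) (s18_cz_t2 (N * q * q) hML)).toSubring VC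
      (s34_md_Binf A K₁ (N * q) (s18_cz_t2 (N * q) hMq)).toSubring W := by
  have hq : q.Prime := Fact.out
  have hqM : q ≠ 2 := fun h => hqN (h ▸ hM)
  have hℓ : ((q : K₁))⁻¹ ∉ s18_A1 A K₁ := s18_a1_ell A hA K₁
  have hP := s36_ng_ch_pkg_t2 (K := K₁) (A := s18_A1 A K₁) hℓ hqN hM π hπ
  have hcoord := s18_cz_coord_t2 N q hM hqM
  have hsmInf : s18_SmHyp π (s18_coord K₁ (s18_cz_t2 N hM)⁻¹)
      (s18_chAlg N q (s18_A1 A K₁) (s18_cz_t2 N hM)⁻¹) := by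
    rw [s18_coord_inv]
    exact hP.smInf
  have hWt : W (s36_rsm_incl2 K₁ N q (s18_coord K₁ (s18_cz_t2 N hM))) =
      heckeBetaBar K₁ (N * q) q (heckeBetaBar K₁ N q (s18_coord K₁ (s18_cz_t2 N hM))) := by
    show W (heckeAlphaBar K₁ (N * q) q (heckeAlphaBar K₁ N q (s18_coord K₁ (s18_cz_t2 N hM)))) = _
    rw [hWα, hwα]
  obtain ⟨H0, Hi⟩ := s36_rsi_res_t2 A hA K₁ hqN hM hML hπ c hc w (hwc (π : K₁)) hwα hwβ VC hVC
    hαC hne hzn W hWW hWc hWt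
  obtain ⟨hW0, hWi⟩ := s36_ws2_stable_t2 N q K₁ A hq hqN hM hML hA W hWW hWc hWt
  -- the coordinate of level `N q`
  have e1 : heckeAlphaBar K₁ N q (s18_coord K₁ (s18_cz_t2 N hM)) =
      s18_coord K₁ (s18_cz_t2 (N * q) hMq) :=
    s34_lc_incl_coord q _ ((s18_cz_coe_t2 (N * q) hMq).trans (s18_cz_coe_t2 N hM).symm)
  have e1i : heckeAlphaBar K₁ N q (s18_coord K₁ (s18_cz_t2 N hM)⁻¹) =
      (s18_coord K₁ (s18_cz_t2 (N * q) hMq))⁻¹ :=
    (congrArg (heckeAlphaBar K₁ N q) (s18_coord_inv (s18_cz_t2 N hM))).trans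
      ((map_inv₀ (heckeAlphaBar K₁ N q) _).trans (congrArg (fun y => y⁻¹) e1))
  -- the charts of level `N q` are stable under `w`
  have hwt : ((w (s18_coord K₁ (s18_cz_t2 (N * q) hMq)) : s18_F1 K₁ (N * q)) :
      LaurentSeries K₁) =
      qExpand K₁ q ((s18_coord K₁ (s18_cz_t2 (N * q) hMq) : s18_F1 K₁ (N * q)) :
        LaurentSeries K₁) := by
    have h1 : w (heckeAlphaBar K₁ N q (s18_coord K₁ (s18_cz_t2 N hM))) =
        heckeBetaBar K₁ N q (s18_coord K₁ (s18_cz_t2 N hM)) := hwα _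
    rw [e1] at h1
    have e1coe : ((s18_coord K₁ (s18_cz_t2 (N * q) hMq) : s18_F1 K₁ (N * q)) :
        LaurentSeries K₁) =
        ((s18_coord K₁ (s18_cz_t2 N hM) : s18_F1 K₁ N) : LaurentSeries K₁) := by
      rw [← e1, coe_heckeAlphaBar]
    rw [h1, coe_heckeBetaBar, e1coe]
  obtain ⟨hw0, hwi⟩ := s34_ws_chart_stable N q 2 hq hqN hqM hM A hA K₁
    (s18_coord K₁ (s18_cz_t2 (N * q) hMq)) (s34_ws_isHaupt_t2 (N * q) K₁ hMq)
    (w : s18_F1 K₁ (N * q) →+* s18_F1 K₁ (N * q)) hwc hwt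
  have hWϖ : W (algebraMap (s18_A1 A K₁) (s18_F1 K₁ (N * q * q)) π) =
      algebraMap (s18_A1 A K₁) (s18_F1 K₁ (N * q * q)) π := hWc (π : K₁)
  exact ⟨s36_rq_pair A hA K₁ hqN 2 hqM hM hπ c hc (s18_cz_t2 N hM) hcoord hP.sm0
      (s18_coord K₁ (s18_cz_t2 N hM)) (s36_ws2_isHaupt_t2 N q K₁ hM) (Or.inl rfl) _ e1 w hwα hwβ
      (fun x hx => hw0 x hx) VC hVC W hWW hWϖ hWα _ (fun x hx => (hW0 x hx).1) H0,
    s36_rq_pair A hA K₁ hqN 2 hqM hM hπ c hc (s18_cz_t2 N hM)⁻¹ hcoord.inv hsmInf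
      (s18_coord K₁ (s18_cz_t2 N hM)) (s36_ws2_isHaupt_t2 N q K₁ hM)
      (Or.inr (s18_coord_inv (s18_cz_t2 N hM))) _ e1i w hwα hwβ
      (fun x hx => hwi x hx) VC hVC W hWW hWϖ hWα _ (fun x hx => (hWi x hx).1) Hi⟩

include hA in
/-- **The four (RES) statements over the level-`q` charts, for both charts of `t3`.** -/
theorem s36_rq_res_t3 (hqN : ¬ q ∣ N) (hM : 3 ∣ N) (hMq : 3 ∣ N * q) (hML : 3 ∣ N * q * q)
    {π : s18_A1 A K₁} (hπ : Irreducible π) (c : s18_A1 A K₁)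
    (hc : ((q : ℕ) : s18_A1 A K₁) = π * c)
    -- the swap of level `N q`
    (w : s18_F1 K₁ (N * q) ≃+* s18_F1 K₁ (N * q))
    (hwc : ∀ c : K₁, w (algebraMap K₁ (s18_F1 K₁ (N * q)) c) =
      algebraMap K₁ (s18_F1 K₁ (N * q)) c)
    (hwα : ∀ x : s18_F1 K₁ N, w (heckeAlphaBar K₁ N q x) = heckeBetaBar K₁ N q x)
    (hwβ : ∀ x : s18_F1 K₁ N, w (heckeBetaBar K₁ N q x) = heckeAlphaBar K₁ N q x)
    -- the component `C`
    (VC : Subring (s18_F1 K₁ (N * q * q))) {z : s18_F1 K₁ (N * q * q)} (hVC : s34_Unif z VC)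
    (hαC : ∀ y ∈ s34_gi_V (s18_A1 A K₁) (N * q), (heckeAlphaBar K₁ (N * q) q).toRingHom y ∈ VC)
    (hne : s34_gi_V (s18_A1 A K₁) (N * q * q) ≠ VC)
    (hzn : algebraMap K₁ (s18_F1 K₁ (N * q * q)) (π : K₁) * (z ^ (q - 1))⁻¹ ∈ VC)
    -- the swap of level `N q q`
    (W : s18_F1 K₁ (N * q * q) ≃+* s18_F1 K₁ (N * q * q)) (hWW : ∀ x, W (W x) = x)
    (hWc : ∀ c : K₁, W (algebraMap K₁ (s18_F1 K₁ (N * q * q)) c) =
      algebraMap K₁ (s18_F1 K₁ (N * q * q)) c)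
    (hWα : ∀ y : s18_F1 K₁ (N * q),
      W (heckeAlphaBar K₁ (N * q) q y) = heckeBetaBar K₁ (N * q) q (w y)) :
    s36_rq_Four A K₁ π z (s34_md_B0 A K₁ (N * q * q) (s18_cz_t3 (N * q * q) hML)).toSubring VC
      (s34_md_B0 A K₁ (N * q) (s18_cz_t3 (N * q) hMq)).toSubring W ∧
    s36_rq_Four A K₁ π z (s34_md_Binf A K₁ (N * q * q) (s18_cz_t3 (N * q * q) hML)).toSubring VC
      (s34_md_Binf A K₁ (N * q) (s18_cz_t3 (N * q) hMq)).toSubring W := by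
  have hq : q.Prime := Fact.out
  have hqM : q ≠ 3 := fun h => hqN (h ▸ hM)
  have hℓ : ((q : K₁))⁻¹ ∉ s18_A1 A K₁ := s18_a1_ell A hA K₁
  have hP := s36_ng_ch_pkg_t3 (K := K₁) (A := s18_A1 A K₁) hℓ hqN hM π hπ
  have hcoord := s18_cz_coord_t3 N q hM hqM
  have hsmInf : s18_SmHyp π (s18_coord K₁ (s18_cz_t3 N hM)⁻¹)
      (s18_chAlg N q (s18_A1 A K₁) (s18_cz_t3 N hM)⁻¹) := by
    rw [s18_coord_inv]
    exact hP.smInf
  have hWt : W (s36_rsm_incl2 K₁ N q (s18_coord K₁ (s18_cz_t3 N hM))) =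
      heckeBetaBar K₁ (N * q) q (heckeBetaBar K₁ N q (s18_coord K₁ (s18_cz_t3 N hM))) := by
    show W (heckeAlphaBar K₁ (N * q) q (heckeAlphaBar K₁ N q (s18_coord K₁ (s18_cz_t3 N hM)))) = _
    rw [hWα, hwα]
  obtain ⟨H0, Hi⟩ := s36_rsi_res_t3 A hA K₁ hqN hM hML hπ c hc w (hwc (π : K₁)) hwα hwβ VC hVC
    hαC hne hzn W hWW hWc hWt
  obtain ⟨hW0, hWi⟩ := s36_ws2_stable_t3 N q K₁ A hq hqN hM hML hA W hWW hWc hWt
  -- the coordinate of level `N q`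
  have e1 : heckeAlphaBar K₁ N q (s18_coord K₁ (s18_cz_t3 N hM)) =
      s18_coord K₁ (s18_cz_t3 (N * q) hMq) :=
    s34_lc_incl_coord q _ ((s18_cz_coe_t3 (N * q) hMq).trans (s18_cz_coe_t3 N hM).symm)
  have e1i : heckeAlphaBar K₁ N q (s18_coord K₁ (s18_cz_t3 N hM)⁻¹) =
      (s18_coord K₁ (s18_cz_t3 (N * q) hMq))⁻¹ :=
    (congrArg (heckeAlphaBar K₁ N q) (s18_coord_inv (s18_cz_t3 N hM))).trans
      ((map_inv₀ (heckeAlphaBar K₁ N q) _).trans (congrArg (fun y => y⁻¹) e1))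
  -- the charts of level `N q` are stable under `w`
  have hwt : ((w (s18_coord K₁ (s18_cz_t3 (N * q) hMq)) : s18_F1 K₁ (N * q)) :
      LaurentSeries K₁) =
      qExpand K₁ q ((s18_coord K₁ (s18_cz_t3 (N * q) hMq) : s18_F1 K₁ (N * q)) :
        LaurentSeries K₁) := by
    have h1 : w (heckeAlphaBar K₁ N q (s18_coord K₁ (s18_cz_t3 N hM))) =
        heckeBetaBar K₁ N q (s18_coord K₁ (s18_cz_t3 N hM)) := hwα _
    rw [e1] at h1
    have e1coe : ((s18_coord K₁ (s18_cz_t3 (N * q) hMq) : s18_F1 K₁ (N * q)) :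
        LaurentSeries K₁) =
        ((s18_coord K₁ (s18_cz_t3 N hM) : s18_F1 K₁ N) : LaurentSeries K₁) := by
      rw [← e1, coe_heckeAlphaBar]
    rw [h1, coe_heckeBetaBar, e1coe]
  obtain ⟨hw0, hwi⟩ := s34_ws_chart_stable N q 3 hq hqN hqM hM A hA K₁
    (s18_coord K₁ (s18_cz_t3 (N * q) hMq)) (s34_ws_isHaupt_t3 (N * q) K₁ hMq)
    (w : s18_F1 K₁ (N * q) →+* s18_F1 K₁ (N * q)) hwc hwt
  have hWϖ : W (algebraMap (s18_A1 A K₁) (s18_F1 K₁ (N * q * q)) π) =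
      algebraMap (s18_A1 A K₁) (s18_F1 K₁ (N * q * q)) π := hWc (π : K₁)
  exact ⟨s36_rq_pair A hA K₁ hqN 3 hqM hM hπ c hc (s18_cz_t3 N hM) hcoord hP.sm0
      (s18_coord K₁ (s18_cz_t3 N hM)) (s36_ws2_isHaupt_t3 N q K₁ hM) (Or.inl rfl) _ e1 w hwα hwβ
      (fun x hx => hw0 x hx) VC hVC W hWW hWϖ hWα _ (fun x hx => (hW0 x hx).1) H0,
    s36_rq_pair A hA K₁ hqN 3 hqM hM hπ c hc (s18_cz_t3 N hM)⁻¹ hcoord.inv hsmInf
      (s18_coord K₁ (s18_cz_t3 N hM)) (s36_ws2_isHaupt_t3 N q K₁ hM)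
      (Or.inr (s18_coord_inv (s18_cz_t3 N hM))) _ e1i w hwα hwβ
      (fun x hx => hwi x hx) VC hVC W hWW hWϖ hWα _ (fun x hx => (hWi x hx).1) Hi⟩

end Concrete

end Fermat.Agent.S36
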