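import Mathlib
import Fermat.Agent.S36.ContractInst3
import Fermat.Agent.S36.PtsGlue
import Fermat.Agent.S36.ResLvlQ
import Fermat.Agent.S36.ChartMaps

/-!
# S36 (NODE-3): the closed-point blocks of the concrete model from thickness one and `cpt`

`s36_pin_pts_t2`, `s36_pin_pts_t3` : the closed-point blocks `s36_ci_PtsAll` (`S36/ContractInst`)
of the concrete three-component model of level `N₁ q q` from the two residual hypotheses of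
`S36/ContractInst3`:

* `s36_ci_ThickAll N₁ q tL` : thickness one at every crossing point of the two integral-closure
  charts of level `N₁ q`;
* `s36_ci_CptAll N₁ q tLL` : the local equation of `V_C` at the `C`-only points of the two
  integral-closure charts of level `N₁ q q`.

Everything else is discharged: the components block (`s36_ni_pkgK`, `s36_swc_hbC`), the chart
block (`s36_cp3f_chart_t2/_t3`), (RES) over the S18 charts (`s36_ci_res_t2/_t3`), (RES) over the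
charts of level `N₁ q` (`s36_rq_res_t2/_t3`), the degeneracy map on the charts
(`s36_chm_t2/_t3`), the stability of the charts under the swaps (`s36_ws2_stable_t2/_t3`,
`s34_ws_chart_stable`), and the abstract closed-point theorem `s36_pgl_pts`
(`s36_plq_pts_w`: classification `s36_plq_cls`, triple-point contract `s36_pta_tri`).
-/

set_option autoImplicit false
set_option synthInstance.maxHeartbeats 400000
set_option linter.style.haveILetI false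
set_option linter.unusedSectionVars false
set_option linter.unusedVariables false

open ModularCurve AlgebraicCurve

noncomputable section

namespace Fermat.Agent.S36

open Fermat.Agent.S18 Fermat.Agent.S34 Fermat.Agent.S35

local notation "Qb" => AlgebraicClosure ℚ

set_option maxHeartbeats 4000000 in
/-- **The closed-point blocks of the concrete model from thickness one and `cpt`, Hauptmodul
`t_2`.** -/
theorem s36_pin_pts_t2 (N₁ q : ℕ) [NeZero N₁] [NeZero q] [NeZero (N₁ * q)]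
    [NeZero (N₁ * q * q)] (hq : q.Prime) (hqN : ¬ q ∣ N₁) (h2 : 2 ∣ N₁) (h2' : 2 ∣ N₁ * q)
    (h2'' : 2 ∣ N₁ * q * q)
    (hth : s36_ci_ThickAll N₁ q (s18_cz_t2 (N₁ * q) h2'))
    (hcpt : s36_ci_CptAll N₁ q (s18_cz_t2 (N₁ * q * q) h2'')) :
    s36_ci_PtsAll N₁ q hq (s18_cz_t2 (N₁ * q * q) h2'') := by
  intro P hP K₀ hfin hK₀ hDVR hirr m hm hqm ζm hζm w hw W₁ hW₁ hrel r s hrs K ζ Θ hcusp hunifA
    hprimA hres hA0
  haveI : Fact q.Prime := ⟨hq⟩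
  haveI := hfin
  haveI := hDVR
  haveI : NumberField K₀ := NumberField.mk
  haveI hDVRA : IsDiscreteValuationRing (P.comap (algebraMap K Qb)) := s36_ci_dvr _ ζ hunifA
  have hqM : q ≠ 2 := fun h => hqN (h ▸ h2)
  obtain ⟨c, hc⟩ := s36_gc_q_eq q hq (ζ : P.comap (algebraMap K Qb)) hprimA
  -- the components block
  have hζq : ζ ^ q = 1 := Units.ext (by
    rw [Units.val_pow_eq_pow_val]; exact hprimA.pow_eq_one)
  have hβC := s36_swc_hbC (κ := algebraMap K₀ K) hq hcusp hζq (s18_A1 P K₀) hA0 W₁ hW₁.2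
  have hpk := s36_ni_pkgK P K₀ (algebraMap K₀ K) (P.comap (algebraMap K Qb)) hA0 N₁ q hq
    (s36_cp3i_sq_dvd N₁ q) hirr ζ Θ hcusp hunifA hprimA w hw.2.2.2.2 W₁ hW₁.1 hW₁.2 hβC
  -- the chart block
  have hch := s36_cp3f_chart_t2 P K₀ N₁ q (algebraMap K₀ K) (P.comap (algebraMap K Qb)) Θ ζ
    hP hqN h2 h2' h2'' hirr w hw W₁ hrel hcusp hunifA hA0 c hc
  -- (RES) over the S18 charts
  obtain ⟨H0, Hi⟩ := s36_ci_res_t2 N₁ q hq hqN h2 h2'' P hP K₀ hirr w hw W₁ hW₁ hrel K ζ Θ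
    hcusp hunifA hprimA hA0
  -- thickness one and `cpt`
  obtain ⟨hth0, hthi⟩ := hth P hP K₀ hfin hK₀ hDVR hirr w hw
  obtain ⟨hc0, hci⟩ := hcpt P hP K₀ hfin hK₀ hDVR hirr w hw W₁ hW₁ hrel K ζ Θ hcusp hunifA
    hprimA hres hA0
  -- the data of `V_C`
  have hVC := s36_cp3i_unifC (K₀ := K₀) N₁ q (algebraMap K₀ K)
    (P.comap (algebraMap K Qb)) Θ ζ hq hcusp hunifA
  have hαC : ∀ y ∈ s34_gi_V (s18_A1 P K₀) (N₁ * q),
      (heckeAlphaBar K₀ (N₁ * q) q).toRingHom y ∈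
        s36_gc_V (algebraMap K₀ K) (P.comap (algebraMap K Qb)) (N₁ * q * q) Θ :=
    fun y hy => s36_cp3f_alphaC P K₀ N₁ q (algebraMap K₀ K) (P.comap (algebraMap K Qb)) Θ ζ
      hcusp hA0 y hy
  have hne := s36_cp3f_ne P K₀ N₁ q (algebraMap K₀ K) (P.comap (algebraMap K Qb)) Θ ζ hq hcusp
    hunifA
  have hprops := s36_gd_props (algebraMap K₀ K) (P.comap (algebraMap K Qb)) (s18_A1 P K₀) hA0
    N₁ q (N₁ * q * q) hq (s36_cp3i_level N₁ q) (s36_cp3i_sq_dvd N₁ q) ζ Θ hcusp hunifA hprimA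
  have hzn : algebraMap K₀ (s18_F1 K₀ (N₁ * q * q)) (((q : ℕ) : s18_A1 P K₀) : K₀) *
      (s36_gc_z K₀ q (N₁ * q * q) hq (s36_cp3i_sq_dvd N₁ q) ^ (q - 1))⁻¹ ∈
        s36_gc_V (algebraMap K₀ K) (P.comap (algebraMap K Qb)) (N₁ * q * q) Θ := by
    have h := hprops.2.1
    simpa using h
  -- (RES) over the charts of level `N₁ q`
  obtain ⟨⟨rA0, rC0, rB0, -⟩, ⟨rAi, rCi, rBi, -⟩⟩ := s36_rq_res_t2 (A := P) hP K₀ hqN h2 h2' h2''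
    hirr 1 (mul_one _).symm
    (w : s18_F1 K₀ (N₁ * q) ≃+* s18_F1 K₀ (N₁ * q)) (w.commutes) hw.1 hw.2.1
    (s36_gc_V (algebraMap K₀ K) (P.comap (algebraMap K Qb)) (N₁ * q * q) Θ) hVC hαC hne hzn
    (W₁ : s18_F1 K₀ (N₁ * q * q) ≃+* s18_F1 K₀ (N₁ * q * q)) hW₁.1 (W₁.commutes) hrel
  -- the degeneracy map on the charts
  obtain ⟨M0, Mi⟩ := s36_chm_t2 N₁ q K₀ P hq hqN h2 h2' h2'' hP w hw.1 hw.2.1
  -- the charts of level `N₁ q q` are stable under `W₁`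
  have hWt : (W₁ : s18_F1 K₀ (N₁ * q * q) ≃+* s18_F1 K₀ (N₁ * q * q))
      (s36_rsm_incl2 K₀ N₁ q (s18_coord K₀ (s18_cz_t2 N₁ h2))) =
      heckeBetaBar K₀ (N₁ * q) q (heckeBetaBar K₀ N₁ q (s18_coord K₀ (s18_cz_t2 N₁ h2))) := by
    show W₁ (heckeAlphaBar K₀ (N₁ * q) q (heckeAlphaBar K₀ N₁ q _)) = _
    rw [hrel, hw.1]
  obtain ⟨hW0, hWi⟩ := s36_ws2_stable_t2 N₁ q K₀ P hq hqN h2 h2'' hP
    (W₁ : s18_F1 K₀ (N₁ * q * q) ≃+* s18_F1 K₀ (N₁ * q * q)) hW₁.1 (W₁.commutes) hWt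
  -- the charts of level `N₁ q` lie in the two components and are stable under `w`
  obtain ⟨hd1, hd2, hd3⟩ := s34_iv_t2_data N₁ q h2 h2'
  have hdi : (((s18_cz_t2 (N₁ * q) h2')⁻¹ : modularFunctionFieldFull (N₁ * q)) :
      LaurentSeries ℚ) = (((s18_cz_t2 N₁ h2)⁻¹ : modularFunctionFieldFull N₁) :
        LaurentSeries ℚ) := by
    show ((s18_cz_t2 (N₁ * q) h2' : modularFunctionFieldFull (N₁ * q)) : LaurentSeries ℚ)⁻¹ =
      ((s18_cz_t2 N₁ h2 : modularFunctionFieldFull N₁) : LaurentSeries ℚ)⁻¹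
    rw [hd1]
  have hBi0 : (s34_md_B0 P K₀ (N₁ * q) (s18_cz_t2 (N₁ * q) h2')).toSubring ≤
      s34_gi_V (s18_A1 P K₀) (N₁ * q) :=
    s36_cp3i_le_A P K₀ (N₁ * q) hirr
      (s34_iv_coord_mem (s18_A1 P K₀) (s18_cz_t2 (N₁ * q) h2') s18_t2 (hd1.trans hd2))
  have hBii : (s34_md_Binf P K₀ (N₁ * q) (s18_cz_t2 (N₁ * q) h2')).toSubring ≤
      s34_gi_V (s18_A1 P K₀) (N₁ * q) :=
    s36_cp3i_le_A P K₀ (N₁ * q) hirr
      (s34_iv_coord_inv_mem (s18_A1 P K₀) (s18_cz_t2 (N₁ * q) h2') s18_t2inv (hdi.trans hd3))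
  have hB00 : (s34_md_B0 P K₀ (N₁ * q) (s18_cz_t2 (N₁ * q) h2')).toSubring ≤
      (s34_gi_V (s18_A1 P K₀) (N₁ * q)).comap
        ((w : s18_F1 K₀ (N₁ * q) ≃+* s18_F1 K₀ (N₁ * q)) :
          s18_F1 K₀ (N₁ * q) →+* s18_F1 K₀ (N₁ * q)) :=
    s36_cp3i_le_B P K₀ (N₁ * q) hirr w (t := s18_coord K₀ (s18_cz_t2 (N₁ * q) h2'))
      (s34_iv_swap_coord_mem (s18_A1 P K₀) N₁ q
        (w : s18_F1 K₀ (N₁ * q) ≃+* s18_F1 K₀ (N₁ * q)) hw.1 (s18_cz_t2 (N₁ * q) h2')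
        (s18_cz_t2 N₁ h2) hd1 s18_t2 hd2)
  have hB0i : (s34_md_Binf P K₀ (N₁ * q) (s18_cz_t2 (N₁ * q) h2')).toSubring ≤
      (s34_gi_V (s18_A1 P K₀) (N₁ * q)).comap
        ((w : s18_F1 K₀ (N₁ * q) ≃+* s18_F1 K₀ (N₁ * q)) :
          s18_F1 K₀ (N₁ * q) →+* s18_F1 K₀ (N₁ * q)) :=
    s36_cp3i_le_B P K₀ (N₁ * q) hirr w (t := (s18_coord K₀ (s18_cz_t2 (N₁ * q) h2'))⁻¹)
      (s34_iv_swap_coord_inv_mem (s18_A1 P K₀) N₁ q
        (w : s18_F1 K₀ (N₁ * q) ≃+* s18_F1 K₀ (N₁ * q)) hw.1 (s18_cz_t2 (N₁ * q) h2')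
        (s18_cz_t2 N₁ h2) hd1 s18_t2inv hd3)
  have e1 : heckeAlphaBar K₀ N₁ q (s18_coord K₀ (s18_cz_t2 N₁ h2)) =
      s18_coord K₀ (s18_cz_t2 (N₁ * q) h2') := (s36_chm_coord_t2 N₁ q K₀ h2 h2').symm
  have hwt : (((w : s18_F1 K₀ (N₁ * q) ≃+* s18_F1 K₀ (N₁ * q))
      (s18_coord K₀ (s18_cz_t2 (N₁ * q) h2')) : s18_F1 K₀ (N₁ * q)) : LaurentSeries K₀) =
      qExpand K₀ q ((s18_coord K₀ (s18_cz_t2 (N₁ * q) h2') : s18_F1 K₀ (N₁ * q)) :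
        LaurentSeries K₀) := by
    have h1 : w (heckeAlphaBar K₀ N₁ q (s18_coord K₀ (s18_cz_t2 N₁ h2))) =
        heckeBetaBar K₀ N₁ q (s18_coord K₀ (s18_cz_t2 N₁ h2)) := hw.1 _
    rw [e1] at h1
    have e1coe : ((s18_coord K₀ (s18_cz_t2 (N₁ * q) h2') : s18_F1 K₀ (N₁ * q)) :
        LaurentSeries K₀) =
        ((s18_coord K₀ (s18_cz_t2 N₁ h2) : s18_F1 K₀ N₁) : LaurentSeries K₀) := by
      rw [← e1, coe_heckeAlphaBar]
    show ((w (s18_coord K₀ (s18_cz_t2 (N₁ * q) h2')) : s18_F1 K₀ (N₁ * q)) :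
      LaurentSeries K₀) = _
    rw [h1, coe_heckeBetaBar, e1coe]
  obtain ⟨hw0, hwi⟩ := s34_ws_chart_stable N₁ q 2 hq hqN hqM h2 P hP K₀
    (s18_coord K₀ (s18_cz_t2 (N₁ * q) h2')) (s34_ws_isHaupt_t2 (N₁ * q) K₀ h2')
    ((w : s18_F1 K₀ (N₁ * q) ≃+* s18_F1 K₀ (N₁ * q)) :
      s18_F1 K₀ (N₁ * q) →+* s18_F1 K₀ (N₁ * q)) (w.commutes) hwt
  -- the exponent
  have hmu : IsUnit ((m : ℕ) : s18_A1 P K₀) := s18_a1_isUnit_natCast P hP K₀ m hqm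
  exact ⟨s18_F1 K₀ N₁, inferInstance, _, _, _, _, _, _,
    s36_pgl_pts N₁ q hq P K₀ m hmu w hw.2.2.1 W₁ r s hrs hpk
      (s34_md_B0 P K₀ (N₁ * q * q) (s18_cz_t2 (N₁ * q * q) h2'')) hch.hB0V hch.hcap0 hch.noeth0
      hch.frac0 (hch.hroot0 m hm) (fun x hx => (hW0 x hx).1)
      (s34_md_B0 P K₀ (N₁ * q) (s18_cz_t2 (N₁ * q) h2')).toSubring hBi0 hB00
      (fun x hx => hw0 x hx) (fun x hx => s34_ic_root _ m hm x hx) M0.mapα M0.intα M0.norm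
      rA0 rC0 rB0 hth0 H0 hc0,
    s36_pgl_pts N₁ q hq P K₀ m hmu w hw.2.2.1 W₁ r s hrs hpk
      (s34_md_Binf P K₀ (N₁ * q * q) (s18_cz_t2 (N₁ * q * q) h2'')) hch.hBiV hch.hcapi
      hch.noethi hch.fraci (hch.hrooti m hm) (fun x hx => (hWi x hx).1)
      (s34_md_Binf P K₀ (N₁ * q) (s18_cz_t2 (N₁ * q) h2')).toSubring hBii hB0i
      (fun x hx => hwi x hx) (fun x hx => s34_ic_root _ m hm x hx) Mi.mapα Mi.intα Mi.norm
      rAi rCi rBi hthi Hi hci⟩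

set_option maxHeartbeats 4000000 in
/-- **The closed-point blocks of the concrete model from thickness one and `cpt`, Hauptmodul
`t_3`.** -/
theorem s36_pin_pts_t3 (N₁ q : ℕ) [NeZero N₁] [NeZero q] [NeZero (N₁ * q)]
    [NeZero (N₁ * q * q)] (hq : q.Prime) (hqN : ¬ q ∣ N₁) (h3 : 3 ∣ N₁) (h3' : 3 ∣ N₁ * q)
    (h3'' : 3 ∣ N₁ * q * q)
    (hth : s36_ci_ThickAll N₁ q (s18_cz_t3 (N₁ * q) h3'))
    (hcpt : s36_ci_CptAll N₁ q (s18_cz_t3 (N₁ * q * q) h3'')) :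
    s36_ci_PtsAll N₁ q hq (s18_cz_t3 (N₁ * q * q) h3'') := by
  intro P hP K₀ hfin hK₀ hDVR hirr m hm hqm ζm hζm w hw W₁ hW₁ hrel r s hrs K ζ Θ hcusp hunifA
    hprimA hres hA0
  haveI : Fact q.Prime := ⟨hq⟩
  haveI := hfin
  haveI := hDVR
  haveI : NumberField K₀ := NumberField.mk
  haveI hDVRA : IsDiscreteValuationRing (P.comap (algebraMap K Qb)) := s36_ci_dvr _ ζ hunifA
  have hqM : q ≠ 3 := fun h => hqN (h ▸ h3)
  obtain ⟨c, hc⟩ := s36_gc_q_eq q hq (ζ : P.comap (algebraMap K Qb)) hprimA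
  -- the components block
  have hζq : ζ ^ q = 1 := Units.ext (by
    rw [Units.val_pow_eq_pow_val]; exact hprimA.pow_eq_one)
  have hβC := s36_swc_hbC (κ := algebraMap K₀ K) hq hcusp hζq (s18_A1 P K₀) hA0 W₁ hW₁.2
  have hpk := s36_ni_pkgK P K₀ (algebraMap K₀ K) (P.comap (algebraMap K Qb)) hA0 N₁ q hq
    (s36_cp3i_sq_dvd N₁ q) hirr ζ Θ hcusp hunifA hprimA w hw.2.2.2.2 W₁ hW₁.1 hW₁.2 hβC
  -- the chart block
  have hch := s36_cp3f_chart_t3 P K₀ N₁ q (algebraMap K₀ K) (P.comap (algebraMap K Qb)) Θ ζ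
    hP hqN h3 h3' h3'' hirr w hw W₁ hrel hcusp hunifA hA0 c hc
  -- (RES) over the S18 charts
  obtain ⟨H0, Hi⟩ := s36_ci_res_t3 N₁ q hq hqN h3 h3'' P hP K₀ hirr w hw W₁ hW₁ hrel K ζ Θ
    hcusp hunifA hprimA hA0
  -- thickness one and `cpt`
  obtain ⟨hth0, hthi⟩ := hth P hP K₀ hfin hK₀ hDVR hirr w hw
  obtain ⟨hc0, hci⟩ := hcpt P hP K₀ hfin hK₀ hDVR hirr w hw W₁ hW₁ hrel K ζ Θ hcusp hunifA
    hprimA hres hA0
  -- the data of `V_C`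
  have hVC := s36_cp3i_unifC (K₀ := K₀) N₁ q (algebraMap K₀ K)
    (P.comap (algebraMap K Qb)) Θ ζ hq hcusp hunifA
  have hαC : ∀ y ∈ s34_gi_V (s18_A1 P K₀) (N₁ * q),
      (heckeAlphaBar K₀ (N₁ * q) q).toRingHom y ∈
        s36_gc_V (algebraMap K₀ K) (P.comap (algebraMap K Qb)) (N₁ * q * q) Θ :=
    fun y hy => s36_cp3f_alphaC P K₀ N₁ q (algebraMap K₀ K) (P.comap (algebraMap K Qb)) Θ ζ
      hcusp hA0 y hy
  have hne := s36_cp3f_ne P K₀ N₁ q (algebraMap K₀ K) (P.comap (algebraMap K Qb)) Θ ζ hq hcusp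
    hunifA
  have hprops := s36_gd_props (algebraMap K₀ K) (P.comap (algebraMap K Qb)) (s18_A1 P K₀) hA0
    N₁ q (N₁ * q * q) hq (s36_cp3i_level N₁ q) (s36_cp3i_sq_dvd N₁ q) ζ Θ hcusp hunifA hprimA
  have hzn : algebraMap K₀ (s18_F1 K₀ (N₁ * q * q)) (((q : ℕ) : s18_A1 P K₀) : K₀) *
      (s36_gc_z K₀ q (N₁ * q * q) hq (s36_cp3i_sq_dvd N₁ q) ^ (q - 1))⁻¹ ∈
        s36_gc_V (algebraMap K₀ K) (P.comap (algebraMap K Qb)) (N₁ * q * q) Θ := by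
    have h := hprops.2.1
    simpa using h
  -- (RES) over the charts of level `N₁ q`
  obtain ⟨⟨rA0, rC0, rB0, -⟩, ⟨rAi, rCi, rBi, -⟩⟩ := s36_rq_res_t3 (A := P) hP K₀ hqN h3 h3' h3''
    hirr 1 (mul_one _).symm
    (w : s18_F1 K₀ (N₁ * q) ≃+* s18_F1 K₀ (N₁ * q)) (w.commutes) hw.1 hw.2.1
    (s36_gc_V (algebraMap K₀ K) (P.comap (algebraMap K Qb)) (N₁ * q * q) Θ) hVC hαC hne hzn
    (W₁ : s18_F1 K₀ (N₁ * q * q) ≃+* s18_F1 K₀ (N₁ * q * q)) hW₁.1 (W₁.commutes) hrel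
  -- the degeneracy map on the charts
  obtain ⟨M0, Mi⟩ := s36_chm_t3 N₁ q K₀ P hq hqN h3 h3' h3'' hP w hw.1 hw.2.1
  -- the charts of level `N₁ q q` are stable under `W₁`
  have hWt : (W₁ : s18_F1 K₀ (N₁ * q * q) ≃+* s18_F1 K₀ (N₁ * q * q))
      (s36_rsm_incl2 K₀ N₁ q (s18_coord K₀ (s18_cz_t3 N₁ h3))) =
      heckeBetaBar K₀ (N₁ * q) q (heckeBetaBar K₀ N₁ q (s18_coord K₀ (s18_cz_t3 N₁ h3))) := by
    show W₁ (heckeAlphaBar K₀ (N₁ * q) q (heckeAlphaBar K₀ N₁ q _)) = _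
    rw [hrel, hw.1]
  obtain ⟨hW0, hWi⟩ := s36_ws2_stable_t3 N₁ q K₀ P hq hqN h3 h3'' hP
    (W₁ : s18_F1 K₀ (N₁ * q * q) ≃+* s18_F1 K₀ (N₁ * q * q)) hW₁.1 (W₁.commutes) hWt
  -- the charts of level `N₁ q` lie in the two components and are stable under `w`
  obtain ⟨hd1, hd2, hd3⟩ := s34_iv_t3_data N₁ q h3 h3'
  have hdi : (((s18_cz_t3 (N₁ * q) h3')⁻¹ : modularFunctionFieldFull (N₁ * q)) :
      LaurentSeries ℚ) = (((s18_cz_t3 N₁ h3)⁻¹ : modularFunctionFieldFull N₁) :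
        LaurentSeries ℚ) := by
    show ((s18_cz_t3 (N₁ * q) h3' : modularFunctionFieldFull (N₁ * q)) : LaurentSeries ℚ)⁻¹ =
      ((s18_cz_t3 N₁ h3 : modularFunctionFieldFull N₁) : LaurentSeries ℚ)⁻¹
    rw [hd1]
  have hBi0 : (s34_md_B0 P K₀ (N₁ * q) (s18_cz_t3 (N₁ * q) h3')).toSubring ≤
      s34_gi_V (s18_A1 P K₀) (N₁ * q) :=
    s36_cp3i_le_A P K₀ (N₁ * q) hirr
      (s34_iv_coord_mem (s18_A1 P K₀) (s18_cz_t3 (N₁ * q) h3') s18_t3 (hd1.trans hd2))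
  have hBii : (s34_md_Binf P K₀ (N₁ * q) (s18_cz_t3 (N₁ * q) h3')).toSubring ≤
      s34_gi_V (s18_A1 P K₀) (N₁ * q) :=
    s36_cp3i_le_A P K₀ (N₁ * q) hirr
      (s34_iv_coord_inv_mem (s18_A1 P K₀) (s18_cz_t3 (N₁ * q) h3') s18_t3inv (hdi.trans hd3))
  have hB00 : (s34_md_B0 P K₀ (N₁ * q) (s18_cz_t3 (N₁ * q) h3')).toSubring ≤
      (s34_gi_V (s18_A1 P K₀) (N₁ * q)).comap
        ((w : s18_F1 K₀ (N₁ * q) ≃+* s18_F1 K₀ (N₁ * q)) :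
          s18_F1 K₀ (N₁ * q) →+* s18_F1 K₀ (N₁ * q)) :=
    s36_cp3i_le_B P K₀ (N₁ * q) hirr w (t := s18_coord K₀ (s18_cz_t3 (N₁ * q) h3'))
      (s34_iv_swap_coord_mem (s18_A1 P K₀) N₁ q
        (w : s18_F1 K₀ (N₁ * q) ≃+* s18_F1 K₀ (N₁ * q)) hw.1 (s18_cz_t3 (N₁ * q) h3')
        (s18_cz_t3 N₁ h3) hd1 s18_t3 hd2)
  have hB0i : (s34_md_Binf P K₀ (N₁ * q) (s18_cz_t3 (N₁ * q) h3')).toSubring ≤
      (s34_gi_V (s18_A1 P K₀) (N₁ * q)).comap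
        ((w : s18_F1 K₀ (N₁ * q) ≃+* s18_F1 K₀ (N₁ * q)) :
          s18_F1 K₀ (N₁ * q) →+* s18_F1 K₀ (N₁ * q)) :=
    s36_cp3i_le_B P K₀ (N₁ * q) hirr w (t := (s18_coord K₀ (s18_cz_t3 (N₁ * q) h3'))⁻¹)
      (s34_iv_swap_coord_inv_mem (s18_A1 P K₀) N₁ q
        (w : s18_F1 K₀ (N₁ * q) ≃+* s18_F1 K₀ (N₁ * q)) hw.1 (s18_cz_t3 (N₁ * q) h3')
        (s18_cz_t3 N₁ h3) hd1 s18_t3inv hd3)
  have e1 : heckeAlphaBar K₀ N₁ q (s18_coord K₀ (s18_cz_t3 N₁ h3)) =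
      s18_coord K₀ (s18_cz_t3 (N₁ * q) h3') := (s36_chm_coord_t3 N₁ q K₀ h3 h3').symm
  have hwt : (((w : s18_F1 K₀ (N₁ * q) ≃+* s18_F1 K₀ (N₁ * q))
      (s18_coord K₀ (s18_cz_t3 (N₁ * q) h3')) : s18_F1 K₀ (N₁ * q)) : LaurentSeries K₀) =
      qExpand K₀ q ((s18_coord K₀ (s18_cz_t3 (N₁ * q) h3') : s18_F1 K₀ (N₁ * q)) :
        LaurentSeries K₀) := by
    have h1 : w (heckeAlphaBar K₀ N₁ q (s18_coord K₀ (s18_cz_t3 N₁ h3))) =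
        heckeBetaBar K₀ N₁ q (s18_coord K₀ (s18_cz_t3 N₁ h3)) := hw.1 _
    rw [e1] at h1
    have e1coe : ((s18_coord K₀ (s18_cz_t3 (N₁ * q) h3') : s18_F1 K₀ (N₁ * q)) :
        LaurentSeries K₀) =
        ((s18_coord K₀ (s18_cz_t3 N₁ h3) : s18_F1 K₀ N₁) : LaurentSeries K₀) := by
      rw [← e1, coe_heckeAlphaBar]
    show ((w (s18_coord K₀ (s18_cz_t3 (N₁ * q) h3')) : s18_F1 K₀ (N₁ * q)) :
      LaurentSeries K₀) = _
    rw [h1, coe_heckeBetaBar, e1coe]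
  obtain ⟨hw0, hwi⟩ := s34_ws_chart_stable N₁ q 3 hq hqN hqM h3 P hP K₀
    (s18_coord K₀ (s18_cz_t3 (N₁ * q) h3')) (s34_ws_isHaupt_t3 (N₁ * q) K₀ h3')
    ((w : s18_F1 K₀ (N₁ * q) ≃+* s18_F1 K₀ (N₁ * q)) :
      s18_F1 K₀ (N₁ * q) →+* s18_F1 K₀ (N₁ * q)) (w.commutes) hwt
  -- the exponent
  have hmu : IsUnit ((m : ℕ) : s18_A1 P K₀) := s18_a1_isUnit_natCast P hP K₀ m hqm
  exact ⟨s18_F1 K₀ N₁, inferInstance, _, _, _, _, _, _,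
    s36_pgl_pts N₁ q hq P K₀ m hmu w hw.2.2.1 W₁ r s hrs hpk
      (s34_md_B0 P K₀ (N₁ * q * q) (s18_cz_t3 (N₁ * q * q) h3'')) hch.hB0V hch.hcap0 hch.noeth0
      hch.frac0 (hch.hroot0 m hm) (fun x hx => (hW0 x hx).1)
      (s34_md_B0 P K₀ (N₁ * q) (s18_cz_t3 (N₁ * q) h3')).toSubring hBi0 hB00
      (fun x hx => hw0 x hx) (fun x hx => s34_ic_root _ m hm x hx) M0.mapα M0.intα M0.norm
      rA0 rC0 rB0 hth0 H0 hc0,
    s36_pgl_pts N₁ q hq P K₀ m hmu w hw.2.2.1 W₁ r s hrs hpk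
      (s34_md_Binf P K₀ (N₁ * q * q) (s18_cz_t3 (N₁ * q * q) h3'')) hch.hBiV hch.hcapi
      hch.noethi hch.fraci (hch.hrooti m hm) (fun x hx => (hWi x hx).1)
      (s34_md_Binf P K₀ (N₁ * q) (s18_cz_t3 (N₁ * q) h3')).toSubring hBii hB0i
      (fun x hx => hwi x hx) (fun x hx => s34_ic_root _ m hm x hx) Mi.mapα Mi.intα Mi.norm
      rAi rCi rBi hthi Hi hci⟩

end Fermat.Agent.S36
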