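import Mathlib
import Fermat.Agent.S36.ContractInst3
import Fermat.Agent.S36.PtsInst

/-!
# S36 (NODE-3): the conclusion of S36 from thickness one and `cpt` of the concrete models

`s36_cf_final` : the conclusion of S36 follows from the two residual statements on the concrete
three-component model of level `L' q q` (`S36/ContractInst3`):

* `s36_ci_ThickAll L' q tL` : thickness one at the crossing points of the two integral-closure
  charts of level `L' q`;
* `s36_ci_CptAll L' q tLL` : the local equation of `V_C` at the `C`-only points of the two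
  integral-closure charts of level `L' q q`;

for every prime `q ≥ 5` and every `L'` prime to `q` divisible by `6` (Hauptmodul `t₂`), for
`q = 3` and every `L'` prime to `3` divisible by `4` (Hauptmodul `t₂`), and for `q = 2` and every
odd `L'` divisible by `9` (Hauptmodul `t₃`).
(`s36_pin_pts_t2` / `_t3` of `S36/PtsInst`, then `s36_ci_final` of `S36/ContractInst`.)
-/

set_option autoImplicit false
set_option synthInstance.maxHeartbeats 400000

open ModularCurve AlgebraicCurve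

noncomputable section

namespace Fermat.Agent.S36

open Fermat.Agent.S18 Fermat.Agent.S34 Fermat.Agent.S35

/-- **S36 from thickness one and `cpt` of the concrete models.** -/
theorem s36_cf_final
    (h5 : ∀ (q : ℕ) [NeZero q], q.Prime → 5 ≤ q → ∀ (L' : ℕ) [NeZero L'], ¬ q ∣ L' →
      6 ∣ L' → ∀ (h2' : 2 ∣ L' * q) (h2'' : 2 ∣ L' * q * q),
        s36_ci_ThickAll L' q (s18_cz_t2 (L' * q) h2') ∧
          s36_ci_CptAll L' q (s18_cz_t2 (L' * q * q) h2''))
    (h3 : ∀ (L' : ℕ) [NeZero L'], ¬ 3 ∣ L' → 4 ∣ L' →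
      ∀ (h2' : 2 ∣ L' * 3) (h2'' : 2 ∣ L' * 3 * 3),
        s36_ci_ThickAll L' 3 (s18_cz_t2 (L' * 3) h2') ∧
          s36_ci_CptAll L' 3 (s18_cz_t2 (L' * 3 * 3) h2''))
    (h2 : ∀ (L' : ℕ) [NeZero L'], ¬ 2 ∣ L' → 9 ∣ L' →
      ∀ (h3' : 3 ∣ L' * 2) (h3'' : 3 ∣ L' * 2 * 2),
        s36_ci_ThickAll L' 2 (s18_cz_t3 (L' * 2) h3') ∧
          s36_ci_CptAll L' 2 (s18_cz_t3 (L' * 2 * 2) h3''))
    {M : ℕ} [NeZero M] {g : CuspForm (CongruenceSubgroup.Gamma0 M) 2} (hg : g.IsNewform)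
    (lam : ℕ) [Fact lam.Prime]
    (S : Finset ℕ)
    (O' : Type) [CommRing O'] [IsDomain O'] [IsDiscreteValuationRing O']
    [IsAdicComplete (IsLocalRing.maximalIdeal O') O'] [Finite (IsLocalRing.ResidueField O')]
    [CharZero O'] (hlamO' : (lam : O') ∈ IsLocalRing.maximalIdeal O')
    (hlam2 : lam ≠ 2)
    (chig : CuspForm.heckeAlgebra M 2 (↑S : Set ℕ) →+* ℂ)
    (hchig : ∀ (ℓ : ℕ) (hℓ : ℓ.Prime) (hℓM : ¬ ℓ ∣ M) (hℓS : ℓ ∉ (↑S : Set ℕ)),
      chig (CuspForm.heckeAlgebra.T hℓ hℓM hℓS) = ModularFormClass.qCoeff g ℓ)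
    (iota : chig.range →+* O')
    (hlamS : lam ∈ S) (hMS : ∀ q : ℕ, q.Prime → q ∣ M → q ∈ S) :
    ∃ (O'' : Type) (_ : CommRing O'') (_ : IsDomain O'') (_ : IsDiscreteValuationRing O'')
      (_ : IsAdicComplete (IsLocalRing.maximalIdeal O'') O'') (_ : Finite (IsLocalRing.ResidueField O''))
      (_ : CharZero O'') (_ : Algebra O' O'') (_ : Module.Finite O' O'') (_ : IsLocalHom (algebraMap O' O'')),
      Function.Injective (algebraMap O' O'') ∧
      ∃ ρ : GaloisRepAdic O'',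
        (∀ (ℓ : ℕ) (hℓ : ℓ.Prime) (hℓM : ¬ ℓ ∣ M) (hℓS : ℓ ∉ (↑S : Set ℕ)),
          ∀ A : ValuationSubring (AlgebraicClosure ℚ), A.LiesOverPrime ℓ →
            ∀ σ : AlgebraicClosure ℚ ≃ₐ[ℚ] AlgebraicClosure ℚ, A.IsFrobeniusAt σ ℓ →
              LinearMap.charpoly (ρ.ρ σ) =
                Polynomial.X ^ 2 - Polynomial.C (algebraMap O' O'' ((iota.comp chig.rangeRestrict)
                  (CuspForm.heckeAlgebra.T hℓ hℓM hℓS))) * Polynomial.X
                  + Polynomial.C ((ℓ : O''))) ∧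
        (∀ q : ℕ, q.Prime → q ≠ lam → M.factorization q = 2 → ¬ ρ.IsUnipotentOnInertiaAt q) :=
  s36_ci_final
    (fun q _ hq h5q L' _ hqL h6 h2'' =>
      have h2 : 2 ∣ L' := Dvd.dvd.trans (by norm_num) h6
      have h2' : 2 ∣ L' * q := Dvd.dvd.mul_right h2 q
      s36_pin_pts_t2 L' q hq hqL h2 h2' h2'' (h5 q hq h5q L' hqL h6 h2' h2'').1
        (h5 q hq h5q L' hqL h6 h2' h2'').2)
    (fun L' _ hqL h4 h2'' =>
      have h2 : 2 ∣ L' := Dvd.dvd.trans (by norm_num) h4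
      have h2' : 2 ∣ L' * 3 := Dvd.dvd.mul_right h2 3
      s36_pin_pts_t2 L' 3 Nat.prime_three hqL h2 h2' h2'' (h3 L' hqL h4 h2' h2'').1
        (h3 L' hqL h4 h2' h2'').2)
    (fun L' _ hqL h9 h3'' =>
      have h3₀ : 3 ∣ L' := Dvd.dvd.trans (by norm_num) h9
      have h3' : 3 ∣ L' * 2 := Dvd.dvd.mul_right h3₀ 2
      s36_pin_pts_t3 L' 2 Nat.prime_two hqL h3₀ h3' h3'' (h2 L' hqL h9 h3' h3'').1
        (h2 L' hqL h9 h3' h3'').2)
    hg lam S O' hlamO' hlam2 chig hchig iota hlamS hMS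

end Fermat.Agent.S36
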