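import Mathlib
import Fermat.Agent.S37.EsChartStable

/-!
# S36 (NODE-3), cusp leaf: the degree bound of the modular equation of a Hauptmodul

`t = t_M` the Hauptmodul of level `M ∈ {2, 3}`, `M ∣ N`, `ℓ ∤ N` a prime, `ℓ ≠ M`,
`τ ∈ {t, t⁻¹}`, `A` a valuation ring of `Q̄` above `ℓ`.  Then

  `τ(q^ℓ)^ℓ / τ(q)` is integral over `A[τ(q^ℓ)]` inside `Q̄ · F_{Nℓ}`

(`s36_cusp_ratio`).  With the Atkin–Lehner swap this says `τ(q)^ℓ / τ(q^ℓ) ∈ ic(A[τ(q)])`:
for `τ = t⁻¹` it is `t(q^ℓ) / t(q)^ℓ ∈ B_∞`, for `τ = t` it is `t(q)^ℓ / t(q^ℓ) ∈ B_0`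
(regularity at the cusps of the ratio of the two pull-backs of the coordinate).

Proof: clone of `s37_et_chart_stable_aux`.  `x := β(τ)^ℓ / α(τ)` is a root of its characteristic
polynomial along `β`; the coefficients have `A`-integral `q`-expansions (the `ℓ + 1` embeddings of
`s37_es_chi`) and are regular at every place at which `τ` is regular, because `x` is regular at
every place `R` with `β τ` regular: at a zero of `α τ` one has `ord_R(α τ) ≤ ℓ · ord_R(β τ)`,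
which follows from the pole count of `s37_et_pole_aux` (`G(q)` has exactly the two poles `∞`
and `W∞` with orders `(1, ℓ)`, `(ℓ, 1)` for `(G(q), G(q^ℓ))`) applied to `G = t` and to `G = j`
together with the relation `j t^k = (t + c₁)^{n₁} (t + c₂)^{n₂}`.
-/

set_option autoImplicit false
set_option synthInstance.maxHeartbeats 400000
set_option linter.unusedSectionVars false
set_option linter.style.haveILetI false
set_option linter.unusedVariables false

namespace Fermat.Agent.S36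

open AlgebraicCurve ModularCurve Polynomial
open Fermat.Agent.S18 Fermat.Agent.S24 Fermat.Agent.S37
open scoped IntermediateField

noncomputable section

local notation "Qb" => AlgebraicClosure ℚ

section Abstract

variable {K F : Type*} [Field K] [IsAlgClosed K] [CharZero K] [Field F] [Algebra K F]

/-- The pole count with orders: at every pole `R` of `a`, the ratio `a / b^ℓ` is regular. -/
theorem s36_cusp_pole_ratio (x : F) (hx : Transcendental K x) [FiniteDimensional K⟮x⟯ F]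
    (a b : F) (ha : Transcendental K a) (ℓ : ℕ) (hℓ : 2 ≤ ℓ)
    (hdeg : Module.finrank K⟮a⟯ F = ℓ + 1)
    (W : F ≃ₐ[K] F) (hWa : W a = b) (hWb : W b = a)
    (P : Place K F) (hPa : P.ord a = -1) (hPb : P.ord b = -(ℓ : ℤ))
    (R : Place K F) (hR : a ∉ R.toValuationSubring) :
    a * (b ^ ℓ)⁻¹ ∈ R.toValuationSubring := by
  classical
  have ha0 : a ≠ 0 := fun h => ha (h ▸ isAlgebraic_zero)
  have hb0 : b ≠ 0 := by
    rw [← hWa]
    exact (map_ne_zero_iff _ W.injective).mpr ha0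
  have hai : Transcendental K a⁻¹ := s37_h_transcendental_inv a ha
  haveI : FiniteDimensional K⟮a⁻¹⟯ F :=
    Fermat.Agent.S24.finiteDimensional_adjoin_of_transcendental x hx a⁻¹ hai
  have hfin := Fermat.Agent.S24.finite_zeros a⁻¹ hai
  have hsum := Fermat.Agent.S24.sum_ord_zeros a⁻¹ hai
  rw [finsum_mem_eq_finite_toFinset_sum _ hfin] at hsum
  have hdeg' : Module.finrank K⟮a⁻¹⟯ F = ℓ + 1 := by
    rw [← hdeg]
    congr 1 <;> first | rfl | (rw [s37_h_adjoin_inv])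
  rw [hdeg'] at hsum
  set P₂ : Place K F := W • P with hP₂
  have hWsa : W.symm a = b := by rw [← hWb, AlgEquiv.symm_apply_apply]
  have hWsb : W.symm b = a := by rw [← hWa, AlgEquiv.symm_apply_apply]
  have h1 : P.ord a⁻¹ = 1 := by rw [P.ord_inv, hPa]; ring
  have h2 : P₂.ord a⁻¹ = (ℓ : ℤ) := by
    rw [hP₂, Fermat.Agent.S24.ord_smul_place, map_inv₀, hWsa, P.ord_inv, hPb]; ring
  have h2b : P₂.ord b = -1 := by
    rw [hP₂, Fermat.Agent.S24.ord_smul_place, hWsb, hPa]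
  have hℓ2 : (2 : ℤ) ≤ (ℓ : ℤ) := by exact_mod_cast hℓ
  have hPP₂ : P ≠ P₂ := by
    intro h
    rw [← h, h1] at h2
    omega
  have hRa : 0 < R.ord a⁻¹ := by
    have := (Fermat.Agent.S24.mem_iff_ord_nonneg R a).not.mp hR
    rw [R.ord_inv]; omega
  have hRP : R = P ∨ R = P₂ := by
    by_contra hcon
    push Not at hcon
    have hsub : ({P, P₂, R} : Finset (Place K F)) ⊆ hfin.toFinset := by
      intro v hv
      rw [Set.Finite.mem_toFinset]
      show 0 < v.ord a⁻¹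
      simp only [Finset.mem_insert, Finset.mem_singleton] at hv
      rcases hv with rfl | rfl | rfl
      · rw [h1]; exact one_pos
      · rw [h2]; omega
      · exact hRa
    have hle := Finset.sum_le_sum_of_subset_of_nonneg (f := fun v : Place K F => v.ord a⁻¹) hsub
      (fun v hv _ => le_of_lt (by
        rw [Set.Finite.mem_toFinset] at hv
        exact hv))
    rw [hsum, Finset.sum_insert (by
        simp only [Finset.mem_insert, Finset.mem_singleton, not_or]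
        exact ⟨hPP₂, hcon.1.symm⟩),
      Finset.sum_insert (by
        simp only [Finset.mem_singleton]
        exact hcon.2.symm),
      Finset.sum_singleton, h1, h2] at hle
    push_cast at hle
    omega
  rw [Fermat.Agent.S24.mem_iff_ord_nonneg, R.ord_mul ha0 (inv_ne_zero (pow_ne_zero ℓ hb0)),
    R.ord_inv, Fermat.Agent.S24.ord_pow]
  rcases hRP with rfl | rfl
  · rw [hPa, hPb]
    nlinarith
  · have h3 : P₂.ord a = -(ℓ : ℤ) := by
      have := P₂.ord_inv a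
      rw [h2] at this
      omega
    rw [h3, h2b]
    ring_nf
    exact le_refl _

end Abstract

/-- The order computation at a common zero of `a = α t` and `b = β t`: from
`j t^k = (t + c₁)^{n₁} (t + c₂)^{n₂}` and the regularity of `α j / (β j)^ℓ` at the poles of
`α j`, the ratio `b^ℓ / a` is regular. -/
theorem s36_cusp_zero_aux {K F : Type*} [Field K] [Field F] [Algebra K F] (R : Place K F)
    (a b ja jb : F) (ha : a ≠ 0) (hb : b ≠ 0) (hja : ja ≠ 0) (hjb : jb ≠ 0)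
    (c₁ c₂ : K) (hc₁ : c₁ ≠ 0) (hc₂ : c₂ ≠ 0) (k n₁ n₂ : ℕ) (hk : 0 < k)
    (hrel_a : ja * a ^ k = (a + algebraMap K F c₁) ^ n₁ * (a + algebraMap K F c₂) ^ n₂)
    (hrel_b : jb * b ^ k = (b + algebraMap K F c₁) ^ n₁ * (b + algebraMap K F c₂) ^ n₂)
    (ℓ : ℕ)
    (hj : ja ∉ R.toValuationSubring → ja * (jb ^ ℓ)⁻¹ ∈ R.toValuationSubring)
    (haR : a ∈ R.toValuationSubring.nonunits) (hbR : b ∈ R.toValuationSubring.nonunits) :
    b ^ ℓ * a⁻¹ ∈ R.toValuationSubring := by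
  have hoa : 0 < R.ord a := (mem_nonunits_iff_ord_pos R ha).mp haR
  have hob : 0 < R.ord b := (mem_nonunits_iff_ord_pos R hb).mp hbR
  have hcne : ∀ c : K, c ≠ 0 → algebraMap K F c ≠ 0 := fun c hc =>
    (map_ne_zero_iff _ (algebraMap K F).injective).mpr hc
  -- `y + c` is a unit at `R` for `y` vanishing at `R`
  have hac : ∀ y : F, y ≠ 0 → 0 < R.ord y → ∀ c : K, c ≠ 0 →
      y + algebraMap K F c ≠ 0 ∧ R.ord (y + algebraMap K F c) = 0 := by
    intro y hy hoy c hc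
    have h1 : R.ord (algebraMap K F c + y) = R.ord (algebraMap K F c) :=
      ord_add_eq_of_lt R (hcne c hc) hy (by rw [ord_algebraMap]; exact hoy)
    rw [ord_algebraMap, add_comm] at h1
    refine ⟨fun h0 => ?_, h1⟩
    have h2 : y = -algebraMap K F c := eq_neg_of_add_eq_zero_left h0
    rw [h2, ord_neg, ord_algebraMap] at hoy
    exact lt_irrefl _ hoy
  -- the orders of `ja`, `jb`
  have hord : ∀ (y jy : F), y ≠ 0 → jy ≠ 0 → 0 < R.ord y →
      jy * y ^ k = (y + algebraMap K F c₁) ^ n₁ * (y + algebraMap K F c₂) ^ n₂ →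
      R.ord jy = -((k : ℤ) * R.ord y) := by
    intro y jy hy hjy hoy hrel
    have h1 := congrArg R.ord hrel
    rw [R.ord_mul hjy (pow_ne_zero k hy),
      R.ord_mul (pow_ne_zero n₁ (hac y hy hoy c₁ hc₁).1) (pow_ne_zero n₂ (hac y hy hoy c₂ hc₂).1),
      ord_pow, ord_pow, ord_pow, (hac y hy hoy c₁ hc₁).2, (hac y hy hoy c₂ hc₂).2, mul_zero,
      mul_zero, add_zero] at h1
    omega
  have hoja := hord a ja ha hja hoa hrel_a
  have hojb := hord b jb hb hjb hob hrel_b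
  have hkpos : (0 : ℤ) < (k : ℤ) := by exact_mod_cast hk
  have hjaR : ja ∉ R.toValuationSubring := by
    rw [mem_iff_ord_nonneg, hoja]
    have : 0 < (k : ℤ) * R.ord a := mul_pos hkpos hoa
    omega
  have h3 := hj hjaR
  rw [mem_iff_ord_nonneg, R.ord_mul hja (inv_ne_zero (pow_ne_zero ℓ hjb)), R.ord_inv, ord_pow,
    hoja, hojb] at h3
  rw [mem_iff_ord_nonneg, R.ord_mul (pow_ne_zero ℓ hb) (inv_ne_zero ha), R.ord_inv, ord_pow]
  have h4 : 0 ≤ (k : ℤ) * ((ℓ : ℤ) * R.ord b - R.ord a) := by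
    have : (k : ℤ) * ((ℓ : ℤ) * R.ord b - R.ord a) =
        -((k : ℤ) * R.ord a) + -((ℓ : ℤ) * -((k : ℤ) * R.ord b)) := by ring
    rw [this]
    exact h3
  have h5 : 0 ≤ (ℓ : ℤ) * R.ord b - R.ord a := by
    by_contra hneg
    push Not at hneg
    have : (k : ℤ) * ((ℓ : ℤ) * R.ord b - R.ord a) < 0 := mul_neg_of_pos_of_neg hkpos hneg
    omega
  omega

section Modular

/-- At a pole `R` of `G(q)` on level `N₀ ℓ` (`Q̄ · F_{N₀} = Q̄(G)`, `G = q⁻¹ + …`), the ratio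
`G(q) / G(q^ℓ)^ℓ` is regular. -/
theorem s36_cusp_ratio_mod (N₀ ℓ : ℕ) [NeZero N₀] [NeZero ℓ] (hℓ : ℓ.Prime) (hℓN : ¬ ℓ ∣ N₀)
    (hW : ∃ W : modularFunctionFieldBar (N₀ * ℓ) ≃ₐ[Qb] modularFunctionFieldBar (N₀ * ℓ),
      (∀ x, W (heckeAlphaBar Qb N₀ ℓ x) = heckeBetaBar Qb N₀ ℓ x) ∧
      (∀ x, W (heckeBetaBar Qb N₀ ℓ x) = heckeAlphaBar Qb N₀ ℓ x))
    (G : modularFunctionFieldBar N₀)
    (hG : Qb⟮(G : LaurentSeries Qb)⟯ = modularFunctionFieldBar N₀)
    (hlead : s18h_lead 1 (G : LaurentSeries Qb))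
    (R : Place Qb (modularFunctionFieldBar (N₀ * ℓ)))
    (hR : heckeAlphaBar Qb N₀ ℓ G ∉ R.toValuationSubring) :
    heckeAlphaBar Qb N₀ ℓ G * (heckeBetaBar Qb N₀ ℓ G ^ ℓ)⁻¹ ∈ R.toValuationSubring := by
  haveI : NeZero (N₀ * ℓ) := ⟨Nat.mul_ne_zero (NeZero.ne N₀) (NeZero.ne ℓ)⟩
  haveI := (asm_generic (N₀ * ℓ)).1
  obtain ⟨W, hWa, hWb⟩ := hW
  obtain ⟨P, hP⟩ := s37_et_qPlace (N₀ * ℓ)
  set a := heckeAlphaBar Qb N₀ ℓ G with ha
  set b := heckeBetaBar Qb N₀ ℓ G with hb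
  have hacoe : (a : LaurentSeries Qb) = (G : LaurentSeries Qb) := coe_heckeAlphaBar N₀ ℓ G
  have hbcoe : (b : LaurentSeries Qb) = qExpand Qb ℓ (G : LaurentSeries Qb) :=
    coe_heckeBetaBar N₀ ℓ G
  obtain ⟨ha0, haord⟩ := s37_et_order_of_lead hlead
  have hblead : s18h_lead ((ℓ : ℤ) * 1) (qExpand Qb ℓ (G : LaurentSeries Qb)) :=
    s18h_lead_qExpand ℓ hlead
  obtain ⟨hb0, hbord⟩ := s37_et_order_of_lead hblead
  have ha0' : a ≠ 0 := fun h => ha0 (by rw [← hacoe, h]; rfl)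
  have hb0' : b ≠ 0 := fun h => hb0 (by rw [← hbcoe, h]; rfl)
  have hPa : P.ord a = -1 := by rw [hP a ha0', hacoe, haord]
  have hPb : P.ord b = -(ℓ : ℤ) := by rw [hP b hb0', hbcoe, hbord, mul_one]
  have hatr : Transcendental Qb a := by
    intro halg
    have h0 := s37_h_ord_eq_zero_of_isAlgebraic a halg P
    rw [hPa] at h0
    omega
  exact s36_cusp_pole_ratio (jF (N₀ * ℓ)) (transcendental_jF (N₀ * ℓ)) a b hatr ℓ hℓ.two_le
    (s37_et_finrank N₀ ℓ hℓ hℓN (G : LaurentSeries Qb) hG a hacoe) W (hWa G) (hWb G) P hPa hPb R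
    hR

/-- `s36_cusp_ratio_mod`, lifted to a level `N` divisible by `N₀`. -/
theorem s36_cusp_ratio_lift (N₀ N ℓ : ℕ) [NeZero N₀] [NeZero N] [NeZero ℓ] (hℓ : ℓ.Prime)
    (hℓN₀ : ¬ ℓ ∣ N₀) (hdvd : N₀ ∣ N)
    (hW : ∃ W : modularFunctionFieldBar (N₀ * ℓ) ≃ₐ[Qb] modularFunctionFieldBar (N₀ * ℓ),
      (∀ x, W (heckeAlphaBar Qb N₀ ℓ x) = heckeBetaBar Qb N₀ ℓ x) ∧
      (∀ x, W (heckeBetaBar Qb N₀ ℓ x) = heckeAlphaBar Qb N₀ ℓ x))
    (G₀ : modularFunctionFieldBar N₀)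
    (hG : Qb⟮(G₀ : LaurentSeries Qb)⟯ = modularFunctionFieldBar N₀)
    (hlead : s18h_lead 1 (G₀ : LaurentSeries Qb))
    (G : modularFunctionFieldBar N) (hGG : (G : LaurentSeries Qb) = (G₀ : LaurentSeries Qb))
    (R : Place Qb (modularFunctionFieldBar (N * ℓ)))
    (hR : heckeAlphaBar Qb N ℓ G ∉ R.toValuationSubring) :
    heckeAlphaBar Qb N ℓ G * (heckeBetaBar Qb N ℓ G ^ ℓ)⁻¹ ∈ R.toValuationSubring := by
  haveI : NeZero (N₀ * ℓ) := ⟨Nat.mul_ne_zero (NeZero.ne N₀) (NeZero.ne ℓ)⟩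
  haveI : NeZero (N * ℓ) := ⟨Nat.mul_ne_zero (NeZero.ne N) (NeZero.ne ℓ)⟩
  haveI := (asm_generic (N * ℓ)).1
  set u : modularFunctionFieldBar (N₀ * ℓ) →ₐ[Qb] modularFunctionFieldBar (N * ℓ) :=
    IntermediateField.inclusion (s18_d5_le (Nat.mul_dvd_mul_right hdvd ℓ)) with hu
  have hint : u.toRingHom.IsIntegral :=
    s37_h_isIntegral_along u (jF (N₀ * ℓ)) (transcendental_jF (N₀ * ℓ)) (jF (N * ℓ))
      (transcendental_jF (N * ℓ))
  obtain ⟨R₀, hR₀⟩ := s37_et_restrict u hint R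
  have hua : u (heckeAlphaBar Qb N₀ ℓ G₀) = heckeAlphaBar Qb N ℓ G := by
    apply Subtype.ext
    rw [hu, IntermediateField.coe_inclusion, coe_heckeAlphaBar, coe_heckeAlphaBar, hGG]
  have hub : u (heckeBetaBar Qb N₀ ℓ G₀) = heckeBetaBar Qb N ℓ G := by
    apply Subtype.ext
    rw [hu, IntermediateField.coe_inclusion, coe_heckeBetaBar, coe_heckeBetaBar, hGG]
  rw [← hua, ← hub, ← map_pow, ← map_inv₀, ← map_mul, ← hR₀]
  apply s36_cusp_ratio_mod N₀ ℓ hℓ hℓN₀ hW G₀ hG hlead R₀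
  rw [hR₀, hua]
  exact hR

/-- Generic form of the regularity of `β(τ)^ℓ / α(τ)` at the places where `β τ` is regular:
`t` a generator of level `M₀` with a relation `j · t^k = (t + c₁)^n₁ (t + c₂)^n₂`,
`τ ∈ {t, t⁻¹}`. -/
theorem s36_cusp_reg_aux (N ℓ M₀ : ℕ) [NeZero N] [NeZero ℓ] [NeZero M₀] (hℓ : ℓ.Prime)
    (hℓM₀ : ¬ ℓ ∣ M₀) (hMN : M₀ ∣ N)
    (hswap : ∀ (N₀ : ℕ) [NeZero N₀], Nat.Coprime ℓ N₀ →
      ∃ W : modularFunctionFieldBar (N₀ * ℓ) ≃ₐ[Qb] modularFunctionFieldBar (N₀ * ℓ),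
        (∀ x, W (heckeAlphaBar Qb N₀ ℓ x) = heckeBetaBar Qb N₀ ℓ x) ∧
        (∀ x, W (heckeBetaBar Qb N₀ ℓ x) = heckeAlphaBar Qb N₀ ℓ x))
    (G₀ : modularFunctionFieldBar M₀)
    (hG : Qb⟮(G₀ : LaurentSeries Qb)⟯ = modularFunctionFieldBar M₀)
    (hlead : s18h_lead 1 (G₀ : LaurentSeries Qb))
    (t : modularFunctionFieldBar N) (htG : (t : LaurentSeries Qb) = (G₀ : LaurentSeries Qb))
    (c₁ c₂ : Qb) (hc₁ : c₁ ≠ 0) (hc₂ : c₂ ≠ 0) (k n₁ n₂ : ℕ) (hk : 0 < k)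
    (hrel : jqModC Qb * (t : LaurentSeries Qb) ^ k =
      ((t : LaurentSeries Qb) + algebraMap Qb (LaurentSeries Qb) c₁) ^ n₁ *
        ((t : LaurentSeries Qb) + algebraMap Qb (LaurentSeries Qb) c₂) ^ n₂)
    (t' : modularFunctionFieldBar N) (ht' : t' = t ∨ t' = t⁻¹)
    (R : Place Qb (modularFunctionFieldBar (N * ℓ)))
    (hR : heckeBetaBar Qb N ℓ t' ∈ R.toValuationSubring) :
    heckeBetaBar Qb N ℓ t' ^ ℓ * (heckeAlphaBar Qb N ℓ t')⁻¹ ∈ R.toValuationSubring := by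
  have hcopM : Nat.Coprime ℓ M₀ := (Nat.Prime.coprime_iff_not_dvd hℓ).mpr hℓM₀
  have hℓ1 : ¬ ℓ ∣ 1 := fun h => hℓ.one_lt.ne' (Nat.dvd_one.mp h)
  obtain ⟨hpole, hzero⟩ := s37_et_tt0_aux N ℓ M₀ hℓ hℓM₀ hMN hswap G₀ hG hlead t htG c₁ c₂ hc₁
    hc₂ k n₁ n₂ hk hrel R
  have hj1 : ((jF 1 : modularFunctionFieldBar 1) : LaurentSeries Qb) = jqModC Qb :=
    jtrans_coe_jF 1
  have hjN : ((jF N : modularFunctionFieldBar N) : LaurentSeries Qb) = jqModC Qb :=
    jtrans_coe_jF N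
  -- the four functions and their expansions
  set a := heckeAlphaBar Qb N ℓ t with ha
  set b := heckeBetaBar Qb N ℓ t with hb
  set ja := heckeAlphaBar Qb N ℓ (jF N) with hja
  set jb := heckeBetaBar Qb N ℓ (jF N) with hjb
  have hacoe : (a : LaurentSeries Qb) = (t : LaurentSeries Qb) := coe_heckeAlphaBar N ℓ t
  have hbcoe : (b : LaurentSeries Qb) = qExpand Qb ℓ (t : LaurentSeries Qb) :=
    coe_heckeBetaBar N ℓ t
  have hjacoe : (ja : LaurentSeries Qb) = jqModC Qb := by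
    rw [hja, coe_heckeAlphaBar, hjN]
  have hjbcoe : (jb : LaurentSeries Qb) = qExpand Qb ℓ (jqModC Qb) := by
    rw [hjb, coe_heckeBetaBar, hjN]
  have htlead : s18h_lead 1 (t : LaurentSeries Qb) := by rw [htG]; exact hlead
  have ha0 : a ≠ 0 := fun h =>
    (s37_et_order_of_lead htlead).1 (by rw [← hacoe, h]; rfl)
  have hb0 : b ≠ 0 := fun h =>
    (s37_et_order_of_lead (s18h_lead_qExpand ℓ htlead)).1 (by rw [← hbcoe, h]; rfl)
  have hja0 : ja ≠ 0 := fun h =>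
    (s37_et_order_of_lead (s18h_lead_jq (R := Qb))).1 (by rw [← hjacoe, h]; rfl)
  have hjb0 : jb ≠ 0 := fun h =>
    (s37_et_order_of_lead (s18h_lead_qExpand ℓ (s18h_lead_jq (R := Qb)))).1
      (by rw [← hjbcoe, h]; rfl)
  have hqc : ∀ c : Qb, qExpand Qb ℓ (algebraMap Qb (LaurentSeries Qb) c) =
      algebraMap Qb (LaurentSeries Qb) c := fun c => by
    rw [algebraMap_laurentSeries_eq_single, qExpand_single, mul_zero]
  rcases ht' with rfl | rfl
  · -- `τ = t`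
    have haR : a ∈ R.toValuationSubring := hpole.mpr hR
    by_cases hoa : 0 < R.ord a
    · have hau : a ∈ R.toValuationSubring.nonunits := (mem_nonunits_iff_ord_pos R ha0).mpr hoa
      have hbu : b ∈ R.toValuationSubring.nonunits := hzero hau
      -- the relations inside the function field
      have hrel_a : ja * a ^ k =
          (a + algebraMap Qb (modularFunctionFieldBar (N * ℓ)) c₁) ^ n₁ *
            (a + algebraMap Qb (modularFunctionFieldBar (N * ℓ)) c₂) ^ n₂ := by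
        apply Subtype.ext
        show (ja : LaurentSeries Qb) * (a : LaurentSeries Qb) ^ k =
          ((a : LaurentSeries Qb) + algebraMap Qb (LaurentSeries Qb) c₁) ^ n₁ *
            ((a : LaurentSeries Qb) + algebraMap Qb (LaurentSeries Qb) c₂) ^ n₂
        rw [hjacoe, hacoe]
        exact hrel
      have hrel_b : jb * b ^ k =
          (b + algebraMap Qb (modularFunctionFieldBar (N * ℓ)) c₁) ^ n₁ *
            (b + algebraMap Qb (modularFunctionFieldBar (N * ℓ)) c₂) ^ n₂ := by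
        apply Subtype.ext
        show (jb : LaurentSeries Qb) * (b : LaurentSeries Qb) ^ k =
          ((b : LaurentSeries Qb) + algebraMap Qb (LaurentSeries Qb) c₁) ^ n₁ *
            ((b : LaurentSeries Qb) + algebraMap Qb (LaurentSeries Qb) c₂) ^ n₂
        rw [hjbcoe, hbcoe]
        have h := congrArg (qExpand Qb ℓ) hrel
        rw [map_mul, map_pow, map_mul, map_pow, map_pow, map_add, map_add, hqc, hqc] at h
        exact h
      have hj : ja ∉ R.toValuationSubring → ja * (jb ^ ℓ)⁻¹ ∈ R.toValuationSubring :=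
        fun h => s36_cusp_ratio_lift 1 N ℓ hℓ hℓ1 (one_dvd N)
          (hswap 1 (Nat.coprime_one_right ℓ)) (jF 1)
          (by rw [hj1]; exact s37_et_gen_j) (by rw [hj1]; exact s18h_lead_jq) (jF N)
          (by rw [hjN, hj1]) R h
      exact s36_cusp_zero_aux R a b ja jb ha0 hb0 hja0 hjb0 c₁ c₂ hc₁ hc₂ k n₁ n₂ hk hrel_a
        hrel_b ℓ hj hau hbu
    · -- `a` is a unit at `R`
      have h0 : 0 ≤ R.ord a := (mem_iff_ord_nonneg R a).mp haR
      have h1 : 0 ≤ R.ord b := (mem_iff_ord_nonneg R b).mp hR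
      rw [mem_iff_ord_nonneg, R.ord_mul (pow_ne_zero ℓ hb0) (inv_ne_zero ha0), R.ord_inv, ord_pow]
      have h2 : 0 ≤ (ℓ : ℤ) * R.ord b := mul_nonneg (by positivity) h1
      omega
  · -- `τ = t⁻¹`
    rw [map_inv₀] at hR ⊢
    rw [map_inv₀, inv_inv]
    by_cases haR : a ∈ R.toValuationSubring
    · exact mul_mem (pow_mem hR ℓ) haR
    · have h := s36_cusp_ratio_lift M₀ N ℓ hℓ hℓM₀ hMN (hswap M₀ hcopM) G₀ hG hlead t htG R haR
      have h2 : ((heckeBetaBar Qb N ℓ t)⁻¹) ^ ℓ * heckeAlphaBar Qb N ℓ t =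
          heckeAlphaBar Qb N ℓ t * ((heckeBetaBar Qb N ℓ t) ^ ℓ)⁻¹ := by
        rw [inv_pow]
        exact mul_comm _ _
      rw [h2]
      exact h

/-- **Regularity of `β(τ)^ℓ / α(τ)`** for the Hauptmodul `t = t_M`, `M ∈ {2, 3}`,
`τ ∈ {t, t⁻¹}`: at every place `R` of `Q̄ · F_{Nℓ}` at which `τ(q^ℓ)` is regular, so is
`τ(q^ℓ)^ℓ / τ(q)`. -/
theorem s36_cusp_reg (N ℓ M : ℕ) [NeZero N] [NeZero ℓ] (hℓ : ℓ.Prime) (hℓM : ℓ ≠ M)
    (hMN : M ∣ N)
    (hswap : ∀ (N₀ : ℕ) [NeZero N₀], Nat.Coprime ℓ N₀ →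
      ∃ W : modularFunctionFieldBar (N₀ * ℓ) ≃ₐ[Qb] modularFunctionFieldBar (N₀ * ℓ),
        (∀ x, W (heckeAlphaBar Qb N₀ ℓ x) = heckeBetaBar Qb N₀ ℓ x) ∧
        (∀ x, W (heckeBetaBar Qb N₀ ℓ x) = heckeAlphaBar Qb N₀ ℓ x))
    (t : modularFunctionFieldBar N) (ht : s37_IsHaupt M t)
    (t' : modularFunctionFieldBar N) (ht' : t' = t ∨ t' = t⁻¹)
    (R : Place Qb (modularFunctionFieldBar (N * ℓ)))
    (hR : heckeBetaBar Qb N ℓ t' ∈ R.toValuationSubring) :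
    heckeBetaBar Qb N ℓ t' ^ ℓ * (heckeAlphaBar Qb N ℓ t')⁻¹ ∈ R.toValuationSubring := by
  rcases ht with ⟨rfl, ht⟩ | ⟨rfl, ht⟩
  · have hℓ2 : ¬ ℓ ∣ 2 := fun h => hℓM ((Nat.prime_dvd_prime_iff_eq hℓ Nat.prime_two).mp h)
    refine s36_cusp_reg_aux N ℓ 2 hℓ hℓ2 hMN hswap ⟨s18_t2R Qb, s37_et_t2_mem 2 (dvd_refl 2)⟩
      s37_et_gen_t2 (s18h_lead_t2R Qb) t ht 256 1 (by norm_num) one_ne_zero 2 3 0 (by norm_num)
      ?_ t' ht' R hR
    rw [ht, pow_zero, mul_one, map_ofNat]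
    exact s18_t2R_j Qb
  · have hℓ3 : ¬ ℓ ∣ 3 := fun h => hℓM ((Nat.prime_dvd_prime_iff_eq hℓ Nat.prime_three).mp h)
    refine s36_cusp_reg_aux N ℓ 3 hℓ hℓ3 hMN hswap ⟨s18_t3R Qb, s37_et_t3_mem 3 (dvd_refl 3)⟩
      s37_et_gen_t3 (s18h_lead_t3R Qb) t ht 27 243 (by norm_num) (by norm_num) 3 1 3
      (by norm_num) ?_ t' ht' R hR
    rw [ht, pow_one, map_ofNat, map_ofNat]
    exact s18_t3R_j Qb

end Modular

section Chi

/-- The characteristic polynomial along `β` of an arbitrary `g ∈ Q̄ · F_{Nℓ}`, over the field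
of series in `q^ℓ`: the roots are `(W g)(q^ℓ)` and the `ℓ` twists of `g`
(`s37_es_chi` for a general element). -/
theorem s36_cusp_chi (N ℓ : ℕ) [NeZero N] [NeZero ℓ] (hℓ : ℓ.Prime) (hℓN : ¬ ℓ ∣ N)
    (u : Qbˣ) (hu : IsPrimitiveRoot (u : Qb) ℓ)
    (hfin : FiniteAlong Qb (heckeBetaBar Qb N ℓ))
    (W : modularFunctionFieldBar (N * ℓ) ≃ₐ[Qb] modularFunctionFieldBar (N * ℓ))
    (hWα : ∀ x, W (heckeAlphaBar Qb N ℓ x) = heckeBetaBar Qb N ℓ x)
    (hWβ : ∀ x, W (heckeBetaBar Qb N ℓ x) = heckeAlphaBar Qb N ℓ x)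
    (g : modularFunctionFieldBar (N * ℓ)) :
    (s37_chi (heckeBetaBar Qb N ℓ) hfin g).map
        ((algebraMap (modularFunctionFieldBar (N * ℓ)) (LaurentSeries Qb)).comp
          (heckeBetaBar Qb N ℓ).toRingHom) =
      (X - C (qExpand Qb ℓ ((W g : modularFunctionFieldBar (N * ℓ)) : LaurentSeries Qb))) *
        ∏ i ∈ Finset.range ℓ, (X - C (s37_ec_twist (u ^ i) (g : LaurentSeries Qb))) := by
  classical
  have huℓ : u ^ ℓ = 1 := Units.ext (by rw [Units.val_pow_eq_pow_val, hu.pow_eq_one]; rfl)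
  obtain ⟨-, hdeg⟩ := s37_es_finrank_beta N ℓ hℓ hℓN
  letI := algebraAlong (heckeBetaBar Qb N ℓ)
  haveI : Module.Finite (modularFunctionFieldBar N) (modularFunctionFieldBar (N * ℓ)) := hfin
  -- the embeddings
  let incl : modularFunctionFieldBar (N * ℓ) →+* LaurentSeries Qb :=
    algebraMap (modularFunctionFieldBar (N * ℓ)) (LaurentSeries Qb)
  let σ : Option (Fin ℓ) → modularFunctionFieldBar (N * ℓ) →+* LaurentSeries Qb := fun o =>
    match o with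
    | none => (qExpand Qb ℓ).comp (incl.comp
        (W : modularFunctionFieldBar (N * ℓ) →+* modularFunctionFieldBar (N * ℓ)))
    | some i => (s37_ec_twist (u ^ (i : ℕ))).comp incl
  have hσnone : ∀ y : modularFunctionFieldBar (N * ℓ),
      σ none y = qExpand Qb ℓ ((W y : modularFunctionFieldBar (N * ℓ)) : LaurentSeries Qb) :=
    fun y => rfl
  have hσsome : ∀ (i : Fin ℓ) (y : modularFunctionFieldBar (N * ℓ)),
      σ (some i) y = s37_ec_twist (u ^ (i : ℕ)) (y : LaurentSeries Qb) := fun i y => rfl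
  have hf : ∀ o, (σ o).comp (algebraMap (modularFunctionFieldBar N)
      (modularFunctionFieldBar (N * ℓ))) = incl.comp (heckeBetaBar Qb N ℓ).toRingHom := by
    intro o
    ext1 c
    show σ o (heckeBetaBar Qb N ℓ c) =
      ((heckeBetaBar Qb N ℓ c : modularFunctionFieldBar (N * ℓ)) : LaurentSeries Qb)
    cases o with
    | none =>
      rw [hσnone, hWβ, coe_heckeAlphaBar, coe_heckeBetaBar]
    | some i =>
      rw [hσsome, coe_heckeBetaBar]
      exact s37_ec_twist_qExpand _ ℓ (by rw [← pow_mul, mul_comm, pow_mul, huℓ, one_pow]) _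
  -- separation by `j`
  have hJcoe : ((heckeAlphaBar Qb N ℓ (jF N) : modularFunctionFieldBar (N * ℓ)) :
      LaurentSeries Qb) = coeffEmb Qb jq := by
    rw [coe_heckeAlphaBar]
    rfl
  have hc1 : (coeffEmb Qb jq).coeff (-1 : ℤ) = 1 := by
    rw [coeffEmb_coeff, coeff_jq_neg_one, map_one]
  have hndvd : ¬ ((ℓ : ℕ) : ℤ) ∣ (-1 : ℤ) := by
    intro h
    have h1 : (ℓ : ℤ) ∣ 1 := (dvd_neg).mp h
    have h2 : ℓ ∣ 1 := by exact_mod_cast h1
    exact hℓ.one_lt.ne' (Nat.dvd_one.mp h2)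
  have hcnone : (σ none (heckeAlphaBar Qb N ℓ (jF N))).coeff (-1 : ℤ) = 0 := by
    rw [hσnone]
    exact qExpand_coeff_of_not_dvd ℓ _ hndvd
  have hcsome : ∀ i : Fin ℓ, (σ (some i) (heckeAlphaBar Qb N ℓ (jF N))).coeff (-1 : ℤ) =
      (((u ^ (i : ℕ)) ^ (-1 : ℤ) : Qbˣ) : Qb) := by
    intro i
    rw [hσsome, hJcoe, s37_ec_twist_coeff, hc1, mul_one]
  have hσinj : Function.Injective σ := by
    intro o o' h
    have h1 : (σ o (heckeAlphaBar Qb N ℓ (jF N))).coeff (-1 : ℤ) =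
        (σ o' (heckeAlphaBar Qb N ℓ (jF N))).coeff (-1 : ℤ) := by rw [h]
    cases o with
    | none =>
      cases o' with
      | none => rfl
      | some k =>
        rw [hcnone, hcsome] at h1
        exact absurd h1.symm (Units.ne_zero _)
    | some i =>
      cases o' with
      | none =>
        rw [hcnone, hcsome] at h1
        exact absurd h1 (Units.ne_zero _)
      | some k =>
        rw [hcsome, hcsome] at h1
        have h2 : (u ^ (i : ℕ)) ^ (-1 : ℤ) = (u ^ (k : ℕ)) ^ (-1 : ℤ) := Units.ext h1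
        have h3 : u ^ (i : ℕ) = u ^ (k : ℕ) := by
          rw [zpow_neg_one, zpow_neg_one] at h2
          exact inv_injective h2
        have h4 : (u : Qb) ^ (i : ℕ) = (u : Qb) ^ (k : ℕ) := by
          rw [← Units.val_pow_eq_pow_val, ← Units.val_pow_eq_pow_val, h3]
        exact congrArg some (Fin.ext (hu.pow_inj i.2 k.2 h4))
  have hcard : Fintype.card (Option (Fin ℓ)) =
      Module.finrank (modularFunctionFieldBar N) (modularFunctionFieldBar (N * ℓ)) := by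
    rw [Fintype.card_option, Fintype.card_fin]
    exact hdeg.symm
  have key := s37_ec_charpoly_map_eq_prod (K := modularFunctionFieldBar N)
    (L := modularFunctionFieldBar (N * ℓ)) (incl.comp (heckeBetaBar Qb N ℓ).toRingHom) σ hf
    hσinj hcard g
  unfold s37_chi
  rw [key, Fintype.prod_option]
  congr 1
  rw [Finset.prod_range]
  rfl

/-- The coefficients of the characteristic polynomial of `τ(q^ℓ)^ℓ / τ(q)` along `β` have
`A`-integral `q`-expansions. -/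
theorem s36_cusp_chi_integral (N ℓ M : ℕ) [NeZero N] [NeZero ℓ] (hℓ : ℓ.Prime) (hℓN : ¬ ℓ ∣ N)
    (A : ValuationSubring Qb) (hfin : FiniteAlong Qb (heckeBetaBar Qb N ℓ))
    (t : modularFunctionFieldBar N) (ht : s37_IsHaupt M t)
    (t' : modularFunctionFieldBar N) (ht' : t' = t ∨ t' = t⁻¹) (i : ℕ) (n : ℤ) :
    (((s37_chi (heckeBetaBar Qb N ℓ) hfin
        (heckeBetaBar Qb N ℓ t' ^ ℓ * (heckeAlphaBar Qb N ℓ t')⁻¹)).coeff i :
      modularFunctionFieldBar N) : LaurentSeries Qb).coeff n ∈ A := by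
  classical
  haveI : NeZero (ℓ : Qb) := ⟨by exact_mod_cast NeZero.ne ℓ⟩
  obtain ⟨ζ, hζ⟩ := HasEnoughRootsOfUnity.exists_primitiveRoot Qb ℓ
  have hζ0 : ζ ≠ 0 := hζ.ne_zero (NeZero.ne ℓ)
  obtain ⟨u, hu⟩ : ∃ u : Qbˣ, (u : Qb) = ζ := ⟨Units.mk0 ζ hζ0, rfl⟩
  have huζ : IsPrimitiveRoot (u : Qb) ℓ := by rw [hu]; exact hζ
  have hζA : ζ ∈ A := s37_et_root_mem A ζ ℓ hℓ.pos hζ.pow_eq_one
  have hζinvA : ζ⁻¹ ∈ A :=
    s37_et_root_mem A ζ⁻¹ ℓ hℓ.pos (by rw [inv_pow, hζ.pow_eq_one, inv_one])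
  have hzpow : ∀ k : ℤ, ζ ^ k ∈ A := by
    intro k
    rcases Int.eq_nat_or_neg k with ⟨m, rfl | rfl⟩
    · rw [zpow_natCast]
      exact pow_mem hζA m
    · rw [zpow_neg, zpow_natCast, ← inv_pow]
      exact pow_mem hζinvA m
  have hcop : Nat.Coprime ℓ N := (Nat.Prime.coprime_iff_not_dvd hℓ).mpr hℓN
  obtain ⟨W, hWα, hWβ⟩ := s37_es_swap N ℓ hcop
  -- the subring of `A`-integral series
  set S : Subring (LaurentSeries Qb) := (coeffMap A.subtype).range with hS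
  have hS1 : ∀ x : LaurentSeries Qb, x ∈ S ↔ ∀ m, x.coeff m ∈ A := by
    intro x
    constructor
    · rintro ⟨y, rfl⟩ m
      rw [coeffMap_coeff]
      exact SetLike.coe_mem _
    · intro h
      obtain ⟨y, hy⟩ := s37_et_exists_coeffMap A x h
      exact ⟨y, hy⟩
  have hSq : ∀ (d : ℕ) [NeZero d] (x : LaurentSeries Qb), x ∈ S → qExpand Qb d x ∈ S := by
    rintro d _ _ ⟨y, rfl⟩
    exact ⟨qExpand A d y, coeffMap_qExpand _ d y⟩
  have hSt : ∀ (k : ℕ) (x : LaurentSeries Qb), x ∈ S → s37_ec_twist (u ^ k) x ∈ S := by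
    intro k x hx
    rw [hS1] at hx ⊢
    intro m
    rw [s37_ec_twist_coeff]
    refine mul_mem ?_ (hx m)
    rw [Units.val_zpow_eq_zpow_val, Units.val_pow_eq_pow_val, hu, ← zpow_natCast, ← zpow_mul]
    exact hzpow _
  -- the Hauptmodul and its inverse
  have hinv' : t'⁻¹ = t ∨ t'⁻¹ = t⁻¹ := by
    rcases ht' with rfl | rfl
    · exact Or.inr rfl
    · exact Or.inl (inv_inv t)
  have ht'S : (t' : LaurentSeries Qb) ∈ S :=
    (hS1 _).mpr (s37_et_haupt_integral N M A t ht t' ht')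
  have hti'S : ((t'⁻¹ : modularFunctionFieldBar N) : LaurentSeries Qb) ∈ S :=
    (hS1 _).mpr (s37_et_haupt_integral N M A t ht t'⁻¹ hinv')
  have hcoeinv : ((t'⁻¹ : modularFunctionFieldBar N) : LaurentSeries Qb) =
      (t' : LaurentSeries Qb)⁻¹ := rfl
  set g : modularFunctionFieldBar (N * ℓ) :=
    heckeBetaBar Qb N ℓ t' ^ ℓ * (heckeAlphaBar Qb N ℓ t')⁻¹ with hg
  -- the roots
  have hgcoe : (g : LaurentSeries Qb) =
      qExpand Qb ℓ (t' : LaurentSeries Qb) ^ ℓ *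
        ((t'⁻¹ : modularFunctionFieldBar N) : LaurentSeries Qb) := by
    rw [hcoeinv, ← coe_heckeBetaBar (L := Qb) (N := N) (ℓ := ℓ) t',
      ← coe_heckeAlphaBar (L := Qb) (N := N) (ℓ := ℓ) t']
    rfl
  have hWg : ((W g : modularFunctionFieldBar (N * ℓ)) : LaurentSeries Qb) =
      (t' : LaurentSeries Qb) ^ ℓ *
        qExpand Qb ℓ ((t'⁻¹ : modularFunctionFieldBar N) : LaurentSeries Qb) := by
    rw [hg, map_mul, map_pow, map_inv₀, hWβ, hWα, hcoeinv, map_inv₀,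
      ← coe_heckeBetaBar (L := Qb) (N := N) (ℓ := ℓ) t',
      ← coe_heckeAlphaBar (L := Qb) (N := N) (ℓ := ℓ) t']
    rfl
  have hgS : (g : LaurentSeries Qb) ∈ S := by
    rw [hgcoe]
    exact mul_mem (pow_mem (hSq ℓ _ ht'S) ℓ) hti'S
  have hWgS : qExpand Qb ℓ ((W g : modularFunctionFieldBar (N * ℓ)) : LaurentSeries Qb) ∈ S := by
    rw [hWg]
    exact hSq ℓ _ (mul_mem (pow_mem ht'S ℓ) (hSq ℓ _ hti'S))
  have hchi := s36_cusp_chi N ℓ hℓ hℓN u huζ hfin W hWα hWβ g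
  have hrhs : (X - C (qExpand Qb ℓ ((W g : modularFunctionFieldBar (N * ℓ)) : LaurentSeries Qb))) *
      ∏ k ∈ Finset.range ℓ, (X - C (s37_ec_twist (u ^ k) (g : LaurentSeries Qb))) =
      ((X - C (⟨_, hWgS⟩ : S)) * ∏ k ∈ Finset.range ℓ,
        (X - C (⟨_, hSt k _ hgS⟩ : S))).map S.subtype := by
    rw [Polynomial.map_mul, Polynomial.map_sub, Polynomial.map_X, Polynomial.map_C,
      Polynomial.map_prod]
    congr 1
    refine Finset.prod_congr rfl (fun k _ => ?_)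
    rw [Polynomial.map_sub, Polynomial.map_X, Polynomial.map_C]
    rfl
  rw [hrhs] at hchi
  have h1 := congrArg (fun p : Polynomial (LaurentSeries Qb) => p.coeff i) hchi
  simp only [Polynomial.coeff_map] at h1
  have h2 : (((s37_chi (heckeBetaBar Qb N ℓ) hfin g).coeff i :
      modularFunctionFieldBar N) : LaurentSeries Qb).coeff n =
      (qExpand Qb ℓ (((s37_chi (heckeBetaBar Qb N ℓ) hfin g).coeff i :
      modularFunctionFieldBar N) : LaurentSeries Qb)).coeff ((ℓ : ℤ) * n) :=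
    (qExpand_coeff_mul ℓ _ n).symm
  rw [h2]
  have h3 : qExpand Qb ℓ (((s37_chi (heckeBetaBar Qb N ℓ) hfin g).coeff i :
      modularFunctionFieldBar N) : LaurentSeries Qb) ∈ S := by
    have h4 : qExpand Qb ℓ (((s37_chi (heckeBetaBar Qb N ℓ) hfin g).coeff i :
        modularFunctionFieldBar N) : LaurentSeries Qb) =
        S.subtype (((X - C (⟨_, hWgS⟩ : S)) * ∏ k ∈ Finset.range ℓ,
          (X - C (⟨_, hSt k _ hgS⟩ : S))).coeff i) := by
      rw [← h1]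
      rfl
    rw [h4]
    exact SetLike.coe_mem _
  exact (hS1 _).mp h3 _

end Chi

section Main

/-- **Cusp ratio**, modulo the `q`-expansion principle (QEP) for the chart of `τ`. -/
theorem s36_cusp_ratio_aux (N ℓ M : ℕ) [NeZero N] [NeZero ℓ] (hℓ : ℓ.Prime)
    (hℓN : ¬ ℓ ∣ N) (hℓM : ℓ ≠ M) (hMN : M ∣ N) (A : ValuationSubring Qb)
    (t : modularFunctionFieldBar N) (ht : s37_IsHaupt M t)
    (t' : modularFunctionFieldBar N) (ht' : t' = t ∨ t' = t⁻¹)
    (hqep : ∀ (g : LaurentSeries A) (hg : coeffMap A.subtype g ∈ modularFunctionFieldBar N),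
      IsIntegral (Algebra.adjoin Qb {t'}) (⟨_, hg⟩ : modularFunctionFieldBar N) →
      s37_IsChartFn A t' (⟨_, hg⟩ : modularFunctionFieldBar N)) :
    IsIntegral (s37_chartBase A (heckeBetaBar Qb N ℓ t'))
      (heckeBetaBar Qb N ℓ t' ^ ℓ * (heckeAlphaBar Qb N ℓ t')⁻¹) := by
  haveI : NeZero (N * ℓ) := ⟨Nat.mul_ne_zero (NeZero.ne N) (NeZero.ne ℓ)⟩
  obtain ⟨hfin, -⟩ := s37_es_finrank_beta N ℓ hℓ hℓN
  have htr : Transcendental Qb t' := s37_et_haupt_transcendental N M t ht t' ht'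
  have hswap : ∀ (N₀ : ℕ) [NeZero N₀], Nat.Coprime ℓ N₀ →
      ∃ W : modularFunctionFieldBar (N₀ * ℓ) ≃ₐ[Qb] modularFunctionFieldBar (N₀ * ℓ),
        (∀ x, W (heckeAlphaBar Qb N₀ ℓ x) = heckeBetaBar Qb N₀ ℓ x) ∧
        (∀ x, W (heckeBetaBar Qb N₀ ℓ x) = heckeAlphaBar Qb N₀ ℓ x) :=
    fun N₀ _ h => s37_es_swap N₀ ℓ h
  -- the coefficients of the characteristic polynomial are chart functions
  have hck : ∀ i, s37_IsChartFn A t'
      ((s37_chi (heckeBetaBar Qb N ℓ) hfin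
        (heckeBetaBar Qb N ℓ t' ^ ℓ * (heckeAlphaBar Qb N ℓ t')⁻¹)).coeff i) := by
    intro i
    obtain ⟨c, hc⟩ := s37_et_exists_coeffMap A _
      (s36_cusp_chi_integral N ℓ M hℓ hℓN A hfin t ht t' ht' i)
    have hmem : coeffMap A.subtype c ∈ modularFunctionFieldBar N := by
      rw [hc]
      exact SetLike.coe_mem _
    have heq : (⟨_, hmem⟩ : modularFunctionFieldBar N) =
        (s37_chi (heckeBetaBar Qb N ℓ) hfin
          (heckeBetaBar Qb N ℓ t' ^ ℓ * (heckeAlphaBar Qb N ℓ t')⁻¹)).coeff i :=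
      Subtype.ext hc
    rw [← heq]
    apply hqep c hmem
    rw [heq]
    apply s37_hol_bar N t' htr
    intro P hP
    apply s37_et_chi_coeff_mem (s37_h_isFF_bar N) (s37_h_isFF_bar (N * ℓ))
      (heckeBetaBar Qb N ℓ) hfin P
      (heckeBetaBar Qb N ℓ t' ^ ℓ * (heckeAlphaBar Qb N ℓ t')⁻¹)
    intro W hW
    exact s36_cusp_reg N ℓ M hℓ hℓM hMN hswap t ht t' ht' W (hW t' hP)
  obtain ⟨hmonic, hroot⟩ := s37_et_chi_root (heckeBetaBar Qb N ℓ) hfin
    (heckeBetaBar Qb N ℓ t' ^ ℓ * (heckeAlphaBar Qb N ℓ t')⁻¹)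
  refine s37_et_integral_of_root _ hmonic (fun i => ?_) _ hroot
  rw [Polynomial.coeff_map]
  exact s37_et_isIntegral_map A (heckeBetaBar Qb N ℓ) t' _ (hck i)

/-- **Cusp ratio (degree bound of the modular equation of the Hauptmodul)**: for
`τ ∈ {t, t⁻¹}`, `τ(q^ℓ)^ℓ / τ(q)` is integral over `A[τ(q^ℓ)]` inside `Q̄ · F_{Nℓ}`. -/
theorem s36_cusp_ratio (N ℓ M : ℕ) [NeZero N] [NeZero ℓ] (hℓ : ℓ.Prime) (hℓN : ¬ ℓ ∣ N)
    (hℓM : ℓ ≠ M) (hMN : M ∣ N) (A : ValuationSubring Qb) (hA : A.LiesOverPrime ℓ)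
    (t : modularFunctionFieldBar N) (ht : s37_IsHaupt M t)
    (t' : modularFunctionFieldBar N) (ht' : t' = t ∨ t' = t⁻¹) :
    IsIntegral (s37_chartBase A (heckeBetaBar Qb N ℓ t'))
      (heckeBetaBar Qb N ℓ t' ^ ℓ * (heckeAlphaBar Qb N ℓ t')⁻¹) :=
  s36_cusp_ratio_aux N ℓ M hℓ hℓN hℓM hMN A t ht t' ht'
    (fun g hg hint => s37_rc_qep N ℓ M hℓ hℓN hℓM hMN A hA t ht t' ht' g hg hint)

end Main

end

end Fermat.Agent.S36
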