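import Mathlib
import Fermat.Agent.S36.CuspRatio
import Fermat.Agent.S34.SwapStable

/-!
# S36 (NODE-3), cusp leaf, descent: `τ^ℓ / τ(q^ℓ)` lies in the integral-closure chart of `τ`

`N₁` a level, `ℓ ∤ N₁` a prime, `M ∈ {2, 3}`, `M ∣ N₁`, `M ≠ ℓ`; `K₁ ⊆ Q̄` ANY intermediate
field (no Galois hypothesis), `A` a valuation ring of `Q̄` over `ℓ`, `A₁ = A ∩ K₁`;
`F = K₁ · F_{N₁ℓ}`, `t ∈ F` the Hauptmodul `t_M`, `τ ∈ {t, t⁻¹}`.  Then

  `τ^ℓ / τ(q^ℓ) ∈ s34_ic_chart A₁ τ`      (`s36_cusp_mem`)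

i.e. for `τ = t⁻¹`: `t(q^ℓ) / t^ℓ ∈ B_∞ = ic(A₁[t⁻¹])`, and for `τ = t`:
`t^ℓ / t(q^ℓ) ∈ B_0 = ic(A₁[t])`.

Proof: over `Q̄` this is `s36_cusp_ratio` transported by the swap `s37_es_swap`; the
integrality equation descends from `A` to `A₁` by `s34_ws_descent_core` (clone of
`s34_ws_vq_mem`).
-/

set_option autoImplicit false
set_option linter.style.haveILetI false
set_option linter.unusedSimpArgs false
set_option linter.unusedSectionVars false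
set_option linter.unusedVariables false
set_option synthInstance.maxHeartbeats 400000

namespace Fermat.Agent.S36

open ModularCurve AlgebraicCurve Polynomial
open Fermat.Agent.S18 Fermat.Agent.S37 Fermat.Agent.S34

noncomputable section

local notation "Qb" => AlgebraicClosure ℚ

variable (N ℓ M : ℕ) [NeZero N] [NeZero ℓ]

/-- **Cusp ratio in the chart**: an element `y` of `K₁ · F_{Nℓ}` with `q`-expansion
`τ(q)^ℓ / τ(q^ℓ)` lies in the chart `s34_ic_chart A₁ τ`, for `τ` the Hauptmodul or its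
inverse. -/
theorem s36_cusp_mem [NeZero (N * ℓ)] (hℓ : ℓ.Prime) (hℓN : ¬ ℓ ∣ N) (hℓM : ℓ ≠ M)
    (hMN : M ∣ N) (A : ValuationSubring Qb) (hA : A.LiesOverPrime ℓ)
    (K₁ : IntermediateField ℚ Qb)
    (t : s18_F1 K₁ (N * ℓ)) (ht : s37_IsHaupt M (s18_baseIncl K₁ (N * ℓ) t))
    (t' : s18_F1 K₁ (N * ℓ)) (ht' : t' = t ∨ t' = t⁻¹)
    (y : s18_F1 K₁ (N * ℓ))
    (hy : (y : LaurentSeries K₁) =
      (t' : LaurentSeries K₁) ^ ℓ * (qExpand K₁ ℓ (t' : LaurentSeries K₁))⁻¹) :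
    y ∈ s34_ic_chart (s18_A1 A K₁) t' := by
  classical
  set ι : LaurentSeries K₁ →+* LaurentSeries Qb := coeffMap (algebraMap K₁ Qb) with hι
  have hιinj : Function.Injective ι := RingHom.injective ι
  have hM : M = 2 ∨ M = 3 := by
    rcases ht with ⟨h, -⟩ | ⟨h, -⟩
    · exact Or.inl h
    · exact Or.inr h
  obtain ⟨tb, htb⟩ := s37_dl_haupt_exists N M hM hMN
  -- `tb` and `t` have the same `q`-expansion
  have htbt : (tb : LaurentSeries Qb) = ι (t : LaurentSeries K₁) := by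
    have e : ((s18_baseIncl K₁ (N * ℓ) t : modularFunctionFieldBar (N * ℓ)) :
        LaurentSeries Qb) = ι (t : LaurentSeries K₁) := rfl
    rcases ht with ⟨h2, e1⟩ | ⟨h3, e1⟩
    · rcases htb with ⟨-, e2⟩ | ⟨h3, -⟩
      · rw [e2, ← e, e1]
      · omega
    · rcases htb with ⟨h2, -⟩ | ⟨-, e2⟩
      · omega
      · rw [e2, ← e, e1]
  -- the corresponding coordinate upstairs
  obtain ⟨tb', htb', htb't⟩ : ∃ tb' : modularFunctionFieldBar N, (tb' = tb ∨ tb' = tb⁻¹) ∧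
      (tb' : LaurentSeries Qb) = ι (t' : LaurentSeries K₁) := by
    rcases ht' with rfl | rfl
    · exact ⟨tb, Or.inl rfl, htbt⟩
    · refine ⟨tb⁻¹, Or.inr rfl, ?_⟩
      show (tb : LaurentSeries Qb)⁻¹ = ι ((t : LaurentSeries K₁)⁻¹)
      rw [map_inv₀, htbt]
  have hstab := s36_cusp_ratio N ℓ M hℓ hℓN hℓM hMN A hA tb htb tb' htb'
  have hcop : Nat.Coprime ℓ N := (Nat.Prime.coprime_iff_not_dvd hℓ).mpr hℓN
  obtain ⟨W, hWα, hWβ⟩ := s37_es_swap N ℓ hcop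
  have h2 := s37_et_isIntegral_map A (W : modularFunctionFieldBar (N * ℓ) →ₐ[Qb]
    modularFunctionFieldBar (N * ℓ)) _ _ hstab
  have e1 : (W : modularFunctionFieldBar (N * ℓ) →ₐ[Qb] modularFunctionFieldBar (N * ℓ))
      (heckeBetaBar Qb N ℓ tb') = heckeAlphaBar Qb N ℓ tb' := hWβ tb'
  have e2 : (W : modularFunctionFieldBar (N * ℓ) →ₐ[Qb] modularFunctionFieldBar (N * ℓ))
      (heckeAlphaBar Qb N ℓ tb') = heckeBetaBar Qb N ℓ tb' := hWα tb'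
  have e5 : (W : modularFunctionFieldBar (N * ℓ) →ₐ[Qb] modularFunctionFieldBar (N * ℓ))
      (heckeBetaBar Qb N ℓ tb' ^ ℓ * (heckeAlphaBar Qb N ℓ tb')⁻¹) =
      heckeAlphaBar Qb N ℓ tb' ^ ℓ * (heckeBetaBar Qb N ℓ tb')⁻¹ := by
    rw [map_mul, map_pow, map_inv₀, e1, e2]
  rw [e1, e5] at h2
  obtain ⟨P, hPm, hPA, hPx⟩ := s34_ws_bivar (modularFunctionFieldBar (N * ℓ)).val A _ _ h2
  have e3 : (modularFunctionFieldBar (N * ℓ)).val (heckeAlphaBar Qb N ℓ tb') =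
      ι (t' : LaurentSeries K₁) := by
    rw [← htb't]
    exact coe_heckeAlphaBar N ℓ tb'
  have e4 : (modularFunctionFieldBar (N * ℓ)).val
      (heckeAlphaBar Qb N ℓ tb' ^ ℓ * (heckeBetaBar Qb N ℓ tb')⁻¹) =
      ι (y : LaurentSeries K₁) := by
    have hq : ι (qExpand K₁ ℓ (t' : LaurentSeries K₁)) =
        qExpand Qb ℓ (ι (t' : LaurentSeries K₁)) := coeffMap_qExpand _ ℓ _
    have hιy : ι (y : LaurentSeries K₁) =
        ι (t' : LaurentSeries K₁) ^ ℓ * (qExpand Qb ℓ (ι (t' : LaurentSeries K₁)))⁻¹ := by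
      rw [hy, map_mul, map_pow, map_inv₀, hq]
    rw [hιy, ← htb't]
    show ((heckeAlphaBar Qb N ℓ tb' : modularFunctionFieldBar (N * ℓ)) : LaurentSeries Qb) ^ ℓ *
      ((heckeBetaBar Qb N ℓ tb' : modularFunctionFieldBar (N * ℓ)) : LaurentSeries Qb)⁻¹ = _
    rw [coe_heckeAlphaBar, coe_heckeBetaBar]
  rw [e3, e4] at hPx
  -- transcendence
  have htr : Transcendental Qb (ι (t' : LaurentSeries K₁)) := by
    have h0 := s37_et_haupt_transcendental N M tb htb tb' htb'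
    rw [← htb't]
    intro halg
    apply h0
    obtain ⟨p, hp0, hp⟩ := halg
    refine ⟨p, hp0, Subtype.ext ?_⟩
    have h3 : ((modularFunctionFieldBar N).val) (aeval tb' p) =
        aeval ((modularFunctionFieldBar N).val tb') p :=
      (Polynomial.aeval_algHom_apply _ _ _).symm
    exact h3.trans hp
  -- descent
  obtain ⟨P₁, hP₁m, hP₁A, hP₁x⟩ := s34_ws_descent_core (k := K₁) (L := Qb)
    (Ω₁ := LaurentSeries K₁) (Ω := LaurentSeries Qb) (s34_ws_fixed K₁) A.toSubring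
    (s34_ws_closed A) ι hιinj
    (fun c => by
      rw [hι, algebraMap_laurentSeries_eq_single, algebraMap_laurentSeries_eq_single,
        coeffMap_single])
    (fun σ => coeffMap ((σ : Qb ≃ₐ[K₁] Qb) : Qb →+* Qb))
    (fun σ a => by
      rw [algebraMap_laurentSeries_eq_single, algebraMap_laurentSeries_eq_single,
        coeffMap_single]
      rfl)
    (fun σ z => by
      rw [hι, coeffMap_coeffMap]
      exact coeffMap_congr (RingHom.ext fun c => σ.commutes c) z)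
    (t' : LaurentSeries K₁) (y : LaurentSeries K₁) htr P hPm hPA hPx
  -- back to the chart
  rw [s34_ic_mem_iff]
  set incl : Polynomial (s18_A1 A K₁) →+* K₁[X] :=
    Polynomial.mapRingHom (s18_A1 A K₁).subtype with hincl
  have hlift : P₁ ∈ Polynomial.lifts incl := by
    rw [Polynomial.lifts_iff_coeff_lifts]
    intro i
    have h1 : P₁.coeff i ∈ Polynomial.lifts (s18_A1 A K₁).subtype := by
      rw [Polynomial.lifts_iff_coeff_lifts]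
      intro k
      exact ⟨⟨(P₁.coeff i).coeff k, hP₁A i k⟩, rfl⟩
    obtain ⟨q, hq⟩ := (Polynomial.mem_lifts _).mp h1
    exact ⟨q, hq⟩
  obtain ⟨q, hq, -, hqm⟩ := Polynomial.lifts_and_degree_eq_and_monic hlift hP₁m
  refine ⟨q, hqm, ?_⟩
  apply Subtype.ext
  have hcomp : ((s18_F1 K₁ (N * ℓ)).val : s18_F1 K₁ (N * ℓ) →+* LaurentSeries K₁).comp
      ((aeval t' : Polynomial (s18_A1 A K₁) →ₐ[s18_A1 A K₁] s18_F1 K₁ (N * ℓ)) :
        Polynomial (s18_A1 A K₁) →+* s18_F1 K₁ (N * ℓ)) =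
      ((aeval (t' : LaurentSeries K₁) : K₁[X] →ₐ[K₁] LaurentSeries K₁) :
        K₁[X] →+* LaurentSeries K₁).comp incl := by
    apply Polynomial.ringHom_ext
    · intro a
      simp only [RingHom.comp_apply, hincl, Polynomial.coe_mapRingHom, Polynomial.map_C,
        AlgHom.coe_toRingHom, Polynomial.aeval_C, RingHom.coe_coe]
      rfl
    · simp only [RingHom.comp_apply, hincl, Polynomial.coe_mapRingHom, Polynomial.map_X,
        AlgHom.coe_toRingHom, Polynomial.aeval_X, RingHom.coe_coe]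
      rfl
  have h1 := Polynomial.hom_eval₂ q
    ((aeval t' : Polynomial (s18_A1 A K₁) →ₐ[s18_A1 A K₁] s18_F1 K₁ (N * ℓ)) :
        Polynomial (s18_A1 A K₁) →+* s18_F1 K₁ (N * ℓ))
    ((s18_F1 K₁ (N * ℓ)).val : s18_F1 K₁ (N * ℓ) →+* LaurentSeries K₁) y
  rw [hcomp, ← Polynomial.eval₂_map, hq] at h1
  exact h1.trans hP₁x

/-- **Cusp ratio, swap form**: for a ring endomorphism `W₁` of `K₁ · F_{Nℓ}` mapping the
Hauptmodul `t` to `t(q^ℓ)`, and `τ ∈ {t, t⁻¹}`: `τ^ℓ / W₁ τ ∈ s34_ic_chart A₁ τ`. -/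
theorem s36_cusp_swap_mem [NeZero (N * ℓ)] (hℓ : ℓ.Prime) (hℓN : ¬ ℓ ∣ N) (hℓM : ℓ ≠ M)
    (hMN : M ∣ N) (A : ValuationSubring Qb) (hA : A.LiesOverPrime ℓ)
    (K₁ : IntermediateField ℚ Qb)
    (t : s18_F1 K₁ (N * ℓ)) (ht : s37_IsHaupt M (s18_baseIncl K₁ (N * ℓ) t))
    (t' : s18_F1 K₁ (N * ℓ)) (ht' : t' = t ∨ t' = t⁻¹)
    (W₁ : s18_F1 K₁ (N * ℓ) →+* s18_F1 K₁ (N * ℓ))
    (hWt : ((W₁ t : s18_F1 K₁ (N * ℓ)) : LaurentSeries K₁) =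
      qExpand K₁ ℓ (t : LaurentSeries K₁)) :
    t' ^ ℓ * (W₁ t')⁻¹ ∈ s34_ic_chart (s18_A1 A K₁) t' := by
  refine s36_cusp_mem N ℓ M hℓ hℓN hℓM hMN A hA K₁ t ht t' ht' _ ?_
  have hW' : ((W₁ t' : s18_F1 K₁ (N * ℓ)) : LaurentSeries K₁) =
      qExpand K₁ ℓ (t' : LaurentSeries K₁) := by
    rcases ht' with rfl | rfl
    · exact hWt
    · rw [map_inv₀]
      show ((W₁ t : s18_F1 K₁ (N * ℓ)) : LaurentSeries K₁)⁻¹ =
        qExpand K₁ ℓ ((t : LaurentSeries K₁)⁻¹)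
      rw [map_inv₀, hWt]
  show (t' : LaurentSeries K₁) ^ ℓ * ((W₁ t' : s18_F1 K₁ (N * ℓ)) : LaurentSeries K₁)⁻¹ = _
  rw [hW']

/-- **Descent of chart membership** from `Q̄` to `K₁` (the second half of `s34_ws_vq_mem`, for
arbitrary elements): if `x, y ∈ K₁ · F_L` have the same `q`-expansions as `xb, yb ∈ Q̄ · F_L`,
`xb` is transcendental and `yb` is integral over `A[xb]`, then `y ∈ s34_ic_chart A₁ x`. -/
theorem s36_cusp_descent (L : ℕ) [NeZero L] (A : ValuationSubring Qb)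
    (K₁ : IntermediateField ℚ Qb) (x y : s18_F1 K₁ L) (xb yb : modularFunctionFieldBar L)
    (hx : (xb : LaurentSeries Qb) = coeffMap (algebraMap K₁ Qb) (x : LaurentSeries K₁))
    (hy : (yb : LaurentSeries Qb) = coeffMap (algebraMap K₁ Qb) (y : LaurentSeries K₁))
    (htrb : Transcendental Qb xb)
    (h : IsIntegral (s37_chartBase A xb) yb) :
    y ∈ s34_ic_chart (s18_A1 A K₁) x := by
  classical
  set ι : LaurentSeries K₁ →+* LaurentSeries Qb := coeffMap (algebraMap K₁ Qb) with hι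
  have hιinj : Function.Injective ι := RingHom.injective ι
  obtain ⟨P, hPm, hPA, hPx⟩ := s34_ws_bivar (modularFunctionFieldBar L).val A _ _ h
  have e3 : (modularFunctionFieldBar L).val xb = ι (x : LaurentSeries K₁) := hx
  have e4 : (modularFunctionFieldBar L).val yb = ι (y : LaurentSeries K₁) := hy
  rw [e3, e4] at hPx
  -- transcendence
  have htr : Transcendental Qb (ι (x : LaurentSeries K₁)) := by
    rw [← e3]
    intro halg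
    apply htrb
    obtain ⟨p, hp0, hp⟩ := halg
    refine ⟨p, hp0, Subtype.ext ?_⟩
    have h3 : ((modularFunctionFieldBar L).val) (aeval xb p) =
        aeval ((modularFunctionFieldBar L).val xb) p :=
      (Polynomial.aeval_algHom_apply _ _ _).symm
    exact h3.trans hp
  -- descent
  obtain ⟨P₁, hP₁m, hP₁A, hP₁x⟩ := s34_ws_descent_core (k := K₁) (L := Qb)
    (Ω₁ := LaurentSeries K₁) (Ω := LaurentSeries Qb) (s34_ws_fixed K₁) A.toSubring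
    (s34_ws_closed A) ι hιinj
    (fun c => by
      rw [hι, algebraMap_laurentSeries_eq_single, algebraMap_laurentSeries_eq_single,
        coeffMap_single])
    (fun σ => coeffMap ((σ : Qb ≃ₐ[K₁] Qb) : Qb →+* Qb))
    (fun σ a => by
      rw [algebraMap_laurentSeries_eq_single, algebraMap_laurentSeries_eq_single,
        coeffMap_single]
      rfl)
    (fun σ z => by
      rw [hι, coeffMap_coeffMap]
      exact coeffMap_congr (RingHom.ext fun c => σ.commutes c) z)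
    (x : LaurentSeries K₁) (y : LaurentSeries K₁) htr P hPm hPA hPx
  -- back to the chart
  rw [s34_ic_mem_iff]
  set incl : Polynomial (s18_A1 A K₁) →+* K₁[X] :=
    Polynomial.mapRingHom (s18_A1 A K₁).subtype with hincl
  have hlift : P₁ ∈ Polynomial.lifts incl := by
    rw [Polynomial.lifts_iff_coeff_lifts]
    intro i
    have h1 : P₁.coeff i ∈ Polynomial.lifts (s18_A1 A K₁).subtype := by
      rw [Polynomial.lifts_iff_coeff_lifts]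
      intro k
      exact ⟨⟨(P₁.coeff i).coeff k, hP₁A i k⟩, rfl⟩
    obtain ⟨q, hq⟩ := (Polynomial.mem_lifts _).mp h1
    exact ⟨q, hq⟩
  obtain ⟨q, hq, -, hqm⟩ := Polynomial.lifts_and_degree_eq_and_monic hlift hP₁m
  refine ⟨q, hqm, ?_⟩
  apply Subtype.ext
  have hcomp : ((s18_F1 K₁ L).val : s18_F1 K₁ L →+* LaurentSeries K₁).comp
      ((aeval x : Polynomial (s18_A1 A K₁) →ₐ[s18_A1 A K₁] s18_F1 K₁ L) :
        Polynomial (s18_A1 A K₁) →+* s18_F1 K₁ L) =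
      ((aeval (x : LaurentSeries K₁) : K₁[X] →ₐ[K₁] LaurentSeries K₁) :
        K₁[X] →+* LaurentSeries K₁).comp incl := by
    apply Polynomial.ringHom_ext
    · intro a
      simp only [RingHom.comp_apply, hincl, Polynomial.coe_mapRingHom, Polynomial.map_C,
        AlgHom.coe_toRingHom, Polynomial.aeval_C, RingHom.coe_coe]
      rfl
    · simp only [RingHom.comp_apply, hincl, Polynomial.coe_mapRingHom, Polynomial.map_X,
        AlgHom.coe_toRingHom, Polynomial.aeval_X, RingHom.coe_coe]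
      rfl
  have h1 := Polynomial.hom_eval₂ q
    ((aeval x : Polynomial (s18_A1 A K₁) →ₐ[s18_A1 A K₁] s18_F1 K₁ L) :
        Polynomial (s18_A1 A K₁) →+* s18_F1 K₁ L)
    ((s18_F1 K₁ L).val : s18_F1 K₁ L →+* LaurentSeries K₁) y
  rw [hcomp, ← Polynomial.eval₂_map, hq] at h1
  exact h1.trans hP₁x

/-- **Cusp ratio, `β`-form over `K₁`**: for `τ₀ ∈ {t₀, t₀⁻¹}` (`t₀` the Hauptmodul at level
`N` over `K₁`), `(β τ₀)^ℓ / (α τ₀) ∈ s34_ic_chart A₁ (β τ₀)` in `K₁ · F_{Nℓ}`. -/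
theorem s36_cusp_mem_beta [NeZero (N * ℓ)] (hℓ : ℓ.Prime) (hℓN : ¬ ℓ ∣ N) (hℓM : ℓ ≠ M)
    (hMN : M ∣ N) (A : ValuationSubring Qb) (hA : A.LiesOverPrime ℓ)
    (K₁ : IntermediateField ℚ Qb)
    (t₀ : s18_F1 K₁ N) (ht : s37_IsHaupt M (s18_baseIncl K₁ N t₀))
    (τ₀ : s18_F1 K₁ N) (hτ : τ₀ = t₀ ∨ τ₀ = t₀⁻¹) :
    heckeBetaBar K₁ N ℓ τ₀ ^ ℓ * (heckeAlphaBar K₁ N ℓ τ₀)⁻¹ ∈
      s34_ic_chart (s18_A1 A K₁) (heckeBetaBar K₁ N ℓ τ₀) := by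
  set ι : LaurentSeries K₁ →+* LaurentSeries Qb := coeffMap (algebraMap K₁ Qb) with hι
  set tb : modularFunctionFieldBar N := s18_baseIncl K₁ N t₀ with htb
  set tb' : modularFunctionFieldBar N := s18_baseIncl K₁ N τ₀ with htb'
  have htb'' : tb' = tb ∨ tb' = tb⁻¹ := by
    rcases hτ with rfl | rfl
    · exact Or.inl rfl
    · exact Or.inr (map_inv₀ _ _)
  have hcoe : (tb' : LaurentSeries Qb) = ι (τ₀ : LaurentSeries K₁) := rfl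
  have hstab := s36_cusp_ratio N ℓ M hℓ hℓN hℓM hMN A hA tb ht tb' htb''
  have hq : ι (qExpand K₁ ℓ (τ₀ : LaurentSeries K₁)) =
      qExpand Qb ℓ (ι (τ₀ : LaurentSeries K₁)) := coeffMap_qExpand _ ℓ _
  refine s36_cusp_descent (N * ℓ) A K₁ _ _ (heckeBetaBar Qb N ℓ tb')
    (heckeBetaBar Qb N ℓ tb' ^ ℓ * (heckeAlphaBar Qb N ℓ tb')⁻¹) ?_ ?_ ?_ hstab
  · rw [coe_heckeBetaBar, coe_heckeBetaBar, hcoe]
    exact hq.symm
  · show ((heckeBetaBar Qb N ℓ tb' : modularFunctionFieldBar (N * ℓ)) : LaurentSeries Qb) ^ ℓ *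
        ((heckeAlphaBar Qb N ℓ tb' : modularFunctionFieldBar (N * ℓ)) : LaurentSeries Qb)⁻¹ =
      ι (((heckeBetaBar K₁ N ℓ τ₀ : s18_F1 K₁ (N * ℓ)) : LaurentSeries K₁) ^ ℓ *
        ((heckeAlphaBar K₁ N ℓ τ₀ : s18_F1 K₁ (N * ℓ)) : LaurentSeries K₁)⁻¹)
    rw [coe_heckeBetaBar, coe_heckeAlphaBar, coe_heckeBetaBar, coe_heckeAlphaBar, hcoe,
      map_mul, map_pow, map_inv₀, hq]
  · have h0 := s37_et_haupt_transcendental N M tb ht tb' htb''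
    intro halg
    exact h0 ((isAlgebraic_algHom_iff (heckeBetaBar Qb N ℓ)
      (heckeBetaBar Qb N ℓ).toRingHom.injective).mp halg)

/-- **Cusp ratio, `α`-form over `K₁`**: for `τ₀ ∈ {t₀, t₀⁻¹}`,
`(α τ₀)^ℓ / (β τ₀) ∈ s34_ic_chart A₁ (α τ₀)` in `K₁ · F_{Nℓ}`.  For `τ₀ = t₀⁻¹` this is
`t(q^ℓ) / t(q)^ℓ ∈ B_∞`; for `τ₀ = t₀` it is `t(q)^ℓ / t(q^ℓ) ∈ B_0`. -/
theorem s36_cusp_mem_alpha [NeZero (N * ℓ)] (hℓ : ℓ.Prime) (hℓN : ¬ ℓ ∣ N) (hℓM : ℓ ≠ M)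
    (hMN : M ∣ N) (A : ValuationSubring Qb) (hA : A.LiesOverPrime ℓ)
    (K₁ : IntermediateField ℚ Qb)
    (t₀ : s18_F1 K₁ N) (ht : s37_IsHaupt M (s18_baseIncl K₁ N t₀))
    (τ₀ : s18_F1 K₁ N) (hτ : τ₀ = t₀ ∨ τ₀ = t₀⁻¹) :
    heckeAlphaBar K₁ N ℓ τ₀ ^ ℓ * (heckeBetaBar K₁ N ℓ τ₀)⁻¹ ∈
      s34_ic_chart (s18_A1 A K₁) (heckeAlphaBar K₁ N ℓ τ₀) := by
  set ι : LaurentSeries K₁ →+* LaurentSeries Qb := coeffMap (algebraMap K₁ Qb) with hι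
  set tb : modularFunctionFieldBar N := s18_baseIncl K₁ N t₀ with htb
  set tb' : modularFunctionFieldBar N := s18_baseIncl K₁ N τ₀ with htb'
  have htb'' : tb' = tb ∨ tb' = tb⁻¹ := by
    rcases hτ with rfl | rfl
    · exact Or.inl rfl
    · exact Or.inr (map_inv₀ _ _)
  have hcoe : (tb' : LaurentSeries Qb) = ι (τ₀ : LaurentSeries K₁) := rfl
  have hstab := s36_cusp_ratio N ℓ M hℓ hℓN hℓM hMN A hA tb ht tb' htb''
  have hcop : Nat.Coprime ℓ N := (Nat.Prime.coprime_iff_not_dvd hℓ).mpr hℓN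
  obtain ⟨W, hWα, hWβ⟩ := s37_es_swap N ℓ hcop
  have h2 := s37_et_isIntegral_map A (W : modularFunctionFieldBar (N * ℓ) →ₐ[Qb]
    modularFunctionFieldBar (N * ℓ)) _ _ hstab
  have e1 : (W : modularFunctionFieldBar (N * ℓ) →ₐ[Qb] modularFunctionFieldBar (N * ℓ))
      (heckeBetaBar Qb N ℓ tb') = heckeAlphaBar Qb N ℓ tb' := hWβ tb'
  have e2 : (W : modularFunctionFieldBar (N * ℓ) →ₐ[Qb] modularFunctionFieldBar (N * ℓ))
      (heckeAlphaBar Qb N ℓ tb') = heckeBetaBar Qb N ℓ tb' := hWα tb'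
  have e5 : (W : modularFunctionFieldBar (N * ℓ) →ₐ[Qb] modularFunctionFieldBar (N * ℓ))
      (heckeBetaBar Qb N ℓ tb' ^ ℓ * (heckeAlphaBar Qb N ℓ tb')⁻¹) =
      heckeAlphaBar Qb N ℓ tb' ^ ℓ * (heckeBetaBar Qb N ℓ tb')⁻¹ := by
    rw [map_mul, map_pow, map_inv₀, e1, e2]
  rw [e1, e5] at h2
  have hq : ι (qExpand K₁ ℓ (τ₀ : LaurentSeries K₁)) =
      qExpand Qb ℓ (ι (τ₀ : LaurentSeries K₁)) := coeffMap_qExpand _ ℓ _
  refine s36_cusp_descent (N * ℓ) A K₁ _ _ (heckeAlphaBar Qb N ℓ tb')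
    (heckeAlphaBar Qb N ℓ tb' ^ ℓ * (heckeBetaBar Qb N ℓ tb')⁻¹) ?_ ?_ ?_ h2
  · rw [coe_heckeAlphaBar, coe_heckeAlphaBar, hcoe]
  · show ((heckeAlphaBar Qb N ℓ tb' : modularFunctionFieldBar (N * ℓ)) : LaurentSeries Qb) ^ ℓ *
        ((heckeBetaBar Qb N ℓ tb' : modularFunctionFieldBar (N * ℓ)) : LaurentSeries Qb)⁻¹ =
      ι (((heckeAlphaBar K₁ N ℓ τ₀ : s18_F1 K₁ (N * ℓ)) : LaurentSeries K₁) ^ ℓ *
        ((heckeBetaBar K₁ N ℓ τ₀ : s18_F1 K₁ (N * ℓ)) : LaurentSeries K₁)⁻¹)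
    rw [coe_heckeBetaBar, coe_heckeAlphaBar, coe_heckeBetaBar, coe_heckeAlphaBar, hcoe,
      map_mul, map_pow, map_inv₀, hq]
  · have h0 := s37_et_haupt_transcendental N M tb ht tb' htb''
    intro halg
    exact h0 ((isAlgebraic_algHom_iff (heckeAlphaBar Qb N ℓ)
      (heckeAlphaBar Qb N ℓ).toRingHom.injective).mp halg)

/-- The four cusp ratios for the coordinate `t₂` (`2 ∣ N`, `ℓ ≠ 2`), `t = s18_coord K₁ t₂` at
level `N`, `α = heckeAlphaBar K₁ N ℓ`, `β = heckeBetaBar K₁ N ℓ`: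
`(αt)^ℓ/βt ∈ ic(A₁[αt])`, `βt/(αt)^ℓ ∈ ic(A₁[(αt)⁻¹])`, `(βt)^ℓ/αt ∈ ic(A₁[βt])`,
`αt/(βt)^ℓ ∈ ic(A₁[(βt)⁻¹])`. -/
theorem s36_cusp_t2 [NeZero (N * ℓ)] (hℓ : ℓ.Prime) (hℓN : ¬ ℓ ∣ N) (hℓ2 : ℓ ≠ 2)
    (h2 : 2 ∣ N) (A : ValuationSubring Qb) (hA : A.LiesOverPrime ℓ)
    (K₁ : IntermediateField ℚ Qb) :
    heckeAlphaBar K₁ N ℓ (s18_coord K₁ (s18_cz_t2 N h2)) ^ ℓ *
        (heckeBetaBar K₁ N ℓ (s18_coord K₁ (s18_cz_t2 N h2)))⁻¹ ∈
      s34_ic_chart (s18_A1 A K₁) (heckeAlphaBar K₁ N ℓ (s18_coord K₁ (s18_cz_t2 N h2))) ∧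
    ((heckeAlphaBar K₁ N ℓ (s18_coord K₁ (s18_cz_t2 N h2)))⁻¹) ^ ℓ *
        heckeBetaBar K₁ N ℓ (s18_coord K₁ (s18_cz_t2 N h2)) ∈
      s34_ic_chart (s18_A1 A K₁) (heckeAlphaBar K₁ N ℓ (s18_coord K₁ (s18_cz_t2 N h2)))⁻¹ ∧
    heckeBetaBar K₁ N ℓ (s18_coord K₁ (s18_cz_t2 N h2)) ^ ℓ *
        (heckeAlphaBar K₁ N ℓ (s18_coord K₁ (s18_cz_t2 N h2)))⁻¹ ∈
      s34_ic_chart (s18_A1 A K₁) (heckeBetaBar K₁ N ℓ (s18_coord K₁ (s18_cz_t2 N h2))) ∧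
    ((heckeBetaBar K₁ N ℓ (s18_coord K₁ (s18_cz_t2 N h2)))⁻¹) ^ ℓ *
        heckeAlphaBar K₁ N ℓ (s18_coord K₁ (s18_cz_t2 N h2)) ∈
      s34_ic_chart (s18_A1 A K₁) (heckeBetaBar K₁ N ℓ (s18_coord K₁ (s18_cz_t2 N h2)))⁻¹ := by
  have ht := s34_ws_isHaupt_t2 N K₁ h2
  have ha1 := s36_cusp_mem_alpha N ℓ 2 hℓ hℓN hℓ2 h2 A hA K₁ _ ht _ (Or.inl rfl)
  have ha2 := s36_cusp_mem_alpha N ℓ 2 hℓ hℓN hℓ2 h2 A hA K₁ _ ht _ (Or.inr rfl)
  have hb1 := s36_cusp_mem_beta N ℓ 2 hℓ hℓN hℓ2 h2 A hA K₁ _ ht _ (Or.inl rfl)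
  have hb2 := s36_cusp_mem_beta N ℓ 2 hℓ hℓN hℓ2 h2 A hA K₁ _ ht _ (Or.inr rfl)
  rw [map_inv₀, map_inv₀, inv_inv] at ha2 hb2
  exact ⟨ha1, ha2, hb1, hb2⟩

/-- The four cusp ratios for the coordinate `t₃` (`3 ∣ N`, `ℓ ≠ 3`). -/
theorem s36_cusp_t3 [NeZero (N * ℓ)] (hℓ : ℓ.Prime) (hℓN : ¬ ℓ ∣ N) (hℓ3 : ℓ ≠ 3)
    (h3 : 3 ∣ N) (A : ValuationSubring Qb) (hA : A.LiesOverPrime ℓ)
    (K₁ : IntermediateField ℚ Qb) :
    heckeAlphaBar K₁ N ℓ (s18_coord K₁ (s18_cz_t3 N h3)) ^ ℓ *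
        (heckeBetaBar K₁ N ℓ (s18_coord K₁ (s18_cz_t3 N h3)))⁻¹ ∈
      s34_ic_chart (s18_A1 A K₁) (heckeAlphaBar K₁ N ℓ (s18_coord K₁ (s18_cz_t3 N h3))) ∧
    ((heckeAlphaBar K₁ N ℓ (s18_coord K₁ (s18_cz_t3 N h3)))⁻¹) ^ ℓ *
        heckeBetaBar K₁ N ℓ (s18_coord K₁ (s18_cz_t3 N h3)) ∈
      s34_ic_chart (s18_A1 A K₁) (heckeAlphaBar K₁ N ℓ (s18_coord K₁ (s18_cz_t3 N h3)))⁻¹ ∧
    heckeBetaBar K₁ N ℓ (s18_coord K₁ (s18_cz_t3 N h3)) ^ ℓ *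
        (heckeAlphaBar K₁ N ℓ (s18_coord K₁ (s18_cz_t3 N h3)))⁻¹ ∈
      s34_ic_chart (s18_A1 A K₁) (heckeBetaBar K₁ N ℓ (s18_coord K₁ (s18_cz_t3 N h3))) ∧
    ((heckeBetaBar K₁ N ℓ (s18_coord K₁ (s18_cz_t3 N h3)))⁻¹) ^ ℓ *
        heckeAlphaBar K₁ N ℓ (s18_coord K₁ (s18_cz_t3 N h3)) ∈
      s34_ic_chart (s18_A1 A K₁) (heckeBetaBar K₁ N ℓ (s18_coord K₁ (s18_cz_t3 N h3)))⁻¹ := by
  have ht := s34_ws_isHaupt_t3 N K₁ h3
  have ha1 := s36_cusp_mem_alpha N ℓ 3 hℓ hℓN hℓ3 h3 A hA K₁ _ ht _ (Or.inl rfl)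
  have ha2 := s36_cusp_mem_alpha N ℓ 3 hℓ hℓN hℓ3 h3 A hA K₁ _ ht _ (Or.inr rfl)
  have hb1 := s36_cusp_mem_beta N ℓ 3 hℓ hℓN hℓ3 h3 A hA K₁ _ ht _ (Or.inl rfl)
  have hb2 := s36_cusp_mem_beta N ℓ 3 hℓ hℓN hℓ3 h3 A hA K₁ _ ht _ (Or.inr rfl)
  rw [map_inv₀, map_inv₀, inv_inv] at ha2 hb2
  exact ⟨ha1, ha2, hb1, hb2⟩

end

end Fermat.Agent.S36
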