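import Mathlib
import Fermat.Agent.S36.CuspRatioK
import Fermat.Agent.S36.SwapStab2

/-!
# S36 (NODE-3), cusp leaf at level `N q q`: the two ratios `g₁`, `g₂` lie in the chart

`N` a level, `q ∤ N` a prime, `M ∈ {2, 3}`, `M ∣ N`, `q ≠ M`; `K₁ ⊆ Q̄` ANY intermediate field,
`A` a valuation ring of `Q̄` over `q`, `A₁ = A ∩ K₁`; `F₂ = K₁ · F_{N q q}`.
`T₀` the Hauptmodul `t_M` at level `N`, `U₀ ∈ {T₀, T₀⁻¹}`; the three pull-backs to level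
`N q q` are `u = α₂ α₁ U₀ = U₀(Q)`, `u' = α₂ β₁ U₀ = U₀(Q^q)`, `u'' = β₂ β₁ U₀ = U₀(Q^{q q})`.

* `s36_cusp2_g1` : `g₁ = u^q / u' ∈ s34_ic_chart A₁ u`;
* `s36_cusp2_g2` : `g₂ = u''^q / u' ∈ s34_ic_chart A₁ u`;
* `s36_cusp2_rel` : `(u''/u)^q * g₁ = g₂`;
* `s36_cusp2_t2`, `s36_cusp2_t3` : the same in the concrete charts `s34_md_B0`, `s34_md_Binf`
  of the Hauptmodul of level `N q q` (`U₀ = t` in `B0`, `U₀ = t⁻¹` in `Binf`).

These are the inputs `g₁ g₂ : B` of `s36_cpt_root_mem` (`y = u''/u`, i.e. `t''/t` in `B0` and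
`t/t''` in `Binf`) at the cusp points of the third component.
-/

set_option autoImplicit false
set_option linter.style.haveILetI false
set_option linter.unusedSimpArgs false
set_option linter.unusedSectionVars false
set_option linter.unusedVariables false
set_option synthInstance.maxHeartbeats 400000

namespace Fermat.Agent.S36

open ModularCurve AlgebraicCurve Polynomial
open Fermat.Agent.S18 Fermat.Agent.S34 Fermat.Agent.S37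

noncomputable section

local notation "Qb" => AlgebraicClosure ℚ

/-- `(u''/u)^q * (u^q/u') = u''^q/u'`. -/
theorem s36_cusp2_rel {F : Type*} [Field F] (u u' u'' : F) (hu : u ≠ 0) (q : ℕ) :
    (u'' * u⁻¹) ^ q * (u ^ q * u'⁻¹) = u'' ^ q * u'⁻¹ := by
  have h : u⁻¹ ^ q * u ^ q = 1 := by
    rw [← mul_pow, inv_mul_cancel₀ hu, one_pow]
  calc (u'' * u⁻¹) ^ q * (u ^ q * u'⁻¹) = u'' ^ q * (u⁻¹ ^ q * u ^ q) * u'⁻¹ := by
        rw [mul_pow]; ring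
    _ = u'' ^ q * u'⁻¹ := by rw [h, mul_one]

section Concrete

variable (N q M : ℕ) [NeZero N] [NeZero q] [NeZero (N * q)] [NeZero (N * q * q)]

/-- A Hauptmodul of level `N` over `K₁`, seen at level `N q`, is a Hauptmodul. -/
theorem s36_cusp2_isHaupt (K₁ : IntermediateField ℚ Qb) (T₀ : s18_F1 K₁ N)
    (hT₀ : s37_IsHaupt M (s18_baseIncl K₁ N T₀)) :
    s37_IsHaupt M (s18_baseIncl K₁ (N * q) (heckeAlphaBar K₁ N q T₀)) := by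
  have e : ((s18_baseIncl K₁ (N * q) (heckeAlphaBar K₁ N q T₀) :
      modularFunctionFieldBar (N * q)) : LaurentSeries Qb) =
      ((s18_baseIncl K₁ N T₀ : modularFunctionFieldBar N) : LaurentSeries Qb) := by
    rw [s18_baseIncl_coe, coe_heckeAlphaBar, ← s18_baseIncl_coe]
  rcases hT₀ with ⟨hM, h⟩ | ⟨hM, h⟩
  · exact Or.inl ⟨hM, e.trans h⟩
  · exact Or.inr ⟨hM, e.trans h⟩

/-- **`g₁ = u^q / u'` lies in the chart of `u`** at level `N q q`. -/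
theorem s36_cusp2_g1 (hq : q.Prime) (hqN : ¬ q ∣ N) (hqM : q ≠ M) (hMN : M ∣ N)
    (A : ValuationSubring Qb) (hA : A.LiesOverPrime q) (K₁ : IntermediateField ℚ Qb)
    (T₀ : s18_F1 K₁ N) (hT₀ : s37_IsHaupt M (s18_baseIncl K₁ N T₀))
    (U₀ : s18_F1 K₁ N) (hU₀ : U₀ = T₀ ∨ U₀ = T₀⁻¹) :
    heckeAlphaBar K₁ (N * q) q (heckeAlphaBar K₁ N q U₀) ^ q *
        (heckeAlphaBar K₁ (N * q) q (heckeBetaBar K₁ N q U₀))⁻¹ ∈
      s34_ic_chart (s18_A1 A K₁) (heckeAlphaBar K₁ (N * q) q (heckeAlphaBar K₁ N q U₀)) := by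
  have h1 := s36_cusp_mem_alpha N q M hq hqN hqM hMN A hA K₁ T₀ hT₀ U₀ hU₀
  have hα : ∀ a : s18_A1 A K₁, (heckeAlphaBar K₁ (N * q) q).toRingHom
      (algebraMap (s18_A1 A K₁) (s18_F1 K₁ (N * q)) a) =
      algebraMap (s18_A1 A K₁) (s18_F1 K₁ (N * q * q)) a := fun a =>
    (heckeAlphaBar K₁ (N * q) q).commutes (a : K₁)
  have h2 := s36_ws2_ic_map (heckeAlphaBar K₁ (N * q) q).toRingHom hα h1
  have e : (heckeAlphaBar K₁ (N * q) q).toRingHom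
      (heckeAlphaBar K₁ N q U₀ ^ q * (heckeBetaBar K₁ N q U₀)⁻¹) =
      heckeAlphaBar K₁ (N * q) q (heckeAlphaBar K₁ N q U₀) ^ q *
        (heckeAlphaBar K₁ (N * q) q (heckeBetaBar K₁ N q U₀))⁻¹ := by
    show heckeAlphaBar K₁ (N * q) q
      (heckeAlphaBar K₁ N q U₀ ^ q * (heckeBetaBar K₁ N q U₀)⁻¹) = _
    rw [map_mul, map_pow, map_inv₀]
  rw [e] at h2
  exact h2

/-- **`g₂ = u''^q / u'` lies in the chart of `u`** at level `N q q`. -/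
theorem s36_cusp2_g2 (hq : q.Prime) (hqN : ¬ q ∣ N) (hqM : q ≠ M) (hMN : M ∣ N)
    (A : ValuationSubring Qb) (hA : A.LiesOverPrime q) (K₁ : IntermediateField ℚ Qb)
    (T₀ : s18_F1 K₁ N) (hT₀ : s37_IsHaupt M (s18_baseIncl K₁ N T₀))
    (U₀ : s18_F1 K₁ N) (hU₀ : U₀ = T₀ ∨ U₀ = T₀⁻¹) :
    heckeBetaBar K₁ (N * q) q (heckeBetaBar K₁ N q U₀) ^ q *
        (heckeAlphaBar K₁ (N * q) q (heckeBetaBar K₁ N q U₀))⁻¹ ∈
      s34_ic_chart (s18_A1 A K₁) (heckeAlphaBar K₁ (N * q) q (heckeAlphaBar K₁ N q U₀)) := by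
  have h1 := s36_cusp_mem_beta N q M hq hqN hqM hMN A hA K₁ T₀ hT₀ U₀ hU₀
  have hβ : ∀ a : s18_A1 A K₁, (heckeBetaBar K₁ (N * q) q).toRingHom
      (algebraMap (s18_A1 A K₁) (s18_F1 K₁ (N * q)) a) =
      algebraMap (s18_A1 A K₁) (s18_F1 K₁ (N * q * q)) a := fun a =>
    (heckeBetaBar K₁ (N * q) q).commutes (a : K₁)
  have h3 := s36_ws2_ic_map (heckeBetaBar K₁ (N * q) q).toRingHom hβ h1
  have hcore := s36_ws2_core N q M hq hqN hqM hMN A hA K₁ T₀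
    (s36_cusp2_isHaupt N q M K₁ T₀ hT₀) U₀ hU₀
  have h4 := s36_ws2_ic_trans hcore h3
  have e' : heckeBetaBar K₁ (N * q) q (heckeAlphaBar K₁ N q U₀) =
      heckeAlphaBar K₁ (N * q) q (heckeBetaBar K₁ N q U₀) := by
    apply Subtype.ext
    rw [coe_heckeBetaBar, coe_heckeAlphaBar, coe_heckeAlphaBar, coe_heckeBetaBar]
  have e : (heckeBetaBar K₁ (N * q) q).toRingHom
      (heckeBetaBar K₁ N q U₀ ^ q * (heckeAlphaBar K₁ N q U₀)⁻¹) =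
      heckeBetaBar K₁ (N * q) q (heckeBetaBar K₁ N q U₀) ^ q *
        (heckeAlphaBar K₁ (N * q) q (heckeBetaBar K₁ N q U₀))⁻¹ := by
    show heckeBetaBar K₁ (N * q) q
      (heckeBetaBar K₁ N q U₀ ^ q * (heckeAlphaBar K₁ N q U₀)⁻¹) = _
    rw [map_mul, map_pow, map_inv₀, e']
  rw [e] at h4
  exact h4

/-- **Expansion form**: for `x, x1, x2 ∈ K₁ · F_{N q q}` with `q`-expansions `U₀(Q)`,
`U₀(Q^q)`, `U₀(Q^{q q})`: `x^q / x1` and `x2^q / x1` lie in the chart of `x`. -/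
theorem s36_cusp2_exp (hq : q.Prime) (hqN : ¬ q ∣ N) (hqM : q ≠ M) (hMN : M ∣ N)
    (A : ValuationSubring Qb) (hA : A.LiesOverPrime q) (K₁ : IntermediateField ℚ Qb)
    (T₀ : s18_F1 K₁ N) (hT₀ : s37_IsHaupt M (s18_baseIncl K₁ N T₀))
    (U₀ : s18_F1 K₁ N) (hU₀ : U₀ = T₀ ∨ U₀ = T₀⁻¹)
    (x x1 x2 : s18_F1 K₁ (N * q * q))
    (hx : (x : LaurentSeries K₁) = (U₀ : LaurentSeries K₁))
    (hx1 : (x1 : LaurentSeries K₁) = qExpand K₁ q (U₀ : LaurentSeries K₁))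
    (hx2 : (x2 : LaurentSeries K₁) = qExpand K₁ q (qExpand K₁ q (U₀ : LaurentSeries K₁))) :
    x ^ q * x1⁻¹ ∈ s34_ic_chart (s18_A1 A K₁) x ∧
      x2 ^ q * x1⁻¹ ∈ s34_ic_chart (s18_A1 A K₁) x := by
  have ex : x = heckeAlphaBar K₁ (N * q) q (heckeAlphaBar K₁ N q U₀) :=
    Subtype.ext (by rw [hx, coe_heckeAlphaBar, coe_heckeAlphaBar])
  have ex1 : x1 = heckeAlphaBar K₁ (N * q) q (heckeBetaBar K₁ N q U₀) :=
    Subtype.ext (by rw [hx1, coe_heckeAlphaBar, coe_heckeBetaBar])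
  have ex2 : x2 = heckeBetaBar K₁ (N * q) q (heckeBetaBar K₁ N q U₀) :=
    Subtype.ext (by rw [hx2, coe_heckeBetaBar, coe_heckeBetaBar])
  rw [ex, ex1, ex2]
  exact ⟨s36_cusp2_g1 N q M hq hqN hqM hMN A hA K₁ T₀ hT₀ U₀ hU₀,
    s36_cusp2_g2 N q M hq hqN hqM hMN A hA K₁ T₀ hT₀ U₀ hU₀⟩

end Concrete

section Haupt

variable (N q : ℕ) [NeZero N] [NeZero q] [NeZero (N * q)] [NeZero (N * q * q)]
variable (K₁ : IntermediateField ℚ Qb) (A : ValuationSubring Qb)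

/-- **The cusp ratios in the charts of `t₂` at level `N q q`**: with `t = t₂` (level `N q q`),
`t' = t₂(Q^q)`, `t'' = t₂(Q^{q q})`: `t^q/t', t''^q/t' ∈ B0` and `t'/t^q, t'/t''^q ∈ Binf`. -/
theorem s36_cusp2_t2 (hq : q.Prime) (hqN : ¬ q ∣ N) (h2 : 2 ∣ N) (h2L : 2 ∣ N * q * q)
    (hA : A.LiesOverPrime q) :
    (s18_coord K₁ (s18_cz_t2 (N * q * q) h2L) ^ q *
        (heckeAlphaBar K₁ (N * q) q
          (heckeBetaBar K₁ N q (s18_coord K₁ (s18_cz_t2 N h2))))⁻¹ ∈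
        (s34_md_B0 A K₁ (N * q * q) (s18_cz_t2 (N * q * q) h2L)).toSubring ∧
      heckeBetaBar K₁ (N * q) q (heckeBetaBar K₁ N q (s18_coord K₁ (s18_cz_t2 N h2))) ^ q *
        (heckeAlphaBar K₁ (N * q) q
          (heckeBetaBar K₁ N q (s18_coord K₁ (s18_cz_t2 N h2))))⁻¹ ∈
        (s34_md_B0 A K₁ (N * q * q) (s18_cz_t2 (N * q * q) h2L)).toSubring) ∧
    ((s18_coord K₁ (s18_cz_t2 (N * q * q) h2L))⁻¹ ^ q *
        heckeAlphaBar K₁ (N * q) q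
          (heckeBetaBar K₁ N q (s18_coord K₁ (s18_cz_t2 N h2))) ∈
        (s34_md_Binf A K₁ (N * q * q) (s18_cz_t2 (N * q * q) h2L)).toSubring ∧
      (heckeBetaBar K₁ (N * q) q (heckeBetaBar K₁ N q (s18_coord K₁ (s18_cz_t2 N h2))))⁻¹ ^ q *
        heckeAlphaBar K₁ (N * q) q
          (heckeBetaBar K₁ N q (s18_coord K₁ (s18_cz_t2 N h2))) ∈
        (s34_md_Binf A K₁ (N * q * q) (s18_cz_t2 (N * q * q) h2L)).toSubring) := by
  have hq2 : q ≠ 2 := fun h => hqN (h ▸ h2)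
  have ht := s34_ws_isHaupt_t2 N K₁ h2
  have e0 : s18_coord K₁ (s18_cz_t2 (N * q * q) h2L) =
      heckeAlphaBar K₁ (N * q) q (heckeAlphaBar K₁ N q (s18_coord K₁ (s18_cz_t2 N h2))) :=
    s36_ws2_coord_t2 N q K₁ h2 h2L
  have a1 := s36_cusp2_g1 N q 2 hq hqN hq2 h2 A hA K₁ _ ht _ (Or.inl rfl)
  have a2 := s36_cusp2_g2 N q 2 hq hqN hq2 h2 A hA K₁ _ ht _ (Or.inl rfl)
  have b1 := s36_cusp2_g1 N q 2 hq hqN hq2 h2 A hA K₁ _ ht _ (Or.inr rfl)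
  have b2 := s36_cusp2_g2 N q 2 hq hqN hq2 h2 A hA K₁ _ ht _ (Or.inr rfl)
  rw [← e0] at a1 a2
  simp only [map_inv₀, inv_inv] at b1 b2
  rw [← e0] at b1 b2
  exact ⟨⟨a1, a2⟩, ⟨b1, b2⟩⟩

/-- **The cusp ratios in the charts of `t₃` at level `N q q`.** -/
theorem s36_cusp2_t3 (hq : q.Prime) (hqN : ¬ q ∣ N) (h3 : 3 ∣ N) (h3L : 3 ∣ N * q * q)
    (hA : A.LiesOverPrime q) :
    (s18_coord K₁ (s18_cz_t3 (N * q * q) h3L) ^ q *
        (heckeAlphaBar K₁ (N * q) q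
          (heckeBetaBar K₁ N q (s18_coord K₁ (s18_cz_t3 N h3))))⁻¹ ∈
        (s34_md_B0 A K₁ (N * q * q) (s18_cz_t3 (N * q * q) h3L)).toSubring ∧
      heckeBetaBar K₁ (N * q) q (heckeBetaBar K₁ N q (s18_coord K₁ (s18_cz_t3 N h3))) ^ q *
        (heckeAlphaBar K₁ (N * q) q
          (heckeBetaBar K₁ N q (s18_coord K₁ (s18_cz_t3 N h3))))⁻¹ ∈
        (s34_md_B0 A K₁ (N * q * q) (s18_cz_t3 (N * q * q) h3L)).toSubring) ∧
    ((s18_coord K₁ (s18_cz_t3 (N * q * q) h3L))⁻¹ ^ q *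
        heckeAlphaBar K₁ (N * q) q
          (heckeBetaBar K₁ N q (s18_coord K₁ (s18_cz_t3 N h3))) ∈
        (s34_md_Binf A K₁ (N * q * q) (s18_cz_t3 (N * q * q) h3L)).toSubring ∧
      (heckeBetaBar K₁ (N * q) q (heckeBetaBar K₁ N q (s18_coord K₁ (s18_cz_t3 N h3))))⁻¹ ^ q *
        heckeAlphaBar K₁ (N * q) q
          (heckeBetaBar K₁ N q (s18_coord K₁ (s18_cz_t3 N h3))) ∈
        (s34_md_Binf A K₁ (N * q * q) (s18_cz_t3 (N * q * q) h3L)).toSubring) := by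
  have hq3 : q ≠ 3 := fun h => hqN (h ▸ h3)
  have ht := s34_ws_isHaupt_t3 N K₁ h3
  have e0 : s18_coord K₁ (s18_cz_t3 (N * q * q) h3L) =
      heckeAlphaBar K₁ (N * q) q (heckeAlphaBar K₁ N q (s18_coord K₁ (s18_cz_t3 N h3))) :=
    s36_ws2_coord_t3 N q K₁ h3 h3L
  have a1 := s36_cusp2_g1 N q 3 hq hqN hq3 h3 A hA K₁ _ ht _ (Or.inl rfl)
  have a2 := s36_cusp2_g2 N q 3 hq hqN hq3 h3 A hA K₁ _ ht _ (Or.inl rfl)
  have b1 := s36_cusp2_g1 N q 3 hq hqN hq3 h3 A hA K₁ _ ht _ (Or.inr rfl)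
  have b2 := s36_cusp2_g2 N q 3 hq hqN hq3 h3 A hA K₁ _ ht _ (Or.inr rfl)
  rw [← e0] at a1 a2
  simp only [map_inv₀, inv_inv] at b1 b2
  rw [← e0] at b1 b2
  exact ⟨⟨a1, a2⟩, ⟨b1, b2⟩⟩

end Haupt

end

end Fermat.Agent.S36
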