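import Fermat.Agent.S36.CPtModel
import Fermat.Agent.S36.ChartPkg3
import Fermat.Agent.S36.CuspRatio2

/-!
# S36 (NODE-3), contract item (c-Cpt): the `cpt` field of `s36_ptb_Pts` at the concrete charts

The field `cpt` of `s36_ptb_Pts` (`S36/PtsPow`) for the concrete charts
`B0 = s34_md_B0 P K₀ (N₁ q q) t`, `Binf = s34_md_Binf P K₀ (N₁ q q) t` of the Hauptmodul
`t = t₂` (resp. `t₃`), the component `V_C = s36_gc_V κ A (N₁ q q) Θ` and arbitrary `V_A`, `V_B`,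
from

* the chart block `s36_cp3_Chart π t B0 Binf (V_A ⊓ V_B ⊓ V_C)` (`S36/ChartPkg3`),
* the cusp ratios `s36_cusp2_t2` / `s36_cusp2_t3` (`S36/CuspRatio2`),
* `S36/CPtModel` (`s36_cpm_cpt_coord`),

under the hypothesis `(θ t̄)^(q-1) = t̄^(q-1)` (resp. for `t̄⁻¹`), which holds for `q = 3`, `t₂`
(`s36_cpm_theta_t2`, `s36_cpm_theta_t2inv`) and `q = 2`, `t₃` (`s36_cpm_theta_t3`,
`s36_cpm_theta_t3inv`): `s36_cpi_cpt3_B0`, `s36_cpi_cpt3_Binf`, `s36_cpi_cpt2_B0`,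
`s36_cpi_cpt2_Binf`.
-/

set_option autoImplicit false
set_option synthInstance.maxHeartbeats 400000
set_option linter.style.haveILetI false
set_option linter.unusedSectionVars false
set_option linter.unusedVariables false

open ModularCurve AlgebraicCurve

noncomputable section

namespace Fermat.Agent.S36

open Fermat.Agent.S28 (twistQ)
open Fermat.Agent.S18 Fermat.Agent.S34 Fermat.Agent.S37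

local notation "Qb" => AlgebraicClosure ℚ

section Aux

variable {K0 K : Type*} [Field K0] [Field K] [Algebra ℚ K0] [Algebra ℚ K]
  {κ : K0 →+* K} {A : ValuationSubring K} {M : ℕ}
  {Θ : laurentBaseChange K (modularFunctionFieldFull M) →ₐ[K] LaurentSeries K}
  {N q : ℕ} {ζ : Aˣ}

/-- `s36_cpm_cpt_coord` in the shape of the field `cpt` (all closed points, `ϖ` a variable equal
to `q`, chart hypotheses in the shape of `s36_cp3_Chart`). -/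
theorem s36_cpi_aux [NeZero N] [NeZero q] [Fact q.Prime]
    [CharP (IsLocalRing.ResidueField A) q]
    (hΘ : s36_gc_IsCusp N q ζ Θ) (hM : N * q ^ 2 ∣ M)
    {z : laurentBaseChange K0 (modularFunctionFieldFull M)}
    (hUnif : s34_Unif z (s36_gc_V κ A M Θ)) (hζ : IsPrimitiveRoot (ζ : A) q)
    {B VA VB : Subring (laurentBaseChange K0 (modularFunctionFieldFull M))}
    (ϖ : laurentBaseChange K0 (modularFunctionFieldFull M))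
    (hϖ : ϖ = algebraMap K0 (laurentBaseChange K0 (modularFunctionFieldFull M)) (q : K0))
    (hBV : ∀ x ∈ B, x ∈ VA ⊓ VB ⊓ s36_gc_V κ A M Θ) (hϖB : ϖ ∈ B)
    (hcap : ∀ x ∈ B, ϖ⁻¹ * x ∈ VA ⊓ VB ⊓ s36_gc_V κ A M Θ → ϖ⁻¹ * x ∈ B)
    (hzn : ϖ * (z ^ (q - 1))⁻¹ ∈ s36_gc_V κ A M Θ)
    (hzn' : z ^ (q - 1) * ϖ⁻¹ ∈ s36_gc_V κ A M Θ)
    (hroot : ∀ p : ℕ, 0 < p → ∀ w : laurentBaseChange K0 (modularFunctionFieldFull M), w ^ p ∈ B → w ∈ B)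
    (t₀ : modularFunctionFieldFull M) (ht₀ : t₀ ≠ 0)
    (hN : (t₀ : LaurentSeries ℚ) ∈ modularFunctionFieldFull N)
    (T Tinv : LaurentSeries ℤ) (hT : (t₀ : LaurentSeries ℚ) = coeffMap (Int.castRingHom ℚ) T)
    (hTinv : ((t₀⁻¹ : modularFunctionFieldFull M) : LaurentSeries ℚ) =
      coeffMap (Int.castRingHom ℚ) Tinv)
    (hθ : s36_qt_theta (IsLocalRing.ResidueField A)
        (coeffMap (Int.castRingHom (IsLocalRing.ResidueField A)) T) ^ (q - 1) =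
      coeffMap (Int.castRingHom (IsLocalRing.ResidueField A)) T ^ (q - 1))
    (x1 x2 : laurentBaseChange K0 (modularFunctionFieldFull M))
    (hx1 : (x1 : LaurentSeries K0) =
      qExpand K0 q ((s18_coord K0 t₀ : laurentBaseChange K0 (modularFunctionFieldFull M)) : LaurentSeries K0))
    (hx2 : (x2 : LaurentSeries K0) =
      qExpand K0 (q ^ 2) ((s18_coord K0 t₀ : laurentBaseChange K0 (modularFunctionFieldFull M)) : LaurentSeries K0))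
    (hG₁ : s18_coord K0 t₀ ^ q * x1⁻¹ ∈ B) (hG₃ : x2 ^ q * x1⁻¹ ∈ B) :
    ∀ 𝔪 : Ideal B, 𝔪.IsMaximal → (⟨ϖ, hϖB⟩ : B) ∈ 𝔪 →
      (∃ f₀ : B, f₀ ∉ 𝔪 ∧ ϖ⁻¹ * (f₀ : laurentBaseChange K0 (modularFunctionFieldFull M)) ∈ VA ⊓ VB) →
      ∃ (z' ε : laurentBaseChange K0 (modularFunctionFieldFull M)) (e : ℕ),
        s34_Unif z' (s36_gc_V κ A M Θ) ∧ z' ∈ s18_loc B 𝔪 ∧ 0 < e ∧ ε ∈ s18_loc B 𝔪 ∧
          ε⁻¹ ∈ s36_gc_V κ A M Θ ∧ ϖ = ε * z' ^ e := by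
  subst hϖ
  intro 𝔪 h𝔪 hϖ𝔪 hex
  haveI := h𝔪.isPrime
  exact s36_cpm_cpt_coord hΘ hM hUnif hζ (fun x hx => (hBV x hx).1.1)
    (fun x hx => (hBV x hx).1.2) (fun x hx => (hBV x hx).2) hϖB hcap hzn hzn'
    (hroot q (Fact.out : q.Prime).pos) t₀ ht₀ hN T Tinv hT hTinv hθ x1 x2 hx1 hx2 hG₁ hG₃ 𝔪
    hϖ𝔪 hex

/-- The `q`-expansion of the coordinate `t₂` at any level (a kernel-cheap `rfl`). -/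
theorem s36_cpi_coe_t2 (K₁ : Type*) [Field K₁] [Algebra ℚ K₁] (N : ℕ) [NeZero N] (h : 2 ∣ N) :
    ((s18_coord K₁ (s18_cz_t2 N h) : laurentBaseChange K₁ (modularFunctionFieldFull N)) :
      LaurentSeries K₁) = coeffEmb K₁ (s18_t2R ℚ) := rfl

/-- The `q`-expansion of the coordinate `t₃` at any level (a kernel-cheap `rfl`). -/
theorem s36_cpi_coe_t3 (K₁ : Type*) [Field K₁] [Algebra ℚ K₁] (N : ℕ) [NeZero N] (h : 3 ∣ N) :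
    ((s18_coord K₁ (s18_cz_t3 N h) : laurentBaseChange K₁ (modularFunctionFieldFull N)) :
      LaurentSeries K₁) = coeffEmb K₁ (s18_t3R ℚ) := rfl

end Aux

section Concrete

variable (P : ValuationSubring Qb) (K₀ : IntermediateField ℚ Qb)
  (N₁ q : ℕ) [NeZero N₁] [NeZero q] [NeZero (N₁ * q)] [NeZero (N₁ * q * q)]
  {K : Type*} [Field K] [Algebra ℚ K] (κ : K₀ →+* K) (A : ValuationSubring K)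
  (Θ : laurentBaseChange K (modularFunctionFieldFull (N₁ * q * q)) →ₐ[K] LaurentSeries K)
  (ζ : Aˣ)

/-- The level `N₁ q q` in the form `N₁ q² ∣ N₁ q q`. -/
theorem s36_cpi_level : N₁ * q ^ 2 ∣ N₁ * q * q := ⟨1, by ring⟩

/-- **`cpt` for the chart `B0` of `t₂`** at level `N₁ q q` when `(θ t̄₂)^(q-1) = t̄₂^(q-1)`. -/
theorem s36_cpi_cpt_t2_B0 [Fact q.Prime] [CharP (IsLocalRing.ResidueField A) q]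
    (hq : q.Prime) (hqN : ¬ q ∣ N₁) (hd : 2 ∣ N₁) (hdL : 2 ∣ N₁ * q * q)
    (hP : P.LiesOverPrime q) (π : s18_A1 P K₀) (hπq : π = ((q : ℕ) : s18_A1 P K₀))
    (hΘ : s36_gc_IsCusp N₁ q ζ Θ) (hζ : IsPrimitiveRoot (ζ : A) q)
    {z : s18_F1 K₀ (N₁ * q * q)} (hUnif : s34_Unif z (s36_gc_V κ A (N₁ * q * q) Θ))
    (VA VB : Subring (s18_F1 K₀ (N₁ * q * q)))
    (hch : s36_cp3_Chart π (s18_coord K₀ (s18_cz_t2 (N₁ * q * q) hdL))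
      (s34_md_B0 P K₀ (N₁ * q * q) (s18_cz_t2 (N₁ * q * q) hdL))
      (s34_md_Binf P K₀ (N₁ * q * q) (s18_cz_t2 (N₁ * q * q) hdL))
      (VA ⊓ VB ⊓ s36_gc_V κ A (N₁ * q * q) Θ))
    (hzn : algebraMap (s18_A1 P K₀) (s18_F1 K₀ (N₁ * q * q)) π * (z ^ (q - 1))⁻¹ ∈ s36_gc_V κ A (N₁ * q * q) Θ)
    (hzn' : z ^ (q - 1) * (algebraMap (s18_A1 P K₀) (s18_F1 K₀ (N₁ * q * q)) π)⁻¹ ∈ s36_gc_V κ A (N₁ * q * q) Θ)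
    (hθ : s36_qt_theta (IsLocalRing.ResidueField A) (coeffMap (Int.castRingHom (IsLocalRing.ResidueField A)) s18_t2) ^ (q - 1) =
      coeffMap (Int.castRingHom (IsLocalRing.ResidueField A)) s18_t2 ^ (q - 1)) :
    ∀ 𝔪 : Ideal (s34_md_B0 P K₀ (N₁ * q * q) (s18_cz_t2 (N₁ * q * q) hdL)).toSubring, 𝔪.IsMaximal →
      (⟨algebraMap (s18_A1 P K₀) (s18_F1 K₀ (N₁ * q * q)) π, (s34_md_B0 P K₀ (N₁ * q * q) (s18_cz_t2 (N₁ * q * q) hdL)).algebraMap_mem π⟩ : (s34_md_B0 P K₀ (N₁ * q * q) (s18_cz_t2 (N₁ * q * q) hdL)).toSubring) ∈ 𝔪 →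
      (∃ f₀ : (s34_md_B0 P K₀ (N₁ * q * q) (s18_cz_t2 (N₁ * q * q) hdL)).toSubring, f₀ ∉ 𝔪 ∧
        (algebraMap (s18_A1 P K₀) (s18_F1 K₀ (N₁ * q * q)) π)⁻¹ * (f₀ : s18_F1 K₀ (N₁ * q * q)) ∈ VA ⊓ VB) →
      ∃ (z' ε : s18_F1 K₀ (N₁ * q * q)) (e : ℕ),
        s34_Unif z' (s36_gc_V κ A (N₁ * q * q) Θ) ∧ z' ∈ s18_loc (s34_md_B0 P K₀ (N₁ * q * q) (s18_cz_t2 (N₁ * q * q) hdL)).toSubring 𝔪 ∧ 0 < e ∧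
          ε ∈ s18_loc (s34_md_B0 P K₀ (N₁ * q * q) (s18_cz_t2 (N₁ * q * q) hdL)).toSubring 𝔪 ∧ ε⁻¹ ∈ s36_gc_V κ A (N₁ * q * q) Θ ∧
          algebraMap (s18_A1 P K₀) (s18_F1 K₀ (N₁ * q * q)) π = ε * z' ^ e := by
  have e : algebraMap (s18_A1 P K₀) (s18_F1 K₀ (N₁ * q * q)) π = algebraMap K₀ (s18_F1 K₀ (N₁ * q * q)) ((q : ℕ) : K₀) := by
    rw [hπq, map_natCast, map_natCast]
  obtain ⟨⟨g1, g3⟩, -⟩ := s36_cusp2_t2 N₁ q K₀ P hq hqN hd hdL hP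
  refine s36_cpi_aux (κ := κ) (N := N₁) hΘ (s36_cpi_level N₁ q) hUnif hζ _ e hch.hB0V
    ((s34_md_B0 P K₀ (N₁ * q * q) (s18_cz_t2 (N₁ * q * q) hdL)).algebraMap_mem π) hch.hcap0 hzn hzn' hch.hroot0
    (s18_cz_t2 (N₁ * q * q) hdL) (s18_cz_t2_ne_zero (N₁ * q * q) hdL) (s18_cz_t2 N₁ hd).2 s18_t2 s18_t2inv rfl (s18_cz_coe_t2_inv (N₁ * q * q) hdL) hθ
    (heckeAlphaBar K₀ (N₁ * q) q (heckeBetaBar K₀ N₁ q (s18_coord K₀ (s18_cz_t2 N₁ hd))))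
    (heckeBetaBar K₀ (N₁ * q) q (heckeBetaBar K₀ N₁ q (s18_coord K₀ (s18_cz_t2 N₁ hd)))) ?_ ?_ ?_ ?_
  · rw [coe_heckeAlphaBar, coe_heckeBetaBar, s36_cpi_coe_t2, s36_cpi_coe_t2]
  · rw [coe_heckeBetaBar, coe_heckeBetaBar, s36_cpi_coe_t2, s36_cpi_coe_t2, qExpand_qExpand]
    exact qExpand_congr (sq q).symm _
  · exact g1
  · exact g3

/-- **`cpt` for the chart `Binf` of `t₂`** at level `N₁ q q` when `(θ t̄₂⁻¹)^(q-1) = t̄₂^(-(q-1))`. -/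
theorem s36_cpi_cpt_t2_Binf [Fact q.Prime] [CharP (IsLocalRing.ResidueField A) q]
    (hq : q.Prime) (hqN : ¬ q ∣ N₁) (hd : 2 ∣ N₁) (hdL : 2 ∣ N₁ * q * q)
    (hP : P.LiesOverPrime q) (π : s18_A1 P K₀) (hπq : π = ((q : ℕ) : s18_A1 P K₀))
    (hΘ : s36_gc_IsCusp N₁ q ζ Θ) (hζ : IsPrimitiveRoot (ζ : A) q)
    {z : s18_F1 K₀ (N₁ * q * q)} (hUnif : s34_Unif z (s36_gc_V κ A (N₁ * q * q) Θ))
    (VA VB : Subring (s18_F1 K₀ (N₁ * q * q)))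
    (hch : s36_cp3_Chart π (s18_coord K₀ (s18_cz_t2 (N₁ * q * q) hdL))
      (s34_md_B0 P K₀ (N₁ * q * q) (s18_cz_t2 (N₁ * q * q) hdL))
      (s34_md_Binf P K₀ (N₁ * q * q) (s18_cz_t2 (N₁ * q * q) hdL))
      (VA ⊓ VB ⊓ s36_gc_V κ A (N₁ * q * q) Θ))
    (hzn : algebraMap (s18_A1 P K₀) (s18_F1 K₀ (N₁ * q * q)) π * (z ^ (q - 1))⁻¹ ∈ s36_gc_V κ A (N₁ * q * q) Θ)
    (hzn' : z ^ (q - 1) * (algebraMap (s18_A1 P K₀) (s18_F1 K₀ (N₁ * q * q)) π)⁻¹ ∈ s36_gc_V κ A (N₁ * q * q) Θ)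
    (hθ : s36_qt_theta (IsLocalRing.ResidueField A) (coeffMap (Int.castRingHom (IsLocalRing.ResidueField A)) s18_t2inv) ^ (q - 1) =
      coeffMap (Int.castRingHom (IsLocalRing.ResidueField A)) s18_t2inv ^ (q - 1)) :
    ∀ 𝔪 : Ideal (s34_md_Binf P K₀ (N₁ * q * q) (s18_cz_t2 (N₁ * q * q) hdL)).toSubring, 𝔪.IsMaximal →
      (⟨algebraMap (s18_A1 P K₀) (s18_F1 K₀ (N₁ * q * q)) π, (s34_md_Binf P K₀ (N₁ * q * q) (s18_cz_t2 (N₁ * q * q) hdL)).algebraMap_mem π⟩ : (s34_md_Binf P K₀ (N₁ * q * q) (s18_cz_t2 (N₁ * q * q) hdL)).toSubring) ∈ 𝔪 →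
      (∃ f₀ : (s34_md_Binf P K₀ (N₁ * q * q) (s18_cz_t2 (N₁ * q * q) hdL)).toSubring, f₀ ∉ 𝔪 ∧
        (algebraMap (s18_A1 P K₀) (s18_F1 K₀ (N₁ * q * q)) π)⁻¹ * (f₀ : s18_F1 K₀ (N₁ * q * q)) ∈ VA ⊓ VB) →
      ∃ (z' ε : s18_F1 K₀ (N₁ * q * q)) (e : ℕ),
        s34_Unif z' (s36_gc_V κ A (N₁ * q * q) Θ) ∧ z' ∈ s18_loc (s34_md_Binf P K₀ (N₁ * q * q) (s18_cz_t2 (N₁ * q * q) hdL)).toSubring 𝔪 ∧ 0 < e ∧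
          ε ∈ s18_loc (s34_md_Binf P K₀ (N₁ * q * q) (s18_cz_t2 (N₁ * q * q) hdL)).toSubring 𝔪 ∧ ε⁻¹ ∈ s36_gc_V κ A (N₁ * q * q) Θ ∧
          algebraMap (s18_A1 P K₀) (s18_F1 K₀ (N₁ * q * q)) π = ε * z' ^ e := by
  have e : algebraMap (s18_A1 P K₀) (s18_F1 K₀ (N₁ * q * q)) π = algebraMap K₀ (s18_F1 K₀ (N₁ * q * q)) ((q : ℕ) : K₀) := by
    rw [hπq, map_natCast, map_natCast]
  obtain ⟨-, ⟨g1, g3⟩⟩ := s36_cusp2_t2 N₁ q K₀ P hq hqN hd hdL hP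
  refine s36_cpi_aux (κ := κ) (N := N₁) hΘ (s36_cpi_level N₁ q) hUnif hζ _ e hch.hBiV
    ((s34_md_Binf P K₀ (N₁ * q * q) (s18_cz_t2 (N₁ * q * q) hdL)).algebraMap_mem π) hch.hcapi hzn hzn' hch.hrooti
    ((s18_cz_t2 (N₁ * q * q) hdL)⁻¹) (inv_ne_zero (s18_cz_t2_ne_zero (N₁ * q * q) hdL)) (inv_mem (s18_cz_t2 N₁ hd).2) s18_t2inv s18_t2 (s18_cz_coe_t2_inv (N₁ * q * q) hdL) (by rw [inv_inv]; rfl) hθ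
    (heckeAlphaBar K₀ (N₁ * q) q (heckeBetaBar K₀ N₁ q (s18_coord K₀ (s18_cz_t2 N₁ hd))))⁻¹
    (heckeBetaBar K₀ (N₁ * q) q (heckeBetaBar K₀ N₁ q (s18_coord K₀ (s18_cz_t2 N₁ hd))))⁻¹ ?_ ?_ ?_ ?_
  · show (qExpand K₀ q (coeffEmb K₀ ((s18_cz_t2 N₁ hd : modularFunctionFieldFull N₁) :
        LaurentSeries ℚ)))⁻¹ =
      qExpand K₀ q (coeffEmb K₀ (((s18_cz_t2 N₁ hd : modularFunctionFieldFull N₁) :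
        LaurentSeries ℚ))⁻¹)
    rw [map_inv₀, map_inv₀]
  · show (qExpand K₀ q (qExpand K₀ q (coeffEmb K₀ ((s18_cz_t2 N₁ hd : modularFunctionFieldFull N₁) :
        LaurentSeries ℚ))))⁻¹ =
      qExpand K₀ (q ^ 2) (coeffEmb K₀ (((s18_cz_t2 N₁ hd : modularFunctionFieldFull N₁) :
        LaurentSeries ℚ))⁻¹)
    rw [qExpand_qExpand, map_inv₀, map_inv₀, qExpand_congr (sq q)]
  · have e1 : s18_coord K₀ (s18_cz_t2 (N₁ * q * q) hdL)⁻¹ = (s18_coord K₀ (s18_cz_t2 (N₁ * q * q) hdL))⁻¹ := by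
      apply Subtype.ext
      show coeffEmb K₀ (((s18_cz_t2 (N₁ * q * q) hdL : modularFunctionFieldFull (N₁ * q * q)) :
        LaurentSeries ℚ))⁻¹ = (coeffEmb K₀ ((s18_cz_t2 (N₁ * q * q) hdL : modularFunctionFieldFull (N₁ * q * q)) :
        LaurentSeries ℚ))⁻¹
      rw [map_inv₀]
    rw [e1, inv_inv]
    exact g1
  · rw [inv_inv]
    exact g3

/-- **`cpt` for the chart `B0` of `t₃`** at level `N₁ q q` when `(θ t̄₃)^(q-1) = t̄₃^(q-1)`. -/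
theorem s36_cpi_cpt_t3_B0 [Fact q.Prime] [CharP (IsLocalRing.ResidueField A) q]
    (hq : q.Prime) (hqN : ¬ q ∣ N₁) (hd : 3 ∣ N₁) (hdL : 3 ∣ N₁ * q * q)
    (hP : P.LiesOverPrime q) (π : s18_A1 P K₀) (hπq : π = ((q : ℕ) : s18_A1 P K₀))
    (hΘ : s36_gc_IsCusp N₁ q ζ Θ) (hζ : IsPrimitiveRoot (ζ : A) q)
    {z : s18_F1 K₀ (N₁ * q * q)} (hUnif : s34_Unif z (s36_gc_V κ A (N₁ * q * q) Θ))
    (VA VB : Subring (s18_F1 K₀ (N₁ * q * q)))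
    (hch : s36_cp3_Chart π (s18_coord K₀ (s18_cz_t3 (N₁ * q * q) hdL))
      (s34_md_B0 P K₀ (N₁ * q * q) (s18_cz_t3 (N₁ * q * q) hdL))
      (s34_md_Binf P K₀ (N₁ * q * q) (s18_cz_t3 (N₁ * q * q) hdL))
      (VA ⊓ VB ⊓ s36_gc_V κ A (N₁ * q * q) Θ))
    (hzn : algebraMap (s18_A1 P K₀) (s18_F1 K₀ (N₁ * q * q)) π * (z ^ (q - 1))⁻¹ ∈ s36_gc_V κ A (N₁ * q * q) Θ)
    (hzn' : z ^ (q - 1) * (algebraMap (s18_A1 P K₀) (s18_F1 K₀ (N₁ * q * q)) π)⁻¹ ∈ s36_gc_V κ A (N₁ * q * q) Θ)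
    (hθ : s36_qt_theta (IsLocalRing.ResidueField A) (coeffMap (Int.castRingHom (IsLocalRing.ResidueField A)) s18_t3) ^ (q - 1) =
      coeffMap (Int.castRingHom (IsLocalRing.ResidueField A)) s18_t3 ^ (q - 1)) :
    ∀ 𝔪 : Ideal (s34_md_B0 P K₀ (N₁ * q * q) (s18_cz_t3 (N₁ * q * q) hdL)).toSubring, 𝔪.IsMaximal →
      (⟨algebraMap (s18_A1 P K₀) (s18_F1 K₀ (N₁ * q * q)) π, (s34_md_B0 P K₀ (N₁ * q * q) (s18_cz_t3 (N₁ * q * q) hdL)).algebraMap_mem π⟩ : (s34_md_B0 P K₀ (N₁ * q * q) (s18_cz_t3 (N₁ * q * q) hdL)).toSubring) ∈ 𝔪 →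
      (∃ f₀ : (s34_md_B0 P K₀ (N₁ * q * q) (s18_cz_t3 (N₁ * q * q) hdL)).toSubring, f₀ ∉ 𝔪 ∧
        (algebraMap (s18_A1 P K₀) (s18_F1 K₀ (N₁ * q * q)) π)⁻¹ * (f₀ : s18_F1 K₀ (N₁ * q * q)) ∈ VA ⊓ VB) →
      ∃ (z' ε : s18_F1 K₀ (N₁ * q * q)) (e : ℕ),
        s34_Unif z' (s36_gc_V κ A (N₁ * q * q) Θ) ∧ z' ∈ s18_loc (s34_md_B0 P K₀ (N₁ * q * q) (s18_cz_t3 (N₁ * q * q) hdL)).toSubring 𝔪 ∧ 0 < e ∧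
          ε ∈ s18_loc (s34_md_B0 P K₀ (N₁ * q * q) (s18_cz_t3 (N₁ * q * q) hdL)).toSubring 𝔪 ∧ ε⁻¹ ∈ s36_gc_V κ A (N₁ * q * q) Θ ∧
          algebraMap (s18_A1 P K₀) (s18_F1 K₀ (N₁ * q * q)) π = ε * z' ^ e := by
  have e : algebraMap (s18_A1 P K₀) (s18_F1 K₀ (N₁ * q * q)) π = algebraMap K₀ (s18_F1 K₀ (N₁ * q * q)) ((q : ℕ) : K₀) := by
    rw [hπq, map_natCast, map_natCast]
  obtain ⟨⟨g1, g3⟩, -⟩ := s36_cusp2_t3 N₁ q K₀ P hq hqN hd hdL hP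
  refine s36_cpi_aux (κ := κ) (N := N₁) hΘ (s36_cpi_level N₁ q) hUnif hζ _ e hch.hB0V
    ((s34_md_B0 P K₀ (N₁ * q * q) (s18_cz_t3 (N₁ * q * q) hdL)).algebraMap_mem π) hch.hcap0 hzn hzn' hch.hroot0
    (s18_cz_t3 (N₁ * q * q) hdL) (s18_cz_t3_ne_zero (N₁ * q * q) hdL) (s18_cz_t3 N₁ hd).2 s18_t3 s18_t3inv rfl (s18_cz_coe_t3_inv (N₁ * q * q) hdL) hθ
    (heckeAlphaBar K₀ (N₁ * q) q (heckeBetaBar K₀ N₁ q (s18_coord K₀ (s18_cz_t3 N₁ hd))))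
    (heckeBetaBar K₀ (N₁ * q) q (heckeBetaBar K₀ N₁ q (s18_coord K₀ (s18_cz_t3 N₁ hd)))) ?_ ?_ ?_ ?_
  · rw [coe_heckeAlphaBar, coe_heckeBetaBar, s36_cpi_coe_t3, s36_cpi_coe_t3]
  · rw [coe_heckeBetaBar, coe_heckeBetaBar, s36_cpi_coe_t3, s36_cpi_coe_t3, qExpand_qExpand]
    exact qExpand_congr (sq q).symm _
  · exact g1
  · exact g3

/-- **`cpt` for the chart `Binf` of `t₃`** at level `N₁ q q` when `(θ t̄₃⁻¹)^(q-1) = t̄₃^(-(q-1))`. -/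
theorem s36_cpi_cpt_t3_Binf [Fact q.Prime] [CharP (IsLocalRing.ResidueField A) q]
    (hq : q.Prime) (hqN : ¬ q ∣ N₁) (hd : 3 ∣ N₁) (hdL : 3 ∣ N₁ * q * q)
    (hP : P.LiesOverPrime q) (π : s18_A1 P K₀) (hπq : π = ((q : ℕ) : s18_A1 P K₀))
    (hΘ : s36_gc_IsCusp N₁ q ζ Θ) (hζ : IsPrimitiveRoot (ζ : A) q)
    {z : s18_F1 K₀ (N₁ * q * q)} (hUnif : s34_Unif z (s36_gc_V κ A (N₁ * q * q) Θ))
    (VA VB : Subring (s18_F1 K₀ (N₁ * q * q)))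
    (hch : s36_cp3_Chart π (s18_coord K₀ (s18_cz_t3 (N₁ * q * q) hdL))
      (s34_md_B0 P K₀ (N₁ * q * q) (s18_cz_t3 (N₁ * q * q) hdL))
      (s34_md_Binf P K₀ (N₁ * q * q) (s18_cz_t3 (N₁ * q * q) hdL))
      (VA ⊓ VB ⊓ s36_gc_V κ A (N₁ * q * q) Θ))
    (hzn : algebraMap (s18_A1 P K₀) (s18_F1 K₀ (N₁ * q * q)) π * (z ^ (q - 1))⁻¹ ∈ s36_gc_V κ A (N₁ * q * q) Θ)
    (hzn' : z ^ (q - 1) * (algebraMap (s18_A1 P K₀) (s18_F1 K₀ (N₁ * q * q)) π)⁻¹ ∈ s36_gc_V κ A (N₁ * q * q) Θ)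
    (hθ : s36_qt_theta (IsLocalRing.ResidueField A) (coeffMap (Int.castRingHom (IsLocalRing.ResidueField A)) s18_t3inv) ^ (q - 1) =
      coeffMap (Int.castRingHom (IsLocalRing.ResidueField A)) s18_t3inv ^ (q - 1)) :
    ∀ 𝔪 : Ideal (s34_md_Binf P K₀ (N₁ * q * q) (s18_cz_t3 (N₁ * q * q) hdL)).toSubring, 𝔪.IsMaximal →
      (⟨algebraMap (s18_A1 P K₀) (s18_F1 K₀ (N₁ * q * q)) π, (s34_md_Binf P K₀ (N₁ * q * q) (s18_cz_t3 (N₁ * q * q) hdL)).algebraMap_mem π⟩ : (s34_md_Binf P K₀ (N₁ * q * q) (s18_cz_t3 (N₁ * q * q) hdL)).toSubring) ∈ 𝔪 →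
      (∃ f₀ : (s34_md_Binf P K₀ (N₁ * q * q) (s18_cz_t3 (N₁ * q * q) hdL)).toSubring, f₀ ∉ 𝔪 ∧
        (algebraMap (s18_A1 P K₀) (s18_F1 K₀ (N₁ * q * q)) π)⁻¹ * (f₀ : s18_F1 K₀ (N₁ * q * q)) ∈ VA ⊓ VB) →
      ∃ (z' ε : s18_F1 K₀ (N₁ * q * q)) (e : ℕ),
        s34_Unif z' (s36_gc_V κ A (N₁ * q * q) Θ) ∧ z' ∈ s18_loc (s34_md_Binf P K₀ (N₁ * q * q) (s18_cz_t3 (N₁ * q * q) hdL)).toSubring 𝔪 ∧ 0 < e ∧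
          ε ∈ s18_loc (s34_md_Binf P K₀ (N₁ * q * q) (s18_cz_t3 (N₁ * q * q) hdL)).toSubring 𝔪 ∧ ε⁻¹ ∈ s36_gc_V κ A (N₁ * q * q) Θ ∧
          algebraMap (s18_A1 P K₀) (s18_F1 K₀ (N₁ * q * q)) π = ε * z' ^ e := by
  have e : algebraMap (s18_A1 P K₀) (s18_F1 K₀ (N₁ * q * q)) π = algebraMap K₀ (s18_F1 K₀ (N₁ * q * q)) ((q : ℕ) : K₀) := by
    rw [hπq, map_natCast, map_natCast]
  obtain ⟨-, ⟨g1, g3⟩⟩ := s36_cusp2_t3 N₁ q K₀ P hq hqN hd hdL hP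
  refine s36_cpi_aux (κ := κ) (N := N₁) hΘ (s36_cpi_level N₁ q) hUnif hζ _ e hch.hBiV
    ((s34_md_Binf P K₀ (N₁ * q * q) (s18_cz_t3 (N₁ * q * q) hdL)).algebraMap_mem π) hch.hcapi hzn hzn' hch.hrooti
    ((s18_cz_t3 (N₁ * q * q) hdL)⁻¹) (inv_ne_zero (s18_cz_t3_ne_zero (N₁ * q * q) hdL)) (inv_mem (s18_cz_t3 N₁ hd).2) s18_t3inv s18_t3 (s18_cz_coe_t3_inv (N₁ * q * q) hdL) (by rw [inv_inv]; rfl) hθ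
    (heckeAlphaBar K₀ (N₁ * q) q (heckeBetaBar K₀ N₁ q (s18_coord K₀ (s18_cz_t3 N₁ hd))))⁻¹
    (heckeBetaBar K₀ (N₁ * q) q (heckeBetaBar K₀ N₁ q (s18_coord K₀ (s18_cz_t3 N₁ hd))))⁻¹ ?_ ?_ ?_ ?_
  · show (qExpand K₀ q (coeffEmb K₀ ((s18_cz_t3 N₁ hd : modularFunctionFieldFull N₁) :
        LaurentSeries ℚ)))⁻¹ =
      qExpand K₀ q (coeffEmb K₀ (((s18_cz_t3 N₁ hd : modularFunctionFieldFull N₁) :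
        LaurentSeries ℚ))⁻¹)
    rw [map_inv₀, map_inv₀]
  · show (qExpand K₀ q (qExpand K₀ q (coeffEmb K₀ ((s18_cz_t3 N₁ hd : modularFunctionFieldFull N₁) :
        LaurentSeries ℚ))))⁻¹ =
      qExpand K₀ (q ^ 2) (coeffEmb K₀ (((s18_cz_t3 N₁ hd : modularFunctionFieldFull N₁) :
        LaurentSeries ℚ))⁻¹)
    rw [qExpand_qExpand, map_inv₀, map_inv₀, qExpand_congr (sq q)]
  · have e1 : s18_coord K₀ (s18_cz_t3 (N₁ * q * q) hdL)⁻¹ = (s18_coord K₀ (s18_cz_t3 (N₁ * q * q) hdL))⁻¹ := by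
      apply Subtype.ext
      show coeffEmb K₀ (((s18_cz_t3 (N₁ * q * q) hdL : modularFunctionFieldFull (N₁ * q * q)) :
        LaurentSeries ℚ))⁻¹ = (coeffEmb K₀ ((s18_cz_t3 (N₁ * q * q) hdL : modularFunctionFieldFull (N₁ * q * q)) :
        LaurentSeries ℚ))⁻¹
      rw [map_inv₀]
    rw [e1, inv_inv]
    exact g1
  · rw [inv_inv]
    exact g3

end Concrete

section Q3

variable (P : ValuationSubring Qb) (K₀ : IntermediateField ℚ Qb)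
  (N₁ : ℕ) [NeZero N₁] [NeZero (N₁ * 3)] [NeZero (N₁ * 3 * 3)]
  {K : Type*} [Field K] [Algebra ℚ K] (κ : K₀ →+* K) (A : ValuationSubring K)
  (Θ : laurentBaseChange K (modularFunctionFieldFull (N₁ * 3 * 3)) →ₐ[K] LaurentSeries K)
  (ζ : Aˣ)

/-- **`cpt`, `q = 3`, chart `B0` of `t₂`** at level `N₁ * 3 * 3`. -/
theorem s36_cpi_cpt3_B0 [CharP (IsLocalRing.ResidueField A) 3]
    (hqN : ¬ 3 ∣ N₁) (hd : 2 ∣ N₁) (hdL : 2 ∣ N₁ * 3 * 3)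
    (hP : P.LiesOverPrime 3) (π : s18_A1 P K₀) (hπq : π = ((3 : ℕ) : s18_A1 P K₀))
    (hΘ : s36_gc_IsCusp N₁ 3 ζ Θ) (hζ : IsPrimitiveRoot (ζ : A) 3)
    {z : s18_F1 K₀ (N₁ * 3 * 3)} (hUnif : s34_Unif z (s36_gc_V κ A (N₁ * 3 * 3) Θ))
    (VA VB : Subring (s18_F1 K₀ (N₁ * 3 * 3)))
    (hch : s36_cp3_Chart π (s18_coord K₀ (s18_cz_t2 (N₁ * 3 * 3) hdL))
      (s34_md_B0 P K₀ (N₁ * 3 * 3) (s18_cz_t2 (N₁ * 3 * 3) hdL))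
      (s34_md_Binf P K₀ (N₁ * 3 * 3) (s18_cz_t2 (N₁ * 3 * 3) hdL))
      (VA ⊓ VB ⊓ s36_gc_V κ A (N₁ * 3 * 3) Θ))
    (hzn : algebraMap (s18_A1 P K₀) (s18_F1 K₀ (N₁ * 3 * 3)) π * (z ^ (3 - 1))⁻¹ ∈ s36_gc_V κ A (N₁ * 3 * 3) Θ)
    (hzn' : z ^ (3 - 1) * (algebraMap (s18_A1 P K₀) (s18_F1 K₀ (N₁ * 3 * 3)) π)⁻¹ ∈ s36_gc_V κ A (N₁ * 3 * 3) Θ) :
    ∀ 𝔪 : Ideal (s34_md_B0 P K₀ (N₁ * 3 * 3) (s18_cz_t2 (N₁ * 3 * 3) hdL)).toSubring, 𝔪.IsMaximal →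
      (⟨algebraMap (s18_A1 P K₀) (s18_F1 K₀ (N₁ * 3 * 3)) π, (s34_md_B0 P K₀ (N₁ * 3 * 3) (s18_cz_t2 (N₁ * 3 * 3) hdL)).algebraMap_mem π⟩ : (s34_md_B0 P K₀ (N₁ * 3 * 3) (s18_cz_t2 (N₁ * 3 * 3) hdL)).toSubring) ∈ 𝔪 →
      (∃ f₀ : (s34_md_B0 P K₀ (N₁ * 3 * 3) (s18_cz_t2 (N₁ * 3 * 3) hdL)).toSubring, f₀ ∉ 𝔪 ∧
        (algebraMap (s18_A1 P K₀) (s18_F1 K₀ (N₁ * 3 * 3)) π)⁻¹ * (f₀ : s18_F1 K₀ (N₁ * 3 * 3)) ∈ VA ⊓ VB) →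
      ∃ (z' ε : s18_F1 K₀ (N₁ * 3 * 3)) (e : ℕ),
        s34_Unif z' (s36_gc_V κ A (N₁ * 3 * 3) Θ) ∧ z' ∈ s18_loc (s34_md_B0 P K₀ (N₁ * 3 * 3) (s18_cz_t2 (N₁ * 3 * 3) hdL)).toSubring 𝔪 ∧ 0 < e ∧
          ε ∈ s18_loc (s34_md_B0 P K₀ (N₁ * 3 * 3) (s18_cz_t2 (N₁ * 3 * 3) hdL)).toSubring 𝔪 ∧ ε⁻¹ ∈ s36_gc_V κ A (N₁ * 3 * 3) Θ ∧
          algebraMap (s18_A1 P K₀) (s18_F1 K₀ (N₁ * 3 * 3)) π = ε * z' ^ e := by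
  haveI : Fact (Nat.Prime 3) := ⟨Nat.prime_three⟩
  have hk : ((3 : ℕ) : IsLocalRing.ResidueField A) = 0 :=
    CharP.cast_eq_zero (IsLocalRing.ResidueField A) 3
  exact s36_cpi_cpt_t2_B0 P K₀ N₁ 3 κ A Θ ζ Nat.prime_three hqN hd hdL hP π hπq hΘ hζ hUnif VA VB hch hzn hzn'
    (s36_cpm_theta_t2 _ (by exact_mod_cast hk))

/-- **`cpt`, `q = 3`, chart `Binf` of `t₂`** at level `N₁ * 3 * 3`. -/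
theorem s36_cpi_cpt3_Binf [CharP (IsLocalRing.ResidueField A) 3]
    (hqN : ¬ 3 ∣ N₁) (hd : 2 ∣ N₁) (hdL : 2 ∣ N₁ * 3 * 3)
    (hP : P.LiesOverPrime 3) (π : s18_A1 P K₀) (hπq : π = ((3 : ℕ) : s18_A1 P K₀))
    (hΘ : s36_gc_IsCusp N₁ 3 ζ Θ) (hζ : IsPrimitiveRoot (ζ : A) 3)
    {z : s18_F1 K₀ (N₁ * 3 * 3)} (hUnif : s34_Unif z (s36_gc_V κ A (N₁ * 3 * 3) Θ))
    (VA VB : Subring (s18_F1 K₀ (N₁ * 3 * 3)))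
    (hch : s36_cp3_Chart π (s18_coord K₀ (s18_cz_t2 (N₁ * 3 * 3) hdL))
      (s34_md_B0 P K₀ (N₁ * 3 * 3) (s18_cz_t2 (N₁ * 3 * 3) hdL))
      (s34_md_Binf P K₀ (N₁ * 3 * 3) (s18_cz_t2 (N₁ * 3 * 3) hdL))
      (VA ⊓ VB ⊓ s36_gc_V κ A (N₁ * 3 * 3) Θ))
    (hzn : algebraMap (s18_A1 P K₀) (s18_F1 K₀ (N₁ * 3 * 3)) π * (z ^ (3 - 1))⁻¹ ∈ s36_gc_V κ A (N₁ * 3 * 3) Θ)
    (hzn' : z ^ (3 - 1) * (algebraMap (s18_A1 P K₀) (s18_F1 K₀ (N₁ * 3 * 3)) π)⁻¹ ∈ s36_gc_V κ A (N₁ * 3 * 3) Θ) :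
    ∀ 𝔪 : Ideal (s34_md_Binf P K₀ (N₁ * 3 * 3) (s18_cz_t2 (N₁ * 3 * 3) hdL)).toSubring, 𝔪.IsMaximal →
      (⟨algebraMap (s18_A1 P K₀) (s18_F1 K₀ (N₁ * 3 * 3)) π, (s34_md_Binf P K₀ (N₁ * 3 * 3) (s18_cz_t2 (N₁ * 3 * 3) hdL)).algebraMap_mem π⟩ : (s34_md_Binf P K₀ (N₁ * 3 * 3) (s18_cz_t2 (N₁ * 3 * 3) hdL)).toSubring) ∈ 𝔪 →
      (∃ f₀ : (s34_md_Binf P K₀ (N₁ * 3 * 3) (s18_cz_t2 (N₁ * 3 * 3) hdL)).toSubring, f₀ ∉ 𝔪 ∧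
        (algebraMap (s18_A1 P K₀) (s18_F1 K₀ (N₁ * 3 * 3)) π)⁻¹ * (f₀ : s18_F1 K₀ (N₁ * 3 * 3)) ∈ VA ⊓ VB) →
      ∃ (z' ε : s18_F1 K₀ (N₁ * 3 * 3)) (e : ℕ),
        s34_Unif z' (s36_gc_V κ A (N₁ * 3 * 3) Θ) ∧ z' ∈ s18_loc (s34_md_Binf P K₀ (N₁ * 3 * 3) (s18_cz_t2 (N₁ * 3 * 3) hdL)).toSubring 𝔪 ∧ 0 < e ∧
          ε ∈ s18_loc (s34_md_Binf P K₀ (N₁ * 3 * 3) (s18_cz_t2 (N₁ * 3 * 3) hdL)).toSubring 𝔪 ∧ ε⁻¹ ∈ s36_gc_V κ A (N₁ * 3 * 3) Θ ∧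
          algebraMap (s18_A1 P K₀) (s18_F1 K₀ (N₁ * 3 * 3)) π = ε * z' ^ e := by
  haveI : Fact (Nat.Prime 3) := ⟨Nat.prime_three⟩
  have hk : ((3 : ℕ) : IsLocalRing.ResidueField A) = 0 :=
    CharP.cast_eq_zero (IsLocalRing.ResidueField A) 3
  exact s36_cpi_cpt_t2_Binf P K₀ N₁ 3 κ A Θ ζ Nat.prime_three hqN hd hdL hP π hπq hΘ hζ hUnif VA VB hch hzn hzn'
    (s36_cpm_theta_t2inv _ (by exact_mod_cast hk))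

end Q3

section Q2

variable (P : ValuationSubring Qb) (K₀ : IntermediateField ℚ Qb)
  (N₁ : ℕ) [NeZero N₁] [NeZero (N₁ * 2)] [NeZero (N₁ * 2 * 2)]
  {K : Type*} [Field K] [Algebra ℚ K] (κ : K₀ →+* K) (A : ValuationSubring K)
  (Θ : laurentBaseChange K (modularFunctionFieldFull (N₁ * 2 * 2)) →ₐ[K] LaurentSeries K)
  (ζ : Aˣ)

/-- **`cpt`, `q = 2`, chart `B0` of `t₃`** at level `N₁ * 2 * 2`. -/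
theorem s36_cpi_cpt2_B0 [CharP (IsLocalRing.ResidueField A) 2]
    (hqN : ¬ 2 ∣ N₁) (hd : 3 ∣ N₁) (hdL : 3 ∣ N₁ * 2 * 2)
    (hP : P.LiesOverPrime 2) (π : s18_A1 P K₀) (hπq : π = ((2 : ℕ) : s18_A1 P K₀))
    (hΘ : s36_gc_IsCusp N₁ 2 ζ Θ) (hζ : IsPrimitiveRoot (ζ : A) 2)
    {z : s18_F1 K₀ (N₁ * 2 * 2)} (hUnif : s34_Unif z (s36_gc_V κ A (N₁ * 2 * 2) Θ))
    (VA VB : Subring (s18_F1 K₀ (N₁ * 2 * 2)))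
    (hch : s36_cp3_Chart π (s18_coord K₀ (s18_cz_t3 (N₁ * 2 * 2) hdL))
      (s34_md_B0 P K₀ (N₁ * 2 * 2) (s18_cz_t3 (N₁ * 2 * 2) hdL))
      (s34_md_Binf P K₀ (N₁ * 2 * 2) (s18_cz_t3 (N₁ * 2 * 2) hdL))
      (VA ⊓ VB ⊓ s36_gc_V κ A (N₁ * 2 * 2) Θ))
    (hzn : algebraMap (s18_A1 P K₀) (s18_F1 K₀ (N₁ * 2 * 2)) π * (z ^ (2 - 1))⁻¹ ∈ s36_gc_V κ A (N₁ * 2 * 2) Θ)
    (hzn' : z ^ (2 - 1) * (algebraMap (s18_A1 P K₀) (s18_F1 K₀ (N₁ * 2 * 2)) π)⁻¹ ∈ s36_gc_V κ A (N₁ * 2 * 2) Θ) :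
    ∀ 𝔪 : Ideal (s34_md_B0 P K₀ (N₁ * 2 * 2) (s18_cz_t3 (N₁ * 2 * 2) hdL)).toSubring, 𝔪.IsMaximal →
      (⟨algebraMap (s18_A1 P K₀) (s18_F1 K₀ (N₁ * 2 * 2)) π, (s34_md_B0 P K₀ (N₁ * 2 * 2) (s18_cz_t3 (N₁ * 2 * 2) hdL)).algebraMap_mem π⟩ : (s34_md_B0 P K₀ (N₁ * 2 * 2) (s18_cz_t3 (N₁ * 2 * 2) hdL)).toSubring) ∈ 𝔪 →
      (∃ f₀ : (s34_md_B0 P K₀ (N₁ * 2 * 2) (s18_cz_t3 (N₁ * 2 * 2) hdL)).toSubring, f₀ ∉ 𝔪 ∧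
        (algebraMap (s18_A1 P K₀) (s18_F1 K₀ (N₁ * 2 * 2)) π)⁻¹ * (f₀ : s18_F1 K₀ (N₁ * 2 * 2)) ∈ VA ⊓ VB) →
      ∃ (z' ε : s18_F1 K₀ (N₁ * 2 * 2)) (e : ℕ),
        s34_Unif z' (s36_gc_V κ A (N₁ * 2 * 2) Θ) ∧ z' ∈ s18_loc (s34_md_B0 P K₀ (N₁ * 2 * 2) (s18_cz_t3 (N₁ * 2 * 2) hdL)).toSubring 𝔪 ∧ 0 < e ∧
          ε ∈ s18_loc (s34_md_B0 P K₀ (N₁ * 2 * 2) (s18_cz_t3 (N₁ * 2 * 2) hdL)).toSubring 𝔪 ∧ ε⁻¹ ∈ s36_gc_V κ A (N₁ * 2 * 2) Θ ∧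
          algebraMap (s18_A1 P K₀) (s18_F1 K₀ (N₁ * 2 * 2)) π = ε * z' ^ e := by
  haveI : Fact (Nat.Prime 2) := ⟨Nat.prime_two⟩
  have hk : ((2 : ℕ) : IsLocalRing.ResidueField A) = 0 :=
    CharP.cast_eq_zero (IsLocalRing.ResidueField A) 2
  exact s36_cpi_cpt_t3_B0 P K₀ N₁ 2 κ A Θ ζ Nat.prime_two hqN hd hdL hP π hπq hΘ hζ hUnif VA VB hch hzn hzn'
    (s36_cpm_theta_t3 _ (by exact_mod_cast hk))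

/-- **`cpt`, `q = 2`, chart `Binf` of `t₃`** at level `N₁ * 2 * 2`. -/
theorem s36_cpi_cpt2_Binf [CharP (IsLocalRing.ResidueField A) 2]
    (hqN : ¬ 2 ∣ N₁) (hd : 3 ∣ N₁) (hdL : 3 ∣ N₁ * 2 * 2)
    (hP : P.LiesOverPrime 2) (π : s18_A1 P K₀) (hπq : π = ((2 : ℕ) : s18_A1 P K₀))
    (hΘ : s36_gc_IsCusp N₁ 2 ζ Θ) (hζ : IsPrimitiveRoot (ζ : A) 2)
    {z : s18_F1 K₀ (N₁ * 2 * 2)} (hUnif : s34_Unif z (s36_gc_V κ A (N₁ * 2 * 2) Θ))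
    (VA VB : Subring (s18_F1 K₀ (N₁ * 2 * 2)))
    (hch : s36_cp3_Chart π (s18_coord K₀ (s18_cz_t3 (N₁ * 2 * 2) hdL))
      (s34_md_B0 P K₀ (N₁ * 2 * 2) (s18_cz_t3 (N₁ * 2 * 2) hdL))
      (s34_md_Binf P K₀ (N₁ * 2 * 2) (s18_cz_t3 (N₁ * 2 * 2) hdL))
      (VA ⊓ VB ⊓ s36_gc_V κ A (N₁ * 2 * 2) Θ))
    (hzn : algebraMap (s18_A1 P K₀) (s18_F1 K₀ (N₁ * 2 * 2)) π * (z ^ (2 - 1))⁻¹ ∈ s36_gc_V κ A (N₁ * 2 * 2) Θ)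
    (hzn' : z ^ (2 - 1) * (algebraMap (s18_A1 P K₀) (s18_F1 K₀ (N₁ * 2 * 2)) π)⁻¹ ∈ s36_gc_V κ A (N₁ * 2 * 2) Θ) :
    ∀ 𝔪 : Ideal (s34_md_Binf P K₀ (N₁ * 2 * 2) (s18_cz_t3 (N₁ * 2 * 2) hdL)).toSubring, 𝔪.IsMaximal →
      (⟨algebraMap (s18_A1 P K₀) (s18_F1 K₀ (N₁ * 2 * 2)) π, (s34_md_Binf P K₀ (N₁ * 2 * 2) (s18_cz_t3 (N₁ * 2 * 2) hdL)).algebraMap_mem π⟩ : (s34_md_Binf P K₀ (N₁ * 2 * 2) (s18_cz_t3 (N₁ * 2 * 2) hdL)).toSubring) ∈ 𝔪 →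
      (∃ f₀ : (s34_md_Binf P K₀ (N₁ * 2 * 2) (s18_cz_t3 (N₁ * 2 * 2) hdL)).toSubring, f₀ ∉ 𝔪 ∧
        (algebraMap (s18_A1 P K₀) (s18_F1 K₀ (N₁ * 2 * 2)) π)⁻¹ * (f₀ : s18_F1 K₀ (N₁ * 2 * 2)) ∈ VA ⊓ VB) →
      ∃ (z' ε : s18_F1 K₀ (N₁ * 2 * 2)) (e : ℕ),
        s34_Unif z' (s36_gc_V κ A (N₁ * 2 * 2) Θ) ∧ z' ∈ s18_loc (s34_md_Binf P K₀ (N₁ * 2 * 2) (s18_cz_t3 (N₁ * 2 * 2) hdL)).toSubring 𝔪 ∧ 0 < e ∧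
          ε ∈ s18_loc (s34_md_Binf P K₀ (N₁ * 2 * 2) (s18_cz_t3 (N₁ * 2 * 2) hdL)).toSubring 𝔪 ∧ ε⁻¹ ∈ s36_gc_V κ A (N₁ * 2 * 2) Θ ∧
          algebraMap (s18_A1 P K₀) (s18_F1 K₀ (N₁ * 2 * 2)) π = ε * z' ^ e := by
  haveI : Fact (Nat.Prime 2) := ⟨Nat.prime_two⟩
  have hk : ((2 : ℕ) : IsLocalRing.ResidueField A) = 0 :=
    CharP.cast_eq_zero (IsLocalRing.ResidueField A) 2
  exact s36_cpi_cpt_t3_Binf P K₀ N₁ 2 κ A Θ ζ Nat.prime_two hqN hd hdL hP π hπq hΘ hζ hUnif VA VB hch hzn hzn'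
    (s36_cpm_theta_t3inv _ (by exact_mod_cast hk))

end Q2

end Fermat.Agent.S36
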