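import Mathlib
import Fermat.Agent.S36.ContractInst3
import Fermat.Agent.S36.CPtInst

/-!
# S36 (NODE-3): the residual hypothesis `s36_ci_CptAll` for `q = 3` and `q = 2`

* `s36_c23_cptAll3` : `s36_ci_CptAll N₁ 3 (s18_cz_t2 (N₁ * 3 * 3) _)` for `3 ∤ N₁`, `2 ∣ N₁`;
* `s36_c23_cptAll2` : `s36_ci_CptAll N₁ 2 (s18_cz_t3 (N₁ * 2 * 2) _)` for `2 ∤ N₁`, `3 ∣ N₁`.

Wiring only: the chart block `s36_cp3f_chart_t2` / `_t3` (`S36/ChartPkg3Full`), the data of the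
third component `s36_gd_props` (`S36/GaussData`) and the per-chart statements
`s36_cpi_cpt3_B0` / `_Binf`, `s36_cpi_cpt2_B0` / `_Binf` (`S36/CPtInst`).
-/

set_option autoImplicit false
set_option synthInstance.maxHeartbeats 400000
set_option linter.style.haveILetI false
set_option linter.unusedSectionVars false
set_option linter.unusedVariables false

open ModularCurve AlgebraicCurve

noncomputable section

namespace Fermat.Agent.S36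

open Fermat.Agent.S18 Fermat.Agent.S34 Fermat.Agent.S35

local notation "Qb" => AlgebraicClosure ℚ

/-- A field in which the prime `p` vanishes has characteristic `p`. -/
theorem s36_c23_charP {R : Type*} [Field R] (p : ℕ) (hp : p.Prime) (h : ((p : ℕ) : R) = 0) :
    CharP R p := by
  obtain ⟨r, hr⟩ := CharP.exists R
  haveI := hr
  have hdvd : r ∣ p := (CharP.cast_eq_zero_iff R r p).mp h
  rcases (Nat.dvd_prime hp).mp hdvd with h1 | h1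
  · exfalso
    subst h1
    have h10 : ((1 : ℕ) : R) = 0 := CharP.cast_eq_zero R 1
    rw [Nat.cast_one] at h10
    exact one_ne_zero h10
  · subst h1
    exact hr

set_option maxHeartbeats 4000000 in
/-- **`cpt` for the two charts of the concrete model, `q = 3`, Hauptmodul `t₂`.** -/
theorem s36_c23_cptAll3 (N₁ : ℕ) [NeZero N₁] [NeZero (N₁ * 3)] [NeZero (N₁ * 3 * 3)]
    (hqN : ¬ 3 ∣ N₁) (h2 : 2 ∣ N₁) (h2'' : 2 ∣ N₁ * 3 * 3) :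
    s36_ci_CptAll N₁ 3 (s18_cz_t2 (N₁ * 3 * 3) h2'') := by
  intro P hP K₀ hfin hK₀ hDVR hirr w hw W₁ hW₁ hrel K ζ Θ hcusp hunifA hprimA hres hA0
  haveI : Fact (Nat.Prime 3) := ⟨Nat.prime_three⟩
  haveI := hfin
  haveI hDVRA : IsDiscreteValuationRing (P.comap (algebraMap K Qb)) := s36_ci_dvr _ ζ hunifA
  haveI hchar : CharP (IsLocalRing.ResidueField (P.comap (algebraMap K Qb))) 3 := by
    exact s36_c23_charP 3 Nat.prime_three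
      ((map_natCast (IsLocalRing.residue (P.comap (algebraMap K Qb))) 3).symm.trans hres)
  obtain ⟨c, hc⟩ := s36_gc_q_eq 3 Nat.prime_three (ζ : P.comap (algebraMap K Qb)) hprimA
  have h2' : 2 ∣ N₁ * 3 := Dvd.dvd.mul_right h2 3
  have hch := s36_cp3f_chart_t2 P K₀ N₁ 3 (algebraMap K₀ K) (P.comap (algebraMap K Qb)) Θ ζ
    hP hqN h2 h2' h2'' hirr w hw W₁ hrel hcusp hunifA hA0 c hc
  obtain ⟨hU, hzn, hzn', -, -⟩ := s36_gd_props (algebraMap K₀ K) (P.comap (algebraMap K Qb))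
    (s18_A1 P K₀) hA0 N₁ 3 (N₁ * 3 * 3) Nat.prime_three (s36_cp3i_level N₁ 3)
    (s36_cp3i_sq_dvd N₁ 3) ζ Θ hcusp hunifA hprimA
  have e : algebraMap (s18_A1 P K₀) (s18_F1 K₀ (N₁ * 3 * 3)) ((3 : ℕ) : s18_A1 P K₀) =
      algebraMap K₀ (s18_F1 K₀ (N₁ * 3 * 3)) ((3 : ℕ) : K₀) := by
    rw [map_natCast, map_natCast]
  rw [← e] at hzn hzn'
  have k0 := s36_cpi_cpt3_B0 P K₀ N₁ (algebraMap K₀ K) (P.comap (algebraMap K Qb)) Θ ζ
    hqN h2 h2'' hP ((3 : ℕ) : s18_A1 P K₀) rfl hcusp hprimA hU _ _ hch hzn hzn'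
  have ki := s36_cpi_cpt3_Binf P K₀ N₁ (algebraMap K₀ K) (P.comap (algebraMap K Qb)) Θ ζ
    hqN h2 h2'' hP ((3 : ℕ) : s18_A1 P K₀) rfl hcusp hprimA hU _ _ hch hzn hzn'
  exact ⟨fun 𝔪 h𝔪 hϖ𝔪 hex => k0 𝔪 h𝔪 hϖ𝔪 hex, fun 𝔪 h𝔪 hϖ𝔪 hex => ki 𝔪 h𝔪 hϖ𝔪 hex⟩

set_option maxHeartbeats 4000000 in
/-- **`cpt` for the two charts of the concrete model, `q = 2`, Hauptmodul `t₃`.** -/
theorem s36_c23_cptAll2 (N₁ : ℕ) [NeZero N₁] [NeZero (N₁ * 2)] [NeZero (N₁ * 2 * 2)]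
    (hqN : ¬ 2 ∣ N₁) (h3 : 3 ∣ N₁) (h3'' : 3 ∣ N₁ * 2 * 2) :
    s36_ci_CptAll N₁ 2 (s18_cz_t3 (N₁ * 2 * 2) h3'') := by
  intro P hP K₀ hfin hK₀ hDVR hirr w hw W₁ hW₁ hrel K ζ Θ hcusp hunifA hprimA hres hA0
  haveI : Fact (Nat.Prime 2) := ⟨Nat.prime_two⟩
  haveI := hfin
  haveI hDVRA : IsDiscreteValuationRing (P.comap (algebraMap K Qb)) := s36_ci_dvr _ ζ hunifA
  haveI hchar : CharP (IsLocalRing.ResidueField (P.comap (algebraMap K Qb))) 2 := by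
    exact s36_c23_charP 2 Nat.prime_two
      ((map_natCast (IsLocalRing.residue (P.comap (algebraMap K Qb))) 2).symm.trans hres)
  obtain ⟨c, hc⟩ := s36_gc_q_eq 2 Nat.prime_two (ζ : P.comap (algebraMap K Qb)) hprimA
  have h3' : 3 ∣ N₁ * 2 := Dvd.dvd.mul_right h3 2
  have hch := s36_cp3f_chart_t3 P K₀ N₁ 2 (algebraMap K₀ K) (P.comap (algebraMap K Qb)) Θ ζ
    hP hqN h3 h3' h3'' hirr w hw W₁ hrel hcusp hunifA hA0 c hc
  obtain ⟨hU, hzn, hzn', -, -⟩ := s36_gd_props (algebraMap K₀ K) (P.comap (algebraMap K Qb))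
    (s18_A1 P K₀) hA0 N₁ 2 (N₁ * 2 * 2) Nat.prime_two (s36_cp3i_level N₁ 2)
    (s36_cp3i_sq_dvd N₁ 2) ζ Θ hcusp hunifA hprimA
  have e : algebraMap (s18_A1 P K₀) (s18_F1 K₀ (N₁ * 2 * 2)) ((2 : ℕ) : s18_A1 P K₀) =
      algebraMap K₀ (s18_F1 K₀ (N₁ * 2 * 2)) ((2 : ℕ) : K₀) := by
    rw [map_natCast, map_natCast]
  rw [← e] at hzn hzn'
  have k0 := s36_cpi_cpt2_B0 P K₀ N₁ (algebraMap K₀ K) (P.comap (algebraMap K Qb)) Θ ζ
    hqN h3 h3'' hP ((2 : ℕ) : s18_A1 P K₀) rfl hcusp hprimA hU _ _ hch hzn hzn'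
  have ki := s36_cpi_cpt2_Binf P K₀ N₁ (algebraMap K₀ K) (P.comap (algebraMap K Qb)) Θ ζ
    hqN h3 h3'' hP ((2 : ℕ) : s18_A1 P K₀) rfl hcusp hprimA hU _ _ hch hzn hzn'
  exact ⟨fun 𝔪 h𝔪 hϖ𝔪 hex => k0 𝔪 h𝔪 hϖ𝔪 hex, fun 𝔪 h𝔪 hϖ𝔪 hex => ki 𝔪 h𝔪 hϖ𝔪 hex⟩

end Fermat.Agent.S36
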