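import Fermat.Agent.S36.CPtModel5
import Fermat.Agent.S36.CPtInst

/-!
# S36 (NODE-3), contract item (c-Cpt), `q ≥ 5`: the `cpt` field of `s36_ptb_Pts` at the concrete
charts of `t₂`

The `q ≥ 5` twins of `s36_cpi_cpt_t2_B0`, `s36_cpi_cpt_t2_Binf` (`S36/CPtInst`), with the same
binders (the hypothesis on `θ t̄₂` is replaced by `5 ≤ q` and `3 ∣ N₁`): the field `cpt` of
`s36_ptb_Pts` for the charts `B0 = s34_md_B0 P K₀ (N₁ q q) t₂`,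
`Binf = s34_md_Binf P K₀ (N₁ q q) t₂`, the component `V_C = s36_gc_V κ A (N₁ q q) Θ` and
arbitrary `V_A`, `V_B`, from the chart block `s36_cp3_Chart`, the cusp ratios `s36_cusp2_t2` and
`S36/CPtModel5` (`s36_cpm5_cpt_t2`, `s36_cpm5_cpt_t2inv`).
-/

set_option autoImplicit false
set_option synthInstance.maxHeartbeats 400000
set_option maxHeartbeats 1000000
set_option linter.style.haveILetI false
set_option linter.unusedSectionVars false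
set_option linter.unusedVariables false

open ModularCurve AlgebraicCurve

noncomputable section

namespace Fermat.Agent.S36

open Fermat.Agent.S28 (twistQ)
open Fermat.Agent.S18 Fermat.Agent.S34 Fermat.Agent.S37

local notation "Qb" => AlgebraicClosure ℚ

section Aux

variable {K0 K : Type*} [Field K0] [Field K] [Algebra ℚ K0] [Algebra ℚ K]
  {κ : K0 →+* K} {A : ValuationSubring K} {M : ℕ}
  {Θ : laurentBaseChange K (modularFunctionFieldFull M) →ₐ[K] LaurentSeries K}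
  {N q : ℕ} {ζ : Aˣ}

/-- `s36_cpm5_cpt_t2` in the shape of the field `cpt` (all closed points, `ϖ` a variable equal
to `q`, chart hypotheses in the shape of `s36_cp3_Chart`). -/
theorem s36_cpc5_aux_t2 [NeZero N] [NeZero M] [NeZero q] [Fact q.Prime]
    [CharP (IsLocalRing.ResidueField A) q]
    (hΘ : s36_gc_IsCusp N q ζ Θ) (hM : N * q ^ 2 ∣ M) (hq : 5 ≤ q)
    (hd2N : 2 ∣ N) (hd2M : 2 ∣ M) (hd3N : 3 ∣ N) (hd3M : 3 ∣ M)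
    {z : laurentBaseChange K0 (modularFunctionFieldFull M)}
    (hUnif : s34_Unif z (s36_gc_V κ A M Θ)) (hζ : IsPrimitiveRoot (ζ : A) q)
    {B VA VB : Subring (laurentBaseChange K0 (modularFunctionFieldFull M))}
    (ϖ : laurentBaseChange K0 (modularFunctionFieldFull M))
    (hϖ : ϖ = algebraMap K0 (laurentBaseChange K0 (modularFunctionFieldFull M)) (q : K0))
    (hBV : ∀ x ∈ B, x ∈ VA ⊓ VB ⊓ s36_gc_V κ A M Θ) (hϖB : ϖ ∈ B)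
    (hcap : ∀ x ∈ B, ϖ⁻¹ * x ∈ VA ⊓ VB ⊓ s36_gc_V κ A M Θ → ϖ⁻¹ * x ∈ B)
    (hzn : ϖ * (z ^ (q - 1))⁻¹ ∈ s36_gc_V κ A M Θ)
    (hzn' : z ^ (q - 1) * ϖ⁻¹ ∈ s36_gc_V κ A M Θ)
    (hroot : ∀ p : ℕ, 0 < p →
      ∀ w : laurentBaseChange K0 (modularFunctionFieldFull M), w ^ p ∈ B → w ∈ B)
    (hnorm : ∀ w : laurentBaseChange K0 (modularFunctionFieldFull M), IsIntegral B w → w ∈ B)
    (hxB : s18_coord K0 (s18_cz_t2 M hd2M) ∈ B)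
    (x1 x2 y2 : laurentBaseChange K0 (modularFunctionFieldFull M))
    (hx1 : (x1 : LaurentSeries K0) =
      qExpand K0 q ((s18_coord K0 (s18_cz_t2 M hd2M) :
        laurentBaseChange K0 (modularFunctionFieldFull M)) : LaurentSeries K0))
    (hx2 : (x2 : LaurentSeries K0) =
      qExpand K0 (q ^ 2) ((s18_coord K0 (s18_cz_t2 M hd2M) :
        laurentBaseChange K0 (modularFunctionFieldFull M)) : LaurentSeries K0))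
    (hy2 : (y2 : LaurentSeries K0) =
      qExpand K0 (q ^ 2) ((s18_coord K0 (s18_cz_t3 M hd3M) :
        laurentBaseChange K0 (modularFunctionFieldFull M)) : LaurentSeries K0))
    (hG₁ : s18_coord K0 (s18_cz_t2 M hd2M) ^ q * x1⁻¹ ∈ B) (hG₃ : x2 ^ q * x1⁻¹ ∈ B) :
    ∀ 𝔪 : Ideal B, 𝔪.IsMaximal → (⟨ϖ, hϖB⟩ : B) ∈ 𝔪 →
      (∃ f₀ : B, f₀ ∉ 𝔪 ∧
        ϖ⁻¹ * (f₀ : laurentBaseChange K0 (modularFunctionFieldFull M)) ∈ VA ⊓ VB) →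
      ∃ (z' ε : laurentBaseChange K0 (modularFunctionFieldFull M)) (e : ℕ),
        s34_Unif z' (s36_gc_V κ A M Θ) ∧ z' ∈ s18_loc B 𝔪 ∧ 0 < e ∧ ε ∈ s18_loc B 𝔪 ∧
          ε⁻¹ ∈ s36_gc_V κ A M Θ ∧ ϖ = ε * z' ^ e := by
  subst hϖ
  intro 𝔪 h𝔪 hϖ𝔪 hex
  haveI := h𝔪.isPrime
  exact s36_cpm5_cpt_t2 hΘ hM hq hd2N hd2M hd3N hd3M hUnif hζ (fun x hx => (hBV x hx).1.1)
    (fun x hx => (hBV x hx).1.2) (fun x hx => (hBV x hx).2) hϖB hcap hzn hzn'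
    (hroot q (Fact.out : q.Prime).pos) hnorm hxB x1 x2 y2 hx1 hx2 hy2 hG₁ hG₃ 𝔪 hϖ𝔪 hex

/-- `s36_cpm5_cpt_t2inv` in the shape of the field `cpt`. -/
theorem s36_cpc5_aux_t2inv [NeZero N] [NeZero M] [NeZero q] [Fact q.Prime]
    [CharP (IsLocalRing.ResidueField A) q]
    (hΘ : s36_gc_IsCusp N q ζ Θ) (hM : N * q ^ 2 ∣ M) (hq : 5 ≤ q)
    (hd2N : 2 ∣ N) (hd2M : 2 ∣ M) (hd3N : 3 ∣ N) (hd3M : 3 ∣ M)
    {z : laurentBaseChange K0 (modularFunctionFieldFull M)}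
    (hUnif : s34_Unif z (s36_gc_V κ A M Θ)) (hζ : IsPrimitiveRoot (ζ : A) q)
    {B VA VB : Subring (laurentBaseChange K0 (modularFunctionFieldFull M))}
    (ϖ : laurentBaseChange K0 (modularFunctionFieldFull M))
    (hϖ : ϖ = algebraMap K0 (laurentBaseChange K0 (modularFunctionFieldFull M)) (q : K0))
    (hBV : ∀ x ∈ B, x ∈ VA ⊓ VB ⊓ s36_gc_V κ A M Θ) (hϖB : ϖ ∈ B)
    (hcap : ∀ x ∈ B, ϖ⁻¹ * x ∈ VA ⊓ VB ⊓ s36_gc_V κ A M Θ → ϖ⁻¹ * x ∈ B)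
    (hzn : ϖ * (z ^ (q - 1))⁻¹ ∈ s36_gc_V κ A M Θ)
    (hzn' : z ^ (q - 1) * ϖ⁻¹ ∈ s36_gc_V κ A M Θ)
    (hroot : ∀ p : ℕ, 0 < p →
      ∀ w : laurentBaseChange K0 (modularFunctionFieldFull M), w ^ p ∈ B → w ∈ B)
    (hnorm : ∀ w : laurentBaseChange K0 (modularFunctionFieldFull M), IsIntegral B w → w ∈ B)
    (hxB : s18_coord K0 ((s18_cz_t2 M hd2M)⁻¹) ∈ B)
    (x1 x2 y2 : laurentBaseChange K0 (modularFunctionFieldFull M))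
    (hx1 : (x1 : LaurentSeries K0) =
      qExpand K0 q ((s18_coord K0 ((s18_cz_t2 M hd2M)⁻¹) :
        laurentBaseChange K0 (modularFunctionFieldFull M)) : LaurentSeries K0))
    (hx2 : (x2 : LaurentSeries K0) =
      qExpand K0 (q ^ 2) ((s18_coord K0 ((s18_cz_t2 M hd2M)⁻¹) :
        laurentBaseChange K0 (modularFunctionFieldFull M)) : LaurentSeries K0))
    (hy2 : (y2 : LaurentSeries K0) =
      qExpand K0 (q ^ 2) ((s18_coord K0 (s18_cz_t3 M hd3M) :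
        laurentBaseChange K0 (modularFunctionFieldFull M)) : LaurentSeries K0))
    (hG₁ : s18_coord K0 ((s18_cz_t2 M hd2M)⁻¹) ^ q * x1⁻¹ ∈ B) (hG₃ : x2 ^ q * x1⁻¹ ∈ B) :
    ∀ 𝔪 : Ideal B, 𝔪.IsMaximal → (⟨ϖ, hϖB⟩ : B) ∈ 𝔪 →
      (∃ f₀ : B, f₀ ∉ 𝔪 ∧
        ϖ⁻¹ * (f₀ : laurentBaseChange K0 (modularFunctionFieldFull M)) ∈ VA ⊓ VB) →
      ∃ (z' ε : laurentBaseChange K0 (modularFunctionFieldFull M)) (e : ℕ),
        s34_Unif z' (s36_gc_V κ A M Θ) ∧ z' ∈ s18_loc B 𝔪 ∧ 0 < e ∧ ε ∈ s18_loc B 𝔪 ∧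
          ε⁻¹ ∈ s36_gc_V κ A M Θ ∧ ϖ = ε * z' ^ e := by
  subst hϖ
  intro 𝔪 h𝔪 hϖ𝔪 hex
  haveI := h𝔪.isPrime
  exact s36_cpm5_cpt_t2inv hΘ hM hq hd2N hd2M hd3N hd3M hUnif hζ (fun x hx => (hBV x hx).1.1)
    (fun x hx => (hBV x hx).1.2) (fun x hx => (hBV x hx).2) hϖB hcap hzn hzn'
    (hroot q (Fact.out : q.Prime).pos) hnorm hxB x1 x2 y2 hx1 hx2 hy2 hG₁ hG₃ 𝔪 hϖ𝔪 hex

end Aux

section Concrete

variable (P : ValuationSubring Qb) (K₀ : IntermediateField ℚ Qb)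
  (N₁ q : ℕ) [NeZero N₁] [NeZero q] [NeZero (N₁ * q)] [NeZero (N₁ * q * q)]
  {K : Type*} [Field K] [Algebra ℚ K] (κ : K₀ →+* K) (A : ValuationSubring K)
  (Θ : laurentBaseChange K (modularFunctionFieldFull (N₁ * q * q)) →ₐ[K] LaurentSeries K)
  (ζ : Aˣ)

/-- **`cpt`, `q ≥ 5`, chart `B0` of `t₂`** at level `N₁ q q` (`6 ∣ N₁`). -/
theorem s36_cpc5_cpt_t2_B0 [Fact q.Prime] [CharP (IsLocalRing.ResidueField A) q]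
    (hq : q.Prime) (hq5 : 5 ≤ q) (hqN : ¬ q ∣ N₁) (hd : 2 ∣ N₁) (hd3 : 3 ∣ N₁)
    (hdL : 2 ∣ N₁ * q * q)
    (hP : P.LiesOverPrime q) (π : s18_A1 P K₀) (hπq : π = ((q : ℕ) : s18_A1 P K₀))
    (hΘ : s36_gc_IsCusp N₁ q ζ Θ) (hζ : IsPrimitiveRoot (ζ : A) q)
    {z : s18_F1 K₀ (N₁ * q * q)} (hUnif : s34_Unif z (s36_gc_V κ A (N₁ * q * q) Θ))
    (VA VB : Subring (s18_F1 K₀ (N₁ * q * q)))
    (hch : s36_cp3_Chart π (s18_coord K₀ (s18_cz_t2 (N₁ * q * q) hdL))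
      (s34_md_B0 P K₀ (N₁ * q * q) (s18_cz_t2 (N₁ * q * q) hdL))
      (s34_md_Binf P K₀ (N₁ * q * q) (s18_cz_t2 (N₁ * q * q) hdL))
      (VA ⊓ VB ⊓ s36_gc_V κ A (N₁ * q * q) Θ))
    (hzn : algebraMap (s18_A1 P K₀) (s18_F1 K₀ (N₁ * q * q)) π * (z ^ (q - 1))⁻¹ ∈
      s36_gc_V κ A (N₁ * q * q) Θ)
    (hzn' : z ^ (q - 1) * (algebraMap (s18_A1 P K₀) (s18_F1 K₀ (N₁ * q * q)) π)⁻¹ ∈
      s36_gc_V κ A (N₁ * q * q) Θ) :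
    ∀ 𝔪 : Ideal (s34_md_B0 P K₀ (N₁ * q * q) (s18_cz_t2 (N₁ * q * q) hdL)).toSubring,
      𝔪.IsMaximal →
      (⟨algebraMap (s18_A1 P K₀) (s18_F1 K₀ (N₁ * q * q)) π,
        (s34_md_B0 P K₀ (N₁ * q * q) (s18_cz_t2 (N₁ * q * q) hdL)).algebraMap_mem π⟩ :
          (s34_md_B0 P K₀ (N₁ * q * q) (s18_cz_t2 (N₁ * q * q) hdL)).toSubring) ∈ 𝔪 →
      (∃ f₀ : (s34_md_B0 P K₀ (N₁ * q * q) (s18_cz_t2 (N₁ * q * q) hdL)).toSubring, f₀ ∉ 𝔪 ∧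
        (algebraMap (s18_A1 P K₀) (s18_F1 K₀ (N₁ * q * q)) π)⁻¹ *
          (f₀ : s18_F1 K₀ (N₁ * q * q)) ∈ VA ⊓ VB) →
      ∃ (z' ε : s18_F1 K₀ (N₁ * q * q)) (e : ℕ),
        s34_Unif z' (s36_gc_V κ A (N₁ * q * q) Θ) ∧
          z' ∈ s18_loc (s34_md_B0 P K₀ (N₁ * q * q) (s18_cz_t2 (N₁ * q * q) hdL)).toSubring 𝔪 ∧
          0 < e ∧
          ε ∈ s18_loc (s34_md_B0 P K₀ (N₁ * q * q) (s18_cz_t2 (N₁ * q * q) hdL)).toSubring 𝔪 ∧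
          ε⁻¹ ∈ s36_gc_V κ A (N₁ * q * q) Θ ∧
          algebraMap (s18_A1 P K₀) (s18_F1 K₀ (N₁ * q * q)) π = ε * z' ^ e := by
  have e : algebraMap (s18_A1 P K₀) (s18_F1 K₀ (N₁ * q * q)) π =
      algebraMap K₀ (s18_F1 K₀ (N₁ * q * q)) ((q : ℕ) : K₀) := by
    rw [hπq, map_natCast, map_natCast]
  obtain ⟨⟨g1, g3⟩, -⟩ := s36_cusp2_t2 N₁ q K₀ P hq hqN hd hdL hP
  have hd3L : 3 ∣ N₁ * q * q := Dvd.dvd.mul_right (Dvd.dvd.mul_right hd3 q) q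
  refine s36_cpc5_aux_t2 (κ := κ) (N := N₁) hΘ (s36_cpi_level N₁ q) hq5 hd hdL hd3 hd3L hUnif hζ
    _ e hch.hB0V
    ((s34_md_B0 P K₀ (N₁ * q * q) (s18_cz_t2 (N₁ * q * q) hdL)).algebraMap_mem π) hch.hcap0
    hzn hzn' hch.hroot0 hch.hnorm0 hch.t_mem
    (heckeAlphaBar K₀ (N₁ * q) q (heckeBetaBar K₀ N₁ q (s18_coord K₀ (s18_cz_t2 N₁ hd))))
    (heckeBetaBar K₀ (N₁ * q) q (heckeBetaBar K₀ N₁ q (s18_coord K₀ (s18_cz_t2 N₁ hd))))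
    (heckeBetaBar K₀ (N₁ * q) q (heckeBetaBar K₀ N₁ q (s18_coord K₀ (s18_cz_t3 N₁ hd3))))
    ?_ ?_ ?_ ?_ ?_
  · rw [coe_heckeAlphaBar, coe_heckeBetaBar, s36_cpi_coe_t2, s36_cpi_coe_t2]
  · rw [coe_heckeBetaBar, coe_heckeBetaBar, s36_cpi_coe_t2, s36_cpi_coe_t2, qExpand_qExpand]
    exact qExpand_congr (sq q).symm _
  · rw [coe_heckeBetaBar, coe_heckeBetaBar, s36_cpi_coe_t3, s36_cpi_coe_t3, qExpand_qExpand]
    exact qExpand_congr (sq q).symm _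
  · exact g1
  · exact g3

/-- **`cpt`, `q ≥ 5`, chart `Binf` of `t₂`** at level `N₁ q q` (`6 ∣ N₁`). -/
theorem s36_cpc5_cpt_t2_Binf [Fact q.Prime] [CharP (IsLocalRing.ResidueField A) q]
    (hq : q.Prime) (hq5 : 5 ≤ q) (hqN : ¬ q ∣ N₁) (hd : 2 ∣ N₁) (hd3 : 3 ∣ N₁)
    (hdL : 2 ∣ N₁ * q * q)
    (hP : P.LiesOverPrime q) (π : s18_A1 P K₀) (hπq : π = ((q : ℕ) : s18_A1 P K₀))
    (hΘ : s36_gc_IsCusp N₁ q ζ Θ) (hζ : IsPrimitiveRoot (ζ : A) q)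
    {z : s18_F1 K₀ (N₁ * q * q)} (hUnif : s34_Unif z (s36_gc_V κ A (N₁ * q * q) Θ))
    (VA VB : Subring (s18_F1 K₀ (N₁ * q * q)))
    (hch : s36_cp3_Chart π (s18_coord K₀ (s18_cz_t2 (N₁ * q * q) hdL))
      (s34_md_B0 P K₀ (N₁ * q * q) (s18_cz_t2 (N₁ * q * q) hdL))
      (s34_md_Binf P K₀ (N₁ * q * q) (s18_cz_t2 (N₁ * q * q) hdL))
      (VA ⊓ VB ⊓ s36_gc_V κ A (N₁ * q * q) Θ))
    (hzn : algebraMap (s18_A1 P K₀) (s18_F1 K₀ (N₁ * q * q)) π * (z ^ (q - 1))⁻¹ ∈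
      s36_gc_V κ A (N₁ * q * q) Θ)
    (hzn' : z ^ (q - 1) * (algebraMap (s18_A1 P K₀) (s18_F1 K₀ (N₁ * q * q)) π)⁻¹ ∈
      s36_gc_V κ A (N₁ * q * q) Θ) :
    ∀ 𝔪 : Ideal (s34_md_Binf P K₀ (N₁ * q * q) (s18_cz_t2 (N₁ * q * q) hdL)).toSubring,
      𝔪.IsMaximal →
      (⟨algebraMap (s18_A1 P K₀) (s18_F1 K₀ (N₁ * q * q)) π,
        (s34_md_Binf P K₀ (N₁ * q * q) (s18_cz_t2 (N₁ * q * q) hdL)).algebraMap_mem π⟩ :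
          (s34_md_Binf P K₀ (N₁ * q * q) (s18_cz_t2 (N₁ * q * q) hdL)).toSubring) ∈ 𝔪 →
      (∃ f₀ : (s34_md_Binf P K₀ (N₁ * q * q) (s18_cz_t2 (N₁ * q * q) hdL)).toSubring, f₀ ∉ 𝔪 ∧
        (algebraMap (s18_A1 P K₀) (s18_F1 K₀ (N₁ * q * q)) π)⁻¹ *
          (f₀ : s18_F1 K₀ (N₁ * q * q)) ∈ VA ⊓ VB) →
      ∃ (z' ε : s18_F1 K₀ (N₁ * q * q)) (e : ℕ),
        s34_Unif z' (s36_gc_V κ A (N₁ * q * q) Θ) ∧
          z' ∈ s18_loc (s34_md_Binf P K₀ (N₁ * q * q) (s18_cz_t2 (N₁ * q * q) hdL)).toSubring 𝔪 ∧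
          0 < e ∧
          ε ∈ s18_loc (s34_md_Binf P K₀ (N₁ * q * q) (s18_cz_t2 (N₁ * q * q) hdL)).toSubring 𝔪 ∧
          ε⁻¹ ∈ s36_gc_V κ A (N₁ * q * q) Θ ∧
          algebraMap (s18_A1 P K₀) (s18_F1 K₀ (N₁ * q * q)) π = ε * z' ^ e := by
  have e : algebraMap (s18_A1 P K₀) (s18_F1 K₀ (N₁ * q * q)) π =
      algebraMap K₀ (s18_F1 K₀ (N₁ * q * q)) ((q : ℕ) : K₀) := by
    rw [hπq, map_natCast, map_natCast]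
  obtain ⟨-, ⟨g1, g3⟩⟩ := s36_cusp2_t2 N₁ q K₀ P hq hqN hd hdL hP
  have hd3L : 3 ∣ N₁ * q * q := Dvd.dvd.mul_right (Dvd.dvd.mul_right hd3 q) q
  have e1 : s18_coord K₀ (s18_cz_t2 (N₁ * q * q) hdL)⁻¹ =
      (s18_coord K₀ (s18_cz_t2 (N₁ * q * q) hdL))⁻¹ := by
    apply Subtype.ext
    show coeffEmb K₀ (((s18_cz_t2 (N₁ * q * q) hdL : modularFunctionFieldFull (N₁ * q * q)) :
      LaurentSeries ℚ))⁻¹ =
      (coeffEmb K₀ ((s18_cz_t2 (N₁ * q * q) hdL : modularFunctionFieldFull (N₁ * q * q)) :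
        LaurentSeries ℚ))⁻¹
    rw [map_inv₀]
  refine s36_cpc5_aux_t2inv (κ := κ) (N := N₁) hΘ (s36_cpi_level N₁ q) hq5 hd hdL hd3 hd3L hUnif
    hζ _ e hch.hBiV
    ((s34_md_Binf P K₀ (N₁ * q * q) (s18_cz_t2 (N₁ * q * q) hdL)).algebraMap_mem π) hch.hcapi
    hzn hzn' hch.hrooti hch.hnormi ?_
    (heckeAlphaBar K₀ (N₁ * q) q (heckeBetaBar K₀ N₁ q (s18_coord K₀ (s18_cz_t2 N₁ hd))))⁻¹
    (heckeBetaBar K₀ (N₁ * q) q (heckeBetaBar K₀ N₁ q (s18_coord K₀ (s18_cz_t2 N₁ hd))))⁻¹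
    (heckeBetaBar K₀ (N₁ * q) q (heckeBetaBar K₀ N₁ q (s18_coord K₀ (s18_cz_t3 N₁ hd3))))
    ?_ ?_ ?_ ?_ ?_
  · rw [e1]
    exact hch.tinv_mem
  · show (qExpand K₀ q (coeffEmb K₀ ((s18_cz_t2 N₁ hd : modularFunctionFieldFull N₁) :
        LaurentSeries ℚ)))⁻¹ =
      qExpand K₀ q (coeffEmb K₀ (((s18_cz_t2 N₁ hd : modularFunctionFieldFull N₁) :
        LaurentSeries ℚ))⁻¹)
    rw [map_inv₀, map_inv₀]
  · show (qExpand K₀ q (qExpand K₀ q (coeffEmb K₀ ((s18_cz_t2 N₁ hd :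
        modularFunctionFieldFull N₁) : LaurentSeries ℚ))))⁻¹ =
      qExpand K₀ (q ^ 2) (coeffEmb K₀ (((s18_cz_t2 N₁ hd : modularFunctionFieldFull N₁) :
        LaurentSeries ℚ))⁻¹)
    rw [qExpand_qExpand, map_inv₀, map_inv₀, qExpand_congr (sq q)]
  · rw [coe_heckeBetaBar, coe_heckeBetaBar, s36_cpi_coe_t3, s36_cpi_coe_t3, qExpand_qExpand]
    exact qExpand_congr (sq q).symm _
  · rw [e1, inv_inv]
    exact g1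
  · rw [inv_inv]
    exact g3

end Concrete

end Fermat.Agent.S36
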