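import Mathlib
import Fermat.Agent.S36.ContractInst3
import Fermat.Agent.S36.CPtChart5

/-!
# S36 (NODE-3): the residual hypothesis `s36_ci_CptAll` for `q ≥ 5`

`s36_cq5_cptAll` : the local equation of `V_C` at the `C`-only points (`s36_ci_CptAll`,
`S36/ContractInst3.lean`) for the two charts of `t₂` of the concrete model of level `N₁ q q`,
`q ≥ 5`, `6 ∣ N₁`: a cast of `s36_cpc5_cpt_t2_B0` / `s36_cpc5_cpt_t2_Binf` (`S36/CPtChart5.lean`)
with the chart block `s36_cp3f_chart_t2` and the data of `V_C` (`s36_gd_props`).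
-/

set_option autoImplicit false
set_option synthInstance.maxHeartbeats 400000
set_option linter.style.haveILetI false
set_option linter.unusedSectionVars false
set_option linter.unusedVariables false

open ModularCurve AlgebraicCurve

noncomputable section

namespace Fermat.Agent.S36

open Fermat.Agent.S18 Fermat.Agent.S34 Fermat.Agent.S35

local notation "Qb" => AlgebraicClosure ℚ

set_option maxHeartbeats 4000000 in
/-- **`cpt` for the two charts of `t₂` of the concrete model, `q ≥ 5`.** -/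
theorem s36_cq5_cptAll (N₁ q : ℕ) [NeZero N₁] [NeZero q] [NeZero (N₁ * q)]
    [NeZero (N₁ * q * q)] (hq : q.Prime) (hq5 : 5 ≤ q) (hqN : ¬ q ∣ N₁) (h2 : 2 ∣ N₁)
    (h3 : 3 ∣ N₁) (h2'' : 2 ∣ N₁ * q * q) :
    s36_ci_CptAll N₁ q (s18_cz_t2 (N₁ * q * q) h2'') := by
  intro P hP K₀ hfin hK₀ hDVR hirr w hw W₁ hW₁ hrel K ζ Θ hcusp hunifA hprimA hres hA0
  haveI : Fact q.Prime := ⟨hq⟩
  haveI := hfin
  haveI := hDVR
  haveI hDVRA : IsDiscreteValuationRing (P.comap (algebraMap K Qb)) := s36_ci_dvr _ ζ hunifA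
  haveI : CharP (IsLocalRing.ResidueField (P.comap (algebraMap K Qb))) q := by
    rw [CharP.charP_iff_prime_eq_zero hq,
      ← map_natCast (IsLocalRing.residue (P.comap (algebraMap K Qb)))]
    exact hres
  obtain ⟨c, hc⟩ := s36_gc_q_eq q hq (ζ : P.comap (algebraMap K Qb)) hprimA
  have h2' : 2 ∣ N₁ * q := Dvd.dvd.mul_right h2 q
  have hch := s36_cp3f_chart_t2 P K₀ N₁ q (algebraMap K₀ K) (P.comap (algebraMap K Qb)) Θ ζ
    hP hqN h2 h2' h2'' hirr w hw W₁ hrel hcusp hunifA hA0 c hc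
  obtain ⟨hU, hzn, hzn', -, -⟩ := s36_gd_props (algebraMap K₀ K) (P.comap (algebraMap K Qb))
    (s18_A1 P K₀) hA0 N₁ q (N₁ * q * q) hq (s36_cp3i_level N₁ q) (s36_cp3i_sq_dvd N₁ q) ζ Θ
    hcusp hunifA hprimA
  have e : algebraMap (s18_A1 P K₀) (s18_F1 K₀ (N₁ * q * q)) ((q : ℕ) : s18_A1 P K₀) =
      algebraMap K₀ (s18_F1 K₀ (N₁ * q * q)) (q : K₀) := by
    rw [map_natCast, map_natCast]
  have hzn1 : algebraMap (s18_A1 P K₀) (s18_F1 K₀ (N₁ * q * q)) ((q : ℕ) : s18_A1 P K₀) *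
      (s36_gc_z K₀ q (N₁ * q * q) hq (s36_cp3i_sq_dvd N₁ q) ^ (q - 1))⁻¹ ∈
        s36_gc_V (algebraMap K₀ K) (P.comap (algebraMap K Qb)) (N₁ * q * q) Θ := by
    rw [e]; exact hzn
  have hzn1' : s36_gc_z K₀ q (N₁ * q * q) hq (s36_cp3i_sq_dvd N₁ q) ^ (q - 1) *
      (algebraMap (s18_A1 P K₀) (s18_F1 K₀ (N₁ * q * q)) ((q : ℕ) : s18_A1 P K₀))⁻¹ ∈
        s36_gc_V (algebraMap K₀ K) (P.comap (algebraMap K Qb)) (N₁ * q * q) Θ := by
    rw [e]; exact hzn'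
  exact ⟨s36_cpc5_cpt_t2_B0 P K₀ N₁ q (algebraMap K₀ K) (P.comap (algebraMap K Qb)) Θ ζ hq hq5
      hqN h2 h3 h2'' hP _ rfl hcusp hprimA hU _ _ hch hzn1 hzn1',
    s36_cpc5_cpt_t2_Binf P K₀ N₁ q (algebraMap K₀ K) (P.comap (algebraMap K Qb)) Θ ζ hq hq5
      hqN h2 h3 h2'' hP _ rfl hcusp hprimA hU _ _ hch hzn1 hzn1'⟩

end Fermat.Agent.S36
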