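import Fermat.Agent.S36.Thick23Model
import Fermat.Agent.S36.ContractInst3

/-!
# S36 (NODE-3): the residual hypothesis `s36_ci_ThickAll` for `q = 3` and `q = 2`

`s36_ci_ThickAll N₁ q tL` (`ContractInst3.lean`) is thickness one at every crossing point of the
two integral-closure charts of level `N₁ q` (coordinate `tL`) over every inertia-fixed number
field `K₀` and for every swap `w`.  It is one of the two residual hypotheses of the concrete
model.  For `q = 3` (`tL = t₂`, `4 ∣ N₁`) and `q = 2` (`tL = t₃`, `9 ∣ N₁`) it is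
`s36_p23h_model3` / `s36_p23h_model2` (`Thick23Model.lean`):

* `s36_p23h_thickAll3` : `s36_ci_ThickAll N₁ 3 (s18_cz_t2 (N₁ * 3) _)` for `3 ∤ N₁`, `4 ∣ N₁`;
* `s36_p23h_thickAll2` : `s36_ci_ThickAll N₁ 2 (s18_cz_t3 (N₁ * 2) _)` for `2 ∤ N₁`, `9 ∣ N₁`.
-/

set_option autoImplicit false
set_option synthInstance.maxHeartbeats 400000
set_option maxHeartbeats 4000000
set_option linter.unusedSectionVars false
set_option linter.unusedVariables false
set_option linter.style.haveILetI false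

open ModularCurve ModularCurve.IgusaScheme Fermat.Agent.S28

noncomputable section

namespace Fermat.Agent.S36

open Fermat.Agent.S18 Fermat.Agent.S34

/-- **Thickness one for the two charts of level `N₁ · 3`** (Hauptmodul `t₂`, `4 ∣ N₁`, `3 ∤ N₁`):
the residual hypothesis `s36_ci_ThickAll` at `q = 3`. -/
theorem s36_p23h_thickAll3 (N₁ : ℕ) [NeZero N₁] [NeZero (N₁ * 3)] (h3N : ¬ 3 ∣ N₁) (h4 : 4 ∣ N₁)
    (h2' : 2 ∣ N₁ * 3) : s36_ci_ThickAll N₁ 3 (s18_cz_t2 (N₁ * 3) h2') := by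
  intro P hP K₀ hfd _ hdvr hirr w hw
  haveI := hdvr
  haveI := hfd
  haveI : NumberField K₀ := NumberField.mk
  have h2 : 2 ∣ N₁ := Dvd.dvd.trans (by norm_num : (2 : ℕ) ∣ 4) h4
  obtain ⟨-, -, h0, hi⟩ := s36_p23h_model3 N₁ P K₀ hP h3N h2 h4 hirr w hw
  exact ⟨h0, hi⟩

/-- **Thickness one for the two charts of level `N₁ · 2`** (Hauptmodul `t₃`, `9 ∣ N₁`, `2 ∤ N₁`):
the residual hypothesis `s36_ci_ThickAll` at `q = 2`. -/
theorem s36_p23h_thickAll2 (N₁ : ℕ) [NeZero N₁] [NeZero (N₁ * 2)] (h2N : ¬ 2 ∣ N₁) (h9 : 9 ∣ N₁)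
    (h3' : 3 ∣ N₁ * 2) : s36_ci_ThickAll N₁ 2 (s18_cz_t3 (N₁ * 2) h3') := by
  intro P hP K₀ hfd _ hdvr hirr w hw
  haveI := hdvr
  haveI := hfd
  haveI : NumberField K₀ := NumberField.mk
  have h3 : 3 ∣ N₁ := Dvd.dvd.trans (by norm_num : (3 : ℕ) ∣ 9) h9
  obtain ⟨-, -, h0, hi⟩ := s36_p23h_model2 N₁ P K₀ hP h2N h3 h9 hirr w hw
  exact ⟨h0, hi⟩

end Fermat.Agent.S36
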