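import Fermat.Agent.S36.Thick5Model
import Fermat.Agent.S36.ContractInst3

/-!
# S36 (NODE-3): the thickness leaf `s36_ci_ThickAll` of the concrete model for `q ≥ 5`

`s36_p5h_thickAll` : for a prime `q ≥ 5`, `q ∤ N₁`, `6 ∣ N₁`, thickness one holds at every
crossing point of the two integral-closure charts (Hauptmodul `t₂`) of the nodal model of level
`N₁ q`, over every inertia-fixed number field and for every swap — the residual hypothesis
`s36_ci_ThickAll` of `S36/ContractInst3`, from `s36_p5h_model5` (`S36/Thick5Model`).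
-/

set_option autoImplicit false
set_option synthInstance.maxHeartbeats 400000
set_option maxHeartbeats 4000000
set_option linter.unusedSectionVars false
set_option linter.unusedVariables false
set_option linter.style.haveILetI false

open ModularCurve AlgebraicCurve

noncomputable section

namespace Fermat.Agent.S36

open Fermat.Agent.S18 Fermat.Agent.S34

/-- **The thickness leaf for `q ≥ 5`** (Hauptmodul `t₂`, `6 ∣ N₁`). -/
theorem s36_p5h_thickAll (N₁ q : ℕ) [NeZero N₁] [NeZero q] [NeZero (N₁ * q)] (hq : q.Prime)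
    (hqN : ¬ q ∣ N₁) (h5 : 5 ≤ q) (h2 : 2 ∣ N₁) (h3 : 3 ∣ N₁) (h2' : 2 ∣ N₁ * q) :
    s36_ci_ThickAll N₁ q (s18_cz_t2 (N₁ * q) h2') := by
  intro P hP K₀ hfd _ hdvr hirr w hw
  haveI : Fact q.Prime := ⟨hq⟩
  haveI := hfd
  haveI := hdvr
  haveI : NumberField K₀ := NumberField.mk
  obtain ⟨-, -, h0, hi⟩ := s36_p5h_model5 N₁ q P K₀ hP hqN h5 h2 h3 hirr w hw
  exact ⟨h0, hi⟩

end Fermat.Agent.S36
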