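import Fermat.Agent.S36.ResSq

/-!
# S36 (NODE-3), contract item (c-Cpt): the local equation of the component `C` at a point

Abstract, point-local part (RegMult / ResSq vocabulary).  `V₁` is the discrete valuation ring of
the component `C` (multiplicity `e`, global uniformiser `z₀`, `ϖ = ε₀ * z₀ ^ e`), `V'` the
intersection of the valuation rings of the other components, `B` the chart, `𝔪` a prime of `B`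
containing `ϖ` which does not lie on the other components (`f₀ ∉ 𝔪`, `ϖ⁻¹ f₀ ∈ V'`).

A *candidate* local equation is an element `z' ∈ B_𝔪` such that `u := ϖ⁻¹ z'^e` lies in `V₁`
and is a unit at the point *up to a power*: `u^n * c ≡ a` modulo `z₀ V₁` for some `c, a ∈ B`,
`a ∉ 𝔪`.  (In the model `z' = x(Q^{q²}) - x(Q)`, `red_C(u) = -(θ x̄)^(q-1)` by `s36_rw_main`, and
the congruence is an identity of `q`-series modulo `q`.)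

* `s36_cpt_comp_le` : the point lies on the component: `B ∩ z₀ V₁ ⊆ 𝔪`.
* `s36_cpt_loc` : a candidate is a local equation: `z'` uniformises `V₁`, and
  `ε := u⁻¹ ∈ B_𝔪`, `ε⁻¹ ∈ V₁`, `ϖ = ε * z'^e` — the inputs `hVz, hz, hε, hε₁, hϖ` of
  `s36_rs_pd_C` / `s36_rm_pointData_loc`.
* `s36_cpt_pd_C` : the first disjunct of `s36_PointData` for `V_A ⊓ V_B ⊓ V_C` at a `C`-only
  point, from a candidate.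
-/

set_option autoImplicit false

namespace Fermat.Agent.S36

open Fermat.Agent.S18 Fermat.Agent.S34

section Loc

variable {F : Type*} [Field F] {ϖ z₀ ε₀ : F} {B V₁ V' : Subring F}

/-- A point of the special fibre which does not lie on the other components lies on the
component `V₁`: every element of `B` divisible by the uniformiser of `V₁` is in `𝔪`. -/
theorem s36_cpt_comp_le (hB₁ : B ≤ V₁) (hB' : B ≤ V') (hϖB : ϖ ∈ B) (hϖ0 : ϖ ≠ 0)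
    (hcap : ∀ x ∈ B, ϖ⁻¹ * x ∈ V₁ → ϖ⁻¹ * x ∈ V' → ϖ⁻¹ * x ∈ B)
    (e : ℕ) (he : 0 < e) (hε₀' : ε₀⁻¹ ∈ V₁) (hϖ : ϖ = ε₀ * z₀ ^ e)
    (𝔪 : Ideal B) [h𝔪 : 𝔪.IsPrime] (hϖ𝔪 : (⟨ϖ, hϖB⟩ : B) ∈ 𝔪)
    (f₀ : B) (hf₀ : f₀ ∉ 𝔪) (hf₀' : ϖ⁻¹ * (f₀ : F) ∈ V')
    (x : B) (hx : z₀⁻¹ * (x : F) ∈ V₁) : x ∈ 𝔪 := by
  have hε0 : ε₀ ≠ 0 := by
    rintro rfl
    exact hϖ0 (by rw [hϖ, zero_mul])
  have hz0 : z₀ ≠ 0 := by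
    rintro rfl
    exact hϖ0 (by rw [hϖ, zero_pow (by omega), mul_zero])
  have e1 : ϖ⁻¹ * ((x : F) ^ e * (f₀ : F)) = ε₀⁻¹ * (z₀⁻¹ * (x : F)) ^ e * (f₀ : F) := by
    rw [hϖ, mul_pow, inv_pow]; field_simp
  have e2 : ϖ⁻¹ * ((x : F) ^ e * (f₀ : F)) = (ϖ⁻¹ * (f₀ : F)) * (x : F) ^ e := by ring
  have hmem : ϖ⁻¹ * ((x : F) ^ e * (f₀ : F)) ∈ B := by
    apply hcap _ (B.mul_mem (B.pow_mem x.2 e) f₀.2)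
    · rw [e1]; exact V₁.mul_mem (V₁.mul_mem hε₀' (V₁.pow_mem hx e)) (hB₁ f₀.2)
    · rw [e2]; exact V'.mul_mem hf₀' (V'.pow_mem (hB' x.2) e)
  have h1 : x ^ e * f₀ = ⟨ϖ, hϖB⟩ * ⟨_, hmem⟩ := by
    apply Subtype.ext
    simp only [Subring.coe_mul, Subring.coe_pow]
    rw [← mul_assoc, mul_inv_cancel₀ hϖ0, one_mul]
  have h2 : x ^ e * f₀ ∈ 𝔪 := by rw [h1]; exact 𝔪.mul_mem_right _ hϖ𝔪
  rcases h𝔪.mem_or_mem h2 with h | h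
  · exact h𝔪.mem_of_pow_mem e h
  · exact absurd h hf₀

/-- **(c-Cpt), abstract point-local form.**  A candidate `z' ∈ B_𝔪` with `u := ϖ⁻¹ z'^e ∈ V₁`
and `u^n * c ≡ a` modulo `z₀ V₁` (`c, a ∈ B`, `a ∉ 𝔪`, `n ≥ 1`) is a local equation of the
component at `𝔪`: `z'` is a uniformiser of `V₁`, `ε := u⁻¹` lies in `B_𝔪`, `ε⁻¹ ∈ V₁` and
`ϖ = ε * z'^e`. -/
theorem s36_cpt_loc (hV₁ : s34_Unif z₀ V₁) (hB₁ : B ≤ V₁) (hB' : B ≤ V') (hϖB : ϖ ∈ B)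
    (hϖ0 : ϖ ≠ 0)
    (hcap : ∀ x ∈ B, ϖ⁻¹ * x ∈ V₁ → ϖ⁻¹ * x ∈ V' → ϖ⁻¹ * x ∈ B)
    (e : ℕ) (he : 0 < e) (hε₀ : ε₀ ∈ V₁) (hε₀' : ε₀⁻¹ ∈ V₁) (hϖ : ϖ = ε₀ * z₀ ^ e)
    (𝔪 : Ideal B) [h𝔪 : 𝔪.IsPrime] (hϖ𝔪 : (⟨ϖ, hϖB⟩ : B) ∈ 𝔪)
    (f₀ : B) (hf₀ : f₀ ∉ 𝔪) (hf₀' : ϖ⁻¹ * (f₀ : F) ∈ V')
    (z' : F) (hz' : z' ∈ s18_loc B 𝔪) (hu : ϖ⁻¹ * z' ^ e ∈ V₁)
    (n : ℕ) (hn : 0 < n) (c a : B) (ha : a ∉ 𝔪)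
    (hcong : z₀⁻¹ * ((ϖ⁻¹ * z' ^ e) ^ n * (c : F) - (a : F)) ∈ V₁) :
    s34_Unif z' V₁ ∧ (ϖ⁻¹ * z' ^ e)⁻¹ ∈ s18_loc B 𝔪 ∧ ((ϖ⁻¹ * z' ^ e)⁻¹)⁻¹ ∈ V₁ ∧
      ϖ = (ϖ⁻¹ * z' ^ e)⁻¹ * z' ^ e := by
  obtain ⟨c₁, d₁, hd₁, hz'eq⟩ := hz'
  have hd₁0 : (d₁ : F) ≠ 0 := fun h0 => hd₁ (by
    have : d₁ = 0 := Subtype.ext h0
    rw [this]; exact 𝔪.zero_mem)
  set u : F := ϖ⁻¹ * z' ^ e with hu_def
  -- `w := u * d₁^e * f₀ ∈ B`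
  have hw_eq : ϖ⁻¹ * ((c₁ : F) ^ e * (f₀ : F)) = u * ((d₁ : F) ^ e * (f₀ : F)) := by
    rw [hu_def, hz'eq, div_pow]; field_simp
  have hwB : ϖ⁻¹ * ((c₁ : F) ^ e * (f₀ : F)) ∈ B := by
    apply hcap _ (B.mul_mem (B.pow_mem c₁.2 e) f₀.2)
    · rw [hw_eq]
      exact V₁.mul_mem hu (V₁.mul_mem (V₁.pow_mem (hB₁ d₁.2) e) (hB₁ f₀.2))
    · have e2 : ϖ⁻¹ * ((c₁ : F) ^ e * (f₀ : F)) = (ϖ⁻¹ * (f₀ : F)) * (c₁ : F) ^ e := by ring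
      rw [e2]; exact V'.mul_mem hf₀' (V'.pow_mem (hB' c₁.2) e)
  obtain ⟨w, hwdef⟩ : ∃ w : B, (w : F) = ϖ⁻¹ * ((c₁ : F) ^ e * (f₀ : F)) := ⟨⟨_, hwB⟩, rfl⟩
  obtain ⟨g, hgdef⟩ : ∃ g : B, g = d₁ ^ e * f₀ := ⟨_, rfl⟩
  have hg : g ∉ 𝔪 := by
    rw [hgdef]
    intro hmem
    rcases h𝔪.mem_or_mem hmem with h | h
    · exact hd₁ (h𝔪.mem_of_pow_mem e h)
    · exact hf₀ h
  have hgF : (g : F) = (d₁ : F) ^ e * (f₀ : F) := by rw [hgdef]; simp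
  have hwg : (w : F) = u * (g : F) := by rw [hwdef, hw_eq, hgF]
  -- `w ∉ 𝔪`
  have hw : w ∉ 𝔪 := by
    intro hw𝔪
    have hy : z₀⁻¹ * ((w ^ n * c - g ^ n * a : B) : F) ∈ V₁ := by
      have e1 : ((w ^ n * c - g ^ n * a : B) : F) =
          (g : F) ^ n * (u ^ n * (c : F) - (a : F)) := by
        push_cast
        rw [hwg]; ring
      have e3 : z₀⁻¹ * ((g : F) ^ n * (u ^ n * (c : F) - (a : F))) =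
          (g : F) ^ n * (z₀⁻¹ * (u ^ n * (c : F) - (a : F))) := by ring
      rw [e1, e3]
      exact V₁.mul_mem (V₁.pow_mem (hB₁ g.2) n) hcong
    have hy𝔪 := s36_cpt_comp_le hB₁ hB' hϖB hϖ0 hcap e he hε₀' hϖ 𝔪 hϖ𝔪 f₀ hf₀ hf₀' _ hy
    have h1 : g ^ n * a ∈ 𝔪 := by
      have e4 : g ^ n * a = w ^ n * c - (w ^ n * c - g ^ n * a) := by ring
      rw [e4]
      exact 𝔪.sub_mem (𝔪.mul_mem_right _ (𝔪.pow_mem_of_mem hw𝔪 n hn)) hy𝔪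
    rcases h𝔪.mem_or_mem h1 with h | h
    · exact hg (h𝔪.mem_of_pow_mem n h)
    · exact ha h
  have hw0 : (w : F) ≠ 0 := fun h0 => hw (by
    have : w = 0 := Subtype.ext h0
    rw [this]; exact 𝔪.zero_mem)
  have hg0 : (g : F) ≠ 0 := fun h0 => hg (by
    have : g = 0 := Subtype.ext h0
    rw [this]; exact 𝔪.zero_mem)
  have hu0 : u ≠ 0 := by
    intro h
    apply hw0
    rw [hwg, h, zero_mul]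
  have huinv : u⁻¹ = (g : F) / (w : F) := by
    rw [hwg]; field_simp
  have hwinv : ((w : F))⁻¹ ∈ V₁ :=
    s36_rm_unit_of_not_mem hV₁ hB₁ hB' hϖB hϖ0 hcap 𝔪 hϖ𝔪 f₀ hf₀ hf₀' e hε₀' hϖ w hw
  have huinvV : u⁻¹ ∈ V₁ := by
    rw [huinv, div_eq_mul_inv]; exact V₁.mul_mem (hB₁ g.2) hwinv
  have hz'0 : z' ≠ 0 := by
    rintro rfl
    apply hu0
    rw [hu_def, zero_pow (by omega), mul_zero]
  have hϖeq : ϖ = u⁻¹ * z' ^ e := by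
    rw [hu_def]; field_simp
  exact ⟨s36_rs_unif_of_pow hV₁ hϖ0 e he huinvV (by rw [inv_inv]; exact hu) hϖeq hε₀ hε₀' hϖ,
    ⟨g, w, hw, huinv⟩, by rw [inv_inv]; exact hu, hϖeq⟩

end Loc

section Three

variable {F'' F : Type*} [Field F''] [Field F] {ϖ zC εC : F} {B VA VB VC : Subring F}

/-- **(c-Cpt) ⟹ point data at a `C`-only point.**  The first disjunct of `s36_PointData` for
`V_A ⊓ V_B ⊓ V_C` at a prime `𝔪 ∋ ϖ` off the components `A`, `B` (`f₀ ∉ 𝔪`,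
`ϖ⁻¹ f₀ ∈ V_A ⊓ V_B`), from a candidate local equation `z' ∈ B_𝔪` of `C`:
`u := ϖ⁻¹ z'^e ∈ V_C` and `u^n * c ≡ a` modulo `z_C V_C` with `a ∉ 𝔪`. -/
theorem s36_cpt_pd_C (ι : F'' →+* F) {ϖ'' : F''} (B₁ : Subring F'') (hB₁c : s18_Chart ϖ'' B₁)
    (hVA : s34_Unif ϖ VA) (hVB : s34_Unif ϖ VB) (hVC : s34_Unif zC VC)
    (hBA : B ≤ VA) (hBB : B ≤ VB) (hBC : B ≤ VC) (hϖB : ϖ ∈ B)
    (hcap : ∀ x ∈ B, ϖ⁻¹ * x ∈ VA ⊓ VB ⊓ VC → ϖ⁻¹ * x ∈ B)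
    (hnoeth : IsNoetherianRing B) (hfrac : ∀ x : F, ∃ a ∈ B, ∃ b ∈ B, b ≠ 0 ∧ x = a / b)
    (hB₁B : ∀ x ∈ B₁, ι x ∈ B) (hϖ'' : zC⁻¹ * ι ϖ'' ∈ VC)
    (hres : ∀ x ∈ B, ∃ x' ∈ B₁, zC⁻¹ * (x - ι x') ∈ VC)
    (e : ℕ) (he : 0 < e) (hεC : εC ∈ VC) (hεC' : εC⁻¹ ∈ VC) (hϖC : ϖ = εC * zC ^ e)
    (𝔪 : Ideal B) [𝔪.IsPrime] (hϖ𝔪 : (⟨ϖ, hϖB⟩ : B) ∈ 𝔪)
    (f₀ : B) (hf₀ : f₀ ∉ 𝔪) (hf₀' : ϖ⁻¹ * (f₀ : F) ∈ VA ⊓ VB)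
    (z' : F) (hz' : z' ∈ s18_loc B 𝔪) (hu : ϖ⁻¹ * z' ^ e ∈ VC)
    (n : ℕ) (hn : 0 < n) (c a : B) (ha : a ∉ 𝔪)
    (hcong : zC⁻¹ * ((ϖ⁻¹ * z' ^ e) ^ n * (c : F) - (a : F)) ∈ VC) (p : ℕ) (h : F) :
    s36_PointData ϖ B (VA ⊓ VB ⊓ VC) p h 𝔪 := by
  have hϖ0 := hVA.ne_zero
  obtain ⟨hVz, hε, hε₁, hϖeq⟩ := s36_cpt_loc (V₁ := VC) (V' := VA ⊓ VB) hVC hBC
    (le_inf hBA hBB) hϖB hϖ0 (fun x hx h1 h2 => hcap x hx ⟨h2, h1⟩) e he hεC hεC' hϖC 𝔪 hϖ𝔪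
    f₀ hf₀ hf₀' z' hz' hu n hn c a ha hcong
  exact s36_rs_pd_C ι B₁ hB₁c hVA hVB hVC hBA hBB hBC hϖB hcap hnoeth hfrac hB₁B hϖ'' hres 𝔪
    hϖ𝔪 f₀ hf₀ hf₀' hVz hz' e he hε hε₁ hϖeq p h

end Three

end Fermat.Agent.S36
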