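import Fermat.Agent.S36.QThick
import Fermat.Agent.S37.EsTwist

/-!
# S36 (NODE-3), leaf (c-Cpt, formal half): the reduction of `z^(q-1)/q` on the component `C`

At the cusp `1/q` the function `f(q² τ)` has the expansion `f(ζ Q)` (the twist of the expansion of
`f` by a primitive `q`-th root of unity `ζ`), so `z = f(q² τ) - f(τ)` has the expansion
`f(ζ Q) - f(Q)`.  In the coefficientwise Gauss ring `W = s18_W ι ρ` of a coefficient ring `R ∋ ζ`
with residue characteristic `q`: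

* `s36_rw_twist_sub`, `s36_rw_tw_map` : `f(ζ Q) - f(Q) = (ζ - 1) · g` with `ḡ = θ f̄` (integral
  series);
* `s36_rw_gauss` : the same for every `x ∈ W`;
* `s36_rw_unit` : `q = (ζ - 1)^(q-1) · ε` with `ε̄ = -1` (Wilson);
* `s36_rw_main` : there is `u ∈ W` with `q · u = (x(ζ Q) - x(Q))^(q-1)` and
  `ū = - (θ x̄)^(q-1)`.
-/

set_option autoImplicit false
set_option linter.style.haveILetI false
set_option linter.unusedSectionVars false
set_option linter.deprecated false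

open ModularCurve

noncomputable section

namespace Fermat.Agent.S36

open Fermat.Agent.S18 Fermat.Agent.S28 Fermat.Agent.S34 Fermat.Agent.S37

section QNum

variable {A : Type*} [CommRing A]

/-- `twistQ` is the ring hom `s37_ec_twist`. -/
theorem s36_rw_twistQ_eq (c : Aˣ) (s : LaurentSeries A) : twistQ c s = s37_ec_twist c s := by
  ext n
  rfl

/-- `[n]_ζ = (ζ^n - 1)/(ζ - 1)` for `n : ℤ`. -/
def s36_rw_qnum (ζ : Aˣ) : ℤ → A
  | Int.ofNat n => ∑ i ∈ Finset.range n, (ζ : A) ^ i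
  | Int.negSucc n => -(((ζ⁻¹ : Aˣ) : A) ^ (n + 1) * ∑ i ∈ Finset.range (n + 1), (ζ : A) ^ i)

theorem s36_rw_qnum_spec (ζ : Aˣ) (n : ℤ) :
    ((ζ : A) - 1) * s36_rw_qnum ζ n = ((ζ ^ n : Aˣ) : A) - 1 := by
  cases n with
  | ofNat n =>
    show ((ζ : A) - 1) * ∑ i ∈ Finset.range n, (ζ : A) ^ i = _
    rw [mul_comm, geom_sum_mul, Int.ofNat_eq_natCast, zpow_natCast, Units.val_pow_eq_pow_val]
  | negSucc n =>
    show ((ζ : A) - 1) * (-(((ζ⁻¹ : Aˣ) : A) ^ (n + 1) *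
      ∑ i ∈ Finset.range (n + 1), (ζ : A) ^ i)) = _
    have h1 : (∑ i ∈ Finset.range (n + 1), (ζ : A) ^ i) * ((ζ : A) - 1) = (ζ : A) ^ (n + 1) - 1 :=
      geom_sum_mul _ _
    have h2 : ((ζ⁻¹ : Aˣ) : A) ^ (n + 1) * (ζ : A) ^ (n + 1) = 1 := by
      rw [← mul_pow, Units.inv_mul, one_pow]
    have h3 : ((ζ ^ Int.negSucc n : Aˣ) : A) = ((ζ⁻¹ : Aˣ) : A) ^ (n + 1) := by
      rw [zpow_negSucc, ← inv_pow, Units.val_pow_eq_pow_val]
    rw [h3]
    linear_combination (-(((ζ⁻¹ : Aˣ) : A) ^ (n + 1))) * h1 - h2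

theorem s36_rw_qnum_map {B : Type*} [CommRing B] (φ : A →+* B) (ζ : Aˣ) (hζ : φ (ζ : A) = 1)
    (n : ℤ) : φ (s36_rw_qnum ζ n) = (n : B) := by
  have hinv : φ ((ζ⁻¹ : Aˣ) : A) = 1 := by
    have h1 : φ (ζ : A) * φ ((ζ⁻¹ : Aˣ) : A) = 1 := by
      rw [← map_mul, Units.mul_inv, map_one]
    rwa [hζ, one_mul] at h1
  cases n with
  | ofNat n =>
    show φ (∑ i ∈ Finset.range n, (ζ : A) ^ i) = _
    rw [map_sum]
    simp [hζ]
  | negSucc n =>
    show φ (-(((ζ⁻¹ : Aˣ) : A) ^ (n + 1) * ∑ i ∈ Finset.range (n + 1), (ζ : A) ^ i)) = _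
    rw [map_neg, map_mul, map_pow, hinv, one_pow, one_mul, map_sum, Int.cast_negSucc]
    simp [hζ]

/-- The divided twist: coefficients `[n]_ζ · yₙ`. -/
def s36_rw_tw (ζ : Aˣ) (y : LaurentSeries A) : LaurentSeries A where
  coeff n := s36_rw_qnum ζ n * y.coeff n
  isPWO_support' := y.isPWO_support.mono (fun n hn => by
    simp only [Function.mem_support, ne_eq, HahnSeries.mem_support] at hn ⊢
    exact fun h => hn (by rw [h, mul_zero]))

theorem s36_rw_tw_coeff (ζ : Aˣ) (y : LaurentSeries A) (n : ℤ) :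
    (s36_rw_tw ζ y).coeff n = s36_rw_qnum ζ n * y.coeff n := rfl

/-- `y(ζ Q) - y(Q) = (ζ - 1) · tw`. -/
theorem s36_rw_twist_sub (ζ : Aˣ) (y : LaurentSeries A) :
    s37_ec_twist ζ y - y = HahnSeries.C ((ζ : A) - 1) * s36_rw_tw ζ y := by
  ext n
  rw [HahnSeries.coeff_sub, s37_ec_twist_coeff, formal_coeff_C_mul, s36_rw_tw_coeff, ← mul_assoc,
    s36_rw_qnum_spec]
  ring

/-- The divided twist reduces to `θ`. -/
theorem s36_rw_tw_map {B : Type*} [CommRing B] (φ : A →+* B) (ζ : Aˣ) (hζ : φ (ζ : A) = 1)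
    (y : LaurentSeries A) :
    coeffMap φ (s36_rw_tw ζ y) = s36_qt_theta B (coeffMap φ y) := by
  ext n
  show φ (s36_rw_qnum ζ n * y.coeff n) = (n : B) * φ (y.coeff n)
  rw [map_mul, s36_rw_qnum_map φ ζ hζ]

/-- Twisting by a unit that maps to `1` disappears after the coefficient map. -/
theorem s36_rw_coeffMap_twist_one {B : Type*} [CommRing B] (φ : A →+* B) (ζ : Aˣ)
    (hζ : φ (ζ : A) = 1) (y : LaurentSeries A) :
    coeffMap φ (s37_ec_twist ζ y) = coeffMap φ y := by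
  have h := congrArg (coeffMap φ) (s36_rw_twist_sub ζ y)
  rw [map_sub, map_mul, lvl_coeffMap_C, map_sub, hζ, map_one, sub_self, map_zero, zero_mul,
    sub_eq_zero] at h
  exact h

/-- Twists commute with coefficient maps. -/
theorem s36_rw_coeffMap_twist {B : Type*} [CommRing B] (φ : A →+* B) (ζ : Aˣ)
    (y : LaurentSeries A) :
    coeffMap φ (s37_ec_twist ζ y) = s37_ec_twist (Units.map (φ : A →* B) ζ) (coeffMap φ y) := by
  rw [← s36_rw_twistQ_eq, ← s36_rw_twistQ_eq, formal_coeffMap_twistQ]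

end QNum

section Gauss

variable {R L k : Type*} [CommRing R] [Field L] [Field k] {ι : R →+* L} {ρ : R →+* k}

/-- **Twist in the Gauss ring**: for `x ∈ W` and a unit `ζ` of the coefficient ring with
`ρ ζ = 1`: `x(ζ Q) - x(Q) = (ζ - 1) · g` with `g ∈ W` and `ḡ = θ x̄`. -/
theorem s36_rw_gauss (hι : Function.Injective ι) (ζ : Rˣ) (hζ : ρ (ζ : R) = 1)
    (x : LaurentSeries L) (hx : x ∈ s18_W ι ρ) :
    ∃ g : LaurentSeries L, ∃ hg : g ∈ s18_W ι ρ,
      s37_ec_twist (Units.map (ι : R →* L) ζ) x - x = HahnSeries.C (ι ((ζ : R) - 1)) * g ∧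
      s18_red hι ⟨g, hg⟩ = s36_qt_theta k (s18_red hι ⟨x, hx⟩) := by
  obtain ⟨s, y, hs, h⟩ := id hx
  obtain ⟨T, hT⟩ : ∃ T : LaurentSeries L →+* LaurentSeries L,
      T = s37_ec_twist (Units.map (ι : R →* L) ζ) := ⟨_, rfl⟩
  obtain ⟨c, hc⟩ : ∃ c : LaurentSeries L, c = HahnSeries.C (ι ((ζ : R) - 1)) := ⟨_, rfl⟩
  rw [← hT, ← hc]
  have hTS : T (coeffMap ι s) = coeffMap ι s + c * coeffMap ι (s36_rw_tw ζ s) := by
    have h1 := congrArg (coeffMap ι) (s36_rw_twist_sub ζ s)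
    rw [map_sub, map_mul, lvl_coeffMap_C, s36_rw_coeffMap_twist, ← hT, ← hc] at h1
    linear_combination h1
  have hTY : T (coeffMap ι y) = coeffMap ι y + c * coeffMap ι (s36_rw_tw ζ y) := by
    have h1 := congrArg (coeffMap ι) (s36_rw_twist_sub ζ y)
    rw [map_sub, map_mul, lvl_coeffMap_C, s36_rw_coeffMap_twist, ← hT, ← hc] at h1
    linear_combination h1
  have hS0 : coeffMap ι s ≠ 0 := by
    intro h0
    apply hs
    have hs0 : s = 0 := s18_coeffMap_injective ι hι (by rw [h0, map_zero])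
    rw [hs0, map_zero]
  have hTS0 : T (coeffMap ι s) ≠ 0 := by
    rw [Ne, map_eq_zero]
    exact hS0
  have hTx : T (coeffMap ι s) * T x = T (coeffMap ι y) := by rw [← map_mul, h]
  have key : T (coeffMap ι s) * (T x - x) =
      c * (coeffMap ι (s36_rw_tw ζ y) - coeffMap ι (s36_rw_tw ζ s) * x) := by
    rw [mul_sub, hTx, hTY, hTS]
    linear_combination (-1 : LaurentSeries L) * h
  obtain ⟨g, hgdef⟩ : ∃ g : LaurentSeries L, g =
      (coeffMap ι (s36_rw_tw ζ y) - coeffMap ι (s36_rw_tw ζ s) * x) / T (coeffMap ι s) :=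
    ⟨_, rfl⟩
  have hgT : T (coeffMap ι s) * g =
      coeffMap ι (s36_rw_tw ζ y) - coeffMap ι (s36_rw_tw ζ s) * x := by
    rw [hgdef, mul_div_cancel₀ _ hTS0]
  have hrep : coeffMap ι (s37_ec_twist ζ s * s) * g =
      coeffMap ι (s * s36_rw_tw ζ y - s36_rw_tw ζ s * y) := by
    rw [map_mul, s36_rw_coeffMap_twist, ← hT, map_sub, map_mul, map_mul, ← h]
    linear_combination coeffMap ι s * hgT
  have hden : coeffMap ρ (s37_ec_twist ζ s * s) ≠ 0 := by
    rw [map_mul, s36_rw_coeffMap_twist_one ρ ζ hζ]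
    exact mul_ne_zero hs hs
  have hg : g ∈ s18_W ι ρ := ⟨_, _, hden, hrep⟩
  refine ⟨g, hg, ?_, ?_⟩
  · apply mul_left_cancel₀ hTS0
    rw [key]
    linear_combination (-c) * hgT
  · have e1 := s18_red_spec (ρ := ρ) hι ⟨g, hg⟩ _ _ hrep
    have e2 := s18_red_spec (ρ := ρ) hι ⟨x, hx⟩ s y h
    have e3 := s36_qk_theta_quot e2
    rw [map_mul, s36_rw_coeffMap_twist_one ρ ζ hζ, map_sub, map_mul, map_mul,
      s36_rw_tw_map ρ ζ hζ, s36_rw_tw_map ρ ζ hζ] at e1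
    have e4 : coeffMap ρ s * coeffMap ρ s * s18_red hι ⟨g, hg⟩ =
        coeffMap ρ s * coeffMap ρ s * s36_qt_theta k (s18_red hι ⟨x, hx⟩) := by
      rw [e1, ← pow_two, e3]
    exact mul_left_cancel₀ (mul_ne_zero hs hs) e4

/-- `q = (ζ - 1)^(q-1) · ε` with `ρ ε = -1` (Wilson), and `ρ ζ = 1`. -/
theorem s36_rw_unit [IsDomain R] (q : ℕ) [Fact q.Prime] [CharP k q] (ζ : Rˣ)
    (hζ : IsPrimitiveRoot (ζ : R) q) :
    ρ (ζ : R) = 1 ∧ ∃ ε : R, (q : R) = ((ζ : R) - 1) ^ (q - 1) * ε ∧ ρ ε = -1 := by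
  have hq : q.Prime := Fact.out
  have hq1 : q - 1 + 1 = q := by
    have := hq.pos
    omega
  have hρζ : ρ (ζ : R) = 1 := by
    have h1 : ρ (ζ : R) ^ q = 1 := by rw [← map_pow, hζ.pow_eq_one, map_one]
    have h2 : frobenius k q (ρ (ζ : R)) = frobenius k q 1 := by
      rw [frobenius_def, h1, map_one]
    exact frobenius_inj k q h2
  refine ⟨hρζ, (-1) ^ (q - 1) * ∏ i ∈ Finset.range (q - 1), s36_rw_qnum ζ ((i + 1 : ℕ) : ℤ),
    ?_, ?_⟩
  · have hζ' : IsPrimitiveRoot (ζ : R) (q - 1 + 1) := by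
      rw [hq1]
      exact hζ
    have h1 := IsPrimitiveRoot.prod_one_sub_pow_eq_order hζ'
    have h2 : ∀ i ∈ Finset.range (q - 1), (1 - (ζ : R) ^ (i + 1)) =
        (-((ζ : R) - 1)) * s36_rw_qnum ζ ((i + 1 : ℕ) : ℤ) := by
      intro i _
      have h := s36_rw_qnum_spec ζ ((i + 1 : ℕ) : ℤ)
      rw [zpow_natCast, Units.val_pow_eq_pow_val] at h
      linear_combination h
    rw [Finset.prod_congr rfl h2, Finset.prod_mul_distrib, Finset.prod_const,
      Finset.card_range] at h1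
    have h3 : ((q - 1 : ℕ) : R) + 1 = (q : R) := by
      exact_mod_cast congrArg (Nat.cast : ℕ → R) hq1
    rw [← h3, ← h1, neg_pow]
    ring
  · rw [map_mul, map_pow, map_neg, map_one, map_prod]
    have h4 : ∀ i ∈ Finset.range (q - 1),
        ρ (s36_rw_qnum ζ ((i + 1 : ℕ) : ℤ)) = ((i + 1 : ℕ) : k) := by
      intro i _
      rw [s36_rw_qnum_map ρ ζ hρζ]
      simp
    rw [Finset.prod_congr rfl h4]
    have h5 : (∏ i ∈ Finset.range (q - 1), ((i + 1 : ℕ) : k)) = (((q - 1).factorial : ℕ) : k) := by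
      rw [← Nat.cast_prod, Finset.prod_range_add_one_eq_factorial]
    have h6 : (((q - 1).factorial : ℕ) : k) = -1 := by
      have h7 := congrArg (ZMod.castHom (dvd_refl q) k) (ZMod.wilsons_lemma (p := q))
      rw [map_natCast, map_neg, map_one] at h7
      exact h7
    rw [h5, h6]
    have h8 : (-1 : k) ^ q = -1 := by
      have h9 := (frobenius k q).map_neg 1
      rwa [frobenius_def, frobenius_def, one_pow] at h9
    calc (-1 : k) ^ (q - 1) * -1 = (-1) ^ (q - 1 + 1) := by rw [pow_succ]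
      _ = -1 := by rw [hq1, h8]

/-- **Reduction of `z^(q-1)/q` on the component `C`.** For `x ∈ W` and a primitive `q`-th root
of unity `ζ` of the coefficient ring there is `u ∈ W` with `q · u = (x(ζ Q) - x(Q))^(q-1)` and
`ū = - (θ x̄)^(q-1)`. -/
theorem s36_rw_main [IsDomain R] (hι : Function.Injective ι) (q : ℕ) [Fact q.Prime] [CharP k q]
    (ζ : Rˣ) (hζ : IsPrimitiveRoot (ζ : R) q) (x : LaurentSeries L) (hx : x ∈ s18_W ι ρ) :
    ∃ u : LaurentSeries L, ∃ hu : u ∈ s18_W ι ρ,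
      HahnSeries.C (q : L) * u = (s37_ec_twist (Units.map (ι : R →* L) ζ) x - x) ^ (q - 1) ∧
      s18_red hι ⟨u, hu⟩ = -(s36_qt_theta k (s18_red hι ⟨x, hx⟩) ^ (q - 1)) := by
  obtain ⟨hρζ, ε, hε, hρε⟩ := s36_rw_unit (ρ := ρ) q ζ hζ
  obtain ⟨g, hg, hg1, hg2⟩ := s36_rw_gauss hι ζ hρζ x hx
  have hneg1 : (-1 : k) ≠ 0 := neg_ne_zero.mpr one_ne_zero
  have hCε : coeffMap ρ (HahnSeries.C ε : LaurentSeries R) ≠ 0 := by
    rw [lvl_coeffMap_C, hρε, Ne, map_eq_zero]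
    exact hneg1
  have hιε : (HahnSeries.C (ι ε) : LaurentSeries L) ≠ 0 := by
    rw [Ne, map_eq_zero]
    intro h0
    have hε0 : ε = 0 := hι (by rw [h0, map_zero])
    rw [hε0, map_zero] at hρε
    exact hneg1 hρε.symm
  have hrepinv : coeffMap ι (HahnSeries.C ε : LaurentSeries R) * (HahnSeries.C (ι ε))⁻¹ =
      coeffMap ι (1 : LaurentSeries R) := by
    rw [lvl_coeffMap_C, map_one, mul_inv_cancel₀ hιε]
  have hinv : (HahnSeries.C (ι ε) : LaurentSeries L)⁻¹ ∈ s18_W ι ρ :=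
    ⟨HahnSeries.C ε, 1, hCε, hrepinv⟩
  have hredinv : s18_red hι ⟨(HahnSeries.C (ι ε))⁻¹, hinv⟩ = -1 := by
    have h1 := s18_red_spec (ρ := ρ) hι ⟨(HahnSeries.C (ι ε))⁻¹, hinv⟩ (HahnSeries.C ε) 1 hrepinv
    rw [lvl_coeffMap_C, hρε, map_one, map_neg, map_one] at h1
    linear_combination -h1
  refine ⟨g ^ (q - 1) * (HahnSeries.C (ι ε))⁻¹,
    (s18_W ι ρ).mul_mem ((s18_W ι ρ).pow_mem hg _) hinv, ?_, ?_⟩
  · have hq' : (HahnSeries.C (q : L) : LaurentSeries L) =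
        HahnSeries.C (ι ((ζ : R) - 1)) ^ (q - 1) * HahnSeries.C (ι ε) := by
      rw [← map_pow, ← map_mul, ← map_pow, ← map_mul, ← hε, map_natCast ι q]
    rw [hg1, mul_pow, hq']
    field_simp
  · have e : (⟨g ^ (q - 1) * (HahnSeries.C (ι ε))⁻¹,
        (s18_W ι ρ).mul_mem ((s18_W ι ρ).pow_mem hg _) hinv⟩ : s18_W ι ρ) =
        ⟨g, hg⟩ ^ (q - 1) * ⟨(HahnSeries.C (ι ε))⁻¹, hinv⟩ := rfl
    rw [e, map_mul, map_pow, hg2, hredinv]
    ring

end Gauss

end Fermat.Agent.S36
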