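import Fermat.Agent.S36.GaussC
import Fermat.Agent.S36.RedTwist

/-!
# S36 (NODE-3), contract item (c-Cpt): the model half in the vocabulary of `S36/GaussC`

`V_C = s36_gc_V κ A M Θ` is the pull-back of the Gauss ring `W` of `A` along
`Φ = Θ ∘ (extension of constants) : K₀ · F(M) → K((Q))` (the embedding at the cusp `1/q`).

* `s36_cpt_dvd_of_red` : an element of `V_C` whose image has zero reduction is divisible by any
  uniformiser of `V_C`.
* `s36_cpt_theta_u` : if `Φ(x₂) = (Φ x)(ζ Q)` (`x₂ = x(Q^(q²))`, `ζ` a primitive `q`-th root of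
  unity of `A`) and `x ∈ V_C`, then `u := q⁻¹ (x₂ - x)^(q-1) ∈ V_C` and
  `red(Φ u) = -(θ (red (Φ x)))^(q-1)`.
* `s36_cpt_theta_cong` : hence an identity `(-(θ x̄)^(q-1))^n * c̄ = ā` of `q`-series over the
  residue field gives the congruence `u^n * c ≡ a` modulo `z V_C` — the hypothesis `hcong` of
  `s36_cpt_loc` / `s36_cpt_pd_C` for the candidate `z' = x₂ - x`.
-/

set_option autoImplicit false
set_option linter.style.haveILetI false
set_option linter.unusedSectionVars false

open ModularCurve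

noncomputable section

namespace Fermat.Agent.S36

open Fermat.Agent.S28 (twistQ)
open Fermat.Agent.S18 Fermat.Agent.S34 Fermat.Agent.S37

section Model

variable {K0 K : Type*} [Field K0] [Field K] [Algebra ℚ K0] [Algebra ℚ K]
  {κ : K0 →+* K} {A : ValuationSubring K} {M : ℕ}
  {Θ : laurentBaseChange K (modularFunctionFieldFull M) →ₐ[K] LaurentSeries K}

/-- An element of `V_C` whose image at the cusp `1/q` has zero reduction is divisible by the
uniformiser. -/
theorem s36_cpt_dvd_of_red {z : laurentBaseChange K0 (modularFunctionFieldFull M)}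
    (hUnif : s34_Unif z (s36_gc_V κ A M Θ))
    (f : laurentBaseChange K0 (modularFunctionFieldFull M)) (hf : f ∈ s36_gc_V κ A M Θ)
    (hred : s18_red (ι := A.subtype) (ρ := IsLocalRing.residue A) Subtype.val_injective
      ⟨Θ (s36_gc_incl κ M f), s36_gc_mem_V.mp hf⟩ = 0) :
    z⁻¹ * f ∈ s36_gc_V κ A M Θ := by
  by_contra h
  have hinv : f⁻¹ ∈ s36_gc_V κ A M Θ := hUnif.inv_mem_of_not_dvd hf h
  have hf0 : f ≠ 0 := by
    rintro rfl
    exact h (by rw [mul_zero]; exact Subring.zero_mem _)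
  have e : (⟨Θ (s36_gc_incl κ M f), s36_gc_mem_V.mp hf⟩ :
        s18_W A.subtype (IsLocalRing.residue A)) *
      ⟨Θ (s36_gc_incl κ M f⁻¹), s36_gc_mem_V.mp hinv⟩ = 1 := by
    apply Subtype.ext
    show Θ (s36_gc_incl κ M f) * Θ (s36_gc_incl κ M f⁻¹) = 1
    rw [← map_mul, ← map_mul, mul_inv_cancel₀ hf0, map_one, map_one]
  have e2 := congrArg (s18_red (ι := A.subtype) (ρ := IsLocalRing.residue A)
    Subtype.val_injective) e
  rw [map_mul, hred, zero_mul, map_one] at e2
  exact zero_ne_one e2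

variable (q : ℕ) [Fact q.Prime] [CharP (IsLocalRing.ResidueField A) q]

/-- **The unit `u = q⁻¹ (x₂ - x)^(q-1)` and its reduction.** -/
theorem s36_cpt_theta_u (ζ : Aˣ) (hζ : IsPrimitiveRoot (ζ : A) q)
    (x x2 : laurentBaseChange K0 (modularFunctionFieldFull M)) (hx : x ∈ s36_gc_V κ A M Θ)
    (h2 : Θ (s36_gc_incl κ M x2) =
      twistQ (Units.map (A.subtype : A →* K) ζ) (Θ (s36_gc_incl κ M x))) :
    ∃ hu : (algebraMap K0 (laurentBaseChange K0 (modularFunctionFieldFull M)) (q : K0))⁻¹ *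
        (x2 - x) ^ (q - 1) ∈ s36_gc_V κ A M Θ,
      s18_red (ι := A.subtype) (ρ := IsLocalRing.residue A) Subtype.val_injective
          ⟨Θ (s36_gc_incl κ M
            ((algebraMap K0 (laurentBaseChange K0 (modularFunctionFieldFull M)) (q : K0))⁻¹ *
              (x2 - x) ^ (q - 1))), s36_gc_mem_V.mp hu⟩ =
        -(s36_qt_theta (IsLocalRing.ResidueField A)
          (s18_red (ι := A.subtype) (ρ := IsLocalRing.residue A) Subtype.val_injective
            ⟨Θ (s36_gc_incl κ M x), s36_gc_mem_V.mp hx⟩) ^ (q - 1)) := by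
  obtain ⟨u₀, hu₀W, hu₀eq, hu₀red⟩ := s36_rw_main (ι := A.subtype)
    (ρ := IsLocalRing.residue A) Subtype.val_injective q ζ hζ (Θ (s36_gc_incl κ M x))
    (s36_gc_mem_V.mp hx)
  have hqK : (q : K) ≠ 0 := by
    have hq0 : q ≠ 0 := (Fact.out : q.Prime).ne_zero
    haveI : CharZero K := algebraRat.charZero K
    exact_mod_cast hq0
  have hC : (HahnSeries.C (q : K) : LaurentSeries K) ≠ 0 := by
    rw [Ne, map_eq_zero]; exact hqK
  have hΦq : Θ (s36_gc_incl κ M
      (algebraMap K0 (laurentBaseChange K0 (modularFunctionFieldFull M)) (q : K0))) =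
      HahnSeries.C (q : K) := by
    rw [s36_gc_incl_algebraMap, AlgHom.commutes, algebraMap_laurentSeries_eq_single,
      ← HahnSeries.C_apply, map_natCast]
  have key : Θ (s36_gc_incl κ M
      ((algebraMap K0 (laurentBaseChange K0 (modularFunctionFieldFull M)) (q : K0))⁻¹ *
        (x2 - x) ^ (q - 1))) = u₀ := by
    rw [map_mul, map_mul, map_inv₀, map_inv₀, hΦq, map_pow, map_pow, map_sub, map_sub, h2,
      s36_rw_twistQ_eq, ← hu₀eq, ← mul_assoc, inv_mul_cancel₀ hC, one_mul]
  have hu : (algebraMap K0 (laurentBaseChange K0 (modularFunctionFieldFull M)) (q : K0))⁻¹ *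
      (x2 - x) ^ (q - 1) ∈ s36_gc_V κ A M Θ := by
    rw [s36_gc_mem_V, key]; exact hu₀W
  refine ⟨hu, ?_⟩
  rw [← hu₀red]
  congr 1
  exact Subtype.ext key

/-- **The congruence hypothesis of `s36_cpt_loc` from a `q`-series identity.**  With
`u = q⁻¹ (x₂ - x)^(q-1)`: if `(-(θ x̄)^(q-1))^n * c̄ = ā` in `k((Q))` then `u ∈ V_C` and
`z⁻¹ (u^n c - a) ∈ V_C`. -/
theorem s36_cpt_theta_cong {z : laurentBaseChange K0 (modularFunctionFieldFull M)}
    (hUnif : s34_Unif z (s36_gc_V κ A M Θ)) (ζ : Aˣ) (hζ : IsPrimitiveRoot (ζ : A) q)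
    (x x2 c a : laurentBaseChange K0 (modularFunctionFieldFull M))
    (hx : x ∈ s36_gc_V κ A M Θ)
    (h2 : Θ (s36_gc_incl κ M x2) =
      twistQ (Units.map (A.subtype : A →* K) ζ) (Θ (s36_gc_incl κ M x)))
    (hc : c ∈ s36_gc_V κ A M Θ) (ha : a ∈ s36_gc_V κ A M Θ) (n : ℕ)
    (hid : (-(s36_qt_theta (IsLocalRing.ResidueField A)
          (s18_red (ι := A.subtype) (ρ := IsLocalRing.residue A) Subtype.val_injective
            ⟨Θ (s36_gc_incl κ M x), s36_gc_mem_V.mp hx⟩) ^ (q - 1))) ^ n *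
        s18_red (ι := A.subtype) (ρ := IsLocalRing.residue A) Subtype.val_injective
          ⟨Θ (s36_gc_incl κ M c), s36_gc_mem_V.mp hc⟩ =
        s18_red (ι := A.subtype) (ρ := IsLocalRing.residue A) Subtype.val_injective
          ⟨Θ (s36_gc_incl κ M a), s36_gc_mem_V.mp ha⟩) :
    (algebraMap K0 (laurentBaseChange K0 (modularFunctionFieldFull M)) (q : K0))⁻¹ *
        (x2 - x) ^ (q - 1) ∈ s36_gc_V κ A M Θ ∧
      z⁻¹ * (((algebraMap K0 (laurentBaseChange K0 (modularFunctionFieldFull M)) (q : K0))⁻¹ *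
        (x2 - x) ^ (q - 1)) ^ n * c - a) ∈ s36_gc_V κ A M Θ := by
  obtain ⟨hu, hured⟩ := s36_cpt_theta_u (κ := κ) (Θ := Θ) q ζ hζ x x2 hx h2
  refine ⟨hu, ?_⟩
  set u := (algebraMap K0 (laurentBaseChange K0 (modularFunctionFieldFull M)) (q : K0))⁻¹ *
    (x2 - x) ^ (q - 1) with hu_def
  have hf : u ^ n * c - a ∈ s36_gc_V κ A M Θ :=
    Subring.sub_mem _ (Subring.mul_mem _ (Subring.pow_mem _ hu n) hc) ha
  apply s36_cpt_dvd_of_red hUnif _ hf
  have e : (⟨Θ (s36_gc_incl κ M (u ^ n * c - a)), s36_gc_mem_V.mp hf⟩ :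
        s18_W A.subtype (IsLocalRing.residue A)) =
      ⟨Θ (s36_gc_incl κ M u), s36_gc_mem_V.mp hu⟩ ^ n *
        ⟨Θ (s36_gc_incl κ M c), s36_gc_mem_V.mp hc⟩ -
        ⟨Θ (s36_gc_incl κ M a), s36_gc_mem_V.mp ha⟩ := by
    apply Subtype.ext
    show Θ (s36_gc_incl κ M (u ^ n * c - a)) =
      Θ (s36_gc_incl κ M u) ^ n * Θ (s36_gc_incl κ M c) - Θ (s36_gc_incl κ M a)
    rw [map_sub, map_sub, map_mul, map_mul, map_pow, map_pow]
  rw [e, map_sub, map_mul, map_pow, hured, hid, sub_self]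

end Model

section Top

variable {K : Type*} [Field K] [Algebra ℚ K] {M : ℕ}

/-- The subfield of `K((Q))` consisting of the series `y` with `y(Q^n) ∈ K · F(M)` and
`Θ(y(Q^n)) = y(c Q)`. -/
def s36_cpt_topField
    (Θ : laurentBaseChange K (modularFunctionFieldFull M) →ₐ[K] LaurentSeries K)
    (n : ℕ) [NeZero n] (c : Kˣ) : Subfield (LaurentSeries K) where
  carrier := {y | ∃ h : qExpand K n y ∈ laurentBaseChange K (modularFunctionFieldFull M),
    Θ ⟨qExpand K n y, h⟩ = s37_ec_twist c y}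
  mul_mem' := by
    rintro a b ⟨ha, ha'⟩ ⟨hb, hb'⟩
    have hab : qExpand K n (a * b) ∈ laurentBaseChange K (modularFunctionFieldFull M) := by
      rw [map_mul]; exact mul_mem ha hb
    refine ⟨hab, ?_⟩
    have e : (⟨qExpand K n (a * b), hab⟩ : laurentBaseChange K (modularFunctionFieldFull M)) =
        ⟨qExpand K n a, ha⟩ * ⟨qExpand K n b, hb⟩ := Subtype.ext (map_mul _ a b)
    rw [e, map_mul, ha', hb', map_mul]
  one_mem' := by
    have h1 : qExpand K n (1 : LaurentSeries K) ∈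
        laurentBaseChange K (modularFunctionFieldFull M) := by
      rw [map_one]; exact one_mem _
    refine ⟨h1, ?_⟩
    have e : (⟨qExpand K n 1, h1⟩ : laurentBaseChange K (modularFunctionFieldFull M)) = 1 :=
      Subtype.ext (map_one _)
    rw [e, map_one, map_one]
  add_mem' := by
    rintro a b ⟨ha, ha'⟩ ⟨hb, hb'⟩
    have hab : qExpand K n (a + b) ∈ laurentBaseChange K (modularFunctionFieldFull M) := by
      rw [map_add]; exact add_mem ha hb
    refine ⟨hab, ?_⟩
    have e : (⟨qExpand K n (a + b), hab⟩ : laurentBaseChange K (modularFunctionFieldFull M)) =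
        ⟨qExpand K n a, ha⟩ + ⟨qExpand K n b, hb⟩ := Subtype.ext (map_add _ a b)
    rw [e, map_add, ha', hb', map_add]
  zero_mem' := by
    have h0 : qExpand K n (0 : LaurentSeries K) ∈
        laurentBaseChange K (modularFunctionFieldFull M) := by
      rw [map_zero]; exact zero_mem _
    refine ⟨h0, ?_⟩
    have e : (⟨qExpand K n 0, h0⟩ : laurentBaseChange K (modularFunctionFieldFull M)) = 0 :=
      Subtype.ext (map_zero _)
    rw [e, map_zero, map_zero]
  neg_mem' := by
    rintro a ⟨ha, ha'⟩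
    have hna : qExpand K n (-a) ∈ laurentBaseChange K (modularFunctionFieldFull M) := by
      rw [map_neg]; exact neg_mem ha
    refine ⟨hna, ?_⟩
    have e : (⟨qExpand K n (-a), hna⟩ : laurentBaseChange K (modularFunctionFieldFull M)) =
        -⟨qExpand K n a, ha⟩ := Subtype.ext (map_neg _ a)
    rw [e, map_neg, ha', map_neg]
  inv_mem' := by
    rintro a ⟨ha, ha'⟩
    have hia : qExpand K n a⁻¹ ∈ laurentBaseChange K (modularFunctionFieldFull M) := by
      rw [map_inv₀]; exact inv_mem ha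
    refine ⟨hia, ?_⟩
    have e : (⟨qExpand K n a⁻¹, hia⟩ : laurentBaseChange K (modularFunctionFieldFull M)) =
        (⟨qExpand K n a, ha⟩ : laurentBaseChange K (modularFunctionFieldFull M))⁻¹ :=
      Subtype.ext (map_inv₀ _ a)
    rw [e, map_inv₀, ha', map_inv₀]

theorem s36_cpt_mem_topField
    {Θ : laurentBaseChange K (modularFunctionFieldFull M) →ₐ[K] LaurentSeries K}
    {n : ℕ} [NeZero n] {c : Kˣ} {y : LaurentSeries K} :
    y ∈ s36_cpt_topField Θ n c ↔
      ∃ h : qExpand K n y ∈ laurentBaseChange K (modularFunctionFieldFull M),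
        Θ ⟨qExpand K n y, h⟩ = s37_ec_twist c y := Iff.rfl

/-- **`Θ(y(Q^(q²))) = y(c Q)` for every `y` of level `N`**, from the same statement for the
generators `j(Q^d)`, `d ∣ N`. -/
theorem s36_cpt_top_K
    {Θ : laurentBaseChange K (modularFunctionFieldFull M) →ₐ[K] LaurentSeries K}
    (N q : ℕ) [NeZero N] [NeZero q] (hM : N * q ^ 2 ∣ M) (c : Kˣ)
    (hΘ : ∀ (d : ℕ) (_ : d ∣ N)
      (h1 : s34_sw_s K (d * q ^ 2) ∈ laurentBaseChange K (modularFunctionFieldFull M)),
      Θ ⟨s34_sw_s K (d * q ^ 2), h1⟩ = twistQ c (s34_sw_s K d))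
    (y : LaurentSeries K) (hy : y ∈ laurentBaseChange K (modularFunctionFieldFull N))
    (h : qExpand K (q ^ 2) y ∈ laurentBaseChange K (modularFunctionFieldFull M)) :
    Θ ⟨qExpand K (q ^ 2) y, h⟩ = twistQ c y := by
  have hconst : ∀ r : K, algebraMap K (LaurentSeries K) r ∈ s36_cpt_topField Θ (q ^ 2) c := by
    intro r
    have e1 : qExpand K (q ^ 2) (algebraMap K (LaurentSeries K) r) =
        algebraMap K (LaurentSeries K) r := by
      rw [algebraMap_laurentSeries_eq_single, ← HahnSeries.C_apply, qExpand_C]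
    have hmem : qExpand K (q ^ 2) (algebraMap K (LaurentSeries K) r) ∈
        laurentBaseChange K (modularFunctionFieldFull M) := by
      rw [e1]; exact (laurentBaseChange K (modularFunctionFieldFull M)).algebraMap_mem r
    refine ⟨hmem, ?_⟩
    have e2 : (⟨qExpand K (q ^ 2) (algebraMap K (LaurentSeries K) r), hmem⟩ :
        laurentBaseChange K (modularFunctionFieldFull M)) =
        algebraMap K (laurentBaseChange K (modularFunctionFieldFull M)) r := Subtype.ext e1
    rw [e2, AlgHom.commutes, algebraMap_laurentSeries_eq_single, ← HahnSeries.C_apply,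
      s37_ec_twist_C]
  have hle := s34_sw_le K N ((s36_cpt_topField Θ (q ^ 2) c).toIntermediateField hconst)
    (fun e _ he => by
      show coeffEmb K (qExpand ℚ e jq) ∈ s36_cpt_topField Θ (q ^ 2) c
      haveI : NeZero (e * q ^ 2) := ⟨Nat.mul_ne_zero (NeZero.ne e) (NeZero.ne (q ^ 2))⟩
      have e1 : qExpand K (q ^ 2) (coeffEmb K (qExpand ℚ e jq)) = s34_sw_s K (e * q ^ 2) := by
        rw [s34_sw_s_eq]
        show qExpand K (q ^ 2) (coeffMap (algebraMap ℚ K) (qExpand ℚ e jq)) =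
          coeffMap (algebraMap ℚ K) (qExpand ℚ (e * q ^ 2) jq)
        rw [← coeffMap_qExpand, qExpand_qExpand]
        congr 1
        exact qExpand_congr (mul_comm _ _) _
      have hmem0 : s34_sw_s K (e * q ^ 2) ∈
          laurentBaseChange K (modularFunctionFieldFull M) := by
        rw [s34_sw_s_eq]
        exact s34_sw_s_mem K M _ ((Nat.mul_dvd_mul_right he _).trans hM)
      have hmem : qExpand K (q ^ 2) (coeffEmb K (qExpand ℚ e jq)) ∈
          laurentBaseChange K (modularFunctionFieldFull M) := by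
        rw [e1]; exact hmem0
      refine ⟨hmem, ?_⟩
      have e2 : (⟨qExpand K (q ^ 2) (coeffEmb K (qExpand ℚ e jq)), hmem⟩ :
          laurentBaseChange K (modularFunctionFieldFull M)) = ⟨s34_sw_s K (e * q ^ 2), hmem0⟩ :=
        Subtype.ext e1
      rw [e2, hΘ e he hmem0, s36_rw_twistQ_eq, s34_sw_s_eq])
  obtain ⟨h', heq⟩ := hle hy
  rw [s36_rw_twistQ_eq]
  exact heq

end Top

section ModelTop

variable {K0 K : Type*} [Field K0] [Field K] [Algebra ℚ K0] [Algebra ℚ K]
  {κ : K0 →+* K} {A : ValuationSubring K} {M : ℕ}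
  {Θ : laurentBaseChange K (modularFunctionFieldFull M) →ₐ[K] LaurentSeries K}
  {N q : ℕ} {ζ : Aˣ}

/-- **The hypothesis `h2` of `s36_cpt_theta_u` in the model**: for `x ∈ K₀ · F(M)` of level `N`
and `x₂ = x(Q^(q²))`, `Φ(x₂) = (Φ x)(ζ Q)`. -/
theorem s36_cpt_theta_top (hΘ : s36_gc_IsCusp N q ζ Θ) [NeZero N] [NeZero q]
    (hM : N * q ^ 2 ∣ M)
    (x x2 : laurentBaseChange K0 (modularFunctionFieldFull M))
    (hxN : (x : LaurentSeries K0) ∈ laurentBaseChange K0 (modularFunctionFieldFull N))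
    (hx2 : (x2 : LaurentSeries K0) = qExpand K0 (q ^ 2) (x : LaurentSeries K0)) :
    Θ (s36_gc_incl κ M x2) =
      twistQ (Units.map (A.subtype : A →* K) ζ) (Θ (s36_gc_incl κ M x)) := by
  have hlow : (x : LaurentSeries K0) ∈ laurentBaseChange K0 (modularFunctionFieldFull (N * q)) :=
    s34_sw_le K0 N (laurentBaseChange K0 (modularFunctionFieldFull (N * q)))
      (fun e _ he => s34_sw_s_mem K0 (N * q) e (he.trans (dvd_mul_right N q))) hxN
  rw [s36_gc_theta_low hΘ x hlow]
  have hy : coeffMap κ (x : LaurentSeries K0) ∈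
      laurentBaseChange K (modularFunctionFieldFull N) :=
    s18_d1_coeffMap_mem (modularFunctionFieldFull N) κ hxN
  have e1 : ((s36_gc_incl κ M x2 : laurentBaseChange K (modularFunctionFieldFull M)) :
      LaurentSeries K) = qExpand K (q ^ 2) (coeffMap κ (x : LaurentSeries K0)) := by
    rw [s36_gc_incl_coe, hx2, coeffMap_qExpand]
  have hmem : qExpand K (q ^ 2) (coeffMap κ (x : LaurentSeries K0)) ∈
      laurentBaseChange K (modularFunctionFieldFull M) := by
    rw [← e1]; exact (s36_gc_incl κ M x2).2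
  have e2 : s36_gc_incl κ M x2 =
      ⟨qExpand K (q ^ 2) (coeffMap κ (x : LaurentSeries K0)), hmem⟩ := Subtype.ext e1
  rw [e2]
  refine s36_cpt_top_K N q hM _ (fun d hd h1 => ?_) _ hy hmem
  rw [hΘ.1 d (q ^ 2) hd dvd_rfl h1, if_pos rfl]

end ModelTop

end Fermat.Agent.S36
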