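import Fermat.Agent.S36.QTheta
import Fermat.Agent.S18.HauptField

/-!
# S36 (NODE-3), sub-leaf (P-i) of (POLE23): `θ` of the Hauptmoduln in characteristic 2 and 3

`θ = q d/dq = s36_qt_theta`.  Over any commutative ring `R`:

* `s36_th23_thetaJ`   : `θ j · Δ = - E₄² E₆`  (from Ramanujan's identity `s36_qt_ramanujan`);
* `s36_th23_j_mul_delta` : `j · Δ = E₄³`;
* `s36_th23_e4_eq_one`, `s36_th23_e6_eq_one` : `E₄ = 1` if `240 = 0` in `R`, `E₆ = 1` if `504 = 0`;
* `s36_th23_theta_j`  : `θ j = - j`   if `240 = 0` and `504 = 0` in `R` (e.g. `2 = 0` or `3 = 0`);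
* `s36_th23_theta_delta` : `θ Δ = Δ`  under the same hypothesis;
* `s36_th23_t2` : `θ t₂ = - t₂` if `3 = 0` in `R`   (`t₂ = s18_t2R R`);
* `s36_th23_t3` : `θ t₃ = t₃`   if `2 = 0` in `R`   (`t₃ = s18_t3R R`).
-/

set_option autoImplicit false
set_option linter.style.haveILetI false
set_option linter.unusedSectionVars false
set_option linter.deprecated false

open ModularCurve

noncomputable section

namespace Fermat.Agent.S36

open Fermat.Agent.S28 Fermat.Agent.S18

/-- The `q`-series of `E₄` with coefficients in `R`. -/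
def s36_th23_e4 (R : Type*) [CommRing R] : LaurentSeries R :=
  HahnSeries.ofPowerSeries ℤ R (eisenstein4.map (Int.castRingHom R))

/-- The `q`-series of `E₆` with coefficients in `R`. -/
def s36_th23_e6 (R : Type*) [CommRing R] : LaurentSeries R :=
  HahnSeries.ofPowerSeries ℤ R (s36_qt_e6.map (Int.castRingHom R))

theorem s36_th23_coeffMap_e4 {R S : Type*} [CommRing R] [CommRing S] (φ : R →+* S) :
    coeffMap φ (s36_th23_e4 R) = s36_th23_e4 S := by
  rw [s36_th23_e4, s36_th23_e4, coeffMap_ofPowerSeries, formal_map_map_intCast]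

theorem s36_th23_coeffMap_e6 {R S : Type*} [CommRing R] [CommRing S] (φ : R →+* S) :
    coeffMap φ (s36_th23_e6 R) = s36_th23_e6 S := by
  rw [s36_th23_e6, s36_th23_e6, coeffMap_ofPowerSeries, formal_map_map_intCast]

theorem s36_th23_e4_complex : s36_th23_e4 ℂ = s36_qt_a := rfl

theorem s36_th23_e6_complex : s36_th23_e6 ℂ = s36_qt_b := rfl

/-- `θ j · Δ = - E₄² E₆` over `ℂ`. -/
theorem s36_th23_thetaJ_complex :
    s36_qt_theta ℂ (jqModC ℂ) * deltaSeries ℂ = -(s36_qt_a ^ 2 * s36_qt_b) := by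
  set a := s36_qt_a with ha
  set b := s36_qt_b with hb
  set d := deltaSeries ℂ with hd
  set di := deltaInvSeries ℂ with hdi
  set j := jqModC ℂ with hj
  have hjab : j = a ^ 3 * di := s36_qt_jq_eq
  have hdd : d * di = 1 := deltaSeries_mul_deltaInvSeries ℂ
  have hC3 : (HahnSeries.C (3 : ℂ) : LaurentSeries ℂ) = 3 := map_ofNat _ 3
  have hS : 3 * s36_qt_theta ℂ a * d - a * s36_qt_theta ℂ d + b * d = 0 := by
    have := s36_qt_ramanujan
    rwa [hC3] at this
  have hθdi : s36_qt_theta ℂ d * di + d * s36_qt_theta ℂ di = 0 := by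
    rw [← s36_qt_theta_mul, hdd, s36_qt_theta_one]
  have hθa3 : s36_qt_theta ℂ (a ^ 3) = 3 * (a ^ 2 * s36_qt_theta ℂ a) := by
    have := s36_qt_theta_pow a 2
    simpa using this
  set T := s36_qt_theta ℂ j with hT
  have hT1 : T = 3 * (a ^ 2 * s36_qt_theta ℂ a) * di + a ^ 3 * s36_qt_theta ℂ di := by
    rw [hT, hjab, s36_qt_theta_mul, hθa3]
  have h1 : T * d ^ 2 = -(a ^ 2 * b * d) := by
    linear_combination d ^ 2 * hT1 + 3 * a ^ 2 * s36_qt_theta ℂ a * d * hdd
      + a ^ 3 * d * hθdi - a ^ 3 * s36_qt_theta ℂ d * hdd + a ^ 2 * hS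
  linear_combination di * h1 - (T * d + a ^ 2 * b) * hdd

/-- `θ j · Δ = - E₄² E₆` over `ℤ`. -/
theorem s36_th23_thetaJ_int :
    s36_qt_theta ℤ (jqModC ℤ) * deltaSeries ℤ = -(s36_th23_e4 ℤ ^ 2 * s36_th23_e6 ℤ) := by
  apply s36_qt_coeffMap_injective (Int.castRingHom ℂ) Int.cast_injective
  rw [map_mul, ← s36_qt_theta_coeffMap, coeffMap_jqModC, coeffMap_deltaSeries, map_neg, map_mul,
    map_pow, s36_th23_coeffMap_e4, s36_th23_coeffMap_e6, s36_th23_e4_complex,
    s36_th23_e6_complex]
  exact s36_th23_thetaJ_complex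

/-- `θ j · Δ = - E₄² E₆` over any commutative ring. -/
theorem s36_th23_thetaJ (R : Type*) [CommRing R] :
    s36_qt_theta R (jqModC R) * deltaSeries R = -(s36_th23_e4 R ^ 2 * s36_th23_e6 R) := by
  have h := congrArg (coeffMap (Int.castRingHom R)) s36_th23_thetaJ_int
  rw [map_mul, ← s36_qt_theta_coeffMap, coeffMap_jqModC, coeffMap_deltaSeries, map_neg, map_mul,
    map_pow, s36_th23_coeffMap_e4, s36_th23_coeffMap_e6] at h
  exact h

/-- `j = E₄³ / Δ` over any commutative ring. -/
theorem s36_th23_jq_eq (R : Type*) [CommRing R] :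
    jqModC R = s36_th23_e4 R ^ 3 * deltaInvSeries R := by
  rw [jqModC, deltaInvSeries, jNum, s36_th23_e4, map_mul, map_mul, map_pow, map_pow]
  ring

/-- `j · Δ = E₄³` over any commutative ring. -/
theorem s36_th23_j_mul_delta (R : Type*) [CommRing R] :
    jqModC R * deltaSeries R = s36_th23_e4 R ^ 3 := by
  have hdd : deltaSeries R * deltaInvSeries R = 1 := deltaSeries_mul_deltaInvSeries R
  rw [s36_th23_jq_eq]
  linear_combination s36_th23_e4 R ^ 3 * hdd

/-- `E₄ = 1` as soon as `240 = 0` in `R`. -/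
theorem s36_th23_e4_eq_one (R : Type*) [CommRing R] (h : (240 : R) = 0) : s36_th23_e4 R = 1 := by
  have h1 : eisenstein4.map (Int.castRingHom R) = 1 := by
    ext n
    rw [PowerSeries.coeff_map, eisenstein4, PowerSeries.coeff_mk, PowerSeries.coeff_one]
    split_ifs with hn
    · simp
    · rw [map_mul, map_ofNat, h, zero_mul]
  rw [s36_th23_e4, h1, map_one]

/-- `E₆ = 1` as soon as `504 = 0` in `R`. -/
theorem s36_th23_e6_eq_one (R : Type*) [CommRing R] (h : (504 : R) = 0) : s36_th23_e6 R = 1 := by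
  have h1 : s36_qt_e6.map (Int.castRingHom R) = 1 := by
    ext n
    rw [PowerSeries.coeff_map, s36_qt_e6, PowerSeries.coeff_mk, PowerSeries.coeff_one]
    split_ifs with hn
    · simp
    · rw [map_mul, map_neg, map_ofNat, h, neg_zero, zero_mul]
  rw [s36_th23_e6, h1, map_one]

/-- `θ j = - j` in characteristic dividing `240` and `504` (e.g. `2` or `3`). -/
theorem s36_th23_theta_j (R : Type*) [CommRing R] (h240 : (240 : R) = 0) (h504 : (504 : R) = 0) :
    s36_qt_theta R (jqModC R) = -jqModC R := by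
  have hA := s36_th23_thetaJ R
  have hB := s36_th23_j_mul_delta R
  rw [s36_th23_e4_eq_one R h240, s36_th23_e6_eq_one R h504] at hA
  rw [s36_th23_e4_eq_one R h240] at hB
  have hdd : deltaSeries R * deltaInvSeries R = 1 := deltaSeries_mul_deltaInvSeries R
  linear_combination deltaInvSeries R * hA + deltaInvSeries R * hB -
    (s36_qt_theta R (jqModC R) + jqModC R) * hdd

/-- `j · Δ = 1` in characteristic dividing `240`. -/
theorem s36_th23_j_mul_delta_one (R : Type*) [CommRing R] (h240 : (240 : R) = 0) :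
    jqModC R * deltaSeries R = 1 := by
  rw [s36_th23_j_mul_delta, s36_th23_e4_eq_one R h240, one_pow]

/-- `θ Δ = Δ` in characteristic dividing `240` and `504` (e.g. `2` or `3`). -/
theorem s36_th23_theta_delta (R : Type*) [CommRing R] (h240 : (240 : R) = 0)
    (h504 : (504 : R) = 0) : s36_qt_theta R (deltaSeries R) = deltaSeries R := by
  have hj := s36_th23_theta_j R h240 h504
  have hB := s36_th23_j_mul_delta_one R h240
  have hθ : s36_qt_theta R (jqModC R * deltaSeries R) = 0 := by rw [hB, s36_qt_theta_one]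
  rw [s36_qt_theta_mul, hj] at hθ
  -- `-j Δ + j θΔ = 0`, and `j Δ = 1`
  linear_combination deltaSeries R * hθ -
    (s36_qt_theta R (deltaSeries R) - deltaSeries R) * hB

theorem s36_th23_two_eq_zero (R : Type*) [CommRing R] (h2 : (2 : R) = 0) :
    (2 : LaurentSeries R) = 0 := by
  rw [← map_ofNat (HahnSeries.C : R →+* LaurentSeries R) 2, h2, map_zero]

theorem s36_th23_three_eq_zero (R : Type*) [CommRing R] (h3 : (3 : R) = 0) :
    (3 : LaurentSeries R) = 0 := by
  rw [← map_ofNat (HahnSeries.C : R →+* LaurentSeries R) 3, h3, map_zero]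

theorem s36_th23_theta_ofNat (R : Type*) [CommRing R] (n : ℕ) [n.AtLeastTwo] :
    s36_qt_theta R (OfNat.ofNat n : LaurentSeries R) = 0 := by
  rw [← map_ofNat (HahnSeries.C : R →+* LaurentSeries R) n, s36_qt_theta_C]

/-- **(P-i), `q = 3`.**  `θ t₂ = - t₂` in characteristic `3`. -/
theorem s36_th23_t2 (R : Type*) [CommRing R] (h3 : (3 : R) = 0) :
    s36_qt_theta R (s18_t2R R) = -s18_t2R R := by
  have h240 : (240 : R) = 0 := by linear_combination (80 : R) * h3
  have h504 : (504 : R) = 0 := by linear_combination (168 : R) * h3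
  have h3L := s36_th23_three_eq_zero R h3
  have hj := s36_th23_theta_j R h240 h504
  have hjd := s36_th23_j_mul_delta_one R h240
  have hti := s18_t2R_mul_inv R
  set t := s18_t2R R with ht
  set ti := s18_t2invR R with hti'
  set j := jqModC R with hj'
  set d := deltaSeries R with hd'
  set θt := s36_qt_theta R t with hθt
  have hθ := congrArg (s36_qt_theta R) (s18_t2R_j R)
  rw [← ht, ← hj', s36_qt_theta_mul, hj, s36_qt_theta_pow t 1, s36_qt_theta_pow (t + 256) 2]
    at hθ
  simp only [nsmul_eq_mul, pow_one] at hθ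
  have hE : -j * t ^ 2 + 2 * j * t * θt = 0 := by
    have h3' : ((2 + 1 : ℕ) : LaurentSeries R) = 0 := by
      push_cast
      linear_combination h3L
    rw [h3', zero_mul] at hθ
    have h2' : ((1 + 1 : ℕ) : LaurentSeries R) = 2 := by
      push_cast
      norm_num
    rw [h2'] at hθ
    linear_combination hθ
  have h2θ : 2 * θt = t := by
    linear_combination (d * ti) * hE - (2 * θt - t) * (t * ti) * hjd - (2 * θt - t) * hti
  linear_combination θt * h3L - h2θ

/-- **(P-i), `q = 2`.**  `θ t₃ = t₃` in characteristic `2`. -/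
theorem s36_th23_t3 (R : Type*) [CommRing R] (h2 : (2 : R) = 0) :
    s36_qt_theta R (s18_t3R R) = s18_t3R R := by
  have h240 : (240 : R) = 0 := by linear_combination (120 : R) * h2
  have h504 : (504 : R) = 0 := by linear_combination (252 : R) * h2
  have h2L := s36_th23_two_eq_zero R h2
  have hj := s36_th23_theta_j R h240 h504
  have hjd := s36_th23_j_mul_delta_one R h240
  have hti := s18_t3R_mul_inv R
  set t := s18_t3R R with ht
  set ti := s18_t3invR R with hti'
  set j := jqModC R with hj'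
  set d := deltaSeries R with hd'
  set θt := s36_qt_theta R t with hθt
  have hθ := congrArg (s36_qt_theta R) (s18_t3R_j R)
  rw [← ht, ← hj', s36_qt_theta_mul, hj, s36_qt_theta_pow t 2, s36_qt_theta_mul,
    s36_qt_theta_pow (t + 243) 2, map_add, map_add, s36_th23_theta_ofNat,
    s36_th23_theta_ofNat, add_zero, ← hθt] at hθ
  simp only [nsmul_eq_mul] at hθ
  have h3' : ((2 + 1 : ℕ) : LaurentSeries R) = 3 := by
    push_cast
    norm_num
  rw [h3'] at hθ
  have hE : -j * t ^ 3 + 3 * j * t ^ 2 * θt = 0 := by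
    linear_combination hθ + (θt * (t + 243) ^ 2 * (2 * t + 162)) * h2L
  have h3θ : 3 * θt = t := by
    linear_combination (d * ti ^ 2) * hE - (3 * θt - t) * (t * ti) ^ 2 * hjd -
      (3 * θt - t) * (t * ti + 1) * hti
  linear_combination h3θ - θt * h2L

end Fermat.Agent.S36
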