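import Fermat.Agent.S36.CPt
import Fermat.Agent.S36.CPtTheta
import Fermat.Agent.S36.Theta23

/-!
# S36 (NODE-3), contract item (c-Cpt): scaled candidates (cusp points of `C`) and `q = 2, 3`

At a cusp point of the component `C` the candidate `x(Q^(q²)) - x` of `S36/CPt.lean` is never a
local equation (it also vanishes along the horizontal cusp divisor); the right candidate is
`z' = (x₂ - x) * y` with `y = x⁻¹` (`x = 1/t` in the chart at infinity), a *fraction* in `B_𝔪`.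

Abstract part:
* `s36_cpt_root_mem` : `y^p * g₁ = g₂`, `g₁ ∉ 𝔪`, `B_𝔪` closed under `p`-th roots ⟹ `y ∈ B_𝔪`
  (for `y = t/t''`: `y^q = g₂ / g₁` with `g₁ = t'/t^q`, `g₂ = t'/t''^q`);
* `s36_cpt_sub_one_mem` : `y ∈ B_𝔪 → y - 1 ∈ B_𝔪`;
* `s36_cpt_not_mem_of_cong` : `g ≡ 1` modulo `z₀ V₁` ⟹ `g ∉ 𝔪` at a `C`-only point.

Model part (vocabulary of `S36/GaussC`, `S36/CPtTheta`):
* `s36_cpt_red_int`, `s36_cpt_coord_int` : reduction of a function whose image at the cusp `1/q`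
  is an `A`-integral series; the case of a rational coordinate;
* `s36_cpt_cong_int` : the congruence hypothesis of `s36_cpt_loc` for the scaled candidate
  `z' = (x₂ - x) * y` from an identity of `q`-series over the residue field;
* `s36_cpt_cong3`, `s36_cpt_cong2` : the cases `q = 3` (`x̄ = t̄₂`, `θ t̄₂ = -t̄₂`) and `q = 2`
  (`x̄ = t̄₃`, `θ t̄₃ = t̄₃`): `u' ≡ -(x y)^(q-1)`; with `y = 1` this is the non-cuspidal case, with
  `y = x⁻¹` the congruence `u' ≡ -1` valid at every point (cusps included).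
-/

set_option autoImplicit false
set_option linter.style.haveILetI false
set_option linter.unusedSectionVars false

open ModularCurve

noncomputable section

namespace Fermat.Agent.S36

open Fermat.Agent.S28 (twistQ)
open Fermat.Agent.S18 Fermat.Agent.S34 Fermat.Agent.S37

section Abs

variable {F : Type*} [Field F] {B : Subring F}

/-- `y ∈ B_𝔪` from `y^p = g₂ / g₁` with `g₁ ∉ 𝔪`, when `B_𝔪` is closed under `p`-th roots. -/
theorem s36_cpt_root_mem (𝔪 : Ideal B) [𝔪.IsPrime] (p : ℕ)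
    (hroot : ∀ z : F, z ^ p ∈ s18_loc B 𝔪 → z ∈ s18_loc B 𝔪)
    (y : F) (g₁ g₂ : B) (hg₁ : g₁ ∉ 𝔪) (h : y ^ p * (g₁ : F) = (g₂ : F)) :
    y ∈ s18_loc B 𝔪 := by
  apply hroot
  have hg0 : (g₁ : F) ≠ 0 := fun h0 => hg₁ (by
    have : g₁ = 0 := Subtype.ext h0
    rw [this]; exact 𝔪.zero_mem)
  exact ⟨g₂, g₁, hg₁, by rw [← h]; field_simp⟩

/-- `B_𝔪` is stable under `y ↦ y - 1`. -/
theorem s36_cpt_sub_one_mem (𝔪 : Ideal B) [𝔪.IsPrime] (y : F) (hy : y ∈ s18_loc B 𝔪) :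
    y - 1 ∈ s18_loc B 𝔪 := by
  obtain ⟨a, b, hb, rfl⟩ := hy
  have hb0 : (b : F) ≠ 0 := fun h0 => hb (by
    have : b = 0 := Subtype.ext h0
    rw [this]; exact 𝔪.zero_mem)
  refine ⟨a - b, b, hb, ?_⟩
  push_cast
  field_simp

variable {ϖ z₀ ε₀ : F} {V₁ V' : Subring F}

/-- At a point lying on the component `V₁` only, an element of `B` congruent to `1` modulo the
uniformiser of `V₁` is not in `𝔪`. -/
theorem s36_cpt_not_mem_of_cong (hB₁ : B ≤ V₁) (hB' : B ≤ V') (hϖB : ϖ ∈ B) (hϖ0 : ϖ ≠ 0)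
    (hcap : ∀ x ∈ B, ϖ⁻¹ * x ∈ V₁ → ϖ⁻¹ * x ∈ V' → ϖ⁻¹ * x ∈ B)
    (e : ℕ) (he : 0 < e) (hε₀' : ε₀⁻¹ ∈ V₁) (hϖ : ϖ = ε₀ * z₀ ^ e)
    (𝔪 : Ideal B) [h𝔪 : 𝔪.IsPrime] (hϖ𝔪 : (⟨ϖ, hϖB⟩ : B) ∈ 𝔪)
    (f₀ : B) (hf₀ : f₀ ∉ 𝔪) (hf₀' : ϖ⁻¹ * (f₀ : F) ∈ V')
    (g : B) (hg : z₀⁻¹ * ((g : F) - 1) ∈ V₁) : g ∉ 𝔪 := by
  intro hg𝔪
  have h1 : g - 1 ∈ 𝔪 :=
    s36_cpt_comp_le hB₁ hB' hϖB hϖ0 hcap e he hε₀' hϖ 𝔪 hϖ𝔪 f₀ hf₀ hf₀' (g - 1) (by
      push_cast; exact hg)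
  have h2 : (1 : B) ∈ 𝔪 := by
    have e1 : (1 : B) = g - (g - 1) := by ring
    rw [e1]; exact 𝔪.sub_mem hg𝔪 h1
  exact h𝔪.ne_top ((Ideal.eq_top_iff_one _).mpr h2)

end Abs

section Model

variable {K0 K : Type*} [Field K0] [Field K] [Algebra ℚ K0] [Algebra ℚ K]
  {κ : K0 →+* K} {A : ValuationSubring K} {M : ℕ}
  {Θ : laurentBaseChange K (modularFunctionFieldFull M) →ₐ[K] LaurentSeries K}

/-- Reduction of a function whose image at the cusp `1/q` is an `A`-integral series. -/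
theorem s36_cpt_red_int (y : laurentBaseChange K0 (modularFunctionFieldFull M))
    (T : LaurentSeries A) (h : Θ (s36_gc_incl κ M y) = coeffMap A.subtype T) :
    ∃ hy : y ∈ s36_gc_V κ A M Θ,
      s18_red (ι := A.subtype) (ρ := IsLocalRing.residue A) Subtype.val_injective
        ⟨Θ (s36_gc_incl κ M y), s36_gc_mem_V.mp hy⟩ = coeffMap (IsLocalRing.residue A) T := by
  have hy : y ∈ s36_gc_V κ A M Θ := s36_gc_mem_of_integral T h
  refine ⟨hy, ?_⟩
  have e : (⟨Θ (s36_gc_incl κ M y), s36_gc_mem_V.mp hy⟩ :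
      s18_W A.subtype (IsLocalRing.residue A)) =
      ⟨coeffMap A.subtype T, s18_coeffMap_mem_W _ _ T⟩ := Subtype.ext h
  rw [e, s18_red_coeffMap]

/-- The image at the cusp `1/q` of a rational coordinate of level `N q` with integral
`q`-expansion `T`. -/
theorem s36_cpt_coord_int {N q : ℕ} {ζ : Aˣ} (hΘ : s36_gc_IsCusp N q ζ Θ)
    (t₀ : modularFunctionFieldFull M)
    (hlow : (t₀ : LaurentSeries ℚ) ∈ modularFunctionFieldFull (N * q)) (T : LaurentSeries ℤ)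
    (hT : (t₀ : LaurentSeries ℚ) = coeffMap (Int.castRingHom ℚ) T) :
    Θ (s36_gc_incl κ M (s18_coord K0 t₀)) =
      coeffMap A.subtype (coeffMap (Int.castRingHom A) T) := by
  rw [s36_gc_theta_low hΘ _ (coeffEmb_mem_laurentBaseChange K0 hlow)]
  show coeffMap κ (coeffEmb K0 (t₀ : LaurentSeries ℚ)) = _
  rw [hT, coeffEmb, coeffMap_coeffMap, coeffMap_coeffMap, coeffMap_coeffMap]
  exact coeffMap_congr (RingHom.ext_int _ _) T

variable (q : ℕ) [Fact q.Prime] [CharP (IsLocalRing.ResidueField A) q]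

/-- **The congruence hypothesis of `s36_cpt_loc` for the scaled candidate
`z' = (x₂ - x) * y`**, from an identity of `q`-series over the residue field: if
`(-(θ X̄)^(q-1) * Ȳ^(q-1))^n * C̄ = Ā` then, with `u' = q⁻¹ ((x₂ - x) y)^(q-1)`,
`u' ∈ V_C` and `z⁻¹ (u'^n c - a) ∈ V_C`. -/
theorem s36_cpt_cong_int {z : laurentBaseChange K0 (modularFunctionFieldFull M)}
    (hUnif : s34_Unif z (s36_gc_V κ A M Θ)) (ζ : Aˣ) (hζ : IsPrimitiveRoot (ζ : A) q)
    (x x2 y c a : laurentBaseChange K0 (modularFunctionFieldFull M))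
    (X Y Cs As : LaurentSeries A)
    (hX : Θ (s36_gc_incl κ M x) = coeffMap A.subtype X)
    (hY : Θ (s36_gc_incl κ M y) = coeffMap A.subtype Y)
    (hC : Θ (s36_gc_incl κ M c) = coeffMap A.subtype Cs)
    (hA : Θ (s36_gc_incl κ M a) = coeffMap A.subtype As)
    (h2 : Θ (s36_gc_incl κ M x2) =
      twistQ (Units.map (A.subtype : A →* K) ζ) (Θ (s36_gc_incl κ M x))) (n : ℕ)
    (hid : (-(s36_qt_theta (IsLocalRing.ResidueField A) (coeffMap (IsLocalRing.residue A) X)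
          ^ (q - 1)) * coeffMap (IsLocalRing.residue A) Y ^ (q - 1)) ^ n *
        coeffMap (IsLocalRing.residue A) Cs = coeffMap (IsLocalRing.residue A) As) :
    (algebraMap K0 (laurentBaseChange K0 (modularFunctionFieldFull M)) (q : K0))⁻¹ *
        ((x2 - x) * y) ^ (q - 1) ∈ s36_gc_V κ A M Θ ∧
      z⁻¹ * (((algebraMap K0 (laurentBaseChange K0 (modularFunctionFieldFull M)) (q : K0))⁻¹ *
        ((x2 - x) * y) ^ (q - 1)) ^ n * c - a) ∈ s36_gc_V κ A M Θ := by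
  obtain ⟨hx, hxred⟩ := s36_cpt_red_int (κ := κ) x X hX
  obtain ⟨hy, hyred⟩ := s36_cpt_red_int (κ := κ) y Y hY
  obtain ⟨hc, hcred⟩ := s36_cpt_red_int (κ := κ) c Cs hC
  obtain ⟨ha, hared⟩ := s36_cpt_red_int (κ := κ) a As hA
  obtain ⟨hu, hured⟩ := s36_cpt_theta_u (κ := κ) (Θ := Θ) q ζ hζ x x2 hx h2
  rw [hxred] at hured
  have hu' : (algebraMap K0 (laurentBaseChange K0 (modularFunctionFieldFull M)) (q : K0))⁻¹ *
      ((x2 - x) * y) ^ (q - 1) =
      (algebraMap K0 (laurentBaseChange K0 (modularFunctionFieldFull M)) (q : K0))⁻¹ *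
        (x2 - x) ^ (q - 1) * y ^ (q - 1) := by
    rw [mul_pow, mul_assoc]
  rw [hu']
  set u := (algebraMap K0 (laurentBaseChange K0 (modularFunctionFieldFull M)) (q : K0))⁻¹ *
    (x2 - x) ^ (q - 1) with hu_def
  have huy : u * y ^ (q - 1) ∈ s36_gc_V κ A M Θ :=
    Subring.mul_mem _ hu (Subring.pow_mem _ hy _)
  refine ⟨huy, ?_⟩
  have hf : (u * y ^ (q - 1)) ^ n * c - a ∈ s36_gc_V κ A M Θ :=
    Subring.sub_mem _ (Subring.mul_mem _ (Subring.pow_mem _ huy n) hc) ha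
  apply s36_cpt_dvd_of_red hUnif _ hf
  have e : (⟨Θ (s36_gc_incl κ M ((u * y ^ (q - 1)) ^ n * c - a)), s36_gc_mem_V.mp hf⟩ :
        s18_W A.subtype (IsLocalRing.residue A)) =
      (⟨Θ (s36_gc_incl κ M u), s36_gc_mem_V.mp hu⟩ *
        ⟨Θ (s36_gc_incl κ M y), s36_gc_mem_V.mp hy⟩ ^ (q - 1)) ^ n *
        ⟨Θ (s36_gc_incl κ M c), s36_gc_mem_V.mp hc⟩ -
        ⟨Θ (s36_gc_incl κ M a), s36_gc_mem_V.mp ha⟩ := by
    apply Subtype.ext
    show Θ (s36_gc_incl κ M ((u * y ^ (q - 1)) ^ n * c - a)) =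
      (Θ (s36_gc_incl κ M u) * Θ (s36_gc_incl κ M y) ^ (q - 1)) ^ n *
        Θ (s36_gc_incl κ M c) - Θ (s36_gc_incl κ M a)
    simp only [map_sub, map_mul, map_pow]
  rw [e, map_sub, map_mul, map_pow, map_mul, map_pow, hured, hyred, hcred, hared, hid, sub_self]

end Model

section TwoThree

variable {K0 K : Type*} [Field K0] [Field K] [Algebra ℚ K0] [Algebra ℚ K]
  {κ : K0 →+* K} {A : ValuationSubring K} {M : ℕ}
  {Θ : laurentBaseChange K (modularFunctionFieldFull M) →ₐ[K] LaurentSeries K}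

/-- **`q = 3`, coordinate `t₂`** (`θ t̄₂ = -t̄₂`): for `x` with `x̄ = t̄₂` and any integral `y`,
the scaled candidate `z' = (x₂ - x) y` has `u' = 3⁻¹ z'^2 ≡ -(x y)^2` modulo `z V_C`.
(`y = 1`: non-cuspidal points, `a = -x^2`; `y = x⁻¹`: `a = -1`, every point.) -/
theorem s36_cpt_cong3 [CharP (IsLocalRing.ResidueField A) 3]
    {z : laurentBaseChange K0 (modularFunctionFieldFull M)}
    (hUnif : s34_Unif z (s36_gc_V κ A M Θ)) (ζ : Aˣ) (hζ : IsPrimitiveRoot (ζ : A) 3)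
    (x x2 y : laurentBaseChange K0 (modularFunctionFieldFull M)) (X Y : LaurentSeries A)
    (hX : Θ (s36_gc_incl κ M x) = coeffMap A.subtype X)
    (hY : Θ (s36_gc_incl κ M y) = coeffMap A.subtype Y)
    (hXt : coeffMap (IsLocalRing.residue A) X = s18_t2R (IsLocalRing.ResidueField A))
    (h2 : Θ (s36_gc_incl κ M x2) =
      twistQ (Units.map (A.subtype : A →* K) ζ) (Θ (s36_gc_incl κ M x))) :
    (algebraMap K0 (laurentBaseChange K0 (modularFunctionFieldFull M)) ((3 : ℕ) : K0))⁻¹ *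
        ((x2 - x) * y) ^ (3 - 1) ∈ s36_gc_V κ A M Θ ∧
      z⁻¹ * (((algebraMap K0 (laurentBaseChange K0 (modularFunctionFieldFull M))
          ((3 : ℕ) : K0))⁻¹ * ((x2 - x) * y) ^ (3 - 1)) ^ 1 * 1 - (-(x * y) ^ 2)) ∈
        s36_gc_V κ A M Θ := by
  haveI : Fact (Nat.Prime 3) := ⟨Nat.prime_three⟩
  have h3 : (3 : IsLocalRing.ResidueField A) = 0 := by
    have := CharP.cast_eq_zero (IsLocalRing.ResidueField A) 3
    exact_mod_cast this
  refine s36_cpt_cong_int 3 hUnif ζ hζ x x2 y 1 (-(x * y) ^ 2) X Y 1 (-(X * Y) ^ 2) hX hY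
    (by rw [map_one, map_one, map_one])
    (by simp only [map_neg, map_pow, map_mul, hX, hY]) h2 1 ?_
  rw [hXt, s36_th23_t2 _ h3, map_one, map_neg, map_pow, map_mul, hXt]
  norm_num
  ring

/-- **`q = 2`, coordinate `t₃`** (`θ t̄₃ = t̄₃`): for `x` with `x̄ = t̄₃` and any integral `y`,
the scaled candidate `z' = (x₂ - x) y` has `u' = 2⁻¹ z' ≡ -(x y)` modulo `z V_C`.
(`y = 1`: non-cuspidal points, `a = -x`; `y = x⁻¹`: `a = -1`, every point.) -/
theorem s36_cpt_cong2 [CharP (IsLocalRing.ResidueField A) 2]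
    {z : laurentBaseChange K0 (modularFunctionFieldFull M)}
    (hUnif : s34_Unif z (s36_gc_V κ A M Θ)) (ζ : Aˣ) (hζ : IsPrimitiveRoot (ζ : A) 2)
    (x x2 y : laurentBaseChange K0 (modularFunctionFieldFull M)) (X Y : LaurentSeries A)
    (hX : Θ (s36_gc_incl κ M x) = coeffMap A.subtype X)
    (hY : Θ (s36_gc_incl κ M y) = coeffMap A.subtype Y)
    (hXt : coeffMap (IsLocalRing.residue A) X = s18_t3R (IsLocalRing.ResidueField A))
    (h2 : Θ (s36_gc_incl κ M x2) =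
      twistQ (Units.map (A.subtype : A →* K) ζ) (Θ (s36_gc_incl κ M x))) :
    (algebraMap K0 (laurentBaseChange K0 (modularFunctionFieldFull M)) ((2 : ℕ) : K0))⁻¹ *
        ((x2 - x) * y) ^ (2 - 1) ∈ s36_gc_V κ A M Θ ∧
      z⁻¹ * (((algebraMap K0 (laurentBaseChange K0 (modularFunctionFieldFull M))
          ((2 : ℕ) : K0))⁻¹ * ((x2 - x) * y) ^ (2 - 1)) ^ 1 * 1 - (-(x * y))) ∈
        s36_gc_V κ A M Θ := by
  haveI : Fact (Nat.Prime 2) := ⟨Nat.prime_two⟩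
  have h2k : (2 : IsLocalRing.ResidueField A) = 0 := by
    have := CharP.cast_eq_zero (IsLocalRing.ResidueField A) 2
    exact_mod_cast this
  refine s36_cpt_cong_int 2 hUnif ζ hζ x x2 y 1 (-(x * y)) X Y 1 (-(X * Y)) hX hY
    (by rw [map_one, map_one, map_one])
    (by simp only [map_neg, map_mul, hX, hY]) h2 1 ?_
  rw [hXt, s36_th23_t3 _ h2k, map_one, map_neg, map_mul, hXt]
  norm_num

end TwoThree

end Fermat.Agent.S36
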