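import Fermat.Agent.S36.CPtCusp
import Fermat.Agent.S18.ChartZHaupt

/-!
# S36 (NODE-3), contract item (c-Cpt) in the model: the `cpt` field of `s36_ptb_Pts`

Assembly of `S36/CPt` (`s36_cpt_loc`), `S36/CPtTheta` and `S36/CPtCusp` into the exact
conclusion of the field `cpt` of `s36_ptb_Pts` (`S36/PtsPow`): at a closed point `𝔪` of a chart
`B` lying on the component `C` only,

  `∃ z' ε e, s34_Unif z' V_C ∧ z' ∈ B_𝔪 ∧ 0 < e ∧ ε ∈ B_𝔪 ∧ ε⁻¹ ∈ V_C ∧ q = ε * z' ^ e`.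

* `s36_cpm_ratio_mem` (abstract) : `x₂ / x - 1 ∈ B_𝔪` from the two chart memberships
  `G₁ = x^p / x₁ ∈ B`, `G₃ = x₂^p / x₁ ∈ B` and `G₁ ≡ 1` on `C`;
* `s36_cpm_ratio_cong` : `G₁ ≡ 1` modulo `z_C V_C` from the cusp expansions;
* `s36_cpm_cpt` : the conclusion for a scaled candidate `z' = (x₂ - x) y` and an identity of
  `q`-series `(-(θ X̄)^(q-1) Ȳ^(q-1))^n C̄ = Ā` with `a ∉ 𝔪`;
* `s36_cpm_cpt_unit` : the case `(θ x̄)^(q-1) = x̄^(q-1)` (`q = 2, 3`), candidate `x₂ / x - 1`,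
  valid at every point of `C` (cusps included);
* `s36_cpm_cpt_coord` : the same for a rational coordinate with integral `q`-expansion;
* `s36_cpm_cpt3_t2`, `s36_cpm_cpt3_t2inv`, `s36_cpm_cpt2_t3`, `s36_cpm_cpt2_t3inv` : `q = 3` with
  the coordinates `t₂`, `t₂⁻¹` and `q = 2` with the coordinates `t₃`, `t₃⁻¹`.
-/

set_option autoImplicit false
set_option linter.style.haveILetI false
set_option linter.unusedSectionVars false
set_option linter.unusedVariables false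

open ModularCurve

noncomputable section

namespace Fermat.Agent.S36

open Fermat.Agent.S28 (twistQ)
open Fermat.Agent.S18 Fermat.Agent.S34 Fermat.Agent.S37

section Abs

variable {F : Type*} [Field F] {B : Subring F} {ϖ z₀ ε₀ : F} {V₁ V' : Subring F}

/-- `x₂ / x - 1 ∈ B_𝔪` at a point lying on the component `V₁` only, from the chart memberships
of `G₁ = x^p / x₁` and `G₃ = x₂^p / x₁` and the congruence `G₁ ≡ 1` modulo `z₀ V₁`. -/
theorem s36_cpm_ratio_mem (hB₁ : B ≤ V₁) (hB' : B ≤ V') (hϖB : ϖ ∈ B) (hϖ0 : ϖ ≠ 0)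
    (hcap : ∀ x ∈ B, ϖ⁻¹ * x ∈ V₁ → ϖ⁻¹ * x ∈ V' → ϖ⁻¹ * x ∈ B)
    (e : ℕ) (he : 0 < e) (hε₀' : ε₀⁻¹ ∈ V₁) (hϖ : ϖ = ε₀ * z₀ ^ e)
    (𝔪 : Ideal B) [h𝔪 : 𝔪.IsPrime] (hϖ𝔪 : (⟨ϖ, hϖB⟩ : B) ∈ 𝔪)
    (f₀ : B) (hf₀ : f₀ ∉ 𝔪) (hf₀' : ϖ⁻¹ * (f₀ : F) ∈ V')
    (p : ℕ) (hroot : ∀ w : F, w ^ p ∈ s18_loc B 𝔪 → w ∈ s18_loc B 𝔪)
    (x x1 x2 : F) (hx : x ≠ 0)
    (hG₁ : x ^ p * x1⁻¹ ∈ B) (hG₃ : x2 ^ p * x1⁻¹ ∈ B)
    (hG₁c : z₀⁻¹ * (x ^ p * x1⁻¹ - 1) ∈ V₁) :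
    (x2 - x) * x⁻¹ ∈ s18_loc B 𝔪 := by
  have hg : (⟨x ^ p * x1⁻¹, hG₁⟩ : B) ∉ 𝔪 :=
    s36_cpt_not_mem_of_cong hB₁ hB' hϖB hϖ0 hcap e he hε₀' hϖ 𝔪 hϖ𝔪 f₀ hf₀ hf₀'
      ⟨_, hG₁⟩ hG₁c
  have hxp : x ^ p ≠ 0 := pow_ne_zero p hx
  have hy : x2 * x⁻¹ ∈ s18_loc B 𝔪 :=
    s36_cpt_root_mem 𝔪 p hroot (x2 * x⁻¹) ⟨_, hG₁⟩ ⟨_, hG₃⟩ hg (by
      show (x2 * x⁻¹) ^ p * (x ^ p * x1⁻¹) = x2 ^ p * x1⁻¹
      rw [mul_pow, inv_pow]
      field_simp)
  have h1 := s36_cpt_sub_one_mem 𝔪 _ hy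
  have e1 : (x2 - x) * x⁻¹ = x2 * x⁻¹ - 1 := by field_simp
  rw [e1]
  exact h1

end Abs

section Model

variable {K0 K : Type*} [Field K0] [Field K] [Algebra ℚ K0] [Algebra ℚ K]
  {κ : K0 →+* K} {A : ValuationSubring K} {M : ℕ}
  {Θ : laurentBaseChange K (modularFunctionFieldFull M) →ₐ[K] LaurentSeries K}

/-- `x^p * y₁ ≡ 1` modulo `z V_C` from the cusp expansions (`y₁ = x₁⁻¹`). -/
theorem s36_cpm_ratio_cong {z : laurentBaseChange K0 (modularFunctionFieldFull M)}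
    (hUnif : s34_Unif z (s36_gc_V κ A M Θ))
    (x y1 : laurentBaseChange K0 (modularFunctionFieldFull M)) (X Y1 : LaurentSeries A)
    (hX : Θ (s36_gc_incl κ M x) = coeffMap A.subtype X)
    (hY1 : Θ (s36_gc_incl κ M y1) = coeffMap A.subtype Y1) (p : ℕ)
    (hred : coeffMap (IsLocalRing.residue A) X ^ p * coeffMap (IsLocalRing.residue A) Y1 = 1) :
    z⁻¹ * (x ^ p * y1 - 1) ∈ s36_gc_V κ A M Θ := by
  obtain ⟨hf, hfred⟩ := s36_cpt_red_int (κ := κ) (Θ := Θ) (x ^ p * y1 - 1) (X ^ p * Y1 - 1) (by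
    simp only [map_sub, map_mul, map_pow, map_one, hX, hY1])
  apply s36_cpt_dvd_of_red hUnif _ hf
  rw [hfred, map_sub, map_mul, map_pow, map_one, hred, sub_self]

variable (q : ℕ) [Fact q.Prime] [CharP (IsLocalRing.ResidueField A) q]

/-- **The `cpt` field of `s36_ptb_Pts` from a scaled candidate and a `q`-series identity.** -/
theorem s36_cpm_cpt {z : laurentBaseChange K0 (modularFunctionFieldFull M)}
    (hUnif : s34_Unif z (s36_gc_V κ A M Θ)) (ζ : Aˣ) (hζ : IsPrimitiveRoot (ζ : A) q)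
    {B VA VB : Subring (laurentBaseChange K0 (modularFunctionFieldFull M))}
    (hBA : B ≤ VA) (hBB : B ≤ VB) (hBC : B ≤ s36_gc_V κ A M Θ)
    (hϖB : algebraMap K0 (laurentBaseChange K0 (modularFunctionFieldFull M)) (q : K0) ∈ B)
    (hcap : ∀ x ∈ B,
      (algebraMap K0 (laurentBaseChange K0 (modularFunctionFieldFull M)) (q : K0))⁻¹ * x ∈
        VA ⊓ VB ⊓ s36_gc_V κ A M Θ →
      (algebraMap K0 (laurentBaseChange K0 (modularFunctionFieldFull M)) (q : K0))⁻¹ * x ∈ B)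
    (ε₀ : laurentBaseChange K0 (modularFunctionFieldFull M))
    (hε₀ : ε₀ ∈ s36_gc_V κ A M Θ) (hε₀' : ε₀⁻¹ ∈ s36_gc_V κ A M Θ)
    (hϖ : algebraMap K0 (laurentBaseChange K0 (modularFunctionFieldFull M)) (q : K0) =
      ε₀ * z ^ (q - 1))
    (x x2 y : laurentBaseChange K0 (modularFunctionFieldFull M)) (X Y : LaurentSeries A)
    (hX : Θ (s36_gc_incl κ M x) = coeffMap A.subtype X)
    (hY : Θ (s36_gc_incl κ M y) = coeffMap A.subtype Y)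
    (h2 : Θ (s36_gc_incl κ M x2) =
      twistQ (Units.map (A.subtype : A →* K) ζ) (Θ (s36_gc_incl κ M x)))
    (n : ℕ) (hn : 0 < n) (c a : B) (Cs As : LaurentSeries A)
    (hC : Θ (s36_gc_incl κ M (c : laurentBaseChange K0 (modularFunctionFieldFull M))) =
      coeffMap A.subtype Cs)
    (hA : Θ (s36_gc_incl κ M (a : laurentBaseChange K0 (modularFunctionFieldFull M))) =
      coeffMap A.subtype As)
    (hid : (-(s36_qt_theta (IsLocalRing.ResidueField A) (coeffMap (IsLocalRing.residue A) X)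
          ^ (q - 1)) * coeffMap (IsLocalRing.residue A) Y ^ (q - 1)) ^ n *
        coeffMap (IsLocalRing.residue A) Cs = coeffMap (IsLocalRing.residue A) As)
    (𝔪 : Ideal B) [𝔪.IsPrime]
    (hϖ𝔪 : (⟨algebraMap K0 (laurentBaseChange K0 (modularFunctionFieldFull M)) (q : K0), hϖB⟩ :
      B) ∈ 𝔪)
    (f₀ : B) (hf₀ : f₀ ∉ 𝔪)
    (hf₀' : (algebraMap K0 (laurentBaseChange K0 (modularFunctionFieldFull M)) (q : K0))⁻¹ *
      (f₀ : laurentBaseChange K0 (modularFunctionFieldFull M)) ∈ VA ⊓ VB)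
    (hz' : (x2 - x) * y ∈ s18_loc B 𝔪) (ha : a ∉ 𝔪) :
    ∃ (z' ε : laurentBaseChange K0 (modularFunctionFieldFull M)) (e : ℕ),
      s34_Unif z' (s36_gc_V κ A M Θ) ∧ z' ∈ s18_loc B 𝔪 ∧ 0 < e ∧ ε ∈ s18_loc B 𝔪 ∧
        ε⁻¹ ∈ s36_gc_V κ A M Θ ∧
        algebraMap K0 (laurentBaseChange K0 (modularFunctionFieldFull M)) (q : K0) =
          ε * z' ^ e := by
  haveI : CharZero K0 := algebraRat.charZero K0
  have hϖ0 : algebraMap K0 (laurentBaseChange K0 (modularFunctionFieldFull M)) (q : K0) ≠ 0 :=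
    (map_ne_zero _).mpr (Nat.cast_ne_zero.mpr (Fact.out : q.Prime).ne_zero)
  obtain ⟨hu, hcong⟩ := s36_cpt_cong_int q hUnif ζ hζ x x2 y c a X Y Cs As hX hY hC hA h2 n hid
  have hq1 : 0 < q - 1 := by
    have := (Fact.out : q.Prime).two_le
    omega
  obtain ⟨hVz, hε, hε₁, hϖeq⟩ := s36_cpt_loc (V₁ := s36_gc_V κ A M Θ) (V' := VA ⊓ VB) hUnif hBC
    (le_inf hBA hBB) hϖB hϖ0 (fun x hx h1 h2 => hcap x hx ⟨h2, h1⟩) (q - 1) hq1 hε₀ hε₀' hϖ 𝔪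
    hϖ𝔪 f₀ hf₀ hf₀' ((x2 - x) * y) hz' hu n hn c a ha hcong
  exact ⟨_, _, q - 1, hVz, hz', hq1, hε, hε₁, hϖeq⟩

/-- **The `cpt` field when `(θ x̄)^(q-1) = x̄^(q-1)`** (`q = 2, 3`): the candidate
`z' = x₂ / x - 1`, a local equation of `C` at every point of `C` only (cusps included), from the
two chart memberships `G₁ = x^q / x₁ ∈ B`, `G₃ = x₂^q / x₁ ∈ B`. -/
theorem s36_cpm_cpt_unit {z : laurentBaseChange K0 (modularFunctionFieldFull M)}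
    (hUnif : s34_Unif z (s36_gc_V κ A M Θ)) (ζ : Aˣ) (hζ : IsPrimitiveRoot (ζ : A) q)
    {B VA VB : Subring (laurentBaseChange K0 (modularFunctionFieldFull M))}
    (hBA : B ≤ VA) (hBB : B ≤ VB) (hBC : B ≤ s36_gc_V κ A M Θ)
    (hϖB : algebraMap K0 (laurentBaseChange K0 (modularFunctionFieldFull M)) (q : K0) ∈ B)
    (hcap : ∀ x ∈ B,
      (algebraMap K0 (laurentBaseChange K0 (modularFunctionFieldFull M)) (q : K0))⁻¹ * x ∈
        VA ⊓ VB ⊓ s36_gc_V κ A M Θ →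
      (algebraMap K0 (laurentBaseChange K0 (modularFunctionFieldFull M)) (q : K0))⁻¹ * x ∈ B)
    (ε₀ : laurentBaseChange K0 (modularFunctionFieldFull M))
    (hε₀ : ε₀ ∈ s36_gc_V κ A M Θ) (hε₀' : ε₀⁻¹ ∈ s36_gc_V κ A M Θ)
    (hϖ : algebraMap K0 (laurentBaseChange K0 (modularFunctionFieldFull M)) (q : K0) =
      ε₀ * z ^ (q - 1))
    (x x1 x2 : laurentBaseChange K0 (modularFunctionFieldFull M)) (hx : x ≠ 0)
    (X Y Y1 : LaurentSeries A)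
    (hX : Θ (s36_gc_incl κ M x) = coeffMap A.subtype X)
    (hY : Θ (s36_gc_incl κ M x⁻¹) = coeffMap A.subtype Y)
    (hY1 : Θ (s36_gc_incl κ M x1⁻¹) = coeffMap A.subtype Y1)
    (h2 : Θ (s36_gc_incl κ M x2) =
      twistQ (Units.map (A.subtype : A →* K) ζ) (Θ (s36_gc_incl κ M x)))
    (hθ : s36_qt_theta (IsLocalRing.ResidueField A) (coeffMap (IsLocalRing.residue A) X)
        ^ (q - 1) = coeffMap (IsLocalRing.residue A) X ^ (q - 1))
    (hfrob : coeffMap (IsLocalRing.residue A) Y1 = coeffMap (IsLocalRing.residue A) Y ^ q)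
    (hG₁ : x ^ q * x1⁻¹ ∈ B) (hG₃ : x2 ^ q * x1⁻¹ ∈ B)
    (𝔪 : Ideal B) [h𝔪 : 𝔪.IsPrime]
    (hϖ𝔪 : (⟨algebraMap K0 (laurentBaseChange K0 (modularFunctionFieldFull M)) (q : K0), hϖB⟩ :
      B) ∈ 𝔪)
    (hroot : ∀ w : laurentBaseChange K0 (modularFunctionFieldFull M),
      w ^ q ∈ s18_loc B 𝔪 → w ∈ s18_loc B 𝔪)
    (hex : ∃ f₀ : B, f₀ ∉ 𝔪 ∧
      (algebraMap K0 (laurentBaseChange K0 (modularFunctionFieldFull M)) (q : K0))⁻¹ *
        (f₀ : laurentBaseChange K0 (modularFunctionFieldFull M)) ∈ VA ⊓ VB) :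
    ∃ (z' ε : laurentBaseChange K0 (modularFunctionFieldFull M)) (e : ℕ),
      s34_Unif z' (s36_gc_V κ A M Θ) ∧ z' ∈ s18_loc B 𝔪 ∧ 0 < e ∧ ε ∈ s18_loc B 𝔪 ∧
        ε⁻¹ ∈ s36_gc_V κ A M Θ ∧
        algebraMap K0 (laurentBaseChange K0 (modularFunctionFieldFull M)) (q : K0) =
          ε * z' ^ e := by
  obtain ⟨f₀, hf₀, hf₀'⟩ := hex
  haveI : CharZero K0 := algebraRat.charZero K0
  have hϖ0 : algebraMap K0 (laurentBaseChange K0 (modularFunctionFieldFull M)) (q : K0) ≠ 0 :=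
    (map_ne_zero _).mpr (Nat.cast_ne_zero.mpr (Fact.out : q.Prime).ne_zero)
  have hq1 : 0 < q - 1 := by
    have := (Fact.out : q.Prime).two_le
    omega
  -- `X̄ Ȳ = 1`
  have hXY : coeffMap (IsLocalRing.residue A) X * coeffMap (IsLocalRing.residue A) Y = 1 := by
    have h1 : Θ (s36_gc_incl κ M (x * x⁻¹)) = 1 := by
      rw [mul_inv_cancel₀ hx, map_one, map_one]
    rw [map_mul, map_mul, hX, hY, ← map_mul] at h1
    have h2' : X * Y = 1 := by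
      apply s18_coeffMap_injective A.subtype Subtype.val_injective
      rw [h1, map_one]
    rw [← map_mul, h2', map_one]
  have hG₁c : z⁻¹ * (x ^ q * x1⁻¹ - 1) ∈ s36_gc_V κ A M Θ :=
    s36_cpm_ratio_cong hUnif x x1⁻¹ X Y1 hX hY1 q (by rw [hfrob, ← mul_pow, hXY, one_pow])
  have hz' : (x2 - x) * x⁻¹ ∈ s18_loc B 𝔪 :=
    s36_cpm_ratio_mem (V₁ := s36_gc_V κ A M Θ) (V' := VA ⊓ VB) hBC (le_inf hBA hBB) hϖB hϖ0
      (fun x hx h1 h2 => hcap x hx ⟨h2, h1⟩) (q - 1) hq1 hε₀' hϖ 𝔪 hϖ𝔪 f₀ hf₀ hf₀' q hroot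
      x x1 x2 hx hG₁ hG₃ hG₁c
  have ha : (-1 : B) ∉ 𝔪 := by
    intro h
    have h1 : (1 : B) ∈ 𝔪 := by
      have := 𝔪.neg_mem h
      rwa [neg_neg] at this
    exact h𝔪.ne_top ((Ideal.eq_top_iff_one _).mpr h1)
  refine s36_cpm_cpt q hUnif ζ hζ hBA hBB hBC hϖB hcap ε₀ hε₀ hε₀' hϖ x x2 x⁻¹ X Y hX hY h2 1
    one_pos 1 (-1) 1 (-1) ?_ ?_ ?_ 𝔪 hϖ𝔪 f₀ hf₀ hf₀' hz' ha
  · rw [Subring.coe_one, map_one, map_one, map_one]
  · rw [Subring.coe_neg, Subring.coe_one, map_neg, map_neg, map_neg, map_one, map_one, map_one]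
  · rw [hθ, pow_one, map_one, mul_one, map_neg, map_one, neg_mul, ← mul_pow, hXY, one_pow]

end Model

section Coord

variable {K0 K : Type*} [Field K0] [Field K] [Algebra ℚ K0] [Algebra ℚ K]
  {κ : K0 →+* K} {A : ValuationSubring K} {M : ℕ}
  {Θ : laurentBaseChange K (modularFunctionFieldFull M) →ₐ[K] LaurentSeries K}
  {N q : ℕ} {ζ : Aˣ}

/-- Reduction of an integral series with integer coefficients. -/
theorem s36_cpm_res_int (T : LaurentSeries ℤ) :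
    coeffMap (IsLocalRing.residue A) (coeffMap (Int.castRingHom A) T) =
      coeffMap (Int.castRingHom (IsLocalRing.ResidueField A)) T := by
  rw [coeffMap_coeffMap]
  exact coeffMap_congr (RingHom.ext_int _ _) T

/-- Frobenius: `T̄(Q^q) = T̄^q` for a series with integer coefficients, in characteristic `q`. -/
theorem s36_cpm_frob_int (k : Type*) [Field k] (q : ℕ) [NeZero q] [Fact q.Prime] [CharP k q]
    (T : LaurentSeries ℤ) :
    qExpand k q (coeffMap (Int.castRingHom k) T) = coeffMap (Int.castRingHom k) T ^ q := by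
  rw [s37_ec_pow_char q, coeffMap_coeffMap]
  congr 1
  exact coeffMap_congr (RingHom.ext_int _ _) T

/-- **The `cpt` field for a rational coordinate `x` of level `N` with integral `q`-expansion `T`
(and integral inverse `Tinv`) such that `(θ T̄)^(q-1) = T̄^(q-1)`**: at every closed point of the
chart `B` lying on `C` only, `z' = x(Q^(q²)) / x - 1` is a local equation of `C`.  Chart inputs:
`G₁ = x^q / x(Q^q) ∈ B` and `G₃ = x(Q^(q²))^q / x(Q^q) ∈ B`. -/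
theorem s36_cpm_cpt_coord [NeZero N] [NeZero q] [Fact q.Prime]
    [CharP (IsLocalRing.ResidueField A) q]
    (hΘ : s36_gc_IsCusp N q ζ Θ) (hM : N * q ^ 2 ∣ M)
    {z : laurentBaseChange K0 (modularFunctionFieldFull M)}
    (hUnif : s34_Unif z (s36_gc_V κ A M Θ)) (hζ : IsPrimitiveRoot (ζ : A) q)
    {B VA VB : Subring (laurentBaseChange K0 (modularFunctionFieldFull M))}
    (hBA : B ≤ VA) (hBB : B ≤ VB) (hBC : B ≤ s36_gc_V κ A M Θ)
    (hϖB : algebraMap K0 (laurentBaseChange K0 (modularFunctionFieldFull M)) (q : K0) ∈ B)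
    (hcap : ∀ x ∈ B,
      (algebraMap K0 (laurentBaseChange K0 (modularFunctionFieldFull M)) (q : K0))⁻¹ * x ∈
        VA ⊓ VB ⊓ s36_gc_V κ A M Θ →
      (algebraMap K0 (laurentBaseChange K0 (modularFunctionFieldFull M)) (q : K0))⁻¹ * x ∈ B)
    (hzn : algebraMap K0 (laurentBaseChange K0 (modularFunctionFieldFull M)) (q : K0) *
      (z ^ (q - 1))⁻¹ ∈ s36_gc_V κ A M Θ)
    (hzn' : z ^ (q - 1) *
      (algebraMap K0 (laurentBaseChange K0 (modularFunctionFieldFull M)) (q : K0))⁻¹ ∈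
        s36_gc_V κ A M Θ)
    (hroot : ∀ w : laurentBaseChange K0 (modularFunctionFieldFull M), w ^ q ∈ B → w ∈ B)
    (t₀ : modularFunctionFieldFull M) (ht₀ : t₀ ≠ 0)
    (hN : (t₀ : LaurentSeries ℚ) ∈ modularFunctionFieldFull N)
    (T Tinv : LaurentSeries ℤ) (hT : (t₀ : LaurentSeries ℚ) = coeffMap (Int.castRingHom ℚ) T)
    (hTinv : ((t₀⁻¹ : modularFunctionFieldFull M) : LaurentSeries ℚ) =
      coeffMap (Int.castRingHom ℚ) Tinv)
    (hθ : s36_qt_theta (IsLocalRing.ResidueField A)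
        (coeffMap (Int.castRingHom (IsLocalRing.ResidueField A)) T) ^ (q - 1) =
      coeffMap (Int.castRingHom (IsLocalRing.ResidueField A)) T ^ (q - 1))
    (x1 x2 : laurentBaseChange K0 (modularFunctionFieldFull M))
    (hx1 : (x1 : LaurentSeries K0) =
      qExpand K0 q ((s18_coord K0 t₀ : laurentBaseChange K0 (modularFunctionFieldFull M)) :
        LaurentSeries K0))
    (hx2 : (x2 : LaurentSeries K0) =
      qExpand K0 (q ^ 2) ((s18_coord K0 t₀ : laurentBaseChange K0 (modularFunctionFieldFull M)) :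
        LaurentSeries K0))
    (hG₁ : s18_coord K0 t₀ ^ q * x1⁻¹ ∈ B) (hG₃ : x2 ^ q * x1⁻¹ ∈ B)
    (𝔪 : Ideal B) [h𝔪 : 𝔪.IsPrime]
    (hϖ𝔪 : (⟨algebraMap K0 (laurentBaseChange K0 (modularFunctionFieldFull M)) (q : K0), hϖB⟩ :
      B) ∈ 𝔪)
    (hex : ∃ f₀ : B, f₀ ∉ 𝔪 ∧
      (algebraMap K0 (laurentBaseChange K0 (modularFunctionFieldFull M)) (q : K0))⁻¹ *
        (f₀ : laurentBaseChange K0 (modularFunctionFieldFull M)) ∈ VA ⊓ VB) :
    ∃ (z' ε : laurentBaseChange K0 (modularFunctionFieldFull M)) (e : ℕ),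
      s34_Unif z' (s36_gc_V κ A M Θ) ∧ z' ∈ s18_loc B 𝔪 ∧ 0 < e ∧ ε ∈ s18_loc B 𝔪 ∧
        ε⁻¹ ∈ s36_gc_V κ A M Θ ∧
        algebraMap K0 (laurentBaseChange K0 (modularFunctionFieldFull M)) (q : K0) =
          ε * z' ^ e := by
  have hqpos : 0 < q := (Fact.out : q.Prime).pos
  haveI : NeZero (N * q) := ⟨Nat.mul_ne_zero (NeZero.ne N) (NeZero.ne q)⟩
  have hlow : (t₀ : LaurentSeries ℚ) ∈ modularFunctionFieldFull (N * q) :=
    full_degeneracy_le (dvd_mul_right N q) hN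
  have hz0 : z ≠ 0 := hUnif.ne_zero
  have hzp : z ^ (q - 1) ≠ 0 := pow_ne_zero _ hz0
  -- the coordinate and its inverse
  have hx0 : (s18_coord K0 t₀ : laurentBaseChange K0 (modularFunctionFieldFull M)) ≠ 0 := by
    intro h0
    have h1 : coeffEmb K0 (t₀ : LaurentSeries ℚ) = 0 := congrArg Subtype.val h0
    rw [map_eq_zero] at h1
    exact ht₀ (Subtype.ext h1)
  have einv : (s18_coord K0 t₀)⁻¹ = s18_coord K0 t₀⁻¹ := by
    apply Subtype.ext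
    show (coeffEmb K0 (t₀ : LaurentSeries ℚ))⁻¹ = coeffEmb K0 ((t₀ : LaurentSeries ℚ)⁻¹)
    rw [map_inv₀]
  have hlowinv : ((t₀⁻¹ : modularFunctionFieldFull M) : LaurentSeries ℚ) ∈
      modularFunctionFieldFull (N * q) := by
    show (t₀ : LaurentSeries ℚ)⁻¹ ∈ modularFunctionFieldFull (N * q)
    exact inv_mem hlow
  have hNinv : ((t₀⁻¹ : modularFunctionFieldFull M) : LaurentSeries ℚ) ∈
      modularFunctionFieldFull N := by
    show (t₀ : LaurentSeries ℚ)⁻¹ ∈ modularFunctionFieldFull N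
    exact inv_mem hN
  have hX := s36_cpt_coord_int (κ := κ) hΘ t₀ hlow T hT
  have hY : Θ (s36_gc_incl κ M (s18_coord K0 t₀)⁻¹) =
      coeffMap A.subtype (coeffMap (Int.castRingHom A) Tinv) := by
    rw [einv]
    exact s36_cpt_coord_int (κ := κ) hΘ t₀⁻¹ hlowinv Tinv hTinv
  -- the expansion of `x1⁻¹`
  have hx1inv : ((x1⁻¹ : laurentBaseChange K0 (modularFunctionFieldFull M)) : LaurentSeries K0) =
      qExpand K0 q (coeffEmb K0 (coeffMap (Int.castRingHom ℚ) Tinv)) := by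
    show (x1 : LaurentSeries K0)⁻¹ = _
    rw [hx1, ← hTinv]
    show (qExpand K0 q (coeffEmb K0 (t₀ : LaurentSeries ℚ)))⁻¹ =
      qExpand K0 q (coeffEmb K0 ((t₀ : LaurentSeries ℚ)⁻¹))
    rw [map_inv₀, map_inv₀]
  have hx1low : ((x1⁻¹ : laurentBaseChange K0 (modularFunctionFieldFull M)) : LaurentSeries K0) ∈
      laurentBaseChange K0 (modularFunctionFieldFull (N * q)) := by
    rw [hx1inv, ← hTinv]
    exact (heckeBetaBar K0 N q ⟨_, coeffEmb_mem_laurentBaseChange K0 hNinv⟩).2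
  have hY1 : Θ (s36_gc_incl κ M x1⁻¹) =
      coeffMap A.subtype (qExpand A q (coeffMap (Int.castRingHom A) Tinv)) := by
    rw [s36_gc_theta_low hΘ _ hx1low, hx1inv, coeffMap_qExpand, coeffMap_qExpand, coeffEmb,
      coeffMap_coeffMap, coeffMap_coeffMap, coeffMap_coeffMap]
    congr 1
    exact coeffMap_congr (RingHom.ext_int _ _) Tinv
  have h2 := s36_cpt_theta_top (κ := κ) hΘ hM (s18_coord K0 t₀) x2
    (coeffEmb_mem_laurentBaseChange K0 hN) hx2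
  have hθ' : s36_qt_theta (IsLocalRing.ResidueField A)
      (coeffMap (IsLocalRing.residue A) (coeffMap (Int.castRingHom A) T)) ^ (q - 1) =
      coeffMap (IsLocalRing.residue A) (coeffMap (Int.castRingHom A) T) ^ (q - 1) := by
    rw [s36_cpm_res_int]
    exact hθ
  have hfrob : coeffMap (IsLocalRing.residue A)
      (qExpand A q (coeffMap (Int.castRingHom A) Tinv)) =
      coeffMap (IsLocalRing.residue A) (coeffMap (Int.castRingHom A) Tinv) ^ q := by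
    rw [coeffMap_qExpand, s36_cpm_res_int, s36_cpm_frob_int]
  have hroot' : ∀ w : laurentBaseChange K0 (modularFunctionFieldFull M),
      w ^ q ∈ s18_loc B 𝔪 → w ∈ s18_loc B 𝔪 :=
    fun w hw => s34_root_closed_loc B q hqpos hroot 𝔪 w hw
  refine s36_cpm_cpt_unit q hUnif ζ hζ hBA hBB hBC hϖB hcap
    (algebraMap K0 (laurentBaseChange K0 (modularFunctionFieldFull M)) (q : K0) *
      (z ^ (q - 1))⁻¹) hzn ?_ ?_ (s18_coord K0 t₀) x1 x2 hx0 _ _ _ hX hY hY1 h2 hθ' hfrob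
    hG₁ hG₃ 𝔪 hϖ𝔪 hroot' hex
  · rw [mul_inv, inv_inv, mul_comm]
    exact hzn'
  · rw [mul_assoc, inv_mul_cancel₀ hzp, mul_one]

end Coord

section Inst

/-- `θ (1/t) = -c (1/t)` when `θ t = c t`. -/
theorem s36_cpm_theta_inv (R : Type*) [CommRing R] (t ti c : LaurentSeries R) (hti : t * ti = 1)
    (h : s36_qt_theta R t = c * t) : s36_qt_theta R ti = -c * ti := by
  have h1 := congrArg (s36_qt_theta R) hti
  rw [s36_qt_theta_mul, s36_qt_theta_one, h] at h1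
  linear_combination ti * h1 - (c * ti + s36_qt_theta R ti) * hti

theorem s36_cpm_theta_t2 (k : Type*) [CommRing k] (h3 : (3 : k) = 0) :
    s36_qt_theta k (coeffMap (Int.castRingHom k) s18_t2) ^ (3 - 1) =
      coeffMap (Int.castRingHom k) s18_t2 ^ (3 - 1) := by
  have h := s36_th23_t2 k h3
  show s36_qt_theta k (s18_t2R k) ^ 2 = s18_t2R k ^ 2
  rw [h, neg_sq]

theorem s36_cpm_theta_t2inv (k : Type*) [CommRing k] (h3 : (3 : k) = 0) :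
    s36_qt_theta k (coeffMap (Int.castRingHom k) s18_t2inv) ^ (3 - 1) =
      coeffMap (Int.castRingHom k) s18_t2inv ^ (3 - 1) := by
  have h := s36_th23_t2 k h3
  have hi := s36_cpm_theta_inv k (s18_t2R k) (s18_t2invR k) (-1) (s18_t2R_mul_inv k) (by
    rw [h]; ring)
  show s36_qt_theta k (s18_t2invR k) ^ 2 = s18_t2invR k ^ 2
  rw [hi]
  ring

theorem s36_cpm_theta_t3 (k : Type*) [CommRing k] (h2 : (2 : k) = 0) :
    s36_qt_theta k (coeffMap (Int.castRingHom k) s18_t3) ^ (2 - 1) =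
      coeffMap (Int.castRingHom k) s18_t3 ^ (2 - 1) := by
  have h := s36_th23_t3 k h2
  show s36_qt_theta k (s18_t3R k) ^ 1 = s18_t3R k ^ 1
  rw [h]

theorem s36_cpm_theta_t3inv (k : Type*) [CommRing k] (h2 : (2 : k) = 0) :
    s36_qt_theta k (coeffMap (Int.castRingHom k) s18_t3inv) ^ (2 - 1) =
      coeffMap (Int.castRingHom k) s18_t3inv ^ (2 - 1) := by
  have h := s36_th23_t3 k h2
  have hi := s36_cpm_theta_inv k (s18_t3R k) (s18_t3invR k) 1 (s18_t3R_mul_inv k) (by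
    rw [h, one_mul])
  show s36_qt_theta k (s18_t3invR k) ^ 1 = s18_t3invR k ^ 1
  rw [hi, pow_one]
  linear_combination (-(s18_t3invR k)) * s36_th23_two_eq_zero k h2

variable {K0 K : Type*} [Field K0] [Field K] [Algebra ℚ K0] [Algebra ℚ K]
  {κ : K0 →+* K} {A : ValuationSubring K} {M : ℕ}
  {Θ : laurentBaseChange K (modularFunctionFieldFull M) →ₐ[K] LaurentSeries K}
  {N : ℕ} {ζ : Aˣ}

/-- **`cpt`, `q = 3`, chart of `t₂`** (`B ⊆ B₀`-type charts): `z' = t₂(Q^9) / t₂ - 1`. -/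
theorem s36_cpm_cpt3_t2 [NeZero N] [NeZero M] [CharP (IsLocalRing.ResidueField A) 3]
    (hΘ : s36_gc_IsCusp N 3 ζ Θ) (hM : N * 3 ^ 2 ∣ M) (hdN : 2 ∣ N) (hdM : 2 ∣ M)
    {z : laurentBaseChange K0 (modularFunctionFieldFull M)}
    (hUnif : s34_Unif z (s36_gc_V κ A M Θ)) (hζ : IsPrimitiveRoot (ζ : A) 3)
    {B VA VB : Subring (laurentBaseChange K0 (modularFunctionFieldFull M))}
    (hBA : B ≤ VA) (hBB : B ≤ VB) (hBC : B ≤ s36_gc_V κ A M Θ)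
    (hϖB : algebraMap K0 (laurentBaseChange K0 (modularFunctionFieldFull M)) ((3 : ℕ) : K0) ∈ B)
    (hcap : ∀ x ∈ B,
      (algebraMap K0 (laurentBaseChange K0 (modularFunctionFieldFull M)) ((3 : ℕ) : K0))⁻¹ * x ∈
        VA ⊓ VB ⊓ s36_gc_V κ A M Θ →
      (algebraMap K0 (laurentBaseChange K0 (modularFunctionFieldFull M)) ((3 : ℕ) : K0))⁻¹ * x ∈ B)
    (hzn : algebraMap K0 (laurentBaseChange K0 (modularFunctionFieldFull M)) ((3 : ℕ) : K0) *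
      (z ^ (3 - 1))⁻¹ ∈ s36_gc_V κ A M Θ)
    (hzn' : z ^ (3 - 1) *
      (algebraMap K0 (laurentBaseChange K0 (modularFunctionFieldFull M)) ((3 : ℕ) : K0))⁻¹ ∈
        s36_gc_V κ A M Θ)
    (hroot : ∀ w : laurentBaseChange K0 (modularFunctionFieldFull M), w ^ 3 ∈ B → w ∈ B)
    (x1 x2 : laurentBaseChange K0 (modularFunctionFieldFull M))
    (hx1 : (x1 : LaurentSeries K0) =
      qExpand K0 3 ((s18_coord K0 (s18_cz_t2 M hdM) : laurentBaseChange K0 (modularFunctionFieldFull M)) :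
        LaurentSeries K0))
    (hx2 : (x2 : LaurentSeries K0) =
      qExpand K0 (3 ^ 2) ((s18_coord K0 (s18_cz_t2 M hdM) : laurentBaseChange K0 (modularFunctionFieldFull M)) :
        LaurentSeries K0))
    (hG₁ : s18_coord K0 (s18_cz_t2 M hdM) ^ 3 * x1⁻¹ ∈ B) (hG₃ : x2 ^ 3 * x1⁻¹ ∈ B)
    (𝔪 : Ideal B) [h𝔪 : 𝔪.IsPrime]
    (hϖ𝔪 : (⟨algebraMap K0 (laurentBaseChange K0 (modularFunctionFieldFull M)) ((3 : ℕ) : K0), hϖB⟩ :
      B) ∈ 𝔪)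
    (hex : ∃ f₀ : B, f₀ ∉ 𝔪 ∧
      (algebraMap K0 (laurentBaseChange K0 (modularFunctionFieldFull M)) ((3 : ℕ) : K0))⁻¹ *
        (f₀ : laurentBaseChange K0 (modularFunctionFieldFull M)) ∈ VA ⊓ VB) :
    ∃ (z' ε : laurentBaseChange K0 (modularFunctionFieldFull M)) (e : ℕ),
      s34_Unif z' (s36_gc_V κ A M Θ) ∧ z' ∈ s18_loc B 𝔪 ∧ 0 < e ∧ ε ∈ s18_loc B 𝔪 ∧
        ε⁻¹ ∈ s36_gc_V κ A M Θ ∧
        algebraMap K0 (laurentBaseChange K0 (modularFunctionFieldFull M)) ((3 : ℕ) : K0) =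
          ε * z' ^ e := by
  haveI : Fact (Nat.Prime 3) := ⟨Nat.prime_three⟩
  have hk : ((3 : ℕ) : IsLocalRing.ResidueField A) = 0 :=
    CharP.cast_eq_zero (IsLocalRing.ResidueField A) 3
  exact s36_cpm_cpt_coord hΘ hM hUnif hζ hBA hBB hBC hϖB hcap hzn hzn' hroot (s18_cz_t2 M hdM)
    (s18_cz_t2_ne_zero M hdM) (s18_cz_t2 N hdN).2 s18_t2 s18_t2inv rfl (s18_cz_coe_t2_inv M hdM)
    (s36_cpm_theta_t2 _ (by exact_mod_cast hk)) x1 x2 hx1 hx2 hG₁ hG₃ 𝔪 hϖ𝔪 hex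

/-- **`cpt`, `q = 3`, chart of `t₂⁻¹`** (the chart at infinity): `z' = t₂ / t₂(Q^9) - 1`. -/
theorem s36_cpm_cpt3_t2inv [NeZero N] [NeZero M] [CharP (IsLocalRing.ResidueField A) 3]
    (hΘ : s36_gc_IsCusp N 3 ζ Θ) (hM : N * 3 ^ 2 ∣ M) (hdN : 2 ∣ N) (hdM : 2 ∣ M)
    {z : laurentBaseChange K0 (modularFunctionFieldFull M)}
    (hUnif : s34_Unif z (s36_gc_V κ A M Θ)) (hζ : IsPrimitiveRoot (ζ : A) 3)
    {B VA VB : Subring (laurentBaseChange K0 (modularFunctionFieldFull M))}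
    (hBA : B ≤ VA) (hBB : B ≤ VB) (hBC : B ≤ s36_gc_V κ A M Θ)
    (hϖB : algebraMap K0 (laurentBaseChange K0 (modularFunctionFieldFull M)) ((3 : ℕ) : K0) ∈ B)
    (hcap : ∀ x ∈ B,
      (algebraMap K0 (laurentBaseChange K0 (modularFunctionFieldFull M)) ((3 : ℕ) : K0))⁻¹ * x ∈
        VA ⊓ VB ⊓ s36_gc_V κ A M Θ →
      (algebraMap K0 (laurentBaseChange K0 (modularFunctionFieldFull M)) ((3 : ℕ) : K0))⁻¹ * x ∈ B)
    (hzn : algebraMap K0 (laurentBaseChange K0 (modularFunctionFieldFull M)) ((3 : ℕ) : K0) *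
      (z ^ (3 - 1))⁻¹ ∈ s36_gc_V κ A M Θ)
    (hzn' : z ^ (3 - 1) *
      (algebraMap K0 (laurentBaseChange K0 (modularFunctionFieldFull M)) ((3 : ℕ) : K0))⁻¹ ∈
        s36_gc_V κ A M Θ)
    (hroot : ∀ w : laurentBaseChange K0 (modularFunctionFieldFull M), w ^ 3 ∈ B → w ∈ B)
    (x1 x2 : laurentBaseChange K0 (modularFunctionFieldFull M))
    (hx1 : (x1 : LaurentSeries K0) =
      qExpand K0 3 ((s18_coord K0 ((s18_cz_t2 M hdM)⁻¹) : laurentBaseChange K0 (modularFunctionFieldFull M)) :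
        LaurentSeries K0))
    (hx2 : (x2 : LaurentSeries K0) =
      qExpand K0 (3 ^ 2) ((s18_coord K0 ((s18_cz_t2 M hdM)⁻¹) : laurentBaseChange K0 (modularFunctionFieldFull M)) :
        LaurentSeries K0))
    (hG₁ : s18_coord K0 ((s18_cz_t2 M hdM)⁻¹) ^ 3 * x1⁻¹ ∈ B) (hG₃ : x2 ^ 3 * x1⁻¹ ∈ B)
    (𝔪 : Ideal B) [h𝔪 : 𝔪.IsPrime]
    (hϖ𝔪 : (⟨algebraMap K0 (laurentBaseChange K0 (modularFunctionFieldFull M)) ((3 : ℕ) : K0), hϖB⟩ :
      B) ∈ 𝔪)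
    (hex : ∃ f₀ : B, f₀ ∉ 𝔪 ∧
      (algebraMap K0 (laurentBaseChange K0 (modularFunctionFieldFull M)) ((3 : ℕ) : K0))⁻¹ *
        (f₀ : laurentBaseChange K0 (modularFunctionFieldFull M)) ∈ VA ⊓ VB) :
    ∃ (z' ε : laurentBaseChange K0 (modularFunctionFieldFull M)) (e : ℕ),
      s34_Unif z' (s36_gc_V κ A M Θ) ∧ z' ∈ s18_loc B 𝔪 ∧ 0 < e ∧ ε ∈ s18_loc B 𝔪 ∧
        ε⁻¹ ∈ s36_gc_V κ A M Θ ∧
        algebraMap K0 (laurentBaseChange K0 (modularFunctionFieldFull M)) ((3 : ℕ) : K0) =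
          ε * z' ^ e := by
  haveI : Fact (Nat.Prime 3) := ⟨Nat.prime_three⟩
  have hk : ((3 : ℕ) : IsLocalRing.ResidueField A) = 0 :=
    CharP.cast_eq_zero (IsLocalRing.ResidueField A) 3
  exact s36_cpm_cpt_coord hΘ hM hUnif hζ hBA hBB hBC hϖB hcap hzn hzn' hroot ((s18_cz_t2 M hdM)⁻¹)
    (inv_ne_zero (s18_cz_t2_ne_zero M hdM)) (inv_mem (s18_cz_t2 N hdN).2) s18_t2inv s18_t2 (s18_cz_coe_t2_inv M hdM) (by rw [inv_inv]; rfl)
    (s36_cpm_theta_t2inv _ (by exact_mod_cast hk)) x1 x2 hx1 hx2 hG₁ hG₃ 𝔪 hϖ𝔪 hex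

/-- **`cpt`, `q = 2`, chart of `t₃`**: `z' = t₃(Q^4) / t₃ - 1`. -/
theorem s36_cpm_cpt2_t3 [NeZero N] [NeZero M] [CharP (IsLocalRing.ResidueField A) 2]
    (hΘ : s36_gc_IsCusp N 2 ζ Θ) (hM : N * 2 ^ 2 ∣ M) (hdN : 3 ∣ N) (hdM : 3 ∣ M)
    {z : laurentBaseChange K0 (modularFunctionFieldFull M)}
    (hUnif : s34_Unif z (s36_gc_V κ A M Θ)) (hζ : IsPrimitiveRoot (ζ : A) 2)
    {B VA VB : Subring (laurentBaseChange K0 (modularFunctionFieldFull M))}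
    (hBA : B ≤ VA) (hBB : B ≤ VB) (hBC : B ≤ s36_gc_V κ A M Θ)
    (hϖB : algebraMap K0 (laurentBaseChange K0 (modularFunctionFieldFull M)) ((2 : ℕ) : K0) ∈ B)
    (hcap : ∀ x ∈ B,
      (algebraMap K0 (laurentBaseChange K0 (modularFunctionFieldFull M)) ((2 : ℕ) : K0))⁻¹ * x ∈
        VA ⊓ VB ⊓ s36_gc_V κ A M Θ →
      (algebraMap K0 (laurentBaseChange K0 (modularFunctionFieldFull M)) ((2 : ℕ) : K0))⁻¹ * x ∈ B)
    (hzn : algebraMap K0 (laurentBaseChange K0 (modularFunctionFieldFull M)) ((2 : ℕ) : K0) *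
      (z ^ (2 - 1))⁻¹ ∈ s36_gc_V κ A M Θ)
    (hzn' : z ^ (2 - 1) *
      (algebraMap K0 (laurentBaseChange K0 (modularFunctionFieldFull M)) ((2 : ℕ) : K0))⁻¹ ∈
        s36_gc_V κ A M Θ)
    (hroot : ∀ w : laurentBaseChange K0 (modularFunctionFieldFull M), w ^ 2 ∈ B → w ∈ B)
    (x1 x2 : laurentBaseChange K0 (modularFunctionFieldFull M))
    (hx1 : (x1 : LaurentSeries K0) =
      qExpand K0 2 ((s18_coord K0 (s18_cz_t3 M hdM) : laurentBaseChange K0 (modularFunctionFieldFull M)) :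
        LaurentSeries K0))
    (hx2 : (x2 : LaurentSeries K0) =
      qExpand K0 (2 ^ 2) ((s18_coord K0 (s18_cz_t3 M hdM) : laurentBaseChange K0 (modularFunctionFieldFull M)) :
        LaurentSeries K0))
    (hG₁ : s18_coord K0 (s18_cz_t3 M hdM) ^ 2 * x1⁻¹ ∈ B) (hG₃ : x2 ^ 2 * x1⁻¹ ∈ B)
    (𝔪 : Ideal B) [h𝔪 : 𝔪.IsPrime]
    (hϖ𝔪 : (⟨algebraMap K0 (laurentBaseChange K0 (modularFunctionFieldFull M)) ((2 : ℕ) : K0), hϖB⟩ :
      B) ∈ 𝔪)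
    (hex : ∃ f₀ : B, f₀ ∉ 𝔪 ∧
      (algebraMap K0 (laurentBaseChange K0 (modularFunctionFieldFull M)) ((2 : ℕ) : K0))⁻¹ *
        (f₀ : laurentBaseChange K0 (modularFunctionFieldFull M)) ∈ VA ⊓ VB) :
    ∃ (z' ε : laurentBaseChange K0 (modularFunctionFieldFull M)) (e : ℕ),
      s34_Unif z' (s36_gc_V κ A M Θ) ∧ z' ∈ s18_loc B 𝔪 ∧ 0 < e ∧ ε ∈ s18_loc B 𝔪 ∧
        ε⁻¹ ∈ s36_gc_V κ A M Θ ∧
        algebraMap K0 (laurentBaseChange K0 (modularFunctionFieldFull M)) ((2 : ℕ) : K0) =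
          ε * z' ^ e := by
  haveI : Fact (Nat.Prime 2) := ⟨Nat.prime_two⟩
  have hk : ((2 : ℕ) : IsLocalRing.ResidueField A) = 0 :=
    CharP.cast_eq_zero (IsLocalRing.ResidueField A) 2
  exact s36_cpm_cpt_coord hΘ hM hUnif hζ hBA hBB hBC hϖB hcap hzn hzn' hroot (s18_cz_t3 M hdM)
    (s18_cz_t3_ne_zero M hdM) (s18_cz_t3 N hdN).2 s18_t3 s18_t3inv rfl (s18_cz_coe_t3_inv M hdM)
    (s36_cpm_theta_t3 _ (by exact_mod_cast hk)) x1 x2 hx1 hx2 hG₁ hG₃ 𝔪 hϖ𝔪 hex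

/-- **`cpt`, `q = 2`, chart of `t₃⁻¹`** (the chart at infinity): `z' = t₃ / t₃(Q^4) - 1`. -/
theorem s36_cpm_cpt2_t3inv [NeZero N] [NeZero M] [CharP (IsLocalRing.ResidueField A) 2]
    (hΘ : s36_gc_IsCusp N 2 ζ Θ) (hM : N * 2 ^ 2 ∣ M) (hdN : 3 ∣ N) (hdM : 3 ∣ M)
    {z : laurentBaseChange K0 (modularFunctionFieldFull M)}
    (hUnif : s34_Unif z (s36_gc_V κ A M Θ)) (hζ : IsPrimitiveRoot (ζ : A) 2)
    {B VA VB : Subring (laurentBaseChange K0 (modularFunctionFieldFull M))}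
    (hBA : B ≤ VA) (hBB : B ≤ VB) (hBC : B ≤ s36_gc_V κ A M Θ)
    (hϖB : algebraMap K0 (laurentBaseChange K0 (modularFunctionFieldFull M)) ((2 : ℕ) : K0) ∈ B)
    (hcap : ∀ x ∈ B,
      (algebraMap K0 (laurentBaseChange K0 (modularFunctionFieldFull M)) ((2 : ℕ) : K0))⁻¹ * x ∈
        VA ⊓ VB ⊓ s36_gc_V κ A M Θ →
      (algebraMap K0 (laurentBaseChange K0 (modularFunctionFieldFull M)) ((2 : ℕ) : K0))⁻¹ * x ∈ B)
    (hzn : algebraMap K0 (laurentBaseChange K0 (modularFunctionFieldFull M)) ((2 : ℕ) : K0) *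
      (z ^ (2 - 1))⁻¹ ∈ s36_gc_V κ A M Θ)
    (hzn' : z ^ (2 - 1) *
      (algebraMap K0 (laurentBaseChange K0 (modularFunctionFieldFull M)) ((2 : ℕ) : K0))⁻¹ ∈
        s36_gc_V κ A M Θ)
    (hroot : ∀ w : laurentBaseChange K0 (modularFunctionFieldFull M), w ^ 2 ∈ B → w ∈ B)
    (x1 x2 : laurentBaseChange K0 (modularFunctionFieldFull M))
    (hx1 : (x1 : LaurentSeries K0) =
      qExpand K0 2 ((s18_coord K0 ((s18_cz_t3 M hdM)⁻¹) : laurentBaseChange K0 (modularFunctionFieldFull M)) :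
        LaurentSeries K0))
    (hx2 : (x2 : LaurentSeries K0) =
      qExpand K0 (2 ^ 2) ((s18_coord K0 ((s18_cz_t3 M hdM)⁻¹) : laurentBaseChange K0 (modularFunctionFieldFull M)) :
        LaurentSeries K0))
    (hG₁ : s18_coord K0 ((s18_cz_t3 M hdM)⁻¹) ^ 2 * x1⁻¹ ∈ B) (hG₃ : x2 ^ 2 * x1⁻¹ ∈ B)
    (𝔪 : Ideal B) [h𝔪 : 𝔪.IsPrime]
    (hϖ𝔪 : (⟨algebraMap K0 (laurentBaseChange K0 (modularFunctionFieldFull M)) ((2 : ℕ) : K0), hϖB⟩ :
      B) ∈ 𝔪)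
    (hex : ∃ f₀ : B, f₀ ∉ 𝔪 ∧
      (algebraMap K0 (laurentBaseChange K0 (modularFunctionFieldFull M)) ((2 : ℕ) : K0))⁻¹ *
        (f₀ : laurentBaseChange K0 (modularFunctionFieldFull M)) ∈ VA ⊓ VB) :
    ∃ (z' ε : laurentBaseChange K0 (modularFunctionFieldFull M)) (e : ℕ),
      s34_Unif z' (s36_gc_V κ A M Θ) ∧ z' ∈ s18_loc B 𝔪 ∧ 0 < e ∧ ε ∈ s18_loc B 𝔪 ∧
        ε⁻¹ ∈ s36_gc_V κ A M Θ ∧
        algebraMap K0 (laurentBaseChange K0 (modularFunctionFieldFull M)) ((2 : ℕ) : K0) =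
          ε * z' ^ e := by
  haveI : Fact (Nat.Prime 2) := ⟨Nat.prime_two⟩
  have hk : ((2 : ℕ) : IsLocalRing.ResidueField A) = 0 :=
    CharP.cast_eq_zero (IsLocalRing.ResidueField A) 2
  exact s36_cpm_cpt_coord hΘ hM hUnif hζ hBA hBB hBC hϖB hcap hzn hzn' hroot ((s18_cz_t3 M hdM)⁻¹)
    (inv_ne_zero (s18_cz_t3_ne_zero M hdM)) (inv_mem (s18_cz_t3 N hdN).2) s18_t3inv s18_t3 (s18_cz_coe_t3_inv M hdM) (by rw [inv_inv]; rfl)
    (s36_cpm_theta_t3inv _ (by exact_mod_cast hk)) x1 x2 hx1 hx2 hG₁ hG₃ 𝔪 hϖ𝔪 hex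

end Inst

end Fermat.Agent.S36
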