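import Fermat.Agent.S36.CuspMod5S
import Fermat.Agent.S36.CPtModel

/-!
# S36 (NODE-3), contract item (c-Cpt), `q ≥ 5`: the chart-coordinate half (cusps included)

For `q ≥ 5` the candidate `z' = x(Q^(q²)) / x - 1` built on the chart coordinate `x` itself
(`x = t₂` or `x = t₂⁻¹`, resp. `t₃`, `t₃⁻¹`) is a local equation of the component `C` at every
closed point of the chart lying on `C` only at which `x + 64` (resp. `1 + 64 x`, `x + 27`,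
`1 + 27 x`) is a unit -- in particular at the cusps `x ∈ 𝔪`.

* `s36_cu5_cpt_coord` : helper13's `s36_cpm_cpt_coord` with the hypothesis
  `(θ T̄)^(q-1) = T̄^(q-1)` replaced by a congruence `u'^n c ≡ a` (`c, a ∈ B`, `a ∉ 𝔪`).
* `s36_cu5_cpt_t2`, `s36_cu5_cpt_t2inv`, `s36_cu5_cpt_t3`, `s36_cu5_cpt_t3inv` : the binder list
  of `s36_cpm_cpt3_t2` etc. with `3 ↦ q`, plus `x ∈ B` and the unit hypothesis.
* `s36_cu5_cusp_t2`, `s36_cu5_cusp_t2inv`, `s36_cu5_cusp_t3`, `s36_cu5_cusp_t3inv` : the same at a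
  cusp (`x ∈ 𝔪`).
-/

set_option autoImplicit false
set_option synthInstance.maxHeartbeats 400000
set_option linter.style.haveILetI false
set_option linter.unusedSectionVars false
set_option linter.unusedVariables false
set_option linter.unusedSimpArgs false

open ModularCurve

noncomputable section

namespace Fermat.Agent.S36

open Fermat.Agent.S28 (twistQ)
open Fermat.Agent.S18 Fermat.Agent.S34 Fermat.Agent.S37

section Coord

variable {K0 K : Type*} [Field K0] [Field K] [Algebra ℚ K0] [Algebra ℚ K]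
  {κ : K0 →+* K} {A : ValuationSubring K} {M : ℕ}
  {Θ : laurentBaseChange K (modularFunctionFieldFull M) →ₐ[K] LaurentSeries K}
  {N q : ℕ} {ζ : Aˣ}

/-- The expansion of a coordinate with integer `q`-expansion. -/
theorem s36_cu5_coord_coe (t₀ : modularFunctionFieldFull M) (T : LaurentSeries ℤ)
    (hT : (t₀ : LaurentSeries ℚ) = coeffMap (Int.castRingHom ℚ) T) :
    ((s18_coord K0 t₀ : laurentBaseChange K0 (modularFunctionFieldFull M)) : LaurentSeries K0) =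
      coeffMap (Int.castRingHom K0) T := by
  show coeffEmb K0 (t₀ : LaurentSeries ℚ) = _
  rw [hT, coeffEmb, coeffMap_coeffMap]
  exact coeffMap_congr (RingHom.ext_int _ _) T

/-- The inverse of a coordinate is the coordinate of the inverse. -/
theorem s36_cu5_coord_inv (t₀ : modularFunctionFieldFull M) :
    (s18_coord K0 t₀ : laurentBaseChange K0 (modularFunctionFieldFull M))⁻¹ =
      s18_coord K0 t₀⁻¹ := by
  apply Subtype.ext
  show (coeffEmb K0 (t₀ : LaurentSeries ℚ))⁻¹ = coeffEmb K0 ((t₀ : LaurentSeries ℚ)⁻¹)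
  rw [map_inv₀]

/-- **The `cpt` conclusion for a rational coordinate `x` of level `N` with integral
`q`-expansion, from a congruence `u'^n c ≡ a` modulo `z V_C`** (`u' = q⁻¹ z'^(q-1)`,
`z' = x(Q^(q²)) / x - 1`, `c, a ∈ B`, `a ∉ 𝔪`).  Chart inputs as in `s36_cpm_cpt_coord`:
`G₁ = x^q / x(Q^q) ∈ B` and `G₃ = x(Q^(q²))^q / x(Q^q) ∈ B`. -/
theorem s36_cu5_cpt_coord [NeZero N] [NeZero q] [Fact q.Prime]
    [CharP (IsLocalRing.ResidueField A) q]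
    (hΘ : s36_gc_IsCusp N q ζ Θ) (hM : N * q ^ 2 ∣ M)
    {z : laurentBaseChange K0 (modularFunctionFieldFull M)}
    (hUnif : s34_Unif z (s36_gc_V κ A M Θ)) (hζ : IsPrimitiveRoot (ζ : A) q)
    {B VA VB : Subring (laurentBaseChange K0 (modularFunctionFieldFull M))}
    (hBA : B ≤ VA) (hBB : B ≤ VB) (hBC : B ≤ s36_gc_V κ A M Θ)
    (hϖB : algebraMap K0 (laurentBaseChange K0 (modularFunctionFieldFull M)) (q : K0) ∈ B)
    (hcap : ∀ x ∈ B,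
      (algebraMap K0 (laurentBaseChange K0 (modularFunctionFieldFull M)) (q : K0))⁻¹ * x ∈
        VA ⊓ VB ⊓ s36_gc_V κ A M Θ →
      (algebraMap K0 (laurentBaseChange K0 (modularFunctionFieldFull M)) (q : K0))⁻¹ * x ∈ B)
    (hzn : algebraMap K0 (laurentBaseChange K0 (modularFunctionFieldFull M)) (q : K0) *
      (z ^ (q - 1))⁻¹ ∈ s36_gc_V κ A M Θ)
    (hzn' : z ^ (q - 1) *
      (algebraMap K0 (laurentBaseChange K0 (modularFunctionFieldFull M)) (q : K0))⁻¹ ∈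
        s36_gc_V κ A M Θ)
    (hroot : ∀ w : laurentBaseChange K0 (modularFunctionFieldFull M), w ^ q ∈ B → w ∈ B)
    (t₀ : modularFunctionFieldFull M) (ht₀ : t₀ ≠ 0)
    (hN : (t₀ : LaurentSeries ℚ) ∈ modularFunctionFieldFull N)
    (T Tinv : LaurentSeries ℤ) (hT : (t₀ : LaurentSeries ℚ) = coeffMap (Int.castRingHom ℚ) T)
    (hTinv : ((t₀⁻¹ : modularFunctionFieldFull M) : LaurentSeries ℚ) =
      coeffMap (Int.castRingHom ℚ) Tinv)
    (x1 x2 : laurentBaseChange K0 (modularFunctionFieldFull M))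
    (hx1 : (x1 : LaurentSeries K0) =
      qExpand K0 q ((s18_coord K0 t₀ : laurentBaseChange K0 (modularFunctionFieldFull M)) :
        LaurentSeries K0))
    (hG₁ : s18_coord K0 t₀ ^ q * x1⁻¹ ∈ B) (hG₃ : x2 ^ q * x1⁻¹ ∈ B)
    (n : ℕ) (hn : 0 < n) (c a : B)
    (hu : (algebraMap K0 (laurentBaseChange K0 (modularFunctionFieldFull M)) (q : K0))⁻¹ *
        ((x2 - s18_coord K0 t₀) * (s18_coord K0 t₀)⁻¹) ^ (q - 1) ∈ s36_gc_V κ A M Θ)
    (hcong : z⁻¹ *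
        (((algebraMap K0 (laurentBaseChange K0 (modularFunctionFieldFull M)) (q : K0))⁻¹ *
          ((x2 - s18_coord K0 t₀) * (s18_coord K0 t₀)⁻¹) ^ (q - 1)) ^ n *
            (c : laurentBaseChange K0 (modularFunctionFieldFull M)) -
          (a : laurentBaseChange K0 (modularFunctionFieldFull M))) ∈ s36_gc_V κ A M Θ)
    (𝔪 : Ideal B) [h𝔪 : 𝔪.IsPrime]
    (hϖ𝔪 : (⟨algebraMap K0 (laurentBaseChange K0 (modularFunctionFieldFull M)) (q : K0), hϖB⟩ :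
      B) ∈ 𝔪)
    (hex : ∃ f₀ : B, f₀ ∉ 𝔪 ∧
      (algebraMap K0 (laurentBaseChange K0 (modularFunctionFieldFull M)) (q : K0))⁻¹ *
        (f₀ : laurentBaseChange K0 (modularFunctionFieldFull M)) ∈ VA ⊓ VB)
    (ha : a ∉ 𝔪) :
    ∃ (z' ε : laurentBaseChange K0 (modularFunctionFieldFull M)) (e : ℕ),
      s34_Unif z' (s36_gc_V κ A M Θ) ∧ z' ∈ s18_loc B 𝔪 ∧ 0 < e ∧ ε ∈ s18_loc B 𝔪 ∧
        ε⁻¹ ∈ s36_gc_V κ A M Θ ∧
        algebraMap K0 (laurentBaseChange K0 (modularFunctionFieldFull M)) (q : K0) =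
          ε * z' ^ e := by
  obtain ⟨f₀, hf₀, hf₀'⟩ := hex
  have hqpos : 0 < q := (Fact.out : q.Prime).pos
  have hq1 : 0 < q - 1 := by
    have := (Fact.out : q.Prime).two_le
    omega
  haveI : CharZero K0 := algebraRat.charZero K0
  have hϖ0 : algebraMap K0 (laurentBaseChange K0 (modularFunctionFieldFull M)) (q : K0) ≠ 0 :=
    (map_ne_zero _).mpr (Nat.cast_ne_zero.mpr (Fact.out : q.Prime).ne_zero)
  haveI : NeZero (N * q) := ⟨Nat.mul_ne_zero (NeZero.ne N) (NeZero.ne q)⟩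
  have hlow : (t₀ : LaurentSeries ℚ) ∈ modularFunctionFieldFull (N * q) :=
    full_degeneracy_le (dvd_mul_right N q) hN
  have hz0 : z ≠ 0 := hUnif.ne_zero
  have hzp : z ^ (q - 1) ≠ 0 := pow_ne_zero _ hz0
  -- the coordinate and its inverse
  have hx0 : (s18_coord K0 t₀ : laurentBaseChange K0 (modularFunctionFieldFull M)) ≠ 0 := by
    intro h0
    have h1 : coeffEmb K0 (t₀ : LaurentSeries ℚ) = 0 := congrArg Subtype.val h0
    rw [map_eq_zero] at h1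
    exact ht₀ (Subtype.ext h1)
  have einv : (s18_coord K0 t₀)⁻¹ = s18_coord K0 t₀⁻¹ := s36_cu5_coord_inv t₀
  have hlowinv : ((t₀⁻¹ : modularFunctionFieldFull M) : LaurentSeries ℚ) ∈
      modularFunctionFieldFull (N * q) := by
    show (t₀ : LaurentSeries ℚ)⁻¹ ∈ modularFunctionFieldFull (N * q)
    exact inv_mem hlow
  have hNinv : ((t₀⁻¹ : modularFunctionFieldFull M) : LaurentSeries ℚ) ∈
      modularFunctionFieldFull N := by
    show (t₀ : LaurentSeries ℚ)⁻¹ ∈ modularFunctionFieldFull N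
    exact inv_mem hN
  have hX := s36_cpt_coord_int (κ := κ) hΘ t₀ hlow T hT
  have hY : Θ (s36_gc_incl κ M (s18_coord K0 t₀)⁻¹) =
      coeffMap A.subtype (coeffMap (Int.castRingHom A) Tinv) := by
    rw [einv]
    exact s36_cpt_coord_int (κ := κ) hΘ t₀⁻¹ hlowinv Tinv hTinv
  -- the expansion of `x1⁻¹`
  have hx1inv : ((x1⁻¹ : laurentBaseChange K0 (modularFunctionFieldFull M)) : LaurentSeries K0) =
      qExpand K0 q (coeffEmb K0 (coeffMap (Int.castRingHom ℚ) Tinv)) := by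
    show (x1 : LaurentSeries K0)⁻¹ = _
    rw [hx1, ← hTinv]
    show (qExpand K0 q (coeffEmb K0 (t₀ : LaurentSeries ℚ)))⁻¹ =
      qExpand K0 q (coeffEmb K0 ((t₀ : LaurentSeries ℚ)⁻¹))
    rw [map_inv₀, map_inv₀]
  have hx1low : ((x1⁻¹ : laurentBaseChange K0 (modularFunctionFieldFull M)) : LaurentSeries K0) ∈
      laurentBaseChange K0 (modularFunctionFieldFull (N * q)) := by
    rw [hx1inv, ← hTinv]
    exact (heckeBetaBar K0 N q ⟨_, coeffEmb_mem_laurentBaseChange K0 hNinv⟩).2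
  have hY1 : Θ (s36_gc_incl κ M x1⁻¹) =
      coeffMap A.subtype (qExpand A q (coeffMap (Int.castRingHom A) Tinv)) := by
    rw [s36_gc_theta_low hΘ _ hx1low, hx1inv, coeffMap_qExpand, coeffMap_qExpand, coeffEmb,
      coeffMap_coeffMap, coeffMap_coeffMap, coeffMap_coeffMap]
    congr 1
    exact coeffMap_congr (RingHom.ext_int _ _) Tinv
  have hfrob : coeffMap (IsLocalRing.residue A)
      (qExpand A q (coeffMap (Int.castRingHom A) Tinv)) =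
      coeffMap (IsLocalRing.residue A) (coeffMap (Int.castRingHom A) Tinv) ^ q := by
    rw [coeffMap_qExpand, s36_cpm_res_int, s36_cpm_frob_int]
  have hroot' : ∀ w : laurentBaseChange K0 (modularFunctionFieldFull M),
      w ^ q ∈ s18_loc B 𝔪 → w ∈ s18_loc B 𝔪 :=
    fun w hw => s34_root_closed_loc B q hqpos hroot 𝔪 w hw
  -- `X̄ Ȳ = 1`
  have hXY : coeffMap (IsLocalRing.residue A) (coeffMap (Int.castRingHom A) T) *
      coeffMap (IsLocalRing.residue A) (coeffMap (Int.castRingHom A) Tinv) = 1 := by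
    have h1 : Θ (s36_gc_incl κ M (s18_coord K0 t₀ * (s18_coord K0 t₀)⁻¹)) = 1 := by
      rw [mul_inv_cancel₀ hx0, map_one, map_one]
    rw [map_mul, map_mul, hX, hY, ← map_mul] at h1
    have h2' : coeffMap (Int.castRingHom A) T * coeffMap (Int.castRingHom A) Tinv = 1 := by
      apply s18_coeffMap_injective A.subtype Subtype.val_injective
      rw [h1, map_one]
    rw [← map_mul, h2', map_one]
  have hε₀' : (algebraMap K0 (laurentBaseChange K0 (modularFunctionFieldFull M)) (q : K0) *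
      (z ^ (q - 1))⁻¹)⁻¹ ∈ s36_gc_V κ A M Θ := by
    rw [mul_inv, inv_inv, mul_comm]
    exact hzn'
  have hϖ : algebraMap K0 (laurentBaseChange K0 (modularFunctionFieldFull M)) (q : K0) =
      (algebraMap K0 (laurentBaseChange K0 (modularFunctionFieldFull M)) (q : K0) *
        (z ^ (q - 1))⁻¹) * z ^ (q - 1) := by
    rw [mul_assoc, inv_mul_cancel₀ hzp, mul_one]
  have hG₁c : z⁻¹ * (s18_coord K0 t₀ ^ q * x1⁻¹ - 1) ∈ s36_gc_V κ A M Θ :=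
    s36_cpm_ratio_cong hUnif (s18_coord K0 t₀) x1⁻¹ _ _ hX hY1 q
      (by rw [hfrob, ← mul_pow, hXY, one_pow])
  have hz' : (x2 - s18_coord K0 t₀) * (s18_coord K0 t₀)⁻¹ ∈ s18_loc B 𝔪 :=
    s36_cpm_ratio_mem (V₁ := s36_gc_V κ A M Θ) (V' := VA ⊓ VB) hBC (le_inf hBA hBB) hϖB hϖ0
      (fun x hx h1 h2 => hcap x hx ⟨h2, h1⟩) (q - 1) hq1 hε₀' hϖ 𝔪 hϖ𝔪 f₀ hf₀ hf₀' q hroot'
      (s18_coord K0 t₀) x1 x2 hx0 hG₁ hG₃ hG₁c
  obtain ⟨hVz, hε, hε₁, hϖeq⟩ := s36_cpt_loc (V₁ := s36_gc_V κ A M Θ) (V' := VA ⊓ VB) hUnif hBC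
    (le_inf hBA hBB) hϖB hϖ0 (fun x hx h1 h2 => hcap x hx ⟨h2, h1⟩) (q - 1) hq1 hzn hε₀' hϖ 𝔪
    hϖ𝔪 f₀ hf₀ hf₀' ((x2 - s18_coord K0 t₀) * (s18_coord K0 t₀)⁻¹) hz' hu n hn c a ha hcong
  exact ⟨_, _, q - 1, hVz, hz', hq1, hε, hε₁, hϖeq⟩

end Coord

section Inst

/-- In a prime ideal containing `q`, a natural number prime to `q` is a unit. -/
theorem s36_cu5_not_mem_of_coprime {R : Type*} [CommRing R] (𝔪 : Ideal R) [h𝔪 : 𝔪.IsPrime]
    (q n : ℕ) (hcop : Nat.Coprime n q) (hq𝔪 : (q : R) ∈ 𝔪) : (n : R) ∉ 𝔪 := by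
  intro hn
  have h1 : ((Nat.gcd n q : ℕ) : R) ∈ 𝔪 := by
    have e : ((Nat.gcd n q : ℕ) : R) =
        (n : R) * ((Nat.gcdA n q : ℤ) : R) + (q : R) * ((Nat.gcdB n q : ℤ) : R) := by
      have := congrArg (Int.cast : ℤ → R) (Nat.gcd_eq_gcd_ab n q)
      push_cast at this
      exact this
    rw [e]
    exact 𝔪.add_mem (𝔪.mul_mem_right _ hn) (𝔪.mul_mem_right _ hq𝔪)
  rw [hcop.gcd_eq_one, Nat.cast_one] at h1
  exact h𝔪.ne_top ((Ideal.eq_top_iff_one _).mpr h1)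

theorem s36_cu5_coprime_64 {q : ℕ} (hq : q.Prime) (hq5 : 5 ≤ q) : Nat.Coprime 64 q := by
  have h2 : Nat.Coprime 2 q := (Nat.coprime_primes Nat.prime_two hq).mpr (by omega)
  have := Nat.Coprime.pow_left 6 h2
  norm_num at this
  exact this

theorem s36_cu5_coprime_27 {q : ℕ} (hq : q.Prime) (hq5 : 5 ≤ q) : Nat.Coprime 27 q := by
  have h3 : Nat.Coprime 3 q := (Nat.coprime_primes Nat.prime_three hq).mpr (by omega)
  have := Nat.Coprime.pow_left 3 h3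
  norm_num at this
  exact this

variable {K0 K : Type*} [Field K0] [Field K] [Algebra ℚ K0] [Algebra ℚ K]
  {κ : K0 →+* K} {A : ValuationSubring K} {M : ℕ}
  {Θ : laurentBaseChange K (modularFunctionFieldFull M) →ₐ[K] LaurentSeries K}
  {N q : ℕ} {ζ : Aˣ}

/-- The expansion of `j ∈ K₀ · F(M)`. -/
theorem s36_cu5_j_coe (K0 : Type*) [Field K0] [Algebra ℚ K0] (M : ℕ) [NeZero M] :
    ((s18_coord K0 (IgusaScheme.jFull M) : laurentBaseChange K0 (modularFunctionFieldFull M)) :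
      LaurentSeries K0) = jqModC K0 := by
  show coeffEmb K0 jq = jqModC K0
  rw [← jqModC_rat]
  exact map_jqModC _

theorem s36_cu5_j_low (K0 : Type*) [Field K0] [Algebra ℚ K0] (M L : ℕ) [NeZero M] [NeZero L] :
    ((s18_coord K0 (IgusaScheme.jFull M) : laurentBaseChange K0 (modularFunctionFieldFull M)) :
      LaurentSeries K0) ∈ laurentBaseChange K0 (modularFunctionFieldFull L) :=
  coeffEmb_mem_laurentBaseChange K0 (IgusaScheme.jFull L).2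

/-- The element `⟨q, _⟩` of the chart is the natural number `q`. -/
theorem s36_cu5_q_mem {B : Subring (laurentBaseChange K0 (modularFunctionFieldFull M))}
    (hϖB : algebraMap K0 (laurentBaseChange K0 (modularFunctionFieldFull M)) (q : K0) ∈ B)
    (𝔪 : Ideal B)
    (hϖ𝔪 : (⟨algebraMap K0 (laurentBaseChange K0 (modularFunctionFieldFull M)) (q : K0), hϖB⟩ :
      B) ∈ 𝔪) : ((q : ℕ) : B) ∈ 𝔪 := by
  have e : ((q : ℕ) : B) =
      ⟨algebraMap K0 (laurentBaseChange K0 (modularFunctionFieldFull M)) (q : K0), hϖB⟩ :=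
    Subtype.ext ((Subring.coe_natCast B q).trans (map_natCast (algebraMap K0 _) q).symm)
  rw [e]
  exact hϖ𝔪

/-- **`cpt`, `q ≥ 5`, chart of `t₂`, points with `t₂ + 64` a unit** (cusps included): `z' = t₂(Q^(q²)) / t₂ - 1`. -/
theorem s36_cu5_cpt_t2 [NeZero N] [NeZero M] [NeZero q] [Fact q.Prime] (hq5 : 5 ≤ q)
    [CharP (IsLocalRing.ResidueField A) q]
    (hΘ : s36_gc_IsCusp N q ζ Θ) (hM : N * q ^ 2 ∣ M) (hdN : 2 ∣ N) (hdM : 2 ∣ M)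
    {z : laurentBaseChange K0 (modularFunctionFieldFull M)}
    (hUnif : s34_Unif z (s36_gc_V κ A M Θ)) (hζ : IsPrimitiveRoot (ζ : A) q)
    {B VA VB : Subring (laurentBaseChange K0 (modularFunctionFieldFull M))}
    (hBA : B ≤ VA) (hBB : B ≤ VB) (hBC : B ≤ s36_gc_V κ A M Θ)
    (hϖB : algebraMap K0 (laurentBaseChange K0 (modularFunctionFieldFull M)) (q : K0) ∈ B)
    (hcap : ∀ x ∈ B,
      (algebraMap K0 (laurentBaseChange K0 (modularFunctionFieldFull M)) (q : K0))⁻¹ * x ∈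
        VA ⊓ VB ⊓ s36_gc_V κ A M Θ →
      (algebraMap K0 (laurentBaseChange K0 (modularFunctionFieldFull M)) (q : K0))⁻¹ * x ∈ B)
    (hzn : algebraMap K0 (laurentBaseChange K0 (modularFunctionFieldFull M)) (q : K0) *
      (z ^ (q - 1))⁻¹ ∈ s36_gc_V κ A M Θ)
    (hzn' : z ^ (q - 1) *
      (algebraMap K0 (laurentBaseChange K0 (modularFunctionFieldFull M)) (q : K0))⁻¹ ∈
        s36_gc_V κ A M Θ)
    (hroot : ∀ w : laurentBaseChange K0 (modularFunctionFieldFull M), w ^ q ∈ B → w ∈ B)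
    (x1 x2 : laurentBaseChange K0 (modularFunctionFieldFull M))
    (hx1 : (x1 : LaurentSeries K0) =
      qExpand K0 q ((s18_coord K0 (s18_cz_t2 M hdM) : laurentBaseChange K0 (modularFunctionFieldFull M)) :
        LaurentSeries K0))
    (hx2 : (x2 : LaurentSeries K0) =
      qExpand K0 (q ^ 2) ((s18_coord K0 (s18_cz_t2 M hdM) : laurentBaseChange K0 (modularFunctionFieldFull M)) :
        LaurentSeries K0))
    (hG₁ : s18_coord K0 (s18_cz_t2 M hdM) ^ q * x1⁻¹ ∈ B) (hG₃ : x2 ^ q * x1⁻¹ ∈ B)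
    (𝔪 : Ideal B) [h𝔪 : 𝔪.IsPrime]
    (hϖ𝔪 : (⟨algebraMap K0 (laurentBaseChange K0 (modularFunctionFieldFull M)) (q : K0), hϖB⟩ :
      B) ∈ 𝔪)
    (hex : ∃ f₀ : B, f₀ ∉ 𝔪 ∧
      (algebraMap K0 (laurentBaseChange K0 (modularFunctionFieldFull M)) (q : K0))⁻¹ *
        (f₀ : laurentBaseChange K0 (modularFunctionFieldFull M)) ∈ VA ⊓ VB)
    (hxB : s18_coord K0 (s18_cz_t2 M hdM) ∈ B)
    (h64 : ((⟨s18_coord K0 (s18_cz_t2 M hdM), hxB⟩ : B) + 64) ∉ 𝔪) :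
    ∃ (z' ε : laurentBaseChange K0 (modularFunctionFieldFull M)) (e : ℕ),
      s34_Unif z' (s36_gc_V κ A M Θ) ∧ z' ∈ s18_loc B 𝔪 ∧ 0 < e ∧ ε ∈ s18_loc B 𝔪 ∧
        ε⁻¹ ∈ s36_gc_V κ A M Θ ∧
        algebraMap K0 (laurentBaseChange K0 (modularFunctionFieldFull M)) (q : K0) =
          ε * z' ^ e := by
  have hqp : q.Prime := Fact.out
  haveI : NeZero (N * q) := ⟨Nat.mul_ne_zero (NeZero.ne N) (NeZero.ne q)⟩
  have hj := s36_cu5_j_coe K0 M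
  have hjlow := s36_cu5_j_low K0 M (N * q)
  have hx : ((s18_coord K0 (s18_cz_t2 M hdM) : laurentBaseChange K0 (modularFunctionFieldFull M)) :
      LaurentSeries K0) = s18_t2R K0 := s36_cu5_coord_coe (s18_cz_t2 M hdM) s18_t2 rfl
  have hy : (((s18_coord K0 (s18_cz_t2 M hdM))⁻¹ : laurentBaseChange K0 (modularFunctionFieldFull M)) :
      LaurentSeries K0) = s18_t2invR K0 := by
    rw [s36_cu5_coord_inv]
    exact s36_cu5_coord_coe (s18_cz_t2 M hdM)⁻¹ s18_t2inv (s18_cz_coe_t2_inv M hdM)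
  have hxlow : ((s18_coord K0 (s18_cz_t2 M hdM) : laurentBaseChange K0 (modularFunctionFieldFull M)) :
      LaurentSeries K0) ∈ laurentBaseChange K0 (modularFunctionFieldFull (N * q)) :=
    coeffEmb_mem_laurentBaseChange K0 (s18_cz_t2 (N * q) (dvd_mul_of_dvd_left hdN q)).2
  have hylow : (((s18_coord K0 (s18_cz_t2 M hdM))⁻¹ : laurentBaseChange K0 (modularFunctionFieldFull M)) :
      LaurentSeries K0) ∈ laurentBaseChange K0 (modularFunctionFieldFull (N * q)) := by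
    show ((s18_coord K0 (s18_cz_t2 M hdM) : laurentBaseChange K0 (modularFunctionFieldFull M)) :
      LaurentSeries K0)⁻¹ ∈ _
    exact inv_mem hxlow
  have h2 := s36_cpt_theta_top (κ := κ) hΘ hM (s18_coord K0 (s18_cz_t2 M hdM)) x2
    (coeffEmb_mem_laurentBaseChange K0 (s18_cz_t2 N hdN).2) hx2
  obtain ⟨hu, hcong⟩ := s36_cm5s_cong_t2_zero (κ := κ) hΘ hq5 hUnif hζ (s18_coord K0 (IgusaScheme.jFull M))
    (s18_coord K0 (s18_cz_t2 M hdM)) x2 (s18_coord K0 (s18_cz_t2 M hdM))⁻¹ hj hx hy hjlow hxlow hylow h2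
  have hjx : s18_coord K0 (IgusaScheme.jFull M) * s18_coord K0 (s18_cz_t2 M hdM) ^ 2 ∈ B := by
    have e : s18_coord K0 (IgusaScheme.jFull M) * s18_coord K0 (s18_cz_t2 M hdM) ^ 2 =
        (s18_coord K0 (s18_cz_t2 M hdM) + 256) ^ 3 :=
      Subtype.ext (by push_cast; rw [hj, hx]; exact s18_t2R_j K0)
    rw [e]
    exact B.pow_mem (B.add_mem hxB (by exact_mod_cast natCast_mem B 256)) 3
  have hcB := s36_cm5s_c_mem' q hq5 (s18_coord K0 (IgusaScheme.jFull M)) (s18_coord K0 (s18_cz_t2 M hdM)) 2 B hxB hjx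
  have haB : (s18_coord K0 (s18_cz_t2 M hdM) + 64) ^ (3 * (q - 1)) ∈ B :=
    B.pow_mem (B.add_mem hxB (by exact_mod_cast natCast_mem B 64)) _
  have ha : (⟨(s18_coord K0 (s18_cz_t2 M hdM) + 64) ^ (3 * (q - 1)), haB⟩ : B) ∉ 𝔪 := by
    intro h
    have e : (⟨(s18_coord K0 (s18_cz_t2 M hdM) + 64) ^ (3 * (q - 1)), haB⟩ : B) =
        ((⟨s18_coord K0 (s18_cz_t2 M hdM), hxB⟩ : B) + 64) ^ (3 * (q - 1)) := Subtype.ext (by push_cast; rfl)
    rw [e] at h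
    exact h64 (h𝔪.mem_of_pow_mem _ h)
  exact s36_cu5_cpt_coord hΘ hM hUnif hζ hBA hBB hBC hϖB hcap hzn hzn' hroot (s18_cz_t2 M hdM)
    (s18_cz_t2_ne_zero M hdM) (s18_cz_t2 N hdN).2 s18_t2 s18_t2inv rfl (s18_cz_coe_t2_inv M hdM)
    x1 x2 hx1 hG₁ hG₃ 6 (by norm_num) ⟨_, hcB⟩ ⟨_, haB⟩ hu hcong 𝔪 hϖ𝔪 hex ha

/-- **`cpt`, `q ≥ 5`, chart of `t₂⁻¹`, points with `1 + 64 t₂⁻¹` a unit** (cusps included): `z' = t₂ / t₂(Q^(q²)) - 1`. -/
theorem s36_cu5_cpt_t2inv [NeZero N] [NeZero M] [NeZero q] [Fact q.Prime] (hq5 : 5 ≤ q)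
    [CharP (IsLocalRing.ResidueField A) q]
    (hΘ : s36_gc_IsCusp N q ζ Θ) (hM : N * q ^ 2 ∣ M) (hdN : 2 ∣ N) (hdM : 2 ∣ M)
    {z : laurentBaseChange K0 (modularFunctionFieldFull M)}
    (hUnif : s34_Unif z (s36_gc_V κ A M Θ)) (hζ : IsPrimitiveRoot (ζ : A) q)
    {B VA VB : Subring (laurentBaseChange K0 (modularFunctionFieldFull M))}
    (hBA : B ≤ VA) (hBB : B ≤ VB) (hBC : B ≤ s36_gc_V κ A M Θ)
    (hϖB : algebraMap K0 (laurentBaseChange K0 (modularFunctionFieldFull M)) (q : K0) ∈ B)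
    (hcap : ∀ x ∈ B,
      (algebraMap K0 (laurentBaseChange K0 (modularFunctionFieldFull M)) (q : K0))⁻¹ * x ∈
        VA ⊓ VB ⊓ s36_gc_V κ A M Θ →
      (algebraMap K0 (laurentBaseChange K0 (modularFunctionFieldFull M)) (q : K0))⁻¹ * x ∈ B)
    (hzn : algebraMap K0 (laurentBaseChange K0 (modularFunctionFieldFull M)) (q : K0) *
      (z ^ (q - 1))⁻¹ ∈ s36_gc_V κ A M Θ)
    (hzn' : z ^ (q - 1) *
      (algebraMap K0 (laurentBaseChange K0 (modularFunctionFieldFull M)) (q : K0))⁻¹ ∈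
        s36_gc_V κ A M Θ)
    (hroot : ∀ w : laurentBaseChange K0 (modularFunctionFieldFull M), w ^ q ∈ B → w ∈ B)
    (x1 x2 : laurentBaseChange K0 (modularFunctionFieldFull M))
    (hx1 : (x1 : LaurentSeries K0) =
      qExpand K0 q ((s18_coord K0 ((s18_cz_t2 M hdM)⁻¹) : laurentBaseChange K0 (modularFunctionFieldFull M)) :
        LaurentSeries K0))
    (hx2 : (x2 : LaurentSeries K0) =
      qExpand K0 (q ^ 2) ((s18_coord K0 ((s18_cz_t2 M hdM)⁻¹) : laurentBaseChange K0 (modularFunctionFieldFull M)) :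
        LaurentSeries K0))
    (hG₁ : s18_coord K0 ((s18_cz_t2 M hdM)⁻¹) ^ q * x1⁻¹ ∈ B) (hG₃ : x2 ^ q * x1⁻¹ ∈ B)
    (𝔪 : Ideal B) [h𝔪 : 𝔪.IsPrime]
    (hϖ𝔪 : (⟨algebraMap K0 (laurentBaseChange K0 (modularFunctionFieldFull M)) (q : K0), hϖB⟩ :
      B) ∈ 𝔪)
    (hex : ∃ f₀ : B, f₀ ∉ 𝔪 ∧
      (algebraMap K0 (laurentBaseChange K0 (modularFunctionFieldFull M)) (q : K0))⁻¹ *
        (f₀ : laurentBaseChange K0 (modularFunctionFieldFull M)) ∈ VA ⊓ VB)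
    (hxB : s18_coord K0 ((s18_cz_t2 M hdM)⁻¹) ∈ B)
    (h64 : (1 + 64 * (⟨s18_coord K0 ((s18_cz_t2 M hdM)⁻¹), hxB⟩ : B)) ∉ 𝔪) :
    ∃ (z' ε : laurentBaseChange K0 (modularFunctionFieldFull M)) (e : ℕ),
      s34_Unif z' (s36_gc_V κ A M Θ) ∧ z' ∈ s18_loc B 𝔪 ∧ 0 < e ∧ ε ∈ s18_loc B 𝔪 ∧
        ε⁻¹ ∈ s36_gc_V κ A M Θ ∧
        algebraMap K0 (laurentBaseChange K0 (modularFunctionFieldFull M)) (q : K0) =
          ε * z' ^ e := by
  have hqp : q.Prime := Fact.out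
  haveI : NeZero (N * q) := ⟨Nat.mul_ne_zero (NeZero.ne N) (NeZero.ne q)⟩
  have hj := s36_cu5_j_coe K0 M
  have hjlow := s36_cu5_j_low K0 M (N * q)
  have hx : ((s18_coord K0 ((s18_cz_t2 M hdM)⁻¹) : laurentBaseChange K0 (modularFunctionFieldFull M)) :
      LaurentSeries K0) = s18_t2invR K0 := s36_cu5_coord_coe ((s18_cz_t2 M hdM)⁻¹) s18_t2inv (s18_cz_coe_t2_inv M hdM)
  have hy : (((s18_coord K0 ((s18_cz_t2 M hdM)⁻¹))⁻¹ : laurentBaseChange K0 (modularFunctionFieldFull M)) :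
      LaurentSeries K0) = s18_t2R K0 := by
    rw [s36_cu5_coord_inv]
    exact s36_cu5_coord_coe ((s18_cz_t2 M hdM)⁻¹)⁻¹ s18_t2 (by rw [inv_inv]; rfl)
  have hxlow : ((s18_coord K0 ((s18_cz_t2 M hdM)⁻¹) : laurentBaseChange K0 (modularFunctionFieldFull M)) :
      LaurentSeries K0) ∈ laurentBaseChange K0 (modularFunctionFieldFull (N * q)) :=
    coeffEmb_mem_laurentBaseChange K0 (inv_mem (s18_cz_t2 (N * q) (dvd_mul_of_dvd_left hdN q)).2)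
  have hylow : (((s18_coord K0 ((s18_cz_t2 M hdM)⁻¹))⁻¹ : laurentBaseChange K0 (modularFunctionFieldFull M)) :
      LaurentSeries K0) ∈ laurentBaseChange K0 (modularFunctionFieldFull (N * q)) := by
    show ((s18_coord K0 ((s18_cz_t2 M hdM)⁻¹) : laurentBaseChange K0 (modularFunctionFieldFull M)) :
      LaurentSeries K0)⁻¹ ∈ _
    exact inv_mem hxlow
  have h2 := s36_cpt_theta_top (κ := κ) hΘ hM (s18_coord K0 ((s18_cz_t2 M hdM)⁻¹)) x2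
    (coeffEmb_mem_laurentBaseChange K0 (inv_mem (s18_cz_t2 N hdN).2)) hx2
  obtain ⟨hu, hcong⟩ := s36_cm5s_cong_t2_inf (κ := κ) hΘ hq5 hUnif hζ (s18_coord K0 (IgusaScheme.jFull M))
    (s18_coord K0 ((s18_cz_t2 M hdM)⁻¹)) x2 (s18_coord K0 ((s18_cz_t2 M hdM)⁻¹))⁻¹ hj hx hy hjlow hxlow hylow h2
  have hjx : s18_coord K0 (IgusaScheme.jFull M) * s18_coord K0 ((s18_cz_t2 M hdM)⁻¹) ^ 1 ∈ B := by
    have e : s18_coord K0 (IgusaScheme.jFull M) * s18_coord K0 ((s18_cz_t2 M hdM)⁻¹) ^ 1 =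
        (1 + 256 * s18_coord K0 ((s18_cz_t2 M hdM)⁻¹)) ^ 3 :=
      Subtype.ext (by push_cast; rw [hj, hx, pow_one]; exact s36_cm5_j_t2inv K0)
    rw [e]
    exact B.pow_mem (B.add_mem B.one_mem (B.mul_mem (by exact_mod_cast natCast_mem B 256) hxB)) 3
  have hcB := s36_cm5s_c_mem' q hq5 (s18_coord K0 (IgusaScheme.jFull M)) (s18_coord K0 ((s18_cz_t2 M hdM)⁻¹)) 1 B hxB hjx
  rw [one_mul] at hcB
  have haB : (1 + 64 * s18_coord K0 ((s18_cz_t2 M hdM)⁻¹)) ^ (3 * (q - 1)) ∈ B :=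
    B.pow_mem (B.add_mem B.one_mem (B.mul_mem (by exact_mod_cast natCast_mem B 64) hxB)) _
  have ha : (⟨(1 + 64 * s18_coord K0 ((s18_cz_t2 M hdM)⁻¹)) ^ (3 * (q - 1)), haB⟩ : B) ∉ 𝔪 := by
    intro h
    have e : (⟨(1 + 64 * s18_coord K0 ((s18_cz_t2 M hdM)⁻¹)) ^ (3 * (q - 1)), haB⟩ : B) =
        (1 + 64 * (⟨s18_coord K0 ((s18_cz_t2 M hdM)⁻¹), hxB⟩ : B)) ^ (3 * (q - 1)) :=
      Subtype.ext (by push_cast; rfl)
    rw [e] at h
    exact h64 (h𝔪.mem_of_pow_mem _ h)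
  exact s36_cu5_cpt_coord hΘ hM hUnif hζ hBA hBB hBC hϖB hcap hzn hzn' hroot ((s18_cz_t2 M hdM)⁻¹)
    (inv_ne_zero (s18_cz_t2_ne_zero M hdM)) (inv_mem (s18_cz_t2 N hdN).2) s18_t2inv s18_t2
    (s18_cz_coe_t2_inv M hdM) (by rw [inv_inv]; rfl)
    x1 x2 hx1 hG₁ hG₃ 6 (by norm_num) ⟨_, hcB⟩ ⟨_, haB⟩ hu hcong 𝔪 hϖ𝔪 hex ha

/-- **`cpt`, `q ≥ 5`, chart of `t₃`, points with `t₃ + 27` a unit** (cusps included): `z' = t₃(Q^(q²)) / t₃ - 1`. -/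
theorem s36_cu5_cpt_t3 [NeZero N] [NeZero M] [NeZero q] [Fact q.Prime] (hq5 : 5 ≤ q)
    [CharP (IsLocalRing.ResidueField A) q]
    (hΘ : s36_gc_IsCusp N q ζ Θ) (hM : N * q ^ 2 ∣ M) (hdN : 3 ∣ N) (hdM : 3 ∣ M)
    {z : laurentBaseChange K0 (modularFunctionFieldFull M)}
    (hUnif : s34_Unif z (s36_gc_V κ A M Θ)) (hζ : IsPrimitiveRoot (ζ : A) q)
    {B VA VB : Subring (laurentBaseChange K0 (modularFunctionFieldFull M))}
    (hBA : B ≤ VA) (hBB : B ≤ VB) (hBC : B ≤ s36_gc_V κ A M Θ)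
    (hϖB : algebraMap K0 (laurentBaseChange K0 (modularFunctionFieldFull M)) (q : K0) ∈ B)
    (hcap : ∀ x ∈ B,
      (algebraMap K0 (laurentBaseChange K0 (modularFunctionFieldFull M)) (q : K0))⁻¹ * x ∈
        VA ⊓ VB ⊓ s36_gc_V κ A M Θ →
      (algebraMap K0 (laurentBaseChange K0 (modularFunctionFieldFull M)) (q : K0))⁻¹ * x ∈ B)
    (hzn : algebraMap K0 (laurentBaseChange K0 (modularFunctionFieldFull M)) (q : K0) *
      (z ^ (q - 1))⁻¹ ∈ s36_gc_V κ A M Θ)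
    (hzn' : z ^ (q - 1) *
      (algebraMap K0 (laurentBaseChange K0 (modularFunctionFieldFull M)) (q : K0))⁻¹ ∈
        s36_gc_V κ A M Θ)
    (hroot : ∀ w : laurentBaseChange K0 (modularFunctionFieldFull M), w ^ q ∈ B → w ∈ B)
    (x1 x2 : laurentBaseChange K0 (modularFunctionFieldFull M))
    (hx1 : (x1 : LaurentSeries K0) =
      qExpand K0 q ((s18_coord K0 (s18_cz_t3 M hdM) : laurentBaseChange K0 (modularFunctionFieldFull M)) :
        LaurentSeries K0))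
    (hx2 : (x2 : LaurentSeries K0) =
      qExpand K0 (q ^ 2) ((s18_coord K0 (s18_cz_t3 M hdM) : laurentBaseChange K0 (modularFunctionFieldFull M)) :
        LaurentSeries K0))
    (hG₁ : s18_coord K0 (s18_cz_t3 M hdM) ^ q * x1⁻¹ ∈ B) (hG₃ : x2 ^ q * x1⁻¹ ∈ B)
    (𝔪 : Ideal B) [h𝔪 : 𝔪.IsPrime]
    (hϖ𝔪 : (⟨algebraMap K0 (laurentBaseChange K0 (modularFunctionFieldFull M)) (q : K0), hϖB⟩ :
      B) ∈ 𝔪)
    (hex : ∃ f₀ : B, f₀ ∉ 𝔪 ∧
      (algebraMap K0 (laurentBaseChange K0 (modularFunctionFieldFull M)) (q : K0))⁻¹ *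
        (f₀ : laurentBaseChange K0 (modularFunctionFieldFull M)) ∈ VA ⊓ VB)
    (hxB : s18_coord K0 (s18_cz_t3 M hdM) ∈ B)
    (h27 : ((⟨s18_coord K0 (s18_cz_t3 M hdM), hxB⟩ : B) + 27) ∉ 𝔪) :
    ∃ (z' ε : laurentBaseChange K0 (modularFunctionFieldFull M)) (e : ℕ),
      s34_Unif z' (s36_gc_V κ A M Θ) ∧ z' ∈ s18_loc B 𝔪 ∧ 0 < e ∧ ε ∈ s18_loc B 𝔪 ∧
        ε⁻¹ ∈ s36_gc_V κ A M Θ ∧
        algebraMap K0 (laurentBaseChange K0 (modularFunctionFieldFull M)) (q : K0) =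
          ε * z' ^ e := by
  have hqp : q.Prime := Fact.out
  haveI : NeZero (N * q) := ⟨Nat.mul_ne_zero (NeZero.ne N) (NeZero.ne q)⟩
  have hj := s36_cu5_j_coe K0 M
  have hjlow := s36_cu5_j_low K0 M (N * q)
  have hx : ((s18_coord K0 (s18_cz_t3 M hdM) : laurentBaseChange K0 (modularFunctionFieldFull M)) :
      LaurentSeries K0) = s18_t3R K0 := s36_cu5_coord_coe (s18_cz_t3 M hdM) s18_t3 rfl
  have hy : (((s18_coord K0 (s18_cz_t3 M hdM))⁻¹ : laurentBaseChange K0 (modularFunctionFieldFull M)) :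
      LaurentSeries K0) = s18_t3invR K0 := by
    rw [s36_cu5_coord_inv]
    exact s36_cu5_coord_coe (s18_cz_t3 M hdM)⁻¹ s18_t3inv (s18_cz_coe_t3_inv M hdM)
  have hxlow : ((s18_coord K0 (s18_cz_t3 M hdM) : laurentBaseChange K0 (modularFunctionFieldFull M)) :
      LaurentSeries K0) ∈ laurentBaseChange K0 (modularFunctionFieldFull (N * q)) :=
    coeffEmb_mem_laurentBaseChange K0 (s18_cz_t3 (N * q) (dvd_mul_of_dvd_left hdN q)).2
  have hylow : (((s18_coord K0 (s18_cz_t3 M hdM))⁻¹ : laurentBaseChange K0 (modularFunctionFieldFull M)) :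
      LaurentSeries K0) ∈ laurentBaseChange K0 (modularFunctionFieldFull (N * q)) := by
    show ((s18_coord K0 (s18_cz_t3 M hdM) : laurentBaseChange K0 (modularFunctionFieldFull M)) :
      LaurentSeries K0)⁻¹ ∈ _
    exact inv_mem hxlow
  have h2 := s36_cpt_theta_top (κ := κ) hΘ hM (s18_coord K0 (s18_cz_t3 M hdM)) x2
    (coeffEmb_mem_laurentBaseChange K0 (s18_cz_t3 N hdN).2) hx2
  obtain ⟨hu, hcong⟩ := s36_cm5s_cong_t3_zero (κ := κ) hΘ hq5 hUnif hζ (s18_coord K0 (IgusaScheme.jFull M))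
    (s18_coord K0 (s18_cz_t3 M hdM)) x2 (s18_coord K0 (s18_cz_t3 M hdM))⁻¹ hj hx hy hjlow hxlow hylow h2
  have hjx : s18_coord K0 (IgusaScheme.jFull M) * s18_coord K0 (s18_cz_t3 M hdM) ^ 3 ∈ B := by
    have e : s18_coord K0 (IgusaScheme.jFull M) * s18_coord K0 (s18_cz_t3 M hdM) ^ 3 =
        (s18_coord K0 (s18_cz_t3 M hdM) + 27) * (s18_coord K0 (s18_cz_t3 M hdM) + 243) ^ 3 :=
      Subtype.ext (by push_cast; rw [hj, hx]; exact s18_t3R_j K0)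
    rw [e]
    exact B.mul_mem (B.add_mem hxB (by exact_mod_cast natCast_mem B 27))
      (B.pow_mem (B.add_mem hxB (by exact_mod_cast natCast_mem B 243)) 3)
  have hcB := s36_cm5s_c_mem' q hq5 (s18_coord K0 (IgusaScheme.jFull M)) (s18_coord K0 (s18_cz_t3 M hdM)) 3 B hxB hjx
  have haB : (s18_coord K0 (s18_cz_t3 M hdM) + 27) ^ (4 * (q - 1)) ∈ B :=
    B.pow_mem (B.add_mem hxB (by exact_mod_cast natCast_mem B 27)) _
  have ha : (⟨(s18_coord K0 (s18_cz_t3 M hdM) + 27) ^ (4 * (q - 1)), haB⟩ : B) ∉ 𝔪 := by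
    intro h
    have e : (⟨(s18_coord K0 (s18_cz_t3 M hdM) + 27) ^ (4 * (q - 1)), haB⟩ : B) =
        ((⟨s18_coord K0 (s18_cz_t3 M hdM), hxB⟩ : B) + 27) ^ (4 * (q - 1)) := Subtype.ext (by push_cast; rfl)
    rw [e] at h
    exact h27 (h𝔪.mem_of_pow_mem _ h)
  exact s36_cu5_cpt_coord hΘ hM hUnif hζ hBA hBB hBC hϖB hcap hzn hzn' hroot (s18_cz_t3 M hdM)
    (s18_cz_t3_ne_zero M hdM) (s18_cz_t3 N hdN).2 s18_t3 s18_t3inv rfl (s18_cz_coe_t3_inv M hdM)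
    x1 x2 hx1 hG₁ hG₃ 6 (by norm_num) ⟨_, hcB⟩ ⟨_, haB⟩ hu hcong 𝔪 hϖ𝔪 hex ha

/-- **`cpt`, `q ≥ 5`, chart of `t₃⁻¹`, points with `1 + 27 t₃⁻¹` a unit** (cusps included): `z' = t₃ / t₃(Q^(q²)) - 1`. -/
theorem s36_cu5_cpt_t3inv [NeZero N] [NeZero M] [NeZero q] [Fact q.Prime] (hq5 : 5 ≤ q)
    [CharP (IsLocalRing.ResidueField A) q]
    (hΘ : s36_gc_IsCusp N q ζ Θ) (hM : N * q ^ 2 ∣ M) (hdN : 3 ∣ N) (hdM : 3 ∣ M)
    {z : laurentBaseChange K0 (modularFunctionFieldFull M)}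
    (hUnif : s34_Unif z (s36_gc_V κ A M Θ)) (hζ : IsPrimitiveRoot (ζ : A) q)
    {B VA VB : Subring (laurentBaseChange K0 (modularFunctionFieldFull M))}
    (hBA : B ≤ VA) (hBB : B ≤ VB) (hBC : B ≤ s36_gc_V κ A M Θ)
    (hϖB : algebraMap K0 (laurentBaseChange K0 (modularFunctionFieldFull M)) (q : K0) ∈ B)
    (hcap : ∀ x ∈ B,
      (algebraMap K0 (laurentBaseChange K0 (modularFunctionFieldFull M)) (q : K0))⁻¹ * x ∈
        VA ⊓ VB ⊓ s36_gc_V κ A M Θ →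
      (algebraMap K0 (laurentBaseChange K0 (modularFunctionFieldFull M)) (q : K0))⁻¹ * x ∈ B)
    (hzn : algebraMap K0 (laurentBaseChange K0 (modularFunctionFieldFull M)) (q : K0) *
      (z ^ (q - 1))⁻¹ ∈ s36_gc_V κ A M Θ)
    (hzn' : z ^ (q - 1) *
      (algebraMap K0 (laurentBaseChange K0 (modularFunctionFieldFull M)) (q : K0))⁻¹ ∈
        s36_gc_V κ A M Θ)
    (hroot : ∀ w : laurentBaseChange K0 (modularFunctionFieldFull M), w ^ q ∈ B → w ∈ B)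
    (x1 x2 : laurentBaseChange K0 (modularFunctionFieldFull M))
    (hx1 : (x1 : LaurentSeries K0) =
      qExpand K0 q ((s18_coord K0 ((s18_cz_t3 M hdM)⁻¹) : laurentBaseChange K0 (modularFunctionFieldFull M)) :
        LaurentSeries K0))
    (hx2 : (x2 : LaurentSeries K0) =
      qExpand K0 (q ^ 2) ((s18_coord K0 ((s18_cz_t3 M hdM)⁻¹) : laurentBaseChange K0 (modularFunctionFieldFull M)) :
        LaurentSeries K0))
    (hG₁ : s18_coord K0 ((s18_cz_t3 M hdM)⁻¹) ^ q * x1⁻¹ ∈ B) (hG₃ : x2 ^ q * x1⁻¹ ∈ B)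
    (𝔪 : Ideal B) [h𝔪 : 𝔪.IsPrime]
    (hϖ𝔪 : (⟨algebraMap K0 (laurentBaseChange K0 (modularFunctionFieldFull M)) (q : K0), hϖB⟩ :
      B) ∈ 𝔪)
    (hex : ∃ f₀ : B, f₀ ∉ 𝔪 ∧
      (algebraMap K0 (laurentBaseChange K0 (modularFunctionFieldFull M)) (q : K0))⁻¹ *
        (f₀ : laurentBaseChange K0 (modularFunctionFieldFull M)) ∈ VA ⊓ VB)
    (hxB : s18_coord K0 ((s18_cz_t3 M hdM)⁻¹) ∈ B)
    (h27 : (1 + 27 * (⟨s18_coord K0 ((s18_cz_t3 M hdM)⁻¹), hxB⟩ : B)) ∉ 𝔪) :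
    ∃ (z' ε : laurentBaseChange K0 (modularFunctionFieldFull M)) (e : ℕ),
      s34_Unif z' (s36_gc_V κ A M Θ) ∧ z' ∈ s18_loc B 𝔪 ∧ 0 < e ∧ ε ∈ s18_loc B 𝔪 ∧
        ε⁻¹ ∈ s36_gc_V κ A M Θ ∧
        algebraMap K0 (laurentBaseChange K0 (modularFunctionFieldFull M)) (q : K0) =
          ε * z' ^ e := by
  have hqp : q.Prime := Fact.out
  haveI : NeZero (N * q) := ⟨Nat.mul_ne_zero (NeZero.ne N) (NeZero.ne q)⟩
  have hj := s36_cu5_j_coe K0 M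
  have hjlow := s36_cu5_j_low K0 M (N * q)
  have hx : ((s18_coord K0 ((s18_cz_t3 M hdM)⁻¹) : laurentBaseChange K0 (modularFunctionFieldFull M)) :
      LaurentSeries K0) = s18_t3invR K0 := s36_cu5_coord_coe ((s18_cz_t3 M hdM)⁻¹) s18_t3inv (s18_cz_coe_t3_inv M hdM)
  have hy : (((s18_coord K0 ((s18_cz_t3 M hdM)⁻¹))⁻¹ : laurentBaseChange K0 (modularFunctionFieldFull M)) :
      LaurentSeries K0) = s18_t3R K0 := by
    rw [s36_cu5_coord_inv]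
    exact s36_cu5_coord_coe ((s18_cz_t3 M hdM)⁻¹)⁻¹ s18_t3 (by rw [inv_inv]; rfl)
  have hxlow : ((s18_coord K0 ((s18_cz_t3 M hdM)⁻¹) : laurentBaseChange K0 (modularFunctionFieldFull M)) :
      LaurentSeries K0) ∈ laurentBaseChange K0 (modularFunctionFieldFull (N * q)) :=
    coeffEmb_mem_laurentBaseChange K0 (inv_mem (s18_cz_t3 (N * q) (dvd_mul_of_dvd_left hdN q)).2)
  have hylow : (((s18_coord K0 ((s18_cz_t3 M hdM)⁻¹))⁻¹ : laurentBaseChange K0 (modularFunctionFieldFull M)) :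
      LaurentSeries K0) ∈ laurentBaseChange K0 (modularFunctionFieldFull (N * q)) := by
    show ((s18_coord K0 ((s18_cz_t3 M hdM)⁻¹) : laurentBaseChange K0 (modularFunctionFieldFull M)) :
      LaurentSeries K0)⁻¹ ∈ _
    exact inv_mem hxlow
  have h2 := s36_cpt_theta_top (κ := κ) hΘ hM (s18_coord K0 ((s18_cz_t3 M hdM)⁻¹)) x2
    (coeffEmb_mem_laurentBaseChange K0 (inv_mem (s18_cz_t3 N hdN).2)) hx2
  obtain ⟨hu, hcong⟩ := s36_cm5s_cong_t3_inf (κ := κ) hΘ hq5 hUnif hζ (s18_coord K0 (IgusaScheme.jFull M))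
    (s18_coord K0 ((s18_cz_t3 M hdM)⁻¹)) x2 (s18_coord K0 ((s18_cz_t3 M hdM)⁻¹))⁻¹ hj hx hy hjlow hxlow hylow h2
  have hjx : s18_coord K0 (IgusaScheme.jFull M) * s18_coord K0 ((s18_cz_t3 M hdM)⁻¹) ^ 1 ∈ B := by
    have e : s18_coord K0 (IgusaScheme.jFull M) * s18_coord K0 ((s18_cz_t3 M hdM)⁻¹) ^ 1 =
        (1 + 27 * s18_coord K0 ((s18_cz_t3 M hdM)⁻¹)) * (1 + 243 * s18_coord K0 ((s18_cz_t3 M hdM)⁻¹)) ^ 3 :=
      Subtype.ext (by push_cast; rw [hj, hx, pow_one]; exact s36_cm5_j_t3inv K0)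
    rw [e]
    exact B.mul_mem (B.add_mem B.one_mem (B.mul_mem (by exact_mod_cast natCast_mem B 27) hxB))
      (B.pow_mem (B.add_mem B.one_mem (B.mul_mem (by exact_mod_cast natCast_mem B 243) hxB)) 3)
  have hcB := s36_cm5s_c_mem' q hq5 (s18_coord K0 (IgusaScheme.jFull M)) (s18_coord K0 ((s18_cz_t3 M hdM)⁻¹)) 1 B hxB hjx
  rw [one_mul] at hcB
  have haB : (1 + 27 * s18_coord K0 ((s18_cz_t3 M hdM)⁻¹)) ^ (4 * (q - 1)) ∈ B :=
    B.pow_mem (B.add_mem B.one_mem (B.mul_mem (by exact_mod_cast natCast_mem B 27) hxB)) _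
  have ha : (⟨(1 + 27 * s18_coord K0 ((s18_cz_t3 M hdM)⁻¹)) ^ (4 * (q - 1)), haB⟩ : B) ∉ 𝔪 := by
    intro h
    have e : (⟨(1 + 27 * s18_coord K0 ((s18_cz_t3 M hdM)⁻¹)) ^ (4 * (q - 1)), haB⟩ : B) =
        (1 + 27 * (⟨s18_coord K0 ((s18_cz_t3 M hdM)⁻¹), hxB⟩ : B)) ^ (4 * (q - 1)) :=
      Subtype.ext (by push_cast; rfl)
    rw [e] at h
    exact h27 (h𝔪.mem_of_pow_mem _ h)
  exact s36_cu5_cpt_coord hΘ hM hUnif hζ hBA hBB hBC hϖB hcap hzn hzn' hroot ((s18_cz_t3 M hdM)⁻¹)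
    (inv_ne_zero (s18_cz_t3_ne_zero M hdM)) (inv_mem (s18_cz_t3 N hdN).2) s18_t3inv s18_t3
    (s18_cz_coe_t3_inv M hdM) (by rw [inv_inv]; rfl)
    x1 x2 hx1 hG₁ hG₃ 6 (by norm_num) ⟨_, hcB⟩ ⟨_, haB⟩ hu hcong 𝔪 hϖ𝔪 hex ha

/-- **`cpt`, `q ≥ 5`, chart of `t₂`, at a cusp `t₂ ∈ 𝔪`.** -/
theorem s36_cu5_cusp_t2 [NeZero N] [NeZero M] [NeZero q] [Fact q.Prime] (hq5 : 5 ≤ q)
    [CharP (IsLocalRing.ResidueField A) q]
    (hΘ : s36_gc_IsCusp N q ζ Θ) (hM : N * q ^ 2 ∣ M) (hdN : 2 ∣ N) (hdM : 2 ∣ M)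
    {z : laurentBaseChange K0 (modularFunctionFieldFull M)}
    (hUnif : s34_Unif z (s36_gc_V κ A M Θ)) (hζ : IsPrimitiveRoot (ζ : A) q)
    {B VA VB : Subring (laurentBaseChange K0 (modularFunctionFieldFull M))}
    (hBA : B ≤ VA) (hBB : B ≤ VB) (hBC : B ≤ s36_gc_V κ A M Θ)
    (hϖB : algebraMap K0 (laurentBaseChange K0 (modularFunctionFieldFull M)) (q : K0) ∈ B)
    (hcap : ∀ x ∈ B,
      (algebraMap K0 (laurentBaseChange K0 (modularFunctionFieldFull M)) (q : K0))⁻¹ * x ∈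
        VA ⊓ VB ⊓ s36_gc_V κ A M Θ →
      (algebraMap K0 (laurentBaseChange K0 (modularFunctionFieldFull M)) (q : K0))⁻¹ * x ∈ B)
    (hzn : algebraMap K0 (laurentBaseChange K0 (modularFunctionFieldFull M)) (q : K0) *
      (z ^ (q - 1))⁻¹ ∈ s36_gc_V κ A M Θ)
    (hzn' : z ^ (q - 1) *
      (algebraMap K0 (laurentBaseChange K0 (modularFunctionFieldFull M)) (q : K0))⁻¹ ∈
        s36_gc_V κ A M Θ)
    (hroot : ∀ w : laurentBaseChange K0 (modularFunctionFieldFull M), w ^ q ∈ B → w ∈ B)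
    (x1 x2 : laurentBaseChange K0 (modularFunctionFieldFull M))
    (hx1 : (x1 : LaurentSeries K0) =
      qExpand K0 q ((s18_coord K0 (s18_cz_t2 M hdM) : laurentBaseChange K0 (modularFunctionFieldFull M)) :
        LaurentSeries K0))
    (hx2 : (x2 : LaurentSeries K0) =
      qExpand K0 (q ^ 2) ((s18_coord K0 (s18_cz_t2 M hdM) : laurentBaseChange K0 (modularFunctionFieldFull M)) :
        LaurentSeries K0))
    (hG₁ : s18_coord K0 (s18_cz_t2 M hdM) ^ q * x1⁻¹ ∈ B) (hG₃ : x2 ^ q * x1⁻¹ ∈ B)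
    (𝔪 : Ideal B) [h𝔪 : 𝔪.IsPrime]
    (hϖ𝔪 : (⟨algebraMap K0 (laurentBaseChange K0 (modularFunctionFieldFull M)) (q : K0), hϖB⟩ :
      B) ∈ 𝔪)
    (hex : ∃ f₀ : B, f₀ ∉ 𝔪 ∧
      (algebraMap K0 (laurentBaseChange K0 (modularFunctionFieldFull M)) (q : K0))⁻¹ *
        (f₀ : laurentBaseChange K0 (modularFunctionFieldFull M)) ∈ VA ⊓ VB)
    (hxB : s18_coord K0 (s18_cz_t2 M hdM) ∈ B)
    (hx𝔪 : (⟨s18_coord K0 (s18_cz_t2 M hdM), hxB⟩ : B) ∈ 𝔪) :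
    ∃ (z' ε : laurentBaseChange K0 (modularFunctionFieldFull M)) (e : ℕ),
      s34_Unif z' (s36_gc_V κ A M Θ) ∧ z' ∈ s18_loc B 𝔪 ∧ 0 < e ∧ ε ∈ s18_loc B 𝔪 ∧
        ε⁻¹ ∈ s36_gc_V κ A M Θ ∧
        algebraMap K0 (laurentBaseChange K0 (modularFunctionFieldFull M)) (q : K0) =
          ε * z' ^ e := by
  have hqp : q.Prime := Fact.out
  have hq𝔪 := s36_cu5_q_mem hϖB 𝔪 hϖ𝔪
  have hn := s36_cu5_not_mem_of_coprime 𝔪 q 64 (s36_cu5_coprime_64 hqp hq5) hq𝔪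
  refine s36_cu5_cpt_t2 hq5 hΘ hM hdN hdM hUnif hζ hBA hBB hBC hϖB hcap hzn hzn' hroot x1 x2 hx1 hx2
    hG₁ hG₃ 𝔪 hϖ𝔪 hex hxB ?_
  intro h
  apply hn
  have e : ((64 : ℕ) : B) = ((⟨s18_coord K0 (s18_cz_t2 M hdM), hxB⟩ : B) + 64) -
      (⟨s18_coord K0 (s18_cz_t2 M hdM), hxB⟩ : B) := by push_cast; ring
  rw [e]
  exact 𝔪.sub_mem h hx𝔪

/-- **`cpt`, `q ≥ 5`, chart of `t₂⁻¹`, at a cusp `t₂⁻¹ ∈ 𝔪`.** -/
theorem s36_cu5_cusp_t2inv [NeZero N] [NeZero M] [NeZero q] [Fact q.Prime] (hq5 : 5 ≤ q)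
    [CharP (IsLocalRing.ResidueField A) q]
    (hΘ : s36_gc_IsCusp N q ζ Θ) (hM : N * q ^ 2 ∣ M) (hdN : 2 ∣ N) (hdM : 2 ∣ M)
    {z : laurentBaseChange K0 (modularFunctionFieldFull M)}
    (hUnif : s34_Unif z (s36_gc_V κ A M Θ)) (hζ : IsPrimitiveRoot (ζ : A) q)
    {B VA VB : Subring (laurentBaseChange K0 (modularFunctionFieldFull M))}
    (hBA : B ≤ VA) (hBB : B ≤ VB) (hBC : B ≤ s36_gc_V κ A M Θ)
    (hϖB : algebraMap K0 (laurentBaseChange K0 (modularFunctionFieldFull M)) (q : K0) ∈ B)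
    (hcap : ∀ x ∈ B,
      (algebraMap K0 (laurentBaseChange K0 (modularFunctionFieldFull M)) (q : K0))⁻¹ * x ∈
        VA ⊓ VB ⊓ s36_gc_V κ A M Θ →
      (algebraMap K0 (laurentBaseChange K0 (modularFunctionFieldFull M)) (q : K0))⁻¹ * x ∈ B)
    (hzn : algebraMap K0 (laurentBaseChange K0 (modularFunctionFieldFull M)) (q : K0) *
      (z ^ (q - 1))⁻¹ ∈ s36_gc_V κ A M Θ)
    (hzn' : z ^ (q - 1) *
      (algebraMap K0 (laurentBaseChange K0 (modularFunctionFieldFull M)) (q : K0))⁻¹ ∈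
        s36_gc_V κ A M Θ)
    (hroot : ∀ w : laurentBaseChange K0 (modularFunctionFieldFull M), w ^ q ∈ B → w ∈ B)
    (x1 x2 : laurentBaseChange K0 (modularFunctionFieldFull M))
    (hx1 : (x1 : LaurentSeries K0) =
      qExpand K0 q ((s18_coord K0 ((s18_cz_t2 M hdM)⁻¹) : laurentBaseChange K0 (modularFunctionFieldFull M)) :
        LaurentSeries K0))
    (hx2 : (x2 : LaurentSeries K0) =
      qExpand K0 (q ^ 2) ((s18_coord K0 ((s18_cz_t2 M hdM)⁻¹) : laurentBaseChange K0 (modularFunctionFieldFull M)) :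
        LaurentSeries K0))
    (hG₁ : s18_coord K0 ((s18_cz_t2 M hdM)⁻¹) ^ q * x1⁻¹ ∈ B) (hG₃ : x2 ^ q * x1⁻¹ ∈ B)
    (𝔪 : Ideal B) [h𝔪 : 𝔪.IsPrime]
    (hϖ𝔪 : (⟨algebraMap K0 (laurentBaseChange K0 (modularFunctionFieldFull M)) (q : K0), hϖB⟩ :
      B) ∈ 𝔪)
    (hex : ∃ f₀ : B, f₀ ∉ 𝔪 ∧
      (algebraMap K0 (laurentBaseChange K0 (modularFunctionFieldFull M)) (q : K0))⁻¹ *
        (f₀ : laurentBaseChange K0 (modularFunctionFieldFull M)) ∈ VA ⊓ VB)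
    (hxB : s18_coord K0 ((s18_cz_t2 M hdM)⁻¹) ∈ B)
    (hx𝔪 : (⟨s18_coord K0 ((s18_cz_t2 M hdM)⁻¹), hxB⟩ : B) ∈ 𝔪) :
    ∃ (z' ε : laurentBaseChange K0 (modularFunctionFieldFull M)) (e : ℕ),
      s34_Unif z' (s36_gc_V κ A M Θ) ∧ z' ∈ s18_loc B 𝔪 ∧ 0 < e ∧ ε ∈ s18_loc B 𝔪 ∧
        ε⁻¹ ∈ s36_gc_V κ A M Θ ∧
        algebraMap K0 (laurentBaseChange K0 (modularFunctionFieldFull M)) (q : K0) =
          ε * z' ^ e := by
  refine s36_cu5_cpt_t2inv hq5 hΘ hM hdN hdM hUnif hζ hBA hBB hBC hϖB hcap hzn hzn' hroot x1 x2 hx1 hx2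
    hG₁ hG₃ 𝔪 hϖ𝔪 hex hxB ?_
  intro h
  have h1 : (1 : B) ∈ 𝔪 := by
    have e : (1 : B) = (1 + 64 * (⟨s18_coord K0 ((s18_cz_t2 M hdM)⁻¹), hxB⟩ : B)) -
        64 * (⟨s18_coord K0 ((s18_cz_t2 M hdM)⁻¹), hxB⟩ : B) := by ring
    rw [e]
    exact 𝔪.sub_mem h (𝔪.mul_mem_left _ hx𝔪)
  exact h𝔪.ne_top ((Ideal.eq_top_iff_one _).mpr h1)

/-- **`cpt`, `q ≥ 5`, chart of `t₃`, at a cusp `t₃ ∈ 𝔪`.** -/
theorem s36_cu5_cusp_t3 [NeZero N] [NeZero M] [NeZero q] [Fact q.Prime] (hq5 : 5 ≤ q)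
    [CharP (IsLocalRing.ResidueField A) q]
    (hΘ : s36_gc_IsCusp N q ζ Θ) (hM : N * q ^ 2 ∣ M) (hdN : 3 ∣ N) (hdM : 3 ∣ M)
    {z : laurentBaseChange K0 (modularFunctionFieldFull M)}
    (hUnif : s34_Unif z (s36_gc_V κ A M Θ)) (hζ : IsPrimitiveRoot (ζ : A) q)
    {B VA VB : Subring (laurentBaseChange K0 (modularFunctionFieldFull M))}
    (hBA : B ≤ VA) (hBB : B ≤ VB) (hBC : B ≤ s36_gc_V κ A M Θ)
    (hϖB : algebraMap K0 (laurentBaseChange K0 (modularFunctionFieldFull M)) (q : K0) ∈ B)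
    (hcap : ∀ x ∈ B,
      (algebraMap K0 (laurentBaseChange K0 (modularFunctionFieldFull M)) (q : K0))⁻¹ * x ∈
        VA ⊓ VB ⊓ s36_gc_V κ A M Θ →
      (algebraMap K0 (laurentBaseChange K0 (modularFunctionFieldFull M)) (q : K0))⁻¹ * x ∈ B)
    (hzn : algebraMap K0 (laurentBaseChange K0 (modularFunctionFieldFull M)) (q : K0) *
      (z ^ (q - 1))⁻¹ ∈ s36_gc_V κ A M Θ)
    (hzn' : z ^ (q - 1) *
      (algebraMap K0 (laurentBaseChange K0 (modularFunctionFieldFull M)) (q : K0))⁻¹ ∈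
        s36_gc_V κ A M Θ)
    (hroot : ∀ w : laurentBaseChange K0 (modularFunctionFieldFull M), w ^ q ∈ B → w ∈ B)
    (x1 x2 : laurentBaseChange K0 (modularFunctionFieldFull M))
    (hx1 : (x1 : LaurentSeries K0) =
      qExpand K0 q ((s18_coord K0 (s18_cz_t3 M hdM) : laurentBaseChange K0 (modularFunctionFieldFull M)) :
        LaurentSeries K0))
    (hx2 : (x2 : LaurentSeries K0) =
      qExpand K0 (q ^ 2) ((s18_coord K0 (s18_cz_t3 M hdM) : laurentBaseChange K0 (modularFunctionFieldFull M)) :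
        LaurentSeries K0))
    (hG₁ : s18_coord K0 (s18_cz_t3 M hdM) ^ q * x1⁻¹ ∈ B) (hG₃ : x2 ^ q * x1⁻¹ ∈ B)
    (𝔪 : Ideal B) [h𝔪 : 𝔪.IsPrime]
    (hϖ𝔪 : (⟨algebraMap K0 (laurentBaseChange K0 (modularFunctionFieldFull M)) (q : K0), hϖB⟩ :
      B) ∈ 𝔪)
    (hex : ∃ f₀ : B, f₀ ∉ 𝔪 ∧
      (algebraMap K0 (laurentBaseChange K0 (modularFunctionFieldFull M)) (q : K0))⁻¹ *
        (f₀ : laurentBaseChange K0 (modularFunctionFieldFull M)) ∈ VA ⊓ VB)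
    (hxB : s18_coord K0 (s18_cz_t3 M hdM) ∈ B)
    (hx𝔪 : (⟨s18_coord K0 (s18_cz_t3 M hdM), hxB⟩ : B) ∈ 𝔪) :
    ∃ (z' ε : laurentBaseChange K0 (modularFunctionFieldFull M)) (e : ℕ),
      s34_Unif z' (s36_gc_V κ A M Θ) ∧ z' ∈ s18_loc B 𝔪 ∧ 0 < e ∧ ε ∈ s18_loc B 𝔪 ∧
        ε⁻¹ ∈ s36_gc_V κ A M Θ ∧
        algebraMap K0 (laurentBaseChange K0 (modularFunctionFieldFull M)) (q : K0) =
          ε * z' ^ e := by
  have hqp : q.Prime := Fact.out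
  have hq𝔪 := s36_cu5_q_mem hϖB 𝔪 hϖ𝔪
  have hn := s36_cu5_not_mem_of_coprime 𝔪 q 27 (s36_cu5_coprime_27 hqp hq5) hq𝔪
  refine s36_cu5_cpt_t3 hq5 hΘ hM hdN hdM hUnif hζ hBA hBB hBC hϖB hcap hzn hzn' hroot x1 x2 hx1 hx2
    hG₁ hG₃ 𝔪 hϖ𝔪 hex hxB ?_
  intro h
  apply hn
  have e : ((27 : ℕ) : B) = ((⟨s18_coord K0 (s18_cz_t3 M hdM), hxB⟩ : B) + 27) -
      (⟨s18_coord K0 (s18_cz_t3 M hdM), hxB⟩ : B) := by push_cast; ring
  rw [e]
  exact 𝔪.sub_mem h hx𝔪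

/-- **`cpt`, `q ≥ 5`, chart of `t₃⁻¹`, at a cusp `t₃⁻¹ ∈ 𝔪`.** -/
theorem s36_cu5_cusp_t3inv [NeZero N] [NeZero M] [NeZero q] [Fact q.Prime] (hq5 : 5 ≤ q)
    [CharP (IsLocalRing.ResidueField A) q]
    (hΘ : s36_gc_IsCusp N q ζ Θ) (hM : N * q ^ 2 ∣ M) (hdN : 3 ∣ N) (hdM : 3 ∣ M)
    {z : laurentBaseChange K0 (modularFunctionFieldFull M)}
    (hUnif : s34_Unif z (s36_gc_V κ A M Θ)) (hζ : IsPrimitiveRoot (ζ : A) q)
    {B VA VB : Subring (laurentBaseChange K0 (modularFunctionFieldFull M))}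
    (hBA : B ≤ VA) (hBB : B ≤ VB) (hBC : B ≤ s36_gc_V κ A M Θ)
    (hϖB : algebraMap K0 (laurentBaseChange K0 (modularFunctionFieldFull M)) (q : K0) ∈ B)
    (hcap : ∀ x ∈ B,
      (algebraMap K0 (laurentBaseChange K0 (modularFunctionFieldFull M)) (q : K0))⁻¹ * x ∈
        VA ⊓ VB ⊓ s36_gc_V κ A M Θ →
      (algebraMap K0 (laurentBaseChange K0 (modularFunctionFieldFull M)) (q : K0))⁻¹ * x ∈ B)
    (hzn : algebraMap K0 (laurentBaseChange K0 (modularFunctionFieldFull M)) (q : K0) *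
      (z ^ (q - 1))⁻¹ ∈ s36_gc_V κ A M Θ)
    (hzn' : z ^ (q - 1) *
      (algebraMap K0 (laurentBaseChange K0 (modularFunctionFieldFull M)) (q : K0))⁻¹ ∈
        s36_gc_V κ A M Θ)
    (hroot : ∀ w : laurentBaseChange K0 (modularFunctionFieldFull M), w ^ q ∈ B → w ∈ B)
    (x1 x2 : laurentBaseChange K0 (modularFunctionFieldFull M))
    (hx1 : (x1 : LaurentSeries K0) =
      qExpand K0 q ((s18_coord K0 ((s18_cz_t3 M hdM)⁻¹) : laurentBaseChange K0 (modularFunctionFieldFull M)) :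
        LaurentSeries K0))
    (hx2 : (x2 : LaurentSeries K0) =
      qExpand K0 (q ^ 2) ((s18_coord K0 ((s18_cz_t3 M hdM)⁻¹) : laurentBaseChange K0 (modularFunctionFieldFull M)) :
        LaurentSeries K0))
    (hG₁ : s18_coord K0 ((s18_cz_t3 M hdM)⁻¹) ^ q * x1⁻¹ ∈ B) (hG₃ : x2 ^ q * x1⁻¹ ∈ B)
    (𝔪 : Ideal B) [h𝔪 : 𝔪.IsPrime]
    (hϖ𝔪 : (⟨algebraMap K0 (laurentBaseChange K0 (modularFunctionFieldFull M)) (q : K0), hϖB⟩ :
      B) ∈ 𝔪)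
    (hex : ∃ f₀ : B, f₀ ∉ 𝔪 ∧
      (algebraMap K0 (laurentBaseChange K0 (modularFunctionFieldFull M)) (q : K0))⁻¹ *
        (f₀ : laurentBaseChange K0 (modularFunctionFieldFull M)) ∈ VA ⊓ VB)
    (hxB : s18_coord K0 ((s18_cz_t3 M hdM)⁻¹) ∈ B)
    (hx𝔪 : (⟨s18_coord K0 ((s18_cz_t3 M hdM)⁻¹), hxB⟩ : B) ∈ 𝔪) :
    ∃ (z' ε : laurentBaseChange K0 (modularFunctionFieldFull M)) (e : ℕ),
      s34_Unif z' (s36_gc_V κ A M Θ) ∧ z' ∈ s18_loc B 𝔪 ∧ 0 < e ∧ ε ∈ s18_loc B 𝔪 ∧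
        ε⁻¹ ∈ s36_gc_V κ A M Θ ∧
        algebraMap K0 (laurentBaseChange K0 (modularFunctionFieldFull M)) (q : K0) =
          ε * z' ^ e := by
  refine s36_cu5_cpt_t3inv hq5 hΘ hM hdN hdM hUnif hζ hBA hBB hBC hϖB hcap hzn hzn' hroot x1 x2 hx1 hx2
    hG₁ hG₃ 𝔪 hϖ𝔪 hex hxB ?_
  intro h
  have h1 : (1 : B) ∈ 𝔪 := by
    have e : (1 : B) = (1 + 27 * (⟨s18_coord K0 ((s18_cz_t3 M hdM)⁻¹), hxB⟩ : B)) -
        27 * (⟨s18_coord K0 ((s18_cz_t3 M hdM)⁻¹), hxB⟩ : B) := by ring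
    rw [e]
    exact 𝔪.sub_mem h (𝔪.mul_mem_left _ hx𝔪)
  exact h𝔪.ne_top ((Ideal.eq_top_iff_one _).mpr h1)

end Inst

end Fermat.Agent.S36
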