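import Fermat.Agent.S36.CPtNonCusp5
import Fermat.Agent.S36.CPtModel

/-!
# S36 (NODE-3), contract item (c-Cpt), `q ≥ 5`: the non-cuspidal `C`-only points of the `t₂`-charts

The non-cuspidal twin of the cuspidal statement, in the binder shape of `s36_cpm_cpt3_t2` /
`s36_cpm_cpt3_t2inv` (`S36/CPtModel.lean`) with `3 ↦ q`: at a `C`-only prime `𝔪` of a normal chart
`B` at which the coordinate `x ∈ {t₂, t₂⁻¹}` is a unit of `B_𝔪`, the `cpt` conclusion holds.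

* `s36_ni5_unit_mem` (abstract) : `x₂^{±1} ∈ B_𝔪` from `G₁ = x^p / x₁ ∈ B`, `G₃ = x₂^p / x₁ ∈ B`,
  `G₁ ≡ G₃ ≡ 1` on `C` and `x^{±1} ∈ B_𝔪`;
* `s36_ni5_twist_res` : `(X(ζ Q))‾ = X̄`;
* `s36_ni5_six` : `6⁻¹ ∈ B_𝔪`;
* `s36_ni5_core` : the `cpt` conclusion from `t₂^{±1}, t₂(Q^(q²))^{±1} ∈ B_𝔪`;
* `s36_ni5_cpt_t2`, `s36_ni5_cpt_t2inv` : the two charts;
* `s36_ni5_cpt_t2_64`, `s36_ni5_cpt_t2inv_64` : the same with the point hypothesis
  `t₂ + 64 ∈ 𝔪`, resp. `1 + 64 t₂⁻¹ ∈ 𝔪`.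
-/

set_option autoImplicit false
set_option linter.style.haveILetI false
set_option linter.unusedSectionVars false
set_option linter.unusedVariables false

open ModularCurve

noncomputable section

namespace Fermat.Agent.S36

open Fermat.Agent.S28 (twistQ)
open Fermat.Agent.S18 Fermat.Agent.S34 Fermat.Agent.S37

section Abs

variable {F : Type*} [Field F] {B : Subring F} {ϖ z₀ ε₀ : F} {V₁ V' : Subring F}

/-- `x₂^{±1} ∈ B_𝔪` at a point lying on the component `V₁` only, from the chart memberships of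
`G₁ = x^p / x₁` and `G₃ = x₂^p / x₁`, the congruences `G₁ ≡ G₃ ≡ 1` modulo `z₀ V₁` and
`x^{±1} ∈ B_𝔪`. -/
theorem s36_ni5_unit_mem (hB₁ : B ≤ V₁) (hB' : B ≤ V') (hϖB : ϖ ∈ B) (hϖ0 : ϖ ≠ 0)
    (hcap : ∀ x ∈ B, ϖ⁻¹ * x ∈ V₁ → ϖ⁻¹ * x ∈ V' → ϖ⁻¹ * x ∈ B)
    (e : ℕ) (he : 0 < e) (hε₀' : ε₀⁻¹ ∈ V₁) (hϖ : ϖ = ε₀ * z₀ ^ e)
    (𝔪 : Ideal B) [h𝔪 : 𝔪.IsPrime] (hϖ𝔪 : (⟨ϖ, hϖB⟩ : B) ∈ 𝔪)
    (f₀ : B) (hf₀ : f₀ ∉ 𝔪) (hf₀' : ϖ⁻¹ * (f₀ : F) ∈ V')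
    (p : ℕ) (hroot : ∀ w : F, w ^ p ∈ s18_loc B 𝔪 → w ∈ s18_loc B 𝔪)
    (x x1 x2 : F)
    (hG₁ : x ^ p * x1⁻¹ ∈ B) (hG₃ : x2 ^ p * x1⁻¹ ∈ B)
    (hG₁c : z₀⁻¹ * (x ^ p * x1⁻¹ - 1) ∈ V₁) (hG₃c : z₀⁻¹ * (x2 ^ p * x1⁻¹ - 1) ∈ V₁)
    (hxm : x ∈ s18_loc B 𝔪) (hxi : x⁻¹ ∈ s18_loc B 𝔪) :
    x2 ∈ s18_loc B 𝔪 ∧ x2⁻¹ ∈ s18_loc B 𝔪 := by
  have hg₁ : (⟨x ^ p * x1⁻¹, hG₁⟩ : B) ∉ 𝔪 :=
    s36_cpt_not_mem_of_cong hB₁ hB' hϖB hϖ0 hcap e he hε₀' hϖ 𝔪 hϖ𝔪 f₀ hf₀ hf₀'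
      ⟨_, hG₁⟩ hG₁c
  have hg₃ : (⟨x2 ^ p * x1⁻¹, hG₃⟩ : B) ∉ 𝔪 :=
    s36_cpt_not_mem_of_cong hB₁ hB' hϖB hϖ0 hcap e he hε₀' hϖ 𝔪 hϖ𝔪 f₀ hf₀ hf₀'
      ⟨_, hG₃⟩ hG₃c
  have hg₁0 : x ^ p * x1⁻¹ ≠ 0 := fun h0 => hg₁ (by
    have : (⟨x ^ p * x1⁻¹, hG₁⟩ : B) = 0 := Subtype.ext h0
    rw [this]; exact 𝔪.zero_mem)
  have hg₃0 : x2 ^ p * x1⁻¹ ≠ 0 := fun h0 => hg₃ (by
    have : (⟨x2 ^ p * x1⁻¹, hG₃⟩ : B) = 0 := Subtype.ext h0
    rw [this]; exact 𝔪.zero_mem)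
  have hxp : x ^ p ≠ 0 := left_ne_zero_of_mul hg₁0
  have hx1i : x1⁻¹ ≠ 0 := right_ne_zero_of_mul hg₁0
  have hx2p : x2 ^ p ≠ 0 := left_ne_zero_of_mul hg₃0
  have hx1 : x1 ≠ 0 := fun h => hx1i (by rw [h, inv_zero])
  have hi₁ : (x ^ p * x1⁻¹)⁻¹ ∈ s18_loc B 𝔪 := s36_pp_inv_mem B 𝔪 ⟨_, hG₁⟩ hg₁
  have hi₃ : (x2 ^ p * x1⁻¹)⁻¹ ∈ s18_loc B 𝔪 := s36_pp_inv_mem B 𝔪 ⟨_, hG₃⟩ hg₃
  have hm₁ : x ^ p * x1⁻¹ ∈ s18_loc B 𝔪 := ⟨⟨_, hG₁⟩, 1, fun h => h𝔪.ne_top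
    ((Ideal.eq_top_iff_one _).mpr h), by simp⟩
  have hm₃ : x2 ^ p * x1⁻¹ ∈ s18_loc B 𝔪 := ⟨⟨_, hG₃⟩, 1, fun h => h𝔪.ne_top
    ((Ideal.eq_top_iff_one _).mpr h), by simp⟩
  constructor
  · apply hroot
    have e1 : x2 ^ p = x2 ^ p * x1⁻¹ * (x ^ p * x1⁻¹)⁻¹ * x ^ p := by
      field_simp
    rw [e1]
    exact Subring.mul_mem (s18_locRing B 𝔪) (Subring.mul_mem (s18_locRing B 𝔪) hm₃ hi₁)
      (Subring.pow_mem (s18_locRing B 𝔪) hxm p)
  · apply hroot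
    have e1 : x2⁻¹ ^ p = x ^ p * x1⁻¹ * (x2 ^ p * x1⁻¹)⁻¹ * x⁻¹ ^ p := by
      rw [inv_pow, inv_pow]
      field_simp
    rw [e1]
    exact Subring.mul_mem (s18_locRing B 𝔪) (Subring.mul_mem (s18_locRing B 𝔪) hm₁ hi₃)
      (Subring.pow_mem (s18_locRing B 𝔪) hxi p)

/-- A natural number prime to `q ∈ 𝔪` does not lie in `𝔪`. -/
theorem s36_ni5_nat_not_mem (q n : ℕ) (hqn : Nat.Coprime q n) (𝔪 : Ideal B) [h𝔪 : 𝔪.IsPrime]
    (hq𝔪 : ((q : ℕ) : B) ∈ 𝔪) : ((n : ℕ) : B) ∉ 𝔪 := by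
  obtain ⟨a, b, hab⟩ := Nat.isCoprime_iff_coprime.mpr hqn
  intro h
  have h1 : (1 : B) ∈ 𝔪 := by
    have e1 : (1 : B) = (a : B) * ((q : ℕ) : B) + (b : B) * ((n : ℕ) : B) := by
      have := congrArg (Int.cast : ℤ → B) hab
      push_cast at this
      rw [← this]
    rw [e1]
    exact 𝔪.add_mem (𝔪.mul_mem_left _ hq𝔪) (𝔪.mul_mem_left _ h)
  exact h𝔪.ne_top ((Ideal.eq_top_iff_one _).mpr h1)

/-- `6⁻¹ ∈ B_𝔪` when a prime number `q ≥ 5` lies in `𝔪`. -/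
theorem s36_ni5_six (q : ℕ) (hq : q.Prime) (hq5 : 5 ≤ q) (𝔪 : Ideal B) [h𝔪 : 𝔪.IsPrime]
    (hq𝔪 : ((q : ℕ) : B) ∈ 𝔪) : ((6 : F))⁻¹ ∈ s18_loc B 𝔪 := by
  have h2 : Nat.Coprime q 2 := (Nat.coprime_primes hq Nat.prime_two).mpr (by omega)
  have h3 : Nat.Coprime q 3 := (Nat.coprime_primes hq Nat.prime_three).mpr (by omega)
  have h6 : Nat.Coprime q 6 := Nat.Coprime.mul_right h2 h3
  have h := s36_pp_inv_mem B 𝔪 ((6 : ℕ) : B) (s36_ni5_nat_not_mem q 6 h6 𝔪 hq𝔪)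
  have e2 : ((((6 : ℕ) : B) : B) : F) = 6 := by
    push_cast
    rfl
  rw [e2] at h
  exact h

/-- Elements of `B` lie in `B_𝔪`. -/
theorem s36_ni5_mem_loc (𝔪 : Ideal B) [h𝔪 : 𝔪.IsPrime] (x : F) (hx : x ∈ B) :
    x ∈ s18_loc B 𝔪 :=
  ⟨⟨x, hx⟩, 1, fun h => h𝔪.ne_top ((Ideal.eq_top_iff_one _).mpr h), by simp⟩

/-- A normal chart is closed under `p`-th roots. -/
theorem s36_ni5_root (B : Subring F) (hnorm : ∀ w : F, IsIntegral B w → w ∈ B) (p : ℕ)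
    (hp : 0 < p) (w : F) (hw : w ^ p ∈ B) : w ∈ B :=
  hnorm w (IsIntegral.of_pow hp (isIntegral_algebraMap (x := (⟨w ^ p, hw⟩ : B))))

end Abs

section Model

variable {K0 K : Type*} [Field K0] [Field K] [Algebra ℚ K0] [Algebra ℚ K]
  {κ : K0 →+* K} {A : ValuationSubring K} {M : ℕ}
  {Θ : laurentBaseChange K (modularFunctionFieldFull M) →ₐ[K] LaurentSeries K}
  {N q : ℕ} {ζ : Aˣ}

/-- `(X(ζ Q))‾ = X̄` for a primitive `q`-th root of unity `ζ` in residue characteristic `q`. -/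
theorem s36_ni5_twist_res [Fact q.Prime] [CharP (IsLocalRing.ResidueField A) q]
    (hζ : IsPrimitiveRoot (ζ : A) q) (X : LaurentSeries A) :
    coeffMap (IsLocalRing.residue A) (twistQ ζ X) = coeffMap (IsLocalRing.residue A) X := by
  have hζ1 : IsLocalRing.residue A (ζ : A) = 1 := by
    have h1 : (IsLocalRing.residue A (ζ : A)) ^ q = 1 := by
      rw [← map_pow, hζ.pow_eq_one, map_one]
    apply frobenius_inj (IsLocalRing.ResidueField A) q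
    rw [frobenius_def, frobenius_def, h1, one_pow]
  ext n
  rw [coeffMap_coeff, Fermat.Agent.S28.twistQ_coeff, coeffMap_coeff, map_mul]
  have h1 : IsLocalRing.residue A (((ζ ^ n : Aˣ) : A)) = 1 := by
    have hu : Units.map (IsLocalRing.residue A : A →* IsLocalRing.ResidueField A) ζ = 1 :=
      Units.ext hζ1
    have h3 : Units.map (IsLocalRing.residue A : A →* IsLocalRing.ResidueField A) (ζ ^ n) = 1 := by
      rw [map_zpow, hu, one_zpow]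
    exact congrArg Units.val h3
  rw [h1, one_mul]

/-- **`x(Q^(q²))^{±1} ∈ B_𝔪`** at a `C`-only point at which the rational coordinate `x` of level
`N` (with integral `q`-expansion `T` and integral inverse `Tinv`) is a unit.  Chart inputs:
`G₁ = x^q / x(Q^q) ∈ B` and `G₃ = x(Q^(q²))^q / x(Q^q) ∈ B`. -/
theorem s36_ni5_x2_mem [NeZero N] [NeZero q] [Fact q.Prime]
    [CharP (IsLocalRing.ResidueField A) q]
    (hΘ : s36_gc_IsCusp N q ζ Θ) (hM : N * q ^ 2 ∣ M)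
    {z : laurentBaseChange K0 (modularFunctionFieldFull M)}
    (hUnif : s34_Unif z (s36_gc_V κ A M Θ)) (hζ : IsPrimitiveRoot (ζ : A) q)
    {B VA VB : Subring (laurentBaseChange K0 (modularFunctionFieldFull M))}
    (hBA : B ≤ VA) (hBB : B ≤ VB) (hBC : B ≤ s36_gc_V κ A M Θ)
    (hϖB : algebraMap K0 (laurentBaseChange K0 (modularFunctionFieldFull M)) (q : K0) ∈ B)
    (hcap : ∀ x ∈ B,
      (algebraMap K0 (laurentBaseChange K0 (modularFunctionFieldFull M)) (q : K0))⁻¹ * x ∈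
        VA ⊓ VB ⊓ s36_gc_V κ A M Θ →
      (algebraMap K0 (laurentBaseChange K0 (modularFunctionFieldFull M)) (q : K0))⁻¹ * x ∈ B)
    (hzn : algebraMap K0 (laurentBaseChange K0 (modularFunctionFieldFull M)) (q : K0) *
      (z ^ (q - 1))⁻¹ ∈ s36_gc_V κ A M Θ)
    (hzn' : z ^ (q - 1) *
      (algebraMap K0 (laurentBaseChange K0 (modularFunctionFieldFull M)) (q : K0))⁻¹ ∈
        s36_gc_V κ A M Θ)
    (hroot : ∀ w : laurentBaseChange K0 (modularFunctionFieldFull M), w ^ q ∈ B → w ∈ B)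
    (t₀ : modularFunctionFieldFull M) (ht₀ : t₀ ≠ 0)
    (hN : (t₀ : LaurentSeries ℚ) ∈ modularFunctionFieldFull N)
    (T Tinv : LaurentSeries ℤ) (hT : (t₀ : LaurentSeries ℚ) = coeffMap (Int.castRingHom ℚ) T)
    (hTinv : ((t₀⁻¹ : modularFunctionFieldFull M) : LaurentSeries ℚ) =
      coeffMap (Int.castRingHom ℚ) Tinv)
    (x1 x2 : laurentBaseChange K0 (modularFunctionFieldFull M))
    (hx1 : (x1 : LaurentSeries K0) =
      qExpand K0 q ((s18_coord K0 t₀ : laurentBaseChange K0 (modularFunctionFieldFull M)) :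
        LaurentSeries K0))
    (hx2 : (x2 : LaurentSeries K0) =
      qExpand K0 (q ^ 2) ((s18_coord K0 t₀ : laurentBaseChange K0 (modularFunctionFieldFull M)) :
        LaurentSeries K0))
    (hG₁ : s18_coord K0 t₀ ^ q * x1⁻¹ ∈ B) (hG₃ : x2 ^ q * x1⁻¹ ∈ B)
    (𝔪 : Ideal B) [h𝔪 : 𝔪.IsPrime]
    (hϖ𝔪 : (⟨algebraMap K0 (laurentBaseChange K0 (modularFunctionFieldFull M)) (q : K0), hϖB⟩ :
      B) ∈ 𝔪)
    (hex : ∃ f₀ : B, f₀ ∉ 𝔪 ∧
      (algebraMap K0 (laurentBaseChange K0 (modularFunctionFieldFull M)) (q : K0))⁻¹ *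
        (f₀ : laurentBaseChange K0 (modularFunctionFieldFull M)) ∈ VA ⊓ VB)
    (hxm : s18_coord K0 t₀ ∈ s18_loc B 𝔪) (hxi : (s18_coord K0 t₀)⁻¹ ∈ s18_loc B 𝔪) :
    x2 ∈ s18_loc B 𝔪 ∧ x2⁻¹ ∈ s18_loc B 𝔪 := by
  have hqpos : 0 < q := (Fact.out : q.Prime).pos
  have hq1 : 0 < q - 1 := by
    have := (Fact.out : q.Prime).two_le
    omega
  haveI : CharZero K0 := algebraRat.charZero K0
  have hϖ0 : algebraMap K0 (laurentBaseChange K0 (modularFunctionFieldFull M)) (q : K0) ≠ 0 :=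
    (map_ne_zero _).mpr (Nat.cast_ne_zero.mpr (Fact.out : q.Prime).ne_zero)
  haveI : NeZero (N * q) := ⟨Nat.mul_ne_zero (NeZero.ne N) (NeZero.ne q)⟩
  have hlow : (t₀ : LaurentSeries ℚ) ∈ modularFunctionFieldFull (N * q) :=
    full_degeneracy_le (dvd_mul_right N q) hN
  have hz0 : z ≠ 0 := hUnif.ne_zero
  have hzp : z ^ (q - 1) ≠ 0 := pow_ne_zero _ hz0
  -- the coordinate and its inverse
  have hx0 : (s18_coord K0 t₀ : laurentBaseChange K0 (modularFunctionFieldFull M)) ≠ 0 := by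
    intro h0
    have h1 : coeffEmb K0 (t₀ : LaurentSeries ℚ) = 0 := congrArg Subtype.val h0
    rw [map_eq_zero] at h1
    exact ht₀ (Subtype.ext h1)
  have einv : (s18_coord K0 t₀)⁻¹ = s18_coord K0 t₀⁻¹ := by
    apply Subtype.ext
    show (coeffEmb K0 (t₀ : LaurentSeries ℚ))⁻¹ = coeffEmb K0 ((t₀ : LaurentSeries ℚ)⁻¹)
    rw [map_inv₀]
  have hlowinv : ((t₀⁻¹ : modularFunctionFieldFull M) : LaurentSeries ℚ) ∈
      modularFunctionFieldFull (N * q) := by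
    show (t₀ : LaurentSeries ℚ)⁻¹ ∈ modularFunctionFieldFull (N * q)
    exact inv_mem hlow
  have hNinv : ((t₀⁻¹ : modularFunctionFieldFull M) : LaurentSeries ℚ) ∈
      modularFunctionFieldFull N := by
    show (t₀ : LaurentSeries ℚ)⁻¹ ∈ modularFunctionFieldFull N
    exact inv_mem hN
  have hX := s36_cpt_coord_int (κ := κ) hΘ t₀ hlow T hT
  have hY : Θ (s36_gc_incl κ M (s18_coord K0 t₀)⁻¹) =
      coeffMap A.subtype (coeffMap (Int.castRingHom A) Tinv) := by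
    rw [einv]
    exact s36_cpt_coord_int (κ := κ) hΘ t₀⁻¹ hlowinv Tinv hTinv
  -- the expansion of `x1⁻¹`
  have hx1inv : ((x1⁻¹ : laurentBaseChange K0 (modularFunctionFieldFull M)) : LaurentSeries K0) =
      qExpand K0 q (coeffEmb K0 (coeffMap (Int.castRingHom ℚ) Tinv)) := by
    show (x1 : LaurentSeries K0)⁻¹ = _
    rw [hx1, ← hTinv]
    show (qExpand K0 q (coeffEmb K0 (t₀ : LaurentSeries ℚ)))⁻¹ =
      qExpand K0 q (coeffEmb K0 ((t₀ : LaurentSeries ℚ)⁻¹))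
    rw [map_inv₀, map_inv₀]
  have hx1low : ((x1⁻¹ : laurentBaseChange K0 (modularFunctionFieldFull M)) : LaurentSeries K0) ∈
      laurentBaseChange K0 (modularFunctionFieldFull (N * q)) := by
    rw [hx1inv, ← hTinv]
    exact (heckeBetaBar K0 N q ⟨_, coeffEmb_mem_laurentBaseChange K0 hNinv⟩).2
  have hY1 : Θ (s36_gc_incl κ M x1⁻¹) =
      coeffMap A.subtype (qExpand A q (coeffMap (Int.castRingHom A) Tinv)) := by
    rw [s36_gc_theta_low hΘ _ hx1low, hx1inv, coeffMap_qExpand, coeffMap_qExpand, coeffEmb,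
      coeffMap_coeffMap, coeffMap_coeffMap, coeffMap_coeffMap]
    congr 1
    exact coeffMap_congr (RingHom.ext_int _ _) Tinv
  have h2 := s36_cpt_theta_top (κ := κ) hΘ hM (s18_coord K0 t₀) x2
    (coeffEmb_mem_laurentBaseChange K0 hN) hx2
  have hfrob : coeffMap (IsLocalRing.residue A)
      (qExpand A q (coeffMap (Int.castRingHom A) Tinv)) =
      coeffMap (IsLocalRing.residue A) (coeffMap (Int.castRingHom A) Tinv) ^ q := by
    rw [coeffMap_qExpand, s36_cpm_res_int, s36_cpm_frob_int]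
  -- `X̄ Ȳ = 1`
  have hXY : coeffMap (IsLocalRing.residue A) (coeffMap (Int.castRingHom A) T) *
      coeffMap (IsLocalRing.residue A) (coeffMap (Int.castRingHom A) Tinv) = 1 := by
    have h1 : Θ (s36_gc_incl κ M (s18_coord K0 t₀ * (s18_coord K0 t₀)⁻¹)) = 1 := by
      rw [mul_inv_cancel₀ hx0, map_one, map_one]
    rw [map_mul, map_mul, hX, hY, ← map_mul] at h1
    have h2' : coeffMap (Int.castRingHom A) T * coeffMap (Int.castRingHom A) Tinv = 1 := by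
      apply s18_coeffMap_injective A.subtype Subtype.val_injective
      rw [h1, map_one]
    rw [← map_mul, h2', map_one]
  have hred : coeffMap (IsLocalRing.residue A) (coeffMap (Int.castRingHom A) T) ^ q *
      coeffMap (IsLocalRing.residue A) (qExpand A q (coeffMap (Int.castRingHom A) Tinv)) = 1 := by
    rw [hfrob, ← mul_pow, hXY, one_pow]
  have hG₁c : z⁻¹ * (s18_coord K0 t₀ ^ q * x1⁻¹ - 1) ∈ s36_gc_V κ A M Θ :=
    s36_cpm_ratio_cong hUnif (s18_coord K0 t₀) x1⁻¹ _ _ hX hY1 q hred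
  have hX2 : Θ (s36_gc_incl κ M x2) =
      coeffMap A.subtype (twistQ ζ (coeffMap (Int.castRingHom A) T)) := by
    rw [h2, hX, Fermat.Agent.S28.formal_coeffMap_twistQ]
  have hG₃c : z⁻¹ * (x2 ^ q * x1⁻¹ - 1) ∈ s36_gc_V κ A M Θ :=
    s36_cpm_ratio_cong hUnif x2 x1⁻¹ _ _ hX2 hY1 q (by
      rw [s36_ni5_twist_res hζ]
      exact hred)
  obtain ⟨f₀, hf₀, hf₀'⟩ := hex
  have hε₀' : (algebraMap K0 (laurentBaseChange K0 (modularFunctionFieldFull M)) (q : K0) *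
      (z ^ (q - 1))⁻¹)⁻¹ ∈ s36_gc_V κ A M Θ := by
    rw [mul_inv, inv_inv, mul_comm]
    exact hzn'
  have hϖ : algebraMap K0 (laurentBaseChange K0 (modularFunctionFieldFull M)) (q : K0) =
      algebraMap K0 (laurentBaseChange K0 (modularFunctionFieldFull M)) (q : K0) *
        (z ^ (q - 1))⁻¹ * z ^ (q - 1) := by
    rw [mul_assoc, inv_mul_cancel₀ hzp, mul_one]
  exact s36_ni5_unit_mem (V₁ := s36_gc_V κ A M Θ) (V' := VA ⊓ VB) hBC (le_inf hBA hBB) hϖB hϖ0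
    (fun x hx h1 h2 => hcap x hx ⟨h2, h1⟩) (q - 1) hq1 hε₀' hϖ 𝔪 hϖ𝔪 f₀ hf₀ hf₀' q
    (fun w hw => s34_root_closed_loc B q hqpos hroot 𝔪 w hw)
    (s18_coord K0 t₀) x1 x2 hG₁ hG₃ hG₁c hG₃c hxm hxi

set_option maxHeartbeats 1600000 in
/-- **The `cpt` conclusion at a `C`-only point at which `t₂` and `t₂(Q^(q²))` are units of
`B_𝔪`, `q ≥ 5`** (`6 ∣ N`, `B` normal). -/
theorem s36_ni5_core [NeZero N] [NeZero M] [Fact q.Prime]
    [CharP (IsLocalRing.ResidueField A) q] (hq5 : 5 ≤ q)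
    (hΘ : s36_gc_IsCusp N q ζ Θ) (hM : N * q ^ 2 ∣ M) (hdN : 2 ∣ N) (hdM : 2 ∣ M)
    (hd3N : 3 ∣ N) (hd3M : 3 ∣ M)
    {z : laurentBaseChange K0 (modularFunctionFieldFull M)}
    (hUnif : s34_Unif z (s36_gc_V κ A M Θ)) (hζ : IsPrimitiveRoot (ζ : A) q)
    {B VA VB : Subring (laurentBaseChange K0 (modularFunctionFieldFull M))}
    (hBA : B ≤ VA) (hBB : B ≤ VB) (hBC : B ≤ s36_gc_V κ A M Θ)
    (hϖB : algebraMap K0 (laurentBaseChange K0 (modularFunctionFieldFull M)) (q : K0) ∈ B)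
    (hcap : ∀ x ∈ B,
      (algebraMap K0 (laurentBaseChange K0 (modularFunctionFieldFull M)) (q : K0))⁻¹ * x ∈
        VA ⊓ VB ⊓ s36_gc_V κ A M Θ →
      (algebraMap K0 (laurentBaseChange K0 (modularFunctionFieldFull M)) (q : K0))⁻¹ * x ∈ B)
    (hzn : algebraMap K0 (laurentBaseChange K0 (modularFunctionFieldFull M)) (q : K0) *
      (z ^ (q - 1))⁻¹ ∈ s36_gc_V κ A M Θ)
    (hzn' : z ^ (q - 1) *
      (algebraMap K0 (laurentBaseChange K0 (modularFunctionFieldFull M)) (q : K0))⁻¹ ∈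
        s36_gc_V κ A M Θ)
    (hnorm : ∀ w : laurentBaseChange K0 (modularFunctionFieldFull M), IsIntegral B w → w ∈ B)
    (t2' : laurentBaseChange K0 (modularFunctionFieldFull M))
    (ht2'e : (t2' : LaurentSeries K0) =
      qExpand K0 (q ^ 2) ((s18_coord K0 (s18_cz_t2 M hdM) :
        laurentBaseChange K0 (modularFunctionFieldFull M)) : LaurentSeries K0))
    (𝔪 : Ideal B) [h𝔪 : 𝔪.IsPrime]
    (hϖ𝔪 : (⟨algebraMap K0 (laurentBaseChange K0 (modularFunctionFieldFull M)) (q : K0), hϖB⟩ :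
      B) ∈ 𝔪)
    (hex : ∃ f₀ : B, f₀ ∉ 𝔪 ∧
      (algebraMap K0 (laurentBaseChange K0 (modularFunctionFieldFull M)) (q : K0))⁻¹ *
        (f₀ : laurentBaseChange K0 (modularFunctionFieldFull M)) ∈ VA ⊓ VB)
    (ht2 : s18_coord K0 (s18_cz_t2 M hdM) ∈ s18_loc B 𝔪)
    (ht2i : (s18_coord K0 (s18_cz_t2 M hdM))⁻¹ ∈ s18_loc B 𝔪)
    (ht2' : t2' ∈ s18_loc B 𝔪) (ht2'i : t2'⁻¹ ∈ s18_loc B 𝔪) :
    ∃ (z' ε : laurentBaseChange K0 (modularFunctionFieldFull M)) (e : ℕ),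
      s34_Unif z' (s36_gc_V κ A M Θ) ∧ z' ∈ s18_loc B 𝔪 ∧ 0 < e ∧ ε ∈ s18_loc B 𝔪 ∧
        ε⁻¹ ∈ s36_gc_V κ A M Θ ∧
        algebraMap K0 (laurentBaseChange K0 (modularFunctionFieldFull M)) (q : K0) =
          ε * z' ^ e := by
  have hq : q.Prime := Fact.out
  haveI : NeZero q := ⟨hq.ne_zero⟩
  haveI : NeZero (q ^ 2) := ⟨pow_ne_zero 2 hq.ne_zero⟩
  haveI : NeZero (N * q) := ⟨Nat.mul_ne_zero (NeZero.ne N) hq.ne_zero⟩
  haveI : NeZero (N * q ^ 2) := ⟨Nat.mul_ne_zero (NeZero.ne N) (pow_ne_zero 2 hq.ne_zero)⟩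
  haveI : CharZero K0 := algebraRat.charZero K0
  haveI : CharZero (laurentBaseChange K0 (modularFunctionFieldFull M)) :=
    charZero_of_injective_algebraMap
      (algebraMap K0 (laurentBaseChange K0 (modularFunctionFieldFull M))).injective
  have hz0 : z ≠ 0 := hUnif.ne_zero
  have hzp : z ^ (q - 1) ≠ 0 := pow_ne_zero _ hz0
  -- the coordinates
  obtain ⟨t2F, ht2F⟩ : ∃ t : laurentBaseChange K0 (modularFunctionFieldFull M),
      t = s18_coord K0 (s18_cz_t2 M hdM) := ⟨_, rfl⟩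
  obtain ⟨t3F, ht3F⟩ : ∃ t : laurentBaseChange K0 (modularFunctionFieldFull M),
      t = s18_coord K0 (s18_cz_t3 M hd3M) := ⟨_, rfl⟩
  rw [← ht2F] at ht2 ht2i ht2'e
  have e2 : (t2F : LaurentSeries K0) = s18_t2R K0 := by
    rw [ht2F]
    exact s18_coeffMap_t2R (algebraMap ℚ K0)
  have e3 : (t3F : LaurentSeries K0) = s18_t3R K0 := by
    rw [ht3F]
    exact s18_coeffMap_t3R (algebraMap ℚ K0)
  have e2i : ((t2F⁻¹ : laurentBaseChange K0 (modularFunctionFieldFull M)) : LaurentSeries K0) =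
      s18_t2invR K0 := by
    show (t2F : LaurentSeries K0)⁻¹ = _
    rw [e2, s18_t2invR_eq_inv]
  have e3i : ((t3F⁻¹ : laurentBaseChange K0 (modularFunctionFieldFull M)) : LaurentSeries K0) =
      s18_t3invR K0 := by
    show (t3F : LaurentSeries K0)⁻¹ = _
    rw [e3, s18_t3invR_eq_inv]
  have h2N : (t2F : LaurentSeries K0) ∈ laurentBaseChange K0 (modularFunctionFieldFull N) := by
    rw [ht2F]
    exact coeffEmb_mem_laurentBaseChange K0 (s18_cz_t2 N hdN).2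
  have h3N : (t3F : LaurentSeries K0) ∈ laurentBaseChange K0 (modularFunctionFieldFull N) := by
    rw [ht3F]
    exact coeffEmb_mem_laurentBaseChange K0 (s18_cz_t3 N hd3N).2
  have h2low : (t2F : LaurentSeries K0) ∈
      laurentBaseChange K0 (modularFunctionFieldFull (N * q)) := by
    rw [ht2F]
    exact coeffEmb_mem_laurentBaseChange K0
      (full_degeneracy_le (dvd_mul_right N q) (s18_cz_t2 N hdN).2)
  have h3low : (t3F : LaurentSeries K0) ∈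
      laurentBaseChange K0 (modularFunctionFieldFull (N * q)) := by
    rw [ht3F]
    exact coeffEmb_mem_laurentBaseChange K0
      (full_degeneracy_le (dvd_mul_right N q) (s18_cz_t3 N hd3N).2)
  have h2ilow : ((t2F⁻¹ : laurentBaseChange K0 (modularFunctionFieldFull M)) :
      LaurentSeries K0) ∈ laurentBaseChange K0 (modularFunctionFieldFull (N * q)) := by
    show (t2F : LaurentSeries K0)⁻¹ ∈ _
    exact inv_mem h2low
  have h3ilow : ((t3F⁻¹ : laurentBaseChange K0 (modularFunctionFieldFull M)) :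
      LaurentSeries K0) ∈ laurentBaseChange K0 (modularFunctionFieldFull (N * q)) := by
    show (t3F : LaurentSeries K0)⁻¹ ∈ _
    exact inv_mem h3low
  -- the expansions at the cusp `1/q`
  have hX2 : Θ (s36_gc_incl κ M t2F) = coeffMap A.subtype (s18_t2R A) := by
    rw [s36_gc_theta_low hΘ t2F h2low, e2, s18_coeffMap_t2R, s18_coeffMap_t2R]
  have hY2 : Θ (s36_gc_incl κ M t2F⁻¹) = coeffMap A.subtype (s18_t2invR A) := by
    rw [s36_gc_theta_low hΘ _ h2ilow, e2i, s18_coeffMap_t2invR, s18_coeffMap_t2invR]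
  have hX3 : Θ (s36_gc_incl κ M t3F) = coeffMap A.subtype (s18_t3R A) := by
    rw [s36_gc_theta_low hΘ t3F h3low, e3, s18_coeffMap_t3R, s18_coeffMap_t3R]
  have hY3 : Θ (s36_gc_incl κ M t3F⁻¹) = coeffMap A.subtype (s18_t3invR A) := by
    rw [s36_gc_theta_low hΘ _ h3ilow, e3i, s18_coeffMap_t3invR, s18_coeffMap_t3invR]
  -- nonvanishing
  have ht20 : t2F ≠ 0 := by
    intro h0
    have h1 : (t2F : LaurentSeries K0) = 0 := by rw [h0]; rfl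
    have h2 := s18_t2R_mul_inv K0
    rw [← e2, h1, zero_mul] at h2
    exact zero_ne_one h2
  have ht30 : t3F ≠ 0 := by
    intro h0
    have h1 : (t3F : LaurentSeries K0) = 0 := by rw [h0]; rfl
    have h2 := s18_t3R_mul_inv K0
    rw [← e3, h1, zero_mul] at h2
    exact zero_ne_one h2
  have ht2'0 : t2' ≠ 0 := by
    intro h0
    have h1 : (t2' : LaurentSeries K0) = 0 := by rw [h0]; rfl
    rw [ht2'e, map_eq_zero] at h1
    exact ht20 (Subtype.ext h1)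
  -- the coercion to `q`-expansions and `Φ = Θ ∘ incl` as ring homomorphisms
  obtain ⟨φ, hφ⟩ : ∃ φ : laurentBaseChange K0 (modularFunctionFieldFull M) →+* LaurentSeries K0,
      ∀ f, φ f = (f : LaurentSeries K0) :=
    ⟨((laurentBaseChange K0 (modularFunctionFieldFull M)).val :
      laurentBaseChange K0 (modularFunctionFieldFull M) →+* LaurentSeries K0), fun _ => rfl⟩
  have hφinj : Function.Injective φ := φ.injective
  obtain ⟨Φ, hΦ⟩ : ∃ Φ : laurentBaseChange K0 (modularFunctionFieldFull M) →+* LaurentSeries K,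
      ∀ f, Φ f = Θ (s36_gc_incl κ M f) :=
    ⟨(Θ : laurentBaseChange K (modularFunctionFieldFull M) →+* LaurentSeries K).comp
      (s36_gc_incl κ M), fun _ => rfl⟩
  -- `j` and `j(Q^(q²))`
  obtain ⟨jF, hjF⟩ : ∃ j : laurentBaseChange K0 (modularFunctionFieldFull M),
      j = (t2F + 256) ^ 3 * t2F⁻¹ ^ 2 := ⟨_, rfl⟩
  obtain ⟨jF', hjF'⟩ : ∃ j : laurentBaseChange K0 (modularFunctionFieldFull M),
      j = (t2' + 256) ^ 3 * t2'⁻¹ ^ 2 := ⟨_, rfl⟩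
  have hr2 : jF * t2F ^ 2 = (t2F + 256) ^ 3 := by
    rw [hjF]
    field_simp
  have hr2' : jF' * t2' ^ 2 = (t2' + 256) ^ 3 := by
    rw [hjF']
    field_simp
  have ejF : (jF : LaurentSeries K0) = jqModC K0 := by
    have h1 : (jF : LaurentSeries K0) * (t2F : LaurentSeries K0) ^ 2 =
        ((t2F : LaurentSeries K0) + 256) ^ 3 := by
      have := congrArg φ hr2
      rw [map_mul, map_pow, map_pow, map_add, map_ofNat, hφ, hφ] at this
      exact this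
    have h20 : (s18_t2R K0) ^ 2 ≠ 0 := by
      rw [← e2]
      exact pow_ne_zero 2 (fun h => ht20 (Subtype.ext h))
    rw [e2, ← s18_t2R_j K0] at h1
    exact mul_right_cancel₀ h20 h1
  have hr3 : jF * t3F ^ 3 = (t3F + 27) * (t3F + 243) ^ 3 := by
    have h1 := s18_t3R_j K0
    rw [← e3, ← ejF] at h1
    apply hφinj
    rw [map_mul, map_pow, map_mul, map_pow, map_add, map_add, map_ofNat, map_ofNat, hφ, hφ]
    exact h1
  -- `t₃(Q^(q²))`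
  have hmem3 : qExpand K0 (q ^ 2) (t3F : LaurentSeries K0) ∈
      laurentBaseChange K0 (modularFunctionFieldFull M) :=
    s34_sw_le K0 (N * q ^ 2) (laurentBaseChange K0 (modularFunctionFieldFull M))
      (fun e _ he => s34_sw_s_mem K0 M e (he.trans hM))
      (heckeBetaBar K0 N (q ^ 2) ⟨_, h3N⟩).2
  obtain ⟨t3', ht3'e⟩ : ∃ t : laurentBaseChange K0 (modularFunctionFieldFull M),
      (t : LaurentSeries K0) = qExpand K0 (q ^ 2) (t3F : LaurentSeries K0) := ⟨⟨_, hmem3⟩, rfl⟩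
  have ejF' : (jF' : LaurentSeries K0) = qExpand K0 (q ^ 2) (jqModC K0) := by
    have h1 : (jF' : LaurentSeries K0) * (t2' : LaurentSeries K0) ^ 2 =
        ((t2' : LaurentSeries K0) + 256) ^ 3 := by
      have := congrArg φ hr2'
      rw [map_mul, map_pow, map_pow, map_add, map_ofNat, hφ, hφ] at this
      exact this
    have h20 : (t2' : LaurentSeries K0) ^ 2 ≠ 0 :=
      pow_ne_zero 2 (fun h => ht2'0 (Subtype.ext h))
    have h3 := congrArg (qExpand K0 (q ^ 2)) (s18_t2R_j K0)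
    rw [map_mul, map_pow, map_pow, map_add, map_ofNat, ← e2, ← ht2'e, ← h1] at h3
    exact (mul_right_cancel₀ h20 h3).symm
  have hr3' : jF' * t3' ^ 3 = (t3' + 27) * (t3' + 243) ^ 3 := by
    have h1 := congrArg (qExpand K0 (q ^ 2)) (s18_t3R_j K0)
    rw [map_mul, map_pow, map_mul, map_pow, map_add, map_add, map_ofNat, map_ofNat, ← e3,
      ← ht3'e, ← ejF'] at h1
    apply hφinj
    rw [map_mul, map_pow, map_mul, map_pow, map_add, map_add, map_ofNat, map_ofNat, hφ, hφ]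
    exact h1
  -- the image of `j` at the cusp `1/q`
  have hJ : Θ (s36_gc_incl κ M jF) = coeffMap A.subtype (jqModC A) := by
    rw [hjF, s18_t2R_j_eq A, ← hΦ, map_mul, map_pow, map_pow, map_add, map_ofNat, hΦ, hΦ, hX2,
      hY2, map_mul, map_pow, map_pow, map_add, map_ofNat]
  -- the twists
  have h22 := s36_cpt_theta_top (κ := κ) hΘ hM t2F t2' h2N ht2'e
  have h23 := s36_cpt_theta_top (κ := κ) hΘ hM t3F t3' h3N ht3'e
  -- `6⁻¹ ∈ B_𝔪`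
  have hq𝔪 : ((q : ℕ) : B) ∈ 𝔪 := by
    have e1 : ((q : ℕ) : B) =
        ⟨algebraMap K0 (laurentBaseChange K0 (modularFunctionFieldFull M)) (q : K0), hϖB⟩ := by
      apply Subtype.ext
      exact (Subring.coe_natCast B q).trans
        (map_natCast (algebraMap K0 (laurentBaseChange K0 (modularFunctionFieldFull M))) q).symm
    rw [e1]
    exact hϖ𝔪
  have h6 := s36_ni5_six (F := laurentBaseChange K0 (modularFunctionFieldFull M)) q hq hq5 𝔪 hq𝔪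
  have hε₀' : (algebraMap K0 (laurentBaseChange K0 (modularFunctionFieldFull M)) (q : K0) *
      (z ^ (q - 1))⁻¹)⁻¹ ∈ s36_gc_V κ A M Θ := by
    rw [mul_inv, inv_inv, mul_comm]
    exact hzn'
  have hϖ : algebraMap K0 (laurentBaseChange K0 (modularFunctionFieldFull M)) (q : K0) =
      algebraMap K0 (laurentBaseChange K0 (modularFunctionFieldFull M)) (q : K0) *
        (z ^ (q - 1))⁻¹ * z ^ (q - 1) := by
    rw [mul_assoc, inv_mul_cancel₀ hzp, mul_one]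
  exact s36_nc5_cpt q hq5 hUnif ζ hζ hBA hBB hBC hϖB hcap _ hzn hε₀' hϖ hnorm
    t2F t3F jF t2' t3' jF' hr2 hr3 hr2' hr3' ht20 ht30 ht2'0
    (s18_t2R A) (s18_t2invR A) (s18_t3R A) (s18_t3invR A) (jqModC A) hX2 hY2 hX3 hY3 hJ
    (s18_coeffMap_t2R _) (s18_coeffMap_t2invR _) (s18_coeffMap_t3R _) (s18_coeffMap_t3invR _)
    (coeffMap_jqModC _) h22 h23 𝔪 hϖ𝔪 hex ht2 ht2i ht2' ht2'i h6

/-- **`cpt`, `q ≥ 5`, non-cuspidal points of the chart of `t₂`**: at a `C`-only prime `𝔪` at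
which `t₂` is a unit of `B_𝔪`.  Binders of `s36_cpm_cpt3_t2` with `3 ↦ q`, `hnorm` instead of
`hroot`, and `3 ∣ N`, `3 ∣ M`. -/
theorem s36_ni5_cpt_t2 [NeZero N] [NeZero M] [Fact q.Prime]
    [CharP (IsLocalRing.ResidueField A) q] (hq5 : 5 ≤ q)
    (hΘ : s36_gc_IsCusp N q ζ Θ) (hM : N * q ^ 2 ∣ M) (hdN : 2 ∣ N) (hdM : 2 ∣ M)
    (hd3N : 3 ∣ N) (hd3M : 3 ∣ M)
    {z : laurentBaseChange K0 (modularFunctionFieldFull M)}
    (hUnif : s34_Unif z (s36_gc_V κ A M Θ)) (hζ : IsPrimitiveRoot (ζ : A) q)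
    {B VA VB : Subring (laurentBaseChange K0 (modularFunctionFieldFull M))}
    (hBA : B ≤ VA) (hBB : B ≤ VB) (hBC : B ≤ s36_gc_V κ A M Θ)
    (hϖB : algebraMap K0 (laurentBaseChange K0 (modularFunctionFieldFull M)) (q : K0) ∈ B)
    (hcap : ∀ x ∈ B,
      (algebraMap K0 (laurentBaseChange K0 (modularFunctionFieldFull M)) (q : K0))⁻¹ * x ∈
        VA ⊓ VB ⊓ s36_gc_V κ A M Θ →
      (algebraMap K0 (laurentBaseChange K0 (modularFunctionFieldFull M)) (q : K0))⁻¹ * x ∈ B)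
    (hzn : algebraMap K0 (laurentBaseChange K0 (modularFunctionFieldFull M)) (q : K0) *
      (z ^ (q - 1))⁻¹ ∈ s36_gc_V κ A M Θ)
    (hzn' : z ^ (q - 1) *
      (algebraMap K0 (laurentBaseChange K0 (modularFunctionFieldFull M)) (q : K0))⁻¹ ∈
        s36_gc_V κ A M Θ)
    (hnorm : ∀ w : laurentBaseChange K0 (modularFunctionFieldFull M), IsIntegral B w → w ∈ B)
    (x1 x2 : laurentBaseChange K0 (modularFunctionFieldFull M))
    (hx1 : (x1 : LaurentSeries K0) =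
      qExpand K0 q ((s18_coord K0 (s18_cz_t2 M hdM) :
        laurentBaseChange K0 (modularFunctionFieldFull M)) : LaurentSeries K0))
    (hx2 : (x2 : LaurentSeries K0) =
      qExpand K0 (q ^ 2) ((s18_coord K0 (s18_cz_t2 M hdM) :
        laurentBaseChange K0 (modularFunctionFieldFull M)) : LaurentSeries K0))
    (hG₁ : s18_coord K0 (s18_cz_t2 M hdM) ^ q * x1⁻¹ ∈ B) (hG₃ : x2 ^ q * x1⁻¹ ∈ B)
    (𝔪 : Ideal B) [h𝔪 : 𝔪.IsPrime]
    (hϖ𝔪 : (⟨algebraMap K0 (laurentBaseChange K0 (modularFunctionFieldFull M)) (q : K0), hϖB⟩ :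
      B) ∈ 𝔪)
    (hex : ∃ f₀ : B, f₀ ∉ 𝔪 ∧
      (algebraMap K0 (laurentBaseChange K0 (modularFunctionFieldFull M)) (q : K0))⁻¹ *
        (f₀ : laurentBaseChange K0 (modularFunctionFieldFull M)) ∈ VA ⊓ VB)
    (hxm : s18_coord K0 (s18_cz_t2 M hdM) ∈ s18_loc B 𝔪)
    (hxi : (s18_coord K0 (s18_cz_t2 M hdM))⁻¹ ∈ s18_loc B 𝔪) :
    ∃ (z' ε : laurentBaseChange K0 (modularFunctionFieldFull M)) (e : ℕ),
      s34_Unif z' (s36_gc_V κ A M Θ) ∧ z' ∈ s18_loc B 𝔪 ∧ 0 < e ∧ ε ∈ s18_loc B 𝔪 ∧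
        ε⁻¹ ∈ s36_gc_V κ A M Θ ∧
        algebraMap K0 (laurentBaseChange K0 (modularFunctionFieldFull M)) (q : K0) =
          ε * z' ^ e := by
  have hq : q.Prime := Fact.out
  haveI : NeZero q := ⟨hq.ne_zero⟩
  have hroot : ∀ w : laurentBaseChange K0 (modularFunctionFieldFull M), w ^ q ∈ B → w ∈ B :=
    fun w hw => s36_ni5_root B hnorm q hq.pos w hw
  obtain ⟨h2m, h2i⟩ := s36_ni5_x2_mem hΘ hM hUnif hζ hBA hBB hBC hϖB hcap hzn hzn' hroot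
    (s18_cz_t2 M hdM) (s18_cz_t2_ne_zero M hdM) (s18_cz_t2 N hdN).2 s18_t2 s18_t2inv rfl
    (s18_cz_coe_t2_inv M hdM) x1 x2 hx1 hx2 hG₁ hG₃ 𝔪 hϖ𝔪 hex hxm hxi
  exact s36_ni5_core hq5 hΘ hM hdN hdM hd3N hd3M hUnif hζ hBA hBB hBC hϖB hcap hzn hzn' hnorm
    x2 hx2 𝔪 hϖ𝔪 hex hxm hxi h2m h2i

/-- **`cpt`, `q ≥ 5`, non-cuspidal points of the chart of `t₂⁻¹`** (the chart at infinity): at a
`C`-only prime `𝔪` at which `t₂⁻¹` is a unit of `B_𝔪`.  Binders of `s36_cpm_cpt3_t2inv` with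
`3 ↦ q`, `hnorm` instead of `hroot`, and `3 ∣ N`, `3 ∣ M`. -/
theorem s36_ni5_cpt_t2inv [NeZero N] [NeZero M] [Fact q.Prime]
    [CharP (IsLocalRing.ResidueField A) q] (hq5 : 5 ≤ q)
    (hΘ : s36_gc_IsCusp N q ζ Θ) (hM : N * q ^ 2 ∣ M) (hdN : 2 ∣ N) (hdM : 2 ∣ M)
    (hd3N : 3 ∣ N) (hd3M : 3 ∣ M)
    {z : laurentBaseChange K0 (modularFunctionFieldFull M)}
    (hUnif : s34_Unif z (s36_gc_V κ A M Θ)) (hζ : IsPrimitiveRoot (ζ : A) q)
    {B VA VB : Subring (laurentBaseChange K0 (modularFunctionFieldFull M))}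
    (hBA : B ≤ VA) (hBB : B ≤ VB) (hBC : B ≤ s36_gc_V κ A M Θ)
    (hϖB : algebraMap K0 (laurentBaseChange K0 (modularFunctionFieldFull M)) (q : K0) ∈ B)
    (hcap : ∀ x ∈ B,
      (algebraMap K0 (laurentBaseChange K0 (modularFunctionFieldFull M)) (q : K0))⁻¹ * x ∈
        VA ⊓ VB ⊓ s36_gc_V κ A M Θ →
      (algebraMap K0 (laurentBaseChange K0 (modularFunctionFieldFull M)) (q : K0))⁻¹ * x ∈ B)
    (hzn : algebraMap K0 (laurentBaseChange K0 (modularFunctionFieldFull M)) (q : K0) *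
      (z ^ (q - 1))⁻¹ ∈ s36_gc_V κ A M Θ)
    (hzn' : z ^ (q - 1) *
      (algebraMap K0 (laurentBaseChange K0 (modularFunctionFieldFull M)) (q : K0))⁻¹ ∈
        s36_gc_V κ A M Θ)
    (hnorm : ∀ w : laurentBaseChange K0 (modularFunctionFieldFull M), IsIntegral B w → w ∈ B)
    (x1 x2 : laurentBaseChange K0 (modularFunctionFieldFull M))
    (hx1 : (x1 : LaurentSeries K0) =
      qExpand K0 q ((s18_coord K0 ((s18_cz_t2 M hdM)⁻¹) :
        laurentBaseChange K0 (modularFunctionFieldFull M)) : LaurentSeries K0))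
    (hx2 : (x2 : LaurentSeries K0) =
      qExpand K0 (q ^ 2) ((s18_coord K0 ((s18_cz_t2 M hdM)⁻¹) :
        laurentBaseChange K0 (modularFunctionFieldFull M)) : LaurentSeries K0))
    (hG₁ : s18_coord K0 ((s18_cz_t2 M hdM)⁻¹) ^ q * x1⁻¹ ∈ B) (hG₃ : x2 ^ q * x1⁻¹ ∈ B)
    (𝔪 : Ideal B) [h𝔪 : 𝔪.IsPrime]
    (hϖ𝔪 : (⟨algebraMap K0 (laurentBaseChange K0 (modularFunctionFieldFull M)) (q : K0), hϖB⟩ :
      B) ∈ 𝔪)
    (hex : ∃ f₀ : B, f₀ ∉ 𝔪 ∧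
      (algebraMap K0 (laurentBaseChange K0 (modularFunctionFieldFull M)) (q : K0))⁻¹ *
        (f₀ : laurentBaseChange K0 (modularFunctionFieldFull M)) ∈ VA ⊓ VB)
    (hxm : s18_coord K0 ((s18_cz_t2 M hdM)⁻¹) ∈ s18_loc B 𝔪)
    (hxi : (s18_coord K0 ((s18_cz_t2 M hdM)⁻¹))⁻¹ ∈ s18_loc B 𝔪) :
    ∃ (z' ε : laurentBaseChange K0 (modularFunctionFieldFull M)) (e : ℕ),
      s34_Unif z' (s36_gc_V κ A M Θ) ∧ z' ∈ s18_loc B 𝔪 ∧ 0 < e ∧ ε ∈ s18_loc B 𝔪 ∧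
        ε⁻¹ ∈ s36_gc_V κ A M Θ ∧
        algebraMap K0 (laurentBaseChange K0 (modularFunctionFieldFull M)) (q : K0) =
          ε * z' ^ e := by
  have hq : q.Prime := Fact.out
  haveI : NeZero q := ⟨hq.ne_zero⟩
  have hroot : ∀ w : laurentBaseChange K0 (modularFunctionFieldFull M), w ^ q ∈ B → w ∈ B :=
    fun w hw => s36_ni5_root B hnorm q hq.pos w hw
  obtain ⟨h2m, h2i⟩ := s36_ni5_x2_mem hΘ hM hUnif hζ hBA hBB hBC hϖB hcap hzn hzn' hroot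
    ((s18_cz_t2 M hdM)⁻¹) (inv_ne_zero (s18_cz_t2_ne_zero M hdM))
    (inv_mem (s18_cz_t2 N hdN).2) s18_t2inv s18_t2 (s18_cz_coe_t2_inv M hdM)
    (by rw [inv_inv]; rfl) x1 x2 hx1 hx2 hG₁ hG₃ 𝔪 hϖ𝔪 hex hxm hxi
  have einv : s18_coord K0 ((s18_cz_t2 M hdM)⁻¹) = (s18_coord K0 (s18_cz_t2 M hdM))⁻¹ := by
    apply Subtype.ext
    show coeffEmb K0 (((s18_cz_t2 M hdM : modularFunctionFieldFull M) : LaurentSeries ℚ)⁻¹) =
      (coeffEmb K0 ((s18_cz_t2 M hdM : modularFunctionFieldFull M) : LaurentSeries ℚ))⁻¹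
    rw [map_inv₀]
  rw [einv] at hxm hxi hx2
  rw [inv_inv] at hxi
  have hx2' : ((x2⁻¹ : laurentBaseChange K0 (modularFunctionFieldFull M)) : LaurentSeries K0) =
      qExpand K0 (q ^ 2) ((s18_coord K0 (s18_cz_t2 M hdM) :
        laurentBaseChange K0 (modularFunctionFieldFull M)) : LaurentSeries K0) := by
    show (x2 : LaurentSeries K0)⁻¹ = _
    rw [hx2]
    show (qExpand K0 (q ^ 2) ((s18_coord K0 (s18_cz_t2 M hdM) :
      laurentBaseChange K0 (modularFunctionFieldFull M)) : LaurentSeries K0)⁻¹)⁻¹ = _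
    rw [map_inv₀, inv_inv]
  exact s36_ni5_core hq5 hΘ hM hdN hdM hd3N hd3M hUnif hζ hBA hBB hBC hϖB hcap hzn hzn' hnorm
    x2⁻¹ hx2' 𝔪 hϖ𝔪 hex hxi hxm h2i (by rw [inv_inv]; exact h2m)

/-- The prime `q` lies in `𝔪`, as a natural number cast. -/
theorem s36_ni5_q_mem {B : Subring (laurentBaseChange K0 (modularFunctionFieldFull M))}
    (hϖB : algebraMap K0 (laurentBaseChange K0 (modularFunctionFieldFull M)) (q : K0) ∈ B)
    (𝔪 : Ideal B)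
    (hϖ𝔪 : (⟨algebraMap K0 (laurentBaseChange K0 (modularFunctionFieldFull M)) (q : K0), hϖB⟩ :
      B) ∈ 𝔪) : ((q : ℕ) : B) ∈ 𝔪 := by
  have e1 : ((q : ℕ) : B) =
      ⟨algebraMap K0 (laurentBaseChange K0 (modularFunctionFieldFull M)) (q : K0), hϖB⟩ := by
    apply Subtype.ext
    exact (Subring.coe_natCast B q).trans
      (map_natCast (algebraMap K0 (laurentBaseChange K0 (modularFunctionFieldFull M))) q).symm
  rw [e1]
  exact hϖ𝔪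

/-- **`cpt`, `q ≥ 5`, chart of `t₂`, at a `C`-only prime containing `t₂ + 64`** (the complement
of the cuspidal statement, whose point hypothesis is `t₂ + 64 ∉ 𝔪`). -/
theorem s36_ni5_cpt_t2_64 [NeZero N] [NeZero M] [Fact q.Prime]
    [CharP (IsLocalRing.ResidueField A) q] (hq5 : 5 ≤ q)
    (hΘ : s36_gc_IsCusp N q ζ Θ) (hM : N * q ^ 2 ∣ M) (hdN : 2 ∣ N) (hdM : 2 ∣ M)
    (hd3N : 3 ∣ N) (hd3M : 3 ∣ M)
    {z : laurentBaseChange K0 (modularFunctionFieldFull M)}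
    (hUnif : s34_Unif z (s36_gc_V κ A M Θ)) (hζ : IsPrimitiveRoot (ζ : A) q)
    {B VA VB : Subring (laurentBaseChange K0 (modularFunctionFieldFull M))}
    (hBA : B ≤ VA) (hBB : B ≤ VB) (hBC : B ≤ s36_gc_V κ A M Θ)
    (hϖB : algebraMap K0 (laurentBaseChange K0 (modularFunctionFieldFull M)) (q : K0) ∈ B)
    (hcap : ∀ x ∈ B,
      (algebraMap K0 (laurentBaseChange K0 (modularFunctionFieldFull M)) (q : K0))⁻¹ * x ∈
        VA ⊓ VB ⊓ s36_gc_V κ A M Θ →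
      (algebraMap K0 (laurentBaseChange K0 (modularFunctionFieldFull M)) (q : K0))⁻¹ * x ∈ B)
    (hzn : algebraMap K0 (laurentBaseChange K0 (modularFunctionFieldFull M)) (q : K0) *
      (z ^ (q - 1))⁻¹ ∈ s36_gc_V κ A M Θ)
    (hzn' : z ^ (q - 1) *
      (algebraMap K0 (laurentBaseChange K0 (modularFunctionFieldFull M)) (q : K0))⁻¹ ∈
        s36_gc_V κ A M Θ)
    (hnorm : ∀ w : laurentBaseChange K0 (modularFunctionFieldFull M), IsIntegral B w → w ∈ B)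
    (x1 x2 : laurentBaseChange K0 (modularFunctionFieldFull M))
    (hx1 : (x1 : LaurentSeries K0) =
      qExpand K0 q ((s18_coord K0 (s18_cz_t2 M hdM) :
        laurentBaseChange K0 (modularFunctionFieldFull M)) : LaurentSeries K0))
    (hx2 : (x2 : LaurentSeries K0) =
      qExpand K0 (q ^ 2) ((s18_coord K0 (s18_cz_t2 M hdM) :
        laurentBaseChange K0 (modularFunctionFieldFull M)) : LaurentSeries K0))
    (hG₁ : s18_coord K0 (s18_cz_t2 M hdM) ^ q * x1⁻¹ ∈ B) (hG₃ : x2 ^ q * x1⁻¹ ∈ B)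
    (𝔪 : Ideal B) [h𝔪 : 𝔪.IsPrime]
    (hϖ𝔪 : (⟨algebraMap K0 (laurentBaseChange K0 (modularFunctionFieldFull M)) (q : K0), hϖB⟩ :
      B) ∈ 𝔪)
    (hex : ∃ f₀ : B, f₀ ∉ 𝔪 ∧
      (algebraMap K0 (laurentBaseChange K0 (modularFunctionFieldFull M)) (q : K0))⁻¹ *
        (f₀ : laurentBaseChange K0 (modularFunctionFieldFull M)) ∈ VA ⊓ VB)
    (hxB : s18_coord K0 (s18_cz_t2 M hdM) ∈ B)
    (h64 : s18_coord K0 (s18_cz_t2 M hdM) + 64 ∈ B)
    (h64𝔪 : (⟨s18_coord K0 (s18_cz_t2 M hdM) + 64, h64⟩ : B) ∈ 𝔪) :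
    ∃ (z' ε : laurentBaseChange K0 (modularFunctionFieldFull M)) (e : ℕ),
      s34_Unif z' (s36_gc_V κ A M Θ) ∧ z' ∈ s18_loc B 𝔪 ∧ 0 < e ∧ ε ∈ s18_loc B 𝔪 ∧
        ε⁻¹ ∈ s36_gc_V κ A M Θ ∧
        algebraMap K0 (laurentBaseChange K0 (modularFunctionFieldFull M)) (q : K0) =
          ε * z' ^ e := by
  have hq : q.Prime := Fact.out
  have hq𝔪 := s36_ni5_q_mem hϖB 𝔪 hϖ𝔪
  have h2c : Nat.Coprime q 2 := (Nat.coprime_primes hq Nat.prime_two).mpr (by omega)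
  have h64n : ((64 : ℕ) : B) ∉ 𝔪 :=
    s36_ni5_nat_not_mem q 64 (Nat.Coprime.pow_right 6 h2c) 𝔪 hq𝔪
  have hx𝔪 : (⟨s18_coord K0 (s18_cz_t2 M hdM), hxB⟩ : B) ∉ 𝔪 := by
    intro h
    apply h64n
    have e1 : ((64 : ℕ) : B) = ⟨s18_coord K0 (s18_cz_t2 M hdM) + 64, h64⟩ -
        ⟨s18_coord K0 (s18_cz_t2 M hdM), hxB⟩ := by
      apply Subtype.ext
      show ((64 : ℕ) : laurentBaseChange K0 (modularFunctionFieldFull M)) =
        s18_coord K0 (s18_cz_t2 M hdM) + 64 - s18_coord K0 (s18_cz_t2 M hdM)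
      rw [Nat.cast_ofNat]
      ring
    rw [e1]
    exact 𝔪.sub_mem h64𝔪 h
  exact s36_ni5_cpt_t2 hq5 hΘ hM hdN hdM hd3N hd3M hUnif hζ hBA hBB hBC hϖB hcap hzn hzn' hnorm
    x1 x2 hx1 hx2 hG₁ hG₃ 𝔪 hϖ𝔪 hex (s36_ni5_mem_loc 𝔪 _ hxB)
    (s36_pp_inv_mem B 𝔪 ⟨_, hxB⟩ hx𝔪)

/-- **`cpt`, `q ≥ 5`, chart of `t₂⁻¹`, at a `C`-only prime containing `1 + 64 t₂⁻¹`.** -/
theorem s36_ni5_cpt_t2inv_64 [NeZero N] [NeZero M] [Fact q.Prime]
    [CharP (IsLocalRing.ResidueField A) q] (hq5 : 5 ≤ q)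
    (hΘ : s36_gc_IsCusp N q ζ Θ) (hM : N * q ^ 2 ∣ M) (hdN : 2 ∣ N) (hdM : 2 ∣ M)
    (hd3N : 3 ∣ N) (hd3M : 3 ∣ M)
    {z : laurentBaseChange K0 (modularFunctionFieldFull M)}
    (hUnif : s34_Unif z (s36_gc_V κ A M Θ)) (hζ : IsPrimitiveRoot (ζ : A) q)
    {B VA VB : Subring (laurentBaseChange K0 (modularFunctionFieldFull M))}
    (hBA : B ≤ VA) (hBB : B ≤ VB) (hBC : B ≤ s36_gc_V κ A M Θ)
    (hϖB : algebraMap K0 (laurentBaseChange K0 (modularFunctionFieldFull M)) (q : K0) ∈ B)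
    (hcap : ∀ x ∈ B,
      (algebraMap K0 (laurentBaseChange K0 (modularFunctionFieldFull M)) (q : K0))⁻¹ * x ∈
        VA ⊓ VB ⊓ s36_gc_V κ A M Θ →
      (algebraMap K0 (laurentBaseChange K0 (modularFunctionFieldFull M)) (q : K0))⁻¹ * x ∈ B)
    (hzn : algebraMap K0 (laurentBaseChange K0 (modularFunctionFieldFull M)) (q : K0) *
      (z ^ (q - 1))⁻¹ ∈ s36_gc_V κ A M Θ)
    (hzn' : z ^ (q - 1) *
      (algebraMap K0 (laurentBaseChange K0 (modularFunctionFieldFull M)) (q : K0))⁻¹ ∈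
        s36_gc_V κ A M Θ)
    (hnorm : ∀ w : laurentBaseChange K0 (modularFunctionFieldFull M), IsIntegral B w → w ∈ B)
    (x1 x2 : laurentBaseChange K0 (modularFunctionFieldFull M))
    (hx1 : (x1 : LaurentSeries K0) =
      qExpand K0 q ((s18_coord K0 ((s18_cz_t2 M hdM)⁻¹) :
        laurentBaseChange K0 (modularFunctionFieldFull M)) : LaurentSeries K0))
    (hx2 : (x2 : LaurentSeries K0) =
      qExpand K0 (q ^ 2) ((s18_coord K0 ((s18_cz_t2 M hdM)⁻¹) :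
        laurentBaseChange K0 (modularFunctionFieldFull M)) : LaurentSeries K0))
    (hG₁ : s18_coord K0 ((s18_cz_t2 M hdM)⁻¹) ^ q * x1⁻¹ ∈ B) (hG₃ : x2 ^ q * x1⁻¹ ∈ B)
    (𝔪 : Ideal B) [h𝔪 : 𝔪.IsPrime]
    (hϖ𝔪 : (⟨algebraMap K0 (laurentBaseChange K0 (modularFunctionFieldFull M)) (q : K0), hϖB⟩ :
      B) ∈ 𝔪)
    (hex : ∃ f₀ : B, f₀ ∉ 𝔪 ∧
      (algebraMap K0 (laurentBaseChange K0 (modularFunctionFieldFull M)) (q : K0))⁻¹ *
        (f₀ : laurentBaseChange K0 (modularFunctionFieldFull M)) ∈ VA ⊓ VB)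
    (hxB : s18_coord K0 ((s18_cz_t2 M hdM)⁻¹) ∈ B)
    (h64 : 1 + 64 * s18_coord K0 ((s18_cz_t2 M hdM)⁻¹) ∈ B)
    (h64𝔪 : (⟨1 + 64 * s18_coord K0 ((s18_cz_t2 M hdM)⁻¹), h64⟩ : B) ∈ 𝔪) :
    ∃ (z' ε : laurentBaseChange K0 (modularFunctionFieldFull M)) (e : ℕ),
      s34_Unif z' (s36_gc_V κ A M Θ) ∧ z' ∈ s18_loc B 𝔪 ∧ 0 < e ∧ ε ∈ s18_loc B 𝔪 ∧
        ε⁻¹ ∈ s36_gc_V κ A M Θ ∧
        algebraMap K0 (laurentBaseChange K0 (modularFunctionFieldFull M)) (q : K0) =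
          ε * z' ^ e := by
  have hx𝔪 : (⟨s18_coord K0 ((s18_cz_t2 M hdM)⁻¹), hxB⟩ : B) ∉ 𝔪 := by
    intro h
    have h1 : (1 : B) ∈ 𝔪 := by
      have e1 : (1 : B) = ⟨1 + 64 * s18_coord K0 ((s18_cz_t2 M hdM)⁻¹), h64⟩ -
          ((64 : ℕ) : B) * ⟨s18_coord K0 ((s18_cz_t2 M hdM)⁻¹), hxB⟩ := by
        apply Subtype.ext
        show (1 : laurentBaseChange K0 (modularFunctionFieldFull M)) =
          1 + 64 * s18_coord K0 ((s18_cz_t2 M hdM)⁻¹) -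
            ((64 : ℕ) : laurentBaseChange K0 (modularFunctionFieldFull M)) *
              s18_coord K0 ((s18_cz_t2 M hdM)⁻¹)
        rw [Nat.cast_ofNat]
        ring
      rw [e1]
      exact 𝔪.sub_mem h64𝔪 (𝔪.mul_mem_left _ h)
    exact h𝔪.ne_top ((Ideal.eq_top_iff_one _).mpr h1)
  exact s36_ni5_cpt_t2inv hq5 hΘ hM hdN hdM hd3N hd3M hUnif hζ hBA hBB hBC hϖB hcap hzn hzn'
    hnorm x1 x2 hx1 hx2 hG₁ hG₃ 𝔪 hϖ𝔪 hex (s36_ni5_mem_loc 𝔪 _ hxB)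
    (s36_pp_inv_mem B 𝔪 ⟨_, hxB⟩ hx𝔪)

end Model

end Fermat.Agent.S36
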