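import Fermat.Agent.S36.ContractInst3
import Fermat.Agent.S36.CPtCusp5
import Fermat.Agent.S36.CuspRatio2
import Fermat.Agent.S36.CPtInst
import Fermat.Agent.S36.CPtNonCuspInst5

/-!
# S36 (NODE-3): the `cpt` hypothesis of the concrete model for `q ≥ 5` (`s36_ci_CptAll`)

At every closed point of the two `t₂`-charts of level `N₁ q q` (`6 ∣ N₁`, `q ≥ 5`, `q ∤ N₁`) lying
on the third component `C` only, the component `C` has a local equation.  Case split on the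
point: `t₂ + 64` a unit (resp. `1 + 64 t₂⁻¹` in the chart at infinity) -- the candidate built on
the chart coordinate (`S36/CPtCusp5`, cusps included); otherwise the point is not a cusp and the
per-point choice of `S36/CPtNonCuspInst5` applies.
-/

set_option autoImplicit false
set_option synthInstance.maxHeartbeats 400000
set_option linter.style.haveILetI false
set_option linter.unusedSectionVars false
set_option linter.unusedVariables false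

open ModularCurve AlgebraicCurve

noncomputable section

namespace Fermat.Agent.S36

open Fermat.Agent.S18 Fermat.Agent.S34 Fermat.Agent.S35

local notation "Qb" => AlgebraicClosure ℚ

/-- Transport of `s36_ci_Cpt` along an equality of the uniformizer. -/
theorem s36_cpi5_transfer {F : Type*} [Field F] {ϖ ϖ' : F} (h : ϖ = ϖ')
    {B VA VB VC : Subring F} (hϖB : ϖ ∈ B) (hϖB' : ϖ' ∈ B)
    (H : s36_ci_Cpt ϖ' B VA VB VC hϖB') : s36_ci_Cpt ϖ B VA VB VC hϖB := by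
  subst h
  exact H

set_option maxHeartbeats 2000000 in
/-- **`s36_ci_CptAll` for `q ≥ 5`, Hauptmodul `t₂`** (`6 ∣ N₁`). -/
theorem s36_cpi5_cptAll (N₁ q : ℕ) [NeZero N₁] [NeZero q] [NeZero (N₁ * q)]
    [NeZero (N₁ * q * q)] (hq : q.Prime) (hq5 : 5 ≤ q) (hqN : ¬ q ∣ N₁) (h2 : 2 ∣ N₁)
    (h3 : 3 ∣ N₁) (h2'' : 2 ∣ N₁ * q * q) :
    s36_ci_CptAll N₁ q (s18_cz_t2 (N₁ * q * q) h2'') := by
  intro P hP K₀ hfin hK₀ hDVR hirr w hw W₁ hW₁ hrel K ζ Θ hcusp hunifA hprimA hres hA0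
  haveI : Fact q.Prime := ⟨hq⟩
  haveI := hfin
  haveI := hDVR
  haveI hDVRA : IsDiscreteValuationRing (P.comap (algebraMap K Qb)) := s36_ci_dvr _ ζ hunifA
  haveI hchar : CharP (IsLocalRing.ResidueField (P.comap (algebraMap K Qb))) q :=
    (CharP.charP_iff_prime_eq_zero hq).mpr (by have := hres; rwa [map_natCast] at this)
  obtain ⟨c, hc⟩ := s36_gc_q_eq q hq (ζ : P.comap (algebraMap K Qb)) hprimA
  have h2' : 2 ∣ N₁ * q := Dvd.dvd.mul_right h2 q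
  have hch := s36_cp3f_chart_t2 P K₀ N₁ q (algebraMap K₀ K) (P.comap (algebraMap K Qb)) Θ ζ
    hP hqN h2 h2' h2'' hirr w hw W₁ hrel hcusp hunifA hA0 c hc
  obtain ⟨hUnif, hzn, hzn', -, -⟩ := s36_gd_props (algebraMap K₀ K)
    (P.comap (algebraMap K Qb)) (s18_A1 P K₀) hA0 N₁ q (N₁ * q * q) hq (s36_cp3i_level N₁ q)
    (s36_cp3i_sq_dvd N₁ q) ζ Θ hcusp hunifA hprimA
  obtain ⟨⟨hG1, hG3⟩, ⟨hG1i, hG3i⟩⟩ := s36_cusp2_t2 N₁ q K₀ P hq hqN h2 h2'' hP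
  have hM : N₁ * q ^ 2 ∣ N₁ * q * q := ⟨1, by ring⟩
  have h3'' : 3 ∣ N₁ * q * q := Dvd.dvd.mul_right (Dvd.dvd.mul_right h3 q) q
  have hϖeq : algebraMap (s18_A1 P K₀) (s18_F1 K₀ (N₁ * q * q)) ((q : ℕ) : s18_A1 P K₀) =
      algebraMap K₀ (s18_F1 K₀ (N₁ * q * q)) ((q : ℕ) : K₀) := by
    rw [map_natCast, map_natCast]
  haveI : NeZero (q * q) := ⟨Nat.mul_ne_zero hq.ne_zero hq.ne_zero⟩
  haveI : NeZero (q ^ 2) := ⟨pow_ne_zero 2 hq.ne_zero⟩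
  -- the functions `t₂(Q^q)`, `t₂(Q^(q²))`
  have hx1 : ((heckeAlphaBar K₀ (N₁ * q) q
        (heckeBetaBar K₀ N₁ q (s18_coord K₀ (s18_cz_t2 N₁ h2))) : s18_F1 K₀ (N₁ * q * q)) :
        LaurentSeries K₀) =
      qExpand K₀ q ((s18_coord K₀ (s18_cz_t2 (N₁ * q * q) h2'') : s18_F1 K₀ (N₁ * q * q)) :
        LaurentSeries K₀) := by
    rw [coe_heckeAlphaBar, coe_heckeBetaBar, s36_cpi_coe_t2, s36_cpi_coe_t2]
  have hx2 : ((heckeBetaBar K₀ (N₁ * q) q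
        (heckeBetaBar K₀ N₁ q (s18_coord K₀ (s18_cz_t2 N₁ h2))) : s18_F1 K₀ (N₁ * q * q)) :
        LaurentSeries K₀) =
      qExpand K₀ (q ^ 2) ((s18_coord K₀ (s18_cz_t2 (N₁ * q * q) h2'') :
        s18_F1 K₀ (N₁ * q * q)) : LaurentSeries K₀) := by
    rw [coe_heckeBetaBar, coe_heckeBetaBar, s36_cpi_coe_t2, s36_cpi_coe_t2, qExpand_qExpand]
    exact qExpand_congr (sq q).symm _
  constructor
  · -- the chart `B0`
    have hϖB : algebraMap K₀ (s18_F1 K₀ (N₁ * q * q)) ((q : ℕ) : K₀) ∈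
        (s34_md_B0 P K₀ (N₁ * q * q) (s18_cz_t2 (N₁ * q * q) h2'')).toSubring := by
      rw [← hϖeq]
      exact (s34_md_B0 P K₀ (N₁ * q * q) (s18_cz_t2 (N₁ * q * q) h2'')).algebraMap_mem _
    refine s36_cpi5_transfer hϖeq _ hϖB ?_
    intro 𝔪 h𝔪 hϖ𝔪 hex
    haveI h𝔪p : 𝔪.IsPrime := h𝔪.isPrime
    have hBA : (s34_md_B0 P K₀ (N₁ * q * q) (s18_cz_t2 (N₁ * q * q) h2'')).toSubring ≤
        s34_gi_V (s18_A1 P K₀) (N₁ * q * q) := fun x hx => (hch.hB0V x hx).1.1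
    have hBB : (s34_md_B0 P K₀ (N₁ * q * q) (s18_cz_t2 (N₁ * q * q) h2'')).toSubring ≤
        (s34_gi_V (s18_A1 P K₀) (N₁ * q * q)).comap
          ((W₁ : s18_F1 K₀ (N₁ * q * q) ≃+* s18_F1 K₀ (N₁ * q * q)) :
            s18_F1 K₀ (N₁ * q * q) →+* s18_F1 K₀ (N₁ * q * q)) :=
      fun x hx => (hch.hB0V x hx).1.2
    have hBC : (s34_md_B0 P K₀ (N₁ * q * q) (s18_cz_t2 (N₁ * q * q) h2'')).toSubring ≤
        s36_gc_V (algebraMap K₀ K) (P.comap (algebraMap K Qb)) (N₁ * q * q) Θ :=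
      fun x hx => (hch.hB0V x hx).2
    have hcap : ∀ x ∈ (s34_md_B0 P K₀ (N₁ * q * q) (s18_cz_t2 (N₁ * q * q) h2'')).toSubring,
        (algebraMap K₀ (s18_F1 K₀ (N₁ * q * q)) ((q : ℕ) : K₀))⁻¹ * x ∈
          s34_gi_V (s18_A1 P K₀) (N₁ * q * q) ⊓
          (s34_gi_V (s18_A1 P K₀) (N₁ * q * q)).comap
            ((W₁ : s18_F1 K₀ (N₁ * q * q) ≃+* s18_F1 K₀ (N₁ * q * q)) :
              s18_F1 K₀ (N₁ * q * q) →+* s18_F1 K₀ (N₁ * q * q)) ⊓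
          s36_gc_V (algebraMap K₀ K) (P.comap (algebraMap K Qb)) (N₁ * q * q) Θ →
        (algebraMap K₀ (s18_F1 K₀ (N₁ * q * q)) ((q : ℕ) : K₀))⁻¹ * x ∈
          (s34_md_B0 P K₀ (N₁ * q * q) (s18_cz_t2 (N₁ * q * q) h2'')).toSubring := by
      intro x hx h
      have h' := hch.hcap0 x hx (by rw [hϖeq]; exact ⟨⟨h.1.1, h.1.2⟩, h.2⟩)
      rwa [hϖeq] at h'
    by_cases h64 : ((⟨s18_coord K₀ (s18_cz_t2 (N₁ * q * q) h2''), hch.t_mem⟩ :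
        (s34_md_B0 P K₀ (N₁ * q * q) (s18_cz_t2 (N₁ * q * q) h2'')).toSubring) + 64) ∈ 𝔪
    · have h64B : (s18_coord K₀ (s18_cz_t2 (N₁ * q * q) h2'') : s18_F1 K₀ (N₁ * q * q)) + 64 ∈
          (s34_md_B0 P K₀ (N₁ * q * q) (s18_cz_t2 (N₁ * q * q) h2'')).toSubring :=
        Subring.add_mem _ hch.t_mem (by
          have h := natCast_mem
            (s34_md_B0 P K₀ (N₁ * q * q) (s18_cz_t2 (N₁ * q * q) h2'')).toSubring 64
          exact_mod_cast h)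
      have h64𝔪 : (⟨(s18_coord K₀ (s18_cz_t2 (N₁ * q * q) h2'') : s18_F1 K₀ (N₁ * q * q)) + 64, h64B⟩ :
          (s34_md_B0 P K₀ (N₁ * q * q) (s18_cz_t2 (N₁ * q * q) h2'')).toSubring) ∈ 𝔪 := by
        have e : (⟨(s18_coord K₀ (s18_cz_t2 (N₁ * q * q) h2'') : s18_F1 K₀ (N₁ * q * q)) + 64, h64B⟩ :
            (s34_md_B0 P K₀ (N₁ * q * q) (s18_cz_t2 (N₁ * q * q) h2'')).toSubring) =
            (⟨s18_coord K₀ (s18_cz_t2 (N₁ * q * q) h2''), hch.t_mem⟩ :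
              (s34_md_B0 P K₀ (N₁ * q * q) (s18_cz_t2 (N₁ * q * q) h2'')).toSubring) + 64 :=
          Subtype.ext (by push_cast; rfl)
        rw [e]
        exact h64
      exact s36_ni5_cpt_t2_64 hq5 hcusp hM h2 h2'' h3 h3'' hUnif hprimA hBA hBB hBC hϖB hcap hzn
        hzn' hch.hnorm0 _ _ hx1 hx2 hG1 hG3 𝔪 hϖ𝔪 hex hch.t_mem h64B h64𝔪
    · exact s36_cu5_cpt_t2 hq5 hcusp hM h2 h2'' hUnif hprimA hBA hBB hBC hϖB hcap hzn hzn'
        (hch.hroot0 q hq.pos) _ _ hx1 hx2 hG1 hG3 𝔪 hϖ𝔪 hex hch.t_mem h64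
  · -- the chart `Binf`
    have hϖB : algebraMap K₀ (s18_F1 K₀ (N₁ * q * q)) ((q : ℕ) : K₀) ∈
        (s34_md_Binf P K₀ (N₁ * q * q) (s18_cz_t2 (N₁ * q * q) h2'')).toSubring := by
      rw [← hϖeq]
      exact (s34_md_Binf P K₀ (N₁ * q * q) (s18_cz_t2 (N₁ * q * q) h2'')).algebraMap_mem _
    refine s36_cpi5_transfer hϖeq _ hϖB ?_
    intro 𝔪 h𝔪 hϖ𝔪 hex
    haveI h𝔪p : 𝔪.IsPrime := h𝔪.isPrime
    have hBA : (s34_md_Binf P K₀ (N₁ * q * q) (s18_cz_t2 (N₁ * q * q) h2'')).toSubring ≤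
        s34_gi_V (s18_A1 P K₀) (N₁ * q * q) := fun x hx => (hch.hBiV x hx).1.1
    have hBB : (s34_md_Binf P K₀ (N₁ * q * q) (s18_cz_t2 (N₁ * q * q) h2'')).toSubring ≤
        (s34_gi_V (s18_A1 P K₀) (N₁ * q * q)).comap
          ((W₁ : s18_F1 K₀ (N₁ * q * q) ≃+* s18_F1 K₀ (N₁ * q * q)) :
            s18_F1 K₀ (N₁ * q * q) →+* s18_F1 K₀ (N₁ * q * q)) :=
      fun x hx => (hch.hBiV x hx).1.2
    have hBC : (s34_md_Binf P K₀ (N₁ * q * q) (s18_cz_t2 (N₁ * q * q) h2'')).toSubring ≤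
        s36_gc_V (algebraMap K₀ K) (P.comap (algebraMap K Qb)) (N₁ * q * q) Θ :=
      fun x hx => (hch.hBiV x hx).2
    have hcap : ∀ x ∈ (s34_md_Binf P K₀ (N₁ * q * q) (s18_cz_t2 (N₁ * q * q) h2'')).toSubring,
        (algebraMap K₀ (s18_F1 K₀ (N₁ * q * q)) ((q : ℕ) : K₀))⁻¹ * x ∈
          s34_gi_V (s18_A1 P K₀) (N₁ * q * q) ⊓
          (s34_gi_V (s18_A1 P K₀) (N₁ * q * q)).comap
            ((W₁ : s18_F1 K₀ (N₁ * q * q) ≃+* s18_F1 K₀ (N₁ * q * q)) :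
              s18_F1 K₀ (N₁ * q * q) →+* s18_F1 K₀ (N₁ * q * q)) ⊓
          s36_gc_V (algebraMap K₀ K) (P.comap (algebraMap K Qb)) (N₁ * q * q) Θ →
        (algebraMap K₀ (s18_F1 K₀ (N₁ * q * q)) ((q : ℕ) : K₀))⁻¹ * x ∈
          (s34_md_Binf P K₀ (N₁ * q * q) (s18_cz_t2 (N₁ * q * q) h2'')).toSubring := by
      intro x hx h
      have h' := hch.hcapi x hx (by rw [hϖeq]; exact ⟨⟨h.1.1, h.1.2⟩, h.2⟩)
      rwa [hϖeq] at h'
    -- the coordinate of the chart at infinity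
    have einv : (s18_coord K₀ ((s18_cz_t2 (N₁ * q * q) h2'')⁻¹) : s18_F1 K₀ (N₁ * q * q)) =
        (s18_coord K₀ (s18_cz_t2 (N₁ * q * q) h2''))⁻¹ :=
      (s36_cu5_coord_inv (s18_cz_t2 (N₁ * q * q) h2'')).symm
    have hxB : (s18_coord K₀ ((s18_cz_t2 (N₁ * q * q) h2'')⁻¹) : s18_F1 K₀ (N₁ * q * q)) ∈
        (s34_md_Binf P K₀ (N₁ * q * q) (s18_cz_t2 (N₁ * q * q) h2'')).toSubring := by
      rw [einv]
      exact hch.tinv_mem
    have hx1i : (((heckeAlphaBar K₀ (N₁ * q) q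
        (heckeBetaBar K₀ N₁ q (s18_coord K₀ (s18_cz_t2 N₁ h2))))⁻¹ : s18_F1 K₀ (N₁ * q * q)) :
        LaurentSeries K₀) =
      qExpand K₀ q ((s18_coord K₀ ((s18_cz_t2 (N₁ * q * q) h2'')⁻¹) :
        s18_F1 K₀ (N₁ * q * q)) : LaurentSeries K₀) := by
      rw [einv]
      show ((heckeAlphaBar K₀ (N₁ * q) q
        (heckeBetaBar K₀ N₁ q (s18_coord K₀ (s18_cz_t2 N₁ h2))) : s18_F1 K₀ (N₁ * q * q)) :
        LaurentSeries K₀)⁻¹ = qExpand K₀ q ((s18_coord K₀ (s18_cz_t2 (N₁ * q * q) h2'') :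
          s18_F1 K₀ (N₁ * q * q)) : LaurentSeries K₀)⁻¹
      rw [hx1, map_inv₀]
    have hx2i : (((heckeBetaBar K₀ (N₁ * q) q
        (heckeBetaBar K₀ N₁ q (s18_coord K₀ (s18_cz_t2 N₁ h2))))⁻¹ : s18_F1 K₀ (N₁ * q * q)) :
        LaurentSeries K₀) =
      qExpand K₀ (q ^ 2) ((s18_coord K₀ ((s18_cz_t2 (N₁ * q * q) h2'')⁻¹) :
        s18_F1 K₀ (N₁ * q * q)) : LaurentSeries K₀) := by
      rw [einv]
      show ((heckeBetaBar K₀ (N₁ * q) q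
        (heckeBetaBar K₀ N₁ q (s18_coord K₀ (s18_cz_t2 N₁ h2))) : s18_F1 K₀ (N₁ * q * q)) :
        LaurentSeries K₀)⁻¹ = qExpand K₀ (q ^ 2) ((s18_coord K₀ (s18_cz_t2 (N₁ * q * q) h2'') :
          s18_F1 K₀ (N₁ * q * q)) : LaurentSeries K₀)⁻¹
      rw [hx2, map_inv₀]
    have hG1' : (s18_coord K₀ ((s18_cz_t2 (N₁ * q * q) h2'')⁻¹) : s18_F1 K₀ (N₁ * q * q)) ^ q *
        ((heckeAlphaBar K₀ (N₁ * q) q
          (heckeBetaBar K₀ N₁ q (s18_coord K₀ (s18_cz_t2 N₁ h2))))⁻¹)⁻¹ ∈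
        (s34_md_Binf P K₀ (N₁ * q * q) (s18_cz_t2 (N₁ * q * q) h2'')).toSubring := by
      rw [einv, inv_inv]
      exact hG1i
    have hG3' : ((heckeBetaBar K₀ (N₁ * q) q
          (heckeBetaBar K₀ N₁ q (s18_coord K₀ (s18_cz_t2 N₁ h2))))⁻¹ : s18_F1 K₀ (N₁ * q * q)) ^ q *
        ((heckeAlphaBar K₀ (N₁ * q) q
          (heckeBetaBar K₀ N₁ q (s18_coord K₀ (s18_cz_t2 N₁ h2))))⁻¹)⁻¹ ∈
        (s34_md_Binf P K₀ (N₁ * q * q) (s18_cz_t2 (N₁ * q * q) h2'')).toSubring := by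
      rw [inv_inv]
      exact hG3i
    by_cases h64 : (1 + 64 * (⟨s18_coord K₀ ((s18_cz_t2 (N₁ * q * q) h2'')⁻¹), hxB⟩ :
        (s34_md_Binf P K₀ (N₁ * q * q) (s18_cz_t2 (N₁ * q * q) h2'')).toSubring)) ∈ 𝔪
    · have h64B : 1 + 64 * (s18_coord K₀ ((s18_cz_t2 (N₁ * q * q) h2'')⁻¹) : s18_F1 K₀ (N₁ * q * q)) ∈
          (s34_md_Binf P K₀ (N₁ * q * q) (s18_cz_t2 (N₁ * q * q) h2'')).toSubring :=
        Subring.add_mem _ (Subring.one_mem _)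
          (Subring.mul_mem _ (by
            have h := natCast_mem
              (s34_md_Binf P K₀ (N₁ * q * q) (s18_cz_t2 (N₁ * q * q) h2'')).toSubring 64
            exact_mod_cast h) hxB)
      have h64𝔪 : (⟨1 + 64 * (s18_coord K₀ ((s18_cz_t2 (N₁ * q * q) h2'')⁻¹) : s18_F1 K₀ (N₁ * q * q)), h64B⟩ :
          (s34_md_Binf P K₀ (N₁ * q * q) (s18_cz_t2 (N₁ * q * q) h2'')).toSubring) ∈ 𝔪 := by
        have e : (⟨1 + 64 * (s18_coord K₀ ((s18_cz_t2 (N₁ * q * q) h2'')⁻¹) : s18_F1 K₀ (N₁ * q * q)), h64B⟩ :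
            (s34_md_Binf P K₀ (N₁ * q * q) (s18_cz_t2 (N₁ * q * q) h2'')).toSubring) =
            1 + 64 * (⟨s18_coord K₀ ((s18_cz_t2 (N₁ * q * q) h2'')⁻¹), hxB⟩ :
              (s34_md_Binf P K₀ (N₁ * q * q) (s18_cz_t2 (N₁ * q * q) h2'')).toSubring) :=
          Subtype.ext (by push_cast; rfl)
        rw [e]
        exact h64
      exact s36_ni5_cpt_t2inv_64 hq5 hcusp hM h2 h2'' h3 h3'' hUnif hprimA hBA hBB hBC hϖB hcap
        hzn hzn' hch.hnormi _ _ hx1i hx2i hG1' hG3' 𝔪 hϖ𝔪 hex hxB h64B h64𝔪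
    · exact s36_cu5_cpt_t2inv hq5 hcusp hM h2 h2'' hUnif hprimA hBA hBB hBC hϖB hcap hzn hzn'
        (hch.hrooti q hq.pos) _ _ hx1i hx2i hG1' hG3' 𝔪 hϖ𝔪 hex hxB h64

end Fermat.Agent.S36
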