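import Fermat.Agent.S36.CPtCusp

/-!
# S36 (NODE-3), contract item (c-Cpt): the candidate with LOCAL data (per-point coordinate)

For `q ≥ 5` the coordinate `x` of the candidate `z' = (x₂ - x) y` has to be chosen per point
(`x = t₂` where `t₂ + 64` is a unit, `x = t₃` where `t₃ + 27` is a unit), and at a point of the
`t₂`-chart `B` the function `t₃` only lies in the local ring `B_𝔪`.  This file provides the
local-ring forms of `s36_cpt_loc` (`S36/CPt.lean`) and of the model statement.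

* `s36_cl5_loc` : `s36_cpt_loc` with `c, a ∈ B_𝔪`, `a` a unit of `B_𝔪` (denominators cleared).
* `s36_cl5_not_mem` : at a `C`-only point, `τ₂ ≡ τ` modulo `z V_C` and `τ ∉ 𝔪` give `τ₂ ∉ 𝔪`.
* `s36_cl5_twist_sub_mem` (model): if `Θ(τ₂) = (Θ τ)(ζ Q)` and `Θ τ` is `A`-integral then
  `τ₂ - τ ∈ z V_C`.
* `s36_cl5_point` (model): the `cpt` conclusion (`∃ z' ε e, …`) at a `C`-only point from
  `x, x₂, y, c, a : K₀ · F(M)` with `A`-integral cusp expansions, `Θ(x₂) = (Θ x)(ζ Q)`,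
  `(x₂ - x) y ∈ B_𝔪`, `c ∈ B_𝔪`, `a ∈ B_𝔪ˣ` and the residue identity
  `(-(θ X̄)^(q-1) Ȳ^(q-1))^n C̄ = Ā` (the `hid` of `s36_cpt_cong_int`).
-/

set_option autoImplicit false
set_option linter.style.haveILetI false
set_option linter.unusedSectionVars false
set_option linter.unusedVariables false

open ModularCurve

noncomputable section

namespace Fermat.Agent.S36

open Fermat.Agent.S28 (twistQ)
open Fermat.Agent.S18 Fermat.Agent.S34 Fermat.Agent.S37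

section Abs

variable {F : Type*} [Field F] {ϖ z₀ ε₀ : F} {B V₁ V' : Subring F}

/-- **`s36_cpt_loc` with local data**: `c, a ∈ B_𝔪` and `a` a unit of `B_𝔪`. -/
theorem s36_cl5_loc (hV₁ : s34_Unif z₀ V₁) (hB₁ : B ≤ V₁) (hB' : B ≤ V') (hϖB : ϖ ∈ B)
    (hϖ0 : ϖ ≠ 0)
    (hcap : ∀ x ∈ B, ϖ⁻¹ * x ∈ V₁ → ϖ⁻¹ * x ∈ V' → ϖ⁻¹ * x ∈ B)
    (e : ℕ) (he : 0 < e) (hε₀ : ε₀ ∈ V₁) (hε₀' : ε₀⁻¹ ∈ V₁) (hϖ : ϖ = ε₀ * z₀ ^ e)
    (𝔪 : Ideal B) [h𝔪 : 𝔪.IsPrime] (hϖ𝔪 : (⟨ϖ, hϖB⟩ : B) ∈ 𝔪)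
    (f₀ : B) (hf₀ : f₀ ∉ 𝔪) (hf₀' : ϖ⁻¹ * (f₀ : F) ∈ V')
    (z' : F) (hz' : z' ∈ s18_loc B 𝔪) (hu : ϖ⁻¹ * z' ^ e ∈ V₁)
    (n : ℕ) (hn : 0 < n) (c a : F) (hc : c ∈ s18_loc B 𝔪) (ha : a ∈ s18_loc B 𝔪)
    (ha' : a⁻¹ ∈ s18_loc B 𝔪) (ha0 : a ≠ 0)
    (hcong : z₀⁻¹ * ((ϖ⁻¹ * z' ^ e) ^ n * c - a) ∈ V₁) :
    s34_Unif z' V₁ ∧ (ϖ⁻¹ * z' ^ e)⁻¹ ∈ s18_loc B 𝔪 ∧ ((ϖ⁻¹ * z' ^ e)⁻¹)⁻¹ ∈ V₁ ∧
      ϖ = (ϖ⁻¹ * z' ^ e)⁻¹ * z' ^ e := by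
  obtain ⟨c₁, d₁, hd₁, hceq⟩ := hc
  obtain ⟨a₁, d₂, hd₂, haeq⟩ := ha
  obtain ⟨a₃, d₃, hd₃, ha'eq⟩ := ha'
  have hne : ∀ d : B, d ∉ 𝔪 → (d : F) ≠ 0 := fun d hd h0 => hd (by
    have : d = 0 := Subtype.ext h0
    rw [this]; exact 𝔪.zero_mem)
  have hd₁0 := hne d₁ hd₁
  have hd₂0 := hne d₂ hd₂
  have hd₃0 := hne d₃ hd₃
  -- `a₁ ∉ 𝔪`
  have ha₁ : a₁ ∉ 𝔪 := by
    intro hmem
    have h1 : (a₁ : F) * (a₃ : F) = (d₂ : F) * (d₃ : F) := by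
      have h2 : a * a⁻¹ = 1 := mul_inv_cancel₀ ha0
      rw [ha'eq, haeq] at h2
      field_simp at h2
      linear_combination h2
    have h3 : a₁ * a₃ = d₂ * d₃ := Subtype.ext (by push_cast; exact h1)
    have h4 : d₂ * d₃ ∈ 𝔪 := by rw [← h3]; exact 𝔪.mul_mem_right _ hmem
    rcases h𝔪.mem_or_mem h4 with h | h
    · exact hd₂ h
    · exact hd₃ h
  have ha𝔪 : a₁ * d₁ ∉ 𝔪 := by
    intro hmem
    rcases h𝔪.mem_or_mem hmem with h | h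
    · exact ha₁ h
    · exact hd₁ h
  refine s36_cpt_loc hV₁ hB₁ hB' hϖB hϖ0 hcap e he hε₀ hε₀' hϖ 𝔪 hϖ𝔪 f₀ hf₀ hf₀' z' hz' hu n hn
    (c₁ * d₂) (a₁ * d₁) ha𝔪 ?_
  have e1 : z₀⁻¹ * ((ϖ⁻¹ * z' ^ e) ^ n * ((c₁ * d₂ : B) : F) - ((a₁ * d₁ : B) : F)) =
      ((d₁ : F) * (d₂ : F)) * (z₀⁻¹ * ((ϖ⁻¹ * z' ^ e) ^ n * c - a)) := by
    rw [hceq, haeq]
    push_cast
    field_simp
  rw [e1]
  exact V₁.mul_mem (V₁.mul_mem (hB₁ d₁.2) (hB₁ d₂.2)) hcong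

/-- At a point lying on the component `V₁` only, two elements of `B` congruent modulo the
uniformiser of `V₁` are units at the point together. -/
theorem s36_cl5_not_mem (hB₁ : B ≤ V₁) (hB' : B ≤ V') (hϖB : ϖ ∈ B) (hϖ0 : ϖ ≠ 0)
    (hcap : ∀ x ∈ B, ϖ⁻¹ * x ∈ V₁ → ϖ⁻¹ * x ∈ V' → ϖ⁻¹ * x ∈ B)
    (e : ℕ) (he : 0 < e) (hε₀' : ε₀⁻¹ ∈ V₁) (hϖ : ϖ = ε₀ * z₀ ^ e)
    (𝔪 : Ideal B) [h𝔪 : 𝔪.IsPrime] (hϖ𝔪 : (⟨ϖ, hϖB⟩ : B) ∈ 𝔪)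
    (f₀ : B) (hf₀ : f₀ ∉ 𝔪) (hf₀' : ϖ⁻¹ * (f₀ : F) ∈ V')
    (τ τ2 : B) (h : z₀⁻¹ * ((τ2 : F) - (τ : F)) ∈ V₁) (hτ : τ ∉ 𝔪) : τ2 ∉ 𝔪 := by
  intro hmem
  have h1 : τ2 - τ ∈ 𝔪 :=
    s36_cpt_comp_le hB₁ hB' hϖB hϖ0 hcap e he hε₀' hϖ 𝔪 hϖ𝔪 f₀ hf₀ hf₀' (τ2 - τ) (by
      push_cast; exact h)
  have h2 : τ ∈ 𝔪 := by
    have e1 : τ = τ2 - (τ2 - τ) := by ring
    rw [e1]; exact 𝔪.sub_mem hmem h1
  exact hτ h2

end Abs

section Model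

variable {K0 K : Type*} [Field K0] [Field K] [Algebra ℚ K0] [Algebra ℚ K]
  {κ : K0 →+* K} {A : ValuationSubring K} {M : ℕ}
  {Θ : laurentBaseChange K (modularFunctionFieldFull M) →ₐ[K] LaurentSeries K}

/-- If `Θ(τ₂) = (Θ τ)(ζ Q)` with `Θ τ` an `A`-integral series and `ζ ≡ 1`, then `τ₂ ≡ τ`
modulo the uniformiser of `V_C`. -/
theorem s36_cl5_twist_sub_mem {z : laurentBaseChange K0 (modularFunctionFieldFull M)}
    (hUnif : s34_Unif z (s36_gc_V κ A M Θ)) (ζ : Aˣ)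
    (hζres : IsLocalRing.residue A ((ζ : A) - 1) = 0)
    (τ τ2 : laurentBaseChange K0 (modularFunctionFieldFull M)) (T : LaurentSeries A)
    (hT : Θ (s36_gc_incl κ M τ) = coeffMap A.subtype T)
    (h2 : Θ (s36_gc_incl κ M τ2) =
      twistQ (Units.map (A.subtype : A →* K) ζ) (Θ (s36_gc_incl κ M τ))) :
    z⁻¹ * (τ2 - τ) ∈ s36_gc_V κ A M Θ := by
  have e : Θ (s36_gc_incl κ M (τ2 - τ)) = coeffMap A.subtype (twistQ ζ T - T) := by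
    rw [map_sub, map_sub, h2, hT, ← Fermat.Agent.S28.formal_coeffMap_twistQ, ← map_sub]
  obtain ⟨hf, hred⟩ := s36_cpt_red_int (κ := κ) (τ2 - τ) _ e
  apply s36_cpt_dvd_of_red hUnif _ hf
  rw [hred]
  ext n
  rw [coeffMap_coeff, HahnSeries.coeff_sub, Fermat.Agent.S28.twistQ_coeff, HahnSeries.coeff_zero]
  have h1 : IsLocalRing.residue A (((ζ ^ n : Aˣ) : A)) = 1 := by
    have hζ1 : IsLocalRing.residue A (ζ : A) = 1 := by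
      rw [map_sub, map_one, sub_eq_zero] at hζres
      exact hζres
    have hu : Units.map (IsLocalRing.residue A : A →* IsLocalRing.ResidueField A) ζ = 1 :=
      Units.ext hζ1
    have h3 : Units.map (IsLocalRing.residue A : A →* IsLocalRing.ResidueField A) (ζ ^ n) = 1 := by
      rw [map_zpow, hu, one_zpow]
    exact congrArg Units.val h3
  rw [map_sub, map_mul, h1, one_mul, sub_self]

variable (q : ℕ) [Fact q.Prime] [CharP (IsLocalRing.ResidueField A) q]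

/-- **The `cpt` conclusion at a `C`-only point, local data.**  `ϖ = q`; `V' = V_A ⊓ V_B`;
`x, y, c, a` with `A`-integral images at the cusp `1/q`, `Θ(x₂) = (Θ x)(ζ Q)`; the candidate
`z' = (x₂ - x) y`, `c` and `a^{±1}` lie in the local ring `B_𝔪`; and
`(-(θ X̄)^(q-1) Ȳ^(q-1))^n C̄ = Ā` over the residue field. -/
theorem s36_cl5_point {z : laurentBaseChange K0 (modularFunctionFieldFull M)}
    (hUnif : s34_Unif z (s36_gc_V κ A M Θ)) (ζ : Aˣ) (hζ : IsPrimitiveRoot (ζ : A) q)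
    {B V' : Subring (laurentBaseChange K0 (modularFunctionFieldFull M))}
    (hB₁ : B ≤ s36_gc_V κ A M Θ) (hB' : B ≤ V')
    (hϖB : algebraMap K0 (laurentBaseChange K0 (modularFunctionFieldFull M)) (q : K0) ∈ B)
    (hcap : ∀ x ∈ B,
      (algebraMap K0 (laurentBaseChange K0 (modularFunctionFieldFull M)) (q : K0))⁻¹ * x ∈
        s36_gc_V κ A M Θ →
      (algebraMap K0 (laurentBaseChange K0 (modularFunctionFieldFull M)) (q : K0))⁻¹ * x ∈ V' →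
      (algebraMap K0 (laurentBaseChange K0 (modularFunctionFieldFull M)) (q : K0))⁻¹ * x ∈ B)
    (hzq : algebraMap K0 (laurentBaseChange K0 (modularFunctionFieldFull M)) (q : K0) *
      (z ^ (q - 1))⁻¹ ∈ s36_gc_V κ A M Θ)
    (hzq' : z ^ (q - 1) *
      (algebraMap K0 (laurentBaseChange K0 (modularFunctionFieldFull M)) (q : K0))⁻¹ ∈
        s36_gc_V κ A M Θ)
    (𝔪 : Ideal B) [h𝔪 : 𝔪.IsPrime]
    (hϖ𝔪 : (⟨algebraMap K0 (laurentBaseChange K0 (modularFunctionFieldFull M)) (q : K0),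
      hϖB⟩ : B) ∈ 𝔪)
    (f₀ : B) (hf₀ : f₀ ∉ 𝔪)
    (hf₀' : (algebraMap K0 (laurentBaseChange K0 (modularFunctionFieldFull M)) (q : K0))⁻¹ *
      (f₀ : laurentBaseChange K0 (modularFunctionFieldFull M)) ∈ V')
    (x x2 y c a : laurentBaseChange K0 (modularFunctionFieldFull M))
    (X Y Cs As : LaurentSeries A)
    (hX : Θ (s36_gc_incl κ M x) = coeffMap A.subtype X)
    (hY : Θ (s36_gc_incl κ M y) = coeffMap A.subtype Y)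
    (hC : Θ (s36_gc_incl κ M c) = coeffMap A.subtype Cs)
    (hA : Θ (s36_gc_incl κ M a) = coeffMap A.subtype As)
    (h2 : Θ (s36_gc_incl κ M x2) =
      twistQ (Units.map (A.subtype : A →* K) ζ) (Θ (s36_gc_incl κ M x)))
    (hz' : (x2 - x) * y ∈ s18_loc B 𝔪) (hc : c ∈ s18_loc B 𝔪) (ha : a ∈ s18_loc B 𝔪)
    (ha' : a⁻¹ ∈ s18_loc B 𝔪) (ha0 : a ≠ 0) (n : ℕ) (hn : 0 < n)
    (hid : (-(s36_qt_theta (IsLocalRing.ResidueField A) (coeffMap (IsLocalRing.residue A) X)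
          ^ (q - 1)) * coeffMap (IsLocalRing.residue A) Y ^ (q - 1)) ^ n *
        coeffMap (IsLocalRing.residue A) Cs = coeffMap (IsLocalRing.residue A) As) :
    ∃ (z' ε : laurentBaseChange K0 (modularFunctionFieldFull M)) (e : ℕ),
      s34_Unif z' (s36_gc_V κ A M Θ) ∧ z' ∈ s18_loc B 𝔪 ∧ 0 < e ∧ ε ∈ s18_loc B 𝔪 ∧
      ε⁻¹ ∈ s36_gc_V κ A M Θ ∧
      algebraMap K0 (laurentBaseChange K0 (modularFunctionFieldFull M)) (q : K0) = ε * z' ^ e := by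
  have hq : q.Prime := Fact.out
  have hq1 : 0 < q - 1 := Nat.sub_pos_of_lt hq.one_lt
  haveI : CharZero K0 := algebraRat.charZero K0
  have hϖ0 : algebraMap K0 (laurentBaseChange K0 (modularFunctionFieldFull M)) (q : K0) ≠ 0 := by
    rw [Ne, map_eq_zero]
    exact_mod_cast hq.ne_zero
  have hz0 : z ≠ 0 := hUnif.ne_zero
  obtain ⟨hu, hcong⟩ := s36_cpt_cong_int (κ := κ) (Θ := Θ) q hUnif ζ hζ x x2 y c a X Y Cs As
    hX hY hC hA h2 n hid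
  have hε₀' : (algebraMap K0 (laurentBaseChange K0 (modularFunctionFieldFull M)) (q : K0) *
      (z ^ (q - 1))⁻¹)⁻¹ ∈ s36_gc_V κ A M Θ := by
    rw [mul_inv, inv_inv, mul_comm]
    exact hzq'
  have hϖ : algebraMap K0 (laurentBaseChange K0 (modularFunctionFieldFull M)) (q : K0) =
      (algebraMap K0 (laurentBaseChange K0 (modularFunctionFieldFull M)) (q : K0) *
        (z ^ (q - 1))⁻¹) * z ^ (q - 1) := by
    rw [mul_assoc, inv_mul_cancel₀ (pow_ne_zero _ hz0), mul_one]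
  obtain ⟨h1, h2', h3, h4⟩ := s36_cl5_loc (V₁ := s36_gc_V κ A M Θ) (V' := V') hUnif hB₁ hB' hϖB
    hϖ0 hcap (q - 1) hq1 hzq hε₀' hϖ 𝔪 hϖ𝔪 f₀ hf₀ hf₀' ((x2 - x) * y) hz' hu n hn c a hc ha ha'
    ha0 hcong
  exact ⟨(x2 - x) * y, _, q - 1, h1, hz', hq1, h2', h3, h4⟩

end Model

end Fermat.Agent.S36
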