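import Fermat.Agent.S36.Pole5
import Fermat.Agent.S18.HauptField

/-!
# S36 (NODE-3), contract item (c-Cpt), `q ≥ 5`: the `q`-series identities for the scaled
candidate at the `C`-only points (cusps included)

Over a field `k` of characteristic `q ≥ 5`, with `θ = Q d/dQ`, `Δ̄⁻¹ = deltaInvSeries k`,
`T ∈ {t̄₂, t̄₃}`, `S = T⁻¹`:

* `s36_cs5_t2_zero` : `(θT · S)^(6(q-1)) · (Δ̄^{-(q-1)} T^(2(q-1))) = (T + 64)^(3(q-1))`;
* `s36_cs5_t2_inf`  : `(θS · T)^(6(q-1)) · (Δ̄^{-(q-1)} S^(q-1)) = (1 + 64 S)^(3(q-1))`;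
* `s36_cs5_t3_zero` : `(θT · S)^(6(q-1)) · (Δ̄^{-(q-1)} T^(3(q-1))) = (T + 27)^(4(q-1))`;
* `s36_cs5_t3_inf`  : `(θS · T)^(6(q-1)) · (Δ̄^{-(q-1)} S^(q-1)) = (1 + 27 S)^(4(q-1))`;

and `s36_cs5_hid_*` : the same in the shape of the hypothesis `hid` of `s36_cpt_cong_int`
(`n = 6`).  `s36_cs5_P q hq : ℤ[X]` is a monic integral lift of the Hasse polynomial:
`P(j) ≡ Δ^{-(q-1)}` modulo `q` (`s36_cs5_P_red`).
-/

set_option autoImplicit false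

open ModularCurve

noncomputable section

namespace Fermat.Agent.S36

open Fermat.Agent.S28 Fermat.Agent.S18

section Alg

variable {R : Type*} [CommRing R]

theorem s36_cs5_alg2_zero (X T S D U : R) (n : ℕ) (hTS : T * S = 1)
    (H : X ^ (6 * n) * D ^ n = (U ^ 3 * T ^ 4) ^ n) :
    (X * S) ^ (6 * n) * (D ^ n * T ^ (2 * n)) = U ^ (3 * n) := by
  have e1 : (X * S) ^ (6 * n) * (D ^ n * T ^ (2 * n))
      = (X ^ (6 * n) * D ^ n) * (S ^ (6 * n) * T ^ (2 * n)) := by ring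
  have e2 : (U ^ 3 * T ^ 4) ^ n * (S ^ (6 * n) * T ^ (2 * n))
      = U ^ (3 * n) * (T * S) ^ (6 * n) := by ring
  rw [e1, H, e2, hTS, one_pow, mul_one]

theorem s36_cs5_alg3_zero (X T S D U : R) (n : ℕ) (hTS : T * S = 1)
    (H : X ^ (6 * n) * D ^ n = (U ^ 4 * T ^ 3) ^ n) :
    (X * S) ^ (6 * n) * (D ^ n * T ^ (3 * n)) = U ^ (4 * n) := by
  have e1 : (X * S) ^ (6 * n) * (D ^ n * T ^ (3 * n))
      = (X ^ (6 * n) * D ^ n) * (S ^ (6 * n) * T ^ (3 * n)) := by ring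
  have e2 : (U ^ 4 * T ^ 3) ^ n * (S ^ (6 * n) * T ^ (3 * n))
      = U ^ (4 * n) * (T * S) ^ (6 * n) := by ring
  rw [e1, H, e2, hTS, one_pow, mul_one]

theorem s36_cs5_alg2_inf (X T S D U V : R) (n : ℕ) (hTS : T * S = 1)
    (H : (X * S) ^ (6 * n) * (D ^ n * T ^ (2 * n)) = U ^ (3 * n)) (hUS : U * S = V) :
    (X * S) ^ (6 * n) * (D ^ n * S ^ n) = V ^ (3 * n) := by
  have e0 : (X * S) ^ (6 * n) * (D ^ n * S ^ n)
      = (X * S) ^ (6 * n) * (D ^ n * (S ^ n * (T * S) ^ (2 * n))) := by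
    rw [hTS, one_pow, mul_one]
  have e1 : (X * S) ^ (6 * n) * (D ^ n * (S ^ n * (T * S) ^ (2 * n)))
      = ((X * S) ^ (6 * n) * (D ^ n * T ^ (2 * n))) * S ^ (3 * n) := by ring
  rw [e0, e1, H, ← mul_pow, hUS]

theorem s36_cs5_alg3_inf (X T S D U V : R) (n : ℕ) (hTS : T * S = 1)
    (H : (X * S) ^ (6 * n) * (D ^ n * T ^ (3 * n)) = U ^ (4 * n)) (hUS : U * S = V) :
    (X * S) ^ (6 * n) * (D ^ n * S ^ n) = V ^ (4 * n) := by
  have e0 : (X * S) ^ (6 * n) * (D ^ n * S ^ n)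
      = (X * S) ^ (6 * n) * (D ^ n * (S ^ n * (T * S) ^ (3 * n))) := by
    rw [hTS, one_pow, mul_one]
  have e1 : (X * S) ^ (6 * n) * (D ^ n * (S ^ n * (T * S) ^ (3 * n)))
      = ((X * S) ^ (6 * n) * (D ^ n * T ^ (3 * n))) * S ^ (4 * n) := by ring
  rw [e0, e1, H, ← mul_pow, hUS]

theorem s36_cs5_alg_six (X Y : R) (n : ℕ) : (-(X ^ n) * Y ^ n) ^ 6 = (X * Y) ^ (6 * n) := by
  ring

end Alg

section Series

variable (q : ℕ) [Fact q.Prime] (k : Type*) [Field k] [CharP k q]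

/-- The Hasse identities of `S36/Pole5.lean` with `Δ̄^{-(q-1)}` in place of `P(j̄)`. -/
theorem s36_cs5_hasse_delta (hq : 5 ≤ q) :
    s36_qt_theta k (s18_t2R k) ^ (6 * (q - 1)) * deltaInvSeries k ^ (q - 1)
        = ((s18_t2R k + 64) ^ 3 * s18_t2R k ^ 4) ^ (q - 1) ∧
      s36_qt_theta k (s18_t3R k) ^ (6 * (q - 1)) * deltaInvSeries k ^ (q - 1)
        = ((s18_t3R k + 27) ^ 4 * s18_t3R k ^ 3) ^ (q - 1) := by
  obtain ⟨P, -, -, hΔ, -, h2, h3⟩ := s36_p5_hasse q hq k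
  rw [hΔ] at h2 h3
  exact ⟨h2, h3⟩

omit [Fact q.Prime] [CharP k q] in
/-- `θ (T⁻¹) · T = - θ T · T⁻¹`. -/
theorem s36_cs5_theta_inv (T S : LaurentSeries k) (hTS : T * S = 1) :
    s36_qt_theta k S * T = -(s36_qt_theta k T * S) := by
  have h := congrArg (s36_qt_theta k) hTS
  rw [s36_qt_theta_mul, s36_qt_theta_one] at h
  linear_combination h

/-- `t₂`, chart at `0`. -/
theorem s36_cs5_t2_zero (hq : 5 ≤ q) :
    (s36_qt_theta k (s18_t2R k) * s18_t2invR k) ^ (6 * (q - 1))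
        * (deltaInvSeries k ^ (q - 1) * s18_t2R k ^ (2 * (q - 1)))
      = (s18_t2R k + 64) ^ (3 * (q - 1)) :=
  s36_cs5_alg2_zero _ _ _ _ _ _ (s18_t2R_mul_inv k) (s36_cs5_hasse_delta q k hq).1

/-- `t₂`, chart at `∞`. -/
theorem s36_cs5_t2_inf (hq : 5 ≤ q) :
    (s36_qt_theta k (s18_t2invR k) * s18_t2R k) ^ (6 * (q - 1))
        * (deltaInvSeries k ^ (q - 1) * s18_t2invR k ^ (q - 1))
      = (1 + 64 * s18_t2invR k) ^ (3 * (q - 1)) := by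
  have hTS := s18_t2R_mul_inv k
  rw [s36_cs5_theta_inv k _ _ hTS, Even.neg_pow ⟨3 * (q - 1), by ring⟩]
  refine s36_cs5_alg2_inf _ _ _ _ (s18_t2R k + 64) _ _ hTS (s36_cs5_t2_zero q k hq) ?_
  linear_combination hTS

/-- `t₃`, chart at `0`. -/
theorem s36_cs5_t3_zero (hq : 5 ≤ q) :
    (s36_qt_theta k (s18_t3R k) * s18_t3invR k) ^ (6 * (q - 1))
        * (deltaInvSeries k ^ (q - 1) * s18_t3R k ^ (3 * (q - 1)))
      = (s18_t3R k + 27) ^ (4 * (q - 1)) :=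
  s36_cs5_alg3_zero _ _ _ _ _ _ (s18_t3R_mul_inv k) (s36_cs5_hasse_delta q k hq).2

/-- `t₃`, chart at `∞`. -/
theorem s36_cs5_t3_inf (hq : 5 ≤ q) :
    (s36_qt_theta k (s18_t3invR k) * s18_t3R k) ^ (6 * (q - 1))
        * (deltaInvSeries k ^ (q - 1) * s18_t3invR k ^ (q - 1))
      = (1 + 27 * s18_t3invR k) ^ (4 * (q - 1)) := by
  have hTS := s18_t3R_mul_inv k
  rw [s36_cs5_theta_inv k _ _ hTS, Even.neg_pow ⟨3 * (q - 1), by ring⟩]
  refine s36_cs5_alg3_inf _ _ _ _ (s18_t3R k + 27) _ _ hTS (s36_cs5_t3_zero q k hq) ?_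
  linear_combination hTS

/-- `hid` of `s36_cpt_cong_int`, `t₂`, chart at `0` (`X̄ = t̄₂`, `Ȳ = t̄₂⁻¹`, `n = 6`). -/
theorem s36_cs5_hid_t2_zero (hq : 5 ≤ q) :
    (-(s36_qt_theta k (s18_t2R k) ^ (q - 1)) * s18_t2invR k ^ (q - 1)) ^ 6
        * (deltaInvSeries k ^ (q - 1) * s18_t2R k ^ (2 * (q - 1)))
      = (s18_t2R k + 64) ^ (3 * (q - 1)) := by
  rw [← s36_cs5_t2_zero q k hq, s36_cs5_alg_six]

/-- `hid` of `s36_cpt_cong_int`, `t₂`, chart at `∞` (`X̄ = t̄₂⁻¹`, `Ȳ = t̄₂`, `n = 6`). -/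
theorem s36_cs5_hid_t2_inf (hq : 5 ≤ q) :
    (-(s36_qt_theta k (s18_t2invR k) ^ (q - 1)) * s18_t2R k ^ (q - 1)) ^ 6
        * (deltaInvSeries k ^ (q - 1) * s18_t2invR k ^ (q - 1))
      = (1 + 64 * s18_t2invR k) ^ (3 * (q - 1)) := by
  rw [← s36_cs5_t2_inf q k hq, s36_cs5_alg_six]

/-- `hid` of `s36_cpt_cong_int`, `t₃`, chart at `0` (`X̄ = t̄₃`, `Ȳ = t̄₃⁻¹`, `n = 6`). -/
theorem s36_cs5_hid_t3_zero (hq : 5 ≤ q) :
    (-(s36_qt_theta k (s18_t3R k) ^ (q - 1)) * s18_t3invR k ^ (q - 1)) ^ 6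
        * (deltaInvSeries k ^ (q - 1) * s18_t3R k ^ (3 * (q - 1)))
      = (s18_t3R k + 27) ^ (4 * (q - 1)) := by
  rw [← s36_cs5_t3_zero q k hq, s36_cs5_alg_six]

/-- `hid` of `s36_cpt_cong_int`, `t₃`, chart at `∞` (`X̄ = t̄₃⁻¹`, `Ȳ = t̄₃`, `n = 6`). -/
theorem s36_cs5_hid_t3_inf (hq : 5 ≤ q) :
    (-(s36_qt_theta k (s18_t3invR k) ^ (q - 1)) * s18_t3R k ^ (q - 1)) ^ 6
        * (deltaInvSeries k ^ (q - 1) * s18_t3invR k ^ (q - 1))
      = (1 + 27 * s18_t3invR k) ^ (4 * (q - 1)) := by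
  rw [← s36_cs5_t3_inf q k hq, s36_cs5_alg_six]

end Series

section Lift

variable (q : ℕ) [Fact q.Prime]

theorem s36_cs5_exists_P (hq : 5 ≤ q) :
    ∃ Pz : Polynomial ℤ, Pz.Monic ∧ Pz.natDegree = q - 1 ∧
      coeffMap (Int.castRingHom (ZMod q)) (Pz.eval₂ HahnSeries.C (jqModC ℤ))
        = deltaInvSeries (ZMod q) ^ (q - 1) := by
  obtain ⟨P0, hm, hd, hΔ, -⟩ := s36_qt_hasse q hq
  have hl : P0 ∈ Polynomial.lifts (Int.castRingHom (ZMod q)) := by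
    rw [Polynomial.mem_lifts]
    exact Polynomial.map_surjective _ (ZMod.intCast_surjective) P0
  obtain ⟨Pz, hPz, hdeg, hmon⟩ := Polynomial.lifts_and_natDegree_eq_and_monic hl hm
  refine ⟨Pz, hmon, by rw [hdeg, hd], ?_⟩
  have hcomp : (coeffMap (Int.castRingHom (ZMod q))).comp
      (HahnSeries.C : ℤ →+* LaurentSeries ℤ) =
      (HahnSeries.C : ZMod q →+* LaurentSeries (ZMod q)).comp (Int.castRingHom (ZMod q)) := by
    ext a : 1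
    simp
  rw [Polynomial.hom_eval₂, hcomp, coeffMap_jqModC, ← hΔ, ← hPz, Polynomial.eval₂_map]

/-- A monic integral lift of the Hasse polynomial (`q ≥ 5`). -/
def s36_cs5_P (hq : 5 ≤ q) : Polynomial ℤ := Classical.choose (s36_cs5_exists_P q hq)

theorem s36_cs5_P_monic (hq : 5 ≤ q) : (s36_cs5_P q hq).Monic :=
  (Classical.choose_spec (s36_cs5_exists_P q hq)).1

theorem s36_cs5_P_natDegree (hq : 5 ≤ q) : (s36_cs5_P q hq).natDegree = q - 1 :=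
  (Classical.choose_spec (s36_cs5_exists_P q hq)).2.1

/-- `P(j) ≡ Δ^{-(q-1)}` modulo `q`, over any commutative ring of characteristic `q`. -/
theorem s36_cs5_P_red (hq : 5 ≤ q) (k : Type*) [CommRing k] [CharP k q] :
    coeffMap (Int.castRingHom k) ((s36_cs5_P q hq).eval₂ HahnSeries.C (jqModC ℤ))
      = deltaInvSeries k ^ (q - 1) := by
  have h := (Classical.choose_spec (s36_cs5_exists_P q hq)).2.2
  have h1 := congrArg (coeffMap (ZMod.castHom (dvd_refl q) k)) h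
  rw [coeffMap_coeffMap, map_pow, coeffMap_deltaInvSeries] at h1
  rw [← h1]
  exact coeffMap_congr (RingHom.ext_int _ _) _

end Lift

end Fermat.Agent.S36
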