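import Fermat.Agent.S36.CPtLocal
import Fermat.Agent.S36.CuspSer5

/-!
# S36 (NODE-3), contract item (c-Cpt), `q ≥ 5`: the candidate with a per-point coordinate

At a `C`-only point `𝔪` of a chart `B` (any chart coordinate) and for a coordinate `x`
(`x = t₃` where `t₃ + 27` is a unit at `𝔪`, `x = t₂` where `t₂ + 64` is a unit at `𝔪`) which is
only required to be a UNIT OF THE LOCAL RING `B_𝔪`, the scaled candidate
`z' = (x(Q^(q²)) - x) x⁻¹` is a local equation of `C`.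

* `s36_cl5_cpt` : `s36_cpm_cpt` (`S36/CPtModel.lean`) with `c, a ∈ B_𝔪`, `a` a unit of `B_𝔪`.
* `s36_cl5_P_eval` : `P(j̄) = Δ̄^{-(q-1)}` for the integral lift `P = s36_cs5_P` of the Hasse
  polynomial, evaluated through `ℤ → k((Q))`.
* `s36_cl5_hasse_cpt` : the `cpt` conclusion from an identity
  `(-(θ X̄)^(q-1) Ȳ^(q-1))^6 (Δ̄^{-(q-1)} X̄^m₁) = (X̄ + cst)^m₂` with
  `c = P(j) x^m₁`, `a = (x + cst)^m₂`; local inputs `x, y, x₂, j, (x + cst)⁻¹ ∈ B_𝔪`.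
* `s36_cl5_cpt_t3`, `s36_cl5_cpt_t2` : the two cases (`S36/CuspSer5.lean`): `x̄ = t̄₃`,
  `cst = 27`; `x̄ = t̄₂`, `cst = 64`.
-/

set_option autoImplicit false
set_option linter.style.haveILetI false
set_option linter.unusedSectionVars false
set_option linter.unusedVariables false

open ModularCurve

noncomputable section

namespace Fermat.Agent.S36

open Fermat.Agent.S28 (twistQ deltaInvSeries)
open Fermat.Agent.S18 Fermat.Agent.S34 Fermat.Agent.S37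

/-- Evaluation of an integer polynomial commutes with ring homomorphisms. -/
theorem s36_cl5_eval_int {R S : Type*} [CommRing R] [CommRing S] (φ : R →+* S)
    (P : Polynomial ℤ) (r : R) :
    φ (P.eval₂ (Int.castRingHom R) r) = P.eval₂ (Int.castRingHom S) (φ r) := by
  rw [Polynomial.hom_eval₂]
  have e : φ.comp (Int.castRingHom R) = Int.castRingHom S := RingHom.ext_int _ _
  rw [e]

/-- The value of an integer polynomial at an element of a subring lies in the subring. -/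
theorem s36_cl5_eval_mem {F : Type*} [Field F] (S : Subring F) (P : Polynomial ℤ) (r : F)
    (hr : r ∈ S) : P.eval₂ (Int.castRingHom F) r ∈ S := by
  have h := s36_cl5_eval_int S.subtype P ⟨r, hr⟩
  have h2 : S.subtype (⟨r, hr⟩ : S) = r := rfl
  rw [h2] at h
  rw [← h]
  exact Subtype.property _

/-- `P(j̄) = Δ̄^{-(q-1)}` over a commutative ring of characteristic `q ≥ 5`. -/
theorem s36_cl5_P_eval (q : ℕ) [Fact q.Prime] (hq5 : 5 ≤ q) (k : Type*) [CommRing k]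
    [CharP k q] :
    (s36_cs5_P q hq5).eval₂ (Int.castRingHom (LaurentSeries k)) (jqModC k) =
      deltaInvSeries k ^ (q - 1) := by
  rw [← s36_cs5_P_red q hq5 k]
  have e : (HahnSeries.C : ℤ →+* LaurentSeries ℤ) = Int.castRingHom (LaurentSeries ℤ) :=
    RingHom.ext_int _ _
  rw [e, s36_cl5_eval_int, coeffMap_jqModC]

section Model

variable {K0 K : Type*} [Field K0] [Field K] [Algebra ℚ K0] [Algebra ℚ K]
  {κ : K0 →+* K} {A : ValuationSubring K} {M : ℕ}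
  {Θ : laurentBaseChange K (modularFunctionFieldFull M) →ₐ[K] LaurentSeries K}

variable (q : ℕ) [Fact q.Prime] [CharP (IsLocalRing.ResidueField A) q]

/-- **`s36_cpm_cpt` with local data**: the `cpt` field of `s36_ptb_Pts` from a scaled candidate
and a `q`-series identity, with `c, a ∈ B_𝔪` and `a` a unit of `B_𝔪`. -/
theorem s36_cl5_cpt {z : laurentBaseChange K0 (modularFunctionFieldFull M)}
    (hUnif : s34_Unif z (s36_gc_V κ A M Θ)) (ζ : Aˣ) (hζ : IsPrimitiveRoot (ζ : A) q)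
    {B VA VB : Subring (laurentBaseChange K0 (modularFunctionFieldFull M))}
    (hBA : B ≤ VA) (hBB : B ≤ VB) (hBC : B ≤ s36_gc_V κ A M Θ)
    (hϖB : algebraMap K0 (laurentBaseChange K0 (modularFunctionFieldFull M)) (q : K0) ∈ B)
    (hcap : ∀ x ∈ B,
      (algebraMap K0 (laurentBaseChange K0 (modularFunctionFieldFull M)) (q : K0))⁻¹ * x ∈
        VA ⊓ VB ⊓ s36_gc_V κ A M Θ →
      (algebraMap K0 (laurentBaseChange K0 (modularFunctionFieldFull M)) (q : K0))⁻¹ * x ∈ B)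
    (ε₀ : laurentBaseChange K0 (modularFunctionFieldFull M))
    (hε₀ : ε₀ ∈ s36_gc_V κ A M Θ) (hε₀' : ε₀⁻¹ ∈ s36_gc_V κ A M Θ)
    (hϖ : algebraMap K0 (laurentBaseChange K0 (modularFunctionFieldFull M)) (q : K0) =
      ε₀ * z ^ (q - 1))
    (x x2 y : laurentBaseChange K0 (modularFunctionFieldFull M)) (X Y : LaurentSeries A)
    (hX : Θ (s36_gc_incl κ M x) = coeffMap A.subtype X)
    (hY : Θ (s36_gc_incl κ M y) = coeffMap A.subtype Y)
    (h2 : Θ (s36_gc_incl κ M x2) =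
      twistQ (Units.map (A.subtype : A →* K) ζ) (Θ (s36_gc_incl κ M x)))
    (n : ℕ) (hn : 0 < n) (c a : laurentBaseChange K0 (modularFunctionFieldFull M))
    (Cs As : LaurentSeries A)
    (hC : Θ (s36_gc_incl κ M c) = coeffMap A.subtype Cs)
    (hA : Θ (s36_gc_incl κ M a) = coeffMap A.subtype As)
    (hid : (-(s36_qt_theta (IsLocalRing.ResidueField A) (coeffMap (IsLocalRing.residue A) X)
          ^ (q - 1)) * coeffMap (IsLocalRing.residue A) Y ^ (q - 1)) ^ n *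
        coeffMap (IsLocalRing.residue A) Cs = coeffMap (IsLocalRing.residue A) As)
    (𝔪 : Ideal B) [𝔪.IsPrime]
    (hϖ𝔪 : (⟨algebraMap K0 (laurentBaseChange K0 (modularFunctionFieldFull M)) (q : K0), hϖB⟩ :
      B) ∈ 𝔪)
    (f₀ : B) (hf₀ : f₀ ∉ 𝔪)
    (hf₀' : (algebraMap K0 (laurentBaseChange K0 (modularFunctionFieldFull M)) (q : K0))⁻¹ *
      (f₀ : laurentBaseChange K0 (modularFunctionFieldFull M)) ∈ VA ⊓ VB)
    (hz' : (x2 - x) * y ∈ s18_loc B 𝔪) (hc : c ∈ s18_loc B 𝔪) (ha : a ∈ s18_loc B 𝔪)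
    (ha' : a⁻¹ ∈ s18_loc B 𝔪) (ha0 : a ≠ 0) :
    ∃ (z' ε : laurentBaseChange K0 (modularFunctionFieldFull M)) (e : ℕ),
      s34_Unif z' (s36_gc_V κ A M Θ) ∧ z' ∈ s18_loc B 𝔪 ∧ 0 < e ∧ ε ∈ s18_loc B 𝔪 ∧
        ε⁻¹ ∈ s36_gc_V κ A M Θ ∧
        algebraMap K0 (laurentBaseChange K0 (modularFunctionFieldFull M)) (q : K0) =
          ε * z' ^ e := by
  haveI : CharZero K0 := algebraRat.charZero K0
  have hϖ0 : algebraMap K0 (laurentBaseChange K0 (modularFunctionFieldFull M)) (q : K0) ≠ 0 :=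
    (map_ne_zero _).mpr (Nat.cast_ne_zero.mpr (Fact.out : q.Prime).ne_zero)
  obtain ⟨hu, hcong⟩ := s36_cpt_cong_int q hUnif ζ hζ x x2 y c a X Y Cs As hX hY hC hA h2 n hid
  have hq1 : 0 < q - 1 := by
    have := (Fact.out : q.Prime).two_le
    omega
  obtain ⟨hVz, hε, hε₁, hϖeq⟩ := s36_cl5_loc (V₁ := s36_gc_V κ A M Θ) (V' := VA ⊓ VB) hUnif hBC
    (le_inf hBA hBB) hϖB hϖ0 (fun x hx h1 h2 => hcap x hx ⟨h2, h1⟩) (q - 1) hq1 hε₀ hε₀' hϖ 𝔪
    hϖ𝔪 f₀ hf₀ hf₀' ((x2 - x) * y) hz' hu n hn c a hc ha ha' ha0 hcong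
  exact ⟨_, _, q - 1, hVz, hz', hq1, hε, hε₁, hϖeq⟩

/-- **The `cpt` field from a Hasse-type identity, per-point coordinate.**  `x` a coordinate
with `x, y = x⁻¹, x₂ = x(Q^(q²)), j, (x + cst)⁻¹ ∈ B_𝔪` and, over the residue field,
`(-(θ X̄)^(q-1) Ȳ^(q-1))^6 (Δ̄^{-(q-1)} X̄^m₁) = (X̄ + cst)^m₂`. -/
theorem s36_cl5_hasse_cpt (hq5 : 5 ≤ q)
    {z : laurentBaseChange K0 (modularFunctionFieldFull M)}
    (hUnif : s34_Unif z (s36_gc_V κ A M Θ)) (ζ : Aˣ) (hζ : IsPrimitiveRoot (ζ : A) q)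
    {B VA VB : Subring (laurentBaseChange K0 (modularFunctionFieldFull M))}
    (hBA : B ≤ VA) (hBB : B ≤ VB) (hBC : B ≤ s36_gc_V κ A M Θ)
    (hϖB : algebraMap K0 (laurentBaseChange K0 (modularFunctionFieldFull M)) (q : K0) ∈ B)
    (hcap : ∀ x ∈ B,
      (algebraMap K0 (laurentBaseChange K0 (modularFunctionFieldFull M)) (q : K0))⁻¹ * x ∈
        VA ⊓ VB ⊓ s36_gc_V κ A M Θ →
      (algebraMap K0 (laurentBaseChange K0 (modularFunctionFieldFull M)) (q : K0))⁻¹ * x ∈ B)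
    (ε₀ : laurentBaseChange K0 (modularFunctionFieldFull M))
    (hε₀ : ε₀ ∈ s36_gc_V κ A M Θ) (hε₀' : ε₀⁻¹ ∈ s36_gc_V κ A M Θ)
    (hϖ : algebraMap K0 (laurentBaseChange K0 (modularFunctionFieldFull M)) (q : K0) =
      ε₀ * z ^ (q - 1))
    (x x2 y jF : laurentBaseChange K0 (modularFunctionFieldFull M)) (X Y Jc : LaurentSeries A)
    (hX : Θ (s36_gc_incl κ M x) = coeffMap A.subtype X)
    (hY : Θ (s36_gc_incl κ M y) = coeffMap A.subtype Y)
    (hJ : Θ (s36_gc_incl κ M jF) = coeffMap A.subtype Jc)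
    (hJt : coeffMap (IsLocalRing.residue A) Jc = jqModC (IsLocalRing.ResidueField A))
    (h2 : Θ (s36_gc_incl κ M x2) =
      twistQ (Units.map (A.subtype : A →* K) ζ) (Θ (s36_gc_incl κ M x)))
    (m₁ m₂ cst : ℕ)
    (hidk : (-(s36_qt_theta (IsLocalRing.ResidueField A) (coeffMap (IsLocalRing.residue A) X)
          ^ (q - 1)) * coeffMap (IsLocalRing.residue A) Y ^ (q - 1)) ^ 6 *
        (deltaInvSeries (IsLocalRing.ResidueField A) ^ (q - 1) *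
          coeffMap (IsLocalRing.residue A) X ^ m₁) =
        (coeffMap (IsLocalRing.residue A) X +
          ((cst : ℕ) : LaurentSeries (IsLocalRing.ResidueField A))) ^ m₂)
    (𝔪 : Ideal B) [𝔪.IsPrime]
    (hϖ𝔪 : (⟨algebraMap K0 (laurentBaseChange K0 (modularFunctionFieldFull M)) (q : K0), hϖB⟩ :
      B) ∈ 𝔪)
    (hex : ∃ f₀ : B, f₀ ∉ 𝔪 ∧
      (algebraMap K0 (laurentBaseChange K0 (modularFunctionFieldFull M)) (q : K0))⁻¹ *
        (f₀ : laurentBaseChange K0 (modularFunctionFieldFull M)) ∈ VA ⊓ VB)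
    (hx : x ∈ s18_loc B 𝔪) (hy : y ∈ s18_loc B 𝔪) (hx2 : x2 ∈ s18_loc B 𝔪)
    (hj : jF ∈ s18_loc B 𝔪)
    (hu : (x + ((cst : ℕ) : laurentBaseChange K0 (modularFunctionFieldFull M)))⁻¹ ∈
      s18_loc B 𝔪)
    (hu0 : x + ((cst : ℕ) : laurentBaseChange K0 (modularFunctionFieldFull M)) ≠ 0) :
    ∃ (z' ε : laurentBaseChange K0 (modularFunctionFieldFull M)) (e : ℕ),
      s34_Unif z' (s36_gc_V κ A M Θ) ∧ z' ∈ s18_loc B 𝔪 ∧ 0 < e ∧ ε ∈ s18_loc B 𝔪 ∧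
        ε⁻¹ ∈ s36_gc_V κ A M Θ ∧
        algebraMap K0 (laurentBaseChange K0 (modularFunctionFieldFull M)) (q : K0) =
          ε * z' ^ e := by
  obtain ⟨f₀, hf₀, hf₀'⟩ := hex
  have hxR : x ∈ s18_locRing B 𝔪 := hx
  have hyR : y ∈ s18_locRing B 𝔪 := hy
  have hx2R : x2 ∈ s18_locRing B 𝔪 := hx2
  have hjR : jF ∈ s18_locRing B 𝔪 := hj
  have huR : (x + ((cst : ℕ) : laurentBaseChange K0 (modularFunctionFieldFull M)))⁻¹ ∈
      s18_locRing B 𝔪 := hu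
  have hcstR : ((cst : ℕ) : laurentBaseChange K0 (modularFunctionFieldFull M)) ∈
      s18_locRing B 𝔪 := natCast_mem _ cst
  -- the ring homomorphism `Φ = Θ ∘ incl`
  obtain ⟨Φ, hΦ⟩ : ∃ Φ : laurentBaseChange K0 (modularFunctionFieldFull M) →+* LaurentSeries K,
      ∀ f, Φ f = Θ (s36_gc_incl κ M f) :=
    ⟨(Θ : laurentBaseChange K (modularFunctionFieldFull M) →+* LaurentSeries K).comp
      (s36_gc_incl κ M), fun _ => rfl⟩
  have hC : Θ (s36_gc_incl κ M ((s36_cs5_P q hq5).eval₂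
      (Int.castRingHom (laurentBaseChange K0 (modularFunctionFieldFull M))) jF * x ^ m₁)) =
      coeffMap A.subtype ((s36_cs5_P q hq5).eval₂ (Int.castRingHom (LaurentSeries A)) Jc *
        X ^ m₁) := by
    rw [← hΦ, map_mul, map_pow, s36_cl5_eval_int, hΦ, hΦ, hJ, hX, map_mul, map_pow,
      s36_cl5_eval_int]
  have hA : Θ (s36_gc_incl κ M
      ((x + ((cst : ℕ) : laurentBaseChange K0 (modularFunctionFieldFull M))) ^ m₂)) =
      coeffMap A.subtype ((X + ((cst : ℕ) : LaurentSeries A)) ^ m₂) := by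
    rw [← hΦ, map_pow, map_add, map_natCast, hΦ, hX, map_pow, map_add, map_natCast]
  refine s36_cl5_cpt q hUnif ζ hζ hBA hBB hBC hϖB hcap ε₀ hε₀ hε₀' hϖ x x2 y X Y hX hY h2 6
    (by norm_num) _ _ _ _ hC hA ?_ 𝔪 hϖ𝔪 f₀ hf₀ hf₀' ?_ ?_ ?_ ?_ ?_
  · rw [map_mul, map_pow, s36_cl5_eval_int, hJt, s36_cl5_P_eval q hq5, map_pow, map_add,
      map_natCast]
    exact hidk
  · exact Subring.mul_mem (s18_locRing B 𝔪) (Subring.sub_mem _ hx2R hxR) hyR
  · exact Subring.mul_mem (s18_locRing B 𝔪)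
      (s36_cl5_eval_mem (s18_locRing B 𝔪) _ jF hjR) (Subring.pow_mem _ hxR m₁)
  · exact Subring.pow_mem (s18_locRing B 𝔪) (Subring.add_mem _ hxR hcstR) m₂
  · rw [← inv_pow]
    exact Subring.pow_mem (s18_locRing B 𝔪) huR m₂
  · exact pow_ne_zero _ hu0

/-- **`q ≥ 5`, coordinate `t₃`** (at the points where `t₃ + 27` is a unit): `x̄ = t̄₃`,
`ȳ = t̄₃⁻¹`. -/
theorem s36_cl5_cpt_t3 (hq5 : 5 ≤ q)
    {z : laurentBaseChange K0 (modularFunctionFieldFull M)}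
    (hUnif : s34_Unif z (s36_gc_V κ A M Θ)) (ζ : Aˣ) (hζ : IsPrimitiveRoot (ζ : A) q)
    {B VA VB : Subring (laurentBaseChange K0 (modularFunctionFieldFull M))}
    (hBA : B ≤ VA) (hBB : B ≤ VB) (hBC : B ≤ s36_gc_V κ A M Θ)
    (hϖB : algebraMap K0 (laurentBaseChange K0 (modularFunctionFieldFull M)) (q : K0) ∈ B)
    (hcap : ∀ x ∈ B,
      (algebraMap K0 (laurentBaseChange K0 (modularFunctionFieldFull M)) (q : K0))⁻¹ * x ∈
        VA ⊓ VB ⊓ s36_gc_V κ A M Θ →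
      (algebraMap K0 (laurentBaseChange K0 (modularFunctionFieldFull M)) (q : K0))⁻¹ * x ∈ B)
    (ε₀ : laurentBaseChange K0 (modularFunctionFieldFull M))
    (hε₀ : ε₀ ∈ s36_gc_V κ A M Θ) (hε₀' : ε₀⁻¹ ∈ s36_gc_V κ A M Θ)
    (hϖ : algebraMap K0 (laurentBaseChange K0 (modularFunctionFieldFull M)) (q : K0) =
      ε₀ * z ^ (q - 1))
    (x x2 y jF : laurentBaseChange K0 (modularFunctionFieldFull M)) (X Y Jc : LaurentSeries A)
    (hX : Θ (s36_gc_incl κ M x) = coeffMap A.subtype X)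
    (hY : Θ (s36_gc_incl κ M y) = coeffMap A.subtype Y)
    (hJ : Θ (s36_gc_incl κ M jF) = coeffMap A.subtype Jc)
    (hXt : coeffMap (IsLocalRing.residue A) X = s18_t3R (IsLocalRing.ResidueField A))
    (hYt : coeffMap (IsLocalRing.residue A) Y = s18_t3invR (IsLocalRing.ResidueField A))
    (hJt : coeffMap (IsLocalRing.residue A) Jc = jqModC (IsLocalRing.ResidueField A))
    (h2 : Θ (s36_gc_incl κ M x2) =
      twistQ (Units.map (A.subtype : A →* K) ζ) (Θ (s36_gc_incl κ M x)))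
    (𝔪 : Ideal B) [𝔪.IsPrime]
    (hϖ𝔪 : (⟨algebraMap K0 (laurentBaseChange K0 (modularFunctionFieldFull M)) (q : K0), hϖB⟩ :
      B) ∈ 𝔪)
    (hex : ∃ f₀ : B, f₀ ∉ 𝔪 ∧
      (algebraMap K0 (laurentBaseChange K0 (modularFunctionFieldFull M)) (q : K0))⁻¹ *
        (f₀ : laurentBaseChange K0 (modularFunctionFieldFull M)) ∈ VA ⊓ VB)
    (hx : x ∈ s18_loc B 𝔪) (hy : y ∈ s18_loc B 𝔪) (hx2 : x2 ∈ s18_loc B 𝔪)
    (hj : jF ∈ s18_loc B 𝔪) (hu : (x + 27)⁻¹ ∈ s18_loc B 𝔪) (hu0 : x + 27 ≠ 0) :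
    ∃ (z' ε : laurentBaseChange K0 (modularFunctionFieldFull M)) (e : ℕ),
      s34_Unif z' (s36_gc_V κ A M Θ) ∧ z' ∈ s18_loc B 𝔪 ∧ 0 < e ∧ ε ∈ s18_loc B 𝔪 ∧
        ε⁻¹ ∈ s36_gc_V κ A M Θ ∧
        algebraMap K0 (laurentBaseChange K0 (modularFunctionFieldFull M)) (q : K0) =
          ε * z' ^ e := by
  have e27 : (((27 : ℕ) : ℕ) : laurentBaseChange K0 (modularFunctionFieldFull M)) = 27 :=
    Nat.cast_ofNat
  refine s36_cl5_hasse_cpt q hq5 hUnif ζ hζ hBA hBB hBC hϖB hcap ε₀ hε₀ hε₀' hϖ x x2 y jF X Y Jc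
    hX hY hJ hJt h2 (3 * (q - 1)) (4 * (q - 1)) 27 ?_ 𝔪 hϖ𝔪 hex hx hy hx2 hj
    (by rw [e27]; exact hu) (by rw [e27]; exact hu0)
  rw [hXt, hYt]
  have h := s36_cs5_hid_t3_zero q (IsLocalRing.ResidueField A) hq5
  have e : (((27 : ℕ) : ℕ) : LaurentSeries (IsLocalRing.ResidueField A)) = 27 := Nat.cast_ofNat
  rw [e]
  exact h

/-- **`q ≥ 5`, coordinate `t₂`** (at the points where `t₂ + 64` is a unit): `x̄ = t̄₂`,
`ȳ = t̄₂⁻¹`. -/
theorem s36_cl5_cpt_t2 (hq5 : 5 ≤ q)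
    {z : laurentBaseChange K0 (modularFunctionFieldFull M)}
    (hUnif : s34_Unif z (s36_gc_V κ A M Θ)) (ζ : Aˣ) (hζ : IsPrimitiveRoot (ζ : A) q)
    {B VA VB : Subring (laurentBaseChange K0 (modularFunctionFieldFull M))}
    (hBA : B ≤ VA) (hBB : B ≤ VB) (hBC : B ≤ s36_gc_V κ A M Θ)
    (hϖB : algebraMap K0 (laurentBaseChange K0 (modularFunctionFieldFull M)) (q : K0) ∈ B)
    (hcap : ∀ x ∈ B,
      (algebraMap K0 (laurentBaseChange K0 (modularFunctionFieldFull M)) (q : K0))⁻¹ * x ∈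
        VA ⊓ VB ⊓ s36_gc_V κ A M Θ →
      (algebraMap K0 (laurentBaseChange K0 (modularFunctionFieldFull M)) (q : K0))⁻¹ * x ∈ B)
    (ε₀ : laurentBaseChange K0 (modularFunctionFieldFull M))
    (hε₀ : ε₀ ∈ s36_gc_V κ A M Θ) (hε₀' : ε₀⁻¹ ∈ s36_gc_V κ A M Θ)
    (hϖ : algebraMap K0 (laurentBaseChange K0 (modularFunctionFieldFull M)) (q : K0) =
      ε₀ * z ^ (q - 1))
    (x x2 y jF : laurentBaseChange K0 (modularFunctionFieldFull M)) (X Y Jc : LaurentSeries A)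
    (hX : Θ (s36_gc_incl κ M x) = coeffMap A.subtype X)
    (hY : Θ (s36_gc_incl κ M y) = coeffMap A.subtype Y)
    (hJ : Θ (s36_gc_incl κ M jF) = coeffMap A.subtype Jc)
    (hXt : coeffMap (IsLocalRing.residue A) X = s18_t2R (IsLocalRing.ResidueField A))
    (hYt : coeffMap (IsLocalRing.residue A) Y = s18_t2invR (IsLocalRing.ResidueField A))
    (hJt : coeffMap (IsLocalRing.residue A) Jc = jqModC (IsLocalRing.ResidueField A))
    (h2 : Θ (s36_gc_incl κ M x2) =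
      twistQ (Units.map (A.subtype : A →* K) ζ) (Θ (s36_gc_incl κ M x)))
    (𝔪 : Ideal B) [𝔪.IsPrime]
    (hϖ𝔪 : (⟨algebraMap K0 (laurentBaseChange K0 (modularFunctionFieldFull M)) (q : K0), hϖB⟩ :
      B) ∈ 𝔪)
    (hex : ∃ f₀ : B, f₀ ∉ 𝔪 ∧
      (algebraMap K0 (laurentBaseChange K0 (modularFunctionFieldFull M)) (q : K0))⁻¹ *
        (f₀ : laurentBaseChange K0 (modularFunctionFieldFull M)) ∈ VA ⊓ VB)
    (hx : x ∈ s18_loc B 𝔪) (hy : y ∈ s18_loc B 𝔪) (hx2 : x2 ∈ s18_loc B 𝔪)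
    (hj : jF ∈ s18_loc B 𝔪) (hu : (x + 64)⁻¹ ∈ s18_loc B 𝔪) (hu0 : x + 64 ≠ 0) :
    ∃ (z' ε : laurentBaseChange K0 (modularFunctionFieldFull M)) (e : ℕ),
      s34_Unif z' (s36_gc_V κ A M Θ) ∧ z' ∈ s18_loc B 𝔪 ∧ 0 < e ∧ ε ∈ s18_loc B 𝔪 ∧
        ε⁻¹ ∈ s36_gc_V κ A M Θ ∧
        algebraMap K0 (laurentBaseChange K0 (modularFunctionFieldFull M)) (q : K0) =
          ε * z' ^ e := by
  have e64 : (((64 : ℕ) : ℕ) : laurentBaseChange K0 (modularFunctionFieldFull M)) = 64 :=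
    Nat.cast_ofNat
  refine s36_cl5_hasse_cpt q hq5 hUnif ζ hζ hBA hBB hBC hϖB hcap ε₀ hε₀ hε₀' hϖ x x2 y jF X Y Jc
    hX hY hJ hJt h2 (2 * (q - 1)) (3 * (q - 1)) 64 ?_ 𝔪 hϖ𝔪 hex hx hy hx2 hj
    (by rw [e64]; exact hu) (by rw [e64]; exact hu0)
  rw [hXt, hYt]
  have h := s36_cs5_hid_t2_zero q (IsLocalRing.ResidueField A) hq5
  have e : (((64 : ℕ) : ℕ) : LaurentSeries (IsLocalRing.ResidueField A)) = 64 := Nat.cast_ofNat
  rw [e]
  exact h

end Model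

end Fermat.Agent.S36
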