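import Fermat.Agent.S36.CuspSer5
import Fermat.Agent.S36.CPtCusp
import Fermat.Agent.S34.IcChart

/-!
# S36 (NODE-3), contract item (c-Cpt), `q ≥ 5`: the congruence hypothesis of `s36_cpt_loc` for
the scaled candidate, in the model (vocabulary of `S36/GaussC`, `S36/CPtTheta`, `S36/CPtCusp`)
-/

set_option autoImplicit false
set_option synthInstance.maxHeartbeats 400000
set_option linter.style.haveILetI false
set_option linter.unusedSectionVars false
set_option linter.unusedSimpArgs false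

open ModularCurve

noncomputable section

namespace Fermat.Agent.S36

open Fermat.Agent.S28
open Fermat.Agent.S18 Fermat.Agent.S34 Fermat.Agent.S37

section Abs

/-- `P(j) x^(m d) ∈ B` when `x ∈ B`, `j x^m ∈ B` and `deg P ≤ d`. -/
theorem s36_cm5_eval_mem {F : Type*} [CommRing F] (B : Subring F) (j x : F) (m : ℕ)
    (hx : x ∈ B) (hw : j * x ^ m ∈ B) (P : Polynomial ℤ) (d : ℕ) (hd : P.natDegree ≤ d) :
    P.eval₂ (Int.castRingHom F) j * x ^ (m * d) ∈ B := by
  rw [Polynomial.eval₂_eq_sum_range, Finset.sum_mul]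
  refine B.sum_mem (fun i hi => ?_)
  have hi' : i ≤ d := (Nat.lt_succ_iff.mp (Finset.mem_range.mp hi)).trans hd
  have e : j ^ i * x ^ (m * d) = (j * x ^ m) ^ i * x ^ (m * (d - i)) := by
    rw [mul_pow, ← pow_mul, mul_assoc, ← pow_add]
    congr 2
    rw [← Nat.mul_add, Nat.add_sub_cancel' hi']
  rw [mul_assoc, e]
  exact B.mul_mem (intCast_mem B _) (B.mul_mem (B.pow_mem hw i) (B.pow_mem hx _))

/-- Evaluation of an integer polynomial commutes with ring homomorphisms. -/
theorem s36_cm5_hom_eval {R S : Type*} [CommRing R] [CommRing S] (φ : R →+* S) (P : Polynomial ℤ)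
    (r : R) : φ (P.eval₂ (Int.castRingHom R) r) = P.eval₂ (Int.castRingHom S) (φ r) := by
  rw [Polynomial.hom_eval₂]
  congr 1
  exact RingHom.ext_int _ _

theorem s36_cm5_C_eq :
    (HahnSeries.C : ℤ →+* LaurentSeries ℤ) = Int.castRingHom (LaurentSeries ℤ) :=
  RingHom.ext_int _ _

/-- The `q`-expansion of an integer polynomial in an element of an intermediate field. -/
theorem s36_cm5_coe_eval {K0 : Type*} [Field K0] (E : IntermediateField K0 (LaurentSeries K0))
    (P : Polynomial ℤ) (j : E) :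
    ((P.eval₂ (Int.castRingHom E) j : E) : LaurentSeries K0) =
      P.eval₂ (Int.castRingHom (LaurentSeries K0)) (j : LaurentSeries K0) :=
  s36_cm5_hom_eval (E.val : E →+* LaurentSeries K0) P j

/-- Base change of `P(j)` for an integer polynomial `P`. -/
theorem s36_cm5_coeffMap_eval (R : Type*) [CommRing R] (P : Polynomial ℤ) :
    coeffMap (Int.castRingHom R) (P.eval₂ HahnSeries.C (jqModC ℤ)) =
      P.eval₂ (Int.castRingHom (LaurentSeries R)) (jqModC R) := by
  rw [s36_cm5_C_eq, s36_cm5_hom_eval, coeffMap_jqModC]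

end Abs

section Model

variable {K0 K : Type*} [Field K0] [Field K] [Algebra ℚ K0] [Algebra ℚ K]
  {κ : K0 →+* K} {A : ValuationSubring K} {M : ℕ}
  {Θ : laurentBaseChange K (modularFunctionFieldFull M) →ₐ[K] LaurentSeries K}

/-- **The element `c = P(j) x^(m (q-1))`** (`q ≥ 5`): it lies in the chart of `x` as soon as
`j x^m` does, its image at the cusp `1/q` is `A`-integral and reduces to
`Δ̄^{-(q-1)} x̄^(m (q-1))`. -/
theorem s36_cm5_c_exists {N q : ℕ} {ζ : Aˣ} (hΘ : s36_gc_IsCusp N q ζ Θ) [Fact q.Prime]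
    (hq : 5 ≤ q) [CharP (IsLocalRing.ResidueField A) q]
    (jF x : laurentBaseChange K0 (modularFunctionFieldFull M))
    (hj : (jF : LaurentSeries K0) = jqModC K0) (T : LaurentSeries ℤ)
    (hxT : (x : LaurentSeries K0) = coeffMap (Int.castRingHom K0) T)
    (hjlow : (jF : LaurentSeries K0) ∈ laurentBaseChange K0 (modularFunctionFieldFull (N * q)))
    (hxlow : (x : LaurentSeries K0) ∈ laurentBaseChange K0 (modularFunctionFieldFull (N * q)))
    {A₀ : Type*} [CommRing A₀] [Algebra A₀ (laurentBaseChange K0 (modularFunctionFieldFull M))]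
    (m : ℕ) (hjx : jF * x ^ m ∈ s34_ic_chart A₀ x) :
    ∃ c : laurentBaseChange K0 (modularFunctionFieldFull M), c ∈ s34_ic_chart A₀ x ∧
      ∃ Cs : LaurentSeries A, Θ (s36_gc_incl κ M c) = coeffMap A.subtype Cs ∧
        coeffMap (IsLocalRing.residue A) Cs =
          deltaInvSeries (IsLocalRing.ResidueField A) ^ (q - 1) *
            coeffMap (Int.castRingHom (IsLocalRing.ResidueField A)) T ^ (m * (q - 1)) := by
  set P := s36_cs5_P q hq with hP
  refine ⟨P.eval₂ (Int.castRingHom _) jF * x ^ (m * (q - 1)), ?_,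
    coeffMap (Int.castRingHom A) (P.eval₂ HahnSeries.C (jqModC ℤ) * T ^ (m * (q - 1))), ?_, ?_⟩
  · exact s36_cm5_eval_mem (s34_ic_chart A₀ x).toSubring jF x m (s34_ic_t_mem x) hjx P (q - 1)
      (le_of_eq (s36_cs5_P_natDegree q hq))
  · have e1 : ((P.eval₂ (Int.castRingHom _) jF * x ^ (m * (q - 1)) :
        laurentBaseChange K0 (modularFunctionFieldFull M)) : LaurentSeries K0) =
        P.eval₂ (Int.castRingHom (LaurentSeries K0)) (jF : LaurentSeries K0) *
          (x : LaurentSeries K0) ^ (m * (q - 1)) := by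
      push_cast
      rw [s36_cm5_coe_eval]
    have e2 : P.eval₂ (Int.castRingHom (LaurentSeries K0)) (jF : LaurentSeries K0) *
          (x : LaurentSeries K0) ^ (m * (q - 1)) =
        (((P.eval₂ (Int.castRingHom _) ⟨_, hjlow⟩ * ⟨_, hxlow⟩ ^ (m * (q - 1)) :
          laurentBaseChange K0 (modularFunctionFieldFull (N * q))) :
            laurentBaseChange K0 (modularFunctionFieldFull (N * q))) : LaurentSeries K0) := by
      push_cast
      rw [s36_cm5_coe_eval]
    have hlow : ((P.eval₂ (Int.castRingHom _) jF * x ^ (m * (q - 1)) :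
        laurentBaseChange K0 (modularFunctionFieldFull M)) : LaurentSeries K0) ∈
        laurentBaseChange K0 (modularFunctionFieldFull (N * q)) := by
      rw [e1, e2]
      exact SetLike.coe_mem _
    rw [s36_gc_theta_low hΘ _ hlow, e1, hj, hxT, ← s36_cm5_coeffMap_eval, ← map_pow, ← map_mul,
      coeffMap_coeffMap, coeffMap_coeffMap]
    exact coeffMap_congr (RingHom.ext_int _ _) _
  · rw [coeffMap_coeffMap,
      coeffMap_congr (RingHom.ext_int ((IsLocalRing.residue A).comp (Int.castRingHom A))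
        (Int.castRingHom (IsLocalRing.ResidueField A))), map_mul, map_pow, s36_cs5_P_red]

/-- The image at the cusp `1/q` of a function of level `N q` with `ℤ`-integral expansion. -/
theorem s36_cm5_theta_int {N q : ℕ} {ζ : Aˣ} (hΘ : s36_gc_IsCusp N q ζ Θ)
    (x : laurentBaseChange K0 (modularFunctionFieldFull M)) (T : LaurentSeries ℤ)
    (hxT : (x : LaurentSeries K0) = coeffMap (Int.castRingHom K0) T)
    (hxlow : (x : LaurentSeries K0) ∈ laurentBaseChange K0 (modularFunctionFieldFull (N * q))) :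
    Θ (s36_gc_incl κ M x) = coeffMap A.subtype (coeffMap (Int.castRingHom A) T) := by
  rw [s36_gc_theta_low hΘ x hxlow, hxT, coeffMap_coeffMap, coeffMap_coeffMap]
  exact coeffMap_congr (RingHom.ext_int _ _) _

theorem s36_cm5_res_int (T : LaurentSeries ℤ) :
    coeffMap (IsLocalRing.residue A) (coeffMap (Int.castRingHom A) T) =
      coeffMap (Int.castRingHom (IsLocalRing.ResidueField A)) T := by
  rw [coeffMap_coeffMap]
  exact coeffMap_congr (RingHom.ext_int _ _) _

/-- **The congruence hypothesis of `s36_cpt_loc` for `q ≥ 5`, generic form**: `x`, `y`, `a` of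
level `N q` with `ℤ`-integral expansions `T`, `Ti`, `Az`, `c = P(j) x^(m (q-1))`, from the
`q`-series identity `hid`. -/
theorem s36_cm5_cong {N q : ℕ} {ζ : Aˣ} (hΘ : s36_gc_IsCusp N q ζ Θ) [Fact q.Prime]
    (hq : 5 ≤ q) [CharP (IsLocalRing.ResidueField A) q]
    {z : laurentBaseChange K0 (modularFunctionFieldFull M)}
    (hUnif : s34_Unif z (s36_gc_V κ A M Θ)) (hζ : IsPrimitiveRoot (ζ : A) q)
    (jF x x2 y a : laurentBaseChange K0 (modularFunctionFieldFull M))
    (hj : (jF : LaurentSeries K0) = jqModC K0) (T Ti Az : LaurentSeries ℤ)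
    (hxT : (x : LaurentSeries K0) = coeffMap (Int.castRingHom K0) T)
    (hyT : (y : LaurentSeries K0) = coeffMap (Int.castRingHom K0) Ti)
    (haT : (a : LaurentSeries K0) = coeffMap (Int.castRingHom K0) Az)
    (hjlow : (jF : LaurentSeries K0) ∈ laurentBaseChange K0 (modularFunctionFieldFull (N * q)))
    (hxlow : (x : LaurentSeries K0) ∈ laurentBaseChange K0 (modularFunctionFieldFull (N * q)))
    (hylow : (y : LaurentSeries K0) ∈ laurentBaseChange K0 (modularFunctionFieldFull (N * q)))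
    (halow : (a : LaurentSeries K0) ∈ laurentBaseChange K0 (modularFunctionFieldFull (N * q)))
    (h2 : Θ (s36_gc_incl κ M x2) =
      twistQ (Units.map (A.subtype : A →* K) ζ) (Θ (s36_gc_incl κ M x)))
    {A₀ : Type*} [CommRing A₀] [Algebra A₀ (laurentBaseChange K0 (modularFunctionFieldFull M))]
    (m : ℕ) (hjx : jF * x ^ m ∈ s34_ic_chart A₀ x)
    (hid : (-(s36_qt_theta (IsLocalRing.ResidueField A)
          (coeffMap (Int.castRingHom (IsLocalRing.ResidueField A)) T) ^ (q - 1)) *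
          coeffMap (Int.castRingHom (IsLocalRing.ResidueField A)) Ti ^ (q - 1)) ^ 6 *
        (deltaInvSeries (IsLocalRing.ResidueField A) ^ (q - 1) *
          coeffMap (Int.castRingHom (IsLocalRing.ResidueField A)) T ^ (m * (q - 1))) =
        coeffMap (Int.castRingHom (IsLocalRing.ResidueField A)) Az) :
    ∃ c : laurentBaseChange K0 (modularFunctionFieldFull M), c ∈ s34_ic_chart A₀ x ∧
      (algebraMap K0 (laurentBaseChange K0 (modularFunctionFieldFull M)) (q : K0))⁻¹ *
          ((x2 - x) * y) ^ (q - 1) ∈ s36_gc_V κ A M Θ ∧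
        z⁻¹ * (((algebraMap K0 (laurentBaseChange K0 (modularFunctionFieldFull M)) (q : K0))⁻¹ *
          ((x2 - x) * y) ^ (q - 1)) ^ 6 * c - a) ∈ s36_gc_V κ A M Θ := by
  obtain ⟨c, hc, Cs, hC, hCt⟩ := s36_cm5_c_exists (κ := κ) hΘ hq jF x hj T hxT hjlow hxlow
    (A₀ := A₀) m hjx
  refine ⟨c, hc, ?_⟩
  refine s36_cpt_cong_int q hUnif ζ hζ x x2 y c a _ _ Cs _
    (s36_cm5_theta_int hΘ x T hxT hxlow) (s36_cm5_theta_int hΘ y Ti hyT hylow) hC
    (s36_cm5_theta_int hΘ a Az haT halow) h2 6 ?_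
  rw [s36_cm5_res_int, s36_cm5_res_int, s36_cm5_res_int, hCt]
  exact hid

/-- `j t₂⁻¹ = (1 + 256 t₂⁻¹)³`. -/
theorem s36_cm5_j_t2inv (R : Type*) [CommRing R] :
    jqModC R * s18_t2invR R = (1 + 256 * s18_t2invR R) ^ 3 := by
  have h := s18_t2R_j_eq R
  have hu := s18_t2R_mul_inv R
  linear_combination (s18_t2invR R) * h
    + ((s18_t2R R * s18_t2invR R + 256 * s18_t2invR R) ^ 2
      + (s18_t2R R * s18_t2invR R + 256 * s18_t2invR R) * (1 + 256 * s18_t2invR R)
      + (1 + 256 * s18_t2invR R) ^ 2) * hu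

/-- `j t₃⁻¹ = (1 + 27 t₃⁻¹)(1 + 243 t₃⁻¹)³`. -/
theorem s36_cm5_j_t3inv (R : Type*) [CommRing R] :
    jqModC R * s18_t3invR R = (1 + 27 * s18_t3invR R) * (1 + 243 * s18_t3invR R) ^ 3 := by
  have h := s18_t3R_j_eq R
  have hu := s18_t3R_mul_inv R
  linear_combination (s18_t3invR R) * h
    + ((s18_t3R R * s18_t3invR R + 27 * s18_t3invR R)
        * ((s18_t3R R * s18_t3invR R + 243 * s18_t3invR R) ^ 2
          + (s18_t3R R * s18_t3invR R + 243 * s18_t3invR R) * (1 + 243 * s18_t3invR R)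
          + (1 + 243 * s18_t3invR R) ^ 2)
      + (1 + 243 * s18_t3invR R) ^ 3) * hu

/-- **`q ≥ 5`, coordinate `t₂`, chart at `0`** (`x = t₂`, `y = t₂⁻¹`): `u'^6 c ≡ (x + 64)^(3(q-1))` modulo `z V_C`, `c = P(j) x^(2(q-1))` in the chart of `x`. -/
theorem s36_cm5_cong_t2_zero {N q : ℕ} {ζ : Aˣ} (hΘ : s36_gc_IsCusp N q ζ Θ) [Fact q.Prime]
    (hq : 5 ≤ q) [CharP (IsLocalRing.ResidueField A) q]
    {z : laurentBaseChange K0 (modularFunctionFieldFull M)}
    (hUnif : s34_Unif z (s36_gc_V κ A M Θ)) (hζ : IsPrimitiveRoot (ζ : A) q)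
    (jF x x2 y : laurentBaseChange K0 (modularFunctionFieldFull M))
    (hj : (jF : LaurentSeries K0) = jqModC K0)
    (hx : (x : LaurentSeries K0) = s18_t2R K0) (hy : (y : LaurentSeries K0) = s18_t2invR K0)
    (hjlow : (jF : LaurentSeries K0) ∈ laurentBaseChange K0 (modularFunctionFieldFull (N * q)))
    (hxlow : (x : LaurentSeries K0) ∈ laurentBaseChange K0 (modularFunctionFieldFull (N * q)))
    (hylow : (y : LaurentSeries K0) ∈ laurentBaseChange K0 (modularFunctionFieldFull (N * q)))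
    (h2 : Θ (s36_gc_incl κ M x2) =
      twistQ (Units.map (A.subtype : A →* K) ζ) (Θ (s36_gc_incl κ M x)))
    (A₀ : Type*) [CommRing A₀] [Algebra A₀ (laurentBaseChange K0 (modularFunctionFieldFull M))] :
    ∃ c : laurentBaseChange K0 (modularFunctionFieldFull M), c ∈ s34_ic_chart A₀ x ∧
      (algebraMap K0 (laurentBaseChange K0 (modularFunctionFieldFull M)) (q : K0))⁻¹ *
          ((x2 - x) * y) ^ (q - 1) ∈ s36_gc_V κ A M Θ ∧
        z⁻¹ * (((algebraMap K0 (laurentBaseChange K0 (modularFunctionFieldFull M)) (q : K0))⁻¹ *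
          ((x2 - x) * y) ^ (q - 1)) ^ 6 * c - (x + 64) ^ (3 * (q - 1))) ∈ s36_gc_V κ A M Θ := by
  have hjx : jF * x ^ 2 ∈ s34_ic_chart A₀ x := by
    have e : jF * x ^ 2 = (x + 256) ^ 3 :=
      Subtype.ext (by push_cast; rw [hj, hx]; exact s18_t2R_j K0)
    rw [e]
    exact Subalgebra.pow_mem _ (Subalgebra.add_mem _ (s34_ic_t_mem x)
      (by exact_mod_cast natCast_mem (s34_ic_chart A₀ x) 256)) 3
  have hn : ∀ n : ℕ, ((n : ℕ) : LaurentSeries K0) ∈
      laurentBaseChange K0 (modularFunctionFieldFull (N * q)) := fun n => natCast_mem _ n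
  refine s36_cm5_cong hΘ hq hUnif hζ jF x x2 y ((x + 64) ^ (3 * (q - 1))) hj s18_t2 s18_t2inv
    ((s18_t2 + 64) ^ (3 * (q - 1))) hx hy ?_ hjlow hxlow hylow ?_ h2 (A₀ := A₀) 2 hjx ?_
  · push_cast
    rw [hx]
    simp only [map_pow, map_add, map_mul, map_one, map_ofNat]
    rfl
  · push_cast
    refine pow_mem ?_ _
    exact add_mem hxlow (by exact_mod_cast hn 64)
  · simp only [map_pow, map_add, map_mul, map_one, map_ofNat]
    exact s36_cs5_hid_t2_zero q _ hq

/-- **`q ≥ 5`, coordinate `t₂⁻¹`, chart at `∞`** (`x = t₂⁻¹`, `y = t₂`): `u'^6 c ≡ (1 + 64 x)^(3(q-1))` modulo `z V_C`, `c = P(j) x^(q-1)` in the chart of `x`. -/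
theorem s36_cm5_cong_t2_inf {N q : ℕ} {ζ : Aˣ} (hΘ : s36_gc_IsCusp N q ζ Θ) [Fact q.Prime]
    (hq : 5 ≤ q) [CharP (IsLocalRing.ResidueField A) q]
    {z : laurentBaseChange K0 (modularFunctionFieldFull M)}
    (hUnif : s34_Unif z (s36_gc_V κ A M Θ)) (hζ : IsPrimitiveRoot (ζ : A) q)
    (jF x x2 y : laurentBaseChange K0 (modularFunctionFieldFull M))
    (hj : (jF : LaurentSeries K0) = jqModC K0)
    (hx : (x : LaurentSeries K0) = s18_t2invR K0) (hy : (y : LaurentSeries K0) = s18_t2R K0)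
    (hjlow : (jF : LaurentSeries K0) ∈ laurentBaseChange K0 (modularFunctionFieldFull (N * q)))
    (hxlow : (x : LaurentSeries K0) ∈ laurentBaseChange K0 (modularFunctionFieldFull (N * q)))
    (hylow : (y : LaurentSeries K0) ∈ laurentBaseChange K0 (modularFunctionFieldFull (N * q)))
    (h2 : Θ (s36_gc_incl κ M x2) =
      twistQ (Units.map (A.subtype : A →* K) ζ) (Θ (s36_gc_incl κ M x)))
    (A₀ : Type*) [CommRing A₀] [Algebra A₀ (laurentBaseChange K0 (modularFunctionFieldFull M))] :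
    ∃ c : laurentBaseChange K0 (modularFunctionFieldFull M), c ∈ s34_ic_chart A₀ x ∧
      (algebraMap K0 (laurentBaseChange K0 (modularFunctionFieldFull M)) (q : K0))⁻¹ *
          ((x2 - x) * y) ^ (q - 1) ∈ s36_gc_V κ A M Θ ∧
        z⁻¹ * (((algebraMap K0 (laurentBaseChange K0 (modularFunctionFieldFull M)) (q : K0))⁻¹ *
          ((x2 - x) * y) ^ (q - 1)) ^ 6 * c - (1 + 64 * x) ^ (3 * (q - 1))) ∈ s36_gc_V κ A M Θ := by
  have hjx : jF * x ^ 1 ∈ s34_ic_chart A₀ x := by
    have e : jF * x ^ 1 = (1 + 256 * x) ^ 3 :=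
      Subtype.ext (by push_cast; rw [hj, hx, pow_one]; exact s36_cm5_j_t2inv K0)
    rw [e]
    exact Subalgebra.pow_mem _ (Subalgebra.add_mem _ (Subalgebra.one_mem _)
      (Subalgebra.mul_mem _ (by exact_mod_cast natCast_mem (s34_ic_chart A₀ x) 256)
        (s34_ic_t_mem x))) 3
  have hn : ∀ n : ℕ, ((n : ℕ) : LaurentSeries K0) ∈
      laurentBaseChange K0 (modularFunctionFieldFull (N * q)) := fun n => natCast_mem _ n
  refine s36_cm5_cong hΘ hq hUnif hζ jF x x2 y ((1 + 64 * x) ^ (3 * (q - 1))) hj s18_t2inv s18_t2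
    ((1 + 64 * s18_t2inv) ^ (3 * (q - 1))) hx hy ?_ hjlow hxlow hylow ?_ h2 (A₀ := A₀) 1 hjx ?_
  · push_cast
    rw [hx]
    simp only [map_pow, map_add, map_mul, map_one, map_ofNat]
    rfl
  · push_cast
    refine pow_mem ?_ _
    exact add_mem (one_mem _) (mul_mem (by exact_mod_cast hn 64) hxlow)
  · rw [one_mul]
    simp only [map_pow, map_add, map_mul, map_one, map_ofNat]
    exact s36_cs5_hid_t2_inf q _ hq

/-- **`q ≥ 5`, coordinate `t₃`, chart at `0`** (`x = t₃`, `y = t₃⁻¹`): `u'^6 c ≡ (x + 27)^(4(q-1))` modulo `z V_C`, `c = P(j) x^(3(q-1))` in the chart of `x`. -/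
theorem s36_cm5_cong_t3_zero {N q : ℕ} {ζ : Aˣ} (hΘ : s36_gc_IsCusp N q ζ Θ) [Fact q.Prime]
    (hq : 5 ≤ q) [CharP (IsLocalRing.ResidueField A) q]
    {z : laurentBaseChange K0 (modularFunctionFieldFull M)}
    (hUnif : s34_Unif z (s36_gc_V κ A M Θ)) (hζ : IsPrimitiveRoot (ζ : A) q)
    (jF x x2 y : laurentBaseChange K0 (modularFunctionFieldFull M))
    (hj : (jF : LaurentSeries K0) = jqModC K0)
    (hx : (x : LaurentSeries K0) = s18_t3R K0) (hy : (y : LaurentSeries K0) = s18_t3invR K0)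
    (hjlow : (jF : LaurentSeries K0) ∈ laurentBaseChange K0 (modularFunctionFieldFull (N * q)))
    (hxlow : (x : LaurentSeries K0) ∈ laurentBaseChange K0 (modularFunctionFieldFull (N * q)))
    (hylow : (y : LaurentSeries K0) ∈ laurentBaseChange K0 (modularFunctionFieldFull (N * q)))
    (h2 : Θ (s36_gc_incl κ M x2) =
      twistQ (Units.map (A.subtype : A →* K) ζ) (Θ (s36_gc_incl κ M x)))
    (A₀ : Type*) [CommRing A₀] [Algebra A₀ (laurentBaseChange K0 (modularFunctionFieldFull M))] :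
    ∃ c : laurentBaseChange K0 (modularFunctionFieldFull M), c ∈ s34_ic_chart A₀ x ∧
      (algebraMap K0 (laurentBaseChange K0 (modularFunctionFieldFull M)) (q : K0))⁻¹ *
          ((x2 - x) * y) ^ (q - 1) ∈ s36_gc_V κ A M Θ ∧
        z⁻¹ * (((algebraMap K0 (laurentBaseChange K0 (modularFunctionFieldFull M)) (q : K0))⁻¹ *
          ((x2 - x) * y) ^ (q - 1)) ^ 6 * c - (x + 27) ^ (4 * (q - 1))) ∈ s36_gc_V κ A M Θ := by
  have hjx : jF * x ^ 3 ∈ s34_ic_chart A₀ x := by
    have e : jF * x ^ 3 = (x + 27) * (x + 243) ^ 3 :=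
      Subtype.ext (by push_cast; rw [hj, hx]; exact s18_t3R_j K0)
    rw [e]
    exact Subalgebra.mul_mem _ (Subalgebra.add_mem _ (s34_ic_t_mem x)
      (by exact_mod_cast natCast_mem (s34_ic_chart A₀ x) 27))
      (Subalgebra.pow_mem _ (Subalgebra.add_mem _ (s34_ic_t_mem x)
        (by exact_mod_cast natCast_mem (s34_ic_chart A₀ x) 243)) 3)
  have hn : ∀ n : ℕ, ((n : ℕ) : LaurentSeries K0) ∈
      laurentBaseChange K0 (modularFunctionFieldFull (N * q)) := fun n => natCast_mem _ n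
  refine s36_cm5_cong hΘ hq hUnif hζ jF x x2 y ((x + 27) ^ (4 * (q - 1))) hj s18_t3 s18_t3inv
    ((s18_t3 + 27) ^ (4 * (q - 1))) hx hy ?_ hjlow hxlow hylow ?_ h2 (A₀ := A₀) 3 hjx ?_
  · push_cast
    rw [hx]
    simp only [map_pow, map_add, map_mul, map_one, map_ofNat]
    rfl
  · push_cast
    refine pow_mem ?_ _
    exact add_mem hxlow (by exact_mod_cast hn 27)
  · simp only [map_pow, map_add, map_mul, map_one, map_ofNat]
    exact s36_cs5_hid_t3_zero q _ hq

/-- **`q ≥ 5`, coordinate `t₃⁻¹`, chart at `∞`** (`x = t₃⁻¹`, `y = t₃`): `u'^6 c ≡ (1 + 27 x)^(4(q-1))` modulo `z V_C`, `c = P(j) x^(q-1)` in the chart of `x`. -/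
theorem s36_cm5_cong_t3_inf {N q : ℕ} {ζ : Aˣ} (hΘ : s36_gc_IsCusp N q ζ Θ) [Fact q.Prime]
    (hq : 5 ≤ q) [CharP (IsLocalRing.ResidueField A) q]
    {z : laurentBaseChange K0 (modularFunctionFieldFull M)}
    (hUnif : s34_Unif z (s36_gc_V κ A M Θ)) (hζ : IsPrimitiveRoot (ζ : A) q)
    (jF x x2 y : laurentBaseChange K0 (modularFunctionFieldFull M))
    (hj : (jF : LaurentSeries K0) = jqModC K0)
    (hx : (x : LaurentSeries K0) = s18_t3invR K0) (hy : (y : LaurentSeries K0) = s18_t3R K0)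
    (hjlow : (jF : LaurentSeries K0) ∈ laurentBaseChange K0 (modularFunctionFieldFull (N * q)))
    (hxlow : (x : LaurentSeries K0) ∈ laurentBaseChange K0 (modularFunctionFieldFull (N * q)))
    (hylow : (y : LaurentSeries K0) ∈ laurentBaseChange K0 (modularFunctionFieldFull (N * q)))
    (h2 : Θ (s36_gc_incl κ M x2) =
      twistQ (Units.map (A.subtype : A →* K) ζ) (Θ (s36_gc_incl κ M x)))
    (A₀ : Type*) [CommRing A₀] [Algebra A₀ (laurentBaseChange K0 (modularFunctionFieldFull M))] :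
    ∃ c : laurentBaseChange K0 (modularFunctionFieldFull M), c ∈ s34_ic_chart A₀ x ∧
      (algebraMap K0 (laurentBaseChange K0 (modularFunctionFieldFull M)) (q : K0))⁻¹ *
          ((x2 - x) * y) ^ (q - 1) ∈ s36_gc_V κ A M Θ ∧
        z⁻¹ * (((algebraMap K0 (laurentBaseChange K0 (modularFunctionFieldFull M)) (q : K0))⁻¹ *
          ((x2 - x) * y) ^ (q - 1)) ^ 6 * c - (1 + 27 * x) ^ (4 * (q - 1))) ∈ s36_gc_V κ A M Θ := by
  have hjx : jF * x ^ 1 ∈ s34_ic_chart A₀ x := by
    have e : jF * x ^ 1 = (1 + 27 * x) * (1 + 243 * x) ^ 3 :=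
      Subtype.ext (by push_cast; rw [hj, hx, pow_one]; exact s36_cm5_j_t3inv K0)
    rw [e]
    exact Subalgebra.mul_mem _ (Subalgebra.add_mem _ (Subalgebra.one_mem _)
      (Subalgebra.mul_mem _ (by exact_mod_cast natCast_mem (s34_ic_chart A₀ x) 27)
        (s34_ic_t_mem x)))
      (Subalgebra.pow_mem _ (Subalgebra.add_mem _ (Subalgebra.one_mem _)
        (Subalgebra.mul_mem _ (by exact_mod_cast natCast_mem (s34_ic_chart A₀ x) 243)
          (s34_ic_t_mem x))) 3)
  have hn : ∀ n : ℕ, ((n : ℕ) : LaurentSeries K0) ∈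
      laurentBaseChange K0 (modularFunctionFieldFull (N * q)) := fun n => natCast_mem _ n
  refine s36_cm5_cong hΘ hq hUnif hζ jF x x2 y ((1 + 27 * x) ^ (4 * (q - 1))) hj s18_t3inv s18_t3
    ((1 + 27 * s18_t3inv) ^ (4 * (q - 1))) hx hy ?_ hjlow hxlow hylow ?_ h2 (A₀ := A₀) 1 hjx ?_
  · push_cast
    rw [hx]
    simp only [map_pow, map_add, map_mul, map_one, map_ofNat]
    rfl
  · push_cast
    refine pow_mem ?_ _
    exact add_mem (one_mem _) (mul_mem (by exact_mod_cast hn 27) hxlow)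
  · rw [one_mul]
    simp only [map_pow, map_add, map_mul, map_one, map_ofNat]
    exact s36_cs5_hid_t3_inf q _ hq

end Model

end Fermat.Agent.S36
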