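import Fermat.Agent.S18.Gauss

/-!
# S36 (NODE-3): functions integral over a local ring of a normal chart; per-point choice `t₂`/`t₃`

`B ⊆ F` a normal chart (`hnorm : ∀ z, IsIntegral B z → z ∈ B`), `𝔪` a prime, `B_𝔪 = s18_loc B 𝔪`.

* `s36_pp_int_mem` : a root of a monic polynomial with coefficients in `B_𝔪` lies in `B_𝔪`
  (the local ring of a normal chart is integrally closed).
* `s36_pp_two_mem`, `s36_pp_two_inv_mem` : if `J ∈ B_𝔪` and `J y² = (y + 256)³` then `y ∈ B_𝔪`,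
  and `y⁻¹ ∈ B_𝔪` when `2` is a unit at `𝔪` — the level-2 Hauptmodul-type function `y`
  (e.g. `t₂(Q^q)` with `J = j(Q^q)`) is regular and invertible at every non-cuspidal point of ANY
  chart, whatever its coordinate.
* `s36_pp_three_mem`, `s36_pp_three_inv_mem` : the same for `J y³ = (y + 27)(y + 243)³` and `3`.
* `s36_pp_choice` : if `6` is a unit at `𝔪`, then `(y₂ + 64)⁻¹ ∈ B_𝔪` or `(y₃ + 27)⁻¹ ∈ B_𝔪`
  (per-point choice of the coordinate with no bad value at the point).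
-/

set_option autoImplicit false

namespace Fermat.Agent.S36

open Polynomial Fermat.Agent.S18

variable {F : Type*} [Field F]

/-- Elements of `B ∖ 𝔪` are units of `B_𝔪`. -/
theorem s36_pp_inv_mem (B : Subring F) (𝔪 : Ideal B) [h𝔪 : 𝔪.IsPrime] (b : B) (hb : b ∉ 𝔪) :
    ((b : F))⁻¹ ∈ s18_loc B 𝔪 :=
  ⟨1, b, hb, by simp⟩

/-- **The local ring of a normal chart is integrally closed.** -/
theorem s36_pp_int_mem (B : Subring F) (hnorm : ∀ z : F, IsIntegral B z → z ∈ B)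
    (𝔪 : Ideal B) [h𝔪 : 𝔪.IsPrime] (z : F) (P : F[X]) (hP : P.Monic)
    (hcoef : ∀ n, P.coeff n ∈ s18_loc B 𝔪) (hz : P.eval z = 0) : z ∈ s18_loc B 𝔪 := by
  classical
  choose a b hb hab using hcoef
  set d := P.natDegree with hd
  -- a common denominator
  set s : B := ∏ i ∈ Finset.range (d + 1), b i with hs
  have hs𝔪 : s ∉ 𝔪 := by
    intro h
    obtain ⟨i, -, hi⟩ := (h𝔪.prod_mem_iff).mp h
    exact hb i hi
  have hb0 : ∀ i, (b i : F) ≠ 0 := by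
    intro i h
    apply hb i
    have : b i = 0 := Subtype.ext h
    rw [this]
    exact 𝔪.zero_mem
  have hsc : ∀ i ∈ Finset.range (d + 1), (s : F) * P.coeff i ∈ B := by
    intro i hi
    have e : s = b i * ∏ j ∈ (Finset.range (d + 1)).erase i, b j := by
      rw [hs, Finset.mul_prod_erase _ _ hi]
    have e2 : (s : F) * P.coeff i
        = ((∏ j ∈ (Finset.range (d + 1)).erase i, b j : B) : F) * (a i : F) := by
      rw [hab i, e, Subring.coe_mul]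
      field_simp [hb0 i]
    rw [e2]
    exact B.mul_mem (SetLike.coe_mem _) (SetLike.coe_mem _)
  -- the scaled polynomial has coefficients in `B`
  have hlift : P.scaleRoots (s : F) ∈ Polynomial.lifts (algebraMap B F) := by
    rw [Polynomial.lifts_iff_coeff_lifts]
    intro n
    rw [coeff_scaleRoots]
    rcases lt_trichotomy n d with hn | hn | hn
    · have e : (s : F) ^ (P.natDegree - n) = (s : F) * (s : F) ^ (d - n - 1) := by
        rw [← pow_succ']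
        congr 1
        omega
      have h1 : P.coeff n * (s : F) ^ (P.natDegree - n)
          = ((s : F) * P.coeff n) * (s : F) ^ (d - n - 1) := by
        rw [e]
        ring
      rw [h1]
      exact ⟨⟨_, B.mul_mem (hsc n (Finset.mem_range.mpr (by omega)))
        (B.pow_mem (SetLike.coe_mem s) _)⟩, rfl⟩
    · subst hn
      refine ⟨1, ?_⟩
      rw [map_one, hd, tsub_self, pow_zero, mul_one]
      exact hP.coeff_natDegree.symm
    · refine ⟨0, ?_⟩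
      rw [map_zero, coeff_eq_zero_of_natDegree_lt hn, zero_mul]
  obtain ⟨q, hq, -, hqm⟩ := Polynomial.lifts_and_natDegree_eq_and_monic hlift
    ((monic_scaleRoots_iff (s : F)).mpr hP)
  have hint : IsIntegral B ((s : F) * z) := by
    refine ⟨q, hqm, ?_⟩
    rw [← Polynomial.eval_map, hq, scaleRoots_eval_mul, hz, mul_zero]
  have hmem := hnorm _ hint
  have hs0 : (s : F) ≠ 0 := by
    intro h
    apply hs𝔪
    have : s = 0 := Subtype.ext h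
    rw [this]
    exact 𝔪.zero_mem
  refine ⟨⟨(s : F) * z, hmem⟩, s, hs𝔪, ?_⟩
  show z = (s : F) * z / (s : F)
  field_simp

/-- A root of a monic cubic with coefficients in `B_𝔪` lies in `B_𝔪`. -/
theorem s36_pp_cubic (B : Subring F) (hnorm : ∀ z : F, IsIntegral B z → z ∈ B)
    (𝔪 : Ideal B) [h𝔪 : 𝔪.IsPrime] (z c₂ c₁ c₀ : F) (h₂ : c₂ ∈ s18_loc B 𝔪)
    (h₁ : c₁ ∈ s18_loc B 𝔪) (h₀ : c₀ ∈ s18_loc B 𝔪)
    (h : z ^ 3 + c₂ * z ^ 2 + c₁ * z + c₀ = 0) : z ∈ s18_loc B 𝔪 := by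
  refine s36_pp_int_mem B hnorm 𝔪 z (X ^ 3 + C c₂ * X ^ 2 + C c₁ * X + C c₀) ?_ ?_ ?_
  · monicity!
  · intro n
    show _ ∈ s18_locRing B 𝔪
    simp only [coeff_add, coeff_X_pow, coeff_C_mul, coeff_X, coeff_C]
    refine Subring.add_mem _ (Subring.add_mem _ (Subring.add_mem _ ?_ ?_) ?_) ?_
    · split_ifs
      exacts [Subring.one_mem _, Subring.zero_mem _]
    · split_ifs
      · rw [mul_one]; exact h₂
      · rw [mul_zero]; exact Subring.zero_mem _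
    · split_ifs
      · rw [mul_one]; exact h₁
      · rw [mul_zero]; exact Subring.zero_mem _
    · split_ifs
      · exact h₀
      · exact Subring.zero_mem _
  · simp only [eval_add, eval_pow, eval_X, eval_mul, eval_C]
    exact h

/-- A root of a monic quartic with coefficients in `B_𝔪` lies in `B_𝔪`. -/
theorem s36_pp_quartic (B : Subring F) (hnorm : ∀ z : F, IsIntegral B z → z ∈ B)
    (𝔪 : Ideal B) [h𝔪 : 𝔪.IsPrime] (z c₃ c₂ c₁ c₀ : F) (h₃ : c₃ ∈ s18_loc B 𝔪)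
    (h₂ : c₂ ∈ s18_loc B 𝔪) (h₁ : c₁ ∈ s18_loc B 𝔪) (h₀ : c₀ ∈ s18_loc B 𝔪)
    (h : z ^ 4 + c₃ * z ^ 3 + c₂ * z ^ 2 + c₁ * z + c₀ = 0) : z ∈ s18_loc B 𝔪 := by
  refine s36_pp_int_mem B hnorm 𝔪 z
    (X ^ 4 + C c₃ * X ^ 3 + C c₂ * X ^ 2 + C c₁ * X + C c₀) ?_ ?_ ?_
  · monicity!
  · intro n
    show _ ∈ s18_locRing B 𝔪
    simp only [coeff_add, coeff_X_pow, coeff_C_mul, coeff_X, coeff_C]
    refine Subring.add_mem _ (Subring.add_mem _ (Subring.add_mem _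
      (Subring.add_mem _ ?_ ?_) ?_) ?_) ?_
    · split_ifs
      exacts [Subring.one_mem _, Subring.zero_mem _]
    · split_ifs
      · rw [mul_one]; exact h₃
      · rw [mul_zero]; exact Subring.zero_mem _
    · split_ifs
      · rw [mul_one]; exact h₂
      · rw [mul_zero]; exact Subring.zero_mem _
    · split_ifs
      · rw [mul_one]; exact h₁
      · rw [mul_zero]; exact Subring.zero_mem _
    · split_ifs
      · exact h₀
      · exact Subring.zero_mem _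
  · simp only [eval_add, eval_pow, eval_X, eval_mul, eval_C]
    exact h

/-- Level-2 Hauptmodul-type functions are regular at `𝔪` as soon as `J` is. -/
theorem s36_pp_two_mem (B : Subring F) (hnorm : ∀ z : F, IsIntegral B z → z ∈ B)
    (𝔪 : Ideal B) [h𝔪 : 𝔪.IsPrime] (J y : F) (hJ : J ∈ s18_loc B 𝔪)
    (h : J * y ^ 2 = (y + 256) ^ 3) : y ∈ s18_loc B 𝔪 := by
  have hJ' : J ∈ s18_locRing B 𝔪 := hJ
  refine s36_pp_cubic B hnorm 𝔪 y (768 - J) 196608 16777216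
    (Subring.sub_mem (s18_locRing B 𝔪) (ofNat_mem _ 768) hJ')
    (ofNat_mem (s18_locRing B 𝔪) 196608) (ofNat_mem (s18_locRing B 𝔪) 16777216) ?_
  linear_combination -h

/-- ... and invertible at `𝔪` when `2` is a unit there. -/
theorem s36_pp_two_inv_mem (B : Subring F) (hnorm : ∀ z : F, IsIntegral B z → z ∈ B)
    (𝔪 : Ideal B) [h𝔪 : 𝔪.IsPrime] (J y : F) (hJ : J ∈ s18_loc B 𝔪)
    (h2 : ((2 : F))⁻¹ ∈ s18_loc B 𝔪) (h20 : (2 : F) ≠ 0) (hy : y ≠ 0)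
    (h : J * y ^ 2 = (y + 256) ^ 3) : y⁻¹ ∈ s18_loc B 𝔪 := by
  have hJ' : J ∈ s18_locRing B 𝔪 := hJ
  have h2' : ((2 : F))⁻¹ ∈ s18_locRing B 𝔪 := h2
  have hpow : ∀ k : ℕ, (((2 : F))⁻¹) ^ k ∈ s18_locRing B 𝔪 := fun k => Subring.pow_mem _ h2' k
  -- `16777216 = 2^24`, `196608 = 3 · 2^16`
  refine s36_pp_cubic B hnorm 𝔪 y⁻¹ (3 * ((2 : F))⁻¹ ^ 8) ((768 - J) * ((2 : F))⁻¹ ^ 24)
    (((2 : F))⁻¹ ^ 24) ?_ ?_ (hpow 24) ?_
  · exact Subring.mul_mem _ (ofNat_mem _ 3) (hpow 8)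
  · exact Subring.mul_mem _ (Subring.sub_mem _ (ofNat_mem _ 768) hJ') (hpow 24)
  · have h3 : (y + 256) ^ 3 - J * y ^ 2 = 0 := by rw [h]; ring
    have hy3 : y ^ 3 ≠ 0 := pow_ne_zero 3 hy
    have h24 : ((2 : F)) ^ 24 ≠ 0 := pow_ne_zero 24 h20
    field_simp
    linear_combination h3

/-- Level-3 Hauptmodul-type functions are regular at `𝔪` as soon as `J` is. -/
theorem s36_pp_three_mem (B : Subring F) (hnorm : ∀ z : F, IsIntegral B z → z ∈ B)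
    (𝔪 : Ideal B) [h𝔪 : 𝔪.IsPrime] (J y : F) (hJ : J ∈ s18_loc B 𝔪)
    (h : J * y ^ 3 = (y + 27) * (y + 243) ^ 3) : y ∈ s18_loc B 𝔪 := by
  have hJ' : J ∈ s18_locRing B 𝔪 := hJ
  refine s36_pp_quartic B hnorm 𝔪 y (756 - J) 196830 19131876 387420489
    (Subring.sub_mem (s18_locRing B 𝔪) (ofNat_mem _ 756) hJ')
    (ofNat_mem (s18_locRing B 𝔪) 196830) (ofNat_mem (s18_locRing B 𝔪) 19131876)
    (ofNat_mem (s18_locRing B 𝔪) 387420489) ?_
  linear_combination -h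

/-- ... and invertible at `𝔪` when `3` is a unit there. -/
theorem s36_pp_three_inv_mem (B : Subring F) (hnorm : ∀ z : F, IsIntegral B z → z ∈ B)
    (𝔪 : Ideal B) [h𝔪 : 𝔪.IsPrime] (J y : F) (hJ : J ∈ s18_loc B 𝔪)
    (h3 : ((3 : F))⁻¹ ∈ s18_loc B 𝔪) (h30 : (3 : F) ≠ 0) (hy : y ≠ 0)
    (h : J * y ^ 3 = (y + 27) * (y + 243) ^ 3) : y⁻¹ ∈ s18_loc B 𝔪 := by
  have hJ' : J ∈ s18_locRing B 𝔪 := hJ
  have h3' : ((3 : F))⁻¹ ∈ s18_locRing B 𝔪 := h3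
  have hpow : ∀ k : ℕ, (((3 : F))⁻¹) ^ k ∈ s18_locRing B 𝔪 := fun k => Subring.pow_mem _ h3' k
  -- `387420489 = 3^18`
  refine s36_pp_quartic B hnorm 𝔪 y⁻¹ (19131876 * ((3 : F))⁻¹ ^ 18)
    (196830 * ((3 : F))⁻¹ ^ 18) ((756 - J) * ((3 : F))⁻¹ ^ 18) (((3 : F))⁻¹ ^ 18) ?_ ?_ ?_
    (hpow 18) ?_
  · exact Subring.mul_mem _ (ofNat_mem _ 19131876) (hpow 18)
  · exact Subring.mul_mem _ (ofNat_mem _ 196830) (hpow 18)
  · exact Subring.mul_mem _ (Subring.sub_mem _ (ofNat_mem _ 756) hJ') (hpow 18)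
  · have h4 : (y + 27) * (y + 243) ^ 3 - J * y ^ 3 = 0 := by rw [h]; ring
    have hy4 : y ^ 4 ≠ 0 := pow_ne_zero 4 hy
    have h18 : ((3 : F)) ^ 18 ≠ 0 := pow_ne_zero 18 h30
    field_simp
    linear_combination h4

/-- `B_𝔪` is local: if `x u + y v = 1` in `B_𝔪` then `x` or `y` is a unit of `B_𝔪`. -/
theorem s36_pp_local (B : Subring F) (𝔪 : Ideal B) [h𝔪 : 𝔪.IsPrime] (x y u v : F)
    (hx : x ∈ s18_loc B 𝔪) (hy : y ∈ s18_loc B 𝔪) (hu : u ∈ s18_loc B 𝔪)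
    (hv : v ∈ s18_loc B 𝔪) (h1 : x * u + y * v = 1) :
    x⁻¹ ∈ s18_loc B 𝔪 ∨ y⁻¹ ∈ s18_loc B 𝔪 := by
  obtain ⟨a, b, hb, rfl⟩ := hx
  obtain ⟨c, d, hd, rfl⟩ := hy
  obtain ⟨u₁, u₂, hu₂, rfl⟩ := hu
  obtain ⟨v₁, v₂, hv₂, rfl⟩ := hv
  have hne : ∀ e : B, e ∉ 𝔪 → (e : F) ≠ 0 := by
    intro e he h
    apply he
    have : e = 0 := Subtype.ext h
    rw [this]
    exact 𝔪.zero_mem
  by_cases ha : a ∈ 𝔪
  · by_cases hc : c ∈ 𝔪
    · exfalso
      have hb0 := hne b hb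
      have hd0 := hne d hd
      have hu0 := hne u₂ hu₂
      have hv0 := hne v₂ hv₂
      have e : (a : F) * u₁ * d * v₂ + c * v₁ * b * u₂ = b * u₂ * d * v₂ := by
        field_simp at h1
        linear_combination h1
      have e' : a * u₁ * d * v₂ + c * v₁ * b * u₂ = b * u₂ * d * v₂ := by
        apply Subtype.ext
        push_cast
        exact e
      have hL : a * u₁ * d * v₂ + c * v₁ * b * u₂ ∈ 𝔪 := by
        refine 𝔪.add_mem ?_ ?_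
        · have : a * u₁ * d * v₂ = (u₁ * d * v₂) * a := by ring
          rw [this]
          exact 𝔪.mul_mem_left _ ha
        · have : c * v₁ * b * u₂ = (v₁ * b * u₂) * c := by ring
          rw [this]
          exact 𝔪.mul_mem_left _ hc
      rw [e'] at hL
      rcases h𝔪.mem_or_mem hL with h | h
      · rcases h𝔪.mem_or_mem h with h | h
        · rcases h𝔪.mem_or_mem h with h | h
          · exact hb h
          · exact hu₂ h
        · exact hd h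
      · exact hv₂ h
    · right
      exact ⟨d, c, hc, by rw [inv_div]⟩
  · left
    exact ⟨b, a, ha, by rw [inv_div]⟩

/-- **Per-point choice.**  At a point `𝔪` where `6` is a unit and `y₂`, `y₃` (level-2 and level-3
Hauptmodul-type functions with the same `J`) are units of `B_𝔪`, one of `y₂ + 64`, `y₃ + 27` is a
unit of `B_𝔪`: they cannot both vanish, since `J = 1728` resp. `J = 0` there. -/
theorem s36_pp_choice (B : Subring F) (𝔪 : Ideal B) [h𝔪 : 𝔪.IsPrime] (J y₂ y₃ : F)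
    (hy₂ : y₂ ∈ s18_loc B 𝔪) (hy₂' : y₂⁻¹ ∈ s18_loc B 𝔪)
    (hy₃ : y₃ ∈ s18_loc B 𝔪) (hy₃' : y₃⁻¹ ∈ s18_loc B 𝔪)
    (h6 : ((6 : F))⁻¹ ∈ s18_loc B 𝔪) (h60 : (6 : F) ≠ 0) (hy20 : y₂ ≠ 0) (hy30 : y₃ ≠ 0)
    (h2 : J * y₂ ^ 2 = (y₂ + 256) ^ 3) (h3 : J * y₃ ^ 3 = (y₃ + 27) * (y₃ + 243) ^ 3) :
    (y₂ + 64)⁻¹ ∈ s18_loc B 𝔪 ∨ (y₃ + 27)⁻¹ ∈ s18_loc B 𝔪 := by
  have hy₂R : y₂ ∈ s18_locRing B 𝔪 := hy₂
  have hy₂R' : y₂⁻¹ ∈ s18_locRing B 𝔪 := hy₂'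
  have hy₃R : y₃ ∈ s18_locRing B 𝔪 := hy₃
  have hy₃R' : y₃⁻¹ ∈ s18_locRing B 𝔪 := hy₃'
  have h6R : ((6 : F))⁻¹ ∈ s18_locRing B 𝔪 := h6
  have hwR : 27 * ((6 : F))⁻¹ ^ 6 ∈ s18_locRing B 𝔪 :=
    Subring.mul_mem _ (ofNat_mem _ 27) (Subring.pow_mem _ h6R 6)
  have hVR : (y₂ - 512) ^ 2 * y₂⁻¹ ^ 2 ∈ s18_locRing B 𝔪 :=
    Subring.mul_mem _ (Subring.pow_mem _ (Subring.sub_mem _ hy₂R (ofNat_mem _ 512)) 2)
      (Subring.pow_mem _ hy₂R' 2)
  have hUR : (y₃ + 243) ^ 3 * y₃⁻¹ ^ 3 ∈ s18_locRing B 𝔪 :=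
    Subring.mul_mem _ (Subring.pow_mem _ (Subring.add_mem _ hy₃R (ofNat_mem _ 243)) 3)
      (Subring.pow_mem _ hy₃R' 3)
  refine s36_pp_local B 𝔪 (y₂ + 64) (y₃ + 27)
    (-(27 * ((6 : F))⁻¹ ^ 6 * ((y₂ - 512) ^ 2 * y₂⁻¹ ^ 2)))
    (27 * ((6 : F))⁻¹ ^ 6 * ((y₃ + 243) ^ 3 * y₃⁻¹ ^ 3))
    (Subring.add_mem (s18_locRing B 𝔪) hy₂R (ofNat_mem _ 64))
    (Subring.add_mem (s18_locRing B 𝔪) hy₃R (ofNat_mem _ 27))
    (Subring.neg_mem (s18_locRing B 𝔪) (Subring.mul_mem _ hwR hVR))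
    (Subring.mul_mem (s18_locRing B 𝔪) hwR hUR) ?_
  have e2 : (y₂ + 64) * (y₂ - 512) ^ 2 = (J - 1728) * y₂ ^ 2 := by linear_combination -h2
  have e6 : (6 : F) ^ 6 ≠ 0 := pow_ne_zero 6 h60
  have hy2p : y₂ ^ 2 ≠ 0 := pow_ne_zero 2 hy20
  have hy3p : y₃ ^ 3 ≠ 0 := pow_ne_zero 3 hy30
  field_simp
  linear_combination (-27 * y₃ ^ 3) * e2 + (-27 * y₂ ^ 2) * h3

end Fermat.Agent.S36
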