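import Fermat.Agent.S36.CPtModel
import Fermat.Agent.S36.CPtLocal
import Fermat.Agent.S36.CuspMod5
import Fermat.Agent.S36.PerPoint
import Fermat.Agent.S18.ChartZLead

/-!
# S36 (NODE-3), contract item (c-Cpt) in the model for `q ≥ 5`: the `cpt` field of `s36_ptb_Pts`
on the charts of `t₂`, with the per-point choice of the coordinate

At a closed point `𝔪` of a chart `B` of the coordinate `t₂` (resp. `t₂⁻¹`) lying on the
component `C` only:

* if `t₂ + 64` (resp. `1 + 64 t₂⁻¹`) is a unit at `𝔪`, the candidate is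
  `z' = t₂(Q^(q²)) / t₂ - 1` (resp. with `t₂⁻¹`), by the identity `s36_cs5_hid_t2_zero`
  (resp. `_t2_inf`);
* otherwise `t₂` is a unit at `𝔪`, so `t₃`, `t₃⁻¹`, `t₃(Q^(q²))` lie in `B_𝔪`, `t₃ + 27` is a
  unit of `B_𝔪` (`S36/PerPoint`), and the candidate is `z' = t₃(Q^(q²)) / t₃ - 1`, by the
  identity `s36_cs5_hid_t3_zero`.

Main statements: `s36_cpm5_cpt_t2` (chart containing `t₂`), `s36_cpm5_cpt_t2inv` (chart
containing `t₂⁻¹`), in the shape of `s36_cpm_cpt3_t2`, `s36_cpm_cpt3_t2inv` of `S36/CPtModel`.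
-/

set_option autoImplicit false
set_option synthInstance.maxHeartbeats 400000
set_option maxHeartbeats 1000000
set_option linter.style.haveILetI false
set_option linter.unusedSectionVars false
set_option linter.unusedVariables false
set_option linter.unusedSimpArgs false

open ModularCurve

noncomputable section

namespace Fermat.Agent.S36

open Fermat.Agent.S28
open Fermat.Agent.S18 Fermat.Agent.S34 Fermat.Agent.S37

section Abs

variable {F : Type*} [Field F] {ϖ z₀ ε₀ : F} {B V₁ V' : Subring F}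

/-- **The ratios `x₂ / x`, `x / x₂` at a `C`-only point**, from `G₁ = x^p / x₁ ∈ B` and
`G₃ = x₂^p / x₁ ∈ B`, both `≡ 1` modulo the uniformiser of `V₁`, when `B_𝔪` is closed under
`p`-th roots. -/
theorem s36_cpm5_ratio (hB₁ : B ≤ V₁) (hB' : B ≤ V') (hϖB : ϖ ∈ B) (hϖ0 : ϖ ≠ 0)
    (hcap : ∀ x ∈ B, ϖ⁻¹ * x ∈ V₁ → ϖ⁻¹ * x ∈ V' → ϖ⁻¹ * x ∈ B)
    (e : ℕ) (he : 0 < e) (hε₀' : ε₀⁻¹ ∈ V₁) (hϖ : ϖ = ε₀ * z₀ ^ e)
    (𝔪 : Ideal B) [h𝔪 : 𝔪.IsPrime] (hϖ𝔪 : (⟨ϖ, hϖB⟩ : B) ∈ 𝔪)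
    (f₀ : B) (hf₀ : f₀ ∉ 𝔪) (hf₀' : ϖ⁻¹ * (f₀ : F) ∈ V')
    (p : ℕ) (hroot : ∀ z : F, z ^ p ∈ s18_loc B 𝔪 → z ∈ s18_loc B 𝔪)
    (x x1 x2 : F) (hx : x ≠ 0) (hx1 : x1 ≠ 0) (hx2 : x2 ≠ 0)
    (hG₁ : x ^ p * x1⁻¹ ∈ B) (hG₃ : x2 ^ p * x1⁻¹ ∈ B)
    (hG₁C : z₀⁻¹ * (x ^ p * x1⁻¹ - 1) ∈ V₁) (hG₃C : z₀⁻¹ * (x2 ^ p * x1⁻¹ - 1) ∈ V₁) :
    x2 * x⁻¹ ∈ s18_loc B 𝔪 ∧ x * x2⁻¹ ∈ s18_loc B 𝔪 := by
  have h1 : (⟨_, hG₁⟩ : B) ∉ 𝔪 :=
    s36_cpt_not_mem_of_cong hB₁ hB' hϖB hϖ0 hcap e he hε₀' hϖ 𝔪 hϖ𝔪 f₀ hf₀ hf₀' ⟨_, hG₁⟩ hG₁C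
  have h3 : (⟨_, hG₃⟩ : B) ∉ 𝔪 :=
    s36_cpt_not_mem_of_cong hB₁ hB' hϖB hϖ0 hcap e he hε₀' hϖ 𝔪 hϖ𝔪 f₀ hf₀ hf₀' ⟨_, hG₃⟩ hG₃C
  constructor
  · refine s36_cpt_root_mem 𝔪 p hroot (x2 * x⁻¹) ⟨_, hG₁⟩ ⟨_, hG₃⟩ h1 ?_
    show (x2 * x⁻¹) ^ p * (x ^ p * x1⁻¹) = x2 ^ p * x1⁻¹
    rw [mul_pow, inv_pow]
    field_simp
  · refine s36_cpt_root_mem 𝔪 p hroot (x * x2⁻¹) ⟨_, hG₃⟩ ⟨_, hG₁⟩ h3 ?_
    show (x * x2⁻¹) ^ p * (x2 ^ p * x1⁻¹) = x ^ p * x1⁻¹
    rw [mul_pow, inv_pow]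
    field_simp

/-- The inverse of a nonzero element of `𝔪` is not in `B_𝔪`. -/
theorem s36_cpm5_inv_not_mem (𝔪 : Ideal B) [h𝔪 : 𝔪.IsPrime] (b : B) (hb : b ∈ 𝔪)
    (hb0 : (b : F) ≠ 0) : ((b : F))⁻¹ ∉ s18_loc B 𝔪 := by
  rintro ⟨a, d, hd, h⟩
  have hd0 : (d : F) ≠ 0 := fun h0 => hd (by
    have : d = 0 := Subtype.ext h0
    rw [this]; exact 𝔪.zero_mem)
  have h1 : (d : F) = (a : F) * (b : F) := by
    field_simp at h
    linear_combination h
  have h2 : d = a * b := Subtype.ext (by push_cast; exact h1)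
  exact hd (by rw [h2]; exact 𝔪.mul_mem_left _ hb)

/-- A natural number prime to `q` is a unit at a prime containing `q`. -/
theorem s36_cpm5_nat_not_mem (𝔪 : Ideal B) [h𝔪 : 𝔪.IsPrime] (q n : ℕ)
    (hq : ((q : ℕ) : B) ∈ 𝔪) (hn : Nat.Coprime n q) : ((n : ℕ) : B) ∉ 𝔪 := by
  intro hmem
  obtain ⟨a, b, hab⟩ := (Nat.isCoprime_iff_coprime.mpr hn : IsCoprime (n : ℤ) (q : ℤ))
  have h1 : ((a : ℤ) : B) * ((n : ℕ) : B) + ((b : ℤ) : B) * ((q : ℕ) : B) = 1 := by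
    have := congrArg (Int.cast : ℤ → B) hab
    push_cast at this
    exact this
  have h2 : (1 : B) ∈ 𝔪 := by
    rw [← h1]
    exact 𝔪.add_mem (𝔪.mul_mem_left _ hmem) (𝔪.mul_mem_left _ hq)
  exact h𝔪.ne_top ((Ideal.eq_top_iff_one _).mpr h2)

/-- ... hence its inverse lies in `B_𝔪`. -/
theorem s36_cpm5_nat_inv_mem (𝔪 : Ideal B) [h𝔪 : 𝔪.IsPrime] (q n : ℕ)
    (hq : ((q : ℕ) : B) ∈ 𝔪) (hn : Nat.Coprime n q) : ((n : ℕ) : F)⁻¹ ∈ s18_loc B 𝔪 := by
  have h := s36_pp_inv_mem B 𝔪 ((n : ℕ) : B) (s36_cpm5_nat_not_mem 𝔪 q n hq hn)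
  simpa using h

/-- Elements of `B` lie in `B_𝔪`. -/
theorem s36_cpm5_mem_loc (𝔪 : Ideal B) [h𝔪 : 𝔪.IsPrime] (b : F) (hb : b ∈ B) :
    b ∈ s18_loc B 𝔪 :=
  ⟨⟨b, hb⟩, 1, (Ideal.ne_top_iff_one 𝔪).mp h𝔪.ne_top, by simp⟩

end Abs

section Model

variable {K0 K : Type*} [Field K0] [Field K] [Algebra ℚ K0] [Algebra ℚ K]
  {κ : K0 →+* K} {A : ValuationSubring K} {M : ℕ}
  {Θ : laurentBaseChange K (modularFunctionFieldFull M) →ₐ[K] LaurentSeries K}

/-- **The point context**: the statement of `s36_cl5_point` (`S36/CPtLocal`) with the chart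
hypotheses applied, for an arbitrary conclusion `C`. -/
def s36_cpm5_Pt (κ : K0 →+* K) (q : ℕ) (ζ : Aˣ)
    (Θ : laurentBaseChange K (modularFunctionFieldFull M) →ₐ[K] LaurentSeries K)
    {B : Subring (laurentBaseChange K0 (modularFunctionFieldFull M))} (𝔪 : Ideal B)
    (C : Prop) : Prop :=
  ∀ (x x2 y c a : laurentBaseChange K0 (modularFunctionFieldFull M))
    (X Y Cs As : LaurentSeries A),
    Θ (s36_gc_incl κ M x) = coeffMap A.subtype X →
    Θ (s36_gc_incl κ M y) = coeffMap A.subtype Y →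
    Θ (s36_gc_incl κ M c) = coeffMap A.subtype Cs →
    Θ (s36_gc_incl κ M a) = coeffMap A.subtype As →
    Θ (s36_gc_incl κ M x2) =
      twistQ (Units.map (A.subtype : A →* K) ζ) (Θ (s36_gc_incl κ M x)) →
    (x2 - x) * y ∈ s18_loc B 𝔪 → c ∈ s18_loc B 𝔪 → a ∈ s18_loc B 𝔪 →
    a⁻¹ ∈ s18_loc B 𝔪 → a ≠ 0 → ∀ n : ℕ, 0 < n →
    (-(s36_qt_theta (IsLocalRing.ResidueField A) (coeffMap (IsLocalRing.residue A) X)
          ^ (q - 1)) * coeffMap (IsLocalRing.residue A) Y ^ (q - 1)) ^ n *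
        coeffMap (IsLocalRing.residue A) Cs = coeffMap (IsLocalRing.residue A) As → C

/-- The image at the cusp `1/q` of the explicit element `c = P(j) x^(m (q-1))` (`q ≥ 5`). -/
theorem s36_cpm5_c_theta {N q : ℕ} {ζ : Aˣ} (hΘ : s36_gc_IsCusp N q ζ Θ) [Fact q.Prime]
    (hq : 5 ≤ q) [CharP (IsLocalRing.ResidueField A) q]
    (jF x : laurentBaseChange K0 (modularFunctionFieldFull M))
    (hj : (jF : LaurentSeries K0) = jqModC K0) (T : LaurentSeries ℤ)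
    (hxT : (x : LaurentSeries K0) = coeffMap (Int.castRingHom K0) T)
    (hjlow : (jF : LaurentSeries K0) ∈ laurentBaseChange K0 (modularFunctionFieldFull (N * q)))
    (hxlow : (x : LaurentSeries K0) ∈ laurentBaseChange K0 (modularFunctionFieldFull (N * q)))
    (m : ℕ) :
    ∃ Cs : LaurentSeries A,
      Θ (s36_gc_incl κ M ((s36_cs5_P q hq).eval₂ (Int.castRingHom _) jF * x ^ (m * (q - 1)))) =
          coeffMap A.subtype Cs ∧
        coeffMap (IsLocalRing.residue A) Cs =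
          deltaInvSeries (IsLocalRing.ResidueField A) ^ (q - 1) *
            coeffMap (Int.castRingHom (IsLocalRing.ResidueField A)) T ^ (m * (q - 1)) := by
  set P := s36_cs5_P q hq with hP
  refine ⟨coeffMap (Int.castRingHom A) (P.eval₂ HahnSeries.C (jqModC ℤ) * T ^ (m * (q - 1))),
    ?_, ?_⟩
  · have e1 : ((P.eval₂ (Int.castRingHom _) jF * x ^ (m * (q - 1)) :
        laurentBaseChange K0 (modularFunctionFieldFull M)) : LaurentSeries K0) =
        P.eval₂ (Int.castRingHom (LaurentSeries K0)) (jF : LaurentSeries K0) *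
          (x : LaurentSeries K0) ^ (m * (q - 1)) := by
      push_cast
      rw [s36_cm5_coe_eval]
    have e2 : P.eval₂ (Int.castRingHom (LaurentSeries K0)) (jF : LaurentSeries K0) *
          (x : LaurentSeries K0) ^ (m * (q - 1)) =
        (((P.eval₂ (Int.castRingHom _) ⟨_, hjlow⟩ * ⟨_, hxlow⟩ ^ (m * (q - 1)) :
          laurentBaseChange K0 (modularFunctionFieldFull (N * q))) :
            laurentBaseChange K0 (modularFunctionFieldFull (N * q))) : LaurentSeries K0) := by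
      push_cast
      rw [s36_cm5_coe_eval]
    have hlow : ((P.eval₂ (Int.castRingHom _) jF * x ^ (m * (q - 1)) :
        laurentBaseChange K0 (modularFunctionFieldFull M)) : LaurentSeries K0) ∈
        laurentBaseChange K0 (modularFunctionFieldFull (N * q)) := by
      rw [e1, e2]
      exact SetLike.coe_mem _
    rw [s36_gc_theta_low hΘ _ hlow, e1, hj, hxT, ← s36_cm5_coeffMap_eval, ← map_pow, ← map_mul,
      coeffMap_coeffMap, coeffMap_coeffMap]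
    exact coeffMap_congr (RingHom.ext_int _ _) _
  · rw [coeffMap_coeffMap,
      coeffMap_congr (RingHom.ext_int ((IsLocalRing.residue A).comp (Int.castRingHom A))
        (Int.castRingHom (IsLocalRing.ResidueField A))), map_mul, map_pow, s36_cs5_P_red]

/-- **The `cpt` conclusion for `q ≥ 5`, generic form**: `x`, `y`, `a` of level `N q` with
`ℤ`-integral expansions `T`, `Ti`, `Az`, the candidate `(x₂ - x) y ∈ B_𝔪`, `x ∈ B_𝔪`,
`j x^m ∈ B_𝔪`, `a` a unit of `B_𝔪`, and the `q`-series identity `hid`. -/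
theorem s36_cpm5_gen {N q : ℕ} {ζ : Aˣ} (hΘ : s36_gc_IsCusp N q ζ Θ) [Fact q.Prime]
    (hq : 5 ≤ q) [CharP (IsLocalRing.ResidueField A) q]
    {B : Subring (laurentBaseChange K0 (modularFunctionFieldFull M))} (𝔪 : Ideal B)
    [h𝔪 : 𝔪.IsPrime] (C : Prop) (hpt : s36_cpm5_Pt κ q ζ Θ 𝔪 C)
    (jF x x2 y a : laurentBaseChange K0 (modularFunctionFieldFull M))
    (hj : (jF : LaurentSeries K0) = jqModC K0) (T Ti Az : LaurentSeries ℤ)
    (hxT : (x : LaurentSeries K0) = coeffMap (Int.castRingHom K0) T)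
    (hyT : (y : LaurentSeries K0) = coeffMap (Int.castRingHom K0) Ti)
    (haT : (a : LaurentSeries K0) = coeffMap (Int.castRingHom K0) Az)
    (hjlow : (jF : LaurentSeries K0) ∈ laurentBaseChange K0 (modularFunctionFieldFull (N * q)))
    (hxlow : (x : LaurentSeries K0) ∈ laurentBaseChange K0 (modularFunctionFieldFull (N * q)))
    (hylow : (y : LaurentSeries K0) ∈ laurentBaseChange K0 (modularFunctionFieldFull (N * q)))
    (halow : (a : LaurentSeries K0) ∈ laurentBaseChange K0 (modularFunctionFieldFull (N * q)))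
    (h2 : Θ (s36_gc_incl κ M x2) =
      twistQ (Units.map (A.subtype : A →* K) ζ) (Θ (s36_gc_incl κ M x)))
    (m : ℕ) (hx : x ∈ s18_loc B 𝔪) (hjx : jF * x ^ m ∈ s18_loc B 𝔪)
    (hz' : (x2 - x) * y ∈ s18_loc B 𝔪) (ha : a ∈ s18_loc B 𝔪) (ha' : a⁻¹ ∈ s18_loc B 𝔪)
    (ha0 : a ≠ 0)
    (hid : (-(s36_qt_theta (IsLocalRing.ResidueField A)
          (coeffMap (Int.castRingHom (IsLocalRing.ResidueField A)) T) ^ (q - 1)) *
          coeffMap (Int.castRingHom (IsLocalRing.ResidueField A)) Ti ^ (q - 1)) ^ 6 *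
        (deltaInvSeries (IsLocalRing.ResidueField A) ^ (q - 1) *
          coeffMap (Int.castRingHom (IsLocalRing.ResidueField A)) T ^ (m * (q - 1))) =
        coeffMap (Int.castRingHom (IsLocalRing.ResidueField A)) Az) : C := by
  obtain ⟨Cs, hC, hCt⟩ := s36_cpm5_c_theta (κ := κ) hΘ hq jF x hj T hxT hjlow hxlow m
  have hc : (s36_cs5_P q hq).eval₂ (Int.castRingHom _) jF * x ^ (m * (q - 1)) ∈
      s18_loc B 𝔪 :=
    s36_cm5_eval_mem (s18_locRing B 𝔪) jF x m hx hjx (s36_cs5_P q hq) (q - 1)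
      (le_of_eq (s36_cs5_P_natDegree q hq))
  refine hpt x x2 y _ a _ _ Cs _ (s36_cm5_theta_int hΘ x T hxT hxlow)
    (s36_cm5_theta_int hΘ y Ti hyT hylow) hC (s36_cm5_theta_int hΘ a Az haT halow) h2 hz' hc
    ha ha' ha0 6 (by norm_num) ?_
  rw [s36_cm5_res_int, s36_cm5_res_int, s36_cm5_res_int, hCt]
  exact hid

/-- `T + n ≠ 0` for a series with a simple pole. -/
theorem s36_cpm5_add_nat_ne_zero (R : Type*) [Field R] (T : LaurentSeries ℤ)
    (hlead : IsLeading T (-1) 1) (n : ℕ) :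
    coeffMap (Int.castRingHom R) T + (n : LaurentSeries R) ≠ 0 := by
  intro h
  have h1 := congrArg (fun s : LaurentSeries R => s.coeff (-1)) h
  have h2 : ((n : LaurentSeries R)).coeff (-1) = 0 := by
    rw [← map_natCast (HahnSeries.C : R →+* LaurentSeries R) n]
    exact HahnSeries.coeff_single_of_ne (by norm_num)
  simp only [HahnSeries.coeff_add, coeffMap_coeff, hlead.1, HahnSeries.coeff_zero, h2] at h1
  simp at h1

/-- **`q ≥ 5`, coordinate `t₂`** (`x = t₂`, `y = t₂⁻¹`) at a point where `t₂ ∈ B_𝔪` and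
`t₂ + 64` is a unit of `B_𝔪`. -/
theorem s36_cpm5_pt_t2_zero {N q : ℕ} {ζ : Aˣ} (hΘ : s36_gc_IsCusp N q ζ Θ) [Fact q.Prime]
    (hq : 5 ≤ q) [CharP (IsLocalRing.ResidueField A) q]
    {B : Subring (laurentBaseChange K0 (modularFunctionFieldFull M))} (𝔪 : Ideal B)
    [h𝔪 : 𝔪.IsPrime] (C : Prop) (hpt : s36_cpm5_Pt κ q ζ Θ 𝔪 C)
    (jF x x2 y : laurentBaseChange K0 (modularFunctionFieldFull M))
    (hj : (jF : LaurentSeries K0) = jqModC K0)
    (hx : (x : LaurentSeries K0) = s18_t2R K0) (hy : (y : LaurentSeries K0) = s18_t2invR K0)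
    (hjlow : (jF : LaurentSeries K0) ∈ laurentBaseChange K0 (modularFunctionFieldFull (N * q)))
    (hxlow : (x : LaurentSeries K0) ∈ laurentBaseChange K0 (modularFunctionFieldFull (N * q)))
    (hylow : (y : LaurentSeries K0) ∈ laurentBaseChange K0 (modularFunctionFieldFull (N * q)))
    (h2 : Θ (s36_gc_incl κ M x2) =
      twistQ (Units.map (A.subtype : A →* K) ζ) (Θ (s36_gc_incl κ M x)))
    (hxm : x ∈ s18_loc B 𝔪) (hz' : (x2 - x) * y ∈ s18_loc B 𝔪)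
    (hu : (x + 64)⁻¹ ∈ s18_loc B 𝔪) : C := by
  have hxR : x ∈ s18_locRing B 𝔪 := hxm
  have hjx : jF * x ^ 2 ∈ s18_loc B 𝔪 := by
    have e : jF * x ^ 2 = (x + 256) ^ 3 :=
      Subtype.ext (by push_cast; rw [hj, hx]; exact s18_t2R_j K0)
    rw [e]
    exact Subring.pow_mem (s18_locRing B 𝔪) (Subring.add_mem _ hxR (ofNat_mem _ 256)) 3
  have hne : x + 64 ≠ 0 := by
    intro h0
    have h1 := congrArg
      (fun w : laurentBaseChange K0 (modularFunctionFieldFull M) => (w : LaurentSeries K0)) h0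
    push_cast at h1
    rw [hx] at h1
    exact s36_cpm5_add_nat_ne_zero K0 s18_t2 s18_cz_isLeading_t2 64 (by exact_mod_cast h1)
  have hn : ∀ n : ℕ, ((n : ℕ) : LaurentSeries K0) ∈
      laurentBaseChange K0 (modularFunctionFieldFull (N * q)) := fun n => natCast_mem _ n
  refine s36_cpm5_gen hΘ hq 𝔪 C hpt jF x x2 y ((x + 64) ^ (3 * (q - 1))) hj s18_t2 s18_t2inv
    ((s18_t2 + 64) ^ (3 * (q - 1))) hx hy ?_ hjlow hxlow hylow ?_ h2 2 hxm hjx hz' ?_ ?_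
    (pow_ne_zero _ hne) ?_
  · push_cast
    rw [hx]
    simp only [map_pow, map_add, map_mul, map_one, map_ofNat]
    rfl
  · push_cast
    refine pow_mem ?_ _
    exact add_mem hxlow (by exact_mod_cast hn 64)
  · exact Subring.pow_mem (s18_locRing B 𝔪) (Subring.add_mem _ hxR (ofNat_mem _ 64)) _
  · rw [← inv_pow]
    exact Subring.pow_mem (s18_locRing B 𝔪) hu _
  · simp only [map_pow, map_add, map_mul, map_one, map_ofNat]
    exact s36_cs5_hid_t2_zero q _ hq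

/-- **`q ≥ 5`, coordinate `t₂⁻¹`** (`x = t₂⁻¹`, `y = t₂`) at a point where `t₂⁻¹ ∈ B_𝔪` and
`1 + 64 t₂⁻¹` is a unit of `B_𝔪`. -/
theorem s36_cpm5_pt_t2_inf {N q : ℕ} {ζ : Aˣ} (hΘ : s36_gc_IsCusp N q ζ Θ) [Fact q.Prime]
    (hq : 5 ≤ q) [CharP (IsLocalRing.ResidueField A) q]
    {B : Subring (laurentBaseChange K0 (modularFunctionFieldFull M))} (𝔪 : Ideal B)
    [h𝔪 : 𝔪.IsPrime] (C : Prop) (hpt : s36_cpm5_Pt κ q ζ Θ 𝔪 C)
    (jF x x2 y : laurentBaseChange K0 (modularFunctionFieldFull M))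
    (hj : (jF : LaurentSeries K0) = jqModC K0)
    (hx : (x : LaurentSeries K0) = s18_t2invR K0) (hy : (y : LaurentSeries K0) = s18_t2R K0)
    (hjlow : (jF : LaurentSeries K0) ∈ laurentBaseChange K0 (modularFunctionFieldFull (N * q)))
    (hxlow : (x : LaurentSeries K0) ∈ laurentBaseChange K0 (modularFunctionFieldFull (N * q)))
    (hylow : (y : LaurentSeries K0) ∈ laurentBaseChange K0 (modularFunctionFieldFull (N * q)))
    (h2 : Θ (s36_gc_incl κ M x2) =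
      twistQ (Units.map (A.subtype : A →* K) ζ) (Θ (s36_gc_incl κ M x)))
    (hxm : x ∈ s18_loc B 𝔪) (hz' : (x2 - x) * y ∈ s18_loc B 𝔪)
    (hu : (1 + 64 * x)⁻¹ ∈ s18_loc B 𝔪) : C := by
  have hxR : x ∈ s18_locRing B 𝔪 := hxm
  have hjx : jF * x ^ 1 ∈ s18_loc B 𝔪 := by
    have e : jF * x ^ 1 = (1 + 256 * x) ^ 3 :=
      Subtype.ext (by push_cast; rw [hj, hx, pow_one]; exact s36_cm5_j_t2inv K0)
    rw [e]
    exact Subring.pow_mem (s18_locRing B 𝔪) (Subring.add_mem _ (Subring.one_mem _)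
      (Subring.mul_mem _ (ofNat_mem _ 256) hxR)) 3
  have hyx : y * x = 1 := Subtype.ext (by push_cast; rw [hx, hy]; exact s18_t2R_mul_inv K0)
  have hx0 : x ≠ 0 := fun h => by rw [h, mul_zero] at hyx; exact zero_ne_one hyx
  have hy64 : y + 64 ≠ 0 := by
    intro h0
    have h1 := congrArg
      (fun w : laurentBaseChange K0 (modularFunctionFieldFull M) => (w : LaurentSeries K0)) h0
    push_cast at h1
    rw [hy] at h1
    exact s36_cpm5_add_nat_ne_zero K0 s18_t2 s18_cz_isLeading_t2 64 (by exact_mod_cast h1)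
  have hne : 1 + 64 * x ≠ 0 := by
    have e : 1 + 64 * x = x * (y + 64) := by linear_combination -hyx
    rw [e]
    exact mul_ne_zero hx0 hy64
  have hn : ∀ n : ℕ, ((n : ℕ) : LaurentSeries K0) ∈
      laurentBaseChange K0 (modularFunctionFieldFull (N * q)) := fun n => natCast_mem _ n
  refine s36_cpm5_gen hΘ hq 𝔪 C hpt jF x x2 y ((1 + 64 * x) ^ (3 * (q - 1))) hj s18_t2inv s18_t2
    ((1 + 64 * s18_t2inv) ^ (3 * (q - 1))) hx hy ?_ hjlow hxlow hylow ?_ h2 1 hxm hjx hz' ?_ ?_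
    (pow_ne_zero _ hne) ?_
  · push_cast
    rw [hx]
    simp only [map_pow, map_add, map_mul, map_one, map_ofNat]
    rfl
  · push_cast
    refine pow_mem ?_ _
    exact add_mem (one_mem _) (mul_mem (by exact_mod_cast hn 64) hxlow)
  · exact Subring.pow_mem (s18_locRing B 𝔪) (Subring.add_mem _ (Subring.one_mem _)
      (Subring.mul_mem _ (ofNat_mem _ 64) hxR)) _
  · rw [← inv_pow]
    exact Subring.pow_mem (s18_locRing B 𝔪) hu _
  · rw [one_mul]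
    simp only [map_pow, map_add, map_mul, map_one, map_ofNat]
    exact s36_cs5_hid_t2_inf q _ hq

/-- **`q ≥ 5`, coordinate `t₃`** (`x = t₃`, `y = t₃⁻¹`) at a point where `t₃ ∈ B_𝔪` and
`t₃ + 27` is a unit of `B_𝔪`. -/
theorem s36_cpm5_pt_t3_zero {N q : ℕ} {ζ : Aˣ} (hΘ : s36_gc_IsCusp N q ζ Θ) [Fact q.Prime]
    (hq : 5 ≤ q) [CharP (IsLocalRing.ResidueField A) q]
    {B : Subring (laurentBaseChange K0 (modularFunctionFieldFull M))} (𝔪 : Ideal B)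
    [h𝔪 : 𝔪.IsPrime] (C : Prop) (hpt : s36_cpm5_Pt κ q ζ Θ 𝔪 C)
    (jF x x2 y : laurentBaseChange K0 (modularFunctionFieldFull M))
    (hj : (jF : LaurentSeries K0) = jqModC K0)
    (hx : (x : LaurentSeries K0) = s18_t3R K0) (hy : (y : LaurentSeries K0) = s18_t3invR K0)
    (hjlow : (jF : LaurentSeries K0) ∈ laurentBaseChange K0 (modularFunctionFieldFull (N * q)))
    (hxlow : (x : LaurentSeries K0) ∈ laurentBaseChange K0 (modularFunctionFieldFull (N * q)))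
    (hylow : (y : LaurentSeries K0) ∈ laurentBaseChange K0 (modularFunctionFieldFull (N * q)))
    (h2 : Θ (s36_gc_incl κ M x2) =
      twistQ (Units.map (A.subtype : A →* K) ζ) (Θ (s36_gc_incl κ M x)))
    (hxm : x ∈ s18_loc B 𝔪) (hz' : (x2 - x) * y ∈ s18_loc B 𝔪)
    (hu : (x + 27)⁻¹ ∈ s18_loc B 𝔪) : C := by
  have hxR : x ∈ s18_locRing B 𝔪 := hxm
  have hjx : jF * x ^ 3 ∈ s18_loc B 𝔪 := by
    have e : jF * x ^ 3 = (x + 27) * (x + 243) ^ 3 :=
      Subtype.ext (by push_cast; rw [hj, hx]; exact s18_t3R_j K0)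
    rw [e]
    exact Subring.mul_mem (s18_locRing B 𝔪) (Subring.add_mem _ hxR (ofNat_mem _ 27))
      (Subring.pow_mem _ (Subring.add_mem _ hxR (ofNat_mem _ 243)) 3)
  have hne : x + 27 ≠ 0 := by
    intro h0
    have h1 := congrArg
      (fun w : laurentBaseChange K0 (modularFunctionFieldFull M) => (w : LaurentSeries K0)) h0
    push_cast at h1
    rw [hx] at h1
    exact s36_cpm5_add_nat_ne_zero K0 s18_t3 s18_cz_isLeading_t3 27 (by exact_mod_cast h1)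
  have hn : ∀ n : ℕ, ((n : ℕ) : LaurentSeries K0) ∈
      laurentBaseChange K0 (modularFunctionFieldFull (N * q)) := fun n => natCast_mem _ n
  refine s36_cpm5_gen hΘ hq 𝔪 C hpt jF x x2 y ((x + 27) ^ (4 * (q - 1))) hj s18_t3 s18_t3inv
    ((s18_t3 + 27) ^ (4 * (q - 1))) hx hy ?_ hjlow hxlow hylow ?_ h2 3 hxm hjx hz' ?_ ?_
    (pow_ne_zero _ hne) ?_
  · push_cast
    rw [hx]
    simp only [map_pow, map_add, map_mul, map_one, map_ofNat]
    rfl
  · push_cast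
    refine pow_mem ?_ _
    exact add_mem hxlow (by exact_mod_cast hn 27)
  · exact Subring.pow_mem (s18_locRing B 𝔪) (Subring.add_mem _ hxR (ofNat_mem _ 27)) _
  · rw [← inv_pow]
    exact Subring.pow_mem (s18_locRing B 𝔪) hu _
  · simp only [map_pow, map_add, map_mul, map_one, map_ofNat]
    exact s36_cs5_hid_t3_zero q _ hq

end Model

section Coord

variable {K0 K : Type*} [Field K0] [Field K] [Algebra ℚ K0] [Algebra ℚ K]
  {κ : K0 →+* K} {A : ValuationSubring K} {M : ℕ}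
  {Θ : laurentBaseChange K (modularFunctionFieldFull M) →ₐ[K] LaurentSeries K}
  {N q : ℕ} {ζ : Aˣ}

/-- The `q`-expansion of the coordinate `t₂`. -/
theorem s36_cpm5_coe_t2 [NeZero M] (hd : 2 ∣ M) :
    ((s18_coord K0 (s18_cz_t2 M hd) : laurentBaseChange K0 (modularFunctionFieldFull M)) :
      LaurentSeries K0) = s18_t2R K0 := by
  show coeffEmb K0 (s18_t2R ℚ) = s18_t2R K0
  rw [s18_t2R, s18_t2R, coeffEmb, coeffMap_coeffMap]
  exact coeffMap_congr (RingHom.ext_int _ _) _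

/-- The `q`-expansion of the coordinate `t₃`. -/
theorem s36_cpm5_coe_t3 [NeZero M] (hd : 3 ∣ M) :
    ((s18_coord K0 (s18_cz_t3 M hd) : laurentBaseChange K0 (modularFunctionFieldFull M)) :
      LaurentSeries K0) = s18_t3R K0 := by
  show coeffEmb K0 (s18_t3R ℚ) = s18_t3R K0
  rw [s18_t3R, s18_t3R, coeffEmb, coeffMap_coeffMap]
  exact coeffMap_congr (RingHom.ext_int _ _) _

theorem s36_cpm5_coe_t2inv [NeZero M] (hd : 2 ∣ M) :
    (((s18_coord K0 (s18_cz_t2 M hd))⁻¹ : laurentBaseChange K0 (modularFunctionFieldFull M)) :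
      LaurentSeries K0) = s18_t2invR K0 := by
  show ((s18_coord K0 (s18_cz_t2 M hd) : laurentBaseChange K0 (modularFunctionFieldFull M)) :
      LaurentSeries K0)⁻¹ = _
  rw [s36_cpm5_coe_t2, s18_t2invR_eq_inv]

theorem s36_cpm5_coe_t3inv [NeZero M] (hd : 3 ∣ M) :
    (((s18_coord K0 (s18_cz_t3 M hd))⁻¹ : laurentBaseChange K0 (modularFunctionFieldFull M)) :
      LaurentSeries K0) = s18_t3invR K0 := by
  show ((s18_coord K0 (s18_cz_t3 M hd) : laurentBaseChange K0 (modularFunctionFieldFull M)) :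
      LaurentSeries K0)⁻¹ = _
  rw [s36_cpm5_coe_t3, s18_t3invR_eq_inv]

/-- `j = (t₂ + 256)³ / t₂²` as an element of `K₀ · F(M)`. -/
theorem s36_cpm5_coe_j [NeZero M] (hd : 2 ∣ M) :
    (((s18_coord K0 (s18_cz_t2 M hd) + 256) ^ 3 * (s18_coord K0 (s18_cz_t2 M hd))⁻¹ ^ 2 :
      laurentBaseChange K0 (modularFunctionFieldFull M)) : LaurentSeries K0) = jqModC K0 := by
  have h1 := s36_cpm5_coe_t2 (K0 := K0) hd
  have h2 := s36_cpm5_coe_t2inv (K0 := K0) hd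
  have e : (((s18_coord K0 (s18_cz_t2 M hd) + 256) ^ 3 * (s18_coord K0 (s18_cz_t2 M hd))⁻¹ ^ 2 :
      laurentBaseChange K0 (modularFunctionFieldFull M)) : LaurentSeries K0) =
      (((s18_coord K0 (s18_cz_t2 M hd) : laurentBaseChange K0 (modularFunctionFieldFull M)) :
        LaurentSeries K0) + 256) ^ 3 *
      (((s18_coord K0 (s18_cz_t2 M hd))⁻¹ : laurentBaseChange K0 (modularFunctionFieldFull M)) :
        LaurentSeries K0) ^ 2 := by
    push_cast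
    rfl
  rw [e, h1, h2]
  exact (s18_t2R_j_eq K0).symm

/-- `t₂` has level `N q` when `2 ∣ N`. -/
theorem s36_cpm5_low_t2 [NeZero N] [NeZero M] (q : ℕ) [NeZero q] (hdN : 2 ∣ N) (hdM : 2 ∣ M) :
    ((s18_coord K0 (s18_cz_t2 M hdM) : laurentBaseChange K0 (modularFunctionFieldFull M)) :
      LaurentSeries K0) ∈ laurentBaseChange K0 (modularFunctionFieldFull (N * q)) := by
  haveI : NeZero (N * q) := ⟨Nat.mul_ne_zero (NeZero.ne N) (NeZero.ne q)⟩
  exact coeffEmb_mem_laurentBaseChange K0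
    (full_degeneracy_le (dvd_mul_right N q) (s18_cz_t2 N hdN).2)

/-- `t₃` has level `N q` when `3 ∣ N`. -/
theorem s36_cpm5_low_t3 [NeZero N] [NeZero M] (q : ℕ) [NeZero q] (hdN : 3 ∣ N) (hdM : 3 ∣ M) :
    ((s18_coord K0 (s18_cz_t3 M hdM) : laurentBaseChange K0 (modularFunctionFieldFull M)) :
      LaurentSeries K0) ∈ laurentBaseChange K0 (modularFunctionFieldFull (N * q)) := by
  haveI : NeZero (N * q) := ⟨Nat.mul_ne_zero (NeZero.ne N) (NeZero.ne q)⟩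
  exact coeffEmb_mem_laurentBaseChange K0
    (full_degeneracy_le (dvd_mul_right N q) (s18_cz_t3 N hdN).2)

/-- `j` has level `N q` when `2 ∣ N`. -/
theorem s36_cpm5_low_j [NeZero N] [NeZero M] (q : ℕ) [NeZero q] (hdN : 2 ∣ N) (hdM : 2 ∣ M) :
    (((s18_coord K0 (s18_cz_t2 M hdM) + 256) ^ 3 * (s18_coord K0 (s18_cz_t2 M hdM))⁻¹ ^ 2 :
      laurentBaseChange K0 (modularFunctionFieldFull M)) : LaurentSeries K0) ∈
      laurentBaseChange K0 (modularFunctionFieldFull (N * q)) := by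
  have h := s36_cpm5_low_t2 (K0 := K0) (N := N) q hdN hdM
  have e : (((s18_coord K0 (s18_cz_t2 M hdM) + 256) ^ 3 * (s18_coord K0 (s18_cz_t2 M hdM))⁻¹ ^ 2 :
      laurentBaseChange K0 (modularFunctionFieldFull M)) : LaurentSeries K0) =
      (((s18_coord K0 (s18_cz_t2 M hdM) : laurentBaseChange K0 (modularFunctionFieldFull M)) :
        LaurentSeries K0) + 256) ^ 3 *
      (((s18_coord K0 (s18_cz_t2 M hdM) : laurentBaseChange K0 (modularFunctionFieldFull M)) :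
        LaurentSeries K0))⁻¹ ^ 2 := by
    push_cast
    rfl
  rw [e]
  exact mul_mem (pow_mem (add_mem h (ofNat_mem _ 256)) 3) (pow_mem (inv_mem h) 2)

/-- `t₂ + n ≠ 0`. -/
theorem s36_cpm5_t2_add_ne [NeZero M] (hd : 2 ∣ M) (n : ℕ) :
    s18_coord K0 (s18_cz_t2 M hd) +
      ((n : ℕ) : laurentBaseChange K0 (modularFunctionFieldFull M)) ≠ 0 := by
  intro h0
  have h1 := congrArg
    (fun w : laurentBaseChange K0 (modularFunctionFieldFull M) => (w : LaurentSeries K0)) h0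
  push_cast at h1
  rw [s36_cpm5_coe_t2] at h1
  exact s36_cpm5_add_nat_ne_zero K0 s18_t2 s18_cz_isLeading_t2 n h1

/-- The residue of a `q`-th root of unity is `1` in characteristic `q`. -/
theorem s36_cpm5_res_zeta (q : ℕ) [Fact q.Prime] [CharP (IsLocalRing.ResidueField A) q]
    (ζ : Aˣ) (hζ : IsPrimitiveRoot (ζ : A) q) : IsLocalRing.residue A (ζ : A) = 1 := by
  have h1 : (IsLocalRing.residue A (ζ : A)) ^ q = 1 := by
    rw [← map_pow, hζ.pow_eq_one, map_one]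
  have h2 : (IsLocalRing.residue A (ζ : A) - 1) ^ q = 0 := by
    rw [sub_pow_char, h1, one_pow, sub_self]
  exact sub_eq_zero.mp (pow_eq_zero_iff (Fact.out : q.Prime).ne_zero |>.mp h2)

/-- The reduction of a twisted integral series. -/
theorem s36_cpm5_res_twist (q : ℕ) [Fact q.Prime] [CharP (IsLocalRing.ResidueField A) q]
    (ζ : Aˣ) (hζ : IsPrimitiveRoot (ζ : A) q) (T : LaurentSeries A) :
    coeffMap (IsLocalRing.residue A) (twistQ ζ T) = coeffMap (IsLocalRing.residue A) T := by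
  ext n
  rw [coeffMap_coeff, coeffMap_coeff, twistQ_coeff, map_mul]
  have hu : Units.map (IsLocalRing.residue A : A →* IsLocalRing.ResidueField A) ζ = 1 :=
    Units.ext (s36_cpm5_res_zeta q ζ hζ)
  have h3 : Units.map (IsLocalRing.residue A : A →* IsLocalRing.ResidueField A) (ζ ^ n) = 1 := by
    rw [map_zpow, hu, one_zpow]
  have h1 : IsLocalRing.residue A (((ζ ^ n : Aˣ) : A)) = 1 := congrArg Units.val h3
  rw [h1, one_mul]

/-- **The ratios `x(Q^(q²)) / x` and `x / x(Q^(q²))` at a `C`-only point**, for a rational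
coordinate `x` of level `N` with integral `q`-expansion `T` (and integral inverse `Tinv`), from
the chart memberships `G₁ = x^q / x(Q^q) ∈ B` and `G₃ = x(Q^(q²))^q / x(Q^q) ∈ B`. -/
theorem s36_cpm5_ratio_model [NeZero N] [NeZero q] [Fact q.Prime]
    [CharP (IsLocalRing.ResidueField A) q]
    (hΘ : s36_gc_IsCusp N q ζ Θ) (hM : N * q ^ 2 ∣ M)
    {z : laurentBaseChange K0 (modularFunctionFieldFull M)}
    (hUnif : s34_Unif z (s36_gc_V κ A M Θ)) (hζ : IsPrimitiveRoot (ζ : A) q)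
    {B VA VB : Subring (laurentBaseChange K0 (modularFunctionFieldFull M))}
    (hBA : B ≤ VA) (hBB : B ≤ VB) (hBC : B ≤ s36_gc_V κ A M Θ)
    (hϖB : algebraMap K0 (laurentBaseChange K0 (modularFunctionFieldFull M)) (q : K0) ∈ B)
    (hcap : ∀ x ∈ B,
      (algebraMap K0 (laurentBaseChange K0 (modularFunctionFieldFull M)) (q : K0))⁻¹ * x ∈
        VA ⊓ VB ⊓ s36_gc_V κ A M Θ →
      (algebraMap K0 (laurentBaseChange K0 (modularFunctionFieldFull M)) (q : K0))⁻¹ * x ∈ B)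
    (hzn : algebraMap K0 (laurentBaseChange K0 (modularFunctionFieldFull M)) (q : K0) *
      (z ^ (q - 1))⁻¹ ∈ s36_gc_V κ A M Θ)
    (hzn' : z ^ (q - 1) *
      (algebraMap K0 (laurentBaseChange K0 (modularFunctionFieldFull M)) (q : K0))⁻¹ ∈
        s36_gc_V κ A M Θ)
    (hroot : ∀ w : laurentBaseChange K0 (modularFunctionFieldFull M), w ^ q ∈ B → w ∈ B)
    (t₀ : modularFunctionFieldFull M) (ht₀ : t₀ ≠ 0)
    (hN : (t₀ : LaurentSeries ℚ) ∈ modularFunctionFieldFull N)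
    (T Tinv : LaurentSeries ℤ) (hT : (t₀ : LaurentSeries ℚ) = coeffMap (Int.castRingHom ℚ) T)
    (hTinv : ((t₀⁻¹ : modularFunctionFieldFull M) : LaurentSeries ℚ) =
      coeffMap (Int.castRingHom ℚ) Tinv)
    (x1 x2 : laurentBaseChange K0 (modularFunctionFieldFull M))
    (hx1 : (x1 : LaurentSeries K0) =
      qExpand K0 q ((s18_coord K0 t₀ : laurentBaseChange K0 (modularFunctionFieldFull M)) :
        LaurentSeries K0))
    (hx2 : (x2 : LaurentSeries K0) =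
      qExpand K0 (q ^ 2) ((s18_coord K0 t₀ : laurentBaseChange K0 (modularFunctionFieldFull M)) :
        LaurentSeries K0))
    (hG₁ : s18_coord K0 t₀ ^ q * x1⁻¹ ∈ B) (hG₃ : x2 ^ q * x1⁻¹ ∈ B)
    (𝔪 : Ideal B) [h𝔪 : 𝔪.IsPrime]
    (hϖ𝔪 : (⟨algebraMap K0 (laurentBaseChange K0 (modularFunctionFieldFull M)) (q : K0), hϖB⟩ :
      B) ∈ 𝔪)
    (hex : ∃ f₀ : B, f₀ ∉ 𝔪 ∧
      (algebraMap K0 (laurentBaseChange K0 (modularFunctionFieldFull M)) (q : K0))⁻¹ *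
        (f₀ : laurentBaseChange K0 (modularFunctionFieldFull M)) ∈ VA ⊓ VB) :
    x2 * (s18_coord K0 t₀)⁻¹ ∈ s18_loc B 𝔪 ∧ s18_coord K0 t₀ * x2⁻¹ ∈ s18_loc B 𝔪 := by
  obtain ⟨f₀, hf₀, hf₀'⟩ := hex
  have hqpos : 0 < q := (Fact.out : q.Prime).pos
  haveI : NeZero (N * q) := ⟨Nat.mul_ne_zero (NeZero.ne N) (NeZero.ne q)⟩
  haveI : CharZero K0 := algebraRat.charZero K0
  have hϖ0 : algebraMap K0 (laurentBaseChange K0 (modularFunctionFieldFull M)) (q : K0) ≠ 0 :=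
    (map_ne_zero _).mpr (Nat.cast_ne_zero.mpr (Fact.out : q.Prime).ne_zero)
  have hq1 : 0 < q - 1 := by
    have := (Fact.out : q.Prime).two_le
    omega
  have hlow : (t₀ : LaurentSeries ℚ) ∈ modularFunctionFieldFull (N * q) :=
    full_degeneracy_le (dvd_mul_right N q) hN
  have hz0 : z ≠ 0 := hUnif.ne_zero
  have hzp : z ^ (q - 1) ≠ 0 := pow_ne_zero _ hz0
  -- the coordinate and its inverse
  have hx0 : (s18_coord K0 t₀ : laurentBaseChange K0 (modularFunctionFieldFull M)) ≠ 0 := by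
    intro h0
    have h1 : coeffEmb K0 (t₀ : LaurentSeries ℚ) = 0 := congrArg Subtype.val h0
    rw [map_eq_zero] at h1
    exact ht₀ (Subtype.ext h1)
  have hx0c : ((s18_coord K0 t₀ : laurentBaseChange K0 (modularFunctionFieldFull M)) :
      LaurentSeries K0) ≠ 0 := fun h => hx0 (Subtype.ext h)
  have hx10 : x1 ≠ 0 := by
    intro h0
    have h1 : (x1 : LaurentSeries K0) = 0 := congrArg Subtype.val h0
    rw [hx1, map_eq_zero] at h1
    exact hx0c h1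
  have hx20 : x2 ≠ 0 := by
    intro h0
    have h1 : (x2 : LaurentSeries K0) = 0 := congrArg Subtype.val h0
    rw [hx2, map_eq_zero] at h1
    exact hx0c h1
  have einv : (s18_coord K0 t₀)⁻¹ = s18_coord K0 t₀⁻¹ := by
    apply Subtype.ext
    show (coeffEmb K0 (t₀ : LaurentSeries ℚ))⁻¹ = coeffEmb K0 ((t₀ : LaurentSeries ℚ)⁻¹)
    rw [map_inv₀]
  have hlowinv : ((t₀⁻¹ : modularFunctionFieldFull M) : LaurentSeries ℚ) ∈
      modularFunctionFieldFull (N * q) := by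
    show (t₀ : LaurentSeries ℚ)⁻¹ ∈ modularFunctionFieldFull (N * q)
    exact inv_mem hlow
  have hNinv : ((t₀⁻¹ : modularFunctionFieldFull M) : LaurentSeries ℚ) ∈
      modularFunctionFieldFull N := by
    show (t₀ : LaurentSeries ℚ)⁻¹ ∈ modularFunctionFieldFull N
    exact inv_mem hN
  have hX := s36_cpt_coord_int (κ := κ) hΘ t₀ hlow T hT
  have hY : Θ (s36_gc_incl κ M (s18_coord K0 t₀)⁻¹) =
      coeffMap A.subtype (coeffMap (Int.castRingHom A) Tinv) := by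
    rw [einv]
    exact s36_cpt_coord_int (κ := κ) hΘ t₀⁻¹ hlowinv Tinv hTinv
  -- the expansion of `x1⁻¹`
  have hx1inv : ((x1⁻¹ : laurentBaseChange K0 (modularFunctionFieldFull M)) : LaurentSeries K0) =
      qExpand K0 q (coeffEmb K0 (coeffMap (Int.castRingHom ℚ) Tinv)) := by
    show (x1 : LaurentSeries K0)⁻¹ = _
    rw [hx1, ← hTinv]
    show (qExpand K0 q (coeffEmb K0 (t₀ : LaurentSeries ℚ)))⁻¹ =
      qExpand K0 q (coeffEmb K0 ((t₀ : LaurentSeries ℚ)⁻¹))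
    rw [map_inv₀, map_inv₀]
  have hx1low : ((x1⁻¹ : laurentBaseChange K0 (modularFunctionFieldFull M)) : LaurentSeries K0) ∈
      laurentBaseChange K0 (modularFunctionFieldFull (N * q)) := by
    rw [hx1inv, ← hTinv]
    exact (heckeBetaBar K0 N q ⟨_, coeffEmb_mem_laurentBaseChange K0 hNinv⟩).2
  have hY1 : Θ (s36_gc_incl κ M x1⁻¹) =
      coeffMap A.subtype (qExpand A q (coeffMap (Int.castRingHom A) Tinv)) := by
    rw [s36_gc_theta_low hΘ _ hx1low, hx1inv, coeffMap_qExpand, coeffMap_qExpand, coeffEmb,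
      coeffMap_coeffMap, coeffMap_coeffMap, coeffMap_coeffMap]
    congr 1
    exact coeffMap_congr (RingHom.ext_int _ _) Tinv
  have h2 := s36_cpt_theta_top (κ := κ) hΘ hM (s18_coord K0 t₀) x2
    (coeffEmb_mem_laurentBaseChange K0 hN) hx2
  have hX2 : Θ (s36_gc_incl κ M x2) =
      coeffMap A.subtype (twistQ ζ (coeffMap (Int.castRingHom A) T)) := by
    rw [h2, hX, ← formal_coeffMap_twistQ]
  have hfrob : coeffMap (IsLocalRing.residue A)
      (qExpand A q (coeffMap (Int.castRingHom A) Tinv)) =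
      coeffMap (IsLocalRing.residue A) (coeffMap (Int.castRingHom A) Tinv) ^ q := by
    rw [coeffMap_qExpand, s36_cpm_res_int, s36_cpm_frob_int]
  -- `X̄ Ȳ = 1`
  have hXY : coeffMap (IsLocalRing.residue A) (coeffMap (Int.castRingHom A) T) *
      coeffMap (IsLocalRing.residue A) (coeffMap (Int.castRingHom A) Tinv) = 1 := by
    have h1 : Θ (s36_gc_incl κ M (s18_coord K0 t₀ * (s18_coord K0 t₀)⁻¹)) = 1 := by
      rw [mul_inv_cancel₀ hx0, map_one, map_one]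
    rw [map_mul, map_mul, hX, hY, ← map_mul] at h1
    have h2' : coeffMap (Int.castRingHom A) T * coeffMap (Int.castRingHom A) Tinv = 1 := by
      apply s18_coeffMap_injective A.subtype Subtype.val_injective
      rw [h1, map_one]
    rw [← map_mul, h2', map_one]
  have hG₁c : z⁻¹ * (s18_coord K0 t₀ ^ q * x1⁻¹ - 1) ∈ s36_gc_V κ A M Θ :=
    s36_cpm_ratio_cong hUnif (s18_coord K0 t₀) x1⁻¹ _ _ hX hY1 q (by
      rw [hfrob, ← mul_pow, hXY, one_pow])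
  have hG₃c : z⁻¹ * (x2 ^ q * x1⁻¹ - 1) ∈ s36_gc_V κ A M Θ :=
    s36_cpm_ratio_cong hUnif x2 x1⁻¹ _ _ hX2 hY1 q (by
      rw [hfrob, s36_cpm5_res_twist q ζ hζ, ← mul_pow, hXY, one_pow])
  have hroot' : ∀ w : laurentBaseChange K0 (modularFunctionFieldFull M),
      w ^ q ∈ s18_loc B 𝔪 → w ∈ s18_loc B 𝔪 :=
    fun w hw => s34_root_closed_loc B q hqpos hroot 𝔪 w hw
  refine s36_cpm5_ratio (V₁ := s36_gc_V κ A M Θ) (V' := VA ⊓ VB)
    (ε₀ := algebraMap K0 (laurentBaseChange K0 (modularFunctionFieldFull M)) (q : K0) *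
      (z ^ (q - 1))⁻¹) hBC (le_inf hBA hBB) hϖB hϖ0
    (fun x hx h1 h2 => hcap x hx ⟨h2, h1⟩) (q - 1) hq1 ?_ ?_ 𝔪 hϖ𝔪 f₀ hf₀ hf₀' q hroot'
    (s18_coord K0 t₀) x1 x2 hx0 hx10 hx20 hG₁ hG₃ hG₁c hG₃c
  · rw [mul_inv, inv_inv, mul_comm]
    exact hzn'
  · rw [mul_assoc, inv_mul_cancel₀ hzp, mul_one]

/-- `6`, `3`, `64` are prime to a prime `q ≥ 5`. -/
theorem s36_cpm5_coprime {q : ℕ} (hqp : q.Prime) (hq : 5 ≤ q) :
    Nat.Coprime 6 q ∧ Nat.Coprime 3 q ∧ Nat.Coprime 64 q := by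
  have h2 : ¬ q ∣ 2 := fun h => by
    have := Nat.le_of_dvd (by norm_num) h
    omega
  have h3 : ¬ q ∣ 3 := fun h => by
    have := Nat.le_of_dvd (by norm_num) h
    omega
  have c2 : Nat.Coprime 2 q := (Nat.Prime.coprime_iff_not_dvd hqp).mpr h2 |>.symm
  have c3 : Nat.Coprime 3 q := (Nat.Prime.coprime_iff_not_dvd hqp).mpr h3 |>.symm
  refine ⟨?_, c3, ?_⟩
  · have : (6 : ℕ) = 2 * 3 := by norm_num
    rw [this]
    exact Nat.Coprime.mul_left c2 c3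
  · have : (64 : ℕ) = 2 ^ 6 := by norm_num
    rw [this]
    exact Nat.Coprime.pow_left 6 c2

/-- **The other coordinate.**  At a point `𝔪 ∋ q` (`q ≥ 5`) of a normal chart `B` where `t₂`,
`t₂(Q^(q²))` are units of `B_𝔪` and `t₂ + 64` is not: `t₃`, `t₃(Q^(q²))` lie in `B_𝔪`, `t₃` and
`t₃ + 27` are units of `B_𝔪`, and the candidate `z' = t₃(Q^(q²)) / t₃ - 1` works. -/
theorem s36_cpm5_other [NeZero N] [NeZero M] [NeZero q] [Fact q.Prime]
    [CharP (IsLocalRing.ResidueField A) q]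
    (hΘ : s36_gc_IsCusp N q ζ Θ) (hM : N * q ^ 2 ∣ M) (hq : 5 ≤ q)
    (hd2N : 2 ∣ N) (hd2M : 2 ∣ M) (hd3N : 3 ∣ N) (hd3M : 3 ∣ M)
    {B : Subring (laurentBaseChange K0 (modularFunctionFieldFull M))}
    (hnorm : ∀ w : laurentBaseChange K0 (modularFunctionFieldFull M), IsIntegral B w → w ∈ B)
    (𝔪 : Ideal B) [h𝔪 : 𝔪.IsPrime] (hq𝔪 : ((q : ℕ) : B) ∈ 𝔪)
    (C : Prop) (hpt : s36_cpm5_Pt κ q ζ Θ 𝔪 C)
    (x2 y2 : laurentBaseChange K0 (modularFunctionFieldFull M))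
    (hx2 : (x2 : LaurentSeries K0) =
      qExpand K0 (q ^ 2) ((s18_coord K0 (s18_cz_t2 M hd2M) :
        laurentBaseChange K0 (modularFunctionFieldFull M)) : LaurentSeries K0))
    (hy2 : (y2 : LaurentSeries K0) =
      qExpand K0 (q ^ 2) ((s18_coord K0 (s18_cz_t3 M hd3M) :
        laurentBaseChange K0 (modularFunctionFieldFull M)) : LaurentSeries K0))
    (hX : s18_coord K0 (s18_cz_t2 M hd2M) ∈ s18_loc B 𝔪)
    (hXi : (s18_coord K0 (s18_cz_t2 M hd2M))⁻¹ ∈ s18_loc B 𝔪)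
    (hx2m : x2 ∈ s18_loc B 𝔪) (hx2i : x2⁻¹ ∈ s18_loc B 𝔪)
    (hne : (s18_coord K0 (s18_cz_t2 M hd2M) + 64)⁻¹ ∉ s18_loc B 𝔪) : C := by
  have hqp : q.Prime := Fact.out
  obtain ⟨c6, c3, -⟩ := s36_cpm5_coprime hqp hq
  haveI : CharZero K0 := algebraRat.charZero K0
  haveI : CharZero (laurentBaseChange K0 (modularFunctionFieldFull M)) :=
    charZero_of_injective_algebraMap
      (algebraMap K0 (laurentBaseChange K0 (modularFunctionFieldFull M))).injective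
  have hXc := s36_cpm5_coe_t2 (K0 := K0) hd2M
  have hYc := s36_cpm5_coe_t3 (K0 := K0) hd3M
  have hYic := s36_cpm5_coe_t3inv (K0 := K0) hd3M
  have hJc := s36_cpm5_coe_j (K0 := K0) hd2M
  have hJlow := s36_cpm5_low_j (K0 := K0) (N := N) q hd2N hd2M
  have hYlow := s36_cpm5_low_t3 (K0 := K0) (N := N) q hd3N hd3M
  generalize hXdef : s18_coord K0 (s18_cz_t2 M hd2M) = X at *
  generalize hYdef : s18_coord K0 (s18_cz_t3 M hd3M) = Y at *
  have hX0 : X ≠ 0 := by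
    intro h0
    have h1 := s18_t2R_mul_inv K0
    rw [← hXc, h0] at h1
    simp at h1
  have hY0 : Y ≠ 0 := by
    intro h0
    have h1 := s18_t3R_mul_inv K0
    rw [← hYc, h0] at h1
    simp at h1
  have hXR : X ∈ s18_locRing B 𝔪 := hX
  have hXiR : X⁻¹ ∈ s18_locRing B 𝔪 := hXi
  have hx2R : x2 ∈ s18_locRing B 𝔪 := hx2m
  have hx2iR : x2⁻¹ ∈ s18_locRing B 𝔪 := hx2i
  generalize hJdef : (X + 256) ^ 3 * X⁻¹ ^ 2 = J at *
  have hJm : J ∈ s18_loc B 𝔪 := by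
    rw [← hJdef]
    exact Subring.mul_mem (s18_locRing B 𝔪)
      (Subring.pow_mem _ (Subring.add_mem _ hXR (ofNat_mem _ 256)) 3) (Subring.pow_mem _ hXiR 2)
  have h2 : J * X ^ 2 = (X + 256) ^ 3 := by
    rw [← hJdef]
    field_simp
  have h3 : J * Y ^ 3 = (Y + 27) * (Y + 243) ^ 3 :=
    Subtype.ext (by push_cast; rw [hJc, hYc]; exact s18_t3R_j K0)
  have h6 : ((6 : laurentBaseChange K0 (modularFunctionFieldFull M)))⁻¹ ∈ s18_loc B 𝔪 := by
    have := s36_cpm5_nat_inv_mem (F := laurentBaseChange K0 (modularFunctionFieldFull M)) 𝔪 q 6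
      hq𝔪 c6
    simpa using this
  have h3inv : ((3 : laurentBaseChange K0 (modularFunctionFieldFull M)))⁻¹ ∈ s18_loc B 𝔪 := by
    have := s36_cpm5_nat_inv_mem (F := laurentBaseChange K0 (modularFunctionFieldFull M)) 𝔪 q 3
      hq𝔪 c3
    simpa using this
  have h60 : (6 : laurentBaseChange K0 (modularFunctionFieldFull M)) ≠ 0 := by norm_num
  have h30 : (3 : laurentBaseChange K0 (modularFunctionFieldFull M)) ≠ 0 := by norm_num
  have hYm := s36_pp_three_mem B hnorm 𝔪 J Y hJm h3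
  have hYim := s36_pp_three_inv_mem B hnorm 𝔪 J Y hJm h3inv h30 hY0 h3
  have hch := s36_pp_choice B 𝔪 J X Y hX hXi hYm hYim h6 h60 hX0 hY0 h2 h3
  have hu : (Y + 27)⁻¹ ∈ s18_loc B 𝔪 := hch.resolve_left hne
  -- `y2 ∈ B_𝔪`
  have hJ2m : (x2 + 256) ^ 3 * x2⁻¹ ^ 2 ∈ s18_loc B 𝔪 :=
    Subring.mul_mem (s18_locRing B 𝔪)
      (Subring.pow_mem _ (Subring.add_mem _ hx2R (ofNat_mem _ 256)) 3) (Subring.pow_mem _ hx2iR 2)
  have hser : (s18_t2R K0 + 256) ^ 3 * (s18_t2R K0)⁻¹ ^ 2 * s18_t3R K0 ^ 3 =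
      (s18_t3R K0 + 27) * (s18_t3R K0 + 243) ^ 3 := by
    rw [← s18_t2invR_eq_inv, ← s18_t2R_j_eq]
    exact s18_t3R_j K0
  have h32 : (x2 + 256) ^ 3 * x2⁻¹ ^ 2 * y2 ^ 3 = (y2 + 27) * (y2 + 243) ^ 3 := by
    apply Subtype.ext
    have e := congrArg (qExpand K0 (q ^ 2)) hser
    simp only [map_mul, map_pow, map_add, map_inv₀, map_ofNat] at e
    push_cast
    rw [hx2, hy2, hXc, hYc]
    exact e
  have hy2m := s36_pp_three_mem B hnorm 𝔪 _ y2 hJ2m h32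
  have hz' : (y2 - Y) * Y⁻¹ ∈ s18_loc B 𝔪 :=
    Subring.mul_mem (s18_locRing B 𝔪) (Subring.sub_mem (s18_locRing B 𝔪) hy2m hYm) hYim
  have hYN : (Y : LaurentSeries K0) ∈ laurentBaseChange K0 (modularFunctionFieldFull N) := by
    rw [← hYdef]
    exact coeffEmb_mem_laurentBaseChange K0 (s18_cz_t3 N hd3N).2
  have h2' := s36_cpt_theta_top (κ := κ) hΘ hM Y y2 hYN hy2
  have hYilow : ((Y⁻¹ : laurentBaseChange K0 (modularFunctionFieldFull M)) : LaurentSeries K0) ∈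
      laurentBaseChange K0 (modularFunctionFieldFull (N * q)) := by
    show (Y : LaurentSeries K0)⁻¹ ∈ _
    exact inv_mem hYlow
  exact s36_cpm5_pt_t3_zero hΘ hq 𝔪 C hpt J Y y2 Y⁻¹ hJc hYc hYic hJlow hYlow hYilow h2' hYm hz'
    hu

/-- **`cpt`, `q ≥ 5`, chart of `t₂`** (`t₂ ∈ B`): at every point of `C` only, a local equation
of `C` is `t₂(Q^(q²)) / t₂ - 1` or `t₃(Q^(q²)) / t₃ - 1`. -/
theorem s36_cpm5_cpt_t2 [NeZero N] [NeZero M] [NeZero q] [Fact q.Prime]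
    [CharP (IsLocalRing.ResidueField A) q]
    (hΘ : s36_gc_IsCusp N q ζ Θ) (hM : N * q ^ 2 ∣ M) (hq : 5 ≤ q)
    (hd2N : 2 ∣ N) (hd2M : 2 ∣ M) (hd3N : 3 ∣ N) (hd3M : 3 ∣ M)
    {z : laurentBaseChange K0 (modularFunctionFieldFull M)}
    (hUnif : s34_Unif z (s36_gc_V κ A M Θ)) (hζ : IsPrimitiveRoot (ζ : A) q)
    {B VA VB : Subring (laurentBaseChange K0 (modularFunctionFieldFull M))}
    (hBA : B ≤ VA) (hBB : B ≤ VB) (hBC : B ≤ s36_gc_V κ A M Θ)
    (hϖB : algebraMap K0 (laurentBaseChange K0 (modularFunctionFieldFull M)) (q : K0) ∈ B)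
    (hcap : ∀ x ∈ B,
      (algebraMap K0 (laurentBaseChange K0 (modularFunctionFieldFull M)) (q : K0))⁻¹ * x ∈
        VA ⊓ VB ⊓ s36_gc_V κ A M Θ →
      (algebraMap K0 (laurentBaseChange K0 (modularFunctionFieldFull M)) (q : K0))⁻¹ * x ∈ B)
    (hzn : algebraMap K0 (laurentBaseChange K0 (modularFunctionFieldFull M)) (q : K0) *
      (z ^ (q - 1))⁻¹ ∈ s36_gc_V κ A M Θ)
    (hzn' : z ^ (q - 1) *
      (algebraMap K0 (laurentBaseChange K0 (modularFunctionFieldFull M)) (q : K0))⁻¹ ∈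
        s36_gc_V κ A M Θ)
    (hroot : ∀ w : laurentBaseChange K0 (modularFunctionFieldFull M), w ^ q ∈ B → w ∈ B)
    (hnorm : ∀ w : laurentBaseChange K0 (modularFunctionFieldFull M), IsIntegral B w → w ∈ B)
    (hxB : s18_coord K0 (s18_cz_t2 M hd2M) ∈ B)
    (x1 x2 y2 : laurentBaseChange K0 (modularFunctionFieldFull M))
    (hx1 : (x1 : LaurentSeries K0) =
      qExpand K0 q ((s18_coord K0 (s18_cz_t2 M hd2M) :
        laurentBaseChange K0 (modularFunctionFieldFull M)) : LaurentSeries K0))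
    (hx2 : (x2 : LaurentSeries K0) =
      qExpand K0 (q ^ 2) ((s18_coord K0 (s18_cz_t2 M hd2M) :
        laurentBaseChange K0 (modularFunctionFieldFull M)) : LaurentSeries K0))
    (hy2 : (y2 : LaurentSeries K0) =
      qExpand K0 (q ^ 2) ((s18_coord K0 (s18_cz_t3 M hd3M) :
        laurentBaseChange K0 (modularFunctionFieldFull M)) : LaurentSeries K0))
    (hG₁ : s18_coord K0 (s18_cz_t2 M hd2M) ^ q * x1⁻¹ ∈ B) (hG₃ : x2 ^ q * x1⁻¹ ∈ B)
    (𝔪 : Ideal B) [h𝔪 : 𝔪.IsPrime]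
    (hϖ𝔪 : (⟨algebraMap K0 (laurentBaseChange K0 (modularFunctionFieldFull M)) (q : K0), hϖB⟩ :
      B) ∈ 𝔪)
    (hex : ∃ f₀ : B, f₀ ∉ 𝔪 ∧
      (algebraMap K0 (laurentBaseChange K0 (modularFunctionFieldFull M)) (q : K0))⁻¹ *
        (f₀ : laurentBaseChange K0 (modularFunctionFieldFull M)) ∈ VA ⊓ VB) :
    ∃ (z' ε : laurentBaseChange K0 (modularFunctionFieldFull M)) (e : ℕ),
      s34_Unif z' (s36_gc_V κ A M Θ) ∧ z' ∈ s18_loc B 𝔪 ∧ 0 < e ∧ ε ∈ s18_loc B 𝔪 ∧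
        ε⁻¹ ∈ s36_gc_V κ A M Θ ∧
        algebraMap K0 (laurentBaseChange K0 (modularFunctionFieldFull M)) (q : K0) =
          ε * z' ^ e := by
  have hqp : q.Prime := Fact.out
  obtain ⟨-, -, c64⟩ := s36_cpm5_coprime hqp hq
  obtain ⟨hr1, hr2⟩ := s36_cpm5_ratio_model hΘ hM hUnif hζ hBA hBB hBC hϖB hcap hzn hzn' hroot
    (s18_cz_t2 M hd2M) (s18_cz_t2_ne_zero M hd2M) (s18_cz_t2 N hd2N).2 s18_t2 s18_t2inv rfl
    (s18_cz_coe_t2_inv M hd2M) x1 x2 hx1 hx2 hG₁ hG₃ 𝔪 hϖ𝔪 hex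
  obtain ⟨f₀, hf₀, hf₀'⟩ := hex
  have hpt : s36_cpm5_Pt κ q ζ Θ 𝔪 (∃ (z' ε : laurentBaseChange K0 (modularFunctionFieldFull M))
      (e : ℕ), s34_Unif z' (s36_gc_V κ A M Θ) ∧ z' ∈ s18_loc B 𝔪 ∧ 0 < e ∧ ε ∈ s18_loc B 𝔪 ∧
        ε⁻¹ ∈ s36_gc_V κ A M Θ ∧
        algebraMap K0 (laurentBaseChange K0 (modularFunctionFieldFull M)) (q : K0) =
          ε * z' ^ e) :=
    fun x x2 y c a X Y Cs As hX hY hC hA h2 hz' hc ha ha' ha0 n hn hid =>
      s36_cl5_point q hUnif ζ hζ hBC (le_inf hBA hBB) hϖB (fun x hx h1 h2 => hcap x hx ⟨h2, h1⟩)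
        hzn hzn' 𝔪 hϖ𝔪 f₀ hf₀ hf₀' x x2 y c a X Y Cs As hX hY hC hA h2 hz' hc ha ha' ha0 n hn
        hid
  have hq𝔪 : ((q : ℕ) : B) ∈ 𝔪 := by
    have e : ((q : ℕ) : B) =
        ⟨algebraMap K0 (laurentBaseChange K0 (modularFunctionFieldFull M)) (q : K0), hϖB⟩ :=
      Subtype.ext (by
        rw [Subring.coe_natCast]
        exact (map_natCast (algebraMap K0 (laurentBaseChange K0 (modularFunctionFieldFull M)))
          q).symm)
    rw [e]
    exact hϖ𝔪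
  have hXc := s36_cpm5_coe_t2 (K0 := K0) hd2M
  have hXic := s36_cpm5_coe_t2inv (K0 := K0) hd2M
  have hJc := s36_cpm5_coe_j (K0 := K0) hd2M
  have hJlow := s36_cpm5_low_j (K0 := K0) (N := N) q hd2N hd2M
  have hXlow := s36_cpm5_low_t2 (K0 := K0) (N := N) q hd2N hd2M
  have hXN : ((s18_coord K0 (s18_cz_t2 M hd2M) :
      laurentBaseChange K0 (modularFunctionFieldFull M)) : LaurentSeries K0) ∈
      laurentBaseChange K0 (modularFunctionFieldFull N) :=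
    coeffEmb_mem_laurentBaseChange K0 (s18_cz_t2 N hd2N).2
  have h64ne := s36_cpm5_t2_add_ne (K0 := K0) hd2M 64
  generalize hXdef : s18_coord K0 (s18_cz_t2 M hd2M) = X at *
  have h64ne' : X + 64 ≠ 0 := by exact_mod_cast h64ne
  have hX0 : X ≠ 0 := by
    intro h0
    have h1 := s18_t2R_mul_inv K0
    rw [← hXc, h0] at h1
    simp at h1
  have hXm : X ∈ s18_loc B 𝔪 := s36_cpm5_mem_loc 𝔪 X hxB
  have h64B : X + 64 ∈ B := B.add_mem hxB (ofNat_mem B 64)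
  by_cases h64 : (⟨X + 64, h64B⟩ : B) ∈ 𝔪
  · -- `t₂ + 64` vanishes at the point: the coordinate `t₃`
    have hX𝔪 : (⟨X, hxB⟩ : B) ∉ 𝔪 := by
      intro hmem
      have h64' : ((64 : ℕ) : B) ∈ 𝔪 := by
        have e : ((64 : ℕ) : B) = ⟨X + 64, h64B⟩ - ⟨X, hxB⟩ := by
          apply Subtype.ext
          show (((64 : ℕ) : B) : laurentBaseChange K0 (modularFunctionFieldFull M)) =
            (X + 64) - X
          rw [Subring.coe_natCast]
          push_cast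
          ring
        rw [e]
        exact 𝔪.sub_mem h64 hmem
      exact s36_cpm5_nat_not_mem 𝔪 q 64 hq𝔪 c64 h64'
    have hXi : X⁻¹ ∈ s18_loc B 𝔪 := s36_pp_inv_mem B 𝔪 ⟨X, hxB⟩ hX𝔪
    have hx20 : x2 ≠ 0 := by
      intro h0
      have h1 : (x2 : LaurentSeries K0) = 0 := congrArg Subtype.val h0
      rw [hx2, map_eq_zero] at h1
      exact hX0 (Subtype.ext h1)
    have hx2m : x2 ∈ s18_loc B 𝔪 := by
      have e : x2 = (x2 * X⁻¹) * X := by field_simp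
      rw [e]
      exact Subring.mul_mem (s18_locRing B 𝔪) hr1 hXm
    have hx2i : x2⁻¹ ∈ s18_loc B 𝔪 := by
      have e : x2⁻¹ = (X * x2⁻¹) * X⁻¹ := by field_simp
      rw [e]
      exact Subring.mul_mem (s18_locRing B 𝔪) hr2 hXi
    have hne : (X + 64)⁻¹ ∉ s18_loc B 𝔪 := s36_cpm5_inv_not_mem 𝔪 ⟨X + 64, h64B⟩ h64 h64ne'
    subst hXdef
    exact s36_cpm5_other hΘ hM hq hd2N hd2M hd3N hd3M hnorm 𝔪 hq𝔪 _ hpt x2 y2 hx2 hy2 hXm hXi
      hx2m hx2i hne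
  · -- `t₂ + 64` is a unit at the point: the coordinate `t₂`
    have hu : (X + 64)⁻¹ ∈ s18_loc B 𝔪 := s36_pp_inv_mem B 𝔪 ⟨X + 64, h64B⟩ h64
    have hz' : (x2 - X) * X⁻¹ ∈ s18_loc B 𝔪 := by
      have e : (x2 - X) * X⁻¹ = x2 * X⁻¹ - 1 := by field_simp
      rw [e]
      exact Subring.sub_mem (s18_locRing B 𝔪) hr1 (Subring.one_mem _)
    have h2 := s36_cpt_theta_top (κ := κ) hΘ hM X x2 hXN hx2
    have hXilow : ((X⁻¹ : laurentBaseChange K0 (modularFunctionFieldFull M)) :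
        LaurentSeries K0) ∈ laurentBaseChange K0 (modularFunctionFieldFull (N * q)) := by
      show (X : LaurentSeries K0)⁻¹ ∈ _
      exact inv_mem hXlow
    exact s36_cpm5_pt_t2_zero hΘ hq 𝔪 _ hpt _ X x2 X⁻¹ hJc hXc hXic hJlow hXlow hXilow h2 hXm
      hz' hu

/-- **`cpt`, `q ≥ 5`, chart of `t₂⁻¹`** (`t₂⁻¹ ∈ B`, the chart at infinity): at every point of
`C` only, a local equation of `C` is `t₂⁻¹(Q^(q²)) / t₂⁻¹ - 1` or `t₃(Q^(q²)) / t₃ - 1`. -/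
theorem s36_cpm5_cpt_t2inv [NeZero N] [NeZero M] [NeZero q] [Fact q.Prime]
    [CharP (IsLocalRing.ResidueField A) q]
    (hΘ : s36_gc_IsCusp N q ζ Θ) (hM : N * q ^ 2 ∣ M) (hq : 5 ≤ q)
    (hd2N : 2 ∣ N) (hd2M : 2 ∣ M) (hd3N : 3 ∣ N) (hd3M : 3 ∣ M)
    {z : laurentBaseChange K0 (modularFunctionFieldFull M)}
    (hUnif : s34_Unif z (s36_gc_V κ A M Θ)) (hζ : IsPrimitiveRoot (ζ : A) q)
    {B VA VB : Subring (laurentBaseChange K0 (modularFunctionFieldFull M))}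
    (hBA : B ≤ VA) (hBB : B ≤ VB) (hBC : B ≤ s36_gc_V κ A M Θ)
    (hϖB : algebraMap K0 (laurentBaseChange K0 (modularFunctionFieldFull M)) (q : K0) ∈ B)
    (hcap : ∀ x ∈ B,
      (algebraMap K0 (laurentBaseChange K0 (modularFunctionFieldFull M)) (q : K0))⁻¹ * x ∈
        VA ⊓ VB ⊓ s36_gc_V κ A M Θ →
      (algebraMap K0 (laurentBaseChange K0 (modularFunctionFieldFull M)) (q : K0))⁻¹ * x ∈ B)
    (hzn : algebraMap K0 (laurentBaseChange K0 (modularFunctionFieldFull M)) (q : K0) *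
      (z ^ (q - 1))⁻¹ ∈ s36_gc_V κ A M Θ)
    (hzn' : z ^ (q - 1) *
      (algebraMap K0 (laurentBaseChange K0 (modularFunctionFieldFull M)) (q : K0))⁻¹ ∈
        s36_gc_V κ A M Θ)
    (hroot : ∀ w : laurentBaseChange K0 (modularFunctionFieldFull M), w ^ q ∈ B → w ∈ B)
    (hnorm : ∀ w : laurentBaseChange K0 (modularFunctionFieldFull M), IsIntegral B w → w ∈ B)
    (hxB : s18_coord K0 ((s18_cz_t2 M hd2M)⁻¹) ∈ B)
    (x1 x2 y2 : laurentBaseChange K0 (modularFunctionFieldFull M))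
    (hx1 : (x1 : LaurentSeries K0) =
      qExpand K0 q ((s18_coord K0 ((s18_cz_t2 M hd2M)⁻¹) :
        laurentBaseChange K0 (modularFunctionFieldFull M)) : LaurentSeries K0))
    (hx2 : (x2 : LaurentSeries K0) =
      qExpand K0 (q ^ 2) ((s18_coord K0 ((s18_cz_t2 M hd2M)⁻¹) :
        laurentBaseChange K0 (modularFunctionFieldFull M)) : LaurentSeries K0))
    (hy2 : (y2 : LaurentSeries K0) =
      qExpand K0 (q ^ 2) ((s18_coord K0 (s18_cz_t3 M hd3M) :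
        laurentBaseChange K0 (modularFunctionFieldFull M)) : LaurentSeries K0))
    (hG₁ : s18_coord K0 ((s18_cz_t2 M hd2M)⁻¹) ^ q * x1⁻¹ ∈ B) (hG₃ : x2 ^ q * x1⁻¹ ∈ B)
    (𝔪 : Ideal B) [h𝔪 : 𝔪.IsPrime]
    (hϖ𝔪 : (⟨algebraMap K0 (laurentBaseChange K0 (modularFunctionFieldFull M)) (q : K0), hϖB⟩ :
      B) ∈ 𝔪)
    (hex : ∃ f₀ : B, f₀ ∉ 𝔪 ∧
      (algebraMap K0 (laurentBaseChange K0 (modularFunctionFieldFull M)) (q : K0))⁻¹ *
        (f₀ : laurentBaseChange K0 (modularFunctionFieldFull M)) ∈ VA ⊓ VB) :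
    ∃ (z' ε : laurentBaseChange K0 (modularFunctionFieldFull M)) (e : ℕ),
      s34_Unif z' (s36_gc_V κ A M Θ) ∧ z' ∈ s18_loc B 𝔪 ∧ 0 < e ∧ ε ∈ s18_loc B 𝔪 ∧
        ε⁻¹ ∈ s36_gc_V κ A M Θ ∧
        algebraMap K0 (laurentBaseChange K0 (modularFunctionFieldFull M)) (q : K0) =
          ε * z' ^ e := by
  have hqp : q.Prime := Fact.out
  obtain ⟨hr1, hr2⟩ := s36_cpm5_ratio_model hΘ hM hUnif hζ hBA hBB hBC hϖB hcap hzn hzn' hroot
    ((s18_cz_t2 M hd2M)⁻¹) (inv_ne_zero (s18_cz_t2_ne_zero M hd2M)) (inv_mem (s18_cz_t2 N hd2N).2)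
    s18_t2inv s18_t2 (s18_cz_coe_t2_inv M hd2M) (by rw [inv_inv]; rfl) x1 x2 hx1 hx2 hG₁ hG₃ 𝔪
    hϖ𝔪 hex
  obtain ⟨f₀, hf₀, hf₀'⟩ := hex
  have hpt : s36_cpm5_Pt κ q ζ Θ 𝔪 (∃ (z' ε : laurentBaseChange K0 (modularFunctionFieldFull M))
      (e : ℕ), s34_Unif z' (s36_gc_V κ A M Θ) ∧ z' ∈ s18_loc B 𝔪 ∧ 0 < e ∧ ε ∈ s18_loc B 𝔪 ∧
        ε⁻¹ ∈ s36_gc_V κ A M Θ ∧
        algebraMap K0 (laurentBaseChange K0 (modularFunctionFieldFull M)) (q : K0) =
          ε * z' ^ e) :=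
    fun x x2 y c a X Y Cs As hX hY hC hA h2 hz' hc ha ha' ha0 n hn hid =>
      s36_cl5_point q hUnif ζ hζ hBC (le_inf hBA hBB) hϖB (fun x hx h1 h2 => hcap x hx ⟨h2, h1⟩)
        hzn hzn' 𝔪 hϖ𝔪 f₀ hf₀ hf₀' x x2 y c a X Y Cs As hX hY hC hA h2 hz' hc ha ha' ha0 n hn
        hid
  have hq𝔪 : ((q : ℕ) : B) ∈ 𝔪 := by
    have e : ((q : ℕ) : B) =
        ⟨algebraMap K0 (laurentBaseChange K0 (modularFunctionFieldFull M)) (q : K0), hϖB⟩ :=
      Subtype.ext (by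
        rw [Subring.coe_natCast]
        exact (map_natCast (algebraMap K0 (laurentBaseChange K0 (modularFunctionFieldFull M)))
          q).symm)
    rw [e]
    exact hϖ𝔪
  have hXc := s36_cpm5_coe_t2 (K0 := K0) hd2M
  have hXic := s36_cpm5_coe_t2inv (K0 := K0) hd2M
  have hJc := s36_cpm5_coe_j (K0 := K0) hd2M
  have hJlow := s36_cpm5_low_j (K0 := K0) (N := N) q hd2N hd2M
  have hXlow := s36_cpm5_low_t2 (K0 := K0) (N := N) q hd2N hd2M
  have hXN : ((s18_coord K0 (s18_cz_t2 M hd2M) :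
      laurentBaseChange K0 (modularFunctionFieldFull M)) : LaurentSeries K0) ∈
      laurentBaseChange K0 (modularFunctionFieldFull N) :=
    coeffEmb_mem_laurentBaseChange K0 (s18_cz_t2 N hd2N).2
  have h64ne := s36_cpm5_t2_add_ne (K0 := K0) hd2M 64
  -- `S = t₂⁻¹` is the inverse of `X = t₂`
  have hSX : s18_coord K0 ((s18_cz_t2 M hd2M)⁻¹) = (s18_coord K0 (s18_cz_t2 M hd2M))⁻¹ := by
    apply Subtype.ext
    show coeffEmb K0 (((s18_cz_t2 M hd2M : modularFunctionFieldFull M) : LaurentSeries ℚ)⁻¹) =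
      (coeffEmb K0 ((s18_cz_t2 M hd2M : modularFunctionFieldFull M) : LaurentSeries ℚ))⁻¹
    rw [map_inv₀]
  rw [hSX] at hxB hx2 hr1 hr2
  generalize hXdef : s18_coord K0 (s18_cz_t2 M hd2M) = X at *
  have h64ne' : X + 64 ≠ 0 := by exact_mod_cast h64ne
  have hX0 : X ≠ 0 := by
    intro h0
    have h1 := s18_t2R_mul_inv K0
    rw [← hXc, h0] at h1
    simp at h1
  have hS0 : X⁻¹ ≠ 0 := inv_ne_zero hX0
  have hSm : X⁻¹ ∈ s18_loc B 𝔪 := s36_cpm5_mem_loc 𝔪 X⁻¹ hxB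
  have h64B : 1 + 64 * X⁻¹ ∈ B := B.add_mem B.one_mem (B.mul_mem (ofNat_mem B 64) hxB)
  have h64ne'' : (1 : laurentBaseChange K0 (modularFunctionFieldFull M)) + 64 * X⁻¹ ≠ 0 := by
    have e : (1 : laurentBaseChange K0 (modularFunctionFieldFull M)) + 64 * X⁻¹ =
        X⁻¹ * (X + 64) := by field_simp
    rw [e]
    exact mul_ne_zero hS0 h64ne'
  have hXiN : ((X⁻¹ : laurentBaseChange K0 (modularFunctionFieldFull M)) : LaurentSeries K0) ∈
      laurentBaseChange K0 (modularFunctionFieldFull N) := by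
    show (X : LaurentSeries K0)⁻¹ ∈ _
    exact inv_mem hXN
  have hXilow : ((X⁻¹ : laurentBaseChange K0 (modularFunctionFieldFull M)) :
      LaurentSeries K0) ∈ laurentBaseChange K0 (modularFunctionFieldFull (N * q)) := by
    show (X : LaurentSeries K0)⁻¹ ∈ _
    exact inv_mem hXlow
  by_cases h64 : (⟨1 + 64 * X⁻¹, h64B⟩ : B) ∈ 𝔪
  · -- `1 + 64 t₂⁻¹` vanishes at the point: the coordinate `t₃`
    have hS𝔪 : (⟨X⁻¹, hxB⟩ : B) ∉ 𝔪 := by
      intro hmem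
      have h1 : (1 : B) ∈ 𝔪 := by
        have e : (1 : B) = ⟨1 + 64 * X⁻¹, h64B⟩ - ((64 : ℕ) : B) * ⟨X⁻¹, hxB⟩ := by
          apply Subtype.ext
          show (1 : laurentBaseChange K0 (modularFunctionFieldFull M)) =
            (1 + 64 * X⁻¹) - (((64 : ℕ) : B) : laurentBaseChange K0 (modularFunctionFieldFull M)) *
              X⁻¹
          rw [Subring.coe_natCast]
          push_cast
          ring
        rw [e]
        exact 𝔪.sub_mem h64 (𝔪.mul_mem_left _ hmem)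
      exact h𝔪.ne_top ((Ideal.eq_top_iff_one _).mpr h1)
    have hXm : X ∈ s18_loc B 𝔪 := by
      have h := s36_pp_inv_mem B 𝔪 ⟨X⁻¹, hxB⟩ hS𝔪
      simpa using h
    have hx20 : x2 ≠ 0 := by
      intro h0
      have h1 : (x2 : LaurentSeries K0) = 0 := congrArg Subtype.val h0
      rw [hx2, map_eq_zero] at h1
      exact hS0 (Subtype.ext h1)
    have hx2' : ((x2⁻¹ : laurentBaseChange K0 (modularFunctionFieldFull M)) :
        LaurentSeries K0) = qExpand K0 (q ^ 2) (X : LaurentSeries K0) := by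
      show (x2 : LaurentSeries K0)⁻¹ = _
      rw [hx2, ← map_inv₀]
      congr 1
      show ((X : LaurentSeries K0)⁻¹)⁻¹ = _
      rw [inv_inv]
    have hx2m : x2⁻¹ ∈ s18_loc B 𝔪 := by
      have e : x2⁻¹ = (X⁻¹ * x2⁻¹) * X := by field_simp
      rw [e]
      exact Subring.mul_mem (s18_locRing B 𝔪) hr2 hXm
    have hx2i : (x2⁻¹)⁻¹ ∈ s18_loc B 𝔪 := by
      have e : (x2⁻¹)⁻¹ = (x2 * (X⁻¹)⁻¹) * X⁻¹ := by field_simp
      rw [e]
      exact Subring.mul_mem (s18_locRing B 𝔪) hr1 hSm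
    have hne : (X + 64)⁻¹ ∉ s18_loc B 𝔪 := by
      intro hmem
      have e : (((⟨1 + 64 * X⁻¹, h64B⟩ : B) :
          laurentBaseChange K0 (modularFunctionFieldFull M)))⁻¹ = (X + 64)⁻¹ * X := by
        show (1 + 64 * X⁻¹)⁻¹ = _
        field_simp
      exact s36_cpm5_inv_not_mem 𝔪 ⟨1 + 64 * X⁻¹, h64B⟩ h64 h64ne'' (by
        rw [e]
        exact Subring.mul_mem (s18_locRing B 𝔪) hmem hXm)
    have hXi : X⁻¹ ∈ s18_loc B 𝔪 := hSm
    subst hXdef
    exact s36_cpm5_other hΘ hM hq hd2N hd2M hd3N hd3M hnorm 𝔪 hq𝔪 _ hpt x2⁻¹ y2 hx2' hy2 hXm hXi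
      hx2m hx2i hne
  · -- `1 + 64 t₂⁻¹` is a unit at the point: the coordinate `t₂⁻¹`
    have hu : (1 + 64 * X⁻¹)⁻¹ ∈ s18_loc B 𝔪 := s36_pp_inv_mem B 𝔪 ⟨1 + 64 * X⁻¹, h64B⟩ h64
    have hz' : (x2 - X⁻¹) * (X⁻¹)⁻¹ ∈ s18_loc B 𝔪 := by
      have e : (x2 - X⁻¹) * (X⁻¹)⁻¹ = x2 * (X⁻¹)⁻¹ - 1 := by field_simp
      rw [e]
      exact Subring.sub_mem (s18_locRing B 𝔪) hr1 (Subring.one_mem _)
    have h2 := s36_cpt_theta_top (κ := κ) hΘ hM X⁻¹ x2 hXiN hx2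
    have hSic : (((X⁻¹)⁻¹ : laurentBaseChange K0 (modularFunctionFieldFull M)) :
        LaurentSeries K0) = s18_t2R K0 := by
      rw [inv_inv]
      exact hXc
    have hSilow : (((X⁻¹)⁻¹ : laurentBaseChange K0 (modularFunctionFieldFull M)) :
        LaurentSeries K0) ∈ laurentBaseChange K0 (modularFunctionFieldFull (N * q)) := by
      rw [inv_inv]
      exact hXlow
    exact s36_cpm5_pt_t2_inf hΘ hq 𝔪 _ hpt _ X⁻¹ x2 (X⁻¹)⁻¹ hJc hXic hSic hJlow hXilow hSilow h2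
      hSm hz' hu

end Coord

end Fermat.Agent.S36
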