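import Fermat.Agent.S36.CPtLocal5
import Fermat.Agent.S36.PerPoint

/-!
# S36 (NODE-3), contract item (c-Cpt), `q ≥ 5`: the non-cuspidal `C`-only points

At a `C`-only prime `𝔪` of ANY normal chart `B` of the level `M` model at which `t₂` and
`t₂(Q^(q²))` are units of the local ring `B_𝔪` (a non-cuspidal point) and `6` is a unit, the local
equation of `C` exists: the coordinate is chosen per point (`t₂` if `t₂ + 64` is a unit at `𝔪`,
`t₃` otherwise; `S36/PerPoint.lean`) and the candidate is `z' = x(Q^(q²)) / x - 1`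
(`S36/CPtLocal5.lean`).

* `s36_nc5_j_ne` : `j` is not a constant.
* `s36_nc5_cpt` : the `cpt` conclusion at a non-cuspidal `C`-only point.
-/

set_option autoImplicit false
set_option linter.style.haveILetI false
set_option linter.unusedSectionVars false
set_option linter.unusedVariables false

open ModularCurve

noncomputable section

namespace Fermat.Agent.S36

open Fermat.Agent.S28 (twistQ)
open Fermat.Agent.S18 Fermat.Agent.S34 Fermat.Agent.S37

section Model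

variable {K0 K : Type*} [Field K0] [Field K] [Algebra ℚ K0] [Algebra ℚ K]
  {κ : K0 →+* K} {A : ValuationSubring K} {M : ℕ}
  {Θ : laurentBaseChange K (modularFunctionFieldFull M) →ₐ[K] LaurentSeries K}

/-- A function whose image at the cusp `1/q` is an `A`-integral series reducing to `j̄` is not a
constant. -/
theorem s36_nc5_j_ne (jF : laurentBaseChange K0 (modularFunctionFieldFull M))
    (Jc : LaurentSeries A) (hJ : Θ (s36_gc_incl κ M jF) = coeffMap A.subtype Jc)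
    (hJt : coeffMap (IsLocalRing.residue A) Jc = jqModC (IsLocalRing.ResidueField A)) (c : ℕ) :
    jF ≠ ((c : ℕ) : laurentBaseChange K0 (modularFunctionFieldFull M)) := by
  intro h
  rw [h, map_natCast, map_natCast] at hJ
  have h1 : Jc = ((c : ℕ) : LaurentSeries A) := by
    apply s18_coeffMap_injective A.subtype Subtype.val_injective
    rw [← hJ, map_natCast]
  rw [h1, map_natCast] at hJt
  have h2 : ((c : ℕ) : LaurentSeries (IsLocalRing.ResidueField A)).coeff (-1) =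
      (jqModC (IsLocalRing.ResidueField A)).coeff (-1) := by rw [hJt]
  rw [ModularCurve.coeff_jqModC_neg_one,
    ← map_natCast (HahnSeries.C : IsLocalRing.ResidueField A →+*
      LaurentSeries (IsLocalRing.ResidueField A)) c, HahnSeries.C_apply,
    HahnSeries.coeff_single_of_ne (by norm_num)] at h2
  exact zero_ne_one h2

variable (q : ℕ) [Fact q.Prime] [CharP (IsLocalRing.ResidueField A) q]

/-- **The `cpt` field at a non-cuspidal `C`-only point, `q ≥ 5`.**  `t₂, t₃, j` and their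
`Q ↦ Q^(q²)` versions `t₂', t₃', j'` as elements of `K₀ · F(M)`; local inputs: `t₂^{±1}`,
`t₂'^{±1}`, `6⁻¹ ∈ B_𝔪`. -/
theorem s36_nc5_cpt (hq5 : 5 ≤ q)
    {z : laurentBaseChange K0 (modularFunctionFieldFull M)}
    (hUnif : s34_Unif z (s36_gc_V κ A M Θ)) (ζ : Aˣ) (hζ : IsPrimitiveRoot (ζ : A) q)
    {B VA VB : Subring (laurentBaseChange K0 (modularFunctionFieldFull M))}
    (hBA : B ≤ VA) (hBB : B ≤ VB) (hBC : B ≤ s36_gc_V κ A M Θ)
    (hϖB : algebraMap K0 (laurentBaseChange K0 (modularFunctionFieldFull M)) (q : K0) ∈ B)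
    (hcap : ∀ x ∈ B,
      (algebraMap K0 (laurentBaseChange K0 (modularFunctionFieldFull M)) (q : K0))⁻¹ * x ∈
        VA ⊓ VB ⊓ s36_gc_V κ A M Θ →
      (algebraMap K0 (laurentBaseChange K0 (modularFunctionFieldFull M)) (q : K0))⁻¹ * x ∈ B)
    (ε₀ : laurentBaseChange K0 (modularFunctionFieldFull M))
    (hε₀ : ε₀ ∈ s36_gc_V κ A M Θ) (hε₀' : ε₀⁻¹ ∈ s36_gc_V κ A M Θ)
    (hϖ : algebraMap K0 (laurentBaseChange K0 (modularFunctionFieldFull M)) (q : K0) =
      ε₀ * z ^ (q - 1))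
    (hnorm : ∀ w : laurentBaseChange K0 (modularFunctionFieldFull M), IsIntegral B w → w ∈ B)
    (t2F t3F jF t2F' t3F' jF' : laurentBaseChange K0 (modularFunctionFieldFull M))
    (hr2 : jF * t2F ^ 2 = (t2F + 256) ^ 3)
    (hr3 : jF * t3F ^ 3 = (t3F + 27) * (t3F + 243) ^ 3)
    (hr2' : jF' * t2F' ^ 2 = (t2F' + 256) ^ 3)
    (hr3' : jF' * t3F' ^ 3 = (t3F' + 27) * (t3F' + 243) ^ 3)
    (ht20 : t2F ≠ 0) (ht30 : t3F ≠ 0) (ht2'0 : t2F' ≠ 0)
    (X2 Y2 X3 Y3 Jc : LaurentSeries A)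
    (hX2 : Θ (s36_gc_incl κ M t2F) = coeffMap A.subtype X2)
    (hY2 : Θ (s36_gc_incl κ M t2F⁻¹) = coeffMap A.subtype Y2)
    (hX3 : Θ (s36_gc_incl κ M t3F) = coeffMap A.subtype X3)
    (hY3 : Θ (s36_gc_incl κ M t3F⁻¹) = coeffMap A.subtype Y3)
    (hJ : Θ (s36_gc_incl κ M jF) = coeffMap A.subtype Jc)
    (hX2t : coeffMap (IsLocalRing.residue A) X2 = s18_t2R (IsLocalRing.ResidueField A))
    (hY2t : coeffMap (IsLocalRing.residue A) Y2 = s18_t2invR (IsLocalRing.ResidueField A))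
    (hX3t : coeffMap (IsLocalRing.residue A) X3 = s18_t3R (IsLocalRing.ResidueField A))
    (hY3t : coeffMap (IsLocalRing.residue A) Y3 = s18_t3invR (IsLocalRing.ResidueField A))
    (hJt : coeffMap (IsLocalRing.residue A) Jc = jqModC (IsLocalRing.ResidueField A))
    (h22 : Θ (s36_gc_incl κ M t2F') =
      twistQ (Units.map (A.subtype : A →* K) ζ) (Θ (s36_gc_incl κ M t2F)))
    (h23 : Θ (s36_gc_incl κ M t3F') =
      twistQ (Units.map (A.subtype : A →* K) ζ) (Θ (s36_gc_incl κ M t3F)))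
    (𝔪 : Ideal B) [𝔪.IsPrime]
    (hϖ𝔪 : (⟨algebraMap K0 (laurentBaseChange K0 (modularFunctionFieldFull M)) (q : K0), hϖB⟩ :
      B) ∈ 𝔪)
    (hex : ∃ f₀ : B, f₀ ∉ 𝔪 ∧
      (algebraMap K0 (laurentBaseChange K0 (modularFunctionFieldFull M)) (q : K0))⁻¹ *
        (f₀ : laurentBaseChange K0 (modularFunctionFieldFull M)) ∈ VA ⊓ VB)
    (ht2 : t2F ∈ s18_loc B 𝔪) (ht2i : t2F⁻¹ ∈ s18_loc B 𝔪)
    (ht2' : t2F' ∈ s18_loc B 𝔪) (ht2'i : t2F'⁻¹ ∈ s18_loc B 𝔪)
    (h6 : ((6 : laurentBaseChange K0 (modularFunctionFieldFull M)))⁻¹ ∈ s18_loc B 𝔪) :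
    ∃ (z' ε : laurentBaseChange K0 (modularFunctionFieldFull M)) (e : ℕ),
      s34_Unif z' (s36_gc_V κ A M Θ) ∧ z' ∈ s18_loc B 𝔪 ∧ 0 < e ∧ ε ∈ s18_loc B 𝔪 ∧
        ε⁻¹ ∈ s36_gc_V κ A M Θ ∧
        algebraMap K0 (laurentBaseChange K0 (modularFunctionFieldFull M)) (q : K0) =
          ε * z' ^ e := by
  haveI : CharZero K0 := algebraRat.charZero K0
  haveI : CharZero (laurentBaseChange K0 (modularFunctionFieldFull M)) :=
    charZero_of_injective_algebraMap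
      (algebraMap K0 (laurentBaseChange K0 (modularFunctionFieldFull M))).injective
  have h60 : (6 : laurentBaseChange K0 (modularFunctionFieldFull M)) ≠ 0 := by norm_num
  have h30 : (3 : laurentBaseChange K0 (modularFunctionFieldFull M)) ≠ 0 := by norm_num
  have ht2R : t2F ∈ s18_locRing B 𝔪 := ht2
  have ht2iR : t2F⁻¹ ∈ s18_locRing B 𝔪 := ht2i
  have ht2'R : t2F' ∈ s18_locRing B 𝔪 := ht2'
  have ht2'iR : t2F'⁻¹ ∈ s18_locRing B 𝔪 := ht2'i
  have h6R : ((6 : laurentBaseChange K0 (modularFunctionFieldFull M)))⁻¹ ∈ s18_locRing B 𝔪 := h6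
  -- `3⁻¹ ∈ B_𝔪`
  have h3i : ((3 : laurentBaseChange K0 (modularFunctionFieldFull M)))⁻¹ ∈ s18_loc B 𝔪 := by
    have e : ((3 : laurentBaseChange K0 (modularFunctionFieldFull M)))⁻¹ =
        2 * ((6 : laurentBaseChange K0 (modularFunctionFieldFull M)))⁻¹ := by
      field_simp
      norm_num
    rw [e]
    exact Subring.mul_mem (s18_locRing B 𝔪) (ofNat_mem _ 2) h6R
  -- `j, j' ∈ B_𝔪`
  have hj : jF ∈ s18_loc B 𝔪 := by
    have e : jF = (t2F + 256) ^ 3 * t2F⁻¹ ^ 2 := by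
      field_simp
      exact hr2
    rw [e]
    exact Subring.mul_mem (s18_locRing B 𝔪)
      (Subring.pow_mem _ (Subring.add_mem _ ht2R (ofNat_mem _ 256)) 3)
      (Subring.pow_mem _ ht2iR 2)
  have hj' : jF' ∈ s18_loc B 𝔪 := by
    have e : jF' = (t2F' + 256) ^ 3 * t2F'⁻¹ ^ 2 := by
      field_simp
      exact hr2'
    rw [e]
    exact Subring.mul_mem (s18_locRing B 𝔪)
      (Subring.pow_mem _ (Subring.add_mem _ ht2'R (ofNat_mem _ 256)) 3)
      (Subring.pow_mem _ ht2'iR 2)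
  -- `t₃^{±1}, t₃' ∈ B_𝔪`
  have ht3 : t3F ∈ s18_loc B 𝔪 := s36_pp_three_mem B hnorm 𝔪 jF t3F hj hr3
  have ht3i : t3F⁻¹ ∈ s18_loc B 𝔪 := s36_pp_three_inv_mem B hnorm 𝔪 jF t3F hj h3i h30 ht30 hr3
  have ht3' : t3F' ∈ s18_loc B 𝔪 := s36_pp_three_mem B hnorm 𝔪 jF' t3F' hj' hr3'
  -- nonvanishing
  have hu2 : t2F + 64 ≠ 0 := by
    intro h0
    have e : t2F = -64 := by linear_combination h0
    rw [e] at hr2
    have e2 : jF = ((1728 : ℕ) : laurentBaseChange K0 (modularFunctionFieldFull M)) := by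
      have h4096 : ((-64 : laurentBaseChange K0 (modularFunctionFieldFull M))) ^ 2 ≠ 0 := by
        norm_num
      apply mul_right_cancel₀ h4096
      rw [hr2]
      norm_num
    exact s36_nc5_j_ne jF Jc hJ hJt 1728 e2
  have hu3 : t3F + 27 ≠ 0 := by
    intro h0
    rw [h0, zero_mul] at hr3
    have e2 : jF = ((0 : ℕ) : laurentBaseChange K0 (modularFunctionFieldFull M)) := by
      rw [Nat.cast_zero]
      rcases mul_eq_zero.mp hr3 with h | h
      · exact h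
      · exact absurd (pow_eq_zero_iff (by norm_num) |>.mp h) ht30
    exact s36_nc5_j_ne jF Jc hJ hJt 0 e2
  rcases s36_pp_choice B 𝔪 jF t2F t3F ht2 ht2i ht3 ht3i h6 h60 ht20 ht30 hr2 hr3 with h | h
  · exact s36_cl5_cpt_t2 q hq5 hUnif ζ hζ hBA hBB hBC hϖB hcap ε₀ hε₀ hε₀' hϖ t2F t2F' t2F⁻¹ jF
      X2 Y2 Jc hX2 hY2 hJ hX2t hY2t hJt h22 𝔪 hϖ𝔪 hex ht2 ht2i ht2' hj h hu2
  · exact s36_cl5_cpt_t3 q hq5 hUnif ζ hζ hBA hBB hBC hϖB hcap ε₀ hε₀ hε₀' hϖ t3F t3F' t3F⁻¹ jF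
      X3 Y3 Jc hX3 hY3 hJ hX3t hY3t hJt h23 𝔪 hϖ𝔪 hex ht3 ht3i ht3' hj h hu3

end Model

end Fermat.Agent.S36
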