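import Mathlib
import Fermat.Agent.S36.Cap3Model
import Fermat.Agent.S36.GaussC

/-!
# S36 (NODE-3), contract item (c-cap): the model cap for the component `V_C` of `GaussInst`

`s36_c3i_cap` : `s36_c3m_cap` (`Cap3Model.lean`) with its four hypotheses on `V_C` discharged from
the clauses of the bundle `s36_gu_main` (`GaussInst.lean`) for `z_C = s36_gc_z K₁ q (N₁ q q)`:

* `s34_Unif z_C V`,
* `q * (z_C ^ (q - 1))⁻¹ ∈ V`,
* the Gauss ring at infinity of level `N₁ q` lies in `V`,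

and `π = q` (an unramified base, `hπq`).  `V ≠ V_A` because `z_C⁻¹ ∈ V_A`
(`s36_gc_z_inv_mem_gi`).
-/

set_option autoImplicit false
set_option synthInstance.maxHeartbeats 400000
set_option maxHeartbeats 4000000
set_option linter.unusedSectionVars false
set_option linter.unusedVariables false
set_option linter.style.haveILetI false

open ModularCurve ModularCurve.IgusaScheme AlgebraicCurve Fermat.Agent.S28
open Fermat.Agent.S18 Fermat.Agent.S34 Fermat.Agent.S35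

noncomputable section

namespace Fermat.Agent.S36

/-- **(c-cap) for the concrete third component.**  `V` any subring of `K₁ · F(N₁ q q)` with the
clauses of `s36_gu_main` (uniformizer `z_C`, `q * (z_C^(q-1))⁻¹ ∈ V`, the Gauss ring of level
`N₁ q` lies in `V`); `π` a uniformizer of `A₁ = P ∩ K₁` equal to `q`.  Both integral-closure
charts of level `N₁ q q` have the cap property with respect to `V_A`, `V_B = V_A.comap W`, `V`. -/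
theorem s36_c3i_cap (N₁ q : ℕ) [NeZero N₁] [NeZero q] [NeZero (N₁ * q)] [NeZero (N₁ * q * q)]
    [Fact q.Prime] (P : ValuationSubring (AlgebraicClosure ℚ)) (hP : P.LiesOverPrime q)
    (K₁ : IntermediateField ℚ (AlgebraicClosure ℚ)) [FiniteDimensional ℚ K₁]
    [IsDiscreteValuationRing (s18_A1 P K₁)]
    (hqN : ¬ q ∣ N₁) (π : s18_A1 P K₁) (hπ : Irreducible π) (hπq : (π : K₁) = (q : K₁))
    (tL : modularFunctionFieldFull (N₁ * q)) (htL : s34_md_IsT N₁ q tL)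
    (tLL : modularFunctionFieldFull (N₁ * q * q))
    (htLL : (tLL : LaurentSeries ℚ) = (tL : LaurentSeries ℚ))
    (w : s18_F1 K₁ (N₁ * q) ≃ₐ[K₁] s18_F1 K₁ (N₁ * q)) (hw : s34_md_IsSwap K₁ N₁ q w)
    (W : s18_F1 K₁ (N₁ * q * q) ≃+* s18_F1 K₁ (N₁ * q * q))
    (hWϖ : W (algebraMap K₁ (s18_F1 K₁ (N₁ * q * q)) (π : K₁)) =
      algebraMap K₁ (s18_F1 K₁ (N₁ * q * q)) (π : K₁))
    (hrel : ∀ y : s18_F1 K₁ (N₁ * q),
      W (heckeAlphaBar K₁ (N₁ * q) q y) = heckeBetaBar K₁ (N₁ * q) q (w y))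
    (hq : q.Prime) (hqM : q ^ 2 ∣ N₁ * q * q)
    (V : Subring (s18_F1 K₁ (N₁ * q * q)))
    (hV1 : s34_Unif (s36_gc_z K₁ q (N₁ * q * q) hq hqM) V)
    (hV2 : algebraMap K₁ (s18_F1 K₁ (N₁ * q * q)) (q : K₁) *
      (s36_gc_z K₁ q (N₁ * q * q) hq hqM ^ (q - 1))⁻¹ ∈ V)
    (hV5 : ∀ (x : s18_F1 K₁ (N₁ * q * q)) (x' : s18_F1 K₁ (N₁ * q)),
      (x : LaurentSeries K₁) = (x' : LaurentSeries K₁) →
        x' ∈ s34_gi_V (s18_A1 P K₁) (N₁ * q) → x ∈ V) :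
    (∀ y ∈ (s34_ic_chart (s18_A1 P K₁) (s18_coord K₁ tLL)).toSubring,
      (algebraMap (s18_A1 P K₁) (s18_F1 K₁ (N₁ * q * q)) π)⁻¹ * y ∈
        s34_gi_V (s18_A1 P K₁) (N₁ * q * q) →
      (algebraMap (s18_A1 P K₁) (s18_F1 K₁ (N₁ * q * q)) π)⁻¹ * y ∈
        (s34_gi_V (s18_A1 P K₁) (N₁ * q * q)).comap
          (W : s18_F1 K₁ (N₁ * q * q) →+* s18_F1 K₁ (N₁ * q * q)) →
      (algebraMap (s18_A1 P K₁) (s18_F1 K₁ (N₁ * q * q)) π)⁻¹ * y ∈ V →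
      (algebraMap (s18_A1 P K₁) (s18_F1 K₁ (N₁ * q * q)) π)⁻¹ * y ∈
        (s34_ic_chart (s18_A1 P K₁) (s18_coord K₁ tLL)).toSubring) ∧
    (∀ y ∈ (s34_ic_chart (s18_A1 P K₁) (s18_coord K₁ tLL)⁻¹).toSubring,
      (algebraMap (s18_A1 P K₁) (s18_F1 K₁ (N₁ * q * q)) π)⁻¹ * y ∈
        s34_gi_V (s18_A1 P K₁) (N₁ * q * q) →
      (algebraMap (s18_A1 P K₁) (s18_F1 K₁ (N₁ * q * q)) π)⁻¹ * y ∈
        (s34_gi_V (s18_A1 P K₁) (N₁ * q * q)).comap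
          (W : s18_F1 K₁ (N₁ * q * q) →+* s18_F1 K₁ (N₁ * q * q)) →
      (algebraMap (s18_A1 P K₁) (s18_F1 K₁ (N₁ * q * q)) π)⁻¹ * y ∈ V →
      (algebraMap (s18_A1 P K₁) (s18_F1 K₁ (N₁ * q * q)) π)⁻¹ * y ∈
        (s34_ic_chart (s18_A1 P K₁) (s18_coord K₁ tLL)⁻¹).toSubring) := by
  have hVC : s35_Unif (s36_gc_z K₁ q (N₁ * q * q) hq hqM) V :=
    ⟨hV1.mem, hV1.inv_not_mem, hV1.decomp⟩
  have hαC : ∀ y ∈ s34_gi_V (s18_A1 P K₁) (N₁ * q),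
      (heckeAlphaBar K₁ (N₁ * q) q).toRingHom y ∈ V :=
    fun y hy => hV5 (heckeAlphaBar K₁ (N₁ * q) q y) y (coe_heckeAlphaBar (N₁ * q) q y) hy
  have hne : s34_gi_V (s18_A1 P K₁) (N₁ * q * q) ≠ V := by
    intro h
    have h1 : (s36_gc_z K₁ q (N₁ * q * q) hq hqM)⁻¹ ∈ s34_gi_V (s18_A1 P K₁) (N₁ * q * q) :=
      s36_gc_z_inv_mem_gi (s18_A1 P K₁) hq _ (s36_gc_z_coe q (N₁ * q * q) hq hqM)
    rw [h] at h1
    exact hV1.inv_not_mem h1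
  have hzn : algebraMap K₁ (s18_F1 K₁ (N₁ * q * q)) (π : K₁) *
      (s36_gc_z K₁ q (N₁ * q * q) hq hqM ^ (q - 1))⁻¹ ∈ V := by
    rw [hπq]
    exact hV2
  exact s36_c3m_cap N₁ q P hP K₁ hqN π hπ tL htL tLL htLL w hw W hWϖ hrel V
    (s36_gc_z K₁ q (N₁ * q * q) hq hqM) hVC hαC hne hzn

/-- `s36_c3i_cap` in the `⊓`-form of `s36_two_chart` / `s36_pow_of_model` (`hcap0`, `hcapi` with
`V = (V_A ⊓ V_B) ⊓ V`). -/
theorem s36_c3i_cap_inf (N₁ q : ℕ) [NeZero N₁] [NeZero q] [NeZero (N₁ * q)] [NeZero (N₁ * q * q)]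
    [Fact q.Prime] (P : ValuationSubring (AlgebraicClosure ℚ)) (hP : P.LiesOverPrime q)
    (K₁ : IntermediateField ℚ (AlgebraicClosure ℚ)) [FiniteDimensional ℚ K₁]
    [IsDiscreteValuationRing (s18_A1 P K₁)]
    (hqN : ¬ q ∣ N₁) (π : s18_A1 P K₁) (hπ : Irreducible π) (hπq : (π : K₁) = (q : K₁))
    (tL : modularFunctionFieldFull (N₁ * q)) (htL : s34_md_IsT N₁ q tL)
    (tLL : modularFunctionFieldFull (N₁ * q * q))
    (htLL : (tLL : LaurentSeries ℚ) = (tL : LaurentSeries ℚ))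
    (w : s18_F1 K₁ (N₁ * q) ≃ₐ[K₁] s18_F1 K₁ (N₁ * q)) (hw : s34_md_IsSwap K₁ N₁ q w)
    (W : s18_F1 K₁ (N₁ * q * q) ≃+* s18_F1 K₁ (N₁ * q * q))
    (hWϖ : W (algebraMap K₁ (s18_F1 K₁ (N₁ * q * q)) (π : K₁)) =
      algebraMap K₁ (s18_F1 K₁ (N₁ * q * q)) (π : K₁))
    (hrel : ∀ y : s18_F1 K₁ (N₁ * q),
      W (heckeAlphaBar K₁ (N₁ * q) q y) = heckeBetaBar K₁ (N₁ * q) q (w y))
    (hq : q.Prime) (hqM : q ^ 2 ∣ N₁ * q * q)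
    (V : Subring (s18_F1 K₁ (N₁ * q * q)))
    (hV1 : s34_Unif (s36_gc_z K₁ q (N₁ * q * q) hq hqM) V)
    (hV2 : algebraMap K₁ (s18_F1 K₁ (N₁ * q * q)) (q : K₁) *
      (s36_gc_z K₁ q (N₁ * q * q) hq hqM ^ (q - 1))⁻¹ ∈ V)
    (hV5 : ∀ (x : s18_F1 K₁ (N₁ * q * q)) (x' : s18_F1 K₁ (N₁ * q)),
      (x : LaurentSeries K₁) = (x' : LaurentSeries K₁) →
        x' ∈ s34_gi_V (s18_A1 P K₁) (N₁ * q) → x ∈ V) :
    (∀ y ∈ s34_ic_chart (s18_A1 P K₁) (s18_coord K₁ tLL),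
      (algebraMap (s18_A1 P K₁) (s18_F1 K₁ (N₁ * q * q)) π)⁻¹ * y ∈
        s34_gi_V (s18_A1 P K₁) (N₁ * q * q) ⊓
          (s34_gi_V (s18_A1 P K₁) (N₁ * q * q)).comap
            (W : s18_F1 K₁ (N₁ * q * q) →+* s18_F1 K₁ (N₁ * q * q)) ⊓ V →
      (algebraMap (s18_A1 P K₁) (s18_F1 K₁ (N₁ * q * q)) π)⁻¹ * y ∈
        s34_ic_chart (s18_A1 P K₁) (s18_coord K₁ tLL)) ∧
    (∀ y ∈ s34_ic_chart (s18_A1 P K₁) (s18_coord K₁ tLL)⁻¹,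
      (algebraMap (s18_A1 P K₁) (s18_F1 K₁ (N₁ * q * q)) π)⁻¹ * y ∈
        s34_gi_V (s18_A1 P K₁) (N₁ * q * q) ⊓
          (s34_gi_V (s18_A1 P K₁) (N₁ * q * q)).comap
            (W : s18_F1 K₁ (N₁ * q * q) →+* s18_F1 K₁ (N₁ * q * q)) ⊓ V →
      (algebraMap (s18_A1 P K₁) (s18_F1 K₁ (N₁ * q * q)) π)⁻¹ * y ∈
        s34_ic_chart (s18_A1 P K₁) (s18_coord K₁ tLL)⁻¹) := by
  obtain ⟨h0, hi⟩ := s36_c3i_cap N₁ q P hP K₁ hqN π hπ hπq tL htL tLL htLL w hw W hWϖ hrel hq hqM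
    V hV1 hV2 hV5
  exact ⟨fun y hy h => h0 y hy h.1.1 h.1.2 h.2, fun y hy h => hi y hy h.1.1 h.1.2 h.2⟩

end Fermat.Agent.S36
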