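import Mathlib
import Fermat.Agent.S36.Cap3Inst
import Fermat.Agent.S36.GaussInst
import Fermat.Agent.S36.SwapRel
import Fermat.Agent.S36.BaseUnram

/-!
# S36 (NODE-3), contract item (c-cap), unconditional form

`s36_c3u_cap` : for a finite extension `K₀ ⊆ Q̄` of `ℚ` fixed by the inertia group of `P ∣ q`
(not necessarily Galois), `q ∤ N₁`, and the Hauptmodul `t₂` or `t₃` of a level dividing `N₁`:
there are

* the swaps `w` of level `N₁ q` and `W` of level `N₁ q q` of `s36_sr_main` (all its clauses),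
* the third component `V = V_C` of `s36_gu_main` (all its clauses),

such that both integral-closure charts of level `N₁ q q` have the cap property
`B ∩ q (V_A ⊓ V_B ⊓ V_C) = q B`, `V_A = s34_gi_V A₀ (N₁ q q)`, `V_B = V_A.comap W`,
`A₀ = P ∩ K₀` with uniformizer `q` (`s36_bu_irreducible`).
-/

set_option autoImplicit false
set_option synthInstance.maxHeartbeats 400000
set_option maxHeartbeats 4000000
set_option linter.unusedSectionVars false
set_option linter.unusedVariables false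
set_option linter.style.haveILetI false

open ModularCurve ModularCurve.IgusaScheme AlgebraicCurve Fermat.Agent.S28
open Fermat.Agent.S18 Fermat.Agent.S34 Fermat.Agent.S35

noncomputable section

namespace Fermat.Agent.S36

/-- **(c-cap), unconditional.**  The swaps `w`, `W` (package `s36_sr_main`), the third component
`V` (bundle `s36_gu_main` at `M = N₁ q q`) and the cap property of both charts of level `N₁ q q`
with respect to `V_A ⊓ V_B ⊓ V`, over an inertia-fixed base field `K₀`. -/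
theorem s36_c3u_cap (N₁ q : ℕ) [NeZero N₁] [NeZero q] [NeZero (N₁ * q)] [NeZero (N₁ * q * q)]
    [Fact q.Prime] (P : ValuationSubring (AlgebraicClosure ℚ)) (hP : P.LiesOverPrime q)
    (K₀ : IntermediateField ℚ (AlgebraicClosure ℚ)) [FiniteDimensional ℚ K₀]
    (hK₀ : ∀ a ∈ K₀, ∀ τ ∈ P.inertiaSubgroupIn ℚ, τ a = a)
    (hqN : ¬ q ∣ N₁) (hq : q.Prime) (hqM : q ^ 2 ∣ N₁ * q * q)
    (tL : modularFunctionFieldFull (N₁ * q)) (htL : s34_md_IsT N₁ q tL)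
    (tLL : modularFunctionFieldFull (N₁ * q * q))
    (htLL : (tLL : LaurentSeries ℚ) = (tL : LaurentSeries ℚ)) :
    haveI : IsDiscreteValuationRing (s18_A1 P K₀) := s18_a1_dvr P hP K₀
    ∃ (w : s18_F1 K₀ (N₁ * q) ≃ₐ[K₀] s18_F1 K₀ (N₁ * q))
      (W : s18_F1 K₀ (N₁ * q * q) ≃ₐ[K₀] s18_F1 K₀ (N₁ * q * q))
      (V : Subring (s18_F1 K₀ (N₁ * q * q))),
      -- the swaps (`s36_sr_main`)
      s34_md_IsSwap K₀ N₁ q w ∧
      (∀ x, W (W x) = x) ∧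
      (∀ (σ : K₀ ≃ₐ[ℚ] K₀) (x : s18_F1 K₀ (N₁ * q * q)),
        W (arithmeticRingAut (modularFunctionFieldFull (N₁ * q * q)) σ x) =
          arithmeticRingAut (modularFunctionFieldFull (N₁ * q * q)) σ (W x)) ∧
      (∀ (d m : ℕ) (_ : d ∣ N₁) (_ : m ∣ q * q)
        (h1 : s34_sw_s K₀ (d * m) ∈ laurentBaseChange K₀ (modularFunctionFieldFull (N₁ * q * q))),
        ((W ⟨s34_sw_s K₀ (d * m), h1⟩ :
          laurentBaseChange K₀ (modularFunctionFieldFull (N₁ * q * q))) : LaurentSeries K₀) =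
          s34_sw_s K₀ (d * (q * q / m))) ∧
      (∀ y, W (heckeAlphaBar K₀ (N₁ * q) q y) = heckeBetaBar K₀ (N₁ * q) q (w y)) ∧
      (∀ y, W (heckeBetaBar K₀ (N₁ * q) q y) = heckeAlphaBar K₀ (N₁ * q) q (w y)) ∧
      -- the third component (`s36_gu_main`)
      s34_Unif (s36_gc_z K₀ q (N₁ * q * q) hq hqM) V ∧
      algebraMap K₀ (s18_F1 K₀ (N₁ * q * q)) (q : K₀) *
        (s36_gc_z K₀ q (N₁ * q * q) hq hqM ^ (q - 1))⁻¹ ∈ V ∧
      s36_gc_z K₀ q (N₁ * q * q) hq hqM ^ (q - 1) *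
        (algebraMap K₀ (s18_F1 K₀ (N₁ * q * q)) (q : K₀))⁻¹ ∈ V ∧
      (∀ b ∈ s18_A1 P K₀, algebraMap K₀ (s18_F1 K₀ (N₁ * q * q)) b ∈ V) ∧
      (∀ (x : s18_F1 K₀ (N₁ * q * q)) (x' : s18_F1 K₀ (N₁ * q)),
        (x : LaurentSeries K₀) = (x' : LaurentSeries K₀) →
          x' ∈ s34_gi_V (s18_A1 P K₀) (N₁ * q) → x ∈ V) ∧
      -- the cap property of both charts
      (∀ y ∈ s34_ic_chart (s18_A1 P K₀) (s18_coord K₀ tLL),
        (algebraMap (s18_A1 P K₀) (s18_F1 K₀ (N₁ * q * q)) ((q : ℕ) : s18_A1 P K₀))⁻¹ * y ∈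
          s34_gi_V (s18_A1 P K₀) (N₁ * q * q) ⊓
            (s34_gi_V (s18_A1 P K₀) (N₁ * q * q)).comap
              (W : s18_F1 K₀ (N₁ * q * q) →+* s18_F1 K₀ (N₁ * q * q)) ⊓ V →
        (algebraMap (s18_A1 P K₀) (s18_F1 K₀ (N₁ * q * q)) ((q : ℕ) : s18_A1 P K₀))⁻¹ * y ∈
          s34_ic_chart (s18_A1 P K₀) (s18_coord K₀ tLL)) ∧
      (∀ y ∈ s34_ic_chart (s18_A1 P K₀) (s18_coord K₀ tLL)⁻¹,
        (algebraMap (s18_A1 P K₀) (s18_F1 K₀ (N₁ * q * q)) ((q : ℕ) : s18_A1 P K₀))⁻¹ * y ∈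
          s34_gi_V (s18_A1 P K₀) (N₁ * q * q) ⊓
            (s34_gi_V (s18_A1 P K₀) (N₁ * q * q)).comap
              (W : s18_F1 K₀ (N₁ * q * q) →+* s18_F1 K₀ (N₁ * q * q)) ⊓ V →
        (algebraMap (s18_A1 P K₀) (s18_F1 K₀ (N₁ * q * q)) ((q : ℕ) : s18_A1 P K₀))⁻¹ * y ∈
          s34_ic_chart (s18_A1 P K₀) (s18_coord K₀ tLL)⁻¹) := by
  haveI : IsDiscreteValuationRing (s18_A1 P K₀) := s18_a1_dvr P hP K₀
  have hcop : Nat.Coprime q N₁ := (Nat.Prime.coprime_iff_not_dvd hq).mpr hqN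
  have hπ : Irreducible ((q : ℕ) : s18_A1 P K₀) := s36_bu_irreducible P q hP K₀ hK₀
  obtain ⟨w, W, hw1, hw2, hw3, hw4, hw5, hW3, hW4, hW5, hrel, hrel'⟩ :=
    s36_sr_main (K := K₀) (algebraMap K₀ (AlgebraicClosure ℚ)) N₁ q hcop
  have hunif : ∀ b : K₀, b ≠ 0 → ∃ m : ℤ, P.valuation (b : AlgebraicClosure ℚ) =
      P.valuation (q : AlgebraicClosure ℚ) ^ m := by
    intro b hb
    exact Fermat.Agent.S13.inertia_fixed_valuation P hq hP (b : AlgebraicClosure ℚ)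
      (by exact_mod_cast hb) (fun τ hτ => hK₀ b b.2 τ hτ)
  obtain ⟨V, hV1, hV2, hV3, hV4, hV5⟩ :=
    s36_gu_main P K₀ N₁ q (N₁ * q * q) hq hqN (by ring) hP hunif hqM
  have hcap := s36_c3i_cap_inf N₁ q P hP K₀ hqN ((q : ℕ) : s18_A1 P K₀) hπ rfl
    tL htL tLL htLL w ⟨hw1, hw2, hw3, hw4, hw5⟩
    (W : s18_F1 K₀ (N₁ * q * q) ≃+* s18_F1 K₀ (N₁ * q * q))
    (W.commutes _) hrel hq hqM V hV1 hV2 hV5
  exact ⟨w, W, V, ⟨hw1, hw2, hw3, hw4, hw5⟩, hW3, hW4, hW5, hrel, hrel', hV1, hV2, hV3, hV4, hV5,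
    hcap.1, hcap.2⟩

end Fermat.Agent.S36
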