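import Mathlib
import Fermat.Agent.S34.ExtTwo
import Fermat.Agent.S34.SmoothPoint
import Fermat.Agent.S34.ResTwo
import Fermat.Agent.S36.ExtRam

/-!
# S36 (NODE-3), contract item (c-cap), abstract part: exactly three extensions of a discrete
valuation

`R` a discrete valuation ring with uniformizer `ϖ`, residue characteristic `q` (a prime) and
fraction field `F'`, `F / F'` finite separable of degree `≤ q (q + 1)`, and three pairwise distinct
valuation subrings `VA`, `VB`, `VC` of `F` dominating `R` such that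

* the residue field of `VB` contains a `q²`-th root of an element which is not a `q`-th power in
  the residue field of `R` (residue degree `≥ q²`);
* `VC` contains a non-unit `z ≠ 0` with `z ^ (q - 1) ∣ ϖ` (ramification index `≥ q - 1`).

Then `1 + q² + (q - 1) = q (q + 1)` shows that `VA`, `VB`, `VC` are the only valuation rings of `F`
above `R`: every element of `VA ∩ VB ∩ VC` is integral over `R`.

* `s36_e3_finrank_ge`, `s36_e3_inertia_ge` : the residue degree bound `q² ≤ f`;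
* `s36_e3_count` : the counting step;
* `s36_e3_main` : the statement for valuation subrings;
* `s36_e3_two` : the subring / two-field form (`s34_Unif` vocabulary), in the shape of the
  hypothesis `ha` of `s34_ci_cap`.
-/

set_option autoImplicit false
set_option linter.style.haveILetI false

namespace Fermat.Agent.S36

open IsDedekindDomain Fermat.Agent.S34 Polynomial
open scoped IntermediateField

/-- In characteristic `q`, if `c` is not a `q`-th power in `k` then an extension of `k` containing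
a `q²`-th root of `c` has degree at least `q²`. -/
theorem s36_e3_finrank_ge {k L : Type*} [Field k] [Field L] [Algebra k L]
    [FiniteDimensional k L] (q : ℕ) (hq : q.Prime) [CharP k q] (c : k)
    (hc : ∀ d : k, d ^ q ≠ c) (s : L) (hs : s ^ (q ^ 2) = algebraMap k L c) :
    q ^ 2 ≤ Module.finrank k L := by
  haveI : Fact q.Prime := ⟨hq⟩
  haveI : CharP L q := charP_of_injective_algebraMap (algebraMap k L).injective q
  set η : L := s ^ q with hη
  have hηq : η ^ q = algebraMap k L c := by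
    rw [hη, ← pow_mul, ← sq]
    exact hs
  -- the minimal polynomial of `η` over `k`
  have hirr : Irreducible (X ^ q - C c : k[X]) := X_pow_sub_C_irreducible_of_prime hq hc
  have hroot : aeval η (X ^ q - C c : k[X]) = 0 := by
    rw [map_sub, map_pow, aeval_X, aeval_C, hηq, sub_self]
  have hmin : minpoly k η = X ^ q - C c :=
    (minpoly.eq_of_irreducible_of_monic hirr hroot (monic_X_pow_sub_C _ hq.ne_zero)).symm
  have hint : IsIntegral k η := Algebra.IsIntegral.isIntegral η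
  have hfin1 : Module.finrank k k⟮η⟯ = q := by
    rw [IntermediateField.adjoin.finrank hint, hmin, natDegree_X_pow_sub_C]
  -- every element of `k(η)` has its `q`-th power in `k`
  have hT : ∀ w : L, w ∈ k⟮η⟯ → ∃ a : k, w ^ q = algebraMap k L a := by
    intro w hw
    induction hw using IntermediateField.adjoin_induction with
    | mem x hx =>
      rw [Set.mem_singleton_iff] at hx
      exact ⟨c, by rw [hx, hηq]⟩
    | algebraMap x => exact ⟨x ^ q, by rw [map_pow]⟩
    | add x y _ _ hx hy =>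
      obtain ⟨a, ha⟩ := hx
      obtain ⟨b, hb⟩ := hy
      exact ⟨a + b, by rw [add_pow_char, ha, hb, map_add]⟩
    | inv x _ hx =>
      obtain ⟨a, ha⟩ := hx
      exact ⟨a⁻¹, by rw [inv_pow, ha, map_inv₀]⟩
    | mul x y _ _ hx hy =>
      obtain ⟨a, ha⟩ := hx
      obtain ⟨b, hb⟩ := hy
      exact ⟨a * b, by rw [mul_pow, ha, hb, map_mul]⟩
  -- `η` is not a `q`-th power in `k(η)`
  have hgen : ∀ w : k⟮η⟯, w ^ q ≠ IntermediateField.AdjoinSimple.gen k η := by
    intro w hw
    obtain ⟨a, ha⟩ := hT (w : L) w.2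
    have h1 : ((w ^ q : k⟮η⟯) : L) = η := by
      rw [hw]
      exact IntermediateField.AdjoinSimple.coe_gen k η
    have h2 : η = algebraMap k L a := by
      rw [← h1, ← ha]
      rfl
    have h3 : algebraMap k L (a ^ q) = algebraMap k L c := by
      rw [map_pow, ← h2, hηq]
    exact hc a ((algebraMap k L).injective h3)
  have hirr2 : Irreducible
      (X ^ q - C (IntermediateField.AdjoinSimple.gen k η) : (k⟮η⟯)[X]) :=
    X_pow_sub_C_irreducible_of_prime hq hgen
  have hroot2 : aeval s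
      (X ^ q - C (IntermediateField.AdjoinSimple.gen k η) : (k⟮η⟯)[X]) = 0 := by
    rw [map_sub, map_pow, aeval_X, aeval_C, IntermediateField.AdjoinSimple.algebraMap_gen,
      sub_self]
  have hmin2 : minpoly k⟮η⟯ s = X ^ q - C (IntermediateField.AdjoinSimple.gen k η) :=
    (minpoly.eq_of_irreducible_of_monic hirr2 hroot2 (monic_X_pow_sub_C _ hq.ne_zero)).symm
  have hfin2 : q ≤ Module.finrank k⟮η⟯ L := by
    have h := minpoly.natDegree_le (A := k⟮η⟯) s
    rwa [hmin2, natDegree_X_pow_sub_C] at h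
  rw [← Module.finrank_mul_finrank k k⟮η⟯ L, hfin1, sq]
  exact Nat.mul_le_mul_left q hfin2

/-- Lower bound for a residue degree: a root of `X ^ (q ^ 2) - c` with `c` not a `q`-th power, in
residue characteristic `q`. -/
theorem s36_e3_inertia_ge {R S : Type*} [CommRing R] [CommRing S] [Algebra R S]
    [Module.Finite R S] (p : Ideal R) [p.IsMaximal] (P : Ideal S) [P.IsMaximal] [P.LiesOver p]
    (q : ℕ) (hq : q.Prime) (hqp : (q : R) ∈ p) (c : R) (s : S)
    (hs : s ^ (q ^ 2) - algebraMap R S c ∈ P) (hc : ∀ d : R, d ^ q - c ∉ p) :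
    q ^ 2 ≤ Module.finrank (R ⧸ p) (S ⧸ P) := by
  letI := Ideal.Quotient.field p
  letI := Ideal.Quotient.field P
  haveI : CharP (R ⧸ p) q := by
    rw [CharP.charP_iff_prime_eq_zero hq]
    have h : ((q : R) : R ⧸ p) = 0 := Ideal.Quotient.eq_zero_iff_mem.mpr hqp
    simpa using h
  refine s36_e3_finrank_ge (k := R ⧸ p) (L := S ⧸ P) q hq (Ideal.Quotient.mk p c) ?_
    (Ideal.Quotient.mk P s) ?_
  · intro b hb
    obtain ⟨d, rfl⟩ := Ideal.Quotient.mk_surjective b
    rw [← map_pow, Ideal.Quotient.eq] at hb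
    exact hc d hb
  · rw [Ideal.Quotient.algebraMap_mk_of_liesOver, ← map_pow, Ideal.Quotient.eq]
    exact hs

/-- Counting, three points: `∑ e f ≤ q (q + 1)`, `f b ≥ q²`, `e c ≥ q - 1`. -/
theorem s36_e3_count {ι : Type*} [DecidableEq ι] (T : Finset ι) (e f : ι → ℕ) (q : ℕ)
    (a b c : ι) (ha : a ∈ T) (hb : b ∈ T) (hc : c ∈ T) (hab : a ≠ b) (hac : a ≠ c)
    (hbc : b ≠ c) (he : ∀ i ∈ T, 1 ≤ e i) (hf : ∀ i ∈ T, 1 ≤ f i) (hq : 1 ≤ q)
    (hfb : q ^ 2 ≤ f b) (hec : q - 1 ≤ e c) (hsum : ∑ i ∈ T, e i * f i ≤ q * (q + 1)) :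
    ∀ i ∈ T, i = a ∨ i = b ∨ i = c := by
  have hb' : b ∈ T.erase a := Finset.mem_erase.2 ⟨hab.symm, hb⟩
  have hc' : c ∈ (T.erase a).erase b :=
    Finset.mem_erase.2 ⟨hbc.symm, Finset.mem_erase.2 ⟨hac.symm, hc⟩⟩
  rw [← Finset.add_sum_erase T _ ha, ← Finset.add_sum_erase (T.erase a) _ hb',
    ← Finset.add_sum_erase ((T.erase a).erase b) _ hc'] at hsum
  have h1 : 1 ≤ e a * f a := Nat.mul_pos (he a ha) (hf a ha)
  have h2 : q ^ 2 ≤ e b * f b := le_trans hfb (Nat.le_mul_of_pos_left _ (he b hb))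
  have h3 : q - 1 ≤ e c * f c := le_trans hec (Nat.le_mul_of_pos_right _ (hf c hc))
  have hqq : q * (q + 1) = q ^ 2 + q := by ring
  have hr0 : ∑ i ∈ ((T.erase a).erase b).erase c, e i * f i = 0 := by omega
  intro i hi
  by_contra hcon
  rw [not_or, not_or] at hcon
  have hi' : i ∈ ((T.erase a).erase b).erase c :=
    Finset.mem_erase.2 ⟨hcon.2.2, Finset.mem_erase.2 ⟨hcon.2.1, Finset.mem_erase.2 ⟨hcon.1, hi⟩⟩⟩
  have h7 := (Finset.sum_eq_zero_iff.1 hr0) i hi'
  have h8 : 1 ≤ e i * f i := Nat.mul_pos (he i hi) (hf i hi)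
  omega

set_option linter.deprecated false in
/-- **Three extensions.**  `R` a discrete valuation ring with uniformizer `ϖ`, residue
characteristic `q` and fraction field `F'`, `F / F'` finite separable of degree `≤ q (q + 1)`,
`VA`, `VB`, `VC` pairwise distinct valuation subrings of `F` dominating `R`, `θ ∈ VB`, `c ∈ R` with
`θ ^ (q ^ 2) ≡ c` modulo the maximal ideal of `VB` while `c` is not a `q`-th power modulo `ϖ`, and
`z ≠ 0` a non-unit of `VC` with `z ^ (q - 1) ∣ ϖ` in `VC`.  Then every element of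
`VA ∩ VB ∩ VC` is integral over `R`. -/
theorem s36_e3_main {R F' F : Type*} [CommRing R] [IsDomain R] [IsDiscreteValuationRing R]
    [Field F'] [Field F] [Algebra R F'] [IsFractionRing R F'] [Algebra F' F] [Algebra R F]
    [IsScalarTower R F' F] [FiniteDimensional F' F] [Algebra.IsSeparable F' F]
    (q : ℕ) (hq : q.Prime) (hdeg : Module.finrank F' F ≤ q * (q + 1))
    {ϖ : R} (hϖ : Irreducible ϖ) (hqR : (q : R) ∈ IsLocalRing.maximalIdeal R)
    (VA VB VC : ValuationSubring F) (hAB : VA ≠ VB) (hAC : VA ≠ VC) (hBC : VB ≠ VC)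
    (hRA : ∀ r : R, algebraMap R F r ∈ VA) (hϖA : (algebraMap R F ϖ)⁻¹ ∉ VA)
    (hRB : ∀ r : R, algebraMap R F r ∈ VB) (hϖB : (algebraMap R F ϖ)⁻¹ ∉ VB)
    (hRC : ∀ r : R, algebraMap R F r ∈ VC)
    (θ : F) (c : R) (hθ : θ ∈ VB) (hθc : VB.valuation (θ ^ (q ^ 2) - algebraMap R F c) < 1)
    (hc : ∀ d : R, IsUnit (d ^ q - c))
    (z : F) (hz0 : z ≠ 0) (hz : VC.valuation z < 1)
    (hzn : algebraMap R F ϖ * (z ^ (q - 1))⁻¹ ∈ VC) :
    ∀ x : F, x ∈ VA → x ∈ VB → x ∈ VC → IsIntegral R x := by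
  classical
  have : IsDedekindDomain (integralClosure R F) := integralClosure.isDedekindDomain R F' F
  have : IsFractionRing (integralClosure R F) F :=
    integralClosure.isFractionRing_of_finite_extension F' F
  have : Module.Finite R (integralClosure R F) := IsIntegralClosure.finite R F' F _
  have hinj : Function.Injective (algebraMap R F) := by
    rw [IsScalarTower.algebraMap_eq R F' F]
    exact (algebraMap F' F).injective.comp (IsFractionRing.injective R F')
  have : FaithfulSMul R F := (faithfulSMul_iff_algebraMap_injective R F).2 hinj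
  set p := IsLocalRing.maximalIdeal R with hp
  have hp0 : p ≠ ⊥ := IsDiscreteValuationRing.not_a_field R
  have hϖF0 : algebraMap R F ϖ ≠ 0 := fun h =>
    hϖ.ne_zero (hinj (by rw [h, map_zero]))
  have hn : 1 ≤ q - 1 := by
    have := hq.two_le
    omega
  -- `ϖ` is a non-unit of `VC`
  have hϖClt : VC.valuation (algebraMap R F ϖ) < 1 := by
    have h1 : algebraMap R F ϖ = (algebraMap R F ϖ * (z ^ (q - 1))⁻¹) * z ^ (q - 1) := by
      rw [mul_assoc, inv_mul_cancel₀ (pow_ne_zero _ hz0), mul_one]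
    rw [h1, map_mul, map_pow]
    calc VC.valuation (algebraMap R F ϖ * (z ^ (q - 1))⁻¹) * VC.valuation z ^ (q - 1)
        ≤ 1 * VC.valuation z ^ (q - 1) :=
          mul_le_mul_left ((VC.valuation_le_one_iff _).2 hzn) _
      _ < 1 := by
          rw [one_mul]
          exact pow_lt_one₀ zero_le' hz (Nat.one_le_iff_ne_zero.1 hn)
  have hϖC : (algebraMap R F ϖ)⁻¹ ∉ VC := by
    intro h
    rw [← VC.valuation_le_one_iff, map_inv₀] at h
    have h0 : VC.valuation (algebraMap R F ϖ) ≠ 0 := (Valuation.ne_zero_iff _).2 hϖF0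
    have h2 : 1 ≤ VC.valuation (algebraMap R F ϖ) := (inv_le_one₀ (zero_lt_iff.2 h0)).1 h
    exact absurd hϖClt (not_lt.2 h2)
  obtain ⟨vA, hA1, hA2, hA3, hA4⟩ := s34_ext_prime hϖ VA hRA hϖA
  obtain ⟨vB, hB1, hB2, hB3, hB4⟩ := s34_ext_prime hϖ VB hRB hϖB
  obtain ⟨vC, hC1, hC2, hC3, hC4⟩ := s34_ext_prime hϖ VC hRC hϖC
  have hvAB : vA.asIdeal ≠ vB.asIdeal := by
    intro h
    have h' : vA = vB := HeightOneSpectrum.ext h
    apply hAB
    ext x
    rw [hA2, hB2, h']
  have hvAC : vA.asIdeal ≠ vC.asIdeal := by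
    intro h
    have h' : vA = vC := HeightOneSpectrum.ext h
    apply hAC
    ext x
    rw [hA2, hC2, h']
  have hvBC : vB.asIdeal ≠ vC.asIdeal := by
    intro h
    have h' : vB = vC := HeightOneSpectrum.ext h
    apply hBC
    ext x
    rw [hB2, hC2, h']
  have hTA : vA.asIdeal ∈ IsDedekindDomain.primesOverFinset p (integralClosure R F) :=
    (IsDedekindDomain.mem_primesOverFinset_iff hp0 _).2 ⟨vA.isPrime, hA4⟩
  have hTB : vB.asIdeal ∈ IsDedekindDomain.primesOverFinset p (integralClosure R F) :=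
    (IsDedekindDomain.mem_primesOverFinset_iff hp0 _).2 ⟨vB.isPrime, hB4⟩
  have hTC : vC.asIdeal ∈ IsDedekindDomain.primesOverFinset p (integralClosure R F) :=
    (IsDedekindDomain.mem_primesOverFinset_iff hp0 _).2 ⟨vC.isPrime, hC4⟩
  have hsum := Ideal.sum_ramification_inertia (integralClosure R F) F' F hp0
  have he : ∀ P ∈ IsDedekindDomain.primesOverFinset p (integralClosure R F),
      1 ≤ Ideal.ramificationIdx' p P := by
    intro P hP
    obtain ⟨hP1, hP2⟩ := (IsDedekindDomain.mem_primesOverFinset_iff hp0 _).1 hP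
    exact Nat.one_le_iff_ne_zero.2 (Ideal.IsDedekindDomain.ramificationIdx'_ne_zero_of_liesOver P hp0)
  have hf : ∀ P ∈ IsDedekindDomain.primesOverFinset p (integralClosure R F),
      1 ≤ Ideal.inertiaDeg' p P := by
    intro P hP
    obtain ⟨hP1, hP2⟩ := (IsDedekindDomain.mem_primesOverFinset_iff hp0 _).1 hP
    exact Ideal.inertiaDeg'_pos p P
  have hϖS0 : algebraMap R (integralClosure R F) ϖ ≠ 0 := by
    intro h
    have h2 := congrArg (algebraMap (integralClosure R F) F) h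
    rw [← IsScalarTower.algebraMap_apply, map_zero, ← map_zero (algebraMap R F)] at h2
    exact hϖ.ne_zero (hinj h2)
  -- residue degree of `VB`
  have hfB : q ^ 2 ≤ Ideal.inertiaDeg' p vB.asIdeal := by
    rw [Ideal.inertiaDeg'_algebraMap]
    obtain ⟨s0, hs0⟩ := vB.exists_valuation_sub_lt_of_integer ((hB2 θ).1 hθ) 1
    haveI : vB.asIdeal.IsMaximal := vB.isMaximal
    refine s36_e3_inertia_ge p vB.asIdeal q hq hqR c s0 ?_ ?_
    · rw [hB1]
      have hs0V : (s0 : F) ∈ VB := s34_ext_mem_of_integral VB hRB s0.2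
      let a : VB := ⟨(s0 : F), hs0V⟩
      let b : VB := ⟨θ, hθ⟩
      let c' : VB := ⟨algebraMap R F c, hRB c⟩
      have hab : a - b ∈ IsLocalRing.maximalIdeal VB := by
        rw [ValuationSubring.valuation_lt_one_iff, hB3]
        simpa using hs0
      have hbc : b ^ (q ^ 2) - c' ∈ IsLocalRing.maximalIdeal VB := by
        rw [ValuationSubring.valuation_lt_one_iff]
        exact hθc
      have hac : a ^ (q ^ 2) - c' ∈ IsLocalRing.maximalIdeal VB := by
        have h1 : a ^ (q ^ 2) - c' = (a ^ (q ^ 2) - b ^ (q ^ 2)) + (b ^ (q ^ 2) - c') := by ring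
        rw [h1]
        exact Ideal.add_mem _ (Ideal.mem_of_dvd _ (sub_dvd_pow_sub_pow a b (q ^ 2)) hab) hbc
      rw [ValuationSubring.valuation_lt_one_iff] at hac
      exact hac
    · intro d hd
      exact (IsLocalRing.mem_maximalIdeal _).1 hd (hc d)
  -- ramification index of `VC`
  have hvϖ : vC.valuation F (algebraMap R F ϖ)
      = WithZero.exp (-(Ideal.ramificationIdx' p vC.asIdeal : ℤ)) := by
    rw [IsScalarTower.algebraMap_apply R (integralClosure R F) F,
      HeightOneSpectrum.valuation_of_algebraMap]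
    exact s36_ext_val_ram p ϖ hϖ.maximalIdeal_eq hϖS0 vC
  have hzle : vC.valuation F z ≤ WithZero.exp (-1 : ℤ) :=
    s36_ext_val_le_exp vC z ((hC3 z).1 hz)
  have hzC0 : vC.valuation F z ≠ 0 := (Valuation.ne_zero_iff _).2 hz0
  have hϖle : vC.valuation F (algebraMap R F ϖ) ≤ vC.valuation F z ^ (q - 1) := by
    have h1 := (hC2 _).1 hzn
    rw [map_mul, map_inv₀, map_pow] at h1
    have h2 : (0 : WithZero (Multiplicative ℤ)) < vC.valuation F z ^ (q - 1) :=
      zero_lt_iff.2 (pow_ne_zero _ hzC0)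
    calc vC.valuation F (algebraMap R F ϖ)
        = (vC.valuation F (algebraMap R F ϖ) * (vC.valuation F z ^ (q - 1))⁻¹)
            * vC.valuation F z ^ (q - 1) := by
          rw [mul_assoc, inv_mul_cancel₀ h2.ne', mul_one]
      _ ≤ 1 * vC.valuation F z ^ (q - 1) := mul_le_mul_left h1 _
      _ = vC.valuation F z ^ (q - 1) := one_mul _
  have heC : q - 1 ≤ Ideal.ramificationIdx' p vC.asIdeal := by
    have h1 : WithZero.exp (-(Ideal.ramificationIdx' p vC.asIdeal : ℤ))
        ≤ WithZero.exp (-((q - 1 : ℕ) : ℤ)) := by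
      rw [← hvϖ, ← s36_ext_exp_pow]
      exact hϖle.trans (pow_le_pow_left₀ zero_le' hzle (q - 1))
    rw [WithZero.exp_le_exp] at h1
    omega
  have hall := s36_e3_count
    (IsDedekindDomain.primesOverFinset p (integralClosure R F))
    (fun P => Ideal.ramificationIdx' p P) (fun P => Ideal.inertiaDeg' p P) q
    vA.asIdeal vB.asIdeal vC.asIdeal hTA hTB hTC hvAB hvAC hvBC he hf hq.one_le hfB heC
    (hsum.trans_le hdeg)
  intro x hxA hxB hxC
  have hmem : x ∈ (algebraMap (integralClosure R F) F).range := by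
    apply HeightOneSpectrum.mem_integers_of_valuation_le_one
    intro v
    have hvT : v.asIdeal ∈ IsDedekindDomain.primesOverFinset p (integralClosure R F) := by
      rw [IsDedekindDomain.mem_primesOverFinset_iff hp0]
      refine ⟨v.isPrime, ⟨?_⟩⟩
      have hmax : (v.asIdeal.under R).IsMaximal :=
        Ideal.isMaximal_comap_of_isIntegral_of_isMaximal v.asIdeal
      exact (IsLocalRing.eq_maximalIdeal hmax).symm
    rcases hall _ hvT with h | h | h
    · have h' : v = vA := HeightOneSpectrum.ext h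
      rw [h']
      exact (hA2 x).1 hxA
    · have h' : v = vB := HeightOneSpectrum.ext h
      rw [h']
      exact (hB2 x).1 hxB
    · have h' : v = vC := HeightOneSpectrum.ext h
      rw [h']
      exact (hC2 x).1 hxC
  obtain ⟨s, rfl⟩ := hmem
  exact s.2

section TwoField

open Fermat.Agent.S35

/-- The two spellings of "uniformized ring" agree. -/
theorem s36_e3_unif {F : Type*} [Field F] {ϖ : F} {V : Subring F} (hV : s34_Unif ϖ V) :
    s35_Unif ϖ V :=
  ⟨hV.mem, hV.inv_not_mem, hV.decomp⟩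

/-- **(EXT3), subring / two-field form.**  `V'` a discrete valuation ring of `F''` with
uniformizer `ϖ''` and residue characteristic `q`, `ι : F'' →+* F` a finite extension of degree
`≤ q (q + 1)` in characteristic zero, `VA`, `VB`, `VC` pairwise distinct discrete valuation rings
of `F` containing `ι V'`, with uniformizers `ι ϖ''`, `ι ϖ''`, `z`, where `z ^ (q - 1) ∣ ι ϖ''` in
`VC`, and `θ ∈ VB`, `c ∈ V'` with `θ ^ (q ^ 2) ≡ ι c` modulo `ϖ VB` while `c` is not a `q`-th power
modulo `ϖ'' V'`.  Then every element of `VA ∩ VB ∩ VC` is integral over `ι V'`. -/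
theorem s36_e3_two {F'' F : Type*} [Field F''] [Field F] [CharZero F''] (ι : F'' →+* F)
    (hfin : letI := ι.toAlgebra; Module.Finite F'' F)
    (q : ℕ) (hq : q.Prime)
    (hdeg : letI := ι.toAlgebra; Module.finrank F'' F ≤ q * (q + 1))
    {ϖ'' : F''} (V' : Subring F'') (hV' : s35_Unif ϖ'' V') (hqϖ : ϖ''⁻¹ * (q : F'') ∈ V')
    (VA VB VC : Subring F) (hVA : s35_Unif (ι ϖ'') VA) (hVB : s35_Unif (ι ϖ'') VB)
    {z : F} (hVC : s35_Unif z VC)
    (hA : ∀ x ∈ V', ι x ∈ VA) (hB : ∀ x ∈ V', ι x ∈ VB) (hC : ∀ x ∈ V', ι x ∈ VC)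
    (hAB : ∃ x ∈ VA, x ∉ VB) (hAC : ∃ x ∈ VA, x ∉ VC) (hBC : ∃ x ∈ VB, x ∉ VC)
    (hzn : ι ϖ'' * (z ^ (q - 1))⁻¹ ∈ VC)
    (θ : F) (c : F'') (hc : c ∈ V') (hθ : θ ∈ VB)
    (hθc : (ι ϖ'')⁻¹ * (θ ^ (q ^ 2) - ι c) ∈ VB)
    (hpow : ∀ d ∈ V', ϖ''⁻¹ * (d ^ q - c) ∉ V') :
    ∀ y ∈ VA, y ∈ VB → y ∈ VC →
      ∃ P : Polynomial V', P.Monic ∧ P.eval₂ (ι.comp V'.subtype) y = 0 := by
  letI : Algebra F'' F := ι.toAlgebra
  letI : Algebra V' F := (ι.comp V'.subtype).toAlgebra
  haveI : IsScalarTower V' F'' F := IsScalarTower.of_algebraMap_eq (fun _ => rfl)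
  haveI : IsDiscreteValuationRing V' := hV'.isDVR
  haveI : IsFractionRing V' F'' := hV'.isFractionRing
  haveI : FiniteDimensional F'' F := hfin
  haveI : Algebra.IsSeparable F'' F := inferInstance
  have hzlt : (s36_ei_vs VC hVC).valuation z < 1 := by
    apply s36_ei_val_lt hVC
    rw [inv_mul_cancel₀ hVC.ne_zero]
    exact VC.one_mem
  have hqR : ((q : ℕ) : V') ∈ IsLocalRing.maximalIdeal V' := by
    rw [IsLocalRing.mem_maximalIdeal]
    intro hu
    obtain ⟨b, hb⟩ := isUnit_iff_exists_inv.mp hu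
    apply hV'.inv_not_mem
    have h1 : (q : F'') * (b : F'') = 1 := by
      have := congrArg (Subtype.val : V' → F'') hb
      simpa using this
    have hq0 : (q : F'') ≠ 0 := left_ne_zero_of_mul_eq_one h1
    have e : ϖ''⁻¹ = ϖ''⁻¹ * (q : F'') * (b : F'') := by
      rw [mul_assoc, h1, mul_one]
    rw [e]
    exact V'.mul_mem hqϖ b.2
  have key := s36_e3_main (R := V') (F' := F'') (F := F) q hq hdeg
    (ϖ := ⟨ϖ'', hV'.mem⟩) hV'.irreducible hqR
    (s36_ei_vs VA hVA) (s36_ei_vs VB hVB) (s36_ei_vs VC hVC)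
    (by
      obtain ⟨x, hx1, hx2⟩ := hAB
      intro h
      apply hx2
      have h3 : x ∈ s36_ei_vs VA hVA := hx1
      rw [h] at h3
      exact h3)
    (by
      obtain ⟨x, hx1, hx2⟩ := hAC
      intro h
      apply hx2
      have h3 : x ∈ s36_ei_vs VA hVA := hx1
      rw [h] at h3
      exact h3)
    (by
      obtain ⟨x, hx1, hx2⟩ := hBC
      intro h
      apply hx2
      have h3 : x ∈ s36_ei_vs VB hVB := hx1
      rw [h] at h3
      exact h3)
    (fun r => hA r r.2) hVA.inv_not_mem (fun r => hB r r.2) hVB.inv_not_mem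
    (fun r => hC r r.2)
    θ ⟨c, hc⟩ hθ (s36_ei_val_lt hVB _ hθc)
    (fun d => s36_ei_isUnit hV' _ (hpow d d.2))
    z hVC.ne_zero hzlt hzn
  intro y hyA hyB hyC
  obtain ⟨P, hP, hPy⟩ := key y hyA hyB hyC
  exact ⟨P, hP, hPy⟩

/-- `s36_e3_two` in the `s34_Unif` vocabulary. -/
theorem s36_e3_two' {F'' F : Type*} [Field F''] [Field F] [CharZero F''] (ι : F'' →+* F)
    (hfin : letI := ι.toAlgebra; Module.Finite F'' F)
    (q : ℕ) (hq : q.Prime)
    (hdeg : letI := ι.toAlgebra; Module.finrank F'' F ≤ q * (q + 1))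
    {ϖ'' : F''} (V' : Subring F'') (hV' : s34_Unif ϖ'' V') (hqϖ : ϖ''⁻¹ * (q : F'') ∈ V')
    (VA VB VC : Subring F) (hVA : s34_Unif (ι ϖ'') VA) (hVB : s34_Unif (ι ϖ'') VB)
    {z : F} (hVC : s34_Unif z VC)
    (hA : ∀ x ∈ V', ι x ∈ VA) (hB : ∀ x ∈ V', ι x ∈ VB) (hC : ∀ x ∈ V', ι x ∈ VC)
    (hAB : ∃ x ∈ VA, x ∉ VB) (hAC : ∃ x ∈ VA, x ∉ VC) (hBC : ∃ x ∈ VB, x ∉ VC)
    (hzn : ι ϖ'' * (z ^ (q - 1))⁻¹ ∈ VC)
    (θ : F) (c : F'') (hc : c ∈ V') (hθ : θ ∈ VB)
    (hθc : (ι ϖ'')⁻¹ * (θ ^ (q ^ 2) - ι c) ∈ VB)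
    (hpow : ∀ d ∈ V', ϖ''⁻¹ * (d ^ q - c) ∉ V') :
    ∀ y ∈ VA, y ∈ VB → y ∈ VC →
      ∃ P : Polynomial V', P.Monic ∧ P.eval₂ (ι.comp V'.subtype) y = 0 :=
  s36_e3_two ι hfin q hq hdeg V' (s36_e3_unif hV') hqϖ VA VB VC (s36_e3_unif hVA)
    (s36_e3_unif hVB) (s36_e3_unif hVC) hA hB hC hAB hAC hBC hzn θ c hc hθ hθc hpow

end TwoField

end Fermat.Agent.S36
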