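import Mathlib
import Fermat.Prelude.Def_ModularCurve_HeckeOperator
import Fermat.Agent.S34.CapInst
import Fermat.Agent.S34.GaussZeroModel
import Fermat.Agent.S36.DegSq
import Fermat.Agent.S36.ExtThree

/-!
# S36 (NODE-3), contract item (c-cap): the cap property of the charts of level `N q²`

`K` a field of characteristic zero with an embedding into `Q̄` (no Galois hypothesis), `A₁` a
discrete valuation ring of `K` with uniformizer `π`, `q` a prime with `q ∈ π A₁`, `q ∤ N`,
`F' = K · F_N`, `F = K · F_(N (q q))`, `α, β : F' → F` the two outer degeneracy maps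
(`α` the inclusion, `β : f(Q) ↦ f(Q^(q²))`), `V' = s34_gi_V A₁ N`,
`V_A = s34_gi_V A₁ (N (q q))` the `q`-expansion Gauss ring, `W` a swap of `F` (`W ∘ α = β`,
`W ∘ β = α`, `W π = π`), `V_B = V_A.comap W`, and `V_C` a third discrete valuation ring of `F`
(uniformizer `z`, `z ^ (q - 1) ∣ π` in `V_C`, `V_C ⊇ α V'`, `V_C ≠ V_A, V_B`).

* `s36_cq_frob_ring`, `s36_cq_frob` : the Frobenius congruence `(α x)^(q²) ≡ β x` modulo `π V_A`;
* `s36_cq_ne` : `V_A ≠ V_B`;
* `s36_cq_deg_bar`, `s36_cq_deg` : `[F : α F'] = q (q + 1)`;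
* `s36_cq_ha3` : every element of `V_A ∩ V_B ∩ V_C` is integral over `α V'`
  (from the three-valuation count `s36_e3_two'`);
* `s36_cq_cap` : the cap property `B ∩ π (V_A ⊓ V_B ⊓ V_C) = π B` of an integral-closure chart
  `B = s34_ic_chart A (α t)` of level `N m`, from the integrality statement (wrapper of the
  generic `s34_ci_cap`);
* `s36_cq_cap_model` : the two combined.
-/

set_option autoImplicit false
set_option synthInstance.maxHeartbeats 400000
set_option linter.unusedSectionVars false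
set_option linter.style.haveILetI false

open ModularCurve ModularCurve.IgusaScheme AlgebraicCurve

noncomputable section

namespace Fermat.Agent.S36

open Fermat.Agent.S18 Fermat.Agent.S28 Fermat.Agent.S34 Fermat.Agent.S29 Fermat.Agent.S24

local notation "Qb" => AlgebraicClosure ℚ

/-! ### The Frobenius congruence for `q²` -/

/-- The Frobenius congruence `T(Q)^(q²) ≡ T(Q^(q²))` after base change to a ring `R` in which
`q = π * c`. -/
theorem s36_cq_frob_ring (q : ℕ) [Fact q.Prime] {R : Type*} [CommRing R] (π c : R)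
    (hπ : (q : R) = π * c) (T : LaurentSeries ℤ) :
    haveI : NeZero q := ⟨(Fact.out : q.Prime).ne_zero⟩
    ∃ Y : LaurentSeries R, coeffMap (Int.castRingHom R) T ^ (q ^ 2) -
      qExpand R (q * q) (coeffMap (Int.castRingHom R) T) = HahnSeries.C π * Y := by
  haveI : NeZero q := ⟨(Fact.out : q.Prime).ne_zero⟩
  obtain ⟨Y₁, hY₁⟩ := s34_gz_frob_ring q π c hπ T
  set t := coeffMap (Int.castRingHom R) T with ht
  obtain ⟨Z, hZ⟩ := sub_dvd_pow_sub_pow (t ^ q) (qExpand R q t) q
  refine ⟨Y₁ * Z + qExpand R q Y₁, ?_⟩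
  have h1 : (qExpand R q t) ^ q = qExpand R q (t ^ q) := (map_pow _ _ _).symm
  have h0 : t ^ q = qExpand R q t + HahnSeries.C π * Y₁ := by rw [← hY₁]; ring
  have h2 : qExpand R q (t ^ q) =
      qExpand R q (qExpand R q t) + HahnSeries.C π * qExpand R q Y₁ := by
    rw [h0, map_add, map_mul, qExpand_C]
  have h3 : qExpand R q (qExpand R q t) = qExpand R (q * q) t := qExpand_qExpand q q t
  have e : t ^ (q ^ 2) - qExpand R (q * q) t =
      ((t ^ q) ^ q - (qExpand R q t) ^ q) + ((qExpand R q t) ^ q - qExpand R (q * q) t) := by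
    rw [sq, pow_mul]; ring
  rw [e, hZ, h1, h2, h3, hY₁]
  ring

section Model

variable {K : Type*} [Field K] [Algebra ℚ K] {A₁ : ValuationSubring K}
variable {N q : ℕ} [NeZero N] [NeZero q]
variable [IsDiscreteValuationRing A₁] {π : A₁}

local notation "F'" => laurentBaseChange K (modularFunctionFieldFull N)
local notation "FF" => laurentBaseChange K (modularFunctionFieldFull (N * (q * q)))

/-- The Frobenius congruence at infinity for `q²`: `π⁻¹ ((α x)^(q²) - β x) ∈ V_A` for `x` with an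
integral `q`-expansion. -/
theorem s36_cq_frob [Fact q.Prime] (hπ : Irreducible π) (c : A₁) (hq : (q : A₁) = π * c)
    (x : F') (T : LaurentSeries ℤ)
    (hT : (x : LaurentSeries K) = coeffMap (Int.castRingHom K) T) :
    (algebraMap K FF (π : K))⁻¹ *
        ((heckeAlphaBar K N (q * q) x) ^ (q ^ 2) - heckeBetaBar K N (q * q) x) ∈
      s34_gi_V A₁ (N * (q * q)) := by
  obtain ⟨Y, hY⟩ := s36_cq_frob_ring q π c hq T
  rw [s34_gi_pi_inv_mul_mem_iff hπ]
  refine ⟨1, Y, by rw [map_one]; exact one_ne_zero, ?_⟩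
  rw [map_one, one_mul, ← hY, map_sub, map_pow, coeffMap_qExpand, s34_gz_int_coe]
  show (heckeAlphaBar K N (q * q) x : LaurentSeries K) ^ (q ^ 2) -
    (heckeBetaBar K N (q * q) x : LaurentSeries K) = _
  rw [coe_heckeAlphaBar, coe_heckeBetaBar, hT]

/-- **`V_A ≠ V_B`**: an element of `V_A` which is not in `V_B`. -/
theorem s36_cq_ne [Fact q.Prime] (W : FF ≃+* FF) (hπ : Irreducible π) (c : A₁)
    (hq : (q : A₁) = π * c)
    (hWϖ : W (algebraMap K FF (π : K)) = algebraMap K FF (π : K))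
    (hWα : ∀ x : F', W (heckeAlphaBar K N (q * q) x) = heckeBetaBar K N (q * q) x)
    (hWβ : ∀ x : F', W (heckeBetaBar K N (q * q) x) = heckeAlphaBar K N (q * q) x)
    (x : F') (T : LaurentSeries ℤ) (hT : (x : LaurentSeries K) = coeffMap (Int.castRingHom K) T)
    (e : ℤ) (he : e ≠ 0) (hlead : T.coeff e = 1) (hlow : ∀ n < e, T.coeff n = 0) :
    ∃ z : FF, z ∈ s34_gi_V A₁ (N * (q * q)) ∧
      z ∉ (s34_gi_V A₁ (N * (q * q))).comap (W : FF →+* FF) := by
  have hx : x ∈ s34_gi_V A₁ N := s34_gz_mem_int x T hT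
  have hαx : heckeAlphaBar K N (q * q) x ∈ s34_gi_V A₁ (N * (q * q)) :=
    (s34_gz_alpha_mem_iff x).mpr hx
  have hTα : ((heckeAlphaBar K N (q * q) x : FF) : LaurentSeries K) =
      coeffMap (Int.castRingHom K) T := by
    rw [coe_heckeAlphaBar, hT]
  have hq2 : 2 ≤ (q ^ 2) ^ 2 := by
    have h2 := (Fact.out : q.Prime).two_le
    rw [← pow_mul]
    exact le_trans h2 (Nat.le_self_pow (by norm_num) q)
  have h := s34_gz_ne (V := s34_gi_V A₁ (N * (q * q))) W hWϖ (heckeAlphaBar K N (q * q) x) hαx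
    (by rw [hWα]; exact s34_gz_beta_mem hx) (by rw [hWα, hWβ]) (q ^ 2)
    (by rw [hWα]; exact s36_cq_frob hπ c hq x T hT)
    (s34_gi_red A₁ (N * (q * q)))
    (fun z hz => (s34_gi_red_eq_zero_iff hπ z).mpr hz)
    (by
      rw [s34_gz_red_int (N := N * (q * q)) (heckeAlphaBar K N (q * q) x) hαx T hTα]
      exact s34_gz_pow_ne ((q ^ 2) ^ 2) hq2 _
        (by rw [s34_gz_order_red T e hlead hlow]; exact he))
  exact ⟨_, h.1, h.2⟩

end Model

/-! ### The degree -/

/-- `[Q̄ · F(N q²) : Q̄ · F(N)] = q (q + 1)` for a prime `q ∤ N`. -/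
theorem s36_cq_deg_bar (N q : ℕ) [NeZero N] [NeZero q] (hq : q.Prime) (hqN : ¬ q ∣ N) :
    finrankAlong Qb (heckeAlphaBar Qb N (q * q)) = q * (q + 1) := by
  have h1 := s29_hd_finrank_alpha_mul N (q * q)
  have hpos : 0 < dedekindPsi N := Nat.pos_of_ne_zero (s18_d5_dedekindPsi_ne_zero N)
  have e : dedekindPsi (N * (q * q)) = dedekindPsi N * (q + 1) * q := by
    rw [← mul_assoc, idx_dedekindPsi_mul_of_dvd (mul_ne_zero (NeZero.ne N) hq.ne_zero) hq
      (Dvd.intro_left N rfl), idx_dedekindPsi_mul_of_not_dvd (NeZero.ne N) hq hqN]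
  rw [e] at h1
  apply Nat.eq_of_mul_eq_mul_right hpos
  rw [h1]
  ring

/-- `K · F(N q²)` is finite of degree `q (q + 1)` over `α (K · F(N))` for a prime `q ∤ N`. -/
theorem s36_cq_deg (K : Type*) [Field K] [Algebra ℚ K] [Algebra K Qb] (N q : ℕ) [NeZero N]
    [NeZero q] (hq : q.Prime) (hqN : ¬ q ∣ N) :
    letI := (heckeAlphaBar K N (q * q)).toRingHom.toAlgebra
    Module.Finite (laurentBaseChange K (modularFunctionFieldFull N))
        (laurentBaseChange K (modularFunctionFieldFull (N * (q * q)))) ∧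
      Module.finrank (laurentBaseChange K (modularFunctionFieldFull N))
        (laurentBaseChange K (modularFunctionFieldFull (N * (q * q)))) = q * (q + 1) :=
  s36_dg_finrank K N (q * q) (q * (q + 1)) (Nat.mul_pos hq.pos (Nat.succ_pos q))
    (s36_cq_deg_bar N q hq hqN)

/-! ### Integrality of `V_A ∩ V_B ∩ V_C` over the Gauss ring of level `N` -/

section Integral

variable {K : Type*} [Field K] [Algebra ℚ K] [Algebra K Qb] {A₁ : ValuationSubring K}
variable {N q : ℕ} [NeZero N] [NeZero q]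
variable [IsDiscreteValuationRing A₁] {π : A₁}

local notation "F'" => laurentBaseChange K (modularFunctionFieldFull N)
local notation "FF" => laurentBaseChange K (modularFunctionFieldFull (N * (q * q)))

/-- **(c-cap), integrality form.**  In the model of level `N q²` (`q ∤ N`), for a function `x` of
level `N` with an integral `q`-expansion of leading term `Q⁻¹`, a swap `W` and a third
discrete valuation ring `V_C ⊇ α V'` (uniformizer `z` with `z ^ (q - 1) ∣ π` in `V_C`) different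
from `V_A` and `V_B`: every element of `V_A ∩ V_B ∩ V_C` is integral over `α V'`. -/
theorem s36_cq_ha3 [Fact q.Prime] (hqN : ¬ q ∣ N) (hπ : Irreducible π) (c : A₁)
    (hq : (q : A₁) = π * c) (W : FF ≃+* FF)
    (hWϖ : W (algebraMap K FF (π : K)) = algebraMap K FF (π : K))
    (hWα : ∀ x : F', W (heckeAlphaBar K N (q * q) x) = heckeBetaBar K N (q * q) x)
    (hWβ : ∀ x : F', W (heckeBetaBar K N (q * q) x) = heckeAlphaBar K N (q * q) x)
    (x : F') (T : LaurentSeries ℤ) (hT : (x : LaurentSeries K) = coeffMap (Int.castRingHom K) T)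
    (hlead : T.coeff (-1) = 1) (hlow : ∀ n < (-1 : ℤ), T.coeff n = 0)
    (VC : Subring FF) {z : FF} (hVC : s34_Unif z VC)
    (hC : ∀ y ∈ s34_gi_V A₁ N, heckeAlphaBar K N (q * q) y ∈ VC)
    (hAC : ∃ y ∈ s34_gi_V A₁ (N * (q * q)), y ∉ VC)
    (hBC : ∃ y ∈ (s34_gi_V A₁ (N * (q * q))).comap (W : FF →+* FF), y ∉ VC)
    (hzn : algebraMap K FF (π : K) * (z ^ (q - 1))⁻¹ ∈ VC) :
    ∀ y ∈ s34_gi_V A₁ (N * (q * q)), y ∈ (s34_gi_V A₁ (N * (q * q))).comap (W : FF →+* FF) →
      y ∈ VC → ∃ P : Polynomial (s34_gi_V A₁ N), P.Monic ∧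
        P.eval₂ ((heckeAlphaBar K N (q * q)).toRingHom.comp (s34_gi_V A₁ N).subtype) y = 0 := by
  have hqp : q.Prime := Fact.out
  haveI : CharZero K := algebraRat.charZero K
  haveI : CharZero F' := charZero_of_injective_algebraMap (algebraMap K F').injective
  have hιϖ : (heckeAlphaBar K N (q * q)).toRingHom (algebraMap K F' (π : K)) =
      algebraMap K FF (π : K) := (heckeAlphaBar K N (q * q)).commutes (π : K)
  have hdeg := s36_cq_deg K N q hqp hqN
  have hV' := s34_gi_unif (A₁ := A₁) (N := N) hπ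
  have hVA : s34_Unif ((heckeAlphaBar K N (q * q)).toRingHom (algebraMap K F' (π : K)))
      (s34_gi_V A₁ (N * (q * q))) := by
    rw [hιϖ]
    exact s34_gi_unif hπ
  have hVB : s34_Unif ((heckeAlphaBar K N (q * q)).toRingHom (algebraMap K F' (π : K)))
      ((s34_gi_V A₁ (N * (q * q))).comap (W : FF →+* FF)) := by
    rw [hιϖ]
    exact s34_gz_V0_unif W hπ hWϖ
  have hx : x ∈ s34_gi_V A₁ N := s34_gz_mem_int x T hT
  have hθ := s34_gz_theta (V := s34_gi_V A₁ (N * (q * q))) W hWϖ (heckeAlphaBar K N (q * q) x)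
    ((s34_gz_alpha_mem_iff x).mpr hx) (by rw [hWα, hWβ]) (q ^ 2)
    (by rw [hWα]; exact s36_cq_frob hπ c hq x T hT)
  rw [hWα] at hθ
  have hnd : ¬ ((q : ℤ) ∣ (-1 : ℤ)) := by
    intro h
    have h1 : (q : ℤ) ∣ 1 := (dvd_neg).mp h
    have h2 : q ∣ 1 := by exact_mod_cast h1
    exact hqp.one_lt.ne' (Nat.dvd_one.mp h2)
  have hqϖ : (algebraMap K F' (π : K))⁻¹ * ((q : ℕ) : F') ∈ s34_gi_V A₁ N := by
    have h0 : ((q : ℕ) : K) = (π : K) * (c : K) := by
      have := congrArg (Subtype.val : A₁ → K) hq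
      simpa using this
    have h1 : ((q : ℕ) : F') = algebraMap K F' (π : K) * algebraMap K F' (c : K) := by
      rw [← map_mul, ← h0, map_natCast]
    rw [h1, inv_mul_cancel_left₀ hV'.ne_zero]
    exact s34_gi_algebraMap_mem c
  exact s36_e3_two' (heckeAlphaBar K N (q * q)).toRingHom hdeg.1 q hqp (le_of_eq hdeg.2)
    (s34_gi_V A₁ N) hV' hqϖ (s34_gi_V A₁ (N * (q * q)))
    ((s34_gi_V A₁ (N * (q * q))).comap (W : FF →+* FF)) VC hVA hVB hVC
    (fun y hy => (s34_gz_alpha_mem_iff y).mpr hy)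
    (fun y hy => (s34_gz_alpha_mem_V0_iff W hπ hWα y).mpr hy)
    hC
    (s36_cq_ne W hπ c hq hWϖ hWα hWβ x T hT (-1) (by norm_num) hlead hlow)
    hAC hBC
    (by rw [hιϖ]; exact hzn)
    (heckeBetaBar K N (q * q) x) x hx hθ.1
    (by rw [hιϖ]; exact hθ.2)
    (fun d hd => s34_gz_not_pow_model (ℓ := q) hπ x T hT (-1) hlead hlow hnd d hd)

end Integral

/-! ### The cap property -/

section Cap

variable {N : ℕ} [NeZero N] (m : ℕ) [NeZero m] {ℓ : ℕ} [Fact ℓ.Prime]
variable {K : Type*} [Field K] [Algebra ℚ K] {A : ValuationSubring K}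
variable {t : modularFunctionFieldFull N}
variable [IsDiscreteValuationRing A] {π : A}

local notation "FK" => laurentBaseChange K (modularFunctionFieldFull N)
local notation "FK'" => laurentBaseChange K (modularFunctionFieldFull (N * m))

/-- **(c-cap), generic chart form.**  The cap property of the integral-closure chart
`B = s34_ic_chart A (α t)` of level `N m` with respect to three subrings `V_A`, `V_B`, `V_C` of
`K · F_(N m)` such that every element of `V_A ∩ V_B ∩ V_C` is integral over the Gauss ring of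
level `N`:  `x ∈ B`, `π⁻¹ x ∈ V_A ⊓ V_B ⊓ V_C` implies `π⁻¹ x ∈ B`. -/
theorem s36_cq_cap (hR : s18_ResBasis ℓ A π) (h : s18_cz_Coord N ℓ t)
    {B : Subring (LaurentSeries ℚ)} (hB : CoreData N ℓ B)
    (hchart : s18_Chart (algebraMap A FK π) (s18_chAlg N ℓ A t).toSubring)
    (hsm : s18_SmHyp π (s18_coord K t) (s18_chAlg N ℓ A t))
    (VA VB VC : Subring FK')
    (ha3 : ∀ y ∈ VA, y ∈ VB → y ∈ VC → ∃ P : Polynomial (s34_gi_V A N), P.Monic ∧
      P.eval₂ ((heckeAlphaBar K N m).toRingHom.comp (s34_gi_V A N).subtype) y = 0) :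
    ∀ x ∈ (s34_ic_chart A (heckeAlphaBar K N m (s18_coord K t))).toSubring,
      (algebraMap A FK' π)⁻¹ * x ∈ VA ⊓ VB ⊓ VC →
      (algebraMap A FK' π)⁻¹ * x ∈
        (s34_ic_chart A (heckeAlphaBar K N m (s18_coord K t))).toSubring := by
  intro x hx hV
  exact s34_ci_cap m hR h hB hchart hsm (VA ⊓ VC) VB
    (fun y hy1 hy2 => ha3 y hy1.1 hy2 hy1.2) x hx ⟨hV.1.1, hV.2⟩ hV.1.2

end Cap

section CapModel

variable {K : Type*} [Field K] [Algebra ℚ K] [Algebra K Qb] {A₁ : ValuationSubring K}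
variable {N q : ℕ} [NeZero N] [NeZero q]
variable [IsDiscreteValuationRing A₁] {π : A₁}
variable {t : modularFunctionFieldFull N}

local notation "F'" => laurentBaseChange K (modularFunctionFieldFull N)
local notation "FF" => laurentBaseChange K (modularFunctionFieldFull (N * (q * q)))

/-- **(c-cap) in the model of level `N q²`**: for a coordinate `t` of level `N` with its smooth
S18 chart (hypotheses `hchart`, `hsm`: the level-`N` chart package over `K`, no Galois hypothesis
here), the integral-closure chart `B = s34_ic_chart A₁ (α t)` of level `N (q q)` satisfies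
`B ∩ π (V_A ⊓ V_B ⊓ V_C) = π B`. -/
theorem s36_cq_cap_model [Fact q.Prime] (hqN : ¬ q ∣ N) (hR : s18_ResBasis q A₁ π)
    (h : s18_cz_Coord N q t) {B : Subring (LaurentSeries ℚ)} (hB : CoreData N q B)
    (hchart : s18_Chart (algebraMap A₁ F' π) (s18_chAlg N q A₁ t).toSubring)
    (hsm : s18_SmHyp π (s18_coord K t) (s18_chAlg N q A₁ t))
    (c : A₁) (hq : (q : A₁) = π * c) (W : FF ≃+* FF)
    (hWϖ : W (algebraMap K FF (π : K)) = algebraMap K FF (π : K))
    (hWα : ∀ x : F', W (heckeAlphaBar K N (q * q) x) = heckeBetaBar K N (q * q) x)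
    (hWβ : ∀ x : F', W (heckeBetaBar K N (q * q) x) = heckeAlphaBar K N (q * q) x)
    (x : F') (T : LaurentSeries ℤ) (hT : (x : LaurentSeries K) = coeffMap (Int.castRingHom K) T)
    (hlead : T.coeff (-1) = 1) (hlow : ∀ n < (-1 : ℤ), T.coeff n = 0)
    (VC : Subring FF) {z : FF} (hVC : s34_Unif z VC)
    (hC : ∀ y ∈ s34_gi_V A₁ N, heckeAlphaBar K N (q * q) y ∈ VC)
    (hAC : ∃ y ∈ s34_gi_V A₁ (N * (q * q)), y ∉ VC)
    (hBC : ∃ y ∈ (s34_gi_V A₁ (N * (q * q))).comap (W : FF →+* FF), y ∉ VC)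
    (hzn : algebraMap K FF (π : K) * (z ^ (q - 1))⁻¹ ∈ VC) :
    ∀ b ∈ (s34_ic_chart A₁ (heckeAlphaBar K N (q * q) (s18_coord K t))).toSubring,
      (algebraMap A₁ FF π)⁻¹ * b ∈
        s34_gi_V A₁ (N * (q * q)) ⊓ (s34_gi_V A₁ (N * (q * q))).comap (W : FF →+* FF) ⊓ VC →
      (algebraMap A₁ FF π)⁻¹ * b ∈
        (s34_ic_chart A₁ (heckeAlphaBar K N (q * q) (s18_coord K t))).toSubring :=
  s36_cq_cap (q * q) hR h hB hchart hsm _ _ _
    (s36_cq_ha3 hqN hR.irr c hq W hWϖ hWα hWβ x T hT hlead hlow VC hVC hC hAC hBC hzn)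

end CapModel

end Fermat.Agent.S36
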