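import Fermat.Agent.S34.IcChart
import Fermat.Agent.S18.ChConc

/-!
# S36 (NODE-3), B2 route (a): the finiteness inputs `hfrob` and `hgen` at a point of a chart

Model inputs (M2), (M3) of the thickness-one assembly (`s36_th_core_D`, `s36_thp_core`,
`s36_dnk_chart`), for a chart `B : Subalgebra A₀ F` that is a finitely generated `A₀`-algebra
(e.g. `s34_ic_chart A₀ t`, `s36_cf_ic_adjoin`) over a base `A₀` with finite residue ring
`A₀ / π` (`s36_cf_res_finite` from `s18_ResBasis`):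

* `s36_cf_frob_abs`, `s36_cf_hfrob`, `s36_cf_ic_hfrob` : every element of the chart is a `q`-th
  power modulo a maximal ideal `𝔪 ∋ π` — the hypothesis `hfrob` (Zariski's lemma: the residue
  field is finite, hence perfect);
* `s36_cf_hgen`, `s36_cf_ic_hgen` : for any ring hom `r` from the chart to a field `E` mapping the
  constants `A₀` into a subring `k₀`, the image `r(B)` lies in the subring generated by `k₀` and
  finitely many `r (b i)` — the hypothesis `hgen` of `s36_dnk_chart`.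
-/

set_option autoImplicit false
set_option linter.style.haveILetI false
set_option linter.unusedSectionVars false

namespace Fermat.Agent.S36

open Polynomial IntermediateField Fermat.Agent.S18 Fermat.Agent.S34

/-- **Frobenius is onto modulo a closed point** (abstract): `φ : A₀ →+* R` of finite type, `𝔪` a
maximal ideal of `R` containing `φ π`, `A₀ / π` finite, `q` a prime number with `q ∈ π A₀`. Then
every element of `R` is a `q`-th power modulo `𝔪` (the residue field `R / 𝔪` is finite, hence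
perfect). -/
theorem s36_cf_frob_abs {A₀ R : Type*} [CommRing A₀] [CommRing R] (φ : A₀ →+* R)
    (hft : φ.FiniteType) (𝔪 : Ideal R) [h𝔪 : 𝔪.IsMaximal] (π : A₀) (hπ : φ π ∈ 𝔪)
    [Finite (A₀ ⧸ Ideal.span {π})] (q : ℕ) [hq : Fact q.Prime]
    (hqπ : (q : A₀) ∈ Ideal.span {π}) :
    ∀ f : R, ∃ g : R, f - g ^ q ∈ 𝔪 := by
  letI : Field (R ⧸ 𝔪) := Ideal.Quotient.field 𝔪
  have hspan : ∀ a ∈ Ideal.span {π}, φ a ∈ 𝔪 := by
    intro a ha
    obtain ⟨c, rfl⟩ := Ideal.mem_span_singleton'.mp ha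
    rw [map_mul]
    exact 𝔪.mul_mem_left _ hπ
  have hq𝔪 : (q : R) ∈ 𝔪 := by
    have := hspan _ hqπ
    rwa [map_natCast] at this
  -- the residue field is a finite type algebra over the finite ring `A₀ / π`
  have hle : ∀ a ∈ Ideal.span {π}, ((Ideal.Quotient.mk 𝔪).comp φ) a = 0 := by
    intro a ha
    rw [RingHom.comp_apply, Ideal.Quotient.eq_zero_iff_mem]
    exact hspan a ha
  let ψ : A₀ ⧸ Ideal.span {π} →+* R ⧸ 𝔪 :=
    Ideal.Quotient.lift (Ideal.span {π}) ((Ideal.Quotient.mk 𝔪).comp φ) hle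
  have hψ : ψ.comp (Ideal.Quotient.mk (Ideal.span {π})) = (Ideal.Quotient.mk 𝔪).comp φ :=
    Ideal.Quotient.lift_comp_mk _ _ _
  have hft2 : ((Ideal.Quotient.mk 𝔪).comp φ).FiniteType :=
    RingHom.FiniteType.comp (RingHom.FiniteType.of_surjective _ Ideal.Quotient.mk_surjective) hft
  have hψft : ψ.FiniteType := by
    rw [← hψ] at hft2
    exact RingHom.FiniteType.of_comp_finiteType hft2
  have hψfin : ψ.Finite := RingHom.finite_iff_finiteType_of_isJacobsonRing.mpr hψft
  have hfin : Finite (R ⧸ 𝔪) := by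
    letI := ψ.toAlgebra
    have : Module.Finite (A₀ ⧸ Ideal.span {π}) (R ⧸ 𝔪) := hψfin
    exact Module.finite_of_finite (A₀ ⧸ Ideal.span {π})
  -- characteristic `q`
  have hchar : CharP (R ⧸ 𝔪) q := by
    rw [CharP.charP_iff_prime_eq_zero hq.out]
    have := Ideal.Quotient.eq_zero_iff_mem.mpr hq𝔪
    rwa [map_natCast] at this
  have hsurj : Function.Surjective (frobenius (R ⧸ 𝔪) q) :=
    Finite.injective_iff_surjective.mp (frobenius_inj (R ⧸ 𝔪) q)
  intro f
  obtain ⟨gb, hgb⟩ := hsurj (Ideal.Quotient.mk 𝔪 f)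
  obtain ⟨g, rfl⟩ := Ideal.Quotient.mk_surjective gb
  refine ⟨g, ?_⟩
  rw [← Ideal.Quotient.eq_zero_iff_mem, map_sub, map_pow, sub_eq_zero]
  exact hgb.symm

section Sub

variable {A₀ F : Type*} [CommRing A₀] [Field F] [Algebra A₀ F]

/-- Induction on a finitely generated chart `B = A₀[S]`, in terms of the subring `B.toSubring`. -/
theorem s36_cf_ind (B : Subalgebra A₀ F) (S : Finset F)
    (hS : Algebra.adjoin A₀ (S : Set F) = B) (P : B.toSubring → Prop)
    (hgen : ∀ x : B.toSubring, (x : F) ∈ S → P x)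
    (halg : ∀ a : A₀, P ⟨algebraMap A₀ F a, B.algebraMap_mem a⟩)
    (hadd : ∀ x y, P x → P y → P (x + y)) (hmul : ∀ x y, P x → P y → P (x * y)) :
    ∀ x, P x := by
  have key : ∀ y ∈ Algebra.adjoin A₀ (S : Set F), ∀ hy : y ∈ B.toSubring, P ⟨y, hy⟩ := by
    intro y hy
    induction hy using Algebra.adjoin_induction with
    | mem y hy => exact fun h => hgen ⟨y, h⟩ hy
    | algebraMap a => exact fun _ => halg a
    | add x y hx hy ihx ihy =>
      intro h
      have hx' : x ∈ B.toSubring := by rw [← hS]; exact hx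
      have hy' : y ∈ B.toSubring := by rw [← hS]; exact hy
      exact hadd ⟨x, hx'⟩ ⟨y, hy'⟩ (ihx hx') (ihy hy')
    | mul x y hx hy ihx ihy =>
      intro h
      have hx' : x ∈ B.toSubring := by rw [← hS]; exact hx
      have hy' : y ∈ B.toSubring := by rw [← hS]; exact hy
      exact hmul ⟨x, hx'⟩ ⟨y, hy'⟩ (ihx hx') (ihy hy')
  intro x
  have hx : (x : F) ∈ Algebra.adjoin A₀ (S : Set F) := by rw [hS]; exact x.2
  exact key x.1 hx x.2

/-- **`hgen`** of `s36_dnk_chart` for a finitely generated chart: the image of the chart under any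
ring hom `r` to a field lies in the subring generated by the image `k₀` of the constants and
finitely many `r (b i)`. -/
theorem s36_cf_hgen {E : Type*} [Field E] (B : Subalgebra A₀ F) (S : Finset F)
    (hS : Algebra.adjoin A₀ (S : Set F) = B) (r : B.toSubring →+* E) (k₀ : Subring E)
    (hk₀ : ∀ a : A₀, r ⟨algebraMap A₀ F a, B.algebraMap_mem a⟩ ∈ k₀) :
    ∃ (n : ℕ) (b : Fin n → B.toSubring),
      ∀ a : B.toSubring, r a ∈ Subring.closure ((k₀ : Set E) ∪ Set.range (fun i => r (b i))) := by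
  classical
  have hSB : ∀ s ∈ S, s ∈ B.toSubring := by
    intro s hs
    have : s ∈ Algebra.adjoin A₀ (S : Set F) := Algebra.subset_adjoin (Finset.mem_coe.mpr hs)
    rw [hS] at this
    exact this
  let e := S.equivFin
  refine ⟨S.card, fun i => ⟨((e.symm i : S) : F), hSB _ (e.symm i).2⟩, ?_⟩
  refine s36_cf_ind B S hS _ ?_ ?_ ?_ ?_
  · intro x hx
    apply Subring.subset_closure
    right
    refine ⟨e ⟨(x : F), hx⟩, ?_⟩
    show r ⟨((e.symm (e ⟨(x : F), hx⟩) : S) : F), _⟩ = r x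
    congr 1
    apply Subtype.ext
    show ((e.symm (e ⟨(x : F), hx⟩) : S) : F) = (x : F)
    rw [Equiv.symm_apply_apply]
  · intro a
    exact Subring.subset_closure (Or.inl (hk₀ a))
  · intro x y hx hy
    rw [map_add]
    exact Subring.add_mem _ hx hy
  · intro x y hx hy
    rw [map_mul]
    exact Subring.mul_mem _ hx hy

/-- **`hfrob`** for a finitely generated chart over a base with finite residue ring `A₀ / π`:
every element of the chart is a `q`-th power modulo a maximal ideal containing `π`. -/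
theorem s36_cf_hfrob (B : Subalgebra A₀ F) (S : Finset F)
    (hS : Algebra.adjoin A₀ (S : Set F) = B) (𝔪 : Ideal B.toSubring) [𝔪.IsMaximal] (π : A₀)
    (hπ : (⟨algebraMap A₀ F π, B.algebraMap_mem π⟩ : B.toSubring) ∈ 𝔪)
    [Finite (A₀ ⧸ Ideal.span {π})] (q : ℕ) [Fact q.Prime] (hqπ : (q : A₀) ∈ Ideal.span {π}) :
    ∀ f : B.toSubring, ∃ g : B.toSubring, f - g ^ q ∈ 𝔪 := by
  let φ : A₀ →+* B.toSubring :=
    (algebraMap A₀ F).codRestrict B.toSubring (fun a => B.algebraMap_mem a)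
  let e : B →+* B.toSubring := (B.val : B →+* F).codRestrict B.toSubring (fun x => x.2)
  have he : Function.Surjective e := fun x => ⟨⟨x.1, x.2⟩, rfl⟩
  have hφ : φ = e.comp (algebraMap A₀ B) := rfl
  have hft0 : Algebra.FiniteType A₀ B := (Subalgebra.fg_iff_finiteType B).mp ⟨S, hS⟩
  have hft : φ.FiniteType := by
    rw [hφ]
    exact RingHom.FiniteType.comp (RingHom.FiniteType.of_surjective e he)
      (RingHom.finiteType_algebraMap.mpr hft0)
  exact s36_cf_frob_abs φ hft 𝔪 π hπ q hqπ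

end Sub

section Res

variable {K : Type*} [Field K] [Algebra ℚ K] (ℓ : ℕ) [Fact ℓ.Prime] (A : ValuationSubring K)

/-- Under `s18_ResBasis`, the maximal ideal of `A` is `π A`; in particular `ℓ ∈ π A`. -/
theorem s36_cf_res_ell {π : A} (hR : s18_ResBasis ℓ A π) :
    ((ℓ : ℕ) : A) ∈ Ideal.span {π} := by
  have hm := s18_ell_mem_maximalIdeal ℓ A hR.unit
  rw [Ideal.mem_span_singleton]
  rcases ValuationRing.dvd_total ((ℓ : ℕ) : A) π with h | h
  · obtain ⟨u, hu⟩ := h
    rcases hR.irr.isUnit_or_isUnit hu with h1 | h1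
    · exact absurd h1 hm
    · obtain ⟨v, rfl⟩ := h1
      exact ⟨((v⁻¹ : Aˣ) : A), by rw [hu, mul_assoc, Units.mul_inv, mul_one]⟩
  · exact h

/-- Under `s18_ResBasis`, the residue ring `A / π` is finite. -/
theorem s36_cf_res_finite {π : A} (hR : s18_ResBasis ℓ A π) :
    Finite (A ⧸ Ideal.span {π}) := by
  classical
  have hℓ : 0 < ℓ := (Fact.out : ℓ.Prime).pos
  obtain ⟨f, a, hspan, -⟩ := hR.basis
  have hℓπ := s36_cf_res_ell ℓ A hR
  let g : (Fin f → Fin ℓ) → A ⧸ Ideal.span {π} :=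
    fun c => Ideal.Quotient.mk _ (∑ i, (((c i : ℕ) : ℤ) : A) * a i)
  refine Finite.of_surjective g ?_
  intro xb
  obtain ⟨x, rfl⟩ := Ideal.Quotient.mk_surjective xb
  obtain ⟨c, y, rfl⟩ := hspan x
  refine ⟨fun i => ⟨(c i % (ℓ : ℤ)).toNat, ?_⟩, ?_⟩
  · have h1 : 0 ≤ c i % (ℓ : ℤ) := Int.emod_nonneg _ (by exact_mod_cast hℓ.ne')
    have h2 : c i % (ℓ : ℤ) < ℓ := Int.emod_lt_of_pos _ (by exact_mod_cast hℓ)
    omega
  · show Ideal.Quotient.mk _ _ = Ideal.Quotient.mk _ _
    rw [Ideal.Quotient.eq]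
    have e : ∀ i, (((((c i % (ℓ : ℤ)).toNat : ℕ) : ℤ) : A)) * a i - (c i : A) * a i
        = ((ℓ : ℕ) : A) * (-(((c i / (ℓ : ℤ) : ℤ) : A)) * a i) := by
      intro i
      have h1 : 0 ≤ c i % (ℓ : ℤ) := Int.emod_nonneg _ (by exact_mod_cast hℓ.ne')
      have h3 : (((c i % (ℓ : ℤ)).toNat : ℕ) : ℤ) = c i - (ℓ : ℤ) * (c i / (ℓ : ℤ)) := by
        rw [Int.toNat_of_nonneg h1, Int.emod_def]
      rw [h3]
      push_cast
      ring
    have e2 : ∑ i, (((((c i % (ℓ : ℤ)).toNat : ℕ) : ℤ) : A)) * a i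
        - (∑ i, (c i : A) * a i + π * y)
        = ((ℓ : ℕ) : A) * (∑ i, (-(((c i / (ℓ : ℤ) : ℤ) : A)) * a i)) - π * y := by
      rw [Finset.mul_sum, ← Finset.sum_congr rfl (fun i _ => e i), Finset.sum_sub_distrib]
      ring
    rw [e2]
    exact Ideal.sub_mem _ (Ideal.mul_mem_right _ _ hℓπ)
      (Ideal.mul_mem_right _ _ (Ideal.subset_span rfl))

end Res

section Ic

variable {A₀ K F : Type*} [CommRing A₀] [IsDomain A₀] [IsNoetherianRing A₀]
  [UniqueFactorizationMonoid A₀] [Field K] [CharZero K] [Algebra A₀ K] [IsFractionRing A₀ K]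
  [Field F] [Algebra K F] [Algebra A₀ F] [IsScalarTower A₀ K F]

/-- The integral-closure chart is a finitely generated `A₀`-algebra. -/
theorem s36_cf_ic_adjoin (t : F) (ht : Transcendental K t) [FiniteDimensional K⟮t⟯ F] :
    ∃ S : Finset F, Algebra.adjoin A₀ (S : Set F) = s34_ic_chart A₀ t := by
  classical
  obtain ⟨gen, hgen, hspan⟩ := s34_ic_gen (A₀ := A₀) (K := K) t ht
  refine ⟨insert t gen, ?_⟩
  apply le_antisymm
  · refine Algebra.adjoin_le ?_
    intro y hy
    rcases Finset.mem_insert.mp (Finset.mem_coe.mp hy) with rfl | hy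
    · exact s34_ic_t_mem y
    · exact hgen y hy
  · intro x hx
    obtain ⟨c, rfl⟩ := hspan x hx
    refine Subalgebra.sum_mem _ fun m hm => Subalgebra.mul_mem _ ?_
      (Algebra.subset_adjoin (Finset.mem_coe.mpr (Finset.mem_insert_of_mem hm)))
    have hmono : Algebra.adjoin A₀ ({t} : Set F) ≤
        Algebra.adjoin A₀ ((insert t gen : Finset F) : Set F) :=
      Algebra.adjoin_mono (by
        intro z hz
        rw [Set.mem_singleton_iff] at hz
        rw [hz]
        exact Finset.mem_coe.mpr (Finset.mem_insert_self t gen))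
    exact hmono (aeval_mem_adjoin_singleton A₀ t)

/-- **`hfrob`** at a closed point `𝔪 ∋ π` of the integral-closure chart. -/
theorem s36_cf_ic_hfrob (t : F) (ht : Transcendental K t) [FiniteDimensional K⟮t⟯ F]
    (𝔪 : Ideal (s34_ic_chart A₀ t).toSubring) [𝔪.IsMaximal] (π : A₀)
    (hπ : (⟨algebraMap A₀ F π, (s34_ic_chart A₀ t).algebraMap_mem π⟩ :
      (s34_ic_chart A₀ t).toSubring) ∈ 𝔪)
    [Finite (A₀ ⧸ Ideal.span {π})] (q : ℕ) [Fact q.Prime] (hqπ : (q : A₀) ∈ Ideal.span {π}) :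
    ∀ f : (s34_ic_chart A₀ t).toSubring, ∃ g : (s34_ic_chart A₀ t).toSubring,
      f - g ^ q ∈ 𝔪 := by
  obtain ⟨S, hS⟩ := s36_cf_ic_adjoin (A₀ := A₀) (K := K) t ht
  exact s36_cf_hfrob (s34_ic_chart A₀ t) S hS 𝔪 π hπ q hqπ

/-- **`hgen`** of `s36_dnk_chart` for the integral-closure chart. -/
theorem s36_cf_ic_hgen {E : Type*} [Field E] (t : F) (ht : Transcendental K t)
    [FiniteDimensional K⟮t⟯ F] (r : (s34_ic_chart A₀ t).toSubring →+* E) (k₀ : Subring E)
    (hk₀ : ∀ a : A₀, r ⟨algebraMap A₀ F a, (s34_ic_chart A₀ t).algebraMap_mem a⟩ ∈ k₀) :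
    ∃ (n : ℕ) (b : Fin n → (s34_ic_chart A₀ t).toSubring),
      ∀ a : (s34_ic_chart A₀ t).toSubring,
        r a ∈ Subring.closure ((k₀ : Set E) ∪ Set.range (fun i => r (b i))) := by
  obtain ⟨S, hS⟩ := s36_cf_ic_adjoin (A₀ := A₀) (K := K) t ht
  exact s36_cf_hgen (s34_ic_chart A₀ t) S hS r k₀ hk₀

end Ic

end Fermat.Agent.S36
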