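import Mathlib
import Fermat.Agent.S36.ClassPtQ
import Fermat.Agent.S36.NrChain

/-!
# S36 (NODE-3), contract item (c-class) from `α`-side chart data and the swaps

`s36_csym_cls` : the conclusion of `s36_clq_main` (ClassPtQ) — at every prime `𝔭` of the chart `B`
of level `N₁ q²`, two of the three branch ideals `P_A`, `P_B`, `P_C` contained in `𝔭` force the
third — from

* the components package `pkg : s36_nc_Pkg ι ϖ'' z n Vi V0 VA VB VC W` (`S36/NrChain.lean`);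
* the level-`q` swap `w` (an involution fixing `ϖ''`, `V0 = w⁻¹ Vi`) preserving the level-`q`
  chart `B'`, and `W B ⊆ B`;
* chart data along `α = ι` ONLY (the binders of `s36_pta_tri`, PowTriAll): `hαB`, `hint`,
  `hresαC`, `hresαB`, the cap `hcap`, and the level-`q` thickness statement `hq`.

The `β`-side hypotheses of `s36_clq_main` (`β = W ∘ ι ∘ w`) are obtained by transport along the
swaps, and `hAB` from `s36_clq_ab_pow`.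

`s36_csym_field` : the same at the maximal ideals (the field `cls` of `s36_ptb_Pts`, PtsPow).
-/

set_option autoImplicit false
set_option linter.unusedSectionVars false
set_option linter.style.haveILetI false

namespace Fermat.Agent.S36

open Fermat.Agent.S18 Fermat.Agent.S34 Fermat.Agent.S35

variable {F'' F : Type*} [Field F''] [Field F]

set_option maxHeartbeats 1000000 in
/-- **(c-class) from `α`-side chart data and the swaps.** -/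
theorem s36_csym_cls (ι : F'' →+* F) {ϖ'' : F''} {z : F} {n : ℕ} {Vi V0 : Subring F''}
    {VA VB VC : Subring F} {W : F ≃+* F}
    (pkg : s36_nc_Pkg ι ϖ'' z n Vi V0 VA VB VC W)
    (w : F'' ≃+* F'') (hww : ∀ x, w (w x) = x) (hwϖ : w ϖ'' = ϖ'')
    (hV0 : ∀ x, x ∈ V0 ↔ w x ∈ Vi)
    (B : Subring F) (hBA : B ≤ VA) (hBB : B ≤ VB) (hBC : B ≤ VC) (hWB : ∀ x ∈ B, W x ∈ B)
    (hcap : ∀ x ∈ B, (ι ϖ'')⁻¹ * x ∈ VA → (ι ϖ'')⁻¹ * x ∈ VB → (ι ϖ'')⁻¹ * x ∈ VC →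
      (ι ϖ'')⁻¹ * x ∈ B)
    (B' : Subring F'') (hB'i : B' ≤ Vi) (hwB' : ∀ x ∈ B', w x ∈ B')
    (hαB : ∀ x ∈ B', ι x ∈ B)
    (hint : ∀ x ∈ B, ∃ P : Polynomial B', P.Monic ∧ P.eval₂ (ι.comp B'.subtype) x = 0)
    (hresαC : ∀ y ∈ B, ∃ y' ∈ B', z⁻¹ * (y - ι y') ∈ VC)
    (hresαB : ∀ y ∈ B, ∃ y' ∈ B', (ι ϖ'')⁻¹ * (y ^ (n + 1) - ι y') ∈ VB)
    (hq : ∀ 𝔪' : Ideal B', 𝔪'.IsPrime → (∀ p : B', ϖ''⁻¹ * (p : F'') ∈ Vi → p ∈ 𝔪') →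
      (∀ p : B', ϖ''⁻¹ * (p : F'') ∈ V0 → p ∈ 𝔪') →
      ∃ u₁ u₂ γ : B', (u₁ : F'') * (u₂ : F'') = ϖ'' * (γ : F'') ∧ ϖ''⁻¹ * (u₁ : F'') ∈ Vi ∧
        ϖ''⁻¹ * (u₂ : F'') ∈ V0 ∧ γ ∉ 𝔪')
    (𝔭 : Ideal B) [h𝔭 : 𝔭.IsPrime] :
    ((∀ p : B, (ι ϖ'')⁻¹ * (p : F) ∈ VA → p ∈ 𝔭) →
      (∀ p : B, (ι ϖ'')⁻¹ * (p : F) ∈ VB → p ∈ 𝔭) → ∀ p : B, z⁻¹ * (p : F) ∈ VC → p ∈ 𝔭) ∧
    ((∀ p : B, (ι ϖ'')⁻¹ * (p : F) ∈ VB → p ∈ 𝔭) → (∀ p : B, z⁻¹ * (p : F) ∈ VC → p ∈ 𝔭) →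
      ∀ p : B, (ι ϖ'')⁻¹ * (p : F) ∈ VA → p ∈ 𝔭) ∧
    ((∀ p : B, (ι ϖ'')⁻¹ * (p : F) ∈ VA → p ∈ 𝔭) → (∀ p : B, z⁻¹ * (p : F) ∈ VC → p ∈ 𝔭) →
      ∀ p : B, (ι ϖ'')⁻¹ * (p : F) ∈ VB → p ∈ 𝔭) := by
  have hϖ0 : ι ϖ'' ≠ 0 := pkg.hA.ne_zero
  have hz0 : z ≠ 0 := pkg.hC.ne_zero
  have hn := pkg.hn
  have hWW := pkg.hWW
  -- `β = W ∘ ι ∘ w`
  have hβapp : ∀ x, ((W : F →+* F).comp (ι.comp (w : F'' →+* F''))) x = W (ι (w x)) :=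
    fun x => rfl
  have hB'0 : B' ≤ V0 := fun x hx => (hV0 x).mpr (hB'i (hwB' x hx))
  have hβB : ∀ x ∈ B', ((W : F →+* F).comp (ι.comp (w : F'' →+* F''))) x ∈ B :=
    fun x hx => hWB _ (hαB _ (hwB' x hx))
  have hzϖ : z⁻¹ * ι ϖ'' ∈ VC := by
    obtain ⟨k, hk⟩ : ∃ k, n = k + 1 := ⟨n - 1, by omega⟩
    have h := pkg.hzn
    rw [hk] at h
    have e : z⁻¹ * ι ϖ'' = ι ϖ'' * (z ^ (k + 1))⁻¹ * z ^ k := by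
      rw [pow_succ]; field_simp
    rw [e]
    exact VC.mul_mem h (VC.pow_mem pkg.hC.mem k)
  have hWzC : z⁻¹ * W z ∈ VC := by
    have hWz : W z ∈ VC := (pkg.hWC z).mp pkg.hC.mem
    have hWz0 : W z ≠ 0 := (map_ne_zero W).mpr hz0
    rcases (s36_nc_to35 pkg.hC).dvd_or_inv_mem hWz hWz0 with h | h
    · exact h
    · exfalso
      apply pkg.hC.inv_not_mem
      rw [pkg.hWC, map_inv₀]
      exact h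
  have hintβ : ∀ x ∈ B, ∃ P : Polynomial B', P.Monic ∧
      P.eval₂ (((W : F →+* F).comp (ι.comp (w : F'' →+* F''))).comp B'.subtype) x = 0 := by
    intro x hx
    obtain ⟨P, hP, hPx⟩ := hint (W x) (hWB x hx)
    let wB : B' →+* B' :=
      ((w : F'' →+* F'').comp B'.subtype).codRestrict B' (fun b => hwB' _ b.2)
    refine ⟨P.map wB, hP.map wB, ?_⟩
    rw [Polynomial.eval₂_map]
    have e : (((W : F →+* F).comp (ι.comp (w : F'' →+* F''))).comp B'.subtype).comp wB =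
        (W : F →+* F).comp (ι.comp B'.subtype) := by
      ext b
      show W (ι (w (w (b : F'')))) = W (ι (b : F''))
      rw [hww]
    rw [e]
    have h2 := congrArg (W : F →+* F) hPx
    rw [map_zero, Polynomial.hom_eval₂] at h2
    have h3 : (W : F →+* F) (W x) = x := hWW x
    rw [h3] at h2
    exact h2
  have hresβ : ∀ y ∈ B, ∃ y' ∈ B',
      z⁻¹ * (y - ((W : F →+* F).comp (ι.comp (w : F'' →+* F''))) y') ∈ VC := by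
    intro y hy
    obtain ⟨y₁, hy₁, h⟩ := hresαC (W y) (hWB y hy)
    refine ⟨w y₁, hwB' y₁ hy₁, ?_⟩
    have h1 : W (z⁻¹ * (W y - ι y₁)) ∈ VC := (pkg.hWC _).mp h
    rw [map_mul, map_inv₀, map_sub, hWW] at h1
    have hWz0 : W z ≠ 0 := (map_ne_zero W).mpr hz0
    have e : z⁻¹ * (y - ((W : F →+* F).comp (ι.comp (w : F'' →+* F''))) (w y₁)) =
        z⁻¹ * W z * ((W z)⁻¹ * (y - W (ι y₁))) := by
      rw [hβapp, hww]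
      field_simp
    rw [e]
    exact VC.mul_mem hWzC h1
  have hβϖ : ((W : F →+* F).comp (ι.comp (w : F'' →+* F''))) ϖ'' = ι ϖ'' := by
    rw [hβapp, hwϖ]
    exact pkg.hWϖ
  have hβiA : ∀ y ∈ Vi, ((W : F →+* F).comp (ι.comp (w : F'' →+* F''))) y ∈ VA := by
    intro y hy
    rw [hβapp]
    exact (pkg.hWAB _).mp (pkg.hιB _ ((hV0 _).mpr (by rw [hww]; exact hy)))
  have hβ0B : ∀ y ∈ V0, ((W : F →+* F).comp (ι.comp (w : F'' →+* F''))) y ∈ VB := by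
    intro y hy
    rw [hβapp, pkg.hWAB, hWW]
    exact pkg.hιA _ ((hV0 y).mp hy)
  have hβ0C : ∀ y ∈ V0, ((W : F →+* F).comp (ι.comp (w : F'' →+* F''))) y ∈ VC := by
    intro y hy
    rw [hβapp]
    exact (pkg.hWC _).mp (pkg.hιC _ ((hV0 y).mp hy))
  have hAB : ∀ 𝔫 : Ideal B, 𝔫.IsPrime → (∀ p : B, (ι ϖ'')⁻¹ * (p : F) ∈ VA → p ∈ 𝔫) →
      (∀ p : B, (ι ϖ'')⁻¹ * (p : F) ∈ VB → p ∈ 𝔫) → ∀ p : B, z⁻¹ * (p : F) ∈ VC → p ∈ 𝔫 :=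
    fun 𝔫 h𝔫 hA hB p hp =>
      s36_clq_ab_pow ι B' Vi V0 B VA VB VC hαB hint hBA hBB hBC ϖ'' (ι ϖ'') z hϖ0 rfl pkg.hVi
        hB'i pkg.hA.inv_not_mem hzϖ pkg.hC.inv_not_mem pkg.hιA pkg.hιC pkg.hιB hcap (n + 1)
        (Nat.succ_ne_zero n) hresαB hq 𝔫 h𝔫 hA hB p hp
  exact s36_clq_main ι ((W : F →+* F).comp (ι.comp (w : F'' →+* F''))) B' Vi V0 B VA VB VC
    hαB hβB hint hintβ hBA hBB hBC ϖ'' (ι ϖ'') z hϖ0 rfl hβϖ pkg.hVi pkg.hV0 hB'i hB'0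
    pkg.hA.inv_not_mem pkg.hB.inv_not_mem hzϖ pkg.hιA pkg.hιC pkg.hιB hβiA hβ0B hβ0C hcap
    hresαC hresβ hq hAB 𝔭

/-- **The field `cls` of `s36_ptb_Pts`** from `α`-side chart data and the swaps. -/
theorem s36_csym_field (ι : F'' →+* F) {ϖ'' : F''} {z : F} {n : ℕ} {Vi V0 : Subring F''}
    {VA VB VC : Subring F} {W : F ≃+* F}
    (pkg : s36_nc_Pkg ι ϖ'' z n Vi V0 VA VB VC W)
    (w : F'' ≃+* F'') (hww : ∀ x, w (w x) = x) (hwϖ : w ϖ'' = ϖ'')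
    (hV0 : ∀ x, x ∈ V0 ↔ w x ∈ Vi)
    (B : Subring F) (hBA : B ≤ VA) (hBB : B ≤ VB) (hBC : B ≤ VC) (hWB : ∀ x ∈ B, W x ∈ B)
    (hcap : ∀ x ∈ B, (ι ϖ'')⁻¹ * x ∈ VA → (ι ϖ'')⁻¹ * x ∈ VB → (ι ϖ'')⁻¹ * x ∈ VC →
      (ι ϖ'')⁻¹ * x ∈ B)
    (B' : Subring F'') (hB'i : B' ≤ Vi) (hwB' : ∀ x ∈ B', w x ∈ B')
    (hαB : ∀ x ∈ B', ι x ∈ B)
    (hint : ∀ x ∈ B, ∃ P : Polynomial B', P.Monic ∧ P.eval₂ (ι.comp B'.subtype) x = 0)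
    (hresαC : ∀ y ∈ B, ∃ y' ∈ B', z⁻¹ * (y - ι y') ∈ VC)
    (hresαB : ∀ y ∈ B, ∃ y' ∈ B', (ι ϖ'')⁻¹ * (y ^ (n + 1) - ι y') ∈ VB)
    (hq : ∀ 𝔪' : Ideal B', 𝔪'.IsPrime → (∀ p : B', ϖ''⁻¹ * (p : F'') ∈ Vi → p ∈ 𝔪') →
      (∀ p : B', ϖ''⁻¹ * (p : F'') ∈ V0 → p ∈ 𝔪') →
      ∃ u₁ u₂ γ : B', (u₁ : F'') * (u₂ : F'') = ϖ'' * (γ : F'') ∧ ϖ''⁻¹ * (u₁ : F'') ∈ Vi ∧
        ϖ''⁻¹ * (u₂ : F'') ∈ V0 ∧ γ ∉ 𝔪')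
    (hϖB : ι ϖ'' ∈ B) :
    ∀ 𝔪 : Ideal B, 𝔪.IsMaximal → (⟨ι ϖ'', hϖB⟩ : B) ∈ 𝔪 →
      ((∀ p : B, (ι ϖ'')⁻¹ * (p : F) ∈ VA → p ∈ 𝔪) →
        (∀ p : B, (ι ϖ'')⁻¹ * (p : F) ∈ VB → p ∈ 𝔪) → ∀ p : B, z⁻¹ * (p : F) ∈ VC → p ∈ 𝔪) ∧
      ((∀ p : B, (ι ϖ'')⁻¹ * (p : F) ∈ VB → p ∈ 𝔪) → (∀ p : B, z⁻¹ * (p : F) ∈ VC → p ∈ 𝔪) →
        ∀ p : B, (ι ϖ'')⁻¹ * (p : F) ∈ VA → p ∈ 𝔪) ∧
      ((∀ p : B, (ι ϖ'')⁻¹ * (p : F) ∈ VA → p ∈ 𝔪) → (∀ p : B, z⁻¹ * (p : F) ∈ VC → p ∈ 𝔪) →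
        ∀ p : B, (ι ϖ'')⁻¹ * (p : F) ∈ VB → p ∈ 𝔪) := by
  intro 𝔪 h𝔪 _
  haveI := h𝔪.isPrime
  exact s36_csym_cls ι pkg w hww hwϖ hV0 B hBA hBB hBC hWB hcap B' hB'i hwB' hαB hint hresαC
    hresαB hq 𝔪

end Fermat.Agent.S36
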