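import Fermat.Agent.S35.CorDefs
import Fermat.Agent.S35.TransferAL

/-!
# S36 (NODE-3), block (E)/(KC): transfer data for `Γ₀(N q) ≤ Γ₀(N)` with `q ∣ N`

The clone of `S35/CorDefs.lean` for a prime `q` **dividing** the lower level:

* `s36_co_rep N l i = (1 0; N i 1)`, `i < l` : right coset representatives of
  `Γ₀(N l) \ Γ₀(N)` for `l ∣ N`;
* `s36_co_data1 N l` : the transfer data `δ i = rep i` (corestriction);
* `s36_co_w N' q` : the Atkin–Lehner matrix `(q² b; N' q² q² d)`, `q² d - N' b = 1`, of the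
  exact divisor `q²` of `N' q²`;
* `s36_co_data2 N' q` : the transfer data `δ i = w * rep i` for `Γ₀(N' q q) ≤ Γ₀(N' q)`.
-/

set_option autoImplicit false

open CongruenceSubgroup
open scoped MatrixGroups

noncomputable section

namespace Fermat.Agent.S36

open Fermat.Agent.S29 Fermat.Agent.S35

/-- right coset representatives `(1 0; N i 1)`, `i < l`, of `Γ₀(N l) \ Γ₀(N)` (`l ∣ N`). -/
def s36_co_rep (N l : ℕ) (i : Fin l) : Gamma0 N :=
  s29_ch_mk N 1 0 ((N : ℤ) * ((i : ℕ) : ℤ)) 1 (by ring) (dvd_mul_right _ _)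

theorem s36_co_rep_val (N l : ℕ) (i : Fin l) :
    (((s36_co_rep N l i : Gamma0 N) : SL(2, ℤ)) : Matrix (Fin 2) (Fin 2) ℤ) =
      !![1, 0; (N : ℤ) * ((i : ℕ) : ℤ), 1] := rfl

/-- the integral coset computation: `rep i * γ = γ' * rep j`. -/
theorem s36_co_exZ (N l : ℕ) [NeZero l] (hlN : l ∣ N) (γ : Gamma0 N) (i : Fin l) :
    ∃ (j : Fin l) (γ' : Gamma0 (N * l)),
      (((s36_co_rep N l i : Gamma0 N) : SL(2, ℤ)) : Matrix (Fin 2) (Fin 2) ℤ) *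
          ((γ : SL(2, ℤ)) : Matrix (Fin 2) (Fin 2) ℤ) =
        ((γ' : SL(2, ℤ)) : Matrix (Fin 2) (Fin 2) ℤ) *
          (((s36_co_rep N l j : Gamma0 N) : SL(2, ℤ)) : Matrix (Fin 2) (Fin 2) ℤ) := by
  obtain ⟨c', hc'⟩ := s29_ch_dvd γ
  have hdet := s29_ch_det γ
  obtain ⟨N₀, hN₀⟩ := hlN
  have hN : (N : ℤ) = (l : ℤ) * N₀ := by exact_mod_cast hN₀
  set a := (γ : SL(2, ℤ)) 0 0 with ha
  set b := (γ : SL(2, ℤ)) 0 1 with hb
  set d := (γ : SL(2, ℤ)) 1 1 with hd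
  rw [hc'] at hdet
  set u : ℤ := (((i : ℕ) : ℤ) * a + c') * a with hu
  let j : Fin l := ⟨((u : ZMod l)).val, ZMod.val_lt _⟩
  have hj : (l : ℤ) ∣ u - ((j : ℕ) : ℤ) := by
    rw [← ZMod.intCast_zmod_eq_zero_iff_dvd]
    push_cast
    rw [ZMod.natCast_zmod_val, sub_self]
  obtain ⟨k, hk⟩ := hj
  have hdet' : (a - b * N * ((j : ℕ) : ℤ)) * (N * ((i : ℕ) : ℤ) * b + d) -
      b * (N * ((i : ℕ) : ℤ) * a + N * c' - N * ((j : ℕ) : ℤ) * (N * ((i : ℕ) : ℤ) * b + d)) = 1 := by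
    linear_combination hdet
  have hdvd' : ((N * l : ℕ) : ℤ) ∣
      N * ((i : ℕ) : ℤ) * a + N * c' - N * ((j : ℕ) : ℤ) * (N * ((i : ℕ) : ℤ) * b + d) := by
    refine ⟨-(((i : ℕ) : ℤ) * a + c') * b * N₀ * c' - u * N₀ * ((i : ℕ) : ℤ) * b +
      k * (N * ((i : ℕ) : ℤ) * b + d), ?_⟩
    push_cast
    linear_combination (N * (N * ((i : ℕ) : ℤ) * b + d)) * hk +
      (-(N : ℤ) * (((i : ℕ) : ℤ) * a + c')) * hdet +
      (-(N : ℤ) * (((i : ℕ) : ℤ) * a + c') * b * c' - N * u * ((i : ℕ) : ℤ) * b) * hN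
  refine ⟨j, s29_ch_mk (N * l) _ _ _ _ hdet' hdvd', ?_⟩
  rw [s36_co_rep_val, s36_co_rep_val, s29_ch_val_eq γ, s29_ch_mk_val, ← ha, ← hb, ← hd, hc']
  simp only [Matrix.mul_fin_two]
  exact s29_ch_of_eq (by ring) (by ring) (by ring) (by ring)

/-- the integral uniqueness computation: `rep i = γ' * rep j` forces `i = j`. -/
theorem s36_co_uniqZ (N l : ℕ) [NeZero N] (i j : Fin l) (γ' : Gamma0 (N * l))
    (h : (((s36_co_rep N l i : Gamma0 N) : SL(2, ℤ)) : Matrix (Fin 2) (Fin 2) ℤ) =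
      ((γ' : SL(2, ℤ)) : Matrix (Fin 2) (Fin 2) ℤ) *
        (((s36_co_rep N l j : Gamma0 N) : SL(2, ℤ)) : Matrix (Fin 2) (Fin 2) ℤ)) : i = j := by
  rw [s36_co_rep_val, s36_co_rep_val, s29_ch_val_eq γ'] at h
  simp only [Matrix.mul_fin_two] at h
  have h10 := congrFun (congrFun h 1) 0
  have h11 := congrFun (congrFun h 1) 1
  simp at h10 h11
  obtain ⟨z, hz⟩ := s29_ch_dvd γ'
  rw [hz, ← h11] at h10
  push_cast at h10
  have hN0 : (N : ℤ) ≠ 0 := by exact_mod_cast NeZero.ne N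
  have h1 : ((i : ℕ) : ℤ) = (l : ℤ) * z + ((j : ℕ) : ℤ) := by
    apply mul_left_cancel₀ hN0
    linear_combination h10
  have hi := i.2
  have hj := j.2
  have hz0 : z = 0 := by
    by_contra hne
    rcases lt_or_gt_of_ne hne with hlt | hgt
    · have : (l : ℤ) * z ≤ -(l : ℤ) := by nlinarith
      have hi0 : (0 : ℤ) ≤ ((i : ℕ) : ℤ) := Int.natCast_nonneg _
      have hjl : ((j : ℕ) : ℤ) < (l : ℤ) := by exact_mod_cast hj
      linarith
    · have : (l : ℤ) ≤ (l : ℤ) * z := by nlinarith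
      have hj0 : (0 : ℤ) ≤ ((j : ℕ) : ℤ) := Int.natCast_nonneg _
      have hil : ((i : ℕ) : ℤ) < (l : ℤ) := by exact_mod_cast hi
      linarith
  rw [hz0, mul_zero, zero_add] at h1
  exact Fin.ext (by exact_mod_cast h1)

/-- **the corestriction data** `Γ₀(N l) ≤ Γ₀(N)` for `l ∣ N`. -/
def s36_co_data1 (N l : ℕ) [NeZero N] [NeZero l] (hlN : l ∣ N) :
    s35_co_Data (Gamma0 (N * l)) (Gamma0 N) (GL (Fin 2) ℝ) (Fin l) where
  ι' := s29_ch_iota (N * l)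
  ι'_inj := s29_ch_iota_injective (N * l)
  ι := s29_ch_iota N
  δ i := s29_ch_iota N (s36_co_rep N l i)
  ex γ i := by
    obtain ⟨j, γ', h⟩ := s36_co_exZ N l hlN γ i
    refine ⟨j, γ', ?_⟩
    apply Units.ext
    rw [Units.val_mul, Units.val_mul, s29_ch_iota_val, s29_ch_iota_val, s29_ch_iota_val,
      s29_ch_iota_val, ← Matrix.map_mul, ← Matrix.map_mul, h]
  uniq i j γ' h := by
    have h1 := congrArg (fun g : GL (Fin 2) ℝ => (g : Matrix (Fin 2) (Fin 2) ℝ)) h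
    simp only [Units.val_mul] at h1
    rw [s29_ch_iota_val, s29_ch_iota_val, s29_ch_iota_val, ← Matrix.map_mul] at h1
    exact s36_co_uniqZ N l i j γ' (Matrix.map_injective (Int.castRingHom ℝ).injective_int h1)

theorem s36_co_data1_iota' (N l : ℕ) [NeZero N] [NeZero l] (hlN : l ∣ N) :
    (s36_co_data1 N l hlN).ι' = s29_ch_iota (N * l) := rfl

theorem s36_co_data1_iota (N l : ℕ) [NeZero N] [NeZero l] (hlN : l ∣ N) :
    (s36_co_data1 N l hlN).ι = s29_ch_iota N := rfl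

theorem s36_co_data1_delta (N l : ℕ) [NeZero N] [NeZero l] (hlN : l ∣ N) (i : Fin l) :
    (s36_co_data1 N l hlN).δ i = s29_ch_iota N (s36_co_rep N l i) := rfl

/-! ### The Atkin–Lehner matrix of the exact divisor `q²` -/

/-- Bézout: `q² d - N' b = 1`. -/
theorem s36_co_bez (N' q : ℕ) (hq : q.Prime) (hqN : ¬ q ∣ N') :
    ((q * q : ℕ) : ℤ) * 1 * s35_co_d N' (q * q) - (N' : ℤ) * s35_co_b N' (q * q) * 1 = 1 := by
  have h := Int.gcd_eq_gcd_ab ((q * q : ℕ) : ℤ) (N' : ℤ)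
  have hc : Nat.Coprime q N' := (Nat.Prime.coprime_iff_not_dvd hq).2 hqN
  have hg : Int.gcd ((q * q : ℕ) : ℤ) (N' : ℤ) = 1 := by
    rw [Int.gcd_natCast_natCast]
    exact Nat.Coprime.mul_left hc hc
  rw [hg] at h
  unfold s35_co_b s35_co_d
  push_cast at h ⊢
  linarith

/-- **the Atkin–Lehner matrix** `(q² b; N' q² q² d)` in `GL₂(ℝ)`. -/
def s36_co_w (N' q : ℕ) [NeZero q] (hq : q.Prime) (hqN : ¬ q ∣ N') : GL (Fin 2) ℝ :=
  s35_al_g N' (q * q) 1 (s35_co_b N' (q * q)) 1 (s35_co_d N' (q * q)) (s36_co_bez N' q hq hqN)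

/-- the integral Atkin–Lehner matrix. -/
def s36_co_wZ (N' q : ℕ) : Matrix (Fin 2) (Fin 2) ℤ :=
  s35_al_W N' (q * q) 1 (s35_co_b N' (q * q)) 1 (s35_co_d N' (q * q))

theorem s36_co_w_val (N' q : ℕ) [NeZero q] (hq : q.Prime) (hqN : ¬ q ∣ N') :
    ((s36_co_w N' q hq hqN : GL (Fin 2) ℝ) : Matrix (Fin 2) (Fin 2) ℝ) =
      (s36_co_wZ N' q).map (Int.castRingHom ℝ) := rfl

/-- transport of an element of `Γ₀` along an equality of levels. -/
theorem s36_co_cast {M₁ M₂ : ℕ} (h : M₁ = M₂) (γ : Gamma0 M₁) :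
    ∃ γ' : Gamma0 M₂, s29_ch_iota M₂ γ' = s29_ch_iota M₁ γ := by
  subst h
  exact ⟨γ, rfl⟩

/-- `w Γ₀(N' q q) w⁻¹ ⊆ Γ₀(N' q q)`. -/
theorem s36_co_w_conj (N' q : ℕ) [NeZero q] (hq : q.Prime) (hqN : ¬ q ∣ N')
    (η : Gamma0 (N' * q * q)) :
    ∃ η' : Gamma0 (N' * q * q), s29_ch_iota (N' * q * q) η' =
      s36_co_w N' q hq hqN * s29_ch_iota (N' * q * q) η * (s36_co_w N' q hq hqN)⁻¹ := by
  obtain ⟨η₁, h₁⟩ := s36_co_cast (Nat.mul_assoc N' q q) η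
  obtain ⟨η₂, h₂⟩ := s35_al_normal1 N' (q * q) 1 (s35_co_b N' (q * q)) 1 (s35_co_d N' (q * q))
    (s36_co_bez N' q hq hqN) η₁
  obtain ⟨η', h'⟩ := s36_co_cast (Nat.mul_assoc N' q q).symm η₂
  exact ⟨η', by rw [h', h₂, h₁]; rfl⟩

/-- `w⁻¹ Γ₀(N' q q) w ⊆ Γ₀(N' q q)`. -/
theorem s36_co_w_conj' (N' q : ℕ) [NeZero q] (hq : q.Prime) (hqN : ¬ q ∣ N')
    (η : Gamma0 (N' * q * q)) :
    ∃ η' : Gamma0 (N' * q * q), s29_ch_iota (N' * q * q) η' =
      (s36_co_w N' q hq hqN)⁻¹ * s29_ch_iota (N' * q * q) η * s36_co_w N' q hq hqN := by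
  obtain ⟨η₁, h₁⟩ := s36_co_cast (Nat.mul_assoc N' q q) η
  obtain ⟨η₂, h₂⟩ := s35_al_normal2 N' (q * q) 1 (s35_co_b N' (q * q)) 1 (s35_co_d N' (q * q))
    (s36_co_bez N' q hq hqN) η₁
  obtain ⟨η', h'⟩ := s36_co_cast (Nat.mul_assoc N' q q).symm η₂
  exact ⟨η', by rw [h', h₂, h₁]; rfl⟩

/-- **the corestriction data after conjugation by the Atkin–Lehner matrix of `q²`**. -/
def s36_co_data2 (N' q : ℕ) [NeZero N'] [NeZero q] (hq : q.Prime) (hqN : ¬ q ∣ N') :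
    s35_co_Data (Gamma0 (N' * q * q)) (Gamma0 (N' * q)) (GL (Fin 2) ℝ) (Fin q) where
  ι' := s29_ch_iota (N' * q * q)
  ι'_inj := s29_ch_iota_injective (N' * q * q)
  ι := s29_ch_iota (N' * q)
  δ i := s36_co_w N' q hq hqN * s29_ch_iota (N' * q) (s36_co_rep (N' * q) q i)
  ex γ i := by
    have h1 := (s36_co_data1 (N' * q) q (dvd_mul_left q N')).spec γ i
    obtain ⟨η', hη'⟩ := s36_co_w_conj N' q hq hqN
      ((s36_co_data1 (N' * q) q (dvd_mul_left q N')).coc γ i)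
    refine ⟨(s36_co_data1 (N' * q) q (dvd_mul_left q N')).idx γ i, η', ?_⟩
    have h2 : s29_ch_iota (N' * q) (s36_co_rep (N' * q) q i) * s29_ch_iota (N' * q) γ =
        s29_ch_iota (N' * q * q) ((s36_co_data1 (N' * q) q (dvd_mul_left q N')).coc γ i) *
          s29_ch_iota (N' * q) (s36_co_rep (N' * q) q
            ((s36_co_data1 (N' * q) q (dvd_mul_left q N')).idx γ i)) := h1
    rw [mul_assoc, h2, hη']
    group
  uniq i j γ' h := by
    obtain ⟨η, hη⟩ := s36_co_w_conj' N' q hq hqN γ'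
    refine (s36_co_data1 (N' * q) q (dvd_mul_left q N')).uniq i j η ?_
    show s29_ch_iota (N' * q) (s36_co_rep (N' * q) q i) =
      s29_ch_iota (N' * q * q) η * s29_ch_iota (N' * q) (s36_co_rep (N' * q) q j)
    rw [hη]
    have h3 : (s36_co_w N' q hq hqN)⁻¹ * (s36_co_w N' q hq hqN *
        s29_ch_iota (N' * q) (s36_co_rep (N' * q) q i)) =
        (s36_co_w N' q hq hqN)⁻¹ * (s29_ch_iota (N' * q * q) γ' *
          (s36_co_w N' q hq hqN * s29_ch_iota (N' * q) (s36_co_rep (N' * q) q j))) :=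
      congrArg _ h
    rw [inv_mul_cancel_left] at h3
    rw [h3]
    group

theorem s36_co_data2_iota' (N' q : ℕ) [NeZero N'] [NeZero q] (hq : q.Prime) (hqN : ¬ q ∣ N') :
    (s36_co_data2 N' q hq hqN).ι' = s29_ch_iota (N' * q * q) := rfl

theorem s36_co_data2_iota (N' q : ℕ) [NeZero N'] [NeZero q] (hq : q.Prime) (hqN : ¬ q ∣ N') :
    (s36_co_data2 N' q hq hqN).ι = s29_ch_iota (N' * q) := rfl

theorem s36_co_data2_delta (N' q : ℕ) [NeZero N'] [NeZero q] (hq : q.Prime) (hqN : ¬ q ∣ N')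
    (i : Fin q) :
    (s36_co_data2 N' q hq hqN).δ i =
      s36_co_w N' q hq hqN * s29_ch_iota (N' * q) (s36_co_rep (N' * q) q i) := rfl

end Fermat.Agent.S36
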