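import Fermat.Agent.S36.QSer23
import Fermat.Agent.S34.GaussInf
import Fermat.Agent.S34.SwapK
import Fermat.Agent.S34.FrobChart
import Fermat.Agent.S34.IcChart
import Fermat.Agent.S18.HauptField

/-!
# S36 (NODE-3), leaf (POLE23), model-facing half of (P-ii) for `q = 2, 3`

Generic Gauss vocabulary of `S34/GaussInf.lean`: `K` a field over `ℚ`, `A₁ : ValuationSubring K`
a discrete valuation ring with uniformizer `π`, `F = K · F(L)`, `V = s34_gi_V A₁ L` the
`q`-expansion Gauss ring, `red = s34_gi_red A₁ L` its reduction map.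
-/

set_option autoImplicit false
set_option synthInstance.maxHeartbeats 400000
set_option linter.style.haveILetI false
set_option linter.unusedSectionVars false

open ModularCurve

noncomputable section

namespace Fermat.Agent.S36

open Fermat.Agent.S18 Fermat.Agent.S34 Fermat.Agent.S37 Fermat.Agent.S28

section Series

variable {K : Type*} [Field K] [Algebra ℚ K]

/-- `j(Q^1) = j` over `K`. -/
theorem s36_x23_s_one : s34_sw_s K 1 = jqModC K := by
  rw [s34_sw_s_eq, qExpand_one_apply]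
  show coeffEmb K jq = jqModC K
  rw [← jqModC_rat]
  exact map_jqModC _

/-- `j(Q^e)` over `K` is `V_e j`. -/
theorem s36_x23_s_eq (e : ℕ) [NeZero e] : s34_sw_s K e = qExpand K e (jqModC K) := by
  rw [s34_sw_s_eq]
  show coeffMap (algebraMap ℚ K) (qExpand ℚ e jq) = _
  rw [coeffMap_qExpand]
  congr 1
  show coeffEmb K jq = jqModC K
  rw [← jqModC_rat]
  exact map_jqModC _

end Series

section Val

variable {F : Type*} [Field F] {ϖ : F} {V : Subring F}

/-- In a discrete valuation ring `V` of `F`, the inverse of an element outside `V` is divisible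
by the uniformizer. -/
theorem s36_x23_inv_of_not_mem (hV : s34_Unif ϖ V) {x : F} (hx : x ∉ V) : ϖ⁻¹ * x⁻¹ ∈ V := by
  have hx0 : x ≠ 0 := fun h => hx (h ▸ V.zero_mem)
  obtain ⟨j, u, hu, hu', rfl⟩ := hV.decomp x hx0
  have hu0 : u ≠ 0 := by rintro rfl; simp at hx0
  have hj : ¬ 0 ≤ j := fun h => hx ((hV.mem_iff hu0 hu hu').mpr h)
  have e : ϖ⁻¹ * (ϖ ^ j * u)⁻¹ = ϖ ^ (-j - 1) * u⁻¹ := by
    rw [mul_inv, ← zpow_neg, zpow_sub₀ hV.ne_zero, zpow_one]
    field_simp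
  rw [e]
  exact V.mul_mem (hV.zpow_mem (by omega)) hu'

/-- If `x ∉ V` then `1 = x⁻¹ * G` is impossible for `G ∈ V`. -/
theorem s36_x23_not_mem_absurd (hV : s34_Unif ϖ V) {x G : F} (hx : x ∉ V) (hG : G ∈ V)
    (h1 : x⁻¹ * G = 1) : False := by
  apply hV.inv_not_mem
  have e : ϖ⁻¹ = ϖ⁻¹ * x⁻¹ * G := by rw [mul_assoc, h1, mul_one]
  rw [e]
  exact V.mul_mem (s36_x23_inv_of_not_mem hV hx) hG

theorem s36_x23_inv_mem_of_not_mem (hV : s34_Unif ϖ V) {x : F} (hx : x ∉ V) : x⁻¹ ∈ V := by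
  have h := V.mul_mem hV.mem (s36_x23_inv_of_not_mem hV hx)
  rwa [← mul_assoc, mul_inv_cancel₀ hV.ne_zero, one_mul] at h

/-- Integrality: `j X = (X + 27)(X + 3)³`. -/
theorem s36_x23_mem_a (hV : s34_Unif ϖ V) {j X : F} (hj : j ∈ V)
    (h : j * X = (X + 27) * (X + 3) ^ 3) : X ∈ V := by
  by_contra hX
  have hX0 : X ≠ 0 := fun h0 => hX (h0 ▸ V.zero_mem)
  have hY := s36_x23_inv_mem_of_not_mem hV hX
  have hn : ∀ n : ℕ, (n : F) ∈ V := fun n => natCast_mem V n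
  refine s36_x23_not_mem_absurd hV hX
    (G := j * X⁻¹ ^ 2 - (36 + 270 * X⁻¹ + 756 * X⁻¹ ^ 2 + 729 * X⁻¹ ^ 3)) ?_ ?_
  · have h36 : (36 : F) ∈ V := by exact_mod_cast hn 36
    have h270 : (270 : F) ∈ V := by exact_mod_cast hn 270
    have h756 : (756 : F) ∈ V := by exact_mod_cast hn 756
    have h729 : (729 : F) ∈ V := by exact_mod_cast hn 729
    exact V.sub_mem (V.mul_mem hj (V.pow_mem hY 2))
      (V.add_mem (V.add_mem (V.add_mem h36 (V.mul_mem h270 hY))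
        (V.mul_mem h756 (V.pow_mem hY 2))) (V.mul_mem h729 (V.pow_mem hY 3)))
  · have e : X⁻¹ * (j * X⁻¹ ^ 2 - (36 + 270 * X⁻¹ + 756 * X⁻¹ ^ 2 + 729 * X⁻¹ ^ 3)) - 1
        = X⁻¹ ^ 4 * (j * X - (X + 27) * (X + 3) ^ 3) := by
      field_simp
      ring
    rw [h, sub_self, mul_zero] at e
    exact sub_eq_zero.mp e

/-- Integrality: `j X = (X + 16)³`. -/
theorem s36_x23_mem_b (hV : s34_Unif ϖ V) {j X : F} (hj : j ∈ V)
    (h : j * X = (X + 16) ^ 3) : X ∈ V := by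
  by_contra hX
  have hX0 : X ≠ 0 := fun h0 => hX (h0 ▸ V.zero_mem)
  have hY := s36_x23_inv_mem_of_not_mem hV hX
  have hn : ∀ n : ℕ, (n : F) ∈ V := fun n => natCast_mem V n
  refine s36_x23_not_mem_absurd hV hX
    (G := j * X⁻¹ - (48 + 768 * X⁻¹ + 4096 * X⁻¹ ^ 2)) ?_ ?_
  · have h48 : (48 : F) ∈ V := by exact_mod_cast hn 48
    have h768 : (768 : F) ∈ V := by exact_mod_cast hn 768
    have h4096 : (4096 : F) ∈ V := by exact_mod_cast hn 4096
    exact V.sub_mem (V.mul_mem hj hY)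
      (V.add_mem (V.add_mem h48 (V.mul_mem h768 hY)) (V.mul_mem h4096 (V.pow_mem hY 2)))
  · have e : X⁻¹ * (j * X⁻¹ - (48 + 768 * X⁻¹ + 4096 * X⁻¹ ^ 2)) - 1
        = X⁻¹ ^ 3 * (j * X - (X + 16) ^ 3) := by
      field_simp
      ring
    rw [h, sub_self, mul_zero] at e
    exact sub_eq_zero.mp e

/-- Integrality: `j X² = (X + 256)³`. -/
theorem s36_x23_mem_c (hV : s34_Unif ϖ V) {j X : F} (hj : j ∈ V)
    (h : j * X ^ 2 = (X + 256) ^ 3) : X ∈ V := by
  by_contra hX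
  have hX0 : X ≠ 0 := fun h0 => hX (h0 ▸ V.zero_mem)
  have hY := s36_x23_inv_mem_of_not_mem hV hX
  have hn : ∀ n : ℕ, (n : F) ∈ V := fun n => natCast_mem V n
  refine s36_x23_not_mem_absurd hV hX
    (G := j - (768 + 196608 * X⁻¹ + 16777216 * X⁻¹ ^ 2)) ?_ ?_
  · have h1 : (768 : F) ∈ V := by exact_mod_cast hn 768
    have h2 : (196608 : F) ∈ V := by exact_mod_cast hn 196608
    have h3 : (16777216 : F) ∈ V := by exact_mod_cast hn 16777216
    exact V.sub_mem hj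
      (V.add_mem (V.add_mem h1 (V.mul_mem h2 hY)) (V.mul_mem h3 (V.pow_mem hY 2)))
  · have e : X⁻¹ * (j - (768 + 196608 * X⁻¹ + 16777216 * X⁻¹ ^ 2)) - 1
        = X⁻¹ ^ 3 * (j * X ^ 2 - (X + 256) ^ 3) := by
      field_simp
      ring
    rw [h, sub_self, mul_zero] at e
    exact sub_eq_zero.mp e

/-- Integrality: `j X³ = (X + 27)(X + 243)³`. -/
theorem s36_x23_mem_d (hV : s34_Unif ϖ V) {j X : F} (hj : j ∈ V)
    (h : j * X ^ 3 = (X + 27) * (X + 243) ^ 3) : X ∈ V := by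
  by_contra hX
  have hX0 : X ≠ 0 := fun h0 => hX (h0 ▸ V.zero_mem)
  have hY := s36_x23_inv_mem_of_not_mem hV hX
  have hn : ∀ n : ℕ, (n : F) ∈ V := fun n => natCast_mem V n
  refine s36_x23_not_mem_absurd hV hX
    (G := j - (756 + 196830 * X⁻¹ + 19131876 * X⁻¹ ^ 2 + 387420489 * X⁻¹ ^ 3)) ?_ ?_
  · have h1 : (756 : F) ∈ V := by exact_mod_cast hn 756
    have h2 : (196830 : F) ∈ V := by exact_mod_cast hn 196830
    have h3 : (19131876 : F) ∈ V := by exact_mod_cast hn 19131876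
    have h4 : (387420489 : F) ∈ V := by exact_mod_cast hn 387420489
    exact V.sub_mem hj
      (V.add_mem (V.add_mem (V.add_mem h1 (V.mul_mem h2 hY)) (V.mul_mem h3 (V.pow_mem hY 2)))
        (V.mul_mem h4 (V.pow_mem hY 3)))
  · have e : X⁻¹ * (j - (756 + 196830 * X⁻¹ + 19131876 * X⁻¹ ^ 2 + 387420489 * X⁻¹ ^ 3)) - 1
        = X⁻¹ ^ 4 * (j * X ^ 3 - (X + 27) * (X + 243) ^ 3) := by
      field_simp
      ring
    rw [h, sub_self, mul_zero] at e
    exact sub_eq_zero.mp e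

end Val

section Gauss

variable {K : Type*} [Field K] [Algebra ℚ K] (A₁ : ValuationSubring K) {L : ℕ}

theorem s36_x23_cast_eq (y₀ : LaurentSeries ℤ) :
    coeffMap (Int.castRingHom K) y₀ = coeffMap A₁.subtype (coeffMap (Int.castRingHom A₁) y₀) := by
  rw [coeffMap_coeffMap]
  exact coeffMap_congr (RingHom.ext_int _ _) _

/-- A function whose `q`-expansion has integer coefficients lies in the Gauss ring. -/
theorem s36_x23_int_mem {x : laurentBaseChange K (modularFunctionFieldFull L)}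
    (y₀ : LaurentSeries ℤ) (h : (x : LaurentSeries K) = coeffMap (Int.castRingHom K) y₀) :
    x ∈ s34_gi_V A₁ L :=
  s34_gi_mem_of_integral (coeffMap (Int.castRingHom A₁) y₀) (by rw [h, s36_x23_cast_eq A₁])

/-- The reduction of a function whose `q`-expansion has integer coefficients. -/
theorem s36_x23_int_red (x : s34_gi_V A₁ L) (y₀ : LaurentSeries ℤ)
    (h : ((x : laurentBaseChange K (modularFunctionFieldFull L)) : LaurentSeries K)
      = coeffMap (Int.castRingHom K) y₀) :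
    s34_gi_red A₁ L x = coeffMap (Int.castRingHom (IsLocalRing.ResidueField A₁)) y₀ := by
  rw [s34_gi_red_integral x (coeffMap (Int.castRingHom A₁) y₀) (by rw [h, s36_x23_cast_eq A₁]),
    coeffMap_coeffMap]
  exact coeffMap_congr (RingHom.ext_int _ _) _

theorem s36_x23_j_mem {j1 : laurentBaseChange K (modularFunctionFieldFull L)}
    (hj1 : (j1 : LaurentSeries K) = s34_sw_s K 1) : j1 ∈ s34_gi_V A₁ L :=
  s36_x23_int_mem A₁ (jqModC ℤ) (by rw [hj1, s36_x23_s_one, coeffMap_jqModC])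

theorem s36_x23_j_red (j1 : s34_gi_V A₁ L)
    (hj1 : ((j1 : laurentBaseChange K (modularFunctionFieldFull L)) : LaurentSeries K)
      = s34_sw_s K 1) :
    s34_gi_red A₁ L j1 = jqModC (IsLocalRing.ResidueField A₁) := by
  rw [s36_x23_int_red A₁ j1 (jqModC ℤ) (by rw [hj1, s36_x23_s_one, coeffMap_jqModC]),
    coeffMap_jqModC]

theorem s36_x23_je_mem (e : ℕ) [NeZero e] {je : laurentBaseChange K (modularFunctionFieldFull L)}
    (hje : (je : LaurentSeries K) = s34_sw_s K e) : je ∈ s34_gi_V A₁ L :=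
  s36_x23_int_mem A₁ (qExpand ℤ e (jqModC ℤ))
    (by rw [hje, s36_x23_s_eq, coeffMap_qExpand, coeffMap_jqModC])

/-- The reduction of `j(Q^ℓ)` in residue characteristic `ℓ` is `j̄^ℓ`. -/
theorem s36_x23_je_red (ℓ : ℕ) [NeZero ℓ] [Fact ℓ.Prime] [CharP (IsLocalRing.ResidueField A₁) ℓ]
    (je : s34_gi_V A₁ L)
    (hje : ((je : laurentBaseChange K (modularFunctionFieldFull L)) : LaurentSeries K)
      = s34_sw_s K ℓ) :
    s34_gi_red A₁ L je = jqModC (IsLocalRing.ResidueField A₁) ^ ℓ := by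
  rw [s36_x23_int_red A₁ je (qExpand ℤ ℓ (jqModC ℤ))
    (by rw [hje, s36_x23_s_eq, coeffMap_qExpand, coeffMap_jqModC]),
    coeffMap_qExpand, coeffMap_jqModC, s37_ec_pow_char ℓ, coeffMap_jqModC]

theorem s36_x23_t2_mem {x2 : laurentBaseChange K (modularFunctionFieldFull L)}
    (hx2 : (x2 : LaurentSeries K) = s18_t2R K) : x2 ∈ s34_gi_V A₁ L :=
  s36_x23_int_mem A₁ s18_t2 hx2

theorem s36_x23_t3_mem {x3 : laurentBaseChange K (modularFunctionFieldFull L)}
    (hx3 : (x3 : LaurentSeries K) = s18_t3R K) : x3 ∈ s34_gi_V A₁ L :=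
  s36_x23_int_mem A₁ s18_t3 hx3

theorem s36_x23_t2_red (x2 : s34_gi_V A₁ L)
    (hx2 : ((x2 : laurentBaseChange K (modularFunctionFieldFull L)) : LaurentSeries K)
      = s18_t2R K) :
    s34_gi_red A₁ L x2 = s18_t2R (IsLocalRing.ResidueField A₁) :=
  s36_x23_int_red A₁ x2 s18_t2 hx2

theorem s36_x23_t3_red (x3 : s34_gi_V A₁ L)
    (hx3 : ((x3 : laurentBaseChange K (modularFunctionFieldFull L)) : LaurentSeries K)
      = s18_t3R K) :
    s34_gi_red A₁ L x3 = s18_t3R (IsLocalRing.ResidueField A₁) :=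
  s36_x23_int_red A₁ x3 s18_t3 hx3

end Gauss

section Swap

variable {K : Type*} [Field K] [Algebra ℚ K] (A₁ : ValuationSubring K) {L : ℕ}
  [IsDiscreteValuationRing A₁] {π : A₁}

/-- **(P-ii, a)**, `q = 3`: for a swap `W` (`j(Q) ↔ j(Q³)`) of `K · F(L)` the function `W t₃` lies
in the Gauss ring and reduces to `0`. -/
theorem s36_x23_swapred3 [CharP (IsLocalRing.ResidueField A₁) 3] (hπ : Irreducible π)
    (W : laurentBaseChange K (modularFunctionFieldFull L) ≃ₐ[K]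
      laurentBaseChange K (modularFunctionFieldFull L))
    (j1 j3 x3 : laurentBaseChange K (modularFunctionFieldFull L))
    (hj1 : (j1 : LaurentSeries K) = s34_sw_s K 1) (hj3 : (j3 : LaurentSeries K) = s34_sw_s K 3)
    (hx3 : (x3 : LaurentSeries K) = s18_t3R K)
    (hW1 : W j1 = j3) (hW3 : W j3 = j1) :
    W x3 ∈ s34_gi_V A₁ L ∧
      (algebraMap K (laurentBaseChange K (modularFunctionFieldFull L)) (π : K))⁻¹ * W x3
        ∈ s34_gi_V A₁ L := by
  have hV := s34_gi_unif (N := L) hπ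
  have e1 : j1 * x3 ^ 3 = (x3 + 27) * (x3 + 243) ^ 3 := by
    apply Subtype.ext
    push_cast
    rw [hj1, hx3, s36_x23_s_one]
    exact s18_t3R_j K
  have e2 : j3 * x3 = (x3 + 27) * (x3 + 3) ^ 3 := by
    apply Subtype.ext
    push_cast
    rw [hj3, hx3, s36_x23_s_eq]
    exact s18_t3R_j3 K
  have E1 := congrArg W e1
  have E2 := congrArg W e2
  simp only [map_mul, map_pow, map_add, map_ofNat, hW1, hW3] at E1 E2
  have hj1V := s36_x23_j_mem A₁ hj1
  have hj3V := s36_x23_je_mem A₁ 3 hj3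
  have hXV : W x3 ∈ s34_gi_V A₁ L := s36_x23_mem_a hV hj1V E2
  refine ⟨hXV, ?_⟩
  have h3k : (3 : IsLocalRing.ResidueField A₁) = 0 := by
    have := CharP.cast_eq_zero (IsLocalRing.ResidueField A₁) 3
    exact_mod_cast this
  rw [← s34_gi_red_eq_zero_iff hπ ⟨W x3, hXV⟩]
  apply s36_q23_swap3_series _ h3k
  · have h := congrArg (s34_gi_red A₁ L)
      (show (⟨j3, hj3V⟩ : s34_gi_V A₁ L) * ⟨W x3, hXV⟩ ^ 3
        = (⟨W x3, hXV⟩ + 27) * (⟨W x3, hXV⟩ + 243) ^ 3 from Subtype.ext (by push_cast; exact E1))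
    rw [map_mul, map_pow, map_mul, map_pow, map_add, map_add, map_ofNat, map_ofNat,
      s36_x23_je_red A₁ 3 ⟨j3, hj3V⟩ hj3] at h
    exact h
  · have h := congrArg (s34_gi_red A₁ L)
      (show (⟨j1, hj1V⟩ : s34_gi_V A₁ L) * ⟨W x3, hXV⟩
        = (⟨W x3, hXV⟩ + 27) * (⟨W x3, hXV⟩ + 3) ^ 3 from Subtype.ext (by push_cast; exact E2))
    rw [map_mul, map_mul, map_pow, map_add, map_add, map_ofNat, map_ofNat,
      s36_x23_j_red A₁ ⟨j1, hj1V⟩ hj1] at h
    exact h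

/-- **(P-ii, a')**, `q = 2`: for a swap `W` (`j(Q) ↔ j(Q²)`) of `K · F(L)` the function `W t₂`
lies in the Gauss ring and reduces to `0`. -/
theorem s36_x23_swapred2 [CharP (IsLocalRing.ResidueField A₁) 2] (hπ : Irreducible π)
    (W : laurentBaseChange K (modularFunctionFieldFull L) ≃ₐ[K]
      laurentBaseChange K (modularFunctionFieldFull L))
    (j1 j2 x2 : laurentBaseChange K (modularFunctionFieldFull L))
    (hj1 : (j1 : LaurentSeries K) = s34_sw_s K 1) (hj2 : (j2 : LaurentSeries K) = s34_sw_s K 2)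
    (hx2 : (x2 : LaurentSeries K) = s18_t2R K)
    (hW1 : W j1 = j2) (hW2 : W j2 = j1) :
    W x2 ∈ s34_gi_V A₁ L ∧
      (algebraMap K (laurentBaseChange K (modularFunctionFieldFull L)) (π : K))⁻¹ * W x2
        ∈ s34_gi_V A₁ L := by
  have hV := s34_gi_unif (N := L) hπ
  have e1 : j1 * x2 ^ 2 = (x2 + 256) ^ 3 := by
    apply Subtype.ext
    push_cast
    rw [hj1, hx2, s36_x23_s_one]
    exact s18_t2R_j K
  have e2 : j2 * x2 = (x2 + 16) ^ 3 := by
    apply Subtype.ext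
    push_cast
    rw [hj2, hx2, s36_x23_s_eq]
    exact s18_t2R_j2 K
  have E1 := congrArg W e1
  have E2 := congrArg W e2
  simp only [map_mul, map_pow, map_add, map_ofNat, hW1, hW2] at E1 E2
  have hj1V := s36_x23_j_mem A₁ hj1
  have hj2V := s36_x23_je_mem A₁ 2 hj2
  have hXV : W x2 ∈ s34_gi_V A₁ L := s36_x23_mem_b hV hj1V E2
  refine ⟨hXV, ?_⟩
  have h2k : (2 : IsLocalRing.ResidueField A₁) = 0 := by
    have := CharP.cast_eq_zero (IsLocalRing.ResidueField A₁) 2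
    exact_mod_cast this
  rw [← s34_gi_red_eq_zero_iff hπ ⟨W x2, hXV⟩]
  apply s36_q23_swap2_series _ h2k
  · have h := congrArg (s34_gi_red A₁ L)
      (show (⟨j2, hj2V⟩ : s34_gi_V A₁ L) * ⟨W x2, hXV⟩ ^ 2
        = (⟨W x2, hXV⟩ + 256) ^ 3 from Subtype.ext (by push_cast; exact E1))
    rw [map_mul, map_pow, map_pow, map_add, map_ofNat,
      s36_x23_je_red A₁ 2 ⟨j2, hj2V⟩ hj2] at h
    exact h
  · have h := congrArg (s34_gi_red A₁ L)
      (show (⟨j1, hj1V⟩ : s34_gi_V A₁ L) * ⟨W x2, hXV⟩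
        = (⟨W x2, hXV⟩ + 16) ^ 3 from Subtype.ext (by push_cast; exact E2))
    rw [map_mul, map_pow, map_add, map_ofNat,
      s36_x23_j_red A₁ ⟨j1, hj1V⟩ hj1] at h
    exact h

/-- **(P-ii, b)**, `q = 3`: `red (t₂² t₃) = (red t₂ + 1)³`. -/
theorem s36_x23_red_f3 [CharP (IsLocalRing.ResidueField A₁) 3]
    (x2 x3 : laurentBaseChange K (modularFunctionFieldFull L))
    (hx2 : (x2 : LaurentSeries K) = s18_t2R K) (hx3 : (x3 : LaurentSeries K) = s18_t3R K)
    (h2 : x2 ∈ s34_gi_V A₁ L) (hf : x2 ^ 2 * x3 ∈ s34_gi_V A₁ L) :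
    s34_gi_red A₁ L ⟨x2 ^ 2 * x3, hf⟩ = (s34_gi_red A₁ L ⟨x2, h2⟩ + 1) ^ 3 := by
  have h3k : (3 : IsLocalRing.ResidueField A₁) = 0 := by
    have := CharP.cast_eq_zero (IsLocalRing.ResidueField A₁) 3
    exact_mod_cast this
  rw [s36_x23_int_red A₁ ⟨x2 ^ 2 * x3, hf⟩ (s18_t2 ^ 2 * s18_t3)
    (by push_cast; rw [hx2, hx3, map_mul, map_pow]; rfl),
    s36_x23_int_red A₁ ⟨x2, h2⟩ s18_t2 hx2, map_mul, map_pow]
  exact s36_q23_f_mod3 _ h3k

/-- **(P-ii, b')**, `q = 2`: `red (t₃³ t₂) = (red t₃ + 1)⁴`. -/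
theorem s36_x23_red_f2 [CharP (IsLocalRing.ResidueField A₁) 2]
    (x2 x3 : laurentBaseChange K (modularFunctionFieldFull L))
    (hx2 : (x2 : LaurentSeries K) = s18_t2R K) (hx3 : (x3 : LaurentSeries K) = s18_t3R K)
    (h3 : x3 ∈ s34_gi_V A₁ L) (hf : x3 ^ 3 * x2 ∈ s34_gi_V A₁ L) :
    s34_gi_red A₁ L ⟨x3 ^ 3 * x2, hf⟩ = (s34_gi_red A₁ L ⟨x3, h3⟩ + 1) ^ 4 := by
  have h2k : (2 : IsLocalRing.ResidueField A₁) = 0 := by
    have := CharP.cast_eq_zero (IsLocalRing.ResidueField A₁) 2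
    exact_mod_cast this
  rw [s36_x23_int_red A₁ ⟨x3 ^ 3 * x2, hf⟩ (s18_t3 ^ 3 * s18_t2)
    (by push_cast; rw [hx2, hx3, map_mul, map_pow]; rfl),
    s36_x23_int_red A₁ ⟨x3, h3⟩ s18_t3 hx3, map_mul, map_pow]
  exact s36_q23_f_mod2 _ h2k

/-- **(P-ii, c)**, `q = 3`: at a point `𝔪` of a chart `B` lying on both components (`P_∞ ⊆ 𝔪`,
`P_0 ⊆ 𝔪`) the chart coordinate `t₂` takes the value `-1`. -/
theorem s36_x23_cross3 [CharP (IsLocalRing.ResidueField A₁) 3] (hπ : Irreducible π)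
    (W : laurentBaseChange K (modularFunctionFieldFull L) ≃ₐ[K]
      laurentBaseChange K (modularFunctionFieldFull L))
    (j1 j3 x2 x3 : laurentBaseChange K (modularFunctionFieldFull L))
    (hj1 : (j1 : LaurentSeries K) = s34_sw_s K 1) (hj3 : (j3 : LaurentSeries K) = s34_sw_s K 3)
    (hx2 : (x2 : LaurentSeries K) = s18_t2R K) (hx3 : (x3 : LaurentSeries K) = s18_t3R K)
    (hW1 : W j1 = j3) (hW3 : W j3 = j1)
    (B : Subring (laurentBaseChange K (modularFunctionFieldFull L))) (𝔪 : Ideal B) [𝔪.IsPrime]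
    (hinf : ∀ p : B,
      (algebraMap K (laurentBaseChange K (modularFunctionFieldFull L)) (π : K))⁻¹ *
        (p : laurentBaseChange K (modularFunctionFieldFull L)) ∈ s34_gi_V A₁ L → p ∈ 𝔪)
    (h0 : ∀ p : B,
      (algebraMap K (laurentBaseChange K (modularFunctionFieldFull L)) (π : K))⁻¹ *
        W (p : laurentBaseChange K (modularFunctionFieldFull L)) ∈ s34_gi_V A₁ L → p ∈ 𝔪)
    (hx2B : x2 ∈ B) (hfB : x2 ^ 2 * x3 ∈ B) :
    (⟨x2, hx2B⟩ + 1 : B) ∈ 𝔪 := by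
  have hV := s34_gi_unif (N := L) hπ
  have hx2V := s36_x23_t2_mem A₁ hx2
  have hx3V := s36_x23_t3_mem A₁ hx3
  have hfV : x2 ^ 2 * x3 ∈ s34_gi_V A₁ L :=
    (s34_gi_V A₁ L).mul_mem ((s34_gi_V A₁ L).pow_mem hx2V 2) hx3V
  -- `g = f - (t + 1)³ ∈ P_∞`
  have hg : (⟨x2 ^ 2 * x3, hfB⟩ - (⟨x2, hx2B⟩ + 1) ^ 3 : B) ∈ 𝔪 := by
    apply hinf
    have hgV : x2 ^ 2 * x3 - (x2 + 1) ^ 3 ∈ s34_gi_V A₁ L :=
      (s34_gi_V A₁ L).sub_mem hfV
        ((s34_gi_V A₁ L).pow_mem ((s34_gi_V A₁ L).add_mem hx2V (s34_gi_V A₁ L).one_mem) 3)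
    have hcoe : ((⟨x2 ^ 2 * x3, hfB⟩ - (⟨x2, hx2B⟩ + 1) ^ 3 : B) :
        laurentBaseChange K (modularFunctionFieldFull L)) = x2 ^ 2 * x3 - (x2 + 1) ^ 3 := by
      push_cast; rfl
    rw [hcoe]
    have hred : s34_gi_red A₁ L ⟨x2 ^ 2 * x3 - (x2 + 1) ^ 3, hgV⟩ = 0 := by
      have e : (⟨x2 ^ 2 * x3 - (x2 + 1) ^ 3, hgV⟩ : s34_gi_V A₁ L)
          = ⟨x2 ^ 2 * x3, hfV⟩ - (⟨x2, hx2V⟩ + 1) ^ 3 := Subtype.ext (by push_cast; rfl)
      rw [e, map_sub, map_pow, map_add, map_one, s36_x23_red_f3 A₁ x2 x3 hx2 hx3 hx2V hfV,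
        sub_self]
    exact (s34_gi_red_eq_zero_iff hπ ⟨_, hgV⟩).mp hred
  -- `f ∈ P_0`
  have hf : (⟨x2 ^ 2 * x3, hfB⟩ : B) ∈ 𝔪 := by
    apply h0
    have e1 : j1 * x2 ^ 2 = (x2 + 256) ^ 3 := by
      apply Subtype.ext
      push_cast
      rw [hj1, hx2, s36_x23_s_one]
      exact s18_t2R_j K
    have E1 := congrArg W e1
    simp only [map_mul, map_pow, map_add, map_ofNat, hW1] at E1
    have hj3V := s36_x23_je_mem A₁ 3 hj3
    have hWx2 : W x2 ∈ s34_gi_V A₁ L := s36_x23_mem_c hV hj3V E1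
    have hWx3 := (s36_x23_swapred3 A₁ hπ W j1 j3 x3 hj1 hj3 hx3 hW1 hW3).2
    have e : (algebraMap K (laurentBaseChange K (modularFunctionFieldFull L)) (π : K))⁻¹ *
        W (x2 ^ 2 * x3) = W x2 ^ 2 *
        ((algebraMap K (laurentBaseChange K (modularFunctionFieldFull L)) (π : K))⁻¹ * W x3) := by
      rw [map_mul, map_pow]; ring
    show (algebraMap K (laurentBaseChange K (modularFunctionFieldFull L)) (π : K))⁻¹ *
        W (x2 ^ 2 * x3) ∈ s34_gi_V A₁ L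
    rw [e]
    exact (s34_gi_V A₁ L).mul_mem ((s34_gi_V A₁ L).pow_mem hWx2 2) hWx3
  have h3 : (⟨x2, hx2B⟩ + 1 : B) ^ 3 ∈ 𝔪 := by
    have := 𝔪.sub_mem hf hg
    rwa [sub_sub_cancel] at this
  exact Ideal.IsPrime.mem_of_pow_mem inferInstance 3 h3

/-- **(P-ii, c')**, `q = 2`: at a point `𝔪` of a chart `B` lying on both components the chart
coordinate `t₃` takes the value `-1 = 1`. -/
theorem s36_x23_cross2 [CharP (IsLocalRing.ResidueField A₁) 2] (hπ : Irreducible π)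
    (W : laurentBaseChange K (modularFunctionFieldFull L) ≃ₐ[K]
      laurentBaseChange K (modularFunctionFieldFull L))
    (j1 j2 x2 x3 : laurentBaseChange K (modularFunctionFieldFull L))
    (hj1 : (j1 : LaurentSeries K) = s34_sw_s K 1) (hj2 : (j2 : LaurentSeries K) = s34_sw_s K 2)
    (hx2 : (x2 : LaurentSeries K) = s18_t2R K) (hx3 : (x3 : LaurentSeries K) = s18_t3R K)
    (hW1 : W j1 = j2) (hW2 : W j2 = j1)
    (B : Subring (laurentBaseChange K (modularFunctionFieldFull L))) (𝔪 : Ideal B) [𝔪.IsPrime]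
    (hinf : ∀ p : B,
      (algebraMap K (laurentBaseChange K (modularFunctionFieldFull L)) (π : K))⁻¹ *
        (p : laurentBaseChange K (modularFunctionFieldFull L)) ∈ s34_gi_V A₁ L → p ∈ 𝔪)
    (h0 : ∀ p : B,
      (algebraMap K (laurentBaseChange K (modularFunctionFieldFull L)) (π : K))⁻¹ *
        W (p : laurentBaseChange K (modularFunctionFieldFull L)) ∈ s34_gi_V A₁ L → p ∈ 𝔪)
    (hx3B : x3 ∈ B) (hfB : x3 ^ 3 * x2 ∈ B) :
    (⟨x3, hx3B⟩ + 1 : B) ∈ 𝔪 := by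
  have hV := s34_gi_unif (N := L) hπ
  have hx2V := s36_x23_t2_mem A₁ hx2
  have hx3V := s36_x23_t3_mem A₁ hx3
  have hfV : x3 ^ 3 * x2 ∈ s34_gi_V A₁ L :=
    (s34_gi_V A₁ L).mul_mem ((s34_gi_V A₁ L).pow_mem hx3V 3) hx2V
  have hg : (⟨x3 ^ 3 * x2, hfB⟩ - (⟨x3, hx3B⟩ + 1) ^ 4 : B) ∈ 𝔪 := by
    apply hinf
    have hgV : x3 ^ 3 * x2 - (x3 + 1) ^ 4 ∈ s34_gi_V A₁ L :=
      (s34_gi_V A₁ L).sub_mem hfV
        ((s34_gi_V A₁ L).pow_mem ((s34_gi_V A₁ L).add_mem hx3V (s34_gi_V A₁ L).one_mem) 4)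
    have hcoe : ((⟨x3 ^ 3 * x2, hfB⟩ - (⟨x3, hx3B⟩ + 1) ^ 4 : B) :
        laurentBaseChange K (modularFunctionFieldFull L)) = x3 ^ 3 * x2 - (x3 + 1) ^ 4 := by
      push_cast; rfl
    rw [hcoe]
    have hred : s34_gi_red A₁ L ⟨x3 ^ 3 * x2 - (x3 + 1) ^ 4, hgV⟩ = 0 := by
      have e : (⟨x3 ^ 3 * x2 - (x3 + 1) ^ 4, hgV⟩ : s34_gi_V A₁ L)
          = ⟨x3 ^ 3 * x2, hfV⟩ - (⟨x3, hx3V⟩ + 1) ^ 4 := Subtype.ext (by push_cast; rfl)
      rw [e, map_sub, map_pow, map_add, map_one, s36_x23_red_f2 A₁ x2 x3 hx2 hx3 hx3V hfV,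
        sub_self]
    exact (s34_gi_red_eq_zero_iff hπ ⟨_, hgV⟩).mp hred
  have hf : (⟨x3 ^ 3 * x2, hfB⟩ : B) ∈ 𝔪 := by
    apply h0
    have e1 : j1 * x3 ^ 3 = (x3 + 27) * (x3 + 243) ^ 3 := by
      apply Subtype.ext
      push_cast
      rw [hj1, hx3, s36_x23_s_one]
      exact s18_t3R_j K
    have E1 := congrArg W e1
    simp only [map_mul, map_pow, map_add, map_ofNat, hW1] at E1
    have hj2V := s36_x23_je_mem A₁ 2 hj2
    have hWx3 : W x3 ∈ s34_gi_V A₁ L := s36_x23_mem_d hV hj2V E1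
    have hWx2 := (s36_x23_swapred2 A₁ hπ W j1 j2 x2 hj1 hj2 hx2 hW1 hW2).2
    have e : (algebraMap K (laurentBaseChange K (modularFunctionFieldFull L)) (π : K))⁻¹ *
        W (x3 ^ 3 * x2) = W x3 ^ 3 *
        ((algebraMap K (laurentBaseChange K (modularFunctionFieldFull L)) (π : K))⁻¹ * W x2) := by
      rw [map_mul, map_pow]; ring
    show (algebraMap K (laurentBaseChange K (modularFunctionFieldFull L)) (π : K))⁻¹ *
        W (x3 ^ 3 * x2) ∈ s34_gi_V A₁ L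
    rw [e]
    exact (s34_gi_V A₁ L).mul_mem ((s34_gi_V A₁ L).pow_mem hWx3 3) hWx2
  have h4 : (⟨x3, hx3B⟩ + 1 : B) ^ 4 ∈ 𝔪 := by
    have := 𝔪.sub_mem hf hg
    rwa [sub_sub_cancel] at this
  exact Ideal.IsPrime.mem_of_pow_mem inferInstance 4 h4

end Swap

section Chart

open Polynomial in
/-- `t₂² t₃` lies in the integral closure of `A₀[t₂]` (any base ring `A₀`). -/
theorem s36_x23_chart3 {A₀ F : Type*} [CommRing A₀] [Field F] [Algebra A₀ F] (j t u : F)
    (h2 : j * t ^ 2 = (t + 256) ^ 3) (h3 : j * u ^ 3 = (u + 27) * (u + 243) ^ 3) :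
    t ^ 2 * u ∈ s34_ic_chart A₀ t := by
  rw [s34_ic_mem_iff]
  refine ⟨X ^ 4 + (C (756 * X ^ 2 - (X + 256) ^ 3) * X ^ 3 + C (196830 * X ^ 4) * X ^ 2
    + C (19131876 * X ^ 6) * X + C (387420489 * X ^ 8)), ?_, ?_⟩
  · apply Polynomial.monic_X_pow_add
    compute_degree!
  · have h := s36_q23_int3 j t u h2 h3
    simp only [Polynomial.eval₂_add, Polynomial.eval₂_mul, Polynomial.eval₂_pow,
      Polynomial.eval₂_X, Polynomial.eval₂_C]
    simp only [AlgHom.coe_toRingHom, map_sub, map_mul, map_pow, map_add, map_ofNat, aeval_X]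
    linear_combination h

open Polynomial in
/-- `t₃³ t₂` lies in the integral closure of `A₀[t₃]` (any base ring `A₀`). -/
theorem s36_x23_chart2 {A₀ F : Type*} [CommRing A₀] [Field F] [Algebra A₀ F] (j t u : F)
    (h2 : j * t ^ 2 = (t + 256) ^ 3) (h3 : j * u ^ 3 = (u + 27) * (u + 243) ^ 3) :
    u ^ 3 * t ∈ s34_ic_chart A₀ u := by
  rw [s34_ic_mem_iff]
  refine ⟨X ^ 3 + (C (768 * X ^ 3 - (X + 27) * (X + 243) ^ 3) * X ^ 2 + C (196608 * X ^ 6) * X
    + C (16777216 * X ^ 9)), ?_, ?_⟩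
  · apply Polynomial.monic_X_pow_add
    compute_degree!
  · have h := s36_q23_int2 j t u h2 h3
    simp only [Polynomial.eval₂_add, Polynomial.eval₂_mul, Polynomial.eval₂_pow,
      Polynomial.eval₂_X, Polynomial.eval₂_C]
    simp only [AlgHom.coe_toRingHom, map_sub, map_mul, map_pow, map_add, map_ofNat, aeval_X]
    linear_combination h

end Chart

section Model

variable {K : Type*} [Field K] [Algebra ℚ K]

/-- The two `j`-swapping rules from the generator-wise description of an Atkin–Lehner swap of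
the pair `(N₁, q)` (the last component of `s34_md_IsSwap`, `s34_sw_swap`). -/
theorem s36_x23_swap_j (N₁ q : ℕ) [NeZero N₁] [NeZero q]
    (W : laurentBaseChange K (modularFunctionFieldFull (N₁ * q)) ≃ₐ[K]
      laurentBaseChange K (modularFunctionFieldFull (N₁ * q)))
    (hW : ∀ (d m : ℕ) (_ : d ∣ N₁) (_ : m ∣ q)
      (h1 : s34_sw_s K (d * m) ∈ laurentBaseChange K (modularFunctionFieldFull (N₁ * q))),
      ((W ⟨s34_sw_s K (d * m), h1⟩ :
        laurentBaseChange K (modularFunctionFieldFull (N₁ * q))) : LaurentSeries K) =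
        s34_sw_s K (d * (q / m))) :
    ∃ j1 jq : laurentBaseChange K (modularFunctionFieldFull (N₁ * q)),
      (j1 : LaurentSeries K) = s34_sw_s K 1 ∧ (jq : LaurentSeries K) = s34_sw_s K q ∧
        W j1 = jq ∧ W jq = j1 := by
  have hq0 : 0 < q := Nat.pos_of_ne_zero (NeZero.ne q)
  have hm1 : s34_sw_s K 1 ∈ laurentBaseChange K (modularFunctionFieldFull (N₁ * q)) := by
    rw [s34_sw_s_eq]
    exact s34_sw_s_mem K (N₁ * q) 1 (one_dvd _)
  have hmq : s34_sw_s K q ∈ laurentBaseChange K (modularFunctionFieldFull (N₁ * q)) := by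
    rw [s34_sw_s_eq]
    exact s34_sw_s_mem K (N₁ * q) q (dvd_mul_left q N₁)
  refine ⟨⟨_, hm1⟩, ⟨_, hmq⟩, rfl, rfl, ?_, ?_⟩
  · apply Subtype.ext
    have h := hW 1 1 (one_dvd _) (one_dvd _)
    simp only [one_mul, Nat.div_one] at h
    exact h hm1
  · apply Subtype.ext
    have h := hW 1 q (one_dvd _) dvd_rfl
    simp only [one_mul, Nat.div_self hq0] at h
    exact h hmq

variable (A₁ : ValuationSubring K) [IsDiscreteValuationRing A₁] {π : A₁}

/-- **(P-ii)**, `q = 3`, in the shape of the crossing-point hypothesis of `s34_md_XY`: at a prime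
`𝔪` of a chart `B` of `K · F(N₁ · 3)` lying on both components `V₁ = s34_gi_V`, `V₂ = V₁.comap W`
the coordinate `t₂` takes the value `-1`. -/
theorem s36_x23_cross3_md [CharP (IsLocalRing.ResidueField A₁) 3] (hπ : Irreducible π)
    (N₁ : ℕ) [NeZero N₁]
    (W : laurentBaseChange K (modularFunctionFieldFull (N₁ * 3)) ≃ₐ[K]
      laurentBaseChange K (modularFunctionFieldFull (N₁ * 3)))
    (hW : ∀ (d m : ℕ) (_ : d ∣ N₁) (_ : m ∣ 3)
      (h1 : s34_sw_s K (d * m) ∈ laurentBaseChange K (modularFunctionFieldFull (N₁ * 3))),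
      ((W ⟨s34_sw_s K (d * m), h1⟩ :
        laurentBaseChange K (modularFunctionFieldFull (N₁ * 3))) : LaurentSeries K) =
        s34_sw_s K (d * (3 / m)))
    (x2 x3 : laurentBaseChange K (modularFunctionFieldFull (N₁ * 3)))
    (hx2 : (x2 : LaurentSeries K) = s18_t2R K) (hx3 : (x3 : LaurentSeries K) = s18_t3R K)
    (B : Subring (laurentBaseChange K (modularFunctionFieldFull (N₁ * 3)))) (𝔪 : Ideal B)
    [𝔪.IsPrime]
    (hcross : ∀ s : B, s ∉ 𝔪 →
      (algebraMap K (laurentBaseChange K (modularFunctionFieldFull (N₁ * 3))) (π : K))⁻¹ *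
          (s : laurentBaseChange K (modularFunctionFieldFull (N₁ * 3))) ∉ s34_gi_V A₁ (N₁ * 3) ∧
        (algebraMap K (laurentBaseChange K (modularFunctionFieldFull (N₁ * 3))) (π : K))⁻¹ *
          (s : laurentBaseChange K (modularFunctionFieldFull (N₁ * 3))) ∉
            (s34_gi_V A₁ (N₁ * 3)).comap
              (W : laurentBaseChange K (modularFunctionFieldFull (N₁ * 3)) →+*
                laurentBaseChange K (modularFunctionFieldFull (N₁ * 3))))
    (hx2B : x2 ∈ B) (hfB : x2 ^ 2 * x3 ∈ B) :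
    (⟨x2, hx2B⟩ + 1 : B) ∈ 𝔪 := by
  obtain ⟨j1, j3, hj1, hj3, hW1, hW3⟩ := s36_x23_swap_j N₁ 3 W hW
  refine s36_x23_cross3 A₁ hπ W j1 j3 x2 x3 hj1 hj3 hx2 hx3 hW1 hW3 B 𝔪 ?_ ?_ hx2B hfB
  · intro p hp
    by_contra hpm
    exact (hcross p hpm).1 hp
  · intro p hp
    by_contra hpm
    apply (hcross p hpm).2
    rw [Subring.mem_comap]
    show W (_ * _) ∈ _
    rw [map_mul, map_inv₀, AlgEquiv.commutes]
    exact hp

/-- **(P-ii)**, `q = 2`, in the shape of the crossing-point hypothesis of `s34_md_XY`: at a prime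
`𝔪` of a chart `B` of `K · F(N₁ · 2)` lying on both components the coordinate `t₃` takes the
value `-1 = 1`. -/
theorem s36_x23_cross2_md [CharP (IsLocalRing.ResidueField A₁) 2] (hπ : Irreducible π)
    (N₁ : ℕ) [NeZero N₁]
    (W : laurentBaseChange K (modularFunctionFieldFull (N₁ * 2)) ≃ₐ[K]
      laurentBaseChange K (modularFunctionFieldFull (N₁ * 2)))
    (hW : ∀ (d m : ℕ) (_ : d ∣ N₁) (_ : m ∣ 2)
      (h1 : s34_sw_s K (d * m) ∈ laurentBaseChange K (modularFunctionFieldFull (N₁ * 2))),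
      ((W ⟨s34_sw_s K (d * m), h1⟩ :
        laurentBaseChange K (modularFunctionFieldFull (N₁ * 2))) : LaurentSeries K) =
        s34_sw_s K (d * (2 / m)))
    (x2 x3 : laurentBaseChange K (modularFunctionFieldFull (N₁ * 2)))
    (hx2 : (x2 : LaurentSeries K) = s18_t2R K) (hx3 : (x3 : LaurentSeries K) = s18_t3R K)
    (B : Subring (laurentBaseChange K (modularFunctionFieldFull (N₁ * 2)))) (𝔪 : Ideal B)
    [𝔪.IsPrime]
    (hcross : ∀ s : B, s ∉ 𝔪 →
      (algebraMap K (laurentBaseChange K (modularFunctionFieldFull (N₁ * 2))) (π : K))⁻¹ *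
          (s : laurentBaseChange K (modularFunctionFieldFull (N₁ * 2))) ∉ s34_gi_V A₁ (N₁ * 2) ∧
        (algebraMap K (laurentBaseChange K (modularFunctionFieldFull (N₁ * 2))) (π : K))⁻¹ *
          (s : laurentBaseChange K (modularFunctionFieldFull (N₁ * 2))) ∉
            (s34_gi_V A₁ (N₁ * 2)).comap
              (W : laurentBaseChange K (modularFunctionFieldFull (N₁ * 2)) →+*
                laurentBaseChange K (modularFunctionFieldFull (N₁ * 2))))
    (hx3B : x3 ∈ B) (hfB : x3 ^ 3 * x2 ∈ B) :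
    (⟨x3, hx3B⟩ + 1 : B) ∈ 𝔪 := by
  obtain ⟨j1, j2, hj1, hj2, hW1, hW2⟩ := s36_x23_swap_j N₁ 2 W hW
  refine s36_x23_cross2 A₁ hπ W j1 j2 x2 x3 hj1 hj2 hx2 hx3 hW1 hW2 B 𝔪 ?_ ?_ hx3B hfB
  · intro p hp
    by_contra hpm
    exact (hcross p hpm).1 hp
  · intro p hp
    by_contra hpm
    apply (hcross p hpm).2
    rw [Subring.mem_comap]
    show W (_ * _) ∈ _
    rw [map_mul, map_inv₀, AlgEquiv.commutes]
    exact hp

/-- The chart of `t₂` over any base ring contains `t₂² t₃`. -/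
theorem s36_x23_chart3_mem {A₀ : Type*} [CommRing A₀] {L : ℕ}
    [Algebra A₀ (laurentBaseChange K (modularFunctionFieldFull L))]
    (x2 x3 : laurentBaseChange K (modularFunctionFieldFull L))
    (hx2 : (x2 : LaurentSeries K) = s18_t2R K) (hx3 : (x3 : LaurentSeries K) = s18_t3R K)
    (hL : s34_sw_s K 1 ∈ laurentBaseChange K (modularFunctionFieldFull L)) :
    x2 ^ 2 * x3 ∈ s34_ic_chart A₀ x2 := by
  refine s36_x23_chart3 ⟨_, hL⟩ x2 x3 ?_ ?_
  · apply Subtype.ext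
    push_cast
    rw [hx2, s36_x23_s_one]
    exact s18_t2R_j K
  · apply Subtype.ext
    push_cast
    rw [hx3, s36_x23_s_one]
    exact s18_t3R_j K

/-- The chart of `t₃` over any base ring contains `t₃³ t₂`. -/
theorem s36_x23_chart2_mem {A₀ : Type*} [CommRing A₀] {L : ℕ}
    [Algebra A₀ (laurentBaseChange K (modularFunctionFieldFull L))]
    (x2 x3 : laurentBaseChange K (modularFunctionFieldFull L))
    (hx2 : (x2 : LaurentSeries K) = s18_t2R K) (hx3 : (x3 : LaurentSeries K) = s18_t3R K)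
    (hL : s34_sw_s K 1 ∈ laurentBaseChange K (modularFunctionFieldFull L)) :
    x3 ^ 3 * x2 ∈ s34_ic_chart A₀ x3 := by
  refine s36_x23_chart2 ⟨_, hL⟩ x2 x3 ?_ ?_
  · apply Subtype.ext
    push_cast
    rw [hx2, s36_x23_s_one]
    exact s18_t2R_j K
  · apply Subtype.ext
    push_cast
    rw [hx3, s36_x23_s_one]
    exact s18_t3R_j K

end Model

end Fermat.Agent.S36
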