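import Fermat.Agent.S36.Cross23

/-!
# S36 (NODE-3), leaf (POLE23), model-facing (P-ii) for `q = 2, 3` in the chart at infinity

Same vocabulary as `S36/Cross23.lean`; the chart coordinate is `s = t₂⁻¹` (`q = 3`) resp.
`s = t₃⁻¹` (`q = 2`), the auxiliary function is `t₂⁻¹ t₃` resp. `t₃⁻¹ t₂`.
-/

set_option autoImplicit false
set_option synthInstance.maxHeartbeats 400000
set_option linter.style.haveILetI false
set_option linter.unusedSectionVars false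

open ModularCurve

noncomputable section

namespace Fermat.Agent.S36

open Fermat.Agent.S18 Fermat.Agent.S34 Fermat.Agent.S37 Fermat.Agent.S28

section Series

/-- `q = 3`: `t̄₂⁻¹ t̄₃ = (t̄₂⁻¹ + 1)³` over any ring with `3 = 0`. -/
theorem s36_x23i_f_mod3 (R : Type*) [CommRing R] (h3R : (3 : R) = 0) :
    coeffMap (Int.castRingHom R) s18_t2inv * coeffMap (Int.castRingHom R) s18_t3
      = (coeffMap (Int.castRingHom R) s18_t2inv + 1) ^ 3 := by
  have E := s36_q23_f_mod3 R h3R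
  have H := s36_q23_t2_mul_inv R
  set t2 := coeffMap (Int.castRingHom R) s18_t2 with ht2
  set s := coeffMap (Int.castRingHom R) s18_t2inv with hs
  set t3 := coeffMap (Int.castRingHom R) s18_t3 with ht3
  linear_combination (s ^ 3) * E
    + (-s * t3 * (s * t2 + 1) + ((s * t2 + s) ^ 2 + (s * t2 + s) * (1 + s) + (1 + s) ^ 2)) * H

/-- `q = 2`: `t̄₃⁻¹ t̄₂ = (t̄₃⁻¹ + 1)⁴` over any ring with `2 = 0`. -/
theorem s36_x23i_f_mod2 (R : Type*) [CommRing R] (h2R : (2 : R) = 0) :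
    coeffMap (Int.castRingHom R) s18_t3inv * coeffMap (Int.castRingHom R) s18_t2
      = (coeffMap (Int.castRingHom R) s18_t3inv + 1) ^ 4 := by
  have E := s36_q23_f_mod2 R h2R
  have H := s36_q23_t3_mul_inv R
  set t2 := coeffMap (Int.castRingHom R) s18_t2 with ht2
  set s := coeffMap (Int.castRingHom R) s18_t3inv with hs
  set t3 := coeffMap (Int.castRingHom R) s18_t3 with ht3
  linear_combination (s ^ 4) * E
    + (-s * t2 * ((s * t3) ^ 2 + s * t3 + 1)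
      + ((s * t3 + s) ^ 3 + (s * t3 + s) ^ 2 * (1 + s) + (s * t3 + s) * (1 + s) ^ 2
        + (1 + s) ^ 3)) * H

end Series

section Chart

open Polynomial in
/-- `t₂⁻¹ t₃` lies in the integral closure of `A₀[t₂⁻¹]` (`s = t₂⁻¹`). -/
theorem s36_x23i_chart3 {A₀ F : Type*} [CommRing A₀] [Field F] [Algebra A₀ F] (j t u s : F)
    (h2 : j * t ^ 2 = (t + 256) ^ 3) (h3 : j * u ^ 3 = (u + 27) * (u + 243) ^ 3)
    (hs : s * t = 1) :
    s * u ∈ s34_ic_chart A₀ s := by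
  rw [s34_ic_mem_iff]
  refine ⟨X ^ 4 + (C (756 * X - (1 + 256 * X) ^ 3) * X ^ 3 + C (196830 * X ^ 2) * X ^ 2
    + C (19131876 * X ^ 3) * X + C (387420489 * X ^ 4)), ?_, ?_⟩
  · apply Polynomial.monic_X_pow_add
    compute_degree!
  · simp only [Polynomial.eval₂_add, Polynomial.eval₂_mul, Polynomial.eval₂_pow,
      Polynomial.eval₂_X, Polynomial.eval₂_C]
    simp only [AlgHom.coe_toRingHom, map_sub, map_mul, map_pow, map_add, map_ofNat, map_one,
      aeval_X]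
    linear_combination (-(s ^ 4)) * h3 + (s ^ 3 * u ^ 3 * s ^ 3) * h2
      + (s ^ 3 * u ^ 3) * (-j * s * (s * t + 1)
        + ((s * t + 256 * s) ^ 2 + (s * t + 256 * s) * (1 + 256 * s) + (1 + 256 * s) ^ 2)) * hs

open Polynomial in
/-- `t₃⁻¹ t₂` lies in the integral closure of `A₀[t₃⁻¹]` (`s = t₃⁻¹`). -/
theorem s36_x23i_chart2 {A₀ F : Type*} [CommRing A₀] [Field F] [Algebra A₀ F] (j t u s : F)
    (h2 : j * t ^ 2 = (t + 256) ^ 3) (h3 : j * u ^ 3 = (u + 27) * (u + 243) ^ 3)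
    (hs : s * u = 1) :
    s * t ∈ s34_ic_chart A₀ s := by
  rw [s34_ic_mem_iff]
  refine ⟨X ^ 3 + (C (768 * X - (1 + 27 * X) * (1 + 243 * X) ^ 3) * X ^ 2
    + C (196608 * X ^ 2) * X + C (16777216 * X ^ 3)), ?_, ?_⟩
  · apply Polynomial.monic_X_pow_add
    compute_degree!
  · simp only [Polynomial.eval₂_add, Polynomial.eval₂_mul, Polynomial.eval₂_pow,
      Polynomial.eval₂_X, Polynomial.eval₂_C]
    simp only [AlgHom.coe_toRingHom, map_sub, map_mul, map_pow, map_add, map_ofNat, map_one,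
      aeval_X]
    linear_combination (-(s ^ 3)) * h2 + (s ^ 2 * t ^ 2 * s ^ 4) * h3
      + (s ^ 2 * t ^ 2) * (-j * s * ((s * u) ^ 2 + s * u + 1)
        + ((s * u + 27 * s) * ((s * u + 243 * s) ^ 2 + (s * u + 243 * s) * (1 + 243 * s)
          + (1 + 243 * s) ^ 2) + (1 + 243 * s) ^ 3)) * hs

end Chart

section Gauss

variable {K : Type*} [Field K] [Algebra ℚ K] (A₁ : ValuationSubring K) {L : ℕ}

theorem s36_x23i_t2inv_coe {x2 : laurentBaseChange K (modularFunctionFieldFull L)}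
    (hx2 : (x2 : LaurentSeries K) = s18_t2R K) :
    ((x2⁻¹ : laurentBaseChange K (modularFunctionFieldFull L)) : LaurentSeries K)
      = coeffMap (Int.castRingHom K) s18_t2inv := by
  push_cast
  rw [hx2]
  exact inv_eq_of_mul_eq_one_right (s18_t2R_mul_inv K)

theorem s36_x23i_t3inv_coe {x3 : laurentBaseChange K (modularFunctionFieldFull L)}
    (hx3 : (x3 : LaurentSeries K) = s18_t3R K) :
    ((x3⁻¹ : laurentBaseChange K (modularFunctionFieldFull L)) : LaurentSeries K)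
      = coeffMap (Int.castRingHom K) s18_t3inv := by
  push_cast
  rw [hx3]
  exact inv_eq_of_mul_eq_one_right (s18_t3R_mul_inv K)

/-- `t₂⁻¹` lies in the Gauss ring. -/
theorem s36_x23i_t2inv_mem {x2 : laurentBaseChange K (modularFunctionFieldFull L)}
    (hx2 : (x2 : LaurentSeries K) = s18_t2R K) : x2⁻¹ ∈ s34_gi_V A₁ L :=
  s36_x23_int_mem A₁ s18_t2inv (s36_x23i_t2inv_coe hx2)

/-- `t₃⁻¹` lies in the Gauss ring. -/
theorem s36_x23i_t3inv_mem {x3 : laurentBaseChange K (modularFunctionFieldFull L)}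
    (hx3 : (x3 : LaurentSeries K) = s18_t3R K) : x3⁻¹ ∈ s34_gi_V A₁ L :=
  s36_x23_int_mem A₁ s18_t3inv (s36_x23i_t3inv_coe hx3)

variable [IsDiscreteValuationRing A₁] {π : A₁}

/-- `q = 3`: `red (t₂⁻¹ t₃) = (red t₂⁻¹ + 1)³`. -/
theorem s36_x23i_red_f3 [CharP (IsLocalRing.ResidueField A₁) 3]
    (x2 x3 : laurentBaseChange K (modularFunctionFieldFull L))
    (hx2 : (x2 : LaurentSeries K) = s18_t2R K) (hx3 : (x3 : LaurentSeries K) = s18_t3R K)
    (hs : x2⁻¹ ∈ s34_gi_V A₁ L) (hf : x2⁻¹ * x3 ∈ s34_gi_V A₁ L) :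
    s34_gi_red A₁ L ⟨x2⁻¹ * x3, hf⟩ = (s34_gi_red A₁ L ⟨x2⁻¹, hs⟩ + 1) ^ 3 := by
  have h3k : (3 : IsLocalRing.ResidueField A₁) = 0 := by
    have := CharP.cast_eq_zero (IsLocalRing.ResidueField A₁) 3
    exact_mod_cast this
  have hc := s36_x23i_t2inv_coe (L := L) hx2
  rw [s36_x23_int_red A₁ ⟨x2⁻¹ * x3, hf⟩ (s18_t2inv * s18_t3)
    (by
      show ((x2⁻¹ * x3 : laurentBaseChange K (modularFunctionFieldFull L)) : LaurentSeries K) = _
      rw [map_mul, ← hc, MulMemClass.coe_mul, hx3]; rfl),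
    s36_x23_int_red A₁ ⟨x2⁻¹, hs⟩ s18_t2inv hc, map_mul]
  exact s36_x23i_f_mod3 _ h3k

/-- `q = 2`: `red (t₃⁻¹ t₂) = (red t₃⁻¹ + 1)⁴`. -/
theorem s36_x23i_red_f2 [CharP (IsLocalRing.ResidueField A₁) 2]
    (x2 x3 : laurentBaseChange K (modularFunctionFieldFull L))
    (hx2 : (x2 : LaurentSeries K) = s18_t2R K) (hx3 : (x3 : LaurentSeries K) = s18_t3R K)
    (hs : x3⁻¹ ∈ s34_gi_V A₁ L) (hf : x3⁻¹ * x2 ∈ s34_gi_V A₁ L) :
    s34_gi_red A₁ L ⟨x3⁻¹ * x2, hf⟩ = (s34_gi_red A₁ L ⟨x3⁻¹, hs⟩ + 1) ^ 4 := by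
  have h2k : (2 : IsLocalRing.ResidueField A₁) = 0 := by
    have := CharP.cast_eq_zero (IsLocalRing.ResidueField A₁) 2
    exact_mod_cast this
  have hc := s36_x23i_t3inv_coe (L := L) hx3
  rw [s36_x23_int_red A₁ ⟨x3⁻¹ * x2, hf⟩ (s18_t3inv * s18_t2)
    (by
      show ((x3⁻¹ * x2 : laurentBaseChange K (modularFunctionFieldFull L)) : LaurentSeries K) = _
      rw [map_mul, ← hc, MulMemClass.coe_mul, hx2]; rfl),
    s36_x23_int_red A₁ ⟨x3⁻¹, hs⟩ s18_t3inv hc, map_mul]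
  exact s36_x23i_f_mod2 _ h2k

/-- `q = 3`: for a swap `W`, the function `W t₂` is a unit of the Gauss ring. -/
theorem s36_x23i_swap_unit3 [CharP (IsLocalRing.ResidueField A₁) 3] (hπ : Irreducible π)
    (W : laurentBaseChange K (modularFunctionFieldFull L) ≃ₐ[K]
      laurentBaseChange K (modularFunctionFieldFull L))
    (j1 j3 x2 : laurentBaseChange K (modularFunctionFieldFull L))
    (hj1 : (j1 : LaurentSeries K) = s34_sw_s K 1) (hj3 : (j3 : LaurentSeries K) = s34_sw_s K 3)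
    (hx2 : (x2 : LaurentSeries K) = s18_t2R K) (hW1 : W j1 = j3) :
    W x2 ∈ s34_gi_V A₁ L ∧ (W x2)⁻¹ ∈ s34_gi_V A₁ L := by
  have hV := s34_gi_unif (N := L) hπ
  have h3k : (3 : IsLocalRing.ResidueField A₁) = 0 := by
    have := CharP.cast_eq_zero (IsLocalRing.ResidueField A₁) 3
    exact_mod_cast this
  have e1 : j1 * x2 ^ 2 = (x2 + 256) ^ 3 := by
    apply Subtype.ext
    push_cast
    rw [hj1, hx2, s36_x23_s_one]
    exact s18_t2R_j K
  have E1 := congrArg W e1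
  simp only [map_mul, map_pow, map_add, map_ofNat, hW1] at E1
  have hj3V := s36_x23_je_mem A₁ 3 hj3
  have hXV : W x2 ∈ s34_gi_V A₁ L := s36_x23_mem_c hV hj3V E1
  refine ⟨hXV, hV.inv_mem_of_not_dvd hXV ?_⟩
  intro hd
  have hred0 := (s34_gi_red_eq_zero_iff hπ ⟨W x2, hXV⟩).mpr hd
  have h := congrArg (s34_gi_red A₁ L)
    (show (⟨j3, hj3V⟩ : s34_gi_V A₁ L) * ⟨W x2, hXV⟩ ^ 2
      = (⟨W x2, hXV⟩ + 256) ^ 3 from Subtype.ext (by push_cast; exact E1))
  rw [map_mul, map_pow, map_pow, map_add, map_ofNat, hred0] at h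
  have h3 := s36_q23_three_eq_zero _ h3k
  have h256 : (2 : LaurentSeries (IsLocalRing.ResidueField A₁)) ^ 24 = 0 := by
    have e : (2 : LaurentSeries (IsLocalRing.ResidueField A₁)) ^ 24 = (0 + 256) ^ 3 := by norm_num
    rw [e, ← h]; ring
  have h2 : (2 : LaurentSeries (IsLocalRing.ResidueField A₁)) = 0 := pow_eq_zero_iff (by norm_num) |>.mp h256
  exact one_ne_zero (α := LaurentSeries (IsLocalRing.ResidueField A₁)) (by linear_combination h3 - h2)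

/-- `q = 2`: for a swap `W`, the function `W t₃` is a unit of the Gauss ring. -/
theorem s36_x23i_swap_unit2 [CharP (IsLocalRing.ResidueField A₁) 2] (hπ : Irreducible π)
    (W : laurentBaseChange K (modularFunctionFieldFull L) ≃ₐ[K]
      laurentBaseChange K (modularFunctionFieldFull L))
    (j1 j2 x3 : laurentBaseChange K (modularFunctionFieldFull L))
    (hj1 : (j1 : LaurentSeries K) = s34_sw_s K 1) (hj2 : (j2 : LaurentSeries K) = s34_sw_s K 2)
    (hx3 : (x3 : LaurentSeries K) = s18_t3R K) (hW1 : W j1 = j2) :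
    W x3 ∈ s34_gi_V A₁ L ∧ (W x3)⁻¹ ∈ s34_gi_V A₁ L := by
  have hV := s34_gi_unif (N := L) hπ
  have h2k : (2 : IsLocalRing.ResidueField A₁) = 0 := by
    have := CharP.cast_eq_zero (IsLocalRing.ResidueField A₁) 2
    exact_mod_cast this
  have e1 : j1 * x3 ^ 3 = (x3 + 27) * (x3 + 243) ^ 3 := by
    apply Subtype.ext
    push_cast
    rw [hj1, hx3, s36_x23_s_one]
    exact s18_t3R_j K
  have E1 := congrArg W e1
  simp only [map_mul, map_pow, map_add, map_ofNat, hW1] at E1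
  have hj2V := s36_x23_je_mem A₁ 2 hj2
  have hXV : W x3 ∈ s34_gi_V A₁ L := s36_x23_mem_d hV hj2V E1
  refine ⟨hXV, hV.inv_mem_of_not_dvd hXV ?_⟩
  intro hd
  have hred0 := (s34_gi_red_eq_zero_iff hπ ⟨W x3, hXV⟩).mpr hd
  have h := congrArg (s34_gi_red A₁ L)
    (show (⟨j2, hj2V⟩ : s34_gi_V A₁ L) * ⟨W x3, hXV⟩ ^ 3
      = (⟨W x3, hXV⟩ + 27) * (⟨W x3, hXV⟩ + 243) ^ 3 from Subtype.ext (by push_cast; exact E1))
  rw [map_mul, map_pow, map_mul, map_pow, map_add, map_add, map_ofNat, map_ofNat, hred0] at h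
  have h2 := s36_q23_two_eq_zero _ h2k
  have h318 : (3 : LaurentSeries (IsLocalRing.ResidueField A₁)) ^ 18 = 0 := by
    have e : (3 : LaurentSeries (IsLocalRing.ResidueField A₁)) ^ 18
        = (0 + 27) * (0 + 243) ^ 3 := by norm_num
    rw [e, ← h]; ring
  have h3 : (3 : LaurentSeries (IsLocalRing.ResidueField A₁)) = 0 := pow_eq_zero_iff (by norm_num) |>.mp h318
  exact one_ne_zero (α := LaurentSeries (IsLocalRing.ResidueField A₁)) (by linear_combination h3 - h2)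

/-- **(P-ii)**, `q = 3`, chart at infinity: at a point `𝔪` of a chart `B ∋ t₂⁻¹` lying on both
components, `t₂⁻¹` takes the value `-1`. -/
theorem s36_x23i_cross3 [CharP (IsLocalRing.ResidueField A₁) 3] (hπ : Irreducible π)
    (W : laurentBaseChange K (modularFunctionFieldFull L) ≃ₐ[K]
      laurentBaseChange K (modularFunctionFieldFull L))
    (j1 j3 x2 x3 : laurentBaseChange K (modularFunctionFieldFull L))
    (hj1 : (j1 : LaurentSeries K) = s34_sw_s K 1) (hj3 : (j3 : LaurentSeries K) = s34_sw_s K 3)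
    (hx2 : (x2 : LaurentSeries K) = s18_t2R K) (hx3 : (x3 : LaurentSeries K) = s18_t3R K)
    (hW1 : W j1 = j3) (hW3 : W j3 = j1)
    (B : Subring (laurentBaseChange K (modularFunctionFieldFull L))) (𝔪 : Ideal B) [𝔪.IsPrime]
    (hinf : ∀ p : B,
      (algebraMap K (laurentBaseChange K (modularFunctionFieldFull L)) (π : K))⁻¹ *
        (p : laurentBaseChange K (modularFunctionFieldFull L)) ∈ s34_gi_V A₁ L → p ∈ 𝔪)
    (h0 : ∀ p : B,
      (algebraMap K (laurentBaseChange K (modularFunctionFieldFull L)) (π : K))⁻¹ *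
        W (p : laurentBaseChange K (modularFunctionFieldFull L)) ∈ s34_gi_V A₁ L → p ∈ 𝔪)
    (hsB : x2⁻¹ ∈ B) (hfB : x2⁻¹ * x3 ∈ B) :
    (⟨x2⁻¹, hsB⟩ + 1 : B) ∈ 𝔪 := by
  have hsV := s36_x23i_t2inv_mem A₁ hx2
  have hx3V := s36_x23_t3_mem A₁ hx3
  have hfV : x2⁻¹ * x3 ∈ s34_gi_V A₁ L := (s34_gi_V A₁ L).mul_mem hsV hx3V
  have hg : (⟨x2⁻¹ * x3, hfB⟩ - (⟨x2⁻¹, hsB⟩ + 1) ^ 3 : B) ∈ 𝔪 := by
    apply hinf
    have hgV : x2⁻¹ * x3 - (x2⁻¹ + 1) ^ 3 ∈ s34_gi_V A₁ L :=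
      (s34_gi_V A₁ L).sub_mem hfV
        ((s34_gi_V A₁ L).pow_mem ((s34_gi_V A₁ L).add_mem hsV (s34_gi_V A₁ L).one_mem) 3)
    have hcoe : ((⟨x2⁻¹ * x3, hfB⟩ - (⟨x2⁻¹, hsB⟩ + 1) ^ 3 : B) :
        laurentBaseChange K (modularFunctionFieldFull L)) = x2⁻¹ * x3 - (x2⁻¹ + 1) ^ 3 := by
      push_cast; rfl
    rw [hcoe]
    have hred : s34_gi_red A₁ L ⟨x2⁻¹ * x3 - (x2⁻¹ + 1) ^ 3, hgV⟩ = 0 := by
      have e : (⟨x2⁻¹ * x3 - (x2⁻¹ + 1) ^ 3, hgV⟩ : s34_gi_V A₁ L)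
          = ⟨x2⁻¹ * x3, hfV⟩ - (⟨x2⁻¹, hsV⟩ + 1) ^ 3 := Subtype.ext (by push_cast; rfl)
      rw [e, map_sub, map_pow, map_add, map_one, s36_x23i_red_f3 A₁ x2 x3 hx2 hx3 hsV hfV,
        sub_self]
    exact (s34_gi_red_eq_zero_iff hπ ⟨_, hgV⟩).mp hred
  have hf : (⟨x2⁻¹ * x3, hfB⟩ : B) ∈ 𝔪 := by
    apply h0
    have hWx2 := (s36_x23i_swap_unit3 A₁ hπ W j1 j3 x2 hj1 hj3 hx2 hW1).2
    have hWx3 := (s36_x23_swapred3 A₁ hπ W j1 j3 x3 hj1 hj3 hx3 hW1 hW3).2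
    have e : (algebraMap K (laurentBaseChange K (modularFunctionFieldFull L)) (π : K))⁻¹ *
        W (x2⁻¹ * x3) = (W x2)⁻¹ *
        ((algebraMap K (laurentBaseChange K (modularFunctionFieldFull L)) (π : K))⁻¹ * W x3) := by
      rw [map_mul, map_inv₀]; ring
    show (algebraMap K (laurentBaseChange K (modularFunctionFieldFull L)) (π : K))⁻¹ *
        W (x2⁻¹ * x3) ∈ s34_gi_V A₁ L
    rw [e]
    exact (s34_gi_V A₁ L).mul_mem hWx2 hWx3
  have h3 : (⟨x2⁻¹, hsB⟩ + 1 : B) ^ 3 ∈ 𝔪 := by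
    have := 𝔪.sub_mem hf hg
    rwa [sub_sub_cancel] at this
  exact Ideal.IsPrime.mem_of_pow_mem inferInstance 3 h3

/-- **(P-ii)**, `q = 2`, chart at infinity: at a point `𝔪` of a chart `B ∋ t₃⁻¹` lying on both
components, `t₃⁻¹` takes the value `-1 = 1`. -/
theorem s36_x23i_cross2 [CharP (IsLocalRing.ResidueField A₁) 2] (hπ : Irreducible π)
    (W : laurentBaseChange K (modularFunctionFieldFull L) ≃ₐ[K]
      laurentBaseChange K (modularFunctionFieldFull L))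
    (j1 j2 x2 x3 : laurentBaseChange K (modularFunctionFieldFull L))
    (hj1 : (j1 : LaurentSeries K) = s34_sw_s K 1) (hj2 : (j2 : LaurentSeries K) = s34_sw_s K 2)
    (hx2 : (x2 : LaurentSeries K) = s18_t2R K) (hx3 : (x3 : LaurentSeries K) = s18_t3R K)
    (hW1 : W j1 = j2) (hW2 : W j2 = j1)
    (B : Subring (laurentBaseChange K (modularFunctionFieldFull L))) (𝔪 : Ideal B) [𝔪.IsPrime]
    (hinf : ∀ p : B,
      (algebraMap K (laurentBaseChange K (modularFunctionFieldFull L)) (π : K))⁻¹ *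
        (p : laurentBaseChange K (modularFunctionFieldFull L)) ∈ s34_gi_V A₁ L → p ∈ 𝔪)
    (h0 : ∀ p : B,
      (algebraMap K (laurentBaseChange K (modularFunctionFieldFull L)) (π : K))⁻¹ *
        W (p : laurentBaseChange K (modularFunctionFieldFull L)) ∈ s34_gi_V A₁ L → p ∈ 𝔪)
    (hsB : x3⁻¹ ∈ B) (hfB : x3⁻¹ * x2 ∈ B) :
    (⟨x3⁻¹, hsB⟩ + 1 : B) ∈ 𝔪 := by
  have hsV := s36_x23i_t3inv_mem A₁ hx3
  have hx2V := s36_x23_t2_mem A₁ hx2
  have hfV : x3⁻¹ * x2 ∈ s34_gi_V A₁ L := (s34_gi_V A₁ L).mul_mem hsV hx2V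
  have hg : (⟨x3⁻¹ * x2, hfB⟩ - (⟨x3⁻¹, hsB⟩ + 1) ^ 4 : B) ∈ 𝔪 := by
    apply hinf
    have hgV : x3⁻¹ * x2 - (x3⁻¹ + 1) ^ 4 ∈ s34_gi_V A₁ L :=
      (s34_gi_V A₁ L).sub_mem hfV
        ((s34_gi_V A₁ L).pow_mem ((s34_gi_V A₁ L).add_mem hsV (s34_gi_V A₁ L).one_mem) 4)
    have hcoe : ((⟨x3⁻¹ * x2, hfB⟩ - (⟨x3⁻¹, hsB⟩ + 1) ^ 4 : B) :
        laurentBaseChange K (modularFunctionFieldFull L)) = x3⁻¹ * x2 - (x3⁻¹ + 1) ^ 4 := by
      push_cast; rfl
    rw [hcoe]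
    have hred : s34_gi_red A₁ L ⟨x3⁻¹ * x2 - (x3⁻¹ + 1) ^ 4, hgV⟩ = 0 := by
      have e : (⟨x3⁻¹ * x2 - (x3⁻¹ + 1) ^ 4, hgV⟩ : s34_gi_V A₁ L)
          = ⟨x3⁻¹ * x2, hfV⟩ - (⟨x3⁻¹, hsV⟩ + 1) ^ 4 := Subtype.ext (by push_cast; rfl)
      rw [e, map_sub, map_pow, map_add, map_one, s36_x23i_red_f2 A₁ x2 x3 hx2 hx3 hsV hfV,
        sub_self]
    exact (s34_gi_red_eq_zero_iff hπ ⟨_, hgV⟩).mp hred
  have hf : (⟨x3⁻¹ * x2, hfB⟩ : B) ∈ 𝔪 := by
    apply h0
    have hWx3 := (s36_x23i_swap_unit2 A₁ hπ W j1 j2 x3 hj1 hj2 hx3 hW1).2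
    have hWx2 := (s36_x23_swapred2 A₁ hπ W j1 j2 x2 hj1 hj2 hx2 hW1 hW2).2
    have e : (algebraMap K (laurentBaseChange K (modularFunctionFieldFull L)) (π : K))⁻¹ *
        W (x3⁻¹ * x2) = (W x3)⁻¹ *
        ((algebraMap K (laurentBaseChange K (modularFunctionFieldFull L)) (π : K))⁻¹ * W x2) := by
      rw [map_mul, map_inv₀]; ring
    show (algebraMap K (laurentBaseChange K (modularFunctionFieldFull L)) (π : K))⁻¹ *
        W (x3⁻¹ * x2) ∈ s34_gi_V A₁ L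
    rw [e]
    exact (s34_gi_V A₁ L).mul_mem hWx3 hWx2
  have h4 : (⟨x3⁻¹, hsB⟩ + 1 : B) ^ 4 ∈ 𝔪 := by
    have := 𝔪.sub_mem hf hg
    rwa [sub_sub_cancel] at this
  exact Ideal.IsPrime.mem_of_pow_mem inferInstance 4 h4

end Gauss

section Model

variable {K : Type*} [Field K] [Algebra ℚ K]
variable (A₁ : ValuationSubring K) [IsDiscreteValuationRing A₁] {π : A₁}

/-- **(P-ii)**, `q = 3`, chart at infinity, in the shape of the crossing-point hypothesis of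
`s34_md_XY`. -/
theorem s36_x23i_cross3_md [CharP (IsLocalRing.ResidueField A₁) 3] (hπ : Irreducible π)
    (N₁ : ℕ) [NeZero N₁]
    (W : laurentBaseChange K (modularFunctionFieldFull (N₁ * 3)) ≃ₐ[K]
      laurentBaseChange K (modularFunctionFieldFull (N₁ * 3)))
    (hW : ∀ (d m : ℕ) (_ : d ∣ N₁) (_ : m ∣ 3)
      (h1 : s34_sw_s K (d * m) ∈ laurentBaseChange K (modularFunctionFieldFull (N₁ * 3))),
      ((W ⟨s34_sw_s K (d * m), h1⟩ :
        laurentBaseChange K (modularFunctionFieldFull (N₁ * 3))) : LaurentSeries K) =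
        s34_sw_s K (d * (3 / m)))
    (x2 x3 : laurentBaseChange K (modularFunctionFieldFull (N₁ * 3)))
    (hx2 : (x2 : LaurentSeries K) = s18_t2R K) (hx3 : (x3 : LaurentSeries K) = s18_t3R K)
    (B : Subring (laurentBaseChange K (modularFunctionFieldFull (N₁ * 3)))) (𝔪 : Ideal B)
    [𝔪.IsPrime]
    (hcross : ∀ s : B, s ∉ 𝔪 →
      (algebraMap K (laurentBaseChange K (modularFunctionFieldFull (N₁ * 3))) (π : K))⁻¹ *
          (s : laurentBaseChange K (modularFunctionFieldFull (N₁ * 3))) ∉ s34_gi_V A₁ (N₁ * 3) ∧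
        (algebraMap K (laurentBaseChange K (modularFunctionFieldFull (N₁ * 3))) (π : K))⁻¹ *
          (s : laurentBaseChange K (modularFunctionFieldFull (N₁ * 3))) ∉
            (s34_gi_V A₁ (N₁ * 3)).comap
              (W : laurentBaseChange K (modularFunctionFieldFull (N₁ * 3)) →+*
                laurentBaseChange K (modularFunctionFieldFull (N₁ * 3))))
    (hsB : x2⁻¹ ∈ B) (hfB : x2⁻¹ * x3 ∈ B) :
    (⟨x2⁻¹, hsB⟩ + 1 : B) ∈ 𝔪 := by
  obtain ⟨j1, j3, hj1, hj3, hW1, hW3⟩ := s36_x23_swap_j N₁ 3 W hW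
  refine s36_x23i_cross3 A₁ hπ W j1 j3 x2 x3 hj1 hj3 hx2 hx3 hW1 hW3 B 𝔪 ?_ ?_ hsB hfB
  · intro p hp
    by_contra hpm
    exact (hcross p hpm).1 hp
  · intro p hp
    by_contra hpm
    apply (hcross p hpm).2
    rw [Subring.mem_comap]
    show W (_ * _) ∈ _
    rw [map_mul, map_inv₀, AlgEquiv.commutes]
    exact hp

/-- **(P-ii)**, `q = 2`, chart at infinity, in the shape of the crossing-point hypothesis of
`s34_md_XY`. -/
theorem s36_x23i_cross2_md [CharP (IsLocalRing.ResidueField A₁) 2] (hπ : Irreducible π)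
    (N₁ : ℕ) [NeZero N₁]
    (W : laurentBaseChange K (modularFunctionFieldFull (N₁ * 2)) ≃ₐ[K]
      laurentBaseChange K (modularFunctionFieldFull (N₁ * 2)))
    (hW : ∀ (d m : ℕ) (_ : d ∣ N₁) (_ : m ∣ 2)
      (h1 : s34_sw_s K (d * m) ∈ laurentBaseChange K (modularFunctionFieldFull (N₁ * 2))),
      ((W ⟨s34_sw_s K (d * m), h1⟩ :
        laurentBaseChange K (modularFunctionFieldFull (N₁ * 2))) : LaurentSeries K) =
        s34_sw_s K (d * (2 / m)))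
    (x2 x3 : laurentBaseChange K (modularFunctionFieldFull (N₁ * 2)))
    (hx2 : (x2 : LaurentSeries K) = s18_t2R K) (hx3 : (x3 : LaurentSeries K) = s18_t3R K)
    (B : Subring (laurentBaseChange K (modularFunctionFieldFull (N₁ * 2)))) (𝔪 : Ideal B)
    [𝔪.IsPrime]
    (hcross : ∀ s : B, s ∉ 𝔪 →
      (algebraMap K (laurentBaseChange K (modularFunctionFieldFull (N₁ * 2))) (π : K))⁻¹ *
          (s : laurentBaseChange K (modularFunctionFieldFull (N₁ * 2))) ∉ s34_gi_V A₁ (N₁ * 2) ∧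
        (algebraMap K (laurentBaseChange K (modularFunctionFieldFull (N₁ * 2))) (π : K))⁻¹ *
          (s : laurentBaseChange K (modularFunctionFieldFull (N₁ * 2))) ∉
            (s34_gi_V A₁ (N₁ * 2)).comap
              (W : laurentBaseChange K (modularFunctionFieldFull (N₁ * 2)) →+*
                laurentBaseChange K (modularFunctionFieldFull (N₁ * 2))))
    (hsB : x3⁻¹ ∈ B) (hfB : x3⁻¹ * x2 ∈ B) :
    (⟨x3⁻¹, hsB⟩ + 1 : B) ∈ 𝔪 := by
  obtain ⟨j1, j2, hj1, hj2, hW1, hW2⟩ := s36_x23_swap_j N₁ 2 W hW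
  refine s36_x23i_cross2 A₁ hπ W j1 j2 x2 x3 hj1 hj2 hx2 hx3 hW1 hW2 B 𝔪 ?_ ?_ hsB hfB
  · intro p hp
    by_contra hpm
    exact (hcross p hpm).1 hp
  · intro p hp
    by_contra hpm
    apply (hcross p hpm).2
    rw [Subring.mem_comap]
    show W (_ * _) ∈ _
    rw [map_mul, map_inv₀, AlgEquiv.commutes]
    exact hp

/-- The chart of `t₂⁻¹` over any base ring contains `t₂⁻¹ t₃`. -/
theorem s36_x23i_chart3_mem {A₀ : Type*} [CommRing A₀] {L : ℕ}
    [Algebra A₀ (laurentBaseChange K (modularFunctionFieldFull L))]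
    (x2 x3 : laurentBaseChange K (modularFunctionFieldFull L))
    (hx2 : (x2 : LaurentSeries K) = s18_t2R K) (hx3 : (x3 : LaurentSeries K) = s18_t3R K)
    (hL : s34_sw_s K 1 ∈ laurentBaseChange K (modularFunctionFieldFull L)) :
    x2⁻¹ * x3 ∈ s34_ic_chart A₀ x2⁻¹ := by
  have hx20 : x2 ≠ 0 := by
    intro h0
    have h1 := s18_t2R_mul_inv K
    rw [← hx2, h0] at h1
    simp at h1
  refine s36_x23i_chart3 ⟨_, hL⟩ x2 x3 x2⁻¹ ?_ ?_ (inv_mul_cancel₀ hx20)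
  · apply Subtype.ext
    push_cast
    rw [hx2, s36_x23_s_one]
    exact s18_t2R_j K
  · apply Subtype.ext
    push_cast
    rw [hx3, s36_x23_s_one]
    exact s18_t3R_j K

/-- The chart of `t₃⁻¹` over any base ring contains `t₃⁻¹ t₂`. -/
theorem s36_x23i_chart2_mem {A₀ : Type*} [CommRing A₀] {L : ℕ}
    [Algebra A₀ (laurentBaseChange K (modularFunctionFieldFull L))]
    (x2 x3 : laurentBaseChange K (modularFunctionFieldFull L))
    (hx2 : (x2 : LaurentSeries K) = s18_t2R K) (hx3 : (x3 : LaurentSeries K) = s18_t3R K)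
    (hL : s34_sw_s K 1 ∈ laurentBaseChange K (modularFunctionFieldFull L)) :
    x3⁻¹ * x2 ∈ s34_ic_chart A₀ x3⁻¹ := by
  have hx30 : x3 ≠ 0 := by
    intro h0
    have h1 := s18_t3R_mul_inv K
    rw [← hx3, h0] at h1
    simp at h1
  refine s36_x23i_chart2 ⟨_, hL⟩ x2 x3 x3⁻¹ ?_ ?_ (inv_mul_cancel₀ hx30)
  · apply Subtype.ext
    push_cast
    rw [hx2, s36_x23_s_one]
    exact s18_t2R_j K
  · apply Subtype.ext
    push_cast
    rw [hx3, s36_x23_s_one]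
    exact s18_t3R_j K

end Model

end Fermat.Agent.S36
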