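import Mathlib

/-!
# S36 (NODE-3): a crossing point is not a cusp

Let `B` be a chart (a subring of the field `F`) with coordinate `t`, `V₁`, `V₂` two vertical
components (`P_i = {p ∈ B | ϖ⁻¹ p ∈ V_i}`), and `𝔪` a prime of `B` containing `P₁` and `P₂` (a
crossing point).  Let `t' ∈ B` (the transform `t(Q^q)`) and `G = t ^ q / t' ∈ B` (the cusp ratio:
integrality of `G` over `A[t]` is `S36/CuspRatio`), with `G ≡ 1` on `V₁` (`t' ≡ t ^ q` there) and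
`G ≡ t' ^ k` on `V₂` (`t ≡ t' ^ q` there, `k = q² - 1`).  Then `t ∉ 𝔪` and `t' ∉ 𝔪`: the coordinate
and its transform are units at every crossing point.

(At a cusp over `t = 0` of a single component both `t` and `t'` vanish, so the vanishing of
`t' - t ^ q` and `t - t' ^ q` does not detect crossing points; the function `G` does.)
-/

set_option autoImplicit false

namespace Fermat.Agent.S36

variable {F : Type*} [Field F]

/-- **A crossing point is not a cusp**: the chart coordinate `t` and its transform `t'` are units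
at every prime `𝔪 ⊇ P₁ + P₂`. -/
theorem s36_xcu_unit {B V₁ V₂ : Subring F} {ϖ : F} (𝔪 : Ideal B) [h𝔪 : 𝔪.IsPrime]
    (hP₁ : ∀ p : B, ϖ⁻¹ * (p : F) ∈ V₁ → p ∈ 𝔪) (hP₂ : ∀ p : B, ϖ⁻¹ * (p : F) ∈ V₂ → p ∈ 𝔪)
    (t t' G : B) (q k : ℕ) (hq : 0 < q) (hk : 0 < k) (hG : G * t' = t ^ q)
    (hG₁ : ϖ⁻¹ * ((G : F) - 1) ∈ V₁) (hG₂ : ϖ⁻¹ * ((G : F) - (t' : F) ^ k) ∈ V₂) :
    t ∉ 𝔪 ∧ t' ∉ 𝔪 := by
  have h1 : G - 1 ∈ 𝔪 := hP₁ (G - 1) (by simpa using hG₁)
  have h2 : G - t' ^ k ∈ 𝔪 := hP₂ (G - t' ^ k) (by simpa using hG₂)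
  have hGn : G ∉ 𝔪 := by
    intro hGm
    have h3 : (1 : B) ∈ 𝔪 := by
      have e : (1 : B) = G - (G - 1) := by ring
      rw [e]; exact 𝔪.sub_mem hGm h1
    exact h𝔪.ne_top ((Ideal.eq_top_iff_one _).mpr h3)
  have ht' : t' ∉ 𝔪 := by
    intro ht'm
    apply hGn
    have e : G = (G - t' ^ k) + t' ^ k := by ring
    rw [e]
    exact 𝔪.add_mem h2 (𝔪.pow_mem_of_mem ht'm k hk)
  refine ⟨?_, ht'⟩
  intro htm
  have h4 : G * t' ∈ 𝔪 := by rw [hG]; exact 𝔪.pow_mem_of_mem htm q hq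
  exact (h𝔪.mem_or_mem h4).elim hGn ht'

end Fermat.Agent.S36
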