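import Fermat.Agent.S36.CrossCuspModel
import Fermat.Agent.S36.CuspRatioK
import Fermat.Agent.S34.InstDefs

/-!
# S36 (NODE-3): a crossing point is not a cusp — the concrete charts

Concrete vocabulary (`K₁ : IntermediateField ℚ ℚ̄`, `A : ValuationSubring ℚ̄` over the prime `q`,
`A₁ = s18_A1 A K₁` a DVR with uniformizer `q`, `F = K₁·F(N q)`, `W` the swap with
`W ∘ α = β`, `W² = 1`, `V₁ = s34_gi_V A₁ (N q)`, `V₂ = V₁.comap W`).  For a Hauptmodul `t` of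
level `M ∣ N` (`M = 2, 3`, `q ≠ M`, `q ∤ N`) and the charts `B = ic(A₁[t'])`, `t' ∈ {t, t⁻¹}`
(`s34_md_B0`, `s34_md_Binf`): at every prime `𝔪 ⊇ P₁ + P₂` of `B`,

  `t, t⁻¹, t(Q^q), t(Q^q)⁻¹ ∈ B_𝔪`     (`B_𝔪 = s18_loc B 𝔪`).

* `s36_xci_loc` : the general statement (integer expansion `x₁` of `t'`, `x₁ * y₁ = 1`);
* `s36_xci_loc_t2_zero`, `s36_xci_loc_t2_inf`, `s36_xci_loc_t3_zero`, `s36_xci_loc_t3_inf` : the
  four charts `s34_md_B0`/`s34_md_Binf` of `t₂`/`t₃` at level `N q`, for ARBITRARY elements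
  `x`, `x'` with expansions `t₂`, `t₂(Q^q)` (e.g. `heckeAlphaBar K₁ N q t`, `heckeBetaBar K₁ N q t`
  — the `hαloc`, `hβloc`, `hβinv` of `s36_m5_pole_loc_two/_three`).

Composition of `s36_xcm_unit` (`CrossCuspModel.lean`) with the chart memberships
`s34_ws_vq_mem` (`t'(Q^q) ∈ B`) and `s36_cusp_mem` (`t'^q / t'(Q^q) ∈ B`).
-/

set_option autoImplicit false
set_option synthInstance.maxHeartbeats 400000
set_option maxHeartbeats 1000000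
set_option linter.unusedSectionVars false
set_option linter.unusedVariables false

open ModularCurve AlgebraicCurve Polynomial

noncomputable section

namespace Fermat.Agent.S36

open Fermat.Agent.S18 Fermat.Agent.S37 Fermat.Agent.S34

local notation "Qb" => AlgebraicClosure ℚ

section Loc

variable {F : Type*} [Field F]

/-- An element of `B` lies in `B_𝔪`. -/
theorem s36_xci_mem_loc (B : Subring F) (𝔪 : Ideal B) [h𝔪 : 𝔪.IsPrime] {x : F} (hx : x ∈ B) :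
    x ∈ s18_loc B 𝔪 :=
  ⟨⟨x, hx⟩, 1, fun h => h𝔪.ne_top ((Ideal.eq_top_iff_one _).mpr h), by simp⟩

/-- The inverse of an element of `B ∖ 𝔪` lies in `B_𝔪`. -/
theorem s36_xci_inv_mem_loc (B : Subring F) (𝔪 : Ideal B) {x : F} (hx : x ∈ B)
    (hx𝔪 : (⟨x, hx⟩ : B) ∉ 𝔪) : x⁻¹ ∈ s18_loc B 𝔪 :=
  ⟨1, ⟨x, hx⟩, hx𝔪, by simp⟩

end Loc

section Concrete

variable (N q M : ℕ) [NeZero N] [NeZero q] [Fact q.Prime]
variable (K₁ : IntermediateField ℚ Qb) (A : ValuationSubring Qb)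

/-- **A crossing point is not a cusp, concrete charts.**  `t` a Hauptmodul of level `M ∣ N` seen
at level `N q` (`t₀` the same function at level `N`), `t' ∈ {t, t⁻¹}` with integer expansion `x₁`
(`x₁ * y₁ = 1`), `B = ic(A₁[t'])`, `𝔪` a prime of `B` containing `P₁` and `P₂`.  Then `t`, `t⁻¹`
and `y'`, `y'⁻¹` (`y'(Q) = t(Q^q)`) lie in `B_𝔪`. -/
theorem s36_xci_loc [NeZero (N * q)] (hqN : ¬ q ∣ N) (hqM : q ≠ M) (hMN : M ∣ N)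
    (hA : A.LiesOverPrime q) [IsDiscreteValuationRing (s18_A1 A K₁)]
    (hirr : Irreducible ((q : ℕ) : s18_A1 A K₁))
    (W : s18_F1 K₁ (N * q) ≃+* s18_F1 K₁ (N * q)) (hWW : ∀ x, W (W x) = x)
    (hWα : ∀ x : s18_F1 K₁ N, W (heckeAlphaBar K₁ N q x) = heckeBetaBar K₁ N q x)
    (t : s18_F1 K₁ (N * q)) (ht : s37_IsHaupt M (s18_baseIncl K₁ (N * q) t))
    (t₀ : s18_F1 K₁ N) (ht₀ : (t₀ : LaurentSeries K₁) = (t : LaurentSeries K₁))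
    (t' : s18_F1 K₁ (N * q)) (ht' : t' = t ∨ t' = t⁻¹)
    (x₁ y₁ : LaurentSeries ℤ) (hxy : x₁ * y₁ = 1)
    (hx : (t' : LaurentSeries K₁) = coeffMap (Int.castRingHom K₁) x₁)
    (𝔪 : Ideal (s34_ic_chart (s18_A1 A K₁) t').toSubring) [h𝔪 : 𝔪.IsPrime]
    (hP₁ : ∀ p : (s34_ic_chart (s18_A1 A K₁) t').toSubring,
      (algebraMap K₁ (s18_F1 K₁ (N * q)) (q : K₁))⁻¹ * (p : s18_F1 K₁ (N * q)) ∈
        s34_gi_V (s18_A1 A K₁) (N * q) → p ∈ 𝔪)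
    (hP₂ : ∀ p : (s34_ic_chart (s18_A1 A K₁) t').toSubring,
      (algebraMap K₁ (s18_F1 K₁ (N * q)) (q : K₁))⁻¹ * (p : s18_F1 K₁ (N * q)) ∈
        (s34_gi_V (s18_A1 A K₁) (N * q)).comap
          (W : s18_F1 K₁ (N * q) →+* s18_F1 K₁ (N * q)) → p ∈ 𝔪)
    (y' : s18_F1 K₁ (N * q))
    (hy' : (y' : LaurentSeries K₁) = qExpand K₁ q (t : LaurentSeries K₁)) :
    t ∈ s18_loc (s34_ic_chart (s18_A1 A K₁) t').toSubring 𝔪 ∧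
    t⁻¹ ∈ s18_loc (s34_ic_chart (s18_A1 A K₁) t').toSubring 𝔪 ∧
    y' ∈ s18_loc (s34_ic_chart (s18_A1 A K₁) t').toSubring 𝔪 ∧
    y'⁻¹ ∈ s18_loc (s34_ic_chart (s18_A1 A K₁) t').toSubring 𝔪 := by
  have hq : q.Prime := Fact.out
  -- `q⁻¹ ∉ A₁`
  have hℓ : ((q : K₁))⁻¹ ∉ s18_A1 A K₁ := by
    intro hmem
    apply hirr.not_isUnit
    refine IsUnit.of_mul_eq_one (⟨((q : K₁))⁻¹, hmem⟩ : s18_A1 A K₁) ?_
    apply Subtype.ext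
    have hq0 : (q : K₁) ≠ 0 := Nat.cast_ne_zero.mpr (NeZero.ne q)
    show (((q : ℕ) : s18_A1 A K₁) : K₁) * ((q : K₁))⁻¹ = 1
    have hcast : (((q : ℕ) : s18_A1 A K₁) : K₁) = (q : K₁) := by push_cast; rfl
    rw [hcast, mul_inv_cancel₀ hq0]
  -- `W` fixes the constants
  have hWϖ : W (algebraMap K₁ (s18_F1 K₁ (N * q)) (q : K₁)) =
      algebraMap K₁ (s18_F1 K₁ (N * q)) (q : K₁) := by
    have h := hWα (algebraMap K₁ (s18_F1 K₁ N) (q : K₁))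
    rwa [AlgHom.commutes, AlgHom.commutes] at h
  -- `t = α t₀`, `W t = y'`, `W y' = t`
  have hαt : heckeAlphaBar K₁ N q t₀ = t := by
    apply Subtype.ext
    rw [← ht₀]
    exact coe_heckeAlphaBar N q t₀
  have hβt : heckeBetaBar K₁ N q t₀ = y' := by
    apply Subtype.ext
    rw [hy', ← ht₀]
    exact coe_heckeBetaBar N q t₀
  have hWt : W t = y' := by rw [← hαt, hWα, hβt]
  have hWy : W y' = t := by rw [← hWt, hWW]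
  -- the transform of the chart coordinate
  obtain ⟨s', hs', hWs, hWs', hsy⟩ : ∃ s' : s18_F1 K₁ (N * q),
      (s' : LaurentSeries K₁) = qExpand K₁ q (t' : LaurentSeries K₁) ∧ W t' = s' ∧ W s' = t' ∧
      (s' = y' ∨ s' = y'⁻¹) := by
    rcases ht' with rfl | rfl
    · exact ⟨y', hy', hWt, hWy, Or.inl rfl⟩
    · refine ⟨y'⁻¹, ?_, ?_, ?_, Or.inr rfl⟩
      · have h1 : ((y'⁻¹ : s18_F1 K₁ (N * q)) : LaurentSeries K₁) =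
            (y' : LaurentSeries K₁)⁻¹ := rfl
        have h2 : ((t⁻¹ : s18_F1 K₁ (N * q)) : LaurentSeries K₁) =
            (t : LaurentSeries K₁)⁻¹ := rfl
        rw [h1, h2, hy', map_inv₀]
      · rw [map_inv₀, hWt]
      · rw [map_inv₀, hWy]
  have ht'B : t' ∈ (s34_ic_chart (s18_A1 A K₁) t').toSubring := s34_ic_t_mem t'
  have hs'B : s' ∈ (s34_ic_chart (s18_A1 A K₁) t').toSubring :=
    s34_ws_vq_mem N q M hq hqN hqM hMN A hA K₁ t ht t' ht' s' hs'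
  have hG : t' ^ q * s'⁻¹ ∈ (s34_ic_chart (s18_A1 A K₁) t').toSubring := by
    refine s36_cusp_mem N q M hq hqN hqM hMN A hA K₁ t ht t' ht' (t' ^ q * s'⁻¹) ?_
    have h1 : ((t' ^ q * s'⁻¹ : s18_F1 K₁ (N * q)) : LaurentSeries K₁) =
        (t' : LaurentSeries K₁) ^ q * (s' : LaurentSeries K₁)⁻¹ := rfl
    rw [h1, hs']
  obtain ⟨hn1, hn2⟩ := s36_xcm_unit q (s18_A1 A K₁) (N * q) hℓ hirr W hWϖ
    (s34_ic_chart (s18_A1 A K₁) t').toSubring 𝔪 hP₁ hP₂ t' s' ht'B hs'B hG x₁ y₁ hxy hx hs'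
    hWs hWs'
  have l1 := s36_xci_mem_loc (s34_ic_chart (s18_A1 A K₁) t').toSubring 𝔪 ht'B
  have l2 := s36_xci_inv_mem_loc (s34_ic_chart (s18_A1 A K₁) t').toSubring 𝔪 ht'B hn1
  have l3 := s36_xci_mem_loc (s34_ic_chart (s18_A1 A K₁) t').toSubring 𝔪 hs'B
  have l4 := s36_xci_inv_mem_loc (s34_ic_chart (s18_A1 A K₁) t').toSubring 𝔪 hs'B hn2
  have key1 : t ∈ s18_loc (s34_ic_chart (s18_A1 A K₁) t').toSubring 𝔪 ∧
      t⁻¹ ∈ s18_loc (s34_ic_chart (s18_A1 A K₁) t').toSubring 𝔪 := by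
    rcases ht' with h | h
    · have e1 : t = t' := h.symm
      rw [e1]
      exact ⟨l1, l2⟩
    · have e1 : t = t'⁻¹ := by rw [h, inv_inv]
      rw [e1, inv_inv]
      exact ⟨l2, l1⟩
  have key2 : y' ∈ s18_loc (s34_ic_chart (s18_A1 A K₁) t').toSubring 𝔪 ∧
      y'⁻¹ ∈ s18_loc (s34_ic_chart (s18_A1 A K₁) t').toSubring 𝔪 := by
    rcases hsy with h | h
    · have e1 : y' = s' := h.symm
      rw [e1]
      exact ⟨l3, l4⟩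
    · have e1 : y' = s'⁻¹ := by rw [h, inv_inv]
      rw [e1, inv_inv]
      exact ⟨l4, l3⟩
  exact ⟨key1.1, key1.2, key2.1, key2.2⟩

/-- The chart `s34_md_B0` of `t₂` at level `N q`: at a crossing point `𝔪`, the functions `t₂`,
`t₂(Q^q)` and their inverses lie in `B_𝔪`. -/
theorem s36_xci_loc_t2_zero [NeZero (N * q)] (hqN : ¬ q ∣ N) (hq2 : q ≠ 2) (h2 : 2 ∣ N)
    (h2' : 2 ∣ N * q) (hA : A.LiesOverPrime q) [IsDiscreteValuationRing (s18_A1 A K₁)]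
    (hirr : Irreducible ((q : ℕ) : s18_A1 A K₁))
    (W : s18_F1 K₁ (N * q) ≃+* s18_F1 K₁ (N * q)) (hWW : ∀ x, W (W x) = x)
    (hWα : ∀ x : s18_F1 K₁ N, W (heckeAlphaBar K₁ N q x) = heckeBetaBar K₁ N q x)
    (𝔪 : Ideal (s34_md_B0 A K₁ (N * q) (s18_cz_t2 (N * q) h2')).toSubring) [h𝔪 : 𝔪.IsPrime]
    (hP₁ : ∀ p : (s34_md_B0 A K₁ (N * q) (s18_cz_t2 (N * q) h2')).toSubring,
      (algebraMap K₁ (s18_F1 K₁ (N * q)) (q : K₁))⁻¹ * (p : s18_F1 K₁ (N * q)) ∈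
        s34_gi_V (s18_A1 A K₁) (N * q) → p ∈ 𝔪)
    (hP₂ : ∀ p : (s34_md_B0 A K₁ (N * q) (s18_cz_t2 (N * q) h2')).toSubring,
      (algebraMap K₁ (s18_F1 K₁ (N * q)) (q : K₁))⁻¹ * (p : s18_F1 K₁ (N * q)) ∈
        (s34_gi_V (s18_A1 A K₁) (N * q)).comap
          (W : s18_F1 K₁ (N * q) →+* s18_F1 K₁ (N * q)) → p ∈ 𝔪)
    (x x' : s18_F1 K₁ (N * q)) (hx : (x : LaurentSeries K₁) = s18_t2R K₁)
    (hx' : (x' : LaurentSeries K₁) = qExpand K₁ q (s18_t2R K₁)) :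
    x ∈ s18_loc (s34_md_B0 A K₁ (N * q) (s18_cz_t2 (N * q) h2')).toSubring 𝔪 ∧
    x⁻¹ ∈ s18_loc (s34_md_B0 A K₁ (N * q) (s18_cz_t2 (N * q) h2')).toSubring 𝔪 ∧
    x' ∈ s18_loc (s34_md_B0 A K₁ (N * q) (s18_cz_t2 (N * q) h2')).toSubring 𝔪 ∧
    x'⁻¹ ∈ s18_loc (s34_md_B0 A K₁ (N * q) (s18_cz_t2 (N * q) h2')).toSubring 𝔪 := by
  have hcoe : ((s18_coord K₁ (s18_cz_t2 (N * q) h2') : s18_F1 K₁ (N * q)) : LaurentSeries K₁) =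
      s18_t2R K₁ := s18_coeffMap_t2R (algebraMap ℚ K₁)
  have hxt : x = s18_coord K₁ (s18_cz_t2 (N * q) h2') := Subtype.ext (by rw [hx, hcoe])
  subst hxt
  exact s36_xci_loc N q 2 K₁ A hqN hq2 h2 hA hirr W hWW hWα _
    (s34_ws_isHaupt_t2 (N * q) K₁ h2') (s18_coord K₁ (s18_cz_t2 N h2))
    ((s18_coeffMap_t2R (algebraMap ℚ K₁)).trans hcoe.symm) _ (Or.inl rfl) s18_t2 s18_t2inv
    s18_t2_mul_inv hcoe 𝔪 hP₁ hP₂ x' (by rw [hx', hcoe])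

/-- The chart `s34_md_Binf` of `t₂` at level `N q`. -/
theorem s36_xci_loc_t2_inf [NeZero (N * q)] (hqN : ¬ q ∣ N) (hq2 : q ≠ 2) (h2 : 2 ∣ N)
    (h2' : 2 ∣ N * q) (hA : A.LiesOverPrime q) [IsDiscreteValuationRing (s18_A1 A K₁)]
    (hirr : Irreducible ((q : ℕ) : s18_A1 A K₁))
    (W : s18_F1 K₁ (N * q) ≃+* s18_F1 K₁ (N * q)) (hWW : ∀ x, W (W x) = x)
    (hWα : ∀ x : s18_F1 K₁ N, W (heckeAlphaBar K₁ N q x) = heckeBetaBar K₁ N q x)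
    (𝔪 : Ideal (s34_md_Binf A K₁ (N * q) (s18_cz_t2 (N * q) h2')).toSubring) [h𝔪 : 𝔪.IsPrime]
    (hP₁ : ∀ p : (s34_md_Binf A K₁ (N * q) (s18_cz_t2 (N * q) h2')).toSubring,
      (algebraMap K₁ (s18_F1 K₁ (N * q)) (q : K₁))⁻¹ * (p : s18_F1 K₁ (N * q)) ∈
        s34_gi_V (s18_A1 A K₁) (N * q) → p ∈ 𝔪)
    (hP₂ : ∀ p : (s34_md_Binf A K₁ (N * q) (s18_cz_t2 (N * q) h2')).toSubring,
      (algebraMap K₁ (s18_F1 K₁ (N * q)) (q : K₁))⁻¹ * (p : s18_F1 K₁ (N * q)) ∈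
        (s34_gi_V (s18_A1 A K₁) (N * q)).comap
          (W : s18_F1 K₁ (N * q) →+* s18_F1 K₁ (N * q)) → p ∈ 𝔪)
    (x x' : s18_F1 K₁ (N * q)) (hx : (x : LaurentSeries K₁) = s18_t2R K₁)
    (hx' : (x' : LaurentSeries K₁) = qExpand K₁ q (s18_t2R K₁)) :
    x ∈ s18_loc (s34_md_Binf A K₁ (N * q) (s18_cz_t2 (N * q) h2')).toSubring 𝔪 ∧
    x⁻¹ ∈ s18_loc (s34_md_Binf A K₁ (N * q) (s18_cz_t2 (N * q) h2')).toSubring 𝔪 ∧
    x' ∈ s18_loc (s34_md_Binf A K₁ (N * q) (s18_cz_t2 (N * q) h2')).toSubring 𝔪 ∧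
    x'⁻¹ ∈ s18_loc (s34_md_Binf A K₁ (N * q) (s18_cz_t2 (N * q) h2')).toSubring 𝔪 := by
  have hcoe : ((s18_coord K₁ (s18_cz_t2 (N * q) h2') : s18_F1 K₁ (N * q)) : LaurentSeries K₁) =
      s18_t2R K₁ := s18_coeffMap_t2R (algebraMap ℚ K₁)
  have hxt : x = s18_coord K₁ (s18_cz_t2 (N * q) h2') := Subtype.ext (by rw [hx, hcoe])
  subst hxt
  have hinv : (((s18_coord K₁ (s18_cz_t2 (N * q) h2'))⁻¹ : s18_F1 K₁ (N * q)) :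
      LaurentSeries K₁) = coeffMap (Int.castRingHom K₁) s18_t2inv := by
    have h1 : (((s18_coord K₁ (s18_cz_t2 (N * q) h2'))⁻¹ : s18_F1 K₁ (N * q)) :
        LaurentSeries K₁) = ((s18_coord K₁ (s18_cz_t2 (N * q) h2') : s18_F1 K₁ (N * q)) :
          LaurentSeries K₁)⁻¹ := rfl
    rw [h1, hcoe, ← s18_t2invR_eq_inv]
    rfl
  exact s36_xci_loc N q 2 K₁ A hqN hq2 h2 hA hirr W hWW hWα _
    (s34_ws_isHaupt_t2 (N * q) K₁ h2') (s18_coord K₁ (s18_cz_t2 N h2))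
    ((s18_coeffMap_t2R (algebraMap ℚ K₁)).trans hcoe.symm) _ (Or.inr rfl) s18_t2inv s18_t2
    (by rw [mul_comm]; exact s18_t2_mul_inv) hinv 𝔪 hP₁ hP₂ x' (by rw [hx', hcoe])

/-- The chart `s34_md_B0` of `t₃` at level `N q`. -/
theorem s36_xci_loc_t3_zero [NeZero (N * q)] (hqN : ¬ q ∣ N) (hq3 : q ≠ 3) (h3 : 3 ∣ N)
    (h3' : 3 ∣ N * q) (hA : A.LiesOverPrime q) [IsDiscreteValuationRing (s18_A1 A K₁)]
    (hirr : Irreducible ((q : ℕ) : s18_A1 A K₁))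
    (W : s18_F1 K₁ (N * q) ≃+* s18_F1 K₁ (N * q)) (hWW : ∀ x, W (W x) = x)
    (hWα : ∀ x : s18_F1 K₁ N, W (heckeAlphaBar K₁ N q x) = heckeBetaBar K₁ N q x)
    (𝔪 : Ideal (s34_md_B0 A K₁ (N * q) (s18_cz_t3 (N * q) h3')).toSubring) [h𝔪 : 𝔪.IsPrime]
    (hP₁ : ∀ p : (s34_md_B0 A K₁ (N * q) (s18_cz_t3 (N * q) h3')).toSubring,
      (algebraMap K₁ (s18_F1 K₁ (N * q)) (q : K₁))⁻¹ * (p : s18_F1 K₁ (N * q)) ∈
        s34_gi_V (s18_A1 A K₁) (N * q) → p ∈ 𝔪)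
    (hP₂ : ∀ p : (s34_md_B0 A K₁ (N * q) (s18_cz_t3 (N * q) h3')).toSubring,
      (algebraMap K₁ (s18_F1 K₁ (N * q)) (q : K₁))⁻¹ * (p : s18_F1 K₁ (N * q)) ∈
        (s34_gi_V (s18_A1 A K₁) (N * q)).comap
          (W : s18_F1 K₁ (N * q) →+* s18_F1 K₁ (N * q)) → p ∈ 𝔪)
    (x x' : s18_F1 K₁ (N * q)) (hx : (x : LaurentSeries K₁) = s18_t3R K₁)
    (hx' : (x' : LaurentSeries K₁) = qExpand K₁ q (s18_t3R K₁)) :
    x ∈ s18_loc (s34_md_B0 A K₁ (N * q) (s18_cz_t3 (N * q) h3')).toSubring 𝔪 ∧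
    x⁻¹ ∈ s18_loc (s34_md_B0 A K₁ (N * q) (s18_cz_t3 (N * q) h3')).toSubring 𝔪 ∧
    x' ∈ s18_loc (s34_md_B0 A K₁ (N * q) (s18_cz_t3 (N * q) h3')).toSubring 𝔪 ∧
    x'⁻¹ ∈ s18_loc (s34_md_B0 A K₁ (N * q) (s18_cz_t3 (N * q) h3')).toSubring 𝔪 := by
  have hcoe : ((s18_coord K₁ (s18_cz_t3 (N * q) h3') : s18_F1 K₁ (N * q)) : LaurentSeries K₁) =
      s18_t3R K₁ := s18_coeffMap_t3R (algebraMap ℚ K₁)
  have hxt : x = s18_coord K₁ (s18_cz_t3 (N * q) h3') := Subtype.ext (by rw [hx, hcoe])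
  subst hxt
  exact s36_xci_loc N q 3 K₁ A hqN hq3 h3 hA hirr W hWW hWα _
    (s34_ws_isHaupt_t3 (N * q) K₁ h3') (s18_coord K₁ (s18_cz_t3 N h3))
    ((s18_coeffMap_t3R (algebraMap ℚ K₁)).trans hcoe.symm) _ (Or.inl rfl) s18_t3 s18_t3inv
    s18_t3_mul_inv hcoe 𝔪 hP₁ hP₂ x' (by rw [hx', hcoe])

/-- The chart `s34_md_Binf` of `t₃` at level `N q`. -/
theorem s36_xci_loc_t3_inf [NeZero (N * q)] (hqN : ¬ q ∣ N) (hq3 : q ≠ 3) (h3 : 3 ∣ N)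
    (h3' : 3 ∣ N * q) (hA : A.LiesOverPrime q) [IsDiscreteValuationRing (s18_A1 A K₁)]
    (hirr : Irreducible ((q : ℕ) : s18_A1 A K₁))
    (W : s18_F1 K₁ (N * q) ≃+* s18_F1 K₁ (N * q)) (hWW : ∀ x, W (W x) = x)
    (hWα : ∀ x : s18_F1 K₁ N, W (heckeAlphaBar K₁ N q x) = heckeBetaBar K₁ N q x)
    (𝔪 : Ideal (s34_md_Binf A K₁ (N * q) (s18_cz_t3 (N * q) h3')).toSubring) [h𝔪 : 𝔪.IsPrime]
    (hP₁ : ∀ p : (s34_md_Binf A K₁ (N * q) (s18_cz_t3 (N * q) h3')).toSubring,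
      (algebraMap K₁ (s18_F1 K₁ (N * q)) (q : K₁))⁻¹ * (p : s18_F1 K₁ (N * q)) ∈
        s34_gi_V (s18_A1 A K₁) (N * q) → p ∈ 𝔪)
    (hP₂ : ∀ p : (s34_md_Binf A K₁ (N * q) (s18_cz_t3 (N * q) h3')).toSubring,
      (algebraMap K₁ (s18_F1 K₁ (N * q)) (q : K₁))⁻¹ * (p : s18_F1 K₁ (N * q)) ∈
        (s34_gi_V (s18_A1 A K₁) (N * q)).comap
          (W : s18_F1 K₁ (N * q) →+* s18_F1 K₁ (N * q)) → p ∈ 𝔪)
    (x x' : s18_F1 K₁ (N * q)) (hx : (x : LaurentSeries K₁) = s18_t3R K₁)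
    (hx' : (x' : LaurentSeries K₁) = qExpand K₁ q (s18_t3R K₁)) :
    x ∈ s18_loc (s34_md_Binf A K₁ (N * q) (s18_cz_t3 (N * q) h3')).toSubring 𝔪 ∧
    x⁻¹ ∈ s18_loc (s34_md_Binf A K₁ (N * q) (s18_cz_t3 (N * q) h3')).toSubring 𝔪 ∧
    x' ∈ s18_loc (s34_md_Binf A K₁ (N * q) (s18_cz_t3 (N * q) h3')).toSubring 𝔪 ∧
    x'⁻¹ ∈ s18_loc (s34_md_Binf A K₁ (N * q) (s18_cz_t3 (N * q) h3')).toSubring 𝔪 := by
  have hcoe : ((s18_coord K₁ (s18_cz_t3 (N * q) h3') : s18_F1 K₁ (N * q)) : LaurentSeries K₁) =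
      s18_t3R K₁ := s18_coeffMap_t3R (algebraMap ℚ K₁)
  have hxt : x = s18_coord K₁ (s18_cz_t3 (N * q) h3') := Subtype.ext (by rw [hx, hcoe])
  subst hxt
  have hinv : (((s18_coord K₁ (s18_cz_t3 (N * q) h3'))⁻¹ : s18_F1 K₁ (N * q)) :
      LaurentSeries K₁) = coeffMap (Int.castRingHom K₁) s18_t3inv := by
    have h1 : (((s18_coord K₁ (s18_cz_t3 (N * q) h3'))⁻¹ : s18_F1 K₁ (N * q)) :
        LaurentSeries K₁) = ((s18_coord K₁ (s18_cz_t3 (N * q) h3') : s18_F1 K₁ (N * q)) :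
          LaurentSeries K₁)⁻¹ := rfl
    rw [h1, hcoe, ← s18_t3invR_eq_inv]
    rfl
  exact s36_xci_loc N q 3 K₁ A hqN hq3 h3 hA hirr W hWW hWα _
    (s34_ws_isHaupt_t3 (N * q) K₁ h3') (s18_coord K₁ (s18_cz_t3 N h3))
    ((s18_coeffMap_t3R (algebraMap ℚ K₁)).trans hcoe.symm) _ (Or.inr rfl) s18_t3inv s18_t3
    (by rw [mul_comm]; exact s18_t3_mul_inv) hinv 𝔪 hP₁ hP₂ x' (by rw [hx', hcoe])

end Concrete

end Fermat.Agent.S36
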