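import Fermat.Agent.S36.ThickModel

/-!
# S36 (NODE-3), B2 route (a): the crossing-point `q`-series package for an INTEGER coordinate

Supplement to `ThickModel.lean` (same generic model vocabulary, no Galois hypothesis).  For a
function `x ∈ F_N` whose `q`-expansion is an INTEGER series `x₁ : LaurentSeries ℤ`
(the Hauptmodul coordinates `t2`, `t3`, `j`):

* `s36_tmx_theta_ne` : a series with a nonzero coefficient at an exponent prime to the
  characteristic has `θ f ≠ 0`;
* `s36_tmx_sub_pow_ne` : `θ f ≠ 0 ⟹ f - f^(ℓ²) ≠ 0` in characteristic `ℓ`;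
* `s36_tmx_int_mem_Wring`, `s36_tmx_int_mem` : integer series are Gauss-integral;
* `s36_tmx_red_int` : the reduction of a function with integer expansion `x₁` is `x₁ mod ℓ`
  (as `coeffMap (Int.castRingHom k) x₁`);
* `s36_tmx_main` : `s36_tm_main` for an integer coordinate with a simple pole of leading
  coefficient one, with the extra outputs `red X = x₁ mod ℓ`, `(G - X^ℓ)(X - G^ℓ) = ℓ γ`,
  `θ x̄ ≠ 0` and `v̄ ≠ 0` — i.e. the hypotheses `huv`, `hθx`, `hvx`, `hv0`, `hid` of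
  `s36_th_gen_D` (`ThickCoreM.lean`) in one call.
-/

set_option autoImplicit false
set_option linter.unusedSectionVars false
set_option linter.unusedVariables false

open ModularCurve

noncomputable section

namespace Fermat.Agent.S36

open Fermat.Agent.S18 Fermat.Agent.S28 Fermat.Agent.S34 Fermat.Agent.S37

section Series

variable {k : Type*} [Field k]

/-- A series with a nonzero coefficient at an exponent which is nonzero in `k` has `θ f ≠ 0`. -/
theorem s36_tmx_theta_ne (f : LaurentSeries k) (n : ℤ) (hn : (n : k) ≠ 0)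
    (hf : f.coeff n ≠ 0) : s36_qt_theta k f ≠ 0 := by
  intro h
  have h1 : (s36_qt_theta k f).coeff n = 0 := by rw [h]; rfl
  rw [s36_qt_theta_coeff] at h1
  exact (mul_ne_zero hn hf) h1

/-- In characteristic `ℓ`: `θ (f^(ℓ²)) = 0`. -/
theorem s36_tmx_theta_pow_sq (ℓ : ℕ) [NeZero ℓ] [CharP k ℓ] (f : LaurentSeries k) :
    s36_qt_theta k (f ^ (ℓ ^ 2)) = 0 := by
  have hpos : 0 < ℓ ^ 2 := Nat.pos_of_ne_zero (pow_ne_zero 2 (NeZero.ne ℓ))
  obtain ⟨m, hm⟩ : ∃ m, ℓ ^ 2 = m + 1 := ⟨ℓ ^ 2 - 1, by omega⟩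
  rw [hm, s36_qt_theta_pow, ← hm, nsmul_eq_mul]
  have h0 : (((ℓ ^ 2 : ℕ)) : LaurentSeries k) = 0 := by
    have h1 : (((ℓ ^ 2 : ℕ)) : LaurentSeries k) = HahnSeries.C (((ℓ ^ 2 : ℕ)) : k) := by
      rw [map_natCast]
    rw [h1, Nat.cast_pow, CharP.cast_eq_zero, zero_pow two_ne_zero, map_zero]
  rw [h0, zero_mul]

/-- In characteristic `ℓ`: `θ f ≠ 0 ⟹ f - f^(ℓ²) ≠ 0`. -/
theorem s36_tmx_sub_pow_ne (ℓ : ℕ) [NeZero ℓ] [CharP k ℓ] (f : LaurentSeries k)
    (hθ : s36_qt_theta k f ≠ 0) : f - f ^ (ℓ ^ 2) ≠ 0 := by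
  intro h
  apply hθ
  have h1 : s36_qt_theta k (f - f ^ (ℓ ^ 2)) = 0 := by rw [h, map_zero]
  rw [map_sub, s36_tmx_theta_pow_sq ℓ f, sub_zero] at h1
  exact h1

end Series

section Int

variable (ℓ : ℕ) [NeZero ℓ] [Fact ℓ.Prime]

/-- Integer series are Gauss-integral over `ℚ`. -/
theorem s36_tmx_int_mem_Wring (x₁ : LaurentSeries ℤ) :
    coeffMap (Int.castRingHom ℚ) x₁ ∈ Wring ℓ := by
  rw [mem_Wring_iff]
  refine ⟨1, coeffMap (Int.castRingHom (GaloisRep.ratLocalizedAt ℓ)) x₁, ?_, ?_⟩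
  · rw [map_one]
    exact one_ne_zero
  · rw [map_one, one_mul]
    show _ = coeffMap (GaloisRep.ratLocalizedAt ℓ).subtype
      (coeffMap (Int.castRingHom (GaloisRep.ratLocalizedAt ℓ)) x₁)
    rw [coeffMap_coeffMap]
    exact coeffMap_congr (RingHom.ext_int _ _) x₁

end Int

section Model

variable (ℓ : ℕ) [NeZero ℓ] [Fact ℓ.Prime]
variable {K : Type*} [Field K] [Algebra ℚ K] (A : ValuationSubring K) (N : ℕ)

/-- A function with integer `q`-expansion lies in the Gauss ring. -/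
theorem s36_tmx_int_mem (x : laurentBaseChange K (modularFunctionFieldFull N))
    (x₁ : LaurentSeries ℤ) (hx : (x : LaurentSeries K) = coeffMap (Int.castRingHom K) x₁) :
    x ∈ s34_gi_V A N := by
  show (x : LaurentSeries K) ∈ s18_W A.subtype (IsLocalRing.residue A)
  have h1 : (x : LaurentSeries K) = coeffMap A.subtype (coeffMap (Int.castRingHom A) x₁) := by
    rw [hx, coeffMap_coeffMap]
    exact coeffMap_congr (RingHom.ext_int _ _) x₁
  rw [h1]
  exact s18_coeffMap_mem_W _ _ _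

/-- **Reduction of a function with integer `q`-expansion**: `red X = x₁ mod ℓ`. -/
theorem s36_tmx_red_int (X : s34_gi_V A N) (x₁ : LaurentSeries ℤ)
    (hX : ((X : laurentBaseChange K (modularFunctionFieldFull N)) : LaurentSeries K) =
      coeffMap (Int.castRingHom K) x₁) :
    s34_gi_red A N X = coeffMap (Int.castRingHom (IsLocalRing.ResidueField A)) x₁ := by
  have h1 : ((X : laurentBaseChange K (modularFunctionFieldFull N)) : LaurentSeries K) =
      coeffMap A.subtype (coeffMap (Int.castRingHom A) x₁) := by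
    rw [hX, coeffMap_coeffMap]
    exact coeffMap_congr (RingHom.ext_int _ _) x₁
  rw [s34_gi_red_integral X _ h1, coeffMap_coeffMap]
  exact coeffMap_congr (RingHom.ext_int _ _) x₁

/-- **The crossing-point `q`-series package for an integer coordinate with a simple pole.**
`x ∈ F_N` with integer expansion `x₁`, `x₁ = Q⁻¹ + …` (coefficient one at `Q⁻¹`),
`g(Q) = x(Q^ℓ)`; `A` unramified.  Output: `X, G, Aa ∈ V∞` with `ℓ · Aa = x^ℓ - g`; for
`u := G - X^ℓ`, `v := X - G^ℓ`, `γ := -(Aa · v)`:  `u v = ℓ γ`, `red X = x₁ mod ℓ`,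
`red G = (red X)^ℓ`, `red v = x̄ - x̄^(ℓ²) ≠ 0`, `θ x̄ ≠ 0`, and the thickness identity. -/
theorem s36_tmx_main [IsDiscreteValuationRing A] (hℓ : ((ℓ : K))⁻¹ ∉ A)
    (hirr : Irreducible ((ℓ : ℕ) : A))
    (x g : laurentBaseChange K (modularFunctionFieldFull N))
    (x₁ : LaurentSeries ℤ) (hx1 : x₁.coeff (-1) = 1)
    (hx : (x : LaurentSeries K) = coeffMap (Int.castRingHom K) x₁)
    (hg : (g : LaurentSeries K) = qExpand K ℓ (x : LaurentSeries K)) :
    ∃ X G Aa : s34_gi_V A N,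
      (X : laurentBaseChange K (modularFunctionFieldFull N)) = x ∧
      (G : laurentBaseChange K (modularFunctionFieldFull N)) = g ∧
      algebraMap K (laurentBaseChange K (modularFunctionFieldFull N)) (ℓ : K) *
          (Aa : laurentBaseChange K (modularFunctionFieldFull N)) = x ^ ℓ - g ∧
      (g - x ^ ℓ) * (x - g ^ ℓ) =
        algebraMap K (laurentBaseChange K (modularFunctionFieldFull N)) (ℓ : K) *
          ((-(Aa * (X - G ^ ℓ)) : s34_gi_V A N) :
            laurentBaseChange K (modularFunctionFieldFull N)) ∧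
      s34_gi_red A N X = coeffMap (Int.castRingHom (IsLocalRing.ResidueField A)) x₁ ∧
      s34_gi_red A N G = s34_gi_red A N X ^ ℓ ∧
      s34_gi_red A N (X - G ^ ℓ) = s34_gi_red A N X - s34_gi_red A N X ^ (ℓ ^ 2) ∧
      s36_qt_theta (IsLocalRing.ResidueField A) (s34_gi_red A N X) ≠ 0 ∧
      s34_gi_red A N (X - G ^ ℓ) ≠ 0 ∧
      s34_gi_red A N (X - G ^ ℓ) ^ 2 *
          s36_qt_theta (IsLocalRing.ResidueField A) (s34_gi_red A N X) ^ ℓ =
        s34_gi_red A N (X - G ^ ℓ) ^ 2 * s34_gi_red A N X ^ (ℓ - 1) *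
            s36_qt_theta (IsLocalRing.ResidueField A) (s34_gi_red A N X)
          + s34_gi_red A N (X - G ^ ℓ) *
            s36_qt_theta (IsLocalRing.ResidueField A) (s34_gi_red A N (-(Aa * (X - G ^ ℓ))))
          - s34_gi_red A N (-(Aa * (X - G ^ ℓ))) *
            s36_qt_theta (IsLocalRing.ResidueField A) (s34_gi_red A N X) := by
  have := s18_charP_res ℓ A hℓ
  have hx' : (x : LaurentSeries K) =
      coeffMap (algebraMap ℚ K) (coeffMap (Int.castRingHom ℚ) x₁) := by
    rw [hx, coeffMap_coeffMap]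
    exact coeffMap_congr (RingHom.ext_int _ _) x₁
  obtain ⟨X, G, Aa, hX, hG, hA, eG, ev, hid⟩ := s36_tm_main ℓ A N hℓ hirr x g
    (coeffMap (Int.castRingHom ℚ) x₁) (s36_tmx_int_mem_Wring ℓ x₁) hx' hg
  have eX : s34_gi_red A N X = coeffMap (Int.castRingHom (IsLocalRing.ResidueField A)) x₁ :=
    s36_tmx_red_int A N X x₁ (by rw [hX, hx])
  have hθx : s36_qt_theta (IsLocalRing.ResidueField A) (s34_gi_red A N X) ≠ 0 := by
    apply s36_tmx_theta_ne _ (-1)
    · rw [Int.cast_neg, Int.cast_one]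
      exact neg_ne_zero.mpr one_ne_zero
    · rw [eX, coeffMap_coeff, hx1, map_one]
      exact one_ne_zero
  have hv0 : s34_gi_red A N (X - G ^ ℓ) ≠ 0 := by
    rw [ev]
    exact s36_tmx_sub_pow_ne ℓ _ hθx
  refine ⟨X, G, Aa, hX, hG, hA, ?_, eX, eG, ev, hθx, hv0, hid⟩
  have h1 : ((-(Aa * (X - G ^ ℓ)) : s34_gi_V A N) :
      laurentBaseChange K (modularFunctionFieldFull N)) =
      -((Aa : laurentBaseChange K (modularFunctionFieldFull N)) * (x - g ^ ℓ)) := by
    rw [← hX, ← hG]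
    rfl
  rw [h1, mul_neg, ← mul_assoc, hA]
  ring

end Model

end Fermat.Agent.S36
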