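import Fermat.Agent.S36.CrossCusp
import Fermat.Agent.S36.ThickModelX
import Fermat.Agent.S18.HauptField

/-!
# S36 (NODE-3): a crossing point is not a cusp — the model instance of `s36_xcu_unit`

Generic Gauss vocabulary (as in `PoleM5.lean`, no Galois hypothesis): `K` a field over `ℚ`, `A` a
valuation subring of `K` which is a DVR in which the prime `q` is a uniformizer,
`FF = laurentBaseChange K (modularFunctionFieldFull M)` (any level `M`), `V₁ = s34_gi_V A M` the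
`q`-expansion Gauss ring, `W` a ring automorphism of `FF` fixing `q` (the Atkin–Lehner swap),
`V₂ = V₁.comap W`, `ϖ = q`.

* `s36_xcm_core` (abstract): `t, t' ∈ B` units of `V₁` with `ϖ⁻¹ (t^q - t') ∈ V₁` (Frobenius
  congruence), `W t = t'`, `W t' = t` and the cusp ratio `t^q / t' ∈ B`: then `t ∉ 𝔪`, `t' ∉ 𝔪` at
  every prime `𝔪 ⊇ P₁ + P₂` of `B`.
* `s36_xcm_unit` (model): the same for `t` with INTEGER `q`-expansion `x₁` invertible among integer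
  series (`x₁ * y₁ = 1`) and `t'(Q) = t(Q^q)`.
* `s36_xcm_t2`, `s36_xcm_t2inv`, `s36_xcm_t3`, `s36_xcm_t3inv` : the Hauptmodul coordinates of the
  charts `B0` (`t = t₂`, `t₃`) and `Binf` (`t = 1/t₂`, `1/t₃`).

The membership `t^q / t' ∈ B` for the charts `ic(A[t])` is `s36_cusp_mem` / `s36_cusp_t2` /
`s36_cusp_t3` of `CuspRatioK.lean`.
-/

set_option autoImplicit false
set_option linter.unusedSectionVars false
set_option linter.unusedVariables false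

open ModularCurve

noncomputable section

namespace Fermat.Agent.S36

open Fermat.Agent.S18 Fermat.Agent.S28 Fermat.Agent.S34 Fermat.Agent.S37

section Core

variable {F : Type*} [Field F]

/-- **A crossing point is not a cusp, abstract model form.**  `t`, `t'` units of `V₁` with the
Frobenius congruence `ϖ⁻¹ (t^q - t') ∈ V₁`, swapped by `W`; `t^q / t' ∈ B`.  Then `t` and `t'`
are units at every prime of `B` containing `P₁` and `P₂`. -/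
theorem s36_xcm_core {B V₁ : Subring F} {ϖ : F} (W : F ≃+* F) (hWϖ : W ϖ = ϖ)
    (𝔪 : Ideal B) [h𝔪 : 𝔪.IsPrime]
    (hP₁ : ∀ p : B, ϖ⁻¹ * (p : F) ∈ V₁ → p ∈ 𝔪)
    (hP₂ : ∀ p : B, ϖ⁻¹ * (p : F) ∈ V₁.comap (W : F →+* F) → p ∈ 𝔪)
    (t t' : F) (ht : t ∈ B) (ht' : t' ∈ B) (q : ℕ) (hq : 2 ≤ q) (hG : t ^ q * t'⁻¹ ∈ B)
    (htV : t ∈ V₁) (htinv : t⁻¹ ∈ V₁) (ht'V : t' ∈ V₁) (ht'inv : t'⁻¹ ∈ V₁)
    (ht0 : t ≠ 0) (ht'0 : t' ≠ 0)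
    (hfrob : ϖ⁻¹ * (t ^ q - t') ∈ V₁)
    (hW : W t = t') (hW' : W t' = t) :
    (⟨t, ht⟩ : B) ∉ 𝔪 ∧ (⟨t', ht'⟩ : B) ∉ 𝔪 := by
  have hqq : 1 ≤ q * q := Nat.mul_pos (by omega) (by omega)
  have hk : 0 < q * q - 1 := by
    have : 2 * 2 ≤ q * q := Nat.mul_le_mul hq hq
    omega
  have hkk : q * q - 1 + 1 = q * q := by omega
  have hGeq : (⟨t ^ q * t'⁻¹, hG⟩ : B) * ⟨t', ht'⟩ = (⟨t, ht⟩ : B) ^ q := by
    apply Subtype.ext
    show t ^ q * t'⁻¹ * t' = t ^ q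
    rw [inv_mul_cancel_right₀ ht'0]
  have hG₁ : ϖ⁻¹ * (((⟨t ^ q * t'⁻¹, hG⟩ : B) : F) - 1) ∈ V₁ := by
    have e : ϖ⁻¹ * (t ^ q * t'⁻¹ - 1) = ϖ⁻¹ * (t ^ q - t') * t'⁻¹ := by
      rw [mul_assoc, sub_mul, mul_inv_cancel₀ ht'0]
    show ϖ⁻¹ * (t ^ q * t'⁻¹ - 1) ∈ V₁
    rw [e]
    exact V₁.mul_mem hfrob ht'inv
  have hG₂ : ϖ⁻¹ * (((⟨t ^ q * t'⁻¹, hG⟩ : B) : F) - ((⟨t', ht'⟩ : B) : F) ^ (q * q - 1)) ∈
      V₁.comap (W : F →+* F) := by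
    show W (ϖ⁻¹ * (t ^ q * t'⁻¹ - t' ^ (q * q - 1))) ∈ V₁
    obtain ⟨c, hc⟩ := sub_dvd_pow_sub_pow (⟨t', ht'V⟩ : V₁) ((⟨t, htV⟩ : V₁) ^ q) q
    have hc' : t' ^ q - (t ^ q) ^ q = (t' - t ^ q) * (c : F) := congrArg Subtype.val hc
    have e0 : t ^ (q * q - 1) * t = t ^ (q * q) := by rw [← pow_succ, hkk]
    have e1 : t' ^ q * t⁻¹ - t ^ (q * q - 1) = (t' ^ q - (t ^ q) ^ q) * t⁻¹ := by
      rw [sub_mul, ← pow_mul, ← e0, mul_assoc, mul_inv_cancel₀ ht0, mul_one]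
    have e : W (ϖ⁻¹ * (t ^ q * t'⁻¹ - t' ^ (q * q - 1))) =
        -(ϖ⁻¹ * (t ^ q - t')) * (c : F) * t⁻¹ := by
      rw [map_mul, map_inv₀, hWϖ, map_sub, map_mul, map_pow, map_inv₀, map_pow, hW, hW', e1, hc']
      ring
    rw [e]
    exact V₁.mul_mem (V₁.mul_mem (V₁.neg_mem hfrob) c.2) htinv
  exact s36_xcu_unit 𝔪 hP₁ hP₂ ⟨t, ht⟩ ⟨t', ht'⟩ ⟨t ^ q * t'⁻¹, hG⟩ q (q * q - 1) (by omega) hk
    hGeq hG₁ hG₂

end Core

section Model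

variable (q : ℕ) [NeZero q] [Fact q.Prime]
variable {K : Type*} [Field K] [Algebra ℚ K] (A : ValuationSubring K) (M : ℕ)

local notation "FF" => laurentBaseChange K (modularFunctionFieldFull M)

/-- **A crossing point is not a cusp, generic Gauss model.**  `t ∈ B` with integer `q`-expansion
`x₁`, invertible among integer series (`x₁ * y₁ = 1`), `t' ∈ B` with `t'(Q) = t(Q^q)`, the cusp
ratio `t^q / t' ∈ B`, `W` the swap (`W t = t'`, `W t' = t`, `W q = q`); `A` unramified.  Then `t`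
and `t'` are units at every prime `𝔪 ⊇ P₁ + P₂` of the chart `B`. -/
theorem s36_xcm_unit [IsDiscreteValuationRing A] (hℓ : ((q : K))⁻¹ ∉ A)
    (hirr : Irreducible ((q : ℕ) : A))
    (W : FF ≃+* FF) (hWϖ : W (algebraMap K FF (q : K)) = algebraMap K FF (q : K))
    (B : Subring FF) (𝔪 : Ideal B) [h𝔪 : 𝔪.IsPrime]
    (hP₁ : ∀ p : B, (algebraMap K FF (q : K))⁻¹ * (p : FF) ∈ s34_gi_V A M → p ∈ 𝔪)
    (hP₂ : ∀ p : B, (algebraMap K FF (q : K))⁻¹ * (p : FF) ∈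
      (s34_gi_V A M).comap (W : FF →+* FF) → p ∈ 𝔪)
    (t t' : FF) (ht : t ∈ B) (ht' : t' ∈ B) (hG : t ^ q * t'⁻¹ ∈ B)
    (x₁ y₁ : LaurentSeries ℤ) (hxy : x₁ * y₁ = 1)
    (hx : (t : LaurentSeries K) = coeffMap (Int.castRingHom K) x₁)
    (hg : (t' : LaurentSeries K) = qExpand K q (t : LaurentSeries K))
    (hW : W t = t') (hW' : W t' = t) :
    (⟨t, ht⟩ : B) ∉ 𝔪 ∧ (⟨t', ht'⟩ : B) ∉ 𝔪 := by
  have hq2 : 2 ≤ q := (Fact.out : q.Prime).two_le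
  have hx' : (t : LaurentSeries K) =
      coeffMap (algebraMap ℚ K) (coeffMap (Int.castRingHom ℚ) x₁) := by
    rw [hx, coeffMap_coeffMap]
    exact coeffMap_congr (RingHom.ext_int _ _) x₁
  obtain ⟨X, G, Aa, hX, hGe, hA, -, -, -⟩ := s36_tm_main q A M hℓ hirr t t'
    (coeffMap (Int.castRingHom ℚ) x₁) (s36_tmx_int_mem_Wring q x₁) hx' hg
  have hqL : (q : K) ≠ 0 := by
    intro h
    apply hℓ
    rw [h, inv_zero]
    exact A.zero_mem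
  have hϖ0 : algebraMap K FF (q : K) ≠ 0 := by
    rw [Ne, map_eq_zero]
    exact hqL
  -- the inverse series
  have hmul : (t : LaurentSeries K) * coeffMap (Int.castRingHom K) y₁ = 1 := by
    rw [hx, ← map_mul, hxy, map_one]
  have ht0 : t ≠ 0 := by
    rintro rfl
    rw [show ((0 : FF) : LaurentSeries K) = 0 from rfl, zero_mul] at hmul
    exact zero_ne_one hmul
  have htinv_coe : ((t⁻¹ : FF) : LaurentSeries K) = coeffMap (Int.castRingHom K) y₁ := by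
    have h1 : ((t⁻¹ : FF) : LaurentSeries K) = (t : LaurentSeries K)⁻¹ := rfl
    rw [h1]
    exact inv_eq_of_mul_eq_one_right hmul
  have hmul' : (t' : LaurentSeries K) * coeffMap (Int.castRingHom K) (qExpand ℤ q y₁) = 1 := by
    rw [hg, coeffMap_qExpand, ← map_mul, hmul, map_one]
  have ht'0 : t' ≠ 0 := by
    rintro rfl
    rw [show ((0 : FF) : LaurentSeries K) = 0 from rfl, zero_mul] at hmul'
    exact zero_ne_one hmul'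
  have ht'inv_coe : ((t'⁻¹ : FF) : LaurentSeries K) =
      coeffMap (Int.castRingHom K) (qExpand ℤ q y₁) := by
    have h1 : ((t'⁻¹ : FF) : LaurentSeries K) = (t' : LaurentSeries K)⁻¹ := rfl
    rw [h1]
    exact inv_eq_of_mul_eq_one_right hmul'
  have htV : t ∈ s34_gi_V A M := s36_tmx_int_mem A M t x₁ hx
  have htinv : t⁻¹ ∈ s34_gi_V A M := s36_tmx_int_mem A M t⁻¹ y₁ htinv_coe
  have ht'V : t' ∈ s34_gi_V A M :=
    s36_tmx_int_mem A M t' (qExpand ℤ q x₁) (by rw [hg, hx, coeffMap_qExpand])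
  have ht'inv : t'⁻¹ ∈ s34_gi_V A M := s36_tmx_int_mem A M t'⁻¹ (qExpand ℤ q y₁) ht'inv_coe
  have hfrob : (algebraMap K FF (q : K))⁻¹ * (t ^ q - t') ∈ s34_gi_V A M := by
    rw [← hA, ← mul_assoc, inv_mul_cancel₀ hϖ0, one_mul]
    exact Aa.2
  exact s36_xcm_core W hWϖ 𝔪 hP₁ hP₂ t t' ht ht' q hq2 hG htV htinv ht'V ht'inv ht0 ht'0 hfrob
    hW hW'

/-- The level-2 Hauptmodul `t₂` (chart `B0`): `t₂ ∉ 𝔪` and `t₂(Q^q) ∉ 𝔪` at a crossing point. -/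
theorem s36_xcm_t2 [IsDiscreteValuationRing A] (hℓ : ((q : K))⁻¹ ∉ A)
    (hirr : Irreducible ((q : ℕ) : A))
    (W : FF ≃+* FF) (hWϖ : W (algebraMap K FF (q : K)) = algebraMap K FF (q : K))
    (B : Subring FF) (𝔪 : Ideal B) [h𝔪 : 𝔪.IsPrime]
    (hP₁ : ∀ p : B, (algebraMap K FF (q : K))⁻¹ * (p : FF) ∈ s34_gi_V A M → p ∈ 𝔪)
    (hP₂ : ∀ p : B, (algebraMap K FF (q : K))⁻¹ * (p : FF) ∈
      (s34_gi_V A M).comap (W : FF →+* FF) → p ∈ 𝔪)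
    (t t' : FF) (ht : t ∈ B) (ht' : t' ∈ B) (hG : t ^ q * t'⁻¹ ∈ B)
    (hx : (t : LaurentSeries K) = s18_t2R K)
    (hg : (t' : LaurentSeries K) = qExpand K q (s18_t2R K))
    (hW : W t = t') (hW' : W t' = t) :
    (⟨t, ht⟩ : B) ∉ 𝔪 ∧ (⟨t', ht'⟩ : B) ∉ 𝔪 :=
  s36_xcm_unit q A M hℓ hirr W hWϖ B 𝔪 hP₁ hP₂ t t' ht ht' hG s18_t2 s18_t2inv
    s18_t2_mul_inv hx (by rw [hg, hx]) hW hW'

/-- The inverse `1/t₂` (chart `Binf`): `1/t₂ ∉ 𝔪` and `1/t₂(Q^q) ∉ 𝔪` at a crossing point. -/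
theorem s36_xcm_t2inv [IsDiscreteValuationRing A] (hℓ : ((q : K))⁻¹ ∉ A)
    (hirr : Irreducible ((q : ℕ) : A))
    (W : FF ≃+* FF) (hWϖ : W (algebraMap K FF (q : K)) = algebraMap K FF (q : K))
    (B : Subring FF) (𝔪 : Ideal B) [h𝔪 : 𝔪.IsPrime]
    (hP₁ : ∀ p : B, (algebraMap K FF (q : K))⁻¹ * (p : FF) ∈ s34_gi_V A M → p ∈ 𝔪)
    (hP₂ : ∀ p : B, (algebraMap K FF (q : K))⁻¹ * (p : FF) ∈
      (s34_gi_V A M).comap (W : FF →+* FF) → p ∈ 𝔪)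
    (t t' : FF) (ht : t ∈ B) (ht' : t' ∈ B) (hG : t ^ q * t'⁻¹ ∈ B)
    (hx : (t : LaurentSeries K) = s18_t2invR K)
    (hg : (t' : LaurentSeries K) = qExpand K q (s18_t2invR K))
    (hW : W t = t') (hW' : W t' = t) :
    (⟨t, ht⟩ : B) ∉ 𝔪 ∧ (⟨t', ht'⟩ : B) ∉ 𝔪 :=
  s36_xcm_unit q A M hℓ hirr W hWϖ B 𝔪 hP₁ hP₂ t t' ht ht' hG s18_t2inv s18_t2
    (by rw [mul_comm]; exact s18_t2_mul_inv) hx (by rw [hg, hx]) hW hW'

/-- The level-3 Hauptmodul `t₃` (chart `B0`): `t₃ ∉ 𝔪` and `t₃(Q^q) ∉ 𝔪` at a crossing point. -/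
theorem s36_xcm_t3 [IsDiscreteValuationRing A] (hℓ : ((q : K))⁻¹ ∉ A)
    (hirr : Irreducible ((q : ℕ) : A))
    (W : FF ≃+* FF) (hWϖ : W (algebraMap K FF (q : K)) = algebraMap K FF (q : K))
    (B : Subring FF) (𝔪 : Ideal B) [h𝔪 : 𝔪.IsPrime]
    (hP₁ : ∀ p : B, (algebraMap K FF (q : K))⁻¹ * (p : FF) ∈ s34_gi_V A M → p ∈ 𝔪)
    (hP₂ : ∀ p : B, (algebraMap K FF (q : K))⁻¹ * (p : FF) ∈
      (s34_gi_V A M).comap (W : FF →+* FF) → p ∈ 𝔪)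
    (t t' : FF) (ht : t ∈ B) (ht' : t' ∈ B) (hG : t ^ q * t'⁻¹ ∈ B)
    (hx : (t : LaurentSeries K) = s18_t3R K)
    (hg : (t' : LaurentSeries K) = qExpand K q (s18_t3R K))
    (hW : W t = t') (hW' : W t' = t) :
    (⟨t, ht⟩ : B) ∉ 𝔪 ∧ (⟨t', ht'⟩ : B) ∉ 𝔪 :=
  s36_xcm_unit q A M hℓ hirr W hWϖ B 𝔪 hP₁ hP₂ t t' ht ht' hG s18_t3 s18_t3inv
    s18_t3_mul_inv hx (by rw [hg, hx]) hW hW'

/-- The inverse `1/t₃` (chart `Binf`): `1/t₃ ∉ 𝔪` and `1/t₃(Q^q) ∉ 𝔪` at a crossing point. -/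
theorem s36_xcm_t3inv [IsDiscreteValuationRing A] (hℓ : ((q : K))⁻¹ ∉ A)
    (hirr : Irreducible ((q : ℕ) : A))
    (W : FF ≃+* FF) (hWϖ : W (algebraMap K FF (q : K)) = algebraMap K FF (q : K))
    (B : Subring FF) (𝔪 : Ideal B) [h𝔪 : 𝔪.IsPrime]
    (hP₁ : ∀ p : B, (algebraMap K FF (q : K))⁻¹ * (p : FF) ∈ s34_gi_V A M → p ∈ 𝔪)
    (hP₂ : ∀ p : B, (algebraMap K FF (q : K))⁻¹ * (p : FF) ∈
      (s34_gi_V A M).comap (W : FF →+* FF) → p ∈ 𝔪)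
    (t t' : FF) (ht : t ∈ B) (ht' : t' ∈ B) (hG : t ^ q * t'⁻¹ ∈ B)
    (hx : (t : LaurentSeries K) = s18_t3invR K)
    (hg : (t' : LaurentSeries K) = qExpand K q (s18_t3invR K))
    (hW : W t = t') (hW' : W t' = t) :
    (⟨t, ht⟩ : B) ∉ 𝔪 ∧ (⟨t', ht'⟩ : B) ∉ 𝔪 :=
  s36_xcm_unit q A M hℓ hirr W hWϖ B 𝔪 hP₁ hP₂ t t' ht ht' hG s18_t3inv s18_t3
    (by rw [mul_comm]; exact s18_t3_mul_inv) hx (by rw [hg, hx]) hW hW'

end Model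

end Fermat.Agent.S36
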