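import Fermat.Agent.S36.ThickCoreD

/-!
# S36 (NODE-3): a local ring of a curve in characteristic `q` is stable under `d/ds`

(Clash-free re-issue of helper20's `DerivStable.lean` — whose helper names collide with
`DerStable.lean` — under the prefix `s36_dnk_`, every declaration renamed; plus the chart-level
form `s36_dnk_chart`.  Import THIS file, never `DerivStable.lean`.)

`F` a field of characteristic `q`, `θ` a derivation of `F`, `O ⊆ F` a local subring with maximal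
ideal `s · O` and perfect residue field, such that `θ(O)` lies in a finitely generated
`O`-submodule spanned by `θ b₁, …, θ bₙ`, `bᵢ ∈ O`.  Then `θ f ∈ O · θ s` for every `f ∈ O`
(`s36_dnk_stable`): writing `f = g ^ q + s f₁` gives `θ f = f₁ θ s + s θ f₁`, so the module `M`
spanned by `θ(O)` satisfies `M ≤ O θ s + s M`, and Nakayama applies.

`s36_dnk_fg` provides the finiteness hypothesis when `O` is a localisation of the subring generated
by a subring of constants and finitely many elements.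
-/

set_option autoImplicit false

namespace Fermat.Agent.S36

section

variable {F : Type*} [Field F]

/-- A derivation kills `1`. -/
theorem s36_dnk_theta_one (θ : F →+ F) (hθ : ∀ f g, θ (f * g) = θ f * g + f * θ g) :
    θ 1 = 0 := by
  have h := hθ 1 1
  rw [mul_one, mul_one, one_mul] at h
  exact left_eq_add.mp h

/-- The power rule. -/
theorem s36_dnk_theta_pow (θ : F →+ F) (hθ : ∀ f g, θ (f * g) = θ f * g + f * θ g) (g : F)
    (n : ℕ) : θ (g ^ n) = (n : F) * g ^ (n - 1) * θ g := by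
  induction n with
  | zero => rw [pow_zero, s36_dnk_theta_one θ hθ, Nat.cast_zero, zero_mul, zero_mul]
  | succ n ih =>
    rw [pow_succ, hθ, ih]
    rcases n with _ | m
    · simp
    · rw [Nat.add_sub_cancel, Nat.add_sub_cancel]
      push_cast
      ring

/-- In characteristic `q` a derivation kills `q`-th powers. -/
theorem s36_dnk_theta_pow_char (q : ℕ) [CharP F q] (θ : F →+ F)
    (hθ : ∀ f g, θ (f * g) = θ f * g + f * θ g) (g : F) : θ (g ^ q) = 0 := by
  rw [s36_dnk_theta_pow θ hθ, CharP.cast_eq_zero F q, zero_mul, zero_mul]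

/-- The derivative of an inverse. -/
theorem s36_dnk_theta_inv (θ : F →+ F) (hθ : ∀ f g, θ (f * g) = θ f * g + f * θ g) (d : F) :
    θ d⁻¹ = -(θ d * d⁻¹ * d⁻¹) := by
  by_cases hd : d = 0
  · rw [hd, inv_zero, map_zero, zero_mul, zero_mul, neg_zero]
  · have h := hθ d d⁻¹
    rw [mul_inv_cancel₀ hd, s36_dnk_theta_one θ hθ] at h
    have h2 : d * θ d⁻¹ = -(θ d * d⁻¹) := by linear_combination -h
    have h3 : θ d⁻¹ = d⁻¹ * (d * θ d⁻¹) := by rw [← mul_assoc, inv_mul_cancel₀ hd, one_mul]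
    rw [h3, h2]
    ring

/-- **Stability under `d/ds`.** -/
theorem s36_dnk_stable (q : ℕ) [CharP F q] (θ : F →+ F)
    (hθ : ∀ f g, θ (f * g) = θ f * g + f * θ g) (O : Subring F) (s : F) (hs : s ∈ O)
    (hs1 : ¬ ∃ f ∈ O, s * f = 1)
    (hloc : ∀ f ∈ O, (∃ f₁ ∈ O, f = s * f₁) ∨ f⁻¹ ∈ O)
    (hperf : ∀ f ∈ O, ∃ g ∈ O, ∃ f₁ ∈ O, f = g ^ q + s * f₁)
    (hfg : ∃ (n : ℕ) (b : Fin n → F), (∀ i, b i ∈ O) ∧
      ∀ f ∈ O, ∃ c : Fin n → F, (∀ i, c i ∈ O) ∧ θ f = ∑ i, c i * θ (b i)) :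
    ∀ f ∈ O, ∃ g ∈ O, θ f = g * θ s := by
  classical
  obtain ⟨n, b, hbO, hb⟩ := hfg
  let N : Submodule O F := Submodule.span O {θ s}
  let M : Submodule O F := Submodule.span O (Set.range fun i => θ (b i))
  let I : Ideal O := Ideal.span {(⟨s, hs⟩ : O)}
  have hMfg : M.FG := Submodule.fg_span (Set.finite_range _)
  -- `θ(O) ⊆ M`
  have hθM : ∀ f ∈ O, θ f ∈ M := by
    intro f hf
    obtain ⟨c, hc, hfc⟩ := hb f hf
    rw [hfc]
    refine Submodule.sum_mem _ (fun i _ => ?_)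
    have h1 : c i * θ (b i) = (⟨c i, hc i⟩ : O) • θ (b i) := rfl
    rw [h1]
    exact Submodule.smul_mem _ _ (Submodule.subset_span ⟨i, rfl⟩)
  -- `I` lies in the Jacobson radical
  have hIJ : I ≤ Ideal.jacobson ⊥ := by
    intro x hx
    rw [Ideal.mem_jacobson_bot]
    intro y
    obtain ⟨a, rfl⟩ := Ideal.mem_span_singleton'.mp hx
    have hu : ((a * ⟨s, hs⟩ * y + 1 : O) : F) = (a : F) * s * (y : F) + 1 := rfl
    have hne : ¬ ∃ f₁ ∈ O, (a : F) * s * (y : F) + 1 = s * f₁ := by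
      rintro ⟨f₁, hf₁, h⟩
      exact hs1 ⟨f₁ - (a : F) * (y : F), O.sub_mem hf₁ (O.mul_mem a.2 y.2), by
        linear_combination -h⟩
    rcases hloc _ (a * ⟨s, hs⟩ * y + 1 : O).2 with h | h
    · rw [hu] at h
      exact absurd h hne
    · rw [hu] at h
      have h0 : (a : F) * s * (y : F) + 1 ≠ 0 := by
        intro h0
        exact hne ⟨0, O.zero_mem, by rw [h0, mul_zero]⟩
      refine IsUnit.of_mul_eq_one (⟨_, h⟩ : O) ?_
      apply Subtype.ext
      show ((a * ⟨s, hs⟩ * y + 1 : O) : F) * ((a : F) * s * (y : F) + 1)⁻¹ = 1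
      rw [hu, mul_inv_cancel₀ h0]
  -- `M ≤ N ⊔ I • M`
  have hMN : M ≤ N ⊔ I • M := by
    rw [Submodule.span_le]
    rintro _ ⟨i, rfl⟩
    obtain ⟨g, hg, f₁, hf₁, hgf⟩ := hperf (b i) (hbO i)
    have h1 : θ (b i) = (⟨f₁, hf₁⟩ : O) • θ s + (⟨s, hs⟩ : O) • θ f₁ := by
      show θ (b i) = f₁ * θ s + s * θ f₁
      rw [hgf, map_add, s36_dnk_theta_pow_char q θ hθ, zero_add, hθ]
      ring
    show θ (b i) ∈ N ⊔ I • M
    rw [h1]
    exact Submodule.add_mem _
      (Submodule.mem_sup_left (Submodule.smul_mem _ _ (Submodule.subset_span rfl)))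
      (Submodule.mem_sup_right (Submodule.smul_mem_smul (Ideal.subset_span rfl) (hθM f₁ hf₁)))
  have hle : M ≤ N := Submodule.le_of_le_smul_of_le_jacobson_bot hMfg hIJ hMN
  intro f hf
  obtain ⟨g, hg⟩ := Submodule.mem_span_singleton.mp (hle (hθM f hf))
  exact ⟨g, g.2, hg.symm⟩

/-- **Finiteness of `θ(O)`** when `O` is a localisation of the subring generated by constants and
finitely many elements. -/
theorem s36_dnk_fg (θ : F →+ F) (hθ : ∀ f g, θ (f * g) = θ f * g + f * θ g) (O : Subring F)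
    (k₀ : Subring F) (hk₀ : ∀ c ∈ k₀, θ c = 0) {n : ℕ} (b : Fin n → F) (hbO : ∀ i, b i ∈ O)
    (hk₀O : k₀ ≤ O)
    (hgen : ∀ f ∈ O, ∃ a ∈ Subring.closure ((k₀ : Set F) ∪ Set.range b),
      ∃ d ∈ Subring.closure ((k₀ : Set F) ∪ Set.range b), d⁻¹ ∈ O ∧ f = a * d⁻¹) :
    ∃ (n : ℕ) (b : Fin n → F), (∀ i, b i ∈ O) ∧
      ∀ f ∈ O, ∃ c : Fin n → F, (∀ i, c i ∈ O) ∧ θ f = ∑ i, c i * θ (b i) := by
  classical
  refine ⟨n, b, hbO, ?_⟩
  have hCO : Subring.closure ((k₀ : Set F) ∪ Set.range b) ≤ O := by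
    rw [Subring.closure_le]
    rintro x (hx | ⟨i, rfl⟩)
    · exact hk₀O hx
    · exact hbO i
  have key : ∀ a ∈ Subring.closure ((k₀ : Set F) ∪ Set.range b),
      ∃ c : Fin n → F, (∀ i, c i ∈ O) ∧ θ a = ∑ i, c i * θ (b i) := by
    intro a ha
    induction ha using Subring.closure_induction with
    | mem x hx =>
      rcases hx with hx | ⟨j, rfl⟩
      · exact ⟨fun _ => 0, fun _ => O.zero_mem, by simp [hk₀ x hx]⟩
      · refine ⟨fun i => if i = j then 1 else 0, fun i => ?_, ?_⟩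
        · by_cases h : i = j
          · simp only [h, if_true]; exact O.one_mem
          · simp only [h, if_false]; exact O.zero_mem
        · simp
    | zero => exact ⟨fun _ => 0, fun _ => O.zero_mem, by simp⟩
    | one => exact ⟨fun _ => 0, fun _ => O.zero_mem, by simp [s36_dnk_theta_one θ hθ]⟩
    | add x y hx hy ihx ihy =>
      obtain ⟨cx, hcx, ex⟩ := ihx
      obtain ⟨cy, hcy, ey⟩ := ihy
      refine ⟨fun i => cx i + cy i, fun i => O.add_mem (hcx i) (hcy i), ?_⟩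
      rw [map_add, ex, ey, ← Finset.sum_add_distrib]
      exact Finset.sum_congr rfl (fun i _ => by ring)
    | neg x hx ihx =>
      obtain ⟨cx, hcx, ex⟩ := ihx
      refine ⟨fun i => -cx i, fun i => O.neg_mem (hcx i), ?_⟩
      rw [map_neg, ex, ← Finset.sum_neg_distrib]
      exact Finset.sum_congr rfl (fun i _ => by ring)
    | mul x y hx hy ihx ihy =>
      obtain ⟨cx, hcx, ex⟩ := ihx
      obtain ⟨cy, hcy, ey⟩ := ihy
      refine ⟨fun i => cx i * y + x * cy i,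
        fun i => O.add_mem (O.mul_mem (hcx i) (hCO hy)) (O.mul_mem (hCO hx) (hcy i)), ?_⟩
      rw [hθ, ex, ey, Finset.sum_mul, Finset.mul_sum, ← Finset.sum_add_distrib]
      exact Finset.sum_congr rfl (fun i _ => by ring)
  intro f hf
  obtain ⟨a, ha, d, hd, hdO, rfl⟩ := hgen f hf
  obtain ⟨ca, hca, ea⟩ := key a ha
  obtain ⟨cd, hcd, ed⟩ := key d hd
  refine ⟨fun i => ca i * d⁻¹ - a * d⁻¹ * d⁻¹ * cd i, fun i =>
    O.sub_mem (O.mul_mem (hca i) hdO)
      (O.mul_mem (O.mul_mem (O.mul_mem (hCO ha) hdO) hdO) (hcd i)), ?_⟩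
  rw [hθ, s36_dnk_theta_inv θ hθ, ea, ed, Finset.sum_mul]
  have h2 : a * -((∑ i, cd i * θ (b i)) * d⁻¹ * d⁻¹) =
      -∑ i, a * d⁻¹ * d⁻¹ * cd i * θ (b i) := by
    rw [Finset.sum_mul, Finset.sum_mul, mul_neg, Finset.mul_sum, neg_inj]
    exact Finset.sum_congr rfl (fun i _ => by ring)
  rw [h2, ← sub_eq_add_neg, ← Finset.sum_sub_distrib]
  exact Finset.sum_congr rfl (fun i _ => by ring)

end

section Chart

variable {B E : Type*} [CommRing B] [Field E]

/-- **`hD` at a point of a chart, in one call.**  `r : B →+* E` the reduction of the chart along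
one vertical component (`E` of characteristic `q`, e.g. `k((Q))`; NO assumption that `E` is the
fraction field of the image), `𝔪` the point, `x ∈ 𝔪` with `x̄` a uniformizer of the branch
(`hext`), perfect residue field (`hfrob`), and finite generation: the image `r(B)` lies in the
subring generated by a subring `k₀` of constants (`θ = 0` on `k₀`, `k₀ ⊆ O`) and finitely many
`r (b i)`.  Then `O = s36_th_O r 𝔪` is stable under `θ / θ x̄`: the hypothesis `hD` of
`s36_th_core_D`, `s36_thp_core`, `s36_qk_regular_of_dvd`, `s36_gu_main`. -/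
theorem s36_dnk_chart (q : ℕ) (hq : 0 < q) [CharP E q]
    (r : B →+* E) (θ : E →+ E) (hθ : ∀ f g, θ (f * g) = θ f * g + f * θ g)
    (𝔪 : Ideal B) [h𝔪 : 𝔪.IsPrime] (hker : ∀ z : B, r z = 0 → z ∈ 𝔪)
    (x : B) (hx𝔪 : x ∈ 𝔪)
    (hext : ∀ y ∈ 𝔪, ∃ d c : B, d ∉ 𝔪 ∧ r d * r y = r c * r x)
    (hfrob : ∀ f : B, ∃ g : B, f - g ^ q ∈ 𝔪)
    (k₀ : Subring E) (hk₀ : ∀ c ∈ k₀, θ c = 0) (hk₀O : k₀ ≤ s36_th_O r 𝔪)
    {n : ℕ} (b : Fin n → B)
    (hgen : ∀ a : B, r a ∈ Subring.closure ((k₀ : Set E) ∪ Set.range (fun i => r (b i)))) :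
    ∀ f ∈ s36_th_O r 𝔪, ∃ g ∈ s36_th_O r 𝔪, θ f = g * θ (r x) := by
  refine s36_dnk_stable q θ hθ (s36_th_O r 𝔪) (r x) (s36_th_map_mem_O r 𝔪 x)
    (s36_th_O_nonunit r 𝔪 hker x hx𝔪) (s36_th_O_loc r 𝔪 hker x hext)
    (s36_th_O_frob q hq r 𝔪 hker x hext hfrob)
    (s36_dnk_fg θ hθ (s36_th_O r 𝔪) k₀ hk₀ (fun i => r (b i))
      (fun i => s36_th_map_mem_O r 𝔪 (b i)) hk₀O ?_)
  rintro f ⟨a, d, hd, hf⟩
  have hd0 : r d ≠ 0 := fun h0 => hd (hker d h0)
  refine ⟨r a, hgen a, r d, hgen d, s36_th_inv_mem_O r 𝔪 d hd hd0, ?_⟩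
  rw [← hf, mul_assoc, mul_inv_cancel₀ hd0, mul_one]

end Chart

end Fermat.Agent.S36
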