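import Fermat.Agent.S36.LocCoord
import Fermat.Agent.S18.ChPkg

/-!
# S36 (NODE-3), leaf (I1), model part: a rational local coordinate at every closed point

`A` a discrete valuation ring of a field `K ⊇ ℚ` with residue basis data `s18_ResBasis ℓ A π`
(no Galois hypothesis), `t` a function of level `N`.  The chart `s18_chAlg N ℓ A t` is the `A`-span
of the rational chart `chartAlg N ℓ {t}`.

* `s36_lc_emb`   : the coefficient embedding `chartAlg N ℓ {t} →+* s18_chAlg N ℓ A t`,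
  `y ↦ s18_coord K y`;
* `s36_lc_chart` : for a maximal ideal `𝔪 ∋ π` of the chart over `A`, the contraction `𝔫` of `𝔪`
  to the rational chart is maximal, contains `ℓ`, and every local parameter pair `(ℓ, s₁)` of the
  rational chart at `𝔫` gives the local parameter pair `(π, s₁)` at `𝔪`;
* `s36_lc_rat_reg` : the local parameter pairs of the rational chart, from the chart structure
  `s18_Chart` of the chart over (a copy of) `ℚ`;
* `s36_lc_chart_reg` : the combination, in the `reg` shape of `s18_Chart`: at every maximal ideal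
  `𝔪 ∋ π` of the chart over `A` there is `y` in the rational chart with `𝔪` locally generated by
  `π` and `s18_coord K y`.
-/

set_option autoImplicit false
set_option synthInstance.maxHeartbeats 400000
set_option linter.unusedSectionVars false
set_option linter.unusedVariables false

open ModularCurve ModularCurve.IgusaScheme Fermat.Agent.S28 Fermat.Agent.S18 Polynomial

noncomputable section

namespace Fermat.Agent.S36

section Model

variable {N : ℕ} [NeZero N] {ℓ : ℕ} [Fact ℓ.Prime]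
variable {K : Type*} [Field K] [Algebra ℚ K] {A : ValuationSubring K}

local notation "FK" => laurentBaseChange K (modularFunctionFieldFull N)

variable (ℓ A) in
/-- The coefficient embedding of the rational chart into the chart over `A`. -/
def s36_lc_emb (t : modularFunctionFieldFull N) : chartAlg N ℓ {t} →+* s18_chAlg N ℓ A t where
  toFun y := ⟨s18_coord K (y : modularFunctionFieldFull N),
    s18_map_mem_chSpan (s18_coe_mem_czRing y.2)⟩
  map_one' := Subtype.ext (Subtype.ext (map_one _))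
  map_mul' _ _ := Subtype.ext (Subtype.ext (map_mul _ _ _))
  map_zero' := Subtype.ext (Subtype.ext (map_zero _))
  map_add' _ _ := Subtype.ext (Subtype.ext (map_add _ _ _))

theorem s36_lc_emb_coe (t : modularFunctionFieldFull N) (y : chartAlg N ℓ {t}) :
    ((s36_lc_emb ℓ A t y : s18_chAlg N ℓ A t) : FK) =
      s18_coord K (y : modularFunctionFieldFull N) := rfl

variable (ℓ A) in
/-- The `q`-expansion map on the chart, as a ring homomorphism. -/
def s36_lc_cc (t : modularFunctionFieldFull N) : s18_chAlg N ℓ A t →+* LaurentSeries K :=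
  ((laurentBaseChange K (modularFunctionFieldFull N)).val.toRingHom).comp
    (s18_chAlg N ℓ A t).val.toRingHom

theorem s36_lc_cc_apply (t : modularFunctionFieldFull N) (x : s18_chAlg N ℓ A t) :
    s36_lc_cc ℓ A t x = ((x : FK) : LaurentSeries K) := rfl

theorem s36_lc_cc_injective (t : modularFunctionFieldFull N) :
    Function.Injective (s36_lc_cc ℓ A t) := fun _ _ h => Subtype.ext (Subtype.ext h)

theorem s36_lc_cc_algebraMap (t : modularFunctionFieldFull N) (r : A) :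
    s36_lc_cc ℓ A t (algebraMap A (s18_chAlg N ℓ A t) r) = HahnSeries.C (A.subtype r) :=
  s18_coe_algebraMap (N := N) (K := K) r

theorem s36_lc_cc_emb (t : modularFunctionFieldFull N) (y : chartAlg N ℓ {t}) :
    s36_lc_cc ℓ A t (s36_lc_emb ℓ A t y) =
      coeffMap (algebraMap ℚ K) ((y : modularFunctionFieldFull N) : LaurentSeries ℚ) := rfl

/-- Multiplicative representatives of the finite residue field: a lift `θ` of a generator of the
multiplicative group, `Q` the cardinality. -/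
theorem s36_lc_res_gen [IsDiscreteValuationRing A] {π : A} (hR : s18_ResBasis ℓ A π) :
    ∃ (θ : A) (Q : ℕ), 2 ≤ Q ∧ (∃ a, (Q : A) = π * a) ∧ (∃ a, θ ^ Q - θ = π * a) ∧
      ∀ r : A, (∃ a, r = π * a) ∨ ∃ (n : ℕ) (a : A), r = θ ^ n + π * a := by
  classical
  have hfin : Finite (IsLocalRing.ResidueField A) := s18_sep_finite_res hR
  let _ : Fintype (IsLocalRing.ResidueField A) := Fintype.ofFinite _
  have hmax : IsLocalRing.maximalIdeal A = Ideal.span {π} := hR.irr.maximalIdeal_eq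
  have hker : ∀ x : A, IsLocalRing.residue A x = 0 → ∃ a, x = π * a := by
    intro x hx
    have h1 : x ∈ IsLocalRing.maximalIdeal A := (IsLocalRing.residue_eq_zero_iff x).mp hx
    rw [hmax] at h1
    exact Ideal.mem_span_singleton.mp h1
  obtain ⟨g, hg⟩ := IsCyclic.exists_monoid_generator (α := (IsLocalRing.ResidueField A)ˣ)
  obtain ⟨θ, hθ⟩ := IsLocalRing.residue_surjective (g : IsLocalRing.ResidueField A)
  refine ⟨θ, Fintype.card (IsLocalRing.ResidueField A), Fintype.one_lt_card, ?_, ?_, ?_⟩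
  · apply hker
    rw [map_natCast]
    exact Nat.cast_card_eq_zero _
  · apply hker
    rw [map_sub, map_pow, hθ, FiniteField.pow_card, sub_self]
  · intro r
    by_cases hr : IsLocalRing.residue A r = 0
    · exact Or.inl (hker r hr)
    · right
      obtain ⟨n, hn⟩ := hg (Units.mk0 _ hr)
      have h1 : IsLocalRing.residue A (r - θ ^ n) = 0 := by
        have h2 := congrArg (fun u : (IsLocalRing.ResidueField A)ˣ =>
          (u : IsLocalRing.ResidueField A)) hn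
        simp only [Units.val_pow_eq_pow_val, Units.val_mk0] at h2
        rw [map_sub, map_pow, hθ, h2, sub_self]
      obtain ⟨a, ha⟩ := hker _ h1
      exact ⟨n, a, by rw [← ha]; ring⟩

/-- Modulo `π`, the chart over `A` is generated over the rational chart by `θ`. -/
theorem s36_lc_hgen {π : A} (t : modularFunctionFieldFull N) (θ : A)
    (hres : ∀ r : A, (∃ a, r = π * a) ∨ ∃ (n : ℕ) (a : A), r = θ ^ n + π * a)
    (x : s18_chAlg N ℓ A t) :
    ∃ P : Polynomial (chartAlg N ℓ {t}), ∃ w : s18_chAlg N ℓ A t,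
      x = P.eval₂ (s36_lc_emb ℓ A t) (algebraMap A (s18_chAlg N ℓ A t) θ) +
        algebraMap A (s18_chAlg N ℓ A t) π * w := by
  have key : ∀ z : LaurentSeries K, z ∈ s18_chRing N ℓ A t →
      ∃ P : Polynomial (chartAlg N ℓ {t}), ∃ w : s18_chAlg N ℓ A t,
        z = s36_lc_cc ℓ A t (P.eval₂ (s36_lc_emb ℓ A t) (algebraMap A (s18_chAlg N ℓ A t) θ) +
          algebraMap A (s18_chAlg N ℓ A t) π * w) := by
    intro z hz
    refine s18_chSpan_induction (P := fun z => ∃ P : Polynomial (chartAlg N ℓ {t}),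
      ∃ w : s18_chAlg N ℓ A t,
        z = s36_lc_cc ℓ A t (P.eval₂ (s36_lc_emb ℓ A t) (algebraMap A (s18_chAlg N ℓ A t) θ) +
          algebraMap A (s18_chAlg N ℓ A t) π * w)) ?_ ?_ ?_ ?_ hz
    · intro r z₀ hz₀
      obtain ⟨y, hy, rfl⟩ := s18_mem_czRing.mp hz₀
      rcases hres r with ⟨a, rfl⟩ | ⟨n, a, rfl⟩
      · refine ⟨0, algebraMap A (s18_chAlg N ℓ A t) a * s36_lc_emb ℓ A t ⟨y, hy⟩, ?_⟩
        simp only [eval₂_zero, zero_add, map_mul, s36_lc_cc_algebraMap, s36_lc_cc_emb]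
        ring
      · refine ⟨C ⟨y, hy⟩ * X ^ n,
          algebraMap A (s18_chAlg N ℓ A t) a * s36_lc_emb ℓ A t ⟨y, hy⟩, ?_⟩
        simp only [eval₂_mul, eval₂_C, eval₂_X_pow, map_add, map_mul, map_pow,
          s36_lc_cc_algebraMap, s36_lc_cc_emb]
        ring
    · exact ⟨0, 0, by rw [eval₂_zero, mul_zero, add_zero, map_zero]⟩
    · rintro z z' ⟨P, w, rfl⟩ ⟨P', w', rfl⟩
      refine ⟨P + P', w + w', ?_⟩
      rw [← map_add, eval₂_add]
      congr 1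
      ring
    · rintro z ⟨P, w, rfl⟩
      refine ⟨-P, -w, ?_⟩
      rw [← map_neg, eval₂_neg]
      congr 1
      ring
  obtain ⟨P, w, h⟩ := key ((x : FK) : LaurentSeries K) x.2
  exact ⟨P, w, s36_lc_cc_injective t h⟩

/-- **A rational local coordinate at every closed point of the chart over `A`.**  For a maximal
ideal `𝔪 ∋ π` of the chart `s18_chAlg N ℓ A t`, the contraction `𝔫` of `𝔪` to the rational chart
`chartAlg N ℓ {t}` is a maximal ideal containing `ℓ`, and every pair of local parameters `(ℓ, s₁)`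
of the rational chart at `𝔫` gives the pair of local parameters `(π, s₁)` at `𝔪`. -/
theorem s36_lc_chart [IsDiscreteValuationRing A] {π : A} (hR : s18_ResBasis ℓ A π)
    (t : modularFunctionFieldFull N) (𝔪 : Ideal (s18_chAlg N ℓ A t)) (h𝔪 : 𝔪.IsMaximal)
    (hπ : algebraMap A (s18_chAlg N ℓ A t) π ∈ 𝔪) :
    (𝔪.comap (s36_lc_emb ℓ A t)).IsMaximal ∧
    ((ℓ : ℕ) : chartAlg N ℓ {t}) ∈ 𝔪.comap (s36_lc_emb ℓ A t) ∧
    ∀ ℓ₁ s₁ : chartAlg N ℓ {t},
      (∃ c, ℓ₁ = ((ℓ : ℕ) : chartAlg N ℓ {t}) * c) →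
      (∀ y ∈ 𝔪.comap (s36_lc_emb ℓ A t), ∃ v, v ∉ 𝔪.comap (s36_lc_emb ℓ A t) ∧
        v * y ∈ Ideal.span {ℓ₁, s₁}) →
      ∀ x ∈ 𝔪, ∃ u, u ∉ 𝔪 ∧
        u * x ∈ Ideal.span {algebraMap A (s18_chAlg N ℓ A t) π, s36_lc_emb ℓ A t s₁} := by
  obtain ⟨θ, Q, hQ, ⟨aQ, haQ⟩, ⟨aθ, haθ⟩, hres⟩ := s36_lc_res_gen hR
  have hQπ : ((Q : ℕ) : s18_chAlg N ℓ A t) ∈
      Ideal.span {algebraMap A (s18_chAlg N ℓ A t) π} := by
    have h1 : ((Q : ℕ) : s18_chAlg N ℓ A t) = algebraMap A (s18_chAlg N ℓ A t) (Q : A) := by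
      rw [map_natCast]
    rw [h1, haQ, map_mul]
    exact Ideal.mul_mem_right _ _ (Ideal.subset_span rfl)
  have hθ : algebraMap A (s18_chAlg N ℓ A t) θ ^ Q - algebraMap A (s18_chAlg N ℓ A t) θ ∈
      Ideal.span {algebraMap A (s18_chAlg N ℓ A t) π} := by
    rw [← map_pow, ← map_sub, haθ, map_mul]
    exact Ideal.mul_mem_right _ _ (Ideal.subset_span rfl)
  have hgen : ∀ x : s18_chAlg N ℓ A t, ∃ P : Polynomial (chartAlg N ℓ {t}),
      x - P.eval₂ (s36_lc_emb ℓ A t) (algebraMap A (s18_chAlg N ℓ A t) θ) ∈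
        Ideal.span {algebraMap A (s18_chAlg N ℓ A t) π} := by
    intro x
    obtain ⟨P, w, h⟩ := s36_lc_hgen t θ hres x
    refine ⟨P, ?_⟩
    rw [h, add_sub_cancel_left]
    exact Ideal.mul_mem_right _ _ (Ideal.subset_span rfl)
  -- `ℓ` is divisible by `π` in the chart
  have hℓπ : s36_lc_emb ℓ A t ((ℓ : ℕ) : chartAlg N ℓ {t}) ∈
      Ideal.span {algebraMap A (s18_chAlg N ℓ A t) π} := by
    have h1 : ((ℓ : ℕ) : A) ∈ IsLocalRing.maximalIdeal A := s18_ell_mem_maximalIdeal ℓ A hR.unit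
    rw [hR.irr.maximalIdeal_eq] at h1
    obtain ⟨a, ha⟩ := Ideal.mem_span_singleton.mp h1
    have h2 : s36_lc_emb ℓ A t ((ℓ : ℕ) : chartAlg N ℓ {t}) =
        algebraMap A (s18_chAlg N ℓ A t) ((ℓ : ℕ) : A) := by
      rw [map_natCast, map_natCast]
    rw [h2, ha, map_mul]
    exact Ideal.mul_mem_right _ _ (Ideal.subset_span rfl)
  have hπ𝔪 : Ideal.span {algebraMap A (s18_chAlg N ℓ A t) π} ≤ 𝔪 := by
    rw [Ideal.span_le, Set.singleton_subset_iff]
    exact hπ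
  refine ⟨s36_lc_comap_max _ _ _ Q hQ hθ hgen 𝔪 h𝔪 hπ, Ideal.mem_comap.mpr (hπ𝔪 hℓπ), ?_⟩
  rintro ℓ₁ s₁ ⟨c, rfl⟩ hreg
  refine s36_lc_param _ _ _ Q hQ hQπ hθ hgen 𝔪 h𝔪 hπ _ s₁ ?_ hreg
  rw [map_mul]
  exact Ideal.mul_mem_right _ _ hℓπ

end Model

section Rational

variable {N : ℕ} [NeZero N] {ℓ : ℕ} [Fact ℓ.Prime]
variable {K₀ : Type*} [Field K₀] [Algebra ℚ K₀] {A₀ : ValuationSubring K₀}

local notation "F₀" => laurentBaseChange K₀ (modularFunctionFieldFull N)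

/-- A rational number lying in a valuation ring in which `ℓ` is not a unit is `ℓ`-integral. -/
theorem s36_lc_rat_den (hℓ : ((ℓ : K₀))⁻¹ ∉ A₀) (r : ℚ) (hr : algebraMap ℚ K₀ r ∈ A₀) :
    r ∈ GaloisRep.ratLocalizedAt ℓ := by
  have hℓp : ℓ.Prime := Fact.out
  show r.den.Coprime ℓ
  by_contra hcop
  have hdvd : ℓ ∣ r.den := by
    by_contra h
    exact hcop ((Nat.Prime.coprime_iff_not_dvd hℓp).mpr h).symm
  obtain ⟨m, hm⟩ := hdvd
  obtain ⟨u, v, huv⟩ := Rat.isCoprime_num_den r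
  have hden0 : (r.den : ℚ) ≠ 0 := Nat.cast_ne_zero.mpr r.den_nz
  have h3 : (r.num : ℚ) = r * r.den := (div_eq_iff hden0).mp (Rat.num_div_den r)
  have h1 : ((r.den : ℚ))⁻¹ = u * r + v := by
    apply inv_eq_of_mul_eq_one_left
    rw [add_mul, mul_assoc, ← h3]
    exact_mod_cast huv
  have hℓ0 : (ℓ : ℚ) ≠ 0 := Nat.cast_ne_zero.mpr hℓp.ne_zero
  have hm0 : (m : ℚ) ≠ 0 := by
    intro h0
    apply hden0
    rw [hm, Nat.cast_mul, h0, mul_zero]
  have h5 : ((ℓ : ℚ))⁻¹ = (m : ℚ) * (u * r + v) := by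
    rw [← h1, hm, Nat.cast_mul, mul_inv]
    field_simp
  apply hℓ
  have h6 : ((ℓ : K₀))⁻¹ = (m : K₀) * ((u : K₀) * algebraMap ℚ K₀ r + (v : K₀)) := by
    have h7 := congrArg (algebraMap ℚ K₀) h5
    rw [map_inv₀, map_natCast, map_mul, map_natCast, map_add, map_mul, map_intCast,
      map_intCast] at h7
    exact h7
  rw [h6]
  exact A₀.mul_mem _ _ (natCast_mem A₀ m)
    (A₀.add_mem _ _ (A₀.mul_mem _ _ (intCast_mem A₀ u) hr) (intCast_mem A₀ v))

/-- A rational number which is a non-unit of a valuation ring in which `ℓ` is not a unit is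
divisible by `ℓ` in `ℤ_(ℓ)`. -/
theorem s36_lc_rat_dvd (hℓ : ((ℓ : K₀))⁻¹ ∉ A₀) (r : ℚ) (hr : algebraMap ℚ K₀ r ∈ A₀)
    (hnu : ¬ IsUnit (⟨algebraMap ℚ K₀ r, hr⟩ : A₀)) :
    ∃ c : GaloisRep.ratLocalizedAt ℓ, r = (ℓ : ℚ) * (c : ℚ) := by
  have hℓp : ℓ.Prime := Fact.out
  have hmem : r.den.Coprime ℓ := s36_lc_rat_den hℓ r hr
  have hden0 : (r.den : ℚ) ≠ 0 := Nat.cast_ne_zero.mpr r.den_nz
  have hchar : CharZero K₀ := algebraRat.charZero K₀
  have hdvd : (ℓ : ℤ) ∣ r.num := by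
    by_contra h
    apply hnu
    have hinv : ((r.num : K₀))⁻¹ ∈ A₀ := s18_int_inv_mem ℓ A₀ hℓ r.num h
    have hnum0 : (r.num : K₀) ≠ 0 := by
      intro h0
      have h1 : r.num = 0 := by exact_mod_cast h0
      exact h (h1 ▸ dvd_zero _)
    have hden0' : (r.den : K₀) ≠ 0 := Nat.cast_ne_zero.mpr r.den_nz
    have hr' : algebraMap ℚ K₀ r = (r.num : K₀) / (r.den : K₀) := by
      conv_lhs => rw [← Rat.num_div_den r]
      rw [map_div₀, map_intCast, map_natCast]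
    refine IsUnit.of_mul_eq_one
      (⟨(r.den : K₀) * ((r.num : K₀))⁻¹, A₀.mul_mem _ _ (natCast_mem A₀ r.den) hinv⟩ : A₀) ?_
    apply Subtype.ext
    show algebraMap ℚ K₀ r * ((r.den : K₀) * ((r.num : K₀))⁻¹) = 1
    rw [hr']
    field_simp
  obtain ⟨m, hm⟩ := hdvd
  have hc : (m : ℚ) * ((r.den : ℚ))⁻¹ ∈ GaloisRep.ratLocalizedAt ℓ := by
    refine Subring.mul_mem _ (intCast_mem _ m) ?_
    show (((r.den : ℚ))⁻¹).den.Coprime ℓ
    rw [Rat.inv_natCast_den_of_pos r.den_pos]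
    exact hmem
  refine ⟨⟨_, hc⟩, ?_⟩
  calc r = (r.num : ℚ) / r.den := (Rat.num_div_den r).symm
    _ = (ℓ : ℚ) * ((m : ℚ) * ((r.den : ℚ))⁻¹) := by
      rw [hm]
      push_cast
      ring

/-- The `q`-expansion of the image of a constant of `ℤ_(ℓ)`. -/
theorem s36_lc_cc_emb_const (t : modularFunctionFieldFull N) (r : GaloisRep.ratLocalizedAt ℓ) :
    s36_lc_cc ℓ A₀ t (s36_lc_emb ℓ A₀ t (algebraMap (GaloisRep.ratLocalizedAt ℓ)
      (chartAlg N ℓ {t}) r)) = HahnSeries.C (algebraMap ℚ K₀ (r : ℚ)) := by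
  rw [s36_lc_cc_emb]
  have h1 : (((algebraMap (GaloisRep.ratLocalizedAt ℓ) (chartAlg N ℓ {t}) r :
      chartAlg N ℓ {t}) : modularFunctionFieldFull N) : LaurentSeries ℚ) =
      HahnSeries.C (r : ℚ) := kerVal_algebraMap N ℓ r
  rw [h1, ← s18_C_eq_coeffMap]

/-- The coefficient embedding of the rational chart is injective. -/
theorem s36_lc_emb_injective (t : modularFunctionFieldFull N) :
    Function.Injective (s36_lc_emb ℓ A₀ t) := by
  intro y y' h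
  have h1 := congrArg (s36_lc_cc ℓ A₀ t) h
  rw [s36_lc_cc_emb, s36_lc_cc_emb] at h1
  exact Subtype.ext (Subtype.ext (s18_coeffMap_injective _ (algebraMap ℚ K₀).injective h1))

/-- Over (a copy of) `ℚ`, the chart is the rational chart. -/
theorem s36_lc_emb_surjective (hsurj : Function.Surjective (algebraMap ℚ K₀))
    (hℓ : ((ℓ : K₀))⁻¹ ∉ A₀) (t : modularFunctionFieldFull N) :
    Function.Surjective (s36_lc_emb ℓ A₀ t) := by
  have key : ∀ z : LaurentSeries K₀, z ∈ s18_chRing N ℓ A₀ t →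
      ∃ y : chartAlg N ℓ {t}, s36_lc_cc ℓ A₀ t (s36_lc_emb ℓ A₀ t y) = z := by
    intro z hz
    refine s18_chSpan_induction (P := fun z => ∃ y : chartAlg N ℓ {t},
      s36_lc_cc ℓ A₀ t (s36_lc_emb ℓ A₀ t y) = z) ?_ ?_ ?_ ?_ hz
    · intro r z₀ hz₀
      obtain ⟨y₀, hy₀, rfl⟩ := s18_mem_czRing.mp hz₀
      obtain ⟨r₀, hr₀⟩ := hsurj (r : K₀)
      have hr₀A : algebraMap ℚ K₀ r₀ ∈ A₀ := by
        rw [hr₀]
        exact r.2
      refine ⟨algebraMap (GaloisRep.ratLocalizedAt ℓ) (chartAlg N ℓ {t})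
        ⟨r₀, s36_lc_rat_den hℓ r₀ hr₀A⟩ * ⟨y₀, hy₀⟩, ?_⟩
      rw [map_mul, map_mul, s36_lc_cc_emb_const, s36_lc_cc_emb]
      show HahnSeries.C (algebraMap ℚ K₀ r₀) * _ = HahnSeries.C (r : K₀) * _
      rw [hr₀]
    · exact ⟨0, by rw [map_zero, map_zero]⟩
    · rintro z z' ⟨y, rfl⟩ ⟨y', rfl⟩
      exact ⟨y + y', by rw [map_add, map_add]⟩
    · rintro z ⟨y, rfl⟩
      exact ⟨-y, by rw [map_neg, map_neg]⟩
  intro x
  obtain ⟨y, hy⟩ := key ((x : F₀) : LaurentSeries K₀) x.2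
  exact ⟨y, s36_lc_cc_injective t hy⟩

/-- **The local parameters of the rational chart** from the chart structure of the chart over
(a copy of) `ℚ`: at every maximal ideal `𝔫 ∋ ℓ` of `chartAlg N ℓ {t}` there are `ℓ₁ ∈ (ℓ)` and
`s₁ ∈ 𝔫` generating `𝔫` locally. -/
theorem s36_lc_rat_reg (hsurj : Function.Surjective (algebraMap ℚ K₀))
    (hℓ : ((ℓ : K₀))⁻¹ ∉ A₀) {π₁ : A₀} (t : modularFunctionFieldFull N)
    (hchart : s18_Chart (algebraMap A₀ F₀ π₁) (s18_chAlg N ℓ A₀ t).toSubring)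
    (𝔫 : Ideal (chartAlg N ℓ {t})) (h𝔫 : 𝔫.IsMaximal)
    (hℓ𝔫 : ((ℓ : ℕ) : chartAlg N ℓ {t}) ∈ 𝔫) :
    ∃ ℓ₁ s₁ : chartAlg N ℓ {t}, (∃ c, ℓ₁ = ((ℓ : ℕ) : chartAlg N ℓ {t}) * c) ∧ s₁ ∈ 𝔫 ∧
      ∀ y ∈ 𝔫, ∃ v, v ∉ 𝔫 ∧ v * y ∈ Ideal.span {ℓ₁, s₁} := by
  -- `π₁` is not a unit
  have hπ₁ : ¬ IsUnit π₁ := by
    rintro ⟨u, rfl⟩
    apply hchart.nonunit
    have h1 : (algebraMap A₀ F₀ (u : A₀))⁻¹ = algebraMap A₀ F₀ ((u⁻¹ : A₀ˣ) : A₀) := by
      apply inv_eq_of_mul_eq_one_left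
      rw [← map_mul, Units.inv_mul, map_one]
    rw [h1]
    exact (s18_chAlg N ℓ A₀ t).algebraMap_mem _
  obtain ⟨p₀, hp₀⟩ := hsurj (π₁ : K₀)
  have hp₀A : algebraMap ℚ K₀ p₀ ∈ A₀ := by
    rw [hp₀]
    exact π₁.2
  have hp₀u : ¬ IsUnit (⟨algebraMap ℚ K₀ p₀, hp₀A⟩ : A₀) := by
    have h1 : (⟨algebraMap ℚ K₀ p₀, hp₀A⟩ : A₀) = π₁ := Subtype.ext hp₀
    rw [h1]
    exact hπ₁
  obtain ⟨c, hc⟩ := s36_lc_rat_dvd hℓ p₀ hp₀A hp₀u
  let e : chartAlg N ℓ {t} →+* (s18_chAlg N ℓ A₀ t).toSubring := s36_lc_emb ℓ A₀ t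
  have hbij : Function.Bijective e := ⟨s36_lc_emb_injective t, s36_lc_emb_surjective hsurj hℓ t⟩
  set ℓ₁ : chartAlg N ℓ {t} := ((ℓ : ℕ) : chartAlg N ℓ {t}) *
    algebraMap (GaloisRep.ratLocalizedAt ℓ) (chartAlg N ℓ {t}) c with hℓ₁
  have heℓ₁ : e ℓ₁ = (⟨algebraMap A₀ F₀ π₁, hchart.ϖ_mem⟩ : (s18_chAlg N ℓ A₀ t).toSubring) := by
    apply s36_lc_cc_injective t
    have h1 : ℓ₁ = algebraMap (GaloisRep.ratLocalizedAt ℓ) (chartAlg N ℓ {t})
        (((ℓ : ℕ) : GaloisRep.ratLocalizedAt ℓ) * c) := by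
      rw [hℓ₁, map_mul, map_natCast]
    show s36_lc_cc ℓ A₀ t (s36_lc_emb ℓ A₀ t ℓ₁) =
      s36_lc_cc ℓ A₀ t (algebraMap A₀ (s18_chAlg N ℓ A₀ t) π₁)
    rw [h1, s36_lc_cc_emb_const, s36_lc_cc_algebraMap]
    show HahnSeries.C (algebraMap ℚ K₀ (((ℓ : ℕ) : ℚ) * (c : ℚ))) = HahnSeries.C (π₁ : K₀)
    rw [← hc, hp₀]
  have hℓ₁𝔫 : ℓ₁ ∈ 𝔫 := Ideal.mul_mem_right _ _ hℓ𝔫
  have h𝔫' : (𝔫.map e).IsMaximal := (Ideal.isMaximal_map_iff_of_bijective e hbij).mpr h𝔫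
  have hϖ : (⟨algebraMap A₀ F₀ π₁, hchart.ϖ_mem⟩ : (s18_chAlg N ℓ A₀ t).toSubring) ∈ 𝔫.map e := by
    rw [← heℓ₁]
    exact Ideal.mem_map_of_mem e hℓ₁𝔫
  obtain ⟨s', hs', hreg'⟩ := hchart.reg (𝔫.map e) h𝔫' hϖ
  obtain ⟨s₁, hs₁𝔫, rfl⟩ := (Ideal.mem_map_iff_of_surjective e hbij.2).mp hs'
  have hmem𝔫 : ∀ y, e y ∈ 𝔫.map e → y ∈ 𝔫 := by
    intro y hy
    obtain ⟨y', hy', hyy'⟩ := (Ideal.mem_map_iff_of_surjective e hbij.2).mp hy
    rw [← hbij.1 hyy']
    exact hy'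
  refine ⟨ℓ₁, s₁, ⟨_, rfl⟩, hs₁𝔫, ?_⟩
  intro y hy
  obtain ⟨u', hu', hu'y⟩ := hreg' (e y) (Ideal.mem_map_of_mem e hy)
  obtain ⟨v, rfl⟩ := hbij.2 u'
  refine ⟨v, fun hv => hu' (Ideal.mem_map_of_mem e hv), ?_⟩
  obtain ⟨a', b', hab⟩ := Ideal.mem_span_pair.mp hu'y
  obtain ⟨a, rfl⟩ := hbij.2 a'
  obtain ⟨b, rfl⟩ := hbij.2 b'
  rw [← heℓ₁, ← map_mul, ← map_mul, ← map_mul, ← map_add] at hab
  exact Ideal.mem_span_pair.mpr ⟨a, b, hbij.1 hab⟩

end Rational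

section Main

variable {N : ℕ} [NeZero N] {ℓ : ℕ} [Fact ℓ.Prime]
variable {K : Type*} [Field K] [Algebra ℚ K] {A : ValuationSubring K}
variable {K₀ : Type*} [Field K₀] [Algebra ℚ K₀] {A₀ : ValuationSubring K₀}

local notation "FK" => laurentBaseChange K (modularFunctionFieldFull N)

local notation "F₀" => laurentBaseChange K₀ (modularFunctionFieldFull N)

/-- **(I1) A rational local coordinate at every closed point of the special fibre of the chart
over `A`**, in the `reg` shape of `s18_Chart`.  `A` is any discrete valuation ring with residue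
basis data (ramified or not, no Galois hypothesis); `K₀` is a copy of `ℚ` and `hchart` the chart
structure of the rational chart.  For every maximal ideal `𝔪 ∋ π` of the chart over `A` there is
`y` in the rational chart `chartAlg N ℓ {t}` (so with `ℓ`-integral rational `q`-expansion) such
that `(π, y)` generates `𝔪` locally. -/
theorem s36_lc_chart_reg [IsDiscreteValuationRing A] {π : A} (hR : s18_ResBasis ℓ A π)
    (hsurj : Function.Surjective (algebraMap ℚ K₀)) (hℓ₀ : ((ℓ : K₀))⁻¹ ∉ A₀) {π₁ : A₀}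
    (t : modularFunctionFieldFull N)
    (hchart : s18_Chart (algebraMap A₀ F₀ π₁) (s18_chAlg N ℓ A₀ t).toSubring)
    (𝔪 : Ideal (s18_chAlg N ℓ A t).toSubring) (h𝔪 : 𝔪.IsMaximal)
    (hπ𝔪 : (⟨algebraMap A FK π, (s18_chAlg N ℓ A t).algebraMap_mem π⟩ :
      (s18_chAlg N ℓ A t).toSubring) ∈ 𝔪) :
    ∃ y : modularFunctionFieldFull N, y ∈ chartAlg N ℓ {t} ∧
      ∃ hs : s18_coord K y ∈ (s18_chAlg N ℓ A t).toSubring,
        (⟨s18_coord K y, hs⟩ : (s18_chAlg N ℓ A t).toSubring) ∈ 𝔪 ∧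
        ∀ x ∈ 𝔪, ∃ u, u ∉ 𝔪 ∧ u * x ∈ Ideal.span
          {(⟨algebraMap A FK π, (s18_chAlg N ℓ A t).algebraMap_mem π⟩ :
            (s18_chAlg N ℓ A t).toSubring), ⟨s18_coord K y, hs⟩} := by
  obtain ⟨hmax, hℓ𝔫, hpar⟩ := s36_lc_chart hR t 𝔪 h𝔪 hπ𝔪
  obtain ⟨ℓ₁, s₁, hℓ₁, hs₁, hreg⟩ := s36_lc_rat_reg hsurj hℓ₀ t hchart _ hmax hℓ𝔫
  exact ⟨s₁, s₁.2, (s36_lc_emb ℓ A t s₁).2, hs₁, hpar ℓ₁ s₁ hℓ₁ hreg⟩

end Main

end Fermat.Agent.S36
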