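import Fermat.Agent.S36.ThickCoreD

/-!
# S36 (NODE-3), B2 route (a): thickness one from a pole of `ρ` in the form `ρ ∉ O`

Complements `ThickCore.lean` / `ThickCoreD.lean` (`s36_th_core`, `s36_th_core_D`,
`s36_th_core_t`).  Vocabulary as there: `r : B →+* E` the reduction of the chart `B` along one
vertical component, `𝔪` the point, `O = s36_th_O r 𝔪` the image of `B_𝔪` in `E`,
`ρ_x = (θ x̄)^(q-1)`.

* `s36_thp_core` : the core with the pole in the WEAKEST form `ρ_x ∉ O`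
  (no lift of `ρ`, no inverse, no valuation on `E`);
* `s36_thp_pole_rel` : `ρ_x ∉ O` from a relation `(ρ_t)^k · r P = r U` with `P ∈ 𝔪`, `U ∉ 𝔪` for
  another coordinate `t` of the chart (the Hasse-invariant relation
  `(θ t̄)^(6(q-1)) · P_q(j̄) = ((t+64)³ t⁴)^(q-1)`), whatever the ramification of `t̄` at the point;
* `s36_thp_core_rel` : the combination;
* `s36_thp_unit`, `s36_thp_gen`, `s36_thp_gen_rel` : the same in the `Subring F` vocabulary of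
  `PrinBranch.lean` (`s36_th_unit`, `s36_th_gen`), concluding `γ ∉ 𝔪`, resp. the hypothesis
  `hgen` of `s36_tf_hG`: `𝔪` is generated locally by `u` and `x`.
-/

set_option autoImplicit false

namespace Fermat.Agent.S36

section Core

variable {B E : Type*} [CommRing B] [Field E]

/-- **Thickness one from `ρ ∉ O`.**  Same setting as `s36_th_core_D`, with the pole in the form
`(θ x̄)^(q-1) ∉ O`.  Then `γ` is a unit at `𝔪`. -/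
theorem s36_thp_core (q : ℕ) (hq : 0 < q) [CharP E q]
    (r : B →+* E) (θ : E →+ E) (hθ : ∀ f g, θ (f * g) = θ f * g + f * θ g)
    (𝔪 : Ideal B) [h𝔪 : 𝔪.IsPrime] (hker : ∀ z : B, r z = 0 → z ∈ 𝔪)
    (x v γ : B) (hx𝔪 : x ∈ 𝔪)
    (hext : ∀ y ∈ 𝔪, ∃ d c : B, d ∉ 𝔪 ∧ r d * r y = r c * r x)
    (hθx : θ (r x) ≠ 0)
    (hD : ∀ f ∈ s36_th_O r 𝔪, ∃ g ∈ s36_th_O r 𝔪, θ f = g * θ (r x))
    (hvx : r v = r x - r x ^ (q ^ 2)) (hv0 : r v ≠ 0)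
    (hid : r v ^ 2 * θ (r x) ^ q =
      r v ^ 2 * r x ^ (q - 1) * θ (r x) + r v * θ (r γ) - r γ * θ (r x))
    (hpole : θ (r x) ^ (q - 1) ∉ s36_th_O r 𝔪) :
    γ ∉ 𝔪 := by
  intro hγ𝔪
  apply hpole
  set O := s36_th_O r 𝔪 with hO
  have hunit : ∀ b : B, b ∉ 𝔪 → r b ≠ 0 := fun b hb h0 => hb (hker b h0)
  have hmap : ∀ a : B, r a ∈ O := s36_th_map_mem_O r 𝔪
  have hinv : ∀ b : B, b ∉ 𝔪 → (r b)⁻¹ ∈ O := fun b hb => s36_th_inv_mem_O r 𝔪 b hb (hunit b hb)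
  have hxO : r x ∈ O := hmap x
  obtain ⟨h₁, hh₁, eγ⟩ := s36_th_O_max r 𝔪 hker x hext γ hγ𝔪
  have hq1 : 1 < q := by
    rcases Nat.lt_or_ge 1 q with h1 | h1
    · exact h1
    · exfalso
      have h2 : q = 1 := by omega
      have h3 : ((q : ℕ) : E) = 0 := CharP.cast_eq_zero E q
      rw [h2, Nat.cast_one] at h3
      exact one_ne_zero h3
  have hqq : 1 < q ^ 2 := lt_of_lt_of_le hq1 (Nat.le_self_pow (by norm_num) q)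
  have he𝔪 : (1 - x ^ (q ^ 2 - 1) : B) ∉ 𝔪 := by
    intro h
    have h2 : x ^ (q ^ 2 - 1) ∈ 𝔪 := 𝔪.pow_mem_of_mem hx𝔪 _ (by omega)
    have := 𝔪.add_mem h h2
    rw [sub_add_cancel] at this
    exact h𝔪.ne_top ((Ideal.eq_top_iff_one _).mpr this)
  have hq2 : q ^ 2 - 1 + 1 = q ^ 2 := by omega
  have hve : r v = r x * r (1 - x ^ (q ^ 2 - 1)) := by
    rw [hvx, map_sub, map_one, map_pow, mul_sub, mul_one, ← pow_succ', hq2]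
  have he0 := hunit _ he𝔪
  have hγ1 : h₁ * (r (1 - x ^ (q ^ 2 - 1)))⁻¹ ∈ O := O.mul_mem hh₁ (hinv _ he𝔪)
  have hγ : r γ = r v * (h₁ * (r (1 - x ^ (q ^ 2 - 1)))⁻¹) := by
    rw [eγ, hve]
    field_simp
  have hvθ : θ (r v) = θ (r x) := by
    rw [hvx, map_sub, pow_two, pow_mul, s36_th_theta_pow_char q θ hθ, sub_zero]
  exact s36_qk_regular_of_dvd θ hθ O q hq (r x) (r v) (r γ) _ hxO hvθ hv0 hθx hD hγ1 hγ hid

/-- **Pole from a relation.**  `O = s36_th_O r 𝔪` stable under `θ / θ x̄` (`hD`), `t` another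
coordinate of the chart.  If `((θ t̄)^m)^k · r P = r U` with `P ∈ 𝔪` and `U ∉ 𝔪`, then
`(θ x̄)^m ∉ O`. -/
theorem s36_thp_pole_rel (r : B →+* E) (θ : E →+ E)
    (𝔪 : Ideal B) [h𝔪 : 𝔪.IsPrime] (hker : ∀ z : B, r z = 0 → z ∈ 𝔪) (x : B)
    (hD : ∀ f ∈ s36_th_O r 𝔪, ∃ g ∈ s36_th_O r 𝔪, θ f = g * θ (r x))
    (t P U : B) (m k : ℕ) (hP : P ∈ 𝔪) (hU : U ∉ 𝔪)
    (hrel : (θ (r t) ^ m) ^ k * r P = r U) :
    θ (r x) ^ m ∉ s36_th_O r 𝔪 := by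
  intro hρ
  obtain ⟨g, hg, e⟩ := hD (r t) (s36_th_map_mem_O r 𝔪 t)
  have hmem : (θ (r t) ^ m) ^ k ∈ s36_th_O r 𝔪 := by
    rw [e, mul_pow]
    exact (s36_th_O r 𝔪).pow_mem ((s36_th_O r 𝔪).mul_mem ((s36_th_O r 𝔪).pow_mem hg m) hρ) k
  obtain ⟨a, b, hb, hab⟩ := hmem
  apply hU
  have hz : r (U * b - a * P) = 0 := by
    rw [map_sub, map_mul, map_mul, ← hrel, ← hab]
    ring
  have h1 : U * b ∈ 𝔪 := by
    have := 𝔪.add_mem (hker _ hz) (𝔪.mul_mem_left a hP)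
    simpa using this
  rcases h𝔪.mem_or_mem h1 with h2 | h2
  · exact h2
  · exact absurd h2 hb

/-- **Thickness one from a relation for a second coordinate** (`s36_thp_core` +
`s36_thp_pole_rel` with `m = q - 1`). -/
theorem s36_thp_core_rel (q : ℕ) (hq : 0 < q) [CharP E q]
    (r : B →+* E) (θ : E →+ E) (hθ : ∀ f g, θ (f * g) = θ f * g + f * θ g)
    (𝔪 : Ideal B) [h𝔪 : 𝔪.IsPrime] (hker : ∀ z : B, r z = 0 → z ∈ 𝔪)
    (x v γ : B) (hx𝔪 : x ∈ 𝔪)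
    (hext : ∀ y ∈ 𝔪, ∃ d c : B, d ∉ 𝔪 ∧ r d * r y = r c * r x)
    (hθx : θ (r x) ≠ 0)
    (hD : ∀ f ∈ s36_th_O r 𝔪, ∃ g ∈ s36_th_O r 𝔪, θ f = g * θ (r x))
    (hvx : r v = r x - r x ^ (q ^ 2)) (hv0 : r v ≠ 0)
    (hid : r v ^ 2 * θ (r x) ^ q =
      r v ^ 2 * r x ^ (q - 1) * θ (r x) + r v * θ (r γ) - r γ * θ (r x))
    (t P U : B) (k : ℕ) (hP : P ∈ 𝔪) (hU : U ∉ 𝔪)
    (hrel : (θ (r t) ^ (q - 1)) ^ k * r P = r U) :
    γ ∉ 𝔪 :=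
  s36_thp_core q hq r θ hθ 𝔪 hker x v γ hx𝔪 hext hθx hD hvx hv0 hid
    (s36_thp_pole_rel r θ 𝔪 hker x hD t P U (q - 1) k hP hU hrel)

end Core

section Model

variable {F E : Type*} [Field F] [Field E]

/-- **Thickness one** in the vocabulary of `PrinBranch.lean` / `s36_th_unit`, pole given as
`(θ x̄)^(q-1) ∉ O` with `O = s36_th_O (red ∘ incl) 𝔪`, and `hD` a hypothesis. -/
theorem s36_thp_unit (q : ℕ) (hq : 0 < q) [CharP E q]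
    (B V₁ : Subring F) (hB₁ : B ≤ V₁) (ϖ : F)
    (red : V₁ →+* E) (hker : ∀ z : V₁, red z = 0 ↔ ϖ⁻¹ * (z : F) ∈ V₁)
    (θ : E →+ E) (hθ : ∀ f g, θ (f * g) = θ f * g + f * θ g)
    (𝔪 : Ideal B) [𝔪.IsPrime]
    (hP₁ : ∀ p : B, ϖ⁻¹ * (p : F) ∈ V₁ → p ∈ 𝔪)
    (x v γ : B) (hx𝔪 : x ∈ 𝔪)
    (hext : ∀ y ∈ 𝔪, ∃ d c : B, d ∉ 𝔪 ∧
      ϖ⁻¹ * ((d : F) * (y : F) - (c : F) * (x : F)) ∈ V₁)
    (hθx : θ (red (Subring.inclusion hB₁ x)) ≠ 0)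
    (hD : ∀ f ∈ s36_th_O (red.comp (Subring.inclusion hB₁)) 𝔪,
      ∃ g ∈ s36_th_O (red.comp (Subring.inclusion hB₁)) 𝔪,
        θ f = g * θ (red (Subring.inclusion hB₁ x)))
    (hvx : red (Subring.inclusion hB₁ v) =
      red (Subring.inclusion hB₁ x) - red (Subring.inclusion hB₁ x) ^ (q ^ 2))
    (hv0 : red (Subring.inclusion hB₁ v) ≠ 0)
    (hid : red (Subring.inclusion hB₁ v) ^ 2 * θ (red (Subring.inclusion hB₁ x)) ^ q =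
      red (Subring.inclusion hB₁ v) ^ 2 * red (Subring.inclusion hB₁ x) ^ (q - 1) *
          θ (red (Subring.inclusion hB₁ x))
        + red (Subring.inclusion hB₁ v) * θ (red (Subring.inclusion hB₁ γ))
        - red (Subring.inclusion hB₁ γ) * θ (red (Subring.inclusion hB₁ x)))
    (hpole : θ (red (Subring.inclusion hB₁ x)) ^ (q - 1) ∉
      s36_th_O (red.comp (Subring.inclusion hB₁)) 𝔪) :
    γ ∉ 𝔪 := by
  have hk : ∀ z : B, (red.comp (Subring.inclusion hB₁)) z = 0 → z ∈ 𝔪 := by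
    intro z hz
    exact hP₁ z ((hker _).mp hz)
  refine s36_thp_core q hq (red.comp (Subring.inclusion hB₁)) θ hθ 𝔪 hk x v γ hx𝔪 ?_ hθx
    hD hvx hv0 hid hpole
  intro y hy
  obtain ⟨d, c, hd, h⟩ := hext y hy
  refine ⟨d, c, hd, ?_⟩
  have h0 : red (Subring.inclusion hB₁ (d * y - c * x)) = 0 := (hker _).mpr (by simpa using h)
  rw [map_sub, map_sub, map_mul, map_mul, map_mul, map_mul, sub_eq_zero] at h0
  exact h0

/-- **Thickness one ⟹ two local generators** (`s36_thp_unit` + `s36_pb_gen`): the hypothesis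
`hgen` of `s36_tf_hG` at a crossing point from: (cap), `u v = ϖ γ`, `hext`, `hD`, the thickness
identity and a pole `(θ x̄)^(q-1) ∉ O`. -/
theorem s36_thp_gen (q : ℕ) (hq : 0 < q) [CharP E q]
    (B V₁ V₂ : Subring F) (hB₁ : B ≤ V₁) (hB₂ : B ≤ V₂) (ϖ : F) (hϖ0 : ϖ ≠ 0)
    (hcap : ∀ x ∈ B, ϖ⁻¹ * x ∈ V₁ → ϖ⁻¹ * x ∈ V₂ → ϖ⁻¹ * x ∈ B)
    (red : V₁ →+* E) (hker : ∀ z : V₁, red z = 0 ↔ ϖ⁻¹ * (z : F) ∈ V₁)
    (θ : E →+ E) (hθ : ∀ f g, θ (f * g) = θ f * g + f * θ g)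
    (𝔪 : Ideal B) [𝔪.IsPrime]
    (hP₁ : ∀ p : B, ϖ⁻¹ * (p : F) ∈ V₁ → p ∈ 𝔪)
    (u x v γ : B) (huv : (u : F) * (v : F) = ϖ * (γ : F))
    (hv₂ : ϖ⁻¹ * (v : F) ∈ V₂) (hx𝔪 : x ∈ 𝔪)
    (hext : ∀ y ∈ 𝔪, ∃ d c : B, d ∉ 𝔪 ∧
      ϖ⁻¹ * ((d : F) * (y : F) - (c : F) * (x : F)) ∈ V₁)
    (hθx : θ (red (Subring.inclusion hB₁ x)) ≠ 0)
    (hD : ∀ f ∈ s36_th_O (red.comp (Subring.inclusion hB₁)) 𝔪,
      ∃ g ∈ s36_th_O (red.comp (Subring.inclusion hB₁)) 𝔪,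
        θ f = g * θ (red (Subring.inclusion hB₁ x)))
    (hvx : red (Subring.inclusion hB₁ v) =
      red (Subring.inclusion hB₁ x) - red (Subring.inclusion hB₁ x) ^ (q ^ 2))
    (hv0 : red (Subring.inclusion hB₁ v) ≠ 0)
    (hid : red (Subring.inclusion hB₁ v) ^ 2 * θ (red (Subring.inclusion hB₁ x)) ^ q =
      red (Subring.inclusion hB₁ v) ^ 2 * red (Subring.inclusion hB₁ x) ^ (q - 1) *
          θ (red (Subring.inclusion hB₁ x))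
        + red (Subring.inclusion hB₁ v) * θ (red (Subring.inclusion hB₁ γ))
        - red (Subring.inclusion hB₁ γ) * θ (red (Subring.inclusion hB₁ x)))
    (hpole : θ (red (Subring.inclusion hB₁ x)) ^ (q - 1) ∉
      s36_th_O (red.comp (Subring.inclusion hB₁)) 𝔪) :
    ∀ y ∈ 𝔪, ∃ w, w ∉ 𝔪 ∧ w * y ∈ Ideal.span {u, x} := by
  have hγ : γ ∉ 𝔪 := s36_thp_unit q hq B V₁ hB₁ ϖ red hker θ hθ 𝔪 hP₁ x v γ hx𝔪 hext
    hθx hD hvx hv0 hid hpole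
  have hv0' : v ≠ 0 := by
    rintro rfl
    exact hv0 (by rw [map_zero, map_zero])
  exact s36_pb_gen B V₁ V₂ hB₁ hB₂ ϖ hϖ0 hcap 𝔪 u v γ x huv hγ hv₂ hv0' hext

/-- `s36_thp_gen` with the pole supplied by a relation `(ρ_t)^k · P̄ = Ū`, `P ∈ 𝔪`, `U ∉ 𝔪`
(`s36_thp_pole_rel`). -/
theorem s36_thp_gen_rel (q : ℕ) (hq : 0 < q) [CharP E q]
    (B V₁ V₂ : Subring F) (hB₁ : B ≤ V₁) (hB₂ : B ≤ V₂) (ϖ : F) (hϖ0 : ϖ ≠ 0)
    (hcap : ∀ x ∈ B, ϖ⁻¹ * x ∈ V₁ → ϖ⁻¹ * x ∈ V₂ → ϖ⁻¹ * x ∈ B)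
    (red : V₁ →+* E) (hker : ∀ z : V₁, red z = 0 ↔ ϖ⁻¹ * (z : F) ∈ V₁)
    (θ : E →+ E) (hθ : ∀ f g, θ (f * g) = θ f * g + f * θ g)
    (𝔪 : Ideal B) [𝔪.IsPrime]
    (hP₁ : ∀ p : B, ϖ⁻¹ * (p : F) ∈ V₁ → p ∈ 𝔪)
    (u x v γ : B) (huv : (u : F) * (v : F) = ϖ * (γ : F))
    (hv₂ : ϖ⁻¹ * (v : F) ∈ V₂) (hx𝔪 : x ∈ 𝔪)
    (hext : ∀ y ∈ 𝔪, ∃ d c : B, d ∉ 𝔪 ∧
      ϖ⁻¹ * ((d : F) * (y : F) - (c : F) * (x : F)) ∈ V₁)
    (hθx : θ (red (Subring.inclusion hB₁ x)) ≠ 0)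
    (hD : ∀ f ∈ s36_th_O (red.comp (Subring.inclusion hB₁)) 𝔪,
      ∃ g ∈ s36_th_O (red.comp (Subring.inclusion hB₁)) 𝔪,
        θ f = g * θ (red (Subring.inclusion hB₁ x)))
    (hvx : red (Subring.inclusion hB₁ v) =
      red (Subring.inclusion hB₁ x) - red (Subring.inclusion hB₁ x) ^ (q ^ 2))
    (hv0 : red (Subring.inclusion hB₁ v) ≠ 0)
    (hid : red (Subring.inclusion hB₁ v) ^ 2 * θ (red (Subring.inclusion hB₁ x)) ^ q =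
      red (Subring.inclusion hB₁ v) ^ 2 * red (Subring.inclusion hB₁ x) ^ (q - 1) *
          θ (red (Subring.inclusion hB₁ x))
        + red (Subring.inclusion hB₁ v) * θ (red (Subring.inclusion hB₁ γ))
        - red (Subring.inclusion hB₁ γ) * θ (red (Subring.inclusion hB₁ x)))
    (t P U : B) (k : ℕ) (hP : P ∈ 𝔪) (hU : U ∉ 𝔪)
    (hrel : (θ (red (Subring.inclusion hB₁ t)) ^ (q - 1)) ^ k * red (Subring.inclusion hB₁ P) =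
      red (Subring.inclusion hB₁ U)) :
    ∀ y ∈ 𝔪, ∃ w, w ∉ 𝔪 ∧ w * y ∈ Ideal.span {u, x} := by
  have hk : ∀ z : B, (red.comp (Subring.inclusion hB₁)) z = 0 → z ∈ 𝔪 := by
    intro z hz
    exact hP₁ z ((hker _).mp hz)
  exact s36_thp_gen q hq B V₁ V₂ hB₁ hB₂ ϖ hϖ0 hcap red hker θ hθ 𝔪 hP₁ u x v γ huv hv₂ hx𝔪
    hext hθx hD hvx hv0 hid
    (s36_thp_pole_rel (red.comp (Subring.inclusion hB₁)) θ 𝔪 hk x hD t P U (q - 1) k hP hU hrel)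

end Model

end Fermat.Agent.S36
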