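import Fermat.Agent.S36.ThickModel
import Fermat.Agent.S36.ThickPole
import Fermat.Agent.S36.DerivNak
import Fermat.Agent.S36.LocCoordInst
import Fermat.Agent.S34.NodeInstXY

/-!
# S36 (NODE-3), B2 route (a): the crossing-point instantiation (X1), generic model

Generic model vocabulary of `S34/NodeInstXY.lean` (no Galois hypothesis): `K` a field over `ℚ`,
`A` a valuation subring of `K`, a DVR in which `ℓ` is a UNIFORMIZER (`A` unramified),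
`F' = K · F_N`, `FF = K · F_(N ℓ)`, `α, β : F' → FF` the degeneracy maps, `W` a swap of `FF`,
`V∞ = s34_gi_V A (N ℓ)`, `V0 = V∞.comap W`, `B₁ = s18_chAlg N ℓ A t ⊆ F'` the level-`N` chart of the
coordinate `t`, `B ⊆ FF` a `W`-stable chart containing `α(B₁)`, with (cap) and (RES).
`ϖ = ℓ`, `r = red ∘ incl : B → k((Q))`, `θ = Q d/dQ`, `O = s36_th_O r 𝔪`.

* `s36_xi_core` : at a prime `𝔪 ⊇ P∞` of `B` and for a RATIONAL local coordinate `y` of the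
  level-`N` chart at the image point (`hreg`; e.g. from `s36_lc_chart_reg`), with `x = α y`,
  `g = W x = x(Q^ℓ)`, `u = g - x^ℓ`, `v = x - g^ℓ`: `u v = ℓ γ` with `γ ∈ B`, `ℓ⁻¹ u ∈ V∞`,
  `ℓ⁻¹ v ∈ V0`, and — given a perfect residue field (`hfrob`), finite generation of `r(B)`
  (`hgen`), `θ ≠ 0` on `r(B)` and a pole of `(θ x̄)^(ℓ-1)` (`hpole`) — `γ ∉ 𝔪` (thickness one) and
  `𝔪` is generated locally by `u` and `x`.
-/

set_option autoImplicit false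
set_option synthInstance.maxHeartbeats 400000
set_option maxHeartbeats 1000000
set_option linter.unusedSectionVars false
set_option linter.unusedVariables false

open ModularCurve ModularCurve.IgusaScheme

noncomputable section

namespace Fermat.Agent.S36

open Fermat.Agent.S18 Fermat.Agent.S28 Fermat.Agent.S34

section Generic

variable {N : ℕ} [NeZero N] {ℓ : ℕ} [NeZero ℓ] [Fact ℓ.Prime]
variable {K : Type*} [Field K] [Algebra ℚ K] (A : ValuationSubring K)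

local notation "F'" => laurentBaseChange K (modularFunctionFieldFull N)
local notation "FF" => laurentBaseChange K (modularFunctionFieldFull (N * ℓ))

/-- The reduction of the chart `B ⊆ V∞` along the component at `∞`. -/
def s36_xi_r (B : Subring FF) (hB₁ : B ≤ s34_gi_V A (N * ℓ)) :
    B →+* LaurentSeries (IsLocalRing.ResidueField A) :=
  (s34_gi_red A (N * ℓ)).comp (Subring.inclusion hB₁)

/-- The constants of `k((Q))`. -/
def s36_xi_k0 : Subring (LaurentSeries (IsLocalRing.ResidueField A)) :=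
  (HahnSeries.C : IsLocalRing.ResidueField A →+* LaurentSeries (IsLocalRing.ResidueField A)).range

/-- **Crossing point, generic core.** -/
theorem s36_xi_core [IsDiscreteValuationRing A] (hℓ : ((ℓ : K))⁻¹ ∉ A)
    (hirr : Irreducible ((ℓ : ℕ) : A))
    (t : modularFunctionFieldFull N)
    (hCW : ∀ x ∈ s18_czRing N ℓ t, x ∈ Wring ℓ)
    (W : FF ≃+* FF) (hWW : ∀ x, W (W x) = x)
    (hWα : ∀ x : F', W (heckeAlphaBar K N ℓ x) = heckeBetaBar K N ℓ x)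
    (B : Subring FF) (hAB : ∀ a : A, algebraMap A FF a ∈ B) (hWB : ∀ b ∈ B, W b ∈ B)
    (hαB : ∀ x ∈ (s18_chAlg N ℓ A t).toSubring, (heckeAlphaBar K N ℓ).toRingHom x ∈ B)
    (hB₁ : B ≤ s34_gi_V A (N * ℓ)) (hB₂ : B ≤ (s34_gi_V A (N * ℓ)).comap (W : FF →+* FF))
    (hcap : ∀ x ∈ B, (algebraMap K FF (ℓ : K))⁻¹ * x ∈ s34_gi_V A (N * ℓ) →
      (algebraMap K FF (ℓ : K))⁻¹ * x ∈ (s34_gi_V A (N * ℓ)).comap (W : FF →+* FF) →
      (algebraMap K FF (ℓ : K))⁻¹ * x ∈ B)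
    (hresInf : ∀ x ∈ B, ∃ x' ∈ (s18_chAlg N ℓ A t).toSubring,
      (algebraMap K FF (ℓ : K))⁻¹ * (x - (heckeAlphaBar K N ℓ).toRingHom x') ∈
        s34_gi_V A (N * ℓ))
    (𝔪 : Ideal B) [h𝔪 : 𝔪.IsPrime]
    (hP₁ : ∀ p : B, (algebraMap K FF (ℓ : K))⁻¹ * (p : FF) ∈ s34_gi_V A (N * ℓ) → p ∈ 𝔪)
    (hfrob : ∀ f : B, ∃ g : B, f - g ^ ℓ ∈ 𝔪)
    (y : modularFunctionFieldFull N) (hy : y ∈ chartAlg N ℓ {t})
    (hx𝔪 : ∀ h : (heckeAlphaBar K N ℓ).toRingHom (s18_coord K y) ∈ B,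
      (⟨(heckeAlphaBar K N ℓ).toRingHom (s18_coord K y), h⟩ : B) ∈ 𝔪)
    (hreg : ∀ y₁ (hy₁ : y₁ ∈ (s18_chAlg N ℓ A t).toSubring),
      (⟨(heckeAlphaBar K N ℓ).toRingHom y₁, hαB y₁ hy₁⟩ : B) ∈ 𝔪 →
      ∃ d₁ a₁ r₁ : F', ∃ hd₁ : d₁ ∈ (s18_chAlg N ℓ A t).toSubring,
        a₁ ∈ (s18_chAlg N ℓ A t).toSubring ∧ r₁ ∈ (s18_chAlg N ℓ A t).toSubring ∧
        (⟨(heckeAlphaBar K N ℓ).toRingHom d₁, hαB d₁ hd₁⟩ : B) ∉ 𝔪 ∧
        d₁ * y₁ = a₁ * algebraMap K F' (ℓ : K) + r₁ * s18_coord K y)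
    {n : ℕ} (b : Fin n → B)
    (hgen : ∀ a : B, s36_xi_r A B hB₁ a ∈ Subring.closure
      ((s36_xi_k0 A : Set (LaurentSeries (IsLocalRing.ResidueField A))) ∪
        Set.range (fun i => s36_xi_r A B hB₁ (b i))))
    (hθne : ∃ a : B, s36_qt_theta (IsLocalRing.ResidueField A) (s36_xi_r A B hB₁ a) ≠ 0)
    (hpole : ∀ x : B, x ∈ 𝔪 →
      (∀ f ∈ s36_th_O (s36_xi_r A B hB₁) 𝔪, ∃ g ∈ s36_th_O (s36_xi_r A B hB₁) 𝔪,
        s36_qt_theta (IsLocalRing.ResidueField A) f =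
          g * s36_qt_theta (IsLocalRing.ResidueField A) (s36_xi_r A B hB₁ x)) →
      s36_qt_theta (IsLocalRing.ResidueField A) (s36_xi_r A B hB₁ x) ^ (ℓ - 1) ∉
        s36_th_O (s36_xi_r A B hB₁) 𝔪) :
    ∃ u v γ x : B, (u : FF) * (v : FF) = algebraMap K FF (ℓ : K) * (γ : FF) ∧
      (algebraMap K FF (ℓ : K))⁻¹ * (u : FF) ∈ s34_gi_V A (N * ℓ) ∧
      (algebraMap K FF (ℓ : K))⁻¹ * (v : FF) ∈ (s34_gi_V A (N * ℓ)).comap (W : FF →+* FF) ∧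
      γ ∉ 𝔪 ∧ x ∈ 𝔪 ∧ (x : FF) = (heckeAlphaBar K N ℓ).toRingHom (s18_coord K y) ∧
      (u : FF) = W (x : FF) - (x : FF) ^ ℓ ∧ (v : FF) = (x : FF) - W (x : FF) ^ ℓ ∧
      ∀ z ∈ 𝔪, ∃ w, w ∉ 𝔪 ∧ w * z ∈ Ideal.span {u, x} := by
  classical
  have hℓp : ℓ.Prime := Fact.out
  have hchar : CharP (IsLocalRing.ResidueField A) ℓ := s18_charP_res ℓ A hℓ
  have hcharE : CharP (LaurentSeries (IsLocalRing.ResidueField A)) ℓ :=
    charP_of_injective_ringHom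
      (HahnSeries.C_injective (Γ := ℤ) (R := IsLocalRing.ResidueField A)) ℓ
  have hcast : (((ℓ : ℕ) : A) : K) = (ℓ : K) := by push_cast; rfl
  have hqL : (ℓ : K) ≠ 0 := by
    intro h
    apply hℓ
    rw [h, inv_zero]
    exact A.zero_mem
  have hϖ0 : algebraMap K FF (ℓ : K) ≠ 0 := by
    rw [Ne, map_eq_zero]
    exact hqL
  have hWϖ : W (algebraMap K FF (ℓ : K)) = algebraMap K FF (ℓ : K) := s34_ni_W_const W hWα _
  set θ := s36_qt_theta (IsLocalRing.ResidueField A) with hθdef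
  have hθ : ∀ f g, θ (f * g) = θ f * g + f * θ g := s36_qt_theta_mul
  set r := s36_xi_r A B hB₁ with hrdef
  -- the coordinate
  have hx₁B₁ : s18_coord K y ∈ (s18_chAlg N ℓ A t).toSubring := (s36_lc_emb ℓ A t ⟨y, hy⟩).2
  set x : FF := (heckeAlphaBar K N ℓ).toRingHom (s18_coord K y) with hxdef
  have hxB : x ∈ B := hαB _ hx₁B₁
  have hxcoe : (x : LaurentSeries K) = coeffMap (algebraMap ℚ K) (y : LaurentSeries ℚ) := by
    rw [hxdef]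
    show ((heckeAlphaBar K N ℓ (s18_coord K y) : FF) : LaurentSeries K) = _
    rw [coe_heckeAlphaBar]
    rfl
  have hxC : x ∈ s34_fc_C K N (N * ℓ) ℓ t := ⟨(y : LaurentSeries ℚ), s18_coe_mem_czRing hy, hxcoe⟩
  have hg : ((W x : FF) : LaurentSeries K) = qExpand K ℓ (x : LaurentSeries K) :=
    s34_ni_hWq t W hWα x hxC
  have hgB : W x ∈ B := hWB x hxB
  obtain ⟨X, G, Aa, hX, hG, hAa, hredG, hvx, hid⟩ := s36_tm_main ℓ A (N * ℓ) hℓ hirr x (W x)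
    (y : LaurentSeries ℚ) (hCW _ (s18_coe_mem_czRing hy)) hxcoe hg
  -- the elements
  set xB : B := ⟨x, hxB⟩ with hxBdef
  set gB : B := ⟨W x, hgB⟩ with hgBdef
  set u : B := gB - xB ^ ℓ with hudef
  set v : B := xB - gB ^ ℓ with hvdef
  have hucoe : (u : FF) = W x - x ^ ℓ := rfl
  have hvcoe : (v : FF) = x - W x ^ ℓ := rfl
  have hWu : W (u : FF) = (v : FF) := by
    rw [hucoe, hvcoe, map_sub, map_pow, hWW]
  have hWv : W (v : FF) = (u : FF) := by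
    rw [hucoe, hvcoe, map_sub, map_pow, hWW]
  -- `ℓ⁻¹ u = -Aa`
  have hu₁ : (algebraMap K FF (ℓ : K))⁻¹ * (u : FF) = -(Aa : FF) := by
    rw [hucoe]
    have : W x - x ^ ℓ = -(algebraMap K FF (ℓ : K) * (Aa : FF)) := by rw [hAa]; ring
    rw [this]
    field_simp
  have hu₁V : (algebraMap K FF (ℓ : K))⁻¹ * (u : FF) ∈ s34_gi_V A (N * ℓ) := by
    rw [hu₁]
    exact (s34_gi_V A (N * ℓ)).neg_mem Aa.2
  have hv₂V : (algebraMap K FF (ℓ : K))⁻¹ * (v : FF) ∈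
      (s34_gi_V A (N * ℓ)).comap (W : FF →+* FF) := by
    show W ((algebraMap K FF (ℓ : K))⁻¹ * (v : FF)) ∈ s34_gi_V A (N * ℓ)
    rw [map_mul, map_inv₀, hWϖ, hWv]
    exact hu₁V
  -- `γ`
  have hγe : (algebraMap K FF (ℓ : K))⁻¹ * ((u : FF) * (v : FF)) =
      ((-(Aa * (X - G ^ ℓ)) : s34_gi_V A (N * ℓ)) : FF) := by
    have e0 : ((-(Aa * (X - G ^ ℓ)) : s34_gi_V A (N * ℓ)) : FF) =
        -((Aa : FF) * ((X : FF) - (G : FF) ^ ℓ)) := rfl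
    have e1 : ((-(Aa * (X - G ^ ℓ)) : s34_gi_V A (N * ℓ)) : FF) = -((Aa : FF) * (x - W x ^ ℓ)) := by
      rw [e0, hX, hG]
    rw [e1, ← mul_assoc, hu₁, hvcoe]
    ring
  have hγ₁ : (algebraMap K FF (ℓ : K))⁻¹ * ((u : FF) * (v : FF)) ∈ s34_gi_V A (N * ℓ) := by
    rw [hγe]
    exact Subtype.property _
  have hγ₂ : (algebraMap K FF (ℓ : K))⁻¹ * ((u : FF) * (v : FF)) ∈
      (s34_gi_V A (N * ℓ)).comap (W : FF →+* FF) := by
    show W ((algebraMap K FF (ℓ : K))⁻¹ * ((u : FF) * (v : FF))) ∈ s34_gi_V A (N * ℓ)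
    rw [map_mul, map_inv₀, hWϖ, map_mul, hWu, hWv, mul_comm (v : FF)]
    exact hγ₁
  have hγB : (algebraMap K FF (ℓ : K))⁻¹ * ((u : FF) * (v : FF)) ∈ B :=
    hcap _ (B.mul_mem u.2 v.2) hγ₁ hγ₂
  set γ : B := ⟨_, hγB⟩ with hγdef
  have huv : (u : FF) * (v : FF) = algebraMap K FF (ℓ : K) * (γ : FF) := by
    show (u : FF) * (v : FF) =
      algebraMap K FF (ℓ : K) * ((algebraMap K FF (ℓ : K))⁻¹ * ((u : FF) * (v : FF)))
    rw [← mul_assoc, mul_inv_cancel₀ hϖ0, one_mul]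
  -- reductions
  have hrx : r xB = s34_gi_red A (N * ℓ) X := by
    have e : Subring.inclusion hB₁ xB = X := Subtype.ext hX.symm
    show s34_gi_red A (N * ℓ) (Subring.inclusion hB₁ xB) = _
    rw [e]
  have hrv : r v = s34_gi_red A (N * ℓ) (X - G ^ ℓ) := by
    have e : Subring.inclusion hB₁ v = X - G ^ ℓ := by
      apply Subtype.ext
      show (v : FF) = (X : FF) - (G : FF) ^ ℓ
      rw [hX, hG]
      exact hvcoe
    show s34_gi_red A (N * ℓ) (Subring.inclusion hB₁ v) = _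
    rw [e]
  have hrγ : r γ = s34_gi_red A (N * ℓ) (-(Aa * (X - G ^ ℓ))) := by
    have e : Subring.inclusion hB₁ γ = -(Aa * (X - G ^ ℓ)) := Subtype.ext hγe
    show s34_gi_red A (N * ℓ) (Subring.inclusion hB₁ γ) = _
    rw [e]
  -- kernel of `r`
  have hker' : ∀ z : B, r z = 0 ↔
      (algebraMap K FF (ℓ : K))⁻¹ * (z : FF) ∈ s34_gi_V A (N * ℓ) := by
    intro z
    have h := s34_gi_red_eq_zero_iff (N := N * ℓ) hirr (Subring.inclusion hB₁ z)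
    rw [hcast] at h
    exact h
  have hker : ∀ z : B, r z = 0 → z ∈ 𝔪 := fun z hz => hP₁ z ((hker' z).mp hz)
  have hx𝔪' : xB ∈ 𝔪 := hx𝔪 hxB
  -- `hext`
  have hιϖ : (heckeAlphaBar K N ℓ).toRingHom (algebraMap K F' (ℓ : K)) = algebraMap K FF (ℓ : K) :=
    (heckeAlphaBar K N ℓ).commutes (ℓ : K)
  have hextP : ∀ z ∈ 𝔪, ∃ d c : B, d ∉ 𝔪 ∧
      (algebraMap K FF (ℓ : K))⁻¹ * ((d : FF) * (z : FF) - (c : FF) * (xB : FF)) ∈
        s34_gi_V A (N * ℓ) := by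
    have h := s36_pb_ext (heckeAlphaBar K N ℓ).toRingHom (s18_chAlg N ℓ A t).toSubring B
      (s34_gi_V A (N * ℓ)) (algebraMap K F' (ℓ : K)) hαB hB₁
      (by rw [hιϖ]; exact hresInf) 𝔪 (by rw [hιϖ]; exact hP₁) (s18_coord K y) hreg
    rw [hιϖ] at h
    exact h
  have hext : ∀ z ∈ 𝔪, ∃ d c : B, d ∉ 𝔪 ∧ r d * r z = r c * r xB := by
    intro z hz
    obtain ⟨d, c, hd, h⟩ := hextP z hz
    refine ⟨d, c, hd, ?_⟩
    have h0 : r (d * z - c * xB) = 0 := (hker' _).mpr (by simpa using h)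
    rw [map_sub, map_mul, map_mul, sub_eq_zero] at h0
    exact h0
  -- `hD`
  have hk₀ : ∀ c ∈ s36_xi_k0 A, θ c = 0 := by
    rintro c ⟨a, rfl⟩
    exact s36_qt_theta_C a
  have hk₀O : s36_xi_k0 A ≤ s36_th_O r 𝔪 := by
    rintro c ⟨a, rfl⟩
    obtain ⟨a', rfl⟩ := IsLocalRing.residue_surjective a
    have e : r ⟨algebraMap A FF a', hAB a'⟩ = HahnSeries.C (IsLocalRing.residue A a') :=
      s34_gi_red_algebraMap (N := N * ℓ) a'
    rw [← e]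
    exact s36_th_map_mem_O r 𝔪 _
  have hD : ∀ f ∈ s36_th_O r 𝔪, ∃ g ∈ s36_th_O r 𝔪, θ f = g * θ (r xB) :=
    s36_dnk_chart ℓ hℓp.pos r θ hθ 𝔪 hker xB hx𝔪' hext hfrob (s36_xi_k0 A) hk₀ hk₀O b hgen
  -- `θ x̄ ≠ 0`
  have hθx : θ (r xB) ≠ 0 := by
    obtain ⟨a, ha⟩ := hθne
    intro h0
    obtain ⟨g, -, e⟩ := hD (r a) (s36_th_map_mem_O r 𝔪 a)
    rw [h0, mul_zero] at e
    exact ha e
  have hvx' : r v = r xB - r xB ^ (ℓ ^ 2) := by rw [hrv, hrx]; exact hvx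
  have hv0 : r v ≠ 0 := by
    intro h0
    apply hθx
    have h1 : r xB = (r xB ^ ℓ) ^ ℓ := by
      rw [← pow_mul, ← pow_two]
      exact sub_eq_zero.mp (hvx'.symm.trans h0)
    rw [h1]
    exact s36_th_theta_pow_char ℓ θ hθ _
  have hid' : r v ^ 2 * θ (r xB) ^ ℓ =
      r v ^ 2 * r xB ^ (ℓ - 1) * θ (r xB) + r v * θ (r γ) - r γ * θ (r xB) := by
    rw [hrv, hrx, hrγ]
    exact hid
  have hγ𝔪 : γ ∉ 𝔪 := s36_thp_core ℓ hℓp.pos r θ hθ 𝔪 hker xB v γ hx𝔪' hext hθx hD hvx' hv0 hid'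
    (hpole xB hx𝔪' hD)
  have hv0' : v ≠ 0 := by
    rintro h
    apply hv0
    rw [h, map_zero]
  refine ⟨u, v, γ, xB, huv, hu₁V, hv₂V, hγ𝔪, hx𝔪', rfl, rfl, rfl, ?_⟩
  exact s36_pb_gen B (s34_gi_V A (N * ℓ)) ((s34_gi_V A (N * ℓ)).comap (W : FF →+* FF)) hB₁ hB₂
    (algebraMap K FF (ℓ : K)) hϖ0 hcap 𝔪 u v γ xB huv hγ𝔪 hv₂V hv0' hextP

end Generic

end Fermat.Agent.S36
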