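import Fermat.Agent.S36.CrossInst

/-!
# S36 (NODE-3), B2 route (a): the crossing-point instantiation (X1), generic model, part 2

Discharges hypotheses of `s36_xi_core` (`CrossInst.lean`) in the same generic model:

* `s36_xi2_max_of_fix`, `s36_xi2_fix` (abstract) and `s36_xi2_fix_model` : at a prime `𝔪 ⊇ P∞ + P0`
  of the `W`-stable chart `B`, every `b ∈ B` satisfies `b^(ℓ^(2m)) ≡ b mod 𝔪` (`#(A/ℓ) = ℓ^m`):
  rational `f` satisfy `W f ≡ f^ℓ mod P∞` and `f ≡ (W f)^ℓ mod P0`.  Hence `𝔪` is MAXIMAL and the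
  Frobenius of `B/𝔪` is onto (`hfrob`);
* `s36_xi2_reg` : the rational local coordinate `y` and `hreg` from the conclusion of
  `s36_lc_chart_reg` at the contraction of `𝔪` to the level-`N` chart;
* `s36_xi2_gen` : finite generation of `r(B)` from (RES) and the finiteness of the level-`N` chart
  over `A[t]` (`s18_SmHyp.finite`);
* `s36_xi2_main` : the combination — thickness one at every prime `𝔪 ⊇ P∞ + P0`, in the shape of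
  the hypothesis `hq` of `s36_clq_main`, with only the pole of `(θ x̄)^(ℓ-1)` left as a hypothesis.
-/

set_option autoImplicit false
set_option synthInstance.maxHeartbeats 400000
set_option maxHeartbeats 1000000
set_option linter.unusedSectionVars false
set_option linter.unusedVariables false

open ModularCurve ModularCurve.IgusaScheme

noncomputable section

namespace Fermat.Agent.S36

open Fermat.Agent.S18 Fermat.Agent.S28 Fermat.Agent.S34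

section Abstract

/-- `x^a = x` implies `x^(a^k) = x`. -/
theorem s36_xi2_pow_iter {M : Type*} [Monoid M] (x : M) (a : ℕ) (h : x ^ a = x) (k : ℕ) :
    x ^ (a ^ k) = x := by
  induction k with
  | zero => rw [pow_zero, pow_one]
  | succ k ih => rw [pow_succ, pow_mul, ih, h]

/-- A prime ideal modulo which every element is fixed by a power `ℓ^e` (`e ≥ 1`) of the
Frobenius is maximal, and the Frobenius is onto modulo it. -/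
theorem s36_xi2_max_of_fix {B : Type*} [CommRing B] (ℓ : ℕ) (hℓ : ℓ.Prime) (𝔪 : Ideal B)
    [h𝔪 : 𝔪.IsPrime] (e : ℕ) (he : 0 < e) (hfix : ∀ b : B, b ^ (ℓ ^ e) - b ∈ 𝔪) :
    𝔪.IsMaximal ∧ ∀ f : B, ∃ g : B, f - g ^ ℓ ∈ 𝔪 := by
  constructor
  · have hn : 2 ≤ ℓ ^ e := by
      calc 2 ≤ ℓ := hℓ.two_le
        _ = ℓ ^ 1 := (pow_one ℓ).symm
        _ ≤ ℓ ^ e := Nat.pow_le_pow_right hℓ.pos he
    refine Ideal.Quotient.maximal_of_isField 𝔪 ⟨exists_pair_ne _, mul_comm, ?_⟩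
    intro a ha
    obtain ⟨b, rfl⟩ := Ideal.Quotient.mk_surjective a
    have h1 : (Ideal.Quotient.mk 𝔪 b) ^ (ℓ ^ e) = Ideal.Quotient.mk 𝔪 b := by
      rw [← map_pow]
      exact Ideal.Quotient.eq.mpr (hfix b)
    have h2 : ℓ ^ e = (ℓ ^ e - 2) + 1 + 1 := by omega
    refine ⟨(Ideal.Quotient.mk 𝔪 b) ^ (ℓ ^ e - 2), ?_⟩
    have h3 : Ideal.Quotient.mk 𝔪 b *
        (Ideal.Quotient.mk 𝔪 b * (Ideal.Quotient.mk 𝔪 b) ^ (ℓ ^ e - 2) - 1) = 0 := by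
      have : Ideal.Quotient.mk 𝔪 b *
          (Ideal.Quotient.mk 𝔪 b * (Ideal.Quotient.mk 𝔪 b) ^ (ℓ ^ e - 2) - 1) =
          (Ideal.Quotient.mk 𝔪 b) ^ ((ℓ ^ e - 2) + 1 + 1) - Ideal.Quotient.mk 𝔪 b := by ring
      rw [this, ← h2, h1, sub_self]
    rcases mul_eq_zero.mp h3 with h4 | h4
    · exact absurd h4 ha
    · exact sub_eq_zero.mp h4
  · intro f
    refine ⟨f ^ (ℓ ^ (e - 1)), ?_⟩
    have h2 : (f ^ (ℓ ^ (e - 1))) ^ ℓ = f ^ (ℓ ^ e) := by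
      rw [← pow_mul, ← pow_succ]
      congr 2
      omega
    rw [h2]
    have := 𝔪.neg_mem (hfix f)
    rwa [neg_sub] at this

/-- Every element of `B` is fixed modulo the prime `𝔪 ∋ ℓ` by the `e`-th power of the Frobenius,
if this holds for a set `S` of additive generators of `B` modulo `𝔪`. -/
theorem s36_xi2_fix {F : Type*} [CommRing F] (B : Subring F) (ℓ : ℕ) [hℓ : Fact ℓ.Prime]
    (𝔪 : Ideal B) [h𝔪 : 𝔪.IsPrime] (hℓ𝔪 : ((ℓ : ℕ) : B) ∈ 𝔪) (e : ℕ) (S : Set F)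
    (hS : ∀ z ∈ S, ∃ hz : z ∈ B, (⟨z, hz⟩ : B) ^ (ℓ ^ e) - ⟨z, hz⟩ ∈ 𝔪)
    (hspan : ∀ b : B, ∃ z ∈ AddSubgroup.closure S, ∃ hz : z ∈ B, b - ⟨z, hz⟩ ∈ 𝔪) :
    ∀ b : B, b ^ (ℓ ^ e) - b ∈ 𝔪 := by
  have hchar : CharP (B ⧸ 𝔪) ℓ := by
    rw [CharP.charP_iff_prime_eq_zero hℓ.out]
    have : ((ℓ : ℕ) : B ⧸ 𝔪) = Ideal.Quotient.mk 𝔪 ((ℓ : ℕ) : B) := by rw [map_natCast]
    rw [this]
    exact Ideal.Quotient.eq_zero_iff_mem.mpr hℓ𝔪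
  let φ : (B ⧸ 𝔪) →+* (B ⧸ 𝔪) := iterateFrobenius (B ⧸ 𝔪) ℓ e
  have hφ : ∀ x, φ x = x ^ (ℓ ^ e) := fun x => iterateFrobenius_def ℓ e x
  let T : AddSubgroup F :=
    { carrier := {z | ∃ hz : z ∈ B, φ (Ideal.Quotient.mk 𝔪 ⟨z, hz⟩) = Ideal.Quotient.mk 𝔪 ⟨z, hz⟩}
      add_mem' := by
        rintro a b ⟨ha, ea⟩ ⟨hb, eb⟩
        refine ⟨B.add_mem ha hb, ?_⟩
        have : (⟨a + b, B.add_mem ha hb⟩ : B) = ⟨a, ha⟩ + ⟨b, hb⟩ := rfl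
        rw [this, map_add, map_add, ea, eb]
      zero_mem' := ⟨B.zero_mem, by
        have : (⟨0, B.zero_mem⟩ : B) = 0 := rfl
        rw [this, map_zero, map_zero]⟩
      neg_mem' := by
        rintro a ⟨ha, ea⟩
        refine ⟨B.neg_mem ha, ?_⟩
        have : (⟨-a, B.neg_mem ha⟩ : B) = -⟨a, ha⟩ := rfl
        rw [this, map_neg, map_neg, ea] }
  have hST : AddSubgroup.closure S ≤ T := by
    rw [AddSubgroup.closure_le]
    intro z hz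
    obtain ⟨hzB, h⟩ := hS z hz
    refine ⟨hzB, ?_⟩
    rw [hφ, ← map_pow]
    exact Ideal.Quotient.eq.mpr h
  intro b
  obtain ⟨z, hz, hzB, hbz⟩ := hspan b
  obtain ⟨hzB', h⟩ := hST hz
  have e1 : Ideal.Quotient.mk 𝔪 b = Ideal.Quotient.mk 𝔪 ⟨z, hzB⟩ := Ideal.Quotient.eq.mpr hbz
  apply Ideal.Quotient.eq.mp
  rw [map_pow, ← hφ, e1]
  exact h

end Abstract

section Generic

variable {N : ℕ} [NeZero N] {ℓ : ℕ} [NeZero ℓ] [Fact ℓ.Prime]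
variable {K : Type*} [Field K] [Algebra ℚ K] (A : ValuationSubring K)

local notation "F'" => laurentBaseChange K (modularFunctionFieldFull N)
local notation "FF" => laurentBaseChange K (modularFunctionFieldFull (N * ℓ))

/-- **Supersingular points are defined over `𝔽_(ℓ²)`.**  At a prime `𝔪 ⊇ P∞ + P0` of the
`W`-stable chart `B`, every `b ∈ B` satisfies `b^(ℓ^(2m)) ≡ b mod 𝔪`, where `#(A/ℓ) = ℓ^m`. -/
theorem s36_xi2_fix_model [IsDiscreteValuationRing A] (hℓ : ((ℓ : K))⁻¹ ∉ A)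
    (hirr : Irreducible ((ℓ : ℕ) : A))
    (m : ℕ) (hAfin : ∀ a : A, ∃ c : A, a ^ (ℓ ^ m) - a = ((ℓ : ℕ) : A) * c)
    (t : modularFunctionFieldFull N)
    (hCW : ∀ x ∈ s18_czRing N ℓ t, x ∈ Wring ℓ)
    (W : FF ≃+* FF) (hWW : ∀ x, W (W x) = x)
    (hWα : ∀ x : F', W (heckeAlphaBar K N ℓ x) = heckeBetaBar K N ℓ x)
    (B : Subring FF) (hAB : ∀ a : A, algebraMap A FF a ∈ B) (hWB : ∀ b ∈ B, W b ∈ B)
    (hαB : ∀ x ∈ (s18_chAlg N ℓ A t).toSubring, (heckeAlphaBar K N ℓ).toRingHom x ∈ B)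
    (hresInf : ∀ x ∈ B, ∃ x' ∈ (s18_chAlg N ℓ A t).toSubring,
      (algebraMap K FF (ℓ : K))⁻¹ * (x - (heckeAlphaBar K N ℓ).toRingHom x') ∈
        s34_gi_V A (N * ℓ))
    (𝔪 : Ideal B) [h𝔪 : 𝔪.IsPrime]
    (hP₁ : ∀ p : B, (algebraMap K FF (ℓ : K))⁻¹ * (p : FF) ∈ s34_gi_V A (N * ℓ) → p ∈ 𝔪)
    (hP₂ : ∀ p : B, (algebraMap K FF (ℓ : K))⁻¹ * (p : FF) ∈
      (s34_gi_V A (N * ℓ)).comap (W : FF →+* FF) → p ∈ 𝔪) :
    ∀ b : B, b ^ (ℓ ^ (2 * m)) - b ∈ 𝔪 := by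
  have hcast : (((ℓ : ℕ) : A) : K) = (ℓ : K) := by push_cast; rfl
  have hqL : (ℓ : K) ≠ 0 := by
    intro h
    apply hℓ
    rw [h, inv_zero]
    exact A.zero_mem
  have hϖ0 : algebraMap K FF (ℓ : K) ≠ 0 := by
    rw [Ne, map_eq_zero]
    exact hqL
  have hℓcoe : (((ℓ : ℕ) : B) : FF) = algebraMap K FF (ℓ : K) := by
    rw [map_natCast]
    rfl
  have hℓ𝔪 : ((ℓ : ℕ) : B) ∈ 𝔪 := by
    apply hP₁
    rw [hℓcoe, inv_mul_cancel₀ hϖ0]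
    exact (s34_gi_V A (N * ℓ)).one_mem
  have hWϖ' : W (algebraMap K FF (((ℓ : ℕ) : A) : K)) = algebraMap K FF (((ℓ : ℕ) : A) : K) :=
    s34_ni_W_const W hWα _
  have hfr := s34_fc_hfrob (N' := N) (N := N * ℓ) A hℓ hirr t hCW W hWW hWϖ'
    (s34_ni_hWq t W hWα) ((s34_gi_V A (N * ℓ)).comap (W : FF →+* FF)) (fun _ h => h) B hWB 𝔪 𝔪
    (fun b h => hP₁ b (by rw [← hcast]; exact h)) (fun b h => hP₂ b (by rw [← hcast]; exact h))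
  refine s36_xi2_fix B ℓ 𝔪 hℓ𝔪 (2 * m)
    {z : FF | ∃ (a : A) (f : FF), f ∈ s34_fc_C K N (N * ℓ) ℓ t ∧ z = algebraMap A FF a * f} ?_ ?_
  · rintro z ⟨a, f, hf, rfl⟩
    have hfB : f ∈ B := s34_ni_C_mem A t B hαB f hf
    refine ⟨B.mul_mem (hAB a) hfB, ?_⟩
    apply Ideal.Quotient.eq.mp
    have e0 : (⟨algebraMap A FF a * f, B.mul_mem (hAB a) hfB⟩ : B) =
        ⟨algebraMap A FF a, hAB a⟩ * ⟨f, hfB⟩ := rfl
    rw [e0, map_pow, map_mul, mul_pow]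
    have ha : (Ideal.Quotient.mk 𝔪 ⟨algebraMap A FF a, hAB a⟩) ^ (ℓ ^ (2 * m)) =
        Ideal.Quotient.mk 𝔪 ⟨algebraMap A FF a, hAB a⟩ := by
      have h1 : (Ideal.Quotient.mk 𝔪 ⟨algebraMap A FF a, hAB a⟩) ^ (ℓ ^ m) =
          Ideal.Quotient.mk 𝔪 ⟨algebraMap A FF a, hAB a⟩ := by
        rw [← map_pow]
        apply Ideal.Quotient.eq.mpr
        obtain ⟨c, hc⟩ := hAfin a
        have e : (⟨algebraMap A FF a, hAB a⟩ : B) ^ (ℓ ^ m) - ⟨algebraMap A FF a, hAB a⟩ =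
            ((ℓ : ℕ) : B) * ⟨algebraMap A FF c, hAB c⟩ := by
          apply Subtype.ext
          show (algebraMap A FF a) ^ (ℓ ^ m) - algebraMap A FF a =
            (((ℓ : ℕ) : B) : FF) * algebraMap A FF c
          rw [← map_pow, ← map_sub, hc, map_mul, hℓcoe]
          rfl
        rw [e]
        exact 𝔪.mul_mem_right _ hℓ𝔪
      have h2 := s36_xi2_pow_iter _ (ℓ ^ m) h1 2
      rwa [← pow_mul, mul_comm m 2] at h2
    have hf' : (Ideal.Quotient.mk 𝔪 ⟨f, hfB⟩) ^ (ℓ ^ (2 * m)) = Ideal.Quotient.mk 𝔪 ⟨f, hfB⟩ := by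
      obtain ⟨g, hg1, hg2⟩ := hfr ⟨f, hfB⟩ hf
      have h1 : Ideal.Quotient.mk 𝔪 g = (Ideal.Quotient.mk 𝔪 ⟨f, hfB⟩) ^ ℓ := by
        rw [← map_pow]
        exact Ideal.Quotient.eq.mpr hg1
      have h2 : (Ideal.Quotient.mk 𝔪 g) ^ ℓ = Ideal.Quotient.mk 𝔪 ⟨f, hfB⟩ := by
        rw [← map_pow]
        exact Ideal.Quotient.eq.mpr hg2
      have h3 : (Ideal.Quotient.mk 𝔪 ⟨f, hfB⟩) ^ (ℓ ^ 2) = Ideal.Quotient.mk 𝔪 ⟨f, hfB⟩ := by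
        rw [pow_two, pow_mul, ← h1, h2]
      have h4 := s36_xi2_pow_iter _ (ℓ ^ 2) h3 m
      rwa [← pow_mul] at h4
    rw [ha, hf']
  · intro b
    obtain ⟨x', hx', h⟩ := hresInf (b : FF) b.2
    exact ⟨(heckeAlphaBar K N ℓ).toRingHom x', s34_fc_span A (dvd_mul_right N ℓ) t _ hx',
      hαB x' hx', hP₁ _ h⟩

/-- The inclusion of the level-`N` chart into the chart `B`. -/
def s36_xi2_phi (t : modularFunctionFieldFull N) (B : Subring FF)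
    (hαB : ∀ x ∈ (s18_chAlg N ℓ A t).toSubring, (heckeAlphaBar K N ℓ).toRingHom x ∈ B) :
    (s18_chAlg N ℓ A t).toSubring →+* B :=
  ((heckeAlphaBar K N ℓ).toRingHom.comp (s18_chAlg N ℓ A t).toSubring.subtype).codRestrict B
    (fun x => hαB x x.2)

/-- **The rational local coordinate at a closed point.**  `𝔪 ⊇ P∞` a maximal ideal of `B`; the
contraction of `𝔪` to the level-`N` chart is maximal (by (RES)), and the conclusion `hlc` of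
`s36_lc_chart_reg` there gives `y` with the hypotheses `hx𝔪`, `hreg` of `s36_xi_core`. -/
theorem s36_xi2_reg (hℓ : ((ℓ : K))⁻¹ ∉ A)
    (t : modularFunctionFieldFull N)
    (B : Subring FF)
    (hαB : ∀ x ∈ (s18_chAlg N ℓ A t).toSubring, (heckeAlphaBar K N ℓ).toRingHom x ∈ B)
    (hresInf : ∀ x ∈ B, ∃ x' ∈ (s18_chAlg N ℓ A t).toSubring,
      (algebraMap K FF (ℓ : K))⁻¹ * (x - (heckeAlphaBar K N ℓ).toRingHom x') ∈
        s34_gi_V A (N * ℓ))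
    (𝔪 : Ideal B) (h𝔪 : 𝔪.IsMaximal)
    (hP₁ : ∀ p : B, (algebraMap K FF (ℓ : K))⁻¹ * (p : FF) ∈ s34_gi_V A (N * ℓ) → p ∈ 𝔪)
    (hlc : ∀ 𝔪₁ : Ideal (s18_chAlg N ℓ A t).toSubring, 𝔪₁.IsMaximal →
      (⟨algebraMap A F' ((ℓ : ℕ) : A), (s18_chAlg N ℓ A t).algebraMap_mem _⟩ :
        (s18_chAlg N ℓ A t).toSubring) ∈ 𝔪₁ →
      ∃ y : modularFunctionFieldFull N, y ∈ chartAlg N ℓ {t} ∧
        ∃ hs : s18_coord K y ∈ (s18_chAlg N ℓ A t).toSubring,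
          (⟨s18_coord K y, hs⟩ : (s18_chAlg N ℓ A t).toSubring) ∈ 𝔪₁ ∧
          ∀ x ∈ 𝔪₁, ∃ u, u ∉ 𝔪₁ ∧ u * x ∈ Ideal.span
            {(⟨algebraMap A F' ((ℓ : ℕ) : A), (s18_chAlg N ℓ A t).algebraMap_mem _⟩ :
              (s18_chAlg N ℓ A t).toSubring), ⟨s18_coord K y, hs⟩}) :
    ∃ y : modularFunctionFieldFull N, y ∈ chartAlg N ℓ {t} ∧
      (∀ h : (heckeAlphaBar K N ℓ).toRingHom (s18_coord K y) ∈ B,
        (⟨(heckeAlphaBar K N ℓ).toRingHom (s18_coord K y), h⟩ : B) ∈ 𝔪) ∧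
      ∀ y₁ (hy₁ : y₁ ∈ (s18_chAlg N ℓ A t).toSubring),
        (⟨(heckeAlphaBar K N ℓ).toRingHom y₁, hαB y₁ hy₁⟩ : B) ∈ 𝔪 →
        ∃ d₁ a₁ r₁ : F', ∃ hd₁ : d₁ ∈ (s18_chAlg N ℓ A t).toSubring,
          a₁ ∈ (s18_chAlg N ℓ A t).toSubring ∧ r₁ ∈ (s18_chAlg N ℓ A t).toSubring ∧
          (⟨(heckeAlphaBar K N ℓ).toRingHom d₁, hαB d₁ hd₁⟩ : B) ∉ 𝔪 ∧
          d₁ * y₁ = a₁ * algebraMap K F' (ℓ : K) + r₁ * s18_coord K y := by
  classical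
  have hcast : (((ℓ : ℕ) : A) : K) = (ℓ : K) := by push_cast; rfl
  have hqL : (ℓ : K) ≠ 0 := by
    intro h
    apply hℓ
    rw [h, inv_zero]
    exact A.zero_mem
  have hϖ0 : algebraMap K FF (ℓ : K) ≠ 0 := by
    rw [Ne, map_eq_zero]
    exact hqL
  let _ : Field (B ⧸ 𝔪) := Ideal.Quotient.field 𝔪
  set φ := s36_xi2_phi A t B hαB with hφdef
  have hφcoe : ∀ x : (s18_chAlg N ℓ A t).toSubring,
      ((φ x : B) : FF) = (heckeAlphaBar K N ℓ).toRingHom (x : F') := fun x => rfl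
  let f : (s18_chAlg N ℓ A t).toSubring →+* (B ⧸ 𝔪) := (Ideal.Quotient.mk 𝔪).comp φ
  have hf0 : ∀ x, f x = 0 ↔ φ x ∈ 𝔪 := fun x => Ideal.Quotient.eq_zero_iff_mem
  have hsurj : Function.Surjective f := by
    intro d
    obtain ⟨b, rfl⟩ := Ideal.Quotient.mk_surjective d
    obtain ⟨x', hx', h⟩ := hresInf (b : FF) b.2
    refine ⟨⟨x', hx'⟩, ?_⟩
    show Ideal.Quotient.mk 𝔪 (φ ⟨x', hx'⟩) = Ideal.Quotient.mk 𝔪 b
    apply Ideal.Quotient.eq.mpr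
    have h2 : b - φ ⟨x', hx'⟩ ∈ 𝔪 := hP₁ _ h
    have h3 := 𝔪.neg_mem h2
    rwa [neg_sub] at h3
  have hmax : (RingHom.ker f).IsMaximal := RingHom.ker_isMaximal_of_surjective f hsurj
  have hπ : (⟨algebraMap A F' ((ℓ : ℕ) : A), (s18_chAlg N ℓ A t).algebraMap_mem _⟩ :
      (s18_chAlg N ℓ A t).toSubring) ∈ RingHom.ker f := by
    rw [RingHom.mem_ker, hf0]
    apply hP₁
    have e : ((φ ⟨algebraMap A F' ((ℓ : ℕ) : A), (s18_chAlg N ℓ A t).algebraMap_mem _⟩ : B) : FF) =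
        algebraMap K FF (ℓ : K) := by
      rw [hφcoe]
      show (heckeAlphaBar K N ℓ) (algebraMap K F' (((ℓ : ℕ) : A) : K)) = _
      rw [AlgHom.commutes, hcast]
    rw [e, inv_mul_cancel₀ hϖ0]
    exact (s34_gi_V A (N * ℓ)).one_mem
  obtain ⟨y, hy, hs, hy𝔪, hgen⟩ := hlc (RingHom.ker f) hmax hπ
  refine ⟨y, hy, ?_, ?_⟩
  · intro h
    have h1 : φ ⟨s18_coord K y, hs⟩ ∈ 𝔪 := (hf0 _).mp (RingHom.mem_ker.mp hy𝔪)
    exact h1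
  · intro y₁ hy₁ hy₁𝔪
    have h1 : (⟨y₁, hy₁⟩ : (s18_chAlg N ℓ A t).toSubring) ∈ RingHom.ker f := by
      rw [RingHom.mem_ker, hf0]
      exact hy₁𝔪
    obtain ⟨u, hu, hux⟩ := hgen _ h1
    obtain ⟨a, b, hab⟩ := Ideal.mem_span_pair.mp hux
    refine ⟨(u : F'), (a : F'), (b : F'), u.2, a.2, b.2, ?_, ?_⟩
    · intro h2
      apply hu
      rw [RingHom.mem_ker, hf0]
      exact h2
    · have h3 := congrArg (Subtype.val : (s18_chAlg N ℓ A t).toSubring → F') hab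
      have h4 : (a : F') * algebraMap K F' (ℓ : K) + (b : F') * s18_coord K y = (u : F') * y₁ := by
        rw [← hcast]
        exact h3
      exact h4.symm

/-- **Finite generation of the reduction of the chart.**  By (RES) the reduction `r(B)` is the
reduction of the level-`N` chart, which is finite over `A[t]` (`s18_SmHyp.finite`): `r(B)` is
generated as a ring by the constants and finitely many `r (b i)`. -/
theorem s36_xi2_gen [IsDiscreteValuationRing A] (hℓ : ((ℓ : K))⁻¹ ∉ A)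
    (hirr : Irreducible ((ℓ : ℕ) : A))
    (t : modularFunctionFieldFull N)
    (B : Subring FF) (hAB : ∀ a : A, algebraMap A FF a ∈ B)
    (hαB : ∀ x ∈ (s18_chAlg N ℓ A t).toSubring, (heckeAlphaBar K N ℓ).toRingHom x ∈ B)
    (hB₁ : B ≤ s34_gi_V A (N * ℓ))
    (hresInf : ∀ x ∈ B, ∃ x' ∈ (s18_chAlg N ℓ A t).toSubring,
      (algebraMap K FF (ℓ : K))⁻¹ * (x - (heckeAlphaBar K N ℓ).toRingHom x') ∈
        s34_gi_V A (N * ℓ))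
    (hfin : ∃ gen : Finset F', (∀ m ∈ gen, m ∈ s18_chAlg N ℓ A t) ∧
      ∀ x ∈ s18_chAlg N ℓ A t, ∃ c : F' → Polynomial A,
        x = ∑ m ∈ gen, Polynomial.aeval (s18_coord K t) (c m) * m) :
    ∃ (n : ℕ) (b : Fin n → B), ∀ a : B, s36_xi_r A B hB₁ a ∈ Subring.closure
      ((s36_xi_k0 A : Set (LaurentSeries (IsLocalRing.ResidueField A))) ∪
        Set.range (fun i => s36_xi_r A B hB₁ (b i))) := by
  classical
  obtain ⟨gen, hgenmem, hfin⟩ := hfin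
  have hcast : (((ℓ : ℕ) : A) : K) = (ℓ : K) := by push_cast; rfl
  set r := s36_xi_r A B hB₁ with hrdef
  set φ := s36_xi2_phi A t B hαB with hφdef
  have hTmem : s18_coord K t ∈ (s18_chAlg N ℓ A t).toSubring := s18_coord_mem t
  let S₀ : Finset B := insert (φ ⟨s18_coord K t, hTmem⟩)
    (gen.attach.image (fun m => φ ⟨m.1, hgenmem m.1 m.2⟩))
  let b : Fin S₀.card → B := fun i => ((S₀.equivFin.symm i : S₀) : B)
  refine ⟨S₀.card, b, ?_⟩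
  have hb : ∀ s ∈ S₀, r s ∈ Set.range (fun i => r (b i)) := by
    intro s hs
    refine ⟨S₀.equivFin ⟨s, hs⟩, ?_⟩
    show r ((S₀.equivFin.symm (S₀.equivFin ⟨s, hs⟩) : S₀) : B) = r s
    rw [Equiv.symm_apply_apply]
  set C := Subring.closure
    ((s36_xi_k0 A : Set (LaurentSeries (IsLocalRing.ResidueField A))) ∪
      Set.range (fun i => r (b i))) with hCdef
  have hkC : ∀ c : IsLocalRing.ResidueField A,
      (HahnSeries.C c : LaurentSeries (IsLocalRing.ResidueField A)) ∈ C :=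
    fun c => Subring.subset_closure (Or.inl ⟨c, rfl⟩)
  have hbC : ∀ s ∈ S₀, r s ∈ C := fun s hs => Subring.subset_closure (Or.inr (hb s hs))
  let ρ₁ : (s18_chAlg N ℓ A t).toSubring →+* LaurentSeries (IsLocalRing.ResidueField A) :=
    r.comp φ
  let S₁ : Subring F' := (C.comap ρ₁).map (s18_chAlg N ℓ A t).toSubring.subtype
  have hS₁ : ∀ x (hx : x ∈ (s18_chAlg N ℓ A t).toSubring), ρ₁ ⟨x, hx⟩ ∈ C → x ∈ S₁ :=
    fun x hx h => ⟨⟨x, hx⟩, h, rfl⟩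
  have hS₁' : ∀ x ∈ S₁, ∃ hx : x ∈ (s18_chAlg N ℓ A t).toSubring, ρ₁ ⟨x, hx⟩ ∈ C := by
    rintro x ⟨x', h, rfl⟩
    exact ⟨x'.2, h⟩
  -- constants
  have hconst : ∀ a : A, algebraMap A F' a ∈ S₁ := by
    intro a
    refine hS₁ _ ((s18_chAlg N ℓ A t).algebraMap_mem a) ?_
    have e1 : φ ⟨algebraMap A F' a, (s18_chAlg N ℓ A t).algebraMap_mem a⟩ =
        ⟨algebraMap A FF a, hAB a⟩ := by
      apply Subtype.ext
      show (heckeAlphaBar K N ℓ) (algebraMap K F' (a : K)) = algebraMap K FF (a : K)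
      rw [AlgHom.commutes]
    have e2 : r ⟨algebraMap A FF a, hAB a⟩ = HahnSeries.C (IsLocalRing.residue A a) :=
      s34_gi_red_algebraMap (N := N * ℓ) a
    show r (φ _) ∈ C
    rw [e1, e2]
    exact hkC _
  have hT : s18_coord K t ∈ S₁ :=
    hS₁ _ hTmem (hbC _ (Finset.mem_insert_self _ _))
  have hgen₁ : ∀ m ∈ gen, m ∈ S₁ := by
    intro m hm
    refine hS₁ _ (hgenmem m hm) (hbC _ (Finset.mem_insert_of_mem ?_))
    exact Finset.mem_image.mpr ⟨⟨m, hm⟩, Finset.mem_attach _ _, rfl⟩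
  have haeval : ∀ P : Polynomial A, Polynomial.aeval (s18_coord K t) P ∈ S₁ := by
    intro P
    rw [Polynomial.aeval_eq_sum_range]
    refine Subring.sum_mem _ (fun i _ => ?_)
    rw [Algebra.smul_def]
    exact S₁.mul_mem (hconst _) (S₁.pow_mem hT i)
  have hall : ∀ x ∈ (s18_chAlg N ℓ A t).toSubring, x ∈ S₁ := by
    intro x hx
    obtain ⟨c, rfl⟩ := hfin x hx
    exact Subring.sum_mem _ (fun m hm => S₁.mul_mem (haeval _) (hgen₁ m hm))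
  -- the kernel of `r`
  have hker' : ∀ z : B, (algebraMap K FF (ℓ : K))⁻¹ * (z : FF) ∈ s34_gi_V A (N * ℓ) → r z = 0 := by
    intro z hz
    have h := s34_gi_red_eq_zero_iff (N := N * ℓ) hirr (Subring.inclusion hB₁ z)
    rw [hcast] at h
    exact h.mpr hz
  intro a
  obtain ⟨x', hx', h⟩ := hresInf (a : FF) a.2
  obtain ⟨hx'', hmem⟩ := hS₁' x' (hall x' hx')
  have h0 : r (a - φ ⟨x', hx''⟩) = 0 := hker' _ h
  rw [map_sub, sub_eq_zero] at h0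
  rw [h0]
  exact hmem

/-- **Crossing point, generic core** (`s36_xi_core` with the pole hypothesis only required for
the coordinate `x = α y` itself, and allowed to use `hext`, `hD` and `θ x̄ ≠ 0`). -/
theorem s36_xi2_core [IsDiscreteValuationRing A] (hℓ : ((ℓ : K))⁻¹ ∉ A)
    (hirr : Irreducible ((ℓ : ℕ) : A))
    (t : modularFunctionFieldFull N)
    (hCW : ∀ x ∈ s18_czRing N ℓ t, x ∈ Wring ℓ)
    (W : FF ≃+* FF) (hWW : ∀ x, W (W x) = x)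
    (hWα : ∀ x : F', W (heckeAlphaBar K N ℓ x) = heckeBetaBar K N ℓ x)
    (B : Subring FF) (hAB : ∀ a : A, algebraMap A FF a ∈ B) (hWB : ∀ b ∈ B, W b ∈ B)
    (hαB : ∀ x ∈ (s18_chAlg N ℓ A t).toSubring, (heckeAlphaBar K N ℓ).toRingHom x ∈ B)
    (hB₁ : B ≤ s34_gi_V A (N * ℓ)) (hB₂ : B ≤ (s34_gi_V A (N * ℓ)).comap (W : FF →+* FF))
    (hcap : ∀ x ∈ B, (algebraMap K FF (ℓ : K))⁻¹ * x ∈ s34_gi_V A (N * ℓ) →
      (algebraMap K FF (ℓ : K))⁻¹ * x ∈ (s34_gi_V A (N * ℓ)).comap (W : FF →+* FF) →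
      (algebraMap K FF (ℓ : K))⁻¹ * x ∈ B)
    (hresInf : ∀ x ∈ B, ∃ x' ∈ (s18_chAlg N ℓ A t).toSubring,
      (algebraMap K FF (ℓ : K))⁻¹ * (x - (heckeAlphaBar K N ℓ).toRingHom x') ∈
        s34_gi_V A (N * ℓ))
    (𝔪 : Ideal B) [h𝔪 : 𝔪.IsPrime]
    (hP₁ : ∀ p : B, (algebraMap K FF (ℓ : K))⁻¹ * (p : FF) ∈ s34_gi_V A (N * ℓ) → p ∈ 𝔪)
    (hfrob : ∀ f : B, ∃ g : B, f - g ^ ℓ ∈ 𝔪)
    (y : modularFunctionFieldFull N) (hy : y ∈ chartAlg N ℓ {t})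
    (hx𝔪 : ∀ h : (heckeAlphaBar K N ℓ).toRingHom (s18_coord K y) ∈ B,
      (⟨(heckeAlphaBar K N ℓ).toRingHom (s18_coord K y), h⟩ : B) ∈ 𝔪)
    (hreg : ∀ y₁ (hy₁ : y₁ ∈ (s18_chAlg N ℓ A t).toSubring),
      (⟨(heckeAlphaBar K N ℓ).toRingHom y₁, hαB y₁ hy₁⟩ : B) ∈ 𝔪 →
      ∃ d₁ a₁ r₁ : F', ∃ hd₁ : d₁ ∈ (s18_chAlg N ℓ A t).toSubring,
        a₁ ∈ (s18_chAlg N ℓ A t).toSubring ∧ r₁ ∈ (s18_chAlg N ℓ A t).toSubring ∧
        (⟨(heckeAlphaBar K N ℓ).toRingHom d₁, hαB d₁ hd₁⟩ : B) ∉ 𝔪 ∧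
        d₁ * y₁ = a₁ * algebraMap K F' (ℓ : K) + r₁ * s18_coord K y)
    {n : ℕ} (b : Fin n → B)
    (hgen : ∀ a : B, s36_xi_r A B hB₁ a ∈ Subring.closure
      ((s36_xi_k0 A : Set (LaurentSeries (IsLocalRing.ResidueField A))) ∪
        Set.range (fun i => s36_xi_r A B hB₁ (b i))))
    (hθne : ∃ a : B, s36_qt_theta (IsLocalRing.ResidueField A) (s36_xi_r A B hB₁ a) ≠ 0)
    (hpole : ∀ x : B, (x : FF) = (heckeAlphaBar K N ℓ).toRingHom (s18_coord K y) → x ∈ 𝔪 →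
      (∀ z ∈ 𝔪, ∃ d c : B, d ∉ 𝔪 ∧
        s36_xi_r A B hB₁ d * s36_xi_r A B hB₁ z = s36_xi_r A B hB₁ c * s36_xi_r A B hB₁ x) →
      (∀ f ∈ s36_th_O (s36_xi_r A B hB₁) 𝔪, ∃ g ∈ s36_th_O (s36_xi_r A B hB₁) 𝔪,
        s36_qt_theta (IsLocalRing.ResidueField A) f =
          g * s36_qt_theta (IsLocalRing.ResidueField A) (s36_xi_r A B hB₁ x)) →
      s36_qt_theta (IsLocalRing.ResidueField A) (s36_xi_r A B hB₁ x) ≠ 0 →
      s36_qt_theta (IsLocalRing.ResidueField A) (s36_xi_r A B hB₁ x) ^ (ℓ - 1) ∉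
        s36_th_O (s36_xi_r A B hB₁) 𝔪) :
    ∃ u v γ x : B, (u : FF) * (v : FF) = algebraMap K FF (ℓ : K) * (γ : FF) ∧
      (algebraMap K FF (ℓ : K))⁻¹ * (u : FF) ∈ s34_gi_V A (N * ℓ) ∧
      (algebraMap K FF (ℓ : K))⁻¹ * (v : FF) ∈ (s34_gi_V A (N * ℓ)).comap (W : FF →+* FF) ∧
      γ ∉ 𝔪 ∧ x ∈ 𝔪 ∧ (x : FF) = (heckeAlphaBar K N ℓ).toRingHom (s18_coord K y) ∧
      (u : FF) = W (x : FF) - (x : FF) ^ ℓ ∧ (v : FF) = (x : FF) - W (x : FF) ^ ℓ ∧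
      ∀ z ∈ 𝔪, ∃ w, w ∉ 𝔪 ∧ w * z ∈ Ideal.span {u, x} := by
  classical
  have hℓp : ℓ.Prime := Fact.out
  have hchar : CharP (IsLocalRing.ResidueField A) ℓ := s18_charP_res ℓ A hℓ
  have hcharE : CharP (LaurentSeries (IsLocalRing.ResidueField A)) ℓ :=
    charP_of_injective_ringHom
      (HahnSeries.C_injective (Γ := ℤ) (R := IsLocalRing.ResidueField A)) ℓ
  have hcast : (((ℓ : ℕ) : A) : K) = (ℓ : K) := by push_cast; rfl
  have hqL : (ℓ : K) ≠ 0 := by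
    intro h
    apply hℓ
    rw [h, inv_zero]
    exact A.zero_mem
  have hϖ0 : algebraMap K FF (ℓ : K) ≠ 0 := by
    rw [Ne, map_eq_zero]
    exact hqL
  have hWϖ : W (algebraMap K FF (ℓ : K)) = algebraMap K FF (ℓ : K) := s34_ni_W_const W hWα _
  set θ := s36_qt_theta (IsLocalRing.ResidueField A) with hθdef
  have hθ : ∀ f g, θ (f * g) = θ f * g + f * θ g := s36_qt_theta_mul
  set r := s36_xi_r A B hB₁ with hrdef
  -- the coordinate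
  have hx₁B₁ : s18_coord K y ∈ (s18_chAlg N ℓ A t).toSubring := (s36_lc_emb ℓ A t ⟨y, hy⟩).2
  set x : FF := (heckeAlphaBar K N ℓ).toRingHom (s18_coord K y) with hxdef
  have hxB : x ∈ B := hαB _ hx₁B₁
  have hxcoe : (x : LaurentSeries K) = coeffMap (algebraMap ℚ K) (y : LaurentSeries ℚ) := by
    rw [hxdef]
    show ((heckeAlphaBar K N ℓ (s18_coord K y) : FF) : LaurentSeries K) = _
    rw [coe_heckeAlphaBar]
    rfl
  have hxC : x ∈ s34_fc_C K N (N * ℓ) ℓ t := ⟨(y : LaurentSeries ℚ), s18_coe_mem_czRing hy, hxcoe⟩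
  have hg : ((W x : FF) : LaurentSeries K) = qExpand K ℓ (x : LaurentSeries K) :=
    s34_ni_hWq t W hWα x hxC
  have hgB : W x ∈ B := hWB x hxB
  obtain ⟨X, G, Aa, hX, hG, hAa, hredG, hvx, hid⟩ := s36_tm_main ℓ A (N * ℓ) hℓ hirr x (W x)
    (y : LaurentSeries ℚ) (hCW _ (s18_coe_mem_czRing hy)) hxcoe hg
  -- the elements
  set xB : B := ⟨x, hxB⟩ with hxBdef
  set gB : B := ⟨W x, hgB⟩ with hgBdef
  set u : B := gB - xB ^ ℓ with hudef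
  set v : B := xB - gB ^ ℓ with hvdef
  have hucoe : (u : FF) = W x - x ^ ℓ := rfl
  have hvcoe : (v : FF) = x - W x ^ ℓ := rfl
  have hWu : W (u : FF) = (v : FF) := by
    rw [hucoe, hvcoe, map_sub, map_pow, hWW]
  have hWv : W (v : FF) = (u : FF) := by
    rw [hucoe, hvcoe, map_sub, map_pow, hWW]
  -- `ℓ⁻¹ u = -Aa`
  have hu₁ : (algebraMap K FF (ℓ : K))⁻¹ * (u : FF) = -(Aa : FF) := by
    rw [hucoe]
    have : W x - x ^ ℓ = -(algebraMap K FF (ℓ : K) * (Aa : FF)) := by rw [hAa]; ring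
    rw [this]
    field_simp
  have hu₁V : (algebraMap K FF (ℓ : K))⁻¹ * (u : FF) ∈ s34_gi_V A (N * ℓ) := by
    rw [hu₁]
    exact (s34_gi_V A (N * ℓ)).neg_mem Aa.2
  have hv₂V : (algebraMap K FF (ℓ : K))⁻¹ * (v : FF) ∈
      (s34_gi_V A (N * ℓ)).comap (W : FF →+* FF) := by
    show W ((algebraMap K FF (ℓ : K))⁻¹ * (v : FF)) ∈ s34_gi_V A (N * ℓ)
    rw [map_mul, map_inv₀, hWϖ, hWv]
    exact hu₁V
  -- `γ`
  have hγe : (algebraMap K FF (ℓ : K))⁻¹ * ((u : FF) * (v : FF)) =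
      ((-(Aa * (X - G ^ ℓ)) : s34_gi_V A (N * ℓ)) : FF) := by
    have e0 : ((-(Aa * (X - G ^ ℓ)) : s34_gi_V A (N * ℓ)) : FF) =
        -((Aa : FF) * ((X : FF) - (G : FF) ^ ℓ)) := rfl
    have e1 : ((-(Aa * (X - G ^ ℓ)) : s34_gi_V A (N * ℓ)) : FF) = -((Aa : FF) * (x - W x ^ ℓ)) := by
      rw [e0, hX, hG]
    rw [e1, ← mul_assoc, hu₁, hvcoe]
    ring
  have hγ₁ : (algebraMap K FF (ℓ : K))⁻¹ * ((u : FF) * (v : FF)) ∈ s34_gi_V A (N * ℓ) := by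
    rw [hγe]
    exact Subtype.property _
  have hγ₂ : (algebraMap K FF (ℓ : K))⁻¹ * ((u : FF) * (v : FF)) ∈
      (s34_gi_V A (N * ℓ)).comap (W : FF →+* FF) := by
    show W ((algebraMap K FF (ℓ : K))⁻¹ * ((u : FF) * (v : FF))) ∈ s34_gi_V A (N * ℓ)
    rw [map_mul, map_inv₀, hWϖ, map_mul, hWu, hWv, mul_comm (v : FF)]
    exact hγ₁
  have hγB : (algebraMap K FF (ℓ : K))⁻¹ * ((u : FF) * (v : FF)) ∈ B :=
    hcap _ (B.mul_mem u.2 v.2) hγ₁ hγ₂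
  set γ : B := ⟨_, hγB⟩ with hγdef
  have huv : (u : FF) * (v : FF) = algebraMap K FF (ℓ : K) * (γ : FF) := by
    show (u : FF) * (v : FF) =
      algebraMap K FF (ℓ : K) * ((algebraMap K FF (ℓ : K))⁻¹ * ((u : FF) * (v : FF)))
    rw [← mul_assoc, mul_inv_cancel₀ hϖ0, one_mul]
  -- reductions
  have hrx : r xB = s34_gi_red A (N * ℓ) X := by
    have e : Subring.inclusion hB₁ xB = X := Subtype.ext hX.symm
    show s34_gi_red A (N * ℓ) (Subring.inclusion hB₁ xB) = _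
    rw [e]
  have hrv : r v = s34_gi_red A (N * ℓ) (X - G ^ ℓ) := by
    have e : Subring.inclusion hB₁ v = X - G ^ ℓ := by
      apply Subtype.ext
      show (v : FF) = (X : FF) - (G : FF) ^ ℓ
      rw [hX, hG]
      exact hvcoe
    show s34_gi_red A (N * ℓ) (Subring.inclusion hB₁ v) = _
    rw [e]
  have hrγ : r γ = s34_gi_red A (N * ℓ) (-(Aa * (X - G ^ ℓ))) := by
    have e : Subring.inclusion hB₁ γ = -(Aa * (X - G ^ ℓ)) := Subtype.ext hγe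
    show s34_gi_red A (N * ℓ) (Subring.inclusion hB₁ γ) = _
    rw [e]
  -- kernel of `r`
  have hker' : ∀ z : B, r z = 0 ↔
      (algebraMap K FF (ℓ : K))⁻¹ * (z : FF) ∈ s34_gi_V A (N * ℓ) := by
    intro z
    have h := s34_gi_red_eq_zero_iff (N := N * ℓ) hirr (Subring.inclusion hB₁ z)
    rw [hcast] at h
    exact h
  have hker : ∀ z : B, r z = 0 → z ∈ 𝔪 := fun z hz => hP₁ z ((hker' z).mp hz)
  have hx𝔪' : xB ∈ 𝔪 := hx𝔪 hxB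
  -- `hext`
  have hιϖ : (heckeAlphaBar K N ℓ).toRingHom (algebraMap K F' (ℓ : K)) = algebraMap K FF (ℓ : K) :=
    (heckeAlphaBar K N ℓ).commutes (ℓ : K)
  have hextP : ∀ z ∈ 𝔪, ∃ d c : B, d ∉ 𝔪 ∧
      (algebraMap K FF (ℓ : K))⁻¹ * ((d : FF) * (z : FF) - (c : FF) * (xB : FF)) ∈
        s34_gi_V A (N * ℓ) := by
    have h := s36_pb_ext (heckeAlphaBar K N ℓ).toRingHom (s18_chAlg N ℓ A t).toSubring B
      (s34_gi_V A (N * ℓ)) (algebraMap K F' (ℓ : K)) hαB hB₁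
      (by rw [hιϖ]; exact hresInf) 𝔪 (by rw [hιϖ]; exact hP₁) (s18_coord K y) hreg
    rw [hιϖ] at h
    exact h
  have hext : ∀ z ∈ 𝔪, ∃ d c : B, d ∉ 𝔪 ∧ r d * r z = r c * r xB := by
    intro z hz
    obtain ⟨d, c, hd, h⟩ := hextP z hz
    refine ⟨d, c, hd, ?_⟩
    have h0 : r (d * z - c * xB) = 0 := (hker' _).mpr (by simpa using h)
    rw [map_sub, map_mul, map_mul, sub_eq_zero] at h0
    exact h0
  -- `hD`
  have hk₀ : ∀ c ∈ s36_xi_k0 A, θ c = 0 := by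
    rintro c ⟨a, rfl⟩
    exact s36_qt_theta_C a
  have hk₀O : s36_xi_k0 A ≤ s36_th_O r 𝔪 := by
    rintro c ⟨a, rfl⟩
    obtain ⟨a', rfl⟩ := IsLocalRing.residue_surjective a
    have e : r ⟨algebraMap A FF a', hAB a'⟩ = HahnSeries.C (IsLocalRing.residue A a') :=
      s34_gi_red_algebraMap (N := N * ℓ) a'
    rw [← e]
    exact s36_th_map_mem_O r 𝔪 _
  have hD : ∀ f ∈ s36_th_O r 𝔪, ∃ g ∈ s36_th_O r 𝔪, θ f = g * θ (r xB) :=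
    s36_dnk_chart ℓ hℓp.pos r θ hθ 𝔪 hker xB hx𝔪' hext hfrob (s36_xi_k0 A) hk₀ hk₀O b hgen
  -- `θ x̄ ≠ 0`
  have hθx : θ (r xB) ≠ 0 := by
    obtain ⟨a, ha⟩ := hθne
    intro h0
    obtain ⟨g, -, e⟩ := hD (r a) (s36_th_map_mem_O r 𝔪 a)
    rw [h0, mul_zero] at e
    exact ha e
  have hvx' : r v = r xB - r xB ^ (ℓ ^ 2) := by rw [hrv, hrx]; exact hvx
  have hv0 : r v ≠ 0 := by
    intro h0
    apply hθx
    have h1 : r xB = (r xB ^ ℓ) ^ ℓ := by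
      rw [← pow_mul, ← pow_two]
      exact sub_eq_zero.mp (hvx'.symm.trans h0)
    rw [h1]
    exact s36_th_theta_pow_char ℓ θ hθ _
  have hid' : r v ^ 2 * θ (r xB) ^ ℓ =
      r v ^ 2 * r xB ^ (ℓ - 1) * θ (r xB) + r v * θ (r γ) - r γ * θ (r xB) := by
    rw [hrv, hrx, hrγ]
    exact hid
  have hγ𝔪 : γ ∉ 𝔪 := s36_thp_core ℓ hℓp.pos r θ hθ 𝔪 hker xB v γ hx𝔪' hext hθx hD hvx' hv0 hid'
    (hpole xB rfl hx𝔪' hext hD hθx)
  have hv0' : v ≠ 0 := by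
    rintro h
    apply hv0
    rw [h, map_zero]
  refine ⟨u, v, γ, xB, huv, hu₁V, hv₂V, hγ𝔪, hx𝔪', rfl, rfl, rfl, ?_⟩
  exact s36_pb_gen B (s34_gi_V A (N * ℓ)) ((s34_gi_V A (N * ℓ)).comap (W : FF →+* FF)) hB₁ hB₂
    (algebraMap K FF (ℓ : K)) hϖ0 hcap 𝔪 u v γ xB huv hγ𝔪 hv₂V hv0' hextP

/-- `θ ≠ 0` on the reduction of the chart: the coordinate `t` has an integral expansion with
coefficient `1` at an exponent `e` prime to `ℓ`. -/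
theorem s36_xi2_theta_ne (hℓ : ((ℓ : K))⁻¹ ∉ A)
    (t : modularFunctionFieldFull N) (B : Subring FF)
    (hαB : ∀ x ∈ (s18_chAlg N ℓ A t).toSubring, (heckeAlphaBar K N ℓ).toRingHom x ∈ B)
    (hB₁ : B ≤ s34_gi_V A (N * ℓ))
    (Ts : LaurentSeries ℤ) (hTs : (t : LaurentSeries ℚ) = coeffMap (Int.castRingHom ℚ) Ts)
    (e : ℤ) (he : ¬ (ℓ : ℤ) ∣ e) (hlead : Ts.coeff e = 1) :
    ∃ a : B, s36_qt_theta (IsLocalRing.ResidueField A) (s36_xi_r A B hB₁ a) ≠ 0 := by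
  have hchar : CharP (IsLocalRing.ResidueField A) ℓ := s18_charP_res ℓ A hℓ
  have hTmem : s18_coord K t ∈ (s18_chAlg N ℓ A t).toSubring := s18_coord_mem t
  refine ⟨⟨(heckeAlphaBar K N ℓ).toRingHom (s18_coord K t), hαB _ hTmem⟩, ?_⟩
  have hcoe : (((heckeAlphaBar K N ℓ).toRingHom (s18_coord K t) : FF) : LaurentSeries K) =
      coeffMap A.subtype (coeffMap (Int.castRingHom A) Ts) := by
    show ((heckeAlphaBar K N ℓ (s18_coord K t) : FF) : LaurentSeries K) = _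
    rw [coe_heckeAlphaBar, s18_coe_coord_eq Ts hTs, coeffMap_coeffMap]
    exact coeffMap_congr (RingHom.ext_int _ _) Ts
  have hr : s36_xi_r A B hB₁ ⟨(heckeAlphaBar K N ℓ).toRingHom (s18_coord K t), hαB _ hTmem⟩ =
      coeffMap (Int.castRingHom (IsLocalRing.ResidueField A)) Ts := by
    show s34_gi_red A (N * ℓ) (Subring.inclusion hB₁ _) = _
    rw [s34_gi_red_integral _ (coeffMap (Int.castRingHom A) Ts) hcoe, coeffMap_coeffMap]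
    exact coeffMap_congr (RingHom.ext_int _ _) Ts
  rw [hr]
  intro h0
  have h1 := congrArg (fun f : LaurentSeries (IsLocalRing.ResidueField A) => f.coeff e) h0
  simp only [s36_qt_theta_coeff, coeffMap_coeff, hlead, HahnSeries.coeff_zero] at h1
  rw [map_one, mul_one] at h1
  exact he ((CharP.intCast_eq_zero_iff (IsLocalRing.ResidueField A) ℓ e).mp h1)

/-- **Crossing points, generic model.**  At every prime `𝔪 ⊇ P∞ + P0` of the `W`-stable chart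
`B`: `𝔪` is maximal, the Frobenius of `B/𝔪` is onto, and — given a pole of `(θ x̄)^(ℓ-1)` for the
rational local coordinates `x` at `𝔪` — there are `u v = ℓ γ` with `ℓ⁻¹ u ∈ V∞`, `ℓ⁻¹ v ∈ V0`,
`γ ∉ 𝔪` (thickness one), and `𝔪` is generated locally by `u` and `x`. -/
theorem s36_xi2_main [IsDiscreteValuationRing A] (hℓ : ((ℓ : K))⁻¹ ∉ A)
    (hirr : Irreducible ((ℓ : ℕ) : A))
    (m : ℕ) (hm : 0 < m) (hAfin : ∀ a : A, ∃ c : A, a ^ (ℓ ^ m) - a = ((ℓ : ℕ) : A) * c)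
    (t : modularFunctionFieldFull N)
    (hCW : ∀ x ∈ s18_czRing N ℓ t, x ∈ Wring ℓ)
    (hfin : ∃ gen : Finset F', (∀ m ∈ gen, m ∈ s18_chAlg N ℓ A t) ∧
      ∀ x ∈ s18_chAlg N ℓ A t, ∃ c : F' → Polynomial A,
        x = ∑ m ∈ gen, Polynomial.aeval (s18_coord K t) (c m) * m)
    (hlc : ∀ 𝔪₁ : Ideal (s18_chAlg N ℓ A t).toSubring, 𝔪₁.IsMaximal →
      (⟨algebraMap A F' ((ℓ : ℕ) : A), (s18_chAlg N ℓ A t).algebraMap_mem _⟩ :
        (s18_chAlg N ℓ A t).toSubring) ∈ 𝔪₁ →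
      ∃ y : modularFunctionFieldFull N, y ∈ chartAlg N ℓ {t} ∧
        ∃ hs : s18_coord K y ∈ (s18_chAlg N ℓ A t).toSubring,
          (⟨s18_coord K y, hs⟩ : (s18_chAlg N ℓ A t).toSubring) ∈ 𝔪₁ ∧
          ∀ x ∈ 𝔪₁, ∃ u, u ∉ 𝔪₁ ∧ u * x ∈ Ideal.span
            {(⟨algebraMap A F' ((ℓ : ℕ) : A), (s18_chAlg N ℓ A t).algebraMap_mem _⟩ :
              (s18_chAlg N ℓ A t).toSubring), ⟨s18_coord K y, hs⟩})
    (W : FF ≃+* FF) (hWW : ∀ x, W (W x) = x)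
    (hWα : ∀ x : F', W (heckeAlphaBar K N ℓ x) = heckeBetaBar K N ℓ x)
    (B : Subring FF) (hAB : ∀ a : A, algebraMap A FF a ∈ B) (hWB : ∀ b ∈ B, W b ∈ B)
    (hαB : ∀ x ∈ (s18_chAlg N ℓ A t).toSubring, (heckeAlphaBar K N ℓ).toRingHom x ∈ B)
    (hB₁ : B ≤ s34_gi_V A (N * ℓ)) (hB₂ : B ≤ (s34_gi_V A (N * ℓ)).comap (W : FF →+* FF))
    (hcap : ∀ x ∈ B, (algebraMap K FF (ℓ : K))⁻¹ * x ∈ s34_gi_V A (N * ℓ) →
      (algebraMap K FF (ℓ : K))⁻¹ * x ∈ (s34_gi_V A (N * ℓ)).comap (W : FF →+* FF) →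
      (algebraMap K FF (ℓ : K))⁻¹ * x ∈ B)
    (hresInf : ∀ x ∈ B, ∃ x' ∈ (s18_chAlg N ℓ A t).toSubring,
      (algebraMap K FF (ℓ : K))⁻¹ * (x - (heckeAlphaBar K N ℓ).toRingHom x') ∈
        s34_gi_V A (N * ℓ))
    (hθne : ∃ a : B, s36_qt_theta (IsLocalRing.ResidueField A) (s36_xi_r A B hB₁ a) ≠ 0)
    (𝔪 : Ideal B) [h𝔪 : 𝔪.IsPrime]
    (hP₁ : ∀ p : B, (algebraMap K FF (ℓ : K))⁻¹ * (p : FF) ∈ s34_gi_V A (N * ℓ) → p ∈ 𝔪)
    (hP₂ : ∀ p : B, (algebraMap K FF (ℓ : K))⁻¹ * (p : FF) ∈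
      (s34_gi_V A (N * ℓ)).comap (W : FF →+* FF) → p ∈ 𝔪)
    (hpole : ∀ y : modularFunctionFieldFull N, y ∈ chartAlg N ℓ {t} →
      ∀ x : B, (x : FF) = (heckeAlphaBar K N ℓ).toRingHom (s18_coord K y) → x ∈ 𝔪 →
      (∀ z ∈ 𝔪, ∃ d c : B, d ∉ 𝔪 ∧
        s36_xi_r A B hB₁ d * s36_xi_r A B hB₁ z = s36_xi_r A B hB₁ c * s36_xi_r A B hB₁ x) →
      (∀ f ∈ s36_th_O (s36_xi_r A B hB₁) 𝔪, ∃ g ∈ s36_th_O (s36_xi_r A B hB₁) 𝔪,
        s36_qt_theta (IsLocalRing.ResidueField A) f =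
          g * s36_qt_theta (IsLocalRing.ResidueField A) (s36_xi_r A B hB₁ x)) →
      s36_qt_theta (IsLocalRing.ResidueField A) (s36_xi_r A B hB₁ x) ≠ 0 →
      s36_qt_theta (IsLocalRing.ResidueField A) (s36_xi_r A B hB₁ x) ^ (ℓ - 1) ∉
        s36_th_O (s36_xi_r A B hB₁) 𝔪) :
    𝔪.IsMaximal ∧ (∀ f : B, ∃ g : B, f - g ^ ℓ ∈ 𝔪) ∧
    ∃ u v γ x : B, (u : FF) * (v : FF) = algebraMap K FF (ℓ : K) * (γ : FF) ∧
      (algebraMap K FF (ℓ : K))⁻¹ * (u : FF) ∈ s34_gi_V A (N * ℓ) ∧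
      (algebraMap K FF (ℓ : K))⁻¹ * (v : FF) ∈ (s34_gi_V A (N * ℓ)).comap (W : FF →+* FF) ∧
      γ ∉ 𝔪 ∧ x ∈ 𝔪 ∧
      (∃ y : modularFunctionFieldFull N, y ∈ chartAlg N ℓ {t} ∧
        (x : FF) = (heckeAlphaBar K N ℓ).toRingHom (s18_coord K y)) ∧
      (u : FF) = W (x : FF) - (x : FF) ^ ℓ ∧ (v : FF) = (x : FF) - W (x : FF) ^ ℓ ∧
      ∀ z ∈ 𝔪, ∃ w, w ∉ 𝔪 ∧ w * z ∈ Ideal.span {u, x} := by
  have hℓp : ℓ.Prime := Fact.out
  have hfix := s36_xi2_fix_model A hℓ hirr m hAfin t hCW W hWW hWα B hAB hWB hαB hresInf 𝔪 hP₁ hP₂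
  obtain ⟨hmax, hfrob⟩ := s36_xi2_max_of_fix ℓ hℓp 𝔪 (2 * m) (by omega) hfix
  obtain ⟨y, hy, hx𝔪, hreg⟩ := s36_xi2_reg A hℓ t B hαB hresInf 𝔪 hmax hP₁ hlc
  obtain ⟨n, b, hgen⟩ := s36_xi2_gen A hℓ hirr t B hAB hαB hB₁ hresInf hfin
  obtain ⟨u, v, γ, x, h1, h2, h3, h4, h5, h6, h7, h8, h9⟩ :=
    s36_xi2_core A hℓ hirr t hCW W hWW hWα B hAB hWB hαB hB₁ hB₂ hcap hresInf 𝔪 hP₁ hfrob y hy
      hx𝔪 hreg b hgen hθne (hpole y hy)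
  exact ⟨hmax, hfrob, u, v, γ, x, h1, h2, h3, h4, h5, ⟨y, hy, h6⟩, h7, h8, h9⟩

/-- **Thickness one at the crossing points, in the shape of `hq` of `s36_clq_main` /
`s36_clq_transport`** (`V₁' = V∞`, `V₂' = V0`, `ϖ' = ℓ`): from `s36_xi2_main`, with the pole at
every crossing point as the only remaining hypothesis. -/
theorem s36_xi2_hq [IsDiscreteValuationRing A] (hℓ : ((ℓ : K))⁻¹ ∉ A)
    (hirr : Irreducible ((ℓ : ℕ) : A))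
    (m : ℕ) (hm : 0 < m) (hAfin : ∀ a : A, ∃ c : A, a ^ (ℓ ^ m) - a = ((ℓ : ℕ) : A) * c)
    (t : modularFunctionFieldFull N)
    (hCW : ∀ x ∈ s18_czRing N ℓ t, x ∈ Wring ℓ)
    (hfin : ∃ gen : Finset F', (∀ m ∈ gen, m ∈ s18_chAlg N ℓ A t) ∧
      ∀ x ∈ s18_chAlg N ℓ A t, ∃ c : F' → Polynomial A,
        x = ∑ m ∈ gen, Polynomial.aeval (s18_coord K t) (c m) * m)
    (hlc : ∀ 𝔪₁ : Ideal (s18_chAlg N ℓ A t).toSubring, 𝔪₁.IsMaximal →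
      (⟨algebraMap A F' ((ℓ : ℕ) : A), (s18_chAlg N ℓ A t).algebraMap_mem _⟩ :
        (s18_chAlg N ℓ A t).toSubring) ∈ 𝔪₁ →
      ∃ y : modularFunctionFieldFull N, y ∈ chartAlg N ℓ {t} ∧
        ∃ hs : s18_coord K y ∈ (s18_chAlg N ℓ A t).toSubring,
          (⟨s18_coord K y, hs⟩ : (s18_chAlg N ℓ A t).toSubring) ∈ 𝔪₁ ∧
          ∀ x ∈ 𝔪₁, ∃ u, u ∉ 𝔪₁ ∧ u * x ∈ Ideal.span
            {(⟨algebraMap A F' ((ℓ : ℕ) : A), (s18_chAlg N ℓ A t).algebraMap_mem _⟩ :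
              (s18_chAlg N ℓ A t).toSubring), ⟨s18_coord K y, hs⟩})
    (W : FF ≃+* FF) (hWW : ∀ x, W (W x) = x)
    (hWα : ∀ x : F', W (heckeAlphaBar K N ℓ x) = heckeBetaBar K N ℓ x)
    (B : Subring FF) (hAB : ∀ a : A, algebraMap A FF a ∈ B) (hWB : ∀ b ∈ B, W b ∈ B)
    (hαB : ∀ x ∈ (s18_chAlg N ℓ A t).toSubring, (heckeAlphaBar K N ℓ).toRingHom x ∈ B)
    (hB₁ : B ≤ s34_gi_V A (N * ℓ)) (hB₂ : B ≤ (s34_gi_V A (N * ℓ)).comap (W : FF →+* FF))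
    (hcap : ∀ x ∈ B, (algebraMap K FF (ℓ : K))⁻¹ * x ∈ s34_gi_V A (N * ℓ) →
      (algebraMap K FF (ℓ : K))⁻¹ * x ∈ (s34_gi_V A (N * ℓ)).comap (W : FF →+* FF) →
      (algebraMap K FF (ℓ : K))⁻¹ * x ∈ B)
    (hresInf : ∀ x ∈ B, ∃ x' ∈ (s18_chAlg N ℓ A t).toSubring,
      (algebraMap K FF (ℓ : K))⁻¹ * (x - (heckeAlphaBar K N ℓ).toRingHom x') ∈
        s34_gi_V A (N * ℓ))
    (hθne : ∃ a : B, s36_qt_theta (IsLocalRing.ResidueField A) (s36_xi_r A B hB₁ a) ≠ 0)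
    (hpole : ∀ (𝔪 : Ideal B) [h𝔪 : 𝔪.IsPrime], 𝔪.IsMaximal →
      (∀ p : B, (algebraMap K FF (ℓ : K))⁻¹ * (p : FF) ∈ s34_gi_V A (N * ℓ) → p ∈ 𝔪) →
      (∀ p : B, (algebraMap K FF (ℓ : K))⁻¹ * (p : FF) ∈
        (s34_gi_V A (N * ℓ)).comap (W : FF →+* FF) → p ∈ 𝔪) →
      ∀ y : modularFunctionFieldFull N, y ∈ chartAlg N ℓ {t} →
      ∀ x : B, (x : FF) = (heckeAlphaBar K N ℓ).toRingHom (s18_coord K y) → x ∈ 𝔪 →
      (∀ z ∈ 𝔪, ∃ d c : B, d ∉ 𝔪 ∧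
        s36_xi_r A B hB₁ d * s36_xi_r A B hB₁ z = s36_xi_r A B hB₁ c * s36_xi_r A B hB₁ x) →
      (∀ f ∈ s36_th_O (s36_xi_r A B hB₁) 𝔪, ∃ g ∈ s36_th_O (s36_xi_r A B hB₁) 𝔪,
        s36_qt_theta (IsLocalRing.ResidueField A) f =
          g * s36_qt_theta (IsLocalRing.ResidueField A) (s36_xi_r A B hB₁ x)) →
      s36_qt_theta (IsLocalRing.ResidueField A) (s36_xi_r A B hB₁ x) ≠ 0 →
      s36_qt_theta (IsLocalRing.ResidueField A) (s36_xi_r A B hB₁ x) ^ (ℓ - 1) ∉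
        s36_th_O (s36_xi_r A B hB₁) 𝔪) :
    ∀ 𝔪' : Ideal B, 𝔪'.IsPrime →
      (∀ p : B, (algebraMap K FF (ℓ : K))⁻¹ * (p : FF) ∈ s34_gi_V A (N * ℓ) → p ∈ 𝔪') →
      (∀ p : B, (algebraMap K FF (ℓ : K))⁻¹ * (p : FF) ∈
        (s34_gi_V A (N * ℓ)).comap (W : FF →+* FF) → p ∈ 𝔪') →
      ∃ u₁ u₂ γ : B, (u₁ : FF) * (u₂ : FF) = algebraMap K FF (ℓ : K) * (γ : FF) ∧
        (algebraMap K FF (ℓ : K))⁻¹ * (u₁ : FF) ∈ s34_gi_V A (N * ℓ) ∧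
        (algebraMap K FF (ℓ : K))⁻¹ * (u₂ : FF) ∈ (s34_gi_V A (N * ℓ)).comap (W : FF →+* FF) ∧
        γ ∉ 𝔪' := by
  intro 𝔪 h𝔪 hP₁ hP₂
  have hℓp : ℓ.Prime := Fact.out
  have hfix := s36_xi2_fix_model A hℓ hirr m hAfin t hCW W hWW hWα B hAB hWB hαB hresInf 𝔪 hP₁ hP₂
  obtain ⟨hmax, -⟩ := s36_xi2_max_of_fix ℓ hℓp 𝔪 (2 * m) (by omega) hfix
  obtain ⟨-, -, u, v, γ, x, h1, h2, h3, h4, -⟩ :=
    s36_xi2_main A hℓ hirr m hm hAfin t hCW hfin hlc W hWW hWα B hAB hWB hαB hB₁ hB₂ hcap hresInf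
      hθne 𝔪 hP₁ hP₂ (hpole 𝔪 hmax hP₁ hP₂)
  exact ⟨u, v, γ, h1, h2, h3, h4⟩

end Generic

end Fermat.Agent.S36
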