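import Fermat.Agent.S36.CrossInst2
import Fermat.Agent.S36.CapNG
import Fermat.Agent.S34.XYInst

/-!
# S36 (NODE-3), B2 route (a): the crossing-point instantiation (X1), integral-closure charts

* `s36_xi3_afin` : a DVR `A` with finite residue field and uniformizer `ℓ` satisfies
  `a^(ℓ^m) ≡ a mod ℓ` for some `m ≥ 1`;
* `s36_xi3_chart` : `s36_xi2_hq` for the integral-closure chart `B = s34_ic_chart A (α t)` of a
  coordinate `t` of level `N` (generic `K`, `A` unramified), with all chart inputs discharged from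
  the S18 chart package of level `N` (the analogue of `s34_xi_xy`);
* `s36_xi3_model` : both charts `B0`, `Binf` of the model over `A₁ = P ∩ K₁`, `K₁` ANY number
  field inside `Q̄` in which `q` is unramified at `P` (no Galois hypothesis): thickness one at every
  crossing point in the shape of `hq` of `s36_clq_main`; remaining hypotheses: (le), (cap) and the
  pole.
-/

set_option autoImplicit false
set_option synthInstance.maxHeartbeats 400000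
set_option maxHeartbeats 4000000
set_option linter.unusedSectionVars false
set_option linter.unusedVariables false

open ModularCurve ModularCurve.IgusaScheme Fermat.Agent.S28

noncomputable section

namespace Fermat.Agent.S36

open Fermat.Agent.S18 Fermat.Agent.S34

section Generic

variable {N : ℕ} [NeZero N] {ℓ : ℕ} [NeZero ℓ] [Fact ℓ.Prime]
variable {K : Type*} [Field K] [Algebra ℚ K] {A : ValuationSubring K}
variable {t : modularFunctionFieldFull N}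

local notation "F'" => laurentBaseChange K (modularFunctionFieldFull N)
local notation "FF" => laurentBaseChange K (modularFunctionFieldFull (N * ℓ))

/-- A DVR with finite residue field of characteristic `ℓ` and uniformizer `ℓ`: the Frobenius
power `a ↦ a^(ℓ^m)` is the identity modulo `ℓ` for some `m ≥ 1`. -/
theorem s36_xi3_afin [IsDiscreteValuationRing A] (hℓ : ((ℓ : K))⁻¹ ∉ A)
    (hirr : Irreducible ((ℓ : ℕ) : A)) (hfin : Finite (IsLocalRing.ResidueField A)) :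
    ∃ m : ℕ, 0 < m ∧ ∀ a : A, ∃ c : A, a ^ (ℓ ^ m) - a = ((ℓ : ℕ) : A) * c := by
  classical
  have hchar : CharP (IsLocalRing.ResidueField A) ℓ := s18_charP_res ℓ A hℓ
  let _ : Fintype (IsLocalRing.ResidueField A) := Fintype.ofFinite _
  obtain ⟨n, -, hn⟩ := FiniteField.card (IsLocalRing.ResidueField A) ℓ
  refine ⟨n, n.pos, fun a => ?_⟩
  have hmax : IsLocalRing.maximalIdeal A = Ideal.span {((ℓ : ℕ) : A)} := hirr.maximalIdeal_eq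
  have h1 : a ^ (ℓ ^ (n : ℕ)) - a ∈ IsLocalRing.maximalIdeal A := by
    rw [← IsLocalRing.residue_eq_zero_iff, map_sub, map_pow, ← hn, FiniteField.pow_card, sub_self]
  rw [hmax] at h1
  exact Ideal.mem_span_singleton.mp h1

variable (N ℓ A) in
/-- The pole hypothesis at the crossing points of a chart `B ⊆ V∞` of level `N ℓ` (coordinate `t`
of level `N`): for every maximal ideal `𝔪 ⊇ P∞ + P0` and every rational local coordinate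
`x = α y ∈ 𝔪` (`y` in the rational chart of `t`) with `x̄` a uniformizer of the branch (`hext`),
`θ(O) ⊆ O θ x̄` (`hD`) and `θ x̄ ≠ 0`: `(θ x̄)^(ℓ-1) ∉ O`, where `O = s36_th_O r 𝔪` is the local
ring of the branch at `∞`. -/
def s36_xi3_Pole (t : modularFunctionFieldFull N) (W : FF ≃+* FF) (B : Subring FF)
    (hB₁ : B ≤ s34_gi_V A (N * ℓ)) : Prop :=
  ∀ (𝔪 : Ideal B) [h𝔪 : 𝔪.IsPrime], 𝔪.IsMaximal →
    (∀ p : B, (algebraMap K FF (ℓ : K))⁻¹ * (p : FF) ∈ s34_gi_V A (N * ℓ) → p ∈ 𝔪) →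
    (∀ p : B, (algebraMap K FF (ℓ : K))⁻¹ * (p : FF) ∈
      (s34_gi_V A (N * ℓ)).comap (W : FF →+* FF) → p ∈ 𝔪) →
    ∀ y : modularFunctionFieldFull N, y ∈ chartAlg N ℓ {t} →
    ∀ x : B, (x : FF) = (heckeAlphaBar K N ℓ).toRingHom (s18_coord K y) → x ∈ 𝔪 →
    (∀ z ∈ 𝔪, ∃ d c : B, d ∉ 𝔪 ∧
      s36_xi_r A B hB₁ d * s36_xi_r A B hB₁ z = s36_xi_r A B hB₁ c * s36_xi_r A B hB₁ x) →
    (∀ f ∈ s36_th_O (s36_xi_r A B hB₁) 𝔪, ∃ g ∈ s36_th_O (s36_xi_r A B hB₁) 𝔪,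
      s36_qt_theta (IsLocalRing.ResidueField A) f =
        g * s36_qt_theta (IsLocalRing.ResidueField A) (s36_xi_r A B hB₁ x)) →
    s36_qt_theta (IsLocalRing.ResidueField A) (s36_xi_r A B hB₁ x) ≠ 0 →
    s36_qt_theta (IsLocalRing.ResidueField A) (s36_xi_r A B hB₁ x) ^ (ℓ - 1) ∉
      s36_th_O (s36_xi_r A B hB₁) 𝔪

variable (N ℓ A) in
/-- Thickness one at the crossing points of a chart `B` of level `N ℓ`: the hypothesis `hq` of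
`s36_clq_main` / `s36_clq_transport` (`ϖ' = ℓ`, `V₁' = V∞`, `V₂' = V0 = V∞.comap W`). -/
def s36_xi3_Hq (W : FF ≃+* FF) (B : Subring FF) : Prop :=
  ∀ 𝔪' : Ideal B, 𝔪'.IsPrime →
    (∀ p : B, (algebraMap K FF (ℓ : K))⁻¹ * (p : FF) ∈ s34_gi_V A (N * ℓ) → p ∈ 𝔪') →
    (∀ p : B, (algebraMap K FF (ℓ : K))⁻¹ * (p : FF) ∈
      (s34_gi_V A (N * ℓ)).comap (W : FF →+* FF) → p ∈ 𝔪') →
    ∃ u₁ u₂ γ : B, (u₁ : FF) * (u₂ : FF) = algebraMap K FF (ℓ : K) * (γ : FF) ∧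
      (algebraMap K FF (ℓ : K))⁻¹ * (u₁ : FF) ∈ s34_gi_V A (N * ℓ) ∧
      (algebraMap K FF (ℓ : K))⁻¹ * (u₂ : FF) ∈ (s34_gi_V A (N * ℓ)).comap (W : FF →+* FF) ∧
      γ ∉ 𝔪'

/-- **Crossing points of an integral-closure chart** `B = s34_ic_chart A T`, `T = α t`
(generic `K`, `A` unramified; the analogue of `s34_xi_xy`): thickness one at every prime
`𝔪 ⊇ P∞ + P0`, in the shape of `hq` of `s36_clq_main`. -/
theorem s36_xi3_chart [IsDiscreteValuationRing A] (hR : s18_ResBasis ℓ A ((ℓ : ℕ) : A))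
    (h : s18_cz_Coord N ℓ t)
    {Bc : Subring (LaurentSeries ℚ)} (hBc : CoreData N ℓ Bc)
    (hchart : s18_Chart (algebraMap A F' ((ℓ : ℕ) : A)) (s18_chAlg N ℓ A t).toSubring)
    (hsm : s18_SmHyp ((ℓ : ℕ) : A) (s18_coord K t) (s18_chAlg N ℓ A t))
    (hlc : ∀ 𝔪₁ : Ideal (s18_chAlg N ℓ A t).toSubring, 𝔪₁.IsMaximal →
      (⟨algebraMap A F' ((ℓ : ℕ) : A), (s18_chAlg N ℓ A t).algebraMap_mem _⟩ :
        (s18_chAlg N ℓ A t).toSubring) ∈ 𝔪₁ →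
      ∃ y : modularFunctionFieldFull N, y ∈ chartAlg N ℓ {t} ∧
        ∃ hs : s18_coord K y ∈ (s18_chAlg N ℓ A t).toSubring,
          (⟨s18_coord K y, hs⟩ : (s18_chAlg N ℓ A t).toSubring) ∈ 𝔪₁ ∧
          ∀ x ∈ 𝔪₁, ∃ u, u ∉ 𝔪₁ ∧ u * x ∈ Ideal.span
            {(⟨algebraMap A F' ((ℓ : ℕ) : A), (s18_chAlg N ℓ A t).algebraMap_mem _⟩ :
              (s18_chAlg N ℓ A t).toSubring), ⟨s18_coord K y, hs⟩})
    (T : FF) (hT : heckeAlphaBar K N ℓ (s18_coord K t) = T)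
    (W : FF ≃+* FF) (hWW : ∀ x, W (W x) = x)
    (hWα : ∀ x : F', W (heckeAlphaBar K N ℓ x) = heckeBetaBar K N ℓ x)
    (hWB : ∀ x ∈ (s34_ic_chart A T).toSubring, W x ∈ (s34_ic_chart A T).toSubring)
    (hκ : ∀ y ∈ s34_gi_V A (N * ℓ), ∃ y' ∈ s34_gi_V A N,
      (algebraMap A FF ((ℓ : ℕ) : A))⁻¹ * (y - heckeAlphaBar K N ℓ y') ∈ s34_gi_V A (N * ℓ))
    (Ts : LaurentSeries ℤ) (hTs : (t : LaurentSeries ℚ) = coeffMap (Int.castRingHom ℚ) Ts)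
    (e : ℤ) (he : ¬ (ℓ : ℤ) ∣ e) (hlead : Ts.coeff e = 1)
    (hB₁ : (s34_ic_chart A T).toSubring ≤ s34_gi_V A (N * ℓ))
    (hcap : ∀ x ∈ (s34_ic_chart A T).toSubring,
      (algebraMap K FF (ℓ : K))⁻¹ * x ∈ s34_gi_V A (N * ℓ) →
      (algebraMap K FF (ℓ : K))⁻¹ * x ∈ (s34_gi_V A (N * ℓ)).comap (W : FF →+* FF) →
      (algebraMap K FF (ℓ : K))⁻¹ * x ∈ (s34_ic_chart A T).toSubring)
    (hpole : s36_xi3_Pole N ℓ A t W (s34_ic_chart A T).toSubring hB₁) :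
    s36_xi3_Hq N ℓ A W (s34_ic_chart A T).toSubring := by
  have hB₂ : (s34_ic_chart A T).toSubring ≤ (s34_gi_V A (N * ℓ)).comap (W : FF →+* FF) :=
    fun x hx => hB₁ (hWB x hx)
  subst hT
  have hℓ : ((ℓ : K))⁻¹ ∉ A := hR.unit
  have hirr : Irreducible ((ℓ : ℕ) : A) := hR.irr
  have hcast : (((ℓ : ℕ) : A) : K) = (ℓ : K) := by push_cast; rfl
  have hCW : ∀ x ∈ s18_czRing N ℓ t, x ∈ Wring ℓ := by
    intro x hx
    rw [s18_Wring_eq]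
    exact s18_czRing_le_W h hBc x hx
  have hAB : ∀ a : A, algebraMap A FF a ∈
      (s34_ic_chart A (heckeAlphaBar K N ℓ (s18_coord K t))).toSubring :=
    fun a => (s34_ic_chart A (heckeAlphaBar K N ℓ (s18_coord K t))).algebraMap_mem a
  have hαB : ∀ x ∈ (s18_chAlg N ℓ A t).toSubring, (heckeAlphaBar K N ℓ).toRingHom x ∈
      (s34_ic_chart A (heckeAlphaBar K N ℓ (s18_coord K t))).toSubring :=
    fun x hx => s34_lc_incl_mem_ic ℓ hsm x hx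
  have hresInf0 := s34_xi_hresInf hR h hBc hchart hsm hκ
  have hresInf : ∀ x ∈ (s34_ic_chart A (heckeAlphaBar K N ℓ (s18_coord K t))).toSubring,
      ∃ x' ∈ (s18_chAlg N ℓ A t).toSubring,
        (algebraMap K FF (ℓ : K))⁻¹ * (x - (heckeAlphaBar K N ℓ).toRingHom x') ∈
          s34_gi_V A (N * ℓ) := by
    intro x hx
    obtain ⟨x', hx', h1⟩ := hresInf0 x hx
    refine ⟨x', hx', ?_⟩
    rw [← hcast]
    exact h1
  obtain ⟨m, hm, hAfin⟩ := s36_xi3_afin hℓ hirr (s18_sep_finite_res hR)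
  have hθne := s36_xi2_theta_ne A hℓ t _ hαB hB₁ Ts hTs e he hlead
  exact s36_xi2_hq A hℓ hirr m hm hAfin t hCW hsm.finite hlc W hWW hWα _ hAB hWB hαB hB₁ hB₂
    hcap hresInf hθne hpole

end Generic

section Model

variable (N₁ : ℕ) [NeZero N₁] (q : ℕ) [NeZero q] [Fact q.Prime]
  (A : ValuationSubring (AlgebraicClosure ℚ)) (hA : A.LiesOverPrime q)
  (K₁ : IntermediateField ℚ (AlgebraicClosure ℚ)) [NumberField K₁]
  [IsDiscreteValuationRing (s18_A1 A K₁)]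

include hA in
/-- **Crossing points of both charts of the model, one coordinate** (the analogue of
`s34_xi_model_coord`, NO Galois hypothesis): `K₁ ⊆ Q̄` any number field in which `q` is a
uniformizer of `A₁ = A ∩ K₁`; the S18 chart package of the coordinate `t₀` of level `N₁` over
`A₁` and the chart structure of the rational charts (over a copy `K₀` of `ℚ`) of `t₀`, `t₀⁻¹`;
the swap `W`.  Thickness one at every crossing point of `B0` and `Binf`, given (cap) and the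
pole. -/
theorem s36_xi3_model (hqN : ¬ q ∣ N₁) (M : ℕ) (hqM : q ≠ M) (hMN : M ∣ N₁)
    (hM23 : 2 ∣ N₁ ∨ 3 ∣ N₁)
    (hirr : Irreducible ((q : ℕ) : s18_A1 A K₁))
    (t₀ : modularFunctionFieldFull N₁) (tL : modularFunctionFieldFull (N₁ * q))
    (htL : (tL : LaurentSeries ℚ) = (t₀ : LaurentSeries ℚ))
    (h : s18_cz_Coord N₁ q t₀)
    (hT : s18_TwoChart ((q : ℕ) : s18_A1 A K₁) (s18_coord K₁ t₀)
      (s18_chAlg N₁ q (s18_A1 A K₁) t₀) (s18_chAlg N₁ q (s18_A1 A K₁) t₀⁻¹))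
    (hP : s18_ChartPkg ((q : ℕ) : s18_A1 A K₁) (s18_coord K₁ t₀)
      (s18_chAlg N₁ q (s18_A1 A K₁) t₀) (s18_chAlg N₁ q (s18_A1 A K₁) t₀⁻¹))
    {K₀ : Type*} [Field K₀] [Algebra ℚ K₀] {A₀ : ValuationSubring K₀}
    (hsurj : Function.Surjective (algebraMap ℚ K₀)) (hℓ₀ : ((q : K₀))⁻¹ ∉ A₀) {π₀ : A₀}
    (hch0 : s18_Chart (algebraMap A₀ (laurentBaseChange K₀ (modularFunctionFieldFull N₁)) π₀)
      (s18_chAlg N₁ q A₀ t₀).toSubring)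
    (hchi : s18_Chart (algebraMap A₀ (laurentBaseChange K₀ (modularFunctionFieldFull N₁)) π₀)
      (s18_chAlg N₁ q A₀ t₀⁻¹).toSubring)
    (hHaupt : Fermat.Agent.S37.s37_IsHaupt M (s18_baseIncl K₁ (N₁ * q) (s18_coord K₁ tL)))
    (Ts Ti : LaurentSeries ℤ)
    (hTs : (t₀ : LaurentSeries ℚ) = coeffMap (Int.castRingHom ℚ) Ts)
    (hTi : ((t₀⁻¹ : modularFunctionFieldFull N₁) : LaurentSeries ℚ) =
      coeffMap (Int.castRingHom ℚ) Ti)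
    (e e' : ℤ) (he : ¬ (q : ℤ) ∣ e) (he' : ¬ (q : ℤ) ∣ e') (hlead : Ts.coeff e = 1)
    (hlead' : Ti.coeff e' = 1)
    (W : s18_F1 K₁ (N₁ * q) ≃+* s18_F1 K₁ (N₁ * q))
    (hWc : ∀ c : K₁, W (algebraMap K₁ (s18_F1 K₁ (N₁ * q)) c) =
      algebraMap K₁ (s18_F1 K₁ (N₁ * q)) c)
    (hWα : ∀ x : s18_F1 K₁ N₁, W (heckeAlphaBar K₁ N₁ q x) = heckeBetaBar K₁ N₁ q x)
    (hWβ : ∀ x : s18_F1 K₁ N₁, W (heckeBetaBar K₁ N₁ q x) = heckeAlphaBar K₁ N₁ q x)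
    (hWW : ∀ x : s18_F1 K₁ (N₁ * q), W (W x) = x)
    (h01 : (s34_ic_chart (s18_A1 A K₁) (s18_coord K₁ tL)).toSubring ≤
      s34_gi_V (s18_A1 A K₁) (N₁ * q))
    (hi1 : (s34_ic_chart (s18_A1 A K₁) (s18_coord K₁ tL)⁻¹).toSubring ≤
      s34_gi_V (s18_A1 A K₁) (N₁ * q))
    (hcap0 : ∀ x ∈ (s34_ic_chart (s18_A1 A K₁) (s18_coord K₁ tL)).toSubring,
      (algebraMap K₁ (s18_F1 K₁ (N₁ * q)) (q : K₁))⁻¹ * x ∈ s34_gi_V (s18_A1 A K₁) (N₁ * q) →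
      (algebraMap K₁ (s18_F1 K₁ (N₁ * q)) (q : K₁))⁻¹ * x ∈
        (s34_gi_V (s18_A1 A K₁) (N₁ * q)).comap
          (W : s18_F1 K₁ (N₁ * q) →+* s18_F1 K₁ (N₁ * q)) →
      (algebraMap K₁ (s18_F1 K₁ (N₁ * q)) (q : K₁))⁻¹ * x ∈
        (s34_ic_chart (s18_A1 A K₁) (s18_coord K₁ tL)).toSubring)
    (hcapi : ∀ x ∈ (s34_ic_chart (s18_A1 A K₁) (s18_coord K₁ tL)⁻¹).toSubring,
      (algebraMap K₁ (s18_F1 K₁ (N₁ * q)) (q : K₁))⁻¹ * x ∈ s34_gi_V (s18_A1 A K₁) (N₁ * q) →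
      (algebraMap K₁ (s18_F1 K₁ (N₁ * q)) (q : K₁))⁻¹ * x ∈
        (s34_gi_V (s18_A1 A K₁) (N₁ * q)).comap
          (W : s18_F1 K₁ (N₁ * q) →+* s18_F1 K₁ (N₁ * q)) →
      (algebraMap K₁ (s18_F1 K₁ (N₁ * q)) (q : K₁))⁻¹ * x ∈
        (s34_ic_chart (s18_A1 A K₁) (s18_coord K₁ tL)⁻¹).toSubring)
    (hpole0 : s36_xi3_Pole N₁ q (s18_A1 A K₁) t₀ W
      (s34_ic_chart (s18_A1 A K₁) (s18_coord K₁ tL)).toSubring h01)
    (hpolei : s36_xi3_Pole N₁ q (s18_A1 A K₁) t₀⁻¹ W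
      (s34_ic_chart (s18_A1 A K₁) (s18_coord K₁ tL)⁻¹).toSubring hi1) :
    s36_xi3_Hq N₁ q (s18_A1 A K₁) W (s34_ic_chart (s18_A1 A K₁) (s18_coord K₁ tL)).toSubring ∧
    s36_xi3_Hq N₁ q (s18_A1 A K₁) W
      (s34_ic_chart (s18_A1 A K₁) (s18_coord K₁ tL)⁻¹).toSubring := by
  have hq : q.Prime := Fact.out
  have hR : s18_ResBasis q (s18_A1 A K₁) ((q : ℕ) : s18_A1 A K₁) :=
    s18_a1_resbasis A hA K₁ _ hirr
  obtain ⟨Bc, hBc⟩ := core N₁ q hqN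
  have hcoord : heckeAlphaBar K₁ N₁ q (s18_coord K₁ t₀) = s18_coord K₁ tL :=
    s34_lc_incl_coord q tL htL
  have hcoord' : heckeAlphaBar K₁ N₁ q (s18_coord K₁ t₀⁻¹) = (s18_coord K₁ tL)⁻¹ := by
    rw [s18_coord_inv, map_inv₀, hcoord]
  have hWt : ((W (s18_coord K₁ tL) : s18_F1 K₁ (N₁ * q)) : LaurentSeries K₁) =
      qExpand K₁ q ((s18_coord K₁ tL : s18_F1 K₁ (N₁ * q)) : LaurentSeries K₁) := by
    rw [← hcoord, hWα, coe_heckeBetaBar, coe_heckeAlphaBar]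
  obtain ⟨hW0, hWi⟩ := s34_ws_chart_stable N₁ q M hq hqN hqM hMN A hA K₁ (s18_coord K₁ tL) hHaupt
    (W : s18_F1 K₁ (N₁ * q) →+* s18_F1 K₁ (N₁ * q)) hWc hWt
  have hsmInf : s18_SmHyp ((q : ℕ) : s18_A1 A K₁) (s18_coord K₁ t₀⁻¹)
      (s18_chAlg N₁ q (s18_A1 A K₁) t₀⁻¹) := by
    rw [s18_coord_inv]
    exact hP.smInf
  have hchInf : s18_Chart (algebraMap (s18_A1 A K₁) (s18_F1 K₁ N₁) ((q : ℕ) : s18_A1 A K₁))
      (s18_chAlg N₁ q (s18_A1 A K₁) t₀⁻¹).toSubring := hT.chartInf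
  have hκ := (s34_ei_model_haupt (K := K₁) (A₁ := s18_A1 A K₁) (N := N₁) (ℓ := q) hM23 hqN hirr 1
    (by rw [mul_one]) W (hWc _) hWα hWβ).2
  exact ⟨s36_xi3_chart hR h hBc hT.chart0 hP.sm0
      (fun 𝔪₁ h𝔪₁ hπ => s36_lc_chart_reg hR hsurj hℓ₀ t₀ hch0 𝔪₁ h𝔪₁ hπ)
      (s18_coord K₁ tL) hcoord W hWW hWα (fun x hx => hW0 x hx) hκ Ts hTs e he hlead h01 hcap0
      hpole0,
    s36_xi3_chart hR h.inv hBc hchInf hsmInf
      (fun 𝔪₁ h𝔪₁ hπ => s36_lc_chart_reg hR hsurj hℓ₀ t₀⁻¹ hchi 𝔪₁ h𝔪₁ hπ)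
      (s18_coord K₁ tL)⁻¹ hcoord' W hWW hWα (fun x hx => hWi x hx) hκ Ti hTi e' he' hlead' hi1
      hcapi hpolei⟩

include hA in
/-- **Crossing points of the nodal model of level `N₁ q`, Hauptmodul `t_2`** (`2 ∣ N₁`), over
`A₁ = P ∩ K₁` for ANY number field `K₁ ⊆ Q̄` in which `q` is a uniformizer at `P` (no Galois
hypothesis): both charts lie in `V∞`, and thickness one holds at every crossing point of both
charts, in the shape of `hq` of `s36_clq_main`; the only hypothesis left is the pole. -/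
theorem s36_xi3_t2 (hqN : ¬ q ∣ N₁) (h2 : 2 ∣ N₁)
    (hirr : Irreducible ((q : ℕ) : s18_A1 A K₁))
    (W : s18_F1 K₁ (N₁ * q) ≃ₐ[K₁] s18_F1 K₁ (N₁ * q)) (hW : s34_md_IsSwap K₁ N₁ q W)
    (hpole0 : ∀ h01 : (s34_md_B0 A K₁ (N₁ * q)
        (s18_cz_t2 (N₁ * q) (dvd_mul_of_dvd_left h2 q))).toSubring ≤ s34_md_V1 A K₁ (N₁ * q),
      s36_xi3_Pole N₁ q (s18_A1 A K₁) (s18_cz_t2 N₁ h2)
        (W : s18_F1 K₁ (N₁ * q) ≃+* s18_F1 K₁ (N₁ * q))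
        (s34_md_B0 A K₁ (N₁ * q) (s18_cz_t2 (N₁ * q) (dvd_mul_of_dvd_left h2 q))).toSubring h01)
    (hpolei : ∀ hi1 : (s34_md_Binf A K₁ (N₁ * q)
        (s18_cz_t2 (N₁ * q) (dvd_mul_of_dvd_left h2 q))).toSubring ≤ s34_md_V1 A K₁ (N₁ * q),
      s36_xi3_Pole N₁ q (s18_A1 A K₁) (s18_cz_t2 N₁ h2)⁻¹
        (W : s18_F1 K₁ (N₁ * q) ≃+* s18_F1 K₁ (N₁ * q))
        (s34_md_Binf A K₁ (N₁ * q) (s18_cz_t2 (N₁ * q) (dvd_mul_of_dvd_left h2 q))).toSubring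
        hi1) :
    (s34_md_B0 A K₁ (N₁ * q) (s18_cz_t2 (N₁ * q) (dvd_mul_of_dvd_left h2 q))).toSubring ≤
      s34_md_V1 A K₁ (N₁ * q) ∧
    (s34_md_Binf A K₁ (N₁ * q) (s18_cz_t2 (N₁ * q) (dvd_mul_of_dvd_left h2 q))).toSubring ≤
      s34_md_V1 A K₁ (N₁ * q) ∧
    s36_xi3_Hq N₁ q (s18_A1 A K₁) (W : s18_F1 K₁ (N₁ * q) ≃+* s18_F1 K₁ (N₁ * q))
      (s34_md_B0 A K₁ (N₁ * q) (s18_cz_t2 (N₁ * q) (dvd_mul_of_dvd_left h2 q))).toSubring ∧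
    s36_xi3_Hq N₁ q (s18_A1 A K₁) (W : s18_F1 K₁ (N₁ * q) ≃+* s18_F1 K₁ (N₁ * q))
      (s34_md_Binf A K₁ (N₁ * q) (s18_cz_t2 (N₁ * q) (dvd_mul_of_dvd_left h2 q))).toSubring := by
  have hq : q.Prime := Fact.out
  have hqM : q ≠ 2 := fun h => hqN (h ▸ h2)
  have hcast : (((q : ℕ) : s18_A1 A K₁) : K₁) = (q : K₁) := by push_cast; rfl
  -- (cap), non-Galois
  have hcap := s36_cn_ct_cap N₁ q hqN A hA K₁ ((q : ℕ) : s18_A1 A K₁) hirr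
    (s18_cz_t2 (N₁ * q) (dvd_mul_of_dvd_left h2 q)) (Or.inl ⟨rfl, h2⟩) W hW
  have hϖ : algebraMap (s18_A1 A K₁) (s18_F1 K₁ (N₁ * q)) ((q : ℕ) : s18_A1 A K₁) =
      algebraMap K₁ (s18_F1 K₁ (N₁ * q)) (q : K₁) := by
    show algebraMap K₁ (s18_F1 K₁ (N₁ * q)) (((q : ℕ) : s18_A1 A K₁) : K₁) = _
    rw [hcast]
  unfold s34_md_Cap at hcap
  rw [hϖ] at hcap
  obtain ⟨hWα, hWβ, hWW, -, -⟩ := hW
  -- the rational chart, over `K₀ = ⊥`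
  have hnf₀ : NumberField (⊥ : IntermediateField ℚ (AlgebraicClosure ℚ)) :=
    { to_charZero := inferInstance, to_finiteDimensional := inferInstance }
  have hdvr₀ : IsDiscreteValuationRing
      (s18_A1 A (⊥ : IntermediateField ℚ (AlgebraicClosure ℚ))) := s18_a1_dvr A hA ⊥
  obtain ⟨π₀, hπ₀⟩ := IsDiscreteValuationRing.exists_irreducible
    (s18_A1 A (⊥ : IntermediateField ℚ (AlgebraicClosure ℚ)))
  have hT₀ := s36_cn_twoChart_t2 N₁ A hA (⊥ : IntermediateField ℚ (AlgebraicClosure ℚ)) hqN h2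
    π₀ hπ₀
  have hsurj : Function.Surjective
      (algebraMap ℚ (⊥ : IntermediateField ℚ (AlgebraicClosure ℚ))) := by
    rintro ⟨x, hx⟩
    obtain ⟨r, rfl⟩ := IntermediateField.mem_bot.mp hx
    exact ⟨r, Subtype.ext rfl⟩
  have he' : ¬ (q : ℤ) ∣ 1 := by
    intro h
    have h1 : q ∣ 1 := Int.natCast_dvd_natCast.mp (by exact_mod_cast h)
    exact hq.one_lt.ne' (Nat.dvd_one.mp h1)
  have he : ¬ (q : ℤ) ∣ -1 := fun h => he' ((dvd_neg).mp h)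
  -- (le)
  have hR : s18_ResBasis q (s18_A1 A K₁) ((q : ℕ) : s18_A1 A K₁) :=
    s18_a1_resbasis A hA K₁ _ hirr
  obtain ⟨Bc, hBc⟩ := core N₁ q hqN
  have hco := s18_cz_coord_t2 N₁ q h2 hqM
  have hcoord : heckeAlphaBar K₁ N₁ q (s18_coord K₁ (s18_cz_t2 N₁ h2)) =
      s18_coord K₁ (s18_cz_t2 (N₁ * q) (dvd_mul_of_dvd_left h2 q)) :=
    s34_lc_incl_coord q _ rfl
  have hcoord' : heckeAlphaBar K₁ N₁ q (s18_coord K₁ (s18_cz_t2 N₁ h2)⁻¹) =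
      (s18_coord K₁ (s18_cz_t2 (N₁ * q) (dvd_mul_of_dvd_left h2 q)))⁻¹ := by
    rw [s18_coord_inv, map_inv₀, hcoord]
  have h01 : (s34_md_B0 A K₁ (N₁ * q)
      (s18_cz_t2 (N₁ * q) (dvd_mul_of_dvd_left h2 q))).toSubring ≤ s34_md_V1 A K₁ (N₁ * q) := by
    have h1 := s34_ri_ic_le_V q hR hco hBc
    rw [hcoord] at h1
    exact h1
  have hi1 : (s34_md_Binf A K₁ (N₁ * q)
      (s18_cz_t2 (N₁ * q) (dvd_mul_of_dvd_left h2 q))).toSubring ≤ s34_md_V1 A K₁ (N₁ * q) := by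
    have h1 := s34_ri_ic_le_V q hR hco.inv hBc
    rw [hcoord'] at h1
    exact h1
  refine ⟨h01, hi1, ?_⟩
  exact s36_xi3_model N₁ q A hA K₁ hqN 2 hqM h2 (Or.inl h2) hirr (s18_cz_t2 N₁ h2)
    (s18_cz_t2 (N₁ * q) (dvd_mul_of_dvd_left h2 q)) rfl (s18_cz_coord_t2 N₁ q h2 hqM)
    (s36_cn_twoChart_t2 N₁ A hA K₁ hqN h2 _ hirr)
    (s36_ng_ch_pkg_t2 (K := K₁) (A := s18_A1 A K₁) (s18_a1_ell A hA K₁) hqN h2 _ hirr)
    hsurj (s18_a1_ell A hA ⊥) hT₀.chart0 hT₀.chartInf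
    (s34_ws_isHaupt_t2 (N₁ * q) K₁ (dvd_mul_of_dvd_left h2 q))
    s18_t2 s18_t2inv (s18_cz_hT_t2 N₁ h2) (s18_cz_hT_t2_inv N₁ h2) (-1) 1 he he'
    s18_cz_isLeading_t2.1 s18_cz_isLeading_t2inv.1
    (W : s18_F1 K₁ (N₁ * q) ≃+* s18_F1 K₁ (N₁ * q)) (fun c => W.commutes c) hWα hWβ hWW
    h01 hi1 hcap.1 hcap.2 (hpole0 h01) (hpolei hi1)

include hA in
/-- **Crossing points of the nodal model of level `N₁ q`, Hauptmodul `t_3`** (`3 ∣ N₁`), over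
`A₁ = P ∩ K₁` for ANY number field `K₁ ⊆ Q̄` in which `q` is a uniformizer at `P` (no Galois
hypothesis): both charts lie in `V∞`, and thickness one holds at every crossing point of both
charts, in the shape of `hq` of `s36_clq_main`; the only hypothesis left is the pole. -/
theorem s36_xi3_t3 (hqN : ¬ q ∣ N₁) (h3 : 3 ∣ N₁)
    (hirr : Irreducible ((q : ℕ) : s18_A1 A K₁))
    (W : s18_F1 K₁ (N₁ * q) ≃ₐ[K₁] s18_F1 K₁ (N₁ * q)) (hW : s34_md_IsSwap K₁ N₁ q W)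
    (hpole0 : ∀ h01 : (s34_md_B0 A K₁ (N₁ * q)
        (s18_cz_t3 (N₁ * q) (dvd_mul_of_dvd_left h3 q))).toSubring ≤ s34_md_V1 A K₁ (N₁ * q),
      s36_xi3_Pole N₁ q (s18_A1 A K₁) (s18_cz_t3 N₁ h3)
        (W : s18_F1 K₁ (N₁ * q) ≃+* s18_F1 K₁ (N₁ * q))
        (s34_md_B0 A K₁ (N₁ * q) (s18_cz_t3 (N₁ * q) (dvd_mul_of_dvd_left h3 q))).toSubring h01)
    (hpolei : ∀ hi1 : (s34_md_Binf A K₁ (N₁ * q)
        (s18_cz_t3 (N₁ * q) (dvd_mul_of_dvd_left h3 q))).toSubring ≤ s34_md_V1 A K₁ (N₁ * q),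
      s36_xi3_Pole N₁ q (s18_A1 A K₁) (s18_cz_t3 N₁ h3)⁻¹
        (W : s18_F1 K₁ (N₁ * q) ≃+* s18_F1 K₁ (N₁ * q))
        (s34_md_Binf A K₁ (N₁ * q) (s18_cz_t3 (N₁ * q) (dvd_mul_of_dvd_left h3 q))).toSubring
        hi1) :
    (s34_md_B0 A K₁ (N₁ * q) (s18_cz_t3 (N₁ * q) (dvd_mul_of_dvd_left h3 q))).toSubring ≤
      s34_md_V1 A K₁ (N₁ * q) ∧
    (s34_md_Binf A K₁ (N₁ * q) (s18_cz_t3 (N₁ * q) (dvd_mul_of_dvd_left h3 q))).toSubring ≤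
      s34_md_V1 A K₁ (N₁ * q) ∧
    s36_xi3_Hq N₁ q (s18_A1 A K₁) (W : s18_F1 K₁ (N₁ * q) ≃+* s18_F1 K₁ (N₁ * q))
      (s34_md_B0 A K₁ (N₁ * q) (s18_cz_t3 (N₁ * q) (dvd_mul_of_dvd_left h3 q))).toSubring ∧
    s36_xi3_Hq N₁ q (s18_A1 A K₁) (W : s18_F1 K₁ (N₁ * q) ≃+* s18_F1 K₁ (N₁ * q))
      (s34_md_Binf A K₁ (N₁ * q) (s18_cz_t3 (N₁ * q) (dvd_mul_of_dvd_left h3 q))).toSubring := by
  have hq : q.Prime := Fact.out
  have hqM : q ≠ 3 := fun h => hqN (h ▸ h3)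
  have hcast : (((q : ℕ) : s18_A1 A K₁) : K₁) = (q : K₁) := by push_cast; rfl
  -- (cap), non-Galois
  have hcap := s36_cn_ct_cap N₁ q hqN A hA K₁ ((q : ℕ) : s18_A1 A K₁) hirr
    (s18_cz_t3 (N₁ * q) (dvd_mul_of_dvd_left h3 q)) (Or.inr ⟨rfl, h3⟩) W hW
  have hϖ : algebraMap (s18_A1 A K₁) (s18_F1 K₁ (N₁ * q)) ((q : ℕ) : s18_A1 A K₁) =
      algebraMap K₁ (s18_F1 K₁ (N₁ * q)) (q : K₁) := by
    show algebraMap K₁ (s18_F1 K₁ (N₁ * q)) (((q : ℕ) : s18_A1 A K₁) : K₁) = _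
    rw [hcast]
  unfold s34_md_Cap at hcap
  rw [hϖ] at hcap
  obtain ⟨hWα, hWβ, hWW, -, -⟩ := hW
  -- the rational chart, over `K₀ = ⊥`
  have hnf₀ : NumberField (⊥ : IntermediateField ℚ (AlgebraicClosure ℚ)) :=
    { to_charZero := inferInstance, to_finiteDimensional := inferInstance }
  have hdvr₀ : IsDiscreteValuationRing
      (s18_A1 A (⊥ : IntermediateField ℚ (AlgebraicClosure ℚ))) := s18_a1_dvr A hA ⊥
  obtain ⟨π₀, hπ₀⟩ := IsDiscreteValuationRing.exists_irreducible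
    (s18_A1 A (⊥ : IntermediateField ℚ (AlgebraicClosure ℚ)))
  have hT₀ := s36_cn_twoChart_t3 N₁ A hA (⊥ : IntermediateField ℚ (AlgebraicClosure ℚ)) hqN h3
    π₀ hπ₀
  have hsurj : Function.Surjective
      (algebraMap ℚ (⊥ : IntermediateField ℚ (AlgebraicClosure ℚ))) := by
    rintro ⟨x, hx⟩
    obtain ⟨r, rfl⟩ := IntermediateField.mem_bot.mp hx
    exact ⟨r, Subtype.ext rfl⟩
  have he' : ¬ (q : ℤ) ∣ 1 := by
    intro h
    have h1 : q ∣ 1 := Int.natCast_dvd_natCast.mp (by exact_mod_cast h)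
    exact hq.one_lt.ne' (Nat.dvd_one.mp h1)
  have he : ¬ (q : ℤ) ∣ -1 := fun h => he' ((dvd_neg).mp h)
  -- (le)
  have hR : s18_ResBasis q (s18_A1 A K₁) ((q : ℕ) : s18_A1 A K₁) :=
    s18_a1_resbasis A hA K₁ _ hirr
  obtain ⟨Bc, hBc⟩ := core N₁ q hqN
  have hco := s18_cz_coord_t3 N₁ q h3 hqM
  have hcoord : heckeAlphaBar K₁ N₁ q (s18_coord K₁ (s18_cz_t3 N₁ h3)) =
      s18_coord K₁ (s18_cz_t3 (N₁ * q) (dvd_mul_of_dvd_left h3 q)) :=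
    s34_lc_incl_coord q _ rfl
  have hcoord' : heckeAlphaBar K₁ N₁ q (s18_coord K₁ (s18_cz_t3 N₁ h3)⁻¹) =
      (s18_coord K₁ (s18_cz_t3 (N₁ * q) (dvd_mul_of_dvd_left h3 q)))⁻¹ := by
    rw [s18_coord_inv, map_inv₀, hcoord]
  have h01 : (s34_md_B0 A K₁ (N₁ * q)
      (s18_cz_t3 (N₁ * q) (dvd_mul_of_dvd_left h3 q))).toSubring ≤ s34_md_V1 A K₁ (N₁ * q) := by
    have h1 := s34_ri_ic_le_V q hR hco hBc
    rw [hcoord] at h1
    exact h1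
  have hi1 : (s34_md_Binf A K₁ (N₁ * q)
      (s18_cz_t3 (N₁ * q) (dvd_mul_of_dvd_left h3 q))).toSubring ≤ s34_md_V1 A K₁ (N₁ * q) := by
    have h1 := s34_ri_ic_le_V q hR hco.inv hBc
    rw [hcoord'] at h1
    exact h1
  refine ⟨h01, hi1, ?_⟩
  exact s36_xi3_model N₁ q A hA K₁ hqN 3 hqM h3 (Or.inr h3) hirr (s18_cz_t3 N₁ h3)
    (s18_cz_t3 (N₁ * q) (dvd_mul_of_dvd_left h3 q)) rfl (s18_cz_coord_t3 N₁ q h3 hqM)
    (s36_cn_twoChart_t3 N₁ A hA K₁ hqN h3 _ hirr)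
    (s36_ng_ch_pkg_t3 (K := K₁) (A := s18_A1 A K₁) (s18_a1_ell A hA K₁) hqN h3 _ hirr)
    hsurj (s18_a1_ell A hA ⊥) hT₀.chart0 hT₀.chartInf
    (s34_ws_isHaupt_t3 (N₁ * q) K₁ (dvd_mul_of_dvd_left h3 q))
    s18_t3 s18_t3inv (s18_cz_hT_t3 N₁ h3) (s18_cz_hT_t3_inv N₁ h3) (-1) 1 he he'
    s18_cz_isLeading_t3.1 s18_cz_isLeading_t3inv.1
    (W : s18_F1 K₁ (N₁ * q) ≃+* s18_F1 K₁ (N₁ * q)) (fun c => W.commutes c) hWα hWβ hWW
    h01 hi1 hcap.1 hcap.2 (hpole0 h01) (hpolei hi1)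

end Model

end Fermat.Agent.S36
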