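import Fermat.Agent.S36.QThick
import Fermat.Agent.S34.GaussInf

/-!
# S36 (NODE-3), B2 route (a): the `q`-series half of the crossing-point instantiation

Generic model vocabulary (no Galois hypothesis): `K` a field over `ℚ`, `A` a valuation subring of
`K` which is a DVR with residue characteristic `ℓ` and in which `ℓ` is a UNIFORMIZER
(`A` unramified: `hirr : Irreducible (ℓ : A)`), `F_N = laurentBaseChange K (modularFunctionFieldFull N)`
at any level `N`, `V∞ = s34_gi_V A N` the Gauss ring, `red = s34_gi_red A N : V∞ →+* k((Q))`,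
`θ = s36_qt_theta k`.

For `x ∈ F_N` with RATIONAL Gauss-integral `q`-expansion (`x₀ ∈ Wring ℓ`) and `g ∈ F_N` with
`g(Q) = x(Q^ℓ)`:

* `s36_tm_hfix` : the reduction of `x` has Frobenius-fixed coefficients;
* `s36_tm_series` : `a := (x^ℓ - x(Q^ℓ))/ℓ` is Gauss-integral and
  `θ ā = x̄^(ℓ-1) θ x̄ - (θ x̄)^ℓ`;
* `s36_tm_main` : `X, G, Aa ∈ V∞` with `ℓ · Aa = x^ℓ - g`; `red G = (red X)^ℓ`;
  with `v := X - G^ℓ` and `γ := -(Aa · v)` (so `(g - x^ℓ) · v = ℓ · γ`):
  `red v = x̄ - x̄^(ℓ²)` and the thickness identity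
  `v̄² (θ x̄)^ℓ = v̄² x̄^(ℓ-1) θ x̄ + v̄ θ γ̄ - γ̄ θ x̄`
  — the hypotheses `hvx`, `hid` of `s36_th_core` / `s36_th_core_D` / `s36_gu_main`.
-/

set_option autoImplicit false
set_option linter.unusedSectionVars false
set_option linter.unusedVariables false

open ModularCurve

noncomputable section

namespace Fermat.Agent.S36

open Fermat.Agent.S18 Fermat.Agent.S28 Fermat.Agent.S34 Fermat.Agent.S37

section Rat

variable (ℓ : ℕ) [NeZero ℓ] [Fact ℓ.Prime]
variable {K : Type*} [Field K] [Algebra ℚ K] (A : ValuationSubring K)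

/-- The reduction of a rational Gauss-integral series has Frobenius-fixed coefficients. -/
theorem s36_tm_hfix [CharP (IsLocalRing.ResidueField A) ℓ] (hℓ : ((ℓ : K))⁻¹ ∉ A)
    (x₀ : LaurentSeries ℚ) (hx₀ : x₀ ∈ Wring ℓ)
    (hx : coeffMap (algebraMap ℚ K) x₀ ∈ s18_W A.subtype (IsLocalRing.residue A)) :
    coeffMap (frobenius (IsLocalRing.ResidueField A) ℓ)
        (s18_red (ι := A.subtype) (ρ := IsLocalRing.residue A) Subtype.val_injective
          ⟨coeffMap (algebraMap ℚ K) x₀, hx⟩) =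
      s18_red (ι := A.subtype) (ρ := IsLocalRing.residue A) Subtype.val_injective
        ⟨coeffMap (algebraMap ℚ K) x₀, hx⟩ := by
  have hx₀' : x₀ ∈ s18_W (GaloisRep.ratLocalizedAt ℓ).subtype (redR ℓ) := by
    rw [← s18_Wring_eq]
    exact hx₀
  rw [s18_red_map (s18_subtype_injective (ℓ := ℓ)) (s18_valSubtype_injective (A := A))
    (s18_zToA ℓ A hℓ) (algebraMap ℚ K) (s18_zmodToRes ℓ A hℓ) (s18_comp_sub ℓ A hℓ)
    (s18_comp_res ℓ A hℓ) ⟨x₀, hx₀'⟩ hx, coeffMap_coeffMap]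
  refine coeffMap_congr (RingHom.ext fun a => ?_) _
  rw [RingHom.comp_apply, frobenius_def, ← map_pow, ZMod.pow_card]

/-- **Frobenius quotient.** For a rational Gauss-integral series `x` over an unramified `A`:
`a := (x^ℓ - x(Q^ℓ))/ℓ` lies in the Gauss ring, and `θ ā = x̄^(ℓ-1) θ x̄ - (θ x̄)^ℓ`. -/
theorem s36_tm_series [IsDiscreteValuationRing A] (hℓ : ((ℓ : K))⁻¹ ∉ A)
    (hirr : Irreducible ((ℓ : ℕ) : A)) (x₀ : LaurentSeries ℚ) (hx₀ : x₀ ∈ Wring ℓ) :
    ∃ (hx : coeffMap (algebraMap ℚ K) x₀ ∈ s18_W A.subtype (IsLocalRing.residue A))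
      (a : LaurentSeries K) (ha : a ∈ s18_W A.subtype (IsLocalRing.residue A)),
      HahnSeries.C (ℓ : K) * a =
        coeffMap (algebraMap ℚ K) x₀ ^ ℓ - qExpand K ℓ (coeffMap (algebraMap ℚ K) x₀) ∧
      s36_qt_theta (IsLocalRing.ResidueField A)
          (s18_red (ι := A.subtype) (ρ := IsLocalRing.residue A) Subtype.val_injective ⟨a, ha⟩) =
        s18_red (ι := A.subtype) (ρ := IsLocalRing.residue A) Subtype.val_injective
            ⟨coeffMap (algebraMap ℚ K) x₀, hx⟩ ^ (ℓ - 1) *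
          s36_qt_theta (IsLocalRing.ResidueField A)
            (s18_red (ι := A.subtype) (ρ := IsLocalRing.residue A) Subtype.val_injective
              ⟨coeffMap (algebraMap ℚ K) x₀, hx⟩)
        - s36_qt_theta (IsLocalRing.ResidueField A)
            (s18_red (ι := A.subtype) (ρ := IsLocalRing.residue A) Subtype.val_injective
              ⟨coeffMap (algebraMap ℚ K) x₀, hx⟩) ^ ℓ := by
  have := s18_charP_res ℓ A hℓ
  have hx := s34_fc_rat_mem_W ℓ A hℓ x₀ hx₀
  obtain ⟨z, hz, e⟩ := s34_fc_frob_rat ℓ A hℓ hirr x₀ hx₀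
  have hcast : (((ℓ : ℕ) : A) : K) = (ℓ : K) := by push_cast; rfl
  rw [hcast] at e
  have hqL : (ℓ : K) ≠ 0 := by
    intro h
    apply hℓ
    rw [h, inv_zero]
    exact A.zero_mem
  have hxa : HahnSeries.C (ℓ : K) * (-z) =
      coeffMap (algebraMap ℚ K) x₀ ^ ℓ - qExpand K ℓ (coeffMap (algebraMap ℚ K) x₀) := by
    rw [mul_neg, ← e]
    ring
  refine ⟨hx, -z, (s18_W A.subtype (IsLocalRing.residue A)).neg_mem hz, hxa, ?_⟩
  exact s36_qk_frob_theta Subtype.val_injective ℓ hqL _ _ hx _ hxa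
    (s36_tm_hfix ℓ A hℓ x₀ hx₀ hx)

end Rat

section Model

variable (ℓ : ℕ) [NeZero ℓ] [Fact ℓ.Prime]
variable {K : Type*} [Field K] [Algebra ℚ K] (A : ValuationSubring K) (N : ℕ)

/-- **The `q`-series half of the crossing-point instantiation.**  `x ∈ F_N` with rational
Gauss-integral expansion, `g(Q) = x(Q^ℓ)`; `A` unramified.  Output: `X, G, Aa ∈ V∞` with
`ℓ · Aa = x^ℓ - g`, `red G = (red X)^ℓ`, and for `v := X - G^ℓ`, `γ := -(Aa · v)`:
`red v = x̄ - x̄^(ℓ²)` and the thickness identity. -/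
theorem s36_tm_main [IsDiscreteValuationRing A] (hℓ : ((ℓ : K))⁻¹ ∉ A)
    (hirr : Irreducible ((ℓ : ℕ) : A))
    (x g : laurentBaseChange K (modularFunctionFieldFull N))
    (x₀ : LaurentSeries ℚ) (hx₀ : x₀ ∈ Wring ℓ)
    (hx : (x : LaurentSeries K) = coeffMap (algebraMap ℚ K) x₀)
    (hg : (g : LaurentSeries K) = qExpand K ℓ (x : LaurentSeries K)) :
    ∃ X G Aa : s34_gi_V A N,
      (X : laurentBaseChange K (modularFunctionFieldFull N)) = x ∧
      (G : laurentBaseChange K (modularFunctionFieldFull N)) = g ∧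
      algebraMap K (laurentBaseChange K (modularFunctionFieldFull N)) (ℓ : K) *
          (Aa : laurentBaseChange K (modularFunctionFieldFull N)) = x ^ ℓ - g ∧
      s34_gi_red A N G = s34_gi_red A N X ^ ℓ ∧
      s34_gi_red A N (X - G ^ ℓ) = s34_gi_red A N X - s34_gi_red A N X ^ (ℓ ^ 2) ∧
      s34_gi_red A N (X - G ^ ℓ) ^ 2 *
          s36_qt_theta (IsLocalRing.ResidueField A) (s34_gi_red A N X) ^ ℓ =
        s34_gi_red A N (X - G ^ ℓ) ^ 2 * s34_gi_red A N X ^ (ℓ - 1) *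
            s36_qt_theta (IsLocalRing.ResidueField A) (s34_gi_red A N X)
          + s34_gi_red A N (X - G ^ ℓ) *
            s36_qt_theta (IsLocalRing.ResidueField A) (s34_gi_red A N (-(Aa * (X - G ^ ℓ))))
          - s34_gi_red A N (-(Aa * (X - G ^ ℓ))) *
            s36_qt_theta (IsLocalRing.ResidueField A) (s34_gi_red A N X) := by
  have := s18_charP_res ℓ A hℓ
  obtain ⟨hxW, a, ha, hxa, hθa⟩ := s36_tm_series ℓ A hℓ hirr x₀ hx₀
  have hqL : (ℓ : K) ≠ 0 := by
    intro h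
    apply hℓ
    rw [h, inv_zero]
    exact A.zero_mem
  have hC0 : (HahnSeries.C (ℓ : K) : LaurentSeries K) ≠ 0 := by
    rw [Ne, map_eq_zero]
    exact hqL
  -- membership
  have hxV : x ∈ s34_gi_V A N := by
    show (x : LaurentSeries K) ∈ s18_W A.subtype (IsLocalRing.residue A)
    rw [hx]
    exact hxW
  have hgV : g ∈ s34_gi_V A N := by
    show (g : LaurentSeries K) ∈ s18_W A.subtype (IsLocalRing.residue A)
    rw [hg, hx]
    exact s34_fc_qExpand_mem_W ℓ hxW
  have hacoe : (((algebraMap K (laurentBaseChange K (modularFunctionFieldFull N)) (ℓ : K))⁻¹ *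
      (x ^ ℓ - g) : laurentBaseChange K (modularFunctionFieldFull N)) : LaurentSeries K) = a := by
    have h1 : (((algebraMap K (laurentBaseChange K (modularFunctionFieldFull N)) (ℓ : K))⁻¹ *
        (x ^ ℓ - g) : laurentBaseChange K (modularFunctionFieldFull N)) : LaurentSeries K) =
        (HahnSeries.C (ℓ : K))⁻¹ * ((x : LaurentSeries K) ^ ℓ - (g : LaurentSeries K)) := by
      rw [← s34_gi_coe_algebraMap (N := N)]
      rfl
    rw [h1, hg, hx, ← hxa, ← mul_assoc, inv_mul_cancel₀ hC0, one_mul]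
  have haV : (algebraMap K (laurentBaseChange K (modularFunctionFieldFull N)) (ℓ : K))⁻¹ *
      (x ^ ℓ - g) ∈ s34_gi_V A N := by
    show (((algebraMap K (laurentBaseChange K (modularFunctionFieldFull N)) (ℓ : K))⁻¹ *
      (x ^ ℓ - g) : laurentBaseChange K (modularFunctionFieldFull N)) : LaurentSeries K) ∈
        s18_W A.subtype (IsLocalRing.residue A)
    rw [hacoe]
    exact ha
  have hℓF : algebraMap K (laurentBaseChange K (modularFunctionFieldFull N)) (ℓ : K) ≠ 0 := by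
    rw [Ne, map_eq_zero]
    exact hqL
  -- reductions
  have eX : s34_gi_red A N ⟨x, hxV⟩ =
      s18_red (ι := A.subtype) (ρ := IsLocalRing.residue A) Subtype.val_injective
        ⟨coeffMap (algebraMap ℚ K) x₀, hxW⟩ := by
    show s18_red (ι := A.subtype) (ρ := IsLocalRing.residue A) Subtype.val_injective
      (s34_gi_toW A N ⟨x, hxV⟩) = _
    congr 1
    exact Subtype.ext hx
  have eA : s34_gi_red A N ⟨_, haV⟩ =
      s18_red (ι := A.subtype) (ρ := IsLocalRing.residue A) Subtype.val_injective ⟨a, ha⟩ := by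
    show s18_red (ι := A.subtype) (ρ := IsLocalRing.residue A) Subtype.val_injective
      (s34_gi_toW A N ⟨_, haV⟩) = _
    congr 1
    exact Subtype.ext hacoe
  have eG : s34_gi_red A N ⟨g, hgV⟩ = s34_gi_red A N ⟨x, hxV⟩ ^ ℓ := by
    rw [eX, ← s36_qk_red_qExpand Subtype.val_injective ℓ _ hxW (s36_tm_hfix ℓ A hℓ x₀ hx₀ hxW)]
    show s18_red (ι := A.subtype) (ρ := IsLocalRing.residue A) Subtype.val_injective
      (s34_gi_toW A N ⟨g, hgV⟩) = _
    congr 1
    apply Subtype.ext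
    show (g : LaurentSeries K) = qExpand K ℓ (coeffMap (algebraMap ℚ K) x₀)
    rw [hg, hx]
  have hθ : s36_qt_theta (IsLocalRing.ResidueField A) (s34_gi_red A N ⟨_, haV⟩) =
      s34_gi_red A N ⟨x, hxV⟩ ^ (ℓ - 1) *
          s36_qt_theta (IsLocalRing.ResidueField A) (s34_gi_red A N ⟨x, hxV⟩)
        - s36_qt_theta (IsLocalRing.ResidueField A) (s34_gi_red A N ⟨x, hxV⟩) ^ ℓ := by
    rw [eA, eX]
    exact hθa
  have ev : s34_gi_red A N ((⟨x, hxV⟩ : s34_gi_V A N) - ⟨g, hgV⟩ ^ ℓ) =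
      s34_gi_red A N ⟨x, hxV⟩ - s34_gi_red A N ⟨x, hxV⟩ ^ (ℓ ^ 2) := by
    rw [map_sub, map_pow, eG, ← pow_mul, ← pow_two]
  refine ⟨⟨x, hxV⟩, ⟨g, hgV⟩, ⟨_, haV⟩, rfl, rfl, ?_, eG, ev, ?_⟩
  · show algebraMap K (laurentBaseChange K (modularFunctionFieldFull N)) (ℓ : K) *
      ((algebraMap K (laurentBaseChange K (modularFunctionFieldFull N)) (ℓ : K))⁻¹ *
        (x ^ ℓ - g)) = x ^ ℓ - g
    rw [← mul_assoc, mul_inv_cancel₀ hℓF, one_mul]
  · have hγ := s36_qk_gamma ℓ (s34_gi_red A N ⟨x, hxV⟩) (s34_gi_red A N ⟨_, haV⟩) hθ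
    rw [map_neg, map_mul, ev]
    exact hγ

end Model

end Fermat.Agent.S36
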