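import Fermat.Agent.S36.CrossCusp
import Fermat.Agent.S36.PerPoint
import Fermat.Agent.S36.ThickModel
import Fermat.Agent.S18.HauptField

/-!
# S36 (NODE-3), B2 route (a), `q ≥ 5`: the unit package at a crossing point (model instance)

`s36_xcu_unit` (`CrossCusp.lean`) says that a crossing point of a chart is not a cusp, given the
cusp ratio `G = x^q / x'` in the chart and two congruences.  Here:

* `s36_xun_cong` (abstract): the two congruences `ϖ⁻¹ (G - 1) ∈ V`, `ϖ⁻¹ (G - x'^(q²-1)) ∈ V.comap W`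
  from the Kronecker congruence `ϖ a = x^q - x'` (`a ∈ V`), the swap `W x = x'`, `W x' = x` and
  `x, x'` units of `V`;
* `s36_xun_unit_abs` : hence `x ∉ 𝔪`, `x' ∉ 𝔪` at every prime `𝔪 ⊇ P₁ + P₂`;
* `s36_xun_unit` (generic Gauss model, any level `M`): the same for `x` with a rational
  Gauss-integral `q`-expansion and `x'(Q) = x(Q^ℓ)` (Kronecker congruence from `s36_tm_main`);
* `s36_xun_choice_two` / `s36_xun_choice_three` (abstract, local-ring form): from `y₂, y₂⁻¹ ∈ B_𝔪`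
  (resp. `y₃, y₃⁻¹ ∈ B_𝔪`), `B` normal, `6` a unit at `𝔪`: the other function and its inverse lie in
  `B_𝔪`, and `(y₂ + 64)⁻¹ ∈ B_𝔪` or `(y₃ + 27)⁻¹ ∈ B_𝔪`;
* `s36_xun_rel` : the `j`-relations for functions with expansions `φ (t₂)`, `φ (t₃)` (`φ` any ring
  endomorphism of `K((Q))`, e.g. `qExpand K ℓ` or the identity);
* `s36_xun_point` : the whole package at a crossing point of a chart whose coordinate is one of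
  `t₂, t₂⁻¹, t₃, t₃⁻¹`: `t₂^{±1}, t₃^{±1}, t₂(Q^ℓ)^{±1}, t₃(Q^ℓ)^{±1} ∈ B_𝔪` and
  `(t₂(Q^ℓ) + 64)⁻¹ ∈ B_𝔪 ∨ (t₃(Q^ℓ) + 27)⁻¹ ∈ B_𝔪`.
-/

set_option autoImplicit false
set_option linter.unusedSectionVars false
set_option linter.unusedVariables false

open ModularCurve

noncomputable section

namespace Fermat.Agent.S36

open Fermat.Agent.S18 Fermat.Agent.S28 Fermat.Agent.S34 Fermat.Agent.S37

section Abs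

variable {F : Type*} [Field F]

/-- **The two congruences of the cusp ratio** `G = x^q / x'`. -/
theorem s36_xun_cong (V : Subring F) (W : F ≃+* F) (ϖ : F) (hϖ0 : ϖ ≠ 0) (hWϖ : W ϖ = ϖ)
    (q : ℕ) (hq : 1 ≤ q) (x x' G a : F) (hWx : W x = x') (hWx' : W x' = x)
    (hx : x ∈ V) (hx' : x' ∈ V) (hxi : x⁻¹ ∈ V) (hx'i : x'⁻¹ ∈ V) (hx0 : x ≠ 0)
    (ha : a ∈ V) (hxa : ϖ * a = x ^ q - x') (hG : G * x' = x ^ q) :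
    ϖ⁻¹ * (G - 1) ∈ V ∧ ϖ⁻¹ * (G - x' ^ (q ^ 2 - 1)) ∈ V.comap (W : F →+* F) := by
  have hx'0 : x' ≠ 0 := by
    rw [← hWx]
    exact (map_ne_zero W).mpr hx0
  have hGe : G = x ^ q * x'⁻¹ := by
    rw [← hG, mul_assoc, mul_inv_cancel₀ hx'0, mul_one]
  constructor
  · have e : ϖ⁻¹ * (G - 1) = a * x'⁻¹ := by
      have h1 : x ^ q * x'⁻¹ - 1 = (x ^ q - x') * x'⁻¹ := by
        rw [sub_mul, mul_inv_cancel₀ hx'0]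
      rw [hGe, h1, ← hxa, ← mul_assoc, ← mul_assoc, inv_mul_cancel₀ hϖ0, one_mul]
    rw [e]
    exact V.mul_mem ha hx'i
  · show W (ϖ⁻¹ * (G - x' ^ (q ^ 2 - 1))) ∈ V
    obtain ⟨c, hc⟩ := sub_dvd_pow_sub_pow (⟨x', hx'⟩ : V) (⟨x ^ q, V.pow_mem hx q⟩ : V) q
    have hc' : x' ^ q - (x ^ q) ^ q = (x' - x ^ q) * (c : F) := by
      have h := congrArg (Subtype.val) hc
      exact h
    have hWG : W G = x' ^ q * x⁻¹ := by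
      rw [hGe, map_mul, map_pow, map_inv₀, hWx, hWx']
    have hpow : x ^ (q ^ 2 - 1) = x⁻¹ * (x ^ q) ^ q := by
      have h1 : 1 ≤ q ^ 2 := Nat.one_le_pow _ _ hq
      have h2 : (x ^ q) ^ q = x ^ (q ^ 2 - 1) * x := by
        rw [← pow_mul, ← pow_two, ← pow_succ, Nat.sub_add_cancel h1]
      rw [h2, mul_comm, mul_assoc, mul_inv_cancel₀ hx0, mul_one]
    have hxa' : x' - x ^ q = -(ϖ * a) := by rw [hxa]; ring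
    have e : W (ϖ⁻¹ * (G - x' ^ (q ^ 2 - 1))) = -(a * (c : F) * x⁻¹) := by
      rw [map_mul, map_inv₀, hWϖ, map_sub, hWG, map_pow, hWx', hpow]
      have h3 : x' ^ q * x⁻¹ - x⁻¹ * (x ^ q) ^ q = (x' ^ q - (x ^ q) ^ q) * x⁻¹ := by ring
      rw [h3, hc', hxa']
      have h4 : ϖ⁻¹ * (-(ϖ * a) * (c : F) * x⁻¹) = -((ϖ⁻¹ * ϖ) * (a * (c : F) * x⁻¹)) := by ring
      rw [h4, inv_mul_cancel₀ hϖ0, one_mul]
    rw [e]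
    exact V.neg_mem (V.mul_mem (V.mul_mem ha c.2) hxi)

/-- **A crossing point is not a cusp** (abstract, from the Kronecker congruence and the swap). -/
theorem s36_xun_unit_abs {B V : Subring F} (W : F ≃+* F) (ϖ : F) (hϖ0 : ϖ ≠ 0) (hWϖ : W ϖ = ϖ)
    (𝔪 : Ideal B) [h𝔪 : 𝔪.IsPrime]
    (hP₁ : ∀ p : B, ϖ⁻¹ * (p : F) ∈ V → p ∈ 𝔪)
    (hP₂ : ∀ p : B, ϖ⁻¹ * (p : F) ∈ V.comap (W : F →+* F) → p ∈ 𝔪)
    (q : ℕ) (hq : 2 ≤ q) (x x' G : B) (a : F) (hWx : W (x : F) = x') (hWx' : W (x' : F) = x)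
    (hx : (x : F) ∈ V) (hx' : (x' : F) ∈ V) (hxi : ((x : F))⁻¹ ∈ V) (hx'i : ((x' : F))⁻¹ ∈ V)
    (hx0 : (x : F) ≠ 0) (ha : a ∈ V) (hxa : ϖ * a = (x : F) ^ q - x') (hG : G * x' = x ^ q) :
    x ∉ 𝔪 ∧ x' ∉ 𝔪 := by
  have hGF : (G : F) * (x' : F) = (x : F) ^ q := by
    have h := congrArg (Subtype.val) hG
    exact h
  obtain ⟨h1, h2⟩ := s36_xun_cong V W ϖ hϖ0 hWϖ q (by omega) x x' G a hWx hWx' hx hx' hxi hx'i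
    hx0 ha hxa hGF
  have hk : 0 < q ^ 2 - 1 := by
    have h4 : 2 ^ 2 ≤ q ^ 2 := Nat.pow_le_pow_left hq 2
    omega
  exact s36_xcu_unit 𝔪 hP₁ hP₂ x x' G q (q ^ 2 - 1) (by omega) hk hG h1 h2

/-- An element of `B` lies in `B_𝔪`. -/
theorem s36_xun_mem_loc (B : Subring F) (𝔪 : Ideal B) [h𝔪 : 𝔪.IsPrime] (b : B) :
    (b : F) ∈ s18_loc B 𝔪 :=
  ⟨b, 1, (Ideal.ne_top_iff_one 𝔪).mp h𝔪.ne_top, by simp⟩

/-- **Per-point package from `y₂`.** -/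
theorem s36_xun_choice_two (B : Subring F) (hnorm : ∀ z : F, IsIntegral B z → z ∈ B)
    (𝔪 : Ideal B) [h𝔪 : 𝔪.IsPrime] (h6 : ((6 : F))⁻¹ ∈ s18_loc B 𝔪) (h60 : (6 : F) ≠ 0)
    (J y₂ y₃ : F) (hy20 : y₂ ≠ 0) (hy30 : y₃ ≠ 0)
    (h2 : J * y₂ ^ 2 = (y₂ + 256) ^ 3) (h3 : J * y₃ ^ 3 = (y₃ + 27) * (y₃ + 243) ^ 3)
    (hy₂ : y₂ ∈ s18_loc B 𝔪) (hy₂' : y₂⁻¹ ∈ s18_loc B 𝔪) :
    y₃ ∈ s18_loc B 𝔪 ∧ y₃⁻¹ ∈ s18_loc B 𝔪 ∧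
      ((y₂ + 64)⁻¹ ∈ s18_loc B 𝔪 ∨ (y₃ + 27)⁻¹ ∈ s18_loc B 𝔪) := by
  have hy₂R : y₂ ∈ s18_locRing B 𝔪 := hy₂
  have hy₂R' : y₂⁻¹ ∈ s18_locRing B 𝔪 := hy₂'
  have h6R : ((6 : F))⁻¹ ∈ s18_locRing B 𝔪 := h6
  have h30 : (3 : F) ≠ 0 := fun h => h60 (by linear_combination 2 * h)
  have hJ : J ∈ s18_loc B 𝔪 := by
    have e : J = (y₂ + 256) ^ 3 * y₂⁻¹ ^ 2 := by
      have hy2p : y₂ ^ 2 ≠ 0 := pow_ne_zero 2 hy20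
      field_simp
      linear_combination h2
    rw [e]
    exact Subring.mul_mem (s18_locRing B 𝔪)
      (Subring.pow_mem _ (Subring.add_mem _ hy₂R (ofNat_mem _ 256)) 3) (Subring.pow_mem _ hy₂R' 2)
  have h3inv : ((3 : F))⁻¹ ∈ s18_loc B 𝔪 := by
    have e : ((3 : F))⁻¹ = 2 * ((6 : F))⁻¹ := by
      field_simp
      norm_num
    rw [e]
    exact Subring.mul_mem (s18_locRing B 𝔪) (ofNat_mem _ 2) h6R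
  have hy₃ := s36_pp_three_mem B hnorm 𝔪 J y₃ hJ h3
  have hy₃' := s36_pp_three_inv_mem B hnorm 𝔪 J y₃ hJ h3inv h30 hy30 h3
  exact ⟨hy₃, hy₃', s36_pp_choice B 𝔪 J y₂ y₃ hy₂ hy₂' hy₃ hy₃' h6 h60 hy20 hy30 h2 h3⟩

/-- **Per-point package from `y₃`.** -/
theorem s36_xun_choice_three (B : Subring F) (hnorm : ∀ z : F, IsIntegral B z → z ∈ B)
    (𝔪 : Ideal B) [h𝔪 : 𝔪.IsPrime] (h6 : ((6 : F))⁻¹ ∈ s18_loc B 𝔪) (h60 : (6 : F) ≠ 0)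
    (J y₂ y₃ : F) (hy20 : y₂ ≠ 0) (hy30 : y₃ ≠ 0)
    (h2 : J * y₂ ^ 2 = (y₂ + 256) ^ 3) (h3 : J * y₃ ^ 3 = (y₃ + 27) * (y₃ + 243) ^ 3)
    (hy₃ : y₃ ∈ s18_loc B 𝔪) (hy₃' : y₃⁻¹ ∈ s18_loc B 𝔪) :
    y₂ ∈ s18_loc B 𝔪 ∧ y₂⁻¹ ∈ s18_loc B 𝔪 ∧
      ((y₂ + 64)⁻¹ ∈ s18_loc B 𝔪 ∨ (y₃ + 27)⁻¹ ∈ s18_loc B 𝔪) := by
  have hy₃R : y₃ ∈ s18_locRing B 𝔪 := hy₃
  have hy₃R' : y₃⁻¹ ∈ s18_locRing B 𝔪 := hy₃'
  have h6R : ((6 : F))⁻¹ ∈ s18_locRing B 𝔪 := h6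
  have h20 : (2 : F) ≠ 0 := fun h => h60 (by linear_combination 3 * h)
  have hJ : J ∈ s18_loc B 𝔪 := by
    have e : J = (y₃ + 27) * (y₃ + 243) ^ 3 * y₃⁻¹ ^ 3 := by
      have hy3p : y₃ ^ 3 ≠ 0 := pow_ne_zero 3 hy30
      field_simp
      linear_combination h3
    rw [e]
    exact Subring.mul_mem (s18_locRing B 𝔪)
      (Subring.mul_mem _ (Subring.add_mem _ hy₃R (ofNat_mem _ 27))
        (Subring.pow_mem _ (Subring.add_mem _ hy₃R (ofNat_mem _ 243)) 3))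
      (Subring.pow_mem _ hy₃R' 3)
  have h2inv : ((2 : F))⁻¹ ∈ s18_loc B 𝔪 := by
    have e : ((2 : F))⁻¹ = 3 * ((6 : F))⁻¹ := by
      field_simp
      norm_num
    rw [e]
    exact Subring.mul_mem (s18_locRing B 𝔪) (ofNat_mem _ 3) h6R
  have hy₂ := s36_pp_two_mem B hnorm 𝔪 J y₂ hJ h2
  have hy₂' := s36_pp_two_inv_mem B hnorm 𝔪 J y₂ hJ h2inv h20 hy20 h2
  exact ⟨hy₂, hy₂', s36_pp_choice B 𝔪 J y₂ y₃ hy₂ hy₂' hy₃ hy₃' h6 h60 hy20 hy30 h2 h3⟩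

/-- **Per-point package**, symmetric form. -/
theorem s36_xun_pkg (B : Subring F) (hnorm : ∀ z : F, IsIntegral B z → z ∈ B)
    (𝔪 : Ideal B) [h𝔪 : 𝔪.IsPrime] (h6 : ((6 : F))⁻¹ ∈ s18_loc B 𝔪) (h60 : (6 : F) ≠ 0)
    (J y₂ y₃ : F) (hy20 : y₂ ≠ 0) (hy30 : y₃ ≠ 0)
    (h2 : J * y₂ ^ 2 = (y₂ + 256) ^ 3) (h3 : J * y₃ ^ 3 = (y₃ + 27) * (y₃ + 243) ^ 3)
    (h : (y₂ ∈ s18_loc B 𝔪 ∧ y₂⁻¹ ∈ s18_loc B 𝔪) ∨ (y₃ ∈ s18_loc B 𝔪 ∧ y₃⁻¹ ∈ s18_loc B 𝔪)) :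
    y₂ ∈ s18_loc B 𝔪 ∧ y₂⁻¹ ∈ s18_loc B 𝔪 ∧ y₃ ∈ s18_loc B 𝔪 ∧ y₃⁻¹ ∈ s18_loc B 𝔪 ∧
      ((y₂ + 64)⁻¹ ∈ s18_loc B 𝔪 ∨ (y₃ + 27)⁻¹ ∈ s18_loc B 𝔪) := by
  rcases h with ⟨h₂, h₂'⟩ | ⟨h₃, h₃'⟩
  · obtain ⟨h₃, h₃', hc⟩ := s36_xun_choice_two B hnorm 𝔪 h6 h60 J y₂ y₃ hy20 hy30 h2 h3 h₂ h₂'
    exact ⟨h₂, h₂', h₃, h₃', hc⟩
  · obtain ⟨h₂, h₂', hc⟩ := s36_xun_choice_three B hnorm 𝔪 h6 h60 J y₂ y₃ hy20 hy30 h2 h3 h₃ h₃'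
    exact ⟨h₂, h₂', h₃, h₃', hc⟩

end Abs

section Gauss

variable {M : ℕ} {ℓ : ℕ} [NeZero ℓ] [Fact ℓ.Prime]
variable {K : Type*} [Field K] [Algebra ℚ K] (A : ValuationSubring K)

local notation "FF" => laurentBaseChange K (modularFunctionFieldFull M)

/-- **A crossing point is not a cusp, generic Gauss model** (any level `M`; in use `M = N·ℓ`).
`x ∈ B` with rational Gauss-integral expansion, `x' ∈ B` with `x'(Q) = x(Q^ℓ)`, swapped by `W`,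
both units of the Gauss ring, and the cusp ratio `G = x^ℓ / x' ∈ B`: then `x, x' ∉ 𝔪` at every
prime `𝔪 ⊇ P∞ + P0`. -/
theorem s36_xun_unit [IsDiscreteValuationRing A] (hℓ : ((ℓ : K))⁻¹ ∉ A)
    (hirr : Irreducible ((ℓ : ℕ) : A))
    (W : FF ≃+* FF) (hWϖ : W (algebraMap K FF (ℓ : K)) = algebraMap K FF (ℓ : K))
    (B : Subring FF) (𝔪 : Ideal B) [h𝔪 : 𝔪.IsPrime]
    (hP₁ : ∀ p : B, (algebraMap K FF (ℓ : K))⁻¹ * (p : FF) ∈ s34_gi_V A M → p ∈ 𝔪)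
    (hP₂ : ∀ p : B, (algebraMap K FF (ℓ : K))⁻¹ * (p : FF) ∈
      (s34_gi_V A M).comap (W : FF →+* FF) → p ∈ 𝔪)
    (x x' G : B) (x₀ : LaurentSeries ℚ) (hx₀ : x₀ ∈ Wring ℓ)
    (hx : ((x : FF) : LaurentSeries K) = coeffMap (algebraMap ℚ K) x₀)
    (hx' : ((x' : FF) : LaurentSeries K) = qExpand K ℓ ((x : FF) : LaurentSeries K))
    (hWx : W (x : FF) = x') (hWx' : W (x' : FF) = x)
    (hxi : ((x : FF))⁻¹ ∈ s34_gi_V A M) (hx'i : ((x' : FF))⁻¹ ∈ s34_gi_V A M)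
    (hx0 : (x : FF) ≠ 0) (hG : G * x' = x ^ ℓ) : x ∉ 𝔪 ∧ x' ∉ 𝔪 := by
  obtain ⟨X, G', Aa, hX, hG', hAa, -⟩ :=
    s36_tm_main ℓ A M hℓ hirr (x : FF) (x' : FF) x₀ hx₀ hx hx'
  have hℓp : ℓ.Prime := Fact.out
  have hqL : (ℓ : K) ≠ 0 := by
    intro h
    apply hℓ
    rw [h, inv_zero]
    exact A.zero_mem
  have hϖ0 : algebraMap K FF (ℓ : K) ≠ 0 := by
    rw [Ne, map_eq_zero]
    exact hqL
  have hxV : (x : FF) ∈ s34_gi_V A M := by rw [← hX]; exact X.2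
  have hx'V : (x' : FF) ∈ s34_gi_V A M := by rw [← hG']; exact G'.2
  exact s36_xun_unit_abs W _ hϖ0 hWϖ 𝔪 hP₁ hP₂ ℓ hℓp.two_le x x' G (Aa : FF) hWx hWx' hxV hx'V
    hxi hx'i hx0 Aa.2 hAa hG

/-- **The `j`-relations** for functions with expansions `φ t₂`, `φ t₃` (`φ` a ring endomorphism of
`K((Q))`, e.g. `qExpand K ℓ` or the identity): a common `J` with
`J y₂² = (y₂ + 256)³`, `J y₃³ = (y₃ + 27)(y₃ + 243)³`. -/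
theorem s36_xun_rel (φ : LaurentSeries K →+* LaurentSeries K) (y₂ y₃ : FF)
    (hy₂e : ((y₂ : FF) : LaurentSeries K) = φ (s18_t2R K))
    (hy₃e : ((y₃ : FF) : LaurentSeries K) = φ (s18_t3R K)) :
    y₂ ≠ 0 ∧ y₃ ≠ 0 ∧ ∃ J : FF, J * y₂ ^ 2 = (y₂ + 256) ^ 3 ∧
      J * y₃ ^ 3 = (y₃ + 27) * (y₃ + 243) ^ 3 := by
  have ht2 : s18_t2R K ≠ 0 := left_ne_zero_of_mul_eq_one (s18_t2R_mul_inv (R := K))
  have ht3 : s18_t3R K ≠ 0 := left_ne_zero_of_mul_eq_one (s18_t3R_mul_inv (R := K))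
  have hφ2 : φ (s18_t2R K) ≠ 0 := (map_ne_zero φ).mpr ht2
  have hφ3 : φ (s18_t3R K) ≠ 0 := (map_ne_zero φ).mpr ht3
  have hy20 : y₂ ≠ 0 := by
    rintro rfl
    exact hφ2 hy₂e.symm
  have hy30 : y₃ ≠ 0 := by
    rintro rfl
    exact hφ3 hy₃e.symm
  refine ⟨hy20, hy30, (y₂ + 256) ^ 3 * (y₂ ^ 2)⁻¹, ?_, ?_⟩
  · rw [mul_assoc, inv_mul_cancel₀ (pow_ne_zero 2 hy20), mul_one]
  · apply Subtype.ext
    have e2 : φ (jqModC K) * φ (s18_t2R K) ^ 2 = (φ (s18_t2R K) + 256) ^ 3 := by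
      have h := congrArg φ (s18_t2R_j (R := K))
      simpa only [map_mul, map_pow, map_add, map_ofNat] using h
    have e3 : φ (jqModC K) * φ (s18_t3R K) ^ 3 =
        (φ (s18_t3R K) + 27) * (φ (s18_t3R K) + 243) ^ 3 := by
      have h := congrArg φ (s18_t3R_j (R := K))
      simpa only [map_mul, map_pow, map_add, map_ofNat] using h
    have eJ : (φ (s18_t2R K) + 256) ^ 3 * (φ (s18_t2R K) ^ 2)⁻¹ = φ (jqModC K) := by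
      rw [← e2, mul_assoc, mul_inv_cancel₀ (pow_ne_zero 2 hφ2), mul_one]
    show (((y₂ : FF) : LaurentSeries K) + 256) ^ 3 * (((y₂ : FF) : LaurentSeries K) ^ 2)⁻¹ *
        ((y₃ : FF) : LaurentSeries K) ^ 3 =
      (((y₃ : FF) : LaurentSeries K) + 27) * (((y₃ : FF) : LaurentSeries K) + 243) ^ 3
    rw [hy₂e, hy₃e, eJ, e3]

/-- **The unit package at a crossing point** of a chart `B` (normal, `6` a unit at `𝔪`) whose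
coordinate `x` is one of `t₂, t₂⁻¹, t₃, t₃⁻¹`, `x' = x(Q^ℓ)`, `G = x^ℓ / x' ∈ B`:
all of `t₂^{±1}, t₃^{±1}, t₂(Q^ℓ)^{±1}, t₃(Q^ℓ)^{±1}` lie in the local ring `B_𝔪`, and
`(t₂(Q^ℓ) + 64)⁻¹ ∈ B_𝔪` or `(t₃(Q^ℓ) + 27)⁻¹ ∈ B_𝔪`. -/
theorem s36_xun_point [IsDiscreteValuationRing A] (hℓ : ((ℓ : K))⁻¹ ∉ A)
    (hirr : Irreducible ((ℓ : ℕ) : A))
    (W : FF ≃+* FF) (hWϖ : W (algebraMap K FF (ℓ : K)) = algebraMap K FF (ℓ : K))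
    (B : Subring FF) (hnorm : ∀ z : FF, IsIntegral B z → z ∈ B)
    (𝔪 : Ideal B) [h𝔪 : 𝔪.IsPrime] (h6 : ((6 : FF))⁻¹ ∈ s18_loc B 𝔪)
    (hP₁ : ∀ p : B, (algebraMap K FF (ℓ : K))⁻¹ * (p : FF) ∈ s34_gi_V A M → p ∈ 𝔪)
    (hP₂ : ∀ p : B, (algebraMap K FF (ℓ : K))⁻¹ * (p : FF) ∈
      (s34_gi_V A M).comap (W : FF →+* FF) → p ∈ 𝔪)
    (x x' G : B) (x₀ : LaurentSeries ℚ) (hx₀ : x₀ ∈ Wring ℓ)
    (hx : ((x : FF) : LaurentSeries K) = coeffMap (algebraMap ℚ K) x₀)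
    (hx' : ((x' : FF) : LaurentSeries K) = qExpand K ℓ ((x : FF) : LaurentSeries K))
    (hWx : W (x : FF) = x') (hWx' : W (x' : FF) = x)
    (hxi : ((x : FF))⁻¹ ∈ s34_gi_V A M) (hx'i : ((x' : FF))⁻¹ ∈ s34_gi_V A M)
    (hx0 : (x : FF) ≠ 0) (hG : G * x' = x ^ ℓ)
    (t₂ t₃ y₂ y₃ : FF)
    (ht₂e : ((t₂ : FF) : LaurentSeries K) = s18_t2R K)
    (ht₃e : ((t₃ : FF) : LaurentSeries K) = s18_t3R K)
    (hy₂e : ((y₂ : FF) : LaurentSeries K) = qExpand K ℓ (s18_t2R K))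
    (hy₃e : ((y₃ : FF) : LaurentSeries K) = qExpand K ℓ (s18_t3R K))
    (hchart : (x : FF) = t₂ ∨ (x : FF) = t₂⁻¹ ∨ (x : FF) = t₃ ∨ (x : FF) = t₃⁻¹) :
    (t₂ ∈ s18_loc B 𝔪 ∧ t₂⁻¹ ∈ s18_loc B 𝔪 ∧ t₃ ∈ s18_loc B 𝔪 ∧ t₃⁻¹ ∈ s18_loc B 𝔪) ∧
    (y₂ ∈ s18_loc B 𝔪 ∧ y₂⁻¹ ∈ s18_loc B 𝔪 ∧ y₃ ∈ s18_loc B 𝔪 ∧ y₃⁻¹ ∈ s18_loc B 𝔪) ∧
    ((y₂ + 64)⁻¹ ∈ s18_loc B 𝔪 ∨ (y₃ + 27)⁻¹ ∈ s18_loc B 𝔪) := by
  have : CharZero K := algebraRat.charZero K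
  have : CharZero FF := charZero_of_injective_algebraMap (algebraMap K FF).injective
  have h60 : (6 : FF) ≠ 0 := OfNat.ofNat_ne_zero 6
  obtain ⟨hxm, hx'm⟩ := s36_xun_unit A hℓ hirr W hWϖ B 𝔪 hP₁ hP₂ x x' G x₀ hx₀ hx hx' hWx hWx'
    hxi hx'i hx0 hG
  have hxl : (x : FF) ∈ s18_loc B 𝔪 := s36_xun_mem_loc B 𝔪 x
  have hxl' : ((x : FF))⁻¹ ∈ s18_loc B 𝔪 := s36_pp_inv_mem B 𝔪 x hxm
  have hyl : (x' : FF) ∈ s18_loc B 𝔪 := s36_xun_mem_loc B 𝔪 x'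
  have hyl' : ((x' : FF))⁻¹ ∈ s18_loc B 𝔪 := s36_pp_inv_mem B 𝔪 x' hx'm
  obtain ⟨ht20, ht30, Jt, hJt2, hJt3⟩ := s36_xun_rel (RingHom.id _) t₂ t₃ ht₂e ht₃e
  obtain ⟨hy20, hy30, Jy, hJy2, hJy3⟩ := s36_xun_rel (qExpand K ℓ) y₂ y₃ hy₂e hy₃e
  -- the chart coordinate and its transform among the four functions
  have key : ((t₂ ∈ s18_loc B 𝔪 ∧ t₂⁻¹ ∈ s18_loc B 𝔪) ∨
        (t₃ ∈ s18_loc B 𝔪 ∧ t₃⁻¹ ∈ s18_loc B 𝔪)) ∧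
      ((y₂ ∈ s18_loc B 𝔪 ∧ y₂⁻¹ ∈ s18_loc B 𝔪) ∨
        (y₃ ∈ s18_loc B 𝔪 ∧ y₃⁻¹ ∈ s18_loc B 𝔪)) := by
    rcases hchart with h | h | h | h
    · have e : (x' : FF) = y₂ := by
        apply Subtype.ext
        rw [hx', h, ht₂e, hy₂e]
      rw [h] at hxl hxl'
      rw [e] at hyl hyl'
      exact ⟨Or.inl ⟨hxl, hxl'⟩, Or.inl ⟨hyl, hyl'⟩⟩
    · have e : (x' : FF) = y₂⁻¹ := by
        apply Subtype.ext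
        show ((x' : FF) : LaurentSeries K) = (((y₂ : FF) : LaurentSeries K))⁻¹
        have h1 : ((x : FF) : LaurentSeries K) = (((t₂ : FF) : LaurentSeries K))⁻¹ := by
          rw [h]; rfl
        rw [hx', h1, ht₂e, hy₂e, map_inv₀]
      rw [h] at hxl hxl'
      rw [e] at hyl hyl'
      rw [inv_inv] at hxl' hyl'
      exact ⟨Or.inl ⟨hxl', hxl⟩, Or.inl ⟨hyl', hyl⟩⟩
    · have e : (x' : FF) = y₃ := by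
        apply Subtype.ext
        rw [hx', h, ht₃e, hy₃e]
      rw [h] at hxl hxl'
      rw [e] at hyl hyl'
      exact ⟨Or.inr ⟨hxl, hxl'⟩, Or.inr ⟨hyl, hyl'⟩⟩
    · have e : (x' : FF) = y₃⁻¹ := by
        apply Subtype.ext
        show ((x' : FF) : LaurentSeries K) = (((y₃ : FF) : LaurentSeries K))⁻¹
        have h1 : ((x : FF) : LaurentSeries K) = (((t₃ : FF) : LaurentSeries K))⁻¹ := by
          rw [h]; rfl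
        rw [hx', h1, ht₃e, hy₃e, map_inv₀]
      rw [h] at hxl hxl'
      rw [e] at hyl hyl'
      rw [inv_inv] at hxl' hyl'
      exact ⟨Or.inr ⟨hxl', hxl⟩, Or.inr ⟨hyl', hyl⟩⟩
  obtain ⟨a1, a2, a3, a4, -⟩ :=
    s36_xun_pkg B hnorm 𝔪 h6 h60 Jt t₂ t₃ ht20 ht30 hJt2 hJt3 key.1
  obtain ⟨b1, b2, b3, b4, b5⟩ :=
    s36_xun_pkg B hnorm 𝔪 h6 h60 Jy y₂ y₃ hy20 hy30 hJy2 hJy3 key.2
  exact ⟨⟨a1, a2, a3, a4⟩, ⟨b1, b2, b3, b4⟩, b5⟩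

end Gauss

end Fermat.Agent.S36
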