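import Fermat.Agent.S36.HorizModel

/-!
# S36 (NODE-3), leaf (M5): the horizontal unit statement over a GENERIC base field

Verbatim generalisation of `HorizInst.lean`, `HorizScale.lean`, `HorizSwap.lean`, `HorizModel.lean`
from `K₁ : IntermediateField ℚ ℚ̄` with `A₁ = s18_A1 A K₁` to the generic model vocabulary:
`K` any field with `ℚ → K → ℚ̄`, `A : ValuationSubring K` a discrete valuation ring with
uniformizer `π`, `F = laurentBaseChange K (modularFunctionFieldFull M)`.  Prefix `s36_hg_`.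
-/

set_option autoImplicit false
set_option synthInstance.maxHeartbeats 400000
set_option linter.unusedSectionVars false
set_option linter.style.haveILetI false

open ModularCurve AlgebraicCurve Polynomial IntermediateField

noncomputable section

namespace Fermat.Agent.S36

open Fermat.Agent.S24 (Kbar FF jF)
open Fermat.Agent.S18 Fermat.Agent.S34 Fermat.Agent.S37

section Inst

variable (M : ℕ) [NeZero M] (K : Type*) [Field K] [Algebra ℚ K] [Algebra K Kbar]




/-- `θ` kills the constants of `ℚ̄ · F(M)`. -/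
theorem s36_hg_theta_const (c : Kbar) :
    s36_qt_theta Kbar (algebraMap (FF M) (LaurentSeries Kbar) (algebraMap Kbar (FF M) c)) = 0 := by
  rw [← IsScalarTower.algebraMap_apply Kbar (FF M) (LaurentSeries Kbar),
    algebraMap_laurentSeries_eq_single, ← HahnSeries.C_apply]
  exact s36_qt_theta_C c

/-- `θ` commutes with the extension of constants. -/
theorem s36_hg_theta_baseIncl (x : laurentBaseChange K (modularFunctionFieldFull M)) :
    s36_qt_theta Kbar (algebraMap (FF M) (LaurentSeries Kbar) (s18_baseIncl K M x)) =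
      coeffMap (algebraMap K Kbar) (s36_qt_theta K (x : LaurentSeries K)) := by
  rw [← s36_qt_theta_coeffMap]
  rfl

/-- **Horizontal integrality, concrete form.** -/
theorem s36_hg_mem_bar (W : ValuationSubring (laurentBaseChange K (modularFunctionFieldFull M))) [IsDiscreteValuationRing W]
    (hK : ∀ c : K, algebraMap K (laurentBaseChange K (modularFunctionFieldFull M)) c ∈ W)
    (x x' r : laurentBaseChange K (modularFunctionFieldFull M)) (hx : x ∈ W) (hx' : x' ∈ W)
    (hθx : s36_qt_theta K (x : LaurentSeries K) ≠ 0)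
    (hr : s36_qt_theta K (x' : LaurentSeries K) =
      (r : LaurentSeries K) * s36_qt_theta K (x : LaurentSeries K))
    (hunr : ∀ (P : Place Kbar (FF M)) (c : Kbar),
      (∀ y ∈ W, s18_baseIncl K M y ∈ P.toValuationSubring) →
      (∀ y ∈ W.nonunits, s18_baseIncl K M y ∈ P.toValuationSubring.nonunits) →
      0 < P.ord (s18_baseIncl K M x - algebraMap Kbar (FF M) c) →
      P.ord (s18_baseIncl K M x - algebraMap Kbar (FF M) c) = 1) :
    r ∈ W := by
  have := (Fermat.Agent.S24.asm_generic M).1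
  have : CharZero K := algebraRat.charZero K
  have := s18_isAlgebraic_bar K
  have hinj : Function.Injective (coeffMap (algebraMap K Kbar)) :=
    s36_qt_coeffMap_injective _ (algebraMap K Kbar).injective
  refine s36_hu_mem (E := LaurentSeries Kbar) (s18_baseIncl K M) (s18_baseIncl_algebraMap K M)
    (s18_baseIncl_gen K M) (jF M) (Fermat.Agent.S24.transcendental_jF M)
    (algebraMap (FF M) (LaurentSeries Kbar)) (s36_qt_theta Kbar) s36_qt_theta_mul
    (s36_hg_theta_const M) W hK x x' r hx hx' ?_ ?_ hunr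
  · rw [s36_hg_theta_baseIncl]
    intro h0
    exact hθx (hinj (by rw [h0, map_zero]))
  · rw [s36_hg_theta_baseIncl, s36_hg_theta_baseIncl, hr, map_mul]
    rfl

/-- **Horizontal integrality of the inverse, concrete form.** -/
theorem s36_hg_inv_mem_bar (W : ValuationSubring (laurentBaseChange K (modularFunctionFieldFull M))) [IsDiscreteValuationRing W]
    (hK : ∀ c : K, algebraMap K (laurentBaseChange K (modularFunctionFieldFull M)) c ∈ W)
    (x x' r : laurentBaseChange K (modularFunctionFieldFull M)) (hx : x ∈ W) (hx' : x' ∈ W)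
    (hθx' : s36_qt_theta K (x' : LaurentSeries K) ≠ 0)
    (hr : s36_qt_theta K (x' : LaurentSeries K) =
      (r : LaurentSeries K) * s36_qt_theta K (x : LaurentSeries K))
    (hunr : ∀ (P : Place Kbar (FF M)) (c : Kbar),
      (∀ y ∈ W, s18_baseIncl K M y ∈ P.toValuationSubring) →
      (∀ y ∈ W.nonunits, s18_baseIncl K M y ∈ P.toValuationSubring.nonunits) →
      0 < P.ord (s18_baseIncl K M x' - algebraMap Kbar (FF M) c) →
      P.ord (s18_baseIncl K M x' - algebraMap Kbar (FF M) c) = 1) :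
    r⁻¹ ∈ W := by
  have := (Fermat.Agent.S24.asm_generic M).1
  have : CharZero K := algebraRat.charZero K
  have := s18_isAlgebraic_bar K
  have hinj : Function.Injective (coeffMap (algebraMap K Kbar)) :=
    s36_qt_coeffMap_injective _ (algebraMap K Kbar).injective
  refine s36_hu_inv_mem (E := LaurentSeries Kbar) (s18_baseIncl K M)
    (s18_baseIncl_algebraMap K M)
    (s18_baseIncl_gen K M) (jF M) (Fermat.Agent.S24.transcendental_jF M)
    (algebraMap (FF M) (LaurentSeries Kbar)) (s36_qt_theta Kbar) s36_qt_theta_mul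
    (s36_hg_theta_const M) W hK x x' r hx hx' ?_ ?_ hunr
  · rw [s36_hg_theta_baseIncl]
    intro h0
    exact hθx' (hinj (by rw [h0, map_zero]))
  · rw [s36_hg_theta_baseIncl, s36_hg_theta_baseIncl, hr, map_mul]
    rfl

/-- Unramifiedness from the level-2 Hauptmodul equation (up to an automorphism `σ`). -/
theorem s36_hg_unr_two (W : ValuationSubring (laurentBaseChange K (modularFunctionFieldFull M)))
    (y : laurentBaseChange K (modularFunctionFieldFull M)) (hyinv : y⁻¹ ∈ W) (hy64 : (y + 64)⁻¹ ∈ W)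
    (σ : FF M ≃ₐ[Kbar] FF M)
    (hσ : jF M * (σ (s18_baseIncl K M y)) ^ 2 = (σ (s18_baseIncl K M y) + 256) ^ 3)
    (P : Place Kbar (FF M)) (c : Kbar)
    (hWP : ∀ z ∈ W, s18_baseIncl K M z ∈ P.toValuationSubring)
    (hpos : 0 < P.ord (s18_baseIncl K M y - algebraMap Kbar (FF M) c)) :
    P.ord (s18_baseIncl K M y - algebraMap Kbar (FF M) c) = 1 := by
  set Y : FF M := s18_baseIncl K M y with hY
  have hc0 : c ≠ 0 := by
    rintro rfl
    rw [map_zero, sub_zero] at hpos
    have h1 := (Fermat.Agent.S24.mem_iff_ord_nonneg P _).mp (hWP _ hyinv)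
    rw [map_inv₀, P.ord_inv, ← hY] at h1
    omega
  have hc64 : c ≠ -64 := by
    rintro rfl
    have h1 := (Fermat.Agent.S24.mem_iff_ord_nonneg P _).mp (hWP _ hy64)
    rw [map_inv₀, P.ord_inv, map_add, map_ofNat, ← hY] at h1
    have h2 : Y - algebraMap Kbar (FF M) (-64) = Y + 64 := by
      rw [map_neg, map_ofNat, sub_neg_eq_add]
    rw [h2] at hpos
    omega
  have hv : 0 < (σ • P).ord (σ Y - algebraMap Kbar (FF M) c) := by
    rw [Fermat.Agent.S24.ord_smul_place, map_sub, AlgEquiv.symm_apply_apply, AlgEquiv.commutes]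
    exact hpos
  have h := s18_d6_two M (σ Y) hσ (σ • P) c hc0 hc64 hv
  rwa [Fermat.Agent.S24.ord_smul_place, map_sub, AlgEquiv.symm_apply_apply,
    AlgEquiv.commutes] at h

/-- Unramifiedness from the level-3 Hauptmodul equation (up to an automorphism `σ`). -/
theorem s36_hg_unr_three (W : ValuationSubring (laurentBaseChange K (modularFunctionFieldFull M)))
    (y : laurentBaseChange K (modularFunctionFieldFull M)) (hyinv : y⁻¹ ∈ W) (hy27 : (y + 27)⁻¹ ∈ W)
    (σ : FF M ≃ₐ[Kbar] FF M)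
    (hσ : jF M * (σ (s18_baseIncl K M y)) ^ 3 =
      (σ (s18_baseIncl K M y) + 27) * (σ (s18_baseIncl K M y) + 243) ^ 3)
    (P : Place Kbar (FF M)) (c : Kbar)
    (hWP : ∀ z ∈ W, s18_baseIncl K M z ∈ P.toValuationSubring)
    (hpos : 0 < P.ord (s18_baseIncl K M y - algebraMap Kbar (FF M) c)) :
    P.ord (s18_baseIncl K M y - algebraMap Kbar (FF M) c) = 1 := by
  set Y : FF M := s18_baseIncl K M y with hY
  have hc0 : c ≠ 0 := by
    rintro rfl
    rw [map_zero, sub_zero] at hpos
    have h1 := (Fermat.Agent.S24.mem_iff_ord_nonneg P _).mp (hWP _ hyinv)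
    rw [map_inv₀, P.ord_inv, ← hY] at h1
    omega
  have hc27 : c ≠ -27 := by
    rintro rfl
    have h1 := (Fermat.Agent.S24.mem_iff_ord_nonneg P _).mp (hWP _ hy27)
    rw [map_inv₀, P.ord_inv, map_add, map_ofNat, ← hY] at h1
    have h2 : Y - algebraMap Kbar (FF M) (-27) = Y + 27 := by
      rw [map_neg, map_ofNat, sub_neg_eq_add]
    rw [h2] at hpos
    omega
  have hv : 0 < (σ • P).ord (σ Y - algebraMap Kbar (FF M) c) := by
    rw [Fermat.Agent.S24.ord_smul_place, map_sub, AlgEquiv.symm_apply_apply, AlgEquiv.commutes]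
    exact hpos
  have h := s18_d6_three M (σ Y) hσ (σ • P) c hc0 hc27 hv
  rwa [Fermat.Agent.S24.ord_smul_place, map_sub, AlgEquiv.symm_apply_apply,
    AlgEquiv.commutes] at h

/-- `σ` transports the Hauptmodul equation: if `J' y² = (y + 256)³` and `σ J' = j`, then
`j (σ y)² = (σ y + 256)³`. -/
theorem s36_hg_swap_eq_two (σ : FF M ≃ₐ[Kbar] FF M) (Y J' : FF M)
    (hJ' : J' * Y ^ 2 = (Y + 256) ^ 3) (hσJ : σ J' = jF M) :
    jF M * (σ Y) ^ 2 = (σ Y + 256) ^ 3 := by
  have h := congrArg σ hJ'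
  rwa [map_mul, map_pow, map_pow, map_add, map_ofNat, hσJ] at h

/-- `σ` transports the level-3 Hauptmodul equation. -/
theorem s36_hg_swap_eq_three (σ : FF M ≃ₐ[Kbar] FF M) (Y J' : FF M)
    (hJ' : J' * Y ^ 3 = (Y + 27) * (Y + 243) ^ 3) (hσJ : σ J' = jF M) :
    jF M * (σ Y) ^ 3 = (σ Y + 27) * (σ Y + 243) ^ 3 := by
  have h := congrArg σ hJ'
  rwa [map_mul, map_pow, map_mul, map_pow, map_add, map_add, map_ofNat, map_ofNat, hσJ] at h

/-- `θ f ≠ 0` as soon as `f` has a nonzero coefficient in nonzero degree. -/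
theorem s36_hg_theta_ne_zero (f : LaurentSeries K) (n : ℤ) (hn : n ≠ 0) (hf : f.coeff n ≠ 0) :
    s36_qt_theta K f ≠ 0 := by
  intro h0
  have h1 := congrArg (fun g : LaurentSeries K => g.coeff n) h0
  simp only [s36_qt_theta_coeff, HahnSeries.coeff_zero] at h1
  haveI : CharZero K := algebraRat.charZero K
  rcases mul_eq_zero.mp h1 with h | h
  · exact hn (by exact_mod_cast h)
  · exact hf h

section Hhor

variable (A : ValuationSubring K)


/-- Constants lie in every valuation subring containing a chart and `ϖ⁻¹`. -/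
theorem s36_hg_const_mem [IsDiscreteValuationRing (A)] {π : A}
    (hπ : Irreducible π) (B : Subring (laurentBaseChange K (modularFunctionFieldFull M)))
    (hAB : ∀ a : A, algebraMap (A) (laurentBaseChange K (modularFunctionFieldFull M)) a ∈ B)
    (W : ValuationSubring (laurentBaseChange K (modularFunctionFieldFull M))) (hBW : B ≤ W.toSubring)
    (hπW : (algebraMap (A) (laurentBaseChange K (modularFunctionFieldFull M)) π)⁻¹ ∈ W) (c : K) :
    algebraMap K (laurentBaseChange K (modularFunctionFieldFull M)) c ∈ W :=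
  s18_br_const_mem (A₀ := A) (K1 := K) (F1 := laurentBaseChange K (modularFunctionFieldFull M)) (fun _ => rfl) hπ W
    (fun a => hBW (hAB a)) hπW c

/-- **`hhor` for `ρ̃⁻¹`** (the pole direction; shape of `s36_np_rhoinv`): `θ x' = ρ̃ · θ x` with
`x'` unramified at the `ℚ̄`-places through the point. -/
theorem s36_hg_hhor_inv [IsDiscreteValuationRing (A)] {π : A}
    (hπ : Irreducible π) (B : Subring (laurentBaseChange K (modularFunctionFieldFull M)))
    (hAB : ∀ a : A, algebraMap (A) (laurentBaseChange K (modularFunctionFieldFull M)) a ∈ B)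
    (𝔪 : Ideal B) (x x' ρt : laurentBaseChange K (modularFunctionFieldFull M)) (hx : x ∈ B) (hx' : x' ∈ B)
    (hθx' : s36_qt_theta K (x' : LaurentSeries K) ≠ 0)
    (hr : s36_qt_theta K (x' : LaurentSeries K) =
      (ρt : LaurentSeries K) * s36_qt_theta K (x : LaurentSeries K))
    (hunr : ∀ W : ValuationSubring (laurentBaseChange K (modularFunctionFieldFull M)), B ≤ W.toSubring →
      (∀ b : B, b ∉ 𝔪 → ((b : laurentBaseChange K (modularFunctionFieldFull M)))⁻¹ ∈ W) →
      ∀ (P : Place Kbar (FF M)) (c : Kbar),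
      (∀ y ∈ W, s18_baseIncl K M y ∈ P.toValuationSubring) →
      0 < P.ord (s18_baseIncl K M x' - algebraMap Kbar (FF M) c) →
      P.ord (s18_baseIncl K M x' - algebraMap Kbar (FF M) c) = 1) :
    ∀ W : ValuationSubring (laurentBaseChange K (modularFunctionFieldFull M)), IsDiscreteValuationRing W → B ≤ W.toSubring →
      (∀ b : B, b ∉ 𝔪 → ((b : laurentBaseChange K (modularFunctionFieldFull M)))⁻¹ ∈ W) →
      (algebraMap (A) (laurentBaseChange K (modularFunctionFieldFull M)) π)⁻¹ ∈ W → ρt⁻¹ ∈ W := by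
  intro W hW hBW hinv hπW
  haveI := hW
  exact s36_hg_inv_mem_bar M K W (s36_hg_const_mem M K A hπ B hAB W hBW hπW) x x' ρt
    (hBW hx) (hBW hx') hθx' hr (fun P c hWP _ hpos => hunr W hBW hinv P c hWP hpos)

/-- **`hhor` for `ρ̃`** (the zero direction): `θ x' = ρ̃ · θ x` with `x` unramified at the
`ℚ̄`-places through the point. -/
theorem s36_hg_hhor [IsDiscreteValuationRing (A)] {π : A}
    (hπ : Irreducible π) (B : Subring (laurentBaseChange K (modularFunctionFieldFull M)))
    (hAB : ∀ a : A, algebraMap (A) (laurentBaseChange K (modularFunctionFieldFull M)) a ∈ B)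
    (𝔪 : Ideal B) (x x' ρt : laurentBaseChange K (modularFunctionFieldFull M)) (hx : x ∈ B) (hx' : x' ∈ B)
    (hθx : s36_qt_theta K (x : LaurentSeries K) ≠ 0)
    (hr : s36_qt_theta K (x' : LaurentSeries K) =
      (ρt : LaurentSeries K) * s36_qt_theta K (x : LaurentSeries K))
    (hunr : ∀ W : ValuationSubring (laurentBaseChange K (modularFunctionFieldFull M)), B ≤ W.toSubring →
      (∀ b : B, b ∉ 𝔪 → ((b : laurentBaseChange K (modularFunctionFieldFull M)))⁻¹ ∈ W) →
      ∀ (P : Place Kbar (FF M)) (c : Kbar),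
      (∀ y ∈ W, s18_baseIncl K M y ∈ P.toValuationSubring) →
      0 < P.ord (s18_baseIncl K M x - algebraMap Kbar (FF M) c) →
      P.ord (s18_baseIncl K M x - algebraMap Kbar (FF M) c) = 1) :
    ∀ W : ValuationSubring (laurentBaseChange K (modularFunctionFieldFull M)), IsDiscreteValuationRing W → B ≤ W.toSubring →
      (∀ b : B, b ∉ 𝔪 → ((b : laurentBaseChange K (modularFunctionFieldFull M)))⁻¹ ∈ W) →
      (algebraMap (A) (laurentBaseChange K (modularFunctionFieldFull M)) π)⁻¹ ∈ W → ρt ∈ W := by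
  intro W hW hBW hinv hπW
  haveI := hW
  exact s36_hg_mem_bar M K W (s36_hg_const_mem M K A hπ B hAB W hBW hπW) x x' ρt
    (hBW hx) (hBW hx') hθx hr (fun P c hWP _ hpos => hunr W hBW hinv P c hWP hpos)

/-- The unramifiedness premise of `s36_hg_hhor(_inv)` for a level-2 Hauptmodul-type function `y`
(up to `σ`) which, together with `y + 64`, is a unit at the point `𝔪`. -/
theorem s36_hg_hunr_two (B : Subring (laurentBaseChange K (modularFunctionFieldFull M))) (𝔪 : Ideal B)
    (y : laurentBaseChange K (modularFunctionFieldFull M)) (hy : y ∈ B) (hy𝔪 : (⟨y, hy⟩ : B) ∉ 𝔪)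
    (hy64 : (⟨y, hy⟩ + 64 : B) ∉ 𝔪)
    (σ : FF M ≃ₐ[Kbar] FF M)
    (hσ : jF M * (σ (s18_baseIncl K M y)) ^ 2 = (σ (s18_baseIncl K M y) + 256) ^ 3) :
    ∀ W : ValuationSubring (laurentBaseChange K (modularFunctionFieldFull M)), B ≤ W.toSubring →
      (∀ b : B, b ∉ 𝔪 → ((b : laurentBaseChange K (modularFunctionFieldFull M)))⁻¹ ∈ W) →
      ∀ (P : Place Kbar (FF M)) (c : Kbar),
      (∀ z ∈ W, s18_baseIncl K M z ∈ P.toValuationSubring) →
      0 < P.ord (s18_baseIncl K M y - algebraMap Kbar (FF M) c) →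
      P.ord (s18_baseIncl K M y - algebraMap Kbar (FF M) c) = 1 := by
  intro W _ hinv P c hWP hpos
  have h1 : y⁻¹ ∈ W := hinv ⟨y, hy⟩ hy𝔪
  have h2 : (y + 64)⁻¹ ∈ W := by
    have h3 := hinv (⟨y, hy⟩ + 64) hy64
    have e : ((⟨y, hy⟩ + 64 : B) : laurentBaseChange K (modularFunctionFieldFull M)) = y + 64 := by
      rw [Subring.coe_add]
      exact congrArg (y + ·) (map_ofNat B.subtype 64)
    rwa [e] at h3
  exact s36_hg_unr_two M K W y h1 h2 σ hσ P c hWP hpos

/-- The same for a level-3 Hauptmodul-type function. -/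
theorem s36_hg_hunr_three (B : Subring (laurentBaseChange K (modularFunctionFieldFull M))) (𝔪 : Ideal B)
    (y : laurentBaseChange K (modularFunctionFieldFull M)) (hy : y ∈ B) (hy𝔪 : (⟨y, hy⟩ : B) ∉ 𝔪)
    (hy27 : (⟨y, hy⟩ + 27 : B) ∉ 𝔪)
    (σ : FF M ≃ₐ[Kbar] FF M)
    (hσ : jF M * (σ (s18_baseIncl K M y)) ^ 3 =
      (σ (s18_baseIncl K M y) + 27) * (σ (s18_baseIncl K M y) + 243) ^ 3) :
    ∀ W : ValuationSubring (laurentBaseChange K (modularFunctionFieldFull M)), B ≤ W.toSubring →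
      (∀ b : B, b ∉ 𝔪 → ((b : laurentBaseChange K (modularFunctionFieldFull M)))⁻¹ ∈ W) →
      ∀ (P : Place Kbar (FF M)) (c : Kbar),
      (∀ z ∈ W, s18_baseIncl K M z ∈ P.toValuationSubring) →
      0 < P.ord (s18_baseIncl K M y - algebraMap Kbar (FF M) c) →
      P.ord (s18_baseIncl K M y - algebraMap Kbar (FF M) c) = 1 := by
  intro W _ hinv P c hWP hpos
  have h1 : y⁻¹ ∈ W := hinv ⟨y, hy⟩ hy𝔪
  have h2 : (y + 27)⁻¹ ∈ W := by
    have h3 := hinv (⟨y, hy⟩ + 27) hy27
    have e : ((⟨y, hy⟩ + 27 : B) : laurentBaseChange K (modularFunctionFieldFull M)) = y + 27 := by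
      rw [Subring.coe_add]
      exact congrArg (y + ·) (map_ofNat B.subtype 27)
    rwa [e] at h3
  exact s36_hg_unr_three M K W y h1 h2 σ hσ P c hWP hpos

end Hhor


end Inst

section Scale

variable (M : ℕ) [NeZero M] (K : Type*) [Field K] [Algebra ℚ K] [Algebra K Kbar] (A : ValuationSubring K)




/-- A nonzero natural number is a unit of every valuation subring containing the constants. -/
theorem s36_hg_natCast_mem [IsDiscreteValuationRing (A)] {π : A}
    (hπ : Irreducible π) (B : Subring (laurentBaseChange K (modularFunctionFieldFull M)))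
    (hAB : ∀ a : A, algebraMap (A) (laurentBaseChange K (modularFunctionFieldFull M)) a ∈ B)
    (W : ValuationSubring (laurentBaseChange K (modularFunctionFieldFull M))) (hBW : B ≤ W.toSubring)
    (hπW : (algebraMap (A) (laurentBaseChange K (modularFunctionFieldFull M)) π)⁻¹ ∈ W) (n : ℕ) :
    ((n : laurentBaseChange K (modularFunctionFieldFull M))) ∈ W ∧ ((n : laurentBaseChange K (modularFunctionFieldFull M)))⁻¹ ∈ W := by
  have h1 := s36_hg_const_mem M K A hπ B hAB W hBW hπW (n : K)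
  have h2 := s36_hg_const_mem M K A hπ B hAB W hBW hπW ((n : K))⁻¹
  rw [map_natCast] at h1
  rw [map_inv₀, map_natCast] at h2
  exact ⟨h1, h2⟩

/-- **`hhor` for `ρ̃⁻¹`, scaled**: `θ x' = n · ρ̃ · θ x`. -/
theorem s36_hg_hhor_inv_nat [IsDiscreteValuationRing (A)] {π : A}
    (hπ : Irreducible π) (B : Subring (laurentBaseChange K (modularFunctionFieldFull M)))
    (hAB : ∀ a : A, algebraMap (A) (laurentBaseChange K (modularFunctionFieldFull M)) a ∈ B)
    (𝔪 : Ideal B) (x x' ρt : laurentBaseChange K (modularFunctionFieldFull M)) (hx : x ∈ B) (hx' : x' ∈ B) (n : ℕ)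
    (hθx' : s36_qt_theta K (x' : LaurentSeries K) ≠ 0)
    (hr : s36_qt_theta K (x' : LaurentSeries K) =
      (n : LaurentSeries K) * (ρt : LaurentSeries K) * s36_qt_theta K (x : LaurentSeries K))
    (hunr : ∀ W : ValuationSubring (laurentBaseChange K (modularFunctionFieldFull M)), B ≤ W.toSubring →
      (∀ b : B, b ∉ 𝔪 → ((b : laurentBaseChange K (modularFunctionFieldFull M)))⁻¹ ∈ W) →
      ∀ (P : Place Kbar (FF M)) (c : Kbar),
      (∀ y ∈ W, s18_baseIncl K M y ∈ P.toValuationSubring) →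
      0 < P.ord (s18_baseIncl K M x' - algebraMap Kbar (FF M) c) →
      P.ord (s18_baseIncl K M x' - algebraMap Kbar (FF M) c) = 1) :
    ∀ W : ValuationSubring (laurentBaseChange K (modularFunctionFieldFull M)), IsDiscreteValuationRing W → B ≤ W.toSubring →
      (∀ b : B, b ∉ 𝔪 → ((b : laurentBaseChange K (modularFunctionFieldFull M)))⁻¹ ∈ W) →
      (algebraMap (A) (laurentBaseChange K (modularFunctionFieldFull M)) π)⁻¹ ∈ W → ρt⁻¹ ∈ W := by
  intro W hW hBW hinv hπW
  have hr' : s36_qt_theta K (x' : LaurentSeries K) =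
      (((n : laurentBaseChange K (modularFunctionFieldFull M)) * ρt : laurentBaseChange K (modularFunctionFieldFull M)) : LaurentSeries K) *
        s36_qt_theta K (x : LaurentSeries K) := by
    rw [hr]
    rfl
  have h1 := s36_hg_hhor_inv M K A hπ B hAB 𝔪 x x' ((n : laurentBaseChange K (modularFunctionFieldFull M)) * ρt) hx hx' hθx' hr'
    hunr W hW hBW hinv hπW
  have hn := (s36_hg_natCast_mem M K A hπ B hAB W hBW hπW n).1
  have hn0 : (n : laurentBaseChange K (modularFunctionFieldFull M)) ≠ 0 := by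
    intro h0
    rw [h0, zero_mul, inv_zero] at h1
    apply hθx'
    rw [hr']
    rw [h0, zero_mul]
    simp
  have e : ρt⁻¹ = (n : laurentBaseChange K (modularFunctionFieldFull M)) * ((n : laurentBaseChange K (modularFunctionFieldFull M)) * ρt)⁻¹ := by
    rw [mul_inv, ← mul_assoc, mul_inv_cancel₀ hn0, one_mul]
  rw [e]
  exact W.mul_mem _ _ hn h1

/-- **`hhor` for `ρ̃`, scaled**: `θ x' = n · ρ̃ · θ x`, `n ≠ 0`. -/
theorem s36_hg_hhor_nat [IsDiscreteValuationRing (A)] {π : A}
    (hπ : Irreducible π) (B : Subring (laurentBaseChange K (modularFunctionFieldFull M)))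
    (hAB : ∀ a : A, algebraMap (A) (laurentBaseChange K (modularFunctionFieldFull M)) a ∈ B)
    (𝔪 : Ideal B) (x x' ρt : laurentBaseChange K (modularFunctionFieldFull M)) (hx : x ∈ B) (hx' : x' ∈ B) (n : ℕ) (hn0 : n ≠ 0)
    (hθx : s36_qt_theta K (x : LaurentSeries K) ≠ 0)
    (hr : s36_qt_theta K (x' : LaurentSeries K) =
      (n : LaurentSeries K) * (ρt : LaurentSeries K) * s36_qt_theta K (x : LaurentSeries K))
    (hunr : ∀ W : ValuationSubring (laurentBaseChange K (modularFunctionFieldFull M)), B ≤ W.toSubring →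
      (∀ b : B, b ∉ 𝔪 → ((b : laurentBaseChange K (modularFunctionFieldFull M)))⁻¹ ∈ W) →
      ∀ (P : Place Kbar (FF M)) (c : Kbar),
      (∀ y ∈ W, s18_baseIncl K M y ∈ P.toValuationSubring) →
      0 < P.ord (s18_baseIncl K M x - algebraMap Kbar (FF M) c) →
      P.ord (s18_baseIncl K M x - algebraMap Kbar (FF M) c) = 1) :
    ∀ W : ValuationSubring (laurentBaseChange K (modularFunctionFieldFull M)), IsDiscreteValuationRing W → B ≤ W.toSubring →
      (∀ b : B, b ∉ 𝔪 → ((b : laurentBaseChange K (modularFunctionFieldFull M)))⁻¹ ∈ W) →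
      (algebraMap (A) (laurentBaseChange K (modularFunctionFieldFull M)) π)⁻¹ ∈ W → ρt ∈ W := by
  intro W hW hBW hinv hπW
  have hr' : s36_qt_theta K (x' : LaurentSeries K) =
      (((n : laurentBaseChange K (modularFunctionFieldFull M)) * ρt : laurentBaseChange K (modularFunctionFieldFull M)) : LaurentSeries K) *
        s36_qt_theta K (x : LaurentSeries K) := by
    rw [hr]
    rfl
  have h1 := s36_hg_hhor M K A hπ B hAB 𝔪 x x' ((n : laurentBaseChange K (modularFunctionFieldFull M)) * ρt) hx hx' hθx hr'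
    hunr W hW hBW hinv hπW
  have hn := (s36_hg_natCast_mem M K A hπ B hAB W hBW hπW n).2
  have hnF : (n : laurentBaseChange K (modularFunctionFieldFull M)) ≠ 0 := by
    haveI : CharZero K := algebraRat.charZero K
    rw [← map_natCast (algebraMap K (laurentBaseChange K (modularFunctionFieldFull M))) n]
    exact (_root_.map_ne_zero _).mpr (by exact_mod_cast hn0)
  have e : ρt = ((n : laurentBaseChange K (modularFunctionFieldFull M)))⁻¹ * ((n : laurentBaseChange K (modularFunctionFieldFull M)) * ρt) := by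
    rw [← mul_assoc, inv_mul_cancel₀ hnF, one_mul]
  rw [e]
  exact W.mul_mem _ _ hn h1


end Scale

section Swap

variable (K : Type*) [Field K] [Algebra ℚ K] [Algebra K Kbar]



/-- `hσ` of `s36_hg_hunr_two` for `x'` with `q`-expansion `t₂(Q^q)`. -/
theorem s36_hg_sigma_two (N q : ℕ) [NeZero N] [NeZero q] (hcop : Nat.Coprime q N)
    (x' : laurentBaseChange K (modularFunctionFieldFull (N * q)))
    (hx' : (x' : LaurentSeries K) = qExpand K q (s18_t2R K)) :
    ∃ σ : FF (N * q) ≃ₐ[Kbar] FF (N * q),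
      jF (N * q) * (σ (s18_baseIncl K (N * q) x')) ^ 2 =
        (σ (s18_baseIncl K (N * q) x') + 256) ^ 3 := by
  obtain ⟨σ, hσ⟩ := s36_hu_sigma N q hcop
  have hY : ((s18_baseIncl K (N * q) x' : FF (N * q)) : LaurentSeries Kbar) =
      qExpand Kbar q (s18_t2R Kbar) := by
    rw [s18_baseIncl_coe, hx', coeffMap_qExpand, s18_coeffMap_t2R]
  have hJmem : qExpand Kbar q (jqModC Kbar) ∈ modularFunctionFieldBar (N * q) := by
    have h := s37_ew_s_mem (N * q) q (dvd_mul_left q N)
    rw [coeffEmb, coeffMap_qExpand, ← jqModC_rat] at h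
    have e : coeffMap (algebraMap ℚ Kbar) (jqModC ℚ) = jqModC Kbar := map_jqModC _
    rwa [e] at h
  refine ⟨σ, s36_hg_swap_eq_two (N * q) σ _ ⟨_, hJmem⟩ ?_ (hσ ⟨_, hJmem⟩ rfl)⟩
  apply Subtype.ext
  have h := congrArg (qExpand Kbar q) (s18_t2R_j Kbar)
  rw [map_mul, map_pow, map_pow, map_add, map_ofNat] at h
  show qExpand Kbar q (jqModC Kbar) *
      ((s18_baseIncl K (N * q) x' : FF (N * q)) : LaurentSeries Kbar) ^ 2 =
    (((s18_baseIncl K (N * q) x' : FF (N * q)) : LaurentSeries Kbar) + 256) ^ 3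
  rw [hY]
  exact h

/-- `hσ` of `s36_hg_hunr_three` for `x'` with `q`-expansion `t₃(Q^q)`. -/
theorem s36_hg_sigma_three (N q : ℕ) [NeZero N] [NeZero q] (hcop : Nat.Coprime q N)
    (x' : laurentBaseChange K (modularFunctionFieldFull (N * q)))
    (hx' : (x' : LaurentSeries K) = qExpand K q (s18_t3R K)) :
    ∃ σ : FF (N * q) ≃ₐ[Kbar] FF (N * q),
      jF (N * q) * (σ (s18_baseIncl K (N * q) x')) ^ 3 =
        (σ (s18_baseIncl K (N * q) x') + 27) * (σ (s18_baseIncl K (N * q) x') + 243) ^ 3 := by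
  obtain ⟨σ, hσ⟩ := s36_hu_sigma N q hcop
  have hY : ((s18_baseIncl K (N * q) x' : FF (N * q)) : LaurentSeries Kbar) =
      qExpand Kbar q (s18_t3R Kbar) := by
    rw [s18_baseIncl_coe, hx', coeffMap_qExpand, s18_coeffMap_t3R]
  have hJmem : qExpand Kbar q (jqModC Kbar) ∈ modularFunctionFieldBar (N * q) := by
    have h := s37_ew_s_mem (N * q) q (dvd_mul_left q N)
    rw [coeffEmb, coeffMap_qExpand, ← jqModC_rat] at h
    have e : coeffMap (algebraMap ℚ Kbar) (jqModC ℚ) = jqModC Kbar := map_jqModC _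
    rwa [e] at h
  refine ⟨σ, s36_hg_swap_eq_three (N * q) σ _ ⟨_, hJmem⟩ ?_ (hσ ⟨_, hJmem⟩ rfl)⟩
  apply Subtype.ext
  have h := congrArg (qExpand Kbar q) (s18_t3R_j Kbar)
  rw [map_mul, map_pow, map_mul, map_pow, map_add, map_add, map_ofNat, map_ofNat] at h
  show qExpand Kbar q (jqModC Kbar) *
      ((s18_baseIncl K (N * q) x' : FF (N * q)) : LaurentSeries Kbar) ^ 3 =
    (((s18_baseIncl K (N * q) x' : FF (N * q)) : LaurentSeries Kbar) + 27) *
      (((s18_baseIncl K (N * q) x' : FF (N * q)) : LaurentSeries Kbar) + 243) ^ 3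
  rw [hY]
  exact h


end Swap

section Model

variable (K : Type*) [Field K] [Algebra ℚ K] [Algebra K Kbar] (A : ValuationSubring K)



/-- `θ (f(Q^q)) ≠ 0` for `f` with leading term `Q⁻¹` (characteristic zero). -/
theorem s36_hg_theta_qExpand_ne (q : ℕ) [NeZero q] {f : LaurentSeries K} (hf : s18h_lead 1 f) :
    s36_qt_theta K (qExpand K q f) ≠ 0 := by
  refine s36_hg_theta_ne_zero K _ ((q : ℤ) * (-1)) ?_ ?_
  · have : (q : ℤ) ≠ 0 := by exact_mod_cast NeZero.ne q
    simpa using this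
  · rw [qExpand_coeff_mul, s36_hu_lead_coeff hf]
    exact one_ne_zero

/-- **`hρinv` in the model, level-2 coordinate.** -/
theorem s36_hg_model_rhoinv_two (N q : ℕ) [NeZero N] [NeZero q] (hcop : Nat.Coprime q N)
    [IsDiscreteValuationRing (A)] {π : A} (hπ : Irreducible π)
    (B V₁ V₂ : Subring (laurentBaseChange K (modularFunctionFieldFull (N * q))))
    (hAB : ∀ a : A, algebraMap (A) (laurentBaseChange K (modularFunctionFieldFull (N * q))) a ∈ B)
    (hV₁ : s34_Unif (algebraMap (A) (laurentBaseChange K (modularFunctionFieldFull (N * q))) π) V₁)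
    (hV₂ : s34_Unif (algebraMap (A) (laurentBaseChange K (modularFunctionFieldFull (N * q))) π) V₂)
    (hB₁ : B ≤ V₁) (hB₂ : B ≤ V₂)
    (hnoeth : IsNoetherianRing B)
    (hfrac : ∀ x : laurentBaseChange K (modularFunctionFieldFull (N * q)), ∃ a ∈ B, ∃ b ∈ B, b ≠ 0 ∧ x = a / b)
    (hnorm : ∀ z : laurentBaseChange K (modularFunctionFieldFull (N * q)), IsIntegral B z → z ∈ B)
    (hcap : ∀ x ∈ B, (algebraMap (A) (laurentBaseChange K (modularFunctionFieldFull (N * q))) π)⁻¹ * x ∈ V₁ →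
      (algebraMap (A) (laurentBaseChange K (modularFunctionFieldFull (N * q))) π)⁻¹ * x ∈ V₂ →
      (algebraMap (A) (laurentBaseChange K (modularFunctionFieldFull (N * q))) π)⁻¹ * x ∈ B)
    (𝔪 : Ideal B) [h𝔪 : 𝔪.IsPrime]
    (x x' ρt : laurentBaseChange K (modularFunctionFieldFull (N * q))) (hx : x ∈ B) (hx' : x' ∈ B)
    (hx'e : (x' : LaurentSeries K) = qExpand K q (s18_t2R K))
    (hx'𝔪 : (⟨x', hx'⟩ : B) ∉ 𝔪) (hx'64 : (⟨x', hx'⟩ + 64 : B) ∉ 𝔪)
    (hr : s36_qt_theta K (x' : LaurentSeries K) =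
      (q : LaurentSeries K) * (ρt : LaurentSeries K) * s36_qt_theta K (x : LaurentSeries K))
    (hρ₁ : ρt⁻¹ ∈ V₁)
    (hρ₂ : (algebraMap (A) (laurentBaseChange K (modularFunctionFieldFull (N * q))) π)⁻¹ * ρt⁻¹ ∈ V₂) :
    ∃ a b : B, b ∉ 𝔪 ∧ (b : laurentBaseChange K (modularFunctionFieldFull (N * q))) = ρt * (a : laurentBaseChange K (modularFunctionFieldFull (N * q))) ∧
      (algebraMap (A) (laurentBaseChange K (modularFunctionFieldFull (N * q))) π)⁻¹ * (a : laurentBaseChange K (modularFunctionFieldFull (N * q))) ∈ V₂ := by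
  have hθx' : s36_qt_theta K (x' : LaurentSeries K) ≠ 0 := by
    rw [hx'e]
    exact s36_hg_theta_qExpand_ne K q (s18h_lead_t2R K)
  have hρ0 : ρt ≠ 0 := by
    rintro rfl
    apply hθx'
    rw [hr]
    simp
  obtain ⟨σ, hσ⟩ := s36_hg_sigma_two K N q hcop x' hx'e
  exact s36_np_rhoinv B V₁ V₂ _ hV₁ hV₂ hB₁ hB₂ (hAB π) hnoeth hfrac hnorm hcap 𝔪 ρt hρ0 hρ₁ hρ₂
    (s36_hg_hhor_inv_nat (N * q) K A hπ B hAB 𝔪 x x' ρt hx hx' q hθx' hr
      (s36_hg_hunr_two (N * q) K B 𝔪 x' hx' hx'𝔪 hx'64 σ hσ))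

/-- **`hρinv` in the model, level-3 coordinate.** -/
theorem s36_hg_model_rhoinv_three (N q : ℕ) [NeZero N] [NeZero q] (hcop : Nat.Coprime q N)
    [IsDiscreteValuationRing (A)] {π : A} (hπ : Irreducible π)
    (B V₁ V₂ : Subring (laurentBaseChange K (modularFunctionFieldFull (N * q))))
    (hAB : ∀ a : A, algebraMap (A) (laurentBaseChange K (modularFunctionFieldFull (N * q))) a ∈ B)
    (hV₁ : s34_Unif (algebraMap (A) (laurentBaseChange K (modularFunctionFieldFull (N * q))) π) V₁)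
    (hV₂ : s34_Unif (algebraMap (A) (laurentBaseChange K (modularFunctionFieldFull (N * q))) π) V₂)
    (hB₁ : B ≤ V₁) (hB₂ : B ≤ V₂)
    (hnoeth : IsNoetherianRing B)
    (hfrac : ∀ x : laurentBaseChange K (modularFunctionFieldFull (N * q)), ∃ a ∈ B, ∃ b ∈ B, b ≠ 0 ∧ x = a / b)
    (hnorm : ∀ z : laurentBaseChange K (modularFunctionFieldFull (N * q)), IsIntegral B z → z ∈ B)
    (hcap : ∀ x ∈ B, (algebraMap (A) (laurentBaseChange K (modularFunctionFieldFull (N * q))) π)⁻¹ * x ∈ V₁ →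
      (algebraMap (A) (laurentBaseChange K (modularFunctionFieldFull (N * q))) π)⁻¹ * x ∈ V₂ →
      (algebraMap (A) (laurentBaseChange K (modularFunctionFieldFull (N * q))) π)⁻¹ * x ∈ B)
    (𝔪 : Ideal B) [h𝔪 : 𝔪.IsPrime]
    (x x' ρt : laurentBaseChange K (modularFunctionFieldFull (N * q))) (hx : x ∈ B) (hx' : x' ∈ B)
    (hx'e : (x' : LaurentSeries K) = qExpand K q (s18_t3R K))
    (hx'𝔪 : (⟨x', hx'⟩ : B) ∉ 𝔪) (hx'27 : (⟨x', hx'⟩ + 27 : B) ∉ 𝔪)
    (hr : s36_qt_theta K (x' : LaurentSeries K) =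
      (q : LaurentSeries K) * (ρt : LaurentSeries K) * s36_qt_theta K (x : LaurentSeries K))
    (hρ₁ : ρt⁻¹ ∈ V₁)
    (hρ₂ : (algebraMap (A) (laurentBaseChange K (modularFunctionFieldFull (N * q))) π)⁻¹ * ρt⁻¹ ∈ V₂) :
    ∃ a b : B, b ∉ 𝔪 ∧ (b : laurentBaseChange K (modularFunctionFieldFull (N * q))) = ρt * (a : laurentBaseChange K (modularFunctionFieldFull (N * q))) ∧
      (algebraMap (A) (laurentBaseChange K (modularFunctionFieldFull (N * q))) π)⁻¹ * (a : laurentBaseChange K (modularFunctionFieldFull (N * q))) ∈ V₂ := by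
  have hθx' : s36_qt_theta K (x' : LaurentSeries K) ≠ 0 := by
    rw [hx'e]
    exact s36_hg_theta_qExpand_ne K q (s18h_lead_t3R K)
  have hρ0 : ρt ≠ 0 := by
    rintro rfl
    apply hθx'
    rw [hr]
    simp
  obtain ⟨σ, hσ⟩ := s36_hg_sigma_three K N q hcop x' hx'e
  exact s36_np_rhoinv B V₁ V₂ _ hV₁ hV₂ hB₁ hB₂ (hAB π) hnoeth hfrac hnorm hcap 𝔪 ρt hρ0 hρ₁ hρ₂
    (s36_hg_hhor_inv_nat (N * q) K A hπ B hAB 𝔪 x x' ρt hx hx' q hθx' hr
      (s36_hg_hunr_three (N * q) K B 𝔪 x' hx' hx'𝔪 hx'27 σ hσ))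


end Model

end Fermat.Agent.S36
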