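import Fermat.Agent.S36.PoleM5
import Fermat.Agent.S36.ThickModelX
import Fermat.Agent.S36.HorizGen
import Fermat.Agent.S34.GaussZeroInst

/-!
# S36 (NODE-3), B2 route (a): `hpole` of the crossing-point core for `q ≥ 5`, LOC form

Generic Gauss vocabulary of `CrossInst.lean` / `HorizGen.lean` (`K` any field over `ℚ` with
`[Algebra K ℚ̄]`, `A : ValuationSubring K` an unramified DVR, `F' = K·F(N)`, `FF = K·F(N q)`,
`W` the swap, `B ⊆ FF` a chart, `𝔪` a crossing point).  The pole coordinate `t` (a Hauptmodul of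
level `N`) need NOT lie in the chart `B` (per-point choice `t₂`/`t₃` inside one chart, chart at
infinity): all point-wise inputs are memberships in the local ring `s18_loc B 𝔪`.

* `s36_m5_red_mem_O` : `α t ∈ s18_loc B 𝔪`, `t ∈ V∞(N)` ⟹ `red t ∈ O = s36_th_O r 𝔪`;
* `s36_m5_pole_gauss_O` : `s36_m5_pole_gauss` with `red t ∈ O` instead of `α t ∈ B`;
* `s36_m5_pole_loc_int` : integer coordinate `t = Q⁻¹ + …` with `α t, β t ∈ s18_loc B 𝔪` and
  `β t` unramified at the `ℚ̄`-places over every horizontal DVR through `𝔪` ⟹ `hpole`;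
* `s36_m5_pole_loc_two` / `s36_m5_pole_loc_three` : `t = t₂` (resp. `t₃`) with
  `α t, β t, (β t)⁻¹, (β t + 64)⁻¹` (resp. `(β t + 27)⁻¹`) in `s18_loc B 𝔪` ⟹ `hpole` of
  `s36_xi_core` / `s36_xi2_main`.
-/

set_option autoImplicit false
set_option synthInstance.maxHeartbeats 400000
set_option maxHeartbeats 1000000
set_option linter.unusedSectionVars false
set_option linter.unusedVariables false
set_option linter.style.haveILetI false

open ModularCurve AlgebraicCurve Polynomial IntermediateField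

noncomputable section

namespace Fermat.Agent.S36

open Fermat.Agent.S24 (Kbar FF jF)
open Fermat.Agent.S18 Fermat.Agent.S28 Fermat.Agent.S34

section Gauss

variable {N : ℕ} [NeZero N] {q : ℕ} [NeZero q] [Fact q.Prime]
variable {K : Type*} [Field K] [Algebra ℚ K] [Algebra K Kbar]
variable (A : ValuationSubring K)

/-- An element of `V∞` lying in the local ring of the chart at `𝔪` reduces into `O`. -/
theorem s36_m5_loc_mem_O
    (B : Subring (laurentBaseChange K (modularFunctionFieldFull (N * q))))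
    (hB₁ : B ≤ s34_gi_V A (N * q)) (𝔪 : Ideal B) [h𝔪 : 𝔪.IsPrime]
    (X : s34_gi_V A (N * q))
    (hX : (X : laurentBaseChange K (modularFunctionFieldFull (N * q))) ∈ s18_loc B 𝔪) :
    s34_gi_red A (N * q) X ∈ s36_th_O (s36_xi_r A B hB₁) 𝔪 := by
  obtain ⟨a, b, hb, e⟩ := hX
  have hb0 : (b : laurentBaseChange K (modularFunctionFieldFull (N * q))) ≠ 0 := by
    intro h0
    apply hb
    have : b = 0 := Subtype.ext h0
    rw [this]
    exact 𝔪.zero_mem
  refine ⟨a, b, hb, ?_⟩
  have e' : X * Subring.inclusion hB₁ b = Subring.inclusion hB₁ a := by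
    apply Subtype.ext
    show (X : laurentBaseChange K (modularFunctionFieldFull (N * q))) *
      (b : laurentBaseChange K (modularFunctionFieldFull (N * q))) = a
    rw [e, div_mul_cancel₀ _ hb0]
  show s34_gi_red A (N * q) X * s34_gi_red A (N * q) (Subring.inclusion hB₁ b) =
    s34_gi_red A (N * q) (Subring.inclusion hB₁ a)
  rw [← map_mul, e']

/-- `α t ∈ s18_loc B 𝔪` ⟹ `red t ∈ O`. -/
theorem s36_m5_red_mem_O
    (B : Subring (laurentBaseChange K (modularFunctionFieldFull (N * q))))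
    (hB₁ : B ≤ s34_gi_V A (N * q)) (𝔪 : Ideal B) [h𝔪 : 𝔪.IsPrime]
    (t : laurentBaseChange K (modularFunctionFieldFull N)) (htV : t ∈ s34_gi_V A N)
    (hαloc : heckeAlphaBar K N q t ∈ s18_loc B 𝔪) :
    s34_gi_red A N ⟨t, htV⟩ ∈ s36_th_O (s36_xi_r A B hB₁) 𝔪 := by
  have hαV : heckeAlphaBar K N q t ∈ s34_gi_V A (N * q) :=
    (s34_gi_alpha_mem_iff N q t).mpr htV
  have e : s34_gi_red A (N * q) ⟨_, hαV⟩ = s34_gi_red A N ⟨t, htV⟩ :=
    s34_gi_red_alpha N q ⟨t, htV⟩ hαV
  rw [← e]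
  exact s36_m5_loc_mem_O A B hB₁ 𝔪 ⟨_, hαV⟩ hαloc

/-- **`s36_m5_pole_gauss` with `red t ∈ O` in place of `α t ∈ B`.** -/
theorem s36_m5_pole_gauss_O [IsDiscreteValuationRing A]
    [CharP (IsLocalRing.ResidueField A) q]
    (hirr : Irreducible ((q : ℕ) : A))
    (W : laurentBaseChange K (modularFunctionFieldFull (N * q)) ≃+*
      laurentBaseChange K (modularFunctionFieldFull (N * q)))
    (hWϖ : W (algebraMap K _ (q : K)) = algebraMap K _ (q : K))
    (B : Subring (laurentBaseChange K (modularFunctionFieldFull (N * q))))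
    (hB₁ : B ≤ s34_gi_V A (N * q))
    (hB₂ : B ≤ (s34_gi_V A (N * q)).comap (W : _ →+* _))
    (hϖB : algebraMap K (laurentBaseChange K (modularFunctionFieldFull (N * q))) (q : K) ∈ B)
    (hnoeth : IsNoetherianRing B)
    (hfrac : ∀ x : laurentBaseChange K (modularFunctionFieldFull (N * q)),
      ∃ a ∈ B, ∃ b ∈ B, b ≠ 0 ∧ x = a / b)
    (hnorm : ∀ z : laurentBaseChange K (modularFunctionFieldFull (N * q)),
      IsIntegral B z → z ∈ B)
    (hcap : ∀ x ∈ B, (algebraMap K _ (q : K))⁻¹ * x ∈ s34_gi_V A (N * q) →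
      (algebraMap K _ (q : K))⁻¹ * x ∈ (s34_gi_V A (N * q)).comap (W : _ →+* _) →
      (algebraMap K _ (q : K))⁻¹ * x ∈ B)
    (𝔪 : Ideal B) [h𝔪 : 𝔪.IsPrime]
    (hP₁ : ∀ p : B, (algebraMap K _ (q : K))⁻¹ *
      (p : laurentBaseChange K (modularFunctionFieldFull (N * q))) ∈ s34_gi_V A (N * q) → p ∈ 𝔪)
    (hP₂ : ∀ p : B, (algebraMap K _ (q : K))⁻¹ *
      (p : laurentBaseChange K (modularFunctionFieldFull (N * q))) ∈
        (s34_gi_V A (N * q)).comap (W : _ →+* _) → p ∈ 𝔪)
    (t : laurentBaseChange K (modularFunctionFieldFull N)) (htV : t ∈ s34_gi_V A N)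
    (hθt : s36_qt_theta (IsLocalRing.ResidueField A) (s34_gi_red A N ⟨t, htV⟩) ≠ 0)
    (hfix : coeffMap (frobenius (IsLocalRing.ResidueField A) q) (s34_gi_red A N ⟨t, htV⟩) =
      s34_gi_red A N ⟨t, htV⟩)
    (htO : s34_gi_red A N ⟨t, htV⟩ ∈ s36_th_O (s36_xi_r A B hB₁) 𝔪)
    (ρ : laurentBaseChange K (modularFunctionFieldFull (N * q)))
    (hρ : (ρ : LaurentSeries K) * s36_qt_theta K (t : LaurentSeries K) =
      qExpand K q (s36_qt_theta K (t : LaurentSeries K)))
    (hsw : algebraMap K _ (q : K) ^ 2 * ρ * W ρ = 1)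
    (hhor : ∀ W' : ValuationSubring (laurentBaseChange K (modularFunctionFieldFull (N * q))),
      IsDiscreteValuationRing W' → B ≤ W'.toSubring →
      (∀ b : B, b ∉ 𝔪 →
        ((b : laurentBaseChange K (modularFunctionFieldFull (N * q))))⁻¹ ∈ W') →
      (algebraMap K (laurentBaseChange K (modularFunctionFieldFull (N * q))) (q : K))⁻¹ ∈ W' →
      ρ⁻¹ ∈ W') :
    ∀ x : B, x ∈ 𝔪 →
      (∀ f ∈ s36_th_O (s36_xi_r A B hB₁) 𝔪, ∃ g ∈ s36_th_O (s36_xi_r A B hB₁) 𝔪,
        s36_qt_theta (IsLocalRing.ResidueField A) f =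
          g * s36_qt_theta (IsLocalRing.ResidueField A) (s36_xi_r A B hB₁ x)) →
      s36_qt_theta (IsLocalRing.ResidueField A) (s36_xi_r A B hB₁ x) ^ (q - 1) ∉
        s36_th_O (s36_xi_r A B hB₁) 𝔪 := by
  intro x hx𝔪 hD
  have hcast : (((q : ℕ) : A) : K) = (q : K) := by push_cast; rfl
  obtain ⟨hρV, hρinvV, hred⟩ := s36_trl_gauss_frob K A N q t htV hθt hfix ρ hρ
  have hV₁ : s34_Unif (algebraMap K (laurentBaseChange K (modularFunctionFieldFull (N * q)))
      (q : K)) (s34_gi_V A (N * q)) := by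
    have h := s34_gi_unif (N := N * q) hirr
    rw [hcast] at h
    exact h
  have hV₂ : s34_Unif (algebraMap K (laurentBaseChange K (modularFunctionFieldFull (N * q)))
      (q : K)) ((s34_gi_V A (N * q)).comap (W : _ →+* _)) := s34_Unif.comap hV₁ W hWϖ
  have hϖ0 : algebraMap K (laurentBaseChange K (modularFunctionFieldFull (N * q))) (q : K) ≠ 0 :=
    hV₁.ne_zero
  have hρ0 : ρ ≠ 0 := by
    rintro rfl
    rw [mul_zero, zero_mul] at hsw
    exact zero_ne_one hsw
  have hWρ : W ρ = (algebraMap K (laurentBaseChange K (modularFunctionFieldFull (N * q)))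
      (q : K) ^ 2 * ρ)⁻¹ := eq_inv_of_mul_eq_one_right hsw
  have hρ₂ : (algebraMap K (laurentBaseChange K (modularFunctionFieldFull (N * q))) (q : K))⁻¹ *
      ρ⁻¹ ∈ (s34_gi_V A (N * q)).comap (W : _ →+* _) := by
    show W ((algebraMap K (laurentBaseChange K (modularFunctionFieldFull (N * q))) (q : K))⁻¹ *
      ρ⁻¹) ∈ s34_gi_V A (N * q)
    rw [map_mul, map_inv₀, map_inv₀, hWϖ, hWρ, inv_inv]
    have e : (algebraMap K (laurentBaseChange K (modularFunctionFieldFull (N * q))) (q : K))⁻¹ *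
        (algebraMap K (laurentBaseChange K (modularFunctionFieldFull (N * q))) (q : K) ^ 2 * ρ) =
        algebraMap K (laurentBaseChange K (modularFunctionFieldFull (N * q))) (q : K) * ρ := by
      rw [pow_two, mul_assoc, ← mul_assoc, inv_mul_cancel₀ hϖ0, one_mul]
    rw [e]
    exact (s34_gi_V A (N * q)).mul_mem hV₁.mem hρV
  have hρinv := s36_np_rhoinv B (s34_gi_V A (N * q))
    ((s34_gi_V A (N * q)).comap (W : _ →+* _))
    (algebraMap K (laurentBaseChange K (modularFunctionFieldFull (N * q))) (q : K)) hV₁ hV₂ hB₁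
    hB₂ hϖB hnoeth hfrac hnorm hcap 𝔪 ρ hρ0 hρinvV hρ₂ hhor
  have hker : ∀ z : s34_gi_V A (N * q), s34_gi_red A (N * q) z = 0 ↔
      (algebraMap K (laurentBaseChange K (modularFunctionFieldFull (N * q))) (q : K))⁻¹ *
        (z : laurentBaseChange K (modularFunctionFieldFull (N * q))) ∈ s34_gi_V A (N * q) := by
    intro z
    have h := s34_gi_red_eq_zero_iff (N := N * q) hirr z
    rw [hcast] at h
    exact h
  exact s36_m5_pole_sub B (s34_gi_V A (N * q)) ((s34_gi_V A (N * q)).comap (W : _ →+* _)) hB₁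
    (algebraMap K (laurentBaseChange K (modularFunctionFieldFull (N * q))) (q : K))
    (s34_gi_red A (N * q)) hker
    (s36_qt_theta (IsLocalRing.ResidueField A)) 𝔪 hP₁ hP₂ (q - 1) _ htO ⟨ρ, hρV⟩ hred hρinv x hD

/-- **`hpole` from (M5), LOC form, integer coordinate.**  `t = Q⁻¹ + …` of level `N` with
`α t, β t ∈ s18_loc B 𝔪` and `β t` unramified at the `ℚ̄`-places over every valuation ring
containing the local ring at `𝔪` (`hunr`). -/
theorem s36_m5_pole_loc_int [IsDiscreteValuationRing A]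
    [CharP (IsLocalRing.ResidueField A) q]
    (hirr : Irreducible ((q : ℕ) : A))
    (W : laurentBaseChange K (modularFunctionFieldFull (N * q)) ≃+*
      laurentBaseChange K (modularFunctionFieldFull (N * q)))
    (hWW : ∀ x, W (W x) = x)
    (hWα : ∀ x : laurentBaseChange K (modularFunctionFieldFull N),
      W (heckeAlphaBar K N q x) = heckeBetaBar K N q x)
    (B : Subring (laurentBaseChange K (modularFunctionFieldFull (N * q))))
    (hAB : ∀ a : A, algebraMap A (laurentBaseChange K (modularFunctionFieldFull (N * q))) a ∈ B)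
    (hB₁ : B ≤ s34_gi_V A (N * q))
    (hB₂ : B ≤ (s34_gi_V A (N * q)).comap (W : _ →+* _))
    (hnoeth : IsNoetherianRing B)
    (hfrac : ∀ x : laurentBaseChange K (modularFunctionFieldFull (N * q)),
      ∃ a ∈ B, ∃ b ∈ B, b ≠ 0 ∧ x = a / b)
    (hnorm : ∀ z : laurentBaseChange K (modularFunctionFieldFull (N * q)),
      IsIntegral B z → z ∈ B)
    (hcap : ∀ x ∈ B, (algebraMap K _ (q : K))⁻¹ * x ∈ s34_gi_V A (N * q) →
      (algebraMap K _ (q : K))⁻¹ * x ∈ (s34_gi_V A (N * q)).comap (W : _ →+* _) →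
      (algebraMap K _ (q : K))⁻¹ * x ∈ B)
    (𝔪 : Ideal B) [h𝔪 : 𝔪.IsPrime]
    (hP₁ : ∀ p : B, (algebraMap K _ (q : K))⁻¹ *
      (p : laurentBaseChange K (modularFunctionFieldFull (N * q))) ∈ s34_gi_V A (N * q) → p ∈ 𝔪)
    (hP₂ : ∀ p : B, (algebraMap K _ (q : K))⁻¹ *
      (p : laurentBaseChange K (modularFunctionFieldFull (N * q))) ∈
        (s34_gi_V A (N * q)).comap (W : _ →+* _) → p ∈ 𝔪)
    (t : laurentBaseChange K (modularFunctionFieldFull N)) (x₁ : LaurentSeries ℤ)
    (hx1 : x₁.coeff (-1) = 1)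
    (ht : (t : LaurentSeries K) = coeffMap (Int.castRingHom K) x₁)
    (hαloc : heckeAlphaBar K N q t ∈ s18_loc B 𝔪)
    (hβloc : heckeBetaBar K N q t ∈ s18_loc B 𝔪)
    (hunr : ∀ W' : ValuationSubring (laurentBaseChange K (modularFunctionFieldFull (N * q))),
      (∀ z ∈ s18_loc B 𝔪, z ∈ W') →
      ∀ (P : Place Kbar (FF (N * q))) (c : Kbar),
      (∀ y ∈ W', s18_baseIncl K (N * q) y ∈ P.toValuationSubring) →
      0 < P.ord (s18_baseIncl K (N * q) (heckeBetaBar K N q t) -
        algebraMap Kbar (FF (N * q)) c) →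
      P.ord (s18_baseIncl K (N * q) (heckeBetaBar K N q t) -
        algebraMap Kbar (FF (N * q)) c) = 1) :
    ∀ x : B, x ∈ 𝔪 →
      (∀ f ∈ s36_th_O (s36_xi_r A B hB₁) 𝔪, ∃ g ∈ s36_th_O (s36_xi_r A B hB₁) 𝔪,
        s36_qt_theta (IsLocalRing.ResidueField A) f =
          g * s36_qt_theta (IsLocalRing.ResidueField A) (s36_xi_r A B hB₁ x)) →
      s36_qt_theta (IsLocalRing.ResidueField A) (s36_xi_r A B hB₁ x) ^ (q - 1) ∉
        s36_th_O (s36_xi_r A B hB₁) 𝔪 := by
  haveI : CharZero K := algebraRat.charZero K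
  have hcast : (((q : ℕ) : A) : K) = (q : K) := by push_cast; rfl
  have hqK : (q : K) ≠ 0 := Nat.cast_ne_zero.mpr (NeZero.ne q)
  have hπeq : algebraMap A (laurentBaseChange K (modularFunctionFieldFull (N * q)))
      ((q : ℕ) : A) =
      algebraMap K (laurentBaseChange K (modularFunctionFieldFull (N * q))) (q : K) := by
    show algebraMap K (laurentBaseChange K (modularFunctionFieldFull (N * q)))
      ((((q : ℕ) : A)) : K) = _
    rw [hcast]
  have hϖ0 : algebraMap K (laurentBaseChange K (modularFunctionFieldFull (N * q))) (q : K) ≠ 0 := by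
    rw [Ne, map_eq_zero]
    exact hqK
  -- the coordinate
  have htV : t ∈ s34_gi_V A N := s36_tmx_int_mem A N t x₁ ht
  have hred : s34_gi_red A N ⟨t, htV⟩ =
      coeffMap (Int.castRingHom (IsLocalRing.ResidueField A)) x₁ :=
    s36_tmx_red_int A N ⟨t, htV⟩ x₁ ht
  have hθt : s36_qt_theta (IsLocalRing.ResidueField A) (s34_gi_red A N ⟨t, htV⟩) ≠ 0 := by
    apply s36_tmx_theta_ne _ (-1)
    · rw [Int.cast_neg, Int.cast_one]
      exact neg_ne_zero.mpr one_ne_zero
    · rw [hred, coeffMap_coeff, hx1, map_one]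
      exact one_ne_zero
  have hfix : coeffMap (frobenius (IsLocalRing.ResidueField A) q)
      (s34_gi_red A N ⟨t, htV⟩) = s34_gi_red A N ⟨t, htV⟩ := by
    rw [hred, coeffMap_coeffMap]
    exact coeffMap_congr (RingHom.ext_int _ _) x₁
  have hθK : s36_qt_theta K (t : LaurentSeries K) ≠ 0 := by
    apply s36_tmx_theta_ne _ (-1)
    · rw [Int.cast_neg, Int.cast_one]
      exact neg_ne_zero.mpr one_ne_zero
    · rw [ht, coeffMap_coeff, hx1, map_one]
      exact one_ne_zero
  -- the ratio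
  obtain ⟨ρ, hρ, hρW⟩ := s36_trl_rho K N q t hθK
  let Walg : laurentBaseChange K (modularFunctionFieldFull (N * q)) →ₐ[K]
      laurentBaseChange K (modularFunctionFieldFull (N * q)) :=
    { (W : laurentBaseChange K (modularFunctionFieldFull (N * q)) →+*
        laurentBaseChange K (modularFunctionFieldFull (N * q))) with
      commutes' := s34_ni_W_const W hWα }
  have hsw : algebraMap K (laurentBaseChange K (modularFunctionFieldFull (N * q))) (q : K) ^ 2 *
      ρ * W ρ = 1 :=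
    hρW Walg (hWα t) (by
      show W (heckeBetaBar K N q t) = heckeAlphaBar K N q t
      rw [← hWα t, hWW])
  -- the horizontal integrality
  have hαcoe : ((heckeAlphaBar K N q t : laurentBaseChange K (modularFunctionFieldFull (N * q))) :
      LaurentSeries K) = (t : LaurentSeries K) := coe_heckeAlphaBar N q t
  have hβcoe : ((heckeBetaBar K N q t : laurentBaseChange K (modularFunctionFieldFull (N * q))) :
      LaurentSeries K) = qExpand K q (t : LaurentSeries K) := coe_heckeBetaBar N q t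
  have hC0 : (HahnSeries.C (q : K) : LaurentSeries K) ≠ 0 := by
    rw [Ne, map_eq_zero]
    exact hqK
  have hθβ : s36_qt_theta K
      ((heckeBetaBar K N q t : laurentBaseChange K (modularFunctionFieldFull (N * q))) :
        LaurentSeries K) =
      HahnSeries.C (q : K) * qExpand K q (s36_qt_theta K (t : LaurentSeries K)) := by
    rw [hβcoe, s36_qk_theta_qExpand]
  have hθx' : s36_qt_theta K
      ((heckeBetaBar K N q t : laurentBaseChange K (modularFunctionFieldFull (N * q))) :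
        LaurentSeries K) ≠ 0 := by
    rw [hθβ]
    refine mul_ne_zero hC0 (fun h0 => hθK ?_)
    exact qExpand_injective q (by rw [h0, map_zero])
  have hqF : ((q : ℕ) : laurentBaseChange K (modularFunctionFieldFull (N * q))) =
      algebraMap K (laurentBaseChange K (modularFunctionFieldFull (N * q))) (q : K) :=
    (map_natCast _ q).symm
  have hcoe : ((((q : ℕ) : laurentBaseChange K (modularFunctionFieldFull (N * q))) * ρ :
      laurentBaseChange K (modularFunctionFieldFull (N * q))) : LaurentSeries K) =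
      HahnSeries.C (q : K) * (ρ : LaurentSeries K) := by
    rw [hqF]
    show ((algebraMap K (laurentBaseChange K (modularFunctionFieldFull (N * q))) (q : K) :
      laurentBaseChange K (modularFunctionFieldFull (N * q))) : LaurentSeries K) *
        (ρ : LaurentSeries K) = _
    rw [s34_gi_coe_algebraMap]
  have hr : s36_qt_theta K
      ((heckeBetaBar K N q t : laurentBaseChange K (modularFunctionFieldFull (N * q))) :
        LaurentSeries K) =
      ((((q : ℕ) : laurentBaseChange K (modularFunctionFieldFull (N * q))) * ρ :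
        laurentBaseChange K (modularFunctionFieldFull (N * q))) : LaurentSeries K) *
        s36_qt_theta K ((heckeAlphaBar K N q t :
          laurentBaseChange K (modularFunctionFieldFull (N * q))) : LaurentSeries K) := by
    rw [hcoe, hθβ, hαcoe, ← hρ, mul_assoc]
  have hhor : ∀ W' : ValuationSubring (laurentBaseChange K (modularFunctionFieldFull (N * q))),
      IsDiscreteValuationRing W' → B ≤ W'.toSubring →
      (∀ b : B, b ∉ 𝔪 →
        ((b : laurentBaseChange K (modularFunctionFieldFull (N * q))))⁻¹ ∈ W') →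
      (algebraMap K (laurentBaseChange K (modularFunctionFieldFull (N * q))) (q : K))⁻¹ ∈ W' →
      ρ⁻¹ ∈ W' := by
    intro W' hW' hBW hinv hqW
    haveI := hW'
    have hK : ∀ c : K,
        algebraMap K (laurentBaseChange K (modularFunctionFieldFull (N * q))) c ∈ W' :=
      s36_hg_const_mem (N * q) K A hirr B hAB W' hBW (by rw [hπeq]; exact hqW)
    have hlocW : ∀ z ∈ s18_loc B 𝔪, z ∈ W' := by
      rintro z ⟨a, b, hb, rfl⟩
      rw [div_eq_mul_inv]
      exact W'.mul_mem _ _ (hBW a.2) (hinv b hb)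
    have h1 := s36_hg_inv_mem_bar (N * q) K W' hK (heckeAlphaBar K N q t)
      (heckeBetaBar K N q t)
      (((q : ℕ) : laurentBaseChange K (modularFunctionFieldFull (N * q))) * ρ)
      (hlocW _ hαloc) (hlocW _ hβloc) hθx' hr
      (fun P c hWP _ hpos => hunr W' hlocW P c hWP hpos)
    have hq0 : ((q : ℕ) : laurentBaseChange K (modularFunctionFieldFull (N * q))) ≠ 0 := by
      rw [hqF]
      exact hϖ0
    have e : ρ⁻¹ = ((q : ℕ) : laurentBaseChange K (modularFunctionFieldFull (N * q))) *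
        (((q : ℕ) : laurentBaseChange K (modularFunctionFieldFull (N * q))) * ρ)⁻¹ := by
      rw [mul_inv, ← mul_assoc, mul_inv_cancel₀ hq0, one_mul]
    rw [e]
    exact W'.mul_mem _ _ (by rw [hqF]; exact hK _) h1
  have hϖB : algebraMap K (laurentBaseChange K (modularFunctionFieldFull (N * q))) (q : K) ∈ B := by
    rw [← hπeq]
    exact hAB _
  exact s36_m5_pole_gauss_O A hirr W (s34_ni_W_const W hWα _) B hB₁ hB₂ hϖB hnoeth hfrac hnorm
    hcap 𝔪 hP₁ hP₂ t htV hθt hfix (s36_m5_red_mem_O A B hB₁ 𝔪 t htV hαloc) ρ hρ hsw hhor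

/-- **`hpole` for `q ≥ 5` via `t₂`, LOC form**: at a crossing point `𝔪` where
`α t₂, β t₂, (β t₂)⁻¹, (β t₂ + 64)⁻¹ ∈ s18_loc B 𝔪`. -/
theorem s36_m5_pole_loc_two (hcop : Nat.Coprime q N) [IsDiscreteValuationRing A]
    [CharP (IsLocalRing.ResidueField A) q]
    (hirr : Irreducible ((q : ℕ) : A))
    (W : laurentBaseChange K (modularFunctionFieldFull (N * q)) ≃+*
      laurentBaseChange K (modularFunctionFieldFull (N * q)))
    (hWW : ∀ x, W (W x) = x)
    (hWα : ∀ x : laurentBaseChange K (modularFunctionFieldFull N),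
      W (heckeAlphaBar K N q x) = heckeBetaBar K N q x)
    (B : Subring (laurentBaseChange K (modularFunctionFieldFull (N * q))))
    (hAB : ∀ a : A, algebraMap A (laurentBaseChange K (modularFunctionFieldFull (N * q))) a ∈ B)
    (hB₁ : B ≤ s34_gi_V A (N * q))
    (hB₂ : B ≤ (s34_gi_V A (N * q)).comap (W : _ →+* _))
    (hnoeth : IsNoetherianRing B)
    (hfrac : ∀ x : laurentBaseChange K (modularFunctionFieldFull (N * q)),
      ∃ a ∈ B, ∃ b ∈ B, b ≠ 0 ∧ x = a / b)
    (hnorm : ∀ z : laurentBaseChange K (modularFunctionFieldFull (N * q)),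
      IsIntegral B z → z ∈ B)
    (hcap : ∀ x ∈ B, (algebraMap K _ (q : K))⁻¹ * x ∈ s34_gi_V A (N * q) →
      (algebraMap K _ (q : K))⁻¹ * x ∈ (s34_gi_V A (N * q)).comap (W : _ →+* _) →
      (algebraMap K _ (q : K))⁻¹ * x ∈ B)
    (𝔪 : Ideal B) [h𝔪 : 𝔪.IsPrime]
    (hP₁ : ∀ p : B, (algebraMap K _ (q : K))⁻¹ *
      (p : laurentBaseChange K (modularFunctionFieldFull (N * q))) ∈ s34_gi_V A (N * q) → p ∈ 𝔪)
    (hP₂ : ∀ p : B, (algebraMap K _ (q : K))⁻¹ *
      (p : laurentBaseChange K (modularFunctionFieldFull (N * q))) ∈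
        (s34_gi_V A (N * q)).comap (W : _ →+* _) → p ∈ 𝔪)
    (t : laurentBaseChange K (modularFunctionFieldFull N))
    (ht : (t : LaurentSeries K) = s18_t2R K)
    (hαloc : heckeAlphaBar K N q t ∈ s18_loc B 𝔪)
    (hβloc : heckeBetaBar K N q t ∈ s18_loc B 𝔪)
    (hβinv : (heckeBetaBar K N q t)⁻¹ ∈ s18_loc B 𝔪)
    (hβ64 : (heckeBetaBar K N q t + 64)⁻¹ ∈ s18_loc B 𝔪) :
    ∀ x : B, x ∈ 𝔪 →
      (∀ f ∈ s36_th_O (s36_xi_r A B hB₁) 𝔪, ∃ g ∈ s36_th_O (s36_xi_r A B hB₁) 𝔪,
        s36_qt_theta (IsLocalRing.ResidueField A) f =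
          g * s36_qt_theta (IsLocalRing.ResidueField A) (s36_xi_r A B hB₁ x)) →
      s36_qt_theta (IsLocalRing.ResidueField A) (s36_xi_r A B hB₁ x) ^ (q - 1) ∉
        s36_th_O (s36_xi_r A B hB₁) 𝔪 := by
  have hβcoe : ((heckeBetaBar K N q t : laurentBaseChange K (modularFunctionFieldFull (N * q))) :
      LaurentSeries K) = qExpand K q (s18_t2R K) := by
    rw [← ht]
    exact coe_heckeBetaBar N q t
  obtain ⟨σ, hσ⟩ := s36_hg_sigma_two K N q hcop (heckeBetaBar K N q t) hβcoe
  exact s36_m5_pole_loc_int A hirr W hWW hWα B hAB hB₁ hB₂ hnoeth hfrac hnorm hcap 𝔪 hP₁ hP₂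
    t s18_t2 s34_gzi_t2_lead.1 ht hαloc hβloc
    (fun W' hlocW P c hWP hpos => s36_hg_unr_two (N * q) K W' (heckeBetaBar K N q t)
      (hlocW _ hβinv) (hlocW _ hβ64) σ hσ P c hWP hpos)

/-- **`hpole` for `q ≥ 5` via `t₃`, LOC form**: at a crossing point `𝔪` where
`α t₃, β t₃, (β t₃)⁻¹, (β t₃ + 27)⁻¹ ∈ s18_loc B 𝔪`. -/
theorem s36_m5_pole_loc_three (hcop : Nat.Coprime q N) [IsDiscreteValuationRing A]
    [CharP (IsLocalRing.ResidueField A) q]
    (hirr : Irreducible ((q : ℕ) : A))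
    (W : laurentBaseChange K (modularFunctionFieldFull (N * q)) ≃+*
      laurentBaseChange K (modularFunctionFieldFull (N * q)))
    (hWW : ∀ x, W (W x) = x)
    (hWα : ∀ x : laurentBaseChange K (modularFunctionFieldFull N),
      W (heckeAlphaBar K N q x) = heckeBetaBar K N q x)
    (B : Subring (laurentBaseChange K (modularFunctionFieldFull (N * q))))
    (hAB : ∀ a : A, algebraMap A (laurentBaseChange K (modularFunctionFieldFull (N * q))) a ∈ B)
    (hB₁ : B ≤ s34_gi_V A (N * q))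
    (hB₂ : B ≤ (s34_gi_V A (N * q)).comap (W : _ →+* _))
    (hnoeth : IsNoetherianRing B)
    (hfrac : ∀ x : laurentBaseChange K (modularFunctionFieldFull (N * q)),
      ∃ a ∈ B, ∃ b ∈ B, b ≠ 0 ∧ x = a / b)
    (hnorm : ∀ z : laurentBaseChange K (modularFunctionFieldFull (N * q)),
      IsIntegral B z → z ∈ B)
    (hcap : ∀ x ∈ B, (algebraMap K _ (q : K))⁻¹ * x ∈ s34_gi_V A (N * q) →
      (algebraMap K _ (q : K))⁻¹ * x ∈ (s34_gi_V A (N * q)).comap (W : _ →+* _) →
      (algebraMap K _ (q : K))⁻¹ * x ∈ B)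
    (𝔪 : Ideal B) [h𝔪 : 𝔪.IsPrime]
    (hP₁ : ∀ p : B, (algebraMap K _ (q : K))⁻¹ *
      (p : laurentBaseChange K (modularFunctionFieldFull (N * q))) ∈ s34_gi_V A (N * q) → p ∈ 𝔪)
    (hP₂ : ∀ p : B, (algebraMap K _ (q : K))⁻¹ *
      (p : laurentBaseChange K (modularFunctionFieldFull (N * q))) ∈
        (s34_gi_V A (N * q)).comap (W : _ →+* _) → p ∈ 𝔪)
    (t : laurentBaseChange K (modularFunctionFieldFull N))
    (ht : (t : LaurentSeries K) = s18_t3R K)
    (hαloc : heckeAlphaBar K N q t ∈ s18_loc B 𝔪)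
    (hβloc : heckeBetaBar K N q t ∈ s18_loc B 𝔪)
    (hβinv : (heckeBetaBar K N q t)⁻¹ ∈ s18_loc B 𝔪)
    (hβ27 : (heckeBetaBar K N q t + 27)⁻¹ ∈ s18_loc B 𝔪) :
    ∀ x : B, x ∈ 𝔪 →
      (∀ f ∈ s36_th_O (s36_xi_r A B hB₁) 𝔪, ∃ g ∈ s36_th_O (s36_xi_r A B hB₁) 𝔪,
        s36_qt_theta (IsLocalRing.ResidueField A) f =
          g * s36_qt_theta (IsLocalRing.ResidueField A) (s36_xi_r A B hB₁ x)) →
      s36_qt_theta (IsLocalRing.ResidueField A) (s36_xi_r A B hB₁ x) ^ (q - 1) ∉
        s36_th_O (s36_xi_r A B hB₁) 𝔪 := by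
  have hβcoe : ((heckeBetaBar K N q t : laurentBaseChange K (modularFunctionFieldFull (N * q))) :
      LaurentSeries K) = qExpand K q (s18_t3R K) := by
    rw [← ht]
    exact coe_heckeBetaBar N q t
  obtain ⟨σ, hσ⟩ := s36_hg_sigma_three K N q hcop (heckeBetaBar K N q t) hβcoe
  exact s36_m5_pole_loc_int A hirr W hWW hWα B hAB hB₁ hB₂ hnoeth hfrac hnorm hcap 𝔪 hP₁ hP₂
    t s18_t3 s34_gzi_t3_lead.1 ht hαloc hβloc
    (fun W' hlocW P c hWP hpos => s36_hg_unr_three (N * q) K W' (heckeBetaBar K N q t)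
      (hlocW _ hβinv) (hlocW _ hβ27) σ hσ P c hWP hpos)

end Gauss

end Fermat.Agent.S36
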