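import Fermat.Agent.S36.CrossInst2
import Fermat.Agent.S36.CrossUnit
import Fermat.Agent.S36.PoleM5Loc

/-!
# S36 (NODE-3), B2 route (a): thickness one at every crossing point for `q ≥ 5`, generic model

Generic Gauss vocabulary of `CrossInst.lean` / `CrossInst2.lean` (no Galois hypothesis) with
`[Algebra K ℚ̄]`.  Composition of

* `s36_xun_point` (`CrossUnit.lean`): at a crossing point of a chart whose coordinate is one of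
  `t₂^{±1}, t₃^{±1}` (cusp ratio `G = x^ℓ / x' ∈ B`) all of `t₂^{±1}, t₃^{±1}` and their transforms
  under `Q ↦ Q^ℓ` are units of the local ring, and `t₂(Q^ℓ) + 64` or `t₃(Q^ℓ) + 27` is a unit;
* `s36_m5_pole_loc_two/_three` (`PoleM5Loc.lean`): the pole of `(θ x̄)^(ℓ-1)` from the
  horizontal-unit statement (M5);
* `s36_xi2_hq` (`CrossInst2.lean`).

Results:

* `s36_xi5_six` : `6⁻¹ ∈ s18_loc B 𝔪` for `ℓ ≥ 5`;
* `s36_xi5_hpole` : the hypothesis `hpole` of `s36_xi_core` / `s36_xi2_main` at a crossing point;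
* `s36_xi5_hq` : `s36_xi2_hq` without `hpole` — LITERALLY the binder `hq` of `s36_clq_main`
  (thickness one at every prime `𝔪' ⊇ P∞ + P0`), for `ℓ ≥ 5`.
-/

set_option autoImplicit false
set_option synthInstance.maxHeartbeats 400000
set_option maxHeartbeats 1000000
set_option linter.unusedSectionVars false
set_option linter.unusedVariables false
set_option linter.style.haveILetI false

open ModularCurve ModularCurve.IgusaScheme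

noncomputable section

namespace Fermat.Agent.S36

open Fermat.Agent.S24 (Kbar)
open Fermat.Agent.S18 Fermat.Agent.S28 Fermat.Agent.S34

section Generic

variable {N : ℕ} [NeZero N] {ℓ : ℕ} [NeZero ℓ] [Fact ℓ.Prime]
variable {K : Type*} [Field K] [Algebra ℚ K] [Algebra K Kbar] (A : ValuationSubring K)

local notation "F'" => laurentBaseChange K (modularFunctionFieldFull N)
local notation "FF" => laurentBaseChange K (modularFunctionFieldFull (N * ℓ))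

/-- For `ℓ ≥ 5` the number `6` is invertible in every chart containing `A`. -/
theorem s36_xi5_six [IsDiscreteValuationRing A] (hℓ : ((ℓ : K))⁻¹ ∉ A) (h5 : 5 ≤ ℓ)
    (B : Subring FF) (hAB : ∀ a : A, algebraMap A FF a ∈ B)
    (𝔪 : Ideal B) [h𝔪 : 𝔪.IsPrime] : ((6 : FF))⁻¹ ∈ s18_loc B 𝔪 := by
  have hℓp : ℓ.Prime := Fact.out
  have hchar : CharP (IsLocalRing.ResidueField A) ℓ := s18_charP_res ℓ A hℓ
  have h6k : ((6 : ℕ) : IsLocalRing.ResidueField A) ≠ 0 := by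
    rw [Ne, CharP.cast_eq_zero_iff (IsLocalRing.ResidueField A) ℓ]
    intro hdvd
    have h1 : ℓ ∣ 2 * 3 := by simpa using hdvd
    rcases (Nat.Prime.dvd_mul hℓp).mp h1 with h | h
    · have := Nat.le_of_dvd (by norm_num) h
      omega
    · have := Nat.le_of_dvd (by norm_num) h
      omega
  have h6u : IsUnit ((6 : ℕ) : A) := by
    apply (IsLocalRing.residue_ne_zero_iff_isUnit _).mp
    rw [map_natCast]
    exact h6k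
  obtain ⟨c, hc⟩ := h6u.exists_right_inv
  have e : (6 : FF) * algebraMap A FF c = 1 := by
    have h1 : algebraMap A FF (((6 : ℕ) : A) * c) = 1 := by rw [hc, map_one]
    rw [map_mul, map_natCast] at h1
    exact_mod_cast h1
  have e' : ((6 : FF))⁻¹ = algebraMap A FF c := inv_eq_of_mul_eq_one_right e
  rw [e']
  exact s36_xun_mem_loc B 𝔪 ⟨_, hAB c⟩

/-- **`hpole` at a crossing point, `ℓ ≥ 5`.**  Chart `B` (noetherian, normal, (cap)) whose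
coordinate `x ∈ B` is one of `α t₂, (α t₂)⁻¹, α t₃, (α t₃)⁻¹`, with `x' = W x ∈ B` and the cusp
ratio `G = x^ℓ / x' ∈ B`; `𝔪 ⊇ P∞ + P0`.  Then `(θ z̄)^(ℓ-1) ∉ O` for every `z` satisfying the
stability `hD`. -/
theorem s36_xi5_hpole [IsDiscreteValuationRing A] (hℓ : ((ℓ : K))⁻¹ ∉ A)
    (hirr : Irreducible ((ℓ : ℕ) : A)) (hcop : Nat.Coprime ℓ N) (h5 : 5 ≤ ℓ)
    (W : FF ≃+* FF) (hWW : ∀ x, W (W x) = x)
    (hWα : ∀ x : F', W (heckeAlphaBar K N ℓ x) = heckeBetaBar K N ℓ x)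
    (B : Subring FF) (hAB : ∀ a : A, algebraMap A FF a ∈ B)
    (hB₁ : B ≤ s34_gi_V A (N * ℓ)) (hB₂ : B ≤ (s34_gi_V A (N * ℓ)).comap (W : FF →+* FF))
    (hnoeth : IsNoetherianRing B)
    (hfrac : ∀ x : FF, ∃ a ∈ B, ∃ b ∈ B, b ≠ 0 ∧ x = a / b)
    (hnorm : ∀ z : FF, IsIntegral B z → z ∈ B)
    (hcap : ∀ x ∈ B, (algebraMap K FF (ℓ : K))⁻¹ * x ∈ s34_gi_V A (N * ℓ) →
      (algebraMap K FF (ℓ : K))⁻¹ * x ∈ (s34_gi_V A (N * ℓ)).comap (W : FF →+* FF) →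
      (algebraMap K FF (ℓ : K))⁻¹ * x ∈ B)
    (t₂ t₃ : F') (ht₂ : (t₂ : LaurentSeries K) = s18_t2R K)
    (ht₃ : (t₃ : LaurentSeries K) = s18_t3R K)
    (x x' G : B) (x₀ : LaurentSeries ℚ) (hx₀ : x₀ ∈ Wring ℓ)
    (hx : ((x : FF) : LaurentSeries K) = coeffMap (algebraMap ℚ K) x₀)
    (hx' : ((x' : FF) : LaurentSeries K) = qExpand K ℓ ((x : FF) : LaurentSeries K))
    (hWx : W (x : FF) = x')
    (hxi : ((x : FF))⁻¹ ∈ s34_gi_V A (N * ℓ)) (hx'i : ((x' : FF))⁻¹ ∈ s34_gi_V A (N * ℓ))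
    (hx0 : (x : FF) ≠ 0) (hG : G * x' = x ^ ℓ)
    (hchart : (x : FF) = heckeAlphaBar K N ℓ t₂ ∨ (x : FF) = (heckeAlphaBar K N ℓ t₂)⁻¹ ∨
      (x : FF) = heckeAlphaBar K N ℓ t₃ ∨ (x : FF) = (heckeAlphaBar K N ℓ t₃)⁻¹)
    (𝔪 : Ideal B) [h𝔪 : 𝔪.IsPrime]
    (hP₁ : ∀ p : B, (algebraMap K FF (ℓ : K))⁻¹ * (p : FF) ∈ s34_gi_V A (N * ℓ) → p ∈ 𝔪)
    (hP₂ : ∀ p : B, (algebraMap K FF (ℓ : K))⁻¹ * (p : FF) ∈
      (s34_gi_V A (N * ℓ)).comap (W : FF →+* FF) → p ∈ 𝔪) :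
    ∀ z : B, z ∈ 𝔪 →
      (∀ f ∈ s36_th_O (s36_xi_r A B hB₁) 𝔪, ∃ g ∈ s36_th_O (s36_xi_r A B hB₁) 𝔪,
        s36_qt_theta (IsLocalRing.ResidueField A) f =
          g * s36_qt_theta (IsLocalRing.ResidueField A) (s36_xi_r A B hB₁ z)) →
      s36_qt_theta (IsLocalRing.ResidueField A) (s36_xi_r A B hB₁ z) ^ (ℓ - 1) ∉
        s36_th_O (s36_xi_r A B hB₁) 𝔪 := by
  haveI hchar : CharP (IsLocalRing.ResidueField A) ℓ := s18_charP_res ℓ A hℓ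
  have hWϖ : W (algebraMap K FF (ℓ : K)) = algebraMap K FF (ℓ : K) := s34_ni_W_const W hWα _
  have h6 := s36_xi5_six A hℓ h5 B hAB 𝔪
  have hWx' : W (x' : FF) = x := by rw [← hWx, hWW]
  have hα₂ : ((heckeAlphaBar K N ℓ t₂ : FF) : LaurentSeries K) = s18_t2R K := by
    rw [coe_heckeAlphaBar, ht₂]
  have hα₃ : ((heckeAlphaBar K N ℓ t₃ : FF) : LaurentSeries K) = s18_t3R K := by
    rw [coe_heckeAlphaBar, ht₃]
  have hβ₂ : ((heckeBetaBar K N ℓ t₂ : FF) : LaurentSeries K) = qExpand K ℓ (s18_t2R K) := by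
    rw [coe_heckeBetaBar, ht₂]
  have hβ₃ : ((heckeBetaBar K N ℓ t₃ : FF) : LaurentSeries K) = qExpand K ℓ (s18_t3R K) := by
    rw [coe_heckeBetaBar, ht₃]
  obtain ⟨⟨hα2, -, hα3, -⟩, ⟨hβ2, hβ2i, hβ3, hβ3i⟩, hc⟩ :=
    s36_xun_point A hℓ hirr W hWϖ B hnorm 𝔪 h6 hP₁ hP₂ x x' G x₀ hx₀ hx hx' hWx hWx' hxi hx'i
      hx0 hG (heckeAlphaBar K N ℓ t₂) (heckeAlphaBar K N ℓ t₃) (heckeBetaBar K N ℓ t₂)
      (heckeBetaBar K N ℓ t₃) hα₂ hα₃ hβ₂ hβ₃ hchart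
  rcases hc with h64 | h27
  · exact s36_m5_pole_loc_two A hcop hirr W hWW hWα B hAB hB₁ hB₂ hnoeth hfrac hnorm hcap 𝔪
      hP₁ hP₂ t₂ ht₂ hα2 hβ2 hβ2i h64
  · exact s36_m5_pole_loc_three A hcop hirr W hWW hWα B hAB hB₁ hB₂ hnoeth hfrac hnorm hcap 𝔪
      hP₁ hP₂ t₃ ht₃ hα3 hβ3 hβ3i h27

/-- **Thickness one at every crossing point, `ℓ ≥ 5`** (`s36_xi2_hq` with `hpole` discharged):
literally the binder `hq` of `s36_clq_main` / `s36_clq_transport`. -/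
theorem s36_xi5_hq [IsDiscreteValuationRing A] (hℓ : ((ℓ : K))⁻¹ ∉ A)
    (hirr : Irreducible ((ℓ : ℕ) : A)) (hcop : Nat.Coprime ℓ N) (h5 : 5 ≤ ℓ)
    (m : ℕ) (hm : 0 < m) (hAfin : ∀ a : A, ∃ c : A, a ^ (ℓ ^ m) - a = ((ℓ : ℕ) : A) * c)
    (t : modularFunctionFieldFull N)
    (hCW : ∀ x ∈ s18_czRing N ℓ t, x ∈ Wring ℓ)
    (hfin : ∃ gen : Finset F', (∀ m ∈ gen, m ∈ s18_chAlg N ℓ A t) ∧
      ∀ x ∈ s18_chAlg N ℓ A t, ∃ c : F' → Polynomial A,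
        x = ∑ m ∈ gen, Polynomial.aeval (s18_coord K t) (c m) * m)
    (hlc : ∀ 𝔪₁ : Ideal (s18_chAlg N ℓ A t).toSubring, 𝔪₁.IsMaximal →
      (⟨algebraMap A F' ((ℓ : ℕ) : A), (s18_chAlg N ℓ A t).algebraMap_mem _⟩ :
        (s18_chAlg N ℓ A t).toSubring) ∈ 𝔪₁ →
      ∃ y : modularFunctionFieldFull N, y ∈ chartAlg N ℓ {t} ∧
        ∃ hs : s18_coord K y ∈ (s18_chAlg N ℓ A t).toSubring,
          (⟨s18_coord K y, hs⟩ : (s18_chAlg N ℓ A t).toSubring) ∈ 𝔪₁ ∧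
          ∀ x ∈ 𝔪₁, ∃ u, u ∉ 𝔪₁ ∧ u * x ∈ Ideal.span
            {(⟨algebraMap A F' ((ℓ : ℕ) : A), (s18_chAlg N ℓ A t).algebraMap_mem _⟩ :
              (s18_chAlg N ℓ A t).toSubring), ⟨s18_coord K y, hs⟩})
    (W : FF ≃+* FF) (hWW : ∀ x, W (W x) = x)
    (hWα : ∀ x : F', W (heckeAlphaBar K N ℓ x) = heckeBetaBar K N ℓ x)
    (B : Subring FF) (hAB : ∀ a : A, algebraMap A FF a ∈ B) (hWB : ∀ b ∈ B, W b ∈ B)
    (hαB : ∀ x ∈ (s18_chAlg N ℓ A t).toSubring, (heckeAlphaBar K N ℓ).toRingHom x ∈ B)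
    (hB₁ : B ≤ s34_gi_V A (N * ℓ)) (hB₂ : B ≤ (s34_gi_V A (N * ℓ)).comap (W : FF →+* FF))
    (hcap : ∀ x ∈ B, (algebraMap K FF (ℓ : K))⁻¹ * x ∈ s34_gi_V A (N * ℓ) →
      (algebraMap K FF (ℓ : K))⁻¹ * x ∈ (s34_gi_V A (N * ℓ)).comap (W : FF →+* FF) →
      (algebraMap K FF (ℓ : K))⁻¹ * x ∈ B)
    (hresInf : ∀ x ∈ B, ∃ x' ∈ (s18_chAlg N ℓ A t).toSubring,
      (algebraMap K FF (ℓ : K))⁻¹ * (x - (heckeAlphaBar K N ℓ).toRingHom x') ∈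
        s34_gi_V A (N * ℓ))
    (hθne : ∃ a : B, s36_qt_theta (IsLocalRing.ResidueField A) (s36_xi_r A B hB₁ a) ≠ 0)
    (hnoeth : IsNoetherianRing B)
    (hfrac : ∀ x : FF, ∃ a ∈ B, ∃ b ∈ B, b ≠ 0 ∧ x = a / b)
    (hnorm : ∀ z : FF, IsIntegral B z → z ∈ B)
    (t₂ t₃ : F') (ht₂ : (t₂ : LaurentSeries K) = s18_t2R K)
    (ht₃ : (t₃ : LaurentSeries K) = s18_t3R K)
    (x x' G : B) (x₀ : LaurentSeries ℚ) (hx₀ : x₀ ∈ Wring ℓ)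
    (hx : ((x : FF) : LaurentSeries K) = coeffMap (algebraMap ℚ K) x₀)
    (hx' : ((x' : FF) : LaurentSeries K) = qExpand K ℓ ((x : FF) : LaurentSeries K))
    (hWx : W (x : FF) = x')
    (hxi : ((x : FF))⁻¹ ∈ s34_gi_V A (N * ℓ)) (hx'i : ((x' : FF))⁻¹ ∈ s34_gi_V A (N * ℓ))
    (hx0 : (x : FF) ≠ 0) (hG : G * x' = x ^ ℓ)
    (hchart : (x : FF) = heckeAlphaBar K N ℓ t₂ ∨ (x : FF) = (heckeAlphaBar K N ℓ t₂)⁻¹ ∨
      (x : FF) = heckeAlphaBar K N ℓ t₃ ∨ (x : FF) = (heckeAlphaBar K N ℓ t₃)⁻¹) :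
    ∀ 𝔪' : Ideal B, 𝔪'.IsPrime →
      (∀ p : B, (algebraMap K FF (ℓ : K))⁻¹ * (p : FF) ∈ s34_gi_V A (N * ℓ) → p ∈ 𝔪') →
      (∀ p : B, (algebraMap K FF (ℓ : K))⁻¹ * (p : FF) ∈
        (s34_gi_V A (N * ℓ)).comap (W : FF →+* FF) → p ∈ 𝔪') →
      ∃ u₁ u₂ γ : B, (u₁ : FF) * (u₂ : FF) = algebraMap K FF (ℓ : K) * (γ : FF) ∧
        (algebraMap K FF (ℓ : K))⁻¹ * (u₁ : FF) ∈ s34_gi_V A (N * ℓ) ∧
        (algebraMap K FF (ℓ : K))⁻¹ * (u₂ : FF) ∈ (s34_gi_V A (N * ℓ)).comap (W : FF →+* FF) ∧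
        γ ∉ 𝔪' :=
  s36_xi2_hq A hℓ hirr m hm hAfin t hCW hfin hlc W hWW hWα B hAB hWB hαB hB₁ hB₂ hcap hresInf
    hθne (fun 𝔪 h𝔪 _ hP₁ hP₂ _ _ z _ hz𝔪 _ hD _ =>
      s36_xi5_hpole A hℓ hirr hcop h5 W hWW hWα B hAB hB₁ hB₂ hnoeth hfrac hnorm hcap t₂ t₃
        ht₂ ht₃ x x' G x₀ hx₀ hx hx' hWx hxi hx'i hx0 hG hchart 𝔪 hP₁ hP₂ z hz𝔪 hD)

end Generic

end Fermat.Agent.S36
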