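import Mathlib

/-!
# S36 (NODE-3), leaf (POLE23), abstract half: the pole of `ρ_s = (θ s̄)^(q-1)` at a crossing
point for `q = 2, 3`

Vocabulary of `S36/QThick.lean` (`s36_qk_regular_of_dvd`): `F` a field (the function field of the
special fibre), `θ : F →+ F` a derivation, `O : Subring F` (the local ring at the point `p`),
`sb ∈ F` a coordinate such that `O` is stable under `d/ds̄ = θ / θ s̄`
(`hD : ∀ f ∈ O, ∃ g ∈ O, θ f = g * θ sb`).

* `s36_p23_pole_abs` : if `θ tb = c * tb` with `tb`, `c` units of `O`, and every `g ∈ O` with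
  `θ tb = g * θ sb` is divisible in `O` by a non-unit `v`, then `(θ sb)^n ∉ O` for all `n ≥ 1`.
* `s36_p23_pole3` (`q = 3`, chart coordinate `t = t₂`, auxiliary function `t₄`):
  `θ tb = - tb`, `(tb + 1) (t₄ + 1) = (t₄ - 1)²`, `t₄ - 1` a non-unit, `t₄ + 1` a unit
  `⟹ (θ sb)^n ∉ O`.
* `s36_p23_pole2` (`q = 2`, chart coordinate `t = t₃`, auxiliary function `t₉`):
  `θ tb = - tb`, `(tb + 1) (t₉² + t₉ + 1) = (t₉ + 1)³`, `t₉ + 1` a non-unit, `t₉² + t₉ + 1` a unit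
  `⟹ (θ sb)^n ∉ O`.
* `s36_p23_alg4`, `s36_p23_alg9` : pure algebra in a domain: from the modular equation of level
  `2` (resp. `3`) between `x = t(Q)` and `y = t(Q^2)` (resp. `t(Q^3)`), any `t₄` with
  `t₄ (x + 16) = y - 16 x` satisfies `t₄² = x t₄ + 16 x`, hence (`s36_p23_rel4`)
  `(x + 1)(t₄ + 1) = (t₄ - 1)² + 3 (t₄ - 5 x)`; resp. any `t₉` with
  `t₉ (x y + 9 y - 243 x + 729) = y (x² + 18 x + 27) + 1458 x` satisfies
  `t₉³ = x (t₉² + 9 t₉ + 27)`, hence (`s36_p23_rel9`)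
  `(x + 1)(t₉² + t₉ + 1) = (t₉ + 1)³ - 2 (4 x t₉ + 13 x + t₉² + t₉)`.
-/

set_option autoImplicit false

namespace Fermat.Agent.S36

section Abstract

variable {F : Type*} [Field F]

theorem s36_p23_theta_one (θ : F →+ F) (hθ : ∀ f g, θ (f * g) = θ f * g + f * θ g) :
    θ 1 = 0 := by
  have h := hθ 1 1
  rw [mul_one, mul_one, one_mul] at h
  exact left_eq_add.mp h

theorem s36_p23_theta_natCast (θ : F →+ F) (hθ : ∀ f g, θ (f * g) = θ f * g + f * θ g)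
    (n : ℕ) : θ (n : F) = 0 := by
  induction n with
  | zero => simp
  | succ n ih => rw [Nat.cast_succ, map_add, ih, s36_p23_theta_one θ hθ, add_zero]

theorem s36_p23_theta_sq (θ : F →+ F) (hθ : ∀ f g, θ (f * g) = θ f * g + f * θ g) (f : F) :
    θ (f ^ 2) = 2 * f * θ f := by
  rw [pow_two, hθ]; ring

theorem s36_p23_theta_cube (θ : F →+ F) (hθ : ∀ f g, θ (f * g) = θ f * g + f * θ g) (f : F) :
    θ (f ^ 3) = 3 * f ^ 2 * θ f := by
  rw [show f ^ 3 = f ^ 2 * f by ring, hθ, s36_p23_theta_sq θ hθ]; ring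

/-- Abstract pole lemma: `θ tb = c * tb` with `tb`, `c` units of `O`; if `θ tb = g * θ sb` forces
`v ∣ g` in `O` for a non-unit `v` of `O`, then no positive power of `θ sb` lies in `O`. -/
theorem s36_p23_pole_abs (θ : F →+ F) (O : Subring F) (sb : F)
    (hD : ∀ f ∈ O, ∃ g ∈ O, θ f = g * θ sb)
    (tb c v : F) (htb : tb ∈ O) (htb0 : tb ≠ 0) (htb' : tb⁻¹ ∈ O) (hc0 : c ≠ 0) (hc' : c⁻¹ ∈ O)
    (hθt : θ tb = c * tb) (hvO : v ∈ O) (hv : v⁻¹ ∉ O)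
    (hdiv : ∀ g ∈ O, θ tb = g * θ sb → ∃ e ∈ O, g = v * e)
    (n : ℕ) (hn : 1 ≤ n) : θ sb ^ n ∉ O := by
  intro hmem
  obtain ⟨g, hg, hg'⟩ := hD tb htb
  obtain ⟨e, he, rfl⟩ := hdiv g hg hg'
  -- (c tb)^n = v^n e^n (θ sb)^n
  have h1 : (c * tb) ^ n = v ^ n * e ^ n * θ sb ^ n := by
    rw [← hθt, hg']; ring
  have hvn : v ^ n = v * v ^ (n - 1) := by
    rw [← pow_succ']; congr 1; omega
  have hct : (c * tb) ^ n ≠ 0 := pow_ne_zero _ (mul_ne_zero hc0 htb0)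
  have h3 : v * (v ^ (n - 1) * e ^ n * θ sb ^ n * (c⁻¹) ^ n * (tb⁻¹) ^ n) = 1 := by
    have : v * (v ^ (n - 1) * e ^ n * θ sb ^ n * (c⁻¹) ^ n * (tb⁻¹) ^ n)
        = (v ^ n * e ^ n * θ sb ^ n) * ((c * tb) ^ n)⁻¹ := by
      rw [hvn, mul_pow, mul_inv, inv_pow, inv_pow]; ring
    rw [this, ← h1, mul_inv_cancel₀ hct]
  apply hv
  rw [← eq_inv_of_mul_eq_one_right h3]
  exact O.mul_mem (O.mul_mem (O.mul_mem (O.mul_mem (O.pow_mem hvO _) (O.pow_mem he _)) hmem)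
    (O.pow_mem hc' _)) (O.pow_mem htb' _)

/-- **(POLE23), `q = 3`.** Chart coordinate `tb = t̄₂`, auxiliary `t4 = t̄₄` with
`(t̄₂ + 1)(t̄₄ + 1) = (t̄₄ - 1)²` (valid in characteristic `3`), `θ t̄₂ = - t̄₂`, `t̄₂` a unit at
the point, `t̄₄ - 1` a non-unit (the point is the supersingular one), `t̄₄ + 1` a unit. Then no
positive power of `θ s̄` is regular at the point. -/
theorem s36_p23_pole3 (θ : F →+ F) (hθ : ∀ f g, θ (f * g) = θ f * g + f * θ g)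
    (O : Subring F) (sb : F) (hD : ∀ f ∈ O, ∃ g ∈ O, θ f = g * θ sb)
    (tb t4 : F) (htb : tb ∈ O) (htb0 : tb ≠ 0) (htb' : tb⁻¹ ∈ O) (ht4 : t4 ∈ O)
    (hθt : θ tb = -tb) (hrel : (tb + 1) * (t4 + 1) = (t4 - 1) ^ 2)
    (hnu : (t4 - 1)⁻¹ ∉ O) (hu : (t4 + 1)⁻¹ ∈ O)
    (n : ℕ) (hn : 1 ≤ n) : θ sb ^ n ∉ O := by
  have h1 : θ (1 : F) = 0 := s36_p23_theta_one θ hθ
  have hu0 : t4 + 1 ≠ 0 := by
    intro h0
    rw [h0, mul_zero] at hrel
    have : t4 - 1 = 0 := by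
      have := pow_eq_zero_iff (two_ne_zero) |>.mp hrel.symm
      exact this
    exact hnu (by rw [this, inv_zero]; exact O.zero_mem)
  have hθs0 : θ sb ≠ 0 := by
    intro h0
    obtain ⟨g, -, hg⟩ := hD tb htb
    rw [h0, mul_zero, hθt] at hg
    exact htb0 (neg_eq_zero.mp hg)
  refine s36_p23_pole_abs θ O sb hD tb (-1) (t4 - 1) htb htb0 htb' (by norm_num)
    (by rw [inv_neg, inv_one]; exact O.neg_mem O.one_mem) (by rw [hθt]; ring)
    (O.sub_mem ht4 O.one_mem) hnu ?_ n hn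
  intro g hg hg'
  obtain ⟨g4, hg4, hg4'⟩ := hD t4 ht4
  -- differentiate the relation
  have hd : θ tb * (t4 + 1) + (tb + 1) * θ t4 = 2 * (t4 - 1) * θ t4 := by
    have := congrArg θ hrel
    rw [hθ, map_add, map_add, h1, add_zero, add_zero, s36_p23_theta_sq θ hθ, map_sub, h1,
      sub_zero] at this
    exact this
  -- tb + 1 = (t4 - 1) * c with c = (t4 - 1) / (t4 + 1)
  have hc : tb + 1 = (t4 - 1) * ((t4 - 1) * (t4 + 1)⁻¹) := by
    rw [(eq_mul_inv_iff_mul_eq₀ hu0).mpr hrel]; ring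
  have h2O : (2 : F) ∈ O := by exact_mod_cast natCast_mem O 2
  refine ⟨(2 - (t4 - 1) * (t4 + 1)⁻¹) * g4 * (t4 + 1)⁻¹, ?_, ?_⟩
  · exact O.mul_mem (O.mul_mem (O.sub_mem h2O
      (O.mul_mem (O.sub_mem ht4 O.one_mem) hu)) hg4) hu
  · rw [hg', hg4', hc] at hd
    have h5 : g * (t4 + 1) * θ sb
        = (t4 - 1) * ((2 - (t4 - 1) * (t4 + 1)⁻¹) * g4) * θ sb := by
      linear_combination hd
    have h6 := mul_right_cancel₀ hθs0 h5
    rw [(eq_mul_inv_iff_mul_eq₀ hu0).mpr h6]; ring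

/-- **(POLE23), `q = 2`.** Chart coordinate `tb = t̄₃`, auxiliary `t9 = t̄₉` with
`(t̄₃ + 1)(t̄₉² + t̄₉ + 1) = (t̄₉ + 1)³` (valid in characteristic `2`), `θ t̄₃ = - t̄₃`, `t̄₃` a
unit at the point, `t̄₉ + 1` a non-unit, `t̄₉² + t̄₉ + 1` a unit. Then no positive power of
`θ s̄` is regular at the point. -/
theorem s36_p23_pole2 (θ : F →+ F) (hθ : ∀ f g, θ (f * g) = θ f * g + f * θ g)
    (O : Subring F) (sb : F) (hD : ∀ f ∈ O, ∃ g ∈ O, θ f = g * θ sb)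
    (tb t9 : F) (htb : tb ∈ O) (htb0 : tb ≠ 0) (htb' : tb⁻¹ ∈ O) (ht9 : t9 ∈ O)
    (hθt : θ tb = -tb) (hrel : (tb + 1) * (t9 ^ 2 + t9 + 1) = (t9 + 1) ^ 3)
    (hnu : (t9 + 1)⁻¹ ∉ O) (hu : (t9 ^ 2 + t9 + 1)⁻¹ ∈ O)
    (n : ℕ) (hn : 1 ≤ n) : θ sb ^ n ∉ O := by
  have h1 : θ (1 : F) = 0 := s36_p23_theta_one θ hθ
  have hu0 : t9 ^ 2 + t9 + 1 ≠ 0 := by
    intro h0
    rw [h0, mul_zero] at hrel
    have : t9 + 1 = 0 := pow_eq_zero_iff (three_ne_zero) |>.mp hrel.symm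
    exact hnu (by rw [this, inv_zero]; exact O.zero_mem)
  have hθs0 : θ sb ≠ 0 := by
    intro h0
    obtain ⟨g, -, hg⟩ := hD tb htb
    rw [h0, mul_zero, hθt] at hg
    exact htb0 (neg_eq_zero.mp hg)
  refine s36_p23_pole_abs θ O sb hD tb (-1) (t9 + 1) htb htb0 htb' (by norm_num)
    (by rw [inv_neg, inv_one]; exact O.neg_mem O.one_mem) (by rw [hθt]; ring)
    (O.add_mem ht9 O.one_mem) hnu ?_ n hn
  intro g hg hg'
  obtain ⟨g9, hg9, hg9'⟩ := hD t9 ht9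
  -- differentiate the relation
  have hd : θ tb * (t9 ^ 2 + t9 + 1) + (tb + 1) * ((2 * t9 + 1) * θ t9)
      = 3 * (t9 + 1) ^ 2 * θ t9 := by
    have := congrArg θ hrel
    rw [hθ, map_add, map_add, map_add, h1, add_zero, add_zero, s36_p23_theta_sq θ hθ,
      s36_p23_theta_cube θ hθ, map_add, h1, add_zero] at this
    linear_combination this
  have hc : tb + 1 = (t9 + 1) ^ 3 * (t9 ^ 2 + t9 + 1)⁻¹ := (eq_mul_inv_iff_mul_eq₀ hu0).mpr hrel
  have h2O : (2 : F) ∈ O := by exact_mod_cast natCast_mem O 2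
  have h3O : (3 : F) ∈ O := by exact_mod_cast natCast_mem O 3
  refine ⟨(t9 + 1) * (3 - (t9 + 1) * (t9 ^ 2 + t9 + 1)⁻¹ * (2 * t9 + 1)) * g9
      * (t9 ^ 2 + t9 + 1)⁻¹, ?_, ?_⟩
  · have ht1 : t9 + 1 ∈ O := O.add_mem ht9 O.one_mem
    exact O.mul_mem (O.mul_mem (O.mul_mem ht1 (O.sub_mem h3O
      (O.mul_mem (O.mul_mem ht1 hu) (O.add_mem (O.mul_mem h2O ht9) O.one_mem))))
      hg9) hu
  · rw [hg', hg9', hc] at hd
    have h5 : g * (t9 ^ 2 + t9 + 1) * θ sb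
        = (t9 + 1) * ((t9 + 1) * (3 - (t9 + 1) * (t9 ^ 2 + t9 + 1)⁻¹ * (2 * t9 + 1)) * g9)
          * θ sb := by
      linear_combination hd
    have h6 := mul_right_cancel₀ hθs0 h5
    rw [(eq_mul_inv_iff_mul_eq₀ hu0).mpr h6]; ring

end Abstract

section Algebra

variable {R : Type*} [CommRing R] [IsDomain R]

/-- The quadratic relation between `x = t₂(Q)` and `y = t₂(Q²)` (the component of the level-2
modular equation which is not `x y = 4096`). -/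
theorem s36_p23_quad4 (x y : R) (hmod : (x + 16) ^ 3 * y ^ 2 = x * (y + 256) ^ 3)
    (hxy : x * y ≠ 4096) : y ^ 2 - (x ^ 2 + 48 * x) * y - 4096 * x = 0 := by
  have h : (x * y - 4096) * (y ^ 2 - (x ^ 2 + 48 * x) * y - 4096 * x) = 0 := by
    linear_combination -hmod
  exact (mul_eq_zero.mp h).resolve_left (sub_ne_zero.mpr hxy)

/-- **`t₄`** `= (y - 16 x) / (x + 16)` satisfies `t₄² = x t₄ + 16 x` (in any domain). -/
theorem s36_p23_alg4 (x y t : R) (hmod : (x + 16) ^ 3 * y ^ 2 = x * (y + 256) ^ 3)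
    (hxy : x * y ≠ 4096) (hx : x + 16 ≠ 0) (ht : t * (x + 16) = y - 16 * x) :
    t ^ 2 = x * t + 16 * x := by
  have hq := s36_p23_quad4 x y hmod hxy
  have h : (x + 16) ^ 2 * (t ^ 2 - (x * t + 16 * x)) = 0 := by
    linear_combination hq + (t * (x + 16) + (y - 16 * x) - x * (x + 16)) * ht
  exact sub_eq_zero.mp ((mul_eq_zero.mp h).resolve_left (pow_ne_zero 2 hx))

omit [IsDomain R] in
/-- The characteristic-free form of the relation used modulo `3`. -/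
theorem s36_p23_rel4 (x t : R) (ht : t ^ 2 = x * t + 16 * x) :
    (x + 1) * (t + 1) = (t - 1) ^ 2 + 3 * (t - 5 * x) := by
  linear_combination -ht

/-- The cubic relation between `x = t₃(Q)` and `y = t₃(Q³)`. -/
theorem s36_p23_cub9 (x y : R)
    (hmod : (x + 27) * (x + 3) ^ 3 * y ^ 3 = x * (y + 27) * (y + 243) ^ 3)
    (hxy : x * y ≠ 729) :
    y ^ 3 - (x ^ 3 + 36 * x ^ 2 + 270 * x) * y ^ 2 - (729 * x ^ 2 + 26244 * x) * y
      - 531441 * x = 0 := by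
  have h : (x * y - 729) * (y ^ 3 - (x ^ 3 + 36 * x ^ 2 + 270 * x) * y ^ 2
      - (729 * x ^ 2 + 26244 * x) * y - 531441 * x) = 0 := by
    linear_combination -hmod
  exact (mul_eq_zero.mp h).resolve_left (sub_ne_zero.mpr hxy)

/-- **`t₉`** `= (y (x² + 18 x + 27) + 1458 x) / (x y + 9 y - 243 x + 729)` satisfies
`t₉³ = x (t₉² + 9 t₉ + 27)` (in any domain). -/
theorem s36_p23_alg9 (x y t : R)
    (hmod : (x + 27) * (x + 3) ^ 3 * y ^ 3 = x * (y + 27) * (y + 243) ^ 3)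
    (hxy : x * y ≠ 729) (hD : x * y + 9 * y - 243 * x + 729 ≠ 0)
    (ht : t * (x * y + 9 * y - 243 * x + 729) = y * (x ^ 2 + 18 * x + 27) + 1458 * x) :
    t ^ 3 = x * (t ^ 2 + 9 * t + 27) := by
  have hc := s36_p23_cub9 x y hmod hxy
  set Dn := x * y + 9 * y - 243 * x + 729 with hDn
  set N := y * (x ^ 2 + 18 * x + 27) + 1458 * x with hN
  have h : Dn ^ 3 * (t ^ 3 - x * (t ^ 2 + 9 * t + 27)) = 0 := by
    have hR : N ^ 3 - x * N ^ 2 * Dn - 9 * x * N * Dn ^ 2 - 27 * x * Dn ^ 3 = 0 := by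
      rw [hN, hDn]
      linear_combination (-243 * x ^ 3 - 5103 * x ^ 2 - 6561 * x + 19683) * hc
    linear_combination hR + ((t * Dn) ^ 2 + (t * Dn) * N + N ^ 2 - x * Dn * (t * Dn + N)
      - 9 * x * Dn ^ 2) * ht
  exact sub_eq_zero.mp ((mul_eq_zero.mp h).resolve_left (pow_ne_zero 3 hD))

omit [IsDomain R] in
/-- The characteristic-free form of the relation used modulo `2`. -/
theorem s36_p23_rel9 (x t : R) (ht : t ^ 3 = x * (t ^ 2 + 9 * t + 27)) :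
    (x + 1) * (t ^ 2 + t + 1) = (t + 1) ^ 3 - 2 * (4 * x * t + 13 * x + t ^ 2 + t) := by
  linear_combination -ht

end Algebra

end Fermat.Agent.S36
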