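import Fermat.Agent.S36.ThickPole
import Fermat.Agent.S36.Pole23

/-!
# S36 (NODE-3), leaf (POLE23), chart-level glue: the pole of `ρ_x` at a crossing point, `q = 3, 2`

Vocabulary of `ThickCore.lean` / `ThickPole.lean`: `r : B →+* E` the reduction of the chart `B`
along one vertical component, `𝔪` a prime of `B` (the point), `ker r ⊆ 𝔪`,
`O = s36_th_O r 𝔪` the image of `B_𝔪` in `E`, `θ` a derivation of `E`.

* `s36_p23c_nonunit`, `s36_p23c_inv_mem`, `s36_p23c_cases` : `O` is local (elementary forms);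
* `s36_p23c_pole3` : `q = 3`.  `tb = t̄₂`, `t4b = t̄₄ ∈ O` with `θ tb = -tb`,
  `(tb + 1)(t4b + 1) = (t4b - 1)²` and `tb + 1` a non-unit of `O` (the point is a crossing point).
  If `O` is stable under `θ / θ x̄` (`hD`), then no positive power of `θ x̄` lies in `O`:
  this is the hypothesis `hpole` of `s36_thp_core` (with `n = q - 1`);
* `s36_p23c_pole2` : `q = 2`, with `t9b = t̄₉`, `(tb + 1)(t9b² + t9b + 1) = (t9b + 1)³`;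
* `s36_p23c_pole3_zero`, `s36_p23c_pole3_inf`, `s36_p23c_pole2_zero`, `s36_p23c_pole2_inf` :
  the same for elements of the chart `B` (the chart of `t`: `t, T ∈ B`; the chart of `u = t⁻¹`:
  `u, T' = T / t ∈ B`, resp. `T' = T / t`);
* `s36_p23c_core3`, `s36_p23c_core2` : thickness one (`γ ∉ 𝔪`) at such a point.
-/

set_option autoImplicit false

namespace Fermat.Agent.S36

variable {B E : Type*} [CommRing B] [Field E]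

/-- A quotient `r a / r b` with `a ∈ 𝔪`, `b ∉ 𝔪` is not a unit of `O`. -/
theorem s36_p23c_nonunit (r : B →+* E) (𝔪 : Ideal B) [h𝔪 : 𝔪.IsPrime]
    (hker : ∀ z : B, r z = 0 → z ∈ 𝔪) (f : E) (a b : B) (ha : a ∈ 𝔪) (hb : b ∉ 𝔪)
    (hf : f * r b = r a) : ¬ ∃ g ∈ s36_th_O r 𝔪, f * g = 1 := by
  rintro ⟨g, ⟨c, d, hd, hg⟩, e⟩
  have hz : r (a * c - b * d) = 0 := by
    rw [map_sub, map_mul, map_mul, ← hf, ← hg]
    linear_combination (r b * r d) * e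
  have h1 := hker _ hz
  have h2 : b * d ∈ 𝔪 := by
    have := 𝔪.sub_mem (𝔪.mul_mem_right c ha) h1
    simpa using this
  rcases h𝔪.mem_or_mem h2 with h | h
  · exact hb h
  · exact hd h

/-- A quotient `r a / r b` with `a ∉ 𝔪`, `b ∉ 𝔪` is a unit of `O`. -/
theorem s36_p23c_inv_mem (r : B →+* E) (𝔪 : Ideal B) [𝔪.IsPrime]
    (hker : ∀ z : B, r z = 0 → z ∈ 𝔪) (f : E) (a b : B) (ha : a ∉ 𝔪)
    (hf : f * r b = r a) : f⁻¹ ∈ s36_th_O r 𝔪 := by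
  have ha0 : r a ≠ 0 := fun h => ha (hker a h)
  have hf0 : f ≠ 0 := by
    rintro rfl
    rw [zero_mul] at hf
    exact ha0 hf.symm
  refine ⟨b, a, ha, ?_⟩
  rw [← hf, ← mul_assoc, inv_mul_cancel₀ hf0, one_mul]

/-- Every element of `O` is a unit or a quotient `r a / r b` with `a ∈ 𝔪`, `b ∉ 𝔪`. -/
theorem s36_p23c_cases (r : B →+* E) (𝔪 : Ideal B) [𝔪.IsPrime]
    (hker : ∀ z : B, r z = 0 → z ∈ 𝔪) (f : E) (hf : f ∈ s36_th_O r 𝔪) :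
    f⁻¹ ∈ s36_th_O r 𝔪 ∨ ∃ a b : B, a ∈ 𝔪 ∧ b ∉ 𝔪 ∧ f * r b = r a := by
  obtain ⟨a, b, hb, hab⟩ := hf
  by_cases ha : a ∈ 𝔪
  · exact Or.inr ⟨a, b, ha, hb, hab⟩
  · exact Or.inl (s36_p23c_inv_mem r 𝔪 hker f a b ha hab)

/-- In residue characteristic `3`, `2 ∉ 𝔪`. -/
theorem s36_p23c_two_not_mem [CharP E 3] (r : B →+* E) (𝔪 : Ideal B) [h𝔪 : 𝔪.IsPrime]
    (hker : ∀ z : B, r z = 0 → z ∈ 𝔪) : (2 : B) ∉ 𝔪 := by
  intro h2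
  have h3 : (3 : B) ∈ 𝔪 := by
    apply hker
    have : ((3 : ℕ) : E) = 0 := CharP.cast_eq_zero E 3
    rw [map_ofNat]
    exact_mod_cast this
  have h1 : (1 : B) ∈ 𝔪 := by
    have := 𝔪.sub_mem h3 h2
    have e : (3 : B) - 2 = 1 := by norm_num
    rwa [e] at this
  exact h𝔪.ne_top ((Ideal.eq_top_iff_one _).mpr h1)

/-- **(POLE23), `q = 3`, chart level.**  At a point `𝔪` where `t̄₂ + 1` is not a unit (a crossing
point), no positive power of `θ x̄` lies in `O = s36_th_O r 𝔪`. -/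
theorem s36_p23c_pole3 (r : B →+* E) (θ : E →+ E)
    (hθ : ∀ f g, θ (f * g) = θ f * g + f * θ g)
    (𝔪 : Ideal B) [h𝔪 : 𝔪.IsPrime] (hker : ∀ z : B, r z = 0 → z ∈ 𝔪) (h2 : (2 : B) ∉ 𝔪)
    (x : B) (hD : ∀ f ∈ s36_th_O r 𝔪, ∃ g ∈ s36_th_O r 𝔪, θ f = g * θ (r x))
    (tb t4b : E) (htb : tb ∈ s36_th_O r 𝔪) (htb' : tb⁻¹ ∈ s36_th_O r 𝔪) (hθt : θ tb = -tb)
    (hcross : ∃ a b : B, a ∈ 𝔪 ∧ b ∉ 𝔪 ∧ (tb + 1) * r b = r a)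
    (ht4 : t4b ∈ s36_th_O r 𝔪) (hrel : (tb + 1) * (t4b + 1) = (t4b - 1) ^ 2)
    (n : ℕ) (hn : 1 ≤ n) : θ (r x) ^ n ∉ s36_th_O r 𝔪 := by
  obtain ⟨a, b, ha, hb, hab⟩ := hcross
  have hnon := s36_p23c_nonunit r 𝔪 hker (tb + 1) a b ha hb hab
  have hO1 : (1 : E) ∈ s36_th_O r 𝔪 := (s36_th_O r 𝔪).one_mem
  have htb0 : tb ≠ 0 := by
    intro h0
    exact hnon ⟨1, hO1, by rw [h0]; ring⟩
  have h2E : (2 : E) ≠ 0 := by
    intro h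
    apply h2
    apply hker
    rw [map_ofNat]
    exact h
  have hθ1 : θ (1 : E) = 0 := s36_p23_theta_one θ hθ
  have ht41 : t4b - 1 ≠ 0 := by
    intro h
    have h4 : t4b = 1 := sub_eq_zero.mp h
    rw [h4] at hrel
    have h5 : (tb + 1) * 2 = 0 := by linear_combination hrel
    have h6 : tb = -1 := by
      rcases mul_eq_zero.mp h5 with h | h
      · exact eq_neg_of_add_eq_zero_left h
      · exact absurd h h2E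
    have h7 : θ tb = 0 := by rw [h6, map_neg, hθ1, neg_zero]
    rw [hθt] at h7
    exact htb0 (neg_eq_zero.mp h7)
  have hnu : (t4b - 1)⁻¹ ∉ s36_th_O r 𝔪 := by
    intro h
    refine hnon ⟨(t4b + 1) * (t4b - 1)⁻¹ ^ 2,
      (s36_th_O r 𝔪).mul_mem ((s36_th_O r 𝔪).add_mem ht4 hO1) ((s36_th_O r 𝔪).pow_mem h 2), ?_⟩
    rw [← mul_assoc, hrel, inv_pow, mul_inv_cancel₀ (pow_ne_zero 2 ht41)]
  have hu : (t4b + 1)⁻¹ ∈ s36_th_O r 𝔪 := by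
    rcases s36_p23c_cases r 𝔪 hker (t4b - 1) ((s36_th_O r 𝔪).sub_mem ht4 hO1) with h | h
    · exact absurd h hnu
    · obtain ⟨c, d, hc, hd, hcd⟩ := h
      refine s36_p23c_inv_mem r 𝔪 hker (t4b + 1) (c + 2 * d) d ?_ ?_
      · intro hm
        have h2d : 2 * d ∈ 𝔪 := by
          have := 𝔪.sub_mem hm hc
          simpa using this
        rcases h𝔪.mem_or_mem h2d with h | h
        · exact h2 h
        · exact hd h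
      · rw [map_add, map_mul, map_ofNat, ← hcd]
        ring
  exact s36_p23_pole3 θ hθ (s36_th_O r 𝔪) (r x) hD tb t4b htb htb0 htb' ht4 hθt hrel hnu hu n hn

/-- **(POLE23), `q = 2`, chart level.**  At a point `𝔪` where `t̄₃ + 1` is not a unit (a crossing
point), no positive power of `θ x̄` lies in `O = s36_th_O r 𝔪`. -/
theorem s36_p23c_pole2 (r : B →+* E) (θ : E →+ E)
    (hθ : ∀ f g, θ (f * g) = θ f * g + f * θ g)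
    (𝔪 : Ideal B) [h𝔪 : 𝔪.IsPrime] (hker : ∀ z : B, r z = 0 → z ∈ 𝔪)
    (x : B) (hD : ∀ f ∈ s36_th_O r 𝔪, ∃ g ∈ s36_th_O r 𝔪, θ f = g * θ (r x))
    (tb t9b : E) (htb : tb ∈ s36_th_O r 𝔪) (htb' : tb⁻¹ ∈ s36_th_O r 𝔪) (hθt : θ tb = -tb)
    (hcross : ∃ a b : B, a ∈ 𝔪 ∧ b ∉ 𝔪 ∧ (tb + 1) * r b = r a)
    (ht9 : t9b ∈ s36_th_O r 𝔪)
    (hrel : (tb + 1) * (t9b ^ 2 + t9b + 1) = (t9b + 1) ^ 3)
    (n : ℕ) (hn : 1 ≤ n) : θ (r x) ^ n ∉ s36_th_O r 𝔪 := by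
  obtain ⟨a, b, ha, hb, hab⟩ := hcross
  have hnon := s36_p23c_nonunit r 𝔪 hker (tb + 1) a b ha hb hab
  have hO1 : (1 : E) ∈ s36_th_O r 𝔪 := (s36_th_O r 𝔪).one_mem
  have htb0 : tb ≠ 0 := by
    intro h0
    exact hnon ⟨1, hO1, by rw [h0]; ring⟩
  have hθ1 : θ (1 : E) = 0 := s36_p23_theta_one θ hθ
  have ht91 : t9b + 1 ≠ 0 := by
    intro h
    have h4 : t9b = -1 := eq_neg_of_add_eq_zero_left h
    rw [h4] at hrel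
    have h5 : tb + 1 = 0 := by linear_combination hrel
    have h6 : tb = -1 := eq_neg_of_add_eq_zero_left h5
    have h7 : θ tb = 0 := by rw [h6, map_neg, hθ1, neg_zero]
    rw [hθt] at h7
    exact htb0 (neg_eq_zero.mp h7)
  have ht9O : t9b + 1 ∈ s36_th_O r 𝔪 := (s36_th_O r 𝔪).add_mem ht9 hO1
  have hnu : (t9b + 1)⁻¹ ∉ s36_th_O r 𝔪 := by
    intro h
    refine hnon ⟨(t9b ^ 2 + t9b + 1) * (t9b + 1)⁻¹ ^ 3,
      (s36_th_O r 𝔪).mul_mem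
        ((s36_th_O r 𝔪).add_mem ((s36_th_O r 𝔪).add_mem ((s36_th_O r 𝔪).pow_mem ht9 2) ht9) hO1)
        ((s36_th_O r 𝔪).pow_mem h 3), ?_⟩
    rw [← mul_assoc, hrel, inv_pow, mul_inv_cancel₀ (pow_ne_zero 3 ht91)]
  have hu : (t9b ^ 2 + t9b + 1)⁻¹ ∈ s36_th_O r 𝔪 := by
    rcases s36_p23c_cases r 𝔪 hker (t9b + 1) ht9O with h | h
    · exact absurd h hnu
    · obtain ⟨c, d, hc, hd, hcd⟩ := h
      refine s36_p23c_inv_mem r 𝔪 hker (t9b ^ 2 + t9b + 1) (c ^ 2 - c * d + d ^ 2) (d ^ 2) ?_ ?_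
      · intro hm
        have hd2 : d ^ 2 ∈ 𝔪 := by
          have h1 : c ^ 2 - c * d ∈ 𝔪 := by
            have e : c ^ 2 - c * d = c * (c - d) := by ring
            rw [e]
            exact 𝔪.mul_mem_right _ hc
          have := 𝔪.sub_mem hm h1
          simpa using this
        exact hd (h𝔪.mem_of_pow_mem 2 hd2)
      · rw [map_add, map_sub, map_pow, map_mul, map_pow, ← hcd]
        ring
  exact s36_p23_pole2 θ hθ (s36_th_O r 𝔪) (r x) hD tb t9b htb htb0 htb' ht9 hθt hrel hnu hu n hn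

/-- `θ (u⁻¹) = - θ u / u²`. -/
theorem s36_p23c_theta_inv (θ : E →+ E) (hθ : ∀ f g, θ (f * g) = θ f * g + f * θ g) (u : E)
    (hu : u ≠ 0) : θ u⁻¹ = -(θ u * u⁻¹ ^ 2) := by
  have h1 : θ (u * u⁻¹) = 0 := by rw [mul_inv_cancel₀ hu]; exact s36_p23_theta_one θ hθ
  rw [hθ] at h1
  have h2 : u * θ u⁻¹ = -(θ u * u⁻¹) := by linear_combination h1
  have h3 : θ u⁻¹ = u⁻¹ * (u * θ u⁻¹) := by rw [← mul_assoc, inv_mul_cancel₀ hu, one_mul]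
  rw [h3, h2]
  ring

/-- `q = 3`, the chart of `t = t₂` (`t, T₄ ∈ B`). -/
theorem s36_p23c_pole3_zero (r : B →+* E) (θ : E →+ E)
    (hθ : ∀ f g, θ (f * g) = θ f * g + f * θ g)
    (𝔪 : Ideal B) [h𝔪 : 𝔪.IsPrime] (hker : ∀ z : B, r z = 0 → z ∈ 𝔪) (h2 : (2 : B) ∉ 𝔪)
    (x : B) (hD : ∀ f ∈ s36_th_O r 𝔪, ∃ g ∈ s36_th_O r 𝔪, θ f = g * θ (r x))
    (t T4 : B) (ht : t + 1 ∈ 𝔪) (hθt : θ (r t) = -r t)
    (hrel : r ((t + 1) * (T4 + 1)) = r ((T4 - 1) ^ 2))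
    (n : ℕ) (hn : 1 ≤ n) : θ (r x) ^ n ∉ s36_th_O r 𝔪 := by
  have h1 : (1 : B) ∉ 𝔪 := fun h => h𝔪.ne_top ((Ideal.eq_top_iff_one _).mpr h)
  have ht' : t ∉ 𝔪 := by
    intro h
    apply h1
    have := 𝔪.sub_mem ht h
    simpa using this
  have ht0 : r t ≠ 0 := fun h => ht' (hker t h)
  refine s36_p23c_pole3 r θ hθ 𝔪 hker h2 x hD (r t) (r T4) (s36_th_map_mem_O r 𝔪 t)
    (s36_th_inv_mem_O r 𝔪 t ht' ht0) hθt ⟨t + 1, 1, ht, h1, ?_⟩ (s36_th_map_mem_O r 𝔪 T4) ?_ n hn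
  · rw [map_one, mul_one, map_add, map_one]
  · simpa only [map_mul, map_add, map_sub, map_pow, map_one] using hrel

/-- `q = 3`, the chart of `u = t₂⁻¹` (`u, T₄' = T₄ / t₂ ∈ B`). -/
theorem s36_p23c_pole3_inf (r : B →+* E) (θ : E →+ E)
    (hθ : ∀ f g, θ (f * g) = θ f * g + f * θ g)
    (𝔪 : Ideal B) [h𝔪 : 𝔪.IsPrime] (hker : ∀ z : B, r z = 0 → z ∈ 𝔪) (h2 : (2 : B) ∉ 𝔪)
    (x : B) (hD : ∀ f ∈ s36_th_O r 𝔪, ∃ g ∈ s36_th_O r 𝔪, θ f = g * θ (r x))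
    (u T4' : B) (hu : u + 1 ∈ 𝔪) (hθu : θ (r u) = r u)
    (hrel : r ((1 + u) * (T4' + u)) = r ((T4' - u) ^ 2))
    (n : ℕ) (hn : 1 ≤ n) : θ (r x) ^ n ∉ s36_th_O r 𝔪 := by
  have h1 : (1 : B) ∉ 𝔪 := fun h => h𝔪.ne_top ((Ideal.eq_top_iff_one _).mpr h)
  have hu' : u ∉ 𝔪 := by
    intro h
    apply h1
    have := 𝔪.sub_mem hu h
    simpa using this
  have hu0 : r u ≠ 0 := fun h => hu' (hker u h)
  have hinv : (r u)⁻¹ ∈ s36_th_O r 𝔪 := s36_th_inv_mem_O r 𝔪 u hu' hu0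
  refine s36_p23c_pole3 r θ hθ 𝔪 hker h2 x hD (r u)⁻¹ (r T4' * (r u)⁻¹) hinv ?_ ?_
    ⟨u + 1, u, hu, hu', ?_⟩ ((s36_th_O r 𝔪).mul_mem (s36_th_map_mem_O r 𝔪 T4') hinv) ?_ n hn
  · rw [inv_inv]
    exact s36_th_map_mem_O r 𝔪 u
  · rw [s36_p23c_theta_inv θ hθ (r u) hu0, hθu]
    field_simp
  · rw [map_add, map_one]
    field_simp
    ring
  · simp only [map_mul, map_add, map_sub, map_pow, map_one] at hrel
    field_simp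
    linear_combination hrel

/-- `q = 2`, the chart of `t = t₃` (`t, T₉ ∈ B`). -/
theorem s36_p23c_pole2_zero (r : B →+* E) (θ : E →+ E)
    (hθ : ∀ f g, θ (f * g) = θ f * g + f * θ g)
    (𝔪 : Ideal B) [h𝔪 : 𝔪.IsPrime] (hker : ∀ z : B, r z = 0 → z ∈ 𝔪)
    (x : B) (hD : ∀ f ∈ s36_th_O r 𝔪, ∃ g ∈ s36_th_O r 𝔪, θ f = g * θ (r x))
    (t T9 : B) (ht : t + 1 ∈ 𝔪) (hθt : θ (r t) = -r t)
    (hrel : r ((t + 1) * (T9 ^ 2 + T9 + 1)) = r ((T9 + 1) ^ 3))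
    (n : ℕ) (hn : 1 ≤ n) : θ (r x) ^ n ∉ s36_th_O r 𝔪 := by
  have h1 : (1 : B) ∉ 𝔪 := fun h => h𝔪.ne_top ((Ideal.eq_top_iff_one _).mpr h)
  have ht' : t ∉ 𝔪 := by
    intro h
    apply h1
    have := 𝔪.sub_mem ht h
    simpa using this
  have ht0 : r t ≠ 0 := fun h => ht' (hker t h)
  refine s36_p23c_pole2 r θ hθ 𝔪 hker x hD (r t) (r T9) (s36_th_map_mem_O r 𝔪 t)
    (s36_th_inv_mem_O r 𝔪 t ht' ht0) hθt ⟨t + 1, 1, ht, h1, ?_⟩ (s36_th_map_mem_O r 𝔪 T9) ?_ n hn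
  · rw [map_one, mul_one, map_add, map_one]
  · simpa only [map_mul, map_add, map_sub, map_pow, map_one] using hrel

/-- `q = 2`, the chart of `u = t₃⁻¹` (`u, T₉' = T₉ / t₃ ∈ B`). -/
theorem s36_p23c_pole2_inf (r : B →+* E) (θ : E →+ E)
    (hθ : ∀ f g, θ (f * g) = θ f * g + f * θ g)
    (𝔪 : Ideal B) [h𝔪 : 𝔪.IsPrime] (hker : ∀ z : B, r z = 0 → z ∈ 𝔪)
    (x : B) (hD : ∀ f ∈ s36_th_O r 𝔪, ∃ g ∈ s36_th_O r 𝔪, θ f = g * θ (r x))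
    (u T9' : B) (hu : u + 1 ∈ 𝔪) (hθu : θ (r u) = r u)
    (hrel : r ((1 + u) * (T9' ^ 2 + T9' * u + u ^ 2)) = r ((T9' + u) ^ 3))
    (n : ℕ) (hn : 1 ≤ n) : θ (r x) ^ n ∉ s36_th_O r 𝔪 := by
  have h1 : (1 : B) ∉ 𝔪 := fun h => h𝔪.ne_top ((Ideal.eq_top_iff_one _).mpr h)
  have hu' : u ∉ 𝔪 := by
    intro h
    apply h1
    have := 𝔪.sub_mem hu h
    simpa using this
  have hu0 : r u ≠ 0 := fun h => hu' (hker u h)
  have hinv : (r u)⁻¹ ∈ s36_th_O r 𝔪 := s36_th_inv_mem_O r 𝔪 u hu' hu0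
  refine s36_p23c_pole2 r θ hθ 𝔪 hker x hD (r u)⁻¹ (r T9' * (r u)⁻¹) hinv ?_ ?_
    ⟨u + 1, u, hu, hu', ?_⟩ ((s36_th_O r 𝔪).mul_mem (s36_th_map_mem_O r 𝔪 T9') hinv) ?_ n hn
  · rw [inv_inv]
    exact s36_th_map_mem_O r 𝔪 u
  · rw [s36_p23c_theta_inv θ hθ (r u) hu0, hθu]
    field_simp
  · rw [map_add, map_one]
    field_simp
    ring
  · simp only [map_mul, map_add, map_pow, map_one] at hrel
    field_simp
    linear_combination hrel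

/-- **Thickness one at a crossing point, `q = 3`** (`s36_thp_core` + `s36_p23c_pole3`). -/
theorem s36_p23c_core3 [CharP E 3] (r : B →+* E) (θ : E →+ E)
    (hθ : ∀ f g, θ (f * g) = θ f * g + f * θ g)
    (𝔪 : Ideal B) [h𝔪 : 𝔪.IsPrime] (hker : ∀ z : B, r z = 0 → z ∈ 𝔪)
    (x v γ : B) (hx𝔪 : x ∈ 𝔪)
    (hext : ∀ y ∈ 𝔪, ∃ d c : B, d ∉ 𝔪 ∧ r d * r y = r c * r x)
    (hθx : θ (r x) ≠ 0)
    (hD : ∀ f ∈ s36_th_O r 𝔪, ∃ g ∈ s36_th_O r 𝔪, θ f = g * θ (r x))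
    (hvx : r v = r x - r x ^ (3 ^ 2)) (hv0 : r v ≠ 0)
    (hid : r v ^ 2 * θ (r x) ^ 3 =
      r v ^ 2 * r x ^ (3 - 1) * θ (r x) + r v * θ (r γ) - r γ * θ (r x))
    (tb t4b : E) (htb : tb ∈ s36_th_O r 𝔪) (htb' : tb⁻¹ ∈ s36_th_O r 𝔪) (hθt : θ tb = -tb)
    (hcross : ∃ a b : B, a ∈ 𝔪 ∧ b ∉ 𝔪 ∧ (tb + 1) * r b = r a)
    (ht4 : t4b ∈ s36_th_O r 𝔪) (hrel : (tb + 1) * (t4b + 1) = (t4b - 1) ^ 2) :
    γ ∉ 𝔪 :=
  s36_thp_core 3 (by norm_num) r θ hθ 𝔪 hker x v γ hx𝔪 hext hθx hD hvx hv0 hid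
    (s36_p23c_pole3 r θ hθ 𝔪 hker (s36_p23c_two_not_mem r 𝔪 hker) x hD tb t4b htb htb' hθt
      hcross ht4 hrel (3 - 1) (by norm_num))

/-- **Thickness one at a crossing point, `q = 2`** (`s36_thp_core` + `s36_p23c_pole2`). -/
theorem s36_p23c_core2 [CharP E 2] (r : B →+* E) (θ : E →+ E)
    (hθ : ∀ f g, θ (f * g) = θ f * g + f * θ g)
    (𝔪 : Ideal B) [h𝔪 : 𝔪.IsPrime] (hker : ∀ z : B, r z = 0 → z ∈ 𝔪)
    (x v γ : B) (hx𝔪 : x ∈ 𝔪)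
    (hext : ∀ y ∈ 𝔪, ∃ d c : B, d ∉ 𝔪 ∧ r d * r y = r c * r x)
    (hθx : θ (r x) ≠ 0)
    (hD : ∀ f ∈ s36_th_O r 𝔪, ∃ g ∈ s36_th_O r 𝔪, θ f = g * θ (r x))
    (hvx : r v = r x - r x ^ (2 ^ 2)) (hv0 : r v ≠ 0)
    (hid : r v ^ 2 * θ (r x) ^ 2 =
      r v ^ 2 * r x ^ (2 - 1) * θ (r x) + r v * θ (r γ) - r γ * θ (r x))
    (tb t9b : E) (htb : tb ∈ s36_th_O r 𝔪) (htb' : tb⁻¹ ∈ s36_th_O r 𝔪) (hθt : θ tb = -tb)
    (hcross : ∃ a b : B, a ∈ 𝔪 ∧ b ∉ 𝔪 ∧ (tb + 1) * r b = r a)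
    (ht9 : t9b ∈ s36_th_O r 𝔪)
    (hrel : (tb + 1) * (t9b ^ 2 + t9b + 1) = (t9b + 1) ^ 3) :
    γ ∉ 𝔪 :=
  s36_thp_core 2 (by norm_num) r θ hθ 𝔪 hker x v γ hx𝔪 hext hθx hD hvx hv0 hid
    (s36_p23c_pole2 r θ hθ 𝔪 hker x hD tb t9b htb htb' hθt hcross ht9 hrel (2 - 1) (by norm_num))

end Fermat.Agent.S36
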