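import Fermat.Agent.S18.HauptField

/-!
# S36 (NODE-3), sub-leaf (P-iii) of (POLE23): the level-4 and level-9 Hauptmoduln, pure algebra

Level 9 (`q = 2`).  For `x = t₃(Q)`, `y = t₃(Q³)` one has
`(x + 27)(x + 3)³ y³ = x (y + 27)(y + 243)³` (both sides are `j(Q³) · x · y³`), and

  `(x+27)(x+3)³y³ - x(y+27)(y+243)³ = (x y - 729) · F(x, y)`,
  `F = x³y² + 36x²y² + 729x²y + 270xy² + 26244xy + 531441x - y³`.

With `N = y (x² + 18x + 27) + 1458 x`, `D = x y + 9 y - 243 x + 729` the element `t₉ = N / D`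
satisfies `t₉³ = x (t₉² + 9 t₉ + 27)` and `t₉ (t₉² + 9 t₉ + 27) = y` (polynomial identities
modulo `F`, with explicit cofactors), hence `(x + 1)(t₉² + t₉ + 1) = (t₉ + 1)³` if `2 = 0`.

Level 4 (`q = 3`).  For `x = t₂(Q)`, `y = t₂(Q²)`: `(x + 16)³ y² = x (y + 256)³`,

  `(x+16)³y² - x(y+256)³ = -(x y - 4096)(y² - (x² + 48x) y - 4096 x)`,

and `t₄ = (y - 16x)/(x + 16)` satisfies `t₄² = x t₄ + 16 x`, hence
`(x + 1)(t₄ + 1) = (t₄ - 1)²` if `3 = 0`.

The `q`-series instances (`s36_t9_series`, `s36_t4_series`) are stated in `LaurentSeries K`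
for a field `K` with `x = s18_t3R K`, `y = qExpand K 3 (s18_t3R K)` (resp. `t₂`, `Q²`).
-/

set_option autoImplicit false

open ModularCurve

noncomputable section

namespace Fermat.Agent.S36

open Fermat.Agent.S18

section Alg9

variable {K : Type*} [CommRing K] (x y : K)

/-- The equation of `X₀(9)` in the coordinates `x = t₃(Q)`, `y = t₃(Q³)`. -/
def s36_t9_F : K :=
  x ^ 3 * y ^ 2 + 36 * x ^ 2 * y ^ 2 + 729 * x ^ 2 * y + 270 * x * y ^ 2 + 26244 * x * y +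
    531441 * x - y ^ 3

/-- Numerator of `t₉`. -/
def s36_t9_N : K := y * (x ^ 2 + 18 * x + 27) + 1458 * x

/-- Denominator of `t₉`. -/
def s36_t9_D : K := x * y + 9 * y - 243 * x + 729

theorem s36_t9_factor :
    (x + 27) * (x + 3) ^ 3 * y ^ 3 - x * (y + 27) * (y + 243) ^ 3 =
      (x * y - 729) * s36_t9_F x y := by
  unfold s36_t9_F
  ring

theorem s36_t9_cofactor_x :
    s36_t9_N x y ^ 3 - x * (s36_t9_N x y ^ 2 * s36_t9_D x y +
        9 * s36_t9_N x y * s36_t9_D x y ^ 2 + 27 * s36_t9_D x y ^ 3) =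
      s36_t9_F x y * (243 * x ^ 3 + 5103 * x ^ 2 + 6561 * x - 19683) := by
  unfold s36_t9_F s36_t9_N s36_t9_D
  ring

theorem s36_t9_cofactor_y :
    s36_t9_N x y ^ 3 + 9 * s36_t9_N x y ^ 2 * s36_t9_D x y +
        27 * s36_t9_N x y * s36_t9_D x y ^ 2 - y * s36_t9_D x y ^ 3 =
      s36_t9_F x y * (x ^ 3 * y + 27 * x ^ 2 * y + 1458 * x ^ 2 + 243 * x * y + 729 * y +
        39366) := by
  unfold s36_t9_F s36_t9_N s36_t9_D
  ring

/-- Ring form: if `F(x, y) = 0` and `t · D = N` then `D³ (t³ - x (t² + 9t + 27)) = 0`. -/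
theorem s36_t9_ring_x (hF : s36_t9_F x y = 0) (t : K) (ht : t * s36_t9_D x y = s36_t9_N x y) :
    s36_t9_D x y ^ 3 * (t ^ 3 - x * (t ^ 2 + 9 * t + 27)) = 0 := by
  have h := s36_t9_cofactor_x x y
  rw [hF, zero_mul, ← ht] at h
  linear_combination h

/-- Ring form: if `F(x, y) = 0` and `t · D = N` then `D³ (t (t² + 9t + 27) - y) = 0`. -/
theorem s36_t9_ring_y (hF : s36_t9_F x y = 0) (t : K) (ht : t * s36_t9_D x y = s36_t9_N x y) :
    s36_t9_D x y ^ 3 * (t * (t ^ 2 + 9 * t + 27) - y) = 0 := by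
  have h := s36_t9_cofactor_y x y
  rw [hF, zero_mul, ← ht] at h
  linear_combination h

/-- In characteristic `2`: `t³ = x (t² + 9t + 27)` gives `(x + 1)(t² + t + 1) = (t + 1)³`. -/
theorem s36_t9_char_two (h2 : (2 : K) = 0) (t : K) (ht : t ^ 3 = x * (t ^ 2 + 9 * t + 27)) :
    (x + 1) * (t ^ 2 + t + 1) = (t + 1) ^ 3 := by
  linear_combination (-1 : K) * ht + (-(x * (4 * t + 13) + t ^ 2 + t)) * h2

end Alg9

section Field9

variable {K : Type*} [Field K] (x y : K)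

theorem s36_t9_F_eq_zero (hE : (x + 27) * (x + 3) ^ 3 * y ^ 3 = x * (y + 27) * (y + 243) ^ 3)
    (hxy : x * y ≠ 729) : s36_t9_F x y = 0 := by
  have h : (x * y - 729) * s36_t9_F x y = 0 := by
    rw [← s36_t9_factor]
    linear_combination hE
  rcases mul_eq_zero.mp h with h1 | h1
  · exact absurd (sub_eq_zero.mp h1) hxy
  · exact h1

/-- **Level 9.**  `t₉ := N / D` satisfies `t₉³ = x (t₉² + 9 t₉ + 27)` and
`t₉ (t₉² + 9 t₉ + 27) = y`. -/
theorem s36_t9_field (hE : (x + 27) * (x + 3) ^ 3 * y ^ 3 = x * (y + 27) * (y + 243) ^ 3)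
    (hxy : x * y ≠ 729) (hD : s36_t9_D x y ≠ 0) (t : K)
    (ht : t * s36_t9_D x y = s36_t9_N x y) :
    t ^ 3 = x * (t ^ 2 + 9 * t + 27) ∧ t * (t ^ 2 + 9 * t + 27) = y := by
  have hF := s36_t9_F_eq_zero x y hE hxy
  have hD3 : s36_t9_D x y ^ 3 ≠ 0 := pow_ne_zero 3 hD
  refine ⟨?_, ?_⟩
  · have h := s36_t9_ring_x x y hF t ht
    exact sub_eq_zero.mp ((mul_eq_zero.mp h).resolve_left hD3)
  · have h := s36_t9_ring_y x y hF t ht
    exact sub_eq_zero.mp ((mul_eq_zero.mp h).resolve_left hD3)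

end Field9

section Alg4

variable {K : Type*} [CommRing K] (x y : K)

theorem s36_t4_factor :
    (x + 16) ^ 3 * y ^ 2 - x * (y + 256) ^ 3 =
      -((x * y - 4096) * (y ^ 2 - (x ^ 2 + 48 * x) * y - 4096 * x)) := by
  ring

/-- Ring form: if `y² = (x² + 48x) y + 4096 x` and `t (x + 16) = y - 16x` then
`(x + 16)² (t² - x t - 16 x) = 0`. -/
theorem s36_t4_ring (hG : y ^ 2 - (x ^ 2 + 48 * x) * y - 4096 * x = 0) (t : K)
    (ht : t * (x + 16) = y - 16 * x) :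
    (x + 16) ^ 2 * (t ^ 2 - x * t - 16 * x) = 0 := by
  linear_combination hG + (t * (x + 16) + y - 16 * x - x * (x + 16)) * ht

/-- In characteristic `3`: `t² = x t + 16 x` gives `(x + 1)(t + 1) = (t - 1)²`. -/
theorem s36_t4_char_three (h3 : (3 : K) = 0) (t : K) (ht : t ^ 2 = x * t + 16 * x) :
    (x + 1) * (t + 1) = (t - 1) ^ 2 := by
  linear_combination (-1 : K) * ht + (t - 5 * x) * h3

end Alg4

section Field4

variable {K : Type*} [Field K] (x y : K)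

/-- **Level 4.**  `t₄ := (y - 16 x)/(x + 16)` satisfies `t₄² = x t₄ + 16 x`. -/
theorem s36_t4_field (hE : (x + 16) ^ 3 * y ^ 2 = x * (y + 256) ^ 3) (hxy : x * y ≠ 4096)
    (hD : x + 16 ≠ 0) (t : K) (ht : t * (x + 16) = y - 16 * x) :
    t ^ 2 = x * t + 16 * x := by
  have h : (x * y - 4096) * (y ^ 2 - (x ^ 2 + 48 * x) * y - 4096 * x) = 0 := by
    have := s36_t4_factor x y
    linear_combination this - hE
  have hG : y ^ 2 - (x ^ 2 + 48 * x) * y - 4096 * x = 0 := by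
    rcases mul_eq_zero.mp h with h1 | h1
    · exact absurd (sub_eq_zero.mp h1) hxy
    · exact h1
  have h2 := s36_t4_ring x y hG t ht
  have hD2 : (x + 16) ^ 2 ≠ 0 := pow_ne_zero 2 hD
  have h3 := (mul_eq_zero.mp h2).resolve_left hD2
  linear_combination h3

end Field4

/-! ### The `q`-series instances -/

section Series

variable (R : Type*) [CommRing R]

/-- `(x + 27)(x + 3)³ y³ = x (y + 27)(y + 243)³` for `x = t₃(Q)`, `y = t₃(Q³)`. -/
theorem s36_t9_rel :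
    (s18_t3R R + 27) * (s18_t3R R + 3) ^ 3 * qExpand R 3 (s18_t3R R) ^ 3 =
      s18_t3R R * (qExpand R 3 (s18_t3R R) + 27) * (qExpand R 3 (s18_t3R R) + 243) ^ 3 := by
  have h1 := s18_t3R_j3 R
  have h2 := congrArg (qExpand R 3) (s18_t3R_j R)
  rw [map_mul, map_pow, map_mul, map_pow, map_add, map_add, map_ofNat, map_ofNat] at h2
  linear_combination (-(qExpand R 3 (s18_t3R R) ^ 3)) * h1 + s18_t3R R * h2

/-- `(x + 16)³ y² = x (y + 256)³` for `x = t₂(Q)`, `y = t₂(Q²)`. -/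
theorem s36_t4_rel :
    (s18_t2R R + 16) ^ 3 * qExpand R 2 (s18_t2R R) ^ 2 =
      s18_t2R R * (qExpand R 2 (s18_t2R R) + 256) ^ 3 := by
  have h1 := s18_t2R_j2 R
  have h2 := congrArg (qExpand R 2) (s18_t2R_j R)
  rw [map_mul, map_pow, map_pow, map_add, map_ofNat] at h2
  linear_combination (-(qExpand R 2 (s18_t2R R) ^ 2)) * h1 + s18_t2R R * h2

theorem s36_t9_coeff_ofNat (n : ℕ) [n.AtLeastTwo] (m : ℤ) (hm : m ≠ 0) :
    (OfNat.ofNat n : LaurentSeries R).coeff m = 0 := by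
  rw [← map_ofNat (HahnSeries.C : R →+* LaurentSeries R) n, HahnSeries.C_apply,
    HahnSeries.coeff_single_of_ne hm]

variable [Nontrivial R]

theorem s36_t9_xy_ne :
    s18_t3R R * qExpand R 3 (s18_t3R R) ≠ 729 := by
  intro h
  have hl : s18h_lead (1 + (3 : ℕ) * 1) (s18_t3R R * qExpand R 3 (s18_t3R R)) :=
    s18h_lead_mul (s18h_lead_t3R R) (s18h_lead_qExpand 3 (s18h_lead_t3R R))
  have h1 := s18h_lead_coeff hl (-4) (by norm_num)
  rw [h, s36_t9_coeff_ofNat R 729 (-4) (by norm_num)] at h1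
  exact zero_ne_one h1

theorem s36_t4_xy_ne :
    s18_t2R R * qExpand R 2 (s18_t2R R) ≠ 4096 := by
  intro h
  have hl : s18h_lead (1 + (2 : ℕ) * 1) (s18_t2R R * qExpand R 2 (s18_t2R R)) :=
    s18h_lead_mul (s18h_lead_t2R R) (s18h_lead_qExpand 2 (s18h_lead_t2R R))
  have h1 := s18h_lead_coeff hl (-3) (by norm_num)
  rw [h, s36_t9_coeff_ofNat R 4096 (-3) (by norm_num)] at h1
  exact zero_ne_one h1

theorem s36_t4_D_ne : s18_t2R R + 16 ≠ 0 := by
  intro h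
  have h1 := s18h_lead_coeff (s18h_lead_t2R R) (-1) rfl
  have h2 : (s18_t2R R + 16).coeff (-1) = 1 := by
    rw [HahnSeries.coeff_add, h1, s36_t9_coeff_ofNat R 16 (-1) (by norm_num), add_zero]
  rw [h, HahnSeries.coeff_zero] at h2
  exact zero_ne_one h2

theorem s36_t9_D_ne :
    s36_t9_D (s18_t3R R) (qExpand R 3 (s18_t3R R)) ≠ 0 := by
  intro h
  have hx := s18h_lead_t3R R
  have hy : s18h_lead ((3 : ℕ) * 1) (qExpand R 3 (s18_t3R R)) :=
    s18h_lead_qExpand 3 (s18h_lead_t3R R)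
  have hxy : s18h_lead (1 + (3 : ℕ) * 1) (s18_t3R R * qExpand R 3 (s18_t3R R)) :=
    s18h_lead_mul hx hy
  have c1 := s18h_lead_coeff hxy (-4) (by norm_num)
  have c2 := s18h_lead_coeff_lt hy (-4) (by norm_num)
  have c3 := s18h_lead_coeff_lt hx (-4) (by norm_num)
  have hc : (s36_t9_D (s18_t3R R) (qExpand R 3 (s18_t3R R))).coeff (-4) = 1 := by
    have e9 : (9 : LaurentSeries R) = ((9 : ℤ) : LaurentSeries R) := by norm_num
    have e243 : (243 : LaurentSeries R) = ((243 : ℤ) : LaurentSeries R) := by norm_num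
    rw [s36_t9_D, HahnSeries.coeff_add, HahnSeries.coeff_sub, HahnSeries.coeff_add, c1, e9,
      e243, s18h_coeff_intCast_mul, s18h_coeff_intCast_mul, c2, c3,
      s36_t9_coeff_ofNat R 729 (-4) (by norm_num)]
    simp
  rw [h, HahnSeries.coeff_zero] at hc
  exact zero_ne_one hc

end Series

section SeriesField

variable (K : Type*) [Field K]

/-- **Level 9, `q`-series form.**  There is `t₉ ∈ K((Q))`, rational in `x = t₃(Q)` and
`y = t₃(Q³)` (`t₉ · D = N`), with `t₉³ = x (t₉² + 9 t₉ + 27)` and `t₉ (t₉² + 9 t₉ + 27) = y`. -/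
theorem s36_t9_series :
    ∃ t : LaurentSeries K,
      t * s36_t9_D (s18_t3R K) (qExpand K 3 (s18_t3R K)) =
        s36_t9_N (s18_t3R K) (qExpand K 3 (s18_t3R K)) ∧
      t ^ 3 = s18_t3R K * (t ^ 2 + 9 * t + 27) ∧
      t * (t ^ 2 + 9 * t + 27) = qExpand K 3 (s18_t3R K) := by
  have hD := s36_t9_D_ne K
  refine ⟨s36_t9_N (s18_t3R K) (qExpand K 3 (s18_t3R K)) /
    s36_t9_D (s18_t3R K) (qExpand K 3 (s18_t3R K)), div_mul_cancel₀ _ hD, ?_⟩
  exact s36_t9_field _ _ (s36_t9_rel K) (s36_t9_xy_ne K) hD _ (div_mul_cancel₀ _ hD)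

/-- **Level 4, `q`-series form.**  There is `t₄ ∈ K((Q))` with `t₄ (x + 16) = y - 16 x` and
`t₄² = x t₄ + 16 x`, for `x = t₂(Q)`, `y = t₂(Q²)`. -/
theorem s36_t4_series :
    ∃ t : LaurentSeries K,
      t * (s18_t2R K + 16) = qExpand K 2 (s18_t2R K) - 16 * s18_t2R K ∧
      t ^ 2 = s18_t2R K * t + 16 * s18_t2R K := by
  have hD := s36_t4_D_ne K
  refine ⟨(qExpand K 2 (s18_t2R K) - 16 * s18_t2R K) / (s18_t2R K + 16),
    div_mul_cancel₀ _ hD, ?_⟩
  exact s36_t4_field _ _ (s36_t4_rel K) (s36_t4_xy_ne K) hD _ (div_mul_cancel₀ _ hD)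

end SeriesField

end Fermat.Agent.S36
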