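import Fermat.Agent.S36.Pole23Q
import Fermat.Agent.S36.Pole23Chart
import Fermat.Agent.S36.T9Alg
import Fermat.Agent.S34.GaussInf
import Fermat.Agent.S34.IcChart
import Fermat.Agent.S18.ChartZHaupt
import Fermat.Agent.S18.ChAlg
import Fermat.Prelude.Def_ModularCurve_HeckeOperator

/-!
# S36 (NODE-3), leaf (POLE23), model glue: `t₄`, `t₉` in the generic Gauss model

Generic model vocabulary (no Galois hypothesis): `K` a field over `ℚ`, `A₁` a valuation subring of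
`K`, `F_L = laurentBaseChange K (modularFunctionFieldFull L)`, `V = s34_gi_V A₁ L` the Gauss ring,
`red = s34_gi_red A₁ L : V →+* k((Q))`, `θ = s36_qt_theta k`.

* `s36_p23m_t4`, `s36_p23m_t9` : the integral `q`-expansions of `t₄`, `t₉` (`LaurentSeries ℤ`);
* `s36_p23m_T4 K L h4 : F_L` (`4 ∣ L`), `s36_p23m_T9 K L h9 : F_L` (`9 ∣ L`) : the functions, with
  `T₄² = t₂ T₄ + 16 t₂`, `T₉³ = t₃ (T₉² + 9 T₉ + 27)`;
* `s36_p23m_T4_mem_ic`, `s36_p23m_T4_inv_mem_ic` : `T₄` lies in the chart of `t₂`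
  (`s34_ic_chart`), `T₄ / t₂` in the chart of `t₂⁻¹`; the same for `T₉`, `t₃`;
* `s36_p23m_T4_mem_V`, `s36_p23m_red_T4`, `s36_p23m_red_t2`, `s36_p23m_red_rel4` : Gauss
  integrality, the reductions, and `(t̄₂ + 1)(t̄₄ + 1) = (t̄₄ - 1)²` in residue characteristic `3`;
  `s36_p23m_red_rel9` : `(t̄₃ + 1)(t̄₉² + t̄₉ + 1) = (t̄₉ + 1)³` in residue characteristic `2`;
* `s36_p23m_pole3_zero`, `s36_p23m_pole3_inf`, `s36_p23m_pole2_zero`, `s36_p23m_pole2_inf` :
  for a chart `B ≤ V` containing `t, T` (resp. `t⁻¹, T / t`), a prime `𝔪 ⊇ ker red` with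
  `t + 1 ∈ 𝔪` (resp. `t⁻¹ + 1 ∈ 𝔪`) and `O = s36_th_O (red ∘ incl) 𝔪` stable under `θ / θ x̄`:
  no positive power of `θ x̄` lies in `O` (the hypothesis `hpole` of `s36_thp_core`).
-/

set_option autoImplicit false
set_option linter.unusedSectionVars false
set_option linter.style.haveILetI false

open ModularCurve

noncomputable section

namespace Fermat.Agent.S36

open Fermat.Agent.S18 Fermat.Agent.S28 Fermat.Agent.S34

/-! ### The integral `q`-expansions -/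

/-- The integral `q`-expansion of the Hauptmodul `t₄` (normalised by `t₄² = t₂ t₄ + 16 t₂`). -/
def s36_p23m_t4 : LaurentSeries ℤ := Classical.choose s36_p23_t4

theorem s36_p23m_t4_spec :
    s36_p23m_t4 * (s18_t2 + 16) = qExpand ℤ 2 s18_t2 - 16 * s18_t2 ∧
    s36_p23m_t4 ^ 2 = s18_t2 * s36_p23m_t4 + 16 * s18_t2 ∧
    (s18_t2 + 1) * (s36_p23m_t4 + 1) =
      (s36_p23m_t4 - 1) ^ 2 + 3 * (s36_p23m_t4 - 5 * s18_t2) :=
  Classical.choose_spec s36_p23_t4

/-- The integral `q`-expansion of the Hauptmodul `t₉`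
(normalised by `t₉³ = t₃ (t₉² + 9 t₉ + 27)`). -/
def s36_p23m_t9 : LaurentSeries ℤ := Classical.choose s36_p23_t9

theorem s36_p23m_t9_spec :
    s36_p23m_t9 * (s18_t3 * qExpand ℤ 3 s18_t3 + 9 * qExpand ℤ 3 s18_t3 - 243 * s18_t3 + 729) =
      qExpand ℤ 3 s18_t3 * (s18_t3 ^ 2 + 18 * s18_t3 + 27) + 1458 * s18_t3 ∧
    s36_p23m_t9 ^ 3 = s18_t3 * (s36_p23m_t9 ^ 2 + 9 * s36_p23m_t9 + 27) ∧
    (s18_t3 + 1) * (s36_p23m_t9 ^ 2 + s36_p23m_t9 + 1) =
      (s36_p23m_t9 + 1) ^ 3 -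
        2 * (4 * s18_t3 * s36_p23m_t9 + 13 * s18_t3 + s36_p23m_t9 ^ 2 + s36_p23m_t9) :=
  Classical.choose_spec s36_p23_t9

section Series

variable (R : Type*) [CommRing R]

theorem s36_p23m_t4R_mul :
    coeffMap (Int.castRingHom R) s36_p23m_t4 * (s18_t2R R + 16) =
      qExpand R 2 (s18_t2R R) - 16 * s18_t2R R := by
  have h := congrArg (coeffMap (Int.castRingHom R)) s36_p23m_t4_spec.1
  rw [map_mul, map_add, map_sub, map_mul, map_ofNat, coeffMap_qExpand] at h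
  exact h

theorem s36_p23m_t4R_sq :
    coeffMap (Int.castRingHom R) s36_p23m_t4 ^ 2 =
      s18_t2R R * coeffMap (Int.castRingHom R) s36_p23m_t4 + 16 * s18_t2R R := by
  have h := congrArg (coeffMap (Int.castRingHom R)) s36_p23m_t4_spec.2.1
  rw [map_pow, map_add, map_mul, map_mul, map_ofNat] at h
  exact h

theorem s36_p23m_t9R_mul :
    coeffMap (Int.castRingHom R) s36_p23m_t9 *
        s36_t9_D (s18_t3R R) (qExpand R 3 (s18_t3R R)) =
      s36_t9_N (s18_t3R R) (qExpand R 3 (s18_t3R R)) := by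
  have h := congrArg (coeffMap (Int.castRingHom R)) s36_p23m_t9_spec.1
  simp only [map_mul, map_add, map_sub, map_pow, map_ofNat, coeffMap_qExpand] at h
  rw [s36_t9_D, s36_t9_N]
  exact h

theorem s36_p23m_t9R_cube :
    coeffMap (Int.castRingHom R) s36_p23m_t9 ^ 3 =
      s18_t3R R * (coeffMap (Int.castRingHom R) s36_p23m_t9 ^ 2 +
        9 * coeffMap (Int.castRingHom R) s36_p23m_t9 + 27) := by
  have h := congrArg (coeffMap (Int.castRingHom R)) s36_p23m_t9_spec.2.1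
  simp only [map_mul, map_add, map_pow, map_ofNat] at h
  exact h

/-- `(t̄₂ + 1)(t̄₄ + 1) = (t̄₄ - 1)²` in characteristic `3`. -/
theorem s36_p23m_rel4_bar [CharP R 3] :
    (s18_t2R R + 1) * (coeffMap (Int.castRingHom R) s36_p23m_t4 + 1) =
      (coeffMap (Int.castRingHom R) s36_p23m_t4 - 1) ^ 2 := by
  have h := congrArg (coeffMap (Int.castRingHom R)) s36_p23m_t4_spec.2.2
  rw [map_mul, map_add, map_add, map_one, map_add, map_pow, map_sub, map_one, map_mul,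
    map_ofNat, s36_p23_three_mul, add_zero] at h
  exact h

/-- `(t̄₃ + 1)(t̄₉² + t̄₉ + 1) = (t̄₉ + 1)³` in characteristic `2`. -/
theorem s36_p23m_rel9_bar [CharP R 2] :
    (s18_t3R R + 1) * (coeffMap (Int.castRingHom R) s36_p23m_t9 ^ 2 +
        coeffMap (Int.castRingHom R) s36_p23m_t9 + 1) =
      (coeffMap (Int.castRingHom R) s36_p23m_t9 + 1) ^ 3 := by
  have h := congrArg (coeffMap (Int.castRingHom R)) s36_p23m_t9_spec.2.2
  rw [map_mul, map_add, map_add, map_add, map_one, map_pow, map_sub, map_pow, map_add,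
    map_one, map_mul, map_ofNat, s36_p23_two_mul, sub_zero] at h
  exact h

end Series

/-! ### Membership in the function field -/

section Mem

variable (K : Type*) [Field K] [Algebra ℚ K] (L : ℕ) [NeZero L]

theorem s36_p23m_coe_t2 (h2 : 2 ∣ L) :
    ((s18_coord K (s18_cz_t2 L h2) : laurentBaseChange K (modularFunctionFieldFull L)) :
      LaurentSeries K) = s18_t2R K :=
  s18_coeffMap_t2R (algebraMap ℚ K)

theorem s36_p23m_coe_t3 (h3 : 3 ∣ L) :
    ((s18_coord K (s18_cz_t3 L h3) : laurentBaseChange K (modularFunctionFieldFull L)) :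
      LaurentSeries K) = s18_t3R K :=
  s18_coeffMap_t3R (algebraMap ℚ K)

theorem s36_p23m_t2_mem (h2 : 2 ∣ L) :
    s18_t2R K ∈ laurentBaseChange K (modularFunctionFieldFull L) := by
  rw [← s36_p23m_coe_t2 K L h2]
  exact (s18_coord K (s18_cz_t2 L h2)).2

theorem s36_p23m_t3_mem (h3 : 3 ∣ L) :
    s18_t3R K ∈ laurentBaseChange K (modularFunctionFieldFull L) := by
  rw [← s36_p23m_coe_t3 K L h3]
  exact (s18_coord K (s18_cz_t3 L h3)).2

/-- `t₂(Q²) ∈ K · F_L` for `4 ∣ L`. -/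
theorem s36_p23m_t2q_mem (h4 : 4 ∣ L) :
    qExpand K 2 (s18_t2R K) ∈ laurentBaseChange K (modularFunctionFieldFull L) := by
  obtain ⟨N, rfl⟩ : ∃ N, L = N * 2 := by
    obtain ⟨m, rfl⟩ := h4
    exact ⟨2 * m, by ring⟩
  have hN : 2 ∣ N := by
    obtain ⟨m, hm⟩ := h4
    exact ⟨m, by omega⟩
  haveI : NeZero N := ⟨fun h => NeZero.ne (N * 2) (by rw [h, zero_mul])⟩
  have h := (heckeBetaBar K N 2 (s18_coord K (s18_cz_t2 N hN))).2
  have e : ((heckeBetaBar K N 2 (s18_coord K (s18_cz_t2 N hN)) :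
      laurentBaseChange K (modularFunctionFieldFull (N * 2))) : LaurentSeries K) =
      qExpand K 2 (s18_t2R K) := by
    rw [coe_heckeBetaBar, s36_p23m_coe_t2]
  rw [← e]
  exact h

/-- `t₃(Q³) ∈ K · F_L` for `9 ∣ L`. -/
theorem s36_p23m_t3q_mem (h9 : 9 ∣ L) :
    qExpand K 3 (s18_t3R K) ∈ laurentBaseChange K (modularFunctionFieldFull L) := by
  obtain ⟨N, rfl⟩ : ∃ N, L = N * 3 := by
    obtain ⟨m, rfl⟩ := h9
    exact ⟨3 * m, by ring⟩
  have hN : 3 ∣ N := by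
    obtain ⟨m, hm⟩ := h9
    exact ⟨m, by omega⟩
  haveI : NeZero N := ⟨fun h => NeZero.ne (N * 3) (by rw [h, zero_mul])⟩
  have h := (heckeBetaBar K N 3 (s18_coord K (s18_cz_t3 N hN))).2
  have e : ((heckeBetaBar K N 3 (s18_coord K (s18_cz_t3 N hN)) :
      laurentBaseChange K (modularFunctionFieldFull (N * 3))) : LaurentSeries K) =
      qExpand K 3 (s18_t3R K) := by
    rw [coe_heckeBetaBar, s36_p23m_coe_t3]
  rw [← e]
  exact h

theorem s36_p23m_ofNat_mem (n : ℕ) [n.AtLeastTwo] :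
    (OfNat.ofNat n : LaurentSeries K) ∈ laurentBaseChange K (modularFunctionFieldFull L) := by
  have : (OfNat.ofNat n : LaurentSeries K) = ((n : ℕ) : LaurentSeries K) :=
    (Nat.cast_ofNat (R := LaurentSeries K) (n := n)).symm
  rw [this]
  exact natCast_mem _ n

/-- The `q`-expansion of `t₄` lies in `K · F_L` for `4 ∣ L`. -/
theorem s36_p23m_t4_mem (h4 : 4 ∣ L) :
    coeffMap (Int.castRingHom K) s36_p23m_t4 ∈
      laurentBaseChange K (modularFunctionFieldFull L) := by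
  have h2 : 2 ∣ L := dvd_trans (by norm_num) h4
  have hx := s36_p23m_t2_mem K L h2
  have hy := s36_p23m_t2q_mem K L h4
  have hD := s36_t4_D_ne K
  have e : coeffMap (Int.castRingHom K) s36_p23m_t4 =
      (qExpand K 2 (s18_t2R K) - 16 * s18_t2R K) / (s18_t2R K + 16) := by
    rw [eq_div_iff hD]
    exact s36_p23m_t4R_mul K
  rw [e]
  have h16 := s36_p23m_ofNat_mem K L 16
  exact div_mem (sub_mem hy (mul_mem h16 hx)) (add_mem hx h16)

/-- The `q`-expansion of `t₉` lies in `K · F_L` for `9 ∣ L`. -/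
theorem s36_p23m_t9_mem (h9 : 9 ∣ L) :
    coeffMap (Int.castRingHom K) s36_p23m_t9 ∈
      laurentBaseChange K (modularFunctionFieldFull L) := by
  have h3 : 3 ∣ L := dvd_trans (by norm_num) h9
  have hx := s36_p23m_t3_mem K L h3
  have hy := s36_p23m_t3q_mem K L h9
  have hD := s36_t9_D_ne K
  have e : coeffMap (Int.castRingHom K) s36_p23m_t9 =
      s36_t9_N (s18_t3R K) (qExpand K 3 (s18_t3R K)) /
        s36_t9_D (s18_t3R K) (qExpand K 3 (s18_t3R K)) := by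
    rw [eq_div_iff hD]
    exact s36_p23m_t9R_mul K
  rw [e, s36_t9_N, s36_t9_D]
  have m9 := s36_p23m_ofNat_mem K L 9
  have m18 := s36_p23m_ofNat_mem K L 18
  have m27 := s36_p23m_ofNat_mem K L 27
  have m243 := s36_p23m_ofNat_mem K L 243
  have m729 := s36_p23m_ofNat_mem K L 729
  have m1458 := s36_p23m_ofNat_mem K L 1458
  exact div_mem
    (add_mem (mul_mem hy (add_mem (add_mem (pow_mem hx 2) (mul_mem m18 hx)) m27))
      (mul_mem m1458 hx))
    (add_mem (sub_mem (add_mem (mul_mem hx hy) (mul_mem m9 hy)) (mul_mem m243 hx)) m729)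

/-- The function `t₄ ∈ K · F_L`, `4 ∣ L`. -/
def s36_p23m_T4 (h4 : 4 ∣ L) : laurentBaseChange K (modularFunctionFieldFull L) :=
  ⟨coeffMap (Int.castRingHom K) s36_p23m_t4, s36_p23m_t4_mem K L h4⟩

/-- The function `t₉ ∈ K · F_L`, `9 ∣ L`. -/
def s36_p23m_T9 (h9 : 9 ∣ L) : laurentBaseChange K (modularFunctionFieldFull L) :=
  ⟨coeffMap (Int.castRingHom K) s36_p23m_t9, s36_p23m_t9_mem K L h9⟩

theorem s36_p23m_coe_T4 (h4 : 4 ∣ L) :
    ((s36_p23m_T4 K L h4 : laurentBaseChange K (modularFunctionFieldFull L)) :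
      LaurentSeries K) = coeffMap (Int.castRingHom K) s36_p23m_t4 := rfl

theorem s36_p23m_coe_T9 (h9 : 9 ∣ L) :
    ((s36_p23m_T9 K L h9 : laurentBaseChange K (modularFunctionFieldFull L)) :
      LaurentSeries K) = coeffMap (Int.castRingHom K) s36_p23m_t9 := rfl

/-- `T₄² = t₂ T₄ + 16 t₂`. -/
theorem s36_p23m_T4_sq (h2 : 2 ∣ L) (h4 : 4 ∣ L) :
    s36_p23m_T4 K L h4 ^ 2 =
      s18_coord K (s18_cz_t2 L h2) * s36_p23m_T4 K L h4 + 16 * s18_coord K (s18_cz_t2 L h2) := by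
  apply (algebraMap (laurentBaseChange K (modularFunctionFieldFull L)) (LaurentSeries K)).injective
  rw [map_pow, map_add, map_mul, map_mul, map_ofNat]
  show coeffMap (Int.castRingHom K) s36_p23m_t4 ^ 2 =
    ((s18_coord K (s18_cz_t2 L h2) : laurentBaseChange K (modularFunctionFieldFull L)) :
      LaurentSeries K) * coeffMap (Int.castRingHom K) s36_p23m_t4 +
      16 * ((s18_coord K (s18_cz_t2 L h2) : laurentBaseChange K (modularFunctionFieldFull L)) :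
      LaurentSeries K)
  rw [s36_p23m_coe_t2]
  exact s36_p23m_t4R_sq K

/-- `T₉³ = t₃ (T₉² + 9 T₉ + 27)`. -/
theorem s36_p23m_T9_cube (h3 : 3 ∣ L) (h9 : 9 ∣ L) :
    s36_p23m_T9 K L h9 ^ 3 =
      s18_coord K (s18_cz_t3 L h3) *
        (s36_p23m_T9 K L h9 ^ 2 + 9 * s36_p23m_T9 K L h9 + 27) := by
  apply (algebraMap (laurentBaseChange K (modularFunctionFieldFull L)) (LaurentSeries K)).injective
  rw [map_pow, map_mul, map_add, map_add, map_pow, map_mul, map_ofNat, map_ofNat]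
  show coeffMap (Int.castRingHom K) s36_p23m_t9 ^ 3 =
    ((s18_coord K (s18_cz_t3 L h3) : laurentBaseChange K (modularFunctionFieldFull L)) :
      LaurentSeries K) * (coeffMap (Int.castRingHom K) s36_p23m_t9 ^ 2 +
        9 * coeffMap (Int.castRingHom K) s36_p23m_t9 + 27)
  rw [s36_p23m_coe_t3]
  exact s36_p23m_t9R_cube K

end Mem

/-! ### Integrality over the coordinate ring: membership in the charts -/

section Ic

open Polynomial

variable {A₀ F : Type*} [CommRing A₀] [Field F] [Algebra A₀ F]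

/-- A root of `X² - a X - b` with `a, b ∈ A₀[t]` lies in the chart of `t`. -/
theorem s36_p23m_ic_quad (t T a b : F) (ha : a ∈ Algebra.adjoin A₀ ({t} : Set F))
    (hb : b ∈ Algebra.adjoin A₀ ({t} : Set F)) (h : T ^ 2 = a * T + b) :
    T ∈ s34_ic_chart A₀ t := by
  rw [s34_ic_mem]
  refine ⟨X ^ 2 - (C (⟨a, ha⟩ : Algebra.adjoin A₀ ({t} : Set F)) * X + C ⟨b, hb⟩),
    monic_X_pow_sub (by exact_mod_cast degree_linear_lt), ?_⟩
  rw [eval₂_sub, eval₂_add, eval₂_mul, eval₂_pow, eval₂_X, eval₂_C, eval₂_C]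
  show T ^ 2 - (a * T + b) = 0
  rw [h, sub_self]

/-- A root of `X³ - a X² - b X - c` with `a, b, c ∈ A₀[t]` lies in the chart of `t`. -/
theorem s36_p23m_ic_cub (t T a b c : F) (ha : a ∈ Algebra.adjoin A₀ ({t} : Set F))
    (hb : b ∈ Algebra.adjoin A₀ ({t} : Set F)) (hc : c ∈ Algebra.adjoin A₀ ({t} : Set F))
    (h : T ^ 3 = a * T ^ 2 + b * T + c) :
    T ∈ s34_ic_chart A₀ t := by
  rw [s34_ic_mem]
  refine ⟨X ^ 3 - (C (⟨a, ha⟩ : Algebra.adjoin A₀ ({t} : Set F)) * X ^ 2 + C ⟨b, hb⟩ * X +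
      C ⟨c, hc⟩),
    monic_X_pow_sub (lt_of_le_of_lt degree_quadratic_le (by exact_mod_cast (by norm_num : (2 : ℕ) < 3))), ?_⟩
  rw [eval₂_sub, eval₂_add, eval₂_add, eval₂_mul, eval₂_mul, eval₂_pow, eval₂_pow, eval₂_X,
    eval₂_C, eval₂_C, eval₂_C]
  show T ^ 3 - (a * T ^ 2 + b * T + c) = 0
  rw [h, sub_self]

theorem s36_p23m_ofNat_adjoin (t : F) (n : ℕ) [n.AtLeastTwo] :
    (OfNat.ofNat n : F) ∈ Algebra.adjoin A₀ ({t} : Set F) := by
  rw [← map_ofNat (algebraMap A₀ F) n]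
  exact Subalgebra.algebraMap_mem _ _

end Ic

section Chart

variable (K : Type*) [Field K] [Algebra ℚ K] (L : ℕ) [NeZero L]
variable (A₀ : Type*) [CommRing A₀] [Algebra A₀ (laurentBaseChange K (modularFunctionFieldFull L))]

theorem s36_p23m_t2_ne (h2 : 2 ∣ L) : s18_coord K (s18_cz_t2 L h2) ≠ 0 := by
  intro h
  have h1 : s18_t2R K = 0 := by
    rw [← s36_p23m_coe_t2 K L h2, h]
    rfl
  have h3 := s18_t2R_mul_inv K
  rw [h1, zero_mul] at h3
  exact zero_ne_one h3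

theorem s36_p23m_t3_ne (h3 : 3 ∣ L) : s18_coord K (s18_cz_t3 L h3) ≠ 0 := by
  intro h
  have h1 : s18_t3R K = 0 := by
    rw [← s36_p23m_coe_t3 K L h3, h]
    rfl
  have h4 := s18_t3R_mul_inv K
  rw [h1, zero_mul] at h4
  exact zero_ne_one h4

/-- `T₄` lies in the chart of `t₂`. -/
theorem s36_p23m_T4_mem_ic (h2 : 2 ∣ L) (h4 : 4 ∣ L) :
    s36_p23m_T4 K L h4 ∈ s34_ic_chart A₀ (s18_coord K (s18_cz_t2 L h2)) := by
  have ht : s18_coord K (s18_cz_t2 L h2) ∈ Algebra.adjoin A₀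
      ({s18_coord K (s18_cz_t2 L h2)} : Set (laurentBaseChange K (modularFunctionFieldFull L))) :=
    Algebra.subset_adjoin (Set.mem_singleton _)
  exact s36_p23m_ic_quad _ _ _ (16 * s18_coord K (s18_cz_t2 L h2)) ht
    (Subalgebra.mul_mem _ (s36_p23m_ofNat_adjoin _ 16) ht) (s36_p23m_T4_sq K L h2 h4)

/-- `T₄ / t₂` lies in the chart of `t₂⁻¹`. -/
theorem s36_p23m_T4_inv_mem_ic (h2 : 2 ∣ L) (h4 : 4 ∣ L) :
    s36_p23m_T4 K L h4 * (s18_coord K (s18_cz_t2 L h2))⁻¹ ∈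
      s34_ic_chart A₀ (s18_coord K (s18_cz_t2 L h2))⁻¹ := by
  have hu : (s18_coord K (s18_cz_t2 L h2))⁻¹ ∈ Algebra.adjoin A₀
      ({(s18_coord K (s18_cz_t2 L h2))⁻¹} :
        Set (laurentBaseChange K (modularFunctionFieldFull L))) :=
    Algebra.subset_adjoin (Set.mem_singleton _)
  have h0 := s36_p23m_t2_ne K L h2
  refine s36_p23m_ic_quad _ _ 1 (16 * (s18_coord K (s18_cz_t2 L h2))⁻¹) (Subalgebra.one_mem _)
    (Subalgebra.mul_mem _ (s36_p23m_ofNat_adjoin _ 16) hu) ?_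
  have h := s36_p23m_T4_sq K L h2 h4
  field_simp
  linear_combination h

/-- `T₉` lies in the chart of `t₃`. -/
theorem s36_p23m_T9_mem_ic (h3 : 3 ∣ L) (h9 : 9 ∣ L) :
    s36_p23m_T9 K L h9 ∈ s34_ic_chart A₀ (s18_coord K (s18_cz_t3 L h3)) := by
  have ht : s18_coord K (s18_cz_t3 L h3) ∈ Algebra.adjoin A₀
      ({s18_coord K (s18_cz_t3 L h3)} : Set (laurentBaseChange K (modularFunctionFieldFull L))) :=
    Algebra.subset_adjoin (Set.mem_singleton _)
  refine s36_p23m_ic_cub _ _ _ (9 * s18_coord K (s18_cz_t3 L h3))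
    (27 * s18_coord K (s18_cz_t3 L h3)) ht
    (Subalgebra.mul_mem _ (s36_p23m_ofNat_adjoin _ 9) ht)
    (Subalgebra.mul_mem _ (s36_p23m_ofNat_adjoin _ 27) ht) ?_
  rw [s36_p23m_T9_cube K L h3 h9]
  ring

/-- `T₉ / t₃` lies in the chart of `t₃⁻¹`. -/
theorem s36_p23m_T9_inv_mem_ic (h3 : 3 ∣ L) (h9 : 9 ∣ L) :
    s36_p23m_T9 K L h9 * (s18_coord K (s18_cz_t3 L h3))⁻¹ ∈
      s34_ic_chart A₀ (s18_coord K (s18_cz_t3 L h3))⁻¹ := by
  have hu : (s18_coord K (s18_cz_t3 L h3))⁻¹ ∈ Algebra.adjoin A₀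
      ({(s18_coord K (s18_cz_t3 L h3))⁻¹} :
        Set (laurentBaseChange K (modularFunctionFieldFull L))) :=
    Algebra.subset_adjoin (Set.mem_singleton _)
  have h0 := s36_p23m_t3_ne K L h3
  refine s36_p23m_ic_cub _ _ 1 (9 * (s18_coord K (s18_cz_t3 L h3))⁻¹)
    (27 * (s18_coord K (s18_cz_t3 L h3))⁻¹ ^ 2) (Subalgebra.one_mem _)
    (Subalgebra.mul_mem _ (s36_p23m_ofNat_adjoin _ 9) hu)
    (Subalgebra.mul_mem _ (s36_p23m_ofNat_adjoin _ 27) (Subalgebra.pow_mem _ hu 2)) ?_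
  have h := s36_p23m_T9_cube K L h3 h9
  field_simp
  linear_combination h

end Chart

/-! ### Gauss integrality and reductions -/

section Gauss

variable {K : Type*} [Field K] [Algebra ℚ K] (A₁ : ValuationSubring K) (L : ℕ) [NeZero L]

theorem s36_p23m_int_coe (z : LaurentSeries ℤ) :
    coeffMap (Int.castRingHom K) z = coeffMap A₁.subtype (coeffMap (Int.castRingHom A₁) z) := by
  rw [coeffMap_coeffMap]
  exact coeffMap_congr (RingHom.ext_int _ _) z

/-- A function with integral (`ℤ`-coefficient) `q`-expansion lies in the Gauss ring. -/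
theorem s36_p23m_int_mem (x : laurentBaseChange K (modularFunctionFieldFull L))
    (z : LaurentSeries ℤ) (h : (x : LaurentSeries K) = coeffMap (Int.castRingHom K) z) :
    x ∈ s34_gi_V A₁ L :=
  s34_gi_mem_of_integral (coeffMap (Int.castRingHom A₁) z) (by rw [h, s36_p23m_int_coe A₁])

/-- The reduction of a function with integral (`ℤ`-coefficient) `q`-expansion. -/
theorem s36_p23m_int_red (x : s34_gi_V A₁ L) (z : LaurentSeries ℤ)
    (h : ((x : laurentBaseChange K (modularFunctionFieldFull L)) : LaurentSeries K) =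
      coeffMap (Int.castRingHom K) z) :
    s34_gi_red A₁ L x = coeffMap (Int.castRingHom (IsLocalRing.ResidueField A₁)) z := by
  rw [s34_gi_red_integral x (coeffMap (Int.castRingHom A₁) z)
    (by rw [h, s36_p23m_int_coe A₁]), coeffMap_coeffMap]
  exact coeffMap_congr (RingHom.ext_int _ _) z

theorem s36_p23m_t2_mem_V (h2 : 2 ∣ L) : s18_coord K (s18_cz_t2 L h2) ∈ s34_gi_V A₁ L :=
  s36_p23m_int_mem A₁ L _ s18_t2 (s36_p23m_coe_t2 K L h2)

theorem s36_p23m_t3_mem_V (h3 : 3 ∣ L) : s18_coord K (s18_cz_t3 L h3) ∈ s34_gi_V A₁ L :=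
  s36_p23m_int_mem A₁ L _ s18_t3 (s36_p23m_coe_t3 K L h3)

theorem s36_p23m_T4_mem_V (h4 : 4 ∣ L) : s36_p23m_T4 K L h4 ∈ s34_gi_V A₁ L :=
  s36_p23m_int_mem A₁ L _ s36_p23m_t4 rfl

theorem s36_p23m_T9_mem_V (h9 : 9 ∣ L) : s36_p23m_T9 K L h9 ∈ s34_gi_V A₁ L :=
  s36_p23m_int_mem A₁ L _ s36_p23m_t9 rfl

theorem s36_p23m_coe_t2_inv (h2 : 2 ∣ L) :
    (((s18_coord K (s18_cz_t2 L h2))⁻¹ : laurentBaseChange K (modularFunctionFieldFull L)) :
      LaurentSeries K) = coeffMap (Int.castRingHom K) s18_t2inv := by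
  rw [IntermediateField.coe_inv, s36_p23m_coe_t2, ← s18_t2invR_eq_inv]
  rfl

theorem s36_p23m_coe_t3_inv (h3 : 3 ∣ L) :
    (((s18_coord K (s18_cz_t3 L h3))⁻¹ : laurentBaseChange K (modularFunctionFieldFull L)) :
      LaurentSeries K) = coeffMap (Int.castRingHom K) s18_t3inv := by
  rw [IntermediateField.coe_inv, s36_p23m_coe_t3, ← s18_t3invR_eq_inv]
  rfl

/-- `red t₂ = t̄₂`. -/
theorem s36_p23m_red_t2 (h2 : 2 ∣ L) (x : s34_gi_V A₁ L)
    (hx : (x : laurentBaseChange K (modularFunctionFieldFull L)) = s18_coord K (s18_cz_t2 L h2)) :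
    s34_gi_red A₁ L x = s18_t2R (IsLocalRing.ResidueField A₁) :=
  s36_p23m_int_red A₁ L x s18_t2 (by rw [hx]; exact s36_p23m_coe_t2 K L h2)

/-- `red t₃ = t̄₃`. -/
theorem s36_p23m_red_t3 (h3 : 3 ∣ L) (x : s34_gi_V A₁ L)
    (hx : (x : laurentBaseChange K (modularFunctionFieldFull L)) = s18_coord K (s18_cz_t3 L h3)) :
    s34_gi_red A₁ L x = s18_t3R (IsLocalRing.ResidueField A₁) :=
  s36_p23m_int_red A₁ L x s18_t3 (by rw [hx]; exact s36_p23m_coe_t3 K L h3)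

/-- `red t₂⁻¹ = t̄₂⁻¹`. -/
theorem s36_p23m_red_t2_inv (h2 : 2 ∣ L) (x : s34_gi_V A₁ L)
    (hx : (x : laurentBaseChange K (modularFunctionFieldFull L)) =
      (s18_coord K (s18_cz_t2 L h2))⁻¹) :
    s34_gi_red A₁ L x = s18_t2invR (IsLocalRing.ResidueField A₁) :=
  s36_p23m_int_red A₁ L x s18_t2inv (by rw [hx]; exact s36_p23m_coe_t2_inv L h2)

/-- `red t₃⁻¹ = t̄₃⁻¹`. -/
theorem s36_p23m_red_t3_inv (h3 : 3 ∣ L) (x : s34_gi_V A₁ L)
    (hx : (x : laurentBaseChange K (modularFunctionFieldFull L)) =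
      (s18_coord K (s18_cz_t3 L h3))⁻¹) :
    s34_gi_red A₁ L x = s18_t3invR (IsLocalRing.ResidueField A₁) :=
  s36_p23m_int_red A₁ L x s18_t3inv (by rw [hx]; exact s36_p23m_coe_t3_inv L h3)

/-- `red T₄ = t̄₄`. -/
theorem s36_p23m_red_T4 (h4 : 4 ∣ L) (x : s34_gi_V A₁ L)
    (hx : (x : laurentBaseChange K (modularFunctionFieldFull L)) = s36_p23m_T4 K L h4) :
    s34_gi_red A₁ L x =
      coeffMap (Int.castRingHom (IsLocalRing.ResidueField A₁)) s36_p23m_t4 :=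
  s36_p23m_int_red A₁ L x s36_p23m_t4 (by rw [hx]; rfl)

/-- `red T₉ = t̄₉`. -/
theorem s36_p23m_red_T9 (h9 : 9 ∣ L) (x : s34_gi_V A₁ L)
    (hx : (x : laurentBaseChange K (modularFunctionFieldFull L)) = s36_p23m_T9 K L h9) :
    s34_gi_red A₁ L x =
      coeffMap (Int.castRingHom (IsLocalRing.ResidueField A₁)) s36_p23m_t9 :=
  s36_p23m_int_red A₁ L x s36_p23m_t9 (by rw [hx]; rfl)

/-- `red (T₄ / t₂) = t̄₄ · t̄₂⁻¹`. -/
theorem s36_p23m_red_T4_inv (h2 : 2 ∣ L) (h4 : 4 ∣ L) (x : s34_gi_V A₁ L)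
    (hx : (x : laurentBaseChange K (modularFunctionFieldFull L)) =
      s36_p23m_T4 K L h4 * (s18_coord K (s18_cz_t2 L h2))⁻¹) :
    s34_gi_red A₁ L x =
      coeffMap (Int.castRingHom (IsLocalRing.ResidueField A₁)) s36_p23m_t4 *
        s18_t2invR (IsLocalRing.ResidueField A₁) := by
  rw [s36_p23m_int_red A₁ L x (s36_p23m_t4 * s18_t2inv)
    (by rw [hx, IntermediateField.coe_mul, s36_p23m_coe_t2_inv L h2, map_mul]; rfl), map_mul]
  rfl

/-- `red (T₉ / t₃) = t̄₉ · t̄₃⁻¹`. -/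
theorem s36_p23m_red_T9_inv (h3 : 3 ∣ L) (h9 : 9 ∣ L) (x : s34_gi_V A₁ L)
    (hx : (x : laurentBaseChange K (modularFunctionFieldFull L)) =
      s36_p23m_T9 K L h9 * (s18_coord K (s18_cz_t3 L h3))⁻¹) :
    s34_gi_red A₁ L x =
      coeffMap (Int.castRingHom (IsLocalRing.ResidueField A₁)) s36_p23m_t9 *
        s18_t3invR (IsLocalRing.ResidueField A₁) := by
  rw [s36_p23m_int_red A₁ L x (s36_p23m_t9 * s18_t3inv)
    (by rw [hx, IntermediateField.coe_mul, s36_p23m_coe_t3_inv L h3, map_mul]; rfl), map_mul]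
  rfl

end Gauss

/-! ### The pole of `ρ_x` at a crossing point of the model, `q = 3, 2` -/

section Pole

variable {K : Type*} [Field K] [Algebra ℚ K] (A₁ : ValuationSubring K) (L : ℕ) [NeZero L]

/-- `θ t̄⁻¹ = t̄⁻¹` from `θ t̄ = - t̄`. -/
theorem s36_p23m_theta_inv {k : Type*} [CommRing k] (t u : LaurentSeries k) (htu : t * u = 1)
    (ht : s36_qt_theta k t = -t) : s36_qt_theta k u = u := by
  have h1 : s36_qt_theta k (t * u) = 0 := by rw [htu]; exact s36_qt_theta_one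
  rw [s36_qt_theta_mul, ht] at h1
  have h2 : t * s36_qt_theta k u = 1 := by linear_combination h1 + htu
  calc s36_qt_theta k u = (t * u) * s36_qt_theta k u := by rw [htu, one_mul]
    _ = u * (t * s36_qt_theta k u) := by ring
    _ = u := by rw [h2, mul_one]

theorem s36_p23m_two_not_mem {k B : Type*} [CommRing k] [CharP k 3] [CommRing B]
    (r : B →+* LaurentSeries k) (𝔪 : Ideal B) [h𝔪 : 𝔪.IsPrime]
    (hker : ∀ z : B, r z = 0 → z ∈ 𝔪) : (2 : B) ∉ 𝔪 := by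
  intro h2
  have h3 : (3 : B) ∈ 𝔪 := by
    apply hker
    rw [map_ofNat]
    have := s36_p23_three_mul k 1
    rwa [mul_one] at this
  have h1 : (1 : B) ∈ 𝔪 := by
    have := 𝔪.sub_mem h3 h2
    have e : (3 : B) - 2 = 1 := by norm_num
    rwa [e] at this
  exact h𝔪.ne_top ((Ideal.eq_top_iff_one _).mpr h1)

/-- **(POLE23), `q = 3`, model, chart of `t₂`.**  `B ≤ V` a chart containing `t₂` and `T₄`
(e.g. `s34_ic_chart A₁ t₂`: `s36_p23m_T4_mem_ic`), `𝔪` a prime containing the kernel of the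
reduction and `t₂ + 1` (a crossing point), `O = s36_th_O (red ∘ incl) 𝔪` stable under
`θ / θ x̄`.  Then no positive power of `θ x̄` lies in `O`. -/
theorem s36_p23m_pole3_zero [CharP (IsLocalRing.ResidueField A₁) 3] (h2 : 2 ∣ L) (h4 : 4 ∣ L)
    (B : Subring (laurentBaseChange K (modularFunctionFieldFull L))) (hBV : B ≤ s34_gi_V A₁ L)
    (ht : s18_coord K (s18_cz_t2 L h2) ∈ B) (hT : s36_p23m_T4 K L h4 ∈ B)
    (𝔪 : Ideal B) [𝔪.IsPrime]
    (hker : ∀ z : B, s34_gi_red A₁ L (Subring.inclusion hBV z) = 0 → z ∈ 𝔪)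
    (hcross : (⟨s18_coord K (s18_cz_t2 L h2), ht⟩ : B) + 1 ∈ 𝔪)
    (x : B)
    (hD : ∀ f ∈ s36_th_O ((s34_gi_red A₁ L).comp (Subring.inclusion hBV)) 𝔪,
      ∃ g ∈ s36_th_O ((s34_gi_red A₁ L).comp (Subring.inclusion hBV)) 𝔪,
        s36_qt_theta (IsLocalRing.ResidueField A₁) f =
          g * s36_qt_theta (IsLocalRing.ResidueField A₁)
            (((s34_gi_red A₁ L).comp (Subring.inclusion hBV)) x))
    (n : ℕ) (hn : 1 ≤ n) :
    s36_qt_theta (IsLocalRing.ResidueField A₁)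
        (((s34_gi_red A₁ L).comp (Subring.inclusion hBV)) x) ^ n ∉
      s36_th_O ((s34_gi_red A₁ L).comp (Subring.inclusion hBV)) 𝔪 := by
  have hrt : ((s34_gi_red A₁ L).comp (Subring.inclusion hBV))
      ⟨s18_coord K (s18_cz_t2 L h2), ht⟩ = s18_t2R (IsLocalRing.ResidueField A₁) :=
    s36_p23m_red_t2 A₁ L h2 _ rfl
  have hrT : ((s34_gi_red A₁ L).comp (Subring.inclusion hBV))
      ⟨s36_p23m_T4 K L h4, hT⟩ =
      coeffMap (Int.castRingHom (IsLocalRing.ResidueField A₁)) s36_p23m_t4 :=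
    s36_p23m_red_T4 A₁ L h4 _ rfl
  refine s36_p23c_pole3_zero ((s34_gi_red A₁ L).comp (Subring.inclusion hBV))
    (s36_qt_theta (IsLocalRing.ResidueField A₁)) s36_qt_theta_mul 𝔪 hker
    (s36_p23m_two_not_mem ((s34_gi_red A₁ L).comp (Subring.inclusion hBV)) 𝔪 hker) x hD ⟨_, ht⟩ ⟨_, hT⟩ hcross ?_ ?_ n hn
  · rw [hrt]
    exact s36_p23_theta_t2_bar (IsLocalRing.ResidueField A₁)
  · rw [map_mul, map_add, map_add, map_pow, map_sub, map_one, hrt, hrT]
    exact s36_p23m_rel4_bar (IsLocalRing.ResidueField A₁)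

/-- **(POLE23), `q = 3`, model, chart of `t₂⁻¹`.**  `B ≤ V` a chart containing `t₂⁻¹` and
`T₄ / t₂` (e.g. `s34_ic_chart A₁ t₂⁻¹`: `s36_p23m_T4_inv_mem_ic`), `𝔪` a prime containing the
kernel of the reduction and `t₂⁻¹ + 1`. -/
theorem s36_p23m_pole3_inf [CharP (IsLocalRing.ResidueField A₁) 3] (h2 : 2 ∣ L) (h4 : 4 ∣ L)
    (B : Subring (laurentBaseChange K (modularFunctionFieldFull L))) (hBV : B ≤ s34_gi_V A₁ L)
    (hu : (s18_coord K (s18_cz_t2 L h2))⁻¹ ∈ B)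
    (hT : s36_p23m_T4 K L h4 * (s18_coord K (s18_cz_t2 L h2))⁻¹ ∈ B)
    (𝔪 : Ideal B) [𝔪.IsPrime]
    (hker : ∀ z : B, s34_gi_red A₁ L (Subring.inclusion hBV z) = 0 → z ∈ 𝔪)
    (hcross : (⟨(s18_coord K (s18_cz_t2 L h2))⁻¹, hu⟩ : B) + 1 ∈ 𝔪)
    (x : B)
    (hD : ∀ f ∈ s36_th_O ((s34_gi_red A₁ L).comp (Subring.inclusion hBV)) 𝔪,
      ∃ g ∈ s36_th_O ((s34_gi_red A₁ L).comp (Subring.inclusion hBV)) 𝔪,
        s36_qt_theta (IsLocalRing.ResidueField A₁) f =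
          g * s36_qt_theta (IsLocalRing.ResidueField A₁)
            (((s34_gi_red A₁ L).comp (Subring.inclusion hBV)) x))
    (n : ℕ) (hn : 1 ≤ n) :
    s36_qt_theta (IsLocalRing.ResidueField A₁)
        (((s34_gi_red A₁ L).comp (Subring.inclusion hBV)) x) ^ n ∉
      s36_th_O ((s34_gi_red A₁ L).comp (Subring.inclusion hBV)) 𝔪 := by
  have hru : ((s34_gi_red A₁ L).comp (Subring.inclusion hBV))
      ⟨(s18_coord K (s18_cz_t2 L h2))⁻¹, hu⟩ = s18_t2invR (IsLocalRing.ResidueField A₁) :=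
    s36_p23m_red_t2_inv A₁ L h2 _ rfl
  have hrT : ((s34_gi_red A₁ L).comp (Subring.inclusion hBV))
      ⟨s36_p23m_T4 K L h4 * (s18_coord K (s18_cz_t2 L h2))⁻¹, hT⟩ =
      coeffMap (Int.castRingHom (IsLocalRing.ResidueField A₁)) s36_p23m_t4 *
        s18_t2invR (IsLocalRing.ResidueField A₁) :=
    s36_p23m_red_T4_inv A₁ L h2 h4 _ rfl
  have hmul := s18_t2R_mul_inv (IsLocalRing.ResidueField A₁)
  refine s36_p23c_pole3_inf ((s34_gi_red A₁ L).comp (Subring.inclusion hBV))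
    (s36_qt_theta (IsLocalRing.ResidueField A₁)) s36_qt_theta_mul 𝔪 hker
    (s36_p23m_two_not_mem ((s34_gi_red A₁ L).comp (Subring.inclusion hBV)) 𝔪 hker) x hD ⟨_, hu⟩ ⟨_, hT⟩ hcross ?_ ?_ n hn
  · rw [hru]
    exact s36_p23m_theta_inv _ _ hmul (s36_p23_theta_t2_bar (IsLocalRing.ResidueField A₁))
  · rw [map_mul, map_add, map_add, map_pow, map_sub, map_one, hru, hrT]
    have h := s36_p23m_rel4_bar (IsLocalRing.ResidueField A₁)
    linear_combination (s18_t2invR (IsLocalRing.ResidueField A₁)) ^ 2 * h -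
      s18_t2invR (IsLocalRing.ResidueField A₁) *
        (coeffMap (Int.castRingHom (IsLocalRing.ResidueField A₁)) s36_p23m_t4 + 1) * hmul

/-- **(POLE23), `q = 2`, model, chart of `t₃`.**  `B ≤ V` a chart containing `t₃` and `T₉`
(e.g. `s34_ic_chart A₁ t₃`: `s36_p23m_T9_mem_ic`), `𝔪` a prime containing the kernel of the
reduction and `t₃ + 1` (a crossing point), `O = s36_th_O (red ∘ incl) 𝔪` stable under
`θ / θ x̄`.  Then no positive power of `θ x̄` lies in `O`. -/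
theorem s36_p23m_pole2_zero [CharP (IsLocalRing.ResidueField A₁) 2] (h3 : 3 ∣ L) (h9 : 9 ∣ L)
    (B : Subring (laurentBaseChange K (modularFunctionFieldFull L))) (hBV : B ≤ s34_gi_V A₁ L)
    (ht : s18_coord K (s18_cz_t3 L h3) ∈ B) (hT : s36_p23m_T9 K L h9 ∈ B)
    (𝔪 : Ideal B) [𝔪.IsPrime]
    (hker : ∀ z : B, s34_gi_red A₁ L (Subring.inclusion hBV z) = 0 → z ∈ 𝔪)
    (hcross : (⟨s18_coord K (s18_cz_t3 L h3), ht⟩ : B) + 1 ∈ 𝔪)
    (x : B)
    (hD : ∀ f ∈ s36_th_O ((s34_gi_red A₁ L).comp (Subring.inclusion hBV)) 𝔪,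
      ∃ g ∈ s36_th_O ((s34_gi_red A₁ L).comp (Subring.inclusion hBV)) 𝔪,
        s36_qt_theta (IsLocalRing.ResidueField A₁) f =
          g * s36_qt_theta (IsLocalRing.ResidueField A₁)
            (((s34_gi_red A₁ L).comp (Subring.inclusion hBV)) x))
    (n : ℕ) (hn : 1 ≤ n) :
    s36_qt_theta (IsLocalRing.ResidueField A₁)
        (((s34_gi_red A₁ L).comp (Subring.inclusion hBV)) x) ^ n ∉
      s36_th_O ((s34_gi_red A₁ L).comp (Subring.inclusion hBV)) 𝔪 := by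
  have hrt : ((s34_gi_red A₁ L).comp (Subring.inclusion hBV))
      ⟨s18_coord K (s18_cz_t3 L h3), ht⟩ = s18_t3R (IsLocalRing.ResidueField A₁) :=
    s36_p23m_red_t3 A₁ L h3 _ rfl
  have hrT : ((s34_gi_red A₁ L).comp (Subring.inclusion hBV))
      ⟨s36_p23m_T9 K L h9, hT⟩ =
      coeffMap (Int.castRingHom (IsLocalRing.ResidueField A₁)) s36_p23m_t9 :=
    s36_p23m_red_T9 A₁ L h9 _ rfl
  refine s36_p23c_pole2_zero ((s34_gi_red A₁ L).comp (Subring.inclusion hBV))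
    (s36_qt_theta (IsLocalRing.ResidueField A₁)) s36_qt_theta_mul 𝔪 hker
    x hD ⟨_, ht⟩ ⟨_, hT⟩ hcross ?_ ?_ n hn
  · rw [hrt]
    exact s36_p23_theta_t3_bar (IsLocalRing.ResidueField A₁)
  · rw [map_mul, map_add, map_add, map_add, map_pow, map_pow, map_add, map_one, hrt, hrT]
    exact s36_p23m_rel9_bar (IsLocalRing.ResidueField A₁)

/-- **(POLE23), `q = 2`, model, chart of `t₃⁻¹`.**  `B ≤ V` a chart containing `t₃⁻¹` and
`T₉ / t₃` (e.g. `s34_ic_chart A₁ t₃⁻¹`: `s36_p23m_T9_inv_mem_ic`), `𝔪` a prime containing the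
kernel of the reduction and `t₃⁻¹ + 1`. -/
theorem s36_p23m_pole2_inf [CharP (IsLocalRing.ResidueField A₁) 2] (h3 : 3 ∣ L) (h9 : 9 ∣ L)
    (B : Subring (laurentBaseChange K (modularFunctionFieldFull L))) (hBV : B ≤ s34_gi_V A₁ L)
    (hu : (s18_coord K (s18_cz_t3 L h3))⁻¹ ∈ B)
    (hT : s36_p23m_T9 K L h9 * (s18_coord K (s18_cz_t3 L h3))⁻¹ ∈ B)
    (𝔪 : Ideal B) [𝔪.IsPrime]
    (hker : ∀ z : B, s34_gi_red A₁ L (Subring.inclusion hBV z) = 0 → z ∈ 𝔪)
    (hcross : (⟨(s18_coord K (s18_cz_t3 L h3))⁻¹, hu⟩ : B) + 1 ∈ 𝔪)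
    (x : B)
    (hD : ∀ f ∈ s36_th_O ((s34_gi_red A₁ L).comp (Subring.inclusion hBV)) 𝔪,
      ∃ g ∈ s36_th_O ((s34_gi_red A₁ L).comp (Subring.inclusion hBV)) 𝔪,
        s36_qt_theta (IsLocalRing.ResidueField A₁) f =
          g * s36_qt_theta (IsLocalRing.ResidueField A₁)
            (((s34_gi_red A₁ L).comp (Subring.inclusion hBV)) x))
    (n : ℕ) (hn : 1 ≤ n) :
    s36_qt_theta (IsLocalRing.ResidueField A₁)
        (((s34_gi_red A₁ L).comp (Subring.inclusion hBV)) x) ^ n ∉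
      s36_th_O ((s34_gi_red A₁ L).comp (Subring.inclusion hBV)) 𝔪 := by
  have hru : ((s34_gi_red A₁ L).comp (Subring.inclusion hBV))
      ⟨(s18_coord K (s18_cz_t3 L h3))⁻¹, hu⟩ = s18_t3invR (IsLocalRing.ResidueField A₁) :=
    s36_p23m_red_t3_inv A₁ L h3 _ rfl
  have hrT : ((s34_gi_red A₁ L).comp (Subring.inclusion hBV))
      ⟨s36_p23m_T9 K L h9 * (s18_coord K (s18_cz_t3 L h3))⁻¹, hT⟩ =
      coeffMap (Int.castRingHom (IsLocalRing.ResidueField A₁)) s36_p23m_t9 *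
        s18_t3invR (IsLocalRing.ResidueField A₁) :=
    s36_p23m_red_T9_inv A₁ L h3 h9 _ rfl
  have hmul := s18_t3R_mul_inv (IsLocalRing.ResidueField A₁)
  refine s36_p23c_pole2_inf ((s34_gi_red A₁ L).comp (Subring.inclusion hBV))
    (s36_qt_theta (IsLocalRing.ResidueField A₁)) s36_qt_theta_mul 𝔪 hker
    x hD ⟨_, hu⟩ ⟨_, hT⟩ hcross ?_ ?_ n hn
  · rw [hru]
    exact s36_p23m_theta_inv _ _ hmul (s36_p23_theta_t3_bar (IsLocalRing.ResidueField A₁))
  · rw [map_mul, map_add, map_add, map_add, map_pow, map_mul, map_pow, map_pow, map_add,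
      map_one, hru, hrT]
    have h := s36_p23m_rel9_bar (IsLocalRing.ResidueField A₁)
    linear_combination (s18_t3invR (IsLocalRing.ResidueField A₁)) ^ 3 * h -
      s18_t3invR (IsLocalRing.ResidueField A₁) ^ 2 *
        (coeffMap (Int.castRingHom (IsLocalRing.ResidueField A₁)) s36_p23m_t9 ^ 2 +
          coeffMap (Int.castRingHom (IsLocalRing.ResidueField A₁)) s36_p23m_t9 + 1) * hmul

end Pole

end Fermat.Agent.S36
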