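import Fermat.Agent.S36.CrossInst3
import Fermat.Agent.S36.CrossInst5
import Fermat.Agent.S36.CuspRatioK
import Fermat.Agent.S36.Pole23Model
import Fermat.Agent.S34.FinInst
import Fermat.Agent.S34.IcDvr

/-!
# S36 (NODE-3), B2 route (a): thickness one at every crossing point of the model, `q ≥ 5`

Composition of `s36_xi3_t2` / `s36_xi3_t3` (`CrossInst3.lean`: the model charts `B0`, `Binf` of
level `N₁ q` over `A₁ = P ∩ K₁`, thickness one given the pole) with `s36_xi5_hpole`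
(`CrossInst5.lean`: the pole for `q ≥ 5` from the concrete block `x`, `x' = W x`, `G = x^q / x'`)
and the cusp ratios `s36_cusp_t2` / `s36_cusp_t3` (`CuspRatioK.lean`).

* `s36_xi6_t2` : `6 ∣ N₁`, `q ≥ 5`, `q ∤ N₁`, `K₁ ⊆ Q̄` any number field in which `q` is a
  uniformizer of `A₁` (no Galois hypothesis), `W` a swap: both charts of the Hauptmodul `t₂` lie
  in `V∞` and thickness one (`s36_xi3_Hq`, the shape of `hq` of `s36_clq_main`) holds at every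
  crossing point of both charts.  NO pole hypothesis.
* `s36_xi6_t3` : the same for the Hauptmodul `t₃`.
-/

set_option autoImplicit false
set_option synthInstance.maxHeartbeats 400000
set_option maxHeartbeats 4000000
set_option linter.unusedSectionVars false
set_option linter.unusedVariables false
set_option linter.style.haveILetI false

open ModularCurve ModularCurve.IgusaScheme Fermat.Agent.S28

noncomputable section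

namespace Fermat.Agent.S36

open Fermat.Agent.S18 Fermat.Agent.S34

section Model

variable (N₁ : ℕ) [NeZero N₁] (q : ℕ) [NeZero q] [Fact q.Prime]
  (A : ValuationSubring (AlgebraicClosure ℚ)) (hA : A.LiesOverPrime q)
  (K₁ : IntermediateField ℚ (AlgebraicClosure ℚ)) [NumberField K₁]
  [IsDiscreteValuationRing (s18_A1 A K₁)]

include hA in
/-- **Thickness one at every crossing point of the nodal model of level `N₁ q`, Hauptmodul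
`t_2`, `q ≥ 5`** (`6 ∣ N₁`), over `A₁ = P ∩ K₁` for ANY number field `K₁ ⊆ Q̄` in which `q` is a
uniformizer at `P` (no Galois hypothesis): both charts lie in `V∞`, and thickness one holds at
every crossing point of both charts, in the shape of `hq` of `s36_clq_main`.  No pole
hypothesis. -/
theorem s36_xi6_t2 (hqN : ¬ q ∣ N₁) (h2 : 2 ∣ N₁) (h3 : 3 ∣ N₁) (h5 : 5 ≤ q)
    (hirr : Irreducible ((q : ℕ) : s18_A1 A K₁))
    (W : s18_F1 K₁ (N₁ * q) ≃ₐ[K₁] s18_F1 K₁ (N₁ * q)) (hW : s34_md_IsSwap K₁ N₁ q W) :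
    (s34_md_B0 A K₁ (N₁ * q) (s18_cz_t2 (N₁ * q) (dvd_mul_of_dvd_left h2 q))).toSubring ≤
      s34_md_V1 A K₁ (N₁ * q) ∧
    (s34_md_Binf A K₁ (N₁ * q) (s18_cz_t2 (N₁ * q) (dvd_mul_of_dvd_left h2 q))).toSubring ≤
      s34_md_V1 A K₁ (N₁ * q) ∧
    s36_xi3_Hq N₁ q (s18_A1 A K₁) (W : s18_F1 K₁ (N₁ * q) ≃+* s18_F1 K₁ (N₁ * q))
      (s34_md_B0 A K₁ (N₁ * q) (s18_cz_t2 (N₁ * q) (dvd_mul_of_dvd_left h2 q))).toSubring ∧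
    s36_xi3_Hq N₁ q (s18_A1 A K₁) (W : s18_F1 K₁ (N₁ * q) ≃+* s18_F1 K₁ (N₁ * q))
      (s34_md_Binf A K₁ (N₁ * q) (s18_cz_t2 (N₁ * q) (dvd_mul_of_dvd_left h2 q))).toSubring := by
  have hq : q.Prime := Fact.out
  have hqM : q ≠ 2 := fun h => hqN (h ▸ h2)
  have hcast : (((q : ℕ) : s18_A1 A K₁) : K₁) = (q : K₁) := by push_cast; rfl
  have hℓ := s18_a1_ell A hA K₁
  have hcop : Nat.Coprime q N₁ := (Nat.Prime.coprime_iff_not_dvd hq).mpr hqN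
  -- (cap), non-Galois
  have hcap := s36_cn_ct_cap N₁ q hqN A hA K₁ ((q : ℕ) : s18_A1 A K₁) hirr
    (s18_cz_t2 (N₁ * q) (dvd_mul_of_dvd_left h2 q)) (Or.inl ⟨rfl, h2⟩) W hW
  have hϖ : algebraMap (s18_A1 A K₁) (s18_F1 K₁ (N₁ * q)) ((q : ℕ) : s18_A1 A K₁) =
      algebraMap K₁ (s18_F1 K₁ (N₁ * q)) (q : K₁) := by
    show algebraMap K₁ (s18_F1 K₁ (N₁ * q)) (((q : ℕ) : s18_A1 A K₁) : K₁) = _
    rw [hcast]
  unfold s34_md_Cap at hcap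
  rw [hϖ] at hcap
  have hWsw := hW
  obtain ⟨hWα, hWβ, hWW, -, -⟩ := hWsw
  -- Krull shape of the charts
  obtain ⟨htr, hfd⟩ := s34_fi_ct_fin N₁ q K₁ (s18_cz_t2 (N₁ * q) (dvd_mul_of_dvd_left h2 q))
    (Or.inl ⟨rfl, h2⟩)
  haveI := hfd
  haveI tower : IsScalarTower (s18_A1 A K₁) K₁ (s18_F1 K₁ (N₁ * q)) :=
    IsScalarTower.of_algebraMap_eq (fun _ => rfl)
  have t_ne : s18_coord K₁ (s18_cz_t2 (N₁ * q) (dvd_mul_of_dvd_left h2 q)) ≠ 0 :=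
    s34_ic_ne_zero htr
  have noeth0 : IsNoetherianRing (s34_md_B0 A K₁ (N₁ * q)
      (s18_cz_t2 (N₁ * q) (dvd_mul_of_dvd_left h2 q))).toSubring :=
    s34_ic_noeth (K := K₁) (s18_coord K₁ (s18_cz_t2 (N₁ * q) (dvd_mul_of_dvd_left h2 q))) htr
  have noethi : IsNoetherianRing (s34_md_Binf A K₁ (N₁ * q)
      (s18_cz_t2 (N₁ * q) (dvd_mul_of_dvd_left h2 q))).toSubring :=
    s34_ic_noeth_inv (K := K₁)
      (s18_coord K₁ (s18_cz_t2 (N₁ * q) (dvd_mul_of_dvd_left h2 q))) htr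
  have frac0 : ∀ x : s18_F1 K₁ (N₁ * q), ∃ a ∈ (s34_md_B0 A K₁ (N₁ * q)
      (s18_cz_t2 (N₁ * q) (dvd_mul_of_dvd_left h2 q))).toSubring,
      ∃ b ∈ (s34_md_B0 A K₁ (N₁ * q)
        (s18_cz_t2 (N₁ * q) (dvd_mul_of_dvd_left h2 q))).toSubring, b ≠ 0 ∧ x = a / b :=
    s34_ic_frac (K := K₁) (s18_coord K₁ (s18_cz_t2 (N₁ * q) (dvd_mul_of_dvd_left h2 q)))
  have fraci : ∀ x : s18_F1 K₁ (N₁ * q), ∃ a ∈ (s34_md_Binf A K₁ (N₁ * q)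
      (s18_cz_t2 (N₁ * q) (dvd_mul_of_dvd_left h2 q))).toSubring,
      ∃ b ∈ (s34_md_Binf A K₁ (N₁ * q)
        (s18_cz_t2 (N₁ * q) (dvd_mul_of_dvd_left h2 q))).toSubring, b ≠ 0 ∧ x = a / b :=
    s34_ic_frac_inv (K := K₁) (s18_coord K₁ (s18_cz_t2 (N₁ * q) (dvd_mul_of_dvd_left h2 q)))
  -- (le)
  have hR : s18_ResBasis q (s18_A1 A K₁) ((q : ℕ) : s18_A1 A K₁) :=
    s18_a1_resbasis A hA K₁ _ hirr
  obtain ⟨Bc, hBc⟩ := core N₁ q hqN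
  have hco := s18_cz_coord_t2 N₁ q h2 hqM
  have hcoord : heckeAlphaBar K₁ N₁ q (s18_coord K₁ (s18_cz_t2 N₁ h2)) =
      s18_coord K₁ (s18_cz_t2 (N₁ * q) (dvd_mul_of_dvd_left h2 q)) :=
    s34_lc_incl_coord q _ rfl
  have hcoord' : heckeAlphaBar K₁ N₁ q (s18_coord K₁ (s18_cz_t2 N₁ h2)⁻¹) =
      (s18_coord K₁ (s18_cz_t2 (N₁ * q) (dvd_mul_of_dvd_left h2 q)))⁻¹ := by
    rw [s18_coord_inv, map_inv₀, hcoord]
  have h01 : (s34_md_B0 A K₁ (N₁ * q)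
      (s18_cz_t2 (N₁ * q) (dvd_mul_of_dvd_left h2 q))).toSubring ≤ s34_md_V1 A K₁ (N₁ * q) := by
    have h1 := s34_ri_ic_le_V q hR hco hBc
    rw [hcoord] at h1
    exact h1
  have hi1 : (s34_md_Binf A K₁ (N₁ * q)
      (s18_cz_t2 (N₁ * q) (dvd_mul_of_dvd_left h2 q))).toSubring ≤ s34_md_V1 A K₁ (N₁ * q) := by
    have h1 := s34_ri_ic_le_V q hR hco.inv hBc
    rw [hcoord'] at h1
    exact h1
  -- the swap on the charts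
  have hWt : ((W (s18_coord K₁ (s18_cz_t2 (N₁ * q) (dvd_mul_of_dvd_left h2 q))) :
      s18_F1 K₁ (N₁ * q)) : LaurentSeries K₁) =
      qExpand K₁ q ((s18_coord K₁ (s18_cz_t2 (N₁ * q) (dvd_mul_of_dvd_left h2 q)) :
        s18_F1 K₁ (N₁ * q)) : LaurentSeries K₁) := by
    rw [← hcoord, hWα, coe_heckeBetaBar, coe_heckeAlphaBar]
  have hWti : ((W (s18_coord K₁ (s18_cz_t2 (N₁ * q) (dvd_mul_of_dvd_left h2 q)))⁻¹ :
      s18_F1 K₁ (N₁ * q)) : LaurentSeries K₁) =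
      qExpand K₁ q (((s18_coord K₁ (s18_cz_t2 (N₁ * q) (dvd_mul_of_dvd_left h2 q)))⁻¹ :
        s18_F1 K₁ (N₁ * q)) : LaurentSeries K₁) := by
    rw [← hcoord', hWα, coe_heckeBetaBar, coe_heckeAlphaBar]
  obtain ⟨hW0, hWi⟩ := s34_ws_chart_stable N₁ q 2 hq hqN hqM h2 A hA K₁
    (s18_coord K₁ (s18_cz_t2 (N₁ * q) (dvd_mul_of_dvd_left h2 q)))
    (s34_ws_isHaupt_t2 (N₁ * q) K₁ (dvd_mul_of_dvd_left h2 q))
    ((W : s18_F1 K₁ (N₁ * q) ≃+* s18_F1 K₁ (N₁ * q)) :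
      s18_F1 K₁ (N₁ * q) →+* s18_F1 K₁ (N₁ * q)) (fun c => W.commutes c) hWt
  have hWne : W (s18_coord K₁ (s18_cz_t2 (N₁ * q) (dvd_mul_of_dvd_left h2 q))) ≠ 0 := by
    intro h0
    exact t_ne (W.injective (by rw [h0, map_zero]))
  -- the cusp ratios
  have hcusp := s36_cusp_t2 N₁ q hq hqN hqM h2 A hA K₁
  have hG0 : s18_coord K₁ (s18_cz_t2 (N₁ * q) (dvd_mul_of_dvd_left h2 q)) ^ q *
      (W (s18_coord K₁ (s18_cz_t2 (N₁ * q) (dvd_mul_of_dvd_left h2 q))))⁻¹ ∈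
      s34_ic_chart (s18_A1 A K₁)
        (s18_coord K₁ (s18_cz_t2 (N₁ * q) (dvd_mul_of_dvd_left h2 q))) := by
    have h1 := hcusp.1
    rw [← hWα, hcoord] at h1
    exact h1
  have hGi : ((s18_coord K₁ (s18_cz_t2 (N₁ * q) (dvd_mul_of_dvd_left h2 q)))⁻¹) ^ q *
      W (s18_coord K₁ (s18_cz_t2 (N₁ * q) (dvd_mul_of_dvd_left h2 q))) ∈
      s34_ic_chart (s18_A1 A K₁)
        (s18_coord K₁ (s18_cz_t2 (N₁ * q) (dvd_mul_of_dvd_left h2 q)))⁻¹ := by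
    have h1 := hcusp.2.1
    rw [← hWα, hcoord] at h1
    exact h1
  -- the expansions
  have hx₀ : ((s18_cz_t2 N₁ h2 : modularFunctionFieldFull N₁) : LaurentSeries ℚ) ∈ Wring q :=
    hco.coe_mem_Wring_of_mem_chart hBc _ (subset_chartAlg N₁ q _ (Set.mem_singleton _))
  have hx₀i : (((s18_cz_t2 N₁ h2)⁻¹ : modularFunctionFieldFull N₁) : LaurentSeries ℚ) ∈
      Wring q :=
    hco.inv.coe_mem_Wring_of_mem_chart hBc _ (subset_chartAlg N₁ q _ (Set.mem_singleton _))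
  have hxe : ((s18_coord K₁ (s18_cz_t2 (N₁ * q) (dvd_mul_of_dvd_left h2 q)) :
      s18_F1 K₁ (N₁ * q)) : LaurentSeries K₁) =
      coeffMap (algebraMap ℚ K₁)
        ((s18_cz_t2 N₁ h2 : modularFunctionFieldFull N₁) : LaurentSeries ℚ) := by
    rw [← hcoord, coe_heckeAlphaBar]
    rfl
  have hxei : (((s18_coord K₁ (s18_cz_t2 (N₁ * q) (dvd_mul_of_dvd_left h2 q)))⁻¹ :
      s18_F1 K₁ (N₁ * q)) : LaurentSeries K₁) =
      coeffMap (algebraMap ℚ K₁)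
        (((s18_cz_t2 N₁ h2)⁻¹ : modularFunctionFieldFull N₁) : LaurentSeries ℚ) := by
    rw [← hcoord', coe_heckeAlphaBar]
    rfl
  have hWinv : (W (s18_coord K₁ (s18_cz_t2 (N₁ * q) (dvd_mul_of_dvd_left h2 q))))⁻¹ ∈
      s34_md_V1 A K₁ (N₁ * q) := by
    have h1 : W (s18_coord K₁ (s18_cz_t2 (N₁ * q) (dvd_mul_of_dvd_left h2 q)))⁻¹ ∈
        s34_md_V1 A K₁ (N₁ * q) := hi1 (hWi _ (s34_ic_t_mem
      (s18_coord K₁ (s18_cz_t2 (N₁ * q) (dvd_mul_of_dvd_left h2 q)))⁻¹))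
    rw [map_inv₀] at h1
    exact h1
  have hcinv : ((s18_coord K₁ (s18_cz_t2 (N₁ * q) (dvd_mul_of_dvd_left h2 q)))⁻¹)⁻¹ ∈
      s34_md_V1 A K₁ (N₁ * q) := by
    rw [inv_inv]
    exact h01 (s34_ic_t_mem (s18_coord K₁ (s18_cz_t2 (N₁ * q) (dvd_mul_of_dvd_left h2 q))))
  have hWinv' : (W (s18_coord K₁ (s18_cz_t2 (N₁ * q) (dvd_mul_of_dvd_left h2 q)))⁻¹)⁻¹ ∈
      s34_md_V1 A K₁ (N₁ * q) := by
    rw [map_inv₀, inv_inv]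
    exact h01 (hW0 _ (s34_ic_t_mem
      (s18_coord K₁ (s18_cz_t2 (N₁ * q) (dvd_mul_of_dvd_left h2 q)))))
  have hGeq : (s18_coord K₁ (s18_cz_t2 (N₁ * q) (dvd_mul_of_dvd_left h2 q)))⁻¹ ^ q *
      W (s18_coord K₁ (s18_cz_t2 (N₁ * q) (dvd_mul_of_dvd_left h2 q))) *
      W (s18_coord K₁ (s18_cz_t2 (N₁ * q) (dvd_mul_of_dvd_left h2 q)))⁻¹ =
      (s18_coord K₁ (s18_cz_t2 (N₁ * q) (dvd_mul_of_dvd_left h2 q)))⁻¹ ^ q := by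
    rw [map_inv₀, mul_inv_cancel_right₀ hWne]
  refine s36_xi3_t2 N₁ q A hA K₁ hqN h2 hirr W hW ?_ ?_
  · intro h01' 𝔪 h𝔪 hmax hP₁ hP₂ y hy z hzy hz hext hD hθ
    exact s36_xi5_hpole (s18_A1 A K₁) hℓ hirr hcop h5
      (W : s18_F1 K₁ (N₁ * q) ≃+* s18_F1 K₁ (N₁ * q)) hWW hWα
      (s34_md_B0 A K₁ (N₁ * q) (s18_cz_t2 (N₁ * q) (dvd_mul_of_dvd_left h2 q))).toSubring
      (fun a => (s34_md_B0 A K₁ (N₁ * q)
        (s18_cz_t2 (N₁ * q) (dvd_mul_of_dvd_left h2 q))).algebraMap_mem a)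
      h01' (fun x hx => h01 (hW0 x hx)) noeth0 frac0 (fun z hz => s34_ic_normal hz) hcap.1
      (s18_coord K₁ (s18_cz_t2 N₁ h2)) (s18_coord K₁ (s18_cz_t3 N₁ h3))
      (s36_p23m_coe_t2 K₁ N₁ h2) (s36_p23m_coe_t3 K₁ N₁ h3)
      ⟨s18_coord K₁ (s18_cz_t2 (N₁ * q) (dvd_mul_of_dvd_left h2 q)), s34_ic_t_mem _⟩
      ⟨W (s18_coord K₁ (s18_cz_t2 (N₁ * q) (dvd_mul_of_dvd_left h2 q))),
        hW0 _ (s34_ic_t_mem _)⟩
      ⟨_, hG0⟩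
      ((s18_cz_t2 N₁ h2 : modularFunctionFieldFull N₁) : LaurentSeries ℚ) hx₀ hxe hWt rfl
      (hi1 (s34_ic_t_mem _))
      hWinv
      t_ne (Subtype.ext (inv_mul_cancel_right₀ hWne _)) (Or.inl hcoord.symm) 𝔪 hP₁ hP₂ z hz hD
  · intro hi1' 𝔪 h𝔪 hmax hP₁ hP₂ y hy z hzy hz hext hD hθ
    exact s36_xi5_hpole (s18_A1 A K₁) hℓ hirr hcop h5
      (W : s18_F1 K₁ (N₁ * q) ≃+* s18_F1 K₁ (N₁ * q)) hWW hWα
      (s34_md_Binf A K₁ (N₁ * q) (s18_cz_t2 (N₁ * q) (dvd_mul_of_dvd_left h2 q))).toSubring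
      (fun a => (s34_md_Binf A K₁ (N₁ * q)
        (s18_cz_t2 (N₁ * q) (dvd_mul_of_dvd_left h2 q))).algebraMap_mem a)
      hi1' (fun x hx => hi1 (hWi x hx)) noethi fraci (fun z hz => s34_ic_normal hz) hcap.2
      (s18_coord K₁ (s18_cz_t2 N₁ h2)) (s18_coord K₁ (s18_cz_t3 N₁ h3))
      (s36_p23m_coe_t2 K₁ N₁ h2) (s36_p23m_coe_t3 K₁ N₁ h3)
      ⟨(s18_coord K₁ (s18_cz_t2 (N₁ * q) (dvd_mul_of_dvd_left h2 q)))⁻¹, s34_ic_t_mem _⟩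
      ⟨W (s18_coord K₁ (s18_cz_t2 (N₁ * q) (dvd_mul_of_dvd_left h2 q)))⁻¹,
        hWi _ (s34_ic_t_mem _)⟩
      ⟨_, hGi⟩
      (((s18_cz_t2 N₁ h2)⁻¹ : modularFunctionFieldFull N₁) : LaurentSeries ℚ) hx₀i hxei hWti
      rfl
      hcinv hWinv'
      (inv_ne_zero t_ne)
      (Subtype.ext hGeq)
      (Or.inr <| Or.inl (by rw [hcoord])) 𝔪 hP₁ hP₂ z hz hD

include hA in
/-- **Thickness one at every crossing point of the nodal model of level `N₁ q`, Hauptmodul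
`t_3`, `q ≥ 5`** (`6 ∣ N₁`), over `A₁ = P ∩ K₁` for ANY number field `K₁ ⊆ Q̄` in which `q` is a
uniformizer at `P` (no Galois hypothesis): both charts lie in `V∞`, and thickness one holds at
every crossing point of both charts, in the shape of `hq` of `s36_clq_main`.  No pole
hypothesis. -/
theorem s36_xi6_t3 (hqN : ¬ q ∣ N₁) (h2 : 2 ∣ N₁) (h3 : 3 ∣ N₁) (h5 : 5 ≤ q)
    (hirr : Irreducible ((q : ℕ) : s18_A1 A K₁))
    (W : s18_F1 K₁ (N₁ * q) ≃ₐ[K₁] s18_F1 K₁ (N₁ * q)) (hW : s34_md_IsSwap K₁ N₁ q W) :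
    (s34_md_B0 A K₁ (N₁ * q) (s18_cz_t3 (N₁ * q) (dvd_mul_of_dvd_left h3 q))).toSubring ≤
      s34_md_V1 A K₁ (N₁ * q) ∧
    (s34_md_Binf A K₁ (N₁ * q) (s18_cz_t3 (N₁ * q) (dvd_mul_of_dvd_left h3 q))).toSubring ≤
      s34_md_V1 A K₁ (N₁ * q) ∧
    s36_xi3_Hq N₁ q (s18_A1 A K₁) (W : s18_F1 K₁ (N₁ * q) ≃+* s18_F1 K₁ (N₁ * q))
      (s34_md_B0 A K₁ (N₁ * q) (s18_cz_t3 (N₁ * q) (dvd_mul_of_dvd_left h3 q))).toSubring ∧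
    s36_xi3_Hq N₁ q (s18_A1 A K₁) (W : s18_F1 K₁ (N₁ * q) ≃+* s18_F1 K₁ (N₁ * q))
      (s34_md_Binf A K₁ (N₁ * q) (s18_cz_t3 (N₁ * q) (dvd_mul_of_dvd_left h3 q))).toSubring := by
  have hq : q.Prime := Fact.out
  have hqM : q ≠ 3 := fun h => hqN (h ▸ h3)
  have hcast : (((q : ℕ) : s18_A1 A K₁) : K₁) = (q : K₁) := by push_cast; rfl
  have hℓ := s18_a1_ell A hA K₁
  have hcop : Nat.Coprime q N₁ := (Nat.Prime.coprime_iff_not_dvd hq).mpr hqN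
  -- (cap), non-Galois
  have hcap := s36_cn_ct_cap N₁ q hqN A hA K₁ ((q : ℕ) : s18_A1 A K₁) hirr
    (s18_cz_t3 (N₁ * q) (dvd_mul_of_dvd_left h3 q)) (Or.inr ⟨rfl, h3⟩) W hW
  have hϖ : algebraMap (s18_A1 A K₁) (s18_F1 K₁ (N₁ * q)) ((q : ℕ) : s18_A1 A K₁) =
      algebraMap K₁ (s18_F1 K₁ (N₁ * q)) (q : K₁) := by
    show algebraMap K₁ (s18_F1 K₁ (N₁ * q)) (((q : ℕ) : s18_A1 A K₁) : K₁) = _
    rw [hcast]
  unfold s34_md_Cap at hcap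
  rw [hϖ] at hcap
  have hWsw := hW
  obtain ⟨hWα, hWβ, hWW, -, -⟩ := hWsw
  -- Krull shape of the charts
  obtain ⟨htr, hfd⟩ := s34_fi_ct_fin N₁ q K₁ (s18_cz_t3 (N₁ * q) (dvd_mul_of_dvd_left h3 q))
    (Or.inr ⟨rfl, h3⟩)
  haveI := hfd
  haveI tower : IsScalarTower (s18_A1 A K₁) K₁ (s18_F1 K₁ (N₁ * q)) :=
    IsScalarTower.of_algebraMap_eq (fun _ => rfl)
  have t_ne : s18_coord K₁ (s18_cz_t3 (N₁ * q) (dvd_mul_of_dvd_left h3 q)) ≠ 0 :=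
    s34_ic_ne_zero htr
  have noeth0 : IsNoetherianRing (s34_md_B0 A K₁ (N₁ * q)
      (s18_cz_t3 (N₁ * q) (dvd_mul_of_dvd_left h3 q))).toSubring :=
    s34_ic_noeth (K := K₁) (s18_coord K₁ (s18_cz_t3 (N₁ * q) (dvd_mul_of_dvd_left h3 q))) htr
  have noethi : IsNoetherianRing (s34_md_Binf A K₁ (N₁ * q)
      (s18_cz_t3 (N₁ * q) (dvd_mul_of_dvd_left h3 q))).toSubring :=
    s34_ic_noeth_inv (K := K₁)
      (s18_coord K₁ (s18_cz_t3 (N₁ * q) (dvd_mul_of_dvd_left h3 q))) htr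
  have frac0 : ∀ x : s18_F1 K₁ (N₁ * q), ∃ a ∈ (s34_md_B0 A K₁ (N₁ * q)
      (s18_cz_t3 (N₁ * q) (dvd_mul_of_dvd_left h3 q))).toSubring,
      ∃ b ∈ (s34_md_B0 A K₁ (N₁ * q)
        (s18_cz_t3 (N₁ * q) (dvd_mul_of_dvd_left h3 q))).toSubring, b ≠ 0 ∧ x = a / b :=
    s34_ic_frac (K := K₁) (s18_coord K₁ (s18_cz_t3 (N₁ * q) (dvd_mul_of_dvd_left h3 q)))
  have fraci : ∀ x : s18_F1 K₁ (N₁ * q), ∃ a ∈ (s34_md_Binf A K₁ (N₁ * q)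
      (s18_cz_t3 (N₁ * q) (dvd_mul_of_dvd_left h3 q))).toSubring,
      ∃ b ∈ (s34_md_Binf A K₁ (N₁ * q)
        (s18_cz_t3 (N₁ * q) (dvd_mul_of_dvd_left h3 q))).toSubring, b ≠ 0 ∧ x = a / b :=
    s34_ic_frac_inv (K := K₁) (s18_coord K₁ (s18_cz_t3 (N₁ * q) (dvd_mul_of_dvd_left h3 q)))
  -- (le)
  have hR : s18_ResBasis q (s18_A1 A K₁) ((q : ℕ) : s18_A1 A K₁) :=
    s18_a1_resbasis A hA K₁ _ hirr
  obtain ⟨Bc, hBc⟩ := core N₁ q hqN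
  have hco := s18_cz_coord_t3 N₁ q h3 hqM
  have hcoord : heckeAlphaBar K₁ N₁ q (s18_coord K₁ (s18_cz_t3 N₁ h3)) =
      s18_coord K₁ (s18_cz_t3 (N₁ * q) (dvd_mul_of_dvd_left h3 q)) :=
    s34_lc_incl_coord q _ rfl
  have hcoord' : heckeAlphaBar K₁ N₁ q (s18_coord K₁ (s18_cz_t3 N₁ h3)⁻¹) =
      (s18_coord K₁ (s18_cz_t3 (N₁ * q) (dvd_mul_of_dvd_left h3 q)))⁻¹ := by
    rw [s18_coord_inv, map_inv₀, hcoord]
  have h01 : (s34_md_B0 A K₁ (N₁ * q)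
      (s18_cz_t3 (N₁ * q) (dvd_mul_of_dvd_left h3 q))).toSubring ≤ s34_md_V1 A K₁ (N₁ * q) := by
    have h1 := s34_ri_ic_le_V q hR hco hBc
    rw [hcoord] at h1
    exact h1
  have hi1 : (s34_md_Binf A K₁ (N₁ * q)
      (s18_cz_t3 (N₁ * q) (dvd_mul_of_dvd_left h3 q))).toSubring ≤ s34_md_V1 A K₁ (N₁ * q) := by
    have h1 := s34_ri_ic_le_V q hR hco.inv hBc
    rw [hcoord'] at h1
    exact h1
  -- the swap on the charts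
  have hWt : ((W (s18_coord K₁ (s18_cz_t3 (N₁ * q) (dvd_mul_of_dvd_left h3 q))) :
      s18_F1 K₁ (N₁ * q)) : LaurentSeries K₁) =
      qExpand K₁ q ((s18_coord K₁ (s18_cz_t3 (N₁ * q) (dvd_mul_of_dvd_left h3 q)) :
        s18_F1 K₁ (N₁ * q)) : LaurentSeries K₁) := by
    rw [← hcoord, hWα, coe_heckeBetaBar, coe_heckeAlphaBar]
  have hWti : ((W (s18_coord K₁ (s18_cz_t3 (N₁ * q) (dvd_mul_of_dvd_left h3 q)))⁻¹ :
      s18_F1 K₁ (N₁ * q)) : LaurentSeries K₁) =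
      qExpand K₁ q (((s18_coord K₁ (s18_cz_t3 (N₁ * q) (dvd_mul_of_dvd_left h3 q)))⁻¹ :
        s18_F1 K₁ (N₁ * q)) : LaurentSeries K₁) := by
    rw [← hcoord', hWα, coe_heckeBetaBar, coe_heckeAlphaBar]
  obtain ⟨hW0, hWi⟩ := s34_ws_chart_stable N₁ q 3 hq hqN hqM h3 A hA K₁
    (s18_coord K₁ (s18_cz_t3 (N₁ * q) (dvd_mul_of_dvd_left h3 q)))
    (s34_ws_isHaupt_t3 (N₁ * q) K₁ (dvd_mul_of_dvd_left h3 q))
    ((W : s18_F1 K₁ (N₁ * q) ≃+* s18_F1 K₁ (N₁ * q)) :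
      s18_F1 K₁ (N₁ * q) →+* s18_F1 K₁ (N₁ * q)) (fun c => W.commutes c) hWt
  have hWne : W (s18_coord K₁ (s18_cz_t3 (N₁ * q) (dvd_mul_of_dvd_left h3 q))) ≠ 0 := by
    intro h0
    exact t_ne (W.injective (by rw [h0, map_zero]))
  -- the cusp ratios
  have hcusp := s36_cusp_t3 N₁ q hq hqN hqM h3 A hA K₁
  have hG0 : s18_coord K₁ (s18_cz_t3 (N₁ * q) (dvd_mul_of_dvd_left h3 q)) ^ q *
      (W (s18_coord K₁ (s18_cz_t3 (N₁ * q) (dvd_mul_of_dvd_left h3 q))))⁻¹ ∈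
      s34_ic_chart (s18_A1 A K₁)
        (s18_coord K₁ (s18_cz_t3 (N₁ * q) (dvd_mul_of_dvd_left h3 q))) := by
    have h1 := hcusp.1
    rw [← hWα, hcoord] at h1
    exact h1
  have hGi : ((s18_coord K₁ (s18_cz_t3 (N₁ * q) (dvd_mul_of_dvd_left h3 q)))⁻¹) ^ q *
      W (s18_coord K₁ (s18_cz_t3 (N₁ * q) (dvd_mul_of_dvd_left h3 q))) ∈
      s34_ic_chart (s18_A1 A K₁)
        (s18_coord K₁ (s18_cz_t3 (N₁ * q) (dvd_mul_of_dvd_left h3 q)))⁻¹ := by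
    have h1 := hcusp.2.1
    rw [← hWα, hcoord] at h1
    exact h1
  -- the expansions
  have hx₀ : ((s18_cz_t3 N₁ h3 : modularFunctionFieldFull N₁) : LaurentSeries ℚ) ∈ Wring q :=
    hco.coe_mem_Wring_of_mem_chart hBc _ (subset_chartAlg N₁ q _ (Set.mem_singleton _))
  have hx₀i : (((s18_cz_t3 N₁ h3)⁻¹ : modularFunctionFieldFull N₁) : LaurentSeries ℚ) ∈
      Wring q :=
    hco.inv.coe_mem_Wring_of_mem_chart hBc _ (subset_chartAlg N₁ q _ (Set.mem_singleton _))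
  have hxe : ((s18_coord K₁ (s18_cz_t3 (N₁ * q) (dvd_mul_of_dvd_left h3 q)) :
      s18_F1 K₁ (N₁ * q)) : LaurentSeries K₁) =
      coeffMap (algebraMap ℚ K₁)
        ((s18_cz_t3 N₁ h3 : modularFunctionFieldFull N₁) : LaurentSeries ℚ) := by
    rw [← hcoord, coe_heckeAlphaBar]
    rfl
  have hxei : (((s18_coord K₁ (s18_cz_t3 (N₁ * q) (dvd_mul_of_dvd_left h3 q)))⁻¹ :
      s18_F1 K₁ (N₁ * q)) : LaurentSeries K₁) =
      coeffMap (algebraMap ℚ K₁)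
        (((s18_cz_t3 N₁ h3)⁻¹ : modularFunctionFieldFull N₁) : LaurentSeries ℚ) := by
    rw [← hcoord', coe_heckeAlphaBar]
    rfl
  have hWinv : (W (s18_coord K₁ (s18_cz_t3 (N₁ * q) (dvd_mul_of_dvd_left h3 q))))⁻¹ ∈
      s34_md_V1 A K₁ (N₁ * q) := by
    have h1 : W (s18_coord K₁ (s18_cz_t3 (N₁ * q) (dvd_mul_of_dvd_left h3 q)))⁻¹ ∈
        s34_md_V1 A K₁ (N₁ * q) := hi1 (hWi _ (s34_ic_t_mem
      (s18_coord K₁ (s18_cz_t3 (N₁ * q) (dvd_mul_of_dvd_left h3 q)))⁻¹))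
    rw [map_inv₀] at h1
    exact h1
  have hcinv : ((s18_coord K₁ (s18_cz_t3 (N₁ * q) (dvd_mul_of_dvd_left h3 q)))⁻¹)⁻¹ ∈
      s34_md_V1 A K₁ (N₁ * q) := by
    rw [inv_inv]
    exact h01 (s34_ic_t_mem (s18_coord K₁ (s18_cz_t3 (N₁ * q) (dvd_mul_of_dvd_left h3 q))))
  have hWinv' : (W (s18_coord K₁ (s18_cz_t3 (N₁ * q) (dvd_mul_of_dvd_left h3 q)))⁻¹)⁻¹ ∈
      s34_md_V1 A K₁ (N₁ * q) := by
    rw [map_inv₀, inv_inv]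
    exact h01 (hW0 _ (s34_ic_t_mem
      (s18_coord K₁ (s18_cz_t3 (N₁ * q) (dvd_mul_of_dvd_left h3 q)))))
  have hGeq : (s18_coord K₁ (s18_cz_t3 (N₁ * q) (dvd_mul_of_dvd_left h3 q)))⁻¹ ^ q *
      W (s18_coord K₁ (s18_cz_t3 (N₁ * q) (dvd_mul_of_dvd_left h3 q))) *
      W (s18_coord K₁ (s18_cz_t3 (N₁ * q) (dvd_mul_of_dvd_left h3 q)))⁻¹ =
      (s18_coord K₁ (s18_cz_t3 (N₁ * q) (dvd_mul_of_dvd_left h3 q)))⁻¹ ^ q := by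
    rw [map_inv₀, mul_inv_cancel_right₀ hWne]
  refine s36_xi3_t3 N₁ q A hA K₁ hqN h3 hirr W hW ?_ ?_
  · intro h01' 𝔪 h𝔪 hmax hP₁ hP₂ y hy z hzy hz hext hD hθ
    exact s36_xi5_hpole (s18_A1 A K₁) hℓ hirr hcop h5
      (W : s18_F1 K₁ (N₁ * q) ≃+* s18_F1 K₁ (N₁ * q)) hWW hWα
      (s34_md_B0 A K₁ (N₁ * q) (s18_cz_t3 (N₁ * q) (dvd_mul_of_dvd_left h3 q))).toSubring
      (fun a => (s34_md_B0 A K₁ (N₁ * q)
        (s18_cz_t3 (N₁ * q) (dvd_mul_of_dvd_left h3 q))).algebraMap_mem a)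
      h01' (fun x hx => h01 (hW0 x hx)) noeth0 frac0 (fun z hz => s34_ic_normal hz) hcap.1
      (s18_coord K₁ (s18_cz_t2 N₁ h2)) (s18_coord K₁ (s18_cz_t3 N₁ h3))
      (s36_p23m_coe_t2 K₁ N₁ h2) (s36_p23m_coe_t3 K₁ N₁ h3)
      ⟨s18_coord K₁ (s18_cz_t3 (N₁ * q) (dvd_mul_of_dvd_left h3 q)), s34_ic_t_mem _⟩
      ⟨W (s18_coord K₁ (s18_cz_t3 (N₁ * q) (dvd_mul_of_dvd_left h3 q))),
        hW0 _ (s34_ic_t_mem _)⟩
      ⟨_, hG0⟩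
      ((s18_cz_t3 N₁ h3 : modularFunctionFieldFull N₁) : LaurentSeries ℚ) hx₀ hxe hWt rfl
      (hi1 (s34_ic_t_mem _))
      hWinv
      t_ne (Subtype.ext (inv_mul_cancel_right₀ hWne _)) (Or.inr <| Or.inr <| Or.inl hcoord.symm) 𝔪 hP₁ hP₂ z hz hD
  · intro hi1' 𝔪 h𝔪 hmax hP₁ hP₂ y hy z hzy hz hext hD hθ
    exact s36_xi5_hpole (s18_A1 A K₁) hℓ hirr hcop h5
      (W : s18_F1 K₁ (N₁ * q) ≃+* s18_F1 K₁ (N₁ * q)) hWW hWα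
      (s34_md_Binf A K₁ (N₁ * q) (s18_cz_t3 (N₁ * q) (dvd_mul_of_dvd_left h3 q))).toSubring
      (fun a => (s34_md_Binf A K₁ (N₁ * q)
        (s18_cz_t3 (N₁ * q) (dvd_mul_of_dvd_left h3 q))).algebraMap_mem a)
      hi1' (fun x hx => hi1 (hWi x hx)) noethi fraci (fun z hz => s34_ic_normal hz) hcap.2
      (s18_coord K₁ (s18_cz_t2 N₁ h2)) (s18_coord K₁ (s18_cz_t3 N₁ h3))
      (s36_p23m_coe_t2 K₁ N₁ h2) (s36_p23m_coe_t3 K₁ N₁ h3)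
      ⟨(s18_coord K₁ (s18_cz_t3 (N₁ * q) (dvd_mul_of_dvd_left h3 q)))⁻¹, s34_ic_t_mem _⟩
      ⟨W (s18_coord K₁ (s18_cz_t3 (N₁ * q) (dvd_mul_of_dvd_left h3 q)))⁻¹,
        hWi _ (s34_ic_t_mem _)⟩
      ⟨_, hGi⟩
      (((s18_cz_t3 N₁ h3)⁻¹ : modularFunctionFieldFull N₁) : LaurentSeries ℚ) hx₀i hxei hWti
      rfl
      hcinv hWinv'
      (inv_ne_zero t_ne)
      (Subtype.ext hGeq)
      (Or.inr <| Or.inr <| Or.inr (by rw [hcoord])) 𝔪 hP₁ hP₂ z hz hD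

end Model

end Fermat.Agent.S36
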