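import Fermat.Agent.S36.Pole23Model
import Fermat.Agent.S36.Cross23
import Fermat.Agent.S36.Cross23Inf
import Fermat.Agent.S36.CrossInst
import Fermat.Agent.S34.IcUnif

/-!
# S36 (NODE-3), leaf (POLE23): the pole of `ρ_x` at the crossing points of the level-`N₁ q`
model, `q = 3, 2` (chart of `t`)

Generic Gauss vocabulary (no Galois hypothesis): `K` a field over `ℚ`, `A₁` a DVR valuation
subring of `K` with uniformizer `π` and residue characteristic `q ∈ {3, 2}`, level `N₁ * q`,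
`F = laurentBaseChange K (modularFunctionFieldFull (N₁ * q))`, `V = s34_gi_V A₁ (N₁ * q)`,
`W` a swap (generator-wise rule, the last clause of `s34_md_IsSwap`), `V₀ = V.comap W`.

* `s36_p23i_pole3` : `q = 3`, `4 ∣ N₁`.  `B ≤ V` a chart containing `t₂`, `T₄`, `t₂² t₃`;
  `𝔪` a prime of `B` containing `P_∞ = B ∩ πV` and `P_0 = B ∩ πV₀` (a crossing point);
  `O = s36_th_O (red ∘ incl) 𝔪` stable under `θ / θ x̄`.  Then no positive power of `θ x̄` lies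
  in `O` — the hypothesis `hpole` of `s36_thp_core` (`Cross23` + `Pole23Model`).
* `s36_p23i_pole3_ic` : the same for the chart `B = s34_ic_chart A₁ t₂` (no membership
  hypotheses left).
* `s36_p23i_pole2`, `s36_p23i_pole2_ic` : `q = 2`, `9 ∣ N₁`, with `t₃`, `T₉`, `t₃³ t₂`.
-/

set_option autoImplicit false
set_option linter.unusedSectionVars false
set_option linter.style.haveILetI false

open ModularCurve

noncomputable section

namespace Fermat.Agent.S36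

open Fermat.Agent.S18 Fermat.Agent.S28 Fermat.Agent.S34

variable {K : Type*} [Field K] [Algebra ℚ K] (A₁ : ValuationSubring K)
  [IsDiscreteValuationRing A₁] {π : A₁}

/-- **(POLE23), `q = 3`, at a crossing point.** -/
theorem s36_p23i_pole3 [CharP (IsLocalRing.ResidueField A₁) 3] (hπ : Irreducible π)
    (N₁ : ℕ) [NeZero N₁] [NeZero (N₁ * 3)] (h2 : 2 ∣ N₁ * 3) (h3 : 3 ∣ N₁ * 3) (h4 : 4 ∣ N₁ * 3)
    (W : laurentBaseChange K (modularFunctionFieldFull (N₁ * 3)) ≃ₐ[K]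
      laurentBaseChange K (modularFunctionFieldFull (N₁ * 3)))
    (hW : ∀ (d m : ℕ) (_ : d ∣ N₁) (_ : m ∣ 3)
      (h1 : s34_sw_s K (d * m) ∈ laurentBaseChange K (modularFunctionFieldFull (N₁ * 3))),
      ((W ⟨s34_sw_s K (d * m), h1⟩ :
        laurentBaseChange K (modularFunctionFieldFull (N₁ * 3))) : LaurentSeries K) =
        s34_sw_s K (d * (3 / m)))
    (B : Subring (laurentBaseChange K (modularFunctionFieldFull (N₁ * 3))))
    (hBV : B ≤ s34_gi_V A₁ (N₁ * 3))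
    (ht : s18_coord K (s18_cz_t2 (N₁ * 3) h2) ∈ B) (hT : s36_p23m_T4 K (N₁ * 3) h4 ∈ B)
    (hf : s18_coord K (s18_cz_t2 (N₁ * 3) h2) ^ 2 * s18_coord K (s18_cz_t3 (N₁ * 3) h3) ∈ B)
    (𝔪 : Ideal B) [𝔪.IsPrime]
    (hinf : ∀ p : B,
      (algebraMap K (laurentBaseChange K (modularFunctionFieldFull (N₁ * 3))) (π : K))⁻¹ *
        (p : laurentBaseChange K (modularFunctionFieldFull (N₁ * 3))) ∈ s34_gi_V A₁ (N₁ * 3) →
      p ∈ 𝔪)
    (h0 : ∀ p : B,
      (algebraMap K (laurentBaseChange K (modularFunctionFieldFull (N₁ * 3))) (π : K))⁻¹ *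
        (p : laurentBaseChange K (modularFunctionFieldFull (N₁ * 3))) ∈
          (s34_gi_V A₁ (N₁ * 3)).comap
            (W : laurentBaseChange K (modularFunctionFieldFull (N₁ * 3)) →+*
              laurentBaseChange K (modularFunctionFieldFull (N₁ * 3))) →
      p ∈ 𝔪)
    (x : B)
    (hD : ∀ f ∈ s36_th_O ((s34_gi_red A₁ (N₁ * 3)).comp (Subring.inclusion hBV)) 𝔪,
      ∃ g ∈ s36_th_O ((s34_gi_red A₁ (N₁ * 3)).comp (Subring.inclusion hBV)) 𝔪,
        s36_qt_theta (IsLocalRing.ResidueField A₁) f =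
          g * s36_qt_theta (IsLocalRing.ResidueField A₁)
            (((s34_gi_red A₁ (N₁ * 3)).comp (Subring.inclusion hBV)) x))
    (n : ℕ) (hn : 1 ≤ n) :
    s36_qt_theta (IsLocalRing.ResidueField A₁)
        (((s34_gi_red A₁ (N₁ * 3)).comp (Subring.inclusion hBV)) x) ^ n ∉
      s36_th_O ((s34_gi_red A₁ (N₁ * 3)).comp (Subring.inclusion hBV)) 𝔪 := by
  have hker : ∀ z : B, s34_gi_red A₁ (N₁ * 3) (Subring.inclusion hBV z) = 0 → z ∈ 𝔪 := by
    intro z hz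
    have h1 := (s34_gi_red_eq_zero_iff (N := N₁ * 3) hπ (Subring.inclusion hBV z)).mp hz
    exact hinf z h1
  have hcross : (⟨s18_coord K (s18_cz_t2 (N₁ * 3) h2), ht⟩ : B) + 1 ∈ 𝔪 :=
    s36_x23_cross3_md A₁ hπ N₁ W hW (s18_coord K (s18_cz_t2 (N₁ * 3) h2))
      (s18_coord K (s18_cz_t3 (N₁ * 3) h3)) (s36_p23m_coe_t2 K (N₁ * 3) h2)
      (s36_p23m_coe_t3 K (N₁ * 3) h3) B 𝔪
      (fun s hs => ⟨fun h => hs (hinf s h), fun h => hs (h0 s h)⟩) ht hf
  exact s36_p23m_pole3_zero A₁ (N₁ * 3) h2 h4 B hBV ht hT 𝔪 hker hcross x hD n hn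

/-- **(POLE23), `q = 2`, at a crossing point.** -/
theorem s36_p23i_pole2 [CharP (IsLocalRing.ResidueField A₁) 2] (hπ : Irreducible π)
    (N₁ : ℕ) [NeZero N₁] [NeZero (N₁ * 2)] (h2 : 2 ∣ N₁ * 2) (h3 : 3 ∣ N₁ * 2) (h9 : 9 ∣ N₁ * 2)
    (W : laurentBaseChange K (modularFunctionFieldFull (N₁ * 2)) ≃ₐ[K]
      laurentBaseChange K (modularFunctionFieldFull (N₁ * 2)))
    (hW : ∀ (d m : ℕ) (_ : d ∣ N₁) (_ : m ∣ 2)
      (h1 : s34_sw_s K (d * m) ∈ laurentBaseChange K (modularFunctionFieldFull (N₁ * 2))),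
      ((W ⟨s34_sw_s K (d * m), h1⟩ :
        laurentBaseChange K (modularFunctionFieldFull (N₁ * 2))) : LaurentSeries K) =
        s34_sw_s K (d * (2 / m)))
    (B : Subring (laurentBaseChange K (modularFunctionFieldFull (N₁ * 2))))
    (hBV : B ≤ s34_gi_V A₁ (N₁ * 2))
    (ht : s18_coord K (s18_cz_t3 (N₁ * 2) h3) ∈ B) (hT : s36_p23m_T9 K (N₁ * 2) h9 ∈ B)
    (hf : s18_coord K (s18_cz_t3 (N₁ * 2) h3) ^ 3 * s18_coord K (s18_cz_t2 (N₁ * 2) h2) ∈ B)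
    (𝔪 : Ideal B) [𝔪.IsPrime]
    (hinf : ∀ p : B,
      (algebraMap K (laurentBaseChange K (modularFunctionFieldFull (N₁ * 2))) (π : K))⁻¹ *
        (p : laurentBaseChange K (modularFunctionFieldFull (N₁ * 2))) ∈ s34_gi_V A₁ (N₁ * 2) →
      p ∈ 𝔪)
    (h0 : ∀ p : B,
      (algebraMap K (laurentBaseChange K (modularFunctionFieldFull (N₁ * 2))) (π : K))⁻¹ *
        (p : laurentBaseChange K (modularFunctionFieldFull (N₁ * 2))) ∈
          (s34_gi_V A₁ (N₁ * 2)).comap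
            (W : laurentBaseChange K (modularFunctionFieldFull (N₁ * 2)) →+*
              laurentBaseChange K (modularFunctionFieldFull (N₁ * 2))) →
      p ∈ 𝔪)
    (x : B)
    (hD : ∀ f ∈ s36_th_O ((s34_gi_red A₁ (N₁ * 2)).comp (Subring.inclusion hBV)) 𝔪,
      ∃ g ∈ s36_th_O ((s34_gi_red A₁ (N₁ * 2)).comp (Subring.inclusion hBV)) 𝔪,
        s36_qt_theta (IsLocalRing.ResidueField A₁) f =
          g * s36_qt_theta (IsLocalRing.ResidueField A₁)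
            (((s34_gi_red A₁ (N₁ * 2)).comp (Subring.inclusion hBV)) x))
    (n : ℕ) (hn : 1 ≤ n) :
    s36_qt_theta (IsLocalRing.ResidueField A₁)
        (((s34_gi_red A₁ (N₁ * 2)).comp (Subring.inclusion hBV)) x) ^ n ∉
      s36_th_O ((s34_gi_red A₁ (N₁ * 2)).comp (Subring.inclusion hBV)) 𝔪 := by
  have hker : ∀ z : B, s34_gi_red A₁ (N₁ * 2) (Subring.inclusion hBV z) = 0 → z ∈ 𝔪 := by
    intro z hz
    have h1 := (s34_gi_red_eq_zero_iff (N := N₁ * 2) hπ (Subring.inclusion hBV z)).mp hz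
    exact hinf z h1
  have hcross : (⟨s18_coord K (s18_cz_t3 (N₁ * 2) h3), ht⟩ : B) + 1 ∈ 𝔪 :=
    s36_x23_cross2_md A₁ hπ N₁ W hW (s18_coord K (s18_cz_t2 (N₁ * 2) h2))
      (s18_coord K (s18_cz_t3 (N₁ * 2) h3)) (s36_p23m_coe_t2 K (N₁ * 2) h2)
      (s36_p23m_coe_t3 K (N₁ * 2) h3) B 𝔪
      (fun s hs => ⟨fun h => hs (hinf s h), fun h => hs (h0 s h)⟩) ht hf
  exact s36_p23m_pole2_zero A₁ (N₁ * 2) h3 h9 B hBV ht hT 𝔪 hker hcross x hD n hn

/-- The chart of a Gauss-integral coordinate lies in the Gauss ring. -/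
theorem s36_p23i_le_V (hπ : Irreducible π) (L : ℕ)
    (t : laurentBaseChange K (modularFunctionFieldFull L)) (ht : t ∈ s34_gi_V A₁ L) :
    (s34_ic_chart A₁ t).toSubring ≤ s34_gi_V A₁ L :=
  s34_ic_le_unif (s34_gi_unif (N := L) hπ) (fun a => s34_gi_algebraMap_mem (N := L) a) ht

/-- **(POLE23), `q = 3`, at a crossing point of the chart `s34_ic_chart A₁ t₂`**
(`= s34_md_B0`). -/
theorem s36_p23i_pole3_ic [CharP (IsLocalRing.ResidueField A₁) 3] (hπ : Irreducible π)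
    (N₁ : ℕ) [NeZero N₁] [NeZero (N₁ * 3)] (h2 : 2 ∣ N₁ * 3) (h3 : 3 ∣ N₁ * 3) (h4 : 4 ∣ N₁ * 3)
    (W : laurentBaseChange K (modularFunctionFieldFull (N₁ * 3)) ≃ₐ[K]
      laurentBaseChange K (modularFunctionFieldFull (N₁ * 3)))
    (hW : ∀ (d m : ℕ) (_ : d ∣ N₁) (_ : m ∣ 3)
      (h1 : s34_sw_s K (d * m) ∈ laurentBaseChange K (modularFunctionFieldFull (N₁ * 3))),
      ((W ⟨s34_sw_s K (d * m), h1⟩ :
        laurentBaseChange K (modularFunctionFieldFull (N₁ * 3))) : LaurentSeries K) =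
        s34_sw_s K (d * (3 / m)))
    (hBV : (s34_ic_chart A₁ (s18_coord K (s18_cz_t2 (N₁ * 3) h2))).toSubring ≤
      s34_gi_V A₁ (N₁ * 3))
    (𝔪 : Ideal (s34_ic_chart A₁ (s18_coord K (s18_cz_t2 (N₁ * 3) h2))).toSubring) [𝔪.IsPrime]
    (hinf : ∀ p : (s34_ic_chart A₁ (s18_coord K (s18_cz_t2 (N₁ * 3) h2))).toSubring,
      (algebraMap K (laurentBaseChange K (modularFunctionFieldFull (N₁ * 3))) (π : K))⁻¹ *
        (p : laurentBaseChange K (modularFunctionFieldFull (N₁ * 3))) ∈ s34_gi_V A₁ (N₁ * 3) →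
      p ∈ 𝔪)
    (h0 : ∀ p : (s34_ic_chart A₁ (s18_coord K (s18_cz_t2 (N₁ * 3) h2))).toSubring,
      (algebraMap K (laurentBaseChange K (modularFunctionFieldFull (N₁ * 3))) (π : K))⁻¹ *
        (p : laurentBaseChange K (modularFunctionFieldFull (N₁ * 3))) ∈
          (s34_gi_V A₁ (N₁ * 3)).comap
            (W : laurentBaseChange K (modularFunctionFieldFull (N₁ * 3)) →+*
              laurentBaseChange K (modularFunctionFieldFull (N₁ * 3))) →
      p ∈ 𝔪)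
    (x : (s34_ic_chart A₁ (s18_coord K (s18_cz_t2 (N₁ * 3) h2))).toSubring)
    (hD : ∀ f ∈ s36_th_O ((s34_gi_red A₁ (N₁ * 3)).comp (Subring.inclusion hBV)) 𝔪,
      ∃ g ∈ s36_th_O ((s34_gi_red A₁ (N₁ * 3)).comp (Subring.inclusion hBV)) 𝔪,
        s36_qt_theta (IsLocalRing.ResidueField A₁) f =
          g * s36_qt_theta (IsLocalRing.ResidueField A₁)
            (((s34_gi_red A₁ (N₁ * 3)).comp (Subring.inclusion hBV)) x))
    (n : ℕ) (hn : 1 ≤ n) :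
    s36_qt_theta (IsLocalRing.ResidueField A₁)
        (((s34_gi_red A₁ (N₁ * 3)).comp (Subring.inclusion hBV)) x) ^ n ∉
      s36_th_O ((s34_gi_red A₁ (N₁ * 3)).comp (Subring.inclusion hBV)) 𝔪 := by
  have hj : s34_sw_s K 1 ∈ laurentBaseChange K (modularFunctionFieldFull (N₁ * 3)) := by
    rw [s34_sw_s_eq]
    exact s34_sw_s_mem K (N₁ * 3) 1 (one_dvd _)
  exact s36_p23i_pole3 A₁ hπ N₁ h2 h3 h4 W hW _ hBV
    (s34_ic_t_mem (A₀ := A₁) (s18_coord K (s18_cz_t2 (N₁ * 3) h2)))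
    (s36_p23m_T4_mem_ic K (N₁ * 3) A₁ h2 h4)
    (s36_x23_chart3_mem (A₀ := A₁) (s18_coord K (s18_cz_t2 (N₁ * 3) h2))
      (s18_coord K (s18_cz_t3 (N₁ * 3) h3)) (s36_p23m_coe_t2 K (N₁ * 3) h2)
      (s36_p23m_coe_t3 K (N₁ * 3) h3) hj)
    𝔪 hinf h0 x hD n hn

/-- **(POLE23), `q = 2`, at a crossing point of the chart `s34_ic_chart A₁ t₃`**
(`= s34_md_B0`). -/
theorem s36_p23i_pole2_ic [CharP (IsLocalRing.ResidueField A₁) 2] (hπ : Irreducible π)
    (N₁ : ℕ) [NeZero N₁] [NeZero (N₁ * 2)] (h2 : 2 ∣ N₁ * 2) (h3 : 3 ∣ N₁ * 2) (h9 : 9 ∣ N₁ * 2)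
    (W : laurentBaseChange K (modularFunctionFieldFull (N₁ * 2)) ≃ₐ[K]
      laurentBaseChange K (modularFunctionFieldFull (N₁ * 2)))
    (hW : ∀ (d m : ℕ) (_ : d ∣ N₁) (_ : m ∣ 2)
      (h1 : s34_sw_s K (d * m) ∈ laurentBaseChange K (modularFunctionFieldFull (N₁ * 2))),
      ((W ⟨s34_sw_s K (d * m), h1⟩ :
        laurentBaseChange K (modularFunctionFieldFull (N₁ * 2))) : LaurentSeries K) =
        s34_sw_s K (d * (2 / m)))
    (hBV : (s34_ic_chart A₁ (s18_coord K (s18_cz_t3 (N₁ * 2) h3))).toSubring ≤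
      s34_gi_V A₁ (N₁ * 2))
    (𝔪 : Ideal (s34_ic_chart A₁ (s18_coord K (s18_cz_t3 (N₁ * 2) h3))).toSubring) [𝔪.IsPrime]
    (hinf : ∀ p : (s34_ic_chart A₁ (s18_coord K (s18_cz_t3 (N₁ * 2) h3))).toSubring,
      (algebraMap K (laurentBaseChange K (modularFunctionFieldFull (N₁ * 2))) (π : K))⁻¹ *
        (p : laurentBaseChange K (modularFunctionFieldFull (N₁ * 2))) ∈ s34_gi_V A₁ (N₁ * 2) →
      p ∈ 𝔪)
    (h0 : ∀ p : (s34_ic_chart A₁ (s18_coord K (s18_cz_t3 (N₁ * 2) h3))).toSubring,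
      (algebraMap K (laurentBaseChange K (modularFunctionFieldFull (N₁ * 2))) (π : K))⁻¹ *
        (p : laurentBaseChange K (modularFunctionFieldFull (N₁ * 2))) ∈
          (s34_gi_V A₁ (N₁ * 2)).comap
            (W : laurentBaseChange K (modularFunctionFieldFull (N₁ * 2)) →+*
              laurentBaseChange K (modularFunctionFieldFull (N₁ * 2))) →
      p ∈ 𝔪)
    (x : (s34_ic_chart A₁ (s18_coord K (s18_cz_t3 (N₁ * 2) h3))).toSubring)
    (hD : ∀ f ∈ s36_th_O ((s34_gi_red A₁ (N₁ * 2)).comp (Subring.inclusion hBV)) 𝔪,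
      ∃ g ∈ s36_th_O ((s34_gi_red A₁ (N₁ * 2)).comp (Subring.inclusion hBV)) 𝔪,
        s36_qt_theta (IsLocalRing.ResidueField A₁) f =
          g * s36_qt_theta (IsLocalRing.ResidueField A₁)
            (((s34_gi_red A₁ (N₁ * 2)).comp (Subring.inclusion hBV)) x))
    (n : ℕ) (hn : 1 ≤ n) :
    s36_qt_theta (IsLocalRing.ResidueField A₁)
        (((s34_gi_red A₁ (N₁ * 2)).comp (Subring.inclusion hBV)) x) ^ n ∉
      s36_th_O ((s34_gi_red A₁ (N₁ * 2)).comp (Subring.inclusion hBV)) 𝔪 := by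
  have hj : s34_sw_s K 1 ∈ laurentBaseChange K (modularFunctionFieldFull (N₁ * 2)) := by
    rw [s34_sw_s_eq]
    exact s34_sw_s_mem K (N₁ * 2) 1 (one_dvd _)
  exact s36_p23i_pole2 A₁ hπ N₁ h2 h3 h9 W hW _ hBV
    (s34_ic_t_mem (A₀ := A₁) (s18_coord K (s18_cz_t3 (N₁ * 2) h3)))
    (s36_p23m_T9_mem_ic K (N₁ * 2) A₁ h3 h9)
    (s36_x23_chart2_mem (A₀ := A₁) (s18_coord K (s18_cz_t2 (N₁ * 2) h2))
      (s18_coord K (s18_cz_t3 (N₁ * 2) h3)) (s36_p23m_coe_t2 K (N₁ * 2) h2)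
      (s36_p23m_coe_t3 K (N₁ * 2) h3) hj)
    𝔪 hinf h0 x hD n hn

/-- **(POLE23), `q = 3`, at a crossing point, chart of `t⁻¹`.** -/
theorem s36_p23i_pole3_inf [CharP (IsLocalRing.ResidueField A₁) 3] (hπ : Irreducible π)
    (N₁ : ℕ) [NeZero N₁] [NeZero (N₁ * 3)] (h2 : 2 ∣ N₁ * 3) (h3 : 3 ∣ N₁ * 3) (h4 : 4 ∣ N₁ * 3)
    (W : laurentBaseChange K (modularFunctionFieldFull (N₁ * 3)) ≃ₐ[K]
      laurentBaseChange K (modularFunctionFieldFull (N₁ * 3)))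
    (hW : ∀ (d m : ℕ) (_ : d ∣ N₁) (_ : m ∣ 3)
      (h1 : s34_sw_s K (d * m) ∈ laurentBaseChange K (modularFunctionFieldFull (N₁ * 3))),
      ((W ⟨s34_sw_s K (d * m), h1⟩ :
        laurentBaseChange K (modularFunctionFieldFull (N₁ * 3))) : LaurentSeries K) =
        s34_sw_s K (d * (3 / m)))
    (B : Subring (laurentBaseChange K (modularFunctionFieldFull (N₁ * 3))))
    (hBV : B ≤ s34_gi_V A₁ (N₁ * 3))
    (hu : (s18_coord K (s18_cz_t2 (N₁ * 3) h2))⁻¹ ∈ B)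
    (hT : s36_p23m_T4 K (N₁ * 3) h4 * (s18_coord K (s18_cz_t2 (N₁ * 3) h2))⁻¹ ∈ B)
    (hf : (s18_coord K (s18_cz_t2 (N₁ * 3) h2))⁻¹ * s18_coord K (s18_cz_t3 (N₁ * 3) h3) ∈ B)
    (𝔪 : Ideal B) [𝔪.IsPrime]
    (hinf : ∀ p : B,
      (algebraMap K (laurentBaseChange K (modularFunctionFieldFull (N₁ * 3))) (π : K))⁻¹ *
        (p : laurentBaseChange K (modularFunctionFieldFull (N₁ * 3))) ∈ s34_gi_V A₁ (N₁ * 3) →
      p ∈ 𝔪)
    (h0 : ∀ p : B,
      (algebraMap K (laurentBaseChange K (modularFunctionFieldFull (N₁ * 3))) (π : K))⁻¹ *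
        (p : laurentBaseChange K (modularFunctionFieldFull (N₁ * 3))) ∈
          (s34_gi_V A₁ (N₁ * 3)).comap
            (W : laurentBaseChange K (modularFunctionFieldFull (N₁ * 3)) →+*
              laurentBaseChange K (modularFunctionFieldFull (N₁ * 3))) →
      p ∈ 𝔪)
    (x : B)
    (hD : ∀ f ∈ s36_th_O ((s34_gi_red A₁ (N₁ * 3)).comp (Subring.inclusion hBV)) 𝔪,
      ∃ g ∈ s36_th_O ((s34_gi_red A₁ (N₁ * 3)).comp (Subring.inclusion hBV)) 𝔪,
        s36_qt_theta (IsLocalRing.ResidueField A₁) f =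
          g * s36_qt_theta (IsLocalRing.ResidueField A₁)
            (((s34_gi_red A₁ (N₁ * 3)).comp (Subring.inclusion hBV)) x))
    (n : ℕ) (hn : 1 ≤ n) :
    s36_qt_theta (IsLocalRing.ResidueField A₁)
        (((s34_gi_red A₁ (N₁ * 3)).comp (Subring.inclusion hBV)) x) ^ n ∉
      s36_th_O ((s34_gi_red A₁ (N₁ * 3)).comp (Subring.inclusion hBV)) 𝔪 := by
  have hker : ∀ z : B, s34_gi_red A₁ (N₁ * 3) (Subring.inclusion hBV z) = 0 → z ∈ 𝔪 := by
    intro z hz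
    have h1 := (s34_gi_red_eq_zero_iff (N := N₁ * 3) hπ (Subring.inclusion hBV z)).mp hz
    exact hinf z h1
  have hcross : (⟨(s18_coord K (s18_cz_t2 (N₁ * 3) h2))⁻¹, hu⟩ : B) + 1 ∈ 𝔪 :=
    s36_x23i_cross3_md A₁ hπ N₁ W hW (s18_coord K (s18_cz_t2 (N₁ * 3) h2)) (s18_coord K (s18_cz_t3 (N₁ * 3) h3)) (s36_p23m_coe_t2 K (N₁ * 3) h2) (s36_p23m_coe_t3 K (N₁ * 3) h3) B 𝔪
      (fun s hs => ⟨fun h => hs (hinf s h), fun h => hs (h0 s h)⟩) hu hf
  exact s36_p23m_pole3_inf A₁ (N₁ * 3) h2 h4 B hBV hu hT 𝔪 hker hcross x hD n hn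

/-- **(POLE23), `q = 2`, at a crossing point, chart of `t⁻¹`.** -/
theorem s36_p23i_pole2_inf [CharP (IsLocalRing.ResidueField A₁) 2] (hπ : Irreducible π)
    (N₁ : ℕ) [NeZero N₁] [NeZero (N₁ * 2)] (h2 : 2 ∣ N₁ * 2) (h3 : 3 ∣ N₁ * 2) (h9 : 9 ∣ N₁ * 2)
    (W : laurentBaseChange K (modularFunctionFieldFull (N₁ * 2)) ≃ₐ[K]
      laurentBaseChange K (modularFunctionFieldFull (N₁ * 2)))
    (hW : ∀ (d m : ℕ) (_ : d ∣ N₁) (_ : m ∣ 2)
      (h1 : s34_sw_s K (d * m) ∈ laurentBaseChange K (modularFunctionFieldFull (N₁ * 2))),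
      ((W ⟨s34_sw_s K (d * m), h1⟩ :
        laurentBaseChange K (modularFunctionFieldFull (N₁ * 2))) : LaurentSeries K) =
        s34_sw_s K (d * (2 / m)))
    (B : Subring (laurentBaseChange K (modularFunctionFieldFull (N₁ * 2))))
    (hBV : B ≤ s34_gi_V A₁ (N₁ * 2))
    (hu : (s18_coord K (s18_cz_t3 (N₁ * 2) h3))⁻¹ ∈ B)
    (hT : s36_p23m_T9 K (N₁ * 2) h9 * (s18_coord K (s18_cz_t3 (N₁ * 2) h3))⁻¹ ∈ B)
    (hf : (s18_coord K (s18_cz_t3 (N₁ * 2) h3))⁻¹ * s18_coord K (s18_cz_t2 (N₁ * 2) h2) ∈ B)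
    (𝔪 : Ideal B) [𝔪.IsPrime]
    (hinf : ∀ p : B,
      (algebraMap K (laurentBaseChange K (modularFunctionFieldFull (N₁ * 2))) (π : K))⁻¹ *
        (p : laurentBaseChange K (modularFunctionFieldFull (N₁ * 2))) ∈ s34_gi_V A₁ (N₁ * 2) →
      p ∈ 𝔪)
    (h0 : ∀ p : B,
      (algebraMap K (laurentBaseChange K (modularFunctionFieldFull (N₁ * 2))) (π : K))⁻¹ *
        (p : laurentBaseChange K (modularFunctionFieldFull (N₁ * 2))) ∈
          (s34_gi_V A₁ (N₁ * 2)).comap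
            (W : laurentBaseChange K (modularFunctionFieldFull (N₁ * 2)) →+*
              laurentBaseChange K (modularFunctionFieldFull (N₁ * 2))) →
      p ∈ 𝔪)
    (x : B)
    (hD : ∀ f ∈ s36_th_O ((s34_gi_red A₁ (N₁ * 2)).comp (Subring.inclusion hBV)) 𝔪,
      ∃ g ∈ s36_th_O ((s34_gi_red A₁ (N₁ * 2)).comp (Subring.inclusion hBV)) 𝔪,
        s36_qt_theta (IsLocalRing.ResidueField A₁) f =
          g * s36_qt_theta (IsLocalRing.ResidueField A₁)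
            (((s34_gi_red A₁ (N₁ * 2)).comp (Subring.inclusion hBV)) x))
    (n : ℕ) (hn : 1 ≤ n) :
    s36_qt_theta (IsLocalRing.ResidueField A₁)
        (((s34_gi_red A₁ (N₁ * 2)).comp (Subring.inclusion hBV)) x) ^ n ∉
      s36_th_O ((s34_gi_red A₁ (N₁ * 2)).comp (Subring.inclusion hBV)) 𝔪 := by
  have hker : ∀ z : B, s34_gi_red A₁ (N₁ * 2) (Subring.inclusion hBV z) = 0 → z ∈ 𝔪 := by
    intro z hz
    have h1 := (s34_gi_red_eq_zero_iff (N := N₁ * 2) hπ (Subring.inclusion hBV z)).mp hz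
    exact hinf z h1
  have hcross : (⟨(s18_coord K (s18_cz_t3 (N₁ * 2) h3))⁻¹, hu⟩ : B) + 1 ∈ 𝔪 :=
    s36_x23i_cross2_md A₁ hπ N₁ W hW (s18_coord K (s18_cz_t2 (N₁ * 2) h2)) (s18_coord K (s18_cz_t3 (N₁ * 2) h3)) (s36_p23m_coe_t2 K (N₁ * 2) h2) (s36_p23m_coe_t3 K (N₁ * 2) h3) B 𝔪
      (fun s hs => ⟨fun h => hs (hinf s h), fun h => hs (h0 s h)⟩) hu hf
  exact s36_p23m_pole2_inf A₁ (N₁ * 2) h3 h9 B hBV hu hT 𝔪 hker hcross x hD n hn

/-- **The hypothesis `hpole` of `s36_xi_core` for `ℓ = 3`** (chart of `t`): at a prime `𝔪 ⊇ P_∞ + P_0`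
of the chart `B`, verbatim in the `s36_xi_r` vocabulary of `CrossInst.lean`. -/
theorem s36_p23i_xi_pole3 {N : ℕ} [NeZero N] [NeZero (N * 3)] (A : ValuationSubring K)
    [IsDiscreteValuationRing A]
    (hℓ : (((3 : ℕ) : K))⁻¹ ∉ A) (hirr : Irreducible (((3 : ℕ)) : A))
    (h2 : 2 ∣ N * 3) (h3 : 3 ∣ N * 3) (h4 : 4 ∣ N * 3)
    (W : laurentBaseChange K (modularFunctionFieldFull (N * 3)) ≃ₐ[K]
      laurentBaseChange K (modularFunctionFieldFull (N * 3)))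
    (hW : ∀ (d m : ℕ) (_ : d ∣ N) (_ : m ∣ 3)
      (h1 : s34_sw_s K (d * m) ∈ laurentBaseChange K (modularFunctionFieldFull (N * 3))),
      ((W ⟨s34_sw_s K (d * m), h1⟩ :
        laurentBaseChange K (modularFunctionFieldFull (N * 3))) : LaurentSeries K) =
        s34_sw_s K (d * (3 / m)))
    (B : Subring (laurentBaseChange K (modularFunctionFieldFull (N * 3))))
    (hB₁ : B ≤ s34_gi_V A (N * 3))
    (ht : s18_coord K (s18_cz_t2 (N * 3) h2) ∈ B) (hT : s36_p23m_T4 K (N * 3) h4 ∈ B)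
    (hf : s18_coord K (s18_cz_t2 (N * 3) h2) ^ 2 * s18_coord K (s18_cz_t3 (N * 3) h3) ∈ B)
    (𝔪 : Ideal B) [𝔪.IsPrime]
    (hP₁ : ∀ p : B,
      (algebraMap K (laurentBaseChange K (modularFunctionFieldFull (N * 3))) (((3 : ℕ)) : K))⁻¹ *
        (p : laurentBaseChange K (modularFunctionFieldFull (N * 3))) ∈ s34_gi_V A (N * 3) → p ∈ 𝔪)
    (hP₂ : ∀ p : B,
      W ((algebraMap K (laurentBaseChange K (modularFunctionFieldFull (N * 3))) (((3 : ℕ)) : K))⁻¹ *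
        (p : laurentBaseChange K (modularFunctionFieldFull (N * 3)))) ∈ s34_gi_V A (N * 3) → p ∈ 𝔪) :
    ∀ x : B, x ∈ 𝔪 →
      (∀ f ∈ s36_th_O (s36_xi_r (ℓ := 3) A B hB₁) 𝔪,
        ∃ g ∈ s36_th_O (s36_xi_r (ℓ := 3) A B hB₁) 𝔪,
          s36_qt_theta (IsLocalRing.ResidueField A) f =
            g * s36_qt_theta (IsLocalRing.ResidueField A) (s36_xi_r (ℓ := 3) A B hB₁ x)) →
      s36_qt_theta (IsLocalRing.ResidueField A) (s36_xi_r (ℓ := 3) A B hB₁ x) ^ (3 - 1) ∉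
        s36_th_O (s36_xi_r (ℓ := 3) A B hB₁) 𝔪 := by
  intro x _ hD
  haveI : CharP (IsLocalRing.ResidueField A) 3 := s18_charP_res 3 A hℓ
  have hcast : ((((3 : ℕ)) : A) : K) = (((3 : ℕ)) : K) := by push_cast; rfl
  have hinf : ∀ p : B,
      (algebraMap K (laurentBaseChange K (modularFunctionFieldFull (N * 3))) ((((3 : ℕ)) : A) : K))⁻¹ *
        (p : laurentBaseChange K (modularFunctionFieldFull (N * 3))) ∈ s34_gi_V A (N * 3) → p ∈ 𝔪 := by
    rw [hcast]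
    exact hP₁
  have h0 : ∀ p : B,
      (algebraMap K (laurentBaseChange K (modularFunctionFieldFull (N * 3))) ((((3 : ℕ)) : A) : K))⁻¹ *
        (p : laurentBaseChange K (modularFunctionFieldFull (N * 3))) ∈
          (s34_gi_V A (N * 3)).comap
            (W : laurentBaseChange K (modularFunctionFieldFull (N * 3)) →+*
              laurentBaseChange K (modularFunctionFieldFull (N * 3))) → p ∈ 𝔪 := by
    rw [hcast]
    exact fun p hp => hP₂ p hp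
  exact s36_p23i_pole3 A hirr N h2 h3 h4 W hW B hB₁ ht hT hf 𝔪 hinf h0 x hD (3 - 1) (by norm_num)

/-- **The hypothesis `hpole` of `s36_xi_core` for `ℓ = 3`** (chart of `t⁻¹`): at a prime `𝔪 ⊇ P_∞ + P_0`
of the chart `B`, verbatim in the `s36_xi_r` vocabulary of `CrossInst.lean`. -/
theorem s36_p23i_xi_pole3_inf {N : ℕ} [NeZero N] [NeZero (N * 3)] (A : ValuationSubring K)
    [IsDiscreteValuationRing A]
    (hℓ : (((3 : ℕ) : K))⁻¹ ∉ A) (hirr : Irreducible (((3 : ℕ)) : A))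
    (h2 : 2 ∣ N * 3) (h3 : 3 ∣ N * 3) (h4 : 4 ∣ N * 3)
    (W : laurentBaseChange K (modularFunctionFieldFull (N * 3)) ≃ₐ[K]
      laurentBaseChange K (modularFunctionFieldFull (N * 3)))
    (hW : ∀ (d m : ℕ) (_ : d ∣ N) (_ : m ∣ 3)
      (h1 : s34_sw_s K (d * m) ∈ laurentBaseChange K (modularFunctionFieldFull (N * 3))),
      ((W ⟨s34_sw_s K (d * m), h1⟩ :
        laurentBaseChange K (modularFunctionFieldFull (N * 3))) : LaurentSeries K) =
        s34_sw_s K (d * (3 / m)))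
    (B : Subring (laurentBaseChange K (modularFunctionFieldFull (N * 3))))
    (hB₁ : B ≤ s34_gi_V A (N * 3))
    (hu : (s18_coord K (s18_cz_t2 (N * 3) h2))⁻¹ ∈ B)
    (hT : s36_p23m_T4 K (N * 3) h4 * (s18_coord K (s18_cz_t2 (N * 3) h2))⁻¹ ∈ B)
    (hf : (s18_coord K (s18_cz_t2 (N * 3) h2))⁻¹ * s18_coord K (s18_cz_t3 (N * 3) h3) ∈ B)
    (𝔪 : Ideal B) [𝔪.IsPrime]
    (hP₁ : ∀ p : B,
      (algebraMap K (laurentBaseChange K (modularFunctionFieldFull (N * 3))) (((3 : ℕ)) : K))⁻¹ *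
        (p : laurentBaseChange K (modularFunctionFieldFull (N * 3))) ∈ s34_gi_V A (N * 3) → p ∈ 𝔪)
    (hP₂ : ∀ p : B,
      W ((algebraMap K (laurentBaseChange K (modularFunctionFieldFull (N * 3))) (((3 : ℕ)) : K))⁻¹ *
        (p : laurentBaseChange K (modularFunctionFieldFull (N * 3)))) ∈ s34_gi_V A (N * 3) → p ∈ 𝔪) :
    ∀ x : B, x ∈ 𝔪 →
      (∀ f ∈ s36_th_O (s36_xi_r (ℓ := 3) A B hB₁) 𝔪,
        ∃ g ∈ s36_th_O (s36_xi_r (ℓ := 3) A B hB₁) 𝔪,
          s36_qt_theta (IsLocalRing.ResidueField A) f =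
            g * s36_qt_theta (IsLocalRing.ResidueField A) (s36_xi_r (ℓ := 3) A B hB₁ x)) →
      s36_qt_theta (IsLocalRing.ResidueField A) (s36_xi_r (ℓ := 3) A B hB₁ x) ^ (3 - 1) ∉
        s36_th_O (s36_xi_r (ℓ := 3) A B hB₁) 𝔪 := by
  intro x _ hD
  haveI : CharP (IsLocalRing.ResidueField A) 3 := s18_charP_res 3 A hℓ
  have hcast : ((((3 : ℕ)) : A) : K) = (((3 : ℕ)) : K) := by push_cast; rfl
  have hinf : ∀ p : B,
      (algebraMap K (laurentBaseChange K (modularFunctionFieldFull (N * 3))) ((((3 : ℕ)) : A) : K))⁻¹ *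
        (p : laurentBaseChange K (modularFunctionFieldFull (N * 3))) ∈ s34_gi_V A (N * 3) → p ∈ 𝔪 := by
    rw [hcast]
    exact hP₁
  have h0 : ∀ p : B,
      (algebraMap K (laurentBaseChange K (modularFunctionFieldFull (N * 3))) ((((3 : ℕ)) : A) : K))⁻¹ *
        (p : laurentBaseChange K (modularFunctionFieldFull (N * 3))) ∈
          (s34_gi_V A (N * 3)).comap
            (W : laurentBaseChange K (modularFunctionFieldFull (N * 3)) →+*
              laurentBaseChange K (modularFunctionFieldFull (N * 3))) → p ∈ 𝔪 := by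
    rw [hcast]
    exact fun p hp => hP₂ p hp
  exact s36_p23i_pole3_inf A hirr N h2 h3 h4 W hW B hB₁ hu hT hf 𝔪 hinf h0 x hD (3 - 1) (by norm_num)

/-- **The hypothesis `hpole` of `s36_xi_core` for `ℓ = 2`** (chart of `t`): at a prime `𝔪 ⊇ P_∞ + P_0`
of the chart `B`, verbatim in the `s36_xi_r` vocabulary of `CrossInst.lean`. -/
theorem s36_p23i_xi_pole2 {N : ℕ} [NeZero N] [NeZero (N * 2)] (A : ValuationSubring K)
    [IsDiscreteValuationRing A]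
    (hℓ : (((2 : ℕ) : K))⁻¹ ∉ A) (hirr : Irreducible (((2 : ℕ)) : A))
    (h2 : 2 ∣ N * 2) (h3 : 3 ∣ N * 2) (h9 : 9 ∣ N * 2)
    (W : laurentBaseChange K (modularFunctionFieldFull (N * 2)) ≃ₐ[K]
      laurentBaseChange K (modularFunctionFieldFull (N * 2)))
    (hW : ∀ (d m : ℕ) (_ : d ∣ N) (_ : m ∣ 2)
      (h1 : s34_sw_s K (d * m) ∈ laurentBaseChange K (modularFunctionFieldFull (N * 2))),
      ((W ⟨s34_sw_s K (d * m), h1⟩ :
        laurentBaseChange K (modularFunctionFieldFull (N * 2))) : LaurentSeries K) =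
        s34_sw_s K (d * (2 / m)))
    (B : Subring (laurentBaseChange K (modularFunctionFieldFull (N * 2))))
    (hB₁ : B ≤ s34_gi_V A (N * 2))
    (ht : s18_coord K (s18_cz_t3 (N * 2) h3) ∈ B) (hT : s36_p23m_T9 K (N * 2) h9 ∈ B)
    (hf : s18_coord K (s18_cz_t3 (N * 2) h3) ^ 3 * s18_coord K (s18_cz_t2 (N * 2) h2) ∈ B)
    (𝔪 : Ideal B) [𝔪.IsPrime]
    (hP₁ : ∀ p : B,
      (algebraMap K (laurentBaseChange K (modularFunctionFieldFull (N * 2))) (((2 : ℕ)) : K))⁻¹ *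
        (p : laurentBaseChange K (modularFunctionFieldFull (N * 2))) ∈ s34_gi_V A (N * 2) → p ∈ 𝔪)
    (hP₂ : ∀ p : B,
      W ((algebraMap K (laurentBaseChange K (modularFunctionFieldFull (N * 2))) (((2 : ℕ)) : K))⁻¹ *
        (p : laurentBaseChange K (modularFunctionFieldFull (N * 2)))) ∈ s34_gi_V A (N * 2) → p ∈ 𝔪) :
    ∀ x : B, x ∈ 𝔪 →
      (∀ f ∈ s36_th_O (s36_xi_r (ℓ := 2) A B hB₁) 𝔪,
        ∃ g ∈ s36_th_O (s36_xi_r (ℓ := 2) A B hB₁) 𝔪,
          s36_qt_theta (IsLocalRing.ResidueField A) f =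
            g * s36_qt_theta (IsLocalRing.ResidueField A) (s36_xi_r (ℓ := 2) A B hB₁ x)) →
      s36_qt_theta (IsLocalRing.ResidueField A) (s36_xi_r (ℓ := 2) A B hB₁ x) ^ (2 - 1) ∉
        s36_th_O (s36_xi_r (ℓ := 2) A B hB₁) 𝔪 := by
  intro x _ hD
  haveI : CharP (IsLocalRing.ResidueField A) 2 := s18_charP_res 2 A hℓ
  have hcast : ((((2 : ℕ)) : A) : K) = (((2 : ℕ)) : K) := by push_cast; rfl
  have hinf : ∀ p : B,
      (algebraMap K (laurentBaseChange K (modularFunctionFieldFull (N * 2))) ((((2 : ℕ)) : A) : K))⁻¹ *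
        (p : laurentBaseChange K (modularFunctionFieldFull (N * 2))) ∈ s34_gi_V A (N * 2) → p ∈ 𝔪 := by
    rw [hcast]
    exact hP₁
  have h0 : ∀ p : B,
      (algebraMap K (laurentBaseChange K (modularFunctionFieldFull (N * 2))) ((((2 : ℕ)) : A) : K))⁻¹ *
        (p : laurentBaseChange K (modularFunctionFieldFull (N * 2))) ∈
          (s34_gi_V A (N * 2)).comap
            (W : laurentBaseChange K (modularFunctionFieldFull (N * 2)) →+*
              laurentBaseChange K (modularFunctionFieldFull (N * 2))) → p ∈ 𝔪 := by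
    rw [hcast]
    exact fun p hp => hP₂ p hp
  exact s36_p23i_pole2 A hirr N h2 h3 h9 W hW B hB₁ ht hT hf 𝔪 hinf h0 x hD (2 - 1) (by norm_num)

/-- **The hypothesis `hpole` of `s36_xi_core` for `ℓ = 2`** (chart of `t⁻¹`): at a prime `𝔪 ⊇ P_∞ + P_0`
of the chart `B`, verbatim in the `s36_xi_r` vocabulary of `CrossInst.lean`. -/
theorem s36_p23i_xi_pole2_inf {N : ℕ} [NeZero N] [NeZero (N * 2)] (A : ValuationSubring K)
    [IsDiscreteValuationRing A]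
    (hℓ : (((2 : ℕ) : K))⁻¹ ∉ A) (hirr : Irreducible (((2 : ℕ)) : A))
    (h2 : 2 ∣ N * 2) (h3 : 3 ∣ N * 2) (h9 : 9 ∣ N * 2)
    (W : laurentBaseChange K (modularFunctionFieldFull (N * 2)) ≃ₐ[K]
      laurentBaseChange K (modularFunctionFieldFull (N * 2)))
    (hW : ∀ (d m : ℕ) (_ : d ∣ N) (_ : m ∣ 2)
      (h1 : s34_sw_s K (d * m) ∈ laurentBaseChange K (modularFunctionFieldFull (N * 2))),
      ((W ⟨s34_sw_s K (d * m), h1⟩ :
        laurentBaseChange K (modularFunctionFieldFull (N * 2))) : LaurentSeries K) =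
        s34_sw_s K (d * (2 / m)))
    (B : Subring (laurentBaseChange K (modularFunctionFieldFull (N * 2))))
    (hB₁ : B ≤ s34_gi_V A (N * 2))
    (hu : (s18_coord K (s18_cz_t3 (N * 2) h3))⁻¹ ∈ B)
    (hT : s36_p23m_T9 K (N * 2) h9 * (s18_coord K (s18_cz_t3 (N * 2) h3))⁻¹ ∈ B)
    (hf : (s18_coord K (s18_cz_t3 (N * 2) h3))⁻¹ * s18_coord K (s18_cz_t2 (N * 2) h2) ∈ B)
    (𝔪 : Ideal B) [𝔪.IsPrime]
    (hP₁ : ∀ p : B,
      (algebraMap K (laurentBaseChange K (modularFunctionFieldFull (N * 2))) (((2 : ℕ)) : K))⁻¹ *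
        (p : laurentBaseChange K (modularFunctionFieldFull (N * 2))) ∈ s34_gi_V A (N * 2) → p ∈ 𝔪)
    (hP₂ : ∀ p : B,
      W ((algebraMap K (laurentBaseChange K (modularFunctionFieldFull (N * 2))) (((2 : ℕ)) : K))⁻¹ *
        (p : laurentBaseChange K (modularFunctionFieldFull (N * 2)))) ∈ s34_gi_V A (N * 2) → p ∈ 𝔪) :
    ∀ x : B, x ∈ 𝔪 →
      (∀ f ∈ s36_th_O (s36_xi_r (ℓ := 2) A B hB₁) 𝔪,
        ∃ g ∈ s36_th_O (s36_xi_r (ℓ := 2) A B hB₁) 𝔪,
          s36_qt_theta (IsLocalRing.ResidueField A) f =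
            g * s36_qt_theta (IsLocalRing.ResidueField A) (s36_xi_r (ℓ := 2) A B hB₁ x)) →
      s36_qt_theta (IsLocalRing.ResidueField A) (s36_xi_r (ℓ := 2) A B hB₁ x) ^ (2 - 1) ∉
        s36_th_O (s36_xi_r (ℓ := 2) A B hB₁) 𝔪 := by
  intro x _ hD
  haveI : CharP (IsLocalRing.ResidueField A) 2 := s18_charP_res 2 A hℓ
  have hcast : ((((2 : ℕ)) : A) : K) = (((2 : ℕ)) : K) := by push_cast; rfl
  have hinf : ∀ p : B,
      (algebraMap K (laurentBaseChange K (modularFunctionFieldFull (N * 2))) ((((2 : ℕ)) : A) : K))⁻¹ *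
        (p : laurentBaseChange K (modularFunctionFieldFull (N * 2))) ∈ s34_gi_V A (N * 2) → p ∈ 𝔪 := by
    rw [hcast]
    exact hP₁
  have h0 : ∀ p : B,
      (algebraMap K (laurentBaseChange K (modularFunctionFieldFull (N * 2))) ((((2 : ℕ)) : A) : K))⁻¹ *
        (p : laurentBaseChange K (modularFunctionFieldFull (N * 2))) ∈
          (s34_gi_V A (N * 2)).comap
            (W : laurentBaseChange K (modularFunctionFieldFull (N * 2)) →+*
              laurentBaseChange K (modularFunctionFieldFull (N * 2))) → p ∈ 𝔪 := by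
    rw [hcast]
    exact fun p hp => hP₂ p hp
  exact s36_p23i_pole2_inf A hirr N h2 h3 h9 W hW B hB₁ hu hT hf 𝔪 hinf h0 x hD (2 - 1) (by norm_num)

end Fermat.Agent.S36
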