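import Fermat.Agent.S36.CuspRatioK
import Fermat.Agent.S36.ThickModelX
import Fermat.Agent.S34.InstDefs
import Fermat.Agent.S34.LevelChart
import Fermat.Agent.S34.GaussZeroInst

/-!
# S36 (NODE-3), B2 route (a), `q ≥ 5`: the chart-coordinate block on the concrete charts

The crossing-point theorems `s36_xi5_hpole` / `s36_xi5_hq` (`CrossInst5.lean`) and
`s36_xun_point` (`CrossUnit.lean`) consume, for a chart `B` of level `N₁ q`, the block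

`x x' G : B`, `x₀ ∈ Wring q`, `x = x₀` (expansions), `x'(Q) = x(Q^q)`, `W x = x'`,
`x⁻¹, x'⁻¹ ∈ V∞`, `x ≠ 0`, `G * x' = x ^ q`, and `x` among `α t₂, (α t₂)⁻¹, α t₃, (α t₃)⁻¹`.

Here it is produced for the four concrete charts `s34_md_B0` / `s34_md_Binf` of `t₂` and `t₃`
(`K₁ ⊆ Q̄` any intermediate field, `A₁ = A ∩ K₁`): `x` the chart coordinate, `x' = W x`
(in the chart by the frozen `s34_ws_vq_mem`), `G = x^q / x'` (in the chart by `s36_cusp_mem`).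

* `s36_xuni_int` : the series part (generic Gauss model), from an integer expansion with integer
  inverse;
* `s36_xuni_core` : one chart `s34_ic_chart A₁ t'`, `t'` the Hauptmodul or its inverse;
* `s36_xuni_t2`, `s36_xuni_t3` : the four concrete charts.
-/

set_option autoImplicit false
set_option linter.unusedSectionVars false
set_option linter.unusedVariables false

open ModularCurve

noncomputable section

namespace Fermat.Agent.S36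

open Fermat.Agent.S18 Fermat.Agent.S28 Fermat.Agent.S34 Fermat.Agent.S37

local notation "Qb" => AlgebraicClosure ℚ

section Series

variable (ℓ : ℕ) [NeZero ℓ] [Fact ℓ.Prime]
variable {K : Type*} [Field K] [Algebra ℚ K] (A : ValuationSubring K) (M : ℕ)

local notation "FF" => laurentBaseChange K (modularFunctionFieldFull M)

/-- **The series part of the block**: `x` with an integer expansion `x₁` having an integer
inverse `y₁`, `x'(Q) = x(Q^ℓ)`: rational Gauss-integral expansion, `x ≠ 0`, and `x⁻¹`, `x'⁻¹` in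
the Gauss ring. -/
theorem s36_xuni_int (x x' : FF) (x₁ y₁ : LaurentSeries ℤ) (hxy : x₁ * y₁ = 1)
    (hx : (x : LaurentSeries K) = coeffMap (Int.castRingHom K) x₁)
    (hx' : (x' : LaurentSeries K) = qExpand K ℓ (x : LaurentSeries K)) :
    coeffMap (Int.castRingHom ℚ) x₁ ∈ Wring ℓ ∧
      (x : LaurentSeries K) = coeffMap (algebraMap ℚ K) (coeffMap (Int.castRingHom ℚ) x₁) ∧
      x⁻¹ ∈ s34_gi_V A M ∧ x'⁻¹ ∈ s34_gi_V A M ∧ x ≠ 0 := by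
  have hxQ : (x : LaurentSeries K) =
      coeffMap (algebraMap ℚ K) (coeffMap (Int.castRingHom ℚ) x₁) := by
    rw [hx, coeffMap_coeffMap]
    exact coeffMap_congr (RingHom.ext_int _ _) x₁
  have hmul : (x : LaurentSeries K) * coeffMap (Int.castRingHom K) y₁ = 1 := by
    rw [hx, ← map_mul, hxy, map_one]
  have hx0 : x ≠ 0 := by
    rintro rfl
    rw [show ((0 : FF) : LaurentSeries K) = 0 from rfl, zero_mul] at hmul
    exact zero_ne_one hmul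
  have hxinv_coe : ((x⁻¹ : FF) : LaurentSeries K) = coeffMap (Int.castRingHom K) y₁ := by
    have h1 : ((x⁻¹ : FF) : LaurentSeries K) = (x : LaurentSeries K)⁻¹ := rfl
    rw [h1]
    exact inv_eq_of_mul_eq_one_right hmul
  have hmul' : (x' : LaurentSeries K) * coeffMap (Int.castRingHom K) (qExpand ℤ ℓ y₁) = 1 := by
    rw [hx', coeffMap_qExpand, ← map_mul, hmul, map_one]
  have hx'inv_coe : ((x'⁻¹ : FF) : LaurentSeries K) =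
      coeffMap (Int.castRingHom K) (qExpand ℤ ℓ y₁) := by
    have h1 : ((x'⁻¹ : FF) : LaurentSeries K) = (x' : LaurentSeries K)⁻¹ := rfl
    rw [h1]
    exact inv_eq_of_mul_eq_one_right hmul'
  exact ⟨s36_tmx_int_mem_Wring ℓ x₁, hxQ, s36_tmx_int_mem A M x⁻¹ y₁ hxinv_coe,
    s36_tmx_int_mem A M x'⁻¹ (qExpand ℤ ℓ y₁) hx'inv_coe, hx0⟩

end Series

section Model

variable (N₁ : ℕ) [NeZero N₁] (q : ℕ) [NeZero q] [Fact q.Prime]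
  (A : ValuationSubring Qb) (hA : A.LiesOverPrime q)
  (K₁ : IntermediateField ℚ Qb)

include hA in
/-- **The block for one chart** `s34_ic_chart A₁ t'`, `t'` the Hauptmodul of level `M ∈ {2, 3}`
(at level `N₁ q`) or its inverse, with integer expansion `x₁` and integer inverse `y₁`. -/
theorem s36_xuni_core (hqN : ¬ q ∣ N₁) (M : ℕ) (hqM : q ≠ M) (hMN : M ∣ N₁)
    (t : s18_F1 K₁ (N₁ * q)) (ht : s37_IsHaupt M (s18_baseIncl K₁ (N₁ * q) t))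
    (t' : s18_F1 K₁ (N₁ * q)) (ht' : t' = t ∨ t' = t⁻¹)
    (x₁ y₁ : LaurentSeries ℤ) (hxy : x₁ * y₁ = 1)
    (hte : (t' : LaurentSeries K₁) = coeffMap (Int.castRingHom K₁) x₁)
    (W : s18_F1 K₁ (N₁ * q) ≃+* s18_F1 K₁ (N₁ * q))
    (hWt : ((W t' : s18_F1 K₁ (N₁ * q)) : LaurentSeries K₁) =
      qExpand K₁ q (t' : LaurentSeries K₁)) :
    ∃ (x x' G : (s34_ic_chart (s18_A1 A K₁) t').toSubring) (x₀ : LaurentSeries ℚ),
      x₀ ∈ Wring q ∧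
      ((x : s18_F1 K₁ (N₁ * q)) : LaurentSeries K₁) = coeffMap (algebraMap ℚ K₁) x₀ ∧
      ((x' : s18_F1 K₁ (N₁ * q)) : LaurentSeries K₁) =
        qExpand K₁ q ((x : s18_F1 K₁ (N₁ * q)) : LaurentSeries K₁) ∧
      W (x : s18_F1 K₁ (N₁ * q)) = x' ∧
      ((x : s18_F1 K₁ (N₁ * q)))⁻¹ ∈ s34_gi_V (s18_A1 A K₁) (N₁ * q) ∧
      ((x' : s18_F1 K₁ (N₁ * q)))⁻¹ ∈ s34_gi_V (s18_A1 A K₁) (N₁ * q) ∧
      (x : s18_F1 K₁ (N₁ * q)) ≠ 0 ∧ G * x' = x ^ q ∧ (x : s18_F1 K₁ (N₁ * q)) = t' := by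
  have hq : q.Prime := Fact.out
  have hWB : W t' ∈ s34_ic_chart (s18_A1 A K₁) t' :=
    s34_ws_vq_mem N₁ q M hq hqN hqM hMN A hA K₁ t ht t' ht' (W t') hWt
  obtain ⟨h1, h2, h3, h4, h5⟩ := s36_xuni_int q (s18_A1 A K₁) (N₁ * q) t' (W t') x₁ y₁ hxy hte hWt
  have hW0 : W t' ≠ 0 := (map_ne_zero W).mpr h5
  have hGB : t' ^ q * (W t')⁻¹ ∈ s34_ic_chart (s18_A1 A K₁) t' := by
    refine s36_cusp_mem N₁ q M hq hqN hqM hMN A hA K₁ t ht t' ht' (t' ^ q * (W t')⁻¹) ?_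
    show (t' : LaurentSeries K₁) ^ q * ((W t' : s18_F1 K₁ (N₁ * q)) : LaurentSeries K₁)⁻¹ = _
    rw [hWt]
  refine ⟨⟨t', s34_ic_t_mem t'⟩, ⟨W t', hWB⟩, ⟨t' ^ q * (W t')⁻¹, hGB⟩,
    coeffMap (Int.castRingHom ℚ) x₁, h1, h2, hWt, rfl, h3, h4, h5, ?_, rfl⟩
  apply Subtype.ext
  show t' ^ q * (W t')⁻¹ * W t' = t' ^ q
  rw [mul_assoc, inv_mul_cancel₀ hW0, mul_one]

include hA in
/-- **The block for the two concrete charts of `t_2`** (`2 ∣ N₁`) at level `N₁ q`: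
`x` = the chart coordinate (`α t_2` for `B0`, `(α t_2)⁻¹` for `Binf`), `x' = W x`,
`G = x^q / x'`. -/
theorem s36_xuni_t2 (hqN : ¬ q ∣ N₁) (h2 : 2 ∣ N₁)
    (W : s18_F1 K₁ (N₁ * q) ≃+* s18_F1 K₁ (N₁ * q))
    (hWα : ∀ x : s18_F1 K₁ N₁, W (heckeAlphaBar K₁ N₁ q x) = heckeBetaBar K₁ N₁ q x) :
    (∃ (x x' G : (s34_md_B0 A K₁ (N₁ * q)
          (s18_cz_t2 (N₁ * q) (dvd_mul_of_dvd_left h2 q))).toSubring) (x₀ : LaurentSeries ℚ),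
      x₀ ∈ Wring q ∧
      ((x : s18_F1 K₁ (N₁ * q)) : LaurentSeries K₁) = coeffMap (algebraMap ℚ K₁) x₀ ∧
      ((x' : s18_F1 K₁ (N₁ * q)) : LaurentSeries K₁) =
        qExpand K₁ q ((x : s18_F1 K₁ (N₁ * q)) : LaurentSeries K₁) ∧
      W (x : s18_F1 K₁ (N₁ * q)) = x' ∧
      ((x : s18_F1 K₁ (N₁ * q)))⁻¹ ∈ s34_gi_V (s18_A1 A K₁) (N₁ * q) ∧
      ((x' : s18_F1 K₁ (N₁ * q)))⁻¹ ∈ s34_gi_V (s18_A1 A K₁) (N₁ * q) ∧
      (x : s18_F1 K₁ (N₁ * q)) ≠ 0 ∧ G * x' = x ^ q ∧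
      (x : s18_F1 K₁ (N₁ * q)) = heckeAlphaBar K₁ N₁ q (s18_coord K₁ (s18_cz_t2 N₁ h2))) ∧
    (∃ (x x' G : (s34_md_Binf A K₁ (N₁ * q)
          (s18_cz_t2 (N₁ * q) (dvd_mul_of_dvd_left h2 q))).toSubring) (x₀ : LaurentSeries ℚ),
      x₀ ∈ Wring q ∧
      ((x : s18_F1 K₁ (N₁ * q)) : LaurentSeries K₁) = coeffMap (algebraMap ℚ K₁) x₀ ∧
      ((x' : s18_F1 K₁ (N₁ * q)) : LaurentSeries K₁) =
        qExpand K₁ q ((x : s18_F1 K₁ (N₁ * q)) : LaurentSeries K₁) ∧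
      W (x : s18_F1 K₁ (N₁ * q)) = x' ∧
      ((x : s18_F1 K₁ (N₁ * q)))⁻¹ ∈ s34_gi_V (s18_A1 A K₁) (N₁ * q) ∧
      ((x' : s18_F1 K₁ (N₁ * q)))⁻¹ ∈ s34_gi_V (s18_A1 A K₁) (N₁ * q) ∧
      (x : s18_F1 K₁ (N₁ * q)) ≠ 0 ∧ G * x' = x ^ q ∧
      (x : s18_F1 K₁ (N₁ * q)) =
        (heckeAlphaBar K₁ N₁ q (s18_coord K₁ (s18_cz_t2 N₁ h2)))⁻¹) := by
  have hqM : q ≠ 2 := fun h => hqN (h ▸ h2)
  have hcoord : heckeAlphaBar K₁ N₁ q (s18_coord K₁ (s18_cz_t2 N₁ h2)) =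
      s18_coord K₁ (s18_cz_t2 (N₁ * q) (dvd_mul_of_dvd_left h2 q)) :=
    s34_lc_incl_coord q _ rfl
  have hH := s34_ws_isHaupt_t2 (N₁ * q) K₁ (dvd_mul_of_dvd_left h2 q)
  have hte : ((s18_coord K₁ (s18_cz_t2 (N₁ * q) (dvd_mul_of_dvd_left h2 q)) :
      s18_F1 K₁ (N₁ * q)) : LaurentSeries K₁) = coeffMap (Int.castRingHom K₁) s18_t2 :=
    s34_gzi_coord_t2 K₁ (N₁ * q) (dvd_mul_of_dvd_left h2 q)
  have hWt : ((W (s18_coord K₁ (s18_cz_t2 (N₁ * q) (dvd_mul_of_dvd_left h2 q))) :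
      s18_F1 K₁ (N₁ * q)) : LaurentSeries K₁) =
      qExpand K₁ q ((s18_coord K₁ (s18_cz_t2 (N₁ * q) (dvd_mul_of_dvd_left h2 q)) :
        s18_F1 K₁ (N₁ * q)) : LaurentSeries K₁) := by
    rw [← hcoord, hWα, coe_heckeBetaBar, coe_heckeAlphaBar]
  have hmul : coeffMap (Int.castRingHom K₁) s18_t2 * coeffMap (Int.castRingHom K₁) s18_t2inv = 1 := by
    rw [← map_mul, s18_t2_mul_inv, map_one]
  have hte' : (((s18_coord K₁ (s18_cz_t2 (N₁ * q) (dvd_mul_of_dvd_left h2 q)))⁻¹ :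
      s18_F1 K₁ (N₁ * q)) : LaurentSeries K₁) = coeffMap (Int.castRingHom K₁) s18_t2inv := by
    have h1 : (((s18_coord K₁ (s18_cz_t2 (N₁ * q) (dvd_mul_of_dvd_left h2 q)))⁻¹ :
        s18_F1 K₁ (N₁ * q)) : LaurentSeries K₁) =
        ((s18_coord K₁ (s18_cz_t2 (N₁ * q) (dvd_mul_of_dvd_left h2 q)) :
          s18_F1 K₁ (N₁ * q)) : LaurentSeries K₁)⁻¹ := rfl
    rw [h1, hte]
    exact inv_eq_of_mul_eq_one_right hmul
  have hWt' : ((W (s18_coord K₁ (s18_cz_t2 (N₁ * q) (dvd_mul_of_dvd_left h2 q)))⁻¹ :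
      s18_F1 K₁ (N₁ * q)) : LaurentSeries K₁) =
      qExpand K₁ q (((s18_coord K₁ (s18_cz_t2 (N₁ * q) (dvd_mul_of_dvd_left h2 q)))⁻¹ :
        s18_F1 K₁ (N₁ * q)) : LaurentSeries K₁) := by
    have h1 : (((s18_coord K₁ (s18_cz_t2 (N₁ * q) (dvd_mul_of_dvd_left h2 q)))⁻¹ :
        s18_F1 K₁ (N₁ * q)) : LaurentSeries K₁) =
        ((s18_coord K₁ (s18_cz_t2 (N₁ * q) (dvd_mul_of_dvd_left h2 q)) :
          s18_F1 K₁ (N₁ * q)) : LaurentSeries K₁)⁻¹ := rfl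
    have h2 : ((W (s18_coord K₁ (s18_cz_t2 (N₁ * q) (dvd_mul_of_dvd_left h2 q)))⁻¹ :
        s18_F1 K₁ (N₁ * q)) : LaurentSeries K₁) =
        ((W (s18_coord K₁ (s18_cz_t2 (N₁ * q) (dvd_mul_of_dvd_left h2 q))) :
          s18_F1 K₁ (N₁ * q)) : LaurentSeries K₁)⁻¹ := by
      rw [map_inv₀]
      rfl
    rw [h2, hWt, h1, map_inv₀]
  constructor
  · obtain ⟨x, x', G, x₀, h1, h2, h3, h4, h5, h6, h7, h8, h9⟩ :=
      s36_xuni_core N₁ q A hA K₁ hqN 2 hqM h2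
        (s18_coord K₁ (s18_cz_t2 (N₁ * q) (dvd_mul_of_dvd_left h2 q))) hH
        (s18_coord K₁ (s18_cz_t2 (N₁ * q) (dvd_mul_of_dvd_left h2 q))) (Or.inl rfl)
        s18_t2 s18_t2inv s18_t2_mul_inv hte W hWt
    exact ⟨x, x', G, x₀, h1, h2, h3, h4, h5, h6, h7, h8, by rw [h9, hcoord]⟩
  · obtain ⟨x, x', G, x₀, h1, h2, h3, h4, h5, h6, h7, h8, h9⟩ :=
      s36_xuni_core N₁ q A hA K₁ hqN 2 hqM h2
        (s18_coord K₁ (s18_cz_t2 (N₁ * q) (dvd_mul_of_dvd_left h2 q))) hH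
        (s18_coord K₁ (s18_cz_t2 (N₁ * q) (dvd_mul_of_dvd_left h2 q)))⁻¹ (Or.inr rfl)
        s18_t2inv s18_t2 (by rw [mul_comm]; exact s18_t2_mul_inv) hte' W hWt'
    exact ⟨x, x', G, x₀, h1, h2, h3, h4, h5, h6, h7, h8, by rw [h9, hcoord]⟩

include hA in
/-- **The block for the two concrete charts of `t_3`** (`3 ∣ N₁`) at level `N₁ q`:
`x` = the chart coordinate (`α t_3` for `B0`, `(α t_3)⁻¹` for `Binf`), `x' = W x`,
`G = x^q / x'`. -/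
theorem s36_xuni_t3 (hqN : ¬ q ∣ N₁) (h3 : 3 ∣ N₁)
    (W : s18_F1 K₁ (N₁ * q) ≃+* s18_F1 K₁ (N₁ * q))
    (hWα : ∀ x : s18_F1 K₁ N₁, W (heckeAlphaBar K₁ N₁ q x) = heckeBetaBar K₁ N₁ q x) :
    (∃ (x x' G : (s34_md_B0 A K₁ (N₁ * q)
          (s18_cz_t3 (N₁ * q) (dvd_mul_of_dvd_left h3 q))).toSubring) (x₀ : LaurentSeries ℚ),
      x₀ ∈ Wring q ∧
      ((x : s18_F1 K₁ (N₁ * q)) : LaurentSeries K₁) = coeffMap (algebraMap ℚ K₁) x₀ ∧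
      ((x' : s18_F1 K₁ (N₁ * q)) : LaurentSeries K₁) =
        qExpand K₁ q ((x : s18_F1 K₁ (N₁ * q)) : LaurentSeries K₁) ∧
      W (x : s18_F1 K₁ (N₁ * q)) = x' ∧
      ((x : s18_F1 K₁ (N₁ * q)))⁻¹ ∈ s34_gi_V (s18_A1 A K₁) (N₁ * q) ∧
      ((x' : s18_F1 K₁ (N₁ * q)))⁻¹ ∈ s34_gi_V (s18_A1 A K₁) (N₁ * q) ∧
      (x : s18_F1 K₁ (N₁ * q)) ≠ 0 ∧ G * x' = x ^ q ∧
      (x : s18_F1 K₁ (N₁ * q)) = heckeAlphaBar K₁ N₁ q (s18_coord K₁ (s18_cz_t3 N₁ h3))) ∧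
    (∃ (x x' G : (s34_md_Binf A K₁ (N₁ * q)
          (s18_cz_t3 (N₁ * q) (dvd_mul_of_dvd_left h3 q))).toSubring) (x₀ : LaurentSeries ℚ),
      x₀ ∈ Wring q ∧
      ((x : s18_F1 K₁ (N₁ * q)) : LaurentSeries K₁) = coeffMap (algebraMap ℚ K₁) x₀ ∧
      ((x' : s18_F1 K₁ (N₁ * q)) : LaurentSeries K₁) =
        qExpand K₁ q ((x : s18_F1 K₁ (N₁ * q)) : LaurentSeries K₁) ∧
      W (x : s18_F1 K₁ (N₁ * q)) = x' ∧
      ((x : s18_F1 K₁ (N₁ * q)))⁻¹ ∈ s34_gi_V (s18_A1 A K₁) (N₁ * q) ∧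
      ((x' : s18_F1 K₁ (N₁ * q)))⁻¹ ∈ s34_gi_V (s18_A1 A K₁) (N₁ * q) ∧
      (x : s18_F1 K₁ (N₁ * q)) ≠ 0 ∧ G * x' = x ^ q ∧
      (x : s18_F1 K₁ (N₁ * q)) =
        (heckeAlphaBar K₁ N₁ q (s18_coord K₁ (s18_cz_t3 N₁ h3)))⁻¹) := by
  have hqM : q ≠ 3 := fun h => hqN (h ▸ h3)
  have hcoord : heckeAlphaBar K₁ N₁ q (s18_coord K₁ (s18_cz_t3 N₁ h3)) =
      s18_coord K₁ (s18_cz_t3 (N₁ * q) (dvd_mul_of_dvd_left h3 q)) :=
    s34_lc_incl_coord q _ rfl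
  have hH := s34_ws_isHaupt_t3 (N₁ * q) K₁ (dvd_mul_of_dvd_left h3 q)
  have hte : ((s18_coord K₁ (s18_cz_t3 (N₁ * q) (dvd_mul_of_dvd_left h3 q)) :
      s18_F1 K₁ (N₁ * q)) : LaurentSeries K₁) = coeffMap (Int.castRingHom K₁) s18_t3 :=
    s34_gzi_coord_t3 K₁ (N₁ * q) (dvd_mul_of_dvd_left h3 q)
  have hWt : ((W (s18_coord K₁ (s18_cz_t3 (N₁ * q) (dvd_mul_of_dvd_left h3 q))) :
      s18_F1 K₁ (N₁ * q)) : LaurentSeries K₁) =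
      qExpand K₁ q ((s18_coord K₁ (s18_cz_t3 (N₁ * q) (dvd_mul_of_dvd_left h3 q)) :
        s18_F1 K₁ (N₁ * q)) : LaurentSeries K₁) := by
    rw [← hcoord, hWα, coe_heckeBetaBar, coe_heckeAlphaBar]
  have hmul : coeffMap (Int.castRingHom K₁) s18_t3 * coeffMap (Int.castRingHom K₁) s18_t3inv = 1 := by
    rw [← map_mul, s18_t3_mul_inv, map_one]
  have hte' : (((s18_coord K₁ (s18_cz_t3 (N₁ * q) (dvd_mul_of_dvd_left h3 q)))⁻¹ :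
      s18_F1 K₁ (N₁ * q)) : LaurentSeries K₁) = coeffMap (Int.castRingHom K₁) s18_t3inv := by
    have h1 : (((s18_coord K₁ (s18_cz_t3 (N₁ * q) (dvd_mul_of_dvd_left h3 q)))⁻¹ :
        s18_F1 K₁ (N₁ * q)) : LaurentSeries K₁) =
        ((s18_coord K₁ (s18_cz_t3 (N₁ * q) (dvd_mul_of_dvd_left h3 q)) :
          s18_F1 K₁ (N₁ * q)) : LaurentSeries K₁)⁻¹ := rfl
    rw [h1, hte]
    exact inv_eq_of_mul_eq_one_right hmul
  have hWt' : ((W (s18_coord K₁ (s18_cz_t3 (N₁ * q) (dvd_mul_of_dvd_left h3 q)))⁻¹ :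
      s18_F1 K₁ (N₁ * q)) : LaurentSeries K₁) =
      qExpand K₁ q (((s18_coord K₁ (s18_cz_t3 (N₁ * q) (dvd_mul_of_dvd_left h3 q)))⁻¹ :
        s18_F1 K₁ (N₁ * q)) : LaurentSeries K₁) := by
    have h1 : (((s18_coord K₁ (s18_cz_t3 (N₁ * q) (dvd_mul_of_dvd_left h3 q)))⁻¹ :
        s18_F1 K₁ (N₁ * q)) : LaurentSeries K₁) =
        ((s18_coord K₁ (s18_cz_t3 (N₁ * q) (dvd_mul_of_dvd_left h3 q)) :
          s18_F1 K₁ (N₁ * q)) : LaurentSeries K₁)⁻¹ := rfl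
    have h2 : ((W (s18_coord K₁ (s18_cz_t3 (N₁ * q) (dvd_mul_of_dvd_left h3 q)))⁻¹ :
        s18_F1 K₁ (N₁ * q)) : LaurentSeries K₁) =
        ((W (s18_coord K₁ (s18_cz_t3 (N₁ * q) (dvd_mul_of_dvd_left h3 q))) :
          s18_F1 K₁ (N₁ * q)) : LaurentSeries K₁)⁻¹ := by
      rw [map_inv₀]
      rfl
    rw [h2, hWt, h1, map_inv₀]
  constructor
  · obtain ⟨x, x', G, x₀, h1, h2, h3, h4, h5, h6, h7, h8, h9⟩ :=
      s36_xuni_core N₁ q A hA K₁ hqN 3 hqM h3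
        (s18_coord K₁ (s18_cz_t3 (N₁ * q) (dvd_mul_of_dvd_left h3 q))) hH
        (s18_coord K₁ (s18_cz_t3 (N₁ * q) (dvd_mul_of_dvd_left h3 q))) (Or.inl rfl)
        s18_t3 s18_t3inv s18_t3_mul_inv hte W hWt
    exact ⟨x, x', G, x₀, h1, h2, h3, h4, h5, h6, h7, h8, by rw [h9, hcoord]⟩
  · obtain ⟨x, x', G, x₀, h1, h2, h3, h4, h5, h6, h7, h8, h9⟩ :=
      s36_xuni_core N₁ q A hA K₁ hqN 3 hqM h3
        (s18_coord K₁ (s18_cz_t3 (N₁ * q) (dvd_mul_of_dvd_left h3 q))) hH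
        (s18_coord K₁ (s18_cz_t3 (N₁ * q) (dvd_mul_of_dvd_left h3 q)))⁻¹ (Or.inr rfl)
        s18_t3inv s18_t3 (by rw [mul_comm]; exact s18_t3_mul_inv) hte' W hWt'
    exact ⟨x, x', G, x₀, h1, h2, h3, h4, h5, h6, h7, h8, by rw [h9, hcoord]⟩

end Model

end Fermat.Agent.S36
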