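import Fermat.Agent.S36.CrossUnit

/-!
# S36 (NODE-3), B2 route (a), `q ≥ 5`: the per-point package from the unit facts

`s36_xun_point_of_unit` is `s36_xun_point` (`CrossUnit.lean`) with the two unit facts
`x ∉ 𝔪`, `x' ∉ 𝔪` (a crossing point is not a cusp: `s36_xcm_unit` / `s36_xun_unit`) taken as
HYPOTHESES; no valuation ring is involved.  `B` a normal chart of
`FF = laurentBaseChange K (modularFunctionFieldFull M)`, `𝔪` a prime with `6` a unit at `𝔪`, the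
chart coordinate `x` one of `t₂, t₂⁻¹, t₃, t₃⁻¹` and `x'(Q) = x(Q^ℓ)`:
`t₂^{±1}, t₃^{±1}, t₂(Q^ℓ)^{±1}, t₃(Q^ℓ)^{±1} ∈ B_𝔪` and
`(t₂(Q^ℓ) + 64)⁻¹ ∈ B_𝔪 ∨ (t₃(Q^ℓ) + 27)⁻¹ ∈ B_𝔪`.

`s36_xun_six` : `6⁻¹ ∈ B_𝔪` from `6⁻¹ ∈ B`.
-/

set_option autoImplicit false
set_option linter.unusedSectionVars false
set_option linter.unusedVariables false

open ModularCurve

noncomputable section

namespace Fermat.Agent.S36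

open Fermat.Agent.S18 Fermat.Agent.S28 Fermat.Agent.S34 Fermat.Agent.S37

section Gauss

variable {M : ℕ} {ℓ : ℕ} [NeZero ℓ]
variable {K : Type*} [Field K] [Algebra ℚ K]

local notation "FF" => laurentBaseChange K (modularFunctionFieldFull M)

/-- `6⁻¹ ∈ B_𝔪` as soon as `6⁻¹ ∈ B`. -/
theorem s36_xun_six (B : Subring FF) (𝔪 : Ideal B) [h𝔪 : 𝔪.IsPrime] (h6 : ((6 : FF))⁻¹ ∈ B) :
    ((6 : FF))⁻¹ ∈ s18_loc B 𝔪 :=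
  s36_xun_mem_loc B 𝔪 ⟨_, h6⟩

/-- **The unit package at a point where the chart coordinate and its transform are units.** -/
theorem s36_xun_point_of_unit (B : Subring FF) (hnorm : ∀ z : FF, IsIntegral B z → z ∈ B)
    (𝔪 : Ideal B) [h𝔪 : 𝔪.IsPrime] (h6 : ((6 : FF))⁻¹ ∈ s18_loc B 𝔪)
    (x x' : B) (hxm : x ∉ 𝔪) (hx'm : x' ∉ 𝔪)
    (hx' : ((x' : FF) : LaurentSeries K) = qExpand K ℓ ((x : FF) : LaurentSeries K))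
    (t₂ t₃ y₂ y₃ : FF)
    (ht₂e : ((t₂ : FF) : LaurentSeries K) = s18_t2R K)
    (ht₃e : ((t₃ : FF) : LaurentSeries K) = s18_t3R K)
    (hy₂e : ((y₂ : FF) : LaurentSeries K) = qExpand K ℓ (s18_t2R K))
    (hy₃e : ((y₃ : FF) : LaurentSeries K) = qExpand K ℓ (s18_t3R K))
    (hchart : (x : FF) = t₂ ∨ (x : FF) = t₂⁻¹ ∨ (x : FF) = t₃ ∨ (x : FF) = t₃⁻¹) :
    (t₂ ∈ s18_loc B 𝔪 ∧ t₂⁻¹ ∈ s18_loc B 𝔪 ∧ t₃ ∈ s18_loc B 𝔪 ∧ t₃⁻¹ ∈ s18_loc B 𝔪) ∧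
    (y₂ ∈ s18_loc B 𝔪 ∧ y₂⁻¹ ∈ s18_loc B 𝔪 ∧ y₃ ∈ s18_loc B 𝔪 ∧ y₃⁻¹ ∈ s18_loc B 𝔪) ∧
    ((y₂ + 64)⁻¹ ∈ s18_loc B 𝔪 ∨ (y₃ + 27)⁻¹ ∈ s18_loc B 𝔪) := by
  have : CharZero K := algebraRat.charZero K
  have : CharZero FF := charZero_of_injective_algebraMap (algebraMap K FF).injective
  have h60 : (6 : FF) ≠ 0 := OfNat.ofNat_ne_zero 6
  have hxl : (x : FF) ∈ s18_loc B 𝔪 := s36_xun_mem_loc B 𝔪 x
  have hxl' : ((x : FF))⁻¹ ∈ s18_loc B 𝔪 := s36_pp_inv_mem B 𝔪 x hxm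
  have hyl : (x' : FF) ∈ s18_loc B 𝔪 := s36_xun_mem_loc B 𝔪 x'
  have hyl' : ((x' : FF))⁻¹ ∈ s18_loc B 𝔪 := s36_pp_inv_mem B 𝔪 x' hx'm
  obtain ⟨ht20, ht30, Jt, hJt2, hJt3⟩ := s36_xun_rel (RingHom.id _) t₂ t₃ ht₂e ht₃e
  obtain ⟨hy20, hy30, Jy, hJy2, hJy3⟩ := s36_xun_rel (qExpand K ℓ) y₂ y₃ hy₂e hy₃e
  have key : ((t₂ ∈ s18_loc B 𝔪 ∧ t₂⁻¹ ∈ s18_loc B 𝔪) ∨
        (t₃ ∈ s18_loc B 𝔪 ∧ t₃⁻¹ ∈ s18_loc B 𝔪)) ∧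
      ((y₂ ∈ s18_loc B 𝔪 ∧ y₂⁻¹ ∈ s18_loc B 𝔪) ∨
        (y₃ ∈ s18_loc B 𝔪 ∧ y₃⁻¹ ∈ s18_loc B 𝔪)) := by
    rcases hchart with h | h | h | h
    · have e : (x' : FF) = y₂ := by
        apply Subtype.ext
        rw [hx', h, ht₂e, hy₂e]
      rw [h] at hxl hxl'
      rw [e] at hyl hyl'
      exact ⟨Or.inl ⟨hxl, hxl'⟩, Or.inl ⟨hyl, hyl'⟩⟩
    · have e : (x' : FF) = y₂⁻¹ := by
        apply Subtype.ext
        show ((x' : FF) : LaurentSeries K) = (((y₂ : FF) : LaurentSeries K))⁻¹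
        have h1 : ((x : FF) : LaurentSeries K) = (((t₂ : FF) : LaurentSeries K))⁻¹ := by
          rw [h]; rfl
        rw [hx', h1, ht₂e, hy₂e, map_inv₀]
      rw [h] at hxl hxl'
      rw [e] at hyl hyl'
      rw [inv_inv] at hxl' hyl'
      exact ⟨Or.inl ⟨hxl', hxl⟩, Or.inl ⟨hyl', hyl⟩⟩
    · have e : (x' : FF) = y₃ := by
        apply Subtype.ext
        rw [hx', h, ht₃e, hy₃e]
      rw [h] at hxl hxl'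
      rw [e] at hyl hyl'
      exact ⟨Or.inr ⟨hxl, hxl'⟩, Or.inr ⟨hyl, hyl'⟩⟩
    · have e : (x' : FF) = y₃⁻¹ := by
        apply Subtype.ext
        show ((x' : FF) : LaurentSeries K) = (((y₃ : FF) : LaurentSeries K))⁻¹
        have h1 : ((x : FF) : LaurentSeries K) = (((t₃ : FF) : LaurentSeries K))⁻¹ := by
          rw [h]; rfl
        rw [hx', h1, ht₃e, hy₃e, map_inv₀]
      rw [h] at hxl hxl'
      rw [e] at hyl hyl'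
      rw [inv_inv] at hxl' hyl'
      exact ⟨Or.inr ⟨hxl', hxl⟩, Or.inr ⟨hyl', hyl⟩⟩
  obtain ⟨a1, a2, a3, a4, -⟩ :=
    s36_xun_pkg B hnorm 𝔪 h6 h60 Jt t₂ t₃ ht20 ht30 hJt2 hJt3 key.1
  obtain ⟨b1, b2, b3, b4, b5⟩ :=
    s36_xun_pkg B hnorm 𝔪 h6 h60 Jy y₂ y₃ hy20 hy30 hJy2 hJy3 key.2
  exact ⟨⟨a1, a2, a3, a4⟩, ⟨b1, b2, b3, b4⟩, b5⟩

end Gauss

end Fermat.Agent.S36
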