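import Fermat.Agent.S37.EsSwap
import Fermat.Agent.S34.SwapK

/-!
# S36 (NODE-3), leaf (CE): the embedding at the cusp `1/q` of `K · F(N q²)`

`N` prime to the prime `q`.  Precomposition with `γ = (1 0; qN 1) ∈ SL₂(ℤ)` fixes the functions
`J(d τ)`, `J(d q τ)` (`d ∣ N`) and sends `J(d q² τ)` to `J(d (τ + a/q))` (`a N ≡ 1 mod q`), whose
expansion at `∞` is `j((ζ Q)^d)`, `ζ = e^{2πi a/q}`.  Hence the field embedding

  `Θ : K · F(N q²) → K((Q))`,  `j(Q^(d m)) ↦ j(Q^(d m))` (`m ∈ {1, q}`),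
                                `j(Q^(d q²)) ↦ j((ζ Q)^d)`

for every field `K ⊆ Q̄` containing `ζ` (`s36_ce_theta`).
-/

set_option autoImplicit false
set_option linter.style.haveILetI false

open UpperHalfPlane ModularCurve

open scoped MatrixGroups

noncomputable section

namespace Fermat.Agent.S36

open Fermat.Agent.S28 (Jfun scaleH affH twistQ substQ)
open Fermat.Agent.S24
open Fermat.Agent.S37
open Fermat.Agent.S34

attribute [local instance] algKC

/-! ### The analytic identities -/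

/-- `γ = (1 0; qN 1)`. -/
def s36_ce_gamma (N q : ℕ) : SL(2, ℤ) := s37_es_mk 1 0 (q * N) 1 (by ring)

/-- `J(c · γτ) = J(c τ)` for `c ∣ q N`. -/
theorem s36_ce_J_low (N q c n : ℕ) [NeZero c] (hcn : q * N = c * n) (τ : ℍ) :
    Jfun (scaleH c (s36_ce_gamma N q • τ)) = Jfun (scaleH c τ) := by
  have key : scaleH c (s36_ce_gamma N q • τ) =
      s37_es_mk 1 0 n 1 (by ring) • scaleH c τ := by
    apply UpperHalfPlane.ext
    unfold s36_ce_gamma
    rw [Fermat.Agent.S28.coe_scaleH, s37_es_coe_mk_smul, s37_es_coe_mk_smul,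
      Fermat.Agent.S28.coe_scaleH]
    have h1 := s37_es_denom_ne_zero 1 0 (q * N) 1 (by ring) τ
    have h2 := s37_es_denom_ne_zero 1 0 n 1 (by ring) (scaleH c τ)
    rw [Fermat.Agent.S28.coe_scaleH] at h2
    have hN : ((q : ℂ) * (N : ℂ)) = (c : ℂ) * (n : ℂ) := by
      exact_mod_cast congrArg (Nat.cast : ℕ → ℂ) hcn
    push_cast at h1 h2 ⊢
    rw [hN] at h1 ⊢
    rw [mul_div_assoc', div_eq_div_iff h1 h2]
    ring
  rw [key, Fermat.Agent.S28.Jfun_smul]

/-- `J(d q² · γτ) = J((q d τ + a d)/q)` for `N = d n`, `a N + e q = 1`. -/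
theorem s36_ce_J_top (N q d n : ℕ) [NeZero q] [NeZero (q * d)] [NeZero (d * q ^ 2)]
    (hdn : N = d * n) (a e : ℤ) (hae : a * N + e * q = 1) (τ : ℍ) :
    Jfun (scaleH (d * q ^ 2) (s36_ce_gamma N q • τ)) = Jfun (affH (q * d) q (a * d) τ) := by
  have hdet : (q : ℤ) * e - (-(a * d)) * n = 1 := by
    have h1 : (N : ℤ) = d * n := by exact_mod_cast hdn
    rw [h1] at hae
    linarith
  have key : scaleH (d * q ^ 2) (s36_ce_gamma N q • τ) =
      s37_es_mk q (-(a * d)) n e hdet • affH (q * d) q (a * d) τ := by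
    apply UpperHalfPlane.ext
    unfold s36_ce_gamma
    rw [Fermat.Agent.S28.coe_scaleH, s37_es_coe_mk_smul, s37_es_coe_mk_smul,
      Fermat.Agent.S28.coe_affH]
    have h1 := s37_es_denom_ne_zero 1 0 (q * N) 1 (by ring) τ
    have h2 := s37_es_denom_ne_zero q (-(a * d)) n e hdet (affH (q * d) q (a * d) τ)
    rw [Fermat.Agent.S28.coe_affH] at h2
    have hq0 : (q : ℂ) ≠ 0 := Nat.cast_ne_zero.mpr (NeZero.ne q)
    have hN : (N : ℂ) = (d : ℂ) * (n : ℂ) := by exact_mod_cast congrArg (Nat.cast : ℕ → ℂ) hdn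
    have hae' : (a : ℂ) * ((d : ℂ) * (n : ℂ)) + (e : ℂ) * (q : ℂ) = 1 := by
      rw [← hN]
      exact_mod_cast congrArg (Int.cast : ℤ → ℂ) hae
    push_cast at h1 h2 ⊢
    rw [hN] at h1 ⊢
    rw [mul_div_assoc', div_eq_div_iff h1 h2]
    field_simp
    linear_combination ((d : ℂ) * (q : ℂ) * (τ : ℂ)) * hae'
  rw [key, Fermat.Agent.S28.Jfun_smul]

/-! ### The expansions -/

/-- `twistQ` commutes with `qExpand`. -/
theorem s36_ce_twist_qExpand {A : Type*} [CommRing A] (ζ : Aˣ) (d : ℕ) [NeZero d]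
    (s : LaurentSeries A) :
    twistQ ζ (qExpand A d s) = qExpand A d (twistQ (ζ ^ d) s) := by
  ext n
  rw [Fermat.Agent.S28.twistQ_coeff]
  by_cases hn : (d : ℤ) ∣ n
  · obtain ⟨k, rfl⟩ := hn
    rw [qExpand_coeff_mul, qExpand_coeff_mul, Fermat.Agent.S28.twistQ_coeff, zpow_mul,
      zpow_natCast]
  · rw [qExpand_coeff_of_not_dvd d _ hn, qExpand_coeff_of_not_dvd d _ hn, mul_zero]

/-- The expansion of `J(c · γτ)` for `c ∣ q N`. -/
theorem s36_ce_exp_low (L N q c n : ℕ) [NeZero L] [NeZero c] (hcn : q * N = c * n) :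
    HasKExp L (Jconj c (s36_ce_gamma N q)) (qExpand Kbar L (s37_ew_s c)) := by
  rw [s37_ew_s_eq]
  refine (hasKExp_Jconj_one L c).congr fun τ => ?_
  show Jfun (scaleH c ((1 : SL(2, ℤ)) • τ)) = Jfun (scaleH c (s36_ce_gamma N q • τ))
  rw [one_smul, s36_ce_J_low N q c n hcn τ]

/-- The expansion of `J(d q² · γτ)`: `j((ζ Q)^d)`. -/
theorem s36_ce_exp_top (N q d n : ℕ) [NeZero q] [NeZero d] [NeZero (N * q ^ 2)]
    [NeZero (d * q ^ 2)] (hdn : N = d * n)
    (a e : ℤ) (hae : a * N + e * q = 1) (ζ : Kbarˣ)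
    (hζ : (Units.map (iotaK : Kbar →* ℂ) ζ : ℂ) =
      Fermat.Agent.S28.zetaN (N * q ^ 2) ^ (a * ((N * q ^ 2 / q : ℕ) : ℤ))) :
    HasKExp (N * q ^ 2) (Jconj (d * q ^ 2) (s36_ce_gamma N q))
      (qExpand Kbar (N * q ^ 2) (twistQ ζ (s37_ew_s d))) := by
  haveI : NeZero (q * d) := ⟨Nat.mul_ne_zero (NeZero.ne q) (NeZero.ne d)⟩
  have hqL : q ∣ N * q ^ 2 := Dvd.intro_left (N * q) (by ring)
  have hdiv : N * q ^ 2 / q = N * q := by
    rw [show N * q ^ 2 = N * q * q by ring]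
    exact Nat.mul_div_cancel _ (Nat.pos_of_ne_zero (NeZero.ne q))
  have hm : q * d * (N * q ^ 2 / q) = N * q ^ 2 * d := by
    rw [hdiv]; ring
  haveI : NeZero (q * d * (N * q ^ 2 / q)) := ⟨by
    rw [hm]
    exact Nat.mul_ne_zero (NeZero.ne (N * q ^ 2)) (NeZero.ne d)⟩
  have h1 := Fermat.Agent.S28.HasQExp.comp_of_tParam (M := 1) (N := N * q ^ 2)
    Fermat.Agent.S28.hasQExp_Jfun (affH (q * d) q (a * d))
    (Units.map (iotaK : Kbar →* ℂ) (ζ ^ d)) (q * d * (N * q ^ 2 / q)) (fun τ => by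
      rw [Fermat.Agent.S28.tParam_affH (N * q ^ 2) (q * d) q (a * d) hqL τ]
      congr 1
      rw [map_pow, Units.val_pow_eq_pow_val, hζ, ← zpow_natCast, ← zpow_mul]
      congr 1
      ring)
  have h2 : HasKExp (N * q ^ 2) (Jconj (d * q ^ 2) (s36_ce_gamma N q))
      (substQ (ζ ^ d) (q * d * (N * q ^ 2 / q)) (jqModC Kbar)) := by
    unfold HasKExp
    rw [Fermat.Agent.S28.coeffMap_substQ, coeffMap_jqModC]
    refine h1.congr fun τ => ?_
    exact (s36_ce_J_top N q d n hdn a e hae τ).symm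
  have h3 : substQ (ζ ^ d) (q * d * (N * q ^ 2 / q)) (jqModC Kbar) =
      qExpand Kbar (N * q ^ 2) (twistQ ζ (s37_ew_s d)) := by
    rw [s37_ew_s_eq, coeffEmb, coeffMap_qExpand, ← jqModC_rat, coeffMap_jqModC,
      s36_ce_twist_qExpand, qExpand_qExpand]
    unfold substQ
    exact qExpand_congr hm _
  rw [← h3]
  exact h2

/-! ### The relations -/

/-- The relations between the `j(Q^(d m))`, `d ∣ N`, `m ∣ q²`, are the same as the relations
between their images at the cusp `1/q`. -/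
theorem s36_ce_rel_bar (N q : ℕ) [NeZero N] (hq : q.Prime) (a e : ℤ) (hae : a * N + e * q = 1)
    (ζ : Kbarˣ)
    (hζ : (Units.map (iotaK : Kbar →* ℂ) ζ : ℂ) =
      Fermat.Agent.S28.zetaN (N * q ^ 2) ^ (a * ((N * q ^ 2 / q : ℕ) : ℤ)))
    (P : MvPolynomial ({d : ℕ // d ∣ N} × {m : ℕ // m ∣ q ^ 2}) Kbar) :
    MvPolynomial.aeval
      (fun p : {d : ℕ // d ∣ N} × {m : ℕ // m ∣ q ^ 2} => s37_ew_s (p.1.1 * p.2.1)) P = 0 ↔
    MvPolynomial.aeval
      (fun p : {d : ℕ // d ∣ N} × {m : ℕ // m ∣ q ^ 2} =>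
        if p.2.1 = q ^ 2 then twistQ ζ (s37_ew_s p.1.1) else s37_ew_s (p.1.1 * p.2.1)) P = 0 := by
  haveI : NeZero q := ⟨hq.ne_zero⟩
  haveI : NeZero (N * q ^ 2) := ⟨Nat.mul_ne_zero (NeZero.ne N) (pow_ne_zero 2 hq.ne_zero)⟩
  have hc : ∀ p : {d : ℕ // d ∣ N} × {m : ℕ // m ∣ q ^ 2}, p.1.1 * p.2.1 ∣ N * q ^ 2 :=
    fun p => Nat.mul_dvd_mul p.1.2 p.2.2
  have hne : ∀ p : {d : ℕ // d ∣ N} × {m : ℕ // m ∣ q ^ 2}, NeZero (p.1.1 * p.2.1) :=
    fun p => ⟨ne_zero_of_dvd_ne_zero (NeZero.ne (N * q ^ 2)) (hc p)⟩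
  set γ := s36_ce_gamma N q with hγ
  let G : {d : ℕ // d ∣ N} × {m : ℕ // m ∣ q ^ 2} → modRing (N * q ^ 2) := fun p =>
    haveI := hne p
    ⟨Jconj (p.1.1 * p.2.1) γ, Jconj_mem_modRing (N * q ^ 2) _ (hc p) γ⟩
  have hG : ∀ p, expHom (N * q ^ 2) (G p) = qExpand Kbar (N * q ^ 2)
      (if p.2.1 = q ^ 2 then twistQ ζ (s37_ew_s p.1.1) else s37_ew_s (p.1.1 * p.2.1)) := by
    rintro ⟨⟨d, n, hdn⟩, ⟨m, hmq⟩⟩
    haveI := hne (⟨⟨d, n, hdn⟩, ⟨m, hmq⟩⟩ : {d : ℕ // d ∣ N} × {m : ℕ // m ∣ q ^ 2})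
    refine (expHom_spec (N * q ^ 2) _).unique ?_
    show HasKExp (N * q ^ 2) (Jconj (d * m) γ) (qExpand Kbar (N * q ^ 2)
      (if m = q ^ 2 then twistQ ζ (s37_ew_s d) else s37_ew_s (d * m)))
    have hd0 : d ≠ 0 := by
      rintro rfl
      exact NeZero.ne N (by rw [hdn, zero_mul])
    haveI : NeZero d := ⟨hd0⟩
    by_cases hm : m = q ^ 2
    · subst hm
      rw [if_pos rfl]
      exact s36_ce_exp_top N q d n hdn a e hae ζ hζ
    · rw [if_neg hm]
      obtain ⟨k, hk, rfl⟩ := (Nat.dvd_prime_pow hq).mp hmq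
      have hk1 : k ≤ 1 := by
        rcases Nat.lt_or_ge k 2 with h | h
        · omega
        · exact absurd (by rw [le_antisymm hk h]) hm
      obtain ⟨m', hm'⟩ : q ^ k ∣ q := by
        rcases Nat.eq_zero_or_pos k with h | h
        · rw [h, pow_zero]; exact one_dvd q
        · have : k = 1 := by omega
          rw [this, pow_one]
      exact s36_ce_exp_low (N * q ^ 2) N q (d * q ^ k) (m' * n) (by
        rw [hdn]
        conv_lhs => rw [hm']
        ring)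
  have h2 : ∀ τ : ℍ, ((MvPolynomial.aeval G P : modRing (N * q ^ 2)) : ℍ → ℂ) τ =
      MvPolynomial.aeval (fun p : {d : ℕ // d ∣ N} × {m : ℕ // m ∣ q ^ 2} =>
        s37_ew_JJ (p.1.1 * p.2.1) (γ • τ)) P := by
    intro τ
    have h3 : ((MvPolynomial.aeval G P : modRing (N * q ^ 2)) : ℍ → ℂ) τ =
        ((Pi.evalAlgHom Kbar (fun _ : ℍ => ℂ) τ).comp (modRing (N * q ^ 2)).val)
          (MvPolynomial.aeval G P) := rfl
    rw [h3, ← AlgHom.comp_apply, MvPolynomial.comp_aeval]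
    congr 2
    funext p
    haveI := hne p
    rw [s37_ew_JJ_eq]
    rfl
  have h1 := s37_ew_aeval_eq_zero_iff (N * q ^ 2)
    (fun p : {d : ℕ // d ∣ N} × {m : ℕ // m ∣ q ^ 2} => p.1.1 * p.2.1) hc P
  have h4 : (∀ τ : ℍ, MvPolynomial.aeval (fun p : {d : ℕ // d ∣ N} × {m : ℕ // m ∣ q ^ 2} =>
      s37_ew_JJ (p.1.1 * p.2.1) τ) P = 0) ↔ MvPolynomial.aeval G P = 0 := by
    constructor
    · intro h
      refine Subtype.ext (funext fun τ => ?_)
      rw [h2, h (γ • τ)]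
      rfl
    · intro h τ
      have h5 := h2 (γ⁻¹ • τ)
      rw [smul_inv_smul] at h5
      rw [← h5, h]
      rfl
  have h6 : MvPolynomial.aeval G P = 0 ↔
      MvPolynomial.aeval (fun p : {d : ℕ // d ∣ N} × {m : ℕ // m ∣ q ^ 2} =>
        if p.2.1 = q ^ 2 then twistQ ζ (s37_ew_s p.1.1) else s37_ew_s (p.1.1 * p.2.1)) P = 0 := by
    have h7 : expHom (N * q ^ 2) (MvPolynomial.aeval G P) =
        modfieldQExp (N * q ^ 2) (MvPolynomial.aeval
          (fun p : {d : ℕ // d ∣ N} × {m : ℕ // m ∣ q ^ 2} =>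
            if p.2.1 = q ^ 2 then twistQ ζ (s37_ew_s p.1.1) else s37_ew_s (p.1.1 * p.2.1)) P) := by
      rw [← AlgHom.comp_apply, ← AlgHom.comp_apply, MvPolynomial.comp_aeval,
        MvPolynomial.comp_aeval]
      congr 2
      funext p
      exact hG p
    constructor
    · intro h
      have h8 := h7
      rw [h, map_zero] at h8
      exact qExpand_injective (R := Kbar) (N * q ^ 2)
        (by rw [← modfieldQExp_apply, ← h8, map_zero])
    · intro h
      rw [h, map_zero] at h7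
      exact expHom_injective (N * q ^ 2) (by rw [h7, map_zero])
  rw [h1, h4, h6]

/-! ### Transport to a subfield of `ℚ̄` and the embedding -/

/-- The images of the generators at the cusp `1/q`. -/
def s36_ce_y (K : Type*) [Field K] [Algebra ℚ K] (N q : ℕ) (ζ : Kˣ)
    (p : {d : ℕ // d ∣ N} × {m : ℕ // m ∣ q ^ 2}) : LaurentSeries K :=
  if p.2.1 = q ^ 2 then twistQ ζ (s34_sw_s K p.1.1) else s34_sw_s K (p.1.1 * p.2.1)

section Field

variable {K : Type*} [Field K] [Algebra ℚ K]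

/-- The relations over a subfield `K` of `ℚ̄` containing `ζ`. -/
theorem s36_ce_rel (ι : K →+* Kbar) (N q : ℕ) [NeZero N] (hq : q.Prime) (a e : ℤ)
    (hae : a * N + e * q = 1) (ζ : Kˣ)
    (hζ : iotaK (ι (ζ : K)) =
      Fermat.Agent.S28.zetaN (N * q ^ 2) ^ (a * ((N * q ^ 2 / q : ℕ) : ℤ)))
    (P : MvPolynomial ({d : ℕ // d ∣ N} × {m : ℕ // m ∣ q ^ 2}) K) :
    MvPolynomial.aeval
      (fun p : {d : ℕ // d ∣ N} × {m : ℕ // m ∣ q ^ 2} => s34_sw_s K (p.1.1 * p.2.1)) P = 0 ↔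
    MvPolynomial.aeval (s36_ce_y K N q ζ) P = 0 := by
  have h1 := s36_ce_rel_bar N q hq a e hae (Units.map (ι : K →* Kbar) ζ) (by
    rw [← hζ]; rfl) (MvPolynomial.map ι P)
  have hx : (fun p : {d : ℕ // d ∣ N} × {m : ℕ // m ∣ q ^ 2} =>
      coeffMap ι (s34_sw_s K (p.1.1 * p.2.1))) = fun p => s37_ew_s (p.1.1 * p.2.1) :=
    funext fun p => s34_sw_coeffMap_s ι _
  have hy : (fun p : {d : ℕ // d ∣ N} × {m : ℕ // m ∣ q ^ 2} =>
      coeffMap ι (s36_ce_y K N q ζ p)) = fun p =>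
      if p.2.1 = q ^ 2 then twistQ (Units.map (ι : K →* Kbar) ζ) (s37_ew_s p.1.1)
      else s37_ew_s (p.1.1 * p.2.1) := by
    funext p
    unfold s36_ce_y
    split_ifs with h
    · rw [Fermat.Agent.S28.formal_coeffMap_twistQ, s34_sw_coeffMap_s]
    · exact s34_sw_coeffMap_s ι _
  constructor
  · intro h
    apply s34_sw_coeffMap_injective ι
    rw [map_zero, s34_sw_coeffMap_aeval, hy]
    have h2 := congrArg (coeffMap ι) h
    rw [map_zero, s34_sw_coeffMap_aeval, hx] at h2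
    exact h1.mp h2
  · intro h
    apply s34_sw_coeffMap_injective ι
    rw [map_zero, s34_sw_coeffMap_aeval, hx]
    have h2 := congrArg (coeffMap ι) h
    rw [map_zero, s34_sw_coeffMap_aeval, hy] at h2
    exact h1.mpr h2

/-- **The embedding at the cusp `1/q`** (for the specific root of unity
`ζ = e^{2πi a/q}`, `a N ≡ 1 mod q`). -/
theorem s36_ce_theta (ι : K →+* Kbar) (N q : ℕ) [NeZero N] (hq : q.Prime) (a e : ℤ)
    (hae : a * N + e * q = 1) (ζ : Kˣ)
    (hζ : iotaK (ι (ζ : K)) =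
      Fermat.Agent.S28.zetaN (N * q ^ 2) ^ (a * ((N * q ^ 2 / q : ℕ) : ℤ))) :
    ∃ Θ : laurentBaseChange K (modularFunctionFieldFull (N * q ^ 2)) →ₐ[K] LaurentSeries K,
      ∀ (d m : ℕ) (_ : d ∣ N) (_ : m ∣ q ^ 2)
        (h1 : s34_sw_s K (d * m) ∈ laurentBaseChange K (modularFunctionFieldFull (N * q ^ 2))),
        Θ ⟨s34_sw_s K (d * m), h1⟩ =
          if m = q ^ 2 then twistQ ζ (s34_sw_s K d) else s34_sw_s K (d * m) := by
  haveI : NeZero (q ^ 2) := ⟨pow_ne_zero 2 hq.ne_zero⟩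
  have key : ∀ (F : IntermediateField K (LaurentSeries K))
      (_ : F = IntermediateField.adjoin K
        (Set.range fun p : {d : ℕ // d ∣ N} × {m : ℕ // m ∣ q ^ 2} =>
          s34_sw_s K (p.1.1 * p.2.1))),
      ∃ Θ : F →ₐ[K] LaurentSeries K, ∀ (d m : ℕ) (_ : d ∣ N) (_ : m ∣ q ^ 2)
        (h1 : s34_sw_s K (d * m) ∈ F),
        Θ ⟨s34_sw_s K (d * m), h1⟩ =
          if m = q ^ 2 then twistQ ζ (s34_sw_s K d) else s34_sw_s K (d * m) := by
    intro F hF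
    subst hF
    obtain ⟨Θ, hΘ⟩ := s37_ew_exists_algHom (K := K)
      (fun p : {d : ℕ // d ∣ N} × {m : ℕ // m ∣ q ^ 2} => s34_sw_s K (p.1.1 * p.2.1))
      (s36_ce_y K N q ζ) (fun P => s36_ce_rel ι N q hq a e hae ζ hζ P)
    exact ⟨Θ, fun d m hd hm h1 => hΘ (⟨d, hd⟩, ⟨m, hm⟩) h1⟩
  exact key _ (s34_sw_eq_adjoin N (q ^ 2))

/-- An embedding as in `s36_ce_theta` is the identity on `K · F(N q)`. -/
theorem s36_ce_theta_low (N q : ℕ) [NeZero N] (hq : q.Prime) (ζ : Kˣ)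
    (Θ : laurentBaseChange K (modularFunctionFieldFull (N * q ^ 2)) →ₐ[K] LaurentSeries K)
    (hΘ : ∀ (d m : ℕ) (_ : d ∣ N) (_ : m ∣ q ^ 2)
        (h1 : s34_sw_s K (d * m) ∈ laurentBaseChange K (modularFunctionFieldFull (N * q ^ 2))),
        Θ ⟨s34_sw_s K (d * m), h1⟩ =
          if m = q ^ 2 then twistQ ζ (s34_sw_s K d) else s34_sw_s K (d * m))
    (x : LaurentSeries K) (hx : x ∈ laurentBaseChange K (modularFunctionFieldFull (N * q)))
    (h1 : x ∈ laurentBaseChange K (modularFunctionFieldFull (N * q ^ 2))) :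
    Θ ⟨x, h1⟩ = x := by
  haveI : NeZero q := ⟨hq.ne_zero⟩
  let Eq : IntermediateField K (laurentBaseChange K (modularFunctionFieldFull (N * q ^ 2))) :=
    (RingHom.eqLocusField Θ.toRingHom
      (laurentBaseChange K (modularFunctionFieldFull (N * q ^ 2))).val.toRingHom).toIntermediateField
      (fun c => by
        show Θ (algebraMap K _ c) = (laurentBaseChange K (modularFunctionFieldFull (N * q ^ 2))).val
          (algebraMap K _ c)
        rw [AlgHom.commutes, AlgHom.commutes])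
  have hle := s34_sw_le K (N * q)
    (Eq.map (laurentBaseChange K (modularFunctionFieldFull (N * q ^ 2))).val)
    (fun e _ he => by
      rw [IntermediateField.mem_map]
      obtain ⟨d, m, hd, hm, rfl⟩ := (Nat.dvd_mul).mp he
      have hm2 : m ∣ q ^ 2 := dvd_pow hm two_ne_zero
      have hne : m ≠ q ^ 2 := by
        intro h
        have h2 : m ≤ q := Nat.le_of_dvd hq.pos hm
        have h3 : q < q ^ 2 := by
          have := hq.one_lt
          nlinarith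
        omega
      have hmem : s34_sw_s K (d * m) ∈
          laurentBaseChange K (modularFunctionFieldFull (N * q ^ 2)) := by
        rw [s34_sw_s_eq]
        exact s34_sw_s_mem K (N * q ^ 2) _ (Nat.mul_dvd_mul hd hm2)
      refine ⟨⟨s34_sw_s K (d * m), hmem⟩, ?_, (s34_sw_s_eq K (d * m))⟩
      show Θ ⟨s34_sw_s K (d * m), hmem⟩ = s34_sw_s K (d * m)
      rw [hΘ d m hd hm2 hmem, if_neg hne])
  have h2 := hle hx
  rw [IntermediateField.mem_map] at h2
  obtain ⟨y, hy, hyx⟩ := h2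
  have h3 : y = ⟨x, h1⟩ := Subtype.ext hyx
  have h4 : Θ y = (y : LaurentSeries K) := hy
  rw [← h3, h4]
  exact hyx

/-- **(CE)** For a subfield `K` of `ℚ̄` containing the `q`-th roots of unity and a level
`M = N q²` (`q ∤ N`): there are a primitive `q`-th root of unity `ζ ∈ K` and a `K`-embedding
`Θ : K · F(M) → K((Q))` with `Θ(j(Q^(d m))) = j(Q^(d m))` for `m ∈ {1, q}`,
`Θ(j(Q^(d q²))) = j((ζ Q)^d)` (`d ∣ N`), which is the identity on `K · F(N q)`. -/
theorem s36_ce_main (ι : K →+* Kbar) (N q M : ℕ) [NeZero N] (hq : q.Prime) (hqN : ¬ q ∣ N)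
    (hM : M = N * q ^ 2) (ζ₀ : K) (hζ₀ : IsPrimitiveRoot ζ₀ q) :
    ∃ ζ : Kˣ, IsPrimitiveRoot (ζ : K) q ∧
      ∃ Θ : laurentBaseChange K (modularFunctionFieldFull M) →ₐ[K] LaurentSeries K,
        (∀ (d m : ℕ) (_ : d ∣ N) (_ : m ∣ q ^ 2)
          (h1 : s34_sw_s K (d * m) ∈ laurentBaseChange K (modularFunctionFieldFull M)),
          Θ ⟨s34_sw_s K (d * m), h1⟩ =
            if m = q ^ 2 then twistQ ζ (s34_sw_s K d) else s34_sw_s K (d * m)) ∧
        (∀ (x : LaurentSeries K) (_ : x ∈ laurentBaseChange K (modularFunctionFieldFull (N * q)))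
          (h1 : x ∈ laurentBaseChange K (modularFunctionFieldFull M)), Θ ⟨x, h1⟩ = x) := by
  subst hM
  haveI : NeZero q := ⟨hq.ne_zero⟩
  haveI : NeZero (N * q ^ 2) := ⟨Nat.mul_ne_zero (NeZero.ne N) (pow_ne_zero 2 hq.ne_zero)⟩
  have hcop : Nat.Coprime N q := ((Nat.Prime.coprime_iff_not_dvd hq).mpr hqN).symm
  have hbez := Nat.gcd_eq_gcd_ab N q
  rw [hcop] at hbez
  set a : ℤ := Nat.gcdA N q with ha
  set e : ℤ := Nat.gcdB N q with he
  have hae : a * N + e * q = 1 := by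
    have : ((1 : ℕ) : ℤ) = (N : ℤ) * a + (q : ℤ) * e := hbez
    push_cast at this
    linarith
  have hdiv : N * q ^ 2 / q = N * q := by
    rw [show N * q ^ 2 = N * q * q by ring]
    exact Nat.mul_div_cancel _ hq.pos
  -- the target root of unity in `ℂ`
  have hz : IsPrimitiveRoot
      (Fermat.Agent.S28.zetaN (N * q ^ 2) ^ (a * ((N * q ^ 2 / q : ℕ) : ℤ))) q := by
    have h1 : IsPrimitiveRoot (Fermat.Agent.S28.zetaN (N * q ^ 2) ^ (N * q)) q :=
      (Complex.isPrimitiveRoot_exp (N * q ^ 2) (NeZero.ne (N * q ^ 2))).pow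
        (Nat.pos_of_ne_zero (NeZero.ne (N * q ^ 2))) (by ring)
    have h2 : a.gcd q = 1 := by
      rw [← Int.isCoprime_iff_gcd_eq_one]
      exact ⟨N, e, by rw [mul_comm]; exact hae⟩
    have h3 := h1.zpow_of_gcd_eq_one a h2
    rw [hdiv, mul_comm a, zpow_mul, zpow_natCast]
    exact h3
  have hinj : Function.Injective ((iotaK : Kbar →+* ℂ).comp ι) := RingHom.injective _
  have hw : IsPrimitiveRoot (((iotaK : Kbar →+* ℂ).comp ι) ζ₀) q := hζ₀.map_of_injective hinj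
  obtain ⟨i, -, hi⟩ := hw.eq_pow_of_pow_eq_one hz.pow_eq_one
  have hu : IsUnit ζ₀ := hζ₀.isUnit hq.ne_zero
  have hζ : iotaK (ι ((hu.unit ^ i : Kˣ) : K)) =
      Fermat.Agent.S28.zetaN (N * q ^ 2) ^ (a * ((N * q ^ 2 / q : ℕ) : ℤ)) := by
    rw [Units.val_pow_eq_pow_val, IsUnit.unit_spec, map_pow, map_pow, ← hi]
    rfl
  have hprim : IsPrimitiveRoot ((hu.unit ^ i : Kˣ) : K) q := by
    refine IsPrimitiveRoot.of_map_of_injective (f := (iotaK : Kbar →+* ℂ).comp ι) ?_ hinj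
    show IsPrimitiveRoot (iotaK (ι ((hu.unit ^ i : Kˣ) : K))) q
    rw [hζ]
    exact hz
  obtain ⟨Θ, hΘ⟩ := s36_ce_theta ι N q hq a e hae (hu.unit ^ i) hζ
  exact ⟨hu.unit ^ i, hprim, Θ, hΘ, fun x hx h1 => s36_ce_theta_low N q hq _ Θ hΘ x hx h1⟩

end Field

end Fermat.Agent.S36
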