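import Fermat.Agent.S36.CuspMod5

/-!
# S36 (NODE-3), contract item (c-Cpt), `q ≥ 5`: the congruences of `S36/CuspMod5.lean` with the
element `c = P(j) x^e` explicit (`s36_cm5s_c`), so that its membership in any subring containing
`j` and `x` (e.g. a local ring `B_𝔪` of another chart) is available (`s36_cm5s_c_mem`).
-/

set_option autoImplicit false
set_option synthInstance.maxHeartbeats 400000
set_option linter.style.haveILetI false
set_option linter.unusedSectionVars false
set_option linter.unusedSimpArgs false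

open ModularCurve

noncomputable section

namespace Fermat.Agent.S36

open Fermat.Agent.S28
open Fermat.Agent.S18 Fermat.Agent.S34 Fermat.Agent.S37

section Model

variable {K0 K : Type*} [Field K0] [Field K] [Algebra ℚ K0] [Algebra ℚ K]
  {κ : K0 →+* K} {A : ValuationSubring K} {M : ℕ}
  {Θ : laurentBaseChange K (modularFunctionFieldFull M) →ₐ[K] LaurentSeries K}

/-- The element `c = P(j) x^e`, `P` the integral Hasse polynomial `s36_cs5_P`. -/
def s36_cm5s_c (q : ℕ) [Fact q.Prime] (hq : 5 ≤ q)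
    (jF x : laurentBaseChange K0 (modularFunctionFieldFull M)) (e : ℕ) :
    laurentBaseChange K0 (modularFunctionFieldFull M) :=
  (s36_cs5_P q hq).eval₂ (Int.castRingHom _) jF * x ^ e

/-- `c` lies in every subring containing `j` and `x`. -/
theorem s36_cm5s_c_mem (q : ℕ) [Fact q.Prime] (hq : 5 ≤ q)
    (jF x : laurentBaseChange K0 (modularFunctionFieldFull M)) (e : ℕ)
    (S : Subring (laurentBaseChange K0 (modularFunctionFieldFull M))) (hj : jF ∈ S) (hx : x ∈ S) :
    s36_cm5s_c q hq jF x e ∈ S := by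
  unfold s36_cm5s_c
  refine S.mul_mem ?_ (S.pow_mem hx e)
  rw [Polynomial.eval₂_eq_sum_range]
  exact S.sum_mem (fun i _ => S.mul_mem (intCast_mem S _) (S.pow_mem hj i))

/-- `c = P(j) x^(m d)`, `d = q - 1`, lies in every subring containing `x` and `j x^m`. -/
theorem s36_cm5s_c_mem' (q : ℕ) [Fact q.Prime] (hq : 5 ≤ q)
    (jF x : laurentBaseChange K0 (modularFunctionFieldFull M)) (m : ℕ)
    (S : Subring (laurentBaseChange K0 (modularFunctionFieldFull M))) (hx : x ∈ S)
    (hjx : jF * x ^ m ∈ S) :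
    s36_cm5s_c q hq jF x (m * (q - 1)) ∈ S :=
  s36_cm5_eval_mem S jF x m hx hjx _ (q - 1) (le_of_eq (s36_cs5_P_natDegree q hq))

/-- The image of `c` at the cusp `1/q` and its reduction. -/
theorem s36_cm5s_c_theta {N q : ℕ} {ζ : Aˣ} (hΘ : s36_gc_IsCusp N q ζ Θ) [Fact q.Prime]
    (hq : 5 ≤ q) [CharP (IsLocalRing.ResidueField A) q]
    (jF x : laurentBaseChange K0 (modularFunctionFieldFull M))
    (hj : (jF : LaurentSeries K0) = jqModC K0) (T : LaurentSeries ℤ)
    (hxT : (x : LaurentSeries K0) = coeffMap (Int.castRingHom K0) T)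
    (hjlow : (jF : LaurentSeries K0) ∈ laurentBaseChange K0 (modularFunctionFieldFull (N * q)))
    (hxlow : (x : LaurentSeries K0) ∈ laurentBaseChange K0 (modularFunctionFieldFull (N * q)))
    (e : ℕ) :
    Θ (s36_gc_incl κ M (s36_cm5s_c q hq jF x e)) =
        coeffMap A.subtype (coeffMap (Int.castRingHom A)
          ((s36_cs5_P q hq).eval₂ HahnSeries.C (jqModC ℤ) * T ^ e)) ∧
      coeffMap (IsLocalRing.residue A) (coeffMap (Int.castRingHom A)
          ((s36_cs5_P q hq).eval₂ HahnSeries.C (jqModC ℤ) * T ^ e)) =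
        deltaInvSeries (IsLocalRing.ResidueField A) ^ (q - 1) *
          coeffMap (Int.castRingHom (IsLocalRing.ResidueField A)) T ^ e := by
  set P := s36_cs5_P q hq with hP
  constructor
  · have e1 : ((s36_cm5s_c q hq jF x e :
        laurentBaseChange K0 (modularFunctionFieldFull M)) : LaurentSeries K0) =
        P.eval₂ (Int.castRingHom (LaurentSeries K0)) (jF : LaurentSeries K0) *
          (x : LaurentSeries K0) ^ e := by
      unfold s36_cm5s_c
      push_cast
      rw [s36_cm5_coe_eval]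
    have e2 : P.eval₂ (Int.castRingHom (LaurentSeries K0)) (jF : LaurentSeries K0) *
          (x : LaurentSeries K0) ^ e =
        (((P.eval₂ (Int.castRingHom _) ⟨_, hjlow⟩ * ⟨_, hxlow⟩ ^ e :
          laurentBaseChange K0 (modularFunctionFieldFull (N * q))) :
            laurentBaseChange K0 (modularFunctionFieldFull (N * q))) : LaurentSeries K0) := by
      push_cast
      rw [s36_cm5_coe_eval]
    have hlow : ((s36_cm5s_c q hq jF x e :
        laurentBaseChange K0 (modularFunctionFieldFull M)) : LaurentSeries K0) ∈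
        laurentBaseChange K0 (modularFunctionFieldFull (N * q)) := by
      rw [e1, e2]
      exact SetLike.coe_mem _
    rw [s36_gc_theta_low hΘ _ hlow, e1, hj, hxT, ← s36_cm5_coeffMap_eval, ← map_pow, ← map_mul,
      coeffMap_coeffMap, coeffMap_coeffMap]
    exact coeffMap_congr (RingHom.ext_int _ _) _
  · rw [coeffMap_coeffMap,
      coeffMap_congr (RingHom.ext_int ((IsLocalRing.residue A).comp (Int.castRingHom A))
        (Int.castRingHom (IsLocalRing.ResidueField A))), map_mul, map_pow, s36_cs5_P_red]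

/-- **The congruence hypothesis of `s36_cpt_loc` for `q ≥ 5`, generic form, with `c` explicit.** -/
theorem s36_cm5s_cong {N q : ℕ} {ζ : Aˣ} (hΘ : s36_gc_IsCusp N q ζ Θ) [Fact q.Prime]
    (hq : 5 ≤ q) [CharP (IsLocalRing.ResidueField A) q]
    {z : laurentBaseChange K0 (modularFunctionFieldFull M)}
    (hUnif : s34_Unif z (s36_gc_V κ A M Θ)) (hζ : IsPrimitiveRoot (ζ : A) q)
    (jF x x2 y a : laurentBaseChange K0 (modularFunctionFieldFull M))
    (hj : (jF : LaurentSeries K0) = jqModC K0) (T Ti Az : LaurentSeries ℤ)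
    (hxT : (x : LaurentSeries K0) = coeffMap (Int.castRingHom K0) T)
    (hyT : (y : LaurentSeries K0) = coeffMap (Int.castRingHom K0) Ti)
    (haT : (a : LaurentSeries K0) = coeffMap (Int.castRingHom K0) Az)
    (hjlow : (jF : LaurentSeries K0) ∈ laurentBaseChange K0 (modularFunctionFieldFull (N * q)))
    (hxlow : (x : LaurentSeries K0) ∈ laurentBaseChange K0 (modularFunctionFieldFull (N * q)))
    (hylow : (y : LaurentSeries K0) ∈ laurentBaseChange K0 (modularFunctionFieldFull (N * q)))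
    (halow : (a : LaurentSeries K0) ∈ laurentBaseChange K0 (modularFunctionFieldFull (N * q)))
    (h2 : Θ (s36_gc_incl κ M x2) =
      twistQ (Units.map (A.subtype : A →* K) ζ) (Θ (s36_gc_incl κ M x)))
    (e : ℕ)
    (hid : (-(s36_qt_theta (IsLocalRing.ResidueField A)
          (coeffMap (Int.castRingHom (IsLocalRing.ResidueField A)) T) ^ (q - 1)) *
          coeffMap (Int.castRingHom (IsLocalRing.ResidueField A)) Ti ^ (q - 1)) ^ 6 *
        (deltaInvSeries (IsLocalRing.ResidueField A) ^ (q - 1) *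
          coeffMap (Int.castRingHom (IsLocalRing.ResidueField A)) T ^ e) =
        coeffMap (Int.castRingHom (IsLocalRing.ResidueField A)) Az) :
    (algebraMap K0 (laurentBaseChange K0 (modularFunctionFieldFull M)) (q : K0))⁻¹ *
        ((x2 - x) * y) ^ (q - 1) ∈ s36_gc_V κ A M Θ ∧
      z⁻¹ * (((algebraMap K0 (laurentBaseChange K0 (modularFunctionFieldFull M)) (q : K0))⁻¹ *
        ((x2 - x) * y) ^ (q - 1)) ^ 6 * s36_cm5s_c q hq jF x e - a) ∈ s36_gc_V κ A M Θ := by
  obtain ⟨hC, hCt⟩ := s36_cm5s_c_theta (κ := κ) hΘ hq jF x hj T hxT hjlow hxlow e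
  refine s36_cpt_cong_int q hUnif ζ hζ x x2 y (s36_cm5s_c q hq jF x e) a _ _ _ _
    (s36_cm5_theta_int hΘ x T hxT hxlow) (s36_cm5_theta_int hΘ y Ti hyT hylow) hC
    (s36_cm5_theta_int hΘ a Az haT halow) h2 6 ?_
  rw [hCt, s36_cm5_res_int, s36_cm5_res_int, s36_cm5_res_int]
  exact hid

/-- `q ≥ 5`, `x = t₂`, `y = t₂⁻¹`: `u'^6 c ≡ (x + 64)^(3(q-1))`, `c = P(j) x^(2(q-1))` explicit. -/
theorem s36_cm5s_cong_t2_zero {N q : ℕ} {ζ : Aˣ} (hΘ : s36_gc_IsCusp N q ζ Θ) [Fact q.Prime]
    (hq : 5 ≤ q) [CharP (IsLocalRing.ResidueField A) q]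
    {z : laurentBaseChange K0 (modularFunctionFieldFull M)}
    (hUnif : s34_Unif z (s36_gc_V κ A M Θ)) (hζ : IsPrimitiveRoot (ζ : A) q)
    (jF x x2 y : laurentBaseChange K0 (modularFunctionFieldFull M))
    (hj : (jF : LaurentSeries K0) = jqModC K0)
    (hx : (x : LaurentSeries K0) = s18_t2R K0) (hy : (y : LaurentSeries K0) = s18_t2invR K0)
    (hjlow : (jF : LaurentSeries K0) ∈ laurentBaseChange K0 (modularFunctionFieldFull (N * q)))
    (hxlow : (x : LaurentSeries K0) ∈ laurentBaseChange K0 (modularFunctionFieldFull (N * q)))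
    (hylow : (y : LaurentSeries K0) ∈ laurentBaseChange K0 (modularFunctionFieldFull (N * q)))
    (h2 : Θ (s36_gc_incl κ M x2) =
      twistQ (Units.map (A.subtype : A →* K) ζ) (Θ (s36_gc_incl κ M x))) :
    (algebraMap K0 (laurentBaseChange K0 (modularFunctionFieldFull M)) (q : K0))⁻¹ *
        ((x2 - x) * y) ^ (q - 1) ∈ s36_gc_V κ A M Θ ∧
      z⁻¹ * (((algebraMap K0 (laurentBaseChange K0 (modularFunctionFieldFull M)) (q : K0))⁻¹ *
        ((x2 - x) * y) ^ (q - 1)) ^ 6 * s36_cm5s_c q hq jF x (2 * (q - 1)) - (x + 64) ^ (3 * (q - 1))) ∈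
          s36_gc_V κ A M Θ := by
  have hn : ∀ n : ℕ, ((n : ℕ) : LaurentSeries K0) ∈
      laurentBaseChange K0 (modularFunctionFieldFull (N * q)) := fun n => natCast_mem _ n
  refine s36_cm5s_cong hΘ hq hUnif hζ jF x x2 y ((x + 64) ^ (3 * (q - 1))) hj s18_t2 s18_t2inv
    ((s18_t2 + 64) ^ (3 * (q - 1))) hx hy ?_ hjlow hxlow hylow ?_ h2 (2 * (q - 1)) ?_
  · push_cast
    rw [hx]
    simp only [map_pow, map_add, map_mul, map_one, map_ofNat]
    rfl
  · push_cast
    refine pow_mem ?_ _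
    exact add_mem hxlow (by exact_mod_cast hn 64)
  · simp only [map_pow, map_add, map_mul, map_one, map_ofNat]
    exact s36_cs5_hid_t2_zero q _ hq

/-- `q ≥ 5`, `x = t₂⁻¹`, `y = t₂`: `u'^6 c ≡ (1 + 64 x)^(3(q-1))`, `c = P(j) x^(q-1)` explicit. -/
theorem s36_cm5s_cong_t2_inf {N q : ℕ} {ζ : Aˣ} (hΘ : s36_gc_IsCusp N q ζ Θ) [Fact q.Prime]
    (hq : 5 ≤ q) [CharP (IsLocalRing.ResidueField A) q]
    {z : laurentBaseChange K0 (modularFunctionFieldFull M)}
    (hUnif : s34_Unif z (s36_gc_V κ A M Θ)) (hζ : IsPrimitiveRoot (ζ : A) q)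
    (jF x x2 y : laurentBaseChange K0 (modularFunctionFieldFull M))
    (hj : (jF : LaurentSeries K0) = jqModC K0)
    (hx : (x : LaurentSeries K0) = s18_t2invR K0) (hy : (y : LaurentSeries K0) = s18_t2R K0)
    (hjlow : (jF : LaurentSeries K0) ∈ laurentBaseChange K0 (modularFunctionFieldFull (N * q)))
    (hxlow : (x : LaurentSeries K0) ∈ laurentBaseChange K0 (modularFunctionFieldFull (N * q)))
    (hylow : (y : LaurentSeries K0) ∈ laurentBaseChange K0 (modularFunctionFieldFull (N * q)))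
    (h2 : Θ (s36_gc_incl κ M x2) =
      twistQ (Units.map (A.subtype : A →* K) ζ) (Θ (s36_gc_incl κ M x))) :
    (algebraMap K0 (laurentBaseChange K0 (modularFunctionFieldFull M)) (q : K0))⁻¹ *
        ((x2 - x) * y) ^ (q - 1) ∈ s36_gc_V κ A M Θ ∧
      z⁻¹ * (((algebraMap K0 (laurentBaseChange K0 (modularFunctionFieldFull M)) (q : K0))⁻¹ *
        ((x2 - x) * y) ^ (q - 1)) ^ 6 * s36_cm5s_c q hq jF x (q - 1) - (1 + 64 * x) ^ (3 * (q - 1))) ∈
          s36_gc_V κ A M Θ := by
  have hn : ∀ n : ℕ, ((n : ℕ) : LaurentSeries K0) ∈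
      laurentBaseChange K0 (modularFunctionFieldFull (N * q)) := fun n => natCast_mem _ n
  refine s36_cm5s_cong hΘ hq hUnif hζ jF x x2 y ((1 + 64 * x) ^ (3 * (q - 1))) hj s18_t2inv s18_t2
    ((1 + 64 * s18_t2inv) ^ (3 * (q - 1))) hx hy ?_ hjlow hxlow hylow ?_ h2 (q - 1) ?_
  · push_cast
    rw [hx]
    simp only [map_pow, map_add, map_mul, map_one, map_ofNat]
    rfl
  · push_cast
    refine pow_mem ?_ _
    exact add_mem (one_mem _) (mul_mem (by exact_mod_cast hn 64) hxlow)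
  · simp only [map_pow, map_add, map_mul, map_one, map_ofNat]
    exact s36_cs5_hid_t2_inf q _ hq

/-- `q ≥ 5`, `x = t₃`, `y = t₃⁻¹`: `u'^6 c ≡ (x + 27)^(4(q-1))`, `c = P(j) x^(3(q-1))` explicit. -/
theorem s36_cm5s_cong_t3_zero {N q : ℕ} {ζ : Aˣ} (hΘ : s36_gc_IsCusp N q ζ Θ) [Fact q.Prime]
    (hq : 5 ≤ q) [CharP (IsLocalRing.ResidueField A) q]
    {z : laurentBaseChange K0 (modularFunctionFieldFull M)}
    (hUnif : s34_Unif z (s36_gc_V κ A M Θ)) (hζ : IsPrimitiveRoot (ζ : A) q)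
    (jF x x2 y : laurentBaseChange K0 (modularFunctionFieldFull M))
    (hj : (jF : LaurentSeries K0) = jqModC K0)
    (hx : (x : LaurentSeries K0) = s18_t3R K0) (hy : (y : LaurentSeries K0) = s18_t3invR K0)
    (hjlow : (jF : LaurentSeries K0) ∈ laurentBaseChange K0 (modularFunctionFieldFull (N * q)))
    (hxlow : (x : LaurentSeries K0) ∈ laurentBaseChange K0 (modularFunctionFieldFull (N * q)))
    (hylow : (y : LaurentSeries K0) ∈ laurentBaseChange K0 (modularFunctionFieldFull (N * q)))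
    (h2 : Θ (s36_gc_incl κ M x2) =
      twistQ (Units.map (A.subtype : A →* K) ζ) (Θ (s36_gc_incl κ M x))) :
    (algebraMap K0 (laurentBaseChange K0 (modularFunctionFieldFull M)) (q : K0))⁻¹ *
        ((x2 - x) * y) ^ (q - 1) ∈ s36_gc_V κ A M Θ ∧
      z⁻¹ * (((algebraMap K0 (laurentBaseChange K0 (modularFunctionFieldFull M)) (q : K0))⁻¹ *
        ((x2 - x) * y) ^ (q - 1)) ^ 6 * s36_cm5s_c q hq jF x (3 * (q - 1)) - (x + 27) ^ (4 * (q - 1))) ∈
          s36_gc_V κ A M Θ := by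
  have hn : ∀ n : ℕ, ((n : ℕ) : LaurentSeries K0) ∈
      laurentBaseChange K0 (modularFunctionFieldFull (N * q)) := fun n => natCast_mem _ n
  refine s36_cm5s_cong hΘ hq hUnif hζ jF x x2 y ((x + 27) ^ (4 * (q - 1))) hj s18_t3 s18_t3inv
    ((s18_t3 + 27) ^ (4 * (q - 1))) hx hy ?_ hjlow hxlow hylow ?_ h2 (3 * (q - 1)) ?_
  · push_cast
    rw [hx]
    simp only [map_pow, map_add, map_mul, map_one, map_ofNat]
    rfl
  · push_cast
    refine pow_mem ?_ _
    exact add_mem hxlow (by exact_mod_cast hn 27)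
  · simp only [map_pow, map_add, map_mul, map_one, map_ofNat]
    exact s36_cs5_hid_t3_zero q _ hq

/-- `q ≥ 5`, `x = t₃⁻¹`, `y = t₃`: `u'^6 c ≡ (1 + 27 x)^(4(q-1))`, `c = P(j) x^(q-1)` explicit. -/
theorem s36_cm5s_cong_t3_inf {N q : ℕ} {ζ : Aˣ} (hΘ : s36_gc_IsCusp N q ζ Θ) [Fact q.Prime]
    (hq : 5 ≤ q) [CharP (IsLocalRing.ResidueField A) q]
    {z : laurentBaseChange K0 (modularFunctionFieldFull M)}
    (hUnif : s34_Unif z (s36_gc_V κ A M Θ)) (hζ : IsPrimitiveRoot (ζ : A) q)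
    (jF x x2 y : laurentBaseChange K0 (modularFunctionFieldFull M))
    (hj : (jF : LaurentSeries K0) = jqModC K0)
    (hx : (x : LaurentSeries K0) = s18_t3invR K0) (hy : (y : LaurentSeries K0) = s18_t3R K0)
    (hjlow : (jF : LaurentSeries K0) ∈ laurentBaseChange K0 (modularFunctionFieldFull (N * q)))
    (hxlow : (x : LaurentSeries K0) ∈ laurentBaseChange K0 (modularFunctionFieldFull (N * q)))
    (hylow : (y : LaurentSeries K0) ∈ laurentBaseChange K0 (modularFunctionFieldFull (N * q)))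
    (h2 : Θ (s36_gc_incl κ M x2) =
      twistQ (Units.map (A.subtype : A →* K) ζ) (Θ (s36_gc_incl κ M x))) :
    (algebraMap K0 (laurentBaseChange K0 (modularFunctionFieldFull M)) (q : K0))⁻¹ *
        ((x2 - x) * y) ^ (q - 1) ∈ s36_gc_V κ A M Θ ∧
      z⁻¹ * (((algebraMap K0 (laurentBaseChange K0 (modularFunctionFieldFull M)) (q : K0))⁻¹ *
        ((x2 - x) * y) ^ (q - 1)) ^ 6 * s36_cm5s_c q hq jF x (q - 1) - (1 + 27 * x) ^ (4 * (q - 1))) ∈
          s36_gc_V κ A M Θ := by
  have hn : ∀ n : ℕ, ((n : ℕ) : LaurentSeries K0) ∈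
      laurentBaseChange K0 (modularFunctionFieldFull (N * q)) := fun n => natCast_mem _ n
  refine s36_cm5s_cong hΘ hq hUnif hζ jF x x2 y ((1 + 27 * x) ^ (4 * (q - 1))) hj s18_t3inv s18_t3
    ((1 + 27 * s18_t3inv) ^ (4 * (q - 1))) hx hy ?_ hjlow hxlow hylow ?_ h2 (q - 1) ?_
  · push_cast
    rw [hx]
    simp only [map_pow, map_add, map_mul, map_one, map_ofNat]
    rfl
  · push_cast
    refine pow_mem ?_ _
    exact add_mem (one_mem _) (mul_mem (by exact_mod_cast hn 27) hxlow)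
  · simp only [map_pow, map_add, map_mul, map_one, map_ofNat]
    exact s36_cs5_hid_t3_inf q _ hq

end Model

end Fermat.Agent.S36
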