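import Mathlib

/-!
# S36 (NODE-3), abstract leaf (DER): a local ring with a good coordinate is stable under `d/dx`

Input `hD` of `s36_qk_regular_of_dvd` (`QThick.lean`) and item (U)(i) of the coordinate-free
route: `θ` a derivation of a field `F` (additive + Leibniz), `O ⊆ F` a local ring of a curve at a
rational point with uniformizer `x` (`θ x ≠ 0`), i.e.

* `hres` : every `f ∈ O` is `c + x f₁` with `c ∈ O` a constant (`θ c = 0`) and `f₁ ∈ O`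
  (the residue field consists of constants and `x` generates the maximal ideal);
* `hpole` : every element of `F` lies in `O` after multiplication by a power of `x`;
* `O` is a localization of a subring `R₀` generated by finitely many elements over constants.

Then `θ f / θ x ∈ O` for every `f ∈ O` (`s36_ds_main`).  No completion, no Kähler differentials:
finite generation bounds the pole order of `θ f / θ x` on `O` uniformly (`s36_ds_bound`), and the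
first-order expansion `f = c + x f₁` lowers the bound by one (`s36_ds_descent`).
-/

set_option autoImplicit false

namespace Fermat.Agent.S36

variable {F : Type*} [Field F]

/-- A derivation kills `1`. -/
theorem s36_ds_theta_one (θ : F →+ F) (hθ : ∀ f g, θ (f * g) = θ f * g + f * θ g) : θ 1 = 0 := by
  have h := hθ 1 1
  rw [mul_one, mul_one, one_mul] at h
  have h2 : θ 1 + θ 1 = θ 1 + 0 := by rw [add_zero]; exact h.symm
  exact add_left_cancel h2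

/-- The derivative of an inverse. -/
theorem s36_ds_theta_inv (θ : F →+ F) (hθ : ∀ f g, θ (f * g) = θ f * g + f * θ g) (d : F)
    (hd : d ≠ 0) : θ d⁻¹ = -(θ d * d⁻¹ * d⁻¹) := by
  have h := hθ d d⁻¹
  rw [mul_inv_cancel₀ hd, s36_ds_theta_one θ hθ] at h
  have h2 : d * θ d⁻¹ = -(θ d * d⁻¹) := by linear_combination -h
  have h3 : θ d⁻¹ = d⁻¹ * (d * θ d⁻¹) := by rw [← mul_assoc, inv_mul_cancel₀ hd, one_mul]
  rw [h3, h2]
  ring

/-- **Descent**: a uniform bound `x^C · (θ f / θ x) ∈ O` on `O` implies `θ f / θ x ∈ O`. -/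
theorem s36_ds_descent (θ : F →+ F) (hθ : ∀ f g, θ (f * g) = θ f * g + f * θ g)
    (O : Subring F) (x : F) (hx : x ∈ O)
    (hres : ∀ f ∈ O, ∃ c ∈ O, θ c = 0 ∧ ∃ f₁ ∈ O, f = c + x * f₁)
    (C : ℕ) (hC : ∀ f ∈ O, ∃ g ∈ O, x ^ C * θ f = g * θ x) :
    ∀ f ∈ O, ∃ g ∈ O, θ f = g * θ x := by
  induction C with
  | zero =>
    intro f hf
    obtain ⟨g, hg, h⟩ := hC f hf
    exact ⟨g, hg, by rw [pow_zero, one_mul] at h; exact h⟩
  | succ C ih =>
    apply ih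
    intro f hf
    obtain ⟨c, hc, hθc, f₁, hf₁, rfl⟩ := hres f hf
    obtain ⟨g₁, hg₁, h₁⟩ := hC f₁ hf₁
    refine ⟨x ^ C * f₁ + g₁, O.add_mem (O.mul_mem (O.pow_mem hx C) hf₁) hg₁, ?_⟩
    rw [map_add, hθc, zero_add, hθ, add_mul, ← h₁, pow_succ]
    ring

/-- **Uniform bound from finite generation.**  If `O` is a localization of a subring `R₀ ≤ O`
generated by a finite set `S` together with constants, and every element of `F` lies in `O` after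
multiplication by a power of `x`, then `x^C · (θ f / θ x) ∈ O` for all `f ∈ O`, with one `C`. -/
theorem s36_ds_bound (θ : F →+ F) (hθ : ∀ f g, θ (f * g) = θ f * g + f * θ g)
    (O : Subring F) (x : F) (hx : x ∈ O) (hθx : θ x ≠ 0)
    (hpole : ∀ f : F, ∃ n : ℕ, x ^ n * f ∈ O)
    (S : Finset F) (hSO : ∀ s ∈ S, s ∈ O)
    (hloc : ∀ f ∈ O, ∃ a ∈ Subring.closure ((S : Set F) ∪ {c | c ∈ O ∧ θ c = 0}),
      ∃ d ∈ Subring.closure ((S : Set F) ∪ {c | c ∈ O ∧ θ c = 0}), d⁻¹ ∈ O ∧ f = a * d⁻¹) :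
    ∃ C : ℕ, ∀ f ∈ O, ∃ g ∈ O, x ^ C * θ f = g * θ x := by
  classical
  -- pole orders of the finitely many `θ s / θ x`
  choose n hn using fun s : F => hpole (θ s * (θ x)⁻¹)
  let C := S.sup n
  refine ⟨C, ?_⟩
  -- the closure lies in `O`
  have hR₀O : Subring.closure ((S : Set F) ∪ {c | c ∈ O ∧ θ c = 0}) ≤ O := by
    rw [Subring.closure_le]
    rintro y (hy | hy)
    · exact hSO y hy
    · exact hy.1
  -- the bound on the closure
  have hcl : ∀ a ∈ Subring.closure ((S : Set F) ∪ {c | c ∈ O ∧ θ c = 0}),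
      ∃ g ∈ O, x ^ C * θ a = g * θ x := by
    intro a ha
    induction ha using Subring.closure_induction with
    | mem y hy =>
      rcases hy with hy | hy
      · have hle : n y ≤ C := Finset.le_sup (f := n) hy
        refine ⟨x ^ (C - n y) * (x ^ n y * (θ y * (θ x)⁻¹)),
          O.mul_mem (O.pow_mem hx _) (hn y), ?_⟩
        have : x ^ C = x ^ (C - n y) * x ^ n y := by rw [← pow_add, Nat.sub_add_cancel hle]
        rw [this]
        field_simp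
      · exact ⟨0, O.zero_mem, by rw [hy.2, mul_zero, zero_mul]⟩
    | zero => exact ⟨0, O.zero_mem, by rw [map_zero, mul_zero, zero_mul]⟩
    | one => exact ⟨0, O.zero_mem, by rw [s36_ds_theta_one θ hθ, mul_zero, zero_mul]⟩
    | add a b ha hb iha ihb =>
      obtain ⟨ga, hga, ea⟩ := iha
      obtain ⟨gb, hgb, eb⟩ := ihb
      exact ⟨ga + gb, O.add_mem hga hgb, by rw [map_add, mul_add, ea, eb, add_mul]⟩
    | neg a ha iha =>
      obtain ⟨ga, hga, ea⟩ := iha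
      exact ⟨-ga, O.neg_mem hga, by rw [map_neg, mul_neg, ea, neg_mul]⟩
    | mul a b ha hb iha ihb =>
      obtain ⟨ga, hga, ea⟩ := iha
      obtain ⟨gb, hgb, eb⟩ := ihb
      refine ⟨ga * b + a * gb, O.add_mem (O.mul_mem hga (hR₀O hb)) (O.mul_mem (hR₀O ha) hgb), ?_⟩
      rw [hθ, mul_add, add_mul]
      have e1 : x ^ C * (θ a * b) = (x ^ C * θ a) * b := by ring
      have e2 : x ^ C * (a * θ b) = a * (x ^ C * θ b) := by ring
      rw [e1, e2, ea, eb]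
      ring
  intro f hf
  obtain ⟨a, ha, d, hd, hdinv, rfl⟩ := hloc f hf
  obtain ⟨ga, hga, ea⟩ := hcl a ha
  obtain ⟨gd, hgd, ed⟩ := hcl d hd
  by_cases hd0 : d = 0
  · subst hd0
    exact ⟨0, O.zero_mem, by rw [inv_zero, mul_zero, map_zero, mul_zero, zero_mul]⟩
  · refine ⟨ga * d⁻¹ - a * gd * d⁻¹ * d⁻¹,
      O.sub_mem (O.mul_mem hga hdinv)
        (O.mul_mem (O.mul_mem (O.mul_mem (hR₀O ha) hgd) hdinv) hdinv), ?_⟩
    rw [hθ, s36_ds_theta_inv θ hθ d hd0]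
    have e1 : x ^ C * (θ a * d⁻¹ + a * -(θ d * d⁻¹ * d⁻¹)) =
        (x ^ C * θ a) * d⁻¹ - a * (x ^ C * θ d) * d⁻¹ * d⁻¹ := by ring
    rw [e1, ea, ed]
    ring

/-- **(DER)** `O` is stable under `d/dx = θ / θ x`: the hypothesis `hD` of
`s36_qk_regular_of_dvd`. -/
theorem s36_ds_main (θ : F →+ F) (hθ : ∀ f g, θ (f * g) = θ f * g + f * θ g)
    (O : Subring F) (x : F) (hx : x ∈ O) (hθx : θ x ≠ 0)
    (hres : ∀ f ∈ O, ∃ c ∈ O, θ c = 0 ∧ ∃ f₁ ∈ O, f = c + x * f₁)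
    (hpole : ∀ f : F, ∃ n : ℕ, x ^ n * f ∈ O)
    (S : Finset F) (hSO : ∀ s ∈ S, s ∈ O)
    (hloc : ∀ f ∈ O, ∃ a ∈ Subring.closure ((S : Set F) ∪ {c | c ∈ O ∧ θ c = 0}),
      ∃ d ∈ Subring.closure ((S : Set F) ∪ {c | c ∈ O ∧ θ c = 0}), d⁻¹ ∈ O ∧ f = a * d⁻¹) :
    ∀ f ∈ O, ∃ g ∈ O, θ f = g * θ x := by
  obtain ⟨C, hC⟩ := s36_ds_bound θ hθ O x hx hθx hpole S hSO hloc
  exact s36_ds_descent θ hθ O x hx hres C hC

/-- Variant with a shifted coordinate: stability under `d/dx̄` where the uniformizer is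
`x̄ - a`, `a` a constant (`θ (x̄ - a) = θ x̄`). -/
theorem s36_ds_main_shift (θ : F →+ F) (hθ : ∀ f g, θ (f * g) = θ f * g + f * θ g)
    (O : Subring F) (xb a : F) (hxb : xb ∈ O) (ha : a ∈ O) (hθa : θ a = 0) (hθx : θ xb ≠ 0)
    (hres : ∀ f ∈ O, ∃ c ∈ O, θ c = 0 ∧ ∃ f₁ ∈ O, f = c + (xb - a) * f₁)
    (hpole : ∀ f : F, ∃ n : ℕ, (xb - a) ^ n * f ∈ O)
    (S : Finset F) (hSO : ∀ s ∈ S, s ∈ O)
    (hloc : ∀ f ∈ O, ∃ a ∈ Subring.closure ((S : Set F) ∪ {c | c ∈ O ∧ θ c = 0}),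
      ∃ d ∈ Subring.closure ((S : Set F) ∪ {c | c ∈ O ∧ θ c = 0}), d⁻¹ ∈ O ∧ f = a * d⁻¹) :
    ∀ f ∈ O, ∃ g ∈ O, θ f = g * θ xb := by
  have hθxa : θ (xb - a) = θ xb := by rw [map_sub, hθa, sub_zero]
  have h := s36_ds_main θ hθ O (xb - a) (O.sub_mem hxb ha) (by rw [hθxa]; exact hθx) hres hpole S
    hSO hloc
  intro f hf
  obtain ⟨g, hg, e⟩ := h f hf
  exact ⟨g, hg, by rw [e, hθxa]⟩

/-! ### Poles of `(θ x)^m` at the point of `O`

Two abstract criteria for "`(θ x)^m ∉ O`" (the thickness `ρ_x = (θ x̄)^(q-1)` has a pole at the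
point), where `x` is a uniformizer of `O` (`x ∈ O`, `x⁻¹ ∉ O`) and `O` is stable under
`d/dx = θ/θ x` (`hD`, from `s36_ds_main`), in terms of another coordinate `t ∈ O`
(the chart coordinate):

* `s36_ds_pole_of_rel` : a relation `((θ t)^m)^k · P = U` with `P ∈ x O` and `U ∈ O^×`;
* `s36_ds_pole_of_unit` : `(θ t)^m ∈ O^×` and `t ∈ c + x² O` with `c` a constant.
-/

/-- Chain rule: `(θ t)^m = g^m (θ x)^m` with `g = dt/dx ∈ O`. -/
theorem s36_ds_chain (θ : F →+ F) (O : Subring F) (x : F)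
    (hD : ∀ f ∈ O, ∃ g ∈ O, θ f = g * θ x) (t : F) (ht : t ∈ O) (m : ℕ) :
    ∃ g ∈ O, θ t ^ m = g * θ x ^ m := by
  obtain ⟨g, hg, e⟩ := hD t ht
  exact ⟨g ^ m, O.pow_mem hg m, by rw [e, mul_pow]⟩

/-- **Pole from a relation.**  If `((θ t)^m)^k · (x · P₁) = U` with `t, P₁ ∈ O` and `U` a unit
of `O`, then `(θ x)^m ∉ O`. -/
theorem s36_ds_pole_of_rel (θ : F →+ F) (O : Subring F) (x : F) (hxinv : x⁻¹ ∉ O)
    (hD : ∀ f ∈ O, ∃ g ∈ O, θ f = g * θ x) (t : F) (ht : t ∈ O) (m k : ℕ)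
    (P₁ U : F) (hP₁ : P₁ ∈ O) (hU : U⁻¹ ∈ O) (hU0 : U ≠ 0)
    (hrel : (θ t ^ m) ^ k * (x * P₁) = U) : θ x ^ m ∉ O := by
  intro h
  obtain ⟨g, hg, e⟩ := s36_ds_chain θ O x hD t ht m
  apply hxinv
  have hx0 : x ≠ 0 := by
    rintro rfl
    rw [zero_mul, mul_zero] at hrel
    exact hU0 hrel.symm
  have h1 : x⁻¹ = (g * θ x ^ m) ^ k * P₁ * U⁻¹ := by
    rw [eq_mul_inv_iff_mul_eq₀ hU0, ← hrel, e]
    calc x⁻¹ * ((g * θ x ^ m) ^ k * (x * P₁))
        = (x⁻¹ * x) * ((g * θ x ^ m) ^ k * P₁) := by ring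
      _ = (g * θ x ^ m) ^ k * P₁ := by rw [inv_mul_cancel₀ hx0, one_mul]
  rw [h1]
  exact O.mul_mem (O.mul_mem (O.pow_mem (O.mul_mem hg h) k) hP₁) hU

/-- **Pole from a unit and a double point.**  If `(θ t)^m` is a unit of `O` (`m ≥ 1`) and
`t = c + x² f₂` with `c` a constant and `f₂ ∈ O` (so `dt/dx` vanishes at the point), then
`(θ x)^m ∉ O`. -/
theorem s36_ds_pole_of_unit (θ : F →+ F) (hθ : ∀ f g, θ (f * g) = θ f * g + f * θ g)
    (O : Subring F) (x : F) (hx : x ∈ O) (hxinv : x⁻¹ ∉ O)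
    (hD : ∀ f ∈ O, ∃ g ∈ O, θ f = g * θ x) (t c f₂ : F) (hc : θ c = 0) (hf₂ : f₂ ∈ O)
    (ht : t = c + x ^ 2 * f₂) (m : ℕ) (hm : 0 < m) (hunit : (θ t ^ m)⁻¹ ∈ O)
    (hne : θ t ≠ 0) : θ x ^ m ∉ O := by
  intro h
  obtain ⟨g₂, hg₂, e₂⟩ := hD f₂ hf₂
  have e : θ t = x * ((f₂ + f₂ + x * g₂) * θ x) := by
    rw [ht, map_add, hc, zero_add, hθ, pow_two, hθ, e₂]
    ring
  apply hxinv
  obtain ⟨m', rfl⟩ : ∃ m', m = m' + 1 := ⟨m - 1, by omega⟩
  have hx0 : x ≠ 0 := by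
    rintro rfl
    rw [zero_mul] at e
    exact hne e
  have h1 : x⁻¹ = x ^ m' * ((f₂ + f₂ + x * g₂) ^ (m' + 1) * θ x ^ (m' + 1)) *
      (θ t ^ (m' + 1))⁻¹ := by
    have hne' : θ t ^ (m' + 1) ≠ 0 := pow_ne_zero _ hne
    rw [eq_mul_inv_iff_mul_eq₀ hne', e, mul_pow, mul_pow, pow_succ x m']
    calc x⁻¹ * (x ^ m' * x * ((f₂ + f₂ + x * g₂) ^ (m' + 1) * θ x ^ (m' + 1)))
        = (x⁻¹ * x) * (x ^ m' * ((f₂ + f₂ + x * g₂) ^ (m' + 1) * θ x ^ (m' + 1))) := by ring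
      _ = x ^ m' * ((f₂ + f₂ + x * g₂) ^ (m' + 1) * θ x ^ (m' + 1)) := by
        rw [inv_mul_cancel₀ hx0, one_mul]
  rw [h1]
  exact O.mul_mem (O.mul_mem (O.pow_mem hx m')
    (O.mul_mem (O.pow_mem (O.add_mem (O.add_mem hf₂ hf₂) (O.mul_mem hx hg₂)) _) h)) hunit

end Fermat.Agent.S36
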