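import Mathlib

/-!
# S36 (NODE-3), leaf (U_s): the derivative rule at a regular point

Let `R` be a noetherian local domain whose maximal ideal is generated by two elements `π = φ ϖ`
and `s`, with `π` a prime element not dividing `s` (so `R` is regular of dimension two and `s`
reduces to a uniformizer of the discrete valuation ring `R / π`), and let `φ : A₀ →+* R` be a
coefficient ring surjecting onto the residue field, all of whose elements are units of `R` or
multiples of `ϖ` (`A₀` a discrete valuation ring with uniformizer `ϖ`, `φ` local).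

Then `R` behaves like `A₀⟦s⟧` for the purpose of differentiating polynomials in `s`:

* `s36_us_deriv` : if `p ^ 2 ∣ g(s)` for `g ∈ A₀[X]`, then `p ∣ g'(s)`;
* `s36_us_sqfree` : with a Bézout relation `a g + b g' = ϖ ^ k`, `p ^ 2 ∣ g(s)` forces `p ∣ π ^ k`;
* `s36_us_not_sq_dvd` : hence for a prime element `p` not associated to `π` (a horizontal prime),
  `p ^ 2 ∤ g(s)`: `g(s)` is a uniformizer of `R_(p)` whenever it vanishes there.

No completion is used: only the elementary analytic independence of `(π, s)` and Krull's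
intersection theorem.
-/

set_option autoImplicit false

open Polynomial

namespace Fermat.Agent.S36

section Abstract

variable {R : Type*} [CommRing R]

/-- Elements of `(π, s)^(k+1)` are of the form `π μ + s^(k+1) r` with `μ ∈ (π, s)^k`. -/
theorem s36_us_decomp (π s : R) (k : ℕ) (x : R) (hx : x ∈ Ideal.span {π, s} ^ (k + 1)) :
    ∃ μ ∈ Ideal.span {π, s} ^ k, ∃ r : R, x = π * μ + s ^ (k + 1) * r := by
  induction k generalizing x with
  | zero =>
    rw [zero_add, pow_one] at hx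
    obtain ⟨a, b, rfl⟩ := Ideal.mem_span_pair.mp hx
    exact ⟨a, by simp, b, by ring⟩
  | succ k ih =>
    have hs : s ∈ Ideal.span {π, s} := Ideal.subset_span (by simp)
    rw [pow_succ] at hx
    refine Submodule.mul_induction_on hx ?_ ?_
    · intro y hy z hz
      obtain ⟨μ, hμ, r, rfl⟩ := ih y hy
      obtain ⟨a, b, rfl⟩ := Ideal.mem_span_pair.mp hz
      refine ⟨μ * (a * π + b * s) + s ^ (k + 1) * r * a, ?_, r * b, by ring⟩
      refine add_mem ?_ ?_
      · rw [pow_succ]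
        exact Ideal.mul_mem_mul hμ hz
      · exact Ideal.mul_mem_right _ _ (Ideal.mul_mem_right _ _ (Ideal.pow_mem_pow hs _))
    · rintro x y ⟨μ, hμ, r, rfl⟩ ⟨μ', hμ', r', rfl⟩
      exact ⟨μ + μ', add_mem hμ hμ', r + r', by ring⟩

variable [IsDomain R]

/-- `s` is a nonzerodivisor on the associated graded ring of `(π, s)`. -/
theorem s36_us_cancel_s (π s : R) (hπ : Prime π) (hs : ¬ π ∣ s) (n : ℕ) (b : R)
    (h : s * b ∈ Ideal.span {π, s} ^ (n + 1)) : b ∈ Ideal.span {π, s} ^ n := by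
  induction n generalizing b with
  | zero => simp
  | succ n ih =>
    obtain ⟨μ, hμ, r, hr⟩ := s36_us_decomp π s (n + 1) _ h
    have h1 : π ∣ s * (b - s ^ (n + 1) * r) := ⟨μ, by rw [mul_sub, hr]; ring⟩
    obtain ⟨t, ht⟩ := (hπ.dvd_or_dvd h1).resolve_left hs
    have h2 : s * t = μ := by
      have h3 : π * (s * t) = π * μ := by
        calc π * (s * t) = s * (π * t) := by ring
          _ = s * (b - s ^ (n + 1) * r) := by rw [ht]
          _ = π * μ := by rw [mul_sub, hr]; ring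
      exact mul_left_cancel₀ hπ.ne_zero h3
    have h3 : t ∈ Ideal.span {π, s} ^ n := ih t (h2 ▸ hμ)
    have hb : b = s ^ (n + 1) * r + π * t := by rw [← ht]; ring
    rw [hb]
    refine add_mem (Ideal.mul_mem_right _ _ (Ideal.pow_mem_pow (Ideal.subset_span (by simp)) _)) ?_
    rw [pow_succ']
    exact Ideal.mul_mem_mul (Ideal.subset_span (by simp)) h3

variable {A₀ : Type*} [CommRing A₀]

/-- A constant which is congruent to a multiple of `s` modulo `(π, s)^(n+1)` lies in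
`(π, s)^(n+1)`. -/
theorem s36_us_const (φ : A₀ →+* R) (ϖ : A₀) (s : R) (hπ : Prime (φ ϖ)) (hs : ¬ φ ϖ ∣ s)
    (hne : Ideal.span {φ ϖ, s} ≠ ⊤)
    (hC : ∀ c : A₀, IsUnit (φ c) ∨ ∃ c' : A₀, c = ϖ * c')
    (n : ℕ) (c : A₀) (b : R) (h : φ c + s * b ∈ Ideal.span {φ ϖ, s} ^ (n + 1)) :
    φ c ∈ Ideal.span {φ ϖ, s} ^ (n + 1) := by
  have hsm : s ∈ Ideal.span {φ ϖ, s} := Ideal.subset_span (by simp)
  have hπm : φ ϖ ∈ Ideal.span {φ ϖ, s} := Ideal.subset_span (by simp)
  induction n generalizing c b with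
  | zero =>
    rw [zero_add, pow_one] at h ⊢
    exact (Ideal.add_mem_iff_left _ (Ideal.mul_mem_right _ _ hsm)).mp h
  | succ n ih =>
    have hcm : φ c ∈ Ideal.span {φ ϖ, s} :=
      (Ideal.add_mem_iff_left _ (Ideal.mul_mem_right _ _ hsm)).mp
        (Ideal.pow_le_self (by omega) h)
    have hnu : ¬ IsUnit (φ c) := fun hu => hne (Ideal.eq_top_of_isUnit_mem _ hcm hu)
    obtain ⟨c', rfl⟩ := (hC c).resolve_left hnu
    obtain ⟨μ, hμ, r, hr⟩ := s36_us_decomp (φ ϖ) s (n + 1) _ h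
    rw [map_mul] at hr
    have h1 : φ ϖ ∣ s * (b - s ^ (n + 1) * r) := ⟨μ - φ c', by linear_combination hr⟩
    obtain ⟨t, ht⟩ := (hπ.dvd_or_dvd h1).resolve_left hs
    have h2 : φ c' + s * t = μ := by
      have h3 : φ ϖ * (φ c' + s * t) = φ ϖ * μ := by
        linear_combination hr - s * ht
      exact mul_left_cancel₀ hπ.ne_zero h3
    have h3 : φ c' ∈ Ideal.span {φ ϖ, s} ^ (n + 1) := ih c' t (h2 ▸ hμ)
    rw [map_mul, pow_succ' _ (n + 1)]
    exact Ideal.mul_mem_mul hπm h3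

/-- **Crux.** If `H(s) ∈ (π, s)^(n+1)` for a polynomial `H` over `A₀`, then
`H'(s) ∈ (π, s)^n`. -/
theorem s36_us_crux (φ : A₀ →+* R) (ϖ : A₀) (s : R) (hπ : Prime (φ ϖ)) (hs : ¬ φ ϖ ∣ s)
    (hne : Ideal.span {φ ϖ, s} ≠ ⊤)
    (hC : ∀ c : A₀, IsUnit (φ c) ∨ ∃ c' : A₀, c = ϖ * c')
    (n : ℕ) (H : A₀[X]) (h : H.eval₂ φ s ∈ Ideal.span {φ ϖ, s} ^ (n + 1)) :
    (derivative H).eval₂ φ s ∈ Ideal.span {φ ϖ, s} ^ n := by
  have hsm : s ∈ Ideal.span {φ ϖ, s} := Ideal.subset_span (by simp)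
  induction n generalizing H with
  | zero => simp
  | succ n ih =>
    have e1 : H.eval₂ φ s = φ (H.coeff 0) + s * H.divX.eval₂ φ s := by
      conv_lhs => rw [← divX_mul_X_add H]
      rw [eval₂_add, eval₂_mul, eval₂_X, eval₂_C]
      ring
    have e2 : (derivative H).eval₂ φ s
        = (derivative H.divX).eval₂ φ s * s + H.divX.eval₂ φ s := by
      conv_lhs => rw [← divX_mul_X_add H]
      rw [derivative_add, derivative_mul, derivative_X, derivative_C, mul_one, add_zero,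
        eval₂_add, eval₂_mul, eval₂_X]
    rw [e1] at h
    have h1 : φ (H.coeff 0) ∈ Ideal.span {φ ϖ, s} ^ (n + 1 + 1) :=
      s36_us_const φ ϖ s hπ hs hne hC (n + 1) _ _ h
    have h2 : s * H.divX.eval₂ φ s ∈ Ideal.span {φ ϖ, s} ^ (n + 1 + 1) :=
      (Ideal.add_mem_iff_right _ h1).mp h
    have h3 : H.divX.eval₂ φ s ∈ Ideal.span {φ ϖ, s} ^ (n + 1) :=
      s36_us_cancel_s (φ ϖ) s hπ hs (n + 1) _ h2
    have h4 : (derivative H.divX).eval₂ φ s ∈ Ideal.span {φ ϖ, s} ^ n := ih H.divX h3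
    rw [e2]
    refine add_mem ?_ h3
    rw [pow_succ]
    exact Ideal.mul_mem_mul h4 hsm

omit [IsDomain R] in
/-- Polynomial approximation of the elements of `R` modulo `(π, s)^n`. -/
theorem s36_us_approx (φ : A₀ →+* R) (ϖ : A₀) (s : R)
    (hres : ∀ r : R, ∃ c : A₀, r - φ c ∈ Ideal.span {φ ϖ, s}) (n : ℕ) (r : R) :
    ∃ H : A₀[X], r - H.eval₂ φ s ∈ Ideal.span {φ ϖ, s} ^ n := by
  induction n generalizing r with
  | zero => exact ⟨0, by simp⟩
  | succ n ih =>
    obtain ⟨c, hc⟩ := hres r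
    obtain ⟨a, b, hab⟩ := Ideal.mem_span_pair.mp hc
    obtain ⟨Ha, hHa⟩ := ih a
    obtain ⟨Hb, hHb⟩ := ih b
    refine ⟨C c + C ϖ * Ha + X * Hb, ?_⟩
    have e : r - (C c + C ϖ * Ha + X * Hb).eval₂ φ s
        = (a - Ha.eval₂ φ s) * φ ϖ + (b - Hb.eval₂ φ s) * s := by
      rw [eval₂_add, eval₂_add, eval₂_mul, eval₂_mul, eval₂_C, eval₂_C, eval₂_X]
      linear_combination -hab
    rw [e, pow_succ]
    exact add_mem (Ideal.mul_mem_mul hHa (Ideal.subset_span (by simp)))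
      (Ideal.mul_mem_mul hHb (Ideal.subset_span (by simp)))

end Abstract

section Main

variable {A₀ R : Type*} [CommRing A₀] [CommRing R] [IsDomain R] [IsNoetherianRing R]
  [IsLocalRing R]

/-- **(U_s), derivative rule.** In a two-dimensional regular local ring `R` with parameters
`(π, s)` and coefficient ring `A₀`: if `p ^ 2` divides `g(s)`, then `p` divides `g'(s)`. -/
theorem s36_us_deriv (φ : A₀ →+* R) (ϖ : A₀) (s : R)
    (hm : IsLocalRing.maximalIdeal R = Ideal.span {φ ϖ, s})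
    (hπ : Prime (φ ϖ)) (hs : ¬ φ ϖ ∣ s)
    (hres : ∀ r : R, ∃ c : A₀, r - φ c ∈ IsLocalRing.maximalIdeal R)
    (hC : ∀ c : A₀, IsUnit (φ c) ∨ ∃ c' : A₀, c = ϖ * c')
    (g : A₀[X]) (p w : R) (h : g.eval₂ φ s = p ^ 2 * w) :
    p ∣ (derivative g).eval₂ φ s := by
  have hne : Ideal.span {φ ϖ, s} ≠ ⊤ := hm ▸ (IsLocalRing.maximalIdeal.isMaximal R).ne_top
  rw [hm] at hres
  -- `g'(s) ∈ (p) + 𝔪^n` for every `n`
  have key : ∀ n : ℕ, ∃ a : R, (derivative g).eval₂ φ s - p * a ∈ Ideal.span {φ ϖ, s} ^ n := by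
    intro n
    obtain ⟨P, hP⟩ := s36_us_approx φ ϖ s hres (n + 1) p
    obtain ⟨Q, hQ⟩ := s36_us_approx φ ϖ s hres (n + 1) w
    have hH : (g - P ^ 2 * Q).eval₂ φ s ∈ Ideal.span {φ ϖ, s} ^ (n + 1) := by
      have e : (g - P ^ 2 * Q).eval₂ φ s
          = (p - P.eval₂ φ s) * ((p + P.eval₂ φ s) * w)
            + (w - Q.eval₂ φ s) * (P.eval₂ φ s) ^ 2 := by
        rw [eval₂_sub, eval₂_mul, eval₂_pow, h]
        ring
      rw [e]
      exact add_mem (Ideal.mul_mem_right _ _ hP) (Ideal.mul_mem_right _ _ hQ)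
    have hD := s36_us_crux φ ϖ s hπ hs hne hC n _ hH
    have e2 : (derivative (g - P ^ 2 * Q)).eval₂ φ s
        = (derivative g).eval₂ φ s
          - P.eval₂ φ s * (2 * (derivative P).eval₂ φ s * Q.eval₂ φ s
              + P.eval₂ φ s * (derivative Q).eval₂ φ s) := by
      rw [derivative_sub, derivative_mul, derivative_pow]
      simp only [eval₂_sub, eval₂_add, eval₂_mul, eval₂_pow, map_natCast]
      norm_num
      ring
    rw [e2] at hD
    refine ⟨2 * (derivative P).eval₂ φ s * Q.eval₂ φ s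
      + P.eval₂ φ s * (derivative Q).eval₂ φ s, ?_⟩
    have e3 : (derivative g).eval₂ φ s - p * (2 * (derivative P).eval₂ φ s * Q.eval₂ φ s
          + P.eval₂ φ s * (derivative Q).eval₂ φ s)
        = ((derivative g).eval₂ φ s - P.eval₂ φ s * (2 * (derivative P).eval₂ φ s * Q.eval₂ φ s
              + P.eval₂ φ s * (derivative Q).eval₂ φ s))
          - (p - P.eval₂ φ s) * (2 * (derivative P).eval₂ φ s * Q.eval₂ φ s
              + P.eval₂ φ s * (derivative Q).eval₂ φ s) := by ring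
    rw [e3]
    exact sub_mem hD (Ideal.mul_mem_right _ _ (Ideal.pow_le_pow_right (Nat.le_succ n) hP))
  -- Krull's intersection theorem for `R ⧸ (p)`
  set x := (derivative g).eval₂ φ s with hx_def
  have hmem : (Ideal.Quotient.mk (Ideal.span {p}) x)
      ∈ (⨅ i : ℕ, (IsLocalRing.maximalIdeal R) ^ i • ⊤ :
          Submodule R (R ⧸ Ideal.span {p})) := by
    rw [Submodule.mem_iInf]
    intro i
    obtain ⟨a, ha⟩ := key i
    have e : Ideal.Quotient.mk (Ideal.span {p}) x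
        = (x - p * a) • (1 : R ⧸ Ideal.span {p}) := by
      rw [Algebra.smul_def, mul_one, Ideal.Quotient.algebraMap_eq, Ideal.Quotient.eq]
      have : x - (x - p * a) = p * a := by ring
      rw [this]
      exact Ideal.mul_mem_right _ _ (Ideal.subset_span rfl)
    rw [e, hm]
    exact Submodule.smul_mem_smul ha Submodule.mem_top
  rw [Ideal.iInf_pow_smul_eq_bot_of_le_jacobson _ (IsLocalRing.maximalIdeal_le_jacobson _)] at hmem
  have h0 : Ideal.Quotient.mk (Ideal.span {p}) x = 0 := (Submodule.mem_bot R).mp hmem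
  exact Ideal.mem_span_singleton.mp (Ideal.Quotient.eq_zero_iff_mem.mp h0)

/-- **(U_s), squarefree form.** With a Bézout relation `a g + b g' = ϖ ^ k` in `A₀[X]`, a square
factor `p ^ 2` of `g(s)` divides a power of `π`. -/
theorem s36_us_sqfree (φ : A₀ →+* R) (ϖ : A₀) (s : R)
    (hm : IsLocalRing.maximalIdeal R = Ideal.span {φ ϖ, s})
    (hπ : Prime (φ ϖ)) (hs : ¬ φ ϖ ∣ s)
    (hres : ∀ r : R, ∃ c : A₀, r - φ c ∈ IsLocalRing.maximalIdeal R)
    (hC : ∀ c : A₀, IsUnit (φ c) ∨ ∃ c' : A₀, c = ϖ * c')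
    (g a b : A₀[X]) (k : ℕ) (hab : a * g + b * derivative g = C (ϖ ^ k))
    (p w : R) (h : g.eval₂ φ s = p ^ 2 * w) :
    p ∣ φ ϖ ^ k := by
  have h1 : p ∣ (derivative g).eval₂ φ s := s36_us_deriv φ ϖ s hm hπ hs hres hC g p w h
  have h2 : p ∣ g.eval₂ φ s := ⟨p * w, by rw [h]; ring⟩
  have h3 := congrArg (eval₂ φ s) hab
  rw [eval₂_add, eval₂_mul, eval₂_mul, eval₂_C, map_pow] at h3
  rw [← h3]
  exact dvd_add (Dvd.dvd.mul_left h2 _) (Dvd.dvd.mul_left h1 _)

/-- **(U_s), horizontal primes.** For a prime element `p` of `R` not associated to `π`,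
`p ^ 2` does not divide `g(s)` when `g` is squarefree in the sense of a Bézout relation
`a g + b g' = ϖ ^ k`: the function `g(s)` is a uniformizer of `R_(p)` whenever it vanishes
there. -/
theorem s36_us_not_sq_dvd (φ : A₀ →+* R) (ϖ : A₀) (s : R)
    (hm : IsLocalRing.maximalIdeal R = Ideal.span {φ ϖ, s})
    (hπ : Prime (φ ϖ)) (hs : ¬ φ ϖ ∣ s)
    (hres : ∀ r : R, ∃ c : A₀, r - φ c ∈ IsLocalRing.maximalIdeal R)
    (hC : ∀ c : A₀, IsUnit (φ c) ∨ ∃ c' : A₀, c = ϖ * c')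
    (g a b : A₀[X]) (k : ℕ) (hab : a * g + b * derivative g = C (ϖ ^ k))
    (p : R) (hp : Prime p) (hpπ : ¬ Associated p (φ ϖ)) :
    ¬ p ^ 2 ∣ g.eval₂ φ s := by
  rintro ⟨w, hw⟩
  have h1 : p ∣ φ ϖ ^ k := s36_us_sqfree φ ϖ s hm hπ hs hres hC g a b k hab p w hw
  have h2 : p ∣ φ ϖ := hp.dvd_of_dvd_pow h1
  exact hpπ (hp.irreducible.associated_of_dvd hπ.irreducible h2)

end Main

end Fermat.Agent.S36
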