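import Mathlib

/-!
# S36 (NODE-3): the determinant trick on a finite `p`-group, with an exponent bounded by the socle

Mathlib-only.  `s36_dt_main`: let `J` be a finite abelian group killed by `p ^ n`, acted on by a
commutative ring `R`, `Y` an `R`-stable subgroup, `𝔰` an ideal of `R` and `C` a natural number
killing the `𝔰`-torsion of `Y`.  Then `C ^ E + a` kills `Y` for some `a ∈ 𝔰`, where
`E = #J[p]` does not depend on `n`.

Proof: the Pontryagin dual `Y^∨` (Mathlib's `CharacterModule`) is generated, over `ℤ`, by the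
restrictions of `E` characters of `J` (one per element of `J[p]`), by Baer's criterion; the same
criterion gives `C • Y^∨ ⊆ 𝔰 • Y^∨`; Cayley–Hamilton then produces the monic polynomial.
-/

namespace Fermat.Agent.S36

/-- Baer extension through a not necessarily injective map. -/
theorem s36_dt_ext {X P : Type*} [AddCommGroup X] [AddCommGroup P] (g : X →+ P)
    (χ : X →+ AddCircle (1 : ℚ)) (hk : ∀ x, g x = 0 → χ x = 0) :
    ∃ Ψ : P →+ AddCircle (1 : ℚ), ∀ x, Ψ (g x) = χ x := by
  have hle : g.ker ≤ χ.ker := fun x hx => hk x hx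
  obtain ⟨Ψ, hΨ⟩ :=
    (Module.Baer.of_divisible (AddCircle (1 : ℚ))).extension_property_addMonoidHom
      (QuotientAddGroup.kerLift g) (QuotientAddGroup.kerLift_injective g)
      (QuotientAddGroup.lift g.ker χ hle)
  refine ⟨Ψ, fun x => ?_⟩
  have h := congrArg (fun F : X ⧸ g.ker →+ AddCircle (1 : ℚ) => F (QuotientAddGroup.mk x)) hΨ
  simpa using h

/-- Baer extension through a map into a finite product: a character killing the common kernel of
finitely many homomorphisms is a sum of characters composed with them. -/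
theorem s36_dt_ext_pi {X W κ : Type*} [AddCommGroup X] [AddCommGroup W] [Fintype κ]
    [DecidableEq κ] (g : κ → X →+ W) (χ : X →+ AddCircle (1 : ℚ))
    (hk : ∀ x, (∀ k, g k x = 0) → χ x = 0) :
    ∃ ψ : κ → W →+ AddCircle (1 : ℚ), ∀ x, χ x = ∑ k, ψ k (g k x) := by
  obtain ⟨Ψ, hΨ⟩ := s36_dt_ext (AddMonoidHom.pi g) χ
    (fun x hx => hk x (fun k => congrFun hx k))
  refine ⟨fun k => Ψ.comp (AddMonoidHom.single (fun _ => W) k), fun x => ?_⟩
  rw [← hΨ x]
  conv_lhs => rw [← Finset.univ_sum_single (AddMonoidHom.pi g x)]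
  rw [map_sum]
  rfl

/-- The `N`-torsion of `ℚ/ℤ` is generated by `1/N`. -/
theorem s36_dt_tors (N : ℕ) (hN : N ≠ 0) (t : AddCircle (1 : ℚ)) (ht : N • t = 0) :
    ∃ k : ℤ, t = k • (((N : ℚ)⁻¹ : ℚ) : AddCircle (1 : ℚ)) := by
  induction t using QuotientAddGroup.induction_on with
  | H q =>
    have h1 : ((N • q : ℚ) : AddCircle (1 : ℚ)) = 0 := by
      rw [AddCircle.coe_nsmul]; exact ht
    rw [AddCircle.coe_eq_zero_iff] at h1
    obtain ⟨m, hm⟩ := h1
    refine ⟨m, ?_⟩
    rw [← AddCircle.coe_zsmul]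
    congr 1
    have hN' : (N : ℚ) ≠ 0 := Nat.cast_ne_zero.mpr hN
    simp only [zsmul_eq_mul, mul_one, nsmul_eq_mul] at hm ⊢
    field_simp
    rw [hm]; ring

/-- Every endomorphism of `ℚ/ℤ` acts on the `N`-torsion as multiplication by an integer. -/
theorem s36_dt_endo (N : ℕ) (hN : N ≠ 0) (ψ : AddCircle (1 : ℚ) →+ AddCircle (1 : ℚ)) :
    ∃ m : ℤ, ∀ t : AddCircle (1 : ℚ), N • t = 0 → ψ t = m • t := by
  have hNu : N • (((N : ℚ)⁻¹ : ℚ) : AddCircle (1 : ℚ)) = 0 := by
    rw [← AddCircle.coe_nsmul, AddCircle.coe_eq_zero_iff]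
    refine ⟨1, ?_⟩
    have hN' : (N : ℚ) ≠ 0 := Nat.cast_ne_zero.mpr hN
    simp [hN']
  obtain ⟨m, hm⟩ := s36_dt_tors N hN (ψ (((N : ℚ)⁻¹ : ℚ) : AddCircle (1 : ℚ)))
    (by rw [← map_nsmul, hNu, map_zero])
  refine ⟨m, fun t ht => ?_⟩
  obtain ⟨k, rfl⟩ := s36_dt_tors N hN t ht
  rw [map_zsmul, hm, smul_comm]

/-- Evaluation of characters at a point, as an additive homomorphism. -/
def s36_dt_eval {Y : Type*} [AddCommGroup Y] (y : Y) :
    CharacterModule Y →+ AddCircle (1 : ℚ) where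
  toFun c := c y
  map_zero' := rfl
  map_add' _ _ := rfl

/-- A subgroup of a group killed by `p ^ n` which contains no nonzero element killed by `p`
is trivial. -/
theorem s36_dt_socle {Y : Type*} [AddCommGroup Y] (p n : ℕ) (hY : ∀ y : Y, (p ^ n) • y = 0)
    (K : AddSubgroup Y) (hK : ∀ y ∈ K, p • y = 0 → y = 0) : ∀ y ∈ K, y = 0 := by
  have key : ∀ k : ℕ, ∀ y ∈ K, (p ^ k) • y = 0 → y = 0 := by
    intro k
    induction k with
    | zero => intro y _ h; simpa using h
    | succ k ih =>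
      intro y hy h
      apply ih y hy
      apply hK _ (K.nsmul_mem hy _)
      rw [← mul_nsmul', ← pow_succ']
      exact h
  exact fun y hy => key n y hy (hY y)

/-- The determinant trick, module form: `Y` a finite `R`-module killed by `N ≠ 0`, with a family
of `card ι` characters separating its points. -/
theorem s36_dt_mod {R : Type*} [CommRing R] {Y : Type*} [AddCommGroup Y] [Module R Y] [Finite Y]
    (N : ℕ) (hN : N ≠ 0) (hY : ∀ y : Y, N • y = 0)
    {ι : Type*} [Fintype ι] [DecidableEq ι] (θ : ι → CharacterModule Y)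
    (hθ : ∀ y : Y, (∀ v, θ v y = 0) → y = 0)
    (𝔰 : Ideal R) (C : ℕ) (hker : ∀ y : Y, (∀ s ∈ 𝔰, s • y = 0) → C • y = 0) :
    ∃ a ∈ 𝔰, ∀ y : Y, ((C : R) ^ Fintype.card ι + a) • y = 0 := by
  classical
  rcases subsingleton_or_nontrivial R with hR | hR
  · refine ⟨0, 𝔰.zero_mem, fun y => ?_⟩
    rw [Subsingleton.elim ((C : R) ^ Fintype.card ι + 0) 0, zero_smul]
  -- Step A: the characters `θ v` generate the dual
  have hspan : Submodule.span R (Set.range θ) = ⊤ := by
    rw [eq_top_iff]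
    intro χ _
    obtain ⟨ψ, hψ⟩ := s36_dt_ext_pi (fun v => (θ v : Y →+ AddCircle (1 : ℚ))) χ
      (fun y hy => by rw [hθ y hy]; exact map_zero χ)
    choose m hm using fun v => s36_dt_endo N hN (ψ v)
    have hχ : χ = ∑ v, (m v : R) • θ v := by
      apply CharacterModule.ext
      intro y
      have h1 : (∑ v, (m v : R) • θ v) y = ∑ v, ((m v : R) • θ v) y :=
        map_sum (s36_dt_eval y) _ _
      rw [h1]
      refine (hψ y).trans (Finset.sum_congr rfl fun v _ => ?_)
      have h2 : N • (θ v y) = 0 := by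
        rw [← map_nsmul, hY]; exact map_zero (θ v)
      rw [CharacterModule.smul_apply, Int.cast_smul_eq_zsmul, map_zsmul]
      exact hm v _ h2
    rw [hχ]
    exact Submodule.sum_mem _ fun v _ => Submodule.smul_mem _ _ (Submodule.subset_span ⟨v, rfl⟩)
  -- Step B: `C • Y^∨ ⊆ 𝔰 • Y^∨`
  have hB : ∀ χ : CharacterModule Y,
      (C : R) • χ ∈ 𝔰 • (⊤ : Submodule R (CharacterModule Y)) := by
    intro χ
    have hs : ∀ z : Y, ∃ s : R, s ∈ 𝔰 ∧ (s • z = 0 → ∀ s' ∈ 𝔰, s' • z = 0) := by
      intro z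
      by_cases h : ∀ s' ∈ 𝔰, s' • z = 0
      · exact ⟨0, 𝔰.zero_mem, fun _ => h⟩
      · have h' : ∃ s' ∈ 𝔰, s' • z ≠ 0 := by
          by_contra hcon
          exact h fun s' hs' => by_contra fun hne => hcon ⟨s', hs', hne⟩
        obtain ⟨s, hs, hsz⟩ := h'
        exact ⟨s, hs, fun h0 => absurd h0 hsz⟩
    choose s hs𝔰 hsz using hs
    have : Fintype Y := Fintype.ofFinite Y
    obtain ⟨ψ, hψ⟩ : ∃ ψ : Y → CharacterModule Y,
        ∀ y, ((C : R) • χ) y = ∑ z, ψ z (s z • y) :=
      s36_dt_ext_pi (fun z => (DistribSMul.toAddMonoidHom Y (s z) : Y →+ Y))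
        (show CharacterModule Y from (C : R) • χ)
        (fun y hy => by
          have h0 : C • y = 0 := hker y (hsz y (hy y))
          show χ ((C : R) • y) = 0
          rw [Nat.cast_smul_eq_nsmul, h0]; exact map_zero χ)
    have hχ : (C : R) • χ = ∑ z, s z • ψ z := by
      apply CharacterModule.ext
      intro y
      have h1 : (∑ z, s z • ψ z) y = ∑ z, (s z • ψ z) y := map_sum (s36_dt_eval y) _ _
      rw [h1]
      exact hψ y
    rw [hχ]
    exact Submodule.sum_mem _ fun z _ => Submodule.smul_mem_smul (hs𝔰 z) Submodule.mem_top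
  -- Step C: Cayley–Hamilton
  obtain ⟨A, hA, hAI⟩ := Matrix.isRepresentation.toEnd_exists_mem_ideal R θ hspan
    (algebraMap R (Module.End R (CharacterModule Y)) (C : R)) 𝔰 (by
      rintro _ ⟨χ, rfl⟩
      rw [Module.algebraMap_end_apply]
      exact hB χ)
  have h0 : Polynomial.aeval (algebraMap R (Module.End R (CharacterModule Y)) (C : R))
      A.1.charpoly = 0 := by
    rw [← hA, Polynomial.aeval_algHom_apply,
      ← map_zero (Matrix.isRepresentation.toEnd R θ hspan)]
    congr 1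
    ext1
    rw [Polynomial.aeval_subalgebra_coe, Matrix.aeval_self_charpoly, Subalgebra.coe_zero]
  rw [Polynomial.aeval_algebraMap_apply] at h0
  have hmonic : A.1.charpoly.Monic := A.1.charpoly_monic
  have hdeg : A.1.charpoly.natDegree = Fintype.card ι := A.1.charpoly_natDegree_eq_dim
  have hcoeff : ∀ k, A.1.charpoly.coeff k ∈ 𝔰 ^ (Fintype.card ι - k) :=
    fun k => Matrix.coeff_charpoly_mem_ideal_pow hAI k
  refine ⟨∑ k ∈ Finset.range (Fintype.card ι), A.1.charpoly.coeff k * (C : R) ^ k, ?_, ?_⟩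
  · refine Ideal.sum_mem _ fun k hk => Ideal.mul_mem_right _ _ ?_
    have hk' : Fintype.card ι - k ≠ 0 := by
      have := Finset.mem_range.mp hk
      omega
    exact Ideal.pow_le_self hk' (hcoeff k)
  · intro y
    have hev : Polynomial.aeval (C : R) A.1.charpoly = (C : R) ^ Fintype.card ι
        + ∑ k ∈ Finset.range (Fintype.card ι), A.1.charpoly.coeff k * (C : R) ^ k := by
      rw [Polynomial.aeval_eq_sum_range, hdeg, Finset.sum_range_succ, ← hdeg,
        hmonic.coeff_natDegree, add_comm]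
      simp
    rw [← hev]
    apply CharacterModule.eq_zero_of_character_apply
    intro c
    have h1 := congrArg (fun F : Module.End R (CharacterModule Y) => F c y) h0
    simp only [Module.algebraMap_end_apply, CharacterModule.smul_apply] at h1
    exact h1

/-- **Determinant trick with socle-bounded exponent.**  `J` finite abelian killed by `p ^ n`,
`R` acting through `φ`, `Y` an `R`-stable subgroup whose `𝔰`-torsion is killed by `C`.  Then
`C ^ E + a` kills `Y` for some `a ∈ 𝔰`, with `E = #J[p]`. -/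
theorem s36_dt_main {J : Type*} [AddCommGroup J] [Finite J] (p n : ℕ) (hp : p.Prime)
    (hJ : ∀ y : J, (p ^ n) • y = 0)
    {R : Type*} [CommRing R] (φ : R →+* Module.End ℤ J) (𝔰 : Ideal R) (Y : AddSubgroup J)
    (hY : ∀ (r : R), ∀ y ∈ Y, φ r y ∈ Y) (C : ℕ)
    (hker : ∀ y ∈ Y, (∀ s ∈ 𝔰, φ s y = 0) → C • y = 0) :
    ∃ a ∈ 𝔰, ∀ y ∈ Y, (C ^ Nat.card {y : J // p • y = 0}) • y + φ a y = 0 := by
  classical
  let _ : Module R J := Module.compHom J φ
  have hsm : ∀ (r : R) (y : J), r • y = φ r y := fun _ _ => rfl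
  let Y' : Submodule R J := { Y with smul_mem' := fun r y hy => hY r y hy }
  have hY' : ∀ y : J, y ∈ Y' ↔ y ∈ Y := fun _ => Iff.rfl
  have : Fintype {y : J // p • y = 0} := Fintype.ofFinite _
  have hθ0 : ∀ v : {y : J // p • y = 0}, ∃ c : CharacterModule J, (v : J) ≠ 0 → c v ≠ 0 := by
    intro v
    by_cases hv : (v : J) = 0
    · exact ⟨0, fun h => absurd hv h⟩
    · obtain ⟨c, hc⟩ := CharacterModule.exists_character_apply_ne_zero_of_ne_zero hv
      exact ⟨c, fun _ => hc⟩
  choose θ0 hθ0 using hθ0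
  let θ : {y : J // p • y = 0} → CharacterModule Y' :=
    fun v => (θ0 v : J →+ AddCircle (1 : ℚ)).comp Y'.subtype.toAddMonoidHom
  have hθ_apply : ∀ v (y : Y'), θ v y = θ0 v (y : J) := fun _ _ => rfl
  -- the `θ v` separate the points of `Y'`
  let K : AddSubgroup J :=
    { carrier := {y | y ∈ Y ∧ ∀ v, θ0 v y = 0}
      zero_mem' := ⟨Y.zero_mem, fun v => map_zero (θ0 v)⟩
      add_mem' := fun {a b} ha hb => ⟨Y.add_mem ha.1 hb.1, fun v => by
        rw [map_add, ha.2 v, hb.2 v, add_zero]⟩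
      neg_mem' := fun {a} ha => ⟨Y.neg_mem ha.1, fun v => by
        rw [map_neg, ha.2 v, neg_zero]⟩ }
  have hK : ∀ y ∈ K, y = 0 := by
    apply s36_dt_socle p n hJ K
    intro y hy hpy
    by_contra hne
    exact hθ0 ⟨y, hpy⟩ hne (hy.2 ⟨y, hpy⟩)
  have hsep : ∀ y : Y', (∀ v, θ v y = 0) → y = 0 := by
    intro y hy
    exact Subtype.ext (hK (y : J) ⟨y.2, fun v => hy v⟩)
  obtain ⟨a, ha, hkill⟩ := s36_dt_mod (R := R) (Y := Y') (p ^ n) (pow_ne_zero _ hp.ne_zero)
    (fun y => Subtype.ext (hJ (y : J))) θ hsep 𝔰 C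
    (fun y hy => Subtype.ext (hker (y : J) y.2
      (fun s hs => congrArg Subtype.val (hy s hs))))
  refine ⟨a, ha, fun y hy => ?_⟩
  have h1 : (((C : R) ^ Fintype.card {y : J // p • y = 0} + a) • (⟨y, hy⟩ : Y') : J) = 0 :=
    congrArg Subtype.val (hkill ⟨y, hy⟩)
  rw [Nat.card_eq_fintype_card]
  have h2 : ((C : R) ^ Fintype.card {y : J // p • y = 0} + a) • y = 0 := h1
  rw [add_smul, hsm, hsm, map_pow, map_natCast] at h2
  have h3 : ((C : Module.End ℤ J) ^ Fintype.card {y : J // p • y = 0}) y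
      = C ^ Fintype.card {y : J // p • y = 0} • y := by
    rw [← Nat.cast_pow, Module.End.natCast_apply]
  rw [← h3]
  exact h2

end Fermat.Agent.S36
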