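import Fermat.Agent.S36.CorQ
import Fermat.Agent.S35.KapBridge

/-!
# S36 (NODE-3), block (E): the two integral transfers `Λ(N' q q) → Λ(N' q)`

The clone of `S35/TransferCor.lean`, `S35/TransferAL.lean` and of (B1), (B2) of
`S35/KapBridge.lean` for the pair of levels `(N' q q, N' q)`:

* `s36_tr_cor_comm` : the corestriction `Γ₀(N q) ≤ Γ₀(N)` commutes with `T_l`, `l ∤ N q`
  (no hypothesis on `q`);
* `s36_al_pull` : pull-back by conjugation with the Atkin–Lehner matrix of `q²`, commuting with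
  `T_l`;
* `s36_tr_c2` : the second integral transfer, `s36_tr_c2_comm`;
* `s36_kb_cor_eq`, `s36_kb_cor_pull_eq` : the two transfers are the transfers of
  `s36_co_data1`, `s36_co_data2`.
-/

set_option autoImplicit false

open CongruenceSubgroup ModularForm ModularCurve.Period
open scoped MatrixGroups

noncomputable section

namespace Fermat.Agent.S36

open Fermat.Agent.S29 Fermat.Agent.S35

/-- the `(1,0)`-entry argument: if `δ_i ρ = γ δ_i'` with `ρ ∈ Γ₀(N)`, `γ ∈ Γ₀(N q)`, `l ∤ N q`,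
then `ρ ∈ Γ₀(N q)`. -/
theorem s36_tr_entry (N q l : ℕ) (hl : l.Prime) (hlM : ¬ l ∣ N * q)
    (ρ : Gamma0 N) (γ : Gamma0 (N * q)) (i i' : Option (Fin l))
    (h : s29_ch_delta l i * s29_ch_iota N ρ = s29_ch_iota (N * q) γ * s29_ch_delta l i') :
    ∃ ε : Gamma0 (N * q), s35_tr_incl N q ε = ρ := by
  have h1 := congrArg (fun g : GL (Fin 2) ℝ => (g : Matrix (Fin 2) (Fin 2) ℝ)) h
  simp only [Units.val_mul] at h1
  rw [s29_ch_delta_val hl.ne_zero, s29_ch_delta_val hl.ne_zero, s29_ch_iota_val, s29_ch_iota_val,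
    ← Matrix.map_mul, ← Matrix.map_mul] at h1
  have h2 : s29_ch_deltaZ l i * ((ρ : SL(2, ℤ)) : Matrix (Fin 2) (Fin 2) ℤ) =
      ((γ : SL(2, ℤ)) : Matrix (Fin 2) (Fin 2) ℤ) * s29_ch_deltaZ l i' :=
    Matrix.map_injective (Int.castRingHom ℝ).injective_int h1
  have h3 := congrFun (congrFun h2 1) 0
  have hγ : ((N * q : ℕ) : ℤ) ∣ (γ : SL(2, ℤ)) 1 0 := s29_ch_dvd γ
  have hcop : IsCoprime ((N * q : ℕ) : ℤ) (l : ℤ) := by
    rw [Int.isCoprime_iff_gcd_eq_one, Int.gcd_natCast_natCast]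
    exact (Nat.Coprime.symm ((Nat.Prime.coprime_iff_not_dvd hl).2 hlM))
  have hNq : ((N * q : ℕ) : ℤ) ∣ (ρ : SL(2, ℤ)) 1 0 := by
    cases i with
    | none =>
      cases i' with
      | none =>
        simp [s29_ch_deltaZ, Matrix.mul_apply, Fin.sum_univ_two] at h3
        rw [h3]
        exact Dvd.dvd.mul_right hγ _
      | some j' =>
        simp [s29_ch_deltaZ, Matrix.mul_apply, Fin.sum_univ_two] at h3
        rw [h3]
        exact hγ
    | some j =>
      cases i' with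
      | none =>
        simp [s29_ch_deltaZ, Matrix.mul_apply, Fin.sum_univ_two] at h3
        have h4 : ((N * q : ℕ) : ℤ) ∣ (l : ℤ) * (ρ : SL(2, ℤ)) 1 0 := by
          rw [h3]
          exact Dvd.dvd.mul_right hγ _
        exact hcop.dvd_of_dvd_mul_left h4
      | some j' =>
        simp [s29_ch_deltaZ, Matrix.mul_apply, Fin.sum_univ_two] at h3
        have h4 : ((N * q : ℕ) : ℤ) ∣ (l : ℤ) * (ρ : SL(2, ℤ)) 1 0 := by
          rw [h3]
          exact hγ
        exact hcop.dvd_of_dvd_mul_left h4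
  refine ⟨⟨(ρ : SL(2, ℤ)), Gamma0_mem.2 ((ZMod.intCast_zmod_eq_zero_iff_dvd _ _).2 hNq)⟩, ?_⟩
  exact Subtype.ext rfl

/-- **the corestriction commutes with the Hecke operators `T_l`, `l ∤ N q`** (`q` arbitrary). -/
theorem s36_tr_cor_comm (N q l : ℕ) [NeZero N] [NeZero q]
    (hl : l.Prime) (hlM : ¬ l ∣ N * q) (hlN : ¬ l ∣ N) {A : Type*} [AddCommGroup A]
    (χ : Additive (Gamma0 (N * q)) →+ A) :
    s35_tr_cor N q A (s29_ch_T (N * q) l hl hlM A χ) =
      s29_ch_T N l hl hlN A (s35_tr_cor N q A χ) := by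
  set Dc := s35_tr_corData N q with hDc
  set DH' := s35_tr_Data.ofCh (s29_ch_data N l hl hlN) with hDH'
  set DH := s35_tr_Data.ofCh (s29_ch_data (N * q) l hl hlM) with hDH
  -- family (a): `r_k δ_i`
  have hua : ∀ (k k' : Gamma0 N ⧸ (s35_tr_incl N q).range) (i i' : Option (Fin l))
      (γ : Gamma0 (N * q)), Dc.δ k * DH'.δ i = Dc.ι γ * (Dc.δ k' * DH'.δ i') →
      k = k' ∧ i = i' := by
    intro k k' i i' γ h
    have hi : i = i' := by
      refine (s29_ch_data N l hl hlN).uniq i i'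
        ((Quotient.out k) * s35_tr_incl N q γ * (Quotient.out k')⁻¹) ?_
      show s29_ch_delta l i = s29_ch_iota N _ * s29_ch_delta l i'
      have h' : s29_ch_iota N (Quotient.out k)⁻¹ * s29_ch_delta l i =
          s29_ch_iota N (s35_tr_incl N q γ) *
            (s29_ch_iota N (Quotient.out k')⁻¹ * s29_ch_delta l i') := h
      rw [map_mul, map_mul, mul_assoc, mul_assoc, ← h', ← mul_assoc, ← map_mul,
        mul_inv_cancel, map_one, one_mul]
    subst hi
    refine ⟨Dc.uniq k k' γ ?_, rfl⟩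
    rw [← mul_assoc] at h
    exact mul_right_cancel h
  -- family (b): `δ_i r_k`
  have hub : ∀ (i i' : Option (Fin l)) (k k' : Gamma0 N ⧸ (s35_tr_incl N q).range)
      (γ : Gamma0 (N * q)), DH.δ i * Dc.δ k = DH.ι γ * (DH.δ i' * Dc.δ k') →
      i = i' ∧ k = k' := by
    intro i i' k k' γ h
    have h' : s29_ch_delta l i * s29_ch_iota N (Quotient.out k)⁻¹ =
        s29_ch_iota (N * q) γ * (s29_ch_delta l i' * s29_ch_iota N (Quotient.out k')⁻¹) := h
    have h1 : s29_ch_delta l i * s29_ch_iota N ((Quotient.out k)⁻¹ * Quotient.out k') =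
        s29_ch_iota (N * q) γ * s29_ch_delta l i' := by
      rw [map_mul, ← mul_assoc, h', mul_assoc, mul_assoc, ← map_mul, inv_mul_cancel, map_one,
        mul_one]
    obtain ⟨ε, hε⟩ := s36_tr_entry N q l hl hlM _ γ i i' h1
    have hk : k = k' := by
      refine Dc.uniq k k' ε ?_
      show s29_ch_iota N (Quotient.out k)⁻¹ =
        s29_ch_iota N (s35_tr_incl N q ε) * s29_ch_iota N (Quotient.out k')⁻¹
      rw [hε, ← map_mul, mul_assoc, mul_inv_cancel, mul_one]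
    subst hk
    refine ⟨(s29_ch_data (N * q) l hl hlM).uniq i i' γ ?_, rfl⟩
    show s29_ch_delta l i = s29_ch_iota (N * q) γ * s29_ch_delta l i'
    rw [← mul_assoc] at h'
    exact mul_right_cancel h'
  have hTa := s35_tr_Data.T_prod Dc DH' rfl hua A χ
  have hTb := s35_tr_Data.T_prod DH Dc rfl hub A χ
  have hab : (DH.prod Dc rfl hub).T A = (Dc.prod DH' rfl hua).T A := by
    refine (DH.prod Dc rfl hub).T_eq_of_cosets (Dc.prod DH' rfl hua) rfl rfl ?_ ?_ A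
    · rw [Fintype.card_prod, Fintype.card_prod, mul_comm]
    · rintro ⟨i, k⟩
      have h1 := (s29_ch_data N l hl hlN).spec (Quotient.out k)⁻¹ i
      obtain ⟨k', ε, h2⟩ := s35_tr_Data.ofHom_decomp (s35_tr_incl N q)
        (s35_tr_incl_injective N q) (s29_ch_iota N) (s29_ch_iota_injective N)
        ((s29_ch_data N l hl hlN).coc (Quotient.out k)⁻¹ i)
      refine ⟨(k', (s29_ch_data N l hl hlN).idx (Quotient.out k)⁻¹ i), ε, ?_⟩
      show s29_ch_delta l i * s29_ch_iota N (Quotient.out k)⁻¹ =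
        s29_ch_iota (N * q) ε * (Dc.δ k' * s29_ch_delta l _)
      have h1' : s29_ch_delta l i * s29_ch_iota N (Quotient.out k)⁻¹ =
          s29_ch_iota N ((s29_ch_data N l hl hlN).coc (Quotient.out k)⁻¹ i) *
            s29_ch_delta l ((s29_ch_data N l hl hlN).idx (Quotient.out k)⁻¹ i) := h1
      rw [h1', h2, mul_assoc]
      rfl
  have e1 : s29_ch_T N l hl hlN A = DH'.T A :=
    (s35_tr_Data.ofCh_T (s29_ch_data N l hl hlN) A).symm
  have e2 : s29_ch_T (N * q) l hl hlM A = DH.T A :=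
    (s35_tr_Data.ofCh_T (s29_ch_data (N * q) l hl hlM) A).symm
  rw [e1, e2]
  show Dc.T A (DH.T A χ) = DH'.T A (Dc.T A χ)
  rw [← hTa, ← hTb, hab]

/-- **`c₁` commutes with `T_l`** (`l ∤ N q`, `q` arbitrary). -/
theorem s36_tr_c1_comm (N q l : ℕ) [NeZero N] [NeZero q]
    (hl : l.Prime) (hlM : ¬ l ∣ N * q) (hlN : ¬ l ∣ N) (R : Type*) [Semiring R]
    (A : Type*) [AddCommGroup A] [Module R A] [IsAddTorsionFree A]
    (ψ : ↥(parabolicHoms R (Gamma0 (N * q)) A)) :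
    s35_tr_c1 N q R A (s29_cp_Tpar (N * q) l hl hlM R A ψ) =
      s29_cp_Tpar N l hl hlN R A (s35_tr_c1 N q R A ψ) := by
  apply Subtype.ext
  exact s36_tr_cor_comm N q l hl hlM hlN (ψ : Additive (Gamma0 (N * q)) →+ A)

/-! ### Pull-back by the Atkin–Lehner conjugation of `q²` -/

/-- **the Atkin–Lehner conjugation** `γ ↦ w γ w⁻¹` of `Γ₀(N' q q)`. -/
def s36_al_conj (N' q : ℕ) [NeZero q] (hq : q.Prime) (hqN : ¬ q ∣ N') :
    Gamma0 (N' * q * q) ≃* Gamma0 (N' * q * q) :=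
  s35_tr_conjEquiv (s29_ch_iota (N' * q * q)) (s29_ch_iota_injective (N' * q * q))
    (s36_co_w N' q hq hqN) (s36_co_w_conj N' q hq hqN) (s36_co_w_conj' N' q hq hqN)

theorem s36_al_conj_iota (N' q : ℕ) [NeZero q] (hq : q.Prime) (hqN : ¬ q ∣ N')
    (γ : Gamma0 (N' * q * q)) :
    s29_ch_iota (N' * q * q) (s36_al_conj N' q hq hqN γ) =
      s36_co_w N' q hq hqN * s29_ch_iota (N' * q * q) γ * (s36_co_w N' q hq hqN)⁻¹ :=
  s35_tr_conjEquiv_spec _ _ _ _ _ γ

/-- the cosets `Γ₀(N' q q) δ_i` of `T_l` are permuted by conjugation with `w`. -/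
theorem s36_al_cos (N' q l : ℕ) [NeZero q] (hq : q.Prime) (hqN : ¬ q ∣ N') (hl : l.Prime)
    (hlM : ¬ l ∣ N' * q * q) (i : Option (Fin l)) :
    ∃ (i' : Option (Fin l)) (ε : Gamma0 (N' * q * q)),
      s29_ch_delta l i * s36_co_w N' q hq hqN =
        s36_co_w N' q hq hqN * s29_ch_iota (N' * q * q) ε * s29_ch_delta l i' := by
  have hlM' : ¬ l ∣ N' * (q * q) := by rwa [← Nat.mul_assoc]
  obtain ⟨i', ε₁, h⟩ := s35_al_cos N' (q * q) l hl hlM' 1 (s35_co_b N' (q * q)) 1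
    (s35_co_d N' (q * q)) (s36_co_bez N' q hq hqN) i
  obtain ⟨ε, hε⟩ := s36_co_cast (Nat.mul_assoc N' q q).symm ε₁
  exact ⟨i', ε, by rw [hε]; exact h⟩

/-- **pull-back by the Atkin–Lehner conjugation** on `Hom(Γ₀(N' q q), A)`. -/
def s36_al_pull (N' q : ℕ) [NeZero q] (hq : q.Prime) (hqN : ¬ q ∣ N') (A : Type*)
    [AddCommGroup A] :
    (Additive (Gamma0 (N' * q * q)) →+ A) →+ (Additive (Gamma0 (N' * q * q)) →+ A) where
  toFun χ := χ.comp (MonoidHom.toAdditive (s36_al_conj N' q hq hqN).toMonoidHom)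
  map_zero' := rfl
  map_add' _ _ := rfl

theorem s36_al_pull_apply (N' q : ℕ) [NeZero q] (hq : q.Prime) (hqN : ¬ q ∣ N')
    {A : Type*} [AddCommGroup A] (χ : Additive (Gamma0 (N' * q * q)) →+ A)
    (γ : Gamma0 (N' * q * q)) :
    s36_al_pull N' q hq hqN A χ (Additive.ofMul γ) =
      χ (Additive.ofMul (s36_al_conj N' q hq hqN γ)) := rfl

/-- **the Atkin–Lehner pull-back commutes with `T_l`**, `l ∤ N' q q`. -/
theorem s36_al_comm (N' q l : ℕ) [NeZero q] (hq : q.Prime) (hqN : ¬ q ∣ N') (hl : l.Prime)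
    (hlM : ¬ l ∣ N' * q * q) {A : Type*} [AddCommGroup A]
    (χ : Additive (Gamma0 (N' * q * q)) →+ A) :
    s29_ch_T (N' * q * q) l hl hlM A (s36_al_pull N' q hq hqN A χ) =
      s36_al_pull N' q hq hqN A (s29_ch_T (N' * q * q) l hl hlM A χ) := by
  refine AddMonoidHom.ext fun γ' => ?_
  obtain ⟨γ, rfl⟩ := Additive.ofMul.surjective γ'
  have e : s29_ch_T (N' * q * q) l hl hlM A =
      (s35_tr_Data.ofCh (s29_ch_data (N' * q * q) l hl hlM)).T A :=
    (s35_tr_Data.ofCh_T (s29_ch_data (N' * q * q) l hl hlM) A).symm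
  rw [s36_al_pull_apply, e]
  exact s35_tr_Data.T_conj (s35_tr_Data.ofCh (s29_ch_data (N' * q * q) l hl hlM)) rfl
    (s36_al_conj N' q hq hqN) (s36_co_w N' q hq hqN)
    (s36_al_conj_iota N' q hq hqN) (s36_al_cos N' q l hq hqN hl hlM) A χ γ

/-- the Atkin–Lehner pull-back preserves parabolic homomorphisms. -/
theorem s36_al_pull_parabolic (N' q : ℕ) [NeZero q] (hq : q.Prime) (hqN : ¬ q ∣ N')
    {A : Type*} [AddCommGroup A]
    (χ : Additive (Gamma0 (N' * q * q)) →+ A) (hχ : IsParabolicHom (Gamma0 (N' * q * q)) χ) :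
    IsParabolicHom (Gamma0 (N' * q * q)) (s36_al_pull N' q hq hqN A χ) := by
  intro γ hγ
  rw [s36_al_pull_apply]
  refine hχ _ ?_
  rw [s29_cp_trace_conj γ (s36_al_conj N' q hq hqN γ) (s36_co_w N' q hq hqN)
    (s36_al_conj_iota N' q hq hqN γ)]
  exact hγ

/-- the Atkin–Lehner pull-back as an `R`-linear map. -/
def s36_al_pullLin (N' q : ℕ) [NeZero q] (hq : q.Prime) (hqN : ¬ q ∣ N') (R : Type*)
    [Semiring R] (A : Type*) [AddCommGroup A] [Module R A] :
    (Additive (Gamma0 (N' * q * q)) →+ A) →ₗ[R] (Additive (Gamma0 (N' * q * q)) →+ A) where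
  toFun := s36_al_pull N' q hq hqN A
  map_add' := map_add _
  map_smul' _ _ := rfl

/-- the Atkin–Lehner pull-back on parabolic homomorphisms. -/
def s36_al_pullPar (N' q : ℕ) [NeZero q] (hq : q.Prime) (hqN : ¬ q ∣ N') (R : Type*)
    [Semiring R] (A : Type*) [AddCommGroup A] [Module R A] :
    ↥(parabolicHoms R (Gamma0 (N' * q * q)) A) →ₗ[R] ↥(parabolicHoms R (Gamma0 (N' * q * q)) A) :=
  (s36_al_pullLin N' q hq hqN R A).restrict
    (fun χ hχ => s36_al_pull_parabolic N' q hq hqN χ hχ)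

theorem s36_al_pullPar_coe (N' q : ℕ) [NeZero q] (hq : q.Prime) (hqN : ¬ q ∣ N') (R : Type*)
    [Semiring R] (A : Type*) [AddCommGroup A] [Module R A]
    (ψ : ↥(parabolicHoms R (Gamma0 (N' * q * q)) A)) :
    ((s36_al_pullPar N' q hq hqN R A ψ : ↥(parabolicHoms R (Gamma0 (N' * q * q)) A)) :
      Additive (Gamma0 (N' * q * q)) →+ A) =
      s36_al_pull N' q hq hqN A (ψ : Additive (Gamma0 (N' * q * q)) →+ A) := rfl

/-- the Atkin–Lehner pull-back on parabolic homomorphisms commutes with `T_l`. -/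
theorem s36_al_pullPar_comm (N' q l : ℕ) [NeZero q] (hq : q.Prime) (hqN : ¬ q ∣ N')
    (hl : l.Prime) (hlM : ¬ l ∣ N' * q * q)
    (R : Type*) [Semiring R] (A : Type*) [AddCommGroup A] [Module R A] [IsAddTorsionFree A]
    (ψ : ↥(parabolicHoms R (Gamma0 (N' * q * q)) A)) :
    s36_al_pullPar N' q hq hqN R A (s29_cp_Tpar (N' * q * q) l hl hlM R A ψ) =
      s29_cp_Tpar (N' * q * q) l hl hlM R A (s36_al_pullPar N' q hq hqN R A ψ) := by
  apply Subtype.ext
  exact (s36_al_comm N' q l hq hqN hl hlM (ψ : Additive (Gamma0 (N' * q * q)) →+ A)).symm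

/-- **the second integral transfer** `c₂ = c₁ ∘ (conjugation by w)^*`. -/
def s36_tr_c2 (N' q : ℕ) [NeZero N'] [NeZero q] (hq : q.Prime) (hqN : ¬ q ∣ N') (R : Type*)
    [Semiring R] (A : Type*) [AddCommGroup A] [Module R A] [IsAddTorsionFree A] :
    ↥(parabolicHoms R (Gamma0 (N' * q * q)) A) →ₗ[R] ↥(parabolicHoms R (Gamma0 (N' * q)) A) :=
  (s35_tr_c1 (N' * q) q R A).comp (s36_al_pullPar N' q hq hqN R A)

theorem s36_tr_c2_coe (N' q : ℕ) [NeZero N'] [NeZero q] (hq : q.Prime) (hqN : ¬ q ∣ N')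
    (R : Type*) [Semiring R] (A : Type*) [AddCommGroup A] [Module R A] [IsAddTorsionFree A]
    (ψ : ↥(parabolicHoms R (Gamma0 (N' * q * q)) A)) :
    ((s36_tr_c2 N' q hq hqN R A ψ : ↥(parabolicHoms R (Gamma0 (N' * q)) A)) :
      Additive (Gamma0 (N' * q)) →+ A) =
      s35_tr_cor (N' * q) q A
        (s36_al_pull N' q hq hqN A (ψ : Additive (Gamma0 (N' * q * q)) →+ A)) :=
  rfl

/-- **`c₂` commutes with `T_l`** (`l ∤ N' q q`). -/
theorem s36_tr_c2_comm (N' q l : ℕ) [NeZero N'] [NeZero q] (hq : q.Prime) (hqN : ¬ q ∣ N')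
    (hl : l.Prime) (hlM : ¬ l ∣ N' * q * q) (hlN : ¬ l ∣ N' * q) (R : Type*) [Semiring R]
    (A : Type*) [AddCommGroup A] [Module R A] [IsAddTorsionFree A]
    (ψ : ↥(parabolicHoms R (Gamma0 (N' * q * q)) A)) :
    s36_tr_c2 N' q hq hqN R A (s29_cp_Tpar (N' * q * q) l hl hlM R A ψ) =
      s29_cp_Tpar (N' * q) l hl hlN R A (s36_tr_c2 N' q hq hqN R A ψ) := by
  show s35_tr_c1 (N' * q) q R A
    (s36_al_pullPar N' q hq hqN R A (s29_cp_Tpar (N' * q * q) l hl hlM R A ψ)) = _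
  rw [s36_al_pullPar_comm N' q l hq hqN hl hlM R A ψ,
    s36_tr_c1_comm (N' * q) q l hl hlM hlN R A]
  rfl

/-! ### Comparison with the transfers of `s36_co_data1`, `s36_co_data2` -/

theorem s36_co_rep_zero (N l : ℕ) (h : 0 < l) : s36_co_rep N l ⟨0, h⟩ = 1 := by
  apply Subtype.ext
  apply Subtype.ext
  show !![(1 : ℤ), 0; (N : ℤ) * ((0 : ℕ) : ℤ), 1] = 1
  simp [Matrix.one_fin_two]

/-- **(B1)** the corestriction of `S35/TransferCor.lean` is the transfer of `s36_co_data1`. -/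
theorem s36_kb_cor_eq (N l : ℕ) [NeZero N] [NeZero l] (hlN : l ∣ N)
    (A : Type*) [AddCommGroup A] (χ : Additive (Gamma0 (N * l)) →+ A) :
    s35_tr_cor N l A χ = (s36_co_data1 N l hlN).T A χ := by
  refine AddMonoidHom.ext fun γ' => ?_
  obtain ⟨γ, rfl⟩ := Additive.ofMul.surjective γ'
  rw [s35_co_Data.T_apply]
  refine s35_tr_cor_apply_of_transversal N l (s36_co_rep N l) ?_ ?_ χ γ
    (fun i => (s36_co_data1 N l hlN).coc γ i) (fun i => (s36_co_data1 N l hlN).idx γ i) ?_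
  · intro γ₀
    have hl0 : 0 < l := Nat.pos_of_ne_zero (NeZero.ne l)
    have h1 := (s36_co_data1 N l hlN).spec γ₀ ⟨0, hl0⟩
    refine ⟨(s36_co_data1 N l hlN).idx γ₀ ⟨0, hl0⟩, (s36_co_data1 N l hlN).coc γ₀ ⟨0, hl0⟩, ?_⟩
    apply s29_ch_iota_injective N
    have h2 : s29_ch_iota N (s36_co_rep N l ⟨0, hl0⟩) * s29_ch_iota N γ₀ =
        s29_ch_iota (N * l) ((s36_co_data1 N l hlN).coc γ₀ ⟨0, hl0⟩) *
          s29_ch_iota N (s36_co_rep N l ((s36_co_data1 N l hlN).idx γ₀ ⟨0, hl0⟩)) := h1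
    rw [s36_co_rep_zero, map_one, one_mul] at h2
    rw [h2, map_mul]
    rfl
  · intro i j ε h
    refine (s36_co_data1 N l hlN).uniq i j ε ?_
    show s29_ch_iota N (s36_co_rep N l i) =
      s29_ch_iota (N * l) ε * s29_ch_iota N (s36_co_rep N l j)
    rw [h, map_mul]
    rfl
  · intro i
    have h1 := (s36_co_data1 N l hlN).spec γ i
    apply s29_ch_iota_injective N
    rw [map_mul, map_mul]
    exact h1

/-- **(B2)** corestriction after the Atkin–Lehner pull-back is the transfer of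
`s36_co_data2`. -/
theorem s36_kb_cor_pull_eq (N' q : ℕ) [NeZero N'] [NeZero q] (hq : q.Prime) (hqN : ¬ q ∣ N')
    (A : Type*) [AddCommGroup A] (χ : Additive (Gamma0 (N' * q * q)) →+ A) :
    s35_tr_cor (N' * q) q A (s36_al_pull N' q hq hqN A χ) =
      (s36_co_data2 N' q hq hqN).T A χ := by
  rw [s36_kb_cor_eq (N' * q) q (dvd_mul_left q N')]
  refine AddMonoidHom.ext fun γ' => ?_
  obtain ⟨γ, rfl⟩ := Additive.ofMul.surjective γ'
  rw [s35_co_Data.T_apply, s35_co_Data.T_apply]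
  refine Finset.sum_congr rfl fun i _ => ?_
  rw [s36_al_pull_apply]
  set D1 := s36_co_data1 (N' * q) q (dvd_mul_left q N') with hD1
  have h1 : s29_ch_iota (N' * q) (s36_co_rep (N' * q) q i) * s29_ch_iota (N' * q) γ =
      s29_ch_iota (N' * q * q) (D1.coc γ i) *
        s29_ch_iota (N' * q) (s36_co_rep (N' * q) q (D1.idx γ i)) := D1.spec γ i
  have h2 := s36_al_conj_iota N' q hq hqN (D1.coc γ i)
  have h3 : (s36_co_data2 N' q hq hqN).δ i * (s36_co_data2 N' q hq hqN).ι γ =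
      (s36_co_data2 N' q hq hqN).ι' (s36_al_conj N' q hq hqN (D1.coc γ i)) *
      (s36_co_data2 N' q hq hqN).δ (D1.idx γ i) := by
    show s36_co_w N' q hq hqN * s29_ch_iota (N' * q) (s36_co_rep (N' * q) q i) *
        s29_ch_iota (N' * q) γ =
      s29_ch_iota (N' * q * q) (s36_al_conj N' q hq hqN (D1.coc γ i)) *
      (s36_co_w N' q hq hqN * s29_ch_iota (N' * q) (s36_co_rep (N' * q) q (D1.idx γ i)))
    rw [h2, mul_assoc, h1]
    group
  rw [((s36_co_data2 N' q hq hqN).eq_of_spec h3).2]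

/-- **(B3)** a linear map `Λ(N l) → Λ(N)` commuting with all `T_{ℓ'}` (`ℓ' ∤ N l`) intertwines
the evaluations of the polynomial Hecke ring (no hypothesis on `l`). -/
theorem s36_kb_ev_comm (N l : ℕ) [NeZero N] [NeZero l]
    (c : ↥(parabolicHoms ℤ (Gamma0 (N * l)) ℤ) →ₗ[ℤ] ↥(parabolicHoms ℤ (Gamma0 N) ℤ))
    (hc : ∀ (l' : ℕ) (hl' : l'.Prime) (hl'M : ¬ l' ∣ N * l) (hl'N : ¬ l' ∣ N)
      (ψ : ↥(parabolicHoms ℤ (Gamma0 (N * l)) ℤ)),
      c (s29_cp_Tpar (N * l) l' hl' hl'M ℤ ℤ ψ) = s29_cp_Tpar N l' hl' hl'N ℤ ℤ (c ψ))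
    (e : s35_Pol (N * l)) (ψ : ↥(parabolicHoms ℤ (Gamma0 (N * l)) ℤ)) :
    c (s35_ev (N * l) (N * l) dvd_rfl e ψ) = s35_ev N (N * l) (dvd_mul_right N l) e (c ψ) :=
  s35_kb_ev_comm N l c hc e ψ

end Fermat.Agent.S36
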