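import Fermat.Agent.S36.KapCorQ
import Fermat.Agent.S36.TransferQ
import Fermat.Agent.S36.HubDefs

/-!
# S36 (NODE-3), block (E): the final form of (E)/(KC) for the pair of levels `(N' q q, N' q)`

The clone of `s35_kc_main` / `s35_kb_main` for `M = N' q q` (`q` prime, `q ∤ N'`) and the lower
level `M / q = N' q`, which `q` still divides.

* `s36_kc_main` : the `κ`-normalised tower `ι_n : Λ(N' q q) → J₀(N' q q)[p^n]` with the four
  BRIDGE properties; for `ψ` killed by the transfer (resp. the `w`-twisted transfer) to level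
  `N' q`, every Kummer function `g` of `ι_n ψ` has `N_α g` (resp. `N_α (W g)`) equal to a
  constant times a `p^n`-th power, and `α_* (ι_n ψ) = 0` (resp. `α_* W^* (ι_n ψ) = 0`);
* `s36_kb_main'` : the same for `ψ = e ψ'` with `e` a Hecke polynomial killing the level-`N' q`
  lattice;
* `s36_kb_main` : the function-level part only (the exact analogue of `s35_kb_main`).

Here `α = heckeAlphaBar ℚ̄ (N' q) q : F̄(N' q) → F̄(N' q q)` and `W` is any `ℚ̄`-automorphism of
`F̄(N' q q)` with `W j(Q^(d m)) = j(Q^(d q²/m))` for `d ∣ N'`, `m ∣ q²` (the Atkin–Lehner swap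
of the coprime pair `(N', q²)`, cf. `s37_ew_swap_field N' (q * q)`): `s36_IsSwapBar N' q W` of
`S36/HubDefs.lean`.  `s36_kb_swap_exists` : such a `W` exists.
-/

set_option autoImplicit false
set_option linter.unusedSectionVars false
set_option linter.style.haveILetI false

open UpperHalfPlane ModularCurve AlgebraicCurve
open scoped MatrixGroups Manifold

noncomputable section

namespace Fermat.Agent.S36

open Fermat.Agent.S29 Fermat.Agent.S24 Fermat.Agent.S35
open CongruenceSubgroup ModularCurve.Period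

local notation "Qb" => AlgebraicClosure ℚ

/-- **(E3) at level `N' q q` over `N' q`.** -/
theorem s36_kc_main (N' q : ℕ) [NeZero N'] [NeZero q] (hq : q.Prime) (hqN : ¬ q ∣ N') (p : ℕ)
    (hp : p ≠ 0) :
    ∃ ι : ℕ → (↥(parabolicHoms ℤ (Gamma0 (N' * q * q)) ℤ) →+ JZero (N' * q * q)),
      (∀ n (ψ : ↥(parabolicHoms ℤ (Gamma0 (N' * q * q)) ℤ)), p ^ n • ι n ψ = 0) ∧
      (∀ n (ψ : ↥(parabolicHoms ℤ (Gamma0 (N' * q * q)) ℤ)), ι n ψ = 0 →
        ∃ ψ' : ↥(parabolicHoms ℤ (Gamma0 (N' * q * q)) ℤ), ψ = p ^ n • ψ') ∧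
      (∀ n (l' : ℕ) (hl' : l'.Prime) (hl'N : ¬ l' ∣ N' * q * q)
        (ψ : ↥(parabolicHoms ℤ (Gamma0 (N' * q * q)) ℤ)),
        ι n (s29_cp_Tpar (N' * q * q) l' hl' hl'N ℤ ℤ ψ) =
          heckeOperatorBar (N' * q * q) ⟨l', hl'⟩ (ι n ψ)) ∧
      (∀ n (ψ : ↥(parabolicHoms ℤ (Gamma0 (N' * q * q)) ℤ)), p • ι (n + 1) ψ = ι n ψ) ∧
      (∀ n (ψ : ↥(parabolicHoms ℤ (Gamma0 (N' * q * q)) ℤ)),
        (s36_co_data1 (N' * q) q (dvd_mul_left q N')).T ℤ
          (ψ : Additive (Gamma0 (N' * q * q)) →+ ℤ) = 0 →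
        ∀ (D : Divisor.degZero (K := Qb) (F := modularFunctionFieldBar (N' * q * q)))
          (g : modularFunctionFieldBar (N' * q * q)), Pic0.mk D = ι n ψ → g ≠ 0 →
          (∀ P : Place Qb (modularFunctionFieldBar (N' * q * q)),
            P.ord g = ((p ^ n : ℕ) : ℤ) *
              (D : Divisor Qb (modularFunctionFieldBar (N' * q * q))) P) →
          (∀ hα : (heckeAlphaBar Qb (N' * q) q).toRingHom.IsIntegral,
            Pic0.mk (⟨Divisor.pushforwardAlong (heckeAlphaBar Qb (N' * q) q) hα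
                (D : Divisor Qb (modularFunctionFieldBar (N' * q * q))),
              Divisor.pushforwardAlong_mem_degZero _ hα D.2⟩ :
              Divisor.degZero (K := Qb) (F := modularFunctionFieldBar (N' * q))) =
                (0 : JZero (N' * q))) ∧
          ∃ (c : Qb) (f : modularFunctionFieldBar (N' * q)),
            s29_kh_normAlong (heckeAlphaBar Qb (N' * q) q) g =
              algebraMap Qb (modularFunctionFieldBar (N' * q)) c * f ^ (p ^ n)) ∧
      (∀ n (ψ : ↥(parabolicHoms ℤ (Gamma0 (N' * q * q)) ℤ)),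
        (s36_co_data2 N' q hq hqN).T ℤ (ψ : Additive (Gamma0 (N' * q * q)) →+ ℤ) = 0 →
        ∀ (W : modularFunctionFieldBar (N' * q * q) ≃ₐ[Qb] modularFunctionFieldBar (N' * q * q)),
          s36_IsSwapBar N' q W →
        ∀ (D : Divisor.degZero (K := Qb) (F := modularFunctionFieldBar (N' * q * q)))
          (g : modularFunctionFieldBar (N' * q * q)), Pic0.mk D = ι n ψ → g ≠ 0 →
          (∀ P : Place Qb (modularFunctionFieldBar (N' * q * q)),
            P.ord g = ((p ^ n : ℕ) : ℤ) *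
              (D : Divisor Qb (modularFunctionFieldBar (N' * q * q))) P) →
          (haveI := Fermat.Agent.S37.s37_h_hasPrincipalDivisors_bar (N' * q * q)
           ∀ (hα : (heckeAlphaBar Qb (N' * q) q).toRingHom.IsIntegral)
            (hWint : (W : modularFunctionFieldBar (N' * q * q) →ₐ[Qb]
              modularFunctionFieldBar (N' * q * q)).toRingHom.IsIntegral)
            (hD₂ : Divisor.pullbackAlong (W : modularFunctionFieldBar (N' * q * q) →ₐ[Qb]
                modularFunctionFieldBar (N' * q * q)) hWint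
                (D : Divisor Qb (modularFunctionFieldBar (N' * q * q))) ∈
                Divisor.degZero (K := Qb) (F := modularFunctionFieldBar (N' * q * q))),
            Pic0.mk (⟨Divisor.pushforwardAlong (heckeAlphaBar Qb (N' * q) q) hα
                (Divisor.pullbackAlong (W : modularFunctionFieldBar (N' * q * q) →ₐ[Qb]
                  modularFunctionFieldBar (N' * q * q)) hWint
                  (D : Divisor Qb (modularFunctionFieldBar (N' * q * q)))),
              Divisor.pushforwardAlong_mem_degZero _ hα hD₂⟩ :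
              Divisor.degZero (K := Qb) (F := modularFunctionFieldBar (N' * q))) =
                (0 : JZero (N' * q))) ∧
          ∃ (c : Qb) (f : modularFunctionFieldBar (N' * q)),
            s29_kh_normAlong (heckeAlphaBar Qb (N' * q) q) (W g) =
              algebraMap Qb (modularFunctionFieldBar (N' * q)) c * f ^ (p ^ n)) := by
  obtain ⟨ι, hspec, h1, h2, h3, h4⟩ := s29_bt_tower' (N' * q * q)
    (fun m _ ψ hψ => s29_ck_ex (N' * q * q) m ψ hψ)
    (fun m _ => s29_kappa_injective (N' * q * q) m)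
  have hpn : ∀ n : ℕ, p ^ n ≠ 0 := fun n => pow_ne_zero n hp
  refine ⟨fun n => ι (p ^ n), fun n ψ => h1 _ (hpn n) ψ, fun n ψ => h2 _ (hpn n) ψ,
    fun n l' hl' hl'N ψ => h3 _ (hpn n) l' hl' hl'N ψ, fun n ψ => ?_, ?_, ?_⟩
  · have h := h4 (p ^ n) p (hpn n) hp ψ
    rwa [← pow_succ'] at h
  · intro n ψ hψ D g hD hg hdiv
    haveI : NeZero (p ^ n) := ⟨hpn n⟩
    obtain ⟨hx, hk⟩ := hspec (p ^ n) ψ
    have hκ : (s36_co_data1 (N' * q) q (dvd_mul_left q N')).T (ZMod (p ^ n))
        (s29_kappa (N' * q * q) (p ^ n) ⟨ι (p ^ n) ψ, hx⟩) = 0 := by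
      rw [hk, s35_co_Data.T_comp, hψ, AddMonoidHom.comp_zero]
    have key := fun hα => s36_kc_alpha (N' * q) q hq (dvd_mul_left q N') (p ^ n)
      ⟨ι (p ^ n) ψ, hx⟩ hκ D g hD hg hdiv hα
    obtain ⟨hα, -, -, -, -, -⟩ := Fermat.Agent.S37.s37_h_heckeInputsAlong (N' * q) q
    exact ⟨fun hα' => (key hα').1, (key hα).2⟩
  · intro n ψ hψ W hW D g hD hg hdiv
    haveI : NeZero (p ^ n) := ⟨hpn n⟩
    obtain ⟨hx, hk⟩ := hspec (p ^ n) ψ
    have hκ : (s36_co_data2 N' q hq hqN).T (ZMod (p ^ n))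
        (s29_kappa (N' * q * q) (p ^ n) ⟨ι (p ^ n) ψ, hx⟩) = 0 := by
      rw [hk, s35_co_Data.T_comp, hψ, AddMonoidHom.comp_zero]
    have key := fun hα hWint => s36_kc_alphaW N' q hq hqN (p ^ n)
      ⟨ι (p ^ n) ψ, hx⟩ hκ W hW D g hD hg hdiv hα hWint
    obtain ⟨hα, -, -, -, -, -⟩ := Fermat.Agent.S37.s37_h_heckeInputsAlong (N' * q) q
    have hxNl := Fermat.Agent.S24.transcendental_jF (N' * q * q)
    haveI hfdNl := (Fermat.Agent.S24.asm_generic (N' * q * q)).1
    have hWint := Fermat.Agent.S37.s37_h_isIntegral_along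
      (W : modularFunctionFieldBar (N' * q * q) →ₐ[Qb] modularFunctionFieldBar (N' * q * q))
      (Fermat.Agent.S24.jF (N' * q * q)) hxNl (Fermat.Agent.S24.jF (N' * q * q)) hxNl
    exact ⟨fun hα' hWint' hD₂ => (key hα' hWint').1 hD₂, (key hα hWint).2⟩

/-- **(E), final form, with the `Pic⁰`-level statements.** -/
theorem s36_kb_main' (N' q : ℕ) [NeZero N'] [NeZero q] (hq : q.Prime) (hqN : ¬ q ∣ N') (p : ℕ)
    (hp : p ≠ 0) :
    ∃ ι : ℕ → (↥(parabolicHoms ℤ (Gamma0 (N' * q * q)) ℤ) →+ JZero (N' * q * q)),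
      (∀ n (ψ : ↥(parabolicHoms ℤ (Gamma0 (N' * q * q)) ℤ)), p ^ n • ι n ψ = 0) ∧
      (∀ n (ψ : ↥(parabolicHoms ℤ (Gamma0 (N' * q * q)) ℤ)), ι n ψ = 0 →
        ∃ ψ' : ↥(parabolicHoms ℤ (Gamma0 (N' * q * q)) ℤ), ψ = p ^ n • ψ') ∧
      (∀ n (l' : ℕ) (hl' : l'.Prime) (hl'N : ¬ l' ∣ N' * q * q)
        (ψ : ↥(parabolicHoms ℤ (Gamma0 (N' * q * q)) ℤ)),
        ι n (s29_cp_Tpar (N' * q * q) l' hl' hl'N ℤ ℤ ψ) =
          heckeOperatorBar (N' * q * q) ⟨l', hl'⟩ (ι n ψ)) ∧
      (∀ n (ψ : ↥(parabolicHoms ℤ (Gamma0 (N' * q * q)) ℤ)), p • ι (n + 1) ψ = ι n ψ) ∧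
      (∀ e : s35_Pol (N' * q * q),
        s35_ev (N' * q) (N' * q * q) (dvd_mul_right (N' * q) q) e = 0 →
        ∀ n (ψ : ↥(parabolicHoms ℤ (Gamma0 (N' * q * q)) ℤ))
          (D : Divisor.degZero (K := Qb) (F := modularFunctionFieldBar (N' * q * q)))
          (g : modularFunctionFieldBar (N' * q * q)),
          Pic0.mk D = ι n (s35_ev (N' * q * q) (N' * q * q) dvd_rfl e ψ) → g ≠ 0 →
          (∀ P : Place Qb (modularFunctionFieldBar (N' * q * q)),
            P.ord g = ((p ^ n : ℕ) : ℤ) *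
              (D : Divisor Qb (modularFunctionFieldBar (N' * q * q))) P) →
          ((∀ hα : (heckeAlphaBar Qb (N' * q) q).toRingHom.IsIntegral,
            Pic0.mk (⟨Divisor.pushforwardAlong (heckeAlphaBar Qb (N' * q) q) hα
                (D : Divisor Qb (modularFunctionFieldBar (N' * q * q))),
              Divisor.pushforwardAlong_mem_degZero _ hα D.2⟩ :
              Divisor.degZero (K := Qb) (F := modularFunctionFieldBar (N' * q))) =
                (0 : JZero (N' * q))) ∧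
          ∃ (c : Qb) (f : modularFunctionFieldBar (N' * q)),
            s29_kh_normAlong (heckeAlphaBar Qb (N' * q) q) g =
              algebraMap Qb (modularFunctionFieldBar (N' * q)) c * f ^ (p ^ n)) ∧
          ∀ (W : modularFunctionFieldBar (N' * q * q) ≃ₐ[Qb]
              modularFunctionFieldBar (N' * q * q)),
            s36_IsSwapBar N' q W →
            (haveI := Fermat.Agent.S37.s37_h_hasPrincipalDivisors_bar (N' * q * q)
             ∀ (hα : (heckeAlphaBar Qb (N' * q) q).toRingHom.IsIntegral)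
              (hWint : (W : modularFunctionFieldBar (N' * q * q) →ₐ[Qb]
                modularFunctionFieldBar (N' * q * q)).toRingHom.IsIntegral)
              (hD₂ : Divisor.pullbackAlong (W : modularFunctionFieldBar (N' * q * q) →ₐ[Qb]
                  modularFunctionFieldBar (N' * q * q)) hWint
                  (D : Divisor Qb (modularFunctionFieldBar (N' * q * q))) ∈
                  Divisor.degZero (K := Qb) (F := modularFunctionFieldBar (N' * q * q))),
              Pic0.mk (⟨Divisor.pushforwardAlong (heckeAlphaBar Qb (N' * q) q) hα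
                  (Divisor.pullbackAlong (W : modularFunctionFieldBar (N' * q * q) →ₐ[Qb]
                    modularFunctionFieldBar (N' * q * q)) hWint
                    (D : Divisor Qb (modularFunctionFieldBar (N' * q * q)))),
                Divisor.pushforwardAlong_mem_degZero _ hα hD₂⟩ :
                Divisor.degZero (K := Qb) (F := modularFunctionFieldBar (N' * q))) =
                  (0 : JZero (N' * q))) ∧
            ∃ (c : Qb) (f : modularFunctionFieldBar (N' * q)),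
              s29_kh_normAlong (heckeAlphaBar Qb (N' * q) q) (W g) =
                algebraMap Qb (modularFunctionFieldBar (N' * q)) c * f ^ (p ^ n)) := by
  obtain ⟨ι, h1, h2, h3, h4, h5, h6⟩ := s36_kc_main N' q hq hqN p hp
  refine ⟨ι, h1, h2, h3, h4, fun e he n ψ D g hD hg hdiv =>
    ⟨h5 n _ ?_ D g hD hg hdiv, fun W hW => h6 n _ ?_ W hW D g hD hg hdiv⟩⟩
  · rw [← s36_kb_cor_eq (N' * q) q (dvd_mul_left q N'), ← s35_tr_c1_coe (N' * q) q ℤ ℤ,
      s35_kb_ev_comm (N' * q) q (s35_tr_c1 (N' * q) q ℤ ℤ)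
        (fun l' hl' hl'M hl'N ψ => s36_tr_c1_comm (N' * q) q l' hl' hl'M hl'N ℤ ℤ ψ) e ψ, he]
    rfl
  · rw [← s36_kb_cor_pull_eq N' q hq hqN, ← s36_tr_c2_coe N' q hq hqN ℤ ℤ,
      s35_kb_ev_comm (N' * q) q (s36_tr_c2 N' q hq hqN ℤ ℤ)
        (fun l' hl' hl'M hl'N ψ => s36_tr_c2_comm N' q l' hq hqN hl' hl'M hl'N ℤ ℤ ψ) e ψ, he]
    rfl

/-- **(E), final form** (the exact analogue of `s35_kb_main` for the pair `(N' q q, N' q)`).
The `κ`-normalised comparison tower `ι_n : Λ(N' q q) → J₀(N' q q)[p^n]` (with the four BRIDGE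
properties) such that for every Hecke polynomial `e` killing the level-`N' q` lattice and every
`ψ`, every Kummer function `g` of `ι_n (e ψ)` has both `N_α g` and `N_α (W g)` of the form
constant times a `p^n`-th power. -/
theorem s36_kb_main (N' q : ℕ) [NeZero N'] [NeZero q] (hq : q.Prime) (hqN : ¬ q ∣ N') (p : ℕ)
    (hp : p ≠ 0) :
    ∃ ι : ℕ → (↥(parabolicHoms ℤ (Gamma0 (N' * q * q)) ℤ) →+ JZero (N' * q * q)),
      (∀ n (ψ : ↥(parabolicHoms ℤ (Gamma0 (N' * q * q)) ℤ)), p ^ n • ι n ψ = 0) ∧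
      (∀ n (ψ : ↥(parabolicHoms ℤ (Gamma0 (N' * q * q)) ℤ)), ι n ψ = 0 →
        ∃ ψ' : ↥(parabolicHoms ℤ (Gamma0 (N' * q * q)) ℤ), ψ = p ^ n • ψ') ∧
      (∀ n (l' : ℕ) (hl' : l'.Prime) (hl'N : ¬ l' ∣ N' * q * q)
        (ψ : ↥(parabolicHoms ℤ (Gamma0 (N' * q * q)) ℤ)),
        ι n (s29_cp_Tpar (N' * q * q) l' hl' hl'N ℤ ℤ ψ) =
          heckeOperatorBar (N' * q * q) ⟨l', hl'⟩ (ι n ψ)) ∧
      (∀ n (ψ : ↥(parabolicHoms ℤ (Gamma0 (N' * q * q)) ℤ)), p • ι (n + 1) ψ = ι n ψ) ∧
      (∀ e : s35_Pol (N' * q * q),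
        s35_ev (N' * q) (N' * q * q) (dvd_mul_right (N' * q) q) e = 0 →
        ∀ n (ψ : ↥(parabolicHoms ℤ (Gamma0 (N' * q * q)) ℤ))
          (D : Divisor.degZero (K := Qb) (F := modularFunctionFieldBar (N' * q * q)))
          (g : modularFunctionFieldBar (N' * q * q)),
          Pic0.mk D = ι n (s35_ev (N' * q * q) (N' * q * q) dvd_rfl e ψ) → g ≠ 0 →
          (∀ P : Place Qb (modularFunctionFieldBar (N' * q * q)),
            P.ord g = ((p ^ n : ℕ) : ℤ) *
              (D : Divisor Qb (modularFunctionFieldBar (N' * q * q))) P) →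
          (∃ (c : Qb) (f : modularFunctionFieldBar (N' * q)),
            s29_kh_normAlong (heckeAlphaBar Qb (N' * q) q) g =
              algebraMap Qb (modularFunctionFieldBar (N' * q)) c * f ^ (p ^ n)) ∧
          ∀ (W : modularFunctionFieldBar (N' * q * q) ≃ₐ[Qb]
              modularFunctionFieldBar (N' * q * q)),
            (∀ (d m : ℕ) (_ : d ∣ N') (_ : m ∣ q * q)
              (h1 : Fermat.Agent.S37.s37_ew_s (d * m) ∈ modularFunctionFieldBar (N' * q * q)),
              ((W ⟨Fermat.Agent.S37.s37_ew_s (d * m), h1⟩ :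
                modularFunctionFieldBar (N' * q * q)) : LaurentSeries Qb) =
                Fermat.Agent.S37.s37_ew_s (d * (q * q / m))) →
            ∃ (c : Qb) (f : modularFunctionFieldBar (N' * q)),
              s29_kh_normAlong (heckeAlphaBar Qb (N' * q) q) (W g) =
                algebraMap Qb (modularFunctionFieldBar (N' * q)) c * f ^ (p ^ n)) := by
  obtain ⟨ι, h1, h2, h3, h4, h5⟩ := s36_kb_main' N' q hq hqN p hp
  exact ⟨ι, h1, h2, h3, h4, fun e he n ψ D g hD hg hdiv =>
    ⟨(h5 e he n ψ D g hD hg hdiv).1.2, fun W hW => ((h5 e he n ψ D g hD hg hdiv).2 W hW).2⟩⟩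

/-- existence of the swap: the Atkin–Lehner swap of `(N', q²)` transported to `F̄(N' q q)`. -/
theorem s36_kb_swap_exists (N' q : ℕ) [NeZero N'] [NeZero q] (hq : q.Prime) (hqN : ¬ q ∣ N') :
    ∃ W : modularFunctionFieldBar (N' * q * q) ≃ₐ[Qb] modularFunctionFieldBar (N' * q * q),
      s36_IsSwapBar N' q W := by
  have hc : Nat.Coprime q N' := (Nat.Prime.coprime_iff_not_dvd hq).2 hqN
  have hcop : Nat.Coprime (q * q) N' := Nat.Coprime.mul_left hc hc
  have key : ∀ (M : ℕ) (_ : N' * (q * q) = M),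
      ∃ W : modularFunctionFieldBar M ≃ₐ[Qb] modularFunctionFieldBar M,
        ∀ (d m : ℕ) (_ : d ∣ N') (_ : m ∣ q * q)
          (h1 : Fermat.Agent.S37.s37_ew_s (d * m) ∈ modularFunctionFieldBar M),
          ((W ⟨Fermat.Agent.S37.s37_ew_s (d * m), h1⟩ : modularFunctionFieldBar M) :
            LaurentSeries Qb) = Fermat.Agent.S37.s37_ew_s (d * (q * q / m)) := by
    intro M hM
    subst hM
    exact Fermat.Agent.S37.s37_ew_swap_field N' (q * q) hcop
  exact key _ (Nat.mul_assoc N' q q).symm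

end Fermat.Agent.S36
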