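import Mathlib
import Fermat.Agent.S36.HubDefs
import Fermat.Agent.S36.BaseInv
import Fermat.Agent.S29.KapHeckeAlg
import Fermat.Agent.S18.ConstBar
import Fermat.Agent.S34.SwapK
import Fermat.Agent.S34.GalBook
import Fermat.Agent.S37.TrMain

/-!
# S36 (NODE-3), block MID: the `q`-new part of `J₀(N' q²)` in function-theoretic form

Level `N' q²`, `α = heckeAlphaBar Qb (N' q) q` the inclusion of `Q̄ · F(N' q)`.

* `s36_mid_NS ψ m g` : the norm of `g` along `ψ` is a constant times an `m`-th power;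
  `s36_mid_NSW ψ 𝒲 m g` : the same for `g` and for all `W g`, `W ∈ 𝒲`.  Closure properties
  (products, inverses, constants, `m`-th powers, rescaling `m ↦ m k`, root extraction, semilinear
  automorphisms intertwined by `ψ`).
* `s36_mid_swap_comm` : an Atkin–Lehner swap (`s36_IsSwapBar`) commutes with the coefficientwise
  Galois action.
* `s36_mid_Nw N' q` : the subgroup of the classes `y ∈ J₀(N' q²)(ℚ̄)` having SOME Kummer pair
  `(m, D, g)` (`0 < m`, `[D] = y`, `m D = div g`) with `s36_mid_NSW α (swaps) m g`.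
* `s36_mid_Nw_galois` : it is Galois-stable.
* `s36_mid_kill` : from the hub `s36_FInv N' q c` and the invariant Kummer pair `s36_bi_main`:
  an inertia-fixed `a`-torsion point of `s36_mid_Nw` (`q ∤ a`) is killed by `c`.
* `s36_mid_mem` : a torsion point all of whose Kummer pairs have the two norm statements (the
  output of the `κ`-transfer clone `s36_kb_main`) lies in `s36_mid_Nw`.
-/

set_option autoImplicit false
set_option linter.style.haveILetI false

open ModularCurve AlgebraicCurve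

noncomputable section

namespace Fermat.Agent.S36

open Fermat.Agent.S29 Fermat.Agent.S37

local notation "Qb" => AlgebraicClosure ℚ
local notation "Γ" => (AlgebraicClosure ℚ ≃ₐ[ℚ] AlgebraicClosure ℚ)

section Generic

variable {K F F' : Type*} [Field K] [Field F] [Field F'] [Algebra K F] [Algebra K F']

/-- The norm along `ψ` commutes with a pair of semilinear automorphisms intertwined by `ψ`. -/
theorem s36_mid_norm_smul (ψ : F →ₐ[K] F') (g : SemilinearAut K F) (g' : SemilinearAut K F')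
    (h : SemilinearAut.IntertwinesAlong ψ.toRingHom g g') (x : F') :
    s29_kh_normAlong ψ (g' • x) = g • s29_kh_normAlong ψ x := by
  letI := algebraAlong ψ
  have he : RingHom.comp (algebraMap F F') (↑(SemilinearAut.toRingAut g) : F →+* F)
      = RingHom.comp (↑(SemilinearAut.toRingAut g') : F' →+* F') (algebraMap F F') := by
    ext y
    exact (h y).symm
  have h1 := Algebra.norm_eq_of_equiv_equiv (SemilinearAut.toRingAut g)
    (SemilinearAut.toRingAut g') he x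
  show Algebra.norm F (SemilinearAut.toRingAut g' x)
    = SemilinearAut.toRingAut g (Algebra.norm F x)
  rw [h1, RingEquiv.apply_symm_apply]

theorem s36_mid_norm_one (ψ : F →ₐ[K] F') : s29_kh_normAlong ψ (1 : F') = 1 := by
  letI := algebraAlong ψ
  exact map_one (Algebra.norm F)

theorem s36_mid_norm_mul (ψ : F →ₐ[K] F') (x y : F') :
    s29_kh_normAlong ψ (x * y) = s29_kh_normAlong ψ x * s29_kh_normAlong ψ y := by
  letI := algebraAlong ψ
  exact map_mul (Algebra.norm F) x y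

theorem s36_mid_norm_pow (ψ : F →ₐ[K] F') (x : F') (n : ℕ) :
    s29_kh_normAlong ψ (x ^ n) = s29_kh_normAlong ψ x ^ n := by
  letI := algebraAlong ψ
  exact map_pow (Algebra.norm F) x n

theorem s36_mid_norm_inv (ψ : F →ₐ[K] F') {x : F'} (hx : x ≠ 0) :
    s29_kh_normAlong ψ x⁻¹ = (s29_kh_normAlong ψ x)⁻¹ := by
  have h : s29_kh_normAlong ψ x * s29_kh_normAlong ψ x⁻¹ = 1 := by
    rw [← s36_mid_norm_mul, mul_inv_cancel₀ hx, s36_mid_norm_one]
  exact eq_inv_of_mul_eq_one_right h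

/-- The norm of a constant is a constant. -/
theorem s36_mid_norm_const (ψ : F →ₐ[K] F') (k : K) :
    ∃ c : K, s29_kh_normAlong ψ (algebraMap K F' k) = algebraMap K F c := by
  letI := algebraAlong ψ
  refine ⟨k ^ Module.finrank F F', ?_⟩
  have h1 : algebraMap K F' k = algebraMap F F' (algebraMap K F k) := (ψ.commutes k).symm
  show Algebra.norm F (algebraMap K F' k) = _
  rw [h1, Algebra.norm_algebraMap, map_pow]

/-- `s36_mid_NS ψ m g`: the norm of `g` along `ψ` is a constant times an `m`-th power. -/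
def s36_mid_NS (ψ : F →ₐ[K] F') (m : ℕ) (g : F') : Prop :=
  ∃ (c : K) (f : F), s29_kh_normAlong ψ g = algebraMap K F c * f ^ m

theorem s36_mid_NS_one (ψ : F →ₐ[K] F') (m : ℕ) : s36_mid_NS ψ m (1 : F') :=
  ⟨1, 1, by rw [s36_mid_norm_one, map_one, one_pow, one_mul]⟩

theorem s36_mid_NS_mul (ψ : F →ₐ[K] F') (m : ℕ) {x y : F'} (hx : s36_mid_NS ψ m x)
    (hy : s36_mid_NS ψ m y) : s36_mid_NS ψ m (x * y) := by
  obtain ⟨c, f, h⟩ := hx
  obtain ⟨c', f', h'⟩ := hy
  refine ⟨c * c', f * f', ?_⟩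
  rw [s36_mid_norm_mul, h, h', map_mul, mul_pow]
  ring

theorem s36_mid_NS_inv (ψ : F →ₐ[K] F') (m : ℕ) {x : F'} (hx0 : x ≠ 0)
    (hx : s36_mid_NS ψ m x) : s36_mid_NS ψ m x⁻¹ := by
  obtain ⟨c, f, h⟩ := hx
  refine ⟨c⁻¹, f⁻¹, ?_⟩
  rw [s36_mid_norm_inv ψ hx0, h, map_inv₀, inv_pow, mul_inv]

theorem s36_mid_NS_const (ψ : F →ₐ[K] F') (m : ℕ) (k : K) :
    s36_mid_NS ψ m (algebraMap K F' k) := by
  obtain ⟨c, hc⟩ := s36_mid_norm_const ψ k
  exact ⟨c, 1, by rw [hc, one_pow, mul_one]⟩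

/-- An `m`-th power has the norm shape. -/
theorem s36_mid_NS_pow_self (ψ : F →ₐ[K] F') (m : ℕ) (x : F') : s36_mid_NS ψ m (x ^ m) :=
  ⟨1, s29_kh_normAlong ψ x, by rw [s36_mid_norm_pow, map_one, one_mul]⟩

/-- If `N(x) = c f ^ m` then `N(x ^ k) = c ^ k f ^ (m k)`. -/
theorem s36_mid_NS_scale (ψ : F →ₐ[K] F') (m k : ℕ) {x : F'} (hx : s36_mid_NS ψ m x) :
    s36_mid_NS ψ (m * k) (x ^ k) := by
  obtain ⟨c, f, h⟩ := hx
  refine ⟨c ^ k, f, ?_⟩
  rw [s36_mid_norm_pow, h, mul_pow, map_pow, pow_mul]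

/-- The norm shape is stable under a pair of intertwined semilinear automorphisms. -/
theorem s36_mid_NS_smul (ψ : F →ₐ[K] F') (g : SemilinearAut K F) (g' : SemilinearAut K F')
    (h : SemilinearAut.IntertwinesAlong ψ.toRingHom g g') (m : ℕ) {x : F'}
    (hx : s36_mid_NS ψ m x) : s36_mid_NS ψ m (g' • x) := by
  obtain ⟨c, f, hcf⟩ := hx
  refine ⟨SemilinearAut.baseAut g c, g • f, ?_⟩
  rw [s36_mid_norm_smul ψ g g' h, hcf, smul_mul', smul_pow', SemilinearAut.smul_algebraMap]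

/-- An element of an extension field of an algebraically closed field whose `m`-th power
(`0 < m`) is a constant is a constant. -/
theorem s36_mid_root_const [IsAlgClosed K] (m : ℕ) (hm : 0 < m) (x : F) (κ : K)
    (hx : x ^ m = algebraMap K F κ) : ∃ c : K, x = algebraMap K F c := by
  have hint : IsIntegral K x := by
    refine ⟨Polynomial.X ^ m - Polynomial.C κ, Polynomial.monic_X_pow_sub_C κ hm.ne', ?_⟩
    rw [← Polynomial.aeval_def, map_sub, map_pow, Polynomial.aeval_X, Polynomial.aeval_C, hx,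
      sub_self]
  have hdeg := IsAlgClosed.degree_eq_one_of_irreducible K (minpoly.irreducible hint)
  obtain ⟨c, hc⟩ := minpoly.mem_range_of_degree_eq_one K x hdeg
  exact ⟨c, hc.symm⟩

/-- Root extraction for the norm shape: if `N(x ^ m₀) = c f ^ (m₀ a)` with `0 < m₀`, then
`N(x) = c' f ^ a`. -/
theorem s36_mid_NS_root [IsAlgClosed K] (ψ : F →ₐ[K] F') (m₀ a : ℕ) (hm₀ : 0 < m₀) {x : F'}
    (hx : s36_mid_NS ψ (m₀ * a) (x ^ m₀)) : s36_mid_NS ψ a x := by
  obtain ⟨c, f, h⟩ := hx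
  rw [s36_mid_norm_pow] at h
  by_cases hf : f ^ a = 0
  · refine ⟨0, f, ?_⟩
    have h0 : s29_kh_normAlong ψ x ^ m₀ = 0 := by
      rw [h, mul_comm m₀ a, pow_mul, hf, zero_pow hm₀.ne', mul_zero]
    rw [map_zero, zero_mul]
    exact pow_eq_zero_iff hm₀.ne' |>.mp h0
  · have h1 : (s29_kh_normAlong ψ x * (f ^ a)⁻¹) ^ m₀ = algebraMap K F c := by
      rw [mul_pow, h, inv_pow, ← pow_mul, mul_comm a m₀, mul_assoc,
        mul_inv_cancel₀ (by rw [mul_comm m₀ a, pow_mul]; exact pow_ne_zero _ hf), mul_one]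
    obtain ⟨c', hc'⟩ := s36_mid_root_const m₀ hm₀ _ c h1
    refine ⟨c', f, ?_⟩
    rw [← hc', mul_assoc, inv_mul_cancel₀ hf, mul_one]

/-- `s36_mid_NSW ψ 𝒲 m g`: the norms of `g` and of `W g`, `W ∈ 𝒲`, are constants times
`m`-th powers. -/
def s36_mid_NSW (ψ : F →ₐ[K] F') (𝒲 : Set (F' ≃ₐ[K] F')) (m : ℕ) (g : F') : Prop :=
  s36_mid_NS ψ m g ∧ ∀ W ∈ 𝒲, s36_mid_NS ψ m (W g)

theorem s36_mid_NSW_one (ψ : F →ₐ[K] F') (𝒲 : Set (F' ≃ₐ[K] F')) (m : ℕ) :
    s36_mid_NSW ψ 𝒲 m (1 : F') :=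
  ⟨s36_mid_NS_one ψ m, fun W _ => by rw [map_one]; exact s36_mid_NS_one ψ m⟩

theorem s36_mid_NSW_mul (ψ : F →ₐ[K] F') (𝒲 : Set (F' ≃ₐ[K] F')) (m : ℕ) {x y : F'}
    (hx : s36_mid_NSW ψ 𝒲 m x) (hy : s36_mid_NSW ψ 𝒲 m y) : s36_mid_NSW ψ 𝒲 m (x * y) :=
  ⟨s36_mid_NS_mul ψ m hx.1 hy.1, fun W hW => by
    rw [map_mul]; exact s36_mid_NS_mul ψ m (hx.2 W hW) (hy.2 W hW)⟩

theorem s36_mid_NSW_inv (ψ : F →ₐ[K] F') (𝒲 : Set (F' ≃ₐ[K] F')) (m : ℕ) {x : F'}
    (hx0 : x ≠ 0) (hx : s36_mid_NSW ψ 𝒲 m x) : s36_mid_NSW ψ 𝒲 m x⁻¹ :=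
  ⟨s36_mid_NS_inv ψ m hx0 hx.1, fun W hW => by
    rw [map_inv₀]
    exact s36_mid_NS_inv ψ m ((map_ne_zero W).mpr hx0) (hx.2 W hW)⟩

theorem s36_mid_NSW_const (ψ : F →ₐ[K] F') (𝒲 : Set (F' ≃ₐ[K] F')) (m : ℕ) (k : K) :
    s36_mid_NSW ψ 𝒲 m (algebraMap K F' k) :=
  ⟨s36_mid_NS_const ψ m k, fun W _ => by
    rw [AlgEquiv.commutes]; exact s36_mid_NS_const ψ m k⟩

theorem s36_mid_NSW_pow_self (ψ : F →ₐ[K] F') (𝒲 : Set (F' ≃ₐ[K] F')) (m : ℕ) (x : F') :
    s36_mid_NSW ψ 𝒲 m (x ^ m) :=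
  ⟨s36_mid_NS_pow_self ψ m x, fun W _ => by
    rw [map_pow]; exact s36_mid_NS_pow_self ψ m (W x)⟩

theorem s36_mid_NSW_scale (ψ : F →ₐ[K] F') (𝒲 : Set (F' ≃ₐ[K] F')) (m k : ℕ) {x : F'}
    (hx : s36_mid_NSW ψ 𝒲 m x) : s36_mid_NSW ψ 𝒲 (m * k) (x ^ k) :=
  ⟨s36_mid_NS_scale ψ m k hx.1, fun W hW => by
    rw [map_pow]; exact s36_mid_NS_scale ψ m k (hx.2 W hW)⟩

theorem s36_mid_NSW_root [IsAlgClosed K] (ψ : F →ₐ[K] F') (𝒲 : Set (F' ≃ₐ[K] F'))
    (m₀ a : ℕ) (hm₀ : 0 < m₀) {x : F'} (hx : s36_mid_NSW ψ 𝒲 (m₀ * a) (x ^ m₀)) :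
    s36_mid_NSW ψ 𝒲 a x :=
  ⟨s36_mid_NS_root ψ m₀ a hm₀ hx.1, fun W hW => by
    have h := hx.2 W hW
    rw [map_pow] at h
    exact s36_mid_NS_root ψ m₀ a hm₀ h⟩

/-- The order of a natural power. -/
theorem s36_mid_ord_pow (v : Place K F) (f : F) (n : ℕ) : v.ord (f ^ n) = (n : ℤ) * v.ord f := by
  have h := v.ord_zpow f (n : ℤ)
  rwa [zpow_natCast] at h

end Generic

/-- The series `j(Q^e)` has rational coefficients. -/
theorem s36_mid_coeffMap_s (σ : Γ) (e : ℕ) :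
    coeffMap (σ : Qb →+* Qb) (s37_ew_s e) = s37_ew_s e := by
  unfold s37_ew_s
  split_ifs with h
  · exact map_zero _
  · exact coeffMap_coeffEmb σ _

/-- An Atkin–Lehner swap commutes with the coefficientwise Galois action. -/
theorem s36_mid_swap_comm (N' q : ℕ) [NeZero (N' * q * q)]
    (W : modularFunctionFieldBar (N' * q * q) ≃ₐ[Qb] modularFunctionFieldBar (N' * q * q))
    (hW : s36_IsSwapBar N' q W) (σ : Γ) (g : modularFunctionFieldBar (N' * q * q)) :
    W (arithmeticGalois (modularFunctionFieldFull (N' * q * q)) σ • g)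
      = arithmeticGalois (modularFunctionFieldFull (N' * q * q)) σ • W g := by
  have key : ((W : modularFunctionFieldBar (N' * q * q) →+* modularFunctionFieldBar (N' * q * q)).comp
        (arithmeticRingAut (modularFunctionFieldFull (N' * q * q)) σ :
          modularFunctionFieldBar (N' * q * q) →+* modularFunctionFieldBar (N' * q * q)))
      = ((arithmeticRingAut (modularFunctionFieldFull (N' * q * q)) σ :
          modularFunctionFieldBar (N' * q * q) →+* modularFunctionFieldBar (N' * q * q)).comp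
        (W : modularFunctionFieldBar (N' * q * q) →+* modularFunctionFieldBar (N' * q * q))) := by
    apply Fermat.Agent.S34.s34_sw_ringHom_ext (N' * q * q)
    · intro c
      show W (arithmeticRingAut (modularFunctionFieldFull (N' * q * q)) σ (algebraMap Qb _ c))
        = arithmeticRingAut (modularFunctionFieldFull (N' * q * q)) σ (W (algebraMap Qb _ c))
      rw [arithmeticRingAut_algebraMap, AlgEquiv.commutes, AlgEquiv.commutes,
        arithmeticRingAut_algebraMap]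
    · intro e _ he
      show W (arithmeticRingAut (modularFunctionFieldFull (N' * q * q)) σ
          ⟨coeffEmb Qb (qExpand ℚ e jq), Fermat.Agent.S34.s34_sw_s_mem Qb (N' * q * q) e he⟩)
        = arithmeticRingAut (modularFunctionFieldFull (N' * q * q)) σ
          (W ⟨coeffEmb Qb (qExpand ℚ e jq), Fermat.Agent.S34.s34_sw_s_mem Qb (N' * q * q) e he⟩)
      have h1 : arithmeticRingAut (modularFunctionFieldFull (N' * q * q)) σ
          ⟨coeffEmb Qb (qExpand ℚ e jq), Fermat.Agent.S34.s34_sw_s_mem Qb (N' * q * q) e he⟩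
          = ⟨coeffEmb Qb (qExpand ℚ e jq),
              Fermat.Agent.S34.s34_sw_s_mem Qb (N' * q * q) e he⟩ :=
        Subtype.ext (coeffMap_coeffEmb σ _)
      rw [h1]
      have he' : e ∣ N' * (q * q) := by rwa [Nat.mul_assoc] at he
      obtain ⟨d, m, hd, hm, hdm⟩ := (Nat.dvd_mul).mp he'
      have hs : s37_ew_s (d * m) = coeffEmb Qb (qExpand ℚ e jq) := by
        subst hdm
        exact s37_ew_s_eq (d * m)
      have hmem : s37_ew_s (d * m) ∈ modularFunctionFieldBar (N' * q * q) := by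
        rw [hs]
        exact Fermat.Agent.S34.s34_sw_s_mem Qb (N' * q * q) e he
      have h2 : (⟨coeffEmb Qb (qExpand ℚ e jq),
          Fermat.Agent.S34.s34_sw_s_mem Qb (N' * q * q) e he⟩ :
            modularFunctionFieldBar (N' * q * q)) = ⟨s37_ew_s (d * m), hmem⟩ :=
        Subtype.ext hs.symm
      rw [h2]
      apply Subtype.ext
      rw [coe_arithmeticRingAut_apply, hW d m hd hm hmem, s36_mid_coeffMap_s]
  exact DFunLike.congr_fun key g

/-- The set of Atkin–Lehner swaps of `(N', q²)`. -/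
def s36_mid_sw (N' q : ℕ) [NeZero (N' * q * q)] :
    Set (modularFunctionFieldBar (N' * q * q) ≃ₐ[Qb] modularFunctionFieldBar (N' * q * q)) :=
  {W | s36_IsSwapBar N' q W}

/-- `y` has a Kummer pair `(D, g)` (`m D = div g`, `[D] = y`, `0 < m`) such that the norms of
`g` and of `W g` to level `N' q` are constants times `m`-th powers. -/
def s36_mid_IsNew (N' q : ℕ) [NeZero (N' * q)] [NeZero q] [NeZero (N' * q * q)]
    (y : JZero (N' * q * q)) : Prop :=
  ∃ (m : ℕ) (D : Divisor.degZero (K := Qb) (F := modularFunctionFieldBar (N' * q * q)))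
    (g : modularFunctionFieldBar (N' * q * q)), 0 < m ∧ g ≠ 0 ∧ Pic0.mk D = y ∧
    (∀ v : Place Qb (modularFunctionFieldBar (N' * q * q)),
      (m : ℤ) * (D : Divisor Qb (modularFunctionFieldBar (N' * q * q))) v = v.ord g) ∧
    s36_mid_NSW (heckeAlphaBar Qb (N' * q) q) (s36_mid_sw N' q) m g

/-- The `q`-new part of `J₀(N' q²)(ℚ̄)` (function-theoretic form). -/
def s36_mid_Nw (N' q : ℕ) [NeZero (N' * q)] [NeZero q] [NeZero (N' * q * q)] :
    AddSubgroup (JZero (N' * q * q)) where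
  carrier := {y | s36_mid_IsNew N' q y}
  zero_mem' := by
    refine ⟨1, 0, 1, one_pos, one_ne_zero, rfl, fun v => ?_, s36_mid_NSW_one _ _ _⟩
    rw [v.ord_one]
    simp
  add_mem' := by
    rintro y₁ y₂ ⟨m₁, D₁, g₁, hm₁, hg₁, rfl, hd₁, hN₁⟩ ⟨m₂, D₂, g₂, hm₂, hg₂, rfl, hd₂, hN₂⟩
    refine ⟨m₁ * m₂, D₁ + D₂, g₁ ^ m₂ * g₂ ^ m₁, Nat.mul_pos hm₁ hm₂,
      mul_ne_zero (pow_ne_zero _ hg₁) (pow_ne_zero _ hg₂), rfl, fun v => ?_, ?_⟩
    · rw [v.ord_mul (pow_ne_zero _ hg₁) (pow_ne_zero _ hg₂), s36_mid_ord_pow, s36_mid_ord_pow,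
        ← hd₁ v, ← hd₂ v, AddSubgroup.coe_add, Finsupp.add_apply]
      push_cast
      ring
    · refine s36_mid_NSW_mul _ _ _ (s36_mid_NSW_scale _ _ m₁ m₂ hN₁) ?_
      rw [mul_comm m₁ m₂]
      exact s36_mid_NSW_scale _ _ m₂ m₁ hN₂
  neg_mem' := by
    rintro y ⟨m, D, g, hm, hg, rfl, hd, hN⟩
    refine ⟨m, -D, g⁻¹, hm, inv_ne_zero hg, rfl, fun v => ?_, s36_mid_NSW_inv _ _ _ hg hN⟩
    rw [v.ord_inv, ← hd v, AddSubgroup.coe_neg, Finsupp.neg_apply]
    ring

theorem s36_mid_mem_Nw (N' q : ℕ) [NeZero (N' * q)] [NeZero q] [NeZero (N' * q * q)]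
    (y : JZero (N' * q * q)) : y ∈ s36_mid_Nw N' q ↔ s36_mid_IsNew N' q y := Iff.rfl

/-- The new part is Galois-stable. -/
theorem s36_mid_Nw_galois (N' q : ℕ) [NeZero (N' * q)] [NeZero q] [NeZero (N' * q * q)]
    (σ : Γ) (y : JZero (N' * q * q)) (hy : y ∈ s36_mid_Nw N' q) : σ • y ∈ s36_mid_Nw N' q := by
  obtain ⟨m, D, g, hm, hg, rfl, hd, hN⟩ := hy
  refine ⟨m, SemilinearAut.degZeroSMulHom (arithmeticGalois (modularFunctionFieldFull (N' * q * q)) σ) D,
    arithmeticGalois (modularFunctionFieldFull (N' * q * q)) σ • g,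
    hm, (smul_ne_zero_iff_ne _).mpr hg, ?_, fun v => ?_, ?_, ?_⟩
  · rw [galois_smul_pic0_def, SemilinearAut.pic0_smul_mk]
  · rw [SemilinearAut.coe_degZeroSMulHom]
    exact Fermat.Agent.S34.s34_gb_div_smul _ (m : ℤ) _ g hd v
  · exact s36_mid_NS_smul _ _ _ (s37_tr_intertwines (N' * q) q σ) m hN.1
  · intro W hW
    rw [s36_mid_swap_comm N' q W hW σ g]
    exact s36_mid_NS_smul _ _ _ (s37_tr_intertwines (N' * q) q σ) m (hN.2 W hW)

/-- **(kill)** from the hub `s36_FInv`: an inertia-fixed `a`-torsion point of the new part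
(`q ∤ a`) is killed by `c`. -/
theorem s36_mid_kill (N' q c : ℕ) [NeZero (N' * q)] [NeZero q] [NeZero (N' * q * q)]
    (hF : s36_FInv N' q c) (P : ValuationSubring Qb) (hP : P.LiesOverPrime q)
    (a : ℕ) (ha : 0 < a) (hqa : ¬ q ∣ a) (y : JZero (N' * q * q))
    (hy : y ∈ s36_mid_Nw N' q) (hay : a • y = 0)
    (hfix : ∀ τ ∈ P.inertiaSubgroupIn ℚ, τ • y = y) : c • y = 0 := by
  obtain ⟨m₀, D₀, g₀, hm₀, hg₀, hD₀, hord₀, hN₀⟩ := hy
  obtain ⟨D, g, hg, hD, hord, hinv, -⟩ := s36_bi_main (N' * q * q) (P.inertiaSubgroupIn ℚ) a ha y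
    (by rw [natCast_zsmul]; exact hay) hfix
  -- `D - D₀` is principal
  have hpr : D - D₀ ∈ (Divisor.principal (K := Qb)
      (F := modularFunctionFieldBar (N' * q * q))).addSubgroupOf
        (Divisor.degZero (K := Qb) (F := modularFunctionFieldBar (N' * q * q))) := by
    rw [← QuotientAddGroup.eq_zero_iff]
    have h1 : Pic0.mk (D - D₀) = Pic0.mk D - Pic0.mk D₀ := rfl
    have h2 : Pic0.mk D - Pic0.mk D₀ = (0 : JZero (N' * q * q)) := by rw [hD, hD₀, sub_self]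
    exact h1.trans h2
  rw [AddSubgroup.mem_addSubgroupOf] at hpr
  obtain ⟨h, hh0, hh⟩ := hpr
  -- `g ^ m₀ = k g₀ ^ a h ^ (m₀ a)`
  have hordeq : ∀ v : Place Qb (modularFunctionFieldBar (N' * q * q)),
      v.ord (g ^ m₀) = v.ord (g₀ ^ a * h ^ (m₀ * a)) := by
    intro v
    have h3 := hh v
    rw [AddSubgroup.coe_sub, Finsupp.sub_apply] at h3
    rw [v.ord_mul (pow_ne_zero _ hg₀) (pow_ne_zero _ hh0), s36_mid_ord_pow, s36_mid_ord_pow,
      s36_mid_ord_pow, ← hord v, ← hord₀ v, ← h3]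
    push_cast
    ring
  obtain ⟨k, -, hk⟩ := Fermat.Agent.S18.s18_eq_const_mul_of_ord_eq (N' * q * q) (g ^ m₀)
    (g₀ ^ a * h ^ (m₀ * a)) (pow_ne_zero _ hg)
    (mul_ne_zero (pow_ne_zero _ hg₀) (pow_ne_zero _ hh0)) hordeq
  have hN1 : s36_mid_NSW (heckeAlphaBar Qb (N' * q) q) (s36_mid_sw N' q) (m₀ * a) (g ^ m₀) := by
    rw [hk]
    exact s36_mid_NSW_mul _ _ _ (s36_mid_NSW_const _ _ _ k)
      (s36_mid_NSW_mul _ _ _ (s36_mid_NSW_scale _ _ m₀ a hN₀) (s36_mid_NSW_pow_self _ _ _ h))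
  have hN : s36_mid_NSW (heckeAlphaBar Qb (N' * q) q) (s36_mid_sw N' q) a g :=
    s36_mid_NSW_root _ _ m₀ a hm₀ hN1
  obtain ⟨h₂, hh₂⟩ := hF P hP a ha hqa g hg (fun v => ⟨_, (hord v).symm⟩)
    (fun τ hτ => hinv τ hτ) hN.1 (fun W hW => hN.2 W hW)
  -- conclusion
  have hh₂0 : h₂ ≠ 0 := by
    rintro rfl
    rw [zero_pow ha.ne'] at hh₂
    exact pow_ne_zero c hg hh₂.symm
  have hcD : (c • D : Divisor.degZero (K := Qb) (F := modularFunctionFieldBar (N' * q * q))) ∈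
      (Divisor.principal (K := Qb) (F := modularFunctionFieldBar (N' * q * q))).addSubgroupOf
        (Divisor.degZero (K := Qb) (F := modularFunctionFieldBar (N' * q * q))) := by
    rw [AddSubgroup.mem_addSubgroupOf]
    refine ⟨h₂, hh₂0, fun v => ?_⟩
    have haz : (a : ℤ) ≠ 0 := by exact_mod_cast ha.ne'
    apply mul_left_cancel₀ haz
    rw [← s36_mid_ord_pow, hh₂, s36_mid_ord_pow, ← hord v, AddSubgroup.coe_nsmul,
      Finsupp.smul_apply]
    simp only [nsmul_eq_mul]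
    ring
  rw [← hD]
  exact (QuotientAddGroup.eq_zero_iff _).mpr hcD

/-- **(membership)** a torsion point all of whose Kummer pairs have the two norm statements
lies in the new part. -/
theorem s36_mid_mem (N' q : ℕ) [NeZero (N' * q)] [NeZero q] [NeZero (N' * q * q)]
    (m : ℕ) (hm : 0 < m) (x : JZero (N' * q * q)) (hx : m • x = 0)
    (hKC : ∀ (D : Divisor.degZero (K := Qb) (F := modularFunctionFieldBar (N' * q * q)))
      (g : modularFunctionFieldBar (N' * q * q)), Pic0.mk D = x → g ≠ 0 →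
      (∀ v : Place Qb (modularFunctionFieldBar (N' * q * q)),
        v.ord g = (m : ℤ) * (D : Divisor Qb (modularFunctionFieldBar (N' * q * q))) v) →
      (∃ (c : Qb) (f : modularFunctionFieldBar (N' * q)),
        s29_kh_normAlong (heckeAlphaBar Qb (N' * q) q) g
          = algebraMap Qb (modularFunctionFieldBar (N' * q)) c * f ^ m) ∧
      ∀ W : modularFunctionFieldBar (N' * q * q) ≃ₐ[Qb] modularFunctionFieldBar (N' * q * q),
        s36_IsSwapBar N' q W →
        ∃ (c : Qb) (f : modularFunctionFieldBar (N' * q)),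
          s29_kh_normAlong (heckeAlphaBar Qb (N' * q) q) (W g)
            = algebraMap Qb (modularFunctionFieldBar (N' * q)) c * f ^ m) :
    x ∈ s36_mid_Nw N' q := by
  obtain ⟨D, hD⟩ := Pic0.mk_surjective x
  rw [← hD] at hx
  have hmD : (m • D : Divisor.degZero (K := Qb) (F := modularFunctionFieldBar (N' * q * q))) ∈
      (Divisor.principal (K := Qb) (F := modularFunctionFieldBar (N' * q * q))).addSubgroupOf
        (Divisor.degZero (K := Qb) (F := modularFunctionFieldBar (N' * q * q))) := by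
    have h1' : Pic0.mk (m • D) = (0 : Pic0 Qb (modularFunctionFieldBar (N' * q * q))) := by
      rw [← hx]; rfl
    exact (QuotientAddGroup.eq_zero_iff _).mp h1'
  rw [AddSubgroup.mem_addSubgroupOf] at hmD
  obtain ⟨g, hg0, hg⟩ := hmD
  have hgD : ∀ v : Place Qb (modularFunctionFieldBar (N' * q * q)),
      v.ord g = (m : ℤ) * (D : Divisor Qb (modularFunctionFieldBar (N' * q * q))) v := by
    intro v
    rw [← hg v]
    simp [Finsupp.smul_apply]
  obtain ⟨hA, hB⟩ := hKC D g hD hg0 hgD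
  exact ⟨m, D, g, hm, hg0, hD, fun v => (hgD v).symm, hA, fun W hW => hB W hW⟩

end Fermat.Agent.S36
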