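import Mathlib
import Fermat.Agent.S36.Mid
import Fermat.Agent.S35.NewE
import Fermat.Agent.S54.Frobenius

/-!
# S36 (NODE-3), block MID: the geometric input `hCar` of the TOP from the hub and `(KC36)`

`s36_mc_hCar` : the hypothesis `hCar` of the TOP block (`s36_top`) — for every prime `q ≠ lam`
with `q² ∥ M`: a place `P` over `q`, a Hecke polynomial `e` with `χ_g(e) = d ∈ ℤ ∖ {0}`, a
constant `c ≠ 0` and a Galois-stable subgroup `Nw ≤ J₀(M)(ℚ̄)` whose inertia-fixed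
`lam`-power torsion is killed by `c` and which contains `ι_n (ev_M(e) Λ)` for a bridge tower
`ι_n` — from

* `hHub` : the hub `s36_FInv N' q c` (some `c ≠ 0`) for all `q ∤ N'`;
* `hKC` : the `κ`-transfer clone at level `N' q²` over `N' q` (the statement `s36_kb_main`).

`Nw := s36_mid_Nw N' q` (`M = N' q²`), `e` from `s35_e_main` for the pair `(N' q² , N' q)`.
-/

set_option autoImplicit false
set_option linter.style.haveILetI false

open CuspForm
open AlgebraicCurve ModularCurve CongruenceSubgroup ModularCurve.Period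
open Fermat.Agent.S29 Fermat.Agent.S35 Fermat.Agent.S37

noncomputable section

namespace Fermat.Agent.S36

local notation "Qb" => AlgebraicClosure ℚ
local notation "Γ" => (AlgebraicClosure ℚ ≃ₐ[ℚ] AlgebraicClosure ℚ)

/-- `q² ∥ M` means `M = N' q q` with `q ∤ N'`. -/
theorem s36_mc_level (M q : ℕ) (hM : M ≠ 0) (hq : q.Prime) (h : M.factorization q = 2) :
    ∃ N' : ℕ, M = N' * q * q ∧ ¬ q ∣ N' := by
  refine ⟨M / q ^ 2, ?_, ?_⟩
  · have h1 : q ^ 2 * (M / q ^ 2) = M := by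
      have h2 := Nat.ordProj_mul_ordCompl_eq_self M q
      rwa [h] at h2
    calc M = q ^ 2 * (M / q ^ 2) := h1.symm
      _ = M / q ^ 2 * q * q := by ring
  · have h2 := Nat.not_dvd_ordCompl hq hM
    rwa [h] at h2

/-- **(MID)** the geometric input `hCar` of `s36_top` from the hub and the `κ`-transfer clone. -/
theorem s36_mc_hCar
    (hHub : ∀ (N' q : ℕ) [NeZero N'] [NeZero q], q.Prime → ¬ q ∣ N' →
      ∃ c : ℕ, c ≠ 0 ∧ s36_FInv N' q c)
    (hKC : ∀ (N' q : ℕ) [NeZero N'] [NeZero q], q.Prime → ¬ q ∣ N' → ∀ p : ℕ, p ≠ 0 →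
      ∃ ι : ℕ → (↥(parabolicHoms ℤ (Gamma0 (N' * q * q)) ℤ) →+ JZero (N' * q * q)),
        (∀ n (ψ : ↥(parabolicHoms ℤ (Gamma0 (N' * q * q)) ℤ)), p ^ n • ι n ψ = 0) ∧
        (∀ n (ψ : ↥(parabolicHoms ℤ (Gamma0 (N' * q * q)) ℤ)), ι n ψ = 0 →
          ∃ ψ' : ↥(parabolicHoms ℤ (Gamma0 (N' * q * q)) ℤ), ψ = p ^ n • ψ') ∧
        (∀ n (l' : ℕ) (hl' : l'.Prime) (hl'N : ¬ l' ∣ N' * q * q)
          (ψ : ↥(parabolicHoms ℤ (Gamma0 (N' * q * q)) ℤ)),
          ι n (s29_cp_Tpar (N' * q * q) l' hl' hl'N ℤ ℤ ψ) =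
            heckeOperatorBar (N' * q * q) ⟨l', hl'⟩ (ι n ψ)) ∧
        (∀ n (ψ : ↥(parabolicHoms ℤ (Gamma0 (N' * q * q)) ℤ)), p • ι (n + 1) ψ = ι n ψ) ∧
        (∀ e : s35_Pol (N' * q * q),
          s35_ev (N' * q) (N' * q * q) (dvd_mul_right (N' * q) q) e = 0 →
          ∀ n (ψ : ↥(parabolicHoms ℤ (Gamma0 (N' * q * q)) ℤ))
            (D : Divisor.degZero (K := Qb) (F := modularFunctionFieldBar (N' * q * q)))
            (g : modularFunctionFieldBar (N' * q * q)),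
            Pic0.mk D = ι n (s35_ev (N' * q * q) (N' * q * q) dvd_rfl e ψ) → g ≠ 0 →
            (∀ P : Place Qb (modularFunctionFieldBar (N' * q * q)),
              P.ord g = ((p ^ n : ℕ) : ℤ) *
                (D : Divisor Qb (modularFunctionFieldBar (N' * q * q))) P) →
            (∃ (c : Qb) (f : modularFunctionFieldBar (N' * q)),
              s29_kh_normAlong (heckeAlphaBar Qb (N' * q) q) g =
                algebraMap Qb (modularFunctionFieldBar (N' * q)) c * f ^ (p ^ n)) ∧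
            ∀ (W : modularFunctionFieldBar (N' * q * q) ≃ₐ[Qb]
                modularFunctionFieldBar (N' * q * q)),
              (∀ (d m : ℕ) (_ : d ∣ N') (_ : m ∣ q * q)
                (h1 : s37_ew_s (d * m) ∈ modularFunctionFieldBar (N' * q * q)),
                ((W ⟨s37_ew_s (d * m), h1⟩ : modularFunctionFieldBar (N' * q * q)) :
                  LaurentSeries Qb) = s37_ew_s (d * (q * q / m))) →
              ∃ (c : Qb) (f : modularFunctionFieldBar (N' * q)),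
                s29_kh_normAlong (heckeAlphaBar Qb (N' * q) q) (W g) =
                  algebraMap Qb (modularFunctionFieldBar (N' * q)) c * f ^ (p ^ n)))
    {M : ℕ} [NeZero M] {g : CuspForm (Gamma0 M) 2} (hg : g.IsNewform)
    (lam : ℕ) [Fact lam.Prime]
    (q : ℕ) (hq : q.Prime) (hqlam : q ≠ lam) (hfac : M.factorization q = 2) :
    ∃ P : ValuationSubring (AlgebraicClosure ℚ), P.LiesOverPrime q ∧
      ∃ (e : s35_Pol M) (d : ℤ) (c : ℕ), d ≠ 0 ∧ c ≠ 0 ∧ s35_chi g e = (d : ℂ) ∧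
      ∃ Nw : AddSubgroup (JZero M),
        (∀ (σ : AlgebraicClosure ℚ ≃ₐ[ℚ] AlgebraicClosure ℚ) (y : JZero M),
          y ∈ Nw → σ • y ∈ Nw) ∧
        (∀ (n : ℕ) (y : JZero M), y ∈ Nw → (lam ^ n) • y = 0 →
          (∀ τ ∈ P.inertiaSubgroupIn ℚ, τ • y = y) → c • y = 0) ∧
        ∀ n : ℕ, ∃ ι : ↥(parabolicHoms ℤ (Gamma0 M) ℤ) →+ JZero M,
          (∀ ψ, (lam ^ n) • ι ψ = 0) ∧ (∀ ψ, ι ψ = 0 → ∃ ψ', ψ = (lam ^ n) • ψ') ∧
          (∀ (ℓ : ℕ) (hℓ : ℓ.Prime) (hℓN : ¬ ℓ ∣ M), ¬ ℓ ∣ M * lam → ∀ ψ,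
            ι (s29_cp_Tpar M ℓ hℓ hℓN ℤ ℤ ψ) = heckeOperatorBar M ⟨ℓ, hℓ⟩ (ι ψ)) ∧
          ∀ ψ, ι (s35_ev M M dvd_rfl e ψ) ∈ Nw := by
  obtain ⟨N', hN', hqN'⟩ := s36_mc_level M q (NeZero.ne M) hq hfac
  subst hN'
  haveI : NeZero q := ⟨hq.ne_zero⟩
  haveI : NeZero N' := ⟨fun h => NeZero.ne (N' * q * q) (by rw [h, zero_mul, zero_mul])⟩
  haveI : NeZero (N' * q) := ⟨Nat.mul_ne_zero (NeZero.ne N') hq.ne_zero⟩
  have hlam : lam.Prime := Fact.out
  have hqlamn : ∀ n : ℕ, ¬ q ∣ lam ^ n := fun n hd =>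
    hqlam ((Nat.prime_dvd_prime_iff_eq hq hlam).mp (hq.dvd_of_dvd_pow hd))
  obtain ⟨P, hP⟩ := Fermat.Agent.S54.exists_valuationSubring_liesOver q hq
  have hne : N' * q ≠ N' * q * q := by
    intro h
    have h1 : N' * q * 1 = N' * q * q := by rw [mul_one]; exact h
    have h2 := Nat.eq_of_mul_eq_mul_left (Nat.pos_of_ne_zero (NeZero.ne (N' * q))) h1
    exact hq.one_lt.ne h2
  obtain ⟨e, d, hd0, he, hd⟩ := s35_e_main (M := N' * q * q) (N' := N' * q)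
    (dvd_mul_right (N' * q) q) hne hg
  obtain ⟨c, hc0, hF⟩ := hHub N' q hq hqN'
  obtain ⟨ι, h1, h2, h3, -, h5⟩ := hKC N' q hq hqN' lam hlam.ne_zero
  refine ⟨P, hP, e, d, c, hd0, hc0, hd, s36_mid_Nw N' q, s36_mid_Nw_galois N' q, ?_, ?_⟩
  · intro n y hy hny hfix
    exact s36_mid_kill N' q c hF P hP (lam ^ n) (pow_pos hlam.pos n) (hqlamn n) y hy hny hfix
  · intro n
    refine ⟨ι n, h1 n, h2 n, fun ℓ hℓ hℓN _ ψ => h3 n ℓ hℓ hℓN ψ, fun ψ => ?_⟩
    exact s36_mid_mem N' q (lam ^ n) (pow_pos hlam.pos n) _ (h1 n _)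
      (fun D g hD hg0 hgD => h5 e he n ψ D g hD hg0 hgD)

end Fermat.Agent.S36
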