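import Fermat.Agent.S36.Top
import Fermat.Agent.S36.MidCar
import Fermat.Agent.S36.KapBridgeQ

/-!
# S36 (NODE-3): the conclusion of S36 from the function-level hub

`s36_final` : the conclusion of S36 from the single hypothesis

* `hHub` : for every prime `q ∤ N'` the hub `s36_FInv N' q c` holds for some `c ≠ 0`
  (the geometry of the three-component model of `X₀(N' q²)` at `q`; by `s36_lvl_of` one
  auxiliary level `L'` with `N' ∣ L'`, `q ∤ L'` suffices).

Assembly: the TOP block `s36_top`, fed with `s36_mc_hCar` (MID: the `q`-new part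
`s36_mid_Nw`, the kill property from the hub and `s36_bi_main`) and the `κ`-transfer clone
`s36_kb_main`.  The statement `Fermat.Agent.S36.result` is then
`s36_final hub hg lam S O' hlamO' hlam2 chig hchig iota hlamS hMS` (`hres` is not used).
-/

set_option autoImplicit false

open Polynomial
open CuspForm
open AlgebraicCurve ModularCurve CongruenceSubgroup ModularCurve.Period
open Fermat.Agent.S29 Fermat.Agent.S35 Fermat.Agent.S37

noncomputable section

namespace Fermat.Agent.S36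

/-- **S36 from the hub.** -/
theorem s36_final
    (hHub : ∀ (N' q : ℕ) [NeZero N'] [NeZero q], q.Prime → ¬ q ∣ N' →
      ∃ c : ℕ, c ≠ 0 ∧ s36_FInv N' q c)
    {M : ℕ} [NeZero M] {g : CuspForm (CongruenceSubgroup.Gamma0 M) 2} (hg : g.IsNewform)
    (lam : ℕ) [Fact lam.Prime]
    (S : Finset ℕ)
    (O' : Type) [CommRing O'] [IsDomain O'] [IsDiscreteValuationRing O']
    [IsAdicComplete (IsLocalRing.maximalIdeal O') O'] [Finite (IsLocalRing.ResidueField O')]
    [CharZero O'] (hlamO' : (lam : O') ∈ IsLocalRing.maximalIdeal O')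
    (hlam2 : lam ≠ 2)
    (chig : CuspForm.heckeAlgebra M 2 (↑S : Set ℕ) →+* ℂ)
    (hchig : ∀ (ℓ : ℕ) (hℓ : ℓ.Prime) (hℓM : ¬ ℓ ∣ M) (hℓS : ℓ ∉ (↑S : Set ℕ)),
      chig (CuspForm.heckeAlgebra.T hℓ hℓM hℓS) = ModularFormClass.qCoeff g ℓ)
    (iota : chig.range →+* O')
    (hlamS : lam ∈ S) (hMS : ∀ q : ℕ, q.Prime → q ∣ M → q ∈ S) :
    ∃ (O'' : Type) (_ : CommRing O'') (_ : IsDomain O'') (_ : IsDiscreteValuationRing O'')
      (_ : IsAdicComplete (IsLocalRing.maximalIdeal O'') O'') (_ : Finite (IsLocalRing.ResidueField O''))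
      (_ : CharZero O'') (_ : Algebra O' O'') (_ : Module.Finite O' O'') (_ : IsLocalHom (algebraMap O' O'')),
      Function.Injective (algebraMap O' O'') ∧
      ∃ ρ : GaloisRepAdic O'',
        (∀ (ℓ : ℕ) (hℓ : ℓ.Prime) (hℓM : ¬ ℓ ∣ M) (hℓS : ℓ ∉ (↑S : Set ℕ)),
          ∀ A : ValuationSubring (AlgebraicClosure ℚ), A.LiesOverPrime ℓ →
            ∀ σ : AlgebraicClosure ℚ ≃ₐ[ℚ] AlgebraicClosure ℚ, A.IsFrobeniusAt σ ℓ →
              LinearMap.charpoly (ρ.ρ σ) =
                X ^ 2 - C (algebraMap O' O'' ((iota.comp chig.rangeRestrict) (CuspForm.heckeAlgebra.T hℓ hℓM hℓS))) * X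
                  + C ((ℓ : O''))) ∧
        (∀ q : ℕ, q.Prime → q ≠ lam → M.factorization q = 2 → ¬ ρ.IsUnipotentOnInertiaAt q) :=
  s36_top hg lam S O' hlamO' hlam2 chig hchig iota hlamS hMS
    (fun q hq hqlam hfac => s36_mc_hCar hHub
      (fun N' q _ _ hq hqN p hp => s36_kb_main N' q hq hqN p hp) hg lam q hq hqlam hfac)

end Fermat.Agent.S36
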