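import Fermat.Agent.S36.FinalModel

/-!
# S36 (NODE-3): the hypothesis `hmod` of `s36_final_model` by cases on `q`

The model statement `s36_Model L' q c` is produced by three instantiations of the
three-component model, according to the Hauptmodul coordinates available at the auxiliary
level `L'`:

* `q ≥ 5` : levels `L'` divisible by `M₅` (`M₅ = 6`: the coordinates `t₂` and `t₃`);
* `q = 3` : levels `L'` divisible by `M₃` (`M₃ = 4`);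
* `q = 2` : levels `L'` divisible by `M₂` (`M₂ = 9`).

`s36_fm_hmod_gen` / `s36_fm_hmod` assemble them into `hmod`; `s36_final_cases` is the conclusion
of S36 from the three statements.
-/

set_option autoImplicit false

open Polynomial
open CuspForm

noncomputable section

namespace Fermat.Agent.S36

/-- `hmod` from the three cases `q ≥ 5`, `q = 3`, `q = 2`, with auxiliary levels `M₅`
(all of whose prime factors are `< 5`), `M₃` (prime to `3`), `M₂` (odd). -/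
theorem s36_fm_hmod_gen (M₅ M₃ M₂ : ℕ) (hM₅ : M₅ ≠ 0) (hM₅p : ∀ p : ℕ, p.Prime → p ∣ M₅ → p < 5)
    (hM₃ : M₃ ≠ 0) (hM₃p : ¬ 3 ∣ M₃) (hM₂ : M₂ ≠ 0) (hM₂p : ¬ 2 ∣ M₂)
    (h5 : ∀ (q : ℕ) [NeZero q], q.Prime → 5 ≤ q → ∀ (L' : ℕ) [NeZero L'], ¬ q ∣ L' → M₅ ∣ L' →
      ∃ c : ℕ, c ≠ 0 ∧ s36_Model L' q c)
    (h3 : ∀ (L' : ℕ) [NeZero L'], ¬ 3 ∣ L' → M₃ ∣ L' → ∃ c : ℕ, c ≠ 0 ∧ s36_Model L' 3 c)
    (h2 : ∀ (L' : ℕ) [NeZero L'], ¬ 2 ∣ L' → M₂ ∣ L' → ∃ c : ℕ, c ≠ 0 ∧ s36_Model L' 2 c) :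
    ∀ (q : ℕ) [NeZero q], q.Prime → ∃ M₀ : ℕ, M₀ ≠ 0 ∧ ¬ q ∣ M₀ ∧
      ∀ (L' : ℕ) [NeZero L'], ¬ q ∣ L' → M₀ ∣ L' → ∃ c : ℕ, c ≠ 0 ∧ s36_Model L' q c := by
  intro q _ hq
  by_cases hq2 : q = 2
  · subst hq2
    exact ⟨M₂, hM₂, hM₂p, fun L' _ hqL hML => h2 L' hqL hML⟩
  by_cases hq3 : q = 3
  · subst hq3
    exact ⟨M₃, hM₃, hM₃p, fun L' _ hqL hML => h3 L' hqL hML⟩
  have hq5 : 5 ≤ q := by
    have h2' := hq.two_le
    by_contra hlt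
    have hq4 : q = 4 := by omega
    rw [hq4] at hq
    exact absurd hq (by decide)
  exact ⟨M₅, hM₅, fun hdvd => absurd (hM₅p q hq hdvd) (by omega),
    fun L' _ hqL hML => h5 q hq hq5 L' hqL hML⟩

/-- `hmod` from the three cases with the auxiliary levels `6` (`q ≥ 5`), `4` (`q = 3`),
`9` (`q = 2`). -/
theorem s36_fm_hmod
    (h5 : ∀ (q : ℕ) [NeZero q], q.Prime → 5 ≤ q → ∀ (L' : ℕ) [NeZero L'], ¬ q ∣ L' → 6 ∣ L' →
      ∃ c : ℕ, c ≠ 0 ∧ s36_Model L' q c)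
    (h3 : ∀ (L' : ℕ) [NeZero L'], ¬ 3 ∣ L' → 4 ∣ L' → ∃ c : ℕ, c ≠ 0 ∧ s36_Model L' 3 c)
    (h2 : ∀ (L' : ℕ) [NeZero L'], ¬ 2 ∣ L' → 9 ∣ L' → ∃ c : ℕ, c ≠ 0 ∧ s36_Model L' 2 c) :
    ∀ (q : ℕ) [NeZero q], q.Prime → ∃ M₀ : ℕ, M₀ ≠ 0 ∧ ¬ q ∣ M₀ ∧
      ∀ (L' : ℕ) [NeZero L'], ¬ q ∣ L' → M₀ ∣ L' → ∃ c : ℕ, c ≠ 0 ∧ s36_Model L' q c := by
  refine s36_fm_hmod_gen 6 4 9 (by norm_num) ?_ (by norm_num) (by norm_num) (by norm_num)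
    (by norm_num) h5 h3 h2
  intro p hp hdvd
  have h6 : (6 : ℕ) = 2 * 3 := by norm_num
  rw [h6] at hdvd
  rcases (Nat.Prime.dvd_mul hp).mp hdvd with h | h
  · have := (Nat.prime_dvd_prime_iff_eq hp Nat.prime_two).mp h
    omega
  · have := (Nat.prime_dvd_prime_iff_eq hp Nat.prime_three).mp h
    omega

/-- **S36 from the three model statements** (`q ≥ 5` at the multiples of `6`, `q = 3` at the
multiples of `4`, `q = 2` at the multiples of `9`). -/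
theorem s36_final_cases
    (h5 : ∀ (q : ℕ) [NeZero q], q.Prime → 5 ≤ q → ∀ (L' : ℕ) [NeZero L'], ¬ q ∣ L' → 6 ∣ L' →
      ∃ c : ℕ, c ≠ 0 ∧ s36_Model L' q c)
    (h3 : ∀ (L' : ℕ) [NeZero L'], ¬ 3 ∣ L' → 4 ∣ L' → ∃ c : ℕ, c ≠ 0 ∧ s36_Model L' 3 c)
    (h2 : ∀ (L' : ℕ) [NeZero L'], ¬ 2 ∣ L' → 9 ∣ L' → ∃ c : ℕ, c ≠ 0 ∧ s36_Model L' 2 c)
    {M : ℕ} [NeZero M] {g : CuspForm (CongruenceSubgroup.Gamma0 M) 2} (hg : g.IsNewform)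
    (lam : ℕ) [Fact lam.Prime]
    (S : Finset ℕ)
    (O' : Type) [CommRing O'] [IsDomain O'] [IsDiscreteValuationRing O']
    [IsAdicComplete (IsLocalRing.maximalIdeal O') O'] [Finite (IsLocalRing.ResidueField O')]
    [CharZero O'] (hlamO' : (lam : O') ∈ IsLocalRing.maximalIdeal O')
    (hlam2 : lam ≠ 2)
    (chig : CuspForm.heckeAlgebra M 2 (↑S : Set ℕ) →+* ℂ)
    (hchig : ∀ (ℓ : ℕ) (hℓ : ℓ.Prime) (hℓM : ¬ ℓ ∣ M) (hℓS : ℓ ∉ (↑S : Set ℕ)),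
      chig (CuspForm.heckeAlgebra.T hℓ hℓM hℓS) = ModularFormClass.qCoeff g ℓ)
    (iota : chig.range →+* O')
    (hlamS : lam ∈ S) (hMS : ∀ q : ℕ, q.Prime → q ∣ M → q ∈ S) :
    ∃ (O'' : Type) (_ : CommRing O'') (_ : IsDomain O'') (_ : IsDiscreteValuationRing O'')
      (_ : IsAdicComplete (IsLocalRing.maximalIdeal O'') O'') (_ : Finite (IsLocalRing.ResidueField O''))
      (_ : CharZero O'') (_ : Algebra O' O'') (_ : Module.Finite O' O'') (_ : IsLocalHom (algebraMap O' O'')),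
      Function.Injective (algebraMap O' O'') ∧
      ∃ ρ : GaloisRepAdic O'',
        (∀ (ℓ : ℕ) (hℓ : ℓ.Prime) (hℓM : ¬ ℓ ∣ M) (hℓS : ℓ ∉ (↑S : Set ℕ)),
          ∀ A : ValuationSubring (AlgebraicClosure ℚ), A.LiesOverPrime ℓ →
            ∀ σ : AlgebraicClosure ℚ ≃ₐ[ℚ] AlgebraicClosure ℚ, A.IsFrobeniusAt σ ℓ →
              LinearMap.charpoly (ρ.ρ σ) =
                X ^ 2 - C (algebraMap O' O'' ((iota.comp chig.rangeRestrict) (CuspForm.heckeAlgebra.T hℓ hℓM hℓS))) * X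
                  + C ((ℓ : O''))) ∧
        (∀ q : ℕ, q.Prime → q ≠ lam → M.factorization q = 2 → ¬ ρ.IsUnipotentOnInertiaAt q) :=
  s36_final_model (s36_fm_hmod h5 h3 h2) hg lam S O' hlamO' hlam2 chig hchig iota hlamS hMS

end Fermat.Agent.S36
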