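import Fermat.Agent.S36.HubDefs
import Fermat.Agent.S35.FPowLevel

/-!
# S36 (NODE-3), leaf (LVL36): level raising for the hub `s36_FInv`

`s36_lvl_of` : the statement **(C-inv)** `s36_FInv N' q c'` at level `N' * q * q` (for some
`c' ≠ 0`) follows from `s36_FInv L' q c` (`c ≠ 0`) for ONE multiple `L'` of `N'` prime to `q`;
the new exponent is `c' = c * [F̄(L' q²) : F̄(N' q²)]`.

`s36_lvl_aux` / `s36_lvl` : the same with `L'` running over the multiples of `N'` prime to `q`
divisible by an auxiliary `M₀` prime to `q` (resp. by `6`, for `q ≥ 5`).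

Route (function level): view the function `g` of level `N' * q * q` at level `L' * q * q`.

* the orders stay divisible by `m` (`s18_d7_dvd`);
* the coefficientwise Galois action commutes with the inclusion, so inertia-fixedness passes up;
* the norm to level `L' * q` of a function of level `N' * q * q` is its norm to level `N' * q`
  (`s36_lv_norm`: base change of characteristic polynomials in the square of levels, both
  vertical degrees being `q`, `s36_lv_relfinrank`);
* every swap of `(L', q²)` restricts to any swap of `(N', q²)` (`s36_lv_swap`: both are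
  determined on the generators `j(Q^(d m))`), and a swap of `(N', q²)` exists
  (`s36_lv_swap_exists`);
* the `m`-th root of `g ^ c` at level `L' * q * q` is pushed down by the norm:
  `Nm(x) ^ m = g ^ (c * degree)` (`s36_lv_norm_root`).
-/

set_option autoImplicit false
set_option linter.style.haveILetI false

open ModularCurve AlgebraicCurve

noncomputable section

namespace Fermat.Agent.S36

open Fermat.Agent.S29 Fermat.Agent.S37 Fermat.Agent.S18 Fermat.Agent.S35

local notation "Qb" => AlgebraicClosure ℚ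

/-- `[F̄(N q) : F̄(N)] = q` for a prime `q ∣ N`. -/
theorem s36_lv_relfinrank (N q : ℕ) [NeZero N] [NeZero q] (hq : q.Prime) (hqN : q ∣ N) :
    (modularFunctionFieldBar N).relfinrank (modularFunctionFieldBar (N * q)) = q := by
  have h1 := s18_d5_relfinrank (N := N) (N' := N * q) (Dvd.intro q rfl)
  rw [Fermat.Agent.S24.idx_dedekindPsi_mul_of_dvd (NeZero.ne N) hq hqN, mul_comm] at h1
  exact Nat.eq_of_mul_eq_mul_left (Nat.pos_of_ne_zero (s18_d5_dedekindPsi_ne_zero N)) h1

/-- The coefficientwise Galois action, on the level of Laurent series. -/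
theorem s36_lv_gal_coe (K : ℕ) [NeZero K] (τ : Qb ≃ₐ[ℚ] Qb) (y : modularFunctionFieldBar K) :
    ((arithmeticGalois (modularFunctionFieldFull K) τ • y : modularFunctionFieldBar K) :
        LaurentSeries Qb)
      = coeffMap (τ : Qb →+* Qb) (y : LaurentSeries Qb) := rfl

/-- The coefficientwise Galois action commutes with the inclusion of levels. -/
theorem s36_lv_gal_incl {K K' : ℕ} [NeZero K] [NeZero K'] (hdvd : K ∣ K') (τ : Qb ≃ₐ[ℚ] Qb)
    (y : modularFunctionFieldBar K) :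
    arithmeticGalois (modularFunctionFieldFull K') τ • s37_tr_incl hdvd y
      = s37_tr_incl hdvd (arithmeticGalois (modularFunctionFieldFull K) τ • y) := by
  apply Subtype.ext
  rw [s36_lv_gal_coe, s37_tr_coe_incl, s37_tr_coe_incl, s36_lv_gal_coe]

/-- Pushing an `m`-th root down by the norm: if `x ^ m = ψ(g) ^ c` then
`Nm(x) ^ m = g ^ (c * degree)`. -/
theorem s36_lv_norm_root {K F F' : Type*} [Field K] [Field F] [Field F'] [Algebra K F]
    [Algebra K F'] (ψ : F →ₐ[K] F') (m c : ℕ) (g : F) (x : F') (hx : x ^ m = ψ g ^ c) :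
    s29_kh_normAlong ψ x ^ m = g ^ (c * finrankAlong K ψ) := by
  unfold s29_kh_normAlong finrankAlong
  letI := algebraAlong ψ
  have h1 : Algebra.norm F (ψ g) = g ^ Module.finrank F F' := Algebra.norm_algebraMap g
  rw [← map_pow, hx, map_pow, h1, ← pow_mul, mul_comm]

/-- The norm to level `L' * q` of a function of level `N' * q * q` is its norm to level `N' * q`
(`N' ∣ L'`, `q` a prime not dividing `L'`). -/
theorem s36_lv_norm (N' L' q : ℕ) [NeZero N'] [NeZero L'] [NeZero q] (hq : q.Prime)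
    (hNL : N' ∣ L') (hqL : ¬ q ∣ L') (g : modularFunctionFieldBar (N' * q * q)) :
    s29_kh_normAlong (heckeAlphaBar Qb (L' * q) q)
        (s37_tr_incl (Nat.mul_dvd_mul_right (Nat.mul_dvd_mul_right hNL q) q) g)
      = s37_tr_incl (Nat.mul_dvd_mul_right hNL q)
          (s29_kh_normAlong (heckeAlphaBar Qb (N' * q) q) g) := by
  have hF := s37_h_isFF_bar (N' * q)
  have hF₁ := s37_h_isFF_bar (N' * q * q)
  have hF₂ := s37_h_isFF_bar (L' * q)
  have hE := s37_h_isFF_bar (L' * q * q)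
  have hfin₂ : FiniteAlong Qb (heckeAlphaBar Qb (N' * q) q) := hF.finiteAlong hF₁ _
  have hfin₁ : FiniteAlong Qb (heckeAlphaBar Qb (L' * q) q) := hF₂.finiteAlong hE _
  have hAB := s18_d5_le (dvd_mul_right (N' * q) q)
  have hAC := s18_d5_le (Nat.mul_dvd_mul_right hNL q)
  have hBD := s18_d5_le (Nat.mul_dvd_mul_right (Nat.mul_dvd_mul_right hNL q) q)
  have hCD := s18_d5_le (dvd_mul_right (L' * q) q)
  have hr1 := s36_lv_relfinrank (N' * q) q hq (dvd_mul_left q N')
  have hr2 := s36_lv_relfinrank (L' * q) q hq (dvd_mul_left q L')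
  have hlcm : ∀ c : ℤ, ((N' * q * q : ℕ) : ℤ) ∣ c → ((L' * q : ℕ) : ℤ) ∣ c →
      ((L' * q * q : ℕ) : ℤ) ∣ c := by
    intro c h1 h2
    rw [Int.natCast_dvd] at h1 h2 ⊢
    have hcop : Nat.Coprime L' (q * q) :=
      Nat.Coprime.mul_right (hq.coprime_iff_not_dvd.mpr hqL).symm
        (hq.coprime_iff_not_dvd.mpr hqL).symm
    rw [mul_assoc]
    exact hcop.mul_dvd_of_dvd_of_dvd ((Dvd.intro q rfl).trans h2)
      ((Dvd.intro_left N' (mul_assoc N' q q).symm).trans h1)
  have hchi := s37_tr_chi_inclusion (K := Qb) hAB hAC hBD hCD (hr2.trans hr1.symm)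
    (fun C' hB hC hD => s37_tr_compositum (N' * q * q) (L' * q) (L' * q * q)
      (Nat.mul_dvd_mul_right (Nat.mul_dvd_mul_right hNL q) q)
      (dvd_mul_right (L' * q) q) hlcm C' hB hC hD) hfin₂ hfin₁ g
  have e1 : finrankAlong Qb (heckeAlphaBar Qb (L' * q) q) = q :=
    (s37_tr_finrankAlong_inclusion hCD).trans hr2
  have e2 : finrankAlong Qb (heckeAlphaBar Qb (N' * q) q) = q :=
    (s37_tr_finrankAlong_inclusion hAB).trans hr1
  rw [s35_lvl_norm_eq_coeff _ hfin₁, s35_lvl_norm_eq_coeff _ hfin₂, e1, e2, map_mul, map_pow,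
    map_neg, map_one]
  congr 1
  have h3 := congrArg (fun p => p.coeff 0) hchi
  simp only [Polynomial.coeff_map] at h3
  exact h3

/-- A swap of `(L', q²)` restricts to any swap of `(N', q²)` (`N' ∣ L'`). -/
theorem s36_lv_swap (N' L' q : ℕ) [NeZero N'] [NeZero L'] [NeZero q] (hNL : N' ∣ L')
    (W : modularFunctionFieldBar (N' * q * q) ≃ₐ[Qb] modularFunctionFieldBar (N' * q * q))
    (hW : s36_IsSwapBar N' q W)
    (W' : modularFunctionFieldBar (L' * q * q) ≃ₐ[Qb] modularFunctionFieldBar (L' * q * q))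
    (hW' : s36_IsSwapBar L' q W')
    (g : modularFunctionFieldBar (N' * q * q)) :
    W' (s37_tr_incl (Nat.mul_dvd_mul_right (Nat.mul_dvd_mul_right hNL q) q) g)
      = s37_tr_incl (Nat.mul_dvd_mul_right (Nat.mul_dvd_mul_right hNL q) q) (W g) := by
  have hdvd : N' * q * q ∣ L' * q * q :=
    Nat.mul_dvd_mul_right (Nat.mul_dvd_mul_right hNL q) q
  have key : (W' : modularFunctionFieldBar (L' * q * q) →ₐ[Qb]
        modularFunctionFieldBar (L' * q * q)).comp (s37_tr_incl hdvd)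
      = (s37_tr_incl hdvd).comp
        (W : modularFunctionFieldBar (N' * q * q) →ₐ[Qb] modularFunctionFieldBar (N' * q * q)) := by
    apply s37_ew_algHom_ext
    intro e _ he
    have he' : e ∣ N' * (q * q) := by
      rw [← mul_assoc]
      exact he
    obtain ⟨d, m, hd, hm, rfl⟩ := (Nat.dvd_mul).mp he'
    have hmem : s37_ew_s (d * m) ∈ modularFunctionFieldBar (N' * q * q) := by
      rw [s37_ew_s_eq]
      exact s37_ew_s_mem _ _ he
    have hmem' : s37_ew_s (d * m) ∈ modularFunctionFieldBar (L' * q * q) := s18_d5_le hdvd hmem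
    have h3 : (⟨coeffEmb Qb (qExpand ℚ (d * m) jq), s37_ew_s_mem (N' * q * q) (d * m) he⟩ :
        modularFunctionFieldBar (N' * q * q)) = ⟨s37_ew_s (d * m), hmem⟩ :=
      Subtype.ext (s37_ew_s_eq (d * m)).symm
    rw [h3]
    have h4 : s37_tr_incl hdvd ⟨s37_ew_s (d * m), hmem⟩
        = (⟨s37_ew_s (d * m), hmem'⟩ : modularFunctionFieldBar (L' * q * q)) :=
      Subtype.ext (s37_tr_coe_incl hdvd _)
    apply Subtype.ext
    show ((W' (s37_tr_incl hdvd ⟨s37_ew_s (d * m), hmem⟩) :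
        modularFunctionFieldBar (L' * q * q)) : LaurentSeries Qb)
      = ((s37_tr_incl hdvd (W ⟨s37_ew_s (d * m), hmem⟩) :
        modularFunctionFieldBar (L' * q * q)) : LaurentSeries Qb)
    rw [h4, hW' d m (hd.trans hNL) hm hmem', s37_tr_coe_incl, hW d m hd hm hmem]
  exact DFunLike.congr_fun key g

/-- A swap of `(N', q²)` exists (`q` prime to `N'`). -/
theorem s36_lv_swap_exists (N' q : ℕ) [NeZero N'] [NeZero q] (hcop : Nat.Coprime (q * q) N') :
    ∃ W : modularFunctionFieldBar (N' * q * q) ≃ₐ[Qb] modularFunctionFieldBar (N' * q * q),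
      s36_IsSwapBar N' q W := by
  have key : ∀ (M : ℕ) [NeZero M] (_ : M = N' * (q * q)),
      ∃ W : modularFunctionFieldBar M ≃ₐ[Qb] modularFunctionFieldBar M,
        ∀ (d m : ℕ) (_ : d ∣ N') (_ : m ∣ q * q)
          (h1 : s37_ew_s (d * m) ∈ modularFunctionFieldBar M),
          ((W ⟨s37_ew_s (d * m), h1⟩ : modularFunctionFieldBar M) : LaurentSeries Qb)
            = s37_ew_s (d * (q * q / m)) := by
    intro M _ hM
    subst hM
    exact s37_ew_swap_field N' (q * q) hcop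
  exact key (N' * q * q) (mul_assoc N' q q)

/-- **(LVL36)**, one auxiliary level: `s36_FInv L' q c` for ONE multiple `L'` of `N'` prime to `q`
gives `s36_FInv N' q (c * [F̄(L' q²) : F̄(N' q²)])`. -/
theorem s36_lvl_of (N' L' q : ℕ) [NeZero N'] [NeZero L'] [NeZero q] (hq : q.Prime)
    (hNL : N' ∣ L') (hqL : ¬ q ∣ L') (c : ℕ) (hc : c ≠ 0) (h : s36_FInv L' q c) :
    ∃ c' : ℕ, c' ≠ 0 ∧ s36_FInv N' q c' := by
  have hdvd₁ : N' * q ∣ L' * q := Nat.mul_dvd_mul_right hNL q
  have hdvd : N' * q * q ∣ L' * q * q := Nat.mul_dvd_mul_right hdvd₁ q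
  have hqN : ¬ q ∣ N' := fun h0 => hqL (h0.trans hNL)
  have hFA := s37_h_isFF_bar (N' * q * q)
  have hFB := s37_h_isFF_bar (L' * q * q)
  have hfin : FiniteAlong Qb (s37_tr_incl hdvd) := hFA.finiteAlong hFB _
  have hd0 : finrankAlong Qb (s37_tr_incl hdvd) ≠ 0 := by
    unfold finrankAlong
    letI := algebraAlong (s37_tr_incl hdvd)
    haveI : Module.Finite (modularFunctionFieldBar (N' * q * q))
        (modularFunctionFieldBar (L' * q * q)) := hfin
    exact Module.finrank_pos.ne'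
  have hcop : Nat.Coprime (q * q) N' :=
    Nat.Coprime.mul_left (hq.coprime_iff_not_dvd.mpr hqN) (hq.coprime_iff_not_dvd.mpr hqN)
  obtain ⟨W, hW⟩ := s36_lv_swap_exists N' q hcop
  refine ⟨c * finrankAlong Qb (s37_tr_incl hdvd), Nat.mul_ne_zero hc hd0, ?_⟩
  intro P hP m hm0 hqm g hg0 hdiv hfix hn1 hn2
  have hg'0 : s37_tr_incl hdvd g ≠ 0 := fun h0 =>
    hg0 ((s37_tr_incl hdvd).toRingHom.injective (h0.trans (map_zero _).symm))
  have hdiv' : ∀ v : Place Qb (modularFunctionFieldBar (L' * q * q)),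
      (m : ℤ) ∣ v.ord (s37_tr_incl hdvd g) :=
    s18_d7_dvd hdvd (m : ℤ) (g : LaurentSeries Qb) g.2 (fun P => hdiv P)
  have hfix' : ∀ τ ∈ P.inertiaSubgroupIn ℚ,
      arithmeticGalois (modularFunctionFieldFull (L' * q * q)) τ • s37_tr_incl hdvd g
        = s37_tr_incl hdvd g := by
    intro τ hτ
    rw [s36_lv_gal_incl hdvd τ g, hfix τ hτ]
  have hn1' : ∃ (c₁ : Qb) (f : modularFunctionFieldBar (L' * q)),
      s29_kh_normAlong (heckeAlphaBar Qb (L' * q) q) (s37_tr_incl hdvd g)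
        = algebraMap Qb (modularFunctionFieldBar (L' * q)) c₁ * f ^ m := by
    obtain ⟨c₁, f, hcf⟩ := hn1
    refine ⟨c₁, s37_tr_incl hdvd₁ f, ?_⟩
    rw [s36_lv_norm N' L' q hq hNL hqL g, hcf, map_mul, map_pow, AlgHom.commutes]
  have hn2' : ∀ W' : modularFunctionFieldBar (L' * q * q) ≃ₐ[Qb]
        modularFunctionFieldBar (L' * q * q),
      s36_IsSwapBar L' q W' →
      ∃ (c₂ : Qb) (f : modularFunctionFieldBar (L' * q)),
        s29_kh_normAlong (heckeAlphaBar Qb (L' * q) q) (W' (s37_tr_incl hdvd g))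
          = algebraMap Qb (modularFunctionFieldBar (L' * q)) c₂ * f ^ m := by
    intro W' hW'
    obtain ⟨c₂, f, hcf⟩ := hn2 W hW
    refine ⟨c₂, s37_tr_incl hdvd₁ f, ?_⟩
    rw [s36_lv_swap N' L' q hNL W hW W' hW' g, s36_lv_norm N' L' q hq hNL hqL (W g), hcf,
      map_mul, map_pow, AlgHom.commutes]
  obtain ⟨x, hx⟩ := h P hP m hm0 hqm (s37_tr_incl hdvd g) hg'0 hdiv' hfix' hn1' hn2'
  exact ⟨s29_kh_normAlong (s37_tr_incl hdvd) x, s36_lv_norm_root (s37_tr_incl hdvd) m c g x hx⟩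

/-- **(LVL36)** with an auxiliary level `M₀` prime to `q`: `s36_FInv N' q c` (some `c ≠ 0`)
follows from the statements at the multiples `L'` of `N'` prime to `q` and divisible by `M₀`. -/
theorem s36_lvl_aux (N' q M₀ : ℕ) [NeZero N'] [NeZero q] (hq : q.Prime) (hqN : ¬ q ∣ N')
    (hM₀ : M₀ ≠ 0) (hqM : ¬ q ∣ M₀)
    (h : ∀ (L' : ℕ) [NeZero L'], N' ∣ L' → ¬ q ∣ L' → M₀ ∣ L' →
      ∃ c : ℕ, c ≠ 0 ∧ s36_FInv L' q c) :
    ∃ c : ℕ, c ≠ 0 ∧ s36_FInv N' q c := by
  haveI : NeZero (N' * M₀) := ⟨Nat.mul_ne_zero (NeZero.ne N') hM₀⟩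
  have hqL : ¬ q ∣ N' * M₀ := fun h0 => (hq.dvd_mul.mp h0).elim hqN hqM
  obtain ⟨c, hc, hF⟩ := h (N' * M₀) (dvd_mul_right N' M₀) hqL (dvd_mul_left M₀ N')
  exact s36_lvl_of N' (N' * M₀) q hq (dvd_mul_right N' M₀) hqL c hc hF

/-- **(LVL36)** (board form, `q ≥ 5`): `s36_FInv N' q c` (some `c ≠ 0`) follows from the
statements at the multiples `L'` of `N'` prime to `q` and divisible by `6`. -/
theorem s36_lvl (N' q : ℕ) [NeZero N'] [NeZero q] (hq : q.Prime) (hqN : ¬ q ∣ N') (hq5 : 5 ≤ q)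
    (h : ∀ (L' : ℕ) [NeZero L'], N' ∣ L' → ¬ q ∣ L' → 6 ∣ L' →
      ∃ c : ℕ, c ≠ 0 ∧ s36_FInv L' q c) :
    ∃ c : ℕ, c ≠ 0 ∧ s36_FInv N' q c := by
  refine s36_lvl_aux N' q 6 hq hqN (by norm_num) ?_ h
  intro h6
  have hle : q ≤ 6 := Nat.le_of_dvd (by norm_num) h6
  have hcases : q = 5 ∨ q = 6 := by omega
  rcases hcases with rfl | rfl
  · omega
  · exact absurd hq (by decide)

end Fermat.Agent.S36
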