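import Fermat.Agent.S36.Final
import Fermat.Agent.S36.InstFun
import Fermat.Agent.S36.Lvl

/-!
# S36 (NODE-3): the conclusion of S36 from the `K₀`-level model statement

* `s36_fm_hub` : the hub hypothesis `hHub` of `s36_final` from the model statements
  `s36_Model L' q c` (`s36_if_finv`) at the multiples `L'` of an auxiliary level `M₀ = M₀(q)`
  prime to `q` (`s36_lvl_aux`).
* `s36_final_model` : the conclusion of S36 from

  `hmod : ∀ q prime, ∃ M₀ ≠ 0, q ∤ M₀ ∧ ∀ L', q ∤ L' → M₀ ∣ L' → ∃ c ≠ 0, s36_Model L' q c`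

  (e.g. `M₀ = 6` for `q ≥ 5`, `M₀ = 4` for `q = 3`, `M₀ = 9` for `q = 2`).  The statement
  `Fermat.Agent.S36.result` is then
  `s36_final_model hmod hg lam S O' hlamO' hlam2 chig hchig iota hlamS hMS`.
-/

set_option autoImplicit false

open Polynomial
open CuspForm

noncomputable section

namespace Fermat.Agent.S36

/-- The hub for all `(N', q)` from the model statements at auxiliary levels. -/
theorem s36_fm_hub
    (hmod : ∀ (q : ℕ) [NeZero q], q.Prime → ∃ M₀ : ℕ, M₀ ≠ 0 ∧ ¬ q ∣ M₀ ∧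
      ∀ (L' : ℕ) [NeZero L'], ¬ q ∣ L' → M₀ ∣ L' → ∃ c : ℕ, c ≠ 0 ∧ s36_Model L' q c)
    (N' q : ℕ) [NeZero N'] [NeZero q] (hq : q.Prime) (hqN : ¬ q ∣ N') :
    ∃ c : ℕ, c ≠ 0 ∧ s36_FInv N' q c := by
  obtain ⟨M₀, hM₀, hqM, h⟩ := hmod q hq
  refine s36_lvl_aux N' q M₀ hq hqN hM₀ hqM (fun L' _ _ hqL hML => ?_)
  obtain ⟨c, hc, hm⟩ := h L' hqL hML
  exact ⟨c, hc, s36_if_finv L' q c hq hqL hm⟩

/-- **S36 from the model statement.** -/
theorem s36_final_model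
    (hmod : ∀ (q : ℕ) [NeZero q], q.Prime → ∃ M₀ : ℕ, M₀ ≠ 0 ∧ ¬ q ∣ M₀ ∧
      ∀ (L' : ℕ) [NeZero L'], ¬ q ∣ L' → M₀ ∣ L' → ∃ c : ℕ, c ≠ 0 ∧ s36_Model L' q c)
    {M : ℕ} [NeZero M] {g : CuspForm (CongruenceSubgroup.Gamma0 M) 2} (hg : g.IsNewform)
    (lam : ℕ) [Fact lam.Prime]
    (S : Finset ℕ)
    (O' : Type) [CommRing O'] [IsDomain O'] [IsDiscreteValuationRing O']
    [IsAdicComplete (IsLocalRing.maximalIdeal O') O'] [Finite (IsLocalRing.ResidueField O')]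
    [CharZero O'] (hlamO' : (lam : O') ∈ IsLocalRing.maximalIdeal O')
    (hlam2 : lam ≠ 2)
    (chig : CuspForm.heckeAlgebra M 2 (↑S : Set ℕ) →+* ℂ)
    (hchig : ∀ (ℓ : ℕ) (hℓ : ℓ.Prime) (hℓM : ¬ ℓ ∣ M) (hℓS : ℓ ∉ (↑S : Set ℕ)),
      chig (CuspForm.heckeAlgebra.T hℓ hℓM hℓS) = ModularFormClass.qCoeff g ℓ)
    (iota : chig.range →+* O')
    (hlamS : lam ∈ S) (hMS : ∀ q : ℕ, q.Prime → q ∣ M → q ∈ S) :
    ∃ (O'' : Type) (_ : CommRing O'') (_ : IsDomain O'') (_ : IsDiscreteValuationRing O'')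
      (_ : IsAdicComplete (IsLocalRing.maximalIdeal O'') O'') (_ : Finite (IsLocalRing.ResidueField O''))
      (_ : CharZero O'') (_ : Algebra O' O'') (_ : Module.Finite O' O'') (_ : IsLocalHom (algebraMap O' O'')),
      Function.Injective (algebraMap O' O'') ∧
      ∃ ρ : GaloisRepAdic O'',
        (∀ (ℓ : ℕ) (hℓ : ℓ.Prime) (hℓM : ¬ ℓ ∣ M) (hℓS : ℓ ∉ (↑S : Set ℕ)),
          ∀ A : ValuationSubring (AlgebraicClosure ℚ), A.LiesOverPrime ℓ →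
            ∀ σ : AlgebraicClosure ℚ ≃ₐ[ℚ] AlgebraicClosure ℚ, A.IsFrobeniusAt σ ℓ →
              LinearMap.charpoly (ρ.ρ σ) =
                X ^ 2 - C (algebraMap O' O'' ((iota.comp chig.rangeRestrict) (CuspForm.heckeAlgebra.T hℓ hℓM hℓS))) * X
                  + C ((ℓ : O''))) ∧
        (∀ q : ℕ, q.Prime → q ≠ lam → M.factorization q = 2 → ¬ ρ.IsUnipotentOnInertiaAt q) :=
  s36_final (fun N' q _ _ hq hqN => s36_fm_hub hmod N' q hq hqN)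
    hg lam S O' hlamO' hlam2 chig hchig iota hlamS hMS

end Fermat.Agent.S36
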