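import Mathlib

/-!
# S36 (NODE-3): closed points of a chart have perfect residue fields; finite generation

Pure commutative algebra (Mathlib only), the two side inputs of the "derivation stability" lemma
at a closed point of a chart (`s36_dnk_chart`, `s36_th_core_D`):

* `s36_ff_frob` : `B` integral over `A₀[t]` (a ring homomorphism `ρ : A₀[X] →+* B` which is
  integral), `I` a maximal ideal of `A₀` with finite residue field, `𝔪` a maximal ideal of `B`
  over `I` of residue characteristic `q`.  Then the Frobenius of `B/𝔪` is surjective: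
  `∀ f, ∃ g, f - g ^ q ∈ 𝔪`.
* `s36_ff_hgen` : if `B` is generated as a module over `A₀[t]` by a finite set, then for every
  ring homomorphism `r : B →+* E` the image `r(B)` lies in the subring generated by the image of
  the constants `A₀` and finitely many elements `r (b i)`.
-/

set_option autoImplicit false

namespace Fermat.Agent.S36

open Polynomial

/-- **Perfect residue fields at closed points.** -/
theorem s36_ff_frob {A₀ B : Type*} [CommRing A₀] [CommRing B] (ρ : Polynomial A₀ →+* B)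
    (hρ : ρ.IsIntegral) (q : ℕ) [hq : Fact q.Prime] (I : Ideal A₀) (hI : I.IsMaximal)
    (hfin : Finite (A₀ ⧸ I)) (𝔪 : Ideal B) (h𝔪 : 𝔪.IsMaximal)
    (hI𝔪 : ∀ a ∈ I, ρ (C a) ∈ 𝔪) (hq𝔪 : (q : B) ∈ 𝔪) :
    ∀ f : B, ∃ g : B, f - g ^ q ∈ 𝔪 := by
  classical
  let _ : Field (B ⧸ 𝔪) := Ideal.Quotient.field 𝔪
  let _ : Field (A₀ ⧸ I) := Ideal.Quotient.field I
  -- `ψ : A₀[X] → κ` is integral
  let ψ : A₀[X] →+* B ⧸ 𝔪 := (Ideal.Quotient.mk 𝔪).comp ρ
  have hψ : ψ.IsIntegral :=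
    RingHom.IsIntegral.trans ρ (Ideal.Quotient.mk 𝔪) hρ
      (RingHom.isIntegral_of_surjective _ Ideal.Quotient.mk_surjective)
  -- the residue map `k → κ`
  let lift : A₀ ⧸ I →+* B ⧸ 𝔪 := Ideal.Quotient.lift I (ψ.comp C) (by
    intro a ha
    exact Ideal.Quotient.eq_zero_iff_mem.mpr (hI𝔪 a ha))
  have hlift : ∀ a : A₀, lift (Ideal.Quotient.mk I a) = ψ (C a) := fun a => by
    simp [lift]
  let ψbar : (A₀ ⧸ I)[X] →+* B ⧸ 𝔪 := eval₂RingHom lift (ψ X)
  have hcomp : ψbar.comp (mapRingHom (Ideal.Quotient.mk I)) = ψ := by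
    refine Polynomial.ringHom_ext (fun a => ?_) ?_
    · show eval₂ lift (ψ X) ((C a).map (Ideal.Quotient.mk I)) = ψ (C a)
      rw [map_C, eval₂_C, hlift]
    · show eval₂ lift (ψ X) ((X : A₀[X]).map (Ideal.Quotient.mk I)) = ψ X
      rw [map_X, eval₂_X]
  have hψbar : ψbar.IsIntegral := by
    apply RingHom.IsIntegral.tower_top (mapRingHom (Ideal.Quotient.mk I)) ψbar
    rw [hcomp]
    exact hψ
  -- the kernel of `ψbar` is a maximal ideal of `k[X]`
  have hbot : (⊥ : Ideal (B ⧸ 𝔪)).IsMaximal := Ideal.bot_isMaximal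
  have hP : ((⊥ : Ideal (B ⧸ 𝔪)).comap ψbar).IsMaximal :=
    Ideal.isMaximal_comap_of_isIntegral_of_isMaximal' ψbar hψbar ⊥
  -- Zariski's lemma: `X` is integral over `k` modulo the kernel
  have hJ := Polynomial.quotient_mk_comp_C_isIntegral_of_isJacobsonRing
    ((⊥ : Ideal (B ⧸ 𝔪)).comap ψbar)
  obtain ⟨p, hpm, hp⟩ := hJ (Ideal.Quotient.mk _ X)
  have hp' : ψbar p = 0 := by
    have h1 : eval₂ ((Ideal.Quotient.mk ((⊥ : Ideal (B ⧸ 𝔪)).comap ψbar)).comp C)
        (Ideal.Quotient.mk _ X) p = Ideal.Quotient.mk _ p := by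
      rw [← Polynomial.hom_eval₂, eval₂_C_X]
    rw [h1] at hp
    have h2 := Ideal.Quotient.eq_zero_iff_mem.mp hp
    rwa [Ideal.mem_comap, Ideal.mem_bot] at h2
  -- algebra structure `k → κ`
  let _ : Algebra (A₀ ⧸ I) (B ⧸ 𝔪) := lift.toAlgebra
  have hXint : IsIntegral (A₀ ⧸ I) (ψ X) := ⟨p, hpm, hp'⟩
  have hrange : ∀ c : (A₀ ⧸ I)[X], ψbar c ∈ integralClosure (A₀ ⧸ I) (B ⧸ 𝔪) := by
    intro c
    have h1 : ψbar c = aeval (ψ X) c := rfl
    rw [h1]
    have h2 : Algebra.adjoin (A₀ ⧸ I) {ψ X} ≤ integralClosure (A₀ ⧸ I) (B ⧸ 𝔪) :=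
      Algebra.adjoin_le (Set.singleton_subset_iff.mpr hXint)
    exact h2 (Polynomial.aeval_mem_adjoin_singleton _ _)
  have hint : Algebra.IsIntegral (A₀ ⧸ I) (B ⧸ 𝔪) := by
    refine ⟨fun z => ?_⟩
    obtain ⟨Pz, hPzm, hPz⟩ := hψbar z
    let ψ' : (A₀ ⧸ I)[X] →+* integralClosure (A₀ ⧸ I) (B ⧸ 𝔪) :=
      ψbar.codRestrict (integralClosure (A₀ ⧸ I) (B ⧸ 𝔪)) hrange
    have hz : IsIntegral (integralClosure (A₀ ⧸ I) (B ⧸ 𝔪)) z := by
      refine ⟨Pz.map ψ', hPzm.map ψ', ?_⟩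
      rw [eval₂_map]
      exact hPz
    exact isIntegral_trans z hz
  have halg : Algebra.IsAlgebraic (A₀ ⧸ I) (B ⧸ 𝔪) := Algebra.IsIntegral.isAlgebraic
  have hperf : PerfectField (B ⧸ 𝔪) := Algebra.IsAlgebraic.perfectField (A₀ ⧸ I)
  have hq0 : ((q : ℕ) : B ⧸ 𝔪) = 0 := by
    have h1 := Ideal.Quotient.eq_zero_iff_mem.mpr hq𝔪
    rwa [map_natCast] at h1
  have hchar : CharP (B ⧸ 𝔪) q := (CharP.charP_iff_prime_eq_zero hq.out).mpr hq0
  have hexp : ExpChar (B ⧸ 𝔪) q := ExpChar.prime hq.out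
  have hsurj := surjective_frobenius (B ⧸ 𝔪) q
  intro f
  obtain ⟨y, hy⟩ := hsurj (Ideal.Quotient.mk 𝔪 f)
  obtain ⟨g, rfl⟩ := Ideal.Quotient.mk_surjective y
  refine ⟨g, ?_⟩
  rw [frobenius_def, ← map_pow] at hy
  exact Ideal.Quotient.eq.mp hy.symm

/-- **Finite generation of the reduction of a chart over the constants.** -/
theorem s36_ff_hgen {A₀ B E : Type*} [CommRing A₀] [CommRing B] [Algebra A₀ B] [CommRing E]
    (r : B →+* E) (t : B) (gen : Finset B)
    (hfin : ∀ x : B, ∃ c : B → Polynomial A₀, x = ∑ m ∈ gen, aeval t (c m) * m) :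
    ∃ (n : ℕ) (b : Fin n → B), ∀ a : B,
      r a ∈ Subring.closure (((r.comp (algebraMap A₀ B)).range : Set E) ∪
        Set.range (fun i => r (b i))) := by
  classical
  let gen' : Finset B := insert t gen
  refine ⟨gen'.card, fun i => (gen'.equivFin.symm i : B), fun a => ?_⟩
  set S : Subring E := Subring.closure (((r.comp (algebraMap A₀ B)).range : Set E) ∪
    Set.range (fun i => r ((gen'.equivFin.symm i : gen') : B))) with hS
  have hconst : ∀ a₀ : A₀, r (algebraMap A₀ B a₀) ∈ S :=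
    fun a₀ => Subring.subset_closure (Or.inl ⟨a₀, rfl⟩)
  have hmem : ∀ m ∈ gen', r m ∈ S := by
    intro m hm
    refine Subring.subset_closure (Or.inr ⟨gen'.equivFin ⟨m, hm⟩, ?_⟩)
    show r ((gen'.equivFin.symm (gen'.equivFin ⟨m, hm⟩) : gen') : B) = r m
    rw [Equiv.symm_apply_apply]
  have ht : r t ∈ S := hmem t (Finset.mem_insert_self t gen)
  have hpoly : ∀ P : Polynomial A₀, r (aeval t P) ∈ S := by
    intro P
    rw [aeval_eq_sum_range, map_sum]
    refine Subring.sum_mem S (fun i _ => ?_)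
    rw [Algebra.smul_def, map_mul, map_pow]
    exact S.mul_mem (hconst _) (S.pow_mem ht i)
  obtain ⟨c, hc⟩ := hfin a
  rw [hc, map_sum]
  refine Subring.sum_mem S (fun m hm => ?_)
  rw [map_mul]
  exact S.mul_mem (hpoly _) (hmem m (Finset.mem_insert_of_mem hm))

end Fermat.Agent.S36
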