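import Fermat.Agent.S36.FrobFin
import Fermat.Agent.S36.CrossInst
import Fermat.Agent.S34.IcChart

/-!
# S36 (NODE-3): the side inputs `hfrob` and `hgen` of the crossing-point core, for charts

Providers of the two side hypotheses of `s36_xi_core` (`S36/CrossInst.lean`) / `s36_dnk_chart`
(`S36/DerivNak.lean`) at a closed point `𝔪` of a chart `B ⊆ F`, in the subring vocabulary.

* `s36_ff_frob_sub` : `B` a subring of a field `F` containing the constants `A₀` and a coordinate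
  `t`, every element of `B` integral over `A₀[t]` (`B ≤ s34_ic_chart A₀ t`), `I` a maximal ideal of
  `A₀` with finite residue field mapping into the maximal ideal `𝔪 ∋ q` of `B`: every element of
  `B` is a `q`-th power modulo `𝔪` (`hfrob`).
* `s36_ff_frob_dvr` : the same for a DVR `A₀` with finite residue field, with `𝔪 ∋ π`, `𝔪 ∋ q`.
* `s36_ff_hgen_sub` : `B` spanned over `A₀[t]` by finitely many elements (the conclusion of
  `s34_ic_gen`): the image `r(B)` under any ring hom is generated as a ring by any subring `k₀`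
  containing `r(A₀)` and finitely many `r (b i)`.
* `s36_ff_xi_hgen` : the hypothesis `hgen` of `s36_xi_core`, verbatim.
* `s36_ff_xi_frob` : the hypothesis `hfrob` of `s36_xi_core`, verbatim, at a maximal `𝔪 ∋ ℓ`.
-/

set_option autoImplicit false
set_option synthInstance.maxHeartbeats 400000
set_option maxHeartbeats 1000000
set_option linter.unusedSectionVars false
set_option linter.unusedVariables false

open ModularCurve Polynomial

noncomputable section

namespace Fermat.Agent.S36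

open Fermat.Agent.S18 Fermat.Agent.S34

section Abstract

variable {A₀ F : Type*} [CommRing A₀] [Field F] [Algebra A₀ F]

/-- Polynomials in a coordinate `t ∈ B` with coefficients in `A₀ ⊆ B` lie in `B`. -/
theorem s36_ff_aeval_mem (B : Subring F) (t : F) (ht : t ∈ B)
    (hA : ∀ a : A₀, algebraMap A₀ F a ∈ B) (P : A₀[X]) : aeval t P ∈ B := by
  induction P using Polynomial.induction_on with
  | C a => rw [aeval_C]; exact hA a
  | add p q hp hq => rw [map_add]; exact B.add_mem hp hq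
  | monomial n a h =>
    rw [map_mul, aeval_C, map_pow, aeval_X]
    exact B.mul_mem (hA a) (B.pow_mem ht _)

/-- The corestriction of `aeval t` to the chart. -/
def s36_ff_rho (B : Subring F) (t : F) (ht : t ∈ B)
    (hA : ∀ a : A₀, algebraMap A₀ F a ∈ B) : A₀[X] →+* B :=
  ((aeval t : A₀[X] →ₐ[A₀] F) : A₀[X] →+* F).codRestrict B (s36_ff_aeval_mem B t ht hA)

theorem s36_ff_rho_coe (B : Subring F) (t : F) (ht : t ∈ B)
    (hA : ∀ a : A₀, algebraMap A₀ F a ∈ B) (P : A₀[X]) :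
    ((s36_ff_rho B t ht hA P : B) : F) = aeval t P := rfl

/-- **`hfrob` at a closed point of a chart integral over `A₀[t]`.** -/
theorem s36_ff_frob_sub (B : Subring F) (t : F) (ht : t ∈ B)
    (hA : ∀ a : A₀, algebraMap A₀ F a ∈ B) (hint : ∀ x ∈ B, x ∈ s34_ic_chart A₀ t)
    (q : ℕ) [hq : Fact q.Prime] (I : Ideal A₀) (hI : I.IsMaximal) (hfin : Finite (A₀ ⧸ I))
    (𝔪 : Ideal B) (h𝔪 : 𝔪.IsMaximal)
    (hI𝔪 : ∀ a ∈ I, (⟨algebraMap A₀ F a, hA a⟩ : B) ∈ 𝔪) (hq𝔪 : (q : B) ∈ 𝔪) :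
    ∀ f : B, ∃ g : B, f - g ^ q ∈ 𝔪 := by
  refine s36_ff_frob (s36_ff_rho B t ht hA) ?_ q I hI hfin 𝔪 h𝔪 ?_ hq𝔪
  · intro x
    obtain ⟨p, hp, hpx⟩ := s34_ic_mem_iff.mp (hint x.1 x.2)
    refine ⟨p, hp, ?_⟩
    apply Subtype.ext
    have h1 : B.subtype (eval₂ (s36_ff_rho B t ht hA) x p) =
        eval₂ (B.subtype.comp (s36_ff_rho B t ht hA)) (B.subtype x) p :=
      Polynomial.hom_eval₂ p (s36_ff_rho B t ht hA) B.subtype x
    have h2 : B.subtype.comp (s36_ff_rho B t ht hA) =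
        ((aeval t : A₀[X] →ₐ[A₀] F) : A₀[X] →+* F) := by
      ext P <;> rfl
    rw [h2] at h1
    exact h1.trans hpx
  · intro a ha
    have e : s36_ff_rho B t ht hA (C a) = ⟨algebraMap A₀ F a, hA a⟩ := by
      apply Subtype.ext
      rw [s36_ff_rho_coe, aeval_C]
    rw [e]
    exact hI𝔪 a ha

/-- `hfrob` over a local base with finite residue field and principal maximal ideal. -/
theorem s36_ff_frob_dvr [IsLocalRing A₀] [Finite (IsLocalRing.ResidueField A₀)]
    (B : Subring F) (t : F) (ht : t ∈ B)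
    (hA : ∀ a : A₀, algebraMap A₀ F a ∈ B) (hint : ∀ x ∈ B, x ∈ s34_ic_chart A₀ t)
    (q : ℕ) [hq : Fact q.Prime] (π : A₀) (hπ : IsLocalRing.maximalIdeal A₀ = Ideal.span {π})
    (𝔪 : Ideal B) (h𝔪 : 𝔪.IsMaximal)
    (hπ𝔪 : (⟨algebraMap A₀ F π, hA π⟩ : B) ∈ 𝔪) (hq𝔪 : (q : B) ∈ 𝔪) :
    ∀ f : B, ∃ g : B, f - g ^ q ∈ 𝔪 := by
  refine s36_ff_frob_sub B t ht hA hint q (IsLocalRing.maximalIdeal A₀)
    (IsLocalRing.maximalIdeal.isMaximal A₀)
    (inferInstanceAs (Finite (IsLocalRing.ResidueField A₀))) 𝔪 h𝔪 ?_ hq𝔪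
  intro a ha
  rw [hπ, Ideal.mem_span_singleton] at ha
  obtain ⟨c, rfl⟩ := ha
  have e : (⟨algebraMap A₀ F (π * c), hA (π * c)⟩ : B) =
      ⟨algebraMap A₀ F π, hA π⟩ * ⟨algebraMap A₀ F c, hA c⟩ := by
    apply Subtype.ext
    show algebraMap A₀ F (π * c) = algebraMap A₀ F π * algebraMap A₀ F c
    rw [map_mul]
  rw [e]
  exact 𝔪.mul_mem_right _ hπ𝔪

/-- **`hgen` for a chart finite over `A₀[t]`.** -/
theorem s36_ff_hgen_sub {E : Type*} [CommRing E] (B : Subring F) (t : F) (ht : t ∈ B)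
    (hA : ∀ a : A₀, algebraMap A₀ F a ∈ B) (gen : Finset F) (hgenB : ∀ m ∈ gen, m ∈ B)
    (hspan : ∀ x ∈ B, ∃ c : F → A₀[X], x = ∑ m ∈ gen, aeval t (c m) * m)
    (r : B →+* E) (k₀ : Subring E) (hk₀ : ∀ a : A₀, r ⟨algebraMap A₀ F a, hA a⟩ ∈ k₀) :
    ∃ (n : ℕ) (b : Fin n → B), ∀ a : B,
      r a ∈ Subring.closure ((k₀ : Set E) ∪ Set.range (fun i => r (b i))) := by
  classical
  let mB : F → B := fun m => if h : m ∈ B then ⟨m, h⟩ else 0
  have hmB : ∀ m ∈ gen, ((mB m : B) : F) = m := by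
    intro m hm
    simp only [mB, dif_pos (hgenB m hm)]
  let gen' : Finset B := insert ⟨t, ht⟩ (gen.image mB)
  refine ⟨gen'.card, fun i => (gen'.equivFin.symm i : B), fun a => ?_⟩
  set S : Subring E := Subring.closure ((k₀ : Set E) ∪
    Set.range (fun i => r ((gen'.equivFin.symm i : gen') : B))) with hS
  have hmem : ∀ y ∈ gen', r y ∈ S := by
    intro y hy
    refine Subring.subset_closure (Or.inr ⟨gen'.equivFin ⟨y, hy⟩, ?_⟩)
    simp
  have hρS : ∀ P : A₀[X], r (s36_ff_rho B t ht hA P) ∈ S := by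
    intro P
    induction P using Polynomial.induction_on with
    | C a =>
      have e : s36_ff_rho B t ht hA (C a) = ⟨algebraMap A₀ F a, hA a⟩ := by
        apply Subtype.ext
        rw [s36_ff_rho_coe, aeval_C]
      rw [e]
      exact Subring.subset_closure (Or.inl (hk₀ a))
    | add p q hp hq => rw [map_add, map_add]; exact S.add_mem hp hq
    | monomial n a h =>
      have e : s36_ff_rho B t ht hA X = ⟨t, ht⟩ := by
        apply Subtype.ext
        rw [s36_ff_rho_coe, aeval_X]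
      rw [pow_succ, ← mul_assoc, map_mul, map_mul, e]
      exact S.mul_mem h (hmem _ (Finset.mem_insert_self _ _))
  obtain ⟨c, hc⟩ := hspan a.1 a.2
  have ha : a = ∑ m ∈ gen, s36_ff_rho B t ht hA (c m) * mB m := by
    apply Subtype.ext
    have h1 : B.subtype (∑ m ∈ gen, s36_ff_rho B t ht hA (c m) * mB m) =
        ∑ m ∈ gen, B.subtype (s36_ff_rho B t ht hA (c m) * mB m) := map_sum _ _ _
    refine hc.trans (Eq.trans ?_ h1.symm)
    refine Finset.sum_congr rfl fun m hm => ?_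
    show aeval t (c m) * m = ((s36_ff_rho B t ht hA (c m) : B) : F) * ((mB m : B) : F)
    rw [hmB m hm, s36_ff_rho_coe]
  rw [ha, map_sum]
  refine Subring.sum_mem _ fun m hm => ?_
  rw [map_mul]
  exact S.mul_mem (hρS _)
    (hmem _ (Finset.mem_insert_of_mem (Finset.mem_image_of_mem _ hm)))

end Abstract

section Model

variable {N : ℕ} [NeZero N] {ℓ : ℕ} [NeZero ℓ] [Fact ℓ.Prime]
variable {K : Type*} [Field K] [Algebra ℚ K] (A : ValuationSubring K)

local notation "FF" => laurentBaseChange K (modularFunctionFieldFull (N * ℓ))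

/-- **The hypothesis `hgen` of `s36_xi_core`** for a chart spanned over `A[t]` by finitely many
elements (e.g. `s34_ic_gen`). -/
theorem s36_ff_xi_hgen (B : Subring FF) (hAB : ∀ a : A, algebraMap A FF a ∈ B)
    (hB₁ : B ≤ s34_gi_V A (N * ℓ)) (t : FF) (ht : t ∈ B)
    (gen : Finset FF) (hgenB : ∀ m ∈ gen, m ∈ B)
    (hspan : ∀ x ∈ B, ∃ c : FF → A[X], x = ∑ m ∈ gen, aeval t (c m) * m) :
    ∃ (n : ℕ) (b : Fin n → B), ∀ a : B, s36_xi_r A B hB₁ a ∈ Subring.closure
      ((s36_xi_k0 A : Set (LaurentSeries (IsLocalRing.ResidueField A))) ∪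
        Set.range (fun i => s36_xi_r A B hB₁ (b i))) := by
  refine s36_ff_hgen_sub B t ht hAB gen hgenB hspan (s36_xi_r A B hB₁) (s36_xi_k0 A) ?_
  intro a
  have e : s36_xi_r A B hB₁ ⟨algebraMap A FF a, hAB a⟩ =
      HahnSeries.C (IsLocalRing.residue A a) :=
    s34_gi_red_algebraMap (N := N * ℓ) a
  rw [e]
  exact ⟨_, rfl⟩

/-- **The hypothesis `hfrob` of `s36_xi_core`** at a maximal ideal `𝔪 ∋ ℓ` of a chart integral over
`A[t]`, `A` an unramified DVR with finite residue field. -/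
theorem s36_ff_xi_frob [IsDiscreteValuationRing A] [Finite (IsLocalRing.ResidueField A)]
    (hirr : Irreducible ((ℓ : ℕ) : A))
    (B : Subring FF) (hAB : ∀ a : A, algebraMap A FF a ∈ B)
    (t : FF) (ht : t ∈ B) (hint : ∀ x ∈ B, x ∈ s34_ic_chart A t)
    (𝔪 : Ideal B) (h𝔪 : 𝔪.IsMaximal) (hℓ𝔪 : ((ℓ : ℕ) : B) ∈ 𝔪) :
    ∀ f : B, ∃ g : B, f - g ^ ℓ ∈ 𝔪 := by
  refine s36_ff_frob_dvr B t ht hAB hint ℓ ((ℓ : ℕ) : A) hirr.maximalIdeal_eq 𝔪 h𝔪 ?_ hℓ𝔪
  have e : (⟨algebraMap A FF ((ℓ : ℕ) : A), hAB _⟩ : B) = ((ℓ : ℕ) : B) := by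
    apply Subtype.ext
    show algebraMap A FF ((ℓ : ℕ) : A) = (((ℓ : ℕ) : B) : FF)
    rw [map_natCast]
    push_cast
    rfl
  rw [e]
  exact hℓ𝔪

end Model

end Fermat.Agent.S36
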