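import Fermat.Agent.S36.QThick
import Fermat.Agent.S36.DerStable

/-!
# S36 (NODE-3), abstract leaf (GU): a pole of the thickness forces `Γ` to be a unit

Setting of `s36_qk_regular_of_dvd` (`QThick.lean`): `θ` a derivation of a field `F`, `O ⊆ F` the
local ring of the point `p` with uniformizer `x̄ - a` (`a` a constant), stable under
`d/dx̄ = θ/θ x̄` (`hD`, provided by `s36_ds_main_shift`), `B̄` with `θ B̄ = θ x̄`
(`B̄ = x̄ - x̄^(q²)` in characteristic `q`), `γ ∈ O` (the reduction of `Γ`,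
`u_∞ u_0 = - q Γ`) and the thickness identity
`B̄² (θ x̄)^q = B̄² x̄^(q-1) θ x̄ + B̄ θ γ - γ θ x̄` (`s36_qk_gamma`).

If `(θ x̄)^(q-1) ∉ O` (the thickness has a pole at `p`; `s36_ds_pole_of_rel`,
`s36_ds_pole_of_unit`), then `γ` is a unit of `O` and `B̄` is a uniformizer of `O`
(`s36_gu_main`): the point is `F_{q²}`-rational and `Γ` is a unit at the crossing point.
-/

set_option autoImplicit false

namespace Fermat.Agent.S36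

variable {F : Type*} [Field F]

/-- An element `B̄ ∈ O` with `θ B̄ = θ x` (`x` the uniformizer) is a unit or a uniformizer:
it cannot lie in `m²`. -/
theorem s36_gu_unif (θ : F →+ F) (hθ : ∀ f g, θ (f * g) = θ f * g + f * θ g)
    (O : Subring F) (x : F) (hxinv : x⁻¹ ∉ O) (hθx : θ x ≠ 0)
    (hloc : ∀ f ∈ O, f⁻¹ ∈ O ∨ ∃ f₁ ∈ O, f = x * f₁)
    (hD : ∀ f ∈ O, ∃ g ∈ O, θ f = g * θ x)
    (Bb : F) (hBb : Bb ∈ O) (hBθ : θ Bb = θ x) :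
    Bb⁻¹ ∈ O ∨ ∃ b₁ ∈ O, b₁⁻¹ ∈ O ∧ Bb = x * b₁ := by
  rcases hloc Bb hBb with h | ⟨b₁, hb₁, rfl⟩
  · exact Or.inl h
  · refine Or.inr ⟨b₁, hb₁, ?_, rfl⟩
    rcases hloc b₁ hb₁ with h | ⟨b₂, hb₂, rfl⟩
    · exact h
    · exfalso
      obtain ⟨g, hg, e⟩ := hD (x * b₂) hb₁
      have h1 : θ x * ((x * b₂) + x * g) = θ x * 1 := by
        rw [hθ, e] at hBθ
        linear_combination hBθ
      have h2 := mul_left_cancel₀ hθx h1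
      have hx0 : x ≠ 0 := by
        rintro rfl
        rw [zero_mul, zero_mul, add_zero] at h2
        exact zero_ne_one h2
      apply hxinv
      have h3 : x⁻¹ = b₂ + g := by
        have h4 : (b₂ + g) * x = 1 := by linear_combination h2
        exact (eq_inv_of_mul_eq_one_left h4).symm
      rw [h3]
      exact O.add_mem hb₂ hg

/-- **(GU)** A pole of `(θ x̄)^(q-1)` at the point of `O` forces `γ ∈ O^×` and `B̄` a
uniformizer. -/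
theorem s36_gu_main (θ : F →+ F) (hθ : ∀ f g, θ (f * g) = θ f * g + f * θ g)
    (O : Subring F) (q : ℕ) (hq : 0 < q)
    (xb a : F) (hxb : xb ∈ O) (hθa : θ a = 0) (hxinv : (xb - a)⁻¹ ∉ O)
    (hθx : θ xb ≠ 0)
    (hloc : ∀ f ∈ O, f⁻¹ ∈ O ∨ ∃ f₁ ∈ O, f = (xb - a) * f₁)
    (hD : ∀ f ∈ O, ∃ g ∈ O, θ f = g * θ xb)
    (Bb γ : F) (hBb : Bb ∈ O) (hBθ : θ Bb = θ xb) (hB0 : Bb ≠ 0) (hγ : γ ∈ O)
    (hid : Bb ^ 2 * θ xb ^ q = Bb ^ 2 * xb ^ (q - 1) * θ xb + Bb * θ γ - γ * θ xb)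
    (hpole : θ xb ^ (q - 1) ∉ O) :
    γ⁻¹ ∈ O ∧ ∃ b₁ ∈ O, b₁⁻¹ ∈ O ∧ Bb = (xb - a) * b₁ := by
  have hθxa : θ (xb - a) = θ xb := by rw [map_sub, hθa, sub_zero]
  -- `B̄` is not a unit
  have hBnu : Bb⁻¹ ∉ O := by
    intro h
    apply hpole
    refine s36_qk_regular_of_dvd θ hθ O q hq xb Bb γ (Bb⁻¹ * γ) hxb hBθ hB0 hθx hD
      (O.mul_mem h hγ) ?_ hid
    rw [← mul_assoc, mul_inv_cancel₀ hB0, one_mul]
  have hD' : ∀ f ∈ O, ∃ g ∈ O, θ f = g * θ (xb - a) := by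
    intro f hf
    obtain ⟨g, hg, e⟩ := hD f hf
    exact ⟨g, hg, by rw [e, hθxa]⟩
  rcases s36_gu_unif θ hθ O (xb - a) hxinv (by rw [hθxa]; exact hθx) hloc hD' Bb hBb
      (by rw [hθxa]; exact hBθ) with h | ⟨b₁, hb₁, hb₁inv, hBeq⟩
  · exact absurd h hBnu
  · refine ⟨?_, b₁, hb₁, hb₁inv, hBeq⟩
    rcases hloc γ hγ with h | ⟨γ₁, hγ₁, hγeq⟩
    · exact h
    · exfalso
      apply hpole
      have hb₁0 : b₁ ≠ 0 := by
        rintro rfl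
        rw [mul_zero] at hBeq
        exact hB0 hBeq
      refine s36_qk_regular_of_dvd θ hθ O q hq xb Bb γ (b₁⁻¹ * γ₁) hxb hBθ hB0 hθx hD
        (O.mul_mem hb₁inv hγ₁) ?_ hid
      rw [hγeq, hBeq]
      field_simp

/-- **(GU)**, fed directly with the finite-generation hypotheses of `s36_ds_main_shift`
instead of `hD`. -/
theorem s36_gu_main_fg (θ : F →+ F) (hθ : ∀ f g, θ (f * g) = θ f * g + f * θ g)
    (O : Subring F) (q : ℕ) (hq : 0 < q)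
    (xb a : F) (hxb : xb ∈ O) (ha : a ∈ O) (hθa : θ a = 0) (hxinv : (xb - a)⁻¹ ∉ O)
    (hθx : θ xb ≠ 0)
    (hloc : ∀ f ∈ O, f⁻¹ ∈ O ∨ ∃ f₁ ∈ O, f = (xb - a) * f₁)
    (hres : ∀ f ∈ O, ∃ c ∈ O, θ c = 0 ∧ ∃ f₁ ∈ O, f = c + (xb - a) * f₁)
    (hpole' : ∀ f : F, ∃ n : ℕ, (xb - a) ^ n * f ∈ O)
    (S : Finset F) (hSO : ∀ s ∈ S, s ∈ O)
    (hfg : ∀ f ∈ O, ∃ a ∈ Subring.closure ((S : Set F) ∪ {c | c ∈ O ∧ θ c = 0}),
      ∃ d ∈ Subring.closure ((S : Set F) ∪ {c | c ∈ O ∧ θ c = 0}), d⁻¹ ∈ O ∧ f = a * d⁻¹)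
    (Bb γ : F) (hBb : Bb ∈ O) (hBθ : θ Bb = θ xb) (hB0 : Bb ≠ 0) (hγ : γ ∈ O)
    (hid : Bb ^ 2 * θ xb ^ q = Bb ^ 2 * xb ^ (q - 1) * θ xb + Bb * θ γ - γ * θ xb)
    (hpole : θ xb ^ (q - 1) ∉ O) :
    γ⁻¹ ∈ O ∧ ∃ b₁ ∈ O, b₁⁻¹ ∈ O ∧ Bb = (xb - a) * b₁ :=
  s36_gu_main θ hθ O q hq xb a hxb hθa hxinv hθx hloc
    (s36_ds_main_shift θ hθ O xb a hxb ha hθa hθx hres hpole' S hSO hfg)
    Bb γ hBb hBθ hB0 hγ hid hpole

end Fermat.Agent.S36
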