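import Fermat.Agent.S36.GaussC
import Fermat.Agent.S36.RedTwist
import Fermat.Agent.S36.SwapRel

/-!
# S36 (NODE-3), contract item (c-C): `V_C` is stable under the swap — the `β`-side

`Θ : K · F(N q q) →ₐ[K] K((Q))` the embedding at the cusp `1/q` (`s36_gc_IsCusp N q ζ Θ`,
`S36/GaussC.lean`), `ζ^q = 1`, `w` a generator-wise swap of `K₀ · F(N q)`
(`w (j(Q^(d m))) = j(Q^(d (q/m)))`, `d ∣ N`, `m ∣ q`), `β = heckeBetaBar K₀ (N q) q`
(`f(Q) ↦ f(Q^q)`).

* `s36_gb_theta_beta` : **`Θ ∘ β = twist_ζ ∘ w`** on `K₀ · F(N q)`: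
  `Θ (β u) = (w u)(ζ Q)` (coefficients extended to `K`);
* `s36_gb_twist_mem` : the twist by a unit of `A` preserves the coefficientwise Gauss ring of `A`
  (for series with coefficients in `K₀`, Gauss ring of `A₀ ⊆ κ⁻¹ A`);
* `s36_gb_beta_mem` : `β (w y) ∈ V_C` for `y` in the Gauss ring `s34_gi_V A₀ (N q)`;
* `s36_gb_hαC`, `s36_gb_hβC` : the two inclusion hypotheses `hαC`, `hβC` of `s36_ncm_model`
  (`S36/NrChainModel.lean`) for `V_C = s36_gc_V κ A (N q q) Θ`, the second for any `W` with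
  `W ∘ α = β ∘ w` (`s36_sr_rel`).
-/

set_option autoImplicit false
set_option linter.style.haveILetI false
set_option linter.unusedSectionVars false
set_option linter.unusedVariables false

open ModularCurve

noncomputable section

namespace Fermat.Agent.S36

open Fermat.Agent.S28 (twistQ)
open Fermat.Agent.S18 Fermat.Agent.S34 Fermat.Agent.S24 Fermat.Agent.S37

section Beta

variable {K0 K : Type*} [Field K0] [Field K] [Algebra ℚ K0] [Algebra ℚ K]
  {κ : K0 →+* K} {A : ValuationSubring K} {N q : ℕ} [NeZero N] [NeZero q] [NeZero (N * q)]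
  {Θ : laurentBaseChange K (modularFunctionFieldFull (N * q * q)) →ₐ[K] LaurentSeries K}
  {ζ : Aˣ}

/-- The coercion `K₀ · F(M) → K₀((Q))` as a ring homomorphism. -/
def s36_gb_val (K0 : Type*) [Field K0] [Algebra ℚ K0] (M : ℕ) :
    laurentBaseChange K0 (modularFunctionFieldFull M) →+* LaurentSeries K0 :=
  (laurentBaseChange K0 (modularFunctionFieldFull M)).toSubfield.subtype

theorem s36_gb_val_apply (M : ℕ) (x : laurentBaseChange K0 (modularFunctionFieldFull M)) :
    s36_gb_val K0 M x = (x : LaurentSeries K0) := rfl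

/-- **`Θ ∘ β = twist_ζ ∘ w`.** -/
theorem s36_gb_theta_beta (hΘ : s36_gc_IsCusp N q ζ Θ) (hq : q.Prime) (hζq : ζ ^ q = 1)
    (w : laurentBaseChange K0 (modularFunctionFieldFull (N * q)) ≃ₐ[K0]
      laurentBaseChange K0 (modularFunctionFieldFull (N * q)))
    (hw : ∀ (d m : ℕ) (_ : d ∣ N) (_ : m ∣ q)
      (h1 : s34_sw_s K0 (d * m) ∈ laurentBaseChange K0 (modularFunctionFieldFull (N * q))),
      ((w ⟨s34_sw_s K0 (d * m), h1⟩ :
        laurentBaseChange K0 (modularFunctionFieldFull (N * q))) : LaurentSeries K0) =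
        s34_sw_s K0 (d * (q / m)))
    (u : laurentBaseChange K0 (modularFunctionFieldFull (N * q))) :
    Θ (s36_gc_incl κ (N * q * q) (heckeBetaBar K0 (N * q) q u)) =
      twistQ (Units.map (A.subtype : A →* K) ζ)
        (coeffMap κ ((w u : laurentBaseChange K0 (modularFunctionFieldFull (N * q))) :
          LaurentSeries K0)) := by
  have hq0 := hq.ne_zero
  have hN0 := NeZero.ne N
  have hζK : Units.map (A.subtype : A →* K) ζ ^ q = 1 := by
    rw [← map_pow, hζq, map_one]
  have key : ((Θ : laurentBaseChange K (modularFunctionFieldFull (N * q * q)) →+*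
        LaurentSeries K).comp ((s36_gc_incl κ (N * q * q)).comp
      (heckeBetaBar K0 (N * q) q : laurentBaseChange K0 (modularFunctionFieldFull (N * q)) →+*
        laurentBaseChange K0 (modularFunctionFieldFull (N * q * q))))) =
      (s37_ec_twist (Units.map (A.subtype : A →* K) ζ)).comp ((coeffMap κ).comp
        ((s36_gb_val K0 (N * q)).comp
          (w : laurentBaseChange K0 (modularFunctionFieldFull (N * q)) →+*
            laurentBaseChange K0 (modularFunctionFieldFull (N * q))))) := by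
    apply s34_sw_ringHom_ext
    · intro c
      show Θ (s36_gc_incl κ (N * q * q) (heckeBetaBar K0 (N * q) q (algebraMap K0 _ c))) =
        s37_ec_twist (Units.map (A.subtype : A →* K) ζ)
          (coeffMap κ (s36_gb_val K0 (N * q) (w (algebraMap K0 _ c))))
      rw [AlgHom.commutes, s36_gc_incl_algebraMap, AlgHom.commutes, AlgEquiv.commutes,
        s36_gb_val_apply]
      have e1 : ((algebraMap K0 (laurentBaseChange K0 (modularFunctionFieldFull (N * q))) c :
          laurentBaseChange K0 (modularFunctionFieldFull (N * q))) : LaurentSeries K0) =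
          algebraMap K0 (LaurentSeries K0) c := rfl
      have e4 : coeffMap κ (algebraMap K0 (LaurentSeries K0) c) =
          algebraMap K (LaurentSeries K) (κ c) := by
        rw [algebraMap_laurentSeries_eq_single, coeffMap_single,
          ← algebraMap_laurentSeries_eq_single]
      rw [e1, e4, algebraMap_laurentSeries_eq_single, ← HahnSeries.C_apply, s37_ec_twist_C]
    · intro e _ he
      obtain ⟨d, m, hd, hm, rfl⟩ := (Nat.dvd_mul).mp he
      have hd0 : d ≠ 0 := ne_zero_of_dvd_ne_zero hN0 hd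
      haveI : NeZero d := ⟨hd0⟩
      have hs : s34_sw_s K0 (d * m) = coeffEmb K0 (qExpand ℚ (d * m) jq) :=
        s34_sw_s_eq K0 (d * m)
      have hmem1 : s34_sw_s K0 (d * m) ∈
          laurentBaseChange K0 (modularFunctionFieldFull (N * q)) := by
        rw [hs]
        exact s34_sw_s_mem K0 (N * q) (d * m) he
      have e2 : (⟨coeffEmb K0 (qExpand ℚ (d * m) jq), s34_sw_s_mem K0 (N * q) (d * m) he⟩ :
          laurentBaseChange K0 (modularFunctionFieldFull (N * q))) =
          ⟨s34_sw_s K0 (d * m), hmem1⟩ := Subtype.ext hs.symm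
      show Θ (s36_gc_incl κ (N * q * q) (heckeBetaBar K0 (N * q) q _)) =
        s37_ec_twist (Units.map (A.subtype : A →* K) ζ)
          (coeffMap κ (s36_gb_val K0 (N * q) (w _)))
      rw [e2, s36_gb_val_apply, hw d m hd hm hmem1, s36_gc_coeffMap_s]
      -- the left-hand side
      have hmq : m * q ∣ q ^ 2 := by
        rw [pow_two]
        exact Nat.mul_dvd_mul_right hm q
      have hdmq : d * (m * q) ∣ N * q * q := by
        rw [Nat.mul_assoc N q q]
        exact Nat.mul_dvd_mul hd (Nat.mul_dvd_mul_right hm q)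
      have hm0 : m ≠ 0 := fun h0 => by
        rw [h0] at hm
        exact hq0 (Nat.eq_zero_of_zero_dvd hm)
      haveI : NeZero (d * (m * q)) := ⟨Nat.mul_ne_zero hd0 (Nat.mul_ne_zero hm0 hq0)⟩
      have hmem2 : s34_sw_s K (d * (m * q)) ∈
          laurentBaseChange K (modularFunctionFieldFull (N * q * q)) := by
        rw [s34_sw_s_eq]
        exact s34_sw_s_mem K (N * q * q) _ hdmq
      have e3 : s36_gc_incl κ (N * q * q) (heckeBetaBar K0 (N * q) q ⟨s34_sw_s K0 (d * m), hmem1⟩) =
          ⟨s34_sw_s K (d * (m * q)), hmem2⟩ := by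
        apply Subtype.ext
        show coeffMap κ ((heckeBetaBar K0 (N * q) q ⟨s34_sw_s K0 (d * m), hmem1⟩ :
          laurentBaseChange K0 (modularFunctionFieldFull (N * q * q))) : LaurentSeries K0) = _
        rw [coe_heckeBetaBar]
        show coeffMap κ (qExpand K0 q (s34_sw_s K0 (d * m))) = _
        rw [← s36_sr_s_mul (d * m) q, s36_gc_coeffMap_s, Nat.mul_assoc]
      rw [e3, hΘ.1 d (m * q) hd hmq hmem2]
      rcases (Nat.dvd_prime hq).mp hm with rfl | rfl
      · -- `m = 1`
        have hne : ¬ (1 * q = q ^ 2) := by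
          intro h
          have h2 := hq.one_lt
          nlinarith
        rw [if_neg hne, Nat.div_one, one_mul, s36_sr_s_mul d q, s37_ec_twist_qExpand _ q hζK]
      · -- `m = q`
        rw [if_pos (pow_two m).symm, Nat.div_self hq.pos, mul_one, s36_rw_twistQ_eq]
  have h1 := DFunLike.congr_fun key u
  rw [s36_rw_twistQ_eq]
  exact h1

/-- The twist by a unit of `A` preserves the coefficientwise Gauss ring. -/
theorem s36_gb_twist_mem (ζ : Aˣ) (x : LaurentSeries K)
    (hx : x ∈ s18_W A.subtype (IsLocalRing.residue A)) :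
    twistQ (Units.map (A.subtype : A →* K) ζ) x ∈ s18_W A.subtype (IsLocalRing.residue A) := by
  obtain ⟨s, y, hs, h⟩ := hx
  refine ⟨twistQ ζ s, twistQ ζ y, ?_, ?_⟩
  · intro h0
    apply hs
    ext n
    have h1 := congrArg (fun z : LaurentSeries (IsLocalRing.ResidueField A) => z.coeff n) h0
    simp only [coeffMap_coeff, HahnSeries.coeff_zero, Fermat.Agent.S28.twistQ_coeff] at h1 ⊢
    rw [map_mul] at h1
    rcases mul_eq_zero.mp h1 with h2 | h2
    · exfalso
      rw [IsLocalRing.residue_eq_zero_iff] at h2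
      exact (IsLocalRing.mem_maximalIdeal _).mp h2 (ζ ^ n).isUnit
    · exact h2
  · rw [Fermat.Agent.S28.formal_coeffMap_twistQ, Fermat.Agent.S28.formal_coeffMap_twistQ,
      s36_rw_twistQ_eq, s36_rw_twistQ_eq, s36_rw_twistQ_eq, ← map_mul, h]

/-- Extension of constants maps the Gauss ring of `A₀` into the Gauss ring of `A`. -/
theorem s36_gb_coeffMap_mem (A0 : ValuationSubring K0) (hA0 : ∀ a ∈ A0, κ a ∈ A)
    (x : LaurentSeries K0) (hx : x ∈ s18_W A0.subtype (IsLocalRing.residue A0)) :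
    coeffMap κ x ∈ s18_W A.subtype (IsLocalRing.residue A) := by
  obtain ⟨s, y, hs, h⟩ := hx
  have hcomp : (A.subtype : A →+* K).comp (s36_gc_res A0 hA0) = κ.comp A0.subtype := rfl
  refine ⟨coeffMap (s36_gc_res A0 hA0) s, coeffMap (s36_gc_res A0 hA0) y, ?_, ?_⟩
  · intro h0
    apply hs
    ext n
    have h1 := congrArg (fun z : LaurentSeries (IsLocalRing.ResidueField A) => z.coeff n) h0
    simp only [coeffMap_coeff, HahnSeries.coeff_zero] at h1 ⊢
    rw [IsLocalRing.residue_eq_zero_iff] at h1 ⊢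
    by_contra hn
    have hu : IsUnit (s.coeff n) := IsLocalRing.notMem_maximalIdeal.mp hn
    exact (IsLocalRing.mem_maximalIdeal _).mp h1 (hu.map (s36_gc_res A0 hA0))
  · rw [coeffMap_coeffMap, coeffMap_coeffMap, hcomp, ← coeffMap_coeffMap, ← coeffMap_coeffMap,
      ← h, map_mul]

/-- **`β (w y) ∈ V_C`** for `y` in the Gauss ring of level `N q`. -/
theorem s36_gb_beta_mem (hΘ : s36_gc_IsCusp N q ζ Θ) (hq : q.Prime) (hζq : ζ ^ q = 1)
    (w : laurentBaseChange K0 (modularFunctionFieldFull (N * q)) ≃ₐ[K0]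
      laurentBaseChange K0 (modularFunctionFieldFull (N * q)))
    (hw : ∀ (d m : ℕ) (_ : d ∣ N) (_ : m ∣ q)
      (h1 : s34_sw_s K0 (d * m) ∈ laurentBaseChange K0 (modularFunctionFieldFull (N * q))),
      ((w ⟨s34_sw_s K0 (d * m), h1⟩ :
        laurentBaseChange K0 (modularFunctionFieldFull (N * q))) : LaurentSeries K0) =
        s34_sw_s K0 (d * (q / m)))
    (hww : ∀ x, w (w x) = x)
    (A0 : ValuationSubring K0) (hA0 : ∀ a ∈ A0, κ a ∈ A)
    (y : laurentBaseChange K0 (modularFunctionFieldFull (N * q)))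
    (hy : y ∈ s34_gi_V A0 (N * q)) :
    heckeBetaBar K0 (N * q) q (w y) ∈ s36_gc_V κ A (N * q * q) Θ := by
  rw [s36_gc_mem_V, s36_gb_theta_beta hΘ hq hζq w hw (w y), hww y]
  exact s36_gb_twist_mem ζ _ (s36_gb_coeffMap_mem A0 hA0 _ hy)

/-- **The hypothesis `hαC` of `s36_ncm_model`**: `α (Gauss ring of level N q) ⊆ V_C`. -/
theorem s36_gb_hαC (hΘ : s36_gc_IsCusp N q ζ Θ)
    (A0 : ValuationSubring K0) (hA0 : ∀ a ∈ A0, κ a ∈ A) :
    ∀ y ∈ s34_gi_V A0 (N * q),
      (heckeAlphaBar K0 (N * q) q).toRingHom y ∈ s36_gc_V κ A (N * q * q) Θ := by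
  intro y hy
  exact s36_gc_low_mem hΘ A0 hA0 (heckeAlphaBar K0 (N * q) q y) y (coe_heckeAlphaBar _ _ y) hy

/-- **The hypothesis `hβC` of `s36_ncm_model`**: `W (α (Gauss ring of level N q)) ⊆ V_C`, for
any `W` with `W ∘ α = β ∘ w`. -/
theorem s36_gb_hβC (hΘ : s36_gc_IsCusp N q ζ Θ) (hq : q.Prime) (hζq : ζ ^ q = 1)
    (w : laurentBaseChange K0 (modularFunctionFieldFull (N * q)) ≃ₐ[K0]
      laurentBaseChange K0 (modularFunctionFieldFull (N * q)))
    (hw : ∀ (d m : ℕ) (_ : d ∣ N) (_ : m ∣ q)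
      (h1 : s34_sw_s K0 (d * m) ∈ laurentBaseChange K0 (modularFunctionFieldFull (N * q))),
      ((w ⟨s34_sw_s K0 (d * m), h1⟩ :
        laurentBaseChange K0 (modularFunctionFieldFull (N * q))) : LaurentSeries K0) =
        s34_sw_s K0 (d * (q / m)))
    (hww : ∀ x, w (w x) = x)
    (W : laurentBaseChange K0 (modularFunctionFieldFull (N * q * q)) ≃ₐ[K0]
      laurentBaseChange K0 (modularFunctionFieldFull (N * q * q)))
    (hrel : ∀ y : laurentBaseChange K0 (modularFunctionFieldFull (N * q)),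
      W (heckeAlphaBar K0 (N * q) q y) = heckeBetaBar K0 (N * q) q (w y))
    (A0 : ValuationSubring K0) (hA0 : ∀ a ∈ A0, κ a ∈ A) :
    ∀ y ∈ s34_gi_V A0 (N * q),
      W ((heckeAlphaBar K0 (N * q) q).toRingHom y) ∈ s36_gc_V κ A (N * q * q) Θ := by
  intro y hy
  show W (heckeAlphaBar K0 (N * q) q y) ∈ s36_gc_V κ A (N * q * q) Θ
  rw [hrel]
  exact s36_gb_beta_mem hΘ hq hζq w hw hww A0 hA0 y hy

end Beta

end Fermat.Agent.S36
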