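import Fermat.Agent.S36.GaussInst
import Fermat.Agent.S36.SwapRel
import Fermat.Agent.S37.EsTwist

/-!
# S36 (NODE-3), leaf (GW): the swap and the third valuation ring `V_C`

In the setting of `S36/GaussC.lean` (`K₀ ⊆ K`, `A` a valuation subring of `K`, `ζ ∈ Aˣ` with
`ζ^q = 1`, `Θ : K · F(N q²) → K((Q))` the embedding at the cusp `1/q`), let `W` be a ring
endomorphism of `K₀ · F(N q²)` which fixes the constants and acts on the generators by
`j(Q^(d m)) ↦ j(Q^(d q²/m))` (`d ∣ N`, `m ∣ q²`).  Then on functions of level `N q`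

  `Θ (W x) = x(ζ Q)`   (`s36_gw_theta_swap`),

hence `W` maps the Gauss ring at infinity of level `N q` into `V_C` (`s36_gw_swap_low_mem`).

* `s36_gw_struct` : the concrete data behind `s36_gu_main` (`A`, `ζ`, `Θ`);
* `s36_gw_main` : the bundle of `s36_gu_main` together with the swap clause.
-/

set_option autoImplicit false
set_option linter.style.haveILetI false
set_option linter.unusedSectionVars false
set_option synthInstance.maxHeartbeats 400000

open ModularCurve

noncomputable section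

namespace Fermat.Agent.S36

open Fermat.Agent.S28 (twistQ)
open Fermat.Agent.S18 Fermat.Agent.S34 Fermat.Agent.S24 Fermat.Agent.S37

section Twist

/-- `twistQ` is the ring homomorphism `s37_ec_twist`. -/
theorem s36_gw_twistQ_eq {R : Type*} [CommRing R] (c : Rˣ) (s : LaurentSeries R) :
    twistQ c s = s37_ec_twist c s := by
  ext n
  rfl

variable {K : Type*} [Field K] {A : ValuationSubring K}

/-- The coefficientwise Gauss ring of `A` is stable under the twist by a unit of `A`. -/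
theorem s36_gw_twist_mem (ζ : Aˣ) {x : LaurentSeries K}
    (hx : x ∈ s18_W A.subtype (IsLocalRing.residue A)) :
    s37_ec_twist (Units.map (A.subtype : A →* K) ζ) x ∈
      s18_W A.subtype (IsLocalRing.residue A) := by
  obtain ⟨s, y, hs, h⟩ := hx
  refine ⟨s37_ec_twist ζ s, s37_ec_twist ζ y, ?_, ?_⟩
  · rw [s37_ec_coeffMap_twist]
    intro h0
    exact hs ((map_eq_zero _).mp h0)
  · rw [s37_ec_coeffMap_twist, s37_ec_coeffMap_twist, ← map_mul]
    exact congrArg _ h

end Twist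

section Gauss

variable {K0 K : Type*} [Field K0] [Field K] [Algebra ℚ K0] [Algebra ℚ K]
  {κ : K0 →+* K} {A : ValuationSubring K} {M : ℕ}
  {Θ : laurentBaseChange K (modularFunctionFieldFull M) →ₐ[K] LaurentSeries K}
  {N q : ℕ} {ζ : Aˣ}

/-- `K₀ · F(N q) ≤ K₀ · F(N q²)`. -/
theorem s36_gw_low_le (K0 : Type*) [Field K0] [Algebra ℚ K0] (N q : ℕ) [NeZero N]
    (hq : q.Prime) :
    laurentBaseChange K0 (modularFunctionFieldFull (N * q)) ≤
      laurentBaseChange K0 (modularFunctionFieldFull (N * q ^ 2)) := by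
  haveI : NeZero (N * q) := ⟨Nat.mul_ne_zero (NeZero.ne N) hq.ne_zero⟩
  haveI : NeZero (N * q ^ 2) := ⟨Nat.mul_ne_zero (NeZero.ne N) (pow_ne_zero 2 hq.ne_zero)⟩
  apply IntermediateField.adjoin.mono
  exact Set.image_mono (full_degeneracy_le ⟨q, by ring⟩)

/-- The image under extension of constants of an element with `q`-expansion `j(Q^e)`. -/
theorem s36_gw_incl_s (u : laurentBaseChange K0 (modularFunctionFieldFull M)) (e : ℕ)
    (hu : (u : LaurentSeries K0) = s34_sw_s K0 e)
    (h : s34_sw_s K e ∈ laurentBaseChange K (modularFunctionFieldFull M)) :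
    s36_gc_incl κ M u = ⟨s34_sw_s K e, h⟩ := by
  apply Subtype.ext
  rw [s36_gc_incl_coe, hu, s36_gc_coeffMap_s]

/-- **`Θ ∘ W = twist_ζ` on functions of level `N q`.** -/
theorem s36_gw_theta_swap (hΘ : s36_gc_IsCusp N q ζ Θ) [NeZero N] (hq : q.Prime)
    (hM : M = N * q ^ 2) (hζq : (ζ : A) ^ q = 1)
    (W : laurentBaseChange K0 (modularFunctionFieldFull M) →+*
      laurentBaseChange K0 (modularFunctionFieldFull M))
    (hWc : ∀ c : K0, W (algebraMap K0 _ c) = algebraMap K0 _ c)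
    (hW : ∀ (d m : ℕ) (_ : d ∣ N) (_ : m ∣ q ^ 2)
      (h1 : s34_sw_s K0 (d * m) ∈ laurentBaseChange K0 (modularFunctionFieldFull M)),
      ((W ⟨s34_sw_s K0 (d * m), h1⟩ : laurentBaseChange K0 (modularFunctionFieldFull M)) :
        LaurentSeries K0) = s34_sw_s K0 (d * (q ^ 2 / m)))
    (x : laurentBaseChange K0 (modularFunctionFieldFull M))
    (x' : laurentBaseChange K0 (modularFunctionFieldFull (N * q)))
    (hxx' : (x : LaurentSeries K0) = (x' : LaurentSeries K0)) :
    Θ (s36_gc_incl κ M (W x)) =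
      s37_ec_twist (Units.map (A.subtype : A →* K) ζ) (coeffMap κ (x' : LaurentSeries K0)) := by
  subst hM
  have hq0 := hq.ne_zero
  haveI : NeZero q := ⟨hq0⟩
  haveI : NeZero (N * q) := ⟨Nat.mul_ne_zero (NeZero.ne N) hq0⟩
  haveI : NeZero (N * q ^ 2) := ⟨Nat.mul_ne_zero (NeZero.ne N) (pow_ne_zero 2 hq0)⟩
  have hle := s36_gw_low_le K0 N q hq
  have hζq' : Units.map (A.subtype : A →* K) ζ ^ q = 1 := by
    apply Units.ext
    rw [Units.val_pow_eq_pow_val]
    show ((ζ : A) : K) ^ q = 1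
    have := congrArg (A.subtype : A → K) hζq
    simpa using this
  let incl₀ : laurentBaseChange K0 (modularFunctionFieldFull (N * q)) →+*
      laurentBaseChange K0 (modularFunctionFieldFull (N * q ^ 2)) :=
    (IntermediateField.inclusion hle : _ →ₐ[K0] _)
  have hincl₀ : ∀ y, ((incl₀ y : laurentBaseChange K0 (modularFunctionFieldFull (N * q ^ 2))) :
      LaurentSeries K0) = (y : LaurentSeries K0) := fun y => IntermediateField.coe_inclusion hle y
  let Φ₁ : laurentBaseChange K0 (modularFunctionFieldFull (N * q)) →+* LaurentSeries K :=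
    ((Θ : laurentBaseChange K (modularFunctionFieldFull (N * q ^ 2)) →+* LaurentSeries K).comp
      (s36_gc_incl κ (N * q ^ 2))).comp (W.comp incl₀)
  let Φ₂ : laurentBaseChange K0 (modularFunctionFieldFull (N * q)) →+* LaurentSeries K :=
    (s37_ec_twist (Units.map (A.subtype : A →* K) ζ)).comp ((coeffMap κ).comp
      ((laurentBaseChange K0 (modularFunctionFieldFull (N * q))).val :
        laurentBaseChange K0 (modularFunctionFieldFull (N * q)) →+* LaurentSeries K0))
  have key : Φ₁ = Φ₂ := by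
    apply s34_sw_ringHom_ext (N * q)
    · intro c
      show Θ (s36_gc_incl κ (N * q ^ 2) (W (incl₀ (algebraMap K0 _ c)))) =
        s37_ec_twist (Units.map (A.subtype : A →* K) ζ)
          (coeffMap κ (algebraMap K0 (LaurentSeries K0) c))
      have e1 : incl₀ (algebraMap K0 _ c) = algebraMap K0 _ c :=
        AlgHom.commutes (IntermediateField.inclusion hle) c
      rw [e1, hWc, s36_gc_incl_algebraMap, AlgHom.commutes, algebraMap_laurentSeries_eq_single,
        algebraMap_laurentSeries_eq_single, coeffMap_single, ← HahnSeries.C_apply,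
        s37_ec_twist_C]
    · intro e _ he
      obtain ⟨d, m, hd, hm, rfl⟩ := (Nat.dvd_mul).mp he
      have hd0 : d ≠ 0 := fun h => NeZero.ne N (by rw [h] at hd; exact zero_dvd_iff.mp hd)
      haveI : NeZero d := ⟨hd0⟩
      have hs : s34_sw_s K0 (d * m) = coeffEmb K0 (qExpand ℚ (d * m) jq) :=
        s34_sw_s_eq K0 (d * m)
      have hmem2 : s34_sw_s K0 (d * m) ∈
          laurentBaseChange K0 (modularFunctionFieldFull (N * q ^ 2)) := by
        rw [hs]
        exact s34_sw_s_mem K0 (N * q ^ 2) (d * m) (he.trans ⟨q, by ring⟩)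
      have e1 : incl₀ ⟨coeffEmb K0 (qExpand ℚ (d * m) jq), s34_sw_s_mem K0 (N * q) (d * m) he⟩ =
          ⟨s34_sw_s K0 (d * m), hmem2⟩ := by
        apply Subtype.ext
        rw [hincl₀]
        exact hs.symm
      show Θ (s36_gc_incl κ (N * q ^ 2) (W (incl₀ _))) =
        s37_ec_twist (Units.map (A.subtype : A →* K) ζ)
          (coeffMap κ (coeffEmb K0 (qExpand ℚ (d * m) jq)))
      rw [e1, ← hs, s36_gc_coeffMap_s]
      have hWdm := hW d m hd (hm.trans (Dvd.intro_left q (by ring))) hmem2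
      rcases (Nat.dvd_prime hq).mp hm with rfl | rfl
      · -- `m = 1`: `W (j(Q^d)) = j(Q^(d q²))`, `Θ` of which is the twist of `j(Q^d)`
        rw [Nat.div_one] at hWdm
        have hmemK : s34_sw_s K (d * q ^ 2) ∈
            laurentBaseChange K (modularFunctionFieldFull (N * q ^ 2)) := by
          haveI : NeZero (d * q ^ 2) := ⟨Nat.mul_ne_zero hd0 (pow_ne_zero 2 hq0)⟩
          rw [s34_sw_s_eq]
          exact s34_sw_s_mem K (N * q ^ 2) (d * q ^ 2) (Nat.mul_dvd_mul_right hd _)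
        rw [s36_gw_incl_s (κ := κ) _ (d * q ^ 2) hWdm hmemK, hΘ.1 d (q ^ 2) hd dvd_rfl hmemK,
          if_pos rfl, s36_gw_twistQ_eq, mul_one]
      · -- `m = q`: `W (j(Q^(d q))) = j(Q^(d q))`, fixed by `Θ` and by the twist
        have hqq : m ^ 2 / m = m := by
          rw [pow_two]
          exact Nat.mul_div_cancel _ hq.pos
        rw [hqq] at hWdm
        have hlow : ((W ⟨s34_sw_s K0 (d * m), hmem2⟩ :
            laurentBaseChange K0 (modularFunctionFieldFull (N * m ^ 2))) : LaurentSeries K0) ∈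
            laurentBaseChange K0 (modularFunctionFieldFull (N * m)) := by
          rw [hWdm, hs]
          exact s34_sw_s_mem K0 (N * m) (d * m) he
        rw [s36_gc_theta_low hΘ _ hlow, hWdm, s36_gc_coeffMap_s, s36_sr_s_mul d m,
          s37_ec_twist_qExpand _ m hζq']
  have h1 := DFunLike.congr_fun key x'
  have e2 : incl₀ x' = x := by
    apply Subtype.ext
    rw [hincl₀]
    exact hxx'.symm
  have h2 : Φ₁ x' = Θ (s36_gc_incl κ (N * q ^ 2) (W (incl₀ x'))) := rfl
  rw [h2, e2] at h1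
  exact h1

/-- **`W` maps the Gauss ring at infinity of level `N q` into `V_C`.** -/
theorem s36_gw_swap_low_mem (hΘ : s36_gc_IsCusp N q ζ Θ) [NeZero N] (hq : q.Prime)
    (hM : M = N * q ^ 2) (hζq : (ζ : A) ^ q = 1)
    (A0 : ValuationSubring K0) (hA0 : ∀ a ∈ A0, κ a ∈ A)
    (W : laurentBaseChange K0 (modularFunctionFieldFull M) →+*
      laurentBaseChange K0 (modularFunctionFieldFull M))
    (hWc : ∀ c : K0, W (algebraMap K0 _ c) = algebraMap K0 _ c)
    (hW : ∀ (d m : ℕ) (_ : d ∣ N) (_ : m ∣ q ^ 2)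
      (h1 : s34_sw_s K0 (d * m) ∈ laurentBaseChange K0 (modularFunctionFieldFull M)),
      ((W ⟨s34_sw_s K0 (d * m), h1⟩ : laurentBaseChange K0 (modularFunctionFieldFull M)) :
        LaurentSeries K0) = s34_sw_s K0 (d * (q ^ 2 / m)))
    (x : laurentBaseChange K0 (modularFunctionFieldFull M))
    (x' : laurentBaseChange K0 (modularFunctionFieldFull (N * q)))
    (hxx' : (x : LaurentSeries K0) = (x' : LaurentSeries K0))
    (hx' : x' ∈ s34_gi_V A0 (N * q)) : W x ∈ s36_gc_V κ A M Θ := by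
  rw [s36_gc_mem_V, s36_gw_theta_swap hΘ hq hM hζq W hWc hW x x' hxx']
  apply s36_gw_twist_mem
  have h1 := s36_gc_low_mem hΘ A0 hA0 x x' hxx' hx'
  rw [s36_gc_mem_V, s36_gc_theta_low hΘ x (by rw [hxx']; exact x'.2), hxx'] at h1
  exact h1

end Gauss

/-! ### The concrete data -/

section Inst

/-- **Abstract set-up** (the data behind `s36_gu_main_aux`): `K₀ ⊆ K ⊆ Q̄` (`κ`, `ι`), `P` a
valuation ring of `Q̄` over `q`, `q` a uniformizer of `P ∩ K₀`, `ζ ∈ K` the primitive `q`-th root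
of unity `e^{2πi a/q}` (`a N ≡ 1 mod q`), `K = K₀[ζ]`.  Then `ζ` is a unit of `A = P ∩ K`,
`ζ - 1` is a uniformizer of `A` and there is an embedding `Θ` at the cusp `1/q`. -/
theorem s36_gw_setup {K0 K : Type*} [Field K0] [Field K] [Algebra ℚ K0] [Algebra ℚ K]
    (κ : K0 →+* K) (ι : K →+* Kbar) (P : ValuationSubring Kbar)
    (N q M : ℕ) [NeZero N] (hq : q.Prime) (hM : M = N * q ^ 2) (hP : P.LiesOverPrime q)
    (a e : ℤ) (hae : a * N + e * q = 1) (ζ : Kˣ)
    (hζ : iotaK (ι (ζ : K)) =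
      Fermat.Agent.S28.zetaN (N * q ^ 2) ^ (a * ((N * q ^ 2 / q : ℕ) : ℤ)))
    (hζprim : IsPrimitiveRoot (ζ : K) q)
    (hunif : ∀ b : K0, b ≠ 0 → ∃ m : ℤ, P.valuation (ι (κ b)) = P.valuation (q : Kbar) ^ m)
    (hspan : ∀ x : K, ∃ (d : ℕ) (b : ℕ → K0), d ≤ q - 1 ∧
      x = ∑ i ∈ Finset.range d, κ (b i) * ((ζ : K) - 1) ^ i) :
    ∃ (ζA : (P.comap ι)ˣ)
      (Θ : laurentBaseChange K (modularFunctionFieldFull M) →ₐ[K] LaurentSeries K),
      (((ζA : P.comap ι) : K) = (ζ : K)) ∧ IsPrimitiveRoot (ζA : P.comap ι) q ∧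
      s36_gc_IsCusp N q ζA Θ ∧ s36_gc_IsUnif (A := P.comap ι) ζA := by
  subst hM
  -- the valuation ring of `K`
  set A : ValuationSubring K := P.comap ι with hA
  have hmemA : ∀ x : K, x ∈ A ↔ ι x ∈ P := fun x => ValuationSubring.mem_comap
  -- `ζ` as a unit of `A`
  have hζq : (ζ : K) ^ q = 1 := hζprim.pow_eq_one
  have hζinvq : ((ζ⁻¹ : Kˣ) : K) ^ q = 1 := by
    have hζq' : ζ ^ q = 1 := Units.ext (by rw [Units.val_pow_eq_pow_val]; exact hζq)
    rw [← Units.val_pow_eq_pow_val, inv_pow, hζq', inv_one]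
    rfl
  have h1 : (ζ : K) ∈ A := s36_gu_mem_of_pow_eq_one A _ q hq.ne_zero hζq
  have h2 : ((ζ⁻¹ : Kˣ) : K) ∈ A := s36_gu_mem_of_pow_eq_one A _ q hq.ne_zero hζinvq
  let ζA : Aˣ := ⟨⟨(ζ : K), h1⟩, ⟨((ζ⁻¹ : Kˣ) : K), h2⟩, Subtype.ext (Units.mul_inv ζ),
    Subtype.ext (Units.inv_mul ζ)⟩
  have hζA : Units.map (A.subtype : A →* K) ζA = ζ := Units.ext rfl
  have hprimA : IsPrimitiveRoot (ζA : A) q :=
    IsPrimitiveRoot.of_map_of_injective (f := A.subtype) hζprim Subtype.val_injective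
  -- the embedding at the cusp
  obtain ⟨Θ, hΘ⟩ := s36_ce_theta ι N q hq a e hae ζ hζ
  have hcusp : s36_gc_IsCusp N q ζA Θ := by
    refine ⟨fun d m hd hm hmem => ?_, fun x hx hmem => s36_ce_theta_low N q hq ζ Θ hΘ x hx hmem⟩
    rw [hζA]
    exact hΘ d m hd hm hmem
  -- `q` is not a unit of `A`
  have hqA : IsLocalRing.residue A (q : A) = 0 := by
    rw [IsLocalRing.residue_eq_zero_iff]
    by_contra hnot
    have hu : IsUnit (q : A) := IsLocalRing.notMem_maximalIdeal.mp hnot
    obtain ⟨w, hw⟩ := hu.exists_right_inv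
    have h3 : (q : Kbar) * ι (w : K) = 1 := by
      have h4 : ((q : A) : K) * (w : K) = 1 := congrArg Subtype.val hw
      have h5 := congrArg ι h4
      rw [map_mul, map_one] at h5
      rw [← h5]
      congr 1
      simp
    have h5 : ι (w : K) ∈ P := (hmemA _).mp w.2
    have h6 : P.valuation (q : Kbar) < 1 := (ValuationSubring.mem_nonunits_iff _).mp hP
    have h7 : P.valuation (ι (w : K)) ≤ 1 := (P.valuation_le_one_iff _).mpr h5
    have h8 : P.valuation (q : Kbar) * P.valuation (ι (w : K)) = 1 := by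
      rw [← map_mul, h3, map_one]
    have h9 : P.valuation (q : Kbar) * P.valuation (ι (w : K)) < 1 :=
      lt_of_le_of_lt (mul_le_of_le_one_right' h7) h6
    rw [h8] at h9
    exact lt_irrefl _ h9
  -- valuations of `K₀`
  have hK0 : ∀ b : K0, b ≠ 0 → ∃ m : ℤ, A.valuation (κ b) = A.valuation (q : K) ^ m := by
    intro b hb
    obtain ⟨m, hm⟩ := hunif b hb
    refine ⟨m, ?_⟩
    have hq0 : (q : K) ≠ 0 := by
      intro h0
      have h3 : (q : Kbar) = 0 := by
        have := congrArg ι h0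
        simpa using this
      exact hq.ne_zero (by exact_mod_cast h3)
    have h3 : A.valuation (κ b * ((q : K) ^ m)⁻¹) = 1 := by
      apply s36_gu_val_comap
      rw [map_mul, map_inv₀, map_zpow₀, map_natCast, map_mul, map_inv₀, map_zpow₀, hm]
      have hq0' : P.valuation (q : Kbar) ≠ 0 := by
        rw [Ne, map_eq_zero]
        exact_mod_cast hq.ne_zero
      exact mul_inv_cancel₀ (zpow_ne_zero _ hq0')
    have h4 : κ b = κ b * ((q : K) ^ m)⁻¹ * (q : K) ^ m := by
      rw [mul_assoc, inv_mul_cancel₀ (zpow_ne_zero _ hq0), mul_one]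
    rw [h4, map_mul, h3, one_mul, map_zpow₀]
  have hunifA : s36_gc_IsUnif ζA := s36_gu_isUnif κ A q hq ζA hprimA hqA hK0 hspan
  exact ⟨ζA, Θ, rfl, hprimA, hcusp, hunifA⟩

/-- **The concrete data of `V_C`.**  `P` a valuation ring of `Q̄` over `q`, `K₀ ⊆ Q̄` a field all
of whose nonzero elements have `P`-valuation in `v(q)^ℤ`, `q ∤ N`, `M = N q²`.  There are a
primitive `q`-th root of unity `ζ₁ ∈ Q̄`, and for `K = K₀(ζ₁ - 1)`, `A = P ∩ K`: a unit `ζ` of `A`
with image `ζ₁`, and an embedding `Θ : K · F(M) → K((Q))` at the cusp `1/q`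
(`s36_gc_IsCusp`) such that `ζ - 1` is a uniformizer of `A` (`s36_gc_IsUnif`).  All the results
of `S36/GaussC.lean` apply to `V_C = s36_gc_V (algebraMap K₀ K) A M Θ`. -/
theorem s36_gw_struct (P : ValuationSubring Kbar) (K0 : IntermediateField ℚ Kbar) (N q M : ℕ)
    [NeZero N] (hq : q.Prime) (hqN : ¬ q ∣ N) (hM : M = N * q ^ 2) (hP : P.LiesOverPrime q)
    (hunif : ∀ b : K0, b ≠ 0 → ∃ m : ℤ, P.valuation (b : Kbar) = P.valuation (q : Kbar) ^ m) :
    ∃ (ζ₁ : Kbar)
      (ζA : (P.comap (algebraMap (IntermediateField.adjoin K0 ({ζ₁ - 1} : Set Kbar)) Kbar))ˣ)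
      (Θ : laurentBaseChange (IntermediateField.adjoin K0 ({ζ₁ - 1} : Set Kbar))
          (modularFunctionFieldFull M) →ₐ[IntermediateField.adjoin K0 ({ζ₁ - 1} : Set Kbar)]
        LaurentSeries (IntermediateField.adjoin K0 ({ζ₁ - 1} : Set Kbar))),
      IsPrimitiveRoot ζ₁ q ∧
      ((((ζA : P.comap (algebraMap (IntermediateField.adjoin K0 ({ζ₁ - 1} : Set Kbar)) Kbar)) :
        IntermediateField.adjoin K0 ({ζ₁ - 1} : Set Kbar)) : Kbar) = ζ₁) ∧
      IsPrimitiveRoot
        (ζA : P.comap (algebraMap (IntermediateField.adjoin K0 ({ζ₁ - 1} : Set Kbar)) Kbar)) q ∧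
      s36_gc_IsCusp N q ζA Θ ∧
      s36_gc_IsUnif
        (A := P.comap (algebraMap (IntermediateField.adjoin K0 ({ζ₁ - 1} : Set Kbar)) Kbar))
        ζA := by
  obtain ⟨a, e, ζ₁, hae, hζ₁, hζ₁c⟩ := s36_gu_root N q hq hqN
  have hint : IsIntegral K0 (ζ₁ - 1) :=
    (s18_d1_qbar_isAlgebraic.isAlgebraic (ζ₁ - 1)).isIntegral.tower_top
  have hlam : ζ₁ - 1 ∈ IntermediateField.adjoin K0 ({ζ₁ - 1} : Set Kbar) :=
    IntermediateField.mem_adjoin_simple_self K0 _
  have hζmem : ζ₁ ∈ IntermediateField.adjoin K0 ({ζ₁ - 1} : Set Kbar) := by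
    have := add_mem hlam (one_mem _)
    rwa [sub_add_cancel] at this
  have hζ0 : ζ₁ ≠ 0 := hζ₁.ne_zero hq.ne_zero
  obtain ⟨ζA, Θ, h1, h2, h3, h4⟩ :=
    s36_gw_setup (K := IntermediateField.adjoin K0 ({ζ₁ - 1} : Set Kbar))
    (algebraMap K0 (IntermediateField.adjoin K0 ({ζ₁ - 1} : Set Kbar)))
    (algebraMap (IntermediateField.adjoin K0 ({ζ₁ - 1} : Set Kbar)) Kbar) P
    N q M hq hM hP a e hae
    (Units.mk0 ⟨ζ₁, hζmem⟩ (fun h => hζ0 (congrArg Subtype.val h))) hζ₁c
    (IsPrimitiveRoot.of_map_of_injective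
      (f := algebraMap (IntermediateField.adjoin K0 ({ζ₁ - 1} : Set Kbar)) Kbar) hζ₁
      (algebraMap (IntermediateField.adjoin K0 ({ζ₁ - 1} : Set Kbar)) Kbar).injective)
    (fun b hb => hunif b hb) (by
      intro x
      obtain ⟨f, hf, hx⟩ := (IntermediateField.adjoin.powerBasis hint).exists_eq_aeval x
      refine ⟨(IntermediateField.adjoin.powerBasis hint).dim, fun i => f.coeff i, ?_, ?_⟩
      · rw [IntermediateField.adjoin.powerBasis_dim]
        have hmonic : ((Polynomial.cyclotomic q K0).comp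
            (Polynomial.X + Polynomial.C (1 : K0))).Monic :=
          (Polynomial.cyclotomic.monic q K0).comp (Polynomial.monic_X_add_C 1)
            (by rw [Polynomial.natDegree_X_add_C]; exact one_ne_zero)
        have hroot : Polynomial.aeval (ζ₁ - 1) ((Polynomial.cyclotomic q K0).comp
            (Polynomial.X + Polynomial.C (1 : K0))) = 0 := by
          rw [Polynomial.aeval_comp]
          have e1 : Polynomial.aeval (ζ₁ - 1) (Polynomial.X + Polynomial.C (1 : K0)) = ζ₁ := by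
            simp
          rw [e1, Polynomial.aeval_def, Polynomial.eval₂_eq_eval_map, Polynomial.map_cyclotomic]
          exact hζ₁.isRoot_cyclotomic hq.pos
        have h1 := Polynomial.natDegree_le_natDegree (minpoly.min K0 (ζ₁ - 1) hmonic hroot)
        rw [Polynomial.natDegree_comp, Polynomial.natDegree_cyclotomic,
          Polynomial.natDegree_X_add_C, mul_one, Nat.totient_prime hq] at h1
        exact h1
      · rw [hx, Polynomial.aeval_eq_sum_range' hf]
        refine Finset.sum_congr rfl (fun i _ => ?_)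
        rw [Algebra.smul_def]
        congr 1)
  exact ⟨ζ₁, ζA, Θ, hζ₁, congrArg Subtype.val h1, h2, h3, h4⟩

/-- **(c-C) with the swap clause.**  The bundle of `s36_gu_main`, together with: every ring
endomorphism `W` of `K₀ · F(M)` which fixes the constants and acts on the generators by
`j(Q^(d m)) ↦ j(Q^(d q²/m))` (`d ∣ N`, `m ∣ q²`) maps the Gauss ring at infinity of level `N q`
(inside `K₀ · F(M)`) into `V_C`. -/
theorem s36_gw_main (P : ValuationSubring Kbar) (K0 : IntermediateField ℚ Kbar) (N q M : ℕ)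
    [NeZero N] (hq : q.Prime) (hqN : ¬ q ∣ N) (hM : M = N * q ^ 2) (hP : P.LiesOverPrime q)
    (hunif : ∀ b : K0, b ≠ 0 → ∃ m : ℤ, P.valuation (b : Kbar) = P.valuation (q : Kbar) ^ m)
    (hqM : q ^ 2 ∣ M) :
    ∃ V : Subring (laurentBaseChange K0 (modularFunctionFieldFull M)),
      s34_Unif (s36_gc_z K0 q M hq hqM) V ∧
      algebraMap K0 (laurentBaseChange K0 (modularFunctionFieldFull M)) (q : K0) *
        (s36_gc_z K0 q M hq hqM ^ (q - 1))⁻¹ ∈ V ∧
      s36_gc_z K0 q M hq hqM ^ (q - 1) *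
        (algebraMap K0 (laurentBaseChange K0 (modularFunctionFieldFull M)) (q : K0))⁻¹ ∈ V ∧
      (∀ b ∈ s18_A1 P K0,
        algebraMap K0 (laurentBaseChange K0 (modularFunctionFieldFull M)) b ∈ V) ∧
      (∀ (x : laurentBaseChange K0 (modularFunctionFieldFull M))
        (x' : laurentBaseChange K0 (modularFunctionFieldFull (N * q))),
        (x : LaurentSeries K0) = (x' : LaurentSeries K0) →
          x' ∈ s34_gi_V (s18_A1 P K0) (N * q) → x ∈ V) ∧
      (∀ (W : laurentBaseChange K0 (modularFunctionFieldFull M) →+*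
          laurentBaseChange K0 (modularFunctionFieldFull M)),
        (∀ c : K0, W (algebraMap K0 _ c) = algebraMap K0 _ c) →
        (∀ (d m : ℕ) (_ : d ∣ N) (_ : m ∣ q ^ 2)
          (h1 : s34_sw_s K0 (d * m) ∈ laurentBaseChange K0 (modularFunctionFieldFull M)),
          ((W ⟨s34_sw_s K0 (d * m), h1⟩ : laurentBaseChange K0 (modularFunctionFieldFull M)) :
            LaurentSeries K0) = s34_sw_s K0 (d * (q ^ 2 / m))) →
        ∀ (x : laurentBaseChange K0 (modularFunctionFieldFull M))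
          (x' : laurentBaseChange K0 (modularFunctionFieldFull (N * q))),
          (x : LaurentSeries K0) = (x' : LaurentSeries K0) →
            x' ∈ s34_gi_V (s18_A1 P K0) (N * q) → W x ∈ V) := by
  obtain ⟨ζ₁, ζA, Θ, hζ₁, hζA, hprim, hcusp, hunifA⟩ :=
    s36_gw_struct P K0 N q M hq hqN hM hP hunif
  obtain ⟨c, hcu, hc⟩ := s36_gu_q_eq q hq _ hprim
  have hA0 : ∀ b ∈ s18_A1 P K0,
      algebraMap K0 (IntermediateField.adjoin K0 ({ζ₁ - 1} : Set Kbar)) b ∈
        P.comap (algebraMap (IntermediateField.adjoin K0 ({ζ₁ - 1} : Set Kbar)) Kbar) :=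
    fun b hb => hb
  refine ⟨s36_gc_V (algebraMap K0 (IntermediateField.adjoin K0 ({ζ₁ - 1} : Set Kbar)))
      (P.comap (algebraMap (IntermediateField.adjoin K0 ({ζ₁ - 1} : Set Kbar)) Kbar)) M Θ,
    s36_gc_unif hcusp hq hM hunifA _ rfl,
    s36_gc_q_div hcusp hq hqM hunifA.1 c hc _ rfl,
    s36_gc_zpow_div_q hcusp hq hqM hunifA.1 c hc hcu _ rfl, ?_, ?_, ?_⟩
  · intro b hb
    exact s36_gc_const_mem b (hA0 b hb)
  · intro x x' hxx' hx'
    exact s36_gc_low_mem hcusp (s18_A1 P K0) hA0 x x' hxx' hx'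
  · intro W hWc hW x x' hxx' hx'
    exact s36_gw_swap_low_mem hcusp hq hM hprim.pow_eq_one (s18_A1 P K0) hA0 W hWc hW x x'
      hxx' hx'

end Inst

end Fermat.Agent.S36
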