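import Fermat.Agent.S36.GaussSwap

/-!
# S36 (NODE-3), leaf (GW), level `N₁ q q`: the ring `V_C` as a definition

`s36_gw_VC P K₀ N₁ q hq hqN hP hunif` is the third valuation ring of `K₀ · F(N₁ q q)`
(`s36_gw_struct` at the level expression `N₁ * q * q`), with its properties as separate lemmas:

* `s36_gw_VC_unif` : `z_C = j(Q^(q²)) - j(Q)` is a uniformizer;
* `s36_gw_VC_q_div`, `s36_gw_VC_zpow_div_q`, `s36_gw_VC_q_mem` : `q = unit · z_C^(q-1)`;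
* `s36_gw_VC_const` : `P ∩ K₀ ⊆ V_C`;
* `s36_gw_VC_alpha` : `α (V'_∞) ⊆ V_C`;
* `s36_gw_VC_swap_alpha` : `W (α (V'_∞)) ⊆ V_C` for the swaps `W` of the pair `(N₁, q q)`;
* `s36_gw_VC_beta` : `β (w (V'_∞)) ⊆ V_C` for the swaps `w` of the pair `(N₁, q)`;
* `s36_gw_swap_z_qq`, `s36_gw_VC_hne` : `W z_C = - z_C`, `W z_C⁻¹ ∈ V_A`, `z_C⁻¹ ∉ V_C`;
* `s36_gw_VC_chart_le`, `s36_gw_VC_coord_mem`, `s36_gw_VC_coord_inv_mem` : charts.
-/

set_option autoImplicit false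
set_option linter.style.haveILetI false
set_option linter.unusedSectionVars false
set_option synthInstance.maxHeartbeats 400000
set_option maxHeartbeats 1000000

open ModularCurve

noncomputable section

namespace Fermat.Agent.S36

open Fermat.Agent.S28 (twistQ)
open Fermat.Agent.S18 Fermat.Agent.S34 Fermat.Agent.S24 Fermat.Agent.S37

section Inst

theorem s36_gw_hM (N₁ q : ℕ) : N₁ * q * q = N₁ * q ^ 2 := by ring

theorem s36_gw_hqM (N₁ q : ℕ) : q ^ 2 ∣ N₁ * q * q := ⟨N₁, by ring⟩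

/-- The data of `V_C` at the level `N₁ q q`. -/
theorem s36_gw_exists (P : ValuationSubring Kbar) (K0 : IntermediateField ℚ Kbar) (N₁ q : ℕ)
    [NeZero N₁] (hq : q.Prime) (hqN : ¬ q ∣ N₁) (hP : P.LiesOverPrime q)
    (hunif : ∀ b : K0, b ≠ 0 → ∃ m : ℤ, P.valuation (b : Kbar) = P.valuation (q : Kbar) ^ m) :
    ∃ V : Subring (laurentBaseChange K0 (modularFunctionFieldFull (N₁ * q * q))),
    ∃ (ζ₁ : Kbar)
      (ζA : (P.comap (algebraMap (IntermediateField.adjoin K0 ({ζ₁ - 1} : Set Kbar)) Kbar))ˣ)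
      (Θ : laurentBaseChange (IntermediateField.adjoin K0 ({ζ₁ - 1} : Set Kbar))
          (modularFunctionFieldFull (N₁ * q * q)) →ₐ[IntermediateField.adjoin K0
            ({ζ₁ - 1} : Set Kbar)]
        LaurentSeries (IntermediateField.adjoin K0 ({ζ₁ - 1} : Set Kbar))),
      V = s36_gc_V (algebraMap K0 (IntermediateField.adjoin K0 ({ζ₁ - 1} : Set Kbar)))
        (P.comap (algebraMap (IntermediateField.adjoin K0 ({ζ₁ - 1} : Set Kbar)) Kbar))
        (N₁ * q * q) Θ ∧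
      IsPrimitiveRoot ζ₁ q ∧
      ((((ζA : P.comap (algebraMap (IntermediateField.adjoin K0 ({ζ₁ - 1} : Set Kbar)) Kbar)) :
        IntermediateField.adjoin K0 ({ζ₁ - 1} : Set Kbar)) : Kbar) = ζ₁) ∧
      IsPrimitiveRoot
        (ζA : P.comap (algebraMap (IntermediateField.adjoin K0 ({ζ₁ - 1} : Set Kbar)) Kbar)) q ∧
      s36_gc_IsCusp N₁ q ζA Θ ∧
      s36_gc_IsUnif
        (A := P.comap (algebraMap (IntermediateField.adjoin K0 ({ζ₁ - 1} : Set Kbar)) Kbar))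
        ζA := by
  obtain ⟨ζ₁, ζA, Θ, h⟩ :=
    s36_gw_struct P K0 N₁ q (N₁ * q * q) hq hqN (s36_gw_hM N₁ q) hP hunif
  exact ⟨_, ζ₁, ζA, Θ, rfl, h⟩

/-- **The third valuation ring `V_C` of `K₀ · F(N₁ q q)`** (the component of multiplicity
`q - 1`): `P` a valuation ring of `Q̄` over `q`, `K₀ ⊆ Q̄` a field whose nonzero elements have
`P`-valuation in `v(q)^ℤ`, `q ∤ N₁`. -/
def s36_gw_VC (P : ValuationSubring Kbar) (K0 : IntermediateField ℚ Kbar) (N₁ q : ℕ)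
    [NeZero N₁] (hq : q.Prime) (hqN : ¬ q ∣ N₁) (hP : P.LiesOverPrime q)
    (hunif : ∀ b : K0, b ≠ 0 → ∃ m : ℤ, P.valuation (b : Kbar) = P.valuation (q : Kbar) ^ m) :
    Subring (laurentBaseChange K0 (modularFunctionFieldFull (N₁ * q * q))) :=
  Classical.choose (s36_gw_exists P K0 N₁ q hq hqN hP hunif)

/-- The defining property of `s36_gw_VC`: it is the ring `s36_gc_V` of `S36/GaussC.lean` for
`K = K₀(ζ₁ - 1)`, `A = P ∩ K`, an embedding `Θ` at the cusp `1/q` and a primitive `q`-th root of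
unity `ζ ∈ Aˣ` with `ζ - 1` a uniformizer of `A`. -/
theorem s36_gw_VC_spec (P : ValuationSubring Kbar) (K0 : IntermediateField ℚ Kbar) (N₁ q : ℕ)
    [NeZero N₁] (hq : q.Prime) (hqN : ¬ q ∣ N₁) (hP : P.LiesOverPrime q)
    (hunif : ∀ b : K0, b ≠ 0 → ∃ m : ℤ, P.valuation (b : Kbar) = P.valuation (q : Kbar) ^ m) :
    ∃ (ζ₁ : Kbar)
      (ζA : (P.comap (algebraMap (IntermediateField.adjoin K0 ({ζ₁ - 1} : Set Kbar)) Kbar))ˣ)
      (Θ : laurentBaseChange (IntermediateField.adjoin K0 ({ζ₁ - 1} : Set Kbar))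
          (modularFunctionFieldFull (N₁ * q * q)) →ₐ[IntermediateField.adjoin K0
            ({ζ₁ - 1} : Set Kbar)]
        LaurentSeries (IntermediateField.adjoin K0 ({ζ₁ - 1} : Set Kbar))),
      s36_gw_VC P K0 N₁ q hq hqN hP hunif =
        s36_gc_V (algebraMap K0 (IntermediateField.adjoin K0 ({ζ₁ - 1} : Set Kbar)))
        (P.comap (algebraMap (IntermediateField.adjoin K0 ({ζ₁ - 1} : Set Kbar)) Kbar))
        (N₁ * q * q) Θ ∧
      IsPrimitiveRoot ζ₁ q ∧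
      ((((ζA : P.comap (algebraMap (IntermediateField.adjoin K0 ({ζ₁ - 1} : Set Kbar)) Kbar)) :
        IntermediateField.adjoin K0 ({ζ₁ - 1} : Set Kbar)) : Kbar) = ζ₁) ∧
      IsPrimitiveRoot
        (ζA : P.comap (algebraMap (IntermediateField.adjoin K0 ({ζ₁ - 1} : Set Kbar)) Kbar)) q ∧
      s36_gc_IsCusp N₁ q ζA Θ ∧
      s36_gc_IsUnif
        (A := P.comap (algebraMap (IntermediateField.adjoin K0 ({ζ₁ - 1} : Set Kbar)) Kbar))
        ζA :=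
  Classical.choose_spec (s36_gw_exists P K0 N₁ q hq hqN hP hunif)

variable (P : ValuationSubring Kbar) (K0 : IntermediateField ℚ Kbar) (N₁ q : ℕ)
    [NeZero N₁] (hq : q.Prime) (hqN : ¬ q ∣ N₁) (hP : P.LiesOverPrime q)
    (hunif : ∀ b : K0, b ≠ 0 → ∃ m : ℤ, P.valuation (b : Kbar) = P.valuation (q : Kbar) ^ m)

/-- `z_C = j(Q^(q²)) - j(Q)` is a uniformizer of `V_C`. -/
theorem s36_gw_VC_unif (hqM : q ^ 2 ∣ N₁ * q * q) :
    s34_Unif (s36_gc_z K0 q (N₁ * q * q) hq hqM) (s36_gw_VC P K0 N₁ q hq hqN hP hunif) := by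
  obtain ⟨ζ₁, ζA, Θ, hV, hζ₁, hζA, hprim, hcusp, hunifA⟩ :=
    s36_gw_VC_spec P K0 N₁ q hq hqN hP hunif
  rw [hV]
  exact s36_gc_unif hcusp hq (s36_gw_hM N₁ q) hunifA _ rfl

/-- `q / z_C^(q-1) ∈ V_C`. -/
theorem s36_gw_VC_q_div (hqM : q ^ 2 ∣ N₁ * q * q) :
    algebraMap K0 (laurentBaseChange K0 (modularFunctionFieldFull (N₁ * q * q))) (q : K0) *
      (s36_gc_z K0 q (N₁ * q * q) hq hqM ^ (q - 1))⁻¹ ∈
        s36_gw_VC P K0 N₁ q hq hqN hP hunif := by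
  obtain ⟨ζ₁, ζA, Θ, hV, hζ₁, hζA, hprim, hcusp, hunifA⟩ :=
    s36_gw_VC_spec P K0 N₁ q hq hqN hP hunif
  obtain ⟨c, hcu, hc⟩ := s36_gu_q_eq q hq _ hprim
  rw [hV]
  exact s36_gc_q_div hcusp hq hqM hunifA.1 c hc _ rfl

/-- `z_C^(q-1) / q ∈ V_C`. -/
theorem s36_gw_VC_zpow_div_q (hqM : q ^ 2 ∣ N₁ * q * q) :
    s36_gc_z K0 q (N₁ * q * q) hq hqM ^ (q - 1) *
      (algebraMap K0 (laurentBaseChange K0 (modularFunctionFieldFull (N₁ * q * q)))
        (q : K0))⁻¹ ∈ s36_gw_VC P K0 N₁ q hq hqN hP hunif := by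
  obtain ⟨ζ₁, ζA, Θ, hV, hζ₁, hζA, hprim, hcusp, hunifA⟩ :=
    s36_gw_VC_spec P K0 N₁ q hq hqN hP hunif
  obtain ⟨c, hcu, hc⟩ := s36_gu_q_eq q hq _ hprim
  rw [hV]
  exact s36_gc_zpow_div_q hcusp hq hqM hunifA.1 c hc hcu _ rfl

/-- `z_C⁻¹ q ∈ V_C`. -/
theorem s36_gw_VC_q_mem (hqM : q ^ 2 ∣ N₁ * q * q) :
    (s36_gc_z K0 q (N₁ * q * q) hq hqM)⁻¹ *
      algebraMap K0 (laurentBaseChange K0 (modularFunctionFieldFull (N₁ * q * q))) (q : K0) ∈
        s36_gw_VC P K0 N₁ q hq hqN hP hunif := by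
  obtain ⟨ζ₁, ζA, Θ, hV, hζ₁, hζA, hprim, hcusp, hunifA⟩ :=
    s36_gw_VC_spec P K0 N₁ q hq hqN hP hunif
  obtain ⟨c, hcu, hc⟩ := s36_gu_q_eq q hq _ hprim
  rw [hV]
  exact s36_gc_q_mem_zV hcusp hq hqM hunifA.1 c hc _ rfl

/-- `P ∩ K₀ ⊆ V_C`. -/
theorem s36_gw_VC_const (b : K0) (hb : b ∈ s18_A1 P K0) :
    algebraMap K0 (laurentBaseChange K0 (modularFunctionFieldFull (N₁ * q * q))) b ∈
      s36_gw_VC P K0 N₁ q hq hqN hP hunif := by
  obtain ⟨ζ₁, ζA, Θ, hV, hζ₁, hζA, hprim, hcusp, hunifA⟩ :=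
    s36_gw_VC_spec P K0 N₁ q hq hqN hP hunif
  rw [hV]
  exact s36_gc_const_mem b hb

/-- `V_C` is a valuation ring. -/
theorem s36_gw_VC_mem_or_inv (x : laurentBaseChange K0 (modularFunctionFieldFull (N₁ * q * q))) :
    x ∈ s36_gw_VC P K0 N₁ q hq hqN hP hunif ∨ x⁻¹ ∈ s36_gw_VC P K0 N₁ q hq hqN hP hunif :=
  s34_unif_mem_or_inv (s36_gw_VC_unif P K0 N₁ q hq hqN hP hunif (s36_gw_hqM N₁ q)) x

/-- Functions of level `N₁ q` in the Gauss ring at infinity lie in `V_C` (expansion form). -/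
theorem s36_gw_VC_low (x : laurentBaseChange K0 (modularFunctionFieldFull (N₁ * q * q)))
    (x' : laurentBaseChange K0 (modularFunctionFieldFull (N₁ * q)))
    (hxx' : (x : LaurentSeries K0) = (x' : LaurentSeries K0))
    (hx' : x' ∈ s34_gi_V (s18_A1 P K0) (N₁ * q)) :
    x ∈ s36_gw_VC P K0 N₁ q hq hqN hP hunif := by
  obtain ⟨ζ₁, ζA, Θ, hV, hζ₁, hζA, hprim, hcusp, hunifA⟩ :=
    s36_gw_VC_spec P K0 N₁ q hq hqN hP hunif
  rw [hV]
  exact s36_gc_low_mem hcusp (s18_A1 P K0) (fun b hb => hb) x x' hxx' hx'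

/-- A generator-wise swap of the pair `(N₁, q q)` (ring homomorphism form) maps the functions of
level `N₁ q` of the Gauss ring at infinity into `V_C` (expansion form). -/
theorem s36_gw_VC_swap_low
    (W : laurentBaseChange K0 (modularFunctionFieldFull (N₁ * q * q)) →+*
      laurentBaseChange K0 (modularFunctionFieldFull (N₁ * q * q)))
    (hWc : ∀ c : K0, W (algebraMap K0 _ c) = algebraMap K0 _ c)
    (hW : ∀ (d m : ℕ) (_ : d ∣ N₁) (_ : m ∣ q * q)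
      (h1 : s34_sw_s K0 (d * m) ∈ laurentBaseChange K0 (modularFunctionFieldFull (N₁ * q * q))),
      ((W ⟨s34_sw_s K0 (d * m), h1⟩ :
        laurentBaseChange K0 (modularFunctionFieldFull (N₁ * q * q))) : LaurentSeries K0) =
        s34_sw_s K0 (d * (q * q / m)))
    (x : laurentBaseChange K0 (modularFunctionFieldFull (N₁ * q * q)))
    (x' : laurentBaseChange K0 (modularFunctionFieldFull (N₁ * q)))
    (hxx' : (x : LaurentSeries K0) = (x' : LaurentSeries K0))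
    (hx' : x' ∈ s34_gi_V (s18_A1 P K0) (N₁ * q)) :
    W x ∈ s36_gw_VC P K0 N₁ q hq hqN hP hunif := by
  obtain ⟨ζ₁, ζA, Θ, hV, hζ₁, hζA, hprim, hcusp, hunifA⟩ :=
    s36_gw_VC_spec P K0 N₁ q hq hqN hP hunif
  rw [hV]
  have hqq : q * q = q ^ 2 := (pow_two q).symm
  have hW' : ∀ (d m : ℕ) (_ : d ∣ N₁) (_ : m ∣ q ^ 2)
      (h1 : s34_sw_s K0 (d * m) ∈ laurentBaseChange K0 (modularFunctionFieldFull (N₁ * q * q))),
      ((W ⟨s34_sw_s K0 (d * m), h1⟩ :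
        laurentBaseChange K0 (modularFunctionFieldFull (N₁ * q * q))) : LaurentSeries K0) =
        s34_sw_s K0 (d * (q ^ 2 / m)) := by
    intro d m hd hm h1
    rw [← hqq] at hm ⊢
    exact hW d m hd hm h1
  exact s36_gw_swap_low_mem hcusp hq (s36_gw_hM N₁ q) hprim.pow_eq_one (s18_A1 P K0)
    (fun b hb => hb) W hWc hW' x x' hxx' hx'

/-- **`α (V'_∞) ⊆ V_C`.** -/
theorem s36_gw_VC_alpha [NeZero q] (y : laurentBaseChange K0 (modularFunctionFieldFull (N₁ * q)))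
    (hy : y ∈ s34_gi_V (s18_A1 P K0) (N₁ * q)) :
    heckeAlphaBar K0 (N₁ * q) q y ∈ s36_gw_VC P K0 N₁ q hq hqN hP hunif :=
  s36_gw_VC_low P K0 N₁ q hq hqN hP hunif (heckeAlphaBar K0 (N₁ * q) q y) y
    (coe_heckeAlphaBar (N₁ * q) q y) hy

/-- **`W (α (V'_∞)) ⊆ V_C`** for every swap `W` of the pair `(N₁, q q)` (the hypothesis `hW₂` of
`s36_eo_swap`). -/
theorem s36_gw_VC_swap_alpha [NeZero q]
    (W : laurentBaseChange K0 (modularFunctionFieldFull (N₁ * q * q)) ≃ₐ[K0]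
      laurentBaseChange K0 (modularFunctionFieldFull (N₁ * q * q)))
    (hW : ∀ (d m : ℕ) (_ : d ∣ N₁) (_ : m ∣ q * q)
      (h1 : s34_sw_s K0 (d * m) ∈ laurentBaseChange K0 (modularFunctionFieldFull (N₁ * q * q))),
      ((W ⟨s34_sw_s K0 (d * m), h1⟩ :
        laurentBaseChange K0 (modularFunctionFieldFull (N₁ * q * q))) : LaurentSeries K0) =
        s34_sw_s K0 (d * (q * q / m)))
    (y : laurentBaseChange K0 (modularFunctionFieldFull (N₁ * q)))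
    (hy : y ∈ s34_gi_V (s18_A1 P K0) (N₁ * q)) :
    W (heckeAlphaBar K0 (N₁ * q) q y) ∈ s36_gw_VC P K0 N₁ q hq hqN hP hunif :=
  s36_gw_VC_swap_low P K0 N₁ q hq hqN hP hunif
    ((W : laurentBaseChange K0 (modularFunctionFieldFull (N₁ * q * q)) →ₐ[K0]
        laurentBaseChange K0 (modularFunctionFieldFull (N₁ * q * q))) :
      laurentBaseChange K0 (modularFunctionFieldFull (N₁ * q * q)) →+*
        laurentBaseChange K0 (modularFunctionFieldFull (N₁ * q * q)))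
    (fun c => W.commutes c) hW (heckeAlphaBar K0 (N₁ * q) q y) y
    (coe_heckeAlphaBar (N₁ * q) q y) hy

/-- **`β (w (V'_∞)) ⊆ V_C`** for every swap `w` of the pair `(N₁, q)`: `β` maps the Gauss ring
at the cusp `0` of level `N₁ q` into `V_C`. -/
theorem s36_gw_VC_beta [NeZero q]
    (w : laurentBaseChange K0 (modularFunctionFieldFull (N₁ * q)) ≃ₐ[K0]
      laurentBaseChange K0 (modularFunctionFieldFull (N₁ * q)))
    (hw : ∀ (d m : ℕ) (_ : d ∣ N₁) (_ : m ∣ q)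
      (h1 : s34_sw_s K0 (d * m) ∈ laurentBaseChange K0 (modularFunctionFieldFull (N₁ * q))),
      ((w ⟨s34_sw_s K0 (d * m), h1⟩ :
        laurentBaseChange K0 (modularFunctionFieldFull (N₁ * q))) : LaurentSeries K0) =
        s34_sw_s K0 (d * (q / m)))
    (y : laurentBaseChange K0 (modularFunctionFieldFull (N₁ * q)))
    (hy : y ∈ s34_gi_V (s18_A1 P K0) (N₁ * q)) :
    heckeBetaBar K0 (N₁ * q) q (w y) ∈ s36_gw_VC P K0 N₁ q hq hqN hP hunif := by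
  haveI : NeZero (q * q) := ⟨Nat.mul_ne_zero hq.ne_zero hq.ne_zero⟩
  have hcop : Nat.Coprime q N₁ := (Nat.Prime.coprime_iff_not_dvd hq).mpr hqN
  obtain ⟨W, -, -, hW5⟩ := s36_sr_swap_at (algebraMap K0 Kbar) N₁ (q * q) (N₁ * q * q)
    (Nat.mul_assoc N₁ q q) (Nat.Coprime.mul_left hcop hcop)
  rw [← s36_sr_rel N₁ q w hw W hW5 y]
  exact s36_gw_VC_swap_alpha P K0 N₁ q hq hqN hP hunif W hW5 y hy

/-- A swap of the pair `(N₁, q q)` sends `z_C` to `- z_C`. -/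
theorem s36_gw_swap_z_qq (hqM : q ^ 2 ∣ N₁ * q * q)
    (W : laurentBaseChange K0 (modularFunctionFieldFull (N₁ * q * q)) ≃ₐ[K0]
      laurentBaseChange K0 (modularFunctionFieldFull (N₁ * q * q)))
    (hW : ∀ (d m : ℕ) (_ : d ∣ N₁) (_ : m ∣ q * q)
      (h1 : s34_sw_s K0 (d * m) ∈ laurentBaseChange K0 (modularFunctionFieldFull (N₁ * q * q))),
      ((W ⟨s34_sw_s K0 (d * m), h1⟩ :
        laurentBaseChange K0 (modularFunctionFieldFull (N₁ * q * q))) : LaurentSeries K0) =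
        s34_sw_s K0 (d * (q * q / m))) :
    W (s36_gc_z K0 q (N₁ * q * q) hq hqM) = -s36_gc_z K0 q (N₁ * q * q) hq hqM := by
  have hqq : q * q = q ^ 2 := (pow_two q).symm
  have hW' : ∀ (d m : ℕ) (_ : d ∣ N₁) (_ : m ∣ q ^ 2)
      (h1 : s34_sw_s K0 (d * m) ∈ laurentBaseChange K0 (modularFunctionFieldFull (N₁ * q * q))),
      ((((W : laurentBaseChange K0 (modularFunctionFieldFull (N₁ * q * q)) →ₐ[K0]
          laurentBaseChange K0 (modularFunctionFieldFull (N₁ * q * q))) :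
        laurentBaseChange K0 (modularFunctionFieldFull (N₁ * q * q)) →+*
          laurentBaseChange K0 (modularFunctionFieldFull (N₁ * q * q))) ⟨s34_sw_s K0 (d * m), h1⟩ :
        laurentBaseChange K0 (modularFunctionFieldFull (N₁ * q * q))) : LaurentSeries K0) =
        s34_sw_s K0 (d * (q ^ 2 / m)) := by
    intro d m hd hm h1
    rw [← hqq] at hm ⊢
    exact hW d m hd hm h1
  exact s36_gc_swap_z (N := N₁) hq hqM _ hW' _ rfl

/-- `W z_C⁻¹` lies in the Gauss ring at infinity `V_A` of level `N₁ q q` and `z_C⁻¹ ∉ V_C`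
(the hypothesis `hne` of `s36_eo_swap`, with `x = z_C⁻¹`). -/
theorem s36_gw_VC_hne (hqM : q ^ 2 ∣ N₁ * q * q)
    (W : laurentBaseChange K0 (modularFunctionFieldFull (N₁ * q * q)) ≃ₐ[K0]
      laurentBaseChange K0 (modularFunctionFieldFull (N₁ * q * q)))
    (hW : ∀ (d m : ℕ) (_ : d ∣ N₁) (_ : m ∣ q * q)
      (h1 : s34_sw_s K0 (d * m) ∈ laurentBaseChange K0 (modularFunctionFieldFull (N₁ * q * q))),
      ((W ⟨s34_sw_s K0 (d * m), h1⟩ :
        laurentBaseChange K0 (modularFunctionFieldFull (N₁ * q * q))) : LaurentSeries K0) =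
        s34_sw_s K0 (d * (q * q / m))) :
    W (s36_gc_z K0 q (N₁ * q * q) hq hqM)⁻¹ ∈ s34_gi_V (s18_A1 P K0) (N₁ * q * q) ∧
      (s36_gc_z K0 q (N₁ * q * q) hq hqM)⁻¹ ∉ s36_gw_VC P K0 N₁ q hq hqN hP hunif := by
  refine ⟨?_, (s36_gw_VC_unif P K0 N₁ q hq hqN hP hunif hqM).inv_not_mem⟩
  rw [map_inv₀, s36_gw_swap_z_qq K0 N₁ q hq hqM W hW, inv_neg]
  exact neg_mem (s36_gc_z_inv_mem_gi (s18_A1 P K0) hq _ rfl)

/-- **The charts lie in `V_C`.** -/
theorem s36_gw_VC_chart_le {t : laurentBaseChange K0 (modularFunctionFieldFull (N₁ * q * q))}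
    (ht : t ∈ s36_gw_VC P K0 N₁ q hq hqN hP hunif) :
    (s34_ic_chart (s18_A1 P K0) t).toSubring ≤ s36_gw_VC P K0 N₁ q hq hqN hP hunif := by
  obtain ⟨ζ₁, ζA, Θ, hV, hζ₁, hζA, hprim, hcusp, hunifA⟩ :=
    s36_gw_VC_spec P K0 N₁ q hq hqN hP hunif
  rw [hV] at ht ⊢
  exact s36_gc_chart_le hcusp hq (s36_gw_hM N₁ q) hunifA (s18_A1 P K0) (fun b hb => hb) ht

/-- A rational coordinate of level `N₁ q` with integral `q`-expansion lies in `V_C`. -/
theorem s36_gw_VC_coord_mem (t₀ : modularFunctionFieldFull (N₁ * q * q))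
    (hlow : (t₀ : LaurentSeries ℚ) ∈ modularFunctionFieldFull (N₁ * q)) (T : LaurentSeries ℤ)
    (hT : (t₀ : LaurentSeries ℚ) = coeffMap (Int.castRingHom ℚ) T) :
    s18_coord K0 t₀ ∈ s36_gw_VC P K0 N₁ q hq hqN hP hunif := by
  obtain ⟨ζ₁, ζA, Θ, hV, hζ₁, hζA, hprim, hcusp, hunifA⟩ :=
    s36_gw_VC_spec P K0 N₁ q hq hqN hP hunif
  rw [hV]
  exact s36_gc_coord_mem hcusp t₀ hlow T hT

/-- The inverse of a rational coordinate of level `N₁ q` whose inverse has integral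
`q`-expansion lies in `V_C`. -/
theorem s36_gw_VC_coord_inv_mem (t₀ : modularFunctionFieldFull (N₁ * q * q))
    (hlow : (t₀ : LaurentSeries ℚ) ∈ modularFunctionFieldFull (N₁ * q)) (Tinv : LaurentSeries ℤ)
    (hTinv : ((t₀⁻¹ : modularFunctionFieldFull (N₁ * q * q)) : LaurentSeries ℚ) =
      coeffMap (Int.castRingHom ℚ) Tinv) :
    (s18_coord K0 t₀)⁻¹ ∈ s36_gw_VC P K0 N₁ q hq hqN hP hunif := by
  obtain ⟨ζ₁, ζA, Θ, hV, hζ₁, hζA, hprim, hcusp, hunifA⟩ :=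
    s36_gw_VC_spec P K0 N₁ q hq hqN hP hunif
  rw [hV]
  exact s36_gc_coord_inv_mem hcusp t₀ hlow Tinv hTinv

end Inst

end Fermat.Agent.S36
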