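import Fermat.Agent.S36.HorizGen

/-!
# S36 (NODE-3), leaf (M5): the level-4 and level-9 coordinates; localised versions

The level-2 coordinate `t₂` is ramified over `t₂ = -64` and the level-3 coordinate `t₃` over
`t₃ = -27`; inside ONE chart one cannot switch between them point by point.  The level-4
Hauptmodul `T₄` (`T₄² = t₂ T₄ + 16 t₂`) and the level-9 Hauptmodul `T₉`
(`T₉³ = t₃ (T₉² + 9 T₉ + 27)`) have no bad value besides the cusps
(`T₄ ∈ {0, -16, ∞}`, resp. `T₉ = 0, ∞` or `T₉² + 9 T₉ + 27 = 0`).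

* `s36_h4_ord_four`, `s36_h4_ord_nine` : `F̄(M) / ℚ̄(T₄)` (resp. `ℚ̄(T₉)`) is unramified outside the
  cusps (from the frozen `s18_d6_two`, `s18_d6_three`, `s18_d6_ord_j_1728`, `s18_d6_ord_j_zero`);
* `s36_h4_unr_four`, `s36_h4_unr_nine` : the same for `K · F(M)`, up to an automorphism `σ`;
* `s36_h4_hunr_*` : the premise `hunr` of `s36_hg_hhor_inv_nat` / `s36_h4_hhor_inv_loc`, with all
  memberships taken in the localisation `s18_loc B 𝔪`;
* `s36_h4_hhor_inv_loc` : `hhor` for `ρ̃⁻¹` with `x, x' ∈ s18_loc B 𝔪`;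
* `s36_h4_model_rhoinv_gen` and its instances `s36_h4_model_rhoinv_four`, `_nine`, `_two_loc`,
  `_three_loc`, `_four_loc`, `_nine_loc` : `hρinv` in the model in one call.

Prefix `s36_h4_`.  Generic base field `K` (vocabulary of `HorizGen.lean`).
-/

set_option autoImplicit false
set_option synthInstance.maxHeartbeats 400000
set_option linter.unusedSectionVars false
set_option linter.style.haveILetI false
set_option linter.unusedSimpArgs false

open ModularCurve AlgebraicCurve Polynomial IntermediateField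

noncomputable section

namespace Fermat.Agent.S36

open Fermat.Agent.S24 (Kbar FF jF)
open Fermat.Agent.S18 Fermat.Agent.S34 Fermat.Agent.S37

section Ord

variable (M : ℕ) [NeZero M]

/-- (D6, level 4) If `j x² = (x + 256)³` and `y² = x y + 16 x`, then `F̄(M)/ℚ̄(y)` is unramified
over every finite `y = c` with `c ≠ 0, -16`. -/
theorem s36_h4_ord_four (x y : FF M) (hX : jF M * x ^ 2 = (x + 256) ^ 3)
    (hY : y ^ 2 = x * y + 16 * x)
    (v : Place Kbar (FF M)) (c : Kbar) (hc0 : c ≠ 0) (hc16 : c ≠ -16)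
    (hv : 0 < v.ord (y - algebraMap Kbar (FF M) c)) :
    v.ord (y - algebraMap Kbar (FF M) c) = 1 := by
  have h1 : x * (y + 16) = y ^ 2 := by linear_combination -hY
  have hYs : y = (y - algebraMap Kbar (FF M) c) + algebraMap Kbar (FF M) c := by ring
  generalize y - algebraMap Kbar (FF M) c = s at hv hYs ⊢
  by_cases h32 : c = -32
  · subst h32
    have h2 : (jF M - 1728) * x ^ 2 = (x + 64) * (x - 512) ^ 2 := by
      linear_combination hX
    have key0 : (jF M - 1728) * (y ^ 4 * (y + 16)) =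
        (y + 32) ^ 2 * (y ^ 2 - 512 * (y + 16)) ^ 2 := by
      have e1 : y ^ 4 * (y + 16) = x ^ 2 * (y + 16) ^ 3 := by
        rw [show y ^ 4 = (y ^ 2) ^ 2 by ring, ← h1]; ring
      rw [e1, ← mul_assoc, h2]
      have e2 : (x + 64) * (x - 512) ^ 2 * (y + 16) ^ 3 =
          (x * (y + 16) + 64 * (y + 16)) * (x * (y + 16) - 512 * (y + 16)) ^ 2 := by ring
      rw [e2, h1]; ring
    have hYs' : y = s + -32 := by
      rw [hYs, map_neg, map_ofNat]
    have key : (jF M - algebraMap Kbar (FF M) 1728) *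
        aeval s ((X + C (-32 : Kbar)) ^ 4 * (X + C (-16 : Kbar))) =
        s ^ 2 * aeval s (((X + C (-32 : Kbar)) ^ 2 - C (512 : Kbar) * (X + C (-16 : Kbar))) ^ 2) := by
      simp only [map_pow, map_add, map_mul, map_sub, aeval_X, aeval_C, map_ofNat, map_neg]
      rw [hYs'] at key0
      linear_combination key0
    have h3 := s18_d6_ord_of_eq v s hv _ _ _
      (by
        simp only [coeff_zero_eq_eval_zero, eval_mul, eval_pow, eval_add, eval_X, eval_C]
        norm_num)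
      (by
        simp only [coeff_zero_eq_eval_zero, eval_mul, eval_pow, eval_add, eval_sub, eval_X,
          eval_C]
        norm_num) 2 key
    have h4 := s18_d6_ord_j_1728 M v (by rw [h3]; push_cast; omega)
    rw [h3] at h4
    push_cast at h4
    omega
  · have hd : c + 16 ≠ 0 := fun h => hc16 (by linear_combination h)
    set c2 : Kbar := c ^ 2 / (c + 16) with hc2_def
    set cs : Kbar := -16 * c / (c + 16) with hcs_def
    have hc2d : c2 * (c + 16) = c ^ 2 := by rw [hc2_def, div_mul_cancel₀ _ hd]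
    have hcsd : cs * (c + 16) = -16 * c := by rw [hcs_def, div_mul_cancel₀ _ hd]
    have e1 : c2 = c + cs := by
      have h : (c2 - c - cs) * (c + 16) = 0 := by linear_combination hc2d - hcsd
      rcases mul_eq_zero.mp h with h | h
      · linear_combination h
      · exact absurd h hd
    have e2 : c * cs = -16 * c2 := by
      have h : (c * cs + 16 * c2) * (c + 16) = 0 := by linear_combination c * hcsd + 16 * hc2d
      rcases mul_eq_zero.mp h with h | h
      · linear_combination h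
      · exact absurd h hd
    have hc20 : c2 ≠ 0 := by
      intro h
      rw [h, zero_mul] at hc2d
      exact hc0 ((pow_eq_zero_iff (two_ne_zero)).mp hc2d.symm)
    have hc264 : c2 ≠ -64 := by
      intro h
      rw [h] at hc2d
      have h' : (c + 32) ^ 2 = 0 := by linear_combination -hc2d
      exact h32 (by linear_combination (pow_eq_zero_iff (two_ne_zero)).mp h')
    have hcs : c - cs ≠ 0 := by
      intro h
      have h' : c * (c + 32) = 0 := by linear_combination (c + 16) * h + hcsd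
      rcases mul_eq_zero.mp h' with h'' | h''
      · exact hc0 h''
      · exact h32 (by linear_combination h'')
    have E1 : algebraMap Kbar (FF M) c2 =
        algebraMap Kbar (FF M) c + algebraMap Kbar (FF M) cs := by
      rw [e1, map_add]
    have E2 : algebraMap Kbar (FF M) c * algebraMap Kbar (FF M) cs =
        -16 * algebraMap Kbar (FF M) c2 := by
      rw [← map_mul, e2, map_mul, map_neg, map_ofNat]
    have key : (x - algebraMap Kbar (FF M) c2) * aeval s (X + C (c + 16)) =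
        s ^ 1 * aeval s (X + C (c - cs)) := by
      simp only [map_add, map_sub, aeval_X, aeval_C, map_ofNat, pow_one]
      rw [hYs] at h1
      linear_combination h1 - (s + algebraMap Kbar (FF M) c) * E1 - E2
    have h3 := s18_d6_ord_of_eq v s hv _ _ _
      (by
        simp only [coeff_zero_eq_eval_zero, eval_add, eval_X, eval_C, zero_add]
        exact hd)
      (by
        simp only [coeff_zero_eq_eval_zero, eval_add, eval_X, eval_C, zero_add]
        exact hcs) 1 key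
    have h4 := s18_d6_two M x hX v c2 hc20 hc264 (by rw [h3]; push_cast; omega)
    rw [h3] at h4
    push_cast at h4
    omega

/-- (D6, level 9) If `j x³ = (x + 27)(x + 243)³` and `y³ = x (y² + 9 y + 27)`, then `F̄(M)/ℚ̄(y)` is
unramified over every finite `y = c` with `c ≠ 0`, `c² + 9 c + 27 ≠ 0`. -/
theorem s36_h4_ord_nine (x y : FF M) (hX : jF M * x ^ 3 = (x + 27) * (x + 243) ^ 3)
    (hY : y ^ 3 = x * (y ^ 2 + 9 * y + 27))
    (v : Place Kbar (FF M)) (c : Kbar) (hc0 : c ≠ 0) (hc27 : c ^ 2 + 9 * c + 27 ≠ 0)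
    (hv : 0 < v.ord (y - algebraMap Kbar (FF M) c)) :
    v.ord (y - algebraMap Kbar (FF M) c) = 1 := by
  have h1 : x * (y ^ 2 + 9 * y + 27) = y ^ 3 := hY.symm
  have hYs : y = (y - algebraMap Kbar (FF M) c) + algebraMap Kbar (FF M) c := by ring
  generalize y - algebraMap Kbar (FF M) c = s at hv hYs ⊢
  by_cases h9 : c = -9
  · subst h9
    have key0 : jF M * (y ^ 9 * (y ^ 2 + 9 * y + 27)) =
        (y + 9) ^ 3 * (y ^ 3 + 243 * (y ^ 2 + 9 * y + 27)) ^ 3 := by
      have e1 : y ^ 9 * (y ^ 2 + 9 * y + 27) = x ^ 3 * (y ^ 2 + 9 * y + 27) ^ 4 := by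
        rw [show y ^ 9 = (y ^ 3) ^ 3 by ring, ← h1]; ring
      rw [e1, ← mul_assoc, hX]
      have e2 : (x + 27) * (x + 243) ^ 3 * (y ^ 2 + 9 * y + 27) ^ 4 =
          (x * (y ^ 2 + 9 * y + 27) + 27 * (y ^ 2 + 9 * y + 27)) *
            (x * (y ^ 2 + 9 * y + 27) + 243 * (y ^ 2 + 9 * y + 27)) ^ 3 := by ring
      rw [e2, h1]; ring
    have hYs' : y = s + -9 := by
      rw [hYs, map_neg, map_ofNat]
    have key : jF M *
        aeval s ((X + C (-9 : Kbar)) ^ 9 *
          ((X + C (-9 : Kbar)) ^ 2 + C (9 : Kbar) * (X + C (-9 : Kbar)) + C (27 : Kbar))) =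
        s ^ 3 * aeval s (((X + C (-9 : Kbar)) ^ 3 + C (243 : Kbar) *
          ((X + C (-9 : Kbar)) ^ 2 + C (9 : Kbar) * (X + C (-9 : Kbar)) + C (27 : Kbar))) ^ 3) := by
      simp only [map_pow, map_add, map_mul, aeval_X, aeval_C, map_ofNat, map_neg]
      rw [hYs'] at key0
      linear_combination key0
    have h3 := s18_d6_ord_of_eq v s hv _ _ _
      (by
        simp only [coeff_zero_eq_eval_zero, eval_mul, eval_pow, eval_add, eval_X, eval_C]
        norm_num)
      (by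
        simp only [coeff_zero_eq_eval_zero, eval_mul, eval_pow, eval_add, eval_X, eval_C]
        norm_num) 3 key
    have h4 := s18_d6_ord_j_zero M v (by rw [h3]; push_cast; omega)
    rw [h3] at h4
    push_cast at h4
    omega
  · set c3 : Kbar := c ^ 3 / (c ^ 2 + 9 * c + 27) with hc3_def
    have hc3d : c3 * (c ^ 2 + 9 * c + 27) = c ^ 3 := by rw [hc3_def, div_mul_cancel₀ _ hc27]
    have hc30 : c3 ≠ 0 := by
      intro h
      rw [h, zero_mul] at hc3d
      exact hc0 ((pow_eq_zero_iff (three_ne_zero)).mp hc3d.symm)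
    have hc327 : c3 ≠ -27 := by
      intro h
      rw [h] at hc3d
      have h' : (c + 9) ^ 3 = 0 := by linear_combination -hc3d
      exact h9 (by linear_combination (pow_eq_zero_iff (three_ne_zero)).mp h')
    have hq0 : 3 * c ^ 2 - 2 * c * c3 - 9 * c3 ≠ 0 := by
      intro h
      have h' : c ^ 2 * (c + 9) ^ 2 = 0 := by
        linear_combination (c ^ 2 + 9 * c + 27) * h + (2 * c + 9) * hc3d
      rcases mul_eq_zero.mp h' with h'' | h''
      · exact hc0 ((pow_eq_zero_iff (two_ne_zero)).mp h'')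
      · exact h9 (by linear_combination (pow_eq_zero_iff (two_ne_zero)).mp h'')
    have E3 : algebraMap Kbar (FF M) c3 *
        (algebraMap Kbar (FF M) c ^ 2 + 9 * algebraMap Kbar (FF M) c + 27) =
        algebraMap Kbar (FF M) c ^ 3 := by
      have h := congrArg (algebraMap Kbar (FF M)) hc3d
      rwa [map_mul, map_add, map_add, map_mul, map_pow, map_pow, map_ofNat, map_ofNat] at h
    have key : (x - algebraMap Kbar (FF M) c3) *
        aeval s ((X + C c) ^ 2 + C (9 : Kbar) * (X + C c) + C (27 : Kbar)) =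
        s ^ 1 * aeval s ((X + C c) ^ 2 + C (c - c3) * (X + C c) +
          C (c ^ 2 - c * c3 - 9 * c3)) := by
      simp only [map_pow, map_add, map_mul, map_sub, aeval_X, aeval_C, map_ofNat, pow_one]
      rw [hYs] at hY
      linear_combination -hY - E3
    have h3 := s18_d6_ord_of_eq v s hv _ _ _
      (by
        simp only [coeff_zero_eq_eval_zero, eval_mul, eval_pow, eval_add, eval_X, eval_C,
          zero_add]
        exact hc27)
      (by
        simp only [coeff_zero_eq_eval_zero, eval_mul, eval_pow, eval_add, eval_X, eval_C,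
          zero_add]
        intro h
        apply hq0
        linear_combination h) 1 key
    have h4 := s18_d6_three M x hX v c3 hc30 hc327 (by rw [h3]; push_cast; omega)
    rw [h3] at h4
    push_cast at h4
    omega

end Ord

section Inst

variable (M : ℕ) [NeZero M] (K : Type*) [Field K] [Algebra ℚ K] [Algebra K Kbar]

/-- Unramifiedness from the level-4 relation `y² = x y + 16 x` over a level-2 Hauptmodul-type
function `x` (up to an automorphism `σ`): no bad value besides `y = 0, -16`. -/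
theorem s36_h4_unr_four (W : ValuationSubring (laurentBaseChange K (modularFunctionFieldFull M)))
    (x y : laurentBaseChange K (modularFunctionFieldFull M)) (hyinv : y⁻¹ ∈ W)
    (hy16 : (y + 16)⁻¹ ∈ W) (hrel : y ^ 2 = x * y + 16 * x)
    (σ : FF M ≃ₐ[Kbar] FF M)
    (hσ : jF M * (σ (s18_baseIncl K M x)) ^ 2 = (σ (s18_baseIncl K M x) + 256) ^ 3)
    (P : Place Kbar (FF M)) (c : Kbar)
    (hWP : ∀ z ∈ W, s18_baseIncl K M z ∈ P.toValuationSubring)
    (hpos : 0 < P.ord (s18_baseIncl K M y - algebraMap Kbar (FF M) c)) :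
    P.ord (s18_baseIncl K M y - algebraMap Kbar (FF M) c) = 1 := by
  set Y : FF M := s18_baseIncl K M y with hY
  have hc0 : c ≠ 0 := by
    rintro rfl
    rw [map_zero, sub_zero] at hpos
    have h1 := (Fermat.Agent.S24.mem_iff_ord_nonneg P _).mp (hWP _ hyinv)
    rw [map_inv₀, P.ord_inv, ← hY] at h1
    omega
  have hc16 : c ≠ -16 := by
    rintro rfl
    have h1 := (Fermat.Agent.S24.mem_iff_ord_nonneg P _).mp (hWP _ hy16)
    rw [map_inv₀, P.ord_inv, map_add, map_ofNat, ← hY] at h1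
    have h2 : Y - algebraMap Kbar (FF M) (-16) = Y + 16 := by
      rw [map_neg, map_ofNat, sub_neg_eq_add]
    rw [h2] at hpos
    omega
  have hrel' : (σ Y) ^ 2 = σ (s18_baseIncl K M x) * σ Y + 16 * σ (s18_baseIncl K M x) := by
    have h := congrArg (fun z => σ (s18_baseIncl K M z)) hrel
    simp only [map_pow, map_add, map_mul, map_ofNat] at h
    exact h
  have hv : 0 < (σ • P).ord (σ Y - algebraMap Kbar (FF M) c) := by
    rw [Fermat.Agent.S24.ord_smul_place, map_sub, AlgEquiv.symm_apply_apply, AlgEquiv.commutes]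
    exact hpos
  have h := s36_h4_ord_four M (σ (s18_baseIncl K M x)) (σ Y) hσ hrel' (σ • P) c hc0 hc16 hv
  rwa [Fermat.Agent.S24.ord_smul_place, map_sub, AlgEquiv.symm_apply_apply,
    AlgEquiv.commutes] at h

/-- Unramifiedness from the level-9 relation `y³ = x (y² + 9 y + 27)` over a level-3
Hauptmodul-type function `x` (up to `σ`): no bad value besides `y = 0`, `y² + 9 y + 27 = 0`. -/
theorem s36_h4_unr_nine (W : ValuationSubring (laurentBaseChange K (modularFunctionFieldFull M)))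
    (x y : laurentBaseChange K (modularFunctionFieldFull M)) (hyinv : y⁻¹ ∈ W)
    (hy27 : (y ^ 2 + 9 * y + 27)⁻¹ ∈ W) (hrel : y ^ 3 = x * (y ^ 2 + 9 * y + 27))
    (σ : FF M ≃ₐ[Kbar] FF M)
    (hσ : jF M * (σ (s18_baseIncl K M x)) ^ 3 =
      (σ (s18_baseIncl K M x) + 27) * (σ (s18_baseIncl K M x) + 243) ^ 3)
    (P : Place Kbar (FF M)) (c : Kbar)
    (hWP : ∀ z ∈ W, s18_baseIncl K M z ∈ P.toValuationSubring)
    (hpos : 0 < P.ord (s18_baseIncl K M y - algebraMap Kbar (FF M) c)) :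
    P.ord (s18_baseIncl K M y - algebraMap Kbar (FF M) c) = 1 := by
  set Y : FF M := s18_baseIncl K M y with hY
  have hc0 : c ≠ 0 := by
    rintro rfl
    rw [map_zero, sub_zero] at hpos
    have h1 := (Fermat.Agent.S24.mem_iff_ord_nonneg P _).mp (hWP _ hyinv)
    rw [map_inv₀, P.ord_inv, ← hY] at h1
    omega
  have hY0 : Y - algebraMap Kbar (FF M) c ≠ 0 := by
    intro h
    rw [h, Place.ord_zero] at hpos
    exact lt_irrefl _ hpos
  have hc27 : c ^ 2 + 9 * c + 27 ≠ 0 := by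
    intro hc
    have hC : algebraMap Kbar (FF M) c ^ 2 + 9 * algebraMap Kbar (FF M) c + 27 = 0 := by
      have h := congrArg (algebraMap Kbar (FF M)) hc
      rwa [map_add, map_add, map_mul, map_pow, map_ofNat, map_ofNat, map_zero] at h
    have hfac : Y ^ 2 + 9 * Y + 27 =
        (Y - algebraMap Kbar (FF M) c) * (Y + algebraMap Kbar (FF M) c + 9) := by
      linear_combination hC
    have h1 := (Fermat.Agent.S24.mem_iff_ord_nonneg P _).mp (hWP _ hy27)
    rw [map_inv₀, P.ord_inv, map_add, map_add, map_mul, map_pow, map_ofNat, map_ofNat, ← hY,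
      hfac] at h1
    by_cases h2 : Y + algebraMap Kbar (FF M) c + 9 = 0
    · have h3 : Y - algebraMap Kbar (FF M) c = algebraMap Kbar (FF M) (-(2 * c + 9)) := by
        rw [map_neg, map_add, map_mul, map_ofNat, map_ofNat]
        linear_combination h2
      rw [h3, Fermat.Agent.S24.ord_algebraMap] at hpos
      exact lt_irrefl _ hpos
    · rw [P.ord_mul hY0 h2] at h1
      have hm1 : Y - algebraMap Kbar (FF M) c ∈ P.toValuationSubring :=
        (Fermat.Agent.S24.mem_iff_ord_nonneg P _).mpr hpos.le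
      have hm2 : algebraMap Kbar (FF M) (2 * c + 9) ∈ P.toValuationSubring :=
        P.algebraMap_mem' _
      have hm : Y + algebraMap Kbar (FF M) c + 9 ∈ P.toValuationSubring := by
        have h4 := P.toValuationSubring.add_mem _ _ hm1 hm2
        have e : Y - algebraMap Kbar (FF M) c + algebraMap Kbar (FF M) (2 * c + 9) =
            Y + algebraMap Kbar (FF M) c + 9 := by
          rw [map_add, map_mul, map_ofNat, map_ofNat]
          ring
        rwa [e] at h4
      have h3 := (Fermat.Agent.S24.mem_iff_ord_nonneg P _).mp hm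
      omega
  have hrel' : (σ Y) ^ 3 = σ (s18_baseIncl K M x) * ((σ Y) ^ 2 + 9 * σ Y + 27) := by
    have h := congrArg (fun z => σ (s18_baseIncl K M z)) hrel
    simp only [map_pow, map_add, map_mul, map_ofNat] at h
    exact h
  have hv : 0 < (σ • P).ord (σ Y - algebraMap Kbar (FF M) c) := by
    rw [Fermat.Agent.S24.ord_smul_place, map_sub, AlgEquiv.symm_apply_apply, AlgEquiv.commutes]
    exact hpos
  have h := s36_h4_ord_nine M (σ (s18_baseIncl K M x)) (σ Y) hσ hrel' (σ • P) c hc0 hc27 hv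
  rwa [Fermat.Agent.S24.ord_smul_place, map_sub, AlgEquiv.symm_apply_apply,
    AlgEquiv.commutes] at h

/-- `θ y ≠ 0` from `y² = x y + 16 x` and `θ x ≠ 0`. -/
theorem s36_h4_theta_ne_four (x y : laurentBaseChange K (modularFunctionFieldFull M))
    (hrel : y ^ 2 = x * y + 16 * x)
    (hθx : s36_qt_theta K (x : LaurentSeries K) ≠ 0) :
    s36_qt_theta K (y : LaurentSeries K) ≠ 0 := by
  intro h0
  haveI : CharZero K := algebraRat.charZero K
  have hrelL : (y : LaurentSeries K) * (y : LaurentSeries K) =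
      (x : LaurentSeries K) * (y : LaurentSeries K) +
        HahnSeries.C (16 : K) * (x : LaurentSeries K) := by
    have h := congrArg
      (algebraMap (laurentBaseChange K (modularFunctionFieldFull M)) (LaurentSeries K)) hrel
    rw [map_pow, map_add, map_mul, map_mul, map_ofNat, sq] at h
    rw [map_ofNat (HahnSeries.C (Γ := ℤ) (R := K)) 16]
    exact h
  have h1 := congrArg (s36_qt_theta K) hrelL
  rw [s36_qt_theta_mul, map_add, s36_qt_theta_mul, s36_qt_theta_mul, s36_qt_theta_C, h0] at h1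
  have h2 : s36_qt_theta K (x : LaurentSeries K) *
      ((y : LaurentSeries K) + HahnSeries.C (16 : K)) = 0 := by
    linear_combination -h1
  rcases mul_eq_zero.mp h2 with h | h
  · exact hθx h
  · have hYv : (y : LaurentSeries K) = -HahnSeries.C (16 : K) := by linear_combination h
    have h3 : HahnSeries.C (16 : K) * HahnSeries.C (16 : K) = (0 : LaurentSeries K) := by
      rw [hYv] at hrelL
      linear_combination hrelL
    have h4 : (HahnSeries.C (16 : K) : LaurentSeries K) = 0 := mul_self_eq_zero.mp h3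
    have h6 : (HahnSeries.C (16 : K) : LaurentSeries K).coeff 0 =
        (0 : LaurentSeries K).coeff 0 := by rw [h4]
    rw [HahnSeries.C_apply, HahnSeries.coeff_single_same, HahnSeries.coeff_zero] at h6
    exact absurd h6 (by norm_num)

/-- `θ y ≠ 0` from `y³ = x (y² + 9 y + 27)` and `θ x ≠ 0`. -/
theorem s36_h4_theta_ne_nine (x y : laurentBaseChange K (modularFunctionFieldFull M))
    (hrel : y ^ 3 = x * (y ^ 2 + 9 * y + 27))
    (hθx : s36_qt_theta K (x : LaurentSeries K) ≠ 0) :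
    s36_qt_theta K (y : LaurentSeries K) ≠ 0 := by
  intro h0
  haveI : CharZero K := algebraRat.charZero K
  have hrelL : (y : LaurentSeries K) * (y : LaurentSeries K) * (y : LaurentSeries K) =
      (x : LaurentSeries K) * ((y : LaurentSeries K) * (y : LaurentSeries K) +
        HahnSeries.C (9 : K) * (y : LaurentSeries K) + HahnSeries.C (27 : K)) := by
    have h := congrArg
      (algebraMap (laurentBaseChange K (modularFunctionFieldFull M)) (LaurentSeries K)) hrel
    rw [map_pow, map_mul, map_add, map_add, map_mul, map_pow, map_ofNat, map_ofNat] at h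
    rw [map_ofNat (HahnSeries.C (Γ := ℤ) (R := K)) 9,
      map_ofNat (HahnSeries.C (Γ := ℤ) (R := K)) 27]
    have h' : (y : LaurentSeries K) ^ 3 = (x : LaurentSeries K) *
        ((y : LaurentSeries K) ^ 2 + 9 * (y : LaurentSeries K) + 27) := h
    linear_combination h'
  have h1 := congrArg (s36_qt_theta K) hrelL
  simp only [s36_qt_theta_mul, map_add, s36_qt_theta_C, h0, zero_mul, mul_zero, add_zero,
    zero_add] at h1
  have h2 : s36_qt_theta K (x : LaurentSeries K) *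
      ((y : LaurentSeries K) * (y : LaurentSeries K) +
        HahnSeries.C (9 : K) * (y : LaurentSeries K) + HahnSeries.C (27 : K)) = 0 := by
    linear_combination -h1
  rcases mul_eq_zero.mp h2 with h | h
  · exact hθx h
  · rw [h, mul_zero] at hrelL
    have hy0 : (y : LaurentSeries K) = 0 := by
      rcases mul_eq_zero.mp hrelL with h' | h'
      · exact mul_self_eq_zero.mp h'
      · exact h'
    rw [hy0, mul_zero, mul_zero, zero_add, zero_add] at h
    have h6 : (HahnSeries.C (27 : K) : LaurentSeries K).coeff 0 =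
        (0 : LaurentSeries K).coeff 0 := by rw [h]
    rw [HahnSeries.C_apply, HahnSeries.coeff_single_same, HahnSeries.coeff_zero] at h6
    exact absurd h6 (by norm_num)

end Inst

section LocBasic

variable {F : Type*} [Field F]

/-- Elements of the localisation `B_𝔪` lie in every valuation ring through the point `𝔪`. -/
theorem s36_h4_loc_mem (B : Subring F) (𝔪 : Ideal B) (W : ValuationSubring F)
    (hBW : B ≤ W.toSubring) (hinv : ∀ b : B, b ∉ 𝔪 → ((b : F))⁻¹ ∈ W) {z : F}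
    (hz : z ∈ s18_loc B 𝔪) : z ∈ W := by
  obtain ⟨a, b, hb, rfl⟩ := hz
  rw [div_eq_mul_inv]
  exact W.mul_mem _ _ (hBW a.2) (hinv b hb)

/-- `b⁻¹ ∈ B_𝔪` for `b ∉ 𝔪`. -/
theorem s36_h4_inv_mem_loc (B : Subring F) (𝔪 : Ideal B) (b : B) (hb : b ∉ 𝔪) :
    ((b : F))⁻¹ ∈ s18_loc B 𝔪 :=
  ⟨1, b, hb, by rw [Subring.coe_one, one_div]⟩

/-- `B ⊆ B_𝔪`. -/
theorem s36_h4_mem_loc (B : Subring F) (𝔪 : Ideal B) [h𝔪 : 𝔪.IsPrime] {z : F} (hz : z ∈ B) :
    z ∈ s18_loc B 𝔪 :=
  ⟨⟨z, hz⟩, 1, fun h => h𝔪.ne_top ((Ideal.eq_top_iff_one 𝔪).mpr h), by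
    rw [Subring.coe_one, div_one]⟩

end LocBasic

section Hunr

variable (M : ℕ) [NeZero M] (K : Type*) [Field K] [Algebra ℚ K] [Algebra K Kbar]

/-- `hunr` for a level-4 function `y` (`y² = x y + 16 x`, `x` of level-2 type up to `σ`) which,
together with `y + 16`, is a unit at the point `𝔪` (localised form). -/
theorem s36_h4_hunr_four (B : Subring (laurentBaseChange K (modularFunctionFieldFull M))) (𝔪 : Ideal B)
    (x y : laurentBaseChange K (modularFunctionFieldFull M)) (hyinv : y⁻¹ ∈ s18_loc B 𝔪) (hy16 : (y + 16)⁻¹ ∈ s18_loc B 𝔪)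
    (hrel : y ^ 2 = x * y + 16 * x)
    (σ : FF M ≃ₐ[Kbar] FF M)
    (hσ : jF M * (σ (s18_baseIncl K M x)) ^ 2 = (σ (s18_baseIncl K M x) + 256) ^ 3) :
    ∀ W : ValuationSubring (laurentBaseChange K (modularFunctionFieldFull M)), B ≤ W.toSubring →
      (∀ b : B, b ∉ 𝔪 → ((b : laurentBaseChange K (modularFunctionFieldFull M)))⁻¹ ∈ W) →
      ∀ (P : Place Kbar (FF M)) (c : Kbar),
      (∀ z ∈ W, s18_baseIncl K M z ∈ P.toValuationSubring) →
      0 < P.ord (s18_baseIncl K M y - algebraMap Kbar (FF M) c) →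
      P.ord (s18_baseIncl K M y - algebraMap Kbar (FF M) c) = 1 := by
  intro W hBW hinv P c hWP hpos
  exact s36_h4_unr_four M K W x y (s36_h4_loc_mem B 𝔪 W hBW hinv hyinv)
    (s36_h4_loc_mem B 𝔪 W hBW hinv hy16) hrel σ hσ P c hWP hpos

/-- `hunr` for a level-9 function `y` (`y³ = x (y² + 9 y + 27)`, `x` of level-3 type up to `σ`)
which, together with `y² + 9 y + 27`, is a unit at the point `𝔪` (localised form). -/
theorem s36_h4_hunr_nine (B : Subring (laurentBaseChange K (modularFunctionFieldFull M))) (𝔪 : Ideal B)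
    (x y : laurentBaseChange K (modularFunctionFieldFull M)) (hyinv : y⁻¹ ∈ s18_loc B 𝔪) (hy27 : (y ^ 2 + 9 * y + 27)⁻¹ ∈ s18_loc B 𝔪)
    (hrel : y ^ 3 = x * (y ^ 2 + 9 * y + 27))
    (σ : FF M ≃ₐ[Kbar] FF M)
    (hσ : jF M * (σ (s18_baseIncl K M x)) ^ 3 =
      (σ (s18_baseIncl K M x) + 27) * (σ (s18_baseIncl K M x) + 243) ^ 3) :
    ∀ W : ValuationSubring (laurentBaseChange K (modularFunctionFieldFull M)), B ≤ W.toSubring →
      (∀ b : B, b ∉ 𝔪 → ((b : laurentBaseChange K (modularFunctionFieldFull M)))⁻¹ ∈ W) →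
      ∀ (P : Place Kbar (FF M)) (c : Kbar),
      (∀ z ∈ W, s18_baseIncl K M z ∈ P.toValuationSubring) →
      0 < P.ord (s18_baseIncl K M y - algebraMap Kbar (FF M) c) →
      P.ord (s18_baseIncl K M y - algebraMap Kbar (FF M) c) = 1 := by
  intro W hBW hinv P c hWP hpos
  exact s36_h4_unr_nine M K W x y (s36_h4_loc_mem B 𝔪 W hBW hinv hyinv)
    (s36_h4_loc_mem B 𝔪 W hBW hinv hy27) hrel σ hσ P c hWP hpos

/-- `hunr` for a level-2 Hauptmodul-type function, localised form. -/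
theorem s36_h4_hunr_two_loc (B : Subring (laurentBaseChange K (modularFunctionFieldFull M))) (𝔪 : Ideal B)
    (y : laurentBaseChange K (modularFunctionFieldFull M)) (hyinv : y⁻¹ ∈ s18_loc B 𝔪) (hy64 : (y + 64)⁻¹ ∈ s18_loc B 𝔪)
    (σ : FF M ≃ₐ[Kbar] FF M)
    (hσ : jF M * (σ (s18_baseIncl K M y)) ^ 2 = (σ (s18_baseIncl K M y) + 256) ^ 3) :
    ∀ W : ValuationSubring (laurentBaseChange K (modularFunctionFieldFull M)), B ≤ W.toSubring →
      (∀ b : B, b ∉ 𝔪 → ((b : laurentBaseChange K (modularFunctionFieldFull M)))⁻¹ ∈ W) →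
      ∀ (P : Place Kbar (FF M)) (c : Kbar),
      (∀ z ∈ W, s18_baseIncl K M z ∈ P.toValuationSubring) →
      0 < P.ord (s18_baseIncl K M y - algebraMap Kbar (FF M) c) →
      P.ord (s18_baseIncl K M y - algebraMap Kbar (FF M) c) = 1 := by
  intro W hBW hinv P c hWP hpos
  exact s36_hg_unr_two M K W y (s36_h4_loc_mem B 𝔪 W hBW hinv hyinv)
    (s36_h4_loc_mem B 𝔪 W hBW hinv hy64) σ hσ P c hWP hpos

/-- `hunr` for a level-3 Hauptmodul-type function, localised form. -/
theorem s36_h4_hunr_three_loc (B : Subring (laurentBaseChange K (modularFunctionFieldFull M))) (𝔪 : Ideal B)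
    (y : laurentBaseChange K (modularFunctionFieldFull M)) (hyinv : y⁻¹ ∈ s18_loc B 𝔪) (hy27 : (y + 27)⁻¹ ∈ s18_loc B 𝔪)
    (σ : FF M ≃ₐ[Kbar] FF M)
    (hσ : jF M * (σ (s18_baseIncl K M y)) ^ 3 =
      (σ (s18_baseIncl K M y) + 27) * (σ (s18_baseIncl K M y) + 243) ^ 3) :
    ∀ W : ValuationSubring (laurentBaseChange K (modularFunctionFieldFull M)), B ≤ W.toSubring →
      (∀ b : B, b ∉ 𝔪 → ((b : laurentBaseChange K (modularFunctionFieldFull M)))⁻¹ ∈ W) →
      ∀ (P : Place Kbar (FF M)) (c : Kbar),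
      (∀ z ∈ W, s18_baseIncl K M z ∈ P.toValuationSubring) →
      0 < P.ord (s18_baseIncl K M y - algebraMap Kbar (FF M) c) →
      P.ord (s18_baseIncl K M y - algebraMap Kbar (FF M) c) = 1 := by
  intro W hBW hinv P c hWP hpos
  exact s36_hg_unr_three M K W y (s36_h4_loc_mem B 𝔪 W hBW hinv hyinv)
    (s36_h4_loc_mem B 𝔪 W hBW hinv hy27) σ hσ P c hWP hpos

variable (A : ValuationSubring K)

/-- **`hhor` for `ρ̃⁻¹`, scaled, localised**: `θ x' = n · ρ̃ · θ x` with `x, x' ∈ B_𝔪`. -/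
theorem s36_h4_hhor_inv_loc [IsDiscreteValuationRing (A)] {π : A}
    (hπ : Irreducible π) (B : Subring (laurentBaseChange K (modularFunctionFieldFull M)))
    (hAB : ∀ a : A, algebraMap (A) (laurentBaseChange K (modularFunctionFieldFull M)) a ∈ B)
    (𝔪 : Ideal B) (x x' ρt : laurentBaseChange K (modularFunctionFieldFull M)) (hx : x ∈ s18_loc B 𝔪) (hx' : x' ∈ s18_loc B 𝔪) (n : ℕ)
    (hθx' : s36_qt_theta K (x' : LaurentSeries K) ≠ 0)
    (hr : s36_qt_theta K (x' : LaurentSeries K) =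
      (n : LaurentSeries K) * (ρt : LaurentSeries K) * s36_qt_theta K (x : LaurentSeries K))
    (hunr : ∀ W : ValuationSubring (laurentBaseChange K (modularFunctionFieldFull M)), B ≤ W.toSubring →
      (∀ b : B, b ∉ 𝔪 → ((b : laurentBaseChange K (modularFunctionFieldFull M)))⁻¹ ∈ W) →
      ∀ (P : Place Kbar (FF M)) (c : Kbar),
      (∀ y ∈ W, s18_baseIncl K M y ∈ P.toValuationSubring) →
      0 < P.ord (s18_baseIncl K M x' - algebraMap Kbar (FF M) c) →
      P.ord (s18_baseIncl K M x' - algebraMap Kbar (FF M) c) = 1) :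
    ∀ W : ValuationSubring (laurentBaseChange K (modularFunctionFieldFull M)), IsDiscreteValuationRing W → B ≤ W.toSubring →
      (∀ b : B, b ∉ 𝔪 → ((b : laurentBaseChange K (modularFunctionFieldFull M)))⁻¹ ∈ W) →
      (algebraMap (A) (laurentBaseChange K (modularFunctionFieldFull M)) π)⁻¹ ∈ W → ρt⁻¹ ∈ W := by
  intro W hW hBW hinv hπW
  haveI := hW
  have hr' : s36_qt_theta K (x' : LaurentSeries K) =
      (((n : laurentBaseChange K (modularFunctionFieldFull M)) * ρt : laurentBaseChange K (modularFunctionFieldFull M)) : LaurentSeries K) *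
        s36_qt_theta K (x : LaurentSeries K) := by
    rw [hr]
    rfl
  have h1 := s36_hg_inv_mem_bar M K W (s36_hg_const_mem M K A hπ B hAB W hBW hπW) x x'
    ((n : laurentBaseChange K (modularFunctionFieldFull M)) * ρt) (s36_h4_loc_mem B 𝔪 W hBW hinv hx) (s36_h4_loc_mem B 𝔪 W hBW hinv hx')
    hθx' hr' (fun P c hWP _ hpos => hunr W hBW hinv P c hWP hpos)
  have hn := (s36_hg_natCast_mem M K A hπ B hAB W hBW hπW n).1
  have hn0 : (n : laurentBaseChange K (modularFunctionFieldFull M)) ≠ 0 := by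
    intro h0
    rw [h0, zero_mul, inv_zero] at h1
    apply hθx'
    rw [hr']
    rw [h0, zero_mul]
    simp
  have e : ρt⁻¹ = (n : laurentBaseChange K (modularFunctionFieldFull M)) * ((n : laurentBaseChange K (modularFunctionFieldFull M)) * ρt)⁻¹ := by
    rw [mul_inv, ← mul_assoc, mul_inv_cancel₀ hn0, one_mul]
  rw [e]
  exact W.mul_mem _ _ hn h1

/-- **`hρinv` in the model, general form**: `θ x' = n · ρ̃ · θ x`, `x, x' ∈ B_𝔪`, and `x'`
unramified at the `ℚ̄`-places through the point. -/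
theorem s36_h4_model_rhoinv_gen [IsDiscreteValuationRing (A)] {π : A} (hπ : Irreducible π)
    (B V₁ V₂ : Subring (laurentBaseChange K (modularFunctionFieldFull M)))
    (hAB : ∀ a : A, algebraMap (A) (laurentBaseChange K (modularFunctionFieldFull M)) a ∈ B)
    (hV₁ : s34_Unif (algebraMap (A) (laurentBaseChange K (modularFunctionFieldFull M)) π) V₁)
    (hV₂ : s34_Unif (algebraMap (A) (laurentBaseChange K (modularFunctionFieldFull M)) π) V₂)
    (hB₁ : B ≤ V₁) (hB₂ : B ≤ V₂)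
    (hnoeth : IsNoetherianRing B)
    (hfrac : ∀ x : laurentBaseChange K (modularFunctionFieldFull M), ∃ a ∈ B, ∃ b ∈ B, b ≠ 0 ∧ x = a / b)
    (hnorm : ∀ z : laurentBaseChange K (modularFunctionFieldFull M), IsIntegral B z → z ∈ B)
    (hcap : ∀ x ∈ B, (algebraMap (A) (laurentBaseChange K (modularFunctionFieldFull M)) π)⁻¹ * x ∈ V₁ →
      (algebraMap (A) (laurentBaseChange K (modularFunctionFieldFull M)) π)⁻¹ * x ∈ V₂ →
      (algebraMap (A) (laurentBaseChange K (modularFunctionFieldFull M)) π)⁻¹ * x ∈ B)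
    (𝔪 : Ideal B) [h𝔪 : 𝔪.IsPrime]
    (x x' ρt : laurentBaseChange K (modularFunctionFieldFull M)) (hx : x ∈ s18_loc B 𝔪) (hx' : x' ∈ s18_loc B 𝔪) (n : ℕ)
    (hθx' : s36_qt_theta K (x' : LaurentSeries K) ≠ 0)
    (hr : s36_qt_theta K (x' : LaurentSeries K) =
      (n : LaurentSeries K) * (ρt : LaurentSeries K) * s36_qt_theta K (x : LaurentSeries K))
    (hρ₁ : ρt⁻¹ ∈ V₁)
    (hρ₂ : (algebraMap (A) (laurentBaseChange K (modularFunctionFieldFull M)) π)⁻¹ * ρt⁻¹ ∈ V₂)
    (hunr : ∀ W : ValuationSubring (laurentBaseChange K (modularFunctionFieldFull M)), B ≤ W.toSubring →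
      (∀ b : B, b ∉ 𝔪 → ((b : laurentBaseChange K (modularFunctionFieldFull M)))⁻¹ ∈ W) →
      ∀ (P : Place Kbar (FF M)) (c : Kbar),
      (∀ y ∈ W, s18_baseIncl K M y ∈ P.toValuationSubring) →
      0 < P.ord (s18_baseIncl K M x' - algebraMap Kbar (FF M) c) →
      P.ord (s18_baseIncl K M x' - algebraMap Kbar (FF M) c) = 1) :
    ∃ a b : B, b ∉ 𝔪 ∧ (b : laurentBaseChange K (modularFunctionFieldFull M)) = ρt * (a : laurentBaseChange K (modularFunctionFieldFull M)) ∧
      (algebraMap (A) (laurentBaseChange K (modularFunctionFieldFull M)) π)⁻¹ * (a : laurentBaseChange K (modularFunctionFieldFull M)) ∈ V₂ := by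
  have hρ0 : ρt ≠ 0 := by
    rintro rfl
    apply hθx'
    rw [hr]
    simp
  exact s36_np_rhoinv B V₁ V₂ _ hV₁ hV₂ hB₁ hB₂ (hAB π) hnoeth hfrac hnorm hcap 𝔪 ρt hρ0 hρ₁ hρ₂
    (s36_h4_hhor_inv_loc M K A hπ B hAB 𝔪 x x' ρt hx hx' n hθx' hr hunr)

end Hunr

section Model

variable (K : Type*) [Field K] [Algebra ℚ K] [Algebra K Kbar] (A : ValuationSubring K)

/-- **`hρinv` in the model, level-4 coordinate, localised form.**  `y' = T₄(Q^q)`
(`y'² = x₂' y' + 16 x₂'` with `x₂' = t₂(Q^q)`; `x₂'` need not be regular at the point), with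
`y'`, `y'⁻¹`, `(y' + 16)⁻¹ ∈ B_𝔪`; `x ∈ B_𝔪` is the coordinate with `θ y' = q ρ̃ θ x`
(typically `x = T₄`).  No bad value. -/
theorem s36_h4_model_rhoinv_four_loc (N q : ℕ) [NeZero N] [NeZero q] (hcop : Nat.Coprime q N)
    [IsDiscreteValuationRing (A)] {π : A} (hπ : Irreducible π)
    (B V₁ V₂ : Subring (laurentBaseChange K (modularFunctionFieldFull (N * q))))
    (hAB : ∀ a : A, algebraMap (A) (laurentBaseChange K (modularFunctionFieldFull (N * q))) a ∈ B)
    (hV₁ : s34_Unif (algebraMap (A) (laurentBaseChange K (modularFunctionFieldFull (N * q))) π) V₁)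
    (hV₂ : s34_Unif (algebraMap (A) (laurentBaseChange K (modularFunctionFieldFull (N * q))) π) V₂)
    (hB₁ : B ≤ V₁) (hB₂ : B ≤ V₂)
    (hnoeth : IsNoetherianRing B)
    (hfrac : ∀ x : laurentBaseChange K (modularFunctionFieldFull (N * q)), ∃ a ∈ B, ∃ b ∈ B, b ≠ 0 ∧ x = a / b)
    (hnorm : ∀ z : laurentBaseChange K (modularFunctionFieldFull (N * q)), IsIntegral B z → z ∈ B)
    (hcap : ∀ x ∈ B, (algebraMap (A) (laurentBaseChange K (modularFunctionFieldFull (N * q))) π)⁻¹ * x ∈ V₁ →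
      (algebraMap (A) (laurentBaseChange K (modularFunctionFieldFull (N * q))) π)⁻¹ * x ∈ V₂ →
      (algebraMap (A) (laurentBaseChange K (modularFunctionFieldFull (N * q))) π)⁻¹ * x ∈ B)
    (𝔪 : Ideal B) [h𝔪 : 𝔪.IsPrime]
    (x x2' y' ρt : laurentBaseChange K (modularFunctionFieldFull (N * q))) (hx : x ∈ s18_loc B 𝔪) (hy' : y' ∈ s18_loc B 𝔪)
    (hx2'e : (x2' : LaurentSeries K) = qExpand K q (s18_t2R K))
    (hrel : y' ^ 2 = x2' * y' + 16 * x2')
    (hy'inv : y'⁻¹ ∈ s18_loc B 𝔪) (hy'16 : (y' + 16)⁻¹ ∈ s18_loc B 𝔪)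
    (hr : s36_qt_theta K (y' : LaurentSeries K) =
      (q : LaurentSeries K) * (ρt : LaurentSeries K) * s36_qt_theta K (x : LaurentSeries K))
    (hρ₁ : ρt⁻¹ ∈ V₁)
    (hρ₂ : (algebraMap (A) (laurentBaseChange K (modularFunctionFieldFull (N * q))) π)⁻¹ * ρt⁻¹ ∈ V₂) :
    ∃ a b : B, b ∉ 𝔪 ∧ (b : laurentBaseChange K (modularFunctionFieldFull (N * q))) = ρt * (a : laurentBaseChange K (modularFunctionFieldFull (N * q))) ∧
      (algebraMap (A) (laurentBaseChange K (modularFunctionFieldFull (N * q))) π)⁻¹ * (a : laurentBaseChange K (modularFunctionFieldFull (N * q))) ∈ V₂ := by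
  have hθx2' : s36_qt_theta K (x2' : LaurentSeries K) ≠ 0 := by
    rw [hx2'e]
    exact s36_hg_theta_qExpand_ne K q (s18h_lead_t2R K)
  have hθy' := s36_h4_theta_ne_four (N * q) K x2' y' hrel hθx2'
  obtain ⟨σ, hσ⟩ := s36_hg_sigma_two K N q hcop x2' hx2'e
  exact s36_h4_model_rhoinv_gen (N * q) K A hπ B V₁ V₂ hAB hV₁ hV₂ hB₁ hB₂ hnoeth hfrac hnorm
    hcap 𝔪 x y' ρt hx hy' q hθy' hr hρ₁ hρ₂
    (s36_h4_hunr_four (N * q) K B 𝔪 x2' y' hy'inv hy'16 hrel σ hσ)

/-- **`hρinv` in the model, level-9 coordinate, localised form.**  `y' = T₉(Q^q)`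
(`y'³ = x₃' (y'² + 9 y' + 27)` with `x₃' = t₃(Q^q)`), with `y'`, `y'⁻¹`,
`(y'² + 9 y' + 27)⁻¹ ∈ B_𝔪`.  No bad value. -/
theorem s36_h4_model_rhoinv_nine_loc (N q : ℕ) [NeZero N] [NeZero q] (hcop : Nat.Coprime q N)
    [IsDiscreteValuationRing (A)] {π : A} (hπ : Irreducible π)
    (B V₁ V₂ : Subring (laurentBaseChange K (modularFunctionFieldFull (N * q))))
    (hAB : ∀ a : A, algebraMap (A) (laurentBaseChange K (modularFunctionFieldFull (N * q))) a ∈ B)
    (hV₁ : s34_Unif (algebraMap (A) (laurentBaseChange K (modularFunctionFieldFull (N * q))) π) V₁)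
    (hV₂ : s34_Unif (algebraMap (A) (laurentBaseChange K (modularFunctionFieldFull (N * q))) π) V₂)
    (hB₁ : B ≤ V₁) (hB₂ : B ≤ V₂)
    (hnoeth : IsNoetherianRing B)
    (hfrac : ∀ x : laurentBaseChange K (modularFunctionFieldFull (N * q)), ∃ a ∈ B, ∃ b ∈ B, b ≠ 0 ∧ x = a / b)
    (hnorm : ∀ z : laurentBaseChange K (modularFunctionFieldFull (N * q)), IsIntegral B z → z ∈ B)
    (hcap : ∀ x ∈ B, (algebraMap (A) (laurentBaseChange K (modularFunctionFieldFull (N * q))) π)⁻¹ * x ∈ V₁ →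
      (algebraMap (A) (laurentBaseChange K (modularFunctionFieldFull (N * q))) π)⁻¹ * x ∈ V₂ →
      (algebraMap (A) (laurentBaseChange K (modularFunctionFieldFull (N * q))) π)⁻¹ * x ∈ B)
    (𝔪 : Ideal B) [h𝔪 : 𝔪.IsPrime]
    (x x3' y' ρt : laurentBaseChange K (modularFunctionFieldFull (N * q))) (hx : x ∈ s18_loc B 𝔪) (hy' : y' ∈ s18_loc B 𝔪)
    (hx3'e : (x3' : LaurentSeries K) = qExpand K q (s18_t3R K))
    (hrel : y' ^ 3 = x3' * (y' ^ 2 + 9 * y' + 27))
    (hy'inv : y'⁻¹ ∈ s18_loc B 𝔪) (hy'27 : (y' ^ 2 + 9 * y' + 27)⁻¹ ∈ s18_loc B 𝔪)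
    (hr : s36_qt_theta K (y' : LaurentSeries K) =
      (q : LaurentSeries K) * (ρt : LaurentSeries K) * s36_qt_theta K (x : LaurentSeries K))
    (hρ₁ : ρt⁻¹ ∈ V₁)
    (hρ₂ : (algebraMap (A) (laurentBaseChange K (modularFunctionFieldFull (N * q))) π)⁻¹ * ρt⁻¹ ∈ V₂) :
    ∃ a b : B, b ∉ 𝔪 ∧ (b : laurentBaseChange K (modularFunctionFieldFull (N * q))) = ρt * (a : laurentBaseChange K (modularFunctionFieldFull (N * q))) ∧
      (algebraMap (A) (laurentBaseChange K (modularFunctionFieldFull (N * q))) π)⁻¹ * (a : laurentBaseChange K (modularFunctionFieldFull (N * q))) ∈ V₂ := by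
  have hθx3' : s36_qt_theta K (x3' : LaurentSeries K) ≠ 0 := by
    rw [hx3'e]
    exact s36_hg_theta_qExpand_ne K q (s18h_lead_t3R K)
  have hθy' := s36_h4_theta_ne_nine (N * q) K x3' y' hrel hθx3'
  obtain ⟨σ, hσ⟩ := s36_hg_sigma_three K N q hcop x3' hx3'e
  exact s36_h4_model_rhoinv_gen (N * q) K A hπ B V₁ V₂ hAB hV₁ hV₂ hB₁ hB₂ hnoeth hfrac hnorm
    hcap 𝔪 x y' ρt hx hy' q hθy' hr hρ₁ hρ₂
    (s36_h4_hunr_nine (N * q) K B 𝔪 x3' y' hy'inv hy'27 hrel σ hσ)

/-- **`hρinv` in the model, level-2 coordinate, localised form**: `x' = t₂(Q^q)` with `x'`,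
`x'⁻¹`, `(x' + 64)⁻¹ ∈ B_𝔪`. -/
theorem s36_h4_model_rhoinv_two_loc (N q : ℕ) [NeZero N] [NeZero q] (hcop : Nat.Coprime q N)
    [IsDiscreteValuationRing (A)] {π : A} (hπ : Irreducible π)
    (B V₁ V₂ : Subring (laurentBaseChange K (modularFunctionFieldFull (N * q))))
    (hAB : ∀ a : A, algebraMap (A) (laurentBaseChange K (modularFunctionFieldFull (N * q))) a ∈ B)
    (hV₁ : s34_Unif (algebraMap (A) (laurentBaseChange K (modularFunctionFieldFull (N * q))) π) V₁)
    (hV₂ : s34_Unif (algebraMap (A) (laurentBaseChange K (modularFunctionFieldFull (N * q))) π) V₂)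
    (hB₁ : B ≤ V₁) (hB₂ : B ≤ V₂)
    (hnoeth : IsNoetherianRing B)
    (hfrac : ∀ x : laurentBaseChange K (modularFunctionFieldFull (N * q)), ∃ a ∈ B, ∃ b ∈ B, b ≠ 0 ∧ x = a / b)
    (hnorm : ∀ z : laurentBaseChange K (modularFunctionFieldFull (N * q)), IsIntegral B z → z ∈ B)
    (hcap : ∀ x ∈ B, (algebraMap (A) (laurentBaseChange K (modularFunctionFieldFull (N * q))) π)⁻¹ * x ∈ V₁ →
      (algebraMap (A) (laurentBaseChange K (modularFunctionFieldFull (N * q))) π)⁻¹ * x ∈ V₂ →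
      (algebraMap (A) (laurentBaseChange K (modularFunctionFieldFull (N * q))) π)⁻¹ * x ∈ B)
    (𝔪 : Ideal B) [h𝔪 : 𝔪.IsPrime]
    (x x' ρt : laurentBaseChange K (modularFunctionFieldFull (N * q))) (hx : x ∈ s18_loc B 𝔪) (hx' : x' ∈ s18_loc B 𝔪)
    (hx'e : (x' : LaurentSeries K) = qExpand K q (s18_t2R K))
    (hx'inv : x'⁻¹ ∈ s18_loc B 𝔪) (hx'64 : (x' + 64)⁻¹ ∈ s18_loc B 𝔪)
    (hr : s36_qt_theta K (x' : LaurentSeries K) =
      (q : LaurentSeries K) * (ρt : LaurentSeries K) * s36_qt_theta K (x : LaurentSeries K))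
    (hρ₁ : ρt⁻¹ ∈ V₁)
    (hρ₂ : (algebraMap (A) (laurentBaseChange K (modularFunctionFieldFull (N * q))) π)⁻¹ * ρt⁻¹ ∈ V₂) :
    ∃ a b : B, b ∉ 𝔪 ∧ (b : laurentBaseChange K (modularFunctionFieldFull (N * q))) = ρt * (a : laurentBaseChange K (modularFunctionFieldFull (N * q))) ∧
      (algebraMap (A) (laurentBaseChange K (modularFunctionFieldFull (N * q))) π)⁻¹ * (a : laurentBaseChange K (modularFunctionFieldFull (N * q))) ∈ V₂ := by
  have hθx' : s36_qt_theta K (x' : LaurentSeries K) ≠ 0 := by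
    rw [hx'e]
    exact s36_hg_theta_qExpand_ne K q (s18h_lead_t2R K)
  obtain ⟨σ, hσ⟩ := s36_hg_sigma_two K N q hcop x' hx'e
  exact s36_h4_model_rhoinv_gen (N * q) K A hπ B V₁ V₂ hAB hV₁ hV₂ hB₁ hB₂ hnoeth hfrac hnorm
    hcap 𝔪 x x' ρt hx hx' q hθx' hr hρ₁ hρ₂
    (s36_h4_hunr_two_loc (N * q) K B 𝔪 x' hx'inv hx'64 σ hσ)

/-- **`hρinv` in the model, level-3 coordinate, localised form**: `x' = t₃(Q^q)` with `x'`,
`x'⁻¹`, `(x' + 27)⁻¹ ∈ B_𝔪`. -/
theorem s36_h4_model_rhoinv_three_loc (N q : ℕ) [NeZero N] [NeZero q] (hcop : Nat.Coprime q N)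
    [IsDiscreteValuationRing (A)] {π : A} (hπ : Irreducible π)
    (B V₁ V₂ : Subring (laurentBaseChange K (modularFunctionFieldFull (N * q))))
    (hAB : ∀ a : A, algebraMap (A) (laurentBaseChange K (modularFunctionFieldFull (N * q))) a ∈ B)
    (hV₁ : s34_Unif (algebraMap (A) (laurentBaseChange K (modularFunctionFieldFull (N * q))) π) V₁)
    (hV₂ : s34_Unif (algebraMap (A) (laurentBaseChange K (modularFunctionFieldFull (N * q))) π) V₂)
    (hB₁ : B ≤ V₁) (hB₂ : B ≤ V₂)
    (hnoeth : IsNoetherianRing B)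
    (hfrac : ∀ x : laurentBaseChange K (modularFunctionFieldFull (N * q)), ∃ a ∈ B, ∃ b ∈ B, b ≠ 0 ∧ x = a / b)
    (hnorm : ∀ z : laurentBaseChange K (modularFunctionFieldFull (N * q)), IsIntegral B z → z ∈ B)
    (hcap : ∀ x ∈ B, (algebraMap (A) (laurentBaseChange K (modularFunctionFieldFull (N * q))) π)⁻¹ * x ∈ V₁ →
      (algebraMap (A) (laurentBaseChange K (modularFunctionFieldFull (N * q))) π)⁻¹ * x ∈ V₂ →
      (algebraMap (A) (laurentBaseChange K (modularFunctionFieldFull (N * q))) π)⁻¹ * x ∈ B)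
    (𝔪 : Ideal B) [h𝔪 : 𝔪.IsPrime]
    (x x' ρt : laurentBaseChange K (modularFunctionFieldFull (N * q))) (hx : x ∈ s18_loc B 𝔪) (hx' : x' ∈ s18_loc B 𝔪)
    (hx'e : (x' : LaurentSeries K) = qExpand K q (s18_t3R K))
    (hx'inv : x'⁻¹ ∈ s18_loc B 𝔪) (hx'27 : (x' + 27)⁻¹ ∈ s18_loc B 𝔪)
    (hr : s36_qt_theta K (x' : LaurentSeries K) =
      (q : LaurentSeries K) * (ρt : LaurentSeries K) * s36_qt_theta K (x : LaurentSeries K))
    (hρ₁ : ρt⁻¹ ∈ V₁)
    (hρ₂ : (algebraMap (A) (laurentBaseChange K (modularFunctionFieldFull (N * q))) π)⁻¹ * ρt⁻¹ ∈ V₂) :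
    ∃ a b : B, b ∉ 𝔪 ∧ (b : laurentBaseChange K (modularFunctionFieldFull (N * q))) = ρt * (a : laurentBaseChange K (modularFunctionFieldFull (N * q))) ∧
      (algebraMap (A) (laurentBaseChange K (modularFunctionFieldFull (N * q))) π)⁻¹ * (a : laurentBaseChange K (modularFunctionFieldFull (N * q))) ∈ V₂ := by
  have hθx' : s36_qt_theta K (x' : LaurentSeries K) ≠ 0 := by
    rw [hx'e]
    exact s36_hg_theta_qExpand_ne K q (s18h_lead_t3R K)
  obtain ⟨σ, hσ⟩ := s36_hg_sigma_three K N q hcop x' hx'e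
  exact s36_h4_model_rhoinv_gen (N * q) K A hπ B V₁ V₂ hAB hV₁ hV₂ hB₁ hB₂ hnoeth hfrac hnorm
    hcap 𝔪 x x' ρt hx hx' q hθx' hr hρ₁ hρ₂
    (s36_h4_hunr_three_loc (N * q) K B 𝔪 x' hx'inv hx'27 σ hσ)

/-- **`hρinv` in the model, level-4 coordinate** (`x, y' ∈ B`; `y'`, `y' + 16 ∉ 𝔪`). -/
theorem s36_h4_model_rhoinv_four (N q : ℕ) [NeZero N] [NeZero q] (hcop : Nat.Coprime q N)
    [IsDiscreteValuationRing (A)] {π : A} (hπ : Irreducible π)
    (B V₁ V₂ : Subring (laurentBaseChange K (modularFunctionFieldFull (N * q))))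
    (hAB : ∀ a : A, algebraMap (A) (laurentBaseChange K (modularFunctionFieldFull (N * q))) a ∈ B)
    (hV₁ : s34_Unif (algebraMap (A) (laurentBaseChange K (modularFunctionFieldFull (N * q))) π) V₁)
    (hV₂ : s34_Unif (algebraMap (A) (laurentBaseChange K (modularFunctionFieldFull (N * q))) π) V₂)
    (hB₁ : B ≤ V₁) (hB₂ : B ≤ V₂)
    (hnoeth : IsNoetherianRing B)
    (hfrac : ∀ x : laurentBaseChange K (modularFunctionFieldFull (N * q)), ∃ a ∈ B, ∃ b ∈ B, b ≠ 0 ∧ x = a / b)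
    (hnorm : ∀ z : laurentBaseChange K (modularFunctionFieldFull (N * q)), IsIntegral B z → z ∈ B)
    (hcap : ∀ x ∈ B, (algebraMap (A) (laurentBaseChange K (modularFunctionFieldFull (N * q))) π)⁻¹ * x ∈ V₁ →
      (algebraMap (A) (laurentBaseChange K (modularFunctionFieldFull (N * q))) π)⁻¹ * x ∈ V₂ →
      (algebraMap (A) (laurentBaseChange K (modularFunctionFieldFull (N * q))) π)⁻¹ * x ∈ B)
    (𝔪 : Ideal B) [h𝔪 : 𝔪.IsPrime]
    (x x2' y' ρt : laurentBaseChange K (modularFunctionFieldFull (N * q))) (hx : x ∈ B) (hy' : y' ∈ B)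
    (hx2'e : (x2' : LaurentSeries K) = qExpand K q (s18_t2R K))
    (hrel : y' ^ 2 = x2' * y' + 16 * x2')
    (hy'𝔪 : (⟨y', hy'⟩ : B) ∉ 𝔪) (hy'16 : (⟨y', hy'⟩ + 16 : B) ∉ 𝔪)
    (hr : s36_qt_theta K (y' : LaurentSeries K) =
      (q : LaurentSeries K) * (ρt : LaurentSeries K) * s36_qt_theta K (x : LaurentSeries K))
    (hρ₁ : ρt⁻¹ ∈ V₁)
    (hρ₂ : (algebraMap (A) (laurentBaseChange K (modularFunctionFieldFull (N * q))) π)⁻¹ * ρt⁻¹ ∈ V₂) :
    ∃ a b : B, b ∉ 𝔪 ∧ (b : laurentBaseChange K (modularFunctionFieldFull (N * q))) = ρt * (a : laurentBaseChange K (modularFunctionFieldFull (N * q))) ∧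
      (algebraMap (A) (laurentBaseChange K (modularFunctionFieldFull (N * q))) π)⁻¹ * (a : laurentBaseChange K (modularFunctionFieldFull (N * q))) ∈ V₂ := by
  have h1 : y'⁻¹ ∈ s18_loc B 𝔪 := s36_h4_inv_mem_loc B 𝔪 ⟨y', hy'⟩ hy'𝔪
  have h2 : (y' + 16)⁻¹ ∈ s18_loc B 𝔪 := by
    have h3 := s36_h4_inv_mem_loc B 𝔪 (⟨y', hy'⟩ + 16) hy'16
    have e : ((⟨y', hy'⟩ + 16 : B) : laurentBaseChange K (modularFunctionFieldFull (N * q))) = y' + 16 := by
      rw [Subring.coe_add]
      exact congrArg (y' + ·) (map_ofNat B.subtype 16)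
    rwa [e] at h3
  exact s36_h4_model_rhoinv_four_loc K A N q hcop hπ B V₁ V₂ hAB hV₁ hV₂ hB₁ hB₂ hnoeth hfrac
    hnorm hcap 𝔪 x x2' y' ρt (s36_h4_mem_loc B 𝔪 hx) (s36_h4_mem_loc B 𝔪 hy') hx2'e hrel h1 h2
    hr hρ₁ hρ₂

/-- **`hρinv` in the model, level-9 coordinate** (`x, y' ∈ B`; `y'`, `y'² + 9 y' + 27 ∉ 𝔪`). -/
theorem s36_h4_model_rhoinv_nine (N q : ℕ) [NeZero N] [NeZero q] (hcop : Nat.Coprime q N)
    [IsDiscreteValuationRing (A)] {π : A} (hπ : Irreducible π)
    (B V₁ V₂ : Subring (laurentBaseChange K (modularFunctionFieldFull (N * q))))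
    (hAB : ∀ a : A, algebraMap (A) (laurentBaseChange K (modularFunctionFieldFull (N * q))) a ∈ B)
    (hV₁ : s34_Unif (algebraMap (A) (laurentBaseChange K (modularFunctionFieldFull (N * q))) π) V₁)
    (hV₂ : s34_Unif (algebraMap (A) (laurentBaseChange K (modularFunctionFieldFull (N * q))) π) V₂)
    (hB₁ : B ≤ V₁) (hB₂ : B ≤ V₂)
    (hnoeth : IsNoetherianRing B)
    (hfrac : ∀ x : laurentBaseChange K (modularFunctionFieldFull (N * q)), ∃ a ∈ B, ∃ b ∈ B, b ≠ 0 ∧ x = a / b)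
    (hnorm : ∀ z : laurentBaseChange K (modularFunctionFieldFull (N * q)), IsIntegral B z → z ∈ B)
    (hcap : ∀ x ∈ B, (algebraMap (A) (laurentBaseChange K (modularFunctionFieldFull (N * q))) π)⁻¹ * x ∈ V₁ →
      (algebraMap (A) (laurentBaseChange K (modularFunctionFieldFull (N * q))) π)⁻¹ * x ∈ V₂ →
      (algebraMap (A) (laurentBaseChange K (modularFunctionFieldFull (N * q))) π)⁻¹ * x ∈ B)
    (𝔪 : Ideal B) [h𝔪 : 𝔪.IsPrime]
    (x x3' y' ρt : laurentBaseChange K (modularFunctionFieldFull (N * q))) (hx : x ∈ B) (hy' : y' ∈ B)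
    (hx3'e : (x3' : LaurentSeries K) = qExpand K q (s18_t3R K))
    (hrel : y' ^ 3 = x3' * (y' ^ 2 + 9 * y' + 27))
    (hy'𝔪 : (⟨y', hy'⟩ : B) ∉ 𝔪)
    (hy'27 : ((⟨y', hy'⟩ : B) ^ 2 + 9 * (⟨y', hy'⟩ : B) + 27 : B) ∉ 𝔪)
    (hr : s36_qt_theta K (y' : LaurentSeries K) =
      (q : LaurentSeries K) * (ρt : LaurentSeries K) * s36_qt_theta K (x : LaurentSeries K))
    (hρ₁ : ρt⁻¹ ∈ V₁)
    (hρ₂ : (algebraMap (A) (laurentBaseChange K (modularFunctionFieldFull (N * q))) π)⁻¹ * ρt⁻¹ ∈ V₂) :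
    ∃ a b : B, b ∉ 𝔪 ∧ (b : laurentBaseChange K (modularFunctionFieldFull (N * q))) = ρt * (a : laurentBaseChange K (modularFunctionFieldFull (N * q))) ∧
      (algebraMap (A) (laurentBaseChange K (modularFunctionFieldFull (N * q))) π)⁻¹ * (a : laurentBaseChange K (modularFunctionFieldFull (N * q))) ∈ V₂ := by
  have h1 : y'⁻¹ ∈ s18_loc B 𝔪 := s36_h4_inv_mem_loc B 𝔪 ⟨y', hy'⟩ hy'𝔪
  have h2 : (y' ^ 2 + 9 * y' + 27)⁻¹ ∈ s18_loc B 𝔪 := by
    have h3 := s36_h4_inv_mem_loc B 𝔪 _ hy'27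
    have e9 : ((9 : B) : laurentBaseChange K (modularFunctionFieldFull (N * q))) = 9 := map_ofNat B.subtype 9
    have e27 : ((27 : B) : laurentBaseChange K (modularFunctionFieldFull (N * q))) = 27 := map_ofNat B.subtype 27
    have e : (((⟨y', hy'⟩ : B) ^ 2 + 9 * (⟨y', hy'⟩ : B) + 27 : B) : laurentBaseChange K (modularFunctionFieldFull (N * q))) =
        y' ^ 2 + 9 * y' + 27 := by
      rw [Subring.coe_add, Subring.coe_add, Subring.coe_mul, Subring.coe_pow, e9, e27]
    rwa [e] at h3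
  exact s36_h4_model_rhoinv_nine_loc K A N q hcop hπ B V₁ V₂ hAB hV₁ hV₂ hB₁ hB₂ hnoeth hfrac
    hnorm hcap 𝔪 x x3' y' ρt (s36_h4_mem_loc B 𝔪 hx) (s36_h4_mem_loc B 𝔪 hy') hx3'e hrel h1 h2
    hr hρ₁ hρ₂

end Model

end Fermat.Agent.S36
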