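import Fermat.Agent.S36.QHasse

/-!
# S36 (NODE-3), leaf (QS2): `θ = q d/dq` on Laurent series and `(θ j)^6 = j^4 (j - 1728)^3 Δ`

* `s36_qt_theta R` : the derivation `θ = q d/dq` of `LaurentSeries R` (coefficientwise
  multiplication by the exponent); `s36_qt_theta_mul`, `s36_qt_theta_coeffMap`, ...
* `s36_qt_hasQExp_D` : termwise differentiation of `q`-expansions (`D g` has expansion `θ s`).
* `s36_qt_ramanujan` : `3 θE₄ · Δ - E₄ · θΔ = - E₆ · Δ` as `q`-series.
* `s36_qt_main_int` / `s36_qt_main` : `(θ j)^6 = j^4 (j - 1728)^3 Δ` over `ℤ`, hence over any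
  commutative ring.
* `s36_qt_hasse` : for a prime `q ≥ 5`, with the formal Hasse polynomial `P` of `s36_qh_main`:
  `(θ j̄)^(6 (q - 1)) · P(j̄) = (j̄^4 (j̄ - 1728)^3)^(q - 1)` in `𝔽_q((q))`.
-/

set_option autoImplicit false
set_option linter.style.haveILetI false
set_option linter.unusedSectionVars false
set_option linter.deprecated false

open UpperHalfPlane ModularForm Complex ModularCurve
open scoped Real MatrixGroups CongruenceSubgroup Manifold

noncomputable section

namespace Fermat.Agent.S36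

open Fermat.Agent.S28

/-- `θ = q d/dq` on Laurent series: multiplies the coefficient of `q^n` by `n`. -/
def s36_qt_theta (R : Type*) [CommRing R] : LaurentSeries R →+ LaurentSeries R where
  toFun f := ⟨fun n => (n : R) * f.coeff n, f.isPWO_support.mono (fun n hn => by
    simp only [Function.mem_support, ne_eq, HahnSeries.mem_support] at hn ⊢
    intro h0
    exact hn (by rw [h0, mul_zero]))⟩
  map_zero' := by
    ext n
    simp
  map_add' f g := by
    ext n
    simp [mul_add]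

theorem s36_qt_theta_coeff (R : Type*) [CommRing R] (f : LaurentSeries R) (n : ℤ) :
    (s36_qt_theta R f).coeff n = (n : R) * f.coeff n := rfl

section Formal

variable {R : Type*} [CommRing R]

theorem s36_qt_support_theta (f : LaurentSeries R) :
    (s36_qt_theta R f).support ⊆ f.support := by
  intro n hn
  simp only [HahnSeries.mem_support, ne_eq, s36_qt_theta_coeff] at hn ⊢
  intro h0
  exact hn (by rw [h0, mul_zero])

/-- `θ` is a derivation. -/
theorem s36_qt_theta_mul (f g : LaurentSeries R) :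
    s36_qt_theta R (f * g) = s36_qt_theta R f * g + f * s36_qt_theta R g := by
  ext n
  rw [HahnSeries.coeff_add, s36_qt_theta_coeff, HahnSeries.coeff_mul,
    HahnSeries.coeff_mul_left' (x := s36_qt_theta R f) (y := g) f.isPWO_support
      (s36_qt_support_theta f),
    HahnSeries.coeff_mul_right' (x := f) (y := s36_qt_theta R g) g.isPWO_support
      (s36_qt_support_theta g),
    Finset.mul_sum, ← Finset.sum_add_distrib]
  refine Finset.sum_congr rfl fun ij hij => ?_
  rw [Finset.mem_addAntidiagonal] at hij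
  obtain ⟨-, -, hsum⟩ := hij
  rw [s36_qt_theta_coeff, s36_qt_theta_coeff, ← hsum]
  push_cast
  ring

theorem s36_qt_theta_one : s36_qt_theta R (1 : LaurentSeries R) = 0 := by
  ext n
  rw [s36_qt_theta_coeff, HahnSeries.coeff_one, HahnSeries.coeff_zero]
  split_ifs with h
  · subst h
    simp
  · simp

theorem s36_qt_theta_C (a : R) : s36_qt_theta R (HahnSeries.C a : LaurentSeries R) = 0 := by
  ext n
  rw [s36_qt_theta_coeff, HahnSeries.coeff_zero, HahnSeries.C_apply, HahnSeries.coeff_single]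
  split_ifs with h
  · subst h
    simp
  · simp

theorem s36_qt_theta_pow (f : LaurentSeries R) (n : ℕ) :
    s36_qt_theta R (f ^ (n + 1)) = (n + 1 : ℕ) • (f ^ n * s36_qt_theta R f) := by
  induction n with
  | zero => simp
  | succ n ih =>
    rw [pow_succ, s36_qt_theta_mul, ih]
    simp only [nsmul_eq_mul, Nat.cast_add, Nat.cast_one]
    ring

theorem s36_qt_theta_coeffMap {S : Type*} [CommRing S] (φ : R →+* S) (f : LaurentSeries R) :
    s36_qt_theta S (coeffMap φ f) = coeffMap φ (s36_qt_theta R f) := by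
  ext n
  show (n : S) * φ (f.coeff n) = φ ((n : R) * f.coeff n)
  rw [map_mul, map_intCast]

/-- Order bound: all coefficients below `k` vanish. -/
def s36_qt_Ord (f : LaurentSeries R) (k : ℤ) : Prop := ∀ n < k, f.coeff n = 0

theorem s36_qt_Ord.mul {f g : LaurentSeries R} {a b : ℤ} (hf : s36_qt_Ord f a)
    (hg : s36_qt_Ord g b) : s36_qt_Ord (f * g) (a + b) := by
  intro n hn
  rw [HahnSeries.coeff_mul]
  refine Finset.sum_eq_zero fun ij hij => ?_
  rw [Finset.mem_addAntidiagonal] at hij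
  obtain ⟨-, -, hsum⟩ := hij
  rcases lt_or_ge ij.1 a with h | h
  · rw [hf _ h, zero_mul]
  · rw [hg _ (by omega), mul_zero]

theorem s36_qt_Ord.add {f g : LaurentSeries R} {a : ℤ} (hf : s36_qt_Ord f a)
    (hg : s36_qt_Ord g a) : s36_qt_Ord (f + g) a := by
  intro n hn
  rw [HahnSeries.coeff_add, hf n hn, hg n hn, add_zero]

theorem s36_qt_Ord.neg {f : LaurentSeries R} {a : ℤ} (hf : s36_qt_Ord f a) :
    s36_qt_Ord (-f) a := by
  intro n hn
  rw [HahnSeries.coeff_neg, hf n hn, neg_zero]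

theorem s36_qt_Ord.sub {f g : LaurentSeries R} {a : ℤ} (hf : s36_qt_Ord f a)
    (hg : s36_qt_Ord g a) : s36_qt_Ord (f - g) a := by
  rw [sub_eq_add_neg]
  exact hf.add hg.neg

theorem s36_qt_Ord.mono {f : LaurentSeries R} {a b : ℤ} (hf : s36_qt_Ord f a) (hab : b ≤ a) :
    s36_qt_Ord f b := fun n hn => hf n (by omega)

theorem s36_qt_Ord.theta {f : LaurentSeries R} {a : ℤ} (hf : s36_qt_Ord f a) :
    s36_qt_Ord (s36_qt_theta R f) a := by
  intro n hn
  rw [s36_qt_theta_coeff, hf n hn, mul_zero]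

theorem s36_qt_Ord_ofPowerSeries (p : PowerSeries R) :
    s36_qt_Ord (HahnSeries.ofPowerSeries ℤ R p) 0 := fun _ hn =>
  ofPowerSeries_coeff_of_neg _ hn

/-- A power series with constant coefficient `1`, minus `1`, has order `≥ 1`. -/
theorem s36_qt_Ord_ofPowerSeries_sub_one (p : PowerSeries R)
    (hp : PowerSeries.constantCoeff p = 1) :
    s36_qt_Ord (HahnSeries.ofPowerSeries ℤ R p - 1) 1 := by
  intro n hn
  rw [HahnSeries.coeff_sub, HahnSeries.coeff_one]
  rcases lt_or_eq_of_le (show n ≤ 0 by omega) with h | h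
  · rw [ofPowerSeries_coeff_of_neg _ h, if_neg (by omega), sub_zero]
  · subst h
    have h0 := HahnSeries.ofPowerSeries_apply_coeff (Γ := ℤ) p 0
    simp only [Nat.cast_zero] at h0
    rw [h0, PowerSeries.coeff_zero_eq_constantCoeff_apply, hp, if_pos rfl, sub_self]

/-- If `f` has leading term `q^1` then `θ f - f` has order `≥ 2`. -/
theorem s36_qt_Ord_theta_sub_self {f : LaurentSeries R} (hf : s36_qt_Ord f 1) :
    s36_qt_Ord (s36_qt_theta R f - f) 2 := by
  intro n hn
  rw [HahnSeries.coeff_sub, s36_qt_theta_coeff]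
  rcases lt_or_eq_of_le (show n ≤ 1 by omega) with h | h
  · rw [hf n h, mul_zero, sub_zero]
  · subst h
    simp

end Formal


/-! ### Termwise differentiation of `q`-expansions -/

open Derivative in
/-- Termwise differentiation of `q`-expansions: `D g` has the expansion `θ s`. -/
theorem s36_qt_hasQExp_D {g : ℍ → ℂ} {s : LaurentSeries ℂ} (h : HasQExp 1 g s) :
    HasQExp 1 (D g) (s36_qt_theta ℂ s) := by
  intro τ
  have hτ := τ.im_pos
  set c : ℝ := τ.im / 2 with hc
  set C : ℝ := 2 * τ.im with hC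
  have hc0 : 0 < c := by rw [hc]; linarith
  have hC0 : 0 < C := by rw [hC]; linarith
  let U : Set ℂ := {z | c < z.im ∧ z.im < C}
  have hU : IsOpen U :=
    (isOpen_lt continuous_const Complex.continuous_im).inter
      (isOpen_lt Complex.continuous_im continuous_const)
  have hτU : (τ : ℂ) ∈ U := by
    refine ⟨?_, ?_⟩
    · show c < (τ : ℂ).im
      rw [hc, UpperHalfPlane.coe_im]; linarith
    · show (τ : ℂ).im < C
      rw [hC, UpperHalfPlane.coe_im]; linarith
  let F : ℤ → ℂ → ℂ := fun n z => s.coeff n * Complex.exp (n * (2 * π * Complex.I * z))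
  -- the expansion at a point of `ℍ`, in exponential form
  have hexp : ∀ (σ : ℍ) (n : ℤ), s.coeff n * tParam 1 σ ^ n = F n σ := by
    intro σ n
    show _ = s.coeff n * Complex.exp (n * (2 * π * Complex.I * σ))
    rw [tParam, Complex.exp_int_mul]
    simp
  have hnorm : ∀ (n : ℤ) (z : ℂ), ‖F n z‖ = ‖s.coeff n‖ * Real.exp (-(2 * π * n * z.im)) := by
    intro n z
    show ‖s.coeff n * Complex.exp (n * (2 * π * Complex.I * z))‖ = _
    rw [norm_mul, Complex.norm_exp]
    congr 2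
    simp
    ring
  -- summable bound from the two boundary points
  let τc : ℍ := ⟨c * Complex.I, by simpa using hc0⟩
  let τC : ℍ := ⟨C * Complex.I, by simpa using hC0⟩
  have hsc : Summable (fun n : ℤ => ‖F n τc‖) := by
    have := (h τc).summable.norm
    simpa only [hexp] using this
  have hsC : Summable (fun n : ℤ => ‖F n τC‖) := by
    have := (h τC).summable.norm
    simpa only [hexp] using this
  have hbound : ∀ (n : ℤ) (w : ℂ), w ∈ U → ‖F n w‖ ≤ ‖F n τc‖ + ‖F n τC‖ := by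
    intro n w hw
    rw [hnorm, hnorm, hnorm]
    have hcim : (τc : ℂ).im = c := by simp [τc]
    have hCim : (τC : ℂ).im = C := by simp [τC]
    rw [hcim, hCim, ← mul_add]
    refine mul_le_mul_of_nonneg_left ?_ (norm_nonneg _)
    rcases le_or_gt 0 n with hn | hn
    · have hn' : (0 : ℝ) ≤ n := by exact_mod_cast hn
      have : Real.exp (-(2 * π * n * w.im)) ≤ Real.exp (-(2 * π * n * c)) := by
        apply Real.exp_le_exp.mpr
        have := hw.1
        have hpi := Real.pi_pos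
        nlinarith [mul_nonneg (mul_nonneg (by positivity : (0:ℝ) ≤ 2 * π) hn') (sub_nonneg.mpr this.le)]
      linarith [Real.exp_pos (-(2 * π * n * C))]
    · have hn' : (n : ℝ) ≤ 0 := by exact_mod_cast hn.le
      have : Real.exp (-(2 * π * n * w.im)) ≤ Real.exp (-(2 * π * n * C)) := by
        apply Real.exp_le_exp.mpr
        have := hw.2
        have hpi := Real.pi_pos
        nlinarith [mul_nonneg (mul_nonneg (by positivity : (0:ℝ) ≤ 2 * π) (neg_nonneg.mpr hn')) (sub_nonneg.mpr this.le)]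
      linarith [Real.exp_pos (-(2 * π * n * c))]
  have hFdiff : ∀ n : ℤ, DifferentiableOn ℂ (F n) U := by
    intro n
    apply Differentiable.differentiableOn
    show Differentiable ℂ (fun z : ℂ => s.coeff n * Complex.exp (n * (2 * π * Complex.I * z)))
    fun_prop
  have hsum := hasSum_deriv_of_summable_norm (hsc.add hsC) hFdiff hU hbound hτU
  -- identify the derivative of the sum with that of `g ∘ ofComplex`
  have heq : (fun w : ℂ => ∑' n : ℤ, F n w) =ᶠ[nhds (τ : ℂ)] (g ∘ ofComplex) := by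
    filter_upwards [hU.mem_nhds hτU] with w hw
    have hw0 : 0 < w.im := lt_trans hc0 hw.1
    show ∑' n : ℤ, F n w = g (ofComplex w)
    rw [ofComplex_apply_of_im_pos hw0]
    have := (h ⟨w, hw0⟩).tsum_eq
    rw [← this]
    refine tsum_congr fun n => ?_
    exact (hexp ⟨w, hw0⟩ n).symm
  rw [heq.deriv_eq] at hsum
  have hderiv : ∀ n : ℤ, deriv (F n) (τ : ℂ) =
      (2 * π * Complex.I) * ((s36_qt_theta ℂ s).coeff n * tParam 1 τ ^ n) := by
    intro n
    rw [s36_qt_theta_coeff, show ((n : ℂ) * s.coeff n) * tParam 1 τ ^ n =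
      (n : ℂ) * (s.coeff n * tParam 1 τ ^ n) from mul_assoc _ _ _, hexp τ n]
    show deriv (fun z : ℂ => s.coeff n * Complex.exp (n * (2 * π * Complex.I * z))) (τ : ℂ) = _
    have h1 : HasDerivAt (fun z : ℂ => s.coeff n * Complex.exp (n * (2 * π * Complex.I * z)))
        (s.coeff n * (Complex.exp (n * (2 * π * Complex.I * (τ : ℂ))) * (n * (2 * π * Complex.I * 1))))
        (τ : ℂ) := by
      have h2 : HasDerivAt (fun z : ℂ => (n : ℂ) * (2 * π * Complex.I * z))
          (n * (2 * π * Complex.I * 1)) (τ : ℂ) :=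
        ((hasDerivAt_id (τ : ℂ)).const_mul _).const_mul _
      exact (h2.cexp).const_mul _
    rw [h1.deriv]
    show _ = 2 * π * Complex.I * (n * (s.coeff n * Complex.exp (n * (2 * π * Complex.I * (τ : ℂ)))))
    ring
  simp only [hderiv] at hsum
  have h2pi : (2 * π * Complex.I : ℂ) ≠ 0 := by
    simp [Real.pi_ne_zero]
  have hfinal := hsum.mul_left ((2 * π * Complex.I)⁻¹)
  simp only [← mul_assoc, inv_mul_cancel₀ h2pi, one_mul] at hfinal
  exact hfinal


/-! ### `E₆` and the Ramanujan-type identity -/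

/-- The formal `q`-expansion of `E₆`. -/
def s36_qt_e6 : PowerSeries ℤ :=
  PowerSeries.mk fun n => if n = 0 then 1 else -504 * ∑ d ∈ n.divisors, (d : ℤ) ^ 5

theorem s36_qt_constantCoeff_e6 : PowerSeries.constantCoeff s36_qt_e6 = 1 := by
  rw [← PowerSeries.coeff_zero_eq_constantCoeff]
  simp [s36_qt_e6]

theorem s36_qt_hasQExp_E6 :
    HasQExp 1 (fun τ => E₆ τ)
      (HahnSeries.ofPowerSeries ℤ ℂ (s36_qt_e6.map (Int.castRingHom ℂ))) := by
  have haux : qExpansion 1 E₆ = s36_qt_e6.map (Int.castRingHom ℂ) := by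
    ext m
    rw [EisensteinSeries.E_qExpansion_coeff _ ⟨3, rfl⟩ m, PowerSeries.coeff_map, s36_qt_e6,
      PowerSeries.coeff_mk]
    split_ifs with h
    · simp
    · rw [ArithmeticFunction.sigma_apply]
      norm_num [show bernoulli 6 = 1 / 42 by decide +kernel]
  rw [hasQExp_ofPowerSeries_iff]
  intro τ
  have := ModularForm.hasSum_qExpansion (f := E₆) one_pos one_mem_strictPeriods_SL τ
  rw [haux] at this
  simpa [tParam_one_eq] using this

/-- The complex expansion of `E₄`. -/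
def s36_qt_a : LaurentSeries ℂ :=
  HahnSeries.ofPowerSeries ℤ ℂ (eisenstein4.map (Int.castRingHom ℂ))

/-- The complex expansion of `E₆`. -/
def s36_qt_b : LaurentSeries ℂ :=
  HahnSeries.ofPowerSeries ℤ ℂ (s36_qt_e6.map (Int.castRingHom ℂ))

theorem s36_qt_Ord_a : s36_qt_Ord (s36_qt_a - 1) 1 :=
  s36_qt_Ord_ofPowerSeries_sub_one _
    (formal_constantCoeff_map_intCast ℂ _ constantCoeff_eisenstein4)

theorem s36_qt_Ord_b : s36_qt_Ord (s36_qt_b - 1) 1 :=
  s36_qt_Ord_ofPowerSeries_sub_one _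
    (formal_constantCoeff_map_intCast ℂ _ s36_qt_constantCoeff_e6)

open Derivative in
/-- `3 θE₄ · Δ - E₄ · θΔ + E₆ · Δ = 0` as `q`-series. -/
theorem s36_qt_ramanujan :
    HahnSeries.C (3 : ℂ) * s36_qt_theta ℂ s36_qt_a * deltaSeries ℂ
      - s36_qt_a * s36_qt_theta ℂ (deltaSeries ℂ) + s36_qt_b * deltaSeries ℂ = 0 := by
  set a := s36_qt_a with ha
  set b := s36_qt_b with hb
  set d := deltaSeries ℂ with hd
  set S := HahnSeries.C (3 : ℂ) * s36_qt_theta ℂ a * d - a * s36_qt_theta ℂ d + b * d with hS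
  -- the functions
  let E4f : ℍ → ℂ := fun τ => E₄ τ
  let E6f : ℍ → ℂ := fun τ => E₆ τ
  let Df : ℍ → ℂ := fun τ => ModularForm.discriminant τ
  have hE4 : HasQExp 1 E4f a := hasQExp_E4
  have hE6 : HasQExp 1 E6f b := s36_qt_hasQExp_E6
  have hD : HasQExp 1 Df d := hasQExp_discriminant
  have hDE4 : HasQExp 1 (D E4f) (s36_qt_theta ℂ a) := s36_qt_hasQExp_D hE4
  have hDD : HasQExp 1 (D Df) (s36_qt_theta ℂ d) := s36_qt_hasQExp_D hD
  have hmdE4 : MDiff E4f := ModularFormClass.holo E₄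
  have hmdE6 : MDiff E6f := ModularFormClass.holo E₆
  have hmdD : MDiff Df := CuspForm.discriminant.holo'
  have hinvE4 : lop_WtInv 4 E4f := lop_WtInv_E4
  have hinvE6 : lop_WtInv 6 E6f := lop_WtInv.of_modularForm E₆
  have hinvD : lop_WtInv 12 Df := lop_WtInv_discriminant
  -- Serre derivatives
  let W1 : ℍ → ℂ := serreDerivative ((4 : ℤ) : ℂ) E4f
  let W2 : ℍ → ℂ := serreDerivative ((12 : ℤ) : ℂ) Df
  have hmdW1 : MDiff W1 := serreDerivative_mdifferentiable _ hmdE4
  have hmdW2 : MDiff W2 := serreDerivative_mdifferentiable _ hmdD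
  have hinvW1 : lop_WtInv 6 W1 :=
    (lop_WtInv.of_slash_eq fun γ =>
      serreDerivative_slash_invariant hmdE4 (hinvE4.slash_eq γ)).congr_weight (by norm_num)
  have hinvW2 : lop_WtInv 14 W2 :=
    (lop_WtInv.of_slash_eq fun γ =>
      serreDerivative_slash_invariant hmdD (hinvD.slash_eq γ)).congr_weight (by norm_num)
  let G : ℍ → ℂ := (W1 * Df + W1 * Df + W1 * Df) - E4f * W2 + E6f * Df
  have hG_eq : ∀ τ, G τ = 3 * D E4f τ * Df τ - E4f τ * D Df τ + E6f τ * Df τ := by
    intro τ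
    simp only [G, W1, W2, Pi.add_apply, Pi.sub_apply, Pi.mul_apply, serreDerivative_apply]
    push_cast
    ring
  have hmdG : MDiff G :=
    ((((hmdW1.mul hmdD).add (hmdW1.mul hmdD)).add (hmdW1.mul hmdD)).sub
      (hmdE4.mul hmdW2)).add (hmdE6.mul hmdD)
  have h18a : lop_WtInv 18 (W1 * Df) := (hinvW1.mul hinvD).congr_weight (by norm_num)
  have h18b : lop_WtInv 18 (E4f * W2) := (hinvE4.mul hinvW2).congr_weight (by norm_num)
  have h18c : lop_WtInv 18 (E6f * Df) := (hinvE6.mul hinvD).congr_weight (by norm_num)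
  have hinvG : lop_WtInv 18 G := (((h18a.add h18a).add h18a).sub h18b).add h18c
  let H : ℍ → ℂ := G ^ 2 / Df ^ 3
  have hmdH : MDiff H :=
    (hmdG.pow 2).div (hmdD.pow 3) (fun τ => pow_ne_zero _ (discriminant_ne_zero τ))
  have hinvH : ∀ (γ : SL(2, ℤ)) (τ : ℍ), H (γ • τ) = H τ := by
    have h1 : lop_WtInv 0 H := ((hinvG.pow 2).div (hinvD.pow 3)).congr_weight (by norm_num)
    intro γ τ
    rw [h1 γ τ, zpow_zero, one_mul]
  have hSexp : HasQExp 1 (fun τ => 3 * D E4f τ * Df τ - E4f τ * D Df τ + E6f τ * Df τ) S :=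
    ((((hDE4.const_mul 3).mul hD).sub (hE4.mul hDD)).add (hE6.mul hD)).congr (fun τ => by ring)
  have hHexp : HasQExp 1 H (S ^ 2 * deltaInvSeries ℂ ^ 3) := by
    refine ((hSexp.pow 2).mul (hasQExp_discriminant_inv.pow 3)).congr (fun τ => ?_)
    show _ = G τ ^ 2 / Df τ ^ 3
    rw [hG_eq, div_eq_mul_inv, inv_pow]
  -- order of `S`
  have hOd : s36_qt_Ord d 1 := (isLeading_deltaSeries ℂ).2
  have hOdi : s36_qt_Ord (deltaInvSeries ℂ) (-1) := (isLeading_deltaInvSeries ℂ).2
  have hC3 : (HahnSeries.C (3 : ℂ) : LaurentSeries ℂ) = 3 := map_ofNat _ 3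
  have hS' : S = (s36_qt_theta ℂ (a - 1) * d + s36_qt_theta ℂ (a - 1) * d
      + s36_qt_theta ℂ (a - 1) * d) - (s36_qt_theta ℂ d - d) - (a - 1) * d
      - (a - 1) * (s36_qt_theta ℂ d - d) + (b - 1) * d := by
    rw [hS, hC3, map_sub, s36_qt_theta_one]
    ring
  have hOS : s36_qt_Ord S 2 := by
    rw [hS']
    have h1 : s36_qt_Ord (s36_qt_theta ℂ (a - 1) * d) 2 := (s36_qt_Ord_a.theta).mul hOd
    have h2 : s36_qt_Ord (s36_qt_theta ℂ d - d) 2 := s36_qt_Ord_theta_sub_self hOd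
    have h3 : s36_qt_Ord ((a - 1) * d) 2 := s36_qt_Ord_a.mul hOd
    have h4 : s36_qt_Ord ((a - 1) * (s36_qt_theta ℂ d - d)) 2 :=
      (s36_qt_Ord_a.mul h2).mono (by norm_num)
    have h5 : s36_qt_Ord ((b - 1) * d) 2 := s36_qt_Ord_b.mul hOd
    exact (((((h1.add h1).add h1).sub h2).sub h3).sub h4).add h5
  have hOH : s36_qt_Ord (S ^ 2 * deltaInvSeries ℂ ^ 3) 1 := by
    have h1 : s36_qt_Ord (S * S) (2 + 2) := hOS.mul hOS
    have h2 : s36_qt_Ord (deltaInvSeries ℂ * deltaInvSeries ℂ * deltaInvSeries ℂ) (-1 + -1 + -1) :=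
      (hOdi.mul hOdi).mul hOdi
    have h3 := h1.mul h2
    rw [show S ^ 2 * deltaInvSeries ℂ ^ 3 =
      S * S * (deltaInvSeries ℂ * deltaInvSeries ℂ * deltaInvSeries ℂ) by ring]
    exact h3.mono (by norm_num)
  -- `H` is a polynomial in `J` vanishing at infinity, hence zero
  obtain ⟨P₀, hP₀⟩ := lvl_exists_poly 1 H hmdH hinvH _ hHexp
  have h1 : HasQExp 1 H (P₀.eval₂ HahnSeries.C (jN ℂ 1)) :=
    (lvl_hasQExp_eval 1 P₀).congr (fun τ => (hP₀ τ).symm)
  have h2 : S ^ 2 * deltaInvSeries ℂ ^ 3 = P₀.eval₂ HahnSeries.C (jN ℂ 1) := hHexp.unique h1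
  have hP0 : P₀ = 0 := by
    have h3 := formal_coeff_eval₂_jN ℂ 1 P₀
    rw [← h2, hOH _ (by push_cast; omega)] at h3
    exact Polynomial.leadingCoeff_eq_zero.mp h3.symm
  rw [hP0, Polynomial.eval₂_zero] at h2
  have h4 : S ^ 2 = 0 := by
    have h5 : d * deltaInvSeries ℂ = 1 := deltaSeries_mul_deltaInvSeries ℂ
    calc S ^ 2 = S ^ 2 * deltaInvSeries ℂ ^ 3 * d ^ 3 := by
          rw [mul_assoc, ← mul_pow, mul_comm (deltaInvSeries ℂ) d, h5, one_pow, mul_one]
      _ = 0 := by rw [h2, zero_mul]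
  exact pow_eq_zero_iff (two_ne_zero) |>.mp h4

/-- `E₄³ - E₆² = 1728 Δ` as `q`-series. -/
theorem s36_qt_cube_sq :
    s36_qt_a ^ 3 - s36_qt_b ^ 2 = HahnSeries.C (1728 : ℂ) * deltaSeries ℂ := by
  have h1 : HasQExp 1 (fun τ => E₄ τ ^ 3 - E₆ τ ^ 2) (s36_qt_a ^ 3 - s36_qt_b ^ 2) :=
    (hasQExp_E4.pow 3).sub (s36_qt_hasQExp_E6.pow 2)
  have h2 : HasQExp 1 (fun τ => E₄ τ ^ 3 - E₆ τ ^ 2)
      (HahnSeries.C (1728 : ℂ) * deltaSeries ℂ) := by
    refine (hasQExp_discriminant.const_mul 1728).congr (fun τ => ?_)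
    rw [discriminant_eq_E₄_cube_sub_E₆_sq]
    ring
  exact h1.unique h2

theorem s36_qt_jq_eq : jqModC ℂ = s36_qt_a ^ 3 * deltaInvSeries ℂ := by
  rw [jqModC, deltaInvSeries, jNum, s36_qt_a, map_mul, map_mul, map_pow, map_pow]
  ring

/-- `(θ j)^6 = j^4 (j - 1728)^3 Δ` over `ℂ`. -/
theorem s36_qt_main_complex :
    s36_qt_theta ℂ (jqModC ℂ) ^ 6 =
      jqModC ℂ ^ 4 * (jqModC ℂ - HahnSeries.C (1728 : ℂ)) ^ 3 * deltaSeries ℂ := by
  set a := s36_qt_a with ha
  set b := s36_qt_b with hb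
  set d := deltaSeries ℂ with hd
  set di := deltaInvSeries ℂ with hdi
  set c : LaurentSeries ℂ := HahnSeries.C (1728 : ℂ) with hc
  set j := jqModC ℂ with hj
  have hjab : j = a ^ 3 * di := s36_qt_jq_eq
  have hdd : d * di = 1 := deltaSeries_mul_deltaInvSeries ℂ
  have hC3 : (HahnSeries.C (3 : ℂ) : LaurentSeries ℂ) = 3 := map_ofNat _ 3
  have hS : 3 * s36_qt_theta ℂ a * d - a * s36_qt_theta ℂ d + b * d = 0 := by
    have := s36_qt_ramanujan
    rwa [hC3] at this
  have hcs : a ^ 3 - b ^ 2 = c * d := s36_qt_cube_sq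
  have hθdi : s36_qt_theta ℂ d * di + d * s36_qt_theta ℂ di = 0 := by
    rw [← s36_qt_theta_mul, hdd, s36_qt_theta_one]
  have hθa3 : s36_qt_theta ℂ (a ^ 3) = 3 * (a ^ 2 * s36_qt_theta ℂ a) := by
    have := s36_qt_theta_pow a 2
    simpa using this
  set T := s36_qt_theta ℂ j with hT
  have hT1 : T = 3 * (a ^ 2 * s36_qt_theta ℂ a) * di + a ^ 3 * s36_qt_theta ℂ di := by
    rw [hT, hjab, s36_qt_theta_mul, hθa3]
  have h1 : T * d ^ 2 = -(a ^ 2 * b * d) := by
    linear_combination d ^ 2 * hT1 + 3 * a ^ 2 * s36_qt_theta ℂ a * d * hdd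
      + a ^ 3 * d * hθdi - a ^ 3 * s36_qt_theta ℂ d * hdd + a ^ 2 * hS
  have hT2 : T = -(a ^ 2 * b * di) := by
    linear_combination di ^ 2 * h1 - T * (d * di + 1) * hdd - a ^ 2 * b * di * hdd
  have hT3 : T ^ 2 = j * (j - c) * a := by
    rw [hT2, hjab]
    linear_combination (-(a ^ 4 * di ^ 2)) * hcs - a ^ 4 * di * c * hdd
  have ha3 : a ^ 3 = j * d := by
    rw [hjab]
    linear_combination (-(a ^ 3)) * hdd
  have hT6 : T ^ 6 = (T ^ 2) ^ 3 := by ring
  rw [hT6, hT3]
  linear_combination j ^ 3 * (j - c) ^ 3 * ha3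

theorem s36_qt_coeffMap_injective {R S : Type*} [CommRing R] [CommRing S] (φ : R →+* S)
    (hφ : Function.Injective φ) : Function.Injective (coeffMap φ) := by
  intro x y h
  ext n
  have h1 := congrArg (fun z : LaurentSeries S => z.coeff n) h
  exact hφ h1

/-- `(θ j)^6 = j^4 (j - 1728)^3 Δ` over `ℤ`. -/
theorem s36_qt_main_int :
    s36_qt_theta ℤ (jqModC ℤ) ^ 6 =
      jqModC ℤ ^ 4 * (jqModC ℤ - HahnSeries.C (1728 : ℤ)) ^ 3 * deltaSeries ℤ := by
  apply s36_qt_coeffMap_injective (Int.castRingHom ℂ) Int.cast_injective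
  rw [map_pow, ← s36_qt_theta_coeffMap, coeffMap_jqModC, map_mul, map_mul, map_pow, map_pow,
    map_sub, coeffMap_jqModC, lvl_coeffMap_C, coeffMap_deltaSeries]
  have h1728 : (Int.castRingHom ℂ) 1728 = 1728 := by simp
  rw [h1728]
  exact s36_qt_main_complex

/-- `(θ j)^6 = j^4 (j - 1728)^3 Δ` over any commutative ring. -/
theorem s36_qt_main (R : Type*) [CommRing R] :
    s36_qt_theta R (jqModC R) ^ 6 =
      jqModC R ^ 4 * (jqModC R - HahnSeries.C (1728 : R)) ^ 3 * deltaSeries R := by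
  have h := congrArg (coeffMap (Int.castRingHom R)) s36_qt_main_int
  rw [map_pow, ← s36_qt_theta_coeffMap, coeffMap_jqModC, map_mul, map_mul, map_pow, map_pow,
    map_sub, coeffMap_jqModC, lvl_coeffMap_C, coeffMap_deltaSeries] at h
  have h1728 : (Int.castRingHom R) 1728 = 1728 := by simp
  rw [h1728] at h
  exact h

/-- **The (K)-identity.** For a prime `q ≥ 5` there is a monic `P ∈ 𝔽_q[X]` of degree `q - 1`
with `P(j̄) = Δ̄^{-(q-1)}` and `(θ j̄)^(6 (q - 1)) · P(j̄) = (j̄^4 (j̄ - 1728)^3)^(q - 1)`. -/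
theorem s36_qt_hasse (q : ℕ) [Fact q.Prime] (hq : 5 ≤ q) :
    ∃ P : Polynomial (ZMod q), P.Monic ∧ P.natDegree = q - 1 ∧
      P.eval₂ HahnSeries.C (jqModC (ZMod q)) = deltaInvSeries (ZMod q) ^ (q - 1) ∧
      s36_qt_theta (ZMod q) (jqModC (ZMod q)) ^ (6 * (q - 1)) *
          P.eval₂ HahnSeries.C (jqModC (ZMod q)) =
        (jqModC (ZMod q) ^ 4 * (jqModC (ZMod q) - HahnSeries.C (1728 : ZMod q)) ^ 3) ^ (q - 1) := by
  obtain ⟨P, hP1, hP2, hP3⟩ := s36_qh_main q hq
  refine ⟨P, hP1, hP2, hP3, ?_⟩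
  have hdd : deltaSeries (ZMod q) * deltaInvSeries (ZMod q) = 1 :=
    deltaSeries_mul_deltaInvSeries (ZMod q)
  rw [hP3, pow_mul, s36_qt_main (ZMod q), mul_pow, mul_assoc, ← mul_pow, hdd, one_pow, mul_one]

end Fermat.Agent.S36
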