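import Fermat.Agent.S36.HorizUnit
import Fermat.Agent.S36.QTheta
import Fermat.Agent.S18.BranchChart

/-!
# S36 (NODE-3), leaf (M5), concrete half: horizontal units on `K₁ · F(M)`

`θ = q d/dq` on Laurent series.  For `x, x', r ∈ K₁ · F(M)` with `θ x' = r · θ x` and a discrete
valuation subring `W ⊇ K₁` of `K₁ · F(M)` (a *horizontal* prime of a chart):

* `s36_hu_mem_bar` : `r ∈ W` if `x` is unramified at the `ℚ̄`-places over `W`;
* `s36_hu_inv_mem_bar` : `r⁻¹ ∈ W` if `x'` is unramified at the `ℚ̄`-places over `W`;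
* `s36_hu_unr_two`, `s36_hu_unr_three` : the unramifiedness hypothesis for any `y` which, up to a
  `ℚ̄`-automorphism `σ` of `ℚ̄ · F(M)`, satisfies the Hauptmodul equation `j y² = (y + 256)³`
  (resp. `j y³ = (y + 27)(y + 243)³`), provided `y` and `y + 64` (resp. `y + 27`) are units of `W`;
* `s36_hu_two_mem`, `s36_hu_two_inv_mem`, `s36_hu_three_mem`, `s36_hu_three_inv_mem` : the
  combinations.
-/

set_option autoImplicit false
set_option synthInstance.maxHeartbeats 400000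
set_option linter.unusedSectionVars false
set_option linter.style.haveILetI false

open ModularCurve AlgebraicCurve Polynomial IntermediateField

noncomputable section

namespace Fermat.Agent.S36

open Fermat.Agent.S24 (Kbar FF jF)
open Fermat.Agent.S18

variable (M : ℕ) [NeZero M] (K₁ : IntermediateField ℚ Kbar)

/-- `θ` kills the constants of `ℚ̄ · F(M)`. -/
theorem s36_hu_theta_const (c : Kbar) :
    s36_qt_theta Kbar (algebraMap (FF M) (LaurentSeries Kbar) (algebraMap Kbar (FF M) c)) = 0 := by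
  rw [← IsScalarTower.algebraMap_apply Kbar (FF M) (LaurentSeries Kbar),
    algebraMap_laurentSeries_eq_single, ← HahnSeries.C_apply]
  exact s36_qt_theta_C c

/-- `θ` commutes with the extension of constants. -/
theorem s36_hu_theta_baseIncl (x : s18_F1 K₁ M) :
    s36_qt_theta Kbar (algebraMap (FF M) (LaurentSeries Kbar) (s18_baseIncl K₁ M x)) =
      coeffMap (algebraMap K₁ Kbar) (s36_qt_theta K₁ (x : LaurentSeries K₁)) := by
  rw [← s36_qt_theta_coeffMap]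
  rfl

/-- **Horizontal integrality, concrete form.** -/
theorem s36_hu_mem_bar (W : ValuationSubring (s18_F1 K₁ M)) [IsDiscreteValuationRing W]
    (hK : ∀ c : K₁, algebraMap K₁ (s18_F1 K₁ M) c ∈ W)
    (x x' r : s18_F1 K₁ M) (hx : x ∈ W) (hx' : x' ∈ W)
    (hθx : s36_qt_theta K₁ (x : LaurentSeries K₁) ≠ 0)
    (hr : s36_qt_theta K₁ (x' : LaurentSeries K₁) =
      (r : LaurentSeries K₁) * s36_qt_theta K₁ (x : LaurentSeries K₁))
    (hunr : ∀ (P : Place Kbar (FF M)) (c : Kbar),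
      (∀ y ∈ W, s18_baseIncl K₁ M y ∈ P.toValuationSubring) →
      (∀ y ∈ W.nonunits, s18_baseIncl K₁ M y ∈ P.toValuationSubring.nonunits) →
      0 < P.ord (s18_baseIncl K₁ M x - algebraMap Kbar (FF M) c) →
      P.ord (s18_baseIncl K₁ M x - algebraMap Kbar (FF M) c) = 1) :
    r ∈ W := by
  have := (Fermat.Agent.S24.asm_generic M).1
  have : CharZero K₁ := algebraRat.charZero K₁
  have := s18_isAlgebraic_bar K₁
  have hinj : Function.Injective (coeffMap (algebraMap K₁ Kbar)) :=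
    s36_qt_coeffMap_injective _ (algebraMap K₁ Kbar).injective
  refine s36_hu_mem (E := LaurentSeries Kbar) (s18_baseIncl K₁ M) (s18_baseIncl_algebraMap K₁ M)
    (s18_baseIncl_gen K₁ M) (jF M) (Fermat.Agent.S24.transcendental_jF M)
    (algebraMap (FF M) (LaurentSeries Kbar)) (s36_qt_theta Kbar) s36_qt_theta_mul
    (s36_hu_theta_const M) W hK x x' r hx hx' ?_ ?_ hunr
  · rw [s36_hu_theta_baseIncl]
    intro h0
    exact hθx (hinj (by rw [h0, map_zero]))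
  · rw [s36_hu_theta_baseIncl, s36_hu_theta_baseIncl, hr, map_mul]
    rfl

/-- **Horizontal integrality of the inverse, concrete form.** -/
theorem s36_hu_inv_mem_bar (W : ValuationSubring (s18_F1 K₁ M)) [IsDiscreteValuationRing W]
    (hK : ∀ c : K₁, algebraMap K₁ (s18_F1 K₁ M) c ∈ W)
    (x x' r : s18_F1 K₁ M) (hx : x ∈ W) (hx' : x' ∈ W)
    (hθx' : s36_qt_theta K₁ (x' : LaurentSeries K₁) ≠ 0)
    (hr : s36_qt_theta K₁ (x' : LaurentSeries K₁) =
      (r : LaurentSeries K₁) * s36_qt_theta K₁ (x : LaurentSeries K₁))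
    (hunr : ∀ (P : Place Kbar (FF M)) (c : Kbar),
      (∀ y ∈ W, s18_baseIncl K₁ M y ∈ P.toValuationSubring) →
      (∀ y ∈ W.nonunits, s18_baseIncl K₁ M y ∈ P.toValuationSubring.nonunits) →
      0 < P.ord (s18_baseIncl K₁ M x' - algebraMap Kbar (FF M) c) →
      P.ord (s18_baseIncl K₁ M x' - algebraMap Kbar (FF M) c) = 1) :
    r⁻¹ ∈ W := by
  have := (Fermat.Agent.S24.asm_generic M).1
  have : CharZero K₁ := algebraRat.charZero K₁
  have := s18_isAlgebraic_bar K₁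
  have hinj : Function.Injective (coeffMap (algebraMap K₁ Kbar)) :=
    s36_qt_coeffMap_injective _ (algebraMap K₁ Kbar).injective
  refine s36_hu_inv_mem (E := LaurentSeries Kbar) (s18_baseIncl K₁ M)
    (s18_baseIncl_algebraMap K₁ M)
    (s18_baseIncl_gen K₁ M) (jF M) (Fermat.Agent.S24.transcendental_jF M)
    (algebraMap (FF M) (LaurentSeries Kbar)) (s36_qt_theta Kbar) s36_qt_theta_mul
    (s36_hu_theta_const M) W hK x x' r hx hx' ?_ ?_ hunr
  · rw [s36_hu_theta_baseIncl]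
    intro h0
    exact hθx' (hinj (by rw [h0, map_zero]))
  · rw [s36_hu_theta_baseIncl, s36_hu_theta_baseIncl, hr, map_mul]
    rfl

/-- Unramifiedness from the level-2 Hauptmodul equation (up to an automorphism `σ`). -/
theorem s36_hu_unr_two (W : ValuationSubring (s18_F1 K₁ M))
    (y : s18_F1 K₁ M) (hyinv : y⁻¹ ∈ W) (hy64 : (y + 64)⁻¹ ∈ W)
    (σ : FF M ≃ₐ[Kbar] FF M)
    (hσ : jF M * (σ (s18_baseIncl K₁ M y)) ^ 2 = (σ (s18_baseIncl K₁ M y) + 256) ^ 3)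
    (P : Place Kbar (FF M)) (c : Kbar)
    (hWP : ∀ z ∈ W, s18_baseIncl K₁ M z ∈ P.toValuationSubring)
    (hpos : 0 < P.ord (s18_baseIncl K₁ M y - algebraMap Kbar (FF M) c)) :
    P.ord (s18_baseIncl K₁ M y - algebraMap Kbar (FF M) c) = 1 := by
  set Y : FF M := s18_baseIncl K₁ M y with hY
  have hc0 : c ≠ 0 := by
    rintro rfl
    rw [map_zero, sub_zero] at hpos
    have h1 := (Fermat.Agent.S24.mem_iff_ord_nonneg P _).mp (hWP _ hyinv)
    rw [map_inv₀, P.ord_inv, ← hY] at h1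
    omega
  have hc64 : c ≠ -64 := by
    rintro rfl
    have h1 := (Fermat.Agent.S24.mem_iff_ord_nonneg P _).mp (hWP _ hy64)
    rw [map_inv₀, P.ord_inv, map_add, map_ofNat, ← hY] at h1
    have h2 : Y - algebraMap Kbar (FF M) (-64) = Y + 64 := by
      rw [map_neg, map_ofNat, sub_neg_eq_add]
    rw [h2] at hpos
    omega
  have hv : 0 < (σ • P).ord (σ Y - algebraMap Kbar (FF M) c) := by
    rw [Fermat.Agent.S24.ord_smul_place, map_sub, AlgEquiv.symm_apply_apply, AlgEquiv.commutes]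
    exact hpos
  have h := s18_d6_two M (σ Y) hσ (σ • P) c hc0 hc64 hv
  rwa [Fermat.Agent.S24.ord_smul_place, map_sub, AlgEquiv.symm_apply_apply,
    AlgEquiv.commutes] at h

/-- Unramifiedness from the level-3 Hauptmodul equation (up to an automorphism `σ`). -/
theorem s36_hu_unr_three (W : ValuationSubring (s18_F1 K₁ M))
    (y : s18_F1 K₁ M) (hyinv : y⁻¹ ∈ W) (hy27 : (y + 27)⁻¹ ∈ W)
    (σ : FF M ≃ₐ[Kbar] FF M)
    (hσ : jF M * (σ (s18_baseIncl K₁ M y)) ^ 3 =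
      (σ (s18_baseIncl K₁ M y) + 27) * (σ (s18_baseIncl K₁ M y) + 243) ^ 3)
    (P : Place Kbar (FF M)) (c : Kbar)
    (hWP : ∀ z ∈ W, s18_baseIncl K₁ M z ∈ P.toValuationSubring)
    (hpos : 0 < P.ord (s18_baseIncl K₁ M y - algebraMap Kbar (FF M) c)) :
    P.ord (s18_baseIncl K₁ M y - algebraMap Kbar (FF M) c) = 1 := by
  set Y : FF M := s18_baseIncl K₁ M y with hY
  have hc0 : c ≠ 0 := by
    rintro rfl
    rw [map_zero, sub_zero] at hpos
    have h1 := (Fermat.Agent.S24.mem_iff_ord_nonneg P _).mp (hWP _ hyinv)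
    rw [map_inv₀, P.ord_inv, ← hY] at h1
    omega
  have hc27 : c ≠ -27 := by
    rintro rfl
    have h1 := (Fermat.Agent.S24.mem_iff_ord_nonneg P _).mp (hWP _ hy27)
    rw [map_inv₀, P.ord_inv, map_add, map_ofNat, ← hY] at h1
    have h2 : Y - algebraMap Kbar (FF M) (-27) = Y + 27 := by
      rw [map_neg, map_ofNat, sub_neg_eq_add]
    rw [h2] at hpos
    omega
  have hv : 0 < (σ • P).ord (σ Y - algebraMap Kbar (FF M) c) := by
    rw [Fermat.Agent.S24.ord_smul_place, map_sub, AlgEquiv.symm_apply_apply, AlgEquiv.commutes]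
    exact hpos
  have h := s18_d6_three M (σ Y) hσ (σ • P) c hc0 hc27 hv
  rwa [Fermat.Agent.S24.ord_smul_place, map_sub, AlgEquiv.symm_apply_apply,
    AlgEquiv.commutes] at h

/-- `σ` transports the Hauptmodul equation: if `J' y² = (y + 256)³` and `σ J' = j`, then
`j (σ y)² = (σ y + 256)³`. -/
theorem s36_hu_swap_eq_two (σ : FF M ≃ₐ[Kbar] FF M) (Y J' : FF M)
    (hJ' : J' * Y ^ 2 = (Y + 256) ^ 3) (hσJ : σ J' = jF M) :
    jF M * (σ Y) ^ 2 = (σ Y + 256) ^ 3 := by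
  have h := congrArg σ hJ'
  rwa [map_mul, map_pow, map_pow, map_add, map_ofNat, hσJ] at h

/-- `σ` transports the level-3 Hauptmodul equation. -/
theorem s36_hu_swap_eq_three (σ : FF M ≃ₐ[Kbar] FF M) (Y J' : FF M)
    (hJ' : J' * Y ^ 3 = (Y + 27) * (Y + 243) ^ 3) (hσJ : σ J' = jF M) :
    jF M * (σ Y) ^ 3 = (σ Y + 27) * (σ Y + 243) ^ 3 := by
  have h := congrArg σ hJ'
  rwa [map_mul, map_pow, map_mul, map_pow, map_add, map_add, map_ofNat, map_ofNat, hσJ] at h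

/-- `θ f ≠ 0` as soon as `f` has a nonzero coefficient in nonzero degree. -/
theorem s36_hu_theta_ne_zero (f : LaurentSeries K₁) (n : ℤ) (hn : n ≠ 0) (hf : f.coeff n ≠ 0) :
    s36_qt_theta K₁ f ≠ 0 := by
  intro h0
  have h1 := congrArg (fun g : LaurentSeries K₁ => g.coeff n) h0
  simp only [s36_qt_theta_coeff, HahnSeries.coeff_zero] at h1
  rcases mul_eq_zero.mp h1 with h | h
  · exact hn (by exact_mod_cast h)
  · exact hf h

section Hhor

variable (A : ValuationSubring Kbar)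

/-- Constants lie in every valuation subring containing a chart and `ϖ⁻¹`. -/
theorem s36_hu_const_mem [IsDiscreteValuationRing (s18_A1 A K₁)] {π : s18_A1 A K₁}
    (hπ : Irreducible π) (B : Subring (s18_F1 K₁ M))
    (hAB : ∀ a : s18_A1 A K₁, algebraMap (s18_A1 A K₁) (s18_F1 K₁ M) a ∈ B)
    (W : ValuationSubring (s18_F1 K₁ M)) (hBW : B ≤ W.toSubring)
    (hπW : (algebraMap (s18_A1 A K₁) (s18_F1 K₁ M) π)⁻¹ ∈ W) (c : K₁) :
    algebraMap K₁ (s18_F1 K₁ M) c ∈ W :=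
  s18_br_const_mem (A₀ := s18_A1 A K₁) (K1 := K₁) (F1 := s18_F1 K₁ M) (fun _ => rfl) hπ W
    (fun a => hBW (hAB a)) hπW c

/-- **`hhor` for `ρ̃⁻¹`** (the pole direction; shape of `s36_np_rhoinv`): `θ x' = ρ̃ · θ x` with
`x'` unramified at the `ℚ̄`-places through the point. -/
theorem s36_hu_hhor_inv [IsDiscreteValuationRing (s18_A1 A K₁)] {π : s18_A1 A K₁}
    (hπ : Irreducible π) (B : Subring (s18_F1 K₁ M))
    (hAB : ∀ a : s18_A1 A K₁, algebraMap (s18_A1 A K₁) (s18_F1 K₁ M) a ∈ B)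
    (𝔪 : Ideal B) (x x' ρt : s18_F1 K₁ M) (hx : x ∈ B) (hx' : x' ∈ B)
    (hθx' : s36_qt_theta K₁ (x' : LaurentSeries K₁) ≠ 0)
    (hr : s36_qt_theta K₁ (x' : LaurentSeries K₁) =
      (ρt : LaurentSeries K₁) * s36_qt_theta K₁ (x : LaurentSeries K₁))
    (hunr : ∀ W : ValuationSubring (s18_F1 K₁ M), B ≤ W.toSubring →
      (∀ b : B, b ∉ 𝔪 → ((b : s18_F1 K₁ M))⁻¹ ∈ W) →
      ∀ (P : Place Kbar (FF M)) (c : Kbar),
      (∀ y ∈ W, s18_baseIncl K₁ M y ∈ P.toValuationSubring) →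
      0 < P.ord (s18_baseIncl K₁ M x' - algebraMap Kbar (FF M) c) →
      P.ord (s18_baseIncl K₁ M x' - algebraMap Kbar (FF M) c) = 1) :
    ∀ W : ValuationSubring (s18_F1 K₁ M), IsDiscreteValuationRing W → B ≤ W.toSubring →
      (∀ b : B, b ∉ 𝔪 → ((b : s18_F1 K₁ M))⁻¹ ∈ W) →
      (algebraMap (s18_A1 A K₁) (s18_F1 K₁ M) π)⁻¹ ∈ W → ρt⁻¹ ∈ W := by
  intro W hW hBW hinv hπW
  haveI := hW
  exact s36_hu_inv_mem_bar M K₁ W (s36_hu_const_mem M K₁ A hπ B hAB W hBW hπW) x x' ρt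
    (hBW hx) (hBW hx') hθx' hr (fun P c hWP _ hpos => hunr W hBW hinv P c hWP hpos)

/-- **`hhor` for `ρ̃`** (the zero direction): `θ x' = ρ̃ · θ x` with `x` unramified at the
`ℚ̄`-places through the point. -/
theorem s36_hu_hhor [IsDiscreteValuationRing (s18_A1 A K₁)] {π : s18_A1 A K₁}
    (hπ : Irreducible π) (B : Subring (s18_F1 K₁ M))
    (hAB : ∀ a : s18_A1 A K₁, algebraMap (s18_A1 A K₁) (s18_F1 K₁ M) a ∈ B)
    (𝔪 : Ideal B) (x x' ρt : s18_F1 K₁ M) (hx : x ∈ B) (hx' : x' ∈ B)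
    (hθx : s36_qt_theta K₁ (x : LaurentSeries K₁) ≠ 0)
    (hr : s36_qt_theta K₁ (x' : LaurentSeries K₁) =
      (ρt : LaurentSeries K₁) * s36_qt_theta K₁ (x : LaurentSeries K₁))
    (hunr : ∀ W : ValuationSubring (s18_F1 K₁ M), B ≤ W.toSubring →
      (∀ b : B, b ∉ 𝔪 → ((b : s18_F1 K₁ M))⁻¹ ∈ W) →
      ∀ (P : Place Kbar (FF M)) (c : Kbar),
      (∀ y ∈ W, s18_baseIncl K₁ M y ∈ P.toValuationSubring) →
      0 < P.ord (s18_baseIncl K₁ M x - algebraMap Kbar (FF M) c) →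
      P.ord (s18_baseIncl K₁ M x - algebraMap Kbar (FF M) c) = 1) :
    ∀ W : ValuationSubring (s18_F1 K₁ M), IsDiscreteValuationRing W → B ≤ W.toSubring →
      (∀ b : B, b ∉ 𝔪 → ((b : s18_F1 K₁ M))⁻¹ ∈ W) →
      (algebraMap (s18_A1 A K₁) (s18_F1 K₁ M) π)⁻¹ ∈ W → ρt ∈ W := by
  intro W hW hBW hinv hπW
  haveI := hW
  exact s36_hu_mem_bar M K₁ W (s36_hu_const_mem M K₁ A hπ B hAB W hBW hπW) x x' ρt
    (hBW hx) (hBW hx') hθx hr (fun P c hWP _ hpos => hunr W hBW hinv P c hWP hpos)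

/-- The unramifiedness premise of `s36_hu_hhor(_inv)` for a level-2 Hauptmodul-type function `y`
(up to `σ`) which, together with `y + 64`, is a unit at the point `𝔪`. -/
theorem s36_hu_hunr_two (B : Subring (s18_F1 K₁ M)) (𝔪 : Ideal B)
    (y : s18_F1 K₁ M) (hy : y ∈ B) (hy𝔪 : (⟨y, hy⟩ : B) ∉ 𝔪)
    (hy64 : (⟨y, hy⟩ + 64 : B) ∉ 𝔪)
    (σ : FF M ≃ₐ[Kbar] FF M)
    (hσ : jF M * (σ (s18_baseIncl K₁ M y)) ^ 2 = (σ (s18_baseIncl K₁ M y) + 256) ^ 3) :
    ∀ W : ValuationSubring (s18_F1 K₁ M), B ≤ W.toSubring →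
      (∀ b : B, b ∉ 𝔪 → ((b : s18_F1 K₁ M))⁻¹ ∈ W) →
      ∀ (P : Place Kbar (FF M)) (c : Kbar),
      (∀ z ∈ W, s18_baseIncl K₁ M z ∈ P.toValuationSubring) →
      0 < P.ord (s18_baseIncl K₁ M y - algebraMap Kbar (FF M) c) →
      P.ord (s18_baseIncl K₁ M y - algebraMap Kbar (FF M) c) = 1 := by
  intro W _ hinv P c hWP hpos
  have h1 : y⁻¹ ∈ W := hinv ⟨y, hy⟩ hy𝔪
  have h2 : (y + 64)⁻¹ ∈ W := by
    have h3 := hinv (⟨y, hy⟩ + 64) hy64
    have e : ((⟨y, hy⟩ + 64 : B) : s18_F1 K₁ M) = y + 64 := by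
      rw [Subring.coe_add]
      exact congrArg (y + ·) (map_ofNat B.subtype 64)
    rwa [e] at h3
  exact s36_hu_unr_two M K₁ W y h1 h2 σ hσ P c hWP hpos

/-- The same for a level-3 Hauptmodul-type function. -/
theorem s36_hu_hunr_three (B : Subring (s18_F1 K₁ M)) (𝔪 : Ideal B)
    (y : s18_F1 K₁ M) (hy : y ∈ B) (hy𝔪 : (⟨y, hy⟩ : B) ∉ 𝔪)
    (hy27 : (⟨y, hy⟩ + 27 : B) ∉ 𝔪)
    (σ : FF M ≃ₐ[Kbar] FF M)
    (hσ : jF M * (σ (s18_baseIncl K₁ M y)) ^ 3 =
      (σ (s18_baseIncl K₁ M y) + 27) * (σ (s18_baseIncl K₁ M y) + 243) ^ 3) :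
    ∀ W : ValuationSubring (s18_F1 K₁ M), B ≤ W.toSubring →
      (∀ b : B, b ∉ 𝔪 → ((b : s18_F1 K₁ M))⁻¹ ∈ W) →
      ∀ (P : Place Kbar (FF M)) (c : Kbar),
      (∀ z ∈ W, s18_baseIncl K₁ M z ∈ P.toValuationSubring) →
      0 < P.ord (s18_baseIncl K₁ M y - algebraMap Kbar (FF M) c) →
      P.ord (s18_baseIncl K₁ M y - algebraMap Kbar (FF M) c) = 1 := by
  intro W _ hinv P c hWP hpos
  have h1 : y⁻¹ ∈ W := hinv ⟨y, hy⟩ hy𝔪
  have h2 : (y + 27)⁻¹ ∈ W := by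
    have h3 := hinv (⟨y, hy⟩ + 27) hy27
    have e : ((⟨y, hy⟩ + 27 : B) : s18_F1 K₁ M) = y + 27 := by
      rw [Subring.coe_add]
      exact congrArg (y + ·) (map_ofNat B.subtype 27)
    rwa [e] at h3
  exact s36_hu_unr_three M K₁ W y h1 h2 σ hσ P c hWP hpos

end Hhor

/-- The coordinate `t₂` itself satisfies the Hauptmodul equation (`σ = 1`). -/
theorem s36_hu_t2_eq (h2 : 2 ∣ M) :
    jF M * ((AlgEquiv.refl : FF M ≃ₐ[Kbar] FF M)
        (s18_baseIncl K₁ M (s18_coord K₁ (s18_cz_t2 M h2)))) ^ 2 =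
      ((AlgEquiv.refl : FF M ≃ₐ[Kbar] FF M)
        (s18_baseIncl K₁ M (s18_coord K₁ (s18_cz_t2 M h2))) + 256) ^ 3 :=
  s18_br_hjt2 M K₁ h2

/-- The coordinate `t₃` itself satisfies the Hauptmodul equation (`σ = 1`). -/
theorem s36_hu_t3_eq (h3 : 3 ∣ M) :
    jF M * ((AlgEquiv.refl : FF M ≃ₐ[Kbar] FF M)
        (s18_baseIncl K₁ M (s18_coord K₁ (s18_cz_t3 M h3)))) ^ 3 =
      ((AlgEquiv.refl : FF M ≃ₐ[Kbar] FF M)
        (s18_baseIncl K₁ M (s18_coord K₁ (s18_cz_t3 M h3))) + 27) *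
      ((AlgEquiv.refl : FF M ≃ₐ[Kbar] FF M)
        (s18_baseIncl K₁ M (s18_coord K₁ (s18_cz_t3 M h3))) + 243) ^ 3 :=
  s18_br_hjt3 M K₁ h3

end Fermat.Agent.S36
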