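import Fermat.Agent.S36.HorizInst
import Fermat.Agent.S37.EsSwap
import Fermat.Prelude.Thm_ModularCurve_coeffMap_qExpand

/-!
# S36 (NODE-3), leaf (M5): the `ℚ̄`-swap witness for `x' = t(Q^q)`

At level `N * q` (`q` coprime to `N`) the Atkin–Lehner swap `σ` of `ℚ̄ · F(N q)` sends `j(Q^q)` to
`j`.  Hence for `x' ∈ K₁ · F(N q)` with `q`-expansion `t₂(Q^q)` (resp. `t₃(Q^q)`) the element
`σ (ι x')` satisfies the Hauptmodul equation with `j` — the hypothesis `hσ` of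
`s36_hu_hunr_two` / `s36_hu_hunr_three`.
-/

set_option autoImplicit false
set_option synthInstance.maxHeartbeats 400000
set_option linter.unusedSectionVars false
set_option linter.style.haveILetI false

open ModularCurve AlgebraicCurve Polynomial IntermediateField

noncomputable section

namespace Fermat.Agent.S36

open Fermat.Agent.S24 (Kbar FF jF)
open Fermat.Agent.S18 Fermat.Agent.S37

/-- The Atkin–Lehner swap of `ℚ̄ · F(N q)` sends `j(Q^q)` to `j`. -/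
theorem s36_hu_sigma (N q : ℕ) [NeZero N] [NeZero q] (hcop : Nat.Coprime q N) :
    ∃ σ : FF (N * q) ≃ₐ[Kbar] FF (N * q), ∀ J' : FF (N * q),
      (J' : LaurentSeries Kbar) = qExpand Kbar q (jqModC Kbar) → σ J' = jF (N * q) := by
  obtain ⟨W, hW⟩ := s37_ew_swap_field N q hcop
  refine ⟨W, fun J' hJ' => ?_⟩
  have hs : s37_ew_s (1 * q) = qExpand Kbar q (jqModC Kbar) := by
    rw [one_mul, s37_ew_s_eq, coeffEmb, coeffMap_qExpand, ← jqModC_rat]
    congr 1
    exact map_jqModC _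
  have h1 : s37_ew_s (1 * q) ∈ modularFunctionFieldBar (N * q) := by
    rw [hs, ← hJ']
    exact J'.2
  have hJ : J' = ⟨s37_ew_s (1 * q), h1⟩ := Subtype.ext (hJ'.trans hs.symm)
  have h2 := hW 1 q (one_dvd N) (dvd_refl q) h1
  rw [Nat.div_self (Nat.pos_of_ne_zero (NeZero.ne q)), mul_one] at h2
  apply Subtype.ext
  rw [hJ, h2, Fermat.Agent.S24.jtrans_coe_jF]
  haveI : NeZero (1 : ℕ) := ⟨one_ne_zero⟩
  rw [s37_ew_s_eq, qExpand_one_apply, ← jqModC_rat]
  exact map_jqModC _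

variable (K₁ : IntermediateField ℚ Kbar)

/-- `hσ` of `s36_hu_hunr_two` for `x'` with `q`-expansion `t₂(Q^q)`. -/
theorem s36_hu_sigma_two (N q : ℕ) [NeZero N] [NeZero q] (hcop : Nat.Coprime q N)
    (x' : s18_F1 K₁ (N * q))
    (hx' : (x' : LaurentSeries K₁) = qExpand K₁ q (s18_t2R K₁)) :
    ∃ σ : FF (N * q) ≃ₐ[Kbar] FF (N * q),
      jF (N * q) * (σ (s18_baseIncl K₁ (N * q) x')) ^ 2 =
        (σ (s18_baseIncl K₁ (N * q) x') + 256) ^ 3 := by
  obtain ⟨σ, hσ⟩ := s36_hu_sigma N q hcop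
  have hY : ((s18_baseIncl K₁ (N * q) x' : FF (N * q)) : LaurentSeries Kbar) =
      qExpand Kbar q (s18_t2R Kbar) := by
    rw [s18_baseIncl_coe, hx', coeffMap_qExpand, s18_coeffMap_t2R]
  have hJmem : qExpand Kbar q (jqModC Kbar) ∈ modularFunctionFieldBar (N * q) := by
    have h := s37_ew_s_mem (N * q) q (dvd_mul_left q N)
    rw [coeffEmb, coeffMap_qExpand, ← jqModC_rat] at h
    have e : coeffMap (algebraMap ℚ Kbar) (jqModC ℚ) = jqModC Kbar := map_jqModC _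
    rwa [e] at h
  refine ⟨σ, s36_hu_swap_eq_two (N * q) σ _ ⟨_, hJmem⟩ ?_ (hσ ⟨_, hJmem⟩ rfl)⟩
  apply Subtype.ext
  have h := congrArg (qExpand Kbar q) (s18_t2R_j Kbar)
  rw [map_mul, map_pow, map_pow, map_add, map_ofNat] at h
  show qExpand Kbar q (jqModC Kbar) *
      ((s18_baseIncl K₁ (N * q) x' : FF (N * q)) : LaurentSeries Kbar) ^ 2 =
    (((s18_baseIncl K₁ (N * q) x' : FF (N * q)) : LaurentSeries Kbar) + 256) ^ 3
  rw [hY]
  exact h

/-- `hσ` of `s36_hu_hunr_three` for `x'` with `q`-expansion `t₃(Q^q)`. -/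
theorem s36_hu_sigma_three (N q : ℕ) [NeZero N] [NeZero q] (hcop : Nat.Coprime q N)
    (x' : s18_F1 K₁ (N * q))
    (hx' : (x' : LaurentSeries K₁) = qExpand K₁ q (s18_t3R K₁)) :
    ∃ σ : FF (N * q) ≃ₐ[Kbar] FF (N * q),
      jF (N * q) * (σ (s18_baseIncl K₁ (N * q) x')) ^ 3 =
        (σ (s18_baseIncl K₁ (N * q) x') + 27) * (σ (s18_baseIncl K₁ (N * q) x') + 243) ^ 3 := by
  obtain ⟨σ, hσ⟩ := s36_hu_sigma N q hcop
  have hY : ((s18_baseIncl K₁ (N * q) x' : FF (N * q)) : LaurentSeries Kbar) =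
      qExpand Kbar q (s18_t3R Kbar) := by
    rw [s18_baseIncl_coe, hx', coeffMap_qExpand, s18_coeffMap_t3R]
  have hJmem : qExpand Kbar q (jqModC Kbar) ∈ modularFunctionFieldBar (N * q) := by
    have h := s37_ew_s_mem (N * q) q (dvd_mul_left q N)
    rw [coeffEmb, coeffMap_qExpand, ← jqModC_rat] at h
    have e : coeffMap (algebraMap ℚ Kbar) (jqModC ℚ) = jqModC Kbar := map_jqModC _
    rwa [e] at h
  refine ⟨σ, s36_hu_swap_eq_three (N * q) σ _ ⟨_, hJmem⟩ ?_ (hσ ⟨_, hJmem⟩ rfl)⟩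
  apply Subtype.ext
  have h := congrArg (qExpand Kbar q) (s18_t3R_j Kbar)
  rw [map_mul, map_pow, map_mul, map_pow, map_add, map_add, map_ofNat, map_ofNat] at h
  show qExpand Kbar q (jqModC Kbar) *
      ((s18_baseIncl K₁ (N * q) x' : FF (N * q)) : LaurentSeries Kbar) ^ 3 =
    (((s18_baseIncl K₁ (N * q) x' : FF (N * q)) : LaurentSeries Kbar) + 27) *
      (((s18_baseIncl K₁ (N * q) x' : FF (N * q)) : LaurentSeries Kbar) + 243) ^ 3
  rw [hY]
  exact h

end Fermat.Agent.S36
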