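import Fermat.Agent.S34.Krull
import Fermat.Agent.S34.SmoothPoint

/-!
# S36 (NODE-3), B2 route: normality at a point of a chart with two vertical components

`B ⊆ F` a normal noetherian chart, `ϖ ∈ B`, `V₁`, `V₂` the (uniformized) valuation rings of the
two vertical components, (cap) `B ∩ ϖ (V₁ ∩ V₂) = ϖ B`, `𝔪` a prime of `B`.

* `s36_np_arch` : in a discrete valuation ring `W` of `F`, a power of any non-unit is divisible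
  by any nonzero element.
* `s36_np_vert` : if the branch prime `P = B ∩ d V` of a uniformized valuation ring `V ⊇ B` lies
  in `𝔭` and `B_𝔭 = W` is a discrete valuation ring, then `V ⊆ W` (so `W = V`).
* `s36_np_branch_two` : by (cap), a prime `𝔭 ∋ ϖ` contains `P₁` or `P₂`.
* `s36_np_loc_two` : **normality at a point.**  If `x ∈ V₁ ∩ V₂` and `x` lies in every HORIZONTAL
  discrete valuation ring `W ⊇ B_𝔪` (`ϖ⁻¹ ∈ W`), then `x ∈ B_𝔪` (`s18_loc B 𝔪`).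
* `s36_np_rhoinv` : the hypothesis `hρinv` of `s36_th_unit` (`ThickCore.lean`): if `ρ⁻¹ ∈ V₁`,
  `ρ⁻¹ ∈ ϖ V₂` and `ρ⁻¹` lies in every horizontal discrete valuation ring through `𝔪`, then
  `b = ρ a` with `a, b ∈ B`, `b ∉ 𝔪`, `a ∈ ϖ V₂`.
* `s36_np_unit` : if `x, x⁻¹ ∈ V₁ ∩ V₂` and both lie in every horizontal discrete valuation ring
  through `𝔪`, then `x` is a unit of `B_𝔪`.
-/

set_option autoImplicit false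

namespace Fermat.Agent.S36

open Fermat.Agent.S18 Fermat.Agent.S34

variable {F : Type*} [Field F]

/-- In a discrete valuation ring `W` of `F`: a power of a non-unit `t` is divisible by any
nonzero `ϖ ∈ W`. -/
theorem s36_np_arch (W : ValuationSubring F) (hW : IsDiscreteValuationRing W)
    (t ϖ : F) (ht : t ∈ W) (htu : t⁻¹ ∉ W) (hϖ : ϖ ∈ W) (hϖ0 : ϖ ≠ 0) :
    ∃ n : ℕ, ϖ⁻¹ * t ^ n ∈ W := by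
  obtain ⟨τ, hτ⟩ := IsDiscreteValuationRing.exists_irreducible W
  have hP0 : (⟨ϖ, hϖ⟩ : W) ≠ 0 := fun h => hϖ0 (congrArg Subtype.val h)
  obtain ⟨m, u, hu⟩ := IsDiscreteValuationRing.eq_unit_mul_pow_irreducible hP0 hτ
  have hTnu : ¬ IsUnit (⟨t, ht⟩ : W) := by
    intro h
    apply htu
    obtain ⟨v, hv⟩ := h
    have h1 : ((v⁻¹ : Wˣ) : W) * ⟨t, ht⟩ = 1 := by rw [← hv]; exact Units.inv_mul v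
    have h2 : (((v⁻¹ : Wˣ) : W) : F) * t = 1 := congrArg Subtype.val h1
    have h3 : t⁻¹ = (((v⁻¹ : Wˣ) : W) : F) := inv_eq_of_mul_eq_one_left h2
    rw [h3]
    exact ((v⁻¹ : Wˣ) : W).2
  have hTmem : (⟨t, ht⟩ : W) ∈ IsLocalRing.maximalIdeal W := hTnu
  rw [(IsDiscreteValuationRing.irreducible_iff_uniformizer τ).mp hτ,
    Ideal.mem_span_singleton'] at hTmem
  obtain ⟨c, hc⟩ := hTmem
  refine ⟨m, ?_⟩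
  have hτ0 : (τ : F) ≠ 0 := fun h => hτ.ne_zero (Subtype.ext h)
  have hu0 : ((u : W) : F) ≠ 0 := by
    intro h
    have : (u : W) = 0 := Subtype.ext h
    exact u.ne_zero this
  have e1 : ϖ = ((u : W) : F) * (τ : F) ^ m :=
    congrArg (Subtype.val : W → F) hu
  have e2 : t = (c : F) * (τ : F) :=
    (congrArg (Subtype.val : W → F) hc).symm
  have e3 : ϖ⁻¹ * t ^ m = (((u⁻¹ : Wˣ) : W) : F) * (c : F) ^ m := by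
    have h4 : (((u⁻¹ : Wˣ) : W) : F) * ((u : W) : F) = 1 :=
      congrArg (Subtype.val : W → F) (Units.inv_mul u)
    have h5 : (((u⁻¹ : Wˣ) : W) : F) = (((u : W) : F))⁻¹ := (inv_eq_of_mul_eq_one_left h4).symm
    rw [e1, e2, h5, mul_pow]
    have hτm : (τ : F) ^ m ≠ 0 := pow_ne_zero m hτ0
    field_simp
  rw [e3]
  exact W.mul_mem _ _ ((u⁻¹ : Wˣ) : W).2 (W.pow_mem c.2 m)

/-- **A vertical DVR is the component.**  `V ⊇ B` uniformized by `d`, `ϖ ∈ B` nonzero and not a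
unit of `V`; `𝔭` a prime of `B` containing the branch prime `P = B ∩ d V`, and `W = B_𝔭` a
discrete valuation ring.  Then `V ⊆ W`. -/
theorem s36_np_vert (B V : Subring F) (d ϖ : F) (hV : s34_Unif d V) (hB : B ≤ V)
    (hϖB : ϖ ∈ B) (hϖ0 : ϖ ≠ 0) (hϖV : ϖ⁻¹ ∉ V)
    (𝔭 : Ideal B) (h𝔭 : 𝔭.IsPrime) (hP : ∀ p : B, d⁻¹ * (p : F) ∈ V → p ∈ 𝔭)
    (W : ValuationSubring F) (hW : IsDiscreteValuationRing W)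
    (hWmem : ∀ z : F, z ∈ W ↔ ∃ a s : B, s ∉ 𝔭 ∧ z = (a : F) / (s : F))
    (x : F) (hx : x ∈ V) : x ∈ W := by
  have h1 : (1 : B) ∉ 𝔭 := fun h => h𝔭.ne_top ((Ideal.eq_top_iff_one _).mpr h)
  -- `W ⊆ V`
  have hWV : ∀ z : F, z ∈ W → z ∈ V := by
    intro z hz
    obtain ⟨a, s, hs, rfl⟩ := (hWmem z).mp hz
    have hs' : d⁻¹ * (s : F) ∉ V := fun h => hs (hP s h)
    have hsinv : ((s : F))⁻¹ ∈ V := hV.inv_mem_of_not_dvd (hB s.2) hs'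
    rw [div_eq_mul_inv]
    exact V.mul_mem (hB a.2) hsinv
  by_contra hxW
  have hx0 : x ≠ 0 := by
    rintro rfl
    exact hxW W.zero_mem
  have hxinv : x⁻¹ ∈ W := (W.mem_or_inv_mem x).resolve_left hxW
  have hϖW : ϖ ∈ W := (hWmem ϖ).mpr ⟨⟨ϖ, hϖB⟩, 1, h1, by simp⟩
  obtain ⟨n, hn⟩ := s36_np_arch W hW x⁻¹ ϖ hxinv (by rwa [inv_inv]) hϖW hϖ0
  apply hϖV
  have e : ϖ⁻¹ = ϖ⁻¹ * x⁻¹ ^ n * x ^ n := by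
    rw [inv_pow, mul_assoc, inv_mul_cancel₀ (pow_ne_zero n hx0), mul_one]
  rw [e]
  exact V.mul_mem (hWV _ hn) (V.pow_mem hx n)

/-- By (cap), a prime containing `ϖ` contains one of the two branch primes. -/
theorem s36_np_branch_two (B V₁ V₂ : Subring F) (hB₁ : B ≤ V₁) (hB₂ : B ≤ V₂) (ϖ : F)
    (hϖB : ϖ ∈ B) (hϖ0 : ϖ ≠ 0)
    (hcap : ∀ x ∈ B, ϖ⁻¹ * x ∈ V₁ → ϖ⁻¹ * x ∈ V₂ → ϖ⁻¹ * x ∈ B)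
    (𝔭 : Ideal B) (h𝔭 : 𝔭.IsPrime) (hϖ𝔭 : (⟨ϖ, hϖB⟩ : B) ∈ 𝔭) :
    (∀ p : B, ϖ⁻¹ * (p : F) ∈ V₁ → p ∈ 𝔭) ∨ (∀ p : B, ϖ⁻¹ * (p : F) ∈ V₂ → p ∈ 𝔭) := by
  by_contra hcon
  push Not at hcon
  obtain ⟨⟨p₁, hp₁, hp₁𝔭⟩, ⟨p₂, hp₂, hp₂𝔭⟩⟩ := hcon
  have h1 : ϖ⁻¹ * ((p₁ : F) * (p₂ : F)) ∈ V₁ := by
    have : ϖ⁻¹ * ((p₁ : F) * (p₂ : F)) = (ϖ⁻¹ * (p₁ : F)) * (p₂ : F) := by ring
    rw [this]
    exact V₁.mul_mem hp₁ (hB₁ p₂.2)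
  have h2 : ϖ⁻¹ * ((p₁ : F) * (p₂ : F)) ∈ V₂ := by
    have : ϖ⁻¹ * ((p₁ : F) * (p₂ : F)) = (p₁ : F) * (ϖ⁻¹ * (p₂ : F)) := by ring
    rw [this]
    exact V₂.mul_mem (hB₂ p₁.2) hp₂
  have h3 := hcap _ (B.mul_mem p₁.2 p₂.2) h1 h2
  have h4 : p₁ * p₂ = ⟨ϖ, hϖB⟩ * ⟨_, h3⟩ := by
    apply Subtype.ext
    show (p₁ : F) * (p₂ : F) = ϖ * (ϖ⁻¹ * ((p₁ : F) * (p₂ : F)))
    rw [← mul_assoc, mul_inv_cancel₀ hϖ0, one_mul]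
  have h5 : p₁ * p₂ ∈ 𝔭 := by
    rw [h4]
    exact 𝔭.mul_mem_right _ hϖ𝔭
  rcases h𝔭.mem_or_mem h5 with h | h
  · exact hp₁𝔭 h
  · exact hp₂𝔭 h

/-- **Normality at a point** of a chart with two vertical components: an element of
`V₁ ∩ V₂` lying in every horizontal discrete valuation ring through `𝔪` lies in `B_𝔪`. -/
theorem s36_np_loc_two (B V₁ V₂ : Subring F) (ϖ : F) (hV₁ : s34_Unif ϖ V₁)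
    (hV₂ : s34_Unif ϖ V₂) (hB₁ : B ≤ V₁) (hB₂ : B ≤ V₂) (hϖB : ϖ ∈ B)
    (hnoeth : IsNoetherianRing B)
    (hfrac : ∀ x : F, ∃ a ∈ B, ∃ b ∈ B, b ≠ 0 ∧ x = a / b)
    (hnorm : ∀ z : F, IsIntegral B z → z ∈ B)
    (hcap : ∀ x ∈ B, ϖ⁻¹ * x ∈ V₁ → ϖ⁻¹ * x ∈ V₂ → ϖ⁻¹ * x ∈ B)
    (𝔪 : Ideal B) [h𝔪 : 𝔪.IsPrime] (x : F) (hx₁ : x ∈ V₁) (hx₂ : x ∈ V₂)
    (hhor : ∀ W : ValuationSubring F, IsDiscreteValuationRing W → B ≤ W.toSubring →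
      (∀ b : B, b ∉ 𝔪 → ((b : F))⁻¹ ∈ W) → ϖ⁻¹ ∈ W → x ∈ W) :
    x ∈ s18_loc B 𝔪 := by
  have hϖ0 : ϖ ≠ 0 := hV₁.ne_zero
  refine s34_krull_loc B hnoeth hfrac hnorm 𝔪 x fun 𝔭 h𝔭 h𝔭le W hW hWmem => ?_
  have h1 : (1 : B) ∉ 𝔭 := fun h => h𝔭.ne_top ((Ideal.eq_top_iff_one _).mpr h)
  by_cases hϖW : ϖ⁻¹ ∈ W
  · apply hhor W hW
    · intro b hb
      exact (hWmem b).mpr ⟨⟨b, hb⟩, 1, h1, by simp⟩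
    · intro b hb
      exact (hWmem _).mpr ⟨1, b, fun hb' => hb (h𝔭le hb'), by simp⟩
    · exact hϖW
  · have hϖ𝔭 : (⟨ϖ, hϖB⟩ : B) ∈ 𝔭 := by
      by_contra h
      exact hϖW ((hWmem _).mpr ⟨1, ⟨ϖ, hϖB⟩, h, by simp⟩)
    rcases s36_np_branch_two B V₁ V₂ hB₁ hB₂ ϖ hϖB hϖ0 hcap 𝔭 h𝔭 hϖ𝔭 with hP | hP
    · exact s36_np_vert B V₁ ϖ ϖ hV₁ hB₁ hϖB hϖ0 hV₁.inv_not_mem 𝔭 h𝔭 hP W hW hWmem x hx₁
    · exact s36_np_vert B V₂ ϖ ϖ hV₂ hB₂ hϖB hϖ0 hV₂.inv_not_mem 𝔭 h𝔭 hP W hW hWmem x hx₂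

/-- **The hypothesis `hρinv` of `s36_th_unit`.**  If `ρ⁻¹ ∈ V₁`, `ρ⁻¹ ∈ ϖ V₂` and `ρ⁻¹` lies in
every horizontal discrete valuation ring through `𝔪`, then `b = ρ a` with `a, b ∈ B`, `b ∉ 𝔪`
and `a ∈ ϖ V₂`. -/
theorem s36_np_rhoinv (B V₁ V₂ : Subring F) (ϖ : F) (hV₁ : s34_Unif ϖ V₁)
    (hV₂ : s34_Unif ϖ V₂) (hB₁ : B ≤ V₁) (hB₂ : B ≤ V₂) (hϖB : ϖ ∈ B)
    (hnoeth : IsNoetherianRing B)
    (hfrac : ∀ x : F, ∃ a ∈ B, ∃ b ∈ B, b ≠ 0 ∧ x = a / b)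
    (hnorm : ∀ z : F, IsIntegral B z → z ∈ B)
    (hcap : ∀ x ∈ B, ϖ⁻¹ * x ∈ V₁ → ϖ⁻¹ * x ∈ V₂ → ϖ⁻¹ * x ∈ B)
    (𝔪 : Ideal B) [h𝔪 : 𝔪.IsPrime] (ρt : F) (hρ0 : ρt ≠ 0)
    (hρ₁ : ρt⁻¹ ∈ V₁) (hρ₂ : ϖ⁻¹ * ρt⁻¹ ∈ V₂)
    (hhor : ∀ W : ValuationSubring F, IsDiscreteValuationRing W → B ≤ W.toSubring →
      (∀ b : B, b ∉ 𝔪 → ((b : F))⁻¹ ∈ W) → ϖ⁻¹ ∈ W → ρt⁻¹ ∈ W) :
    ∃ a b : B, b ∉ 𝔪 ∧ (b : F) = ρt * (a : F) ∧ ϖ⁻¹ * (a : F) ∈ V₂ := by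
  have hϖ0 : ϖ ≠ 0 := hV₁.ne_zero
  have hρV₂ : ρt⁻¹ ∈ V₂ := by
    have e : ρt⁻¹ = ϖ * (ϖ⁻¹ * ρt⁻¹) := by rw [← mul_assoc, mul_inv_cancel₀ hϖ0, one_mul]
    rw [e]
    exact V₂.mul_mem hV₂.mem hρ₂
  obtain ⟨a, b, hb, e⟩ := s36_np_loc_two B V₁ V₂ ϖ hV₁ hV₂ hB₁ hB₂ hϖB hnoeth hfrac hnorm hcap
    𝔪 ρt⁻¹ hρ₁ hρV₂ hhor
  have hb0 : (b : F) ≠ 0 := by
    intro h
    apply hb
    have : b = 0 := Subtype.ext h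
    rw [this]
    exact 𝔪.zero_mem
  have ea : (a : F) = ρt⁻¹ * (b : F) := by
    rw [e]
    field_simp
  refine ⟨a, b, hb, ?_, ?_⟩
  · rw [ea, ← mul_assoc, mul_inv_cancel₀ hρ0, one_mul]
  · rw [ea, ← mul_assoc]
    exact V₂.mul_mem hρ₂ (hB₂ b.2)

/-- If `x` and `x⁻¹` lie in `V₁ ∩ V₂` and in every horizontal discrete valuation ring through
`𝔪`, then `x` and `x⁻¹` lie in `B_𝔪`. -/
theorem s36_np_unit (B V₁ V₂ : Subring F) (ϖ : F) (hV₁ : s34_Unif ϖ V₁)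
    (hV₂ : s34_Unif ϖ V₂) (hB₁ : B ≤ V₁) (hB₂ : B ≤ V₂) (hϖB : ϖ ∈ B)
    (hnoeth : IsNoetherianRing B)
    (hfrac : ∀ x : F, ∃ a ∈ B, ∃ b ∈ B, b ≠ 0 ∧ x = a / b)
    (hnorm : ∀ z : F, IsIntegral B z → z ∈ B)
    (hcap : ∀ x ∈ B, ϖ⁻¹ * x ∈ V₁ → ϖ⁻¹ * x ∈ V₂ → ϖ⁻¹ * x ∈ B)
    (𝔪 : Ideal B) [h𝔪 : 𝔪.IsPrime] (x : F)
    (hx₁ : x ∈ V₁) (hx₂ : x ∈ V₂) (hxi₁ : x⁻¹ ∈ V₁) (hxi₂ : x⁻¹ ∈ V₂)
    (hhor : ∀ W : ValuationSubring F, IsDiscreteValuationRing W → B ≤ W.toSubring →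
      (∀ b : B, b ∉ 𝔪 → ((b : F))⁻¹ ∈ W) → ϖ⁻¹ ∈ W → x ∈ W ∧ x⁻¹ ∈ W) :
    x ∈ s18_loc B 𝔪 ∧ x⁻¹ ∈ s18_loc B 𝔪 :=
  ⟨s36_np_loc_two B V₁ V₂ ϖ hV₁ hV₂ hB₁ hB₂ hϖB hnoeth hfrac hnorm hcap 𝔪 x hx₁ hx₂
      (fun W hW hBW hloc hϖ => (hhor W hW hBW hloc hϖ).1),
    s36_np_loc_two B V₁ V₂ ϖ hV₁ hV₂ hB₁ hB₂ hϖB hnoeth hfrac hnorm hcap 𝔪 x⁻¹ hxi₁ hxi₂
      (fun W hW hBW hloc hϖ => (hhor W hW hBW hloc hϖ).2)⟩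

end Fermat.Agent.S36
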