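import Fermat.Agent.S36.HorizScale
import Fermat.Agent.S36.HorizSwap
import Fermat.Agent.S36.NormalPt

/-!
# S36 (NODE-3), leaf (M5): `hρinv` in the model at level `N * q`

The composition `s36_np_rhoinv ∘ s36_hu_hhor_inv_nat ∘ s36_hu_hunr_two ∘ s36_hu_sigma_two`:
for the chart coordinate `x` and `x' = t₂(Q^q)` (resp. `t₃(Q^q)`), `ρ̃` with
`θ x' = q · ρ̃ · θ x`, `ρ̃⁻¹ ∈ V∞`, `ϖ⁻¹ ρ̃⁻¹ ∈ V₀`, and a prime `𝔪` of the chart at which `x'`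
and `x' + 64` (resp. `x' + 27`) are units:

  `∃ a b : B, b ∉ 𝔪 ∧ b = ρ̃ a ∧ ϖ⁻¹ a ∈ V₀`

— literally the hypothesis `hρinv` of `s36_th_unit_D` / `s36_th_gen_D` (`ThickCoreM.lean`).
-/

set_option autoImplicit false
set_option synthInstance.maxHeartbeats 400000
set_option linter.unusedSectionVars false
set_option linter.style.haveILetI false

open ModularCurve AlgebraicCurve Polynomial IntermediateField

noncomputable section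

namespace Fermat.Agent.S36

open Fermat.Agent.S24 (Kbar FF jF)
open Fermat.Agent.S18 Fermat.Agent.S34 Fermat.Agent.S37

/-- A series with leading term `Q⁻¹` has coefficient `1` in degree `-1`. -/
theorem s36_hu_lead_coeff {R : Type*} [CommRing R] {f : LaurentSeries R} (hf : s18h_lead 1 f) :
    f.coeff (-1) = 1 := by
  obtain ⟨P, hP, rfl⟩ := hf
  have h := HahnSeries.coeff_single_mul_add (r := (1 : R))
    (x := HahnSeries.ofPowerSeries ℤ R P) (a := (0 : ℤ)) (b := (-1 : ℤ))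
  rw [zero_add, one_mul] at h
  rw [h]
  have h2 := HahnSeries.ofPowerSeries_apply_coeff (Γ := ℤ) (R := R) P 0
  rw [Nat.cast_zero] at h2
  rw [h2, PowerSeries.coeff_zero_eq_constantCoeff_apply, hP]

variable (K₁ : IntermediateField ℚ Kbar) (A : ValuationSubring Kbar)

/-- `θ (f(Q^q)) ≠ 0` for `f` with leading term `Q⁻¹` (characteristic zero). -/
theorem s36_hu_theta_qExpand_ne (q : ℕ) [NeZero q] {f : LaurentSeries K₁} (hf : s18h_lead 1 f) :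
    s36_qt_theta K₁ (qExpand K₁ q f) ≠ 0 := by
  refine s36_hu_theta_ne_zero K₁ _ ((q : ℤ) * (-1)) ?_ ?_
  · have : (q : ℤ) ≠ 0 := by exact_mod_cast NeZero.ne q
    simpa using this
  · rw [qExpand_coeff_mul, s36_hu_lead_coeff hf]
    exact one_ne_zero

/-- **`hρinv` in the model, level-2 coordinate.** -/
theorem s36_hu_model_rhoinv_two (N q : ℕ) [NeZero N] [NeZero q] (hcop : Nat.Coprime q N)
    [IsDiscreteValuationRing (s18_A1 A K₁)] {π : s18_A1 A K₁} (hπ : Irreducible π)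
    (B V₁ V₂ : Subring (s18_F1 K₁ (N * q)))
    (hAB : ∀ a : s18_A1 A K₁, algebraMap (s18_A1 A K₁) (s18_F1 K₁ (N * q)) a ∈ B)
    (hV₁ : s34_Unif (algebraMap (s18_A1 A K₁) (s18_F1 K₁ (N * q)) π) V₁)
    (hV₂ : s34_Unif (algebraMap (s18_A1 A K₁) (s18_F1 K₁ (N * q)) π) V₂)
    (hB₁ : B ≤ V₁) (hB₂ : B ≤ V₂)
    (hnoeth : IsNoetherianRing B)
    (hfrac : ∀ x : s18_F1 K₁ (N * q), ∃ a ∈ B, ∃ b ∈ B, b ≠ 0 ∧ x = a / b)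
    (hnorm : ∀ z : s18_F1 K₁ (N * q), IsIntegral B z → z ∈ B)
    (hcap : ∀ x ∈ B, (algebraMap (s18_A1 A K₁) (s18_F1 K₁ (N * q)) π)⁻¹ * x ∈ V₁ →
      (algebraMap (s18_A1 A K₁) (s18_F1 K₁ (N * q)) π)⁻¹ * x ∈ V₂ →
      (algebraMap (s18_A1 A K₁) (s18_F1 K₁ (N * q)) π)⁻¹ * x ∈ B)
    (𝔪 : Ideal B) [h𝔪 : 𝔪.IsPrime]
    (x x' ρt : s18_F1 K₁ (N * q)) (hx : x ∈ B) (hx' : x' ∈ B)
    (hx'e : (x' : LaurentSeries K₁) = qExpand K₁ q (s18_t2R K₁))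
    (hx'𝔪 : (⟨x', hx'⟩ : B) ∉ 𝔪) (hx'64 : (⟨x', hx'⟩ + 64 : B) ∉ 𝔪)
    (hr : s36_qt_theta K₁ (x' : LaurentSeries K₁) =
      (q : LaurentSeries K₁) * (ρt : LaurentSeries K₁) * s36_qt_theta K₁ (x : LaurentSeries K₁))
    (hρ₁ : ρt⁻¹ ∈ V₁)
    (hρ₂ : (algebraMap (s18_A1 A K₁) (s18_F1 K₁ (N * q)) π)⁻¹ * ρt⁻¹ ∈ V₂) :
    ∃ a b : B, b ∉ 𝔪 ∧ (b : s18_F1 K₁ (N * q)) = ρt * (a : s18_F1 K₁ (N * q)) ∧
      (algebraMap (s18_A1 A K₁) (s18_F1 K₁ (N * q)) π)⁻¹ * (a : s18_F1 K₁ (N * q)) ∈ V₂ := by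
  have hθx' : s36_qt_theta K₁ (x' : LaurentSeries K₁) ≠ 0 := by
    rw [hx'e]
    exact s36_hu_theta_qExpand_ne K₁ q (s18h_lead_t2R K₁)
  have hρ0 : ρt ≠ 0 := by
    rintro rfl
    apply hθx'
    rw [hr]
    simp
  obtain ⟨σ, hσ⟩ := s36_hu_sigma_two K₁ N q hcop x' hx'e
  exact s36_np_rhoinv B V₁ V₂ _ hV₁ hV₂ hB₁ hB₂ (hAB π) hnoeth hfrac hnorm hcap 𝔪 ρt hρ0 hρ₁ hρ₂
    (s36_hu_hhor_inv_nat (N * q) K₁ A hπ B hAB 𝔪 x x' ρt hx hx' q hθx' hr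
      (s36_hu_hunr_two (N * q) K₁ B 𝔪 x' hx' hx'𝔪 hx'64 σ hσ))

/-- **`hρinv` in the model, level-3 coordinate.** -/
theorem s36_hu_model_rhoinv_three (N q : ℕ) [NeZero N] [NeZero q] (hcop : Nat.Coprime q N)
    [IsDiscreteValuationRing (s18_A1 A K₁)] {π : s18_A1 A K₁} (hπ : Irreducible π)
    (B V₁ V₂ : Subring (s18_F1 K₁ (N * q)))
    (hAB : ∀ a : s18_A1 A K₁, algebraMap (s18_A1 A K₁) (s18_F1 K₁ (N * q)) a ∈ B)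
    (hV₁ : s34_Unif (algebraMap (s18_A1 A K₁) (s18_F1 K₁ (N * q)) π) V₁)
    (hV₂ : s34_Unif (algebraMap (s18_A1 A K₁) (s18_F1 K₁ (N * q)) π) V₂)
    (hB₁ : B ≤ V₁) (hB₂ : B ≤ V₂)
    (hnoeth : IsNoetherianRing B)
    (hfrac : ∀ x : s18_F1 K₁ (N * q), ∃ a ∈ B, ∃ b ∈ B, b ≠ 0 ∧ x = a / b)
    (hnorm : ∀ z : s18_F1 K₁ (N * q), IsIntegral B z → z ∈ B)
    (hcap : ∀ x ∈ B, (algebraMap (s18_A1 A K₁) (s18_F1 K₁ (N * q)) π)⁻¹ * x ∈ V₁ →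
      (algebraMap (s18_A1 A K₁) (s18_F1 K₁ (N * q)) π)⁻¹ * x ∈ V₂ →
      (algebraMap (s18_A1 A K₁) (s18_F1 K₁ (N * q)) π)⁻¹ * x ∈ B)
    (𝔪 : Ideal B) [h𝔪 : 𝔪.IsPrime]
    (x x' ρt : s18_F1 K₁ (N * q)) (hx : x ∈ B) (hx' : x' ∈ B)
    (hx'e : (x' : LaurentSeries K₁) = qExpand K₁ q (s18_t3R K₁))
    (hx'𝔪 : (⟨x', hx'⟩ : B) ∉ 𝔪) (hx'27 : (⟨x', hx'⟩ + 27 : B) ∉ 𝔪)
    (hr : s36_qt_theta K₁ (x' : LaurentSeries K₁) =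
      (q : LaurentSeries K₁) * (ρt : LaurentSeries K₁) * s36_qt_theta K₁ (x : LaurentSeries K₁))
    (hρ₁ : ρt⁻¹ ∈ V₁)
    (hρ₂ : (algebraMap (s18_A1 A K₁) (s18_F1 K₁ (N * q)) π)⁻¹ * ρt⁻¹ ∈ V₂) :
    ∃ a b : B, b ∉ 𝔪 ∧ (b : s18_F1 K₁ (N * q)) = ρt * (a : s18_F1 K₁ (N * q)) ∧
      (algebraMap (s18_A1 A K₁) (s18_F1 K₁ (N * q)) π)⁻¹ * (a : s18_F1 K₁ (N * q)) ∈ V₂ := by
  have hθx' : s36_qt_theta K₁ (x' : LaurentSeries K₁) ≠ 0 := by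
    rw [hx'e]
    exact s36_hu_theta_qExpand_ne K₁ q (s18h_lead_t3R K₁)
  have hρ0 : ρt ≠ 0 := by
    rintro rfl
    apply hθx'
    rw [hr]
    simp
  obtain ⟨σ, hσ⟩ := s36_hu_sigma_three K₁ N q hcop x' hx'e
  exact s36_np_rhoinv B V₁ V₂ _ hV₁ hV₂ hB₁ hB₂ (hAB π) hnoeth hfrac hnorm hcap 𝔪 ρt hρ0 hρ₁ hρ₂
    (s36_hu_hhor_inv_nat (N * q) K₁ A hπ B hAB 𝔪 x x' ρt hx hx' q hθx' hr
      (s36_hu_hunr_three (N * q) K₁ B 𝔪 x' hx' hx'𝔪 hx'27 σ hσ))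

end Fermat.Agent.S36
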