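import Fermat.Agent.S36.HorizInst

/-!
# S36 (NODE-3), leaf (M5): `hhor` for `ρ̃ = θ x' / (n · θ x)` (scaling by a nonzero integer)

The wrappers of `s36_hu_hhor_inv` / `s36_hu_hhor` for `θ x' = n · ρ̃ · θ x` with `n : ℕ`, `n ≠ 0`
(in the application `n = q`, `x' = x(Q^q)`).
-/

set_option autoImplicit false
set_option synthInstance.maxHeartbeats 400000
set_option linter.unusedSectionVars false
set_option linter.style.haveILetI false

open ModularCurve AlgebraicCurve Polynomial IntermediateField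

noncomputable section

namespace Fermat.Agent.S36

open Fermat.Agent.S24 (Kbar FF jF)
open Fermat.Agent.S18

variable (M : ℕ) [NeZero M] (K₁ : IntermediateField ℚ Kbar) (A : ValuationSubring Kbar)

/-- A nonzero natural number is a unit of every valuation subring containing the constants. -/
theorem s36_hu_natCast_mem [IsDiscreteValuationRing (s18_A1 A K₁)] {π : s18_A1 A K₁}
    (hπ : Irreducible π) (B : Subring (s18_F1 K₁ M))
    (hAB : ∀ a : s18_A1 A K₁, algebraMap (s18_A1 A K₁) (s18_F1 K₁ M) a ∈ B)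
    (W : ValuationSubring (s18_F1 K₁ M)) (hBW : B ≤ W.toSubring)
    (hπW : (algebraMap (s18_A1 A K₁) (s18_F1 K₁ M) π)⁻¹ ∈ W) (n : ℕ) :
    ((n : s18_F1 K₁ M)) ∈ W ∧ ((n : s18_F1 K₁ M))⁻¹ ∈ W := by
  have h1 := s36_hu_const_mem M K₁ A hπ B hAB W hBW hπW (n : K₁)
  have h2 := s36_hu_const_mem M K₁ A hπ B hAB W hBW hπW ((n : K₁))⁻¹
  rw [map_natCast] at h1
  rw [map_inv₀, map_natCast] at h2
  exact ⟨h1, h2⟩

/-- **`hhor` for `ρ̃⁻¹`, scaled**: `θ x' = n · ρ̃ · θ x`. -/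
theorem s36_hu_hhor_inv_nat [IsDiscreteValuationRing (s18_A1 A K₁)] {π : s18_A1 A K₁}
    (hπ : Irreducible π) (B : Subring (s18_F1 K₁ M))
    (hAB : ∀ a : s18_A1 A K₁, algebraMap (s18_A1 A K₁) (s18_F1 K₁ M) a ∈ B)
    (𝔪 : Ideal B) (x x' ρt : s18_F1 K₁ M) (hx : x ∈ B) (hx' : x' ∈ B) (n : ℕ)
    (hθx' : s36_qt_theta K₁ (x' : LaurentSeries K₁) ≠ 0)
    (hr : s36_qt_theta K₁ (x' : LaurentSeries K₁) =
      (n : LaurentSeries K₁) * (ρt : LaurentSeries K₁) * s36_qt_theta K₁ (x : LaurentSeries K₁))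
    (hunr : ∀ W : ValuationSubring (s18_F1 K₁ M), B ≤ W.toSubring →
      (∀ b : B, b ∉ 𝔪 → ((b : s18_F1 K₁ M))⁻¹ ∈ W) →
      ∀ (P : Place Kbar (FF M)) (c : Kbar),
      (∀ y ∈ W, s18_baseIncl K₁ M y ∈ P.toValuationSubring) →
      0 < P.ord (s18_baseIncl K₁ M x' - algebraMap Kbar (FF M) c) →
      P.ord (s18_baseIncl K₁ M x' - algebraMap Kbar (FF M) c) = 1) :
    ∀ W : ValuationSubring (s18_F1 K₁ M), IsDiscreteValuationRing W → B ≤ W.toSubring →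
      (∀ b : B, b ∉ 𝔪 → ((b : s18_F1 K₁ M))⁻¹ ∈ W) →
      (algebraMap (s18_A1 A K₁) (s18_F1 K₁ M) π)⁻¹ ∈ W → ρt⁻¹ ∈ W := by
  intro W hW hBW hinv hπW
  have hr' : s36_qt_theta K₁ (x' : LaurentSeries K₁) =
      (((n : s18_F1 K₁ M) * ρt : s18_F1 K₁ M) : LaurentSeries K₁) *
        s36_qt_theta K₁ (x : LaurentSeries K₁) := by
    rw [hr]
    rfl
  have h1 := s36_hu_hhor_inv M K₁ A hπ B hAB 𝔪 x x' ((n : s18_F1 K₁ M) * ρt) hx hx' hθx' hr'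
    hunr W hW hBW hinv hπW
  have hn := (s36_hu_natCast_mem M K₁ A hπ B hAB W hBW hπW n).1
  have hn0 : (n : s18_F1 K₁ M) ≠ 0 := by
    intro h0
    rw [h0, zero_mul, inv_zero] at h1
    apply hθx'
    rw [hr']
    rw [h0, zero_mul]
    simp
  have e : ρt⁻¹ = (n : s18_F1 K₁ M) * ((n : s18_F1 K₁ M) * ρt)⁻¹ := by
    rw [mul_inv, ← mul_assoc, mul_inv_cancel₀ hn0, one_mul]
  rw [e]
  exact W.mul_mem _ _ hn h1

/-- **`hhor` for `ρ̃`, scaled**: `θ x' = n · ρ̃ · θ x`, `n ≠ 0`. -/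
theorem s36_hu_hhor_nat [IsDiscreteValuationRing (s18_A1 A K₁)] {π : s18_A1 A K₁}
    (hπ : Irreducible π) (B : Subring (s18_F1 K₁ M))
    (hAB : ∀ a : s18_A1 A K₁, algebraMap (s18_A1 A K₁) (s18_F1 K₁ M) a ∈ B)
    (𝔪 : Ideal B) (x x' ρt : s18_F1 K₁ M) (hx : x ∈ B) (hx' : x' ∈ B) (n : ℕ) (hn0 : n ≠ 0)
    (hθx : s36_qt_theta K₁ (x : LaurentSeries K₁) ≠ 0)
    (hr : s36_qt_theta K₁ (x' : LaurentSeries K₁) =
      (n : LaurentSeries K₁) * (ρt : LaurentSeries K₁) * s36_qt_theta K₁ (x : LaurentSeries K₁))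
    (hunr : ∀ W : ValuationSubring (s18_F1 K₁ M), B ≤ W.toSubring →
      (∀ b : B, b ∉ 𝔪 → ((b : s18_F1 K₁ M))⁻¹ ∈ W) →
      ∀ (P : Place Kbar (FF M)) (c : Kbar),
      (∀ y ∈ W, s18_baseIncl K₁ M y ∈ P.toValuationSubring) →
      0 < P.ord (s18_baseIncl K₁ M x - algebraMap Kbar (FF M) c) →
      P.ord (s18_baseIncl K₁ M x - algebraMap Kbar (FF M) c) = 1) :
    ∀ W : ValuationSubring (s18_F1 K₁ M), IsDiscreteValuationRing W → B ≤ W.toSubring →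
      (∀ b : B, b ∉ 𝔪 → ((b : s18_F1 K₁ M))⁻¹ ∈ W) →
      (algebraMap (s18_A1 A K₁) (s18_F1 K₁ M) π)⁻¹ ∈ W → ρt ∈ W := by
  intro W hW hBW hinv hπW
  have hr' : s36_qt_theta K₁ (x' : LaurentSeries K₁) =
      (((n : s18_F1 K₁ M) * ρt : s18_F1 K₁ M) : LaurentSeries K₁) *
        s36_qt_theta K₁ (x : LaurentSeries K₁) := by
    rw [hr]
    rfl
  have h1 := s36_hu_hhor M K₁ A hπ B hAB 𝔪 x x' ((n : s18_F1 K₁ M) * ρt) hx hx' hθx hr'
    hunr W hW hBW hinv hπW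
  have hn := (s36_hu_natCast_mem M K₁ A hπ B hAB W hBW hπW n).2
  have hnF : (n : s18_F1 K₁ M) ≠ 0 := by exact_mod_cast hn0
  have e : ρt = ((n : s18_F1 K₁ M))⁻¹ * ((n : s18_F1 K₁ M) * ρt) := by
    rw [← mul_assoc, inv_mul_cancel₀ hnF, one_mul]
  rw [e]
  exact W.mul_mem _ _ hn h1

end Fermat.Agent.S36
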