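import Mathlib
import Fermat.Agent.S24.Differential
import Fermat.Agent.S18.Unram

/-!
# S36 (NODE-3), leaf (M5), abstract half: the horizontal unit statement

`ρ̃ = θ(x') / θ(x)` for two functions `x, x'` of a function field over a number field, `θ` a
derivation trivial on constants.

* `s36_hu_ratio_D` : over an algebraically closed constant field of characteristic `0`, at a place
  `v` with `ord_v f = 1`, every `g ∈ O_v` has `dg ∈ O_v · df` (from the S24 differential calculus).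
* `s36_hu_ratio` : the same for an arbitrary derivation `θ` into a field containing `F`.
* `s36_hu_mem` : in the setting of `s18_unram_const_ext` (`ι : F1 → Fb`, `W` a discrete valuation
  subring of `F1` containing the constants): if `θ(ι x') = ι r · θ(ι x)` and `x` is unramified at
  the places over `W`, then `r ∈ W`.
* `s36_hu_inv_mem`, `s36_hu_unit` : the symmetric statements.
-/

set_option autoImplicit false
set_option linter.style.haveILetI false
set_option linter.unusedSectionVars false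

namespace Fermat.Agent.S36

open AlgebraicCurve KaehlerDifferential IntermediateField Fermat.Agent.S24 Fermat.Agent.S18

section Ratio

variable {K F : Type*} [Field K] [Field F] [Algebra K F] [IsAlgClosed K] [CharZero K]

/-- An element of order `1` at a place is an irreducible element of the valuation ring. -/
theorem s36_hu_irreducible (v : Place K F) (f : F) (hf : v.ord f = 1) :
    ∃ π : v.toValuationSubring, Irreducible π ∧ (π : F) = f := by
  obtain ⟨π, hπ⟩ := IsDiscreteValuationRing.exists_irreducible v.toValuationSubring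
  have hf0 : f ≠ 0 := by
    rintro rfl
    simp at hf
  obtain ⟨u, hu⟩ := v.exists_unit_mul_zpow hf0 hπ
  rw [hf, zpow_one] at hu
  refine ⟨(u : v.toValuationSubring) * π, ?_, by rw [hu]; rfl⟩
  exact (irreducible_units_mul u).mpr hπ

/-- **Ratio lemma (Kähler form).**  If `ord_v f = 1` and `g ∈ O_v`, then `dg = ρ · df` with
`ρ ∈ O_v`. -/
theorem s36_hu_ratio_D (x : F) (hx : Transcendental K x) [FiniteDimensional K⟮x⟯ F]
    (v : Place K F) (f g : F) (hf : v.ord f = 1) (hg : 0 ≤ v.ord g) :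
    ∃ ρ : F, 0 ≤ v.ord ρ ∧ D K F g = ρ • D K F f := by
  haveI : Algebra.EssFiniteType K v.toValuationSubring := by
    rcases v.toValuationSubring.mem_or_inv_mem x with h | h
    · exact dif_essFiniteType_of_mem x hx v h
    · have hx' : Transcendental K x⁻¹ := fun halg => hx (by simpa using halg.inv)
      haveI := finiteDimensional_adjoin_of_transcendental x hx x⁻¹ hx'
      exact dif_essFiniteType_of_mem x⁻¹ hx' v h
  have hres : ∀ a : v.toValuationSubring, ∃ c : K,
      (a : F) - algebraMap K F c ∈ v.toValuationSubring.nonunits :=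
    fun a => exists_const_sub_mem_nonunits x hx v a a.2
  obtain ⟨π, hπ, hπf⟩ := s36_hu_irreducible v f hf
  have hgmem : g ∈ v.toValuationSubring := (mem_iff_ord_nonneg v g).mpr hg
  obtain ⟨ρ, hρ⟩ := dif_D_mem_span v hres π hπ ⟨g, hgmem⟩
  refine ⟨(ρ : F), (mem_iff_ord_nonneg v _).mp ρ.2, ?_⟩
  rw [← hπf]
  exact hρ

/-- **Ratio lemma (derivation form).**  `θ` a `K`-derivation of `F` into an `F`-module `E`:
if `ord_v f = 1` and `g ∈ O_v`, then `θ g = ρ • θ f` with `ρ ∈ O_v`. -/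
theorem s36_hu_ratio {E : Type*} [AddCommGroup E] [Module K E] [Module F E] [IsScalarTower K F E]
    (θ : Derivation K F E) (x : F) (hx : Transcendental K x) [FiniteDimensional K⟮x⟯ F]
    (v : Place K F) (f g : F) (hf : v.ord f = 1) (hg : 0 ≤ v.ord g) :
    ∃ ρ : F, 0 ≤ v.ord ρ ∧ θ g = ρ • θ f := by
  obtain ⟨ρ, hρ, h⟩ := s36_hu_ratio_D x hx v f g hf hg
  refine ⟨ρ, hρ, ?_⟩
  have h1 := congrArg θ.liftKaehlerDifferential h
  rwa [map_smul, Derivation.liftKaehlerDifferential_comp_D,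
    Derivation.liftKaehlerDifferential_comp_D] at h1

end Ratio

section KLevel

variable {K1 Ω F1 Fb E : Type*} [Field K1] [Field Ω] [Field F1] [Field Fb] [Field E]
  [Algebra K1 Ω] [Algebra K1 F1] [Algebra Ω Fb]
  [CharZero K1] [Algebra.IsAlgebraic K1 Ω] [IsAlgClosed Ω]

/-- Ratio lemma for an additive Leibniz map `θ` of an ambient field `E ⊇ Fb` killing the
constants: if `ord_v f = 1` and `g ∈ O_v`, then `θ g = ρ · θ f` with `ρ ∈ O_v`. -/
theorem s36_hu_ratio_field [CharZero Ω] (incl : Fb →+* E) (θ : E →+ E)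
    (hθ : ∀ f g : E, θ (f * g) = θ f * g + f * θ g)
    (hc : ∀ c : Ω, θ (incl (algebraMap Ω Fb c)) = 0)
    (j : Fb) (hj : Transcendental Ω j) [FiniteDimensional Ω⟮j⟯ Fb]
    (v : Place Ω Fb) (f g : Fb) (hf : v.ord f = 1) (hg : 0 ≤ v.ord g) :
    ∃ ρ : Fb, 0 ≤ v.ord ρ ∧ θ (incl g) = incl ρ * θ (incl f) := by
  letI : Algebra Fb E := incl.toAlgebra
  letI : Algebra Ω E := (incl.comp (algebraMap Ω Fb)).toAlgebra
  haveI : IsScalarTower Ω Fb E := IsScalarTower.of_algebraMap_eq (fun _ => rfl)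
  let L : Fb →ₗ[Ω] E :=
    { toFun := fun a => θ (incl a)
      map_add' := fun a b => by rw [map_add, map_add]
      map_smul' := fun c a => by
        rw [Algebra.smul_def, map_mul, hθ, hc, zero_mul, zero_add, RingHom.id_apply,
          Algebra.smul_def]
        rfl }
  let δ : Derivation Ω Fb E := Derivation.mk' L (fun a b => by
    show θ (incl (a * b)) = a • θ (incl b) + b • θ (incl a)
    rw [map_mul, hθ, Algebra.smul_def, Algebra.smul_def]
    show θ (incl a) * incl b + incl a * θ (incl b) = incl a * θ (incl b) + incl b * θ (incl a)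
    ring)
  obtain ⟨ρ, hρ, h⟩ := s36_hu_ratio δ j hj v f g hf hg
  refine ⟨ρ, hρ, ?_⟩
  have h' : θ (incl g) = ρ • θ (incl f) := h
  rw [h', Algebra.smul_def]
  rfl

/-- **Horizontal integrality.**  Setting of `s18_unram_const_ext`.  If `θ(x') = r · θ(x)` and `x`
is unramified at every place of `Fb` dominating `W`, then `r ∈ W`. -/
theorem s36_hu_mem
    (ι : F1 →+* Fb) (hι : ∀ c : K1, ι (algebraMap K1 F1 c) = algebraMap Ω Fb (algebraMap K1 Ω c))
    (hgen : ∀ y : Fb, ∃ a b : Fb, a ∈ Submodule.span Ω (Set.range ι) ∧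
      b ∈ Submodule.span Ω (Set.range ι) ∧ b ≠ 0 ∧ y = a / b)
    (j : Fb) (hj : Transcendental Ω j) [FiniteDimensional Ω⟮j⟯ Fb]
    (incl : Fb →+* E) (θ : E →+ E)
    (hθ : ∀ f g : E, θ (f * g) = θ f * g + f * θ g)
    (hc : ∀ c : Ω, θ (incl (algebraMap Ω Fb c)) = 0)
    (W : ValuationSubring F1) [IsDiscreteValuationRing W] (hK : ∀ c : K1, algebraMap K1 F1 c ∈ W)
    (x x' r : F1) (hx : x ∈ W) (hx' : x' ∈ W)
    (hθx : θ (incl (ι x)) ≠ 0) (hr : θ (incl (ι x')) = incl (ι r) * θ (incl (ι x)))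
    (hunr : ∀ (P : Place Ω Fb) (c : Ω), (∀ y ∈ W, ι y ∈ P.toValuationSubring) →
      (∀ y ∈ W.nonunits, ι y ∈ P.toValuationSubring.nonunits) →
      0 < P.ord (ι x - algebraMap Ω Fb c) → P.ord (ι x - algebraMap Ω Fb c) = 1) :
    r ∈ W := by
  haveI : CharZero Ω := charZero_of_injective_algebraMap (algebraMap K1 Ω).injective
  obtain ⟨P, hWP, hnon, -⟩ := s18_unram_const_ext ι hι hgen j W hK
  obtain ⟨c, hcx⟩ := exists_const_sub_mem_nonunits j hj P (ι x) (hWP x hx)
  have hθc : θ (incl (ι x - algebraMap Ω Fb c)) = θ (incl (ι x)) := by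
    rw [map_sub, map_sub, hc, sub_zero]
  have hne : ι x - algebraMap Ω Fb c ≠ 0 := by
    intro h0
    rw [h0, map_zero, map_zero] at hθc
    exact hθx hθc.symm
  have hpos : 0 < P.ord (ι x - algebraMap Ω Fb c) :=
    (mem_nonunits_iff_ord_pos P hne).mp hcx
  have hone := hunr P c hWP hnon hpos
  obtain ⟨ρ, hρ, hρθ⟩ := s36_hu_ratio_field incl θ hθ hc j hj P _ (ι x') hone
    ((mem_iff_ord_nonneg P _).mp (hWP x' hx'))
  rw [hθc, hr] at hρθ
  have heq : incl (ι r) = incl ρ := mul_right_cancel₀ hθx hρθ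
  have hιr : ι r = ρ := incl.injective heq
  -- domination
  by_contra hrW
  have hr0 : r ≠ 0 := fun h0 => hrW (h0 ▸ W.zero_mem)
  have hinv : r⁻¹ ∈ W.nonunits := by
    rw [ValuationSubring.mem_nonunits_iff_exists_mem_maximalIdeal]
    have hmem : r⁻¹ ∈ W := (W.mem_or_inv_mem r).resolve_left hrW
    refine ⟨hmem, fun hu => hrW ?_⟩
    obtain ⟨b, hb⟩ := hu.exists_right_inv
    have h1 : r⁻¹ * (b : F1) = 1 := congrArg Subtype.val hb
    have h2 : (b : F1) = r := by
      field_simp at h1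
      exact h1
    exact h2 ▸ b.2
  have h3 := hnon _ hinv
  have h4 : ι r⁻¹ ≠ 0 := (map_ne_zero ι).mpr (inv_ne_zero hr0)
  have h5 := (mem_nonunits_iff_ord_pos P h4).mp h3
  rw [map_inv₀, P.ord_inv, hιr] at h5
  omega

/-- **Horizontal integrality of the inverse.**  If `θ(x') = r · θ(x)` and `x'` is unramified at
every place of `Fb` dominating `W`, then `r⁻¹ ∈ W`. -/
theorem s36_hu_inv_mem
    (ι : F1 →+* Fb) (hι : ∀ c : K1, ι (algebraMap K1 F1 c) = algebraMap Ω Fb (algebraMap K1 Ω c))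
    (hgen : ∀ y : Fb, ∃ a b : Fb, a ∈ Submodule.span Ω (Set.range ι) ∧
      b ∈ Submodule.span Ω (Set.range ι) ∧ b ≠ 0 ∧ y = a / b)
    (j : Fb) (hj : Transcendental Ω j) [FiniteDimensional Ω⟮j⟯ Fb]
    (incl : Fb →+* E) (θ : E →+ E)
    (hθ : ∀ f g : E, θ (f * g) = θ f * g + f * θ g)
    (hc : ∀ c : Ω, θ (incl (algebraMap Ω Fb c)) = 0)
    (W : ValuationSubring F1) [IsDiscreteValuationRing W] (hK : ∀ c : K1, algebraMap K1 F1 c ∈ W)
    (x x' r : F1) (hx : x ∈ W) (hx' : x' ∈ W)
    (hθx' : θ (incl (ι x')) ≠ 0) (hr : θ (incl (ι x')) = incl (ι r) * θ (incl (ι x)))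
    (hunr : ∀ (P : Place Ω Fb) (c : Ω), (∀ y ∈ W, ι y ∈ P.toValuationSubring) →
      (∀ y ∈ W.nonunits, ι y ∈ P.toValuationSubring.nonunits) →
      0 < P.ord (ι x' - algebraMap Ω Fb c) → P.ord (ι x' - algebraMap Ω Fb c) = 1) :
    r⁻¹ ∈ W := by
  have hr0 : incl (ι r) ≠ 0 := by
    intro h0
    rw [h0, zero_mul] at hr
    exact hθx' hr
  refine s36_hu_mem ι hι hgen j hj incl θ hθ hc W hK x' x r⁻¹ hx' hx hθx' ?_ hunr
  rw [hr, map_inv₀, map_inv₀, ← mul_assoc, inv_mul_cancel₀ hr0, one_mul]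

end KLevel

end Fermat.Agent.S36
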