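import Mathlib
import Fermat.Agent.S18.ChartDefs
import Fermat.Agent.S34.IcChart

/-!
# S36 (NODE-3): chart-to-chart transport of thickness one

Let `B`, `B'` be two charts (subrings of a field `F`) with `B' ⊆ B[1/d]` for some `d ∈ B`, and
let `𝔪` be a prime of `B` with `d ∉ 𝔪`.  Then

* `s36_hqt_ideal` : `𝔪' = {x ∈ B' | d ^ k x ∈ 𝔪 for some k}` is an ideal of `B'`, prime
  (`s36_hqt_isPrime`), and it contains the prime of a component `V ⊇ B` as soon as `𝔪` does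
  (`s36_hqt_P`);
* `s36_hqt_main` : the thickness-one relation `u₁ u₂ = ϖ γ`, `γ ∉ 𝔪'` at `𝔪'` in `B'` gives the
  thickness-one relation at `𝔪` in `B` (the conclusion of the hypothesis `hq` of
  `s36_clq_main`);
* `s36_hqt_not_mem`, `s36_hqt_not_mem_of_mem`, `s36_hqt_mem_of_mem` : membership in `𝔪'`;
* `s36_hqt_ic_loc` : for integral-closure charts, `ic(A₀[u]) ⊆ ic(A₀[t])[1/d]` as soon as
  `d ^ e u ∈ ic(A₀[t])` (e.g. `u = t⁻¹`, `d = t`; or `u = t₃`, `t = d = t₂`, `e = 2`).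
-/

set_option autoImplicit false

namespace Fermat.Agent.S36

open Fermat.Agent.S18 Fermat.Agent.S34

section Abs

variable {F : Type*} [Field F]

/-- Multiplying by a further power of `d` stays in `B`. -/
theorem s36_hqt_pow_mem (B : Subring F) (d : B) {x : F} {k : ℕ} (h : (d : F) ^ k * x ∈ B)
    {n : ℕ} (hkn : k ≤ n) : (d : F) ^ n * x ∈ B := by
  obtain ⟨i, rfl⟩ := Nat.exists_eq_add_of_le hkn
  have e : (d : F) ^ (k + i) * x = (d : F) ^ i * ((d : F) ^ k * x) := by ring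
  rw [e]
  exact B.mul_mem (B.pow_mem d.2 i) h

/-- Membership in `𝔪` of `d ^ k x` does not depend on `k`. -/
theorem s36_hqt_mem_indep (B : Subring F) (d : B) (𝔪 : Ideal B) [h𝔪 : 𝔪.IsPrime] (hd : d ∉ 𝔪)
    {x : F} {k j : ℕ} (hk : (d : F) ^ k * x ∈ B) (hk𝔪 : (⟨_, hk⟩ : B) ∈ 𝔪)
    (hj : (d : F) ^ j * x ∈ B) : (⟨_, hj⟩ : B) ∈ 𝔪 := by
  have e : d ^ k * (⟨_, hj⟩ : B) = d ^ j * (⟨_, hk⟩ : B) := by
    apply Subtype.ext
    push_cast
    ring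
  have h1 : d ^ k * (⟨_, hj⟩ : B) ∈ 𝔪 := by
    rw [e]
    exact 𝔪.mul_mem_left _ hk𝔪
  rcases h𝔪.mem_or_mem h1 with h2 | h2
  · exact absurd (h𝔪.mem_of_pow_mem k h2) hd
  · exact h2

/-- **The transported ideal** `{x ∈ B' | d ^ k x ∈ 𝔪 for some k}`. -/
def s36_hqt_ideal (B B' : Subring F) (d : B) (hloc : ∀ y ∈ B', ∃ j : ℕ, (d : F) ^ j * y ∈ B)
    (𝔪 : Ideal B) : Ideal B' where
  carrier := {x | ∃ k : ℕ, ∃ h : (d : F) ^ k * (x : F) ∈ B, (⟨_, h⟩ : B) ∈ 𝔪}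
  add_mem' := by
    rintro x y ⟨k₁, h₁, hx⟩ ⟨k₂, h₂, hy⟩
    have hx' : (d : F) ^ (k₁ + k₂) * (x : F) ∈ B := s36_hqt_pow_mem B d h₁ (Nat.le_add_right _ _)
    have hy' : (d : F) ^ (k₁ + k₂) * (y : F) ∈ B := s36_hqt_pow_mem B d h₂ (Nat.le_add_left _ _)
    have hx𝔪 : (⟨_, hx'⟩ : B) ∈ 𝔪 := by
      have e : (⟨_, hx'⟩ : B) = d ^ k₂ * (⟨_, h₁⟩ : B) := by
        apply Subtype.ext
        push_cast
        ring
      rw [e]
      exact 𝔪.mul_mem_left _ hx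
    have hy𝔪 : (⟨_, hy'⟩ : B) ∈ 𝔪 := by
      have e : (⟨_, hy'⟩ : B) = d ^ k₁ * (⟨_, h₂⟩ : B) := by
        apply Subtype.ext
        push_cast
        ring
      rw [e]
      exact 𝔪.mul_mem_left _ hy
    have hs : (d : F) ^ (k₁ + k₂) * ((x + y : B') : F) ∈ B := by
      have e : (d : F) ^ (k₁ + k₂) * ((x + y : B') : F) =
          (d : F) ^ (k₁ + k₂) * (x : F) + (d : F) ^ (k₁ + k₂) * (y : F) := by
        push_cast
        ring
      rw [e]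
      exact B.add_mem hx' hy'
    refine ⟨k₁ + k₂, hs, ?_⟩
    have e : (⟨_, hs⟩ : B) = (⟨_, hx'⟩ : B) + (⟨_, hy'⟩ : B) := by
      apply Subtype.ext
      push_cast
      ring
    rw [e]
    exact 𝔪.add_mem hx𝔪 hy𝔪
  zero_mem' := by
    have h : (d : F) ^ 0 * ((0 : B') : F) ∈ B := by
      simp only [pow_zero, one_mul, ZeroMemClass.coe_zero]
      exact B.zero_mem
    refine ⟨0, h, ?_⟩
    have e : (⟨_, h⟩ : B) = 0 := by
      apply Subtype.ext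
      simp
    rw [e]
    exact 𝔪.zero_mem
  smul_mem' := by
    rintro c x ⟨k, h, hx⟩
    obtain ⟨j, hj⟩ := hloc (c : F) c.2
    have hs : (d : F) ^ (j + k) * ((c • x : B') : F) ∈ B := by
      have e : (d : F) ^ (j + k) * ((c • x : B') : F) =
          ((d : F) ^ j * (c : F)) * ((d : F) ^ k * (x : F)) := by
        rw [smul_eq_mul]
        push_cast
        ring
      rw [e]
      exact B.mul_mem hj h
    refine ⟨j + k, hs, ?_⟩
    have e : (⟨_, hs⟩ : B) = (⟨_, hj⟩ : B) * (⟨_, h⟩ : B) := by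
      apply Subtype.ext
      show (d : F) ^ (j + k) * ((c • x : B') : F) =
        ((d : F) ^ j * (c : F)) * ((d : F) ^ k * (x : F))
      simp only [smul_eq_mul, Subring.coe_mul]
      ring
    rw [e]
    exact 𝔪.mul_mem_left _ hx

theorem s36_hqt_mem_iff (B B' : Subring F) (d : B)
    (hloc : ∀ y ∈ B', ∃ j : ℕ, (d : F) ^ j * y ∈ B) (𝔪 : Ideal B) (x : B') :
    x ∈ s36_hqt_ideal B B' d hloc 𝔪 ↔
      ∃ k : ℕ, ∃ h : (d : F) ^ k * (x : F) ∈ B, (⟨_, h⟩ : B) ∈ 𝔪 := Iff.rfl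

/-- The transported ideal is prime. -/
theorem s36_hqt_isPrime (B B' : Subring F) (d : B)
    (hloc : ∀ y ∈ B', ∃ j : ℕ, (d : F) ^ j * y ∈ B) (𝔪 : Ideal B) [h𝔪 : 𝔪.IsPrime]
    (hd : d ∉ 𝔪) : (s36_hqt_ideal B B' d hloc 𝔪).IsPrime := by
  refine ⟨?_, ?_⟩
  · intro htop
    have h1 : (1 : B') ∈ s36_hqt_ideal B B' d hloc 𝔪 := by
      rw [htop]; exact Submodule.mem_top
    obtain ⟨k, h, hk⟩ := h1
    have e : (⟨_, h⟩ : B) = d ^ k := by
      apply Subtype.ext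
      push_cast
      ring
    rw [e] at hk
    exact hd (h𝔪.mem_of_pow_mem k hk)
  · intro x y hxy
    obtain ⟨n, h, hn⟩ := hxy
    obtain ⟨j₁, hj₁⟩ := hloc (x : F) x.2
    obtain ⟨j₂, hj₂⟩ := hloc (y : F) y.2
    have e : d ^ (j₁ + j₂) * (⟨_, h⟩ : B) = d ^ n * ((⟨_, hj₁⟩ : B) * (⟨_, hj₂⟩ : B)) := by
      apply Subtype.ext
      push_cast
      ring
    have h1 : d ^ n * ((⟨_, hj₁⟩ : B) * (⟨_, hj₂⟩ : B)) ∈ 𝔪 := by
      rw [← e]
      exact 𝔪.mul_mem_left _ hn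
    rcases h𝔪.mem_or_mem h1 with h2 | h2
    · exact absurd (h𝔪.mem_of_pow_mem n h2) hd
    · rcases h𝔪.mem_or_mem h2 with h3 | h3
      · exact Or.inl ⟨j₁, hj₁, h3⟩
      · exact Or.inr ⟨j₂, hj₂, h3⟩

/-- The transported ideal contains the prime of a component `V ⊇ B` as soon as `𝔪` does. -/
theorem s36_hqt_P (ϖ : F) (V : Subring F) (B B' : Subring F) (hBV : B ≤ V) (d : B)
    (hloc : ∀ y ∈ B', ∃ j : ℕ, (d : F) ^ j * y ∈ B) (𝔪 : Ideal B)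
    (hP : ∀ p : B, ϖ⁻¹ * (p : F) ∈ V → p ∈ 𝔪) :
    ∀ p : B', ϖ⁻¹ * (p : F) ∈ V → p ∈ s36_hqt_ideal B B' d hloc 𝔪 := by
  intro p hp
  obtain ⟨j, hj⟩ := hloc (p : F) p.2
  refine ⟨j, hj, hP _ ?_⟩
  have e : ϖ⁻¹ * (((⟨_, hj⟩ : B) : B) : F) = (d : F) ^ j * (ϖ⁻¹ * (p : F)) := by
    show ϖ⁻¹ * ((d : F) ^ j * (p : F)) = _
    ring
  rw [e]
  exact V.mul_mem (V.pow_mem (hBV d.2) j) hp

/-- An element of `B' ∩ B` lying in `𝔪` lies in the transported ideal. -/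
theorem s36_hqt_mem_of_mem (B B' : Subring F) (d : B)
    (hloc : ∀ y ∈ B', ∃ j : ℕ, (d : F) ^ j * y ∈ B) (𝔪 : Ideal B)
    (x : B') (hxB : (x : F) ∈ B) (hx : (⟨_, hxB⟩ : B) ∈ 𝔪) :
    x ∈ s36_hqt_ideal B B' d hloc 𝔪 := by
  have h : (d : F) ^ 0 * (x : F) ∈ B := by rw [pow_zero, one_mul]; exact hxB
  refine ⟨0, h, ?_⟩
  have e : (⟨_, h⟩ : B) = ⟨_, hxB⟩ := by
    apply Subtype.ext
    show (d : F) ^ 0 * (x : F) = (x : F)
    rw [pow_zero, one_mul]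
  rw [e]
  exact hx

/-- An element of `B' ∩ B` outside `𝔪` lies outside the transported ideal. -/
theorem s36_hqt_not_mem_of_mem (B B' : Subring F) (d : B)
    (hloc : ∀ y ∈ B', ∃ j : ℕ, (d : F) ^ j * y ∈ B) (𝔪 : Ideal B) [h𝔪 : 𝔪.IsPrime]
    (hd : d ∉ 𝔪) (x : B') (hxB : (x : F) ∈ B) (hx : (⟨_, hxB⟩ : B) ∉ 𝔪) :
    x ∉ s36_hqt_ideal B B' d hloc 𝔪 := by
  rintro ⟨k, h, hk⟩
  have e : (⟨_, h⟩ : B) = d ^ k * ⟨_, hxB⟩ := by
    apply Subtype.ext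
    push_cast
    ring
  rw [e] at hk
  rcases h𝔪.mem_or_mem hk with h2 | h2
  · exact hd (h𝔪.mem_of_pow_mem k h2)
  · exact hx h2

/-- A nonzero element of `B'` whose inverse lies in the local ring of `B` at `𝔪` lies outside the
transported ideal. -/
theorem s36_hqt_not_mem (B B' : Subring F) (d : B)
    (hloc : ∀ y ∈ B', ∃ j : ℕ, (d : F) ^ j * y ∈ B) (𝔪 : Ideal B) [h𝔪 : 𝔪.IsPrime]
    (hd : d ∉ 𝔪) (x : B') (hx0 : (x : F) ≠ 0) (hx : ((x : F))⁻¹ ∈ s18_loc B 𝔪) :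
    x ∉ s36_hqt_ideal B B' d hloc 𝔪 := by
  rintro ⟨k, h, hk⟩
  obtain ⟨a, b, hb, hab⟩ := hx
  have hb0 : (b : F) ≠ 0 := by
    intro h0
    apply hb
    have : b = 0 := Subtype.ext h0
    rw [this]
    exact 𝔪.zero_mem
  have hxa : (x : F) * (a : F) = (b : F) := by
    have h1 : (a : F) = ((x : F))⁻¹ * (b : F) := by
      rw [hab]; field_simp
    rw [h1, ← mul_assoc, mul_inv_cancel₀ hx0, one_mul]
  have e : (⟨_, h⟩ : B) * a = d ^ k * b := by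
    apply Subtype.ext
    push_cast
    rw [← hxa]
    ring
  have h1 : d ^ k * b ∈ 𝔪 := by
    rw [← e]
    exact 𝔪.mul_mem_right _ hk
  rcases h𝔪.mem_or_mem h1 with h2 | h2
  · exact hd (h𝔪.mem_of_pow_mem k h2)
  · exact hb h2

/-- **Transport of thickness one.**  If `B' ⊆ B[1/d]`, `d ∉ 𝔪`, and the thickness-one relation
holds in `B'` at the transported prime `𝔪' = s36_hqt_ideal B B' d hloc 𝔪`, then it holds in `B`
at `𝔪`. -/
theorem s36_hqt_main (ϖ : F) (Vi V0 : Subring F) (B B' : Subring F) (hBi : B ≤ Vi)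
    (hB0 : B ≤ V0) (d : B) (hloc : ∀ y ∈ B', ∃ j : ℕ, (d : F) ^ j * y ∈ B)
    (𝔪 : Ideal B) [h𝔪 : 𝔪.IsPrime] (hd : d ∉ 𝔪)
    (hP₁ : ∀ p : B, ϖ⁻¹ * (p : F) ∈ Vi → p ∈ 𝔪)
    (hP₂ : ∀ p : B, ϖ⁻¹ * (p : F) ∈ V0 → p ∈ 𝔪)
    (hq' : (s36_hqt_ideal B B' d hloc 𝔪).IsPrime →
      (∀ p : B', ϖ⁻¹ * (p : F) ∈ Vi → p ∈ s36_hqt_ideal B B' d hloc 𝔪) →
      (∀ p : B', ϖ⁻¹ * (p : F) ∈ V0 → p ∈ s36_hqt_ideal B B' d hloc 𝔪) →
      ∃ u₁ u₂ γ : B', (u₁ : F) * (u₂ : F) = ϖ * (γ : F) ∧ ϖ⁻¹ * (u₁ : F) ∈ Vi ∧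
        ϖ⁻¹ * (u₂ : F) ∈ V0 ∧ γ ∉ s36_hqt_ideal B B' d hloc 𝔪) :
    ∃ u₁ u₂ γ : B, (u₁ : F) * (u₂ : F) = ϖ * (γ : F) ∧ ϖ⁻¹ * (u₁ : F) ∈ Vi ∧
      ϖ⁻¹ * (u₂ : F) ∈ V0 ∧ γ ∉ 𝔪 := by
  obtain ⟨u₁, u₂, γ, huv, hu₁, hu₂, hγ⟩ := hq' (s36_hqt_isPrime B B' d hloc 𝔪 hd)
    (s36_hqt_P ϖ Vi B B' hBi d hloc 𝔪 hP₁) (s36_hqt_P ϖ V0 B B' hB0 d hloc 𝔪 hP₂)
  obtain ⟨j₁, hj₁⟩ := hloc (u₁ : F) u₁.2
  obtain ⟨j₂, hj₂⟩ := hloc (u₂ : F) u₂.2
  obtain ⟨j₃, hj₃⟩ := hloc (γ : F) γ.2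
  set K := j₁ + j₂ + j₃ with hK
  have h1 : (d : F) ^ K * (u₁ : F) ∈ B := s36_hqt_pow_mem B d hj₁ (by omega)
  have h2 : (d : F) ^ K * (u₂ : F) ∈ B := s36_hqt_pow_mem B d hj₂ (by omega)
  have h3 : (d : F) ^ (K + K) * (γ : F) ∈ B := s36_hqt_pow_mem B d hj₃ (by omega)
  refine ⟨⟨_, h1⟩, ⟨_, h2⟩, ⟨_, h3⟩, ?_, ?_, ?_, ?_⟩
  · show (d : F) ^ K * (u₁ : F) * ((d : F) ^ K * (u₂ : F)) = ϖ * ((d : F) ^ (K + K) * (γ : F))
    rw [pow_add]
    linear_combination ((d : F) ^ K * (d : F) ^ K) * huv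
  · show ϖ⁻¹ * ((d : F) ^ K * (u₁ : F)) ∈ Vi
    have e : ϖ⁻¹ * ((d : F) ^ K * (u₁ : F)) = (d : F) ^ K * (ϖ⁻¹ * (u₁ : F)) := by ring
    rw [e]
    exact Vi.mul_mem (Vi.pow_mem (hBi d.2) K) hu₁
  · show ϖ⁻¹ * ((d : F) ^ K * (u₂ : F)) ∈ V0
    have e : ϖ⁻¹ * ((d : F) ^ K * (u₂ : F)) = (d : F) ^ K * (ϖ⁻¹ * (u₂ : F)) := by ring
    rw [e]
    exact V0.mul_mem (V0.pow_mem (hB0 d.2) K) hu₂
  · intro hγ𝔪
    exact hγ ⟨K + K, h3, hγ𝔪⟩

end Abs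

/-! ### Integral-closure charts -/

section Ic

open Polynomial

variable {A₀ : Type*} {F : Type*} [CommRing A₀] [Field F] [Algebra A₀ F]

/-- `d ^ (e D) * c(u)` lies in the chart of `t` for a polynomial `c` of degree `≤ D`, as soon as
`d` and `d ^ e * u` do. -/
theorem s36_hqt_aeval_mem {t u d : F} (hd : d ∈ s34_ic_chart A₀ t) (e : ℕ)
    (hu : d ^ e * u ∈ s34_ic_chart A₀ t) (D : ℕ) (c : A₀[X]) (hc : c.natDegree ≤ D) :
    d ^ (e * D) * aeval u c ∈ s34_ic_chart A₀ t := by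
  rw [aeval_eq_sum_range' (Nat.lt_succ_of_le hc), Finset.mul_sum]
  refine Subalgebra.sum_mem _ fun k hk => ?_
  have hkD : k ≤ D := Nat.lt_succ_iff.mp (Finset.mem_range.mp hk)
  obtain ⟨i, rfl⟩ := Nat.exists_eq_add_of_le hkD
  have e1 : d ^ (e * (k + i)) * (c.coeff k • u ^ k) =
      c.coeff k • (d ^ (e * i) * (d ^ e * u) ^ k) := by
    rw [mul_smul_comm, mul_pow, ← pow_mul, mul_add, pow_add]
    congr 1
    ring
  rw [e1]
  exact Subalgebra.smul_mem _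
    (Subalgebra.mul_mem _ (Subalgebra.pow_mem _ hd _) (Subalgebra.pow_mem _ hu _)) _

/-- **Localisation of integral-closure charts**: if `d` and `d ^ e * u` lie in the chart of `t`,
then the chart of `u` lies in the chart of `t` localised at `d`. -/
theorem s36_hqt_ic_loc {t u d : F} (hd : d ∈ s34_ic_chart A₀ t) (e : ℕ)
    (hu : d ^ e * u ∈ s34_ic_chart A₀ t) {y : F} (hy : y ∈ s34_ic_chart A₀ u) :
    ∃ j : ℕ, d ^ j * y ∈ s34_ic_chart A₀ t := by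
  classical
  rw [s34_ic_mem_iff] at hy
  obtain ⟨p, hp, hpy⟩ := hy
  set n := p.natDegree with hn
  set D := (Finset.range (n + 1)).sup (fun i => (p.coeff i).natDegree) with hD
  have hDi : ∀ i ∈ Finset.range (n + 1), (p.coeff i).natDegree ≤ D := fun i hi =>
    Finset.le_sup (f := fun i => (p.coeff i).natDegree) hi
  set m := e * D with hm
  refine ⟨m, ?_⟩
  by_cases hn0 : n = 0
  · -- `p = 1`, impossible unless `F` is trivial
    have hp1 : p = 1 :=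
      (Polynomial.Monic.natDegree_eq_zero hp).mp (hn ▸ hn0)
    rw [hp1, eval₂_one] at hpy
    exact absurd hpy one_ne_zero
  -- the coefficients `b i = d ^ (m (n - i)) c_i(u)` lie in the chart of `t`
  have hb : ∀ i ∈ Finset.range n, d ^ (m * (n - i)) * aeval u (p.coeff i) ∈ s34_ic_chart A₀ t := by
    intro i hi
    have hin : i < n := Finset.mem_range.mp hi
    obtain ⟨r, hr⟩ : ∃ r, n - i = r + 1 := ⟨n - i - 1, by omega⟩
    have e1 : d ^ (m * (n - i)) * aeval u (p.coeff i) =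
        d ^ (m * r) * (d ^ m * aeval u (p.coeff i)) := by
      rw [hr, mul_add, mul_one, pow_add]
      ring
    rw [e1]
    exact Subalgebra.mul_mem _ (Subalgebra.pow_mem _ hd _)
      (s36_hqt_aeval_mem hd e hu D _ (hDi i (Finset.mem_range.mpr (by omega))))
  -- the equation for `d ^ m * y`
  have heq : (d ^ m * y) ^ n + ∑ i ∈ Finset.range n,
      (d ^ (m * (n - i)) * aeval u (p.coeff i)) * (d ^ m * y) ^ i = 0 := by
    have h0 : ∑ i ∈ Finset.range (n + 1), aeval u (p.coeff i) * y ^ i = 0 := by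
      rw [← hpy, eval₂_eq_sum_range]
      rfl
    rw [Finset.sum_range_succ] at h0
    have hlead : p.coeff n = 1 := hp.coeff_natDegree
    rw [hlead, map_one, one_mul] at h0
    have h1 : ∑ i ∈ Finset.range n, (d ^ (m * (n - i)) * aeval u (p.coeff i)) * (d ^ m * y) ^ i =
        d ^ (m * n) * ∑ i ∈ Finset.range n, aeval u (p.coeff i) * y ^ i := by
      rw [Finset.mul_sum]
      refine Finset.sum_congr rfl fun i hi => ?_
      have hin : i < n := Finset.mem_range.mp hi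
      have e2 : m * n = m * (n - i) + m * i := by
        rw [← mul_add]; congr 1; omega
      rw [e2, pow_add, mul_pow, ← pow_mul]
      ring
    rw [h1, mul_pow, ← pow_mul]
    have h2 : ∑ i ∈ Finset.range n, aeval u (p.coeff i) * y ^ i = - y ^ n := by
      linear_combination h0
    rw [h2]
    ring
  -- integrality over the chart of `t`
  apply s34_ic_normal (A₀ := A₀) (t := t)
  let b : ℕ → s34_ic_chart A₀ t := fun i =>
    if h : i ∈ Finset.range n then ⟨_, hb i h⟩ else 0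
  refine ⟨X ^ n + ∑ i ∈ Finset.range n, C (b i) * X ^ i, ?_, ?_⟩
  · apply Polynomial.monic_X_pow_add
    refine lt_of_le_of_lt (Polynomial.degree_sum_le _ _) ?_
    rw [Finset.sup_lt_iff (by exact WithBot.bot_lt_coe n)]
    intro i hi
    refine lt_of_le_of_lt (Polynomial.degree_C_mul_X_pow_le _ _) ?_
    exact_mod_cast Finset.mem_range.mp hi
  · rw [eval₂_add, eval₂_pow, eval₂_X, eval₂_finsetSum]
    have h3 : ∀ i ∈ Finset.range n,
        eval₂ (algebraMap (s34_ic_chart A₀ t) F) (d ^ m * y) (C (b i) * X ^ i) =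
          (d ^ (m * (n - i)) * aeval u (p.coeff i)) * (d ^ m * y) ^ i := by
      intro i hi
      rw [eval₂_mul, eval₂_C, eval₂_pow, eval₂_X]
      congr 1
      show ((b i : s34_ic_chart A₀ t) : F) = _
      simp only [b, dif_pos hi]
    rw [Finset.sum_congr rfl h3]
    exact heq

end Ic

end Fermat.Agent.S36
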