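import Mathlib
import Fermat.Agent.S36.InstNorm
import Fermat.Agent.S36.PowModel
import Fermat.Agent.S36.BaseUnram
import Fermat.Agent.S18.A1Facts

/-!
# S36 (NODE-3), block (INST36): the `K₀`-level statement from the three-component model

`s36_inst_model` : the instantiation of `s36_pow_of_model` (MOD36) at the data of the `K₀`-level
statement `s36_Model N' q c` (FUN36), with

* `ι := α = heckeAlphaBar K₀ (N' q) q` (`s36_inst_iota`), `ϖ'' := π`, `π := q` (a uniformizer of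
  `P ∩ K₀`, `s36_bu_irreducible`), `Nm :=` the norm along `α` (`s36_inst_Nm`), `W := W₁`,
  `n := q - 1`, Bezout coefficients `r q + s m = 1`, the norm relations of `s36_if_NormRel`;
* the function-independent part of the model given as three bundles of hypotheses, with one
  field per hypothesis of `s36_pow_of_model` (same names):
  `s36_inst_Comp` (the components `V_A`, `V_B`, `V_C`, `V'_∞`, `V'_0`, (EXT), (NR), the swap),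
  `s36_inst_Chart` (the two charts), `s36_inst_Pts` (the closed points of the special fibres).

The exponent is `c = (q + 1) (q - 1) (q + 1)`, written `(q - 1 + 2) * ((q - 1) * (q - 1 + 2))`.
-/

set_option autoImplicit false
set_option synthInstance.maxHeartbeats 400000
set_option linter.style.haveILetI false

open ModularCurve AlgebraicCurve

noncomputable section

namespace Fermat.Agent.S36

open Fermat.Agent.S18 Fermat.Agent.S34 Fermat.Agent.S35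

local notation "Qb" => AlgebraicClosure ℚ

/-- From the `F`-valued norm–residue formula `Nm_ι h = ι (Y + ϖ'' u)`, `u ∈ V'` (the shape of
`S36/NrPkg`, `S36/NrModel`) to the `F''`-valued one `ϖ''⁻¹ (Nm h - Y) ∈ V'`. -/
theorem s36_inst_nr_of_nmAlong {F'' F : Type*} [Field F''] [Field F] (ι : F'' →+* F)
    {ϖ'' : F''} (hϖ : ϖ'' ≠ 0) (V' : Subring F'') (h : F) (Y : F'')
    (hu : ∃ u ∈ V', s35_nmAlong ι h = ι (Y + ϖ'' * u)) :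
    ϖ''⁻¹ * (@Algebra.norm F'' F _ _ ι.toAlgebra h - Y) ∈ V' := by
  obtain ⟨u, hu, e⟩ := hu
  rw [s36_in_nm_of_nmAlong ι h _ e, add_sub_cancel_left, inv_mul_cancel_left₀ hϖ]
  exact hu

section Defs

variable (N' q : ℕ) [NeZero (N' * q)] [NeZero q] [NeZero (N' * q * q)]
variable (P : ValuationSubring Qb) (K₀ : IntermediateField ℚ Qb)

/-- The degeneracy map `α : K₀ · F(N' q) → K₀ · F(N' q²)` as a ring homomorphism. -/
abbrev s36_inst_iota : s18_F1 K₀ (N' * q) →+* s18_F1 K₀ (N' * q * q) :=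
  (heckeAlphaBar K₀ (N' * q) q).toRingHom

/-- The norm along `α`, with values in `K₀ · F(N' q)`. -/
abbrev s36_inst_Nm : s18_F1 K₀ (N' * q * q) →* s18_F1 K₀ (N' * q) :=
  @Algebra.norm (s18_F1 K₀ (N' * q)) (s18_F1 K₀ (N' * q * q)) _ _
    (s36_inst_iota N' q K₀).toAlgebra

/-- **The components** of the model of `X₀(N' q²)` over `A₁ = P ∩ K₀` (uniformizer `π`): the
three components `V_A`, `V_B` (uniformizer `π`), `V_C` (uniformizer `z`, `π = unit * z ^ (q-1)`),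
the two components `V'_∞ = Vi`, `V'_0 = V0` of the level below, (EXT), (NR), the swap. -/
structure s36_inst_Comp (π : s18_A1 P K₀)
    (W₁ : s18_F1 K₀ (N' * q * q) ≃ₐ[K₀] s18_F1 K₀ (N' * q * q))
    (z : s18_F1 K₀ (N' * q * q)) (VA VB VC : Subring (s18_F1 K₀ (N' * q * q)))
    (Vi V0 : Subring (s18_F1 K₀ (N' * q))) : Prop where
  hA : s34_Unif (algebraMap (s18_A1 P K₀) (s18_F1 K₀ (N' * q * q)) π) VA
  hB : s34_Unif (algebraMap (s18_A1 P K₀) (s18_F1 K₀ (N' * q * q)) π) VB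
  hC : s34_Unif z VC
  hAB : VA ≠ VB
  hAC : VA ≠ VC
  hBC : VB ≠ VC
  hVi : s34_Unif (algebraMap (s18_A1 P K₀) (s18_F1 K₀ (N' * q)) π) Vi
  hV0 : s34_Unif (algebraMap (s18_A1 P K₀) (s18_F1 K₀ (N' * q)) π) V0
  hιA : ∀ x ∈ Vi, s36_inst_iota N' q K₀ x ∈ VA
  hιC : ∀ x ∈ Vi, s36_inst_iota N' q K₀ x ∈ VC
  hιB : ∀ x ∈ V0, s36_inst_iota N' q K₀ x ∈ VB
  hzn : algebraMap (s18_A1 P K₀) (s18_F1 K₀ (N' * q * q)) π * (z ^ (q - 1))⁻¹ ∈ VC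
  hzn' : z ^ (q - 1) * (algebraMap (s18_A1 P K₀) (s18_F1 K₀ (N' * q * q)) π)⁻¹ ∈ VC
  hresA : ∀ y ∈ VA, ∃ y' ∈ Vi,
    (algebraMap (s18_A1 P K₀) (s18_F1 K₀ (N' * q * q)) π)⁻¹ *
      (y - s36_inst_iota N' q K₀ y') ∈ VA
  hresC : ∀ y ∈ VC, ∃ y' ∈ Vi, z⁻¹ * (y - s36_inst_iota N' q K₀ y') ∈ VC
  hresB : ∀ y ∈ VB, ∃ b ∈ V0,
    (algebraMap (s18_A1 P K₀) (s18_F1 K₀ (N' * q * q)) π)⁻¹ *
      (y ^ q - s36_inst_iota N' q K₀ b) ∈ VB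
  hNRram : ∀ h ∈ VA, h ∈ VC → ∀ a ∈ Vi, ∀ c ∈ Vi,
    (algebraMap (s18_A1 P K₀) (s18_F1 K₀ (N' * q * q)) π)⁻¹ *
      (h - s36_inst_iota N' q K₀ a) ∈ VA →
    z⁻¹ * (h - s36_inst_iota N' q K₀ c) ∈ VC →
    (algebraMap (s18_A1 P K₀) (s18_F1 K₀ (N' * q)) π)⁻¹ *
      (s36_inst_Nm N' q K₀ h - a * c ^ (q - 1)) ∈ Vi
  hNRins : ∀ h ∈ VB, ∀ b ∈ V0,
    (algebraMap (s18_A1 P K₀) (s18_F1 K₀ (N' * q * q)) π)⁻¹ *
      (h ^ q - s36_inst_iota N' q K₀ b) ∈ VB →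
    (algebraMap (s18_A1 P K₀) (s18_F1 K₀ (N' * q)) π)⁻¹ * (s36_inst_Nm N' q K₀ h - b) ∈ V0
  hWAB : ∀ x, x ∈ VB ↔ W₁ x ∈ VA
  hWC : ∀ x, x ∈ VC ↔ W₁ x ∈ VC

/-- **The two charts** `B0`, `Binf` of `K₀ · F(N' q²)` with the two-chart data of
`s36_two_chart` for `V = V_A ⊓ V_B ⊓ V_C`. -/
structure s36_inst_Chart (π : s18_A1 P K₀) (t : s18_F1 K₀ (N' * q * q))
    (B0 Binf : Subalgebra (s18_A1 P K₀) (s18_F1 K₀ (N' * q * q)))
    (VA VB VC : Subring (s18_F1 K₀ (N' * q * q))) : Prop where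
  hB0A : B0.toSubring ≤ VA
  hB0B : B0.toSubring ≤ VB
  hB0C : B0.toSubring ≤ VC
  hBiA : Binf.toSubring ≤ VA
  hBiB : Binf.toSubring ≤ VB
  hBiC : Binf.toSubring ≤ VC
  hcap0 : ∀ x ∈ B0,
    (algebraMap (s18_A1 P K₀) (s18_F1 K₀ (N' * q * q)) π)⁻¹ * x ∈ VA ⊓ VB ⊓ VC →
    (algebraMap (s18_A1 P K₀) (s18_F1 K₀ (N' * q * q)) π)⁻¹ * x ∈ B0
  hcapi : ∀ x ∈ Binf,
    (algebraMap (s18_A1 P K₀) (s18_F1 K₀ (N' * q * q)) π)⁻¹ * x ∈ VA ⊓ VB ⊓ VC →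
    (algebraMap (s18_A1 P K₀) (s18_F1 K₀ (N' * q * q)) π)⁻¹ * x ∈ Binf
  frac0 : ∀ x : s18_F1 K₀ (N' * q * q),
    ∃ a ∈ B0.toSubring, ∃ b ∈ B0.toSubring, b ≠ 0 ∧ x = a / b
  t_ne : t ≠ 0
  t_mem : t ∈ B0
  tinv_mem : t⁻¹ ∈ Binf
  glue0 : ∀ x ∈ B0, ∃ k : ℕ, t⁻¹ ^ k * x ∈ Binf
  glueInf : ∀ x ∈ Binf, ∃ k : ℕ, t ^ k * x ∈ B0
  h1 : ∃ c₁ : ℕ, ∀ c, c₁ ≤ c → ∀ x ∈ B0, ∀ k : ℕ,
    ∃ a ∈ B0, ∃ b ∈ Binf, t⁻¹ ^ k * x = a + t ^ c * b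
  fin : ∀ c : ℕ, ∃ S : Finset (s18_F1 K₀ (N' * q * q)), ∀ x ∈ B0, t⁻¹ ^ c * x ∈ Binf →
    x ∈ Submodule.span (s18_A1 P K₀) (S : Set (s18_F1 K₀ (N' * q * q)))

/-- **The closed points of the special fibre of a chart `B`**: at each of them either
function-independent point data (`s36_PointData` for every function and exponent), or a triple
point with root-closed local ring and the contract `s36_pm_TriOut` (TRI36). -/
def s36_inst_PtsAt (π : s18_A1 P K₀)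
    (W₁ : s18_F1 K₀ (N' * q * q) ≃ₐ[K₀] s18_F1 K₀ (N' * q * q)) (m : ℕ) (r s : ℤ)
    (B : Subalgebra (s18_A1 P K₀) (s18_F1 K₀ (N' * q * q)))
    (z : s18_F1 K₀ (N' * q * q)) (VA VB VC : Subring (s18_F1 K₀ (N' * q * q)))
    (Vi V0 : Subring (s18_F1 K₀ (N' * q))) : Prop :=
  ∀ 𝔪 : Ideal B.toSubring, 𝔪.IsMaximal →
    (⟨algebraMap (s18_A1 P K₀) (s18_F1 K₀ (N' * q * q)) π, B.algebraMap_mem π⟩ :
      B.toSubring) ∈ 𝔪 →
    (∀ (p : ℕ) (h : s18_F1 K₀ (N' * q * q)),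
      s36_PointData (algebraMap (s18_A1 P K₀) (s18_F1 K₀ (N' * q * q)) π) B.toSubring
        (VA ⊓ VB ⊓ VC) p h 𝔪) ∨
    ((∀ b : B.toSubring, b ∉ 𝔪 → ((b : s18_F1 K₀ (N' * q * q)))⁻¹ ∈ VA ⊓ VB ⊓ VC) ∧
      (∀ x : s18_F1 K₀ (N' * q * q), x ^ m ∈ s18_loc B.toSubring 𝔪 →
        x ∈ s18_loc B.toSubring 𝔪) ∧
      s36_pm_TriOut (s36_inst_iota N' q K₀)
        (algebraMap (s18_A1 P K₀) (s18_F1 K₀ (N' * q)) π) z VA VB VC Vi V0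
        (s36_inst_Nm N' q K₀)
        (W₁ : s18_F1 K₀ (N' * q * q) ≃+* s18_F1 K₀ (N' * q * q)) (q - 1) m r s B.toSubring 𝔪)

end Defs

/-- The exponent of (INST36) is nonzero. -/
theorem s36_inst_c_ne {q : ℕ} (hq : q.Prime) : (q - 1 + 2) * ((q - 1) * (q - 1 + 2)) ≠ 0 := by
  have h2 := hq.two_le
  have h1 : q - 1 ≠ 0 := by omega
  exact mul_ne_zero (by omega) (mul_ne_zero h1 (by omega))

set_option maxHeartbeats 4000000 in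
/-- **(INST36)** the `K₀`-level statement `s36_Model N' q c`, `c = (q + 1) (q - 1) (q + 1)`, from
the function-independent part of the three-component model. -/
theorem s36_inst_model (N' q : ℕ) [NeZero (N' * q)] [NeZero q] [NeZero (N' * q * q)]
    (hq : q.Prime)
    (hpkg : ∀ (P : ValuationSubring Qb), P.LiesOverPrime q →
      ∀ (K₀ : IntermediateField ℚ Qb) [FiniteDimensional ℚ K₀]
        [IsDiscreteValuationRing (s18_A1 P K₀)],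
      (∀ a ∈ K₀, ∀ τ ∈ P.inertiaSubgroupIn ℚ, τ a = a) →
      ∀ π : s18_A1 P K₀, Irreducible π → (π : K₀) = (q : K₀) →
      ∀ W₁ : s18_F1 K₀ (N' * q * q) ≃ₐ[K₀] s18_F1 K₀ (N' * q * q), s36_IsSwapK K₀ N' q W₁ →
      ∀ m : ℕ, 0 < m → ¬ q ∣ m → ∀ ζ : K₀, IsPrimitiveRoot ζ m →
      ∀ r s : ℤ, r * (q : ℤ) + s * (m : ℤ) = 1 →
      ∃ (t : s18_F1 K₀ (N' * q * q))
        (B0 Binf : Subalgebra (s18_A1 P K₀) (s18_F1 K₀ (N' * q * q)))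
        (z : s18_F1 K₀ (N' * q * q)) (VA VB VC : Subring (s18_F1 K₀ (N' * q * q)))
        (Vi V0 : Subring (s18_F1 K₀ (N' * q))),
        s36_inst_Comp N' q P K₀ π W₁ z VA VB VC Vi V0 ∧
        s36_inst_Chart N' q P K₀ π t B0 Binf VA VB VC ∧
        s36_inst_PtsAt N' q P K₀ π W₁ m r s B0 z VA VB VC Vi V0 ∧
        s36_inst_PtsAt N' q P K₀ π W₁ m r s Binf z VA VB VC Vi V0) :
    s36_Model N' q ((q - 1 + 2) * ((q - 1) * (q - 1 + 2))) := by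
  intro P hP K₀ hK₀fin hK₀ m hm hqm ζ hζ W₁ hW₁ g₁ hg₁ hdiv hNR
  haveI : Fact q.Prime := ⟨hq⟩
  haveI : FiniteDimensional ℚ K₀ := hK₀fin
  haveI hDVR : IsDiscreteValuationRing (s18_A1 P K₀) := s18_a1_dvr P hP K₀
  have hπ : Irreducible ((q : ℕ) : s18_A1 P K₀) := s36_bu_irreducible P q hP K₀ hK₀
  have hq1 : q - 1 + 1 = q := Nat.sub_add_cancel hq.one_le
  have hn : 1 ≤ q - 1 := by have := hq.two_le; omega
  -- Bezout
  obtain ⟨r, s, hrs⟩ : IsCoprime (q : ℤ) (m : ℤ) :=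
    Nat.isCoprime_iff_coprime.mpr ((hq.coprime_iff_not_dvd).mpr hqm)
  obtain ⟨t, B0, Binf, z, VA, VB, VC, Vi, V0, HC, HCh, HP0, HPi⟩ :=
    hpkg P hP K₀ hK₀ _ hπ (by push_cast; rfl) W₁ hW₁ m hm hqm ζ hζ r s hrs
  -- the uniformizer
  have hιϖ : s36_inst_iota N' q K₀
      (algebraMap (s18_A1 P K₀) (s18_F1 K₀ (N' * q)) ((q : ℕ) : s18_A1 P K₀)) =
      algebraMap (s18_A1 P K₀) (s18_F1 K₀ (N' * q * q)) ((q : ℕ) : s18_A1 P K₀) :=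
    (heckeAlphaBar K₀ (N' * q) q).commutes (((q : ℕ) : s18_A1 P K₀) : K₀)
  have e'' : algebraMap (s18_A1 P K₀) (s18_F1 K₀ (N' * q)) ((q : ℕ) : s18_A1 P K₀) =
      algebraMap K₀ (s18_F1 K₀ (N' * q)) ((q : ℕ) : K₀) := by
    rw [map_natCast, map_natCast]
  -- the norm
  have hNϖ : s36_inst_Nm N' q K₀ (s36_inst_iota N' q K₀
      (algebraMap (s18_A1 P K₀) (s18_F1 K₀ (N' * q)) ((q : ℕ) : s18_A1 P K₀))) =
      (algebraMap (s18_A1 P K₀) (s18_F1 K₀ (N' * q)) ((q : ℕ) : s18_A1 P K₀)) ^ (q - 1 + 1) := by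
    rw [hq1]
    exact s36_in_nm_map K₀ N' q hq _
  obtain ⟨γ₁, γ₂, f₁, f₂, hf₁, hf₂, hN₁, hN₂⟩ := s36_in_normRel K₀ N' q m W₁ g₁ hNR
  rw [← e''] at hN₁ hN₂
  -- the root of unity
  have hζA : ζ ∈ s18_A1 P K₀ := by
    have h1 : (s18_A1 P K₀).valuation ζ ^ m = 1 := by rw [← map_pow, hζ.pow_eq_one, map_one]
    rw [← ValuationSubring.valuation_le_one_iff]
    by_contra hlt
    exact absurd h1 (ne_of_gt (one_lt_pow₀ (not_le.mp hlt) hm.ne'))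
  have hζ₀ : IsPrimitiveRoot (⟨ζ, hζA⟩ : s18_A1 P K₀) m :=
    IsPrimitiveRoot.of_map_of_injective (f := (s18_A1 P K₀).subtype) hζ
      Subtype.val_injective
  have hmu : IsUnit ((m : ℕ) : s18_A1 P K₀) := s18_a1_isUnit_natCast P hP K₀ m hqm
  have hrs' : r * ((q - 1 + 1 : ℕ) : ℤ) + s * (m : ℤ) = 1 := by rw [hq1]; exact hrs
  -- the hypotheses with `ι ϖ''`
  have hA := HC.hA
  have hB := HC.hB
  have hzn := HC.hzn
  have hzn' := HC.hzn'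
  have hresA := HC.hresA
  have hresB := HC.hresB
  have hNRram := HC.hNRram
  have hNRins := HC.hNRins
  rw [← hιϖ] at hA hB hzn hzn' hresA hresB hNRram hNRins
  have hresB' : ∀ y ∈ VB, ∃ b ∈ V0,
      (s36_inst_iota N' q K₀
        (algebraMap (s18_A1 P K₀) (s18_F1 K₀ (N' * q)) ((q : ℕ) : s18_A1 P K₀)))⁻¹ *
        (y ^ (q - 1 + 1) - s36_inst_iota N' q K₀ b) ∈ VB := by
    intro y hy
    rw [hq1]
    exact hresB y hy
  have hNRins' : ∀ h ∈ VB, ∀ b ∈ V0,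
      (s36_inst_iota N' q K₀
        (algebraMap (s18_A1 P K₀) (s18_F1 K₀ (N' * q)) ((q : ℕ) : s18_A1 P K₀)))⁻¹ *
        (h ^ (q - 1 + 1) - s36_inst_iota N' q K₀ b) ∈ VB →
      (algebraMap (s18_A1 P K₀) (s18_F1 K₀ (N' * q)) ((q : ℕ) : s18_A1 P K₀))⁻¹ *
        (s36_inst_Nm N' q K₀ h - b) ∈ V0 := by
    intro h hh b hb hc
    rw [hq1] at hc
    exact hNRins h hh b hb hc
  have hWϖ : (W₁ : s18_F1 K₀ (N' * q * q) ≃+* s18_F1 K₀ (N' * q * q))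
      (s36_inst_iota N' q K₀
        (algebraMap (s18_A1 P K₀) (s18_F1 K₀ (N' * q)) ((q : ℕ) : s18_A1 P K₀))) =
      s36_inst_iota N' q K₀
        (algebraMap (s18_A1 P K₀) (s18_F1 K₀ (N' * q)) ((q : ℕ) : s18_A1 P K₀)) := by
    rw [hιϖ]
    exact W₁.commutes (((q : ℕ) : s18_A1 P K₀) : K₀)
  exact s36_pow_of_model (N' * q * q) P K₀ hπ (t := t) (B0 := B0) (Binf := Binf)
    (s36_inst_iota N' q K₀) hιϖ (z := z) VA VB VC Vi V0 hA hB HC.hC HC.hAB HC.hAC HC.hBC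
    HC.hVi HC.hV0 HC.hιA HC.hιC HC.hιB (q - 1) hn hzn hzn' hresA HC.hresC hresB'
    (s36_inst_Nm N' q K₀) hNϖ hNRram hNRins'
    (W₁ : s18_F1 K₀ (N' * q * q) ≃+* s18_F1 K₀ (N' * q * q)) HC.hWAB HC.hWC hWϖ hW₁.1
    HCh.hB0A HCh.hB0B HCh.hB0C HCh.hBiA HCh.hBiB HCh.hBiC HCh.hcap0 HCh.hcapi HCh.frac0
    HCh.t_ne HCh.t_mem HCh.tinv_mem HCh.glue0 HCh.glueInf HCh.h1 HCh.fin
    m hm hmu r s hrs' ⟨ζ, hζA⟩ hζ₀ g₁ hg₁ hdiv γ₁ γ₂ f₁ f₂ hf₁ hf₂ hN₁ hN₂ HP0 HPi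

end Fermat.Agent.S36
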