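import Mathlib
import Fermat.Agent.S36.Inst
import Fermat.Agent.S36.ChartPkg3Full
import Fermat.Agent.S36.SwapRel

/-!
# S36 (NODE-3), block (INST36): the chart bundle `s36_inst_Chart` of the concrete model

The bundle `s36_inst_Chart` of `S36/Inst.lean` (the two charts with the two-chart data of
`s36_two_chart`) for the concrete model of level `N' q q` over `K₀`:

* `t` the Hauptmodul `t₂` (`2 ∣ N'`) or `t₃` (`3 ∣ N'`), `B0 = s34_md_B0`, `Binf = s34_md_Binf`;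
* `V_A = s34_md_V1 P K₀ (N' q q)`, `V_B = s34_md_V2 P K₀ (N' q q) W₁` for any swap `W₁` with
  `s36_IsSwapK K₀ N' q W₁`, `V_C = s36_gc_V κ A (N' q q) Θ`;
* `π` any uniformizer of `s18_A1 P K₀` with `(π : K₀) = q`.

No hypothesis on the model remains (`s36_cp3f_chart_t2`, `s36_cp3f_chart_t3`).
-/

set_option autoImplicit false
set_option synthInstance.maxHeartbeats 400000
set_option linter.style.haveILetI false
set_option linter.unusedSectionVars false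
set_option linter.unusedVariables false

open ModularCurve AlgebraicCurve

noncomputable section

namespace Fermat.Agent.S36

open Fermat.Agent.S18 Fermat.Agent.S34 Fermat.Agent.S35

local notation "Qb" => AlgebraicClosure ℚ

section Model

variable (N' q : ℕ) [NeZero N'] [NeZero q] [NeZero (N' * q)] [NeZero (N' * q * q)]
  (P : ValuationSubring Qb) (K₀ : IntermediateField ℚ Qb)
  [IsDiscreteValuationRing (s18_A1 P K₀)]
  {K : Type*} [Field K] [Algebra ℚ K] (κ : K₀ →+* K) (A : ValuationSubring K)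
  [IsDiscreteValuationRing A]
  (Θ : laurentBaseChange K (modularFunctionFieldFull (N' * q * q)) →ₐ[K] LaurentSeries K)
  (ζ : Aˣ)

/-- The chart bundle `s36_inst_Chart` from the chart block `s36_cp3_Chart`. -/
theorem s36_ich_of_cp3 (π : s18_A1 P K₀) {t : s18_F1 K₀ (N' * q * q)}
    {B0 Binf : Subalgebra (s18_A1 P K₀) (s18_F1 K₀ (N' * q * q))}
    {VA VB VC : Subring (s18_F1 K₀ (N' * q * q))}
    (h : s36_cp3_Chart π t B0 Binf (VA ⊓ VB ⊓ VC)) :
    s36_inst_Chart N' q P K₀ π t B0 Binf VA VB VC where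
  hB0A := fun x hx => (h.hB0V x hx).1.1
  hB0B := fun x hx => (h.hB0V x hx).1.2
  hB0C := fun x hx => (h.hB0V x hx).2
  hBiA := fun x hx => (h.hBiV x hx).1.1
  hBiB := fun x hx => (h.hBiV x hx).1.2
  hBiC := fun x hx => (h.hBiV x hx).2
  hcap0 := h.hcap0
  hcapi := h.hcapi
  frac0 := h.frac0
  t_ne := h.t_ne
  t_mem := h.t_mem
  tinv_mem := h.tinv_mem
  glue0 := h.glue0
  glueInf := h.glueInf
  h1 := h.h1
  fin := h.fin

set_option maxHeartbeats 1000000 in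
/-- **The chart bundle of (INST36) for the concrete model, Hauptmodul `t₂`.** -/
theorem s36_ich_chart_t2 [Fact q.Prime] [FiniteDimensional ℚ K₀] (hP : P.LiesOverPrime q)
    (hqN : ¬ q ∣ N') (h2 : 2 ∣ N') (h2'' : 2 ∣ N' * q * q)
    (π : s18_A1 P K₀) (hπ : Irreducible π) (hπq : (π : K₀) = (q : K₀))
    (W₁ : s18_F1 K₀ (N' * q * q) ≃ₐ[K₀] s18_F1 K₀ (N' * q * q)) (hW₁ : s36_IsSwapK K₀ N' q W₁)
    (hΘ : s36_gc_IsCusp N' q ζ Θ) (hζ : s36_gc_IsUnif ζ) (hA0 : ∀ a ∈ s18_A1 P K₀, κ a ∈ A)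
    (c : A) (hc : (q : A) = ((ζ : A) - 1) ^ (q - 1) * c) :
    s36_inst_Chart N' q P K₀ π (s18_coord K₀ (s18_cz_t2 (N' * q * q) h2''))
      (s34_md_B0 P K₀ (N' * q * q) (s18_cz_t2 (N' * q * q) h2''))
      (s34_md_Binf P K₀ (N' * q * q) (s18_cz_t2 (N' * q * q) h2''))
      (s34_md_V1 P K₀ (N' * q * q)) (s34_md_V2 P K₀ (N' * q * q) W₁)
      (s36_gc_V κ A (N' * q * q) Θ) := by
  have hq : q.Prime := Fact.out
  obtain rfl : π = ((q : ℕ) : s18_A1 P K₀) := Subtype.ext (by rw [hπq]; push_cast; rfl)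
  obtain ⟨w, hw⟩ := s34_md_exists_swap K₀ N' q ((Nat.Prime.coprime_iff_not_dvd hq).mpr hqN)
  have hrel := s36_sr_rel N' q w hw.2.2.2.2 W₁ hW₁.2
  exact s36_ich_of_cp3 N' q P K₀ _ (s36_cp3f_chart_t2 P K₀ N' q κ A Θ ζ hP hqN h2
    (Dvd.dvd.mul_right h2 q) h2'' hπ w hw W₁ hrel hΘ hζ hA0 c hc)

set_option maxHeartbeats 1000000 in
/-- **The chart bundle of (INST36) for the concrete model, Hauptmodul `t₃`.** -/
theorem s36_ich_chart_t3 [Fact q.Prime] [FiniteDimensional ℚ K₀] (hP : P.LiesOverPrime q)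
    (hqN : ¬ q ∣ N') (h3 : 3 ∣ N') (h3'' : 3 ∣ N' * q * q)
    (π : s18_A1 P K₀) (hπ : Irreducible π) (hπq : (π : K₀) = (q : K₀))
    (W₁ : s18_F1 K₀ (N' * q * q) ≃ₐ[K₀] s18_F1 K₀ (N' * q * q)) (hW₁ : s36_IsSwapK K₀ N' q W₁)
    (hΘ : s36_gc_IsCusp N' q ζ Θ) (hζ : s36_gc_IsUnif ζ) (hA0 : ∀ a ∈ s18_A1 P K₀, κ a ∈ A)
    (c : A) (hc : (q : A) = ((ζ : A) - 1) ^ (q - 1) * c) :
    s36_inst_Chart N' q P K₀ π (s18_coord K₀ (s18_cz_t3 (N' * q * q) h3''))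
      (s34_md_B0 P K₀ (N' * q * q) (s18_cz_t3 (N' * q * q) h3''))
      (s34_md_Binf P K₀ (N' * q * q) (s18_cz_t3 (N' * q * q) h3''))
      (s34_md_V1 P K₀ (N' * q * q)) (s34_md_V2 P K₀ (N' * q * q) W₁)
      (s36_gc_V κ A (N' * q * q) Θ) := by
  have hq : q.Prime := Fact.out
  obtain rfl : π = ((q : ℕ) : s18_A1 P K₀) := Subtype.ext (by rw [hπq]; push_cast; rfl)
  obtain ⟨w, hw⟩ := s34_md_exists_swap K₀ N' q ((Nat.Prime.coprime_iff_not_dvd hq).mpr hqN)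
  have hrel := s36_sr_rel N' q w hw.2.2.2.2 W₁ hW₁.2
  exact s36_ich_of_cp3 N' q P K₀ _ (s36_cp3f_chart_t3 P K₀ N' q κ A Θ ζ hP hqN h3
    (Dvd.dvd.mul_right h3 q) h3'' hπ w hw W₁ hrel hΘ hζ hA0 c hc)

end Model

end Fermat.Agent.S36
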