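import Mathlib
import Fermat.Agent.S36.Inst
import Fermat.Agent.S36.FinalModel

/-!
# S36 (NODE-3): the conclusion of S36 from the three-component model

* `s36_inst_Pkg L' q` : the function-independent part of the three-component model of
  `X₀(L' q²)` over the rings `P ∩ K₀` (`K₀` a number field inside the inertia field of `P ∣ q`):
  the hypothesis of `s36_inst_model`.
* `s36_inst_model_pkg` : `s36_inst_Pkg L' q → s36_Model L' q c`.
* `s36_inst_final` : the conclusion of S36 from the packages at the levels `L'` prime to `q` and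
  divisible by an auxiliary level `M₀ = M₀(q)` (`s36_final_model`).
-/

set_option autoImplicit false
set_option synthInstance.maxHeartbeats 400000

open Polynomial
open CuspForm
open ModularCurve AlgebraicCurve

noncomputable section

namespace Fermat.Agent.S36

open Fermat.Agent.S18 Fermat.Agent.S34 Fermat.Agent.S35

local notation "Qb" => AlgebraicClosure ℚ

/-- **The model package** at `(L', q)`: for every `P ∣ q`, every number field `K₀` inside the
inertia field of `P`, every uniformizer `π` of `P ∩ K₀` with `π = q`, every swap `W₁`, every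
`m` prime to `q` (with a primitive `m`-th root of unity in `K₀` and Bezout coefficients), the
three bundles `s36_inst_Comp`, `s36_inst_Chart`, `s36_inst_PtsAt` for suitable data. -/
def s36_inst_Pkg (L' q : ℕ) [NeZero (L' * q)] [NeZero q] [NeZero (L' * q * q)] : Prop :=
  ∀ (P : ValuationSubring Qb), P.LiesOverPrime q →
    ∀ (K₀ : IntermediateField ℚ Qb) [FiniteDimensional ℚ K₀]
      [IsDiscreteValuationRing (s18_A1 P K₀)],
    (∀ a ∈ K₀, ∀ τ ∈ P.inertiaSubgroupIn ℚ, τ a = a) →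
    ∀ π : s18_A1 P K₀, Irreducible π → (π : K₀) = (q : K₀) →
    ∀ W₁ : s18_F1 K₀ (L' * q * q) ≃ₐ[K₀] s18_F1 K₀ (L' * q * q), s36_IsSwapK K₀ L' q W₁ →
    ∀ m : ℕ, 0 < m → ¬ q ∣ m → ∀ ζ : K₀, IsPrimitiveRoot ζ m →
    ∀ r s : ℤ, r * (q : ℤ) + s * (m : ℤ) = 1 →
    ∃ (t : s18_F1 K₀ (L' * q * q))
      (B0 Binf : Subalgebra (s18_A1 P K₀) (s18_F1 K₀ (L' * q * q)))
      (z : s18_F1 K₀ (L' * q * q)) (VA VB VC : Subring (s18_F1 K₀ (L' * q * q)))
      (Vi V0 : Subring (s18_F1 K₀ (L' * q))),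
      s36_inst_Comp L' q P K₀ π W₁ z VA VB VC Vi V0 ∧
      s36_inst_Chart L' q P K₀ π t B0 Binf VA VB VC ∧
      s36_inst_PtsAt L' q P K₀ π W₁ m r s B0 z VA VB VC Vi V0 ∧
      s36_inst_PtsAt L' q P K₀ π W₁ m r s Binf z VA VB VC Vi V0

/-- The `K₀`-level statement from the model package. -/
theorem s36_inst_model_pkg (L' q : ℕ) [NeZero (L' * q)] [NeZero q] [NeZero (L' * q * q)]
    (hq : q.Prime) (h : s36_inst_Pkg L' q) :
    s36_Model L' q ((q - 1 + 2) * ((q - 1) * (q - 1 + 2))) :=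
  s36_inst_model L' q hq h

/-- **S36 from the three-component model.** -/
theorem s36_inst_final
    (hpkg : ∀ (q : ℕ) [NeZero q], q.Prime → ∃ M₀ : ℕ, M₀ ≠ 0 ∧ ¬ q ∣ M₀ ∧
      ∀ (L' : ℕ) [NeZero L'] [NeZero (L' * q)] [NeZero (L' * q * q)], ¬ q ∣ L' → M₀ ∣ L' →
        s36_inst_Pkg L' q)
    {M : ℕ} [NeZero M] {g : CuspForm (CongruenceSubgroup.Gamma0 M) 2} (hg : g.IsNewform)
    (lam : ℕ) [Fact lam.Prime]
    (S : Finset ℕ)
    (O' : Type) [CommRing O'] [IsDomain O'] [IsDiscreteValuationRing O']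
    [IsAdicComplete (IsLocalRing.maximalIdeal O') O'] [Finite (IsLocalRing.ResidueField O')]
    [CharZero O'] (hlamO' : (lam : O') ∈ IsLocalRing.maximalIdeal O')
    (hlam2 : lam ≠ 2)
    (chig : CuspForm.heckeAlgebra M 2 (↑S : Set ℕ) →+* ℂ)
    (hchig : ∀ (ℓ : ℕ) (hℓ : ℓ.Prime) (hℓM : ¬ ℓ ∣ M) (hℓS : ℓ ∉ (↑S : Set ℕ)),
      chig (CuspForm.heckeAlgebra.T hℓ hℓM hℓS) = ModularFormClass.qCoeff g ℓ)
    (iota : chig.range →+* O')
    (hlamS : lam ∈ S) (hMS : ∀ q : ℕ, q.Prime → q ∣ M → q ∈ S) :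
    ∃ (O'' : Type) (_ : CommRing O'') (_ : IsDomain O'') (_ : IsDiscreteValuationRing O'')
      (_ : IsAdicComplete (IsLocalRing.maximalIdeal O'') O'') (_ : Finite (IsLocalRing.ResidueField O''))
      (_ : CharZero O'') (_ : Algebra O' O'') (_ : Module.Finite O' O'') (_ : IsLocalHom (algebraMap O' O'')),
      Function.Injective (algebraMap O' O'') ∧
      ∃ ρ : GaloisRepAdic O'',
        (∀ (ℓ : ℕ) (hℓ : ℓ.Prime) (hℓM : ¬ ℓ ∣ M) (hℓS : ℓ ∉ (↑S : Set ℕ)),
          ∀ A : ValuationSubring (AlgebraicClosure ℚ), A.LiesOverPrime ℓ →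
            ∀ σ : AlgebraicClosure ℚ ≃ₐ[ℚ] AlgebraicClosure ℚ, A.IsFrobeniusAt σ ℓ →
              LinearMap.charpoly (ρ.ρ σ) =
                X ^ 2 - C (algebraMap O' O'' ((iota.comp chig.rangeRestrict) (CuspForm.heckeAlgebra.T hℓ hℓM hℓS))) * X
                  + C ((ℓ : O''))) ∧
        (∀ q : ℕ, q.Prime → q ≠ lam → M.factorization q = 2 → ¬ ρ.IsUnipotentOnInertiaAt q) := by
  refine s36_final_model (fun q _ hq => ?_) hg lam S O' hlamO' hlam2 chig hchig iota hlamS hMS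
  obtain ⟨M₀, hM₀, hqM, h⟩ := hpkg q hq
  refine ⟨M₀, hM₀, hqM, fun L' _ hqL hML => ?_⟩
  exact ⟨_, s36_inst_c_ne hq, s36_inst_model L' q hq (h L' hqL hML)⟩

end Fermat.Agent.S36
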