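import Fermat.Agent.S36.CorQ
import Fermat.Agent.S35.KapCor

/-!
# S36 (NODE-3), block (E)/(KC): `κ` and the norm along `α : F_N → F_{N q}` for `q ∣ N`

The clone of `S35/KapCor.lean` for a prime `l` **dividing** the lower level `N` (degree `l`
instead of `l + 1`), with the Atkin–Lehner swap of the exact divisor `q²` of `N' q q`.

* `s36_kc_finrank_alpha` : `[F̄(N l) : F̄(N)] = l` for `l ∣ N`;
* `s36_kc_an_norm` : `N_α y = ∏_{i < l} y ∘ (1 0; N i 1)` in the analytic realisation;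
* `s36_kc_alpha` : if the transfer of `κ x` vanishes then `α_* x = 0` and `N_α g = c · f ^ m`;
* `s36_kc_an_W` : a `ℚ̄`-automorphism `W` of `F̄(N' q q)` with `W j(Q^(d m)) = j(Q^(d q²/m))`
  is `y ↦ y ∘ w` in the analytic realisation, `w` the Atkin–Lehner matrix of `q²`;
* `s36_kc_alphaW` : the same for `W`-twisted classes and the `w`-twisted transfer.
-/

set_option autoImplicit false
set_option linter.unusedSectionVars false
set_option linter.style.haveILetI false

open UpperHalfPlane ModularCurve AlgebraicCurve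
open scoped MatrixGroups Manifold

noncomputable section

namespace Fermat.Agent.S36

open Fermat.Agent.S29 Fermat.Agent.S24 Fermat.Agent.S35
open CongruenceSubgroup ModularCurve.Period

attribute [local instance] algKC

local notation "Qb" => AlgebraicClosure ℚ

/-! ### The degree of `α` -/

/-- The degree of the inclusion `α : F̄(N) → F̄(N l)` for a prime `l ∣ N`. -/
theorem s36_kc_finrank_alpha (N l : ℕ) [NeZero N] [NeZero l] (hl : l.Prime) (hlN : l ∣ N) :
    FiniteAlong Qb (heckeAlphaBar Qb N l) ∧ finrankAlong Qb (heckeAlphaBar Qb N l) = l := by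
  have h1 : finrankAlong Qb (heckeAlphaBar Qb N l) = l := by
    have hle : modularFunctionFieldBar N ≤ modularFunctionFieldBar (N * l) :=
      Fermat.Agent.S18.s18_d5_le (Dvd.intro l rfl)
    rw [heckeAlphaBar_eq_inclusion N l hle, Fermat.Agent.S37.s37_ew_finrankAlong_inclusion hle]
    have h2 := Fermat.Agent.S18.s18_d5_relfinrank (N := N) (N' := N * l) (Dvd.intro l rfl)
    rw [idx_dedekindPsi_mul_of_dvd (NeZero.ne N) hl hlN, mul_comm] at h2
    exact Nat.eq_of_mul_eq_mul_left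
      (Nat.pos_of_ne_zero (Fermat.Agent.S18.s18_d5_dedekindPsi_ne_zero N)) h2
  refine ⟨?_, h1⟩
  letI := algebraAlong (heckeAlphaBar Qb N l)
  show Module.Finite (modularFunctionFieldBar N) (modularFunctionFieldBar (N * l))
  apply Module.finite_of_finrank_pos
  have h2 : Module.finrank (modularFunctionFieldBar N) (modularFunctionFieldBar (N * l)) = l := h1
  rw [h2]
  exact Nat.pos_of_ne_zero (NeZero.ne l)

/-! ### The norm along `α` in the analytic realisation -/

/-- the product `∏_i G ∘ γ_i` over the coset representatives of `Γ₀(N l) \ Γ₀(N)`. -/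
def s36_kc_prod (N l : ℕ) (G : s29_Mer) : s29_Mer :=
  ∏ i : Fin l, (s29_sl ((s36_co_rep N l i : Gamma0 N) : SL(2, ℤ)))⁻¹ • G

theorem s36_kc_prod_pow (N l : ℕ) (G : s29_Mer) (m : ℕ) :
    s36_kc_prod N l (G ^ m) = s36_kc_prod N l G ^ m := by
  simp only [s36_kc_prod, smul_pow', Finset.prod_pow]

/-- `σ_{γ_i} = σ_{γ_j}` forces `i = j`. -/
theorem s36_kc_sigma_inj (N l : ℕ) [NeZero N] [NeZero l] (hlN : l ∣ N) (i j : Fin l)
    (h : s29_kh_sigma N l ((s36_co_rep N l i : Gamma0 N) : SL(2, ℤ)) =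
      s29_kh_sigma N l ((s36_co_rep N l j : Gamma0 N) : SL(2, ℤ))) : i = j := by
  set γ := s36_co_rep N l i with hγ
  set γ' := s36_co_rep N l j with hγ'
  have hη : ((γ' * γ⁻¹ : Gamma0 N) : SL(2, ℤ)) ∈ Gamma0 (N * l) := by
    apply s29_an_stab (N * l)
    intro f
    have h1 := congrArg (fun φ : modularFunctionFieldBar (N * l) →+* s29_Mer => φ f) h
    simp only [s29_kh_sigma_apply] at h1
    rw [s29_sl_smul_def]
    have h2 : s29_sl ((γ' * γ⁻¹ : Gamma0 N) : SL(2, ℤ)) =
        s29_sl (γ' : SL(2, ℤ)) * (s29_sl (γ : SL(2, ℤ)))⁻¹ := by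
      rw [← map_inv, ← map_mul]
      rfl
    rw [h2, mul_smul, h1, smul_smul, mul_inv_cancel, one_smul]
  refine ((s36_co_data1 N l hlN).uniq j i ⟨_, hη⟩ ?_).symm
  show s29_ch_iota N γ' = s29_ch_iota N (γ' * γ⁻¹) * s29_ch_iota N γ
  rw [← map_mul, inv_mul_cancel_right]

/-- **The norm along `α` in the analytic realisation** (`l ∣ N`):
`N_α y = ∏_{i < l} y ∘ γ_i` as meromorphic functions on the upper half plane. -/
theorem s36_kc_an_norm (N l : ℕ) [NeZero N] [NeZero l] (hl : l.Prime) (hlN : l ∣ N)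
    (y : modularFunctionFieldBar (N * l)) :
    s29_an N (s29_kh_normAlong (heckeAlphaBar Qb N l) y) =
      s36_kc_prod N l (s29_an (N * l) y) := by
  obtain ⟨hfin, hrank⟩ := s36_kc_finrank_alpha N l hl hlN
  letI := algebraAlong (heckeAlphaBar Qb N l)
  haveI : FiniteDimensional (modularFunctionFieldBar N) (modularFunctionFieldBar (N * l)) := hfin
  have hrank' : Module.finrank (modularFunctionFieldBar N) (modularFunctionFieldBar (N * l)) =
      l := hrank
  have hf : ∀ i, (s29_kh_sigma N l ((s36_co_rep N l i : Gamma0 N) : SL(2, ℤ))).comp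
      (algebraMap (modularFunctionFieldBar N) (modularFunctionFieldBar (N * l))) = s29_an N := by
    intro i
    ext f
    exact s29_kh_sigma_alpha N l (s36_co_rep N l i) f
  have hσ : Function.Injective
      (fun i => s29_kh_sigma N l ((s36_co_rep N l i : Gamma0 N) : SL(2, ℤ))) :=
    fun i j hij => s36_kc_sigma_inj N l hlN i j hij
  have hcard : Fintype.card (Fin l) =
      Module.finrank (modularFunctionFieldBar N) (modularFunctionFieldBar (N * l)) := by
    rw [hrank', Fintype.card_fin]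
  have h := s29_kh_norm_map_eq_prod (s29_an N)
    (fun i => s29_kh_sigma N l ((s36_co_rep N l i : Gamma0 N) : SL(2, ℤ))) hf hσ hcard y
  have h2 : s29_kh_normAlong (heckeAlphaBar Qb N l) y =
      Algebra.norm (modularFunctionFieldBar N) y := rfl
  rw [h2, h, s36_kc_prod]
  rfl

/-- the character of `∏_i G ∘ γ_i` is the transfer of the character of `G`. -/
theorem s36_kc_char1 (N l : ℕ) [NeZero N] [NeZero l] (hlN : l ∣ N) (m : ℕ) [NeZero m]
    (G : s29_Mer) (χ : Additive (Gamma0 (N * l)) →+ ZMod m)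
    (h : s29_ka_IsChar (N * l) m G χ) :
    s29_ka_IsChar N m (s36_kc_prod N l G) ((s36_co_data1 N l hlN).T (ZMod m) χ) :=
  s35_kc_char_gen (s36_co_data1 N l hlN) rfl rfl
    (fun i => s29_sl ((s36_co_rep N l i : Gamma0 N) : SL(2, ℤ))) (fun _ => rfl) m G χ h

/-! ### Witnesses at level `N` -/

/-- **the push-forward step**: a divisor `D₂` of degree `0` at level `N l` with `m D₂ = div g₂`,
together with an `m`-th root `G'` of `N_α g₂` on the upper half plane which is
`Γ₀(N)`-invariant (character `0`): then `α_* D₂` is principal and `N_α g₂ = c · f ^ m`. -/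
theorem s36_kc_core (N l : ℕ) [NeZero N] [NeZero l] (m : ℕ) [NeZero m]
    (D₂ : Divisor Qb (modularFunctionFieldBar (N * l)))
    (hD₂ : D₂ ∈ Divisor.degZero (K := Qb) (F := modularFunctionFieldBar (N * l)))
    (g₂ : modularFunctionFieldBar (N * l)) (hg₂ : g₂ ≠ 0)
    (hdiv₂ : ∀ P : Place Qb (modularFunctionFieldBar (N * l)), P.ord g₂ = (m : ℤ) * D₂ P)
    (G' : s29_Mer) (hG' : G' ^ m = s29_an N (s29_kh_normAlong (heckeAlphaBar Qb N l) g₂))
    (hchar : s29_ka_IsChar N m G' 0)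
    (hα : (heckeAlphaBar Qb N l).toRingHom.IsIntegral) :
    Pic0.mk (⟨Divisor.pushforwardAlong (heckeAlphaBar Qb N l) hα D₂,
        Divisor.pushforwardAlong_mem_degZero _ hα hD₂⟩ :
        Divisor.degZero (K := Qb) (F := modularFunctionFieldBar N)) = (0 : JZero N) ∧
      ∃ (c : Qb) (f : modularFunctionFieldBar N),
        s29_kh_normAlong (heckeAlphaBar Qb N l) g₂ =
          algebraMap Qb (modularFunctionFieldBar N) c * f ^ m := by
  obtain ⟨-, hβ, hP, hfin, hFI, hN⟩ := Fermat.Agent.S37.s37_h_heckeInputsAlong N l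
  haveI := hP
  set D' : Divisor.degZero (K := Qb) (F := modularFunctionFieldBar N) :=
    ⟨Divisor.pushforwardAlong (heckeAlphaBar Qb N l) hα D₂,
      Divisor.pushforwardAlong_mem_degZero _ hα hD₂⟩ with hD'
  have hw' : s29_ka_IsWitness N m (Pic0.mk D') D'
      (s29_kh_normAlong (heckeAlphaBar Qb N l) g₂) G' := by
    refine ⟨rfl, s29_kh_normAlong_ne_zero _ hfin hg₂, fun P => ?_, hG'⟩
    have h1 := hN g₂ hg₂ ((m : ℤ) • D₂) (fun w => by
      rw [Finsupp.smul_apply, smul_eq_mul, hdiv₂ w]) P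
    have h2 : Divisor.pushforwardAlong (heckeAlphaBar Qb N l) hα ((m : ℤ) • D₂) P =
        (m : ℤ) * Divisor.pushforwardAlong (heckeAlphaBar Qb N l) hα D₂ P := by
      rw [map_zsmul, Finsupp.smul_apply, smul_eq_mul]
    show P.ord (s29_kh_normAlong (heckeAlphaBar Qb N l) g₂) =
      (m : ℤ) * Divisor.pushforwardAlong (heckeAlphaBar Qb N l) hα D₂ P
    rw [← h2]
    exact h1.symm
  have hmem : Pic0.mk D' ∈ Pic0.torsion Qb (modularFunctionFieldBar N) m := by
    rw [Pic0.mem_torsion]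
    have h1 : ((m : ℤ) • D' : Divisor.degZero (K := Qb) (F := modularFunctionFieldBar N)) ∈
        (Divisor.principal (K := Qb) (F := modularFunctionFieldBar N)).addSubgroupOf
          (Divisor.degZero (K := Qb) (F := modularFunctionFieldBar N)) := by
      rw [AddSubgroup.mem_addSubgroupOf]
      refine ⟨_, hw'.2.1, fun P => ?_⟩
      rw [hw'.2.2.1 P, AddSubgroup.coe_zsmul, Finsupp.smul_apply, smul_eq_mul]
    exact (QuotientAddGroup.eq_zero_iff _).mpr h1
  have hk : s29_kappa N m ⟨Pic0.mk D', hmem⟩ = 0 :=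
    s29_kappa_eq_of_witness ⟨Pic0.mk D', hmem⟩ hw' hchar
  have h0 : (⟨Pic0.mk D', hmem⟩ : Pic0.torsion Qb (modularFunctionFieldBar N) m) = 0 :=
    (s29_kappa_eq_zero_iff N m _).mp hk
  have h0' : Pic0.mk D' = (0 : JZero N) := congrArg Subtype.val h0
  exact ⟨h0', s35_kc_pow_of_zero N m D' h0' _ hw'.2.1 hw'.2.2.1⟩

/-- **(KC) for `α`** (`l ∣ N`): if the transfer of `κ x` vanishes then `α_* x = 0` and the norm
along `α` of every Kummer function of `x` is a constant times an `m`-th power. -/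
theorem s36_kc_alpha (N l : ℕ) [NeZero N] [NeZero l] (hl : l.Prime) (hlN : l ∣ N) (m : ℕ)
    [NeZero m]
    (x : Pic0.torsion Qb (modularFunctionFieldBar (N * l)) m)
    (hκ : (s36_co_data1 N l hlN).T (ZMod m) (s29_kappa (N * l) m x) = 0)
    (D : Divisor.degZero (K := Qb) (F := modularFunctionFieldBar (N * l)))
    (g : modularFunctionFieldBar (N * l)) (hx : Pic0.mk D = (x : JZero (N * l))) (hg : g ≠ 0)
    (hdiv : ∀ P : Place Qb (modularFunctionFieldBar (N * l)),
      P.ord g = (m : ℤ) * (D : Divisor Qb (modularFunctionFieldBar (N * l))) P)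
    (hα : (heckeAlphaBar Qb N l).toRingHom.IsIntegral) :
    Pic0.mk (⟨Divisor.pushforwardAlong (heckeAlphaBar Qb N l) hα
          (D : Divisor Qb (modularFunctionFieldBar (N * l))),
        Divisor.pushforwardAlong_mem_degZero _ hα D.2⟩ :
        Divisor.degZero (K := Qb) (F := modularFunctionFieldBar N)) = (0 : JZero N) ∧
      ∃ (c : Qb) (f : modularFunctionFieldBar N),
        s29_kh_normAlong (heckeAlphaBar Qb N l) g =
          algebraMap Qb (modularFunctionFieldBar N) c * f ^ m := by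
  -- a root of `g` on the upper half plane
  have hord : ∀ τ : ℍ, (m : ℤ) ∣ s29_ord τ (s29_an (N * l) g) :=
    s29_ord_an_dvd (N * l) (m : ℤ) g hg (fun P => ⟨_, hdiv P⟩)
  obtain ⟨G, hG⟩ := s29_mer_root m (Nat.pos_of_ne_zero (NeZero.ne m)) (s29_an (N * l) g)
    (s29_an_ne_zero (N * l) hg) hord
  have hw : s29_ka_IsWitness (N * l) m (x : JZero (N * l)) D g G := ⟨hx, hg, hdiv, hG⟩
  have hχ := s29_kappaFun_spec x hw
  have hG' : s36_kc_prod N l G ^ m =
      s29_an N (s29_kh_normAlong (heckeAlphaBar Qb N l) g) := by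
    rw [← s36_kc_prod_pow, hG, s36_kc_an_norm N l hl hlN]
  have hchar : s29_ka_IsChar N m (s36_kc_prod N l G)
      ((s36_co_data1 N l hlN).T (ZMod m) (s29_kappa (N * l) m x)) :=
    s36_kc_char1 N l hlN m G _ hχ
  rw [hκ] at hchar
  exact s36_kc_core N l m D D.2 g hg hdiv _ hG' hchar hα

/-! ### The Atkin–Lehner swap of `q²` in the analytic realisation -/

/-- the Atkin–Lehner matrix of `q²` as an element of `GL₂⁺(ℝ)`. -/
def s36_kc_w (N' q : ℕ) [NeZero q] (hq : q.Prime) (hqN : ¬ q ∣ N') : GL(2, ℝ)⁺ :=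
  ⟨s36_co_w N' q hq hqN, by
    rw [Matrix.mem_glpos, Matrix.GeneralLinearGroup.val_det_apply, s36_co_w_val]
    have h1 : ((s36_co_wZ N' q).map (Int.castRingHom ℝ)).det = ((s36_co_wZ N' q).det : ℝ) :=
      (RingHom.map_det (Int.castRingHom ℝ) (s36_co_wZ N' q)).symm
    rw [h1, s36_co_wZ, s35_al_W_det N' (q * q) 1 _ 1 _ (s36_co_bez N' q hq hqN)]
    have : 0 < q * q := Nat.mul_pos hq.pos hq.pos
    exact_mod_cast this⟩

theorem s36_kc_w_coe (N' q : ℕ) [NeZero q] (hq : q.Prime) (hqN : ¬ q ∣ N') :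
    ((s36_kc_w N' q hq hqN : GL(2, ℝ)⁺) : GL (Fin 2) ℝ) = s36_co_w N' q hq hqN := rfl

theorem s36_kc_bez' (N' q : ℕ) (hq : q.Prime) (hqN : ¬ q ∣ N') :
    ((q * q : ℕ) : ℤ) * s35_co_d N' (q * q) - (N' : ℤ) * s35_co_b N' (q * q) = 1 := by
  have h := s36_co_bez N' q hq hqN
  linarith

/-- the Möbius action of the Atkin–Lehner matrix is the Atkin–Lehner map of `S37/EsSwapAn`. -/
theorem s36_kc_w_smul (N' q : ℕ) [NeZero q] (hq : q.Prime) (hqN : ¬ q ∣ N') (τ : ℍ) :
    s36_kc_w N' q hq hqN • τ =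
      Fermat.Agent.S37.s37_es_w N' (q * q) (s35_co_b N' (q * q)) (s35_co_d N' (q * q))
        (s36_kc_bez' N' q hq hqN) τ := by
  apply UpperHalfPlane.ext
  have hdet : 0 < ((s36_kc_w N' q hq hqN : GL(2, ℝ)⁺) : GL (Fin 2) ℝ).det.val :=
    (s36_kc_w N' q hq hqN).2
  have h1 : (s36_kc_w N' q hq hqN • τ : ℍ) =
      ((s36_kc_w N' q hq hqN : GL(2, ℝ)⁺) : GL (Fin 2) ℝ) • τ := rfl
  rw [h1, UpperHalfPlane.coe_smul_of_det_pos hdet, UpperHalfPlane.num, UpperHalfPlane.denom,
    Fermat.Agent.S37.s37_es_coe_w]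
  have e : ∀ i j, ((s36_kc_w N' q hq hqN : GL(2, ℝ)⁺) : GL (Fin 2) ℝ) i j =
      ((s36_co_wZ N' q i j : ℤ) : ℝ) := fun i j => rfl
  rw [e, e, e, e]
  simp only [s36_co_wZ, s35_al_W]
  push_cast
  simp
  ring

/-- the analytic realisation of the generator `j(Q^e)`, `e ∣ M`. -/
theorem s36_kc_an_gen (M e : ℕ) [NeZero M] [NeZero e] (he : e ∣ M) :
    s29_an M ⟨coeffEmb Kbar (qExpand ℚ e jq), Fermat.Agent.S37.s37_ew_s_mem M e he⟩ =
      algebraMap s29_hol s29_Mer (s29_ofModRing M (Jelt M e he)) := by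
  rw [s29_an_apply]
  have h1 : embF M ⟨coeffEmb Kbar (qExpand ℚ e jq), Fermat.Agent.S37.s37_ew_s_mem M e he⟩ =
      algebraMap (modRing M) (ModL M) (Jelt M e he) := by
    rw [embF_eq_iff, expL_algebraMap, modfield_expHom_Jelt]
  rw [h1, s29_ofModL_algebraMap]

/-- the Atkin–Lehner swap on a generator, in the analytic realisation. -/
theorem s36_kc_an_W_gen (N' q : ℕ) [NeZero N'] [NeZero q] (hq : q.Prime) (hqN : ¬ q ∣ N')
    (W : modularFunctionFieldBar (N' * q * q) ≃ₐ[Qb] modularFunctionFieldBar (N' * q * q))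
    (hW : ∀ (d m : ℕ) (_ : d ∣ N') (_ : m ∣ q * q)
      (h1 : Fermat.Agent.S37.s37_ew_s (d * m) ∈ modularFunctionFieldBar (N' * q * q)),
      ((W ⟨Fermat.Agent.S37.s37_ew_s (d * m), h1⟩ : modularFunctionFieldBar (N' * q * q)) :
        LaurentSeries Qb) = Fermat.Agent.S37.s37_ew_s (d * (q * q / m)))
    (d n m m' : ℕ) [NeZero (d * m)] [NeZero (d * m')] (hdn : N' = d * n) (hmm : q * q = m * m')
    (hdiv : q * q / m = m') (he : d * m ∣ N' * q * q) (hdm' : d * m' ∣ N' * q * q) :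
    s29_an (N' * q * q) (W ⟨coeffEmb Kbar (qExpand ℚ (d * m) jq),
        Fermat.Agent.S37.s37_ew_s_mem (N' * q * q) (d * m) he⟩) =
      (s36_kc_w N' q hq hqN)⁻¹ • s29_an (N' * q * q) ⟨coeffEmb Kbar (qExpand ℚ (d * m) jq),
        Fermat.Agent.S37.s37_ew_s_mem (N' * q * q) (d * m) he⟩ := by
  have hmem : Fermat.Agent.S37.s37_ew_s (d * m) ∈ modularFunctionFieldBar (N' * q * q) := by
    rw [Fermat.Agent.S37.s37_ew_s_eq]
    exact Fermat.Agent.S37.s37_ew_s_mem (N' * q * q) (d * m) he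
  have hx : (⟨coeffEmb Kbar (qExpand ℚ (d * m) jq),
      Fermat.Agent.S37.s37_ew_s_mem (N' * q * q) (d * m) he⟩ :
      modularFunctionFieldBar (N' * q * q)) =
      ⟨Fermat.Agent.S37.s37_ew_s (d * m), hmem⟩ :=
    Subtype.ext (Fermat.Agent.S37.s37_ew_s_eq (d * m)).symm
  have hWx : W ⟨Fermat.Agent.S37.s37_ew_s (d * m), hmem⟩ =
      ⟨coeffEmb Kbar (qExpand ℚ (d * m') jq),
        Fermat.Agent.S37.s37_ew_s_mem (N' * q * q) (d * m') hdm'⟩ := by
    apply Subtype.ext
    rw [hW d m (Dvd.intro n hdn.symm) (Dvd.intro m' hmm.symm) hmem, hdiv,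
      Fermat.Agent.S37.s37_ew_s_eq]
  have e1 : s29_an (N' * q * q) (W ⟨coeffEmb Kbar (qExpand ℚ (d * m) jq),
      Fermat.Agent.S37.s37_ew_s_mem (N' * q * q) (d * m) he⟩) =
      algebraMap s29_hol s29_Mer (s29_ofModRing (N' * q * q) (Jelt (N' * q * q) (d * m') hdm')) := by
    rw [hx, hWx]
    exact s36_kc_an_gen (N' * q * q) (d * m') hdm'
  have e2 : s29_an (N' * q * q) ⟨coeffEmb Kbar (qExpand ℚ (d * m) jq),
      Fermat.Agent.S37.s37_ew_s_mem (N' * q * q) (d * m) he⟩ =
      algebraMap s29_hol s29_Mer (s29_ofModRing (N' * q * q) (Jelt (N' * q * q) (d * m) he)) :=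
    s36_kc_an_gen (N' * q * q) (d * m) he
  rw [e1, e2, s29_smul_algebraMap]
  refine congrArg (algebraMap s29_hol s29_Mer) ?_
  apply s29_hol_ext
  intro τ
  rw [s29_hol_smul_apply, inv_inv, s29_ofModRing_apply, s29_ofModRing_apply, s29_kh_Jelt_apply,
    s29_kh_Jelt_apply]
  have h3 := Fermat.Agent.S37.s37_ew_J_scale_w N' (q * q) (s35_co_b N' (q * q))
    (s35_co_d N' (q * q)) (s36_kc_bez' N' q hq hqN) d n m m' hdn hmm τ
  rw [s36_kc_w_smul N' q hq hqN τ]
  exact h3.symm

/-- **the Atkin–Lehner swap of `q²` in the analytic realisation**: a `ℚ̄`-automorphism `W` of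
`F̄(N' q q)` with `W j(Q^(d m)) = j(Q^(d q²/m))` (`d ∣ N'`, `m ∣ q²`) is `(W y)(τ) = y(w τ)`. -/
theorem s36_kc_an_W (N' q : ℕ) [NeZero N'] [NeZero q] (hq : q.Prime) (hqN : ¬ q ∣ N')
    (W : modularFunctionFieldBar (N' * q * q) ≃ₐ[Qb] modularFunctionFieldBar (N' * q * q))
    (hW : ∀ (d m : ℕ) (_ : d ∣ N') (_ : m ∣ q * q)
      (h1 : Fermat.Agent.S37.s37_ew_s (d * m) ∈ modularFunctionFieldBar (N' * q * q)),
      ((W ⟨Fermat.Agent.S37.s37_ew_s (d * m), h1⟩ : modularFunctionFieldBar (N' * q * q)) :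
        LaurentSeries Qb) = Fermat.Agent.S37.s37_ew_s (d * (q * q / m)))
    (y : modularFunctionFieldBar (N' * q * q)) :
    s29_an (N' * q * q) (W y) = (s36_kc_w N' q hq hqN)⁻¹ • s29_an (N' * q * q) y := by
  letI : Algebra Qb s29_Mer := ((algebraMap ℂ s29_Mer).comp iotaK).toAlgebra
  let φ₁ : modularFunctionFieldBar (N' * q * q) →ₐ[Qb] s29_Mer :=
    { toRingHom := (s29_an (N' * q * q)).comp
        (W : modularFunctionFieldBar (N' * q * q) →+* modularFunctionFieldBar (N' * q * q))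
      commutes' := fun c => by
        show s29_an (N' * q * q) (W (algebraMap Qb _ c)) = algebraMap ℂ s29_Mer (iotaK c)
        rw [AlgEquiv.commutes, s29_an_const] }
  let φ₂ : modularFunctionFieldBar (N' * q * q) →ₐ[Qb] s29_Mer :=
    { toRingHom := (MulSemiringAction.toRingHom GL(2, ℝ)⁺ s29_Mer (s36_kc_w N' q hq hqN)⁻¹).comp
        (s29_an (N' * q * q))
      commutes' := fun c => by
        show (s36_kc_w N' q hq hqN)⁻¹ • s29_an (N' * q * q) (algebraMap Qb _ c) =
          algebraMap ℂ s29_Mer (iotaK c)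
        rw [s29_an_const, s29_smul_const] }
  have key : φ₁ = φ₂ := by
    apply Fermat.Agent.S37.s37_ew_algHom_ext
    intro e _ he
    have he' : e ∣ N' * (q * q) := by rwa [← Nat.mul_assoc]
    obtain ⟨d, m, hd, hm, hdm⟩ := (Nat.dvd_mul).mp he'
    subst hdm
    obtain ⟨n, hdn⟩ := hd
    obtain ⟨m', hmm⟩ := hm
    have he0 : d * m ≠ 0 := NeZero.ne (d * m)
    have hd0 : d ≠ 0 := fun h => he0 (by rw [h, zero_mul])
    have hm0 : m ≠ 0 := fun h => he0 (by rw [h, mul_zero])
    have hm'0 : m' ≠ 0 := by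
      rintro rfl
      exact (Nat.mul_pos hq.pos hq.pos).ne' (by rw [hmm, mul_zero])
    have hdiv : q * q / m = m' := by
      rw [hmm]
      exact Nat.mul_div_cancel_left m' (Nat.pos_of_ne_zero hm0)
    haveI : NeZero (d * m') := ⟨Nat.mul_ne_zero hd0 hm'0⟩
    have hdm' : d * m' ∣ N' * q * q := by
      rw [Nat.mul_assoc, hdn, hmm]
      exact Nat.mul_dvd_mul (Dvd.intro n rfl) (Dvd.intro_left m rfl)
    exact s36_kc_an_W_gen N' q hq hqN W hW d n m m' hdn hmm hdiv he hdm'
  exact DFunLike.congr_fun key y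

/-! ### (KC) for `α ∘ W` -/

/-- the character of `∏_i G ∘ (w γ_i)` is the `w`-twisted transfer of the character of `G`. -/
theorem s36_kc_char2 (N' q : ℕ) [NeZero N'] [NeZero q] (hq : q.Prime) (hqN : ¬ q ∣ N') (m : ℕ)
    [NeZero m] (G : s29_Mer)
    (χ : Additive (Gamma0 (N' * q * q)) →+ ZMod m) (h : s29_ka_IsChar (N' * q * q) m G χ) :
    s29_ka_IsChar (N' * q) m (s36_kc_prod (N' * q) q ((s36_kc_w N' q hq hqN)⁻¹ • G))
      ((s36_co_data2 N' q hq hqN).T (ZMod m) χ) := by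
  have h1 := s35_kc_char_gen (s36_co_data2 N' q hq hqN) rfl rfl
    (fun i => s36_kc_w N' q hq hqN *
      s29_sl ((s36_co_rep (N' * q) q i : Gamma0 (N' * q)) : SL(2, ℤ)))
    (fun _ => rfl) m G χ h
  have h2 : s36_kc_prod (N' * q) q ((s36_kc_w N' q hq hqN)⁻¹ • G) =
      ∏ i : Fin q, (s36_kc_w N' q hq hqN *
        s29_sl ((s36_co_rep (N' * q) q i : Gamma0 (N' * q)) : SL(2, ℤ)))⁻¹ • G := by
    rw [s36_kc_prod]
    refine Finset.prod_congr rfl (fun i _ => ?_)
    rw [smul_smul, ← mul_inv_rev]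
  rw [h2]
  exact h1

/-- **(KC) for `α ∘ W`**: if the `w`-twisted transfer of `κ x` vanishes then `α_* (W^* x) = 0`
and the norm along `α` of `W g`, for every Kummer function `g` of `x`, is a constant times an
`m`-th power. -/
theorem s36_kc_alphaW (N' q : ℕ) [NeZero N'] [NeZero q] (hq : q.Prime) (hqN : ¬ q ∣ N') (m : ℕ)
    [NeZero m] (x : Pic0.torsion Qb (modularFunctionFieldBar (N' * q * q)) m)
    (hκ : (s36_co_data2 N' q hq hqN).T (ZMod m) (s29_kappa (N' * q * q) m x) = 0)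
    (W : modularFunctionFieldBar (N' * q * q) ≃ₐ[Qb] modularFunctionFieldBar (N' * q * q))
    (hW : ∀ (d m : ℕ) (_ : d ∣ N') (_ : m ∣ q * q)
      (h1 : Fermat.Agent.S37.s37_ew_s (d * m) ∈ modularFunctionFieldBar (N' * q * q)),
      ((W ⟨Fermat.Agent.S37.s37_ew_s (d * m), h1⟩ : modularFunctionFieldBar (N' * q * q)) :
        LaurentSeries Qb) = Fermat.Agent.S37.s37_ew_s (d * (q * q / m)))
    (D : Divisor.degZero (K := Qb) (F := modularFunctionFieldBar (N' * q * q)))
    (g : modularFunctionFieldBar (N' * q * q)) (hx : Pic0.mk D = (x : JZero (N' * q * q)))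
    (hg : g ≠ 0)
    (hdiv : ∀ P : Place Qb (modularFunctionFieldBar (N' * q * q)),
      P.ord g = (m : ℤ) * (D : Divisor Qb (modularFunctionFieldBar (N' * q * q))) P)
    (hα : (heckeAlphaBar Qb (N' * q) q).toRingHom.IsIntegral)
    (hWint : (W : modularFunctionFieldBar (N' * q * q) →ₐ[Qb]
      modularFunctionFieldBar (N' * q * q)).toRingHom.IsIntegral) :
    haveI := Fermat.Agent.S37.s37_h_hasPrincipalDivisors_bar (N' * q * q)
    (∀ hD₂ : Divisor.pullbackAlong (W : modularFunctionFieldBar (N' * q * q) →ₐ[Qb]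
          modularFunctionFieldBar (N' * q * q)) hWint
          (D : Divisor Qb (modularFunctionFieldBar (N' * q * q))) ∈
          Divisor.degZero (K := Qb) (F := modularFunctionFieldBar (N' * q * q)),
      Pic0.mk (⟨Divisor.pushforwardAlong (heckeAlphaBar Qb (N' * q) q) hα
          (Divisor.pullbackAlong (W : modularFunctionFieldBar (N' * q * q) →ₐ[Qb]
            modularFunctionFieldBar (N' * q * q)) hWint
            (D : Divisor Qb (modularFunctionFieldBar (N' * q * q)))),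
        Divisor.pushforwardAlong_mem_degZero _ hα hD₂⟩ :
        Divisor.degZero (K := Qb) (F := modularFunctionFieldBar (N' * q))) =
          (0 : JZero (N' * q))) ∧
      ∃ (c : Qb) (f : modularFunctionFieldBar (N' * q)),
        s29_kh_normAlong (heckeAlphaBar Qb (N' * q) q) (W g) =
          algebraMap Qb (modularFunctionFieldBar (N' * q)) c * f ^ m := by
  -- a root of `g` on the upper half plane
  have hord : ∀ τ : ℍ, (m : ℤ) ∣ s29_ord τ (s29_an (N' * q * q) g) :=
    s29_ord_an_dvd (N' * q * q) (m : ℤ) g hg (fun P => ⟨_, hdiv P⟩)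
  obtain ⟨G, hG⟩ := s29_mer_root m (Nat.pos_of_ne_zero (NeZero.ne m)) (s29_an (N' * q * q) g)
    (s29_an_ne_zero (N' * q * q) hg) hord
  have hw : s29_ka_IsWitness (N' * q * q) m (x : JZero (N' * q * q)) D g G :=
    ⟨hx, hg, hdiv, hG⟩
  have hχ := s29_kappaFun_spec x hw
  have hWg : W g ≠ 0 := fun h => hg (W.injective (h.trans (map_zero W).symm))
  -- the divisor of `W g`
  haveI hfdNl := (Fermat.Agent.S24.asm_generic (N' * q * q)).1
  have hxNl := Fermat.Agent.S24.transcendental_jF (N' * q * q)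
  haveI hP := Fermat.Agent.S37.s37_h_hasPrincipalDivisors_bar (N' * q * q)
  set Wh : modularFunctionFieldBar (N' * q * q) →ₐ[Qb] modularFunctionFieldBar (N' * q * q) :=
    (W : modularFunctionFieldBar (N' * q * q) →ₐ[Qb] modularFunctionFieldBar (N' * q * q))
    with hWh
  have hFI := Fermat.Agent.S37.s37_h_fundamentalIdentityAlong Wh hWint
    (Fermat.Agent.S24.jF (N' * q * q)) hxNl (Fermat.Agent.S24.jF (N' * q * q)) hxNl
  have hD₂ : Divisor.pullbackAlong Wh hWint
      (D : Divisor Qb (modularFunctionFieldBar (N' * q * q))) ∈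
      Divisor.degZero (K := Qb) (F := modularFunctionFieldBar (N' * q * q)) :=
    Divisor.pullbackAlong_mem_degZero Wh hWint hFI D.2
  have hdiv₂ : ∀ P : Place Qb (modularFunctionFieldBar (N' * q * q)), P.ord (W g) =
      (m : ℤ) * Divisor.pullbackAlong Wh hWint
        (D : Divisor Qb (modularFunctionFieldBar (N' * q * q))) P := by
    intro P
    rw [Divisor.pullbackAlong_apply, mul_left_comm, ← hdiv, ← Place.ord_restrictAlong]
    rfl
  -- the witness at level `N' q`
  have hG₂ : ((s36_kc_w N' q hq hqN)⁻¹ • G) ^ m = s29_an (N' * q * q) (W g) := by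
    rw [← smul_pow', hG, s36_kc_an_W N' q hq hqN W hW]
  have hG' : s36_kc_prod (N' * q) q ((s36_kc_w N' q hq hqN)⁻¹ • G) ^ m =
      s29_an (N' * q) (s29_kh_normAlong (heckeAlphaBar Qb (N' * q) q) (W g)) := by
    rw [← s36_kc_prod_pow, hG₂, s36_kc_an_norm (N' * q) q hq (dvd_mul_left q N')]
  have hchar : s29_ka_IsChar (N' * q) m
      (s36_kc_prod (N' * q) q ((s36_kc_w N' q hq hqN)⁻¹ • G))
      ((s36_co_data2 N' q hq hqN).T (ZMod m) (s29_kappa (N' * q * q) m x)) :=
    s36_kc_char2 N' q hq hqN m G _ hχ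
  rw [hκ] at hchar
  have hcore := s36_kc_core (N' * q) q m _ hD₂ (W g) hWg hdiv₂ _ hG' hchar hα
  exact ⟨fun _ => hcore.1, hcore.2⟩

end Fermat.Agent.S36
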