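import Mathlib
import Fermat.Agent.S35.NormRes

/-!
# S36 (NODE-3), leaf (KR): the Kronecker congruence in general-coordinate form

Abstract setting of `s35_norm_res`: `F / F'` finite separable of degree `q + 1`, `V'` a DVR of `F'`
with uniformizer `ϖ` and residue characteristic `q`, `V∞`, `V0` two DVRs of `F` with the same
uniformizer, `V∞ ∩ V0` integral over `V'`, `V∞` with the same residue field as `V'`.

If `y ∈ V∞ ∩ V0` satisfies `y ≡ a` mod `ϖ V∞` and `y ^ q ≡ b` mod `ϖ V0` (`a b ∈ V'`), then the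
characteristic polynomial `Φ` of `y` over `F'` satisfies

  `Φ = (X - a) * (X ^ q - b) + ϖ * Γ`,  `Γ ∈ V'[X]`, `deg Γ ≤ q`,

and `Γ` has its coefficients in any subring `B₁ ≤ V'` which is integrally closed in `F'`, contains
`a`, `b`, satisfies the Gauss property `B₁ ∩ ϖ V' = ϖ B₁`, and over which `y` is integral.

* `s36_kr_eval` : `Φ(c) = Nm (c - y)`.
* `s36_kr_aeval` : `Φ(y) = 0` (Cayley–Hamilton).
* `s36_kr_coeff_integral` : the coefficients of `Φ` are integral over `B₁` if `y` is.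
* `s36_kr_interp` : a polynomial of degree `< n` taking values in `ϖ V'` at `n` points of `V'`
  with pairwise unit differences has all its coefficients in `ϖ V'`.
* `s36_kr_norm_cong` : `Nm (c - y) ≡ (c - a) * (c ^ q - b)` mod `ϖ V'` for `c ∈ V'`.
* `s36_kr_main` : the Kronecker relation with coefficients in `V'`.
* `s36_kr_main_chart` : the Kronecker relation with coefficients in the chart `B₁`.
* `s36_kr_two` : the same for a field embedding `ι : F'' →+* F` (vocabulary of `s35_nr_two`).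
-/

set_option autoImplicit false

open Polynomial

namespace Fermat.Agent.S36

open Fermat.Agent.S35

section Charpoly

variable {F' F : Type*} [Field F'] [Field F] [Algebra F' F]

/-- The characteristic polynomial of (multiplication by) `y` on `F` over `F'`. -/
noncomputable def s36_kr_Phi [FiniteDimensional F' F] (y : F) : F'[X] :=
  (Algebra.leftMulMatrix (Module.finBasis F' F) y).charpoly

theorem s36_kr_Phi_monic [FiniteDimensional F' F] (y : F) : (s36_kr_Phi (F' := F') y).Monic :=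
  Matrix.charpoly_monic _

theorem s36_kr_Phi_natDegree [FiniteDimensional F' F] (y : F) :
    (s36_kr_Phi (F' := F') y).natDegree = Module.finrank F' F := by
  rw [s36_kr_Phi, Matrix.charpoly_natDegree_eq_dim, Fintype.card_fin]

theorem s36_kr_eval [FiniteDimensional F' F] (y : F) (c : F') :
    (s36_kr_Phi (F' := F') y).eval c = Algebra.norm F' (algebraMap F' F c - y) := by
  rw [s36_kr_Phi, Matrix.eval_charpoly, Algebra.norm_eq_matrix_det (Module.finBasis F' F),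
    map_sub, AlgHom.commutes]
  rfl

theorem s36_kr_aeval [FiniteDimensional F' F] (y : F) :
    aeval y (s36_kr_Phi (F' := F') y) = 0 := by
  have h := Matrix.aeval_self_charpoly (Algebra.leftMulMatrix (Module.finBasis F' F) y)
  rw [Polynomial.aeval_algHom_apply] at h
  exact Algebra.leftMulMatrix_injective (Module.finBasis F' F)
    (h.trans (map_zero _).symm)

end Charpoly

section Integral

variable {F' F : Type*} [Field F'] [Field F] [Algebra F' F]

/-- The coefficients of the characteristic polynomial of an element integral over a subring `B`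
of the base field are integral over `B`. -/
theorem s36_kr_coeff_integral [FiniteDimensional F' F] [Algebra.IsSeparable F' F] [Infinite F']
    (B : Subring F') (y : F)
    (hy : ((algebraMap F' F).comp B.subtype).IsIntegralElem y) (n : ℕ) :
    B.subtype.IsIntegralElem ((s36_kr_Phi (F' := F') y).coeff n) := by
  classical
  let E := AlgebraicClosure F
  let g : F' →+* E := algebraMap F' E
  let fE : ↥B →+* E := g.comp B.subtype
  -- the subring of elements of `E` integral over `B`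
  let S : Subring E :=
    { carrier := {x | fE.IsIntegralElem x}
      mul_mem' := fun hx hy => RingHom.IsIntegralElem.mul fE hx hy
      one_mem' := fE.isIntegralElem_one
      add_mem' := fun hx hy => RingHom.IsIntegralElem.add fE hx hy
      zero_mem' := fE.isIntegralElem_zero
      neg_mem' := fun hx => RingHom.IsIntegralElem.neg fE hx }
  have hσ : ∀ σ : F →ₐ[F'] E, σ y ∈ S := by
    intro σ
    obtain ⟨P, hP, hP0⟩ := hy
    refine ⟨P, hP, ?_⟩
    have h1 := Polynomial.hom_eval₂ P ((algebraMap F' F).comp B.subtype) (σ : F →+* E) y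
    rw [hP0, map_zero] at h1
    have h2 : (σ : F →+* E).comp ((algebraMap F' F).comp B.subtype) = fE := by
      ext x
      simp [fE, g]
    rw [h2] at h1
    exact h1.symm
  -- the product over the embeddings
  let ΦE : E[X] := ∏ σ : F →ₐ[F'] E, (X - C (σ y))
  have hΦE : ∀ k, ΦE.coeff k ∈ S := by
    intro k
    let Ψ : (↥S)[X] := ∏ σ : F →ₐ[F'] E, (X - C (⟨σ y, hσ σ⟩ : ↥S))
    have : Ψ.map S.subtype = ΦE := by
      simp [Ψ, ΦE, Polynomial.map_prod]
    rw [← this, Polynomial.coeff_map]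
    exact (Ψ.coeff k).2
  have hmap : (s36_kr_Phi (F' := F') y).map g = ΦE := by
    apply Polynomial.eq_of_infinite_eval_eq
    apply Set.Infinite.mono (s := Set.range g)
    · rintro _ ⟨c, rfl⟩
      show eval (g c) _ = eval (g c) _
      rw [Polynomial.eval_map, Polynomial.eval₂_at_apply, s36_kr_eval,
        Algebra.norm_eq_prod_embeddings F' E, Polynomial.eval_prod]
      refine Finset.prod_congr rfl fun σ _ => ?_
      simp [g]
    · exact Set.infinite_range_of_injective g.injective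
  have h3 : g ((s36_kr_Phi (F' := F') y).coeff n) ∈ S := by
    rw [← Polynomial.coeff_map, hmap]; exact hΦE n
  obtain ⟨P, hP, hP0⟩ := h3
  refine ⟨P, hP, ?_⟩
  have h4 := Polynomial.hom_eval₂ P B.subtype g ((s36_kr_Phi (F' := F') y).coeff n)
  rw [show g.comp B.subtype = fE from rfl, hP0] at h4
  exact g.injective (h4.trans (map_zero g).symm)

end Integral

section Interp

variable {F' : Type*} [Field F']

/-- Lagrange interpolation over a subring: a polynomial of degree `< n` whose values at `n` points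
of `V'` with pairwise unit differences lie in `ϖ V'` has all its coefficients in `ϖ V'`. -/
theorem s36_kr_interp (V' : Subring F') (ϖ : F') (n : ℕ) (c : ℕ → F')
    (hc : ∀ i, c i ∈ V') (hinj : Function.Injective c)
    (hcu : ∀ i j, i ≠ j → (c i - c j)⁻¹ ∈ V')
    (P : F'[X]) (hdeg : P.degree < n) (hP : ∀ i < n, ϖ⁻¹ * P.eval (c i) ∈ V') (k : ℕ) :
    ϖ⁻¹ * P.coeff k ∈ V' := by
  classical
  have hs : Set.InjOn c (Finset.range n : Set ℕ) := hinj.injOn
  have h1 := Lagrange.eq_interpolate (s := Finset.range n) (v := c) (f := P) hs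
    (by rwa [Finset.card_range])
  have hbasis : ∀ i, ∀ m, (Lagrange.basis (Finset.range n) c i).coeff m ∈ V' := by
    intro i m
    have hmem : Lagrange.basis (Finset.range n) c i ∈ Polynomial.liftsRing V'.subtype := by
      unfold Lagrange.basis
      refine Subring.prod_mem _ fun j hj => ?_
      have hji : i ≠ j := (Finset.ne_of_mem_erase hj).symm
      unfold Lagrange.basisDivisor
      refine Subring.mul_mem _ ⟨C ⟨_, hcu i j hji⟩, by simp⟩ ?_
      exact Subring.sub_mem _ ⟨X, by simp⟩ ⟨C ⟨_, hc j⟩, by simp⟩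
    obtain ⟨Q, hQ⟩ := hmem
    rw [← hQ]
    simp only [Polynomial.coe_mapRingHom, Polynomial.coeff_map]
    exact (Q.coeff m).2
  have h2 : P.coeff k =
      ∑ i ∈ Finset.range n, P.eval (c i) * (Lagrange.basis (Finset.range n) c i).coeff k := by
    conv_lhs => rw [h1]
    rw [Lagrange.interpolate_apply, Polynomial.finsetSum_coeff]
    refine Finset.sum_congr rfl fun i _ => ?_
    rw [Polynomial.coeff_C_mul]
  rw [h2, Finset.mul_sum]
  refine Subring.sum_mem _ fun i hi => ?_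
  rw [← mul_assoc]
  exact V'.mul_mem (hP i (Finset.mem_range.mp hi)) (hbasis i k)

end Interp

section Main

variable {F' F : Type*} [Field F'] [Field F] [Algebra F' F]

/-- `(c - y) ^ q ≡ c ^ q - y ^ q` mod `q`, in any commutative ring (`q = 2` included). -/
theorem s36_kr_sub_pow {R : Type*} [CommRing R] (q : ℕ) (hq : q.Prime) (c y : R) :
    ∃ r : R, (c - y) ^ q = c ^ q - y ^ q + (q : R) * r := by
  obtain ⟨r, hr⟩ := exists_add_pow_prime_eq hq c (-y)
  rcases hq.eq_two_or_odd' with h2 | hodd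
  · subst h2
    exact ⟨-(c * y * r) + y ^ 2, by rw [sub_eq_add_neg, hr]; push_cast; ring⟩
  · exact ⟨-(c * y * r), by rw [sub_eq_add_neg, hr, hodd.neg_pow]; ring⟩

/-- The norm–residue congruence for `c - y`, `c` a constant of `V'`. -/
theorem s36_kr_norm_cong [FiniteDimensional F' F] [Algebra.IsSeparable F' F]
    (q : ℕ) (hq : q.Prime) (hdeg : Module.finrank F' F = q + 1)
    (ϖ : F') (V' : Subring F') (Vinf V0 : Subring F)
    (hV' : s35_Unif ϖ V')
    (hVinf : s35_Unif (algebraMap F' F ϖ) Vinf) (hV0 : s35_Unif (algebraMap F' F ϖ) V0)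
    (hqϖ : ϖ⁻¹ * (q : F') ∈ V')
    (hle_inf : ∀ x ∈ V', algebraMap F' F x ∈ Vinf)
    (hle_0 : ∀ x ∈ V', algebraMap F' F x ∈ V0)
    (hint : ∀ x : F, x ∈ Vinf → x ∈ V0 →
      ((algebraMap F' F).comp V'.subtype).IsIntegralElem x)
    (hres : ∀ y ∈ Vinf, ∃ y' ∈ V', (algebraMap F' F ϖ)⁻¹ * (y - algebraMap F' F y') ∈ Vinf)
    {y : F} (hyinf : y ∈ Vinf) (hy0 : y ∈ V0) {a b : F'} (ha : a ∈ V') (hb : b ∈ V')
    (hainf : (algebraMap F' F ϖ)⁻¹ * (y - algebraMap F' F a) ∈ Vinf)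
    (hb0 : (algebraMap F' F ϖ)⁻¹ * (y ^ q - algebraMap F' F b) ∈ V0)
    {c : F'} (hc : c ∈ V') :
    ϖ⁻¹ * (Algebra.norm F' (algebraMap F' F c - y) - (c - a) * (c ^ q - b)) ∈ V' := by
  refine s35_norm_res q hq hdeg ϖ V' Vinf V0 hV' hVinf hV0 hqϖ hle_inf hle_0 hint hres
    (h := algebraMap F' F c - y) (Vinf.sub_mem (hle_inf c hc) hyinf)
    (V0.sub_mem (hle_0 c hc) hy0)
    (a := c - a) (b := c ^ q - b) (V'.sub_mem hc ha) (V'.sub_mem (V'.pow_mem hc q) hb) ?_ ?_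
  · have : algebraMap F' F c - y - algebraMap F' F (c - a) = -(y - algebraMap F' F a) := by
      rw [map_sub]; ring
    rw [this, mul_neg]
    exact Vinf.neg_mem hainf
  · obtain ⟨r, hr⟩ := s36_kr_sub_pow q hq (⟨algebraMap F' F c, hle_0 c hc⟩ : ↥V0) ⟨y, hy0⟩
    have hr' : (algebraMap F' F c - y) ^ q
        = (algebraMap F' F c) ^ q - y ^ q + (q : F) * (r : F) := by
      have := congrArg (Subtype.val) hr
      simpa using this
    have : (algebraMap F' F c - y) ^ q - algebraMap F' F (c ^ q - b)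
        = -(y ^ q - algebraMap F' F b) + (q : F) * (r : F) := by
      rw [hr', map_sub, map_pow]; ring
    rw [this, mul_add, mul_neg]
    refine V0.add_mem (V0.neg_mem hb0) ?_
    have hq0 : (algebraMap F' F ϖ)⁻¹ * (q : F) ∈ V0 := by
      have := hle_0 _ hqϖ
      simpa [map_mul, map_inv₀] using this
    rw [← mul_assoc]
    exact V0.mul_mem hq0 r.2

/-- **Kronecker congruence** (coefficients in `V'`): the characteristic polynomial of `y` is
`(X - a) (X ^ q - b) + ϖ Γ` with `Γ ∈ V'[X]` of degree `≤ q`. -/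
theorem s36_kr_main [FiniteDimensional F' F] [Algebra.IsSeparable F' F]
    (q : ℕ) (hq : q.Prime) (hdeg : Module.finrank F' F = q + 1)
    (ϖ : F') (V' : Subring F') (Vinf V0 : Subring F)
    (hV' : s35_Unif ϖ V')
    (hVinf : s35_Unif (algebraMap F' F ϖ) Vinf) (hV0 : s35_Unif (algebraMap F' F ϖ) V0)
    (hqϖ : ϖ⁻¹ * (q : F') ∈ V')
    (hle_inf : ∀ x ∈ V', algebraMap F' F x ∈ Vinf)
    (hle_0 : ∀ x ∈ V', algebraMap F' F x ∈ V0)
    (hint : ∀ x : F, x ∈ Vinf → x ∈ V0 →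
      ((algebraMap F' F).comp V'.subtype).IsIntegralElem x)
    (hres : ∀ y ∈ Vinf, ∃ y' ∈ V', (algebraMap F' F ϖ)⁻¹ * (y - algebraMap F' F y') ∈ Vinf)
    (cc : ℕ → F') (hcc : ∀ i, cc i ∈ V') (hinj : Function.Injective cc)
    (hccu : ∀ i j, i ≠ j → (cc i - cc j)⁻¹ ∈ V')
    {y : F} (hyinf : y ∈ Vinf) (hy0 : y ∈ V0) {a b : F'} (ha : a ∈ V') (hb : b ∈ V')
    (hainf : (algebraMap F' F ϖ)⁻¹ * (y - algebraMap F' F a) ∈ Vinf)
    (hb0 : (algebraMap F' F ϖ)⁻¹ * (y ^ q - algebraMap F' F b) ∈ V0) :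
    ∃ Γ : F'[X], (∀ n, Γ.coeff n ∈ V') ∧ Γ.natDegree ≤ q ∧
      s36_kr_Phi (F' := F') y = (X - C a) * (X ^ q - C b) + C ϖ * Γ := by
  have hϖ0 : ϖ ≠ 0 := hV'.ne_zero
  set Φ := s36_kr_Phi (F' := F') y with hΦ
  set Ψ : F'[X] := (X - C a) * (X ^ q - C b) with hΨ
  have hΦm : Φ.Monic := s36_kr_Phi_monic y
  have hΨm : Ψ.Monic := (monic_X_sub_C a).mul (monic_X_pow_sub_C b hq.ne_zero)
  have hΦd : Φ.natDegree = q + 1 := by rw [hΦ, s36_kr_Phi_natDegree, hdeg]
  have hΨd : Ψ.natDegree = q + 1 := by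
    rw [hΨ, (monic_X_sub_C a).natDegree_mul (monic_X_pow_sub_C b hq.ne_zero),
      natDegree_X_sub_C, natDegree_X_pow_sub_C, add_comm]
  have hdeg' : (Φ - Ψ).degree < ((q + 1 : ℕ) : WithBot ℕ) := by
    have h1 : Φ.degree = Ψ.degree := by
      rw [Polynomial.degree_eq_natDegree hΦm.ne_zero, Polynomial.degree_eq_natDegree hΨm.ne_zero,
        hΦd, hΨd]
    have h2 := Polynomial.degree_sub_lt_left h1 hΦm.ne_zero
      (by rw [hΦm.leadingCoeff, hΨm.leadingCoeff])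
    rwa [Polynomial.degree_eq_natDegree hΦm.ne_zero, hΦd] at h2
  have hev : ∀ i < q + 1, ϖ⁻¹ * (Φ - Ψ).eval (cc i) ∈ V' := by
    intro i _
    have h3 : (Φ - Ψ).eval (cc i) =
        Algebra.norm F' (algebraMap F' F (cc i) - y) - (cc i - a) * (cc i ^ q - b) := by
      rw [Polynomial.eval_sub, hΦ, s36_kr_eval, hΨ]
      simp
    rw [h3]
    exact s36_kr_norm_cong q hq hdeg ϖ V' Vinf V0 hV' hVinf hV0 hqϖ hle_inf hle_0 hint hres
      hyinf hy0 ha hb hainf hb0 (hcc i)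
  have hco := s36_kr_interp V' ϖ (q + 1) cc hcc hinj hccu (Φ - Ψ) hdeg' hev
  refine ⟨C ϖ⁻¹ * (Φ - Ψ), fun n => ?_, ?_, ?_⟩
  · rw [Polynomial.coeff_C_mul]; exact hco n
  · refine (Polynomial.natDegree_C_mul_le _ _).trans ?_
    by_cases h0 : Φ - Ψ = 0
    · rw [h0]; simp
    · exact Nat.lt_succ_iff.mp ((Polynomial.natDegree_lt_iff_degree_lt h0).mpr hdeg')
  · rw [← mul_assoc, ← C_mul, mul_inv_cancel₀ hϖ0, C_1, one_mul]; ring

/-- **Kronecker congruence, chart form**: if moreover `y` is integral over a subring `B₁ ≤ V'`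
integrally closed in `F'`, with the Gauss property `B₁ ∩ ϖ V' = ϖ B₁`, and `a b ∈ B₁`, then
`Γ ∈ B₁[X]`; in particular `(y - a) (y ^ q - b) + ϖ Γ(y) = 0`. -/
theorem s36_kr_main_chart [FiniteDimensional F' F] [Algebra.IsSeparable F' F]
    (q : ℕ) (hq : q.Prime) (hdeg : Module.finrank F' F = q + 1)
    (ϖ : F') (V' : Subring F') (Vinf V0 : Subring F)
    (hV' : s35_Unif ϖ V')
    (hVinf : s35_Unif (algebraMap F' F ϖ) Vinf) (hV0 : s35_Unif (algebraMap F' F ϖ) V0)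
    (hqϖ : ϖ⁻¹ * (q : F') ∈ V')
    (hle_inf : ∀ x ∈ V', algebraMap F' F x ∈ Vinf)
    (hle_0 : ∀ x ∈ V', algebraMap F' F x ∈ V0)
    (hint : ∀ x : F, x ∈ Vinf → x ∈ V0 →
      ((algebraMap F' F).comp V'.subtype).IsIntegralElem x)
    (hres : ∀ y ∈ Vinf, ∃ y' ∈ V', (algebraMap F' F ϖ)⁻¹ * (y - algebraMap F' F y') ∈ Vinf)
    (cc : ℕ → F') (hcc : ∀ i, cc i ∈ V') (hinj : Function.Injective cc)
    (hccu : ∀ i j, i ≠ j → (cc i - cc j)⁻¹ ∈ V')
    (B₁ : Subring F') (hB₁V : ∀ x ∈ B₁, x ∈ V')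
    (hnormal : ∀ x : F', B₁.subtype.IsIntegralElem x → x ∈ B₁)
    (hgauss : ∀ x ∈ B₁, ϖ⁻¹ * x ∈ V' → ϖ⁻¹ * x ∈ B₁)
    {y : F} (hy : ((algebraMap F' F).comp B₁.subtype).IsIntegralElem y)
    (hyinf : y ∈ Vinf) (hy0 : y ∈ V0) {a b : F'} (ha : a ∈ B₁) (hb : b ∈ B₁)
    (hainf : (algebraMap F' F ϖ)⁻¹ * (y - algebraMap F' F a) ∈ Vinf)
    (hb0 : (algebraMap F' F ϖ)⁻¹ * (y ^ q - algebraMap F' F b) ∈ V0) :
    ∃ Γ : F'[X], (∀ n, Γ.coeff n ∈ B₁) ∧ Γ.natDegree ≤ q ∧
      s36_kr_Phi (F' := F') y = (X - C a) * (X ^ q - C b) + C ϖ * Γ ∧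
      aeval y ((X - C a) * (X ^ q - C b) + C ϖ * Γ) = 0 := by
  have hϖ0 : ϖ ≠ 0 := hV'.ne_zero
  have hinf : Infinite F' := Infinite.of_injective cc hinj
  obtain ⟨Γ, hΓV, hΓd, hΓ⟩ := s36_kr_main q hq hdeg ϖ V' Vinf V0 hV' hVinf hV0 hqϖ hle_inf
    hle_0 hint hres cc hcc hinj hccu hyinf hy0 (hB₁V a ha) (hB₁V b hb) hainf hb0
  refine ⟨Γ, fun n => ?_, hΓd, hΓ, ?_⟩
  · have hΦn : (s36_kr_Phi (F' := F') y).coeff n ∈ B₁ :=
      hnormal _ (s36_kr_coeff_integral B₁ y hy n)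
    have hΨn : ((X - C a) * (X ^ q - C b) : F'[X]).coeff n ∈ B₁ := by
      have : ((X - C a) * (X ^ q - C b) : F'[X]) =
          ((X - C (⟨a, ha⟩ : ↥B₁)) * (X ^ q - C (⟨b, hb⟩ : ↥B₁))).map B₁.subtype := by
        simp
      rw [this, Polynomial.coeff_map]
      exact Subtype.property _
    have h1 : ϖ * Γ.coeff n ∈ B₁ := by
      have : ϖ * Γ.coeff n = (s36_kr_Phi (F' := F') y).coeff n -
          ((X - C a) * (X ^ q - C b) : F'[X]).coeff n := by
        rw [hΓ, Polynomial.coeff_add, Polynomial.coeff_C_mul]; ring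
      rw [this]
      exact B₁.sub_mem hΦn hΨn
    have h2 := hgauss _ h1 (by rw [← mul_assoc, inv_mul_cancel₀ hϖ0, one_mul]; exact hΓV n)
    rwa [← mul_assoc, inv_mul_cancel₀ hϖ0, one_mul] at h2
  · rw [← hΓ]; exact s36_kr_aeval y

end Main

section Two

variable {F'' F : Type*} [Field F''] [Field F]

/-- **Kronecker congruence, two-field form** (for a field embedding `ι : F'' →+* F`, in the
vocabulary of `s35_nr_two`): `(y - ι a) (y ^ q - ι b) + ι ϖ · Γ(y) = 0` with `Γ ∈ B₁[X]`,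
`deg Γ ≤ q`. -/
theorem s36_kr_two [CharZero F''] (ι : F'' →+* F) (q : ℕ) (hq : q.Prime)
    (hfin : letI := ι.toAlgebra; Module.Finite F'' F ∧ Module.finrank F'' F = q + 1)
    {ϖ'' : F''} {V' : Subring F''} (hV' : s35_Unif ϖ'' V')
    {V₁ V₂ : Subring F} (hV₁ : s35_Unif (ι ϖ'') V₁) (hV₂ : s35_Unif (ι ϖ'') V₂)
    (hqϖ : ϖ''⁻¹ * (q : F'') ∈ V')
    (hι₁ : ∀ x ∈ V', ι x ∈ V₁) (hι₂ : ∀ x ∈ V', ι x ∈ V₂)
    (hint : ∀ y ∈ V₁, y ∈ V₂ →
      ∃ P : Polynomial V', P.Monic ∧ P.eval₂ (ι.comp V'.subtype) y = 0)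
    (hres : ∀ y ∈ V₁, ∃ y' ∈ V', (ι ϖ'')⁻¹ * (y - ι y') ∈ V₁)
    (cc : ℕ → F'') (hcc : ∀ i, cc i ∈ V') (hinj : Function.Injective cc)
    (hccu : ∀ i j, i ≠ j → (cc i - cc j)⁻¹ ∈ V')
    (B₁ : Subring F'') (hB₁V : ∀ x ∈ B₁, x ∈ V')
    (hnormal : ∀ x : F'', (∃ P : Polynomial B₁, P.Monic ∧ P.eval₂ B₁.subtype x = 0) → x ∈ B₁)
    (hgauss : ∀ x ∈ B₁, ϖ''⁻¹ * x ∈ V' → ϖ''⁻¹ * x ∈ B₁)
    {y : F} (hy : ∃ P : Polynomial B₁, P.Monic ∧ P.eval₂ (ι.comp B₁.subtype) y = 0)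
    (hy₁ : y ∈ V₁) (hy₂ : y ∈ V₂) {a b : F''} (ha : a ∈ B₁) (hb : b ∈ B₁)
    (ha₁ : (ι ϖ'')⁻¹ * (y - ι a) ∈ V₁)
    (hb₂ : (ι ϖ'')⁻¹ * (y ^ q - ι b) ∈ V₂) :
    ∃ Γ : Polynomial F'', (∀ n, Γ.coeff n ∈ B₁) ∧ Γ.natDegree ≤ q ∧
      (y - ι a) * (y ^ q - ι b) + ι ϖ'' * Γ.eval₂ ι y = 0 := by
  let _ : Algebra F'' F := ι.toAlgebra
  obtain ⟨hfd, hdeg⟩ := hfin
  have : FiniteDimensional F'' F := hfd
  obtain ⟨Γ, hΓ, hΓd, -, hΓ0⟩ := s36_kr_main_chart (F' := F'') (F := F) q hq hdeg ϖ'' V' V₁ V₂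
    hV' hV₁ hV₂ hqϖ hι₁ hι₂ (fun y h1 h2 => hint y h1 h2) hres cc hcc hinj hccu B₁ hB₁V
    (fun x hx => hnormal x hx) hgauss (y := y) hy hy₁ hy₂ ha hb ha₁ hb₂
  refine ⟨Γ, hΓ, hΓd, ?_⟩
  have h1 : aeval y ((X - C a) * (X ^ q - C b) + C ϖ'' * Γ)
      = (y - ι a) * (y ^ q - ι b) + ι ϖ'' * Γ.eval₂ ι y := by
    rw [Polynomial.aeval_def]
    simp only [Polynomial.eval₂_add, Polynomial.eval₂_mul, Polynomial.eval₂_sub,
      Polynomial.eval₂_X, Polynomial.eval₂_C, Polynomial.eval₂_pow]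
    rfl
  rw [← h1]; exact hΓ0

end Two

end Fermat.Agent.S36
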