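import Mathlib

/-!
# S36 (NODE-3), leaf (I1): good local coordinates survive an unramified base change

Pure commutative algebra (Mathlib only).  `φ : B₁ → B` a ring homomorphism, `π θ : B`, `Q ≥ 2` with
`Q ∈ (π)`, `θ ^ Q - θ ∈ (π)`, and `B = φ(B₁)[θ] + π B`  (think: `B₁` the chart over `ℤ_(ℓ)`, `B` its
span over a discrete valuation ring `A ⊇ ℤ_(ℓ)` with finite residue field `k`, `θ` a lift of a
generator of `k^×`, `Q = #k`; then `B/π = k ⊗ B₁/ℓ` and `k/𝔽_ℓ` is separable).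

* `s36_lc_comap_max` : a maximal ideal `𝔪 ∋ π` of `B` contracts to a maximal ideal of `B₁`;
* `s36_lc_unram`     : `𝔪` is locally generated by `π` and the contraction `φ⁻¹(𝔪)`;
* `s36_lc_param`     : if `φ⁻¹(𝔪)` is locally generated by `ℓ₁, s₁` and `φ ℓ₁ ∈ (π)`, then `𝔪` is
  locally generated by `π` and `φ s₁`  (the `reg` shape of `s18_Chart`).

So a coordinate `s₁` of the rational chart whose reduction is a uniformizer at a closed point of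
its special fibre stays one at every closed point above it over `A`.
-/

set_option autoImplicit false

namespace Fermat.Agent.S36

open Polynomial

/-- The closed point below a closed point of the special fibre is closed: if `B` is, modulo `π`,
generated over `φ(B₁)` by one element `θ` with `θ^Q ≡ θ`, then maximal ideals of `B` containing
`π` contract to maximal ideals of `B₁`. -/
theorem s36_lc_comap_max {B₁ B : Type*} [CommRing B₁] [CommRing B] (φ : B₁ →+* B) (π θ : B)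
    (Q : ℕ) (hQ : 2 ≤ Q) (hθ : θ ^ Q - θ ∈ Ideal.span {π})
    (hgen : ∀ x : B, ∃ P : Polynomial B₁, x - P.eval₂ φ θ ∈ Ideal.span {π})
    (𝔪 : Ideal B) (h𝔪 : 𝔪.IsMaximal) (hπ : π ∈ 𝔪) : (𝔪.comap φ).IsMaximal := by
  have hπ𝔪 : Ideal.span {π} ≤ 𝔪 := by
    rw [Ideal.span_le, Set.singleton_subset_iff]
    exact hπ
  let ψ : B₁ →+* B ⧸ 𝔪 := (Ideal.Quotient.mk 𝔪).comp φ
  have hnt : Nontrivial (B ⧸ 𝔪) := Ideal.Quotient.nontrivial_iff.mpr h𝔪.ne_top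
  have hnt₁ : Nontrivial B₁ := ψ.domain_nontrivial
  have hθint : ψ.IsIntegralElem (Ideal.Quotient.mk 𝔪 θ) := by
    refine ⟨X ^ Q - X, monic_X_pow_sub ?_, ?_⟩
    · rw [degree_X]
      exact_mod_cast hQ
    · rw [eval₂_sub, eval₂_X_pow, eval₂_X, ← map_pow, ← map_sub]
      exact Ideal.Quotient.eq_zero_iff_mem.mpr (hπ𝔪 hθ)
  have hψ : ψ.IsIntegral := by
    intro z
    obtain ⟨x, rfl⟩ := Ideal.Quotient.mk_surjective z
    obtain ⟨P, hP⟩ := hgen x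
    have h1 : Ideal.Quotient.mk 𝔪 x = P.eval₂ ψ (Ideal.Quotient.mk 𝔪 θ) := by
      rw [← Polynomial.hom_eval₂, Ideal.Quotient.eq]
      exact hπ𝔪 hP
    rw [h1, eval₂_eq_sum_range]
    let _ := ψ.toAlgebra
    refine IsIntegral.sum _ (fun i _ => ?_)
    exact IsIntegral.mul (ψ.isIntegralElem_map) (IsIntegral.pow hθint i)
  have hbot : (⊥ : Ideal (B ⧸ 𝔪)).IsMaximal := by
    let _ := Ideal.Quotient.field 𝔪
    exact Ideal.bot_isMaximal
  have h2 := Ideal.isMaximal_comap_of_isIntegral_of_isMaximal' ψ hψ ⊥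
  have h3 : (⊥ : Ideal (B ⧸ 𝔪)).comap ψ = 𝔪.comap φ := by
    ext x
    rw [Ideal.mem_comap, Ideal.mem_comap, Ideal.mem_bot]
    exact Ideal.Quotient.eq_zero_iff_mem
  rwa [h3] at h2

/-- **Closed points of an unramified base change of the special fibre.**  If `B` is, modulo `π`,
generated over `φ(B₁)` by one element `θ` with `θ^Q ≡ θ` and `Q ≡ 0` modulo `π`, then at every
maximal ideal `𝔪 ∋ π` of `B` the ideal `𝔪` is locally generated by `π` and the contraction of `𝔪`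
to `B₁`. -/
theorem s36_lc_unram {B₁ B : Type*} [CommRing B₁] [CommRing B] (φ : B₁ →+* B) (π θ : B)
    (Q : ℕ) (hQ : 2 ≤ Q) (hQπ : (Q : B) ∈ Ideal.span {π}) (hθ : θ ^ Q - θ ∈ Ideal.span {π})
    (hgen : ∀ x : B, ∃ P : Polynomial B₁, x - P.eval₂ φ θ ∈ Ideal.span {π})
    (𝔪 : Ideal B) (h𝔪 : 𝔪.IsMaximal) (hπ : π ∈ 𝔪) :
    (𝔪.comap φ).IsMaximal ∧
      ∃ u, u ∉ 𝔪 ∧ ∀ x ∈ 𝔪, u * x ∈ Ideal.span {π} ⊔ (𝔪.comap φ).map φ := by
  have hmax : (𝔪.comap φ).IsMaximal := s36_lc_comap_max φ π θ Q hQ hθ hgen 𝔪 h𝔪 hπ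
  refine ⟨hmax, ?_⟩
  have hπ𝔪 : Ideal.span {π} ≤ 𝔪 := by
    rw [Ideal.span_le, Set.singleton_subset_iff]
    exact hπ
  set 𝔫 : Ideal B₁ := 𝔪.comap φ with h𝔫
  set J : Ideal B := Ideal.span {π} ⊔ 𝔫.map φ with hJ
  have hJ𝔪 : J ≤ 𝔪 := sup_le hπ𝔪 (Ideal.map_comap_le)
  let _ : Field (B₁ ⧸ 𝔫) := Ideal.Quotient.field 𝔫
  -- the residue map `κ(𝔫) → B/J`
  let φbar : B₁ ⧸ 𝔫 →+* B ⧸ J := Ideal.Quotient.lift 𝔫 ((Ideal.Quotient.mk J).comp φ) (by
    intro a ha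
    rw [RingHom.comp_apply]
    exact Ideal.Quotient.eq_zero_iff_mem.mpr (le_sup_right (a := Ideal.span {π})
      (Ideal.mem_map_of_mem φ ha)))
  have hφbar : ∀ a : B₁, φbar (Ideal.Quotient.mk 𝔫 a) = Ideal.Quotient.mk J (φ a) := fun a => by
    simp [φbar]
  let ev : (B₁ ⧸ 𝔫)[X] →+* B ⧸ J := eval₂RingHom φbar (Ideal.Quotient.mk J θ)
  have hev : ∀ P : (B₁ ⧸ 𝔫)[X], ev P = P.eval₂ φbar (Ideal.Quotient.mk J θ) := fun P => rfl
  -- `ev` is surjective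
  have hsurj : ∀ x : B, ∃ P : (B₁ ⧸ 𝔫)[X], ev P = Ideal.Quotient.mk J x := by
    intro x
    obtain ⟨P, hP⟩ := hgen x
    refine ⟨P.map (Ideal.Quotient.mk 𝔫), ?_⟩
    rw [hev, eval₂_map]
    have h1 : φbar.comp (Ideal.Quotient.mk 𝔫) = (Ideal.Quotient.mk J).comp φ := by
      ext a
      exact hφbar a
    rw [h1, ← Polynomial.hom_eval₂]
    symm
    rw [Ideal.Quotient.eq]
    exact le_sup_left (b := 𝔫.map φ) hP
  -- the polynomial `G = X^Q - X` is killed by `ev`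
  have hG : ev (X ^ Q - X) = 0 := by
    rw [hev, eval₂_sub, eval₂_X_pow, eval₂_X, ← map_pow, ← map_sub]
    exact Ideal.Quotient.eq_zero_iff_mem.mpr (le_sup_left (b := 𝔫.map φ) hθ)
  -- the composite to the field `B/𝔪`
  let ev' : (B₁ ⧸ 𝔫)[X] →+* B ⧸ 𝔪 := (Ideal.Quotient.factor hJ𝔪).comp ev
  have hev' : ∀ (P : (B₁ ⧸ 𝔫)[X]) (x : B), ev P = Ideal.Quotient.mk J x →
      ev' P = Ideal.Quotient.mk 𝔪 x := by
    intro P x h
    show Ideal.Quotient.factor hJ𝔪 (ev P) = _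
    rw [h, Ideal.Quotient.factor_mk]
  have hkp : (RingHom.ker ev').IsPrime := RingHom.ker_isPrime ev'
  have hGker : (X ^ Q - X : (B₁ ⧸ 𝔫)[X]) ∈ RingHom.ker ev' := by
    rw [RingHom.mem_ker]
    show Ideal.Quotient.factor hJ𝔪 (ev (X ^ Q - X)) = 0
    rw [hG, map_zero]
  have hGne : (X ^ Q - X : (B₁ ⧸ 𝔫)[X]) ≠ 0 := by
    have hm : (X ^ Q - X : (B₁ ⧸ 𝔫)[X]).Monic := monic_X_pow_sub (by
      rw [degree_X]
      exact_mod_cast hQ)
    exact hm.ne_zero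
  have hker_ne : RingHom.ker ev' ≠ ⊥ := by
    intro h0
    rw [h0, Ideal.mem_bot] at hGker
    exact hGne hGker
  -- a generator `h` of the kernel, a prime element
  set h := Submodule.IsPrincipal.generator (RingHom.ker ev') with hh
  have hprime : Prime h := Submodule.IsPrincipal.prime_generator_of_isPrime _ hker_ne
  have hmem : ∀ P : (B₁ ⧸ 𝔫)[X], P ∈ RingHom.ker ev' ↔ h ∣ P := fun P =>
    Submodule.IsPrincipal.mem_iff_generator_dvd _
  obtain ⟨c, hc⟩ := (hmem _).mp hGker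
  -- `Q = 0` in `κ(𝔫)`
  have hQ0 : ((Q : ℕ) : B₁ ⧸ 𝔫) = 0 := by
    have h1 : ((Q : ℕ) : B₁) ∈ 𝔫 := by
      rw [h𝔫, Ideal.mem_comap, map_natCast]
      exact hπ𝔪 hQπ
    have h2 := Ideal.Quotient.eq_zero_iff_mem.mpr h1
    rwa [map_natCast] at h2
  -- separability: `h ∤ c`
  have hc_not : ¬ h ∣ c := by
    rintro ⟨d, rfl⟩
    have h1 : derivative (X ^ Q - X : (B₁ ⧸ 𝔫)[X]) = -1 := by
      rw [derivative_sub, derivative_X_pow, derivative_X, hQ0, map_zero, zero_mul, zero_sub]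
    have h2 : h ∣ derivative (X ^ Q - X : (B₁ ⧸ 𝔫)[X]) := by
      rw [hc, derivative_mul, derivative_mul]
      refine ⟨derivative h * d + (derivative h * d + h * derivative d), ?_⟩
      ring
    rw [h1] at h2
    exact hprime.not_isUnit (isUnit_of_dvd_unit h2 isUnit_one.neg)
  obtain ⟨u, hu⟩ := Ideal.Quotient.mk_surjective (ev c)
  refine ⟨u, ?_, ?_⟩
  · intro hu𝔪
    apply hc_not
    rw [← hmem, RingHom.mem_ker, hev' c u hu.symm]
    exact Ideal.Quotient.eq_zero_iff_mem.mpr hu𝔪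
  · intro x hx
    obtain ⟨P, hP⟩ := hsurj x
    have h1 : h ∣ P := by
      rw [← hmem, RingHom.mem_ker, hev' P x hP]
      exact Ideal.Quotient.eq_zero_iff_mem.mpr hx
    obtain ⟨e, rfl⟩ := h1
    apply Ideal.Quotient.eq_zero_iff_mem.mp
    rw [map_mul, hu, ← hP, ← map_mul]
    have h2 : c * (h * e) = (X ^ Q - X) * e := by
      rw [hc]
      ring
    rw [h2, map_mul, hG, zero_mul]

/-- **Transport of a local parameter along an unramified base change of the special fibre.**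
In the situation of `s36_lc_unram`, if the contraction `𝔫 = φ⁻¹(𝔪)` is locally generated by
`ℓ₁` and `s₁` and `φ ℓ₁ ∈ (π)`, then `𝔪` is locally generated by `π` and `φ s₁`. -/
theorem s36_lc_param {B₁ B : Type*} [CommRing B₁] [CommRing B] (φ : B₁ →+* B) (π θ : B)
    (Q : ℕ) (hQ : 2 ≤ Q) (hQπ : (Q : B) ∈ Ideal.span {π}) (hθ : θ ^ Q - θ ∈ Ideal.span {π})
    (hgen : ∀ x : B, ∃ P : Polynomial B₁, x - P.eval₂ φ θ ∈ Ideal.span {π})
    (𝔪 : Ideal B) (h𝔪 : 𝔪.IsMaximal) (hπ : π ∈ 𝔪)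
    (ℓ₁ s₁ : B₁) (hℓ₁ : φ ℓ₁ ∈ Ideal.span {π})
    (hreg : ∀ y ∈ 𝔪.comap φ, ∃ v, v ∉ 𝔪.comap φ ∧ v * y ∈ Ideal.span {ℓ₁, s₁}) :
    ∀ x ∈ 𝔪, ∃ u, u ∉ 𝔪 ∧ u * x ∈ Ideal.span {π, φ s₁} := by
  obtain ⟨-, u₀, hu₀, hu₀x⟩ := s36_lc_unram φ π θ Q hQ hQπ hθ hgen 𝔪 h𝔪 hπ
  have h𝔪p : 𝔪.IsPrime := h𝔪.isPrime
  have hπT : π ∈ Ideal.span {π, φ s₁} := Ideal.subset_span (by simp)
  have hsT : φ s₁ ∈ Ideal.span {π, φ s₁} := Ideal.subset_span (by simp)
  -- generators of `𝔫.map φ`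
  have hgen1 : ∀ y ∈ 𝔪.comap φ, ∃ v, v ∉ 𝔪 ∧ v * φ y ∈ Ideal.span {π, φ s₁} := by
    intro y hy
    obtain ⟨v, hv, hvy⟩ := hreg y hy
    refine ⟨φ v, fun h => hv (Ideal.mem_comap.mpr h), ?_⟩
    rw [← map_mul]
    obtain ⟨a, b, hab⟩ := Ideal.mem_span_pair.mp hvy
    rw [← hab, map_add, map_mul, map_mul]
    refine Ideal.add_mem _ (Ideal.mul_mem_left _ _ ?_) (Ideal.mul_mem_left _ _ hsT)
    obtain ⟨w, hw⟩ := Ideal.mem_span_singleton.mp hℓ₁
    rw [hw]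
    exact Ideal.mul_mem_right _ _ hπT
  have hmap : ∀ z ∈ (𝔪.comap φ).map φ, ∃ v, v ∉ 𝔪 ∧ v * z ∈ Ideal.span {π, φ s₁} := by
    intro z hz
    refine Submodule.span_induction (p := fun z _ => ∃ v, v ∉ 𝔪 ∧ v * z ∈ Ideal.span {π, φ s₁})
      ?_ ?_ ?_ ?_ hz
    · rintro _ ⟨y, hy, rfl⟩
      exact hgen1 y hy
    · exact ⟨1, fun h => h𝔪.ne_top ((Ideal.eq_top_iff_one _).mpr h), by
        rw [mul_zero]; exact Ideal.zero_mem _⟩
    · rintro a b - - ⟨v, hv, hva⟩ ⟨v', hv', hvb⟩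
      refine ⟨v * v', fun h => (h𝔪p.mem_or_mem h).elim hv hv', ?_⟩
      have h1 : v * v' * (a + b) = v' * (v * a) + v * (v' * b) := by ring
      rw [h1]
      exact Ideal.add_mem _ (Ideal.mul_mem_left _ _ hva) (Ideal.mul_mem_left _ _ hvb)
    · rintro r a - ⟨v, hv, hva⟩
      refine ⟨v, hv, ?_⟩
      have h1 : v * (r • a) = r * (v * a) := by
        rw [smul_eq_mul]
        ring
      rw [h1]
      exact Ideal.mul_mem_left _ _ hva
  intro x hx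
  obtain ⟨a, ha, b, hb, hab⟩ := Submodule.mem_sup.mp (hu₀x x hx)
  obtain ⟨v, hv, hvb⟩ := hmap b hb
  refine ⟨v * u₀, fun h => (h𝔪p.mem_or_mem h).elim hv hu₀, ?_⟩
  have h1 : v * u₀ * x = v * a + v * b := by
    rw [mul_assoc, ← hab, mul_add]
  rw [h1]
  refine Ideal.add_mem _ (Ideal.mul_mem_left _ _ ?_) hvb
  obtain ⟨w, hw⟩ := Ideal.mem_span_singleton.mp ha
  rw [hw]
  exact Ideal.mul_mem_right _ _ hπT

end Fermat.Agent.S36
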