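import Fermat.Agent.S36.LocCoordInst
import Fermat.Agent.S36.CapNG

/-!
# S36 (NODE-3), leaf (I1), instances: rational local coordinates on the Hauptmodul charts

For every number field `K₁ ⊆ Q̄` (no Galois hypothesis), `A₁ = A ∩ K₁`, `π` a uniformizer of `A₁`,
and each of the four charts of the Hauptmoduln `t₂`, `t₂⁻¹` (`2 ∣ N`), `t₃`, `t₃⁻¹` (`3 ∣ N`) of
level `N` prime to `ℓ`: every maximal ideal `𝔪 ∋ π` of the chart over `A₁` is locally generated by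
`π` and `s18_coord K₁ y` for some `y` in the RATIONAL chart `chartAlg N ℓ {t}`.

* `s36_lch_reg` : the general statement, for any function `t` whose chart over `A ∩ ℚ` is an
  `s18_Chart`;
* `s36_lch_t2`, `s36_lch_t2_inv`, `s36_lch_t3`, `s36_lch_t3_inv` : the four Hauptmodul charts.
-/

set_option autoImplicit false
set_option synthInstance.maxHeartbeats 400000
set_option maxHeartbeats 4000000

open ModularCurve ModularCurve.IgusaScheme AlgebraicCurve Fermat.Agent.S28 Polynomial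
open Fermat.Agent.S18 Fermat.Agent.S34

noncomputable section

namespace Fermat.Agent.S36

section Haupt

variable (N : ℕ) [NeZero N] {ℓ : ℕ} [Fact ℓ.Prime]
  (A : ValuationSubring (AlgebraicClosure ℚ)) (hA : A.LiesOverPrime ℓ)
  (K₁ : IntermediateField ℚ (AlgebraicClosure ℚ)) [NumberField K₁]

/-- The rational numbers inside `Q̄`, as an intermediate field, are a copy of `ℚ`. -/
theorem s36_lch_bot_surjective :
    Function.Surjective (algebraMap ℚ (⊥ : IntermediateField ℚ (AlgebraicClosure ℚ))) := by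
  intro x
  obtain ⟨r, hr⟩ := IntermediateField.mem_bot.mp x.2
  exact ⟨r, Subtype.ext hr⟩

include hA in
/-- **A rational local coordinate at every closed point of the special fibre**: general form,
for a function `t` whose chart over `A ∩ ℚ` has the chart structure `s18_Chart`. -/
theorem s36_lch_reg (t : modularFunctionFieldFull N)
    (hchart : ∀ π₀ : s18_A1 A (⊥ : IntermediateField ℚ (AlgebraicClosure ℚ)), Irreducible π₀ →
      s18_Chart (algebraMap (s18_A1 A (⊥ : IntermediateField ℚ (AlgebraicClosure ℚ)))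
        (laurentBaseChange (⊥ : IntermediateField ℚ (AlgebraicClosure ℚ))
          (modularFunctionFieldFull N)) π₀)
        (s18_chAlg N ℓ (s18_A1 A (⊥ : IntermediateField ℚ (AlgebraicClosure ℚ))) t).toSubring)
    (π : s18_A1 A K₁) (hπ : Irreducible π)
    (𝔪 : Ideal (s18_chAlg N ℓ (s18_A1 A K₁) t).toSubring) (h𝔪 : 𝔪.IsMaximal)
    (hπ𝔪 : (⟨algebraMap (s18_A1 A K₁) (laurentBaseChange K₁ (modularFunctionFieldFull N)) π,
      (s18_chAlg N ℓ (s18_A1 A K₁) t).algebraMap_mem π⟩ :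
        (s18_chAlg N ℓ (s18_A1 A K₁) t).toSubring) ∈ 𝔪) :
    ∃ y : modularFunctionFieldFull N, y ∈ chartAlg N ℓ {t} ∧
      ∃ hs : s18_coord K₁ y ∈ (s18_chAlg N ℓ (s18_A1 A K₁) t).toSubring,
        (⟨s18_coord K₁ y, hs⟩ : (s18_chAlg N ℓ (s18_A1 A K₁) t).toSubring) ∈ 𝔪 ∧
        ∀ x ∈ 𝔪, ∃ u, u ∉ 𝔪 ∧ u * x ∈ Ideal.span
          {(⟨algebraMap (s18_A1 A K₁) (laurentBaseChange K₁ (modularFunctionFieldFull N)) π,
            (s18_chAlg N ℓ (s18_A1 A K₁) t).algebraMap_mem π⟩ :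
              (s18_chAlg N ℓ (s18_A1 A K₁) t).toSubring), ⟨s18_coord K₁ y, hs⟩} := by
  have hdvr : IsDiscreteValuationRing (s18_A1 A K₁) := s18_a1_dvr A hA K₁
  have hdvr₀ : IsDiscreteValuationRing
      (s18_A1 A (⊥ : IntermediateField ℚ (AlgebraicClosure ℚ))) := s18_a1_dvr A hA ⊥
  obtain ⟨π₀, hπ₀⟩ := IsDiscreteValuationRing.exists_irreducible
    (s18_A1 A (⊥ : IntermediateField ℚ (AlgebraicClosure ℚ)))
  exact s36_lc_chart_reg (s18_a1_resbasis A hA K₁ π hπ) s36_lch_bot_surjective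
    (s18_a1_ell A hA ⊥) t (hchart π₀ hπ₀) 𝔪 h𝔪 hπ𝔪

include hA in
/-- The chart of the Hauptmodul `t₂`: a rational local coordinate at every closed point of the
special fibre. -/
theorem s36_lch_t2 (hℓN : ¬ ℓ ∣ N) (h2 : 2 ∣ N) (π : s18_A1 A K₁) (hπ : Irreducible π)
    (𝔪 : Ideal (s18_chAlg N ℓ (s18_A1 A K₁) (s18_cz_t2 N h2)).toSubring) (h𝔪 : 𝔪.IsMaximal)
    (hπ𝔪 : (⟨algebraMap (s18_A1 A K₁) (laurentBaseChange K₁ (modularFunctionFieldFull N)) π,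
      (s18_chAlg N ℓ (s18_A1 A K₁) (s18_cz_t2 N h2)).algebraMap_mem π⟩ :
        (s18_chAlg N ℓ (s18_A1 A K₁) (s18_cz_t2 N h2)).toSubring) ∈ 𝔪) :
    ∃ y : modularFunctionFieldFull N, y ∈ chartAlg N ℓ {(s18_cz_t2 N h2)} ∧
      ∃ hs : s18_coord K₁ y ∈ (s18_chAlg N ℓ (s18_A1 A K₁) (s18_cz_t2 N h2)).toSubring,
        (⟨s18_coord K₁ y, hs⟩ : (s18_chAlg N ℓ (s18_A1 A K₁) (s18_cz_t2 N h2)).toSubring) ∈ 𝔪 ∧
        ∀ x ∈ 𝔪, ∃ u, u ∉ 𝔪 ∧ u * x ∈ Ideal.span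
          {(⟨algebraMap (s18_A1 A K₁) (laurentBaseChange K₁ (modularFunctionFieldFull N)) π,
            (s18_chAlg N ℓ (s18_A1 A K₁) (s18_cz_t2 N h2)).algebraMap_mem π⟩ :
              (s18_chAlg N ℓ (s18_A1 A K₁) (s18_cz_t2 N h2)).toSubring), ⟨s18_coord K₁ y, hs⟩} := by
  refine s36_lch_reg N A hA K₁ _ (fun π₀ hπ₀ => ?_) π hπ 𝔪 h𝔪 hπ𝔪
  have hnf : NumberField (⊥ : IntermediateField ℚ (AlgebraicClosure ℚ)) := NumberField.mk
  have hdvr₀ : IsDiscreteValuationRing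
      (s18_A1 A (⊥ : IntermediateField ℚ (AlgebraicClosure ℚ))) := s18_a1_dvr A hA ⊥
  exact (s36_cn_twoChart_t2 N A hA ⊥ hℓN h2 π₀ hπ₀).chart0

include hA in
/-- The chart of `t₂⁻¹`: a rational local coordinate at every closed point of the special
fibre. -/
theorem s36_lch_t2_inv (hℓN : ¬ ℓ ∣ N) (h2 : 2 ∣ N) (π : s18_A1 A K₁) (hπ : Irreducible π)
    (𝔪 : Ideal (s18_chAlg N ℓ (s18_A1 A K₁) (s18_cz_t2 N h2)⁻¹).toSubring) (h𝔪 : 𝔪.IsMaximal)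
    (hπ𝔪 : (⟨algebraMap (s18_A1 A K₁) (laurentBaseChange K₁ (modularFunctionFieldFull N)) π,
      (s18_chAlg N ℓ (s18_A1 A K₁) (s18_cz_t2 N h2)⁻¹).algebraMap_mem π⟩ :
        (s18_chAlg N ℓ (s18_A1 A K₁) (s18_cz_t2 N h2)⁻¹).toSubring) ∈ 𝔪) :
    ∃ y : modularFunctionFieldFull N, y ∈ chartAlg N ℓ {(s18_cz_t2 N h2)⁻¹} ∧
      ∃ hs : s18_coord K₁ y ∈ (s18_chAlg N ℓ (s18_A1 A K₁) (s18_cz_t2 N h2)⁻¹).toSubring,
        (⟨s18_coord K₁ y, hs⟩ : (s18_chAlg N ℓ (s18_A1 A K₁) (s18_cz_t2 N h2)⁻¹).toSubring) ∈ 𝔪 ∧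
        ∀ x ∈ 𝔪, ∃ u, u ∉ 𝔪 ∧ u * x ∈ Ideal.span
          {(⟨algebraMap (s18_A1 A K₁) (laurentBaseChange K₁ (modularFunctionFieldFull N)) π,
            (s18_chAlg N ℓ (s18_A1 A K₁) (s18_cz_t2 N h2)⁻¹).algebraMap_mem π⟩ :
              (s18_chAlg N ℓ (s18_A1 A K₁) (s18_cz_t2 N h2)⁻¹).toSubring), ⟨s18_coord K₁ y, hs⟩} := by
  refine s36_lch_reg N A hA K₁ _ (fun π₀ hπ₀ => ?_) π hπ 𝔪 h𝔪 hπ𝔪
  have hnf : NumberField (⊥ : IntermediateField ℚ (AlgebraicClosure ℚ)) := NumberField.mk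
  have hdvr₀ : IsDiscreteValuationRing
      (s18_A1 A (⊥ : IntermediateField ℚ (AlgebraicClosure ℚ))) := s18_a1_dvr A hA ⊥
  exact (s36_cn_twoChart_t2 N A hA ⊥ hℓN h2 π₀ hπ₀).chartInf

include hA in
/-- The chart of the Hauptmodul `t₃`: a rational local coordinate at every closed point of the
special fibre. -/
theorem s36_lch_t3 (hℓN : ¬ ℓ ∣ N) (h3 : 3 ∣ N) (π : s18_A1 A K₁) (hπ : Irreducible π)
    (𝔪 : Ideal (s18_chAlg N ℓ (s18_A1 A K₁) (s18_cz_t3 N h3)).toSubring) (h𝔪 : 𝔪.IsMaximal)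
    (hπ𝔪 : (⟨algebraMap (s18_A1 A K₁) (laurentBaseChange K₁ (modularFunctionFieldFull N)) π,
      (s18_chAlg N ℓ (s18_A1 A K₁) (s18_cz_t3 N h3)).algebraMap_mem π⟩ :
        (s18_chAlg N ℓ (s18_A1 A K₁) (s18_cz_t3 N h3)).toSubring) ∈ 𝔪) :
    ∃ y : modularFunctionFieldFull N, y ∈ chartAlg N ℓ {(s18_cz_t3 N h3)} ∧
      ∃ hs : s18_coord K₁ y ∈ (s18_chAlg N ℓ (s18_A1 A K₁) (s18_cz_t3 N h3)).toSubring,
        (⟨s18_coord K₁ y, hs⟩ : (s18_chAlg N ℓ (s18_A1 A K₁) (s18_cz_t3 N h3)).toSubring) ∈ 𝔪 ∧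
        ∀ x ∈ 𝔪, ∃ u, u ∉ 𝔪 ∧ u * x ∈ Ideal.span
          {(⟨algebraMap (s18_A1 A K₁) (laurentBaseChange K₁ (modularFunctionFieldFull N)) π,
            (s18_chAlg N ℓ (s18_A1 A K₁) (s18_cz_t3 N h3)).algebraMap_mem π⟩ :
              (s18_chAlg N ℓ (s18_A1 A K₁) (s18_cz_t3 N h3)).toSubring), ⟨s18_coord K₁ y, hs⟩} := by
  refine s36_lch_reg N A hA K₁ _ (fun π₀ hπ₀ => ?_) π hπ 𝔪 h𝔪 hπ𝔪
  have hnf : NumberField (⊥ : IntermediateField ℚ (AlgebraicClosure ℚ)) := NumberField.mk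
  have hdvr₀ : IsDiscreteValuationRing
      (s18_A1 A (⊥ : IntermediateField ℚ (AlgebraicClosure ℚ))) := s18_a1_dvr A hA ⊥
  exact (s36_cn_twoChart_t3 N A hA ⊥ hℓN h3 π₀ hπ₀).chart0

include hA in
/-- The chart of `t₃⁻¹`: a rational local coordinate at every closed point of the special
fibre. -/
theorem s36_lch_t3_inv (hℓN : ¬ ℓ ∣ N) (h3 : 3 ∣ N) (π : s18_A1 A K₁) (hπ : Irreducible π)
    (𝔪 : Ideal (s18_chAlg N ℓ (s18_A1 A K₁) (s18_cz_t3 N h3)⁻¹).toSubring) (h𝔪 : 𝔪.IsMaximal)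
    (hπ𝔪 : (⟨algebraMap (s18_A1 A K₁) (laurentBaseChange K₁ (modularFunctionFieldFull N)) π,
      (s18_chAlg N ℓ (s18_A1 A K₁) (s18_cz_t3 N h3)⁻¹).algebraMap_mem π⟩ :
        (s18_chAlg N ℓ (s18_A1 A K₁) (s18_cz_t3 N h3)⁻¹).toSubring) ∈ 𝔪) :
    ∃ y : modularFunctionFieldFull N, y ∈ chartAlg N ℓ {(s18_cz_t3 N h3)⁻¹} ∧
      ∃ hs : s18_coord K₁ y ∈ (s18_chAlg N ℓ (s18_A1 A K₁) (s18_cz_t3 N h3)⁻¹).toSubring,
        (⟨s18_coord K₁ y, hs⟩ : (s18_chAlg N ℓ (s18_A1 A K₁) (s18_cz_t3 N h3)⁻¹).toSubring) ∈ 𝔪 ∧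
        ∀ x ∈ 𝔪, ∃ u, u ∉ 𝔪 ∧ u * x ∈ Ideal.span
          {(⟨algebraMap (s18_A1 A K₁) (laurentBaseChange K₁ (modularFunctionFieldFull N)) π,
            (s18_chAlg N ℓ (s18_A1 A K₁) (s18_cz_t3 N h3)⁻¹).algebraMap_mem π⟩ :
              (s18_chAlg N ℓ (s18_A1 A K₁) (s18_cz_t3 N h3)⁻¹).toSubring), ⟨s18_coord K₁ y, hs⟩} := by
  refine s36_lch_reg N A hA K₁ _ (fun π₀ hπ₀ => ?_) π hπ 𝔪 h𝔪 hπ𝔪
  have hnf : NumberField (⊥ : IntermediateField ℚ (AlgebraicClosure ℚ)) := NumberField.mk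
  have hdvr₀ : IsDiscreteValuationRing
      (s18_A1 A (⊥ : IntermediateField ℚ (AlgebraicClosure ℚ))) := s18_a1_dvr A hA ⊥
  exact (s36_cn_twoChart_t3 N A hA ⊥ hℓN h3 π₀ hπ₀).chartInf

end Haupt

end Fermat.Agent.S36
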