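import Mathlib
import Fermat.Agent.S36.ChartMaps
import Fermat.Agent.S36.InstNorm
import Fermat.Agent.S36.ChartPkg3Inst
import Fermat.Agent.S34.SwapStable
import Fermat.Agent.S18.A1Facts

/-!
# S36 (NODE-3): the level-`N₁ q` chart block of the concrete model

For the concrete objects of `s36_ci_PtsAll` (`S36/ContractInst.lean`): `A₀ = s18_A1 P K₀`,
`F'' = K₀ · F(N₁ q)`, `F = K₀ · F(N₁ q q)`, `α = heckeAlphaBar K₀ (N₁ q) q`, the swaps `w`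
(level `N₁ q`) and `W₁` (level `N₁ q q`) with `W₁ ∘ α = β ∘ w`, `V_∞ = s34_gi_V A₀ (N₁ q)`,
`V_0 = V_∞.comap w`, and the integral-closure charts `B' ⊆ F''`, `B ⊆ F` of the Hauptmodul
`t₂` or `t₃` (or its inverse), this file collects in ONE structure all the hypotheses of
`s36_plq_pts_w` (`S36/PtsLvlQ.lean`), `s36_pta_tri`, `s36_csym_field` which need no new
mathematics:

* `s36_lqb_Block` : the swap `w` is an involution fixing `ϖ'' = q`; `α ϖ'' = ϖ`; `ϖ ∈ B`;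
  `m` invertible in `B`; `W B ⊆ B`; `B' ⊆ V_∞`, `B' ⊆ V_0`; `w B' ⊆ B'`; `B'`, `B` closed under
  `m`-th roots; `α B' ⊆ B`; `B` integral over `α B'`; `Nm (α d) = d ^ kN`; `Nm B ⊆ B'`.
* `s36_lqb_t2`, `s36_lqb_t3` : the block for both charts of the concrete model (`kN = q`).
-/

set_option autoImplicit false
set_option synthInstance.maxHeartbeats 400000
set_option linter.style.haveILetI false
set_option linter.unusedSectionVars false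
set_option linter.unusedVariables false

open ModularCurve AlgebraicCurve

noncomputable section

namespace Fermat.Agent.S36

open Fermat.Agent.S18 Fermat.Agent.S34 Fermat.Agent.S35 Fermat.Agent.S37

local notation "Qb" => AlgebraicClosure ℚ

/-- The chart-level hypotheses of `s36_plq_pts_w` which hold for formal reasons in the concrete
model: swap of the level below, the two charts, roots, degeneracy map, norm. -/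
structure s36_lqb_Block {F'' F : Type*} [Field F''] [Field F] (ι : F'' →+* F)
    (w : F'' →+* F'') (W : F ≃+* F) (ϖ'' : F'') (ϖ : F) (m kN : ℕ) (Vi V0 B' : Subring F'')
    (B : Subring F) : Prop where
  hww : ∀ x, w (w x) = x
  hwV : ∀ x, x ∈ V0 ↔ w x ∈ Vi
  hwϖ : w ϖ'' = ϖ''
  hιϖ : ι ϖ'' = ϖ
  hϖB : ϖ ∈ B
  hm0 : (m : F) ≠ 0
  hmB : ((m : F))⁻¹ ∈ B
  hWB : ∀ x ∈ B, W x ∈ B
  hB'i : B' ≤ Vi
  hB'0 : B' ≤ V0
  hwB' : ∀ x ∈ B', w x ∈ B'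
  hroot' : ∀ x : F'', x ^ m ∈ B' → x ∈ B'
  hrootB : ∀ x : F, x ^ m ∈ B → x ∈ B
  hαB : ∀ x ∈ B', ι x ∈ B
  hintα : ∀ x ∈ B, ∃ P : Polynomial B', P.Monic ∧ P.eval₂ (ι.comp B'.subtype) x = 0
  hNι : ∀ d ∈ B', @Algebra.norm F'' F _ _ ι.toAlgebra (ι d) = d ^ kN
  hNB : ∀ b ∈ B, @Algebra.norm F'' F _ _ ι.toAlgebra b ∈ B'

section Model

variable (P : ValuationSubring Qb) (K₀ : IntermediateField ℚ Qb)
  [IsDiscreteValuationRing (s18_A1 P K₀)]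
  (N₁ q : ℕ) [NeZero N₁] [NeZero q] [NeZero (N₁ * q)] [NeZero (N₁ * q * q)]

set_option maxHeartbeats 1000000 in
/-- The block for a pair of charts (`B'` of level `N₁ q`, `B` of level `N₁ q q`), from the
chart-specific facts. -/
theorem s36_lqb_core (hq : q.Prime) (hP : P.LiesOverPrime q)
    (w : s18_F1 K₀ (N₁ * q) ≃ₐ[K₀] s18_F1 K₀ (N₁ * q)) (hw : s34_md_IsSwap K₀ N₁ q w)
    (W₁ : s18_F1 K₀ (N₁ * q * q) ≃ₐ[K₀] s18_F1 K₀ (N₁ * q * q))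
    (m : ℕ) (hm : 0 < m) (hqm : ¬ q ∣ m)
    (B' : Subalgebra (s18_A1 P K₀) (s18_F1 K₀ (N₁ * q)))
    (B : Subalgebra (s18_A1 P K₀) (s18_F1 K₀ (N₁ * q * q)))
    (hWB : ∀ x ∈ B.toSubring, W₁ x ∈ B.toSubring)
    (hB'i : B'.toSubring ≤ s34_gi_V (s18_A1 P K₀) (N₁ * q))
    (hwB' : ∀ x ∈ B'.toSubring, w x ∈ B'.toSubring)
    (hroot' : ∀ x : s18_F1 K₀ (N₁ * q), x ^ m ∈ B'.toSubring → x ∈ B'.toSubring)
    (hrootB : ∀ x : s18_F1 K₀ (N₁ * q * q), x ^ m ∈ B.toSubring → x ∈ B.toSubring)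
    (hmaps : s36_chm_Maps (heckeAlphaBar K₀ (N₁ * q) q).toRingHom
      (heckeBetaBar K₀ (N₁ * q) q).toRingHom B'.toSubring B.toSubring) :
    s36_lqb_Block (heckeAlphaBar K₀ (N₁ * q) q).toRingHom
      ((w : s18_F1 K₀ (N₁ * q) ≃+* s18_F1 K₀ (N₁ * q)) :
        s18_F1 K₀ (N₁ * q) →+* s18_F1 K₀ (N₁ * q))
      (W₁ : s18_F1 K₀ (N₁ * q * q) ≃+* s18_F1 K₀ (N₁ * q * q))
      (algebraMap K₀ (s18_F1 K₀ (N₁ * q)) (q : K₀))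
      (algebraMap (s18_A1 P K₀) (s18_F1 K₀ (N₁ * q * q)) ((q : ℕ) : s18_A1 P K₀))
      m q
      (s34_gi_V (s18_A1 P K₀) (N₁ * q))
      ((s34_gi_V (s18_A1 P K₀) (N₁ * q)).comap
        ((w : s18_F1 K₀ (N₁ * q) ≃+* s18_F1 K₀ (N₁ * q)) :
          s18_F1 K₀ (N₁ * q) →+* s18_F1 K₀ (N₁ * q)))
      B'.toSubring B.toSubring := by
  haveI : Fact q.Prime := ⟨hq⟩
  -- `m` is invertible
  obtain ⟨mi, hmi⟩ := (s18_a1_isUnit_natCast P hP K₀ m hqm).exists_right_inv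
  have hmF : (m : s18_F1 K₀ (N₁ * q * q)) *
      algebraMap (s18_A1 P K₀) (s18_F1 K₀ (N₁ * q * q)) mi = 1 := by
    have := congrArg (algebraMap (s18_A1 P K₀) (s18_F1 K₀ (N₁ * q * q))) hmi
    simpa using this
  have hm0F : (m : s18_F1 K₀ (N₁ * q * q)) ≠ 0 := left_ne_zero_of_mul_eq_one hmF
  have hminv : ((m : s18_F1 K₀ (N₁ * q * q)))⁻¹ =
      algebraMap (s18_A1 P K₀) (s18_F1 K₀ (N₁ * q * q)) mi :=
    (eq_inv_of_mul_eq_one_right hmF).symm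
  refine
    { hww := fun x => hw.2.2.1 x
      hwV := fun x => Iff.rfl
      hwϖ := w.commutes _
      hιϖ := ?_
      hϖB := B.algebraMap_mem _
      hm0 := hm0F
      hmB := by rw [hminv]; exact B.algebraMap_mem mi
      hWB := hWB
      hB'i := hB'i
      hB'0 := fun x hx => hB'i (hwB' x hx)
      hwB' := hwB'
      hroot' := hroot'
      hrootB := hrootB
      hαB := hmaps.mapα
      hintα := hmaps.intα
      hNι := fun d _ => s36_in_nm_map K₀ N₁ q hq d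
      hNB := hmaps.norm }
  rw [map_natCast (algebraMap (s18_A1 P K₀) (s18_F1 K₀ (N₁ * q * q)))]
  show heckeAlphaBar K₀ (N₁ * q) q (algebraMap K₀ (s18_F1 K₀ (N₁ * q)) (q : K₀)) = _
  rw [AlgHom.commutes, map_natCast]

set_option maxHeartbeats 1000000 in
/-- **The level-`N₁ q` chart block of the concrete model, Hauptmodul `t₂`**, both charts. -/
theorem s36_lqb_t2 (hq : q.Prime) (hP : P.LiesOverPrime q) (hqN : ¬ q ∣ N₁) (h2 : 2 ∣ N₁)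
    (h2' : 2 ∣ N₁ * q) (h2'' : 2 ∣ N₁ * q * q)
    (hirr : Irreducible ((q : ℕ) : s18_A1 P K₀))
    (w : s18_F1 K₀ (N₁ * q) ≃ₐ[K₀] s18_F1 K₀ (N₁ * q)) (hw : s34_md_IsSwap K₀ N₁ q w)
    (W₁ : s18_F1 K₀ (N₁ * q * q) ≃ₐ[K₀] s18_F1 K₀ (N₁ * q * q))
    (hW₁ : s36_IsSwapK K₀ N₁ q W₁)
    (hrel : ∀ y, W₁ (heckeAlphaBar K₀ (N₁ * q) q y) = heckeBetaBar K₀ (N₁ * q) q (w y))
    (m : ℕ) (hm : 0 < m) (hqm : ¬ q ∣ m) :
    s36_lqb_Block (heckeAlphaBar K₀ (N₁ * q) q).toRingHom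
      ((w : s18_F1 K₀ (N₁ * q) ≃+* s18_F1 K₀ (N₁ * q)) :
        s18_F1 K₀ (N₁ * q) →+* s18_F1 K₀ (N₁ * q))
      (W₁ : s18_F1 K₀ (N₁ * q * q) ≃+* s18_F1 K₀ (N₁ * q * q))
      (algebraMap K₀ (s18_F1 K₀ (N₁ * q)) (q : K₀))
      (algebraMap (s18_A1 P K₀) (s18_F1 K₀ (N₁ * q * q)) ((q : ℕ) : s18_A1 P K₀))
      m q
      (s34_gi_V (s18_A1 P K₀) (N₁ * q))
      ((s34_gi_V (s18_A1 P K₀) (N₁ * q)).comap
        ((w : s18_F1 K₀ (N₁ * q) ≃+* s18_F1 K₀ (N₁ * q)) :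
          s18_F1 K₀ (N₁ * q) →+* s18_F1 K₀ (N₁ * q)))
      (s34_md_B0 P K₀ (N₁ * q) (s18_cz_t2 (N₁ * q) h2')).toSubring
      (s34_md_B0 P K₀ (N₁ * q * q) (s18_cz_t2 (N₁ * q * q) h2'')).toSubring ∧
    s36_lqb_Block (heckeAlphaBar K₀ (N₁ * q) q).toRingHom
      ((w : s18_F1 K₀ (N₁ * q) ≃+* s18_F1 K₀ (N₁ * q)) :
        s18_F1 K₀ (N₁ * q) →+* s18_F1 K₀ (N₁ * q))
      (W₁ : s18_F1 K₀ (N₁ * q * q) ≃+* s18_F1 K₀ (N₁ * q * q))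
      (algebraMap K₀ (s18_F1 K₀ (N₁ * q)) (q : K₀))
      (algebraMap (s18_A1 P K₀) (s18_F1 K₀ (N₁ * q * q)) ((q : ℕ) : s18_A1 P K₀))
      m q
      (s34_gi_V (s18_A1 P K₀) (N₁ * q))
      ((s34_gi_V (s18_A1 P K₀) (N₁ * q)).comap
        ((w : s18_F1 K₀ (N₁ * q) ≃+* s18_F1 K₀ (N₁ * q)) :
          s18_F1 K₀ (N₁ * q) →+* s18_F1 K₀ (N₁ * q)))
      (s34_md_Binf P K₀ (N₁ * q) (s18_cz_t2 (N₁ * q) h2')).toSubring
      (s34_md_Binf P K₀ (N₁ * q * q) (s18_cz_t2 (N₁ * q * q) h2'')).toSubring := by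
  have hq2 : q ≠ 2 := fun h => hqN (h ▸ h2)
  -- the swap of level `N₁ q q` on the Hauptmodul
  have hWt : (W₁ : s18_F1 K₀ (N₁ * q * q) ≃+* s18_F1 K₀ (N₁ * q * q))
      (s36_rsm_incl2 K₀ N₁ q (s18_coord K₀ (s18_cz_t2 N₁ h2))) =
      heckeBetaBar K₀ (N₁ * q) q (heckeBetaBar K₀ N₁ q (s18_coord K₀ (s18_cz_t2 N₁ h2))) := by
    show W₁ (heckeAlphaBar K₀ (N₁ * q) q
      (heckeAlphaBar K₀ N₁ q (s18_coord K₀ (s18_cz_t2 N₁ h2)))) = _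
    rw [hrel, hw.1]
  obtain ⟨hWB0, hWBi⟩ := s36_ws2_stable_t2 N₁ q K₀ P hq hqN h2 h2'' hP
    (W₁ : s18_F1 K₀ (N₁ * q * q) ≃+* s18_F1 K₀ (N₁ * q * q)) hW₁.1
    (fun c => W₁.commutes c) hWt
  -- the swap of level `N₁ q` on the Hauptmodul
  have hwt : ((((w : s18_F1 K₀ (N₁ * q) ≃+* s18_F1 K₀ (N₁ * q)) :
      s18_F1 K₀ (N₁ * q) →+* s18_F1 K₀ (N₁ * q)) (s18_coord K₀ (s18_cz_t2 (N₁ * q) h2')) :
        s18_F1 K₀ (N₁ * q)) : LaurentSeries K₀) =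
      qExpand K₀ q ((s18_coord K₀ (s18_cz_t2 (N₁ * q) h2') : s18_F1 K₀ (N₁ * q)) :
        LaurentSeries K₀) := by
    rw [s36_chm_coord_t2 N₁ q K₀ h2 h2']
    show ((w (heckeAlphaBar K₀ N₁ q (s18_coord K₀ (s18_cz_t2 N₁ h2))) :
      s18_F1 K₀ (N₁ * q)) : LaurentSeries K₀) = _
    rw [hw.1, coe_heckeBetaBar, coe_heckeAlphaBar]
  obtain ⟨hwB0, hwBi⟩ := s34_ws_chart_stable N₁ q 2 hq hqN hq2 h2 P hP K₀
    (s18_coord K₀ (s18_cz_t2 (N₁ * q) h2')) (s34_ws_isHaupt_t2 (N₁ * q) K₀ h2')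
    ((w : s18_F1 K₀ (N₁ * q) ≃+* s18_F1 K₀ (N₁ * q)) :
      s18_F1 K₀ (N₁ * q) →+* s18_F1 K₀ (N₁ * q)) (fun c => w.commutes c) hwt
  -- the charts of level `N₁ q` lie in the Gauss ring
  have hTL : ((s18_cz_t2 (N₁ * q) h2' : modularFunctionFieldFull (N₁ * q)) :
      LaurentSeries ℚ) = coeffMap (Int.castRingHom ℚ) s18_t2 := rfl
  have hTLinv := s18_cz_coe_t2_inv (N₁ * q) h2'
  have hB0i := s36_cp3i_le_A P K₀ (N₁ * q) hirr (s34_iv_coord_mem _ _ s18_t2 hTL)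
  have hBii := s36_cp3i_le_A P K₀ (N₁ * q) hirr (s34_iv_coord_inv_mem _ _ s18_t2inv hTLinv)
  -- degeneracy maps
  obtain ⟨hm0, hmi⟩ := s36_chm_t2 N₁ q K₀ P hq hqN h2 h2' h2'' hP w hw.1 hw.2.1
  exact ⟨s36_lqb_core P K₀ N₁ q hq hP w hw W₁ m hm hqm _ _ (fun x hx => (hWB0 x hx).1) hB0i
      hwB0 (fun x hx => s34_ic_root _ m hm x hx) (fun x hx => s34_ic_root _ m hm x hx) hm0,
    s36_lqb_core P K₀ N₁ q hq hP w hw W₁ m hm hqm _ _ (fun x hx => (hWBi x hx).1) hBii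
      hwBi (fun x hx => s34_ic_root _ m hm x hx) (fun x hx => s34_ic_root _ m hm x hx) hmi⟩

set_option maxHeartbeats 1000000 in
/-- **The level-`N₁ q` chart block of the concrete model, Hauptmodul `t₃`**, both charts. -/
theorem s36_lqb_t3 (hq : q.Prime) (hP : P.LiesOverPrime q) (hqN : ¬ q ∣ N₁) (h3 : 3 ∣ N₁)
    (h3' : 3 ∣ N₁ * q) (h3'' : 3 ∣ N₁ * q * q)
    (hirr : Irreducible ((q : ℕ) : s18_A1 P K₀))
    (w : s18_F1 K₀ (N₁ * q) ≃ₐ[K₀] s18_F1 K₀ (N₁ * q)) (hw : s34_md_IsSwap K₀ N₁ q w)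
    (W₁ : s18_F1 K₀ (N₁ * q * q) ≃ₐ[K₀] s18_F1 K₀ (N₁ * q * q))
    (hW₁ : s36_IsSwapK K₀ N₁ q W₁)
    (hrel : ∀ y, W₁ (heckeAlphaBar K₀ (N₁ * q) q y) = heckeBetaBar K₀ (N₁ * q) q (w y))
    (m : ℕ) (hm : 0 < m) (hqm : ¬ q ∣ m) :
    s36_lqb_Block (heckeAlphaBar K₀ (N₁ * q) q).toRingHom
      ((w : s18_F1 K₀ (N₁ * q) ≃+* s18_F1 K₀ (N₁ * q)) :
        s18_F1 K₀ (N₁ * q) →+* s18_F1 K₀ (N₁ * q))
      (W₁ : s18_F1 K₀ (N₁ * q * q) ≃+* s18_F1 K₀ (N₁ * q * q))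
      (algebraMap K₀ (s18_F1 K₀ (N₁ * q)) (q : K₀))
      (algebraMap (s18_A1 P K₀) (s18_F1 K₀ (N₁ * q * q)) ((q : ℕ) : s18_A1 P K₀))
      m q
      (s34_gi_V (s18_A1 P K₀) (N₁ * q))
      ((s34_gi_V (s18_A1 P K₀) (N₁ * q)).comap
        ((w : s18_F1 K₀ (N₁ * q) ≃+* s18_F1 K₀ (N₁ * q)) :
          s18_F1 K₀ (N₁ * q) →+* s18_F1 K₀ (N₁ * q)))
      (s34_md_B0 P K₀ (N₁ * q) (s18_cz_t3 (N₁ * q) h3')).toSubring
      (s34_md_B0 P K₀ (N₁ * q * q) (s18_cz_t3 (N₁ * q * q) h3'')).toSubring ∧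
    s36_lqb_Block (heckeAlphaBar K₀ (N₁ * q) q).toRingHom
      ((w : s18_F1 K₀ (N₁ * q) ≃+* s18_F1 K₀ (N₁ * q)) :
        s18_F1 K₀ (N₁ * q) →+* s18_F1 K₀ (N₁ * q))
      (W₁ : s18_F1 K₀ (N₁ * q * q) ≃+* s18_F1 K₀ (N₁ * q * q))
      (algebraMap K₀ (s18_F1 K₀ (N₁ * q)) (q : K₀))
      (algebraMap (s18_A1 P K₀) (s18_F1 K₀ (N₁ * q * q)) ((q : ℕ) : s18_A1 P K₀))
      m q
      (s34_gi_V (s18_A1 P K₀) (N₁ * q))
      ((s34_gi_V (s18_A1 P K₀) (N₁ * q)).comap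
        ((w : s18_F1 K₀ (N₁ * q) ≃+* s18_F1 K₀ (N₁ * q)) :
          s18_F1 K₀ (N₁ * q) →+* s18_F1 K₀ (N₁ * q)))
      (s34_md_Binf P K₀ (N₁ * q) (s18_cz_t3 (N₁ * q) h3')).toSubring
      (s34_md_Binf P K₀ (N₁ * q * q) (s18_cz_t3 (N₁ * q * q) h3'')).toSubring := by
  have hq3 : q ≠ 3 := fun h => hqN (h ▸ h3)
  -- the swap of level `N₁ q q` on the Hauptmodul
  have hWt : (W₁ : s18_F1 K₀ (N₁ * q * q) ≃+* s18_F1 K₀ (N₁ * q * q))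
      (s36_rsm_incl2 K₀ N₁ q (s18_coord K₀ (s18_cz_t3 N₁ h3))) =
      heckeBetaBar K₀ (N₁ * q) q (heckeBetaBar K₀ N₁ q (s18_coord K₀ (s18_cz_t3 N₁ h3))) := by
    show W₁ (heckeAlphaBar K₀ (N₁ * q) q
      (heckeAlphaBar K₀ N₁ q (s18_coord K₀ (s18_cz_t3 N₁ h3)))) = _
    rw [hrel, hw.1]
  obtain ⟨hWB0, hWBi⟩ := s36_ws2_stable_t3 N₁ q K₀ P hq hqN h3 h3'' hP
    (W₁ : s18_F1 K₀ (N₁ * q * q) ≃+* s18_F1 K₀ (N₁ * q * q)) hW₁.1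
    (fun c => W₁.commutes c) hWt
  -- the swap of level `N₁ q` on the Hauptmodul
  have hwt : ((((w : s18_F1 K₀ (N₁ * q) ≃+* s18_F1 K₀ (N₁ * q)) :
      s18_F1 K₀ (N₁ * q) →+* s18_F1 K₀ (N₁ * q)) (s18_coord K₀ (s18_cz_t3 (N₁ * q) h3')) :
        s18_F1 K₀ (N₁ * q)) : LaurentSeries K₀) =
      qExpand K₀ q ((s18_coord K₀ (s18_cz_t3 (N₁ * q) h3') : s18_F1 K₀ (N₁ * q)) :
        LaurentSeries K₀) := by
    rw [s36_chm_coord_t3 N₁ q K₀ h3 h3']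
    show ((w (heckeAlphaBar K₀ N₁ q (s18_coord K₀ (s18_cz_t3 N₁ h3))) :
      s18_F1 K₀ (N₁ * q)) : LaurentSeries K₀) = _
    rw [hw.1, coe_heckeBetaBar, coe_heckeAlphaBar]
  obtain ⟨hwB0, hwBi⟩ := s34_ws_chart_stable N₁ q 3 hq hqN hq3 h3 P hP K₀
    (s18_coord K₀ (s18_cz_t3 (N₁ * q) h3')) (s34_ws_isHaupt_t3 (N₁ * q) K₀ h3')
    ((w : s18_F1 K₀ (N₁ * q) ≃+* s18_F1 K₀ (N₁ * q)) :
      s18_F1 K₀ (N₁ * q) →+* s18_F1 K₀ (N₁ * q)) (fun c => w.commutes c) hwt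
  -- the charts of level `N₁ q` lie in the Gauss ring
  have hTL : ((s18_cz_t3 (N₁ * q) h3' : modularFunctionFieldFull (N₁ * q)) :
      LaurentSeries ℚ) = coeffMap (Int.castRingHom ℚ) s18_t3 := rfl
  have hTLinv := s18_cz_coe_t3_inv (N₁ * q) h3'
  have hB0i := s36_cp3i_le_A P K₀ (N₁ * q) hirr (s34_iv_coord_mem _ _ s18_t3 hTL)
  have hBii := s36_cp3i_le_A P K₀ (N₁ * q) hirr (s34_iv_coord_inv_mem _ _ s18_t3inv hTLinv)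
  -- degeneracy maps
  obtain ⟨hm0, hmi⟩ := s36_chm_t3 N₁ q K₀ P hq hqN h3 h3' h3'' hP w hw.1 hw.2.1
  exact ⟨s36_lqb_core P K₀ N₁ q hq hP w hw W₁ m hm hqm _ _ (fun x hx => (hWB0 x hx).1) hB0i
      hwB0 (fun x hx => s34_ic_root _ m hm x hx) (fun x hx => s34_ic_root _ m hm x hx) hm0,
    s36_lqb_core P K₀ N₁ q hq hP w hw W₁ m hm hqm _ _ (fun x hx => (hWBi x hx).1) hBii
      hwBi (fun x hx => s34_ic_root _ m hm x hx) (fun x hx => s34_ic_root _ m hm x hx) hmi⟩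

end Model

end Fermat.Agent.S36
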