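import Mathlib
import Fermat.Agent.S36.NrInst
import Fermat.Agent.S36.SwapC

/-!
# S36 (NODE-3), item (U2): the components block for the concrete `V_C`, no residual hypothesis

`s36_nic_pkg` / `s36_nic_pkgK` : `s36_ni_pkg` / `s36_ni_pkgK` (`S36/NrInst.lean`) with the model
input `hβC : W (α (Vi)) ⊆ V_C` discharged by `s36_swc_hbC` (`S36/SwapC.lean`).  The package
`s36_nc_Pkg` (all hypotheses of `s36_pow_of_model` on the three components, the level below, the
norm and the swap) holds for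

* `ι = α = heckeAlphaBar K₀ (N q) q`, `ϖ'' = q`, `z = s36_gc_z K₀ q (N q q)`, `n = q - 1`,
* `Vi = s34_gi_V A₀ (N q)`, `V0 = Vi.comap w`, `VA = s34_gi_V A₀ (N q q)`, `VB = VA.comap W`,
  `VC = s36_gc_V κ A (N q q) Θ`,

for ANY generator-wise swaps `w` (level `(N, q)`), `W` (level `(N, q q)`, an involution), and any
data `(κ, A, ζ, Θ)` with `s36_gc_IsCusp N q ζ Θ`, `s36_gc_IsUnif ζ`, `ζ` a primitive `q`-th root
of unity, `κ A₀ ⊆ A`, `q` irreducible in `A₀` (the output of `s36_gd_main`, `S36/GaussData.lean`).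
-/

set_option autoImplicit false
set_option linter.unusedSectionVars false
set_option linter.style.haveILetI false

open ModularCurve

noncomputable section

namespace Fermat.Agent.S36

open Fermat.Agent.S18 Fermat.Agent.S34 Fermat.Agent.S35

section Inst

variable {K0 K : Type*} [Field K0] [Field K] [Algebra ℚ K0] [Algebra ℚ K]
  [Algebra K0 (AlgebraicClosure ℚ)]

/-- A primitive `q`-th root of unity in `A`, as a unit, has `q`-th power one. -/
theorem s36_nic_zeta_pow {A : ValuationSubring K} (q : ℕ) (ζ : Aˣ)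
    (hprimA : IsPrimitiveRoot (ζ : A) q) : ζ ^ q = 1 :=
  Units.ext (by rw [Units.val_pow_eq_pow_val, Units.val_one]; exact hprimA.pow_eq_one)

set_option maxHeartbeats 1600000 in
set_option synthInstance.maxHeartbeats 400000 in
/-- **The components block for the concrete `V_C`.** -/
theorem s36_nic_pkg (κ : K0 →+* K) (A : ValuationSubring K) (A0 : ValuationSubring K0)
    [IsDiscreteValuationRing A0] (hA0 : ∀ b ∈ A0, κ b ∈ A)
    (N q : ℕ) [NeZero N] [NeZero q] [NeZero (N * q)] [NeZero (N * q * q)]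
    (hq : q.Prime) (hqM : q ^ 2 ∣ N * q * q) (hirr : Irreducible ((q : ℕ) : A0))
    (ζ : Aˣ)
    (Θ : laurentBaseChange K (modularFunctionFieldFull (N * q * q)) →ₐ[K] LaurentSeries K)
    (hcusp : s36_gc_IsCusp N q ζ Θ) (hunifA : s36_gc_IsUnif ζ)
    (hprimA : IsPrimitiveRoot (ζ : A) q)
    (w : laurentBaseChange K0 (modularFunctionFieldFull (N * q)) ≃ₐ[K0]
      laurentBaseChange K0 (modularFunctionFieldFull (N * q)))
    (hw : ∀ (d m : ℕ) (_ : d ∣ N) (_ : m ∣ q)
      (h1 : s34_sw_s K0 (d * m) ∈ laurentBaseChange K0 (modularFunctionFieldFull (N * q))),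
      ((w ⟨s34_sw_s K0 (d * m), h1⟩ :
        laurentBaseChange K0 (modularFunctionFieldFull (N * q))) : LaurentSeries K0) =
        s34_sw_s K0 (d * (q / m)))
    (W : laurentBaseChange K0 (modularFunctionFieldFull (N * q * q)) ≃ₐ[K0]
      laurentBaseChange K0 (modularFunctionFieldFull (N * q * q)))
    (hWW : ∀ x, W (W x) = x)
    (hW : ∀ (d m : ℕ) (_ : d ∣ N) (_ : m ∣ q * q)
      (h1 : s34_sw_s K0 (d * m) ∈ laurentBaseChange K0 (modularFunctionFieldFull (N * q * q))),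
      ((W ⟨s34_sw_s K0 (d * m), h1⟩ :
        laurentBaseChange K0 (modularFunctionFieldFull (N * q * q))) : LaurentSeries K0) =
        s34_sw_s K0 (d * (q * q / m))) :
    s36_nc_Pkg (heckeAlphaBar K0 (N * q) q).toRingHom
      (algebraMap K0 (laurentBaseChange K0 (modularFunctionFieldFull (N * q))) (q : K0))
      (s36_gc_z K0 q (N * q * q) hq hqM) (q - 1)
      (s34_gi_V A0 (N * q))
      ((s34_gi_V A0 (N * q)).comap
        ((w : laurentBaseChange K0 (modularFunctionFieldFull (N * q)) ≃+*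
          laurentBaseChange K0 (modularFunctionFieldFull (N * q))) : _ →+* _))
      (s34_gi_V A0 (N * q * q))
      ((s34_gi_V A0 (N * q * q)).comap
        ((W : laurentBaseChange K0 (modularFunctionFieldFull (N * q * q)) ≃+*
          laurentBaseChange K0 (modularFunctionFieldFull (N * q * q))) : _ →+* _))
      (s36_gc_V κ A (N * q * q) Θ)
      (W : laurentBaseChange K0 (modularFunctionFieldFull (N * q * q)) ≃+*
        laurentBaseChange K0 (modularFunctionFieldFull (N * q * q))) :=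
  s36_ni_pkg κ A A0 hA0 N q hq hqM hirr ζ Θ hcusp hunifA hprimA w hw W hWW hW
    (s36_swc_hbC hq hcusp (s36_nic_zeta_pow q ζ hprimA) A0 hA0 W hW)

end Inst

section InstK

local notation "Qb" => AlgebraicClosure ℚ

set_option maxHeartbeats 1600000 in
set_option synthInstance.maxHeartbeats 400000 in
/-- **The components block for the concrete `V_C`, over `K₀ ⊆ Q̄`** (vocabulary of
`S36/InstFun.lean`, `S36/InstNorm.lean`). -/
theorem s36_nic_pkgK (P : ValuationSubring Qb) (K₀ : IntermediateField ℚ Qb)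
    [IsDiscreteValuationRing (s18_A1 P K₀)]
    {K : Type*} [Field K] [Algebra ℚ K] (κ : K₀ →+* K) (A : ValuationSubring K)
    (hA0 : ∀ b ∈ s18_A1 P K₀, κ b ∈ A)
    (N' q : ℕ) [NeZero N'] [NeZero (N' * q)] [NeZero q] [NeZero (N' * q * q)]
    (hq : q.Prime) (hqM : q ^ 2 ∣ N' * q * q) (hirr : Irreducible ((q : ℕ) : s18_A1 P K₀))
    (ζ : Aˣ)
    (Θ : laurentBaseChange K (modularFunctionFieldFull (N' * q * q)) →ₐ[K] LaurentSeries K)
    (hcusp : s36_gc_IsCusp N' q ζ Θ) (hunifA : s36_gc_IsUnif ζ)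
    (hprimA : IsPrimitiveRoot (ζ : A) q)
    (w : s18_F1 K₀ (N' * q) ≃ₐ[K₀] s18_F1 K₀ (N' * q))
    (hw : ∀ (d m : ℕ) (_ : d ∣ N') (_ : m ∣ q)
      (h1 : s34_sw_s K₀ (d * m) ∈ s18_F1 K₀ (N' * q)),
      ((w ⟨s34_sw_s K₀ (d * m), h1⟩ : s18_F1 K₀ (N' * q)) : LaurentSeries K₀) =
        s34_sw_s K₀ (d * (q / m)))
    (W₁ : s18_F1 K₀ (N' * q * q) ≃ₐ[K₀] s18_F1 K₀ (N' * q * q))
    (hWW : ∀ x, W₁ (W₁ x) = x)
    (hW : ∀ (d m : ℕ) (_ : d ∣ N') (_ : m ∣ q * q)
      (h1 : s34_sw_s K₀ (d * m) ∈ s18_F1 K₀ (N' * q * q)),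
      ((W₁ ⟨s34_sw_s K₀ (d * m), h1⟩ : s18_F1 K₀ (N' * q * q)) : LaurentSeries K₀) =
        s34_sw_s K₀ (d * (q * q / m))) :
    s36_nc_Pkg (heckeAlphaBar K₀ (N' * q) q).toRingHom
      (algebraMap K₀ (s18_F1 K₀ (N' * q)) (q : K₀))
      (s36_gc_z K₀ q (N' * q * q) hq hqM) (q - 1)
      (s34_gi_V (s18_A1 P K₀) (N' * q))
      ((s34_gi_V (s18_A1 P K₀) (N' * q)).comap
        ((w : s18_F1 K₀ (N' * q) ≃+* s18_F1 K₀ (N' * q)) :
          s18_F1 K₀ (N' * q) →+* s18_F1 K₀ (N' * q)))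
      (s34_gi_V (s18_A1 P K₀) (N' * q * q))
      ((s34_gi_V (s18_A1 P K₀) (N' * q * q)).comap
        ((W₁ : s18_F1 K₀ (N' * q * q) ≃+* s18_F1 K₀ (N' * q * q)) :
          s18_F1 K₀ (N' * q * q) →+* s18_F1 K₀ (N' * q * q)))
      (s36_gc_V κ A (N' * q * q) Θ)
      (W₁ : s18_F1 K₀ (N' * q * q) ≃+* s18_F1 K₀ (N' * q * q)) :=
  s36_nic_pkg κ A (s18_A1 P K₀) hA0 N' q hq hqM hirr ζ Θ hcusp hunifA hprimA w hw W₁ hWW hW

end InstK

end Fermat.Agent.S36
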