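import Mathlib
import Fermat.Agent.S36.NrInstC
import Fermat.Agent.S36.GaussSwapQ

/-!
# S36 (NODE-3), item (U2): the components block for `V_C := s36_gw_VC`

`s36_nvc_pkg` : the package `s36_nc_Pkg` (all hypotheses of `s36_pow_of_model` on the three
components, the level below, the norm and the swap; `S36/NrChain.lean`) for the DEFINED third
valuation ring `s36_gw_VC P K₀ N₁ q hq hqN hP hunif` of `S36/GaussSwapQ.lean`:

* `ι = α = heckeAlphaBar K₀ (N₁ q) q`, `ϖ'' = q`, `z = s36_gc_z K₀ q (N₁ q q)`, `n = q - 1`,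
* `Vi = s34_gi_V A₀ (N₁ q)`, `V0 = Vi.comap w`, `VA = s34_gi_V A₀ (N₁ q q)`, `VB = VA.comap W₁`,
  `VC = s36_gw_VC P K₀ N₁ q hq hqN hP hunif`  (`A₀ = s18_A1 P K₀`),

for any generator-wise swaps `w` (level `(N₁, q)`) and `W₁` (level `(N₁, q q)`, an involution:
the two clauses of `s36_IsSwapK`).  (`s36_nic_pkgK` + `s36_gw_VC_spec`.)
-/

set_option autoImplicit false
set_option linter.unusedSectionVars false
set_option linter.style.haveILetI false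

open ModularCurve

noncomputable section

namespace Fermat.Agent.S36

open Fermat.Agent.S18 Fermat.Agent.S34 Fermat.Agent.S35

local notation "Qb" => AlgebraicClosure ℚ

set_option maxHeartbeats 1600000 in
set_option synthInstance.maxHeartbeats 400000 in
/-- **The components block for `V_C := s36_gw_VC`.** -/
theorem s36_nvc_pkg (P : ValuationSubring Qb) (K₀ : IntermediateField ℚ Qb)
    [IsDiscreteValuationRing (s18_A1 P K₀)]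
    (N₁ q : ℕ) [NeZero N₁] [NeZero (N₁ * q)] [NeZero q] [NeZero (N₁ * q * q)]
    (hq : q.Prime) (hqN : ¬ q ∣ N₁) (hP : P.LiesOverPrime q)
    (hunif : ∀ b : K₀, b ≠ 0 → ∃ m : ℤ, P.valuation (b : Qb) = P.valuation (q : Qb) ^ m)
    (hqM : q ^ 2 ∣ N₁ * q * q) (hirr : Irreducible ((q : ℕ) : s18_A1 P K₀))
    (w : s18_F1 K₀ (N₁ * q) ≃ₐ[K₀] s18_F1 K₀ (N₁ * q))
    (hw : ∀ (d m : ℕ) (_ : d ∣ N₁) (_ : m ∣ q)
      (h1 : s34_sw_s K₀ (d * m) ∈ s18_F1 K₀ (N₁ * q)),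
      ((w ⟨s34_sw_s K₀ (d * m), h1⟩ : s18_F1 K₀ (N₁ * q)) : LaurentSeries K₀) =
        s34_sw_s K₀ (d * (q / m)))
    (W₁ : s18_F1 K₀ (N₁ * q * q) ≃ₐ[K₀] s18_F1 K₀ (N₁ * q * q))
    (hWW : ∀ x, W₁ (W₁ x) = x)
    (hW : ∀ (d m : ℕ) (_ : d ∣ N₁) (_ : m ∣ q * q)
      (h1 : s34_sw_s K₀ (d * m) ∈ s18_F1 K₀ (N₁ * q * q)),
      ((W₁ ⟨s34_sw_s K₀ (d * m), h1⟩ : s18_F1 K₀ (N₁ * q * q)) : LaurentSeries K₀) =
        s34_sw_s K₀ (d * (q * q / m))) :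
    s36_nc_Pkg (heckeAlphaBar K₀ (N₁ * q) q).toRingHom
      (algebraMap K₀ (s18_F1 K₀ (N₁ * q)) (q : K₀))
      (s36_gc_z K₀ q (N₁ * q * q) hq hqM) (q - 1)
      (s34_gi_V (s18_A1 P K₀) (N₁ * q))
      ((s34_gi_V (s18_A1 P K₀) (N₁ * q)).comap
        ((w : s18_F1 K₀ (N₁ * q) ≃+* s18_F1 K₀ (N₁ * q)) :
          s18_F1 K₀ (N₁ * q) →+* s18_F1 K₀ (N₁ * q)))
      (s34_gi_V (s18_A1 P K₀) (N₁ * q * q))
      ((s34_gi_V (s18_A1 P K₀) (N₁ * q * q)).comap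
        ((W₁ : s18_F1 K₀ (N₁ * q * q) ≃+* s18_F1 K₀ (N₁ * q * q)) :
          s18_F1 K₀ (N₁ * q * q) →+* s18_F1 K₀ (N₁ * q * q)))
      (s36_gw_VC P K₀ N₁ q hq hqN hP hunif)
      (W₁ : s18_F1 K₀ (N₁ * q * q) ≃+* s18_F1 K₀ (N₁ * q * q)) := by
  obtain ⟨ζ₁, ζA, Θ, hV, -, -, hprim, hcusp, hunifA⟩ := s36_gw_VC_spec P K₀ N₁ q hq hqN hP hunif
  rw [hV]
  exact s36_nic_pkgK P K₀ (algebraMap K₀ (IntermediateField.adjoin K₀ ({ζ₁ - 1} : Set Qb)))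
    (P.comap (algebraMap (IntermediateField.adjoin K₀ ({ζ₁ - 1} : Set Qb)) Qb))
    (fun b hb => hb) N₁ q hq hqM hirr ζA Θ hcusp hunifA hprim w hw W₁ hWW hW

end Fermat.Agent.S36
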