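import Mathlib
import Fermat.Agent.S35.FrobAlg
import Fermat.Agent.S36.NrChain

/-!
# S36 (NODE-3): the global hypotheses of `s36_tri_rel` (TriFun) in unit form

* `s36_nu_Unit ι Nm ϖ' d₁ d₂ d₃ p Vi V0 V₁ V₂ V₃` : the global binders of `s36_tri_rel` (same
  names): the three components and the level below (`hV₁ … hd₂`), the global EXT in unit form
  (`hG₁`, `hG₃`, `hG₂`, with the premise `y ≠ 0`) and the norm–residue formulas in unit form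
  (`hN₁₃`, `hN₂`).
* `s36_nu_alpha` : from the package `s36_nc_Pkg ι ϖ'' z n Vi V0 VA VB VC W` (NrChain), the unit
  forms for `(ι, Nm, (V_A, V_B, V_C))`.
* `s36_nu_transport` : transport of the unit forms along an involution `W`
  (`ι ↦ W ∘ ι`, `Nm ↦ Nm ∘ W`, `V ↦ W⁻¹ V`, any uniformizers).
* `s36_nu_beta` : the unit forms for `(W ∘ ι, Nm ∘ W, (V_B, V_A, V_C))`.
-/

set_option autoImplicit false
set_option linter.unusedSectionVars false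
set_option linter.style.haveILetI false

namespace Fermat.Agent.S36

open Fermat.Agent.S34 Fermat.Agent.S35

variable {F'' F : Type*} [Field F''] [Field F]

/-- The global binders of `s36_tri_rel`. -/
structure s36_nu_Unit (ι : F'' →+* F) (Nm : F →* F'') (ϖ' : F'') (d₁ d₂ d₃ : F) (p : ℕ)
    (Vi V0 : Subring F'') (V₁ V₂ V₃ : Subring F) : Prop where
  hV₁ : s34_Unif d₁ V₁
  hV₂ : s34_Unif d₂ V₂
  hV₃ : s34_Unif d₃ V₃
  hVi : s34_Unif ϖ' Vi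
  hV0 : s34_Unif ϖ' V0
  hιi₁ : ∀ x ∈ Vi, ι x ∈ V₁
  hιi₃ : ∀ x ∈ Vi, ι x ∈ V₃
  hι0₂ : ∀ x ∈ V0, ι x ∈ V₂
  hd₁ : d₁⁻¹ * ι ϖ' ∈ V₁
  hd₂ : d₂⁻¹ * ι ϖ' ∈ V₂
  hG₁ : ∀ y, y ≠ 0 → y ∈ V₁ → y⁻¹ ∈ V₁ →
    ∃ a : F'', a ∈ Vi ∧ a⁻¹ ∈ Vi ∧ s35_fa_one d₁ V₁ (y / ι a)
  hG₃ : ∀ y, y ≠ 0 → y ∈ V₃ → y⁻¹ ∈ V₃ →
    ∃ c : F'', c ∈ Vi ∧ c⁻¹ ∈ Vi ∧ s35_fa_one d₃ V₃ (y / ι c)
  hG₂ : ∀ y, y ≠ 0 → y ∈ V₂ → y⁻¹ ∈ V₂ →
    ∃ b : F'', b ∈ V0 ∧ b⁻¹ ∈ V0 ∧ s35_fa_one d₂ V₂ (y ^ (p + 1) / ι b)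
  hN₁₃ : ∀ (h : F) (a c : F''), a ∈ Vi → a⁻¹ ∈ Vi → c ∈ Vi → c⁻¹ ∈ Vi →
    s35_fa_one d₁ V₁ (h / ι a) → s35_fa_one d₃ V₃ (h / ι c) →
    s35_fa_one ϖ' Vi (Nm h / (a * c ^ p))
  hN₂ : ∀ (h : F) (b : F''), b ∈ V0 → b⁻¹ ∈ V0 →
    s35_fa_one d₂ V₂ (h ^ (p + 1) / ι b) → s35_fa_one ϖ' V0 (Nm h / b)

/-- An element of `F''` whose image lies in a subring `V ⊇ ι V'` not containing `(ι ϖ'')⁻¹`
lies in `V'`. -/
theorem s36_nu_pull (ι : F'' →+* F) {ϖ'' : F''} {V' : Subring F''} {V : Subring F}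
    (hV' : s34_Unif ϖ'' V') (hι : ∀ x ∈ V', ι x ∈ V) (hϖ : (ι ϖ'')⁻¹ ∉ V)
    (y : F'') (hy : ι y ∈ V) : y ∈ V' := by
  by_cases hy0 : y = 0
  · rw [hy0]; exact V'.zero_mem
  obtain ⟨j, u, hu, hu', rfl⟩ := hV'.decomp y hy0
  have hu0 : u ≠ 0 := by rintro rfl; simp at hy0
  have hϖ0 : ι ϖ'' ≠ 0 := (map_ne_zero ι).mpr hV'.ne_zero
  have hj : 0 ≤ j := by
    by_contra hj
    apply hϖ
    have h1 : ι (ϖ'' ^ j * u) = ι ϖ'' ^ j * ι u := by rw [map_mul, map_zpow₀]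
    rw [h1] at hy
    have h2 : (ι u)⁻¹ ∈ V := by rw [← map_inv₀]; exact hι _ hu'
    have hιu0 : ι u ≠ 0 := (map_ne_zero ι).mpr hu0
    have h3 : ι ϖ'' ^ j ∈ V := by
      have e : ι ϖ'' ^ j = ι ϖ'' ^ j * ι u * (ι u)⁻¹ := by field_simp
      rw [e]; exact V.mul_mem hy h2
    obtain ⟨k, hk⟩ : ∃ k : ℕ, (k : ℤ) = -j - 1 := ⟨(-j - 1).toNat, Int.toNat_of_nonneg (by omega)⟩
    have h4 : ι ϖ'' ^ (k : ℤ) ∈ V := by
      rw [zpow_natCast]; exact V.pow_mem (hι _ hV'.mem) k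
    have e : (ι ϖ'')⁻¹ = ι ϖ'' ^ j * ι ϖ'' ^ (k : ℤ) := by
      rw [← zpow_add₀ hϖ0, hk]
      have : j + (-j - 1) = -1 := by ring
      rw [this, zpow_neg_one]
    rw [e]; exact V.mul_mem h3 h4
  exact V'.mul_mem (hV'.zpow_mem hj) hu

/-- An element congruent to a unit is a unit. -/
theorem s36_nu_cg_unit {d : F} {V : Subring F} (hV : s34_Unif d V) {y x : F} (hy0 : y ≠ 0)
    (hy' : y⁻¹ ∈ V) (h : d⁻¹ * (y - x) ∈ V) : x ≠ 0 ∧ x⁻¹ ∈ V := by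
  have hd := hV.ne_zero
  have hs : -(d⁻¹ * (y - x) * y⁻¹) ∈ V := V.neg_mem (V.mul_mem h hy')
  have e : x = y * (1 + d * (-(d⁻¹ * (y - x) * y⁻¹))) := by
    field_simp; ring
  have h1 := s35_fa_one_add_ne hV hs
  have h2 := hV.one_add_inv_mem hs
  constructor
  · rw [e]; exact mul_ne_zero hy0 h1
  · rw [e, mul_inv]; exact V.mul_mem hy' h2

/-- Transport of `s35_fa_one` along an involution, with a change of uniformizer. -/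
theorem s36_nu_fa_tr {d e : F} {V V' : Subring F} (hV : s34_Unif d V) (he : s34_Unif e V')
    (W : F ≃+* F) (hWW : ∀ x, W (W x) = x) (h : ∀ x, x ∈ V' ↔ W x ∈ V) {x : F}
    (hx : s35_fa_one d V (W x)) : s35_fa_one e V' x := by
  unfold s35_fa_one at *
  have hd := hV.ne_zero
  have hWd0 : W d ≠ 0 := (map_ne_zero W).mpr hd
  have ht : (W d)⁻¹ * (x - 1) ∈ V' := by
    rw [h, map_mul, map_inv₀, hWW, map_sub, map_one]
    exact hx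
  have hWd : W d ∈ V' := by rw [h, hWW]; exact hV.mem
  have h1 : e⁻¹ * W d ∈ V' := by
    rcases (s36_nc_to35 he).dvd_or_inv_mem hWd hWd0 with h1 | h1
    · exact h1
    · exfalso
      apply hV.inv_not_mem
      have := (h _).mp h1
      rwa [map_inv₀, hWW] at this
  have e1 : e⁻¹ * (x - 1) = e⁻¹ * W d * ((W d)⁻¹ * (x - 1)) := by field_simp
  rw [e1]; exact V'.mul_mem h1 ht

/-- **The unit forms along `ι`**, from the package. -/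
theorem s36_nu_alpha {ι : F'' →+* F} {ϖ'' : F''} {z : F} {n : ℕ} {Vi V0 : Subring F''}
    {VA VB VC : Subring F} {W : F ≃+* F} (pkg : s36_nc_Pkg ι ϖ'' z n Vi V0 VA VB VC W) :
    s36_nu_Unit ι (@Algebra.norm F'' F _ _ ι.toAlgebra) ϖ'' (ι ϖ'') (ι ϖ'') z n Vi V0
      VA VB VC := by
  have hϖ0 : ι ϖ'' ≠ 0 := pkg.hA.ne_zero
  have hz0 : z ≠ 0 := pkg.hC.ne_zero
  have hn := pkg.hn
  have hϖC : (ι ϖ'')⁻¹ ∉ VC := by
    intro h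
    apply pkg.hC.inv_not_mem
    obtain ⟨k, hk⟩ : ∃ k, n = k + 1 := ⟨n - 1, by omega⟩
    have hzn := pkg.hzn
    rw [hk] at hzn
    have e : z⁻¹ = (ι ϖ'')⁻¹ * (ι ϖ'' * (z ^ (k + 1))⁻¹) * z ^ k := by
      rw [pow_succ]; field_simp
    rw [e]
    exact VC.mul_mem (VC.mul_mem h hzn) (VC.pow_mem pkg.hC.mem k)
  refine
    { hV₁ := pkg.hA
      hV₂ := pkg.hB
      hV₃ := pkg.hC
      hVi := pkg.hVi
      hV0 := pkg.hV0
      hιi₁ := pkg.hιA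
      hιi₃ := pkg.hιC
      hι0₂ := pkg.hιB
      hd₁ := ?_
      hd₂ := ?_
      hG₁ := ?_
      hG₃ := ?_
      hG₂ := ?_
      hN₁₃ := ?_
      hN₂ := ?_ }
  · rw [inv_mul_cancel₀ hϖ0]; exact VA.one_mem
  · rw [inv_mul_cancel₀ hϖ0]; exact VB.one_mem
  · intro y hy0 hy hy'
    obtain ⟨a, ha, hya⟩ := pkg.hresA y hy
    obtain ⟨h1, h2⟩ := s36_nu_cg_unit pkg.hA hy0 hy' hya
    refine ⟨a, ha, ?_, s35_fa_one.of_cg hya h1 h2⟩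
    apply s36_nu_pull ι pkg.hVi pkg.hιA pkg.hA.inv_not_mem
    rw [map_inv₀]; exact h2
  · intro y hy0 hy hy'
    obtain ⟨c, hc, hyc⟩ := pkg.hresC y hy
    obtain ⟨h1, h2⟩ := s36_nu_cg_unit pkg.hC hy0 hy' hyc
    refine ⟨c, hc, ?_, s35_fa_one.of_cg hyc h1 h2⟩
    apply s36_nu_pull ι pkg.hVi pkg.hιC hϖC
    rw [map_inv₀]; exact h2
  · intro y hy0 hy hy'
    obtain ⟨b, hb, hyb⟩ := pkg.hresB y hy
    have hy1 : (y ^ (n + 1))⁻¹ ∈ VB := by rw [← inv_pow]; exact VB.pow_mem hy' _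
    obtain ⟨h1, h2⟩ := s36_nu_cg_unit pkg.hB (pow_ne_zero _ hy0) hy1 hyb
    refine ⟨b, hb, ?_, s35_fa_one.of_cg hyb h1 h2⟩
    apply s36_nu_pull ι pkg.hV0 pkg.hιB pkg.hB.inv_not_mem
    rw [map_inv₀]; exact h2
  · intro h a c ha ha' hc hc' h1 h3
    have ha0 : a ≠ 0 := by
      rintro rfl
      have := h1.ne_zero pkg.hA
      simp at this
    have hc0 : c ≠ 0 := by
      rintro rfl
      have := h3.ne_zero pkg.hC
      simp at this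
    have hιa0 : ι a ≠ 0 := (map_ne_zero ι).mpr ha0
    have hιc0 : ι c ≠ 0 := (map_ne_zero ι).mpr hc0
    have hhA : h ∈ VA := by
      have e : h = h / ι a * ι a := by field_simp
      rw [e]; exact VA.mul_mem (h1.mem pkg.hA) (pkg.hιA a ha)
    have hhC : h ∈ VC := by
      have e : h = h / ι c * ι c := by field_simp
      rw [e]; exact VC.mul_mem (h3.mem pkg.hC) (pkg.hιC c hc)
    have key := pkg.hNRram h hhA hhC a ha c hc (h1.to_cg hιa0 (pkg.hιA a ha))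
      (h3.to_cg hιc0 (pkg.hιC c hc))
    refine s35_fa_one.of_cg key (mul_ne_zero ha0 (pow_ne_zero _ hc0)) ?_
    rw [mul_inv, ← inv_pow]
    exact Vi.mul_mem ha' (Vi.pow_mem hc' _)
  · intro h b hb hb' h2
    have hb0 : b ≠ 0 := by
      rintro rfl
      have := h2.ne_zero pkg.hB
      simp at this
    have hιb0 : ι b ≠ 0 := (map_ne_zero ι).mpr hb0
    have hpow : h ^ (n + 1) ∈ VB := by
      have e : h ^ (n + 1) = h ^ (n + 1) / ι b * ι b := by field_simp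
      rw [e]; exact VB.mul_mem (h2.mem pkg.hB) (pkg.hιB b hb)
    have hhB : h ∈ VB := by
      by_cases hh0 : h = 0
      · rw [hh0]; exact VB.zero_mem
      rcases (s36_nc_to35 pkg.hB).mem_or_inv_mem h with h' | h'
      · exact h'
      · have e : h = h ^ (n + 1) * h⁻¹ ^ n := by
          rw [pow_succ, inv_pow, mul_assoc, mul_comm h, ← mul_assoc,
            mul_inv_cancel₀ (pow_ne_zero n hh0), one_mul]
        rw [e]; exact VB.mul_mem hpow (VB.pow_mem h' n)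
    have key := pkg.hNRins h hhB b hb (h2.to_cg hιb0 (pkg.hιB b hb))
    exact s35_fa_one.of_cg key hb0 hb'

/-- **Transport of the unit forms along an involution `W`.** -/
theorem s36_nu_transport {ι : F'' →+* F} {Nm : F →* F''} {ϖ' : F''} {d₁ d₂ d₃ : F} {p : ℕ}
    {Vi V0 : Subring F''} {V₁ V₂ V₃ : Subring F}
    (U : s36_nu_Unit ι Nm ϖ' d₁ d₂ d₃ p Vi V0 V₁ V₂ V₃)
    (W : F ≃+* F) (hWW : ∀ x, W (W x) = x) {V₁' V₂' V₃' : Subring F}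
    (h₁ : ∀ x, x ∈ V₁' ↔ W x ∈ V₁) (h₂ : ∀ x, x ∈ V₂' ↔ W x ∈ V₂)
    (h₃ : ∀ x, x ∈ V₃' ↔ W x ∈ V₃) {e₁ e₂ e₃ : F}
    (he₁ : s34_Unif e₁ V₁') (he₂ : s34_Unif e₂ V₂') (he₃ : s34_Unif e₃ V₃') :
    s36_nu_Unit ((W : F →+* F).comp ι) (Nm.comp (W : F →* F)) ϖ' e₁ e₂ e₃ p Vi V0
      V₁' V₂' V₃' := by
  have hιϖ0 : ι ϖ' ≠ 0 := (map_ne_zero ι).mpr U.hVi.ne_zero
  have hWιϖ0 : W (ι ϖ') ≠ 0 := (map_ne_zero W).mpr hιϖ0
  have h₁' : ∀ x, x ∈ V₁ ↔ W x ∈ V₁' := fun x => by rw [h₁, hWW]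
  have h₂' : ∀ x, x ∈ V₂ ↔ W x ∈ V₂' := fun x => by rw [h₂, hWW]
  have h₃' : ∀ x, x ∈ V₃ ↔ W x ∈ V₃' := fun x => by rw [h₃, hWW]
  -- `ι ϖ'` is a non-unit of `V₁`, `V₂`
  have hnu : ∀ (d : F) (V : Subring F), s34_Unif d V → d⁻¹ * ι ϖ' ∈ V → (ι ϖ')⁻¹ ∉ V := by
    intro d V hV hd hcon
    apply hV.inv_not_mem
    have e : d⁻¹ = d⁻¹ * ι ϖ' * (ι ϖ')⁻¹ := by field_simp
    rw [e]; exact V.mul_mem hd hcon
  have hdvd : ∀ (d e : F) (V V' : Subring F), s34_Unif d V → s34_Unif e V' →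
      (∀ x, x ∈ V' ↔ W x ∈ V) → ι ϖ' ∈ V → d⁻¹ * ι ϖ' ∈ V → e⁻¹ * W (ι ϖ') ∈ V' := by
    intro d e V V' hV he h hm hd
    have hm' : W (ι ϖ') ∈ V' := by rw [h, hWW]; exact hm
    rcases (s36_nc_to35 he).dvd_or_inv_mem hm' hWιϖ0 with h1 | h1
    · exact h1
    · exfalso
      apply hnu d V hV hd
      have := (h _).mp h1
      rwa [map_inv₀, hWW] at this
  refine
    { hV₁ := he₁
      hV₂ := he₂
      hV₃ := he₃
      hVi := U.hVi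
      hV0 := U.hV0
      hιi₁ := fun x hx => (h₁' _).mp (U.hιi₁ x hx)
      hιi₃ := fun x hx => (h₃' _).mp (U.hιi₃ x hx)
      hι0₂ := fun x hx => (h₂' _).mp (U.hι0₂ x hx)
      hd₁ := hdvd d₁ e₁ V₁ V₁' U.hV₁ he₁ h₁ (U.hιi₁ _ U.hVi.mem) U.hd₁
      hd₂ := hdvd d₂ e₂ V₂ V₂' U.hV₂ he₂ h₂ (U.hι0₂ _ U.hV0.mem) U.hd₂
      hG₁ := ?_
      hG₃ := ?_
      hG₂ := ?_
      hN₁₃ := ?_
      hN₂ := ?_ }
  · intro y hy0 hy hy'
    have hy1 : (W y)⁻¹ ∈ V₁ := by rw [← map_inv₀]; exact (h₁ _).mp hy'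
    obtain ⟨a, ha, ha', hfa⟩ := U.hG₁ (W y) ((map_ne_zero W).mpr hy0) ((h₁ _).mp hy) hy1
    refine ⟨a, ha, ha', s36_nu_fa_tr U.hV₁ he₁ W hWW h₁ ?_⟩
    show s35_fa_one d₁ V₁ (W (y / W (ι a)))
    rw [map_div₀, hWW]; exact hfa
  · intro y hy0 hy hy'
    have hy1 : (W y)⁻¹ ∈ V₃ := by rw [← map_inv₀]; exact (h₃ _).mp hy'
    obtain ⟨c, hc, hc', hfa⟩ := U.hG₃ (W y) ((map_ne_zero W).mpr hy0) ((h₃ _).mp hy) hy1
    refine ⟨c, hc, hc', s36_nu_fa_tr U.hV₃ he₃ W hWW h₃ ?_⟩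
    show s35_fa_one d₃ V₃ (W (y / W (ι c)))
    rw [map_div₀, hWW]; exact hfa
  · intro y hy0 hy hy'
    have hy1 : (W y)⁻¹ ∈ V₂ := by rw [← map_inv₀]; exact (h₂ _).mp hy'
    obtain ⟨b, hb, hb', hfa⟩ := U.hG₂ (W y) ((map_ne_zero W).mpr hy0) ((h₂ _).mp hy) hy1
    refine ⟨b, hb, hb', s36_nu_fa_tr U.hV₂ he₂ W hWW h₂ ?_⟩
    show s35_fa_one d₂ V₂ (W (y ^ (p + 1) / W (ι b)))
    rw [map_div₀, map_pow, hWW]; exact hfa
  · intro h a c ha ha' hc hc' hf1 hf3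
    have k1 : s35_fa_one d₁ V₁ (W h / ι a) := by
      apply s36_nu_fa_tr he₁ U.hV₁ W hWW h₁'
      rw [map_div₀, hWW]; exact hf1
    have k3 : s35_fa_one d₃ V₃ (W h / ι c) := by
      apply s36_nu_fa_tr he₃ U.hV₃ W hWW h₃'
      rw [map_div₀, hWW]; exact hf3
    exact U.hN₁₃ (W h) a c ha ha' hc hc' k1 k3
  · intro h b hb hb' hf2
    have k2 : s35_fa_one d₂ V₂ (W h ^ (p + 1) / ι b) := by
      apply s36_nu_fa_tr he₂ U.hV₂ W hWW h₂'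
      rw [map_div₀, map_pow, hWW]; exact hf2
    exact U.hN₂ (W h) b hb hb' k2

/-- **The unit forms along `W ∘ ι`** (norm `Nm ∘ W`, components `(V_B, V_A, V_C)`). -/
theorem s36_nu_beta {ι : F'' →+* F} {ϖ'' : F''} {z : F} {n : ℕ} {Vi V0 : Subring F''}
    {VA VB VC : Subring F} {W : F ≃+* F} (pkg : s36_nc_Pkg ι ϖ'' z n Vi V0 VA VB VC W) :
    s36_nu_Unit ((W : F →+* F).comp ι)
      ((@Algebra.norm F'' F _ _ ι.toAlgebra).comp (W : F →* F)) ϖ'' (ι ϖ'') (ι ϖ'') z n Vi V0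
      VB VA VC :=
  s36_nu_transport (s36_nu_alpha pkg) W pkg.hWW pkg.hWAB
    (fun x => by rw [pkg.hWAB (W x), pkg.hWW]) pkg.hWC pkg.hB pkg.hA pkg.hC

end Fermat.Agent.S36
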