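import Fermat.Agent.S36.QTheta
import Fermat.Agent.S34.FrobChart

/-!
# S36 (NODE-3), leaf (K-ii): the thickness formula in a general coordinate

Let `W = s18_W ι ρ ⊆ L((Q))` be the coefficientwise Gauss ring (`char L = 0`, residue field `k`
of characteristic `q`) and `θ = Q d/dQ`.

* `s36_qk_theta_mem_W`, `s36_qk_red_theta` : `θ` preserves `W` and commutes with reduction.
* `s36_qk_frob_theta` : if `x, a ∈ W`, `q · a = x^q - x(Q^q)` and the reduction `x̄` has
  Frobenius-fixed coefficients, then `θ ā = x̄^(q-1) · θ x̄ - (θ x̄)^q`.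
* `s36_qk_gamma` : with `γ := - ā · (x̄ - x̄^(q²))` (the reduction of `Γ`, where
  `(x^q - x₁)(x - x₁^q) = - q Γ`) and `B̄ := x̄ - x̄^(q²)`:
  `B̄² (θ x̄)^q = B̄² x̄^(q-1) θ x̄ + B̄ θ γ - γ θ x̄`,
  i.e. `(θ x̄)^(q-1) = x̄^(q-1) + d/dx̄ [γ / B̄]`.
* `s36_qk_regular_of_dvd` : abstract consequence: in a ring `O` stable under `d/dx̄`, if `B̄ ∣ γ`
  then `(θ x̄)^(q-1) ∈ O` ("no pole"); so a pole of `(θ x̄)^(q-1)` forces `γ ∉ B̄ O`
  (thickness one).
-/

set_option autoImplicit false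
set_option linter.style.haveILetI false
set_option linter.unusedSectionVars false
set_option linter.deprecated false

open ModularCurve

noncomputable section

namespace Fermat.Agent.S36

open Fermat.Agent.S18 Fermat.Agent.S28 Fermat.Agent.S34 Fermat.Agent.S37

section Formal

variable {R : Type*} [CommRing R]

theorem s36_qk_theta_C_mul (c : R) (f : LaurentSeries R) :
    s36_qt_theta R (HahnSeries.C c * f) = HahnSeries.C c * s36_qt_theta R f := by
  rw [s36_qt_theta_mul, s36_qt_theta_C, zero_mul, zero_add]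

theorem s36_qk_theta_qExpand (N : ℕ) [NeZero N] (f : LaurentSeries R) :
    s36_qt_theta R (qExpand R N f) = HahnSeries.C (N : R) * qExpand R N (s36_qt_theta R f) := by
  ext m
  rw [s36_qt_theta_coeff, formal_coeff_C_mul]
  by_cases hm : (N : ℤ) ∣ m
  · obtain ⟨k, rfl⟩ := hm
    rw [qExpand_coeff_mul, qExpand_coeff_mul, s36_qt_theta_coeff]
    push_cast
    ring
  · rw [qExpand_coeff_of_not_dvd N f hm, qExpand_coeff_of_not_dvd N _ hm, mul_zero, mul_zero]

/-- Quotient rule without division: if `s * r = y` then `s² θ r = s θ y - θ s · y`. -/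
theorem s36_qk_theta_quot {s r y : LaurentSeries R} (h : s * r = y) :
    s ^ 2 * s36_qt_theta R r = s * s36_qt_theta R y - s36_qt_theta R s * y := by
  rw [← h, s36_qt_theta_mul]
  ring

theorem s36_qk_theta_pow_char {k : Type*} [CommRing k] (q : ℕ) [CharP k q] (hq : 0 < q)
    (f : LaurentSeries k) : s36_qt_theta k (f ^ q) = 0 := by
  obtain ⟨n, rfl⟩ : ∃ n, q = n + 1 := ⟨q - 1, by omega⟩
  rw [s36_qt_theta_pow, nsmul_eq_mul]
  have h0 : ((n + 1 : ℕ) : LaurentSeries k) = 0 := by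
    rw [← map_natCast (HahnSeries.C : k →+* LaurentSeries k), CharP.cast_eq_zero, map_zero]
  rw [h0, zero_mul]

end Formal

section Gauss

variable {R L k : Type*} [CommRing R] [Field L] [Field k] {ι : R →+* L} {ρ : R →+* k}

/-- `θ` preserves the Gauss ring. -/
theorem s36_qk_theta_mem_W {x : LaurentSeries L} (hx : x ∈ s18_W ι ρ) :
    s36_qt_theta L x ∈ s18_W ι ρ := by
  obtain ⟨s, y, hs, h⟩ := hx
  refine ⟨s ^ 2, s * s36_qt_theta R y - s36_qt_theta R s * y, ?_, ?_⟩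
  · rw [map_pow]
    exact pow_ne_zero _ hs
  · rw [map_pow, s36_qk_theta_quot h, map_sub, map_mul, map_mul, s36_qt_theta_coeffMap,
      s36_qt_theta_coeffMap]

/-- `θ` commutes with the reduction map of the Gauss ring. -/
theorem s36_qk_red_theta (hι : Function.Injective ι) (x : LaurentSeries L)
    (hx : x ∈ s18_W ι ρ) :
    s18_red hι ⟨s36_qt_theta L x, s36_qk_theta_mem_W hx⟩ =
      s36_qt_theta k (s18_red hι ⟨x, hx⟩) := by
  obtain ⟨s, y, hs, h⟩ := id hx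
  have hs2 : coeffMap ρ (s ^ 2) ≠ 0 := by
    rw [map_pow]
    exact pow_ne_zero _ hs
  have h2 : coeffMap ι (s ^ 2) * s36_qt_theta L x =
      coeffMap ι (s * s36_qt_theta R y - s36_qt_theta R s * y) := by
    rw [map_pow, s36_qk_theta_quot h, map_sub, map_mul, map_mul, s36_qt_theta_coeffMap,
      s36_qt_theta_coeffMap]
  have e1 := s18_red_spec (ρ := ρ) hι ⟨s36_qt_theta L x, s36_qk_theta_mem_W hx⟩ _ _ h2
  have e2 := s18_red_spec (ρ := ρ) hι ⟨x, hx⟩ s y h
  have e3 := s36_qk_theta_quot e2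
  have e4 : coeffMap ρ (s ^ 2) * s18_red hι ⟨s36_qt_theta L x, s36_qk_theta_mem_W hx⟩ =
      coeffMap ρ (s ^ 2) * s36_qt_theta k (s18_red hι ⟨x, hx⟩) := by
    rw [e1, map_pow, e3, map_sub, map_mul, map_mul, s36_qt_theta_coeffMap,
      s36_qt_theta_coeffMap]
  exact mul_left_cancel₀ hs2 e4

end Gauss

section Frob

variable {R L k : Type*} [CommRing R] [Field L] [Field k] {ι : R →+* L} {ρ : R →+* k}

/-- Reduction of `x(Q^q)` when the reduction of `x` has Frobenius-fixed coefficients. -/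
theorem s36_qk_red_qExpand (hι : Function.Injective ι) (q : ℕ) [NeZero q] [Fact q.Prime]
    [CharP k q] (x : LaurentSeries L) (hx : x ∈ s18_W ι ρ)
    (hfix : coeffMap (frobenius k q) (s18_red hι ⟨x, hx⟩) = s18_red hι ⟨x, hx⟩) :
    s18_red hι ⟨qExpand L q x, s34_fc_qExpand_mem_W q hx⟩ = s18_red hι ⟨x, hx⟩ ^ q := by
  rw [s34_fc_red_qExpand hι q x hx, s37_ec_pow_char q, hfix]

/-- **Derivative of the Frobenius congruence.** If `q · a = x^q - x(Q^q)` in the Gauss ring and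
`x̄` has Frobenius-fixed coefficients, then `θ ā = x̄^(q-1) θ x̄ - (θ x̄)^q`. -/
theorem s36_qk_frob_theta (hι : Function.Injective ι) (q : ℕ) [NeZero q] [Fact q.Prime]
    [CharP k q] (hqL : (q : L) ≠ 0)
    (x a : LaurentSeries L) (hx : x ∈ s18_W ι ρ) (ha : a ∈ s18_W ι ρ)
    (hxa : HahnSeries.C (q : L) * a = x ^ q - qExpand L q x)
    (hfix : coeffMap (frobenius k q) (s18_red hι ⟨x, hx⟩) = s18_red hι ⟨x, hx⟩) :
    s36_qt_theta k (s18_red hι ⟨a, ha⟩) =
      s18_red hι ⟨x, hx⟩ ^ (q - 1) * s36_qt_theta k (s18_red hι ⟨x, hx⟩)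
        - s36_qt_theta k (s18_red hι ⟨x, hx⟩) ^ q := by
  have hqpos : 0 < q := (Fact.out : q.Prime).pos
  have hq1 : q - 1 + 1 = q := by omega
  -- characteristic zero identity
  have h1 : s36_qt_theta L a =
      x ^ (q - 1) * s36_qt_theta L x - qExpand L q (s36_qt_theta L x) := by
    have hC : (HahnSeries.C (q : L) : LaurentSeries L) ≠ 0 := by
      rw [Ne, map_eq_zero]
      exact hqL
    have h2 := congrArg (s36_qt_theta L) hxa
    rw [s36_qk_theta_C_mul, map_sub, s36_qk_theta_qExpand] at h2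
    have h3 : s36_qt_theta L (x ^ q) =
        HahnSeries.C (q : L) * (x ^ (q - 1) * s36_qt_theta L x) := by
      have h4 := s36_qt_theta_pow x (q - 1)
      rw [hq1, nsmul_eq_mul] at h4
      rw [h4, map_natCast]
    apply mul_left_cancel₀ hC
    rw [h2, h3]
    ring
  -- reduce
  have hθx : s36_qt_theta L x ∈ s18_W ι ρ := s36_qk_theta_mem_W hx
  have hθa : s36_qt_theta L a ∈ s18_W ι ρ := s36_qk_theta_mem_W ha
  have hV : qExpand L q (s36_qt_theta L x) ∈ s18_W ι ρ := s34_fc_qExpand_mem_W q hθx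
  have e : (⟨s36_qt_theta L a, hθa⟩ : s18_W ι ρ) =
      (⟨x, hx⟩ : s18_W ι ρ) ^ (q - 1) * ⟨s36_qt_theta L x, hθx⟩
        - ⟨qExpand L q (s36_qt_theta L x), hV⟩ := Subtype.ext h1
  have e2 := congrArg (s18_red hι) e
  rw [map_sub, map_mul, map_pow, s36_qk_red_theta hι a ha, s36_qk_red_theta hι x hx] at e2
  rw [e2]
  congr 1
  have hfix' : coeffMap (frobenius k q) (s36_qt_theta k (s18_red hι ⟨x, hx⟩)) =
      s36_qt_theta k (s18_red hι ⟨x, hx⟩) := by
    rw [← s36_qt_theta_coeffMap, hfix]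
  have e3 := s34_fc_red_qExpand hι q (s36_qt_theta L x) hθx
  rw [s36_qk_red_theta hι x hx] at e3
  rw [e3, s37_ec_pow_char q, hfix']

end Frob

/-- **The thickness formula.** With `B̄ = x̄ - x̄^(q²)` and `γ = - ā B̄`:
`B̄² (θ x̄)^q = B̄² x̄^(q-1) θ x̄ + B̄ θ γ - γ θ x̄`. -/
theorem s36_qk_gamma {k : Type*} [CommRing k] (q : ℕ) [Fact q.Prime] [CharP k q]
    (xb ab : LaurentSeries k)
    (h : s36_qt_theta k ab = xb ^ (q - 1) * s36_qt_theta k xb - s36_qt_theta k xb ^ q) :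
    (xb - xb ^ (q ^ 2)) ^ 2 * s36_qt_theta k xb ^ q =
      (xb - xb ^ (q ^ 2)) ^ 2 * xb ^ (q - 1) * s36_qt_theta k xb
        + (xb - xb ^ (q ^ 2)) * s36_qt_theta k (-(ab * (xb - xb ^ (q ^ 2))))
        - (-(ab * (xb - xb ^ (q ^ 2)))) * s36_qt_theta k xb := by
  have hqpos : 0 < q := (Fact.out : q.Prime).pos
  have hB : s36_qt_theta k (xb - xb ^ (q ^ 2)) = s36_qt_theta k xb := by
    rw [map_sub, pow_two, pow_mul, s36_qk_theta_pow_char q hqpos, sub_zero]
  rw [map_neg, s36_qt_theta_mul, hB, h]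
  ring

/-- **No pole when `B̄ ∣ γ`.** Abstract form: `θ` a derivation of a field `F`, `O` a subring
stable under `d/dx̄ = θ / θ x̄`; if `γ = B̄ γ₁` with `γ₁ ∈ O` and the thickness formula holds, then
`(θ x̄)^(q-1) = x̄^(q-1) + d γ₁/dx̄ ∈ O`. -/
theorem s36_qk_regular_of_dvd {F : Type*} [Field F] (θ : F →+ F)
    (hθ : ∀ f g, θ (f * g) = θ f * g + f * θ g) (O : Subring F) (q : ℕ) (hq : 0 < q)
    (xb Bb γ γ1 : F) (hxb : xb ∈ O) (hBθ : θ Bb = θ xb) (hB0 : Bb ≠ 0) (hθx : θ xb ≠ 0)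
    (hD : ∀ f ∈ O, ∃ g ∈ O, θ f = g * θ xb)
    (hγ1 : γ1 ∈ O) (hγ : γ = Bb * γ1)
    (hid : Bb ^ 2 * θ xb ^ q = Bb ^ 2 * xb ^ (q - 1) * θ xb + Bb * θ γ - γ * θ xb) :
    θ xb ^ (q - 1) ∈ O := by
  obtain ⟨g, hg, hg'⟩ := hD γ1 hγ1
  have h1 : θ γ = θ xb * γ1 + Bb * (g * θ xb) := by rw [hγ, hθ, hBθ, hg']
  have hpow : θ xb ^ q = θ xb * θ xb ^ (q - 1) := by
    rw [← pow_succ']
    congr 1
    omega
  have h2 : Bb ^ 2 * θ xb * θ xb ^ (q - 1) = Bb ^ 2 * θ xb * (xb ^ (q - 1) + g) := by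
    rw [h1, hγ, hpow] at hid
    linear_combination hid
  have h3 := mul_left_cancel₀ (mul_ne_zero (pow_ne_zero 2 hB0) hθx) h2
  rw [h3]
  exact O.add_mem (O.pow_mem hxb _) hg

end Fermat.Agent.S36
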