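import Fermat.Agent.S18.Haupt3
import Fermat.Agent.S16.Ramanujan
import Fermat.Agent.S16.U9Series
import Fermat.Agent.S36.QThick
import Fermat.Agent.S36.Pole23

/-!
# S36 (NODE-3), leaf (POLE23), `q`-series half

All statements are identities between integral Laurent series (`LaurentSeries ℤ`); apply
`coeffMap (Int.castRingHom _)` to transport them to `K((Q))`, `𝔽_q((Q))`, ….
`x₂ = s18_t2`, `y₂ = x₂(Q²)`, `x₃ = s18_t3`, `y₃ = x₃(Q³)`, `θ = s36_qt_theta ℤ`.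

* `s36_p23_theta_delta` : `θ Δ = E₂ Δ` (Laurent form), `E₂ = 1 - 24 σ`.
* `s36_p23_theta_t2` : `∃ r, θ t₂ = - t₂ + 24 r`;  `s36_p23_theta_t3` : `∃ r, θ t₃ = - t₃ + 12 r`.
* `s36_p23_mod2`, `s36_p23_mod3` : the modular equations
  `(x₂ + 16)³ y₂² = x₂ (y₂ + 256)³`, `(x₃ + 27)(x₃ + 3)³ y₃³ = x₃ (y₃ + 27)(y₃ + 243)³`.
* `s36_p23_t4` : `∃ t₄ : LaurentSeries ℤ, t₄ (x₂ + 16) = y₂ - 16 x₂ ∧ t₄² = x₂ t₄ + 16 x₂ ∧
  (x₂ + 1)(t₄ + 1) = (t₄ - 1)² + 3 (t₄ - 5 x₂)`.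
* `s36_p23_t9` : `∃ t₉, t₉ (x₃ y₃ + 9 y₃ - 243 x₃ + 729) = y₃ (x₃² + 18 x₃ + 27) + 1458 x₃ ∧
  t₉³ = x₃ (t₉² + 9 t₉ + 27) ∧ (x₃ + 1)(t₉² + t₉ + 1) = (t₉ + 1)³ - 2 (…)`.
* `s36_p23_t3_j`, `s36_p23_t2_j` : `t₃ ≡ j mod 27`, `t₂ ≡ j mod 256`.
* `s36_p23_f3`, `s36_p23_f2` : `t₂² t₃ ≡ (t₂ + 1)³ mod 3`, `t₃³ t₂ ≡ (t₃ + 1)⁴ mod 2`.
* `s36_p23_swap3`, `s36_p23_swap2` : the swapped Hauptmodul `W(t_q)` reduces to `0` modulo `q`
  (pure algebra from the two swapped `j`-identities, `j̄(Q^q) = j̄^q`, `j̄^(q²) ≠ j̄`).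
* Reductions (`k` any commutative ring of characteristic `3` resp. `2`,
  `x̄ := coeffMap (Int.castRingHom k) x`): `s36_p23_theta_t2_bar : θ t̄₂ = - t̄₂`,
  `s36_p23_theta_t3_bar : θ t̄₃ = - t̄₃`, `s36_p23_t4_bar : (t̄₂ + 1)(t̄₄ + 1) = (t̄₄ - 1)²`,
  `s36_p23_t9_bar : (t̄₃ + 1)(t̄₉² + t̄₉ + 1) = (t̄₉ + 1)³`, `s36_p23_f3_bar`, `s36_p23_f2_bar`,
  `s36_p23_t3_j_bar : t̄₃ = j̄` (char 3), `s36_p23_t2_j_bar : t̄₂ = j̄` (char 2).
-/

set_option autoImplicit false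
set_option linter.unusedSectionVars false

open ModularCurve

noncomputable section

namespace Fermat.Agent.S36

open Fermat.Agent.S16 Fermat.Agent.S18 Fermat.Agent.S28

/-! ### Leading terms -/

theorem s36_p23_lead_add {s g : LaurentSeries ℤ} {e : ℤ} (h : IsLeading s e 1)
    (hg : ∀ n ≤ e, g.coeff n = 0) : IsLeading (s + g) e 1 :=
  ⟨by rw [HahnSeries.coeff_add, h.1, hg e le_rfl, add_zero],
    fun n hn => by rw [HahnSeries.coeff_add, h.2 n hn, hg n hn.le, add_zero]⟩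

theorem s36_p23_coeff_intCast (c : ℤ) {n : ℤ} (hn : n ≠ 0) :
    ((c : LaurentSeries ℤ)).coeff n = 0 := by
  have : ((c : LaurentSeries ℤ)) = HahnSeries.C c := (map_intCast (HahnSeries.C) c).symm
  rw [this, HahnSeries.C_apply, HahnSeries.coeff_single_of_ne hn]

theorem s36_p23_lead_t2 : IsLeading s18_t2 (-1) 1 := by
  have hc : PowerSeries.constantCoeff (s18_B2 * s18_A2'.invOfUnit 1) = 1 := by
    rw [map_mul, s18_constantCoeff_B2, PowerSeries.constantCoeff_invOfUnit]; simp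
  have h := formal_isLeading_single_mul (A := ℤ) (-1) (s18_B2 * s18_A2'.invOfUnit 1)
  rw [hc] at h
  exact h

theorem s36_p23_lead_t3 : IsLeading s18_t3 (-1) 1 := by
  have hc : PowerSeries.constantCoeff (s18_C3 * s18_A3'.invOfUnit 1) = 1 := by
    rw [map_mul, s18_constantCoeff_C3, PowerSeries.constantCoeff_invOfUnit]; simp
  have h := formal_isLeading_single_mul (A := ℤ) (-1) (s18_C3 * s18_A3'.invOfUnit 1)
  rw [hc] at h
  exact h

/-! ### The modular equations -/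

/-- Level 2: `(x + 16)³ y² = x (y + 256)³` for `x = t₂(Q)`, `y = t₂(Q²)`. -/
theorem s36_p23_mod2 :
    (s18_t2 + 16) ^ 3 * (qExpand ℤ 2 s18_t2) ^ 2 =
      s18_t2 * (qExpand ℤ 2 s18_t2 + 256) ^ 3 := by
  have h1 := s18_t2_j2
  have h2 := congrArg (qExpand ℤ 2) s18_t2_j
  rw [map_mul, map_pow, map_pow, map_add, map_ofNat] at h2
  linear_combination (-(qExpand ℤ 2 s18_t2) ^ 2) * h1 + s18_t2 * h2

/-- Level 3: `(x + 27)(x + 3)³ y³ = x (y + 27)(y + 243)³` for `x = t₃(Q)`, `y = t₃(Q³)`. -/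
theorem s36_p23_mod3 :
    (s18_t3 + 27) * (s18_t3 + 3) ^ 3 * (qExpand ℤ 3 s18_t3) ^ 3 =
      s18_t3 * (qExpand ℤ 3 s18_t3 + 27) * (qExpand ℤ 3 s18_t3 + 243) ^ 3 := by
  have h1 := s18_t3_j3
  have h2 := congrArg (qExpand ℤ 3) s18_t3_j
  rw [map_mul, map_pow, map_mul, map_pow, map_add, map_add, map_ofNat, map_ofNat] at h2
  linear_combination (-(qExpand ℤ 3 s18_t3) ^ 3) * h1 + s18_t3 * h2

/-! ### `t₄` and `t₉` -/

/-- **`t₄`** as an integral Laurent series. -/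
theorem s36_p23_t4 :
    ∃ t4 : LaurentSeries ℤ,
      t4 * (s18_t2 + 16) = qExpand ℤ 2 s18_t2 - 16 * s18_t2 ∧
      t4 ^ 2 = s18_t2 * t4 + 16 * s18_t2 ∧
      (s18_t2 + 1) * (t4 + 1) = (t4 - 1) ^ 2 + 3 * (t4 - 5 * s18_t2) := by
  set x := s18_t2 with hx
  set y := qExpand ℤ 2 s18_t2 with hy
  have hlx : IsLeading x (-1) 1 := s36_p23_lead_t2
  have hly : IsLeading y (-2) 1 := by
    have := hlx.qExpand 2
    simpa using this
  have h16 : IsLeading (x + 16) (-1) 1 :=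
    s36_p23_lead_add hlx (fun n hn => by
      have := s36_p23_coeff_intCast 16 (n := n) (by omega)
      simpa using this)
  have hxy : IsLeading (x * y - 4096) (-3) 1 := by
    have h1 := hlx.mul hly
    rw [one_mul] at h1
    rw [sub_eq_add_neg]
    refine s36_p23_lead_add (by simpa using h1) (fun n hn => ?_)
    have := s36_p23_coeff_intCast (-4096) (n := n) (by omega)
    simpa using this
  obtain ⟨g, hg, -⟩ := h16.exists_inv 1
  have hx16 : x + 16 ≠ 0 := h16.ne_zero one_ne_zero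
  have hxy' : x * y ≠ 4096 := sub_ne_zero.mp (hxy.ne_zero one_ne_zero)
  have ht : (y - 16 * x) * g * (x + 16) = y - 16 * x := by
    linear_combination (y - 16 * x) * hg
  have h2 := s36_p23_alg4 x y ((y - 16 * x) * g) s36_p23_mod2 hxy' hx16 ht
  exact ⟨(y - 16 * x) * g, ht, h2, s36_p23_rel4 x _ h2⟩

/-- **`t₉`** as an integral Laurent series. -/
theorem s36_p23_t9 :
    ∃ t9 : LaurentSeries ℤ,
      t9 * (s18_t3 * qExpand ℤ 3 s18_t3 + 9 * qExpand ℤ 3 s18_t3 - 243 * s18_t3 + 729) =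
        qExpand ℤ 3 s18_t3 * (s18_t3 ^ 2 + 18 * s18_t3 + 27) + 1458 * s18_t3 ∧
      t9 ^ 3 = s18_t3 * (t9 ^ 2 + 9 * t9 + 27) ∧
      (s18_t3 + 1) * (t9 ^ 2 + t9 + 1) =
        (t9 + 1) ^ 3 - 2 * (4 * s18_t3 * t9 + 13 * s18_t3 + t9 ^ 2 + t9) := by
  set x := s18_t3 with hx
  set y := qExpand ℤ 3 s18_t3 with hy
  have hlx : IsLeading x (-1) 1 := s36_p23_lead_t3
  have hly : IsLeading y (-3) 1 := by
    have := hlx.qExpand 3
    simpa using this
  have hxy1 : IsLeading (x * y) (-4) 1 := by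
    have h1 := hlx.mul hly
    rw [one_mul] at h1
    simpa using h1
  have hxy : IsLeading (x * y - 729) (-4) 1 := by
    rw [sub_eq_add_neg]
    refine s36_p23_lead_add hxy1 (fun n hn => ?_)
    have := s36_p23_coeff_intCast (-729) (n := n) (by omega)
    simpa using this
  have hD : IsLeading (x * y + 9 * y - 243 * x + 729) (-4) 1 := by
    have e : x * y + 9 * y - 243 * x + 729 = x * y + (9 * y - 243 * x + 729) := by ring
    rw [e]
    refine s36_p23_lead_add hxy1 (fun n hn => ?_)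
    have h9 : (9 : LaurentSeries ℤ) = HahnSeries.C (9 : ℤ) := (map_ofNat _ 9).symm
    have h243 : (243 : LaurentSeries ℤ) = HahnSeries.C (243 : ℤ) := (map_ofNat _ 243).symm
    have h729 := s36_p23_coeff_intCast 729 (n := n) (by omega)
    rw [HahnSeries.coeff_add, HahnSeries.coeff_sub, h9, h243, formal_coeff_C_mul,
      formal_coeff_C_mul, hly.2 n (by omega), hlx.2 n (by omega)]
    simpa using h729
  obtain ⟨g, hg, -⟩ := hD.exists_inv 1
  have hD0 : x * y + 9 * y - 243 * x + 729 ≠ 0 := hD.ne_zero one_ne_zero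
  have hxy' : x * y ≠ 729 := sub_ne_zero.mp (hxy.ne_zero one_ne_zero)
  have ht : (y * (x ^ 2 + 18 * x + 27) + 1458 * x) * g * (x * y + 9 * y - 243 * x + 729) =
      y * (x ^ 2 + 18 * x + 27) + 1458 * x := by
    linear_combination (y * (x ^ 2 + 18 * x + 27) + 1458 * x) * hg
  have h2 := s36_p23_alg9 x y _ s36_p23_mod3 hxy' hD0 ht
  exact ⟨_, ht, h2, s36_p23_rel9 x _ h2⟩

/-! ### `θ Δ = E₂ Δ` and the `θ`-congruences for the Hauptmoduln -/

/-- `θ Δ = E₂ Δ` for the integral power series. -/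
theorem s36_p23_qsTheta_delta : qsTheta deltaZ = e2Z * deltaZ := by
  have h := congrArg qsTheta did_deltaZ_identity
  have h1728 : (1728 : PowerSeries ℤ) = PowerSeries.C (1728 : ℤ) := (map_ofNat _ 1728).symm
  have h3 : qsTheta (e4Z ^ 3) = 3 * (e4Z ^ 2 * qsTheta e4Z) := by
    have := qsTheta_pow e4Z 2
    simpa using this
  have h2 : qsTheta (e6Z ^ 2) = 2 * (e6Z * qsTheta e6Z) := by
    have := qsTheta_pow e6Z 1
    simpa using this
  rw [h1728, qsTheta_C_mul, ← h1728, qsTheta_sub, h3, h2] at h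
  have key : (1728 : PowerSeries ℤ) * (qsTheta deltaZ - e2Z * deltaZ) = 0 := by
    linear_combination h + e4Z ^ 2 * ramanujan_e4 - e6Z * ramanujan_e6
      - e2Z * did_deltaZ_identity
  exact sub_eq_zero.mp ((mul_eq_zero.mp key).resolve_left s18h_ofNat_ne_zero)

/-- `θ` on power series and on Laurent series agree. -/
theorem s36_p23_theta_ofPowerSeries (p : PowerSeries ℤ) :
    s36_qt_theta ℤ (HahnSeries.ofPowerSeries ℤ ℤ p) =
      HahnSeries.ofPowerSeries ℤ ℤ (qsTheta p) := by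
  ext n
  rw [s36_qt_theta_coeff]
  rcases lt_or_ge n 0 with hn | hn
  · rw [ofPowerSeries_coeff_of_neg _ hn, ofPowerSeries_coeff_of_neg _ hn, mul_zero]
  · obtain ⟨m, rfl⟩ := Int.eq_ofNat_of_zero_le hn
    rw [HahnSeries.ofPowerSeries_apply_coeff, HahnSeries.ofPowerSeries_apply_coeff,
      coeff_qsTheta]
    simp

/-- `θ Δ = E₂ Δ` for Laurent series. -/
theorem s36_p23_theta_delta :
    s36_qt_theta ℤ (HahnSeries.ofPowerSeries ℤ ℤ deltaZ) =
      HahnSeries.ofPowerSeries ℤ ℤ e2Z * HahnSeries.ofPowerSeries ℤ ℤ deltaZ := by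
  rw [s36_p23_theta_ofPowerSeries, s36_p23_qsTheta_delta, map_mul]

theorem s36_p23_e2 :
    HahnSeries.ofPowerSeries ℤ ℤ e2Z = 1 - 24 * HahnSeries.ofPowerSeries ℤ ℤ sigmaZ := by
  rw [e2Z_eq_sigmaZ, map_sub, map_one, map_mul]
  congr 2
  exact (map_ofNat (PowerSeries.C (R := ℤ)) 24) ▸ map_ofNat (HahnSeries.ofPowerSeries ℤ ℤ) 24

theorem s36_p23_delta_ne_zero : HahnSeries.ofPowerSeries ℤ ℤ deltaZ ≠ 0 := by
  intro h
  have h1 := HahnSeries.ofPowerSeries_injective (Γ := ℤ) (R := ℤ) (h.trans (map_zero _).symm)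
  have h2 := congrArg (PowerSeries.coeff 1) h1
  rw [deltaZ, PowerSeries.coeff_succ_X_mul, map_zero,
    PowerSeries.coeff_zero_eq_constantCoeff_apply, constantCoeff_dedekindEtaUnit] at h2
  exact one_ne_zero h2

/-- **`θ t₂ ≡ - t₂` mod `24`.** -/
theorem s36_p23_theta_t2 :
    ∃ r : LaurentSeries ℤ, s36_qt_theta ℤ s18_t2 = -s18_t2 + 24 * r := by
  set D := HahnSeries.ofPowerSeries ℤ ℤ deltaZ with hD
  set E := HahnSeries.ofPowerSeries ℤ ℤ e2Z with hE
  set S := HahnSeries.ofPowerSeries ℤ ℤ sigmaZ with hS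
  set A := HahnSeries.ofPowerSeries ℤ ℤ s18_A2 with hA
  set B := HahnSeries.ofPowerSeries ℤ ℤ s18_B2 with hB
  have htA : s18_t2 * A = B := s18_t2_mul_a2
  have hDAB : D = A * B ^ 2 := by rw [hD, s18_delta_eq2, map_mul, map_pow]
  have hD2 : qExpand ℤ 2 D = A ^ 2 * B := by
    rw [hD, ← s18_ofPowerSeries_exp, s18_delta_exp2, map_mul, map_pow]
  have ht : s18_t2 * qExpand ℤ 2 D = D := by
    rw [hD2, hDAB]; linear_combination A * B * htA
  have hθD : s36_qt_theta ℤ D = E * D := s36_p23_theta_delta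
  have hθD2 : s36_qt_theta ℤ (qExpand ℤ 2 D) = 2 * (qExpand ℤ 2 E * qExpand ℤ 2 D) := by
    rw [s36_qk_theta_qExpand, hθD, map_mul]
    congr 1
  have hEe : E = 1 - 24 * S := s36_p23_e2
  have hD0 : D ≠ 0 := s36_p23_delta_ne_zero
  have hD20 : qExpand ℤ 2 D ≠ 0 := by
    intro h0
    rw [h0, mul_zero] at ht
    exact hD0 ht.symm
  refine ⟨-(s18_t2 * (S - 2 * qExpand ℤ 2 S)), ?_⟩
  have h1 := congrArg (s36_qt_theta ℤ) ht
  rw [s36_qt_theta_mul, hθD2, hθD] at h1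
  have hE2 : qExpand ℤ 2 E = 1 - 24 * qExpand ℤ 2 S := by
    rw [hEe, map_sub, map_one, map_mul, map_ofNat]
  have key : (s36_qt_theta ℤ s18_t2 - (-s18_t2 + 24 * -(s18_t2 * (S - 2 * qExpand ℤ 2 S))))
      * qExpand ℤ 2 D = 0 := by
    rw [hE2, hEe] at h1
    linear_combination h1 - (1 - 24 * S) * ht
  exact sub_eq_zero.mp ((mul_eq_zero.mp key).resolve_right hD20)

/-- **`θ t₃ ≡ - t₃` mod `12`.** -/
theorem s36_p23_theta_t3 :
    ∃ r : LaurentSeries ℤ, s36_qt_theta ℤ s18_t3 = -s18_t3 + 12 * r := by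
  set D := HahnSeries.ofPowerSeries ℤ ℤ deltaZ with hD
  set E := HahnSeries.ofPowerSeries ℤ ℤ e2Z with hE
  set S := HahnSeries.ofPowerSeries ℤ ℤ sigmaZ with hS
  set A := HahnSeries.ofPowerSeries ℤ ℤ s18_A3 with hA
  set B := HahnSeries.ofPowerSeries ℤ ℤ s18_B3 with hB
  set C := HahnSeries.ofPowerSeries ℤ ℤ s18_C3 with hC
  have htA : s18_t3 * A = C := s18_t3_mul_a3
  have hDAB : B * D = A * C ^ 3 := by
    rw [hB, hD, ← map_mul, s18_delta_eq3, map_mul, map_pow]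
  have hD3 : B * qExpand ℤ 3 D = A ^ 3 * C := by
    rw [hD, ← s18_ofPowerSeries_exp, hB, ← map_mul, s18_delta_exp3, map_mul, map_pow]
  have hB0 : B ≠ 0 := by
    intro h
    have h1 := HahnSeries.ofPowerSeries_injective (Γ := ℤ) (R := ℤ) (h.trans (map_zero _).symm)
    have h2 := congrArg (PowerSeries.coeff 0) h1
    rw [s18_vals_B3.1, map_zero] at h2
    exact one_ne_zero h2
  have ht : s18_t3 ^ 2 * qExpand ℤ 3 D = D := by
    have : B * (s18_t3 ^ 2 * qExpand ℤ 3 D - D) = 0 := by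
      linear_combination s18_t3 ^ 2 * hD3 - hDAB + (s18_t3 * A + C) * A * C * htA
    exact sub_eq_zero.mp ((mul_eq_zero.mp this).resolve_left hB0)
  have hθD : s36_qt_theta ℤ D = E * D := s36_p23_theta_delta
  have hθD3 : s36_qt_theta ℤ (qExpand ℤ 3 D) = 3 * (qExpand ℤ 3 E * qExpand ℤ 3 D) := by
    rw [s36_qk_theta_qExpand, hθD, map_mul]
    congr 1
  have hEe : E = 1 - 24 * S := s36_p23_e2
  have hD0 : D ≠ 0 := s36_p23_delta_ne_zero
  have ht0 : s18_t3 ≠ 0 := s36_p23_lead_t3.ne_zero one_ne_zero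
  have hD30 : qExpand ℤ 3 D ≠ 0 := by
    intro h0
    rw [h0, mul_zero] at ht
    exact hD0 ht.symm
  refine ⟨-(s18_t3 * (S - 3 * qExpand ℤ 3 S)), ?_⟩
  have h1 := congrArg (s36_qt_theta ℤ) ht
  have hsq : s36_qt_theta ℤ (s18_t3 ^ 2) = 2 * (s18_t3 * s36_qt_theta ℤ s18_t3) := by
    rw [pow_two, s36_qt_theta_mul]; ring
  rw [s36_qt_theta_mul, hθD3, hθD, hsq] at h1
  have hE3 : qExpand ℤ 3 E = 1 - 24 * qExpand ℤ 3 S := by
    rw [hEe, map_sub, map_one, map_mul, map_ofNat]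
  have h2ne : (2 : LaurentSeries ℤ) ≠ 0 := by
    intro h
    have := congrArg (fun f : LaurentSeries ℤ => f.coeff 0) h
    have e2 : (2 : LaurentSeries ℤ) = HahnSeries.C (2 : ℤ) := (map_ofNat _ 2).symm
    simp only [e2, HahnSeries.C_apply, HahnSeries.coeff_single_same, HahnSeries.coeff_zero] at this
    norm_num at this
  have key : 2 * (s18_t3 * qExpand ℤ 3 D) *
      (s36_qt_theta ℤ s18_t3 - (-s18_t3 + 12 * -(s18_t3 * (S - 3 * qExpand ℤ 3 S)))) = 0 := by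
    rw [hE3, hEe] at h1
    linear_combination h1 - (1 - 24 * S) * ht
  exact sub_eq_zero.mp ((mul_eq_zero.mp key).resolve_left
    (mul_ne_zero h2ne (mul_ne_zero ht0 hD30)))

/-! ### Congruences between the Hauptmoduln and `j` -/

/-- **`t₃ ≡ j` mod `27`.** -/
theorem s36_p23_t3_j : ∃ r : LaurentSeries ℤ, jqModC ℤ - s18_t3 = 27 * r := by
  refine ⟨(28 * s18_t3 ^ 3 + 7290 * s18_t3 ^ 2 + 708588 * s18_t3 + 14348907) * s18_t3inv ^ 3, ?_⟩
  have h := s18_t3_j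
  have hu := s18_t3_mul_inv
  linear_combination s18_t3inv ^ 3 * h +
    (s18_t3 - jqModC ℤ) * ((s18_t3 * s18_t3inv) ^ 2 + s18_t3 * s18_t3inv + 1) * hu

/-- **`t₂ ≡ j` mod `256`.** -/
theorem s36_p23_t2_j : ∃ r : LaurentSeries ℤ, jqModC ℤ - s18_t2 = 256 * r := by
  refine ⟨(3 * s18_t2 ^ 2 + 768 * s18_t2 + 65536) * s18_t2inv ^ 2, ?_⟩
  have h := s18_t2_j
  have hu := s18_t2_mul_inv
  linear_combination s18_t2inv ^ 2 * h +
    (s18_t2 - jqModC ℤ) * (s18_t2 * s18_t2inv + 1) * hu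

/-- **`t₂² t₃ ≡ (t₂ + 1)³` mod `3`** (the function `f` of (POLE23)(ii) for `q = 3`). -/
theorem s36_p23_f3 :
    ∃ r : LaurentSeries ℤ, s18_t2 ^ 2 * s18_t3 = (s18_t2 + 1) ^ 3 + 3 * r := by
  obtain ⟨r3, hr3⟩ := s36_p23_t3_j
  refine ⟨85 * ((s18_t2 + 256) ^ 2 + (s18_t2 + 256) * (s18_t2 + 1) + (s18_t2 + 1) ^ 2)
    - 9 * s18_t2 ^ 2 * r3, ?_⟩
  linear_combination s18_t2_j - s18_t2 ^ 2 * hr3

/-- **`t₃³ t₂ ≡ (t₃ + 1)⁴` mod `2`** (the function `f` of (POLE23)(ii) for `q = 2`). -/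
theorem s36_p23_f2 :
    ∃ r : LaurentSeries ℤ, s18_t3 ^ 3 * s18_t2 = (s18_t3 + 1) ^ 4 + 2 * r := by
  obtain ⟨r2, hr2⟩ := s36_p23_t2_j
  refine ⟨376 * s18_t3 ^ 3 + 98412 * s18_t3 ^ 2 + 9565936 * s18_t3 + 193710244
    - 128 * s18_t3 ^ 3 * r2, ?_⟩
  linear_combination s18_t3_j - s18_t3 ^ 3 * hr2

/-! ### The swapped Hauptmodul vanishes modulo `q` -/

/-- `q = 3`: if `X` satisfies the two swapped level-3 identities in characteristic `3`
(`j(Q³) = j³`), then `X = 0` unless `j⁹ = j`. -/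
theorem s36_p23_swap3 {k : Type*} [Field k] [CharP k 3] (J X : k)
    (h1 : J ^ 3 * X ^ 3 = (X + 27) * (X + 243) ^ 3) (h2 : J * X = (X + 27) * (X + 3) ^ 3)
    (hJ : J ^ 9 ≠ J) : X = 0 := by
  have h3 : (3 : k) = 0 := by exact_mod_cast CharP.cast_eq_zero k 3
  have h27 : (27 : k) = 0 := by
    have : (27 : k) = 3 * 9 := by norm_num
    rw [this, h3, zero_mul]
  have h243 : (243 : k) = 0 := by
    have : (243 : k) = 3 * 81 := by norm_num
    rw [this, h3, zero_mul]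
  simp only [h27, h243, h3, add_zero] at h1 h2
  by_contra hX
  have e1 : J ^ 3 = X := by
    have : X ^ 3 * (J ^ 3 - X) = 0 := by linear_combination h1
    exact sub_eq_zero.mp ((mul_eq_zero.mp this).resolve_left (pow_ne_zero 3 hX))
  have e2 : J = X ^ 3 := by
    have : X * (J - X ^ 3) = 0 := by linear_combination h2
    exact sub_eq_zero.mp ((mul_eq_zero.mp this).resolve_left hX)
  exact hJ (by rw [show J ^ 9 = (J ^ 3) ^ 3 by ring, e1, ← e2])

/-- `q = 2`: if `X` satisfies the two swapped level-2 identities in characteristic `2`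
(`j(Q²) = j²`), then `X = 0` unless `j⁴ = j`. -/
theorem s36_p23_swap2 {k : Type*} [Field k] [CharP k 2] (J X : k)
    (h1 : J ^ 2 * X ^ 2 = (X + 256) ^ 3) (h2 : J * X = (X + 16) ^ 3)
    (hJ : J ^ 4 ≠ J) : X = 0 := by
  have h2' : (2 : k) = 0 := by exact_mod_cast CharP.cast_eq_zero k 2
  have h256 : (256 : k) = 0 := by
    have : (256 : k) = 2 * 128 := by norm_num
    rw [this, h2', zero_mul]
  have h16 : (16 : k) = 0 := by
    have : (16 : k) = 2 * 8 := by norm_num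
    rw [this, h2', zero_mul]
  simp only [h256, h16, add_zero] at h1 h2
  by_contra hX
  have e1 : J ^ 2 = X := by
    have : X ^ 2 * (J ^ 2 - X) = 0 := by linear_combination h1
    exact sub_eq_zero.mp ((mul_eq_zero.mp this).resolve_left (pow_ne_zero 2 hX))
  have e2 : J = X ^ 2 := by
    have : X * (J - X ^ 2) = 0 := by linear_combination h2
    exact sub_eq_zero.mp ((mul_eq_zero.mp this).resolve_left hX)
  exact hJ (by rw [show J ^ 4 = (J ^ 2) ^ 2 by ring, e1, ← e2])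

/-! ### Reductions modulo `3` and `2` -/

section Reduction

variable (k : Type*) [CommRing k]

/-- Reduction of an integral Laurent series to `k((Q))`. -/
local notation "redZ" => coeffMap (Int.castRingHom k)

theorem s36_p23_three_mul [CharP k 3] (x : LaurentSeries k) : (3 : LaurentSeries k) * x = 0 := by
  have h3 : (3 : LaurentSeries k) = HahnSeries.C (3 : k) := (map_ofNat _ 3).symm
  have h0 : (3 : k) = 0 := by exact_mod_cast CharP.cast_eq_zero k 3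
  rw [h3, h0, map_zero, zero_mul]

theorem s36_p23_two_mul [CharP k 2] (x : LaurentSeries k) : (2 : LaurentSeries k) * x = 0 := by
  have h2 : (2 : LaurentSeries k) = HahnSeries.C (2 : k) := (map_ofNat _ 2).symm
  have h0 : (2 : k) = 0 := by exact_mod_cast CharP.cast_eq_zero k 2
  rw [h2, h0, map_zero, zero_mul]

/-- **(i), `q = 3`**: `θ t̄₂ = - t̄₂` in characteristic `3`. -/
theorem s36_p23_theta_t2_bar [CharP k 3] :
    s36_qt_theta k (redZ s18_t2) = -(redZ s18_t2) := by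
  obtain ⟨r, hr⟩ := s36_p23_theta_t2
  have h := congrArg (redZ) hr
  rw [← s36_qt_theta_coeffMap, map_add, map_neg, map_mul, map_ofNat] at h
  rw [h]
  have : (24 : LaurentSeries k) * redZ r = 3 * (8 * redZ r) := by ring
  rw [this, s36_p23_three_mul, add_zero]

/-- **(i), `q = 2`**: `θ t̄₃ = - t̄₃` in characteristic `2`. -/
theorem s36_p23_theta_t3_bar [CharP k 2] :
    s36_qt_theta k (redZ s18_t3) = -(redZ s18_t3) := by
  obtain ⟨r, hr⟩ := s36_p23_theta_t3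
  have h := congrArg (redZ) hr
  rw [← s36_qt_theta_coeffMap, map_add, map_neg, map_mul, map_ofNat] at h
  rw [h]
  have : (12 : LaurentSeries k) * redZ r = 2 * (6 * redZ r) := by ring
  rw [this, s36_p23_two_mul, add_zero]

/-- **(iii), `q = 3`**: `t̄₄` with `(t̄₂ + 1)(t̄₄ + 1) = (t̄₄ - 1)²` in characteristic `3`; it is
the reduction of an integral `t₄` with `t₄² = t₂ t₄ + 16 t₂`, `t₄ (t₂ + 16) = t₂(Q²) - 16 t₂`. -/
theorem s36_p23_t4_bar [CharP k 3] :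
    ∃ t4 : LaurentSeries ℤ,
      t4 * (s18_t2 + 16) = qExpand ℤ 2 s18_t2 - 16 * s18_t2 ∧
      t4 ^ 2 = s18_t2 * t4 + 16 * s18_t2 ∧
      (redZ s18_t2 + 1) * (redZ t4 + 1) = (redZ t4 - 1) ^ 2 := by
  obtain ⟨t4, h1, h2, h3⟩ := s36_p23_t4
  refine ⟨t4, h1, h2, ?_⟩
  have h := congrArg (redZ) h3
  rw [map_mul, map_add, map_add, map_one, map_add, map_pow, map_sub, map_one, map_mul,
    map_ofNat, s36_p23_three_mul, add_zero] at h
  exact h

/-- **(iii), `q = 2`**: `t̄₉` with `(t̄₃ + 1)(t̄₉² + t̄₉ + 1) = (t̄₉ + 1)³` in characteristic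
`2`; it is the reduction of an integral `t₉` with `t₉³ = t₃ (t₉² + 9 t₉ + 27)`. -/
theorem s36_p23_t9_bar [CharP k 2] :
    ∃ t9 : LaurentSeries ℤ,
      t9 * (s18_t3 * qExpand ℤ 3 s18_t3 + 9 * qExpand ℤ 3 s18_t3 - 243 * s18_t3 + 729) =
        qExpand ℤ 3 s18_t3 * (s18_t3 ^ 2 + 18 * s18_t3 + 27) + 1458 * s18_t3 ∧
      t9 ^ 3 = s18_t3 * (t9 ^ 2 + 9 * t9 + 27) ∧
      (redZ s18_t3 + 1) * (redZ t9 ^ 2 + redZ t9 + 1) = (redZ t9 + 1) ^ 3 := by
  obtain ⟨t9, h1, h2, h3⟩ := s36_p23_t9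
  refine ⟨t9, h1, h2, ?_⟩
  have h := congrArg (redZ) h3
  rw [map_mul, map_add, map_add, map_add, map_one, map_pow, map_sub, map_pow, map_add,
    map_one, map_mul, map_ofNat, s36_p23_two_mul, sub_zero] at h
  exact h

/-- **(ii), `q = 3`**: `t̄₂² t̄₃ = (t̄₂ + 1)³` in characteristic `3`. -/
theorem s36_p23_f3_bar [CharP k 3] :
    redZ s18_t2 ^ 2 * redZ s18_t3 = (redZ s18_t2 + 1) ^ 3 := by
  obtain ⟨r, hr⟩ := s36_p23_f3
  have h := congrArg (redZ) hr
  rw [map_mul, map_pow, map_add, map_pow, map_add, map_one, map_mul, map_ofNat,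
    s36_p23_three_mul, add_zero] at h
  exact h

/-- **(ii), `q = 2`**: `t̄₃³ t̄₂ = (t̄₃ + 1)⁴` in characteristic `2`. -/
theorem s36_p23_f2_bar [CharP k 2] :
    redZ s18_t3 ^ 3 * redZ s18_t2 = (redZ s18_t3 + 1) ^ 4 := by
  obtain ⟨r, hr⟩ := s36_p23_f2
  have h := congrArg (redZ) hr
  rw [map_mul, map_pow, map_add, map_pow, map_add, map_one, map_mul, map_ofNat,
    s36_p23_two_mul, add_zero] at h
  exact h

/-- `t̄₃ = j̄` in characteristic `3`; `t̄₂ = j̄` in characteristic `2`. -/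
theorem s36_p23_t3_j_bar [CharP k 3] : redZ s18_t3 = jqModC k := by
  obtain ⟨r, hr⟩ := s36_p23_t3_j
  have h := congrArg (redZ) hr
  rw [map_sub, coeffMap_jqModC, map_mul, map_ofNat] at h
  have : (27 : LaurentSeries k) * redZ r = 3 * (9 * redZ r) := by ring
  rw [this, s36_p23_three_mul] at h
  exact (sub_eq_zero.mp h).symm

theorem s36_p23_t2_j_bar [CharP k 2] : redZ s18_t2 = jqModC k := by
  obtain ⟨r, hr⟩ := s36_p23_t2_j
  have h := congrArg (redZ) hr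
  rw [map_sub, coeffMap_jqModC, map_mul, map_ofNat] at h
  have : (256 : LaurentSeries k) * redZ r = 2 * (128 * redZ r) := by ring
  rw [this, s36_p23_two_mul] at h
  exact (sub_eq_zero.mp h).symm

end Reduction

end Fermat.Agent.S36
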