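import Fermat.Agent.S36.QTheta
import Fermat.Agent.S18.Haupt2
import Fermat.Agent.S18.Haupt3

/-!
# S36 (NODE-3), leaf (POLE5): the `(K)`-identity in the coordinates `t₂`, `t₃` and the pole of
`ρ_s = (θ s̄)^(q-1)` at a crossing point, for `q ≥ 5`

* `s36_p5_dt2`, `s36_p5_dt3` : `θ` applied to the identities `j t₂² = (t₂ + 256)³`,
  `j t₃³ = (t₃ + 27)(t₃ + 243)³`.
* `s36_p5_hasse_t2`, `s36_p5_hasse_t3` : for a field `k` of characteristic `q ≥ 5`, with `P` the
  formal Hasse polynomial (`P(j̄) = Δ̄^{-(q-1)}`):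
  `(θ t̄₂)^(6 (q-1)) · P(j̄) = ((t̄₂ + 64)³ t̄₂⁴)^(q-1)`,
  `(θ t̄₃)^(6 (q-1)) · P(j̄) = ((t̄₃ + 27)⁴ t̄₃³)^(q-1)`.
* `s36_p5_choice` : in a local ring in which `6` is a unit, one of `t₂ + 64`, `t₃ + 27` is a unit
  (they vanish where `j = 1728`, resp. `j = 0`).
* `s36_p5_pole` : abstract pole lemma (vocabulary of `s36_qk_regular_of_dvd`): if
  `(θ t̄)^(6 n) · P = R^n` with `R` a unit and `P` a non-unit of `O`, and `d/ds̄` preserves `O`,
  then `(θ s̄)^n ∉ O`.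
* `s36_p5_unit` : if `X^6 · P = R^n` with `X, P ∈ O` and `R` a unit of `O`, then `X` is a unit.
* `s36_p5_main` : the pole of `(θ s̄)^n` at a point where `P` is a non-unit, with the coordinate
  chosen per point.
-/

set_option autoImplicit false

open ModularCurve

noncomputable section

namespace Fermat.Agent.S36

open Fermat.Agent.S28 Fermat.Agent.S18

section Formal

variable {R : Type*} [CommRing R]

theorem s36_p5_theta_natCast (n : ℕ) : s36_qt_theta R ((n : LaurentSeries R)) = 0 := by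
  rw [← nsmul_one, map_nsmul, s36_qt_theta_one, nsmul_zero]

theorem s36_p5_theta_sq (f : LaurentSeries R) :
    s36_qt_theta R (f ^ 2) = 2 * f * s36_qt_theta R f := by
  rw [pow_two, s36_qt_theta_mul]; ring

theorem s36_p5_theta_cube (f : LaurentSeries R) :
    s36_qt_theta R (f ^ 3) = 3 * f ^ 2 * s36_qt_theta R f := by
  rw [pow_succ, s36_qt_theta_mul, s36_p5_theta_sq]; ring

theorem s36_p5_theta_add_nat (f : LaurentSeries R) (n : ℕ) :
    s36_qt_theta R (f + (n : LaurentSeries R)) = s36_qt_theta R f := by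
  rw [map_add, s36_p5_theta_natCast, add_zero]

/-- `θ` of `j t² = (t + 256)³`. -/
theorem s36_p5_dt2 (j t : LaurentSeries R) (h : j * t ^ 2 = (t + 256) ^ 3) :
    s36_qt_theta R j * t ^ 3 = s36_qt_theta R t * ((t + 256) ^ 2 * (t - 512)) := by
  have h1 := congrArg (s36_qt_theta R) h
  have e : (256 : LaurentSeries R) = ((256 : ℕ) : LaurentSeries R) := by norm_num
  rw [s36_qt_theta_mul, s36_p5_theta_sq, s36_p5_theta_cube, e, s36_p5_theta_add_nat, ← e] at h1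
  linear_combination t * h1 - 2 * s36_qt_theta R t * h

/-- `(j - 1728) t² = (t + 64)(t - 512)²`. -/
theorem s36_p5_rel2 (j t : LaurentSeries R) (h : j * t ^ 2 = (t + 256) ^ 3) :
    (j - 1728) * t ^ 2 = (t + 64) * (t - 512) ^ 2 := by
  linear_combination h

/-- `θ` of `j t³ = (t + 27)(t + 243)³`. -/
theorem s36_p5_dt3 (j t : LaurentSeries R) (h : j * t ^ 3 = (t + 27) * (t + 243) ^ 3) :
    s36_qt_theta R j * t ^ 4 =
      s36_qt_theta R t * ((t + 243) ^ 2 * (t ^ 2 - 486 * t - 19683)) := by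
  have h1 := congrArg (s36_qt_theta R) h
  have e1 : (27 : LaurentSeries R) = ((27 : ℕ) : LaurentSeries R) := by norm_num
  have e2 : (243 : LaurentSeries R) = ((243 : ℕ) : LaurentSeries R) := by norm_num
  rw [s36_qt_theta_mul, s36_qt_theta_mul, s36_p5_theta_cube, s36_p5_theta_cube, e1, e2,
    s36_p5_theta_add_nat, s36_p5_theta_add_nat, ← e1, ← e2] at h1
  linear_combination t * h1 - 3 * s36_qt_theta R t * h

/-- `(j - 1728) t³ = (t² - 486 t - 19683)²`. -/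
theorem s36_p5_rel3 (j t : LaurentSeries R) (h : j * t ^ 3 = (t + 27) * (t + 243) ^ 3) :
    (j - 1728) * t ^ 3 = (t ^ 2 - 486 * t - 19683) ^ 2 := by
  linear_combination h

end Formal

section Field

/-- Abstract cancellation: from `θj · t^a = θt · A`, `w · t^b = A^6 · R`, `6 a = b + c` and the
Hasse identity `(θj)^(6n) · P = w^n`, get `(θt)^(6n) · P = (R · t^c)^n`. -/
theorem s36_p5_cancel_aux {S : Type*} [CommRing S] [IsDomain S] (n a b c : ℕ) (habc : 6 * a = b + c)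
    (dj dt A t w Pj Rr : S) (h1 : dj * t ^ a = dt * A) (hw : w * t ^ b = A ^ 6 * Rr)
    (hA : A ≠ 0) (hH : dj ^ (6 * n) * Pj = w ^ n) :
    dt ^ (6 * n) * Pj = (Rr * t ^ c) ^ n := by
  apply mul_left_cancel₀ (pow_ne_zero (6 * n) hA)
  have e1 : A ^ (6 * n) * (dt ^ (6 * n) * Pj) = (dt * A) ^ (6 * n) * Pj := by ring
  have e2 : (dj * t ^ a) ^ (6 * n) * Pj = (dj ^ (6 * n) * Pj) * (t ^ (6 * a)) ^ n := by ring
  have e3 : w ^ n * (t ^ (b + c)) ^ n = (w * t ^ b) ^ n * (t ^ c) ^ n := by ring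
  have e4 : (A ^ 6 * Rr) ^ n * (t ^ c) ^ n = A ^ (6 * n) * (Rr * t ^ c) ^ n := by ring
  rw [e1, ← h1, e2, hH, habc, e3, hw, e4]

variable {k : Type*} [Field k]

/-- Cancellation step for `t₂`. -/
theorem s36_p5_cancel2 (n : ℕ) (j t Pj : LaurentSeries k) (h : j * t ^ 2 = (t + 256) ^ 3)
    (hA : (t + 256) ^ 2 * (t - 512) ≠ 0)
    (hH : s36_qt_theta k j ^ (6 * n) * Pj = (j ^ 4 * (j - 1728) ^ 3) ^ n) :
    s36_qt_theta k t ^ (6 * n) * Pj = ((t + 64) ^ 3 * t ^ 4) ^ n := by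
  have h1 := s36_p5_dt2 j t h
  have h2 := s36_p5_rel2 j t h
  refine s36_p5_cancel_aux n 3 14 4 (by norm_num) (s36_qt_theta k j) (s36_qt_theta k t)
    ((t + 256) ^ 2 * (t - 512)) t (j ^ 4 * (j - 1728) ^ 3) Pj ((t + 64) ^ 3) h1 ?_ hA hH
  have e : j ^ 4 * (j - 1728) ^ 3 * t ^ 14 = (j * t ^ 2) ^ 4 * ((j - 1728) * t ^ 2) ^ 3 := by
    ring
  rw [e, h, h2]
  generalize t + 256 = a1
  generalize t - 512 = a2
  generalize t + 64 = a3
  ring

/-- Cancellation step for `t₃`. -/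
theorem s36_p5_cancel3 (n : ℕ) (j t Pj : LaurentSeries k)
    (h : j * t ^ 3 = (t + 27) * (t + 243) ^ 3)
    (hA : (t + 243) ^ 2 * (t ^ 2 - 486 * t - 19683) ≠ 0)
    (hH : s36_qt_theta k j ^ (6 * n) * Pj = (j ^ 4 * (j - 1728) ^ 3) ^ n) :
    s36_qt_theta k t ^ (6 * n) * Pj = ((t + 27) ^ 4 * t ^ 3) ^ n := by
  have h1 := s36_p5_dt3 j t h
  have h2 := s36_p5_rel3 j t h
  refine s36_p5_cancel_aux n 4 21 3 (by norm_num) (s36_qt_theta k j) (s36_qt_theta k t)
    ((t + 243) ^ 2 * (t ^ 2 - 486 * t - 19683)) t (j ^ 4 * (j - 1728) ^ 3) Pj ((t + 27) ^ 4)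
    h1 ?_ hA hH
  have e : j ^ 4 * (j - 1728) ^ 3 * t ^ 21 = (j * t ^ 3) ^ 4 * ((j - 1728) * t ^ 3) ^ 3 := by
    ring
  rw [e, h, h2]
  generalize t + 27 = a1
  generalize t + 243 = a2
  generalize t ^ 2 - 486 * t - 19683 = a3
  ring

end Field

section Main

variable {k : Type*} [Field k]

theorem s36_p5_ofNat_ne_zero (m : ℕ) (hm : (m : k) ≠ 0) : ((m : ℕ) : LaurentSeries k) ≠ 0 := by
  rw [← map_natCast (HahnSeries.C : k →+* LaurentSeries k) m]
  exact fun h => hm (HahnSeries.C_injective (by rw [h, map_zero]))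

theorem s36_p5_j_ne (j : LaurentSeries k) (hj : j.coeff (-1) = 1) :
    j ≠ 0 ∧ j - 1728 ≠ 0 := by
  constructor
  · rintro rfl
    simp at hj
  · intro h0
    have e : (1728 : LaurentSeries k) = HahnSeries.C (1728 : k) :=
      (map_ofNat (HahnSeries.C : k →+* LaurentSeries k) 1728).symm
    rw [sub_eq_zero.mp h0, e, HahnSeries.C_apply,
      HahnSeries.coeff_single_of_ne (by norm_num)] at hj
    exact zero_ne_one hj

theorem s36_p5_A2_ne_zero (j t : LaurentSeries k) (h : j * t ^ 2 = (t + 256) ^ 3)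
    (hj : j.coeff (-1) = 1) (h2 : (2 : k) ≠ 0) : (t + 256) ^ 2 * (t - 512) ≠ 0 := by
  obtain ⟨hj0, hj1⟩ := s36_p5_j_ne j hj
  have h2L : ((2 : ℕ) : LaurentSeries k) ≠ 0 := s36_p5_ofNat_ne_zero 2 (by exact_mod_cast h2)
  have h256 : (256 : LaurentSeries k) ≠ 0 := by
    have e : (256 : LaurentSeries k) = ((2 : ℕ) : LaurentSeries k) ^ 8 := by norm_num
    rw [e]; exact pow_ne_zero 8 h2L
  have h512 : (512 : LaurentSeries k) ≠ 0 := by
    have e : (512 : LaurentSeries k) = ((2 : ℕ) : LaurentSeries k) ^ 9 := by norm_num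
    rw [e]; exact pow_ne_zero 9 h2L
  refine mul_ne_zero (pow_ne_zero 2 ?_) ?_
  · intro h0
    rw [h0] at h
    have h3 : j * t ^ 2 = 0 := by rw [h]; ring
    rcases mul_eq_zero.mp h3 with h4 | h4
    · exact hj0 h4
    · have ht : t = 0 := by simpa using h4
      rw [ht, zero_add] at h0
      exact h256 h0
  · intro h0
    have h3 := s36_p5_rel2 j t h
    rw [h0] at h3
    have h4 : (j - 1728) * t ^ 2 = 0 := by rw [h3]; ring
    rcases mul_eq_zero.mp h4 with h5 | h5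
    · exact hj1 h5
    · have ht : t = 0 := by simpa using h5
      rw [ht, zero_sub, neg_eq_zero] at h0
      exact h512 h0

theorem s36_p5_A3_ne_zero (j t : LaurentSeries k) (h : j * t ^ 3 = (t + 27) * (t + 243) ^ 3)
    (hj : j.coeff (-1) = 1) (h3 : (3 : k) ≠ 0) :
    (t + 243) ^ 2 * (t ^ 2 - 486 * t - 19683) ≠ 0 := by
  obtain ⟨hj0, hj1⟩ := s36_p5_j_ne j hj
  have h3L : ((3 : ℕ) : LaurentSeries k) ≠ 0 := s36_p5_ofNat_ne_zero 3 (by exact_mod_cast h3)
  have h243 : (243 : LaurentSeries k) ≠ 0 := by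
    have e : (243 : LaurentSeries k) = ((3 : ℕ) : LaurentSeries k) ^ 5 := by norm_num
    rw [e]; exact pow_ne_zero 5 h3L
  have h19683 : (19683 : LaurentSeries k) ≠ 0 := by
    have e : (19683 : LaurentSeries k) = ((3 : ℕ) : LaurentSeries k) ^ 9 := by norm_num
    rw [e]; exact pow_ne_zero 9 h3L
  refine mul_ne_zero (pow_ne_zero 2 ?_) ?_
  · intro h0
    rw [h0] at h
    have h4 : j * t ^ 3 = 0 := by rw [h]; ring
    rcases mul_eq_zero.mp h4 with h5 | h5
    · exact hj0 h5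
    · have ht : t = 0 := by simpa using h5
      rw [ht, zero_add] at h0
      exact h243 h0
  · intro h0
    have h4 := s36_p5_rel3 j t h
    rw [h0] at h4
    have h5 : (j - 1728) * t ^ 3 = 0 := by rw [h4]; ring
    rcases mul_eq_zero.mp h5 with h6 | h6
    · exact hj1 h6
    · have ht : t = 0 := by simpa using h6
      rw [ht] at h0
      have : (19683 : LaurentSeries k) = 0 := by
        have h7 : (0 : LaurentSeries k) ^ 2 - 486 * 0 - 19683 = -19683 := by ring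
        rw [h7, neg_eq_zero] at h0
        exact h0
      exact h19683 this

/-- **The `(K)`-identity in the coordinates `t₂`, `t₃`.** For a field `k` of characteristic
`q ≥ 5`, with one and the same monic `P` of degree `q - 1` (`P(j̄) = Δ̄^{-(q-1)}`). -/
theorem s36_p5_hasse (q : ℕ) [Fact q.Prime] (hq : 5 ≤ q) (k : Type*) [Field k] [CharP k q] :
    ∃ P : Polynomial k, P.Monic ∧ P.natDegree = q - 1 ∧
      P.eval₂ HahnSeries.C (jqModC k) = deltaInvSeries k ^ (q - 1) ∧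
      s36_qt_theta k (jqModC k) ^ (6 * (q - 1)) * P.eval₂ HahnSeries.C (jqModC k) =
        (jqModC k ^ 4 * (jqModC k - 1728) ^ 3) ^ (q - 1) ∧
      s36_qt_theta k (coeffMap (Int.castRingHom k) s18_t2) ^ (6 * (q - 1)) *
          P.eval₂ HahnSeries.C (jqModC k) =
        ((coeffMap (Int.castRingHom k) s18_t2 + 64) ^ 3 *
          coeffMap (Int.castRingHom k) s18_t2 ^ 4) ^ (q - 1) ∧
      s36_qt_theta k (coeffMap (Int.castRingHom k) s18_t3) ^ (6 * (q - 1)) *
          P.eval₂ HahnSeries.C (jqModC k) =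
        ((coeffMap (Int.castRingHom k) s18_t3 + 27) ^ 4 *
          coeffMap (Int.castRingHom k) s18_t3 ^ 3) ^ (q - 1) := by
  obtain ⟨P0, hm, hd, hΔ, hH⟩ := s36_qt_hasse q hq
  let φ : ZMod q →+* k := ZMod.castHom (dvd_refl q) k
  have hcomp : (coeffMap φ).comp (HahnSeries.C : ZMod q →+* LaurentSeries (ZMod q)) =
      (HahnSeries.C : k →+* LaurentSeries k).comp φ := by
    ext a : 1
    simp [HahnSeries.C_apply]
  have hev : coeffMap φ (P0.eval₂ HahnSeries.C (jqModC (ZMod q))) =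
      (P0.map φ).eval₂ HahnSeries.C (jqModC k) := by
    rw [Polynomial.eval₂_map, Polynomial.hom_eval₂, hcomp, coeffMap_jqModC]
  have hΔk : (P0.map φ).eval₂ HahnSeries.C (jqModC k) = deltaInvSeries k ^ (q - 1) := by
    rw [← hev, hΔ, map_pow, coeffMap_deltaInvSeries]
  have hHk : s36_qt_theta k (jqModC k) ^ (6 * (q - 1)) *
      (P0.map φ).eval₂ HahnSeries.C (jqModC k) =
        (jqModC k ^ 4 * (jqModC k - 1728) ^ 3) ^ (q - 1) := by
    have h1 := congrArg (coeffMap φ) hH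
    rw [map_mul, map_pow, ← s36_qt_theta_coeffMap, coeffMap_jqModC, hev, map_pow, map_mul,
      map_pow, map_pow, map_sub, coeffMap_jqModC, HahnSeries.C_apply, coeffMap_single,
      ← HahnSeries.C_apply, map_ofNat, map_ofNat] at h1
    exact h1
  have hj : (jqModC k).coeff (-1 : ℤ) = 1 := ModularCurve.coeff_jqModC_neg_one k
  have hchar : ∀ m : ℕ, 0 < m → m < q → ((m : ℕ) : k) ≠ 0 := by
    intro m hm0 hmq h0
    have := (CharP.cast_eq_zero_iff k q m).mp h0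
    exact absurd (Nat.le_of_dvd hm0 this) (not_le.mpr hmq)
  have h2 : (2 : k) ≠ 0 := by exact_mod_cast hchar 2 (by norm_num) (by omega)
  have h3 : (3 : k) ≠ 0 := by exact_mod_cast hchar 3 (by norm_num) (by omega)
  have ht2 : jqModC k * coeffMap (Int.castRingHom k) s18_t2 ^ 2 =
      (coeffMap (Int.castRingHom k) s18_t2 + 256) ^ 3 := by
    have := congrArg (coeffMap (Int.castRingHom k)) s18_t2_j
    rwa [map_mul, map_pow, map_pow, map_add, coeffMap_jqModC, map_ofNat] at this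
  have ht3 : jqModC k * coeffMap (Int.castRingHom k) s18_t3 ^ 3 =
      (coeffMap (Int.castRingHom k) s18_t3 + 27) * (coeffMap (Int.castRingHom k) s18_t3 + 243) ^ 3 := by
    have := congrArg (coeffMap (Int.castRingHom k)) s18_t3_j
    rwa [map_mul, map_pow, map_mul, map_pow, map_add, map_add, coeffMap_jqModC, map_ofNat,
      map_ofNat] at this
  refine ⟨P0.map φ, hm.map φ, ?_, hΔk, hHk, ?_, ?_⟩
  · rw [Polynomial.natDegree_map_eq_of_injective φ.injective, hd]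
  · exact s36_p5_cancel2 (q - 1) _ _ _ ht2 (s36_p5_A2_ne_zero _ _ ht2 hj h2) hHk
  · exact s36_p5_cancel3 (q - 1) _ _ _ ht3 (s36_p5_A3_ne_zero _ _ ht3 hj h3) hHk

end Main

section Abstract

/-- In a local ring where `6` is a unit, `t₂ + 64` and `t₃ + 27` are not both non-units
(`j ≡ 1728` resp. `j ≡ 0` there). -/
theorem s36_p5_choice {S : Type*} [CommRing S] [IsLocalRing S] (j t2 t3 : S)
    (ht2 : IsUnit t2) (ht3 : IsUnit t3) (h6 : IsUnit (6 : S))
    (h2 : j * t2 ^ 2 = (t2 + 256) ^ 3) (h3 : j * t3 ^ 3 = (t3 + 27) * (t3 + 243) ^ 3) :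
    IsUnit ((t2 + 64) ^ 3 * t2 ^ 4) ∨ IsUnit ((t3 + 27) ^ 4 * t3 ^ 3) := by
  by_cases hA : IsUnit (t2 + 64)
  · exact Or.inl ((hA.pow 3).mul (ht2.pow 4))
  by_cases hB : IsUnit (t3 + 27)
  · exact Or.inr ((hB.pow 4).mul (ht3.pow 3))
  exfalso
  have hAm : t2 + 64 ∈ IsLocalRing.maximalIdeal S := (IsLocalRing.mem_maximalIdeal _).mpr hA
  have hBm : t3 + 27 ∈ IsLocalRing.maximalIdeal S := (IsLocalRing.mem_maximalIdeal _).mpr hB
  -- `j - 1728 ∈ 𝔪`
  have e2 : (j - 1728) * t2 ^ 2 = (t2 + 64) * (t2 - 512) ^ 2 := by linear_combination h2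
  have hj1 : j - 1728 ∈ IsLocalRing.maximalIdeal S := by
    have h := Ideal.mul_mem_right ((t2 - 512) ^ 2) _ hAm
    rw [← e2] at h
    rcases (IsLocalRing.maximalIdeal.isMaximal S).isPrime.mem_or_mem h with h' | h'
    · exact h'
    · exact absurd (ht2.pow 2) ((IsLocalRing.mem_maximalIdeal _).mp h')
  -- `j ∈ 𝔪`
  have hj0 : j ∈ IsLocalRing.maximalIdeal S := by
    have h := Ideal.mul_mem_right ((t3 + 243) ^ 3) _ hBm
    rw [← h3] at h
    rcases (IsLocalRing.maximalIdeal.isMaximal S).isPrime.mem_or_mem h with h' | h'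
    · exact h'
    · exact absurd (ht3.pow 3) ((IsLocalRing.mem_maximalIdeal _).mp h')
  have h1728 : (1728 : S) ∈ IsLocalRing.maximalIdeal S := by
    have := Ideal.sub_mem _ hj0 hj1
    rwa [sub_sub_cancel] at this
  have hu : IsUnit (1728 : S) := by
    have e : (1728 : S) = 6 ^ 3 * 8 := by norm_num
    have h8 : IsUnit (8 : S) := by
      have h216 : IsUnit ((6 : S) ^ 3) := h6.pow 3
      have e' : (6 : S) ^ 3 = 8 * 27 := by norm_num
      rw [e'] at h216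
      exact isUnit_of_mul_isUnit_left h216
    rw [e]; exact (h6.pow 3).mul h8
  exact (IsLocalRing.mem_maximalIdeal _).mp h1728 hu

variable {F : Type*} [Field F]

/-- If `X ^ 6 * P = R ^ n` with `X, P ∈ O` and `R` a unit of `O`, then `X` and `P` are units of
`O`. -/
theorem s36_p5_unit (O : Subring F) (n : ℕ) (X Pj Rr : F) (hX : X ∈ O) (hP : Pj ∈ O)
    (hR : ∃ y ∈ O, Rr * y = 1) (hid : X ^ 6 * Pj = Rr ^ n) :
    (∃ y ∈ O, X * y = 1) ∧ (∃ y ∈ O, Pj * y = 1) := by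
  obtain ⟨y, hy, hRy⟩ := hR
  have h1 : X ^ 6 * Pj * y ^ n = 1 := by rw [hid, ← mul_pow, hRy, one_pow]
  constructor
  · exact ⟨X ^ 5 * Pj * y ^ n, O.mul_mem (O.mul_mem (O.pow_mem hX 5) hP) (O.pow_mem hy n), by
      rw [← h1]; ring⟩
  · exact ⟨X ^ 6 * y ^ n, O.mul_mem (O.pow_mem hX 6) (O.pow_mem hy n), by rw [← h1]; ring⟩

/-- **Abstract pole lemma.** `θ` additive on a field `F`, `O` a subring stable under
`d/ds̄ = θ / θ s̄` (hypothesis `hD` of `s36_qk_regular_of_dvd`).  If `(θ t̄)^(6 n) · P = R ^ n`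
with `t̄, P ∈ O`, `R` a unit of `O` and `P` a non-unit of `O`, then `(θ s̄)^n ∉ O`. -/
theorem s36_p5_pole (θ : F →+ F) (O : Subring F) (n : ℕ) (sb tb Pj Rr : F)
    (hD : ∀ f ∈ O, ∃ g ∈ O, θ f = g * θ sb) (htb : tb ∈ O) (hP : Pj ∈ O)
    (hPn : ¬ ∃ y ∈ O, Pj * y = 1) (hR : ∃ y ∈ O, Rr * y = 1)
    (hid : θ tb ^ (6 * n) * Pj = Rr ^ n) :
    θ sb ^ n ∉ O := by
  intro hs
  obtain ⟨g, hg, hgθ⟩ := hD tb htb
  have hX : θ tb ^ n ∈ O := by
    rw [hgθ, mul_pow]; exact O.mul_mem (O.pow_mem hg n) hs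
  have hid' : (θ tb ^ n) ^ 6 * Pj = Rr ^ n := by
    rw [← pow_mul, mul_comm n 6]; exact hid
  exact hPn (s36_p5_unit O n _ Pj Rr hX hP hR hid').2

/-- **Pole of `ρ_s = (θ s̄)^n` at a crossing point, coordinate chosen per point.** `O` a local
subring of `F` containing `t̄₂, t̄₃, j̄` with `t̄₂, t̄₃, 6` units, `P` a non-unit of `O`, and the two
`(K)`-identities of `s36_p5_hasse`. -/
theorem s36_p5_main (θ : F →+ F) (O : Subring F) [IsLocalRing O] (n : ℕ) (sb : F)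
    (hD : ∀ f ∈ O, ∃ g ∈ O, θ f = g * θ sb)
    (jb t2b t3b Pj : O) (ht2 : IsUnit t2b) (ht3 : IsUnit t3b) (h6 : IsUnit (6 : O))
    (h2 : jb * t2b ^ 2 = (t2b + 256) ^ 3) (h3 : jb * t3b ^ 3 = (t3b + 27) * (t3b + 243) ^ 3)
    (hP : ¬ IsUnit Pj)
    (hid2 : θ (t2b : F) ^ (6 * n) * (Pj : F) = (((t2b : F) + 64) ^ 3 * (t2b : F) ^ 4) ^ n)
    (hid3 : θ (t3b : F) ^ (6 * n) * (Pj : F) = (((t3b : F) + 27) ^ 4 * (t3b : F) ^ 3) ^ n) :
    θ sb ^ n ∉ O := by
  have hunit : ∀ x : O, IsUnit x → ∃ y ∈ O, (x : F) * y = 1 := by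
    intro x hx
    obtain ⟨y, hy⟩ := hx.exists_right_inv
    exact ⟨y, y.2, by exact_mod_cast congrArg Subtype.val hy⟩
  have hPn : ¬ ∃ y ∈ O, (Pj : F) * y = 1 := by
    rintro ⟨y, hy, h⟩
    exact hP (IsUnit.of_mul_eq_one (⟨y, hy⟩ : O) (Subtype.ext h))
  rcases s36_p5_choice jb t2b t3b ht2 ht3 h6 h2 h3 with hu | hu
  · have e64 : ((64 : O) : F) = 64 := rfl
    have hu' := hunit _ hu
    simp only [Subring.coe_mul, Subring.coe_pow, Subring.coe_add, e64] at hu'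
    exact s36_p5_pole θ O n sb t2b Pj _ hD t2b.2 Pj.2 hPn hu' hid2
  · have e27 : ((27 : O) : F) = 27 := rfl
    have hu' := hunit _ hu
    simp only [Subring.coe_mul, Subring.coe_pow, Subring.coe_add, e27] at hu'
    exact s36_p5_pole θ O n sb t3b Pj _ hD t3b.2 Pj.2 hPn hu' hid3

end Abstract

end Fermat.Agent.S36
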