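import Mathlib
import Fermat.Agent.S36.QThick
import Fermat.Agent.S34.IcModel
import Fermat.Agent.S34.GaussInf
import Fermat.Prelude.Def_ModularCurve_HeckeOperator

/-!
# S36 (NODE-3), leaf (theta-ratio): `θ f' / θ f` lies in the function field

Abstract part (pure algebra, characteristic zero).  Let `φ : F →+* E` be a ring homomorphism from
a field to a commutative ring and `D : F →+ E` a `φ`-derivation
(`D (f g) = φ f * D g + φ g * D f`).

* `s36_trl_sub` : for `d : E`, the set `{f | ∃ y : F, D f = φ y * d}` is a subfield of `F`;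
* `s36_trl_alg` : it is algebraically closed in `F` (separability of minimal polynomials);
* `s36_trl_all` : if `D` kills a subfield `K` and `F` is algebraic over `K(g)`, then
  `D f ∈ φ F * D g` for every `f`;
* `s36_trl_ratio` : if `D f ≠ 0` then `D f' = φ r * D f` for some `r : F`;
* `s36_trl_pair`, `s36_trl_transport` : compatibility with a `K`-endomorphism `w` of `F`:
  `D f' = φ r * D f` implies `D (w f') = φ (w r) * D (w f)`.

Model part (`K` any field with `ℚ → K → Q̄`, `F = K · F_M ⊆ K((Q))`, `θ = Q d/dQ`):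

* `s36_trl_model`, `s36_trl_model_w` : the two statements above for `θ`;
* `s36_trl_rho` : at level `N * q`, for `x` of level `N` with `θ x ≠ 0`, the function
  `ρ = θ(x(Q^q)) / (q θ x)` : `ρ * θ x = (θ x)(Q^q)` and `q² * ρ * W ρ = 1` for every swap `W`;
* `s36_trl_gauss` : `ρ` is a unit of the Gauss ring at infinity, with reduction
  `(θ x̄)(Q^q) / θ x̄` (`= (θ x̄)^(q-1)` when `x̄` has Frobenius-fixed coefficients,
  `s36_trl_gauss_frob`).
-/

set_option autoImplicit false
set_option linter.style.haveILetI false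
set_option linter.unusedSectionVars false
set_option linter.deprecated false

open ModularCurve

noncomputable section

namespace Fermat.Agent.S36

section Abstract

variable {F E : Type*} [Field F] [CommRing E] (φ : F →+* E) (D : F →+ E)

theorem s36_trl_D_one (hD : ∀ f g : F, D (f * g) = φ f * D g + φ g * D f) : D 1 = 0 := by
  have h := hD 1 1
  rw [mul_one, φ.map_one, one_mul] at h
  have h2 : D 1 + 0 = D 1 + D 1 := by rw [add_zero]; exact h
  exact (add_left_cancel h2).symm

/-- The subfield of the `f` with `D f ∈ φ F * d`. -/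
def s36_trl_sub (hD : ∀ f g : F, D (f * g) = φ f * D g + φ g * D f) (d : E) : Subfield F where
  carrier := {f | ∃ y : F, D f = φ y * d}
  mul_mem' := by
    rintro a b ⟨y, hy⟩ ⟨z, hz⟩
    refine ⟨a * z + b * y, ?_⟩
    rw [hD, hy, hz, map_add, map_mul, map_mul]
    ring
  one_mem' := ⟨0, by rw [s36_trl_D_one φ D hD, map_zero, zero_mul]⟩
  add_mem' := by
    rintro a b ⟨y, hy⟩ ⟨z, hz⟩
    exact ⟨y + z, by rw [map_add, hy, hz, map_add, add_mul]⟩
  zero_mem' := ⟨0, by rw [map_zero, map_zero, zero_mul]⟩
  neg_mem' := by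
    rintro a ⟨y, hy⟩
    exact ⟨-y, by rw [map_neg, hy, map_neg, neg_mul]⟩
  inv_mem' := by
    rintro a ⟨y, hy⟩
    by_cases ha : a = 0
    · rw [ha, inv_zero]
      exact ⟨0, by rw [map_zero, map_zero, zero_mul]⟩
    · have h := hD a a⁻¹
      rw [mul_inv_cancel₀ ha, s36_trl_D_one φ D hD] at h
      have hφ : φ a⁻¹ * φ a = 1 := by rw [← map_mul, inv_mul_cancel₀ ha, map_one]
      refine ⟨-(a⁻¹ * a⁻¹ * y), ?_⟩
      calc D a⁻¹ = φ a⁻¹ * (φ a * D a⁻¹) := by rw [← mul_assoc, hφ, one_mul]
        _ = φ a⁻¹ * (-(φ a⁻¹ * D a)) := by rw [eq_neg_of_add_eq_zero_left h.symm]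
        _ = φ (-(a⁻¹ * a⁻¹ * y)) * d := by
          rw [hy, map_neg, map_mul, map_mul]
          ring

theorem s36_trl_mem_sub (hD : ∀ f g : F, D (f * g) = φ f * D g + φ g * D f) (d : E) (f : F) :
    f ∈ s36_trl_sub φ D hD d ↔ ∃ y : F, D f = φ y * d := Iff.rfl

/-- The subfield `s36_trl_sub` is algebraically closed in `F` (characteristic zero). -/
theorem s36_trl_alg {A : Type*} [Field A] [CharZero A] [Algebra A F]
    (hD : ∀ f g : F, D (f * g) = φ f * D g + φ g * D f) (d : E)
    (hA : ∀ a : A, ∃ y : F, D (algebraMap A F a) = φ y * d) (f : F) (hf : IsAlgebraic A f) :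
    ∃ y : F, D f = φ y * d := by
  have key : ∀ p : Polynomial A, ∃ y : F, D (Polynomial.aeval f p) =
      φ y * d + φ (Polynomial.aeval f (Polynomial.derivative p)) * D f := by
    intro p
    induction p using Polynomial.induction_on with
    | C a =>
      obtain ⟨y, hy⟩ := hA a
      exact ⟨y, by rw [Polynomial.aeval_C, hy, Polynomial.derivative_C, map_zero, map_zero,
        zero_mul, add_zero]⟩
    | add p q hp hq =>
      obtain ⟨y, hy⟩ := hp
      obtain ⟨z, hz⟩ := hq
      refine ⟨y + z, ?_⟩
      rw [map_add, map_add, hy, hz, Polynomial.derivative_add, map_add, map_add, map_add]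
      ring
    | monomial n a h =>
      obtain ⟨y, hy⟩ := h
      refine ⟨y * f, ?_⟩
      have e1 : Polynomial.aeval f (Polynomial.C a * Polynomial.X ^ (n + 1)) =
          Polynomial.aeval f (Polynomial.C a * Polynomial.X ^ n) * f := by
        rw [pow_succ, ← mul_assoc, map_mul, Polynomial.aeval_X]
      have e2 : Polynomial.derivative (Polynomial.C a * Polynomial.X ^ (n + 1)) =
          Polynomial.derivative (Polynomial.C a * Polynomial.X ^ n) * Polynomial.X +
            Polynomial.C a * Polynomial.X ^ n := by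
        rw [pow_succ, ← mul_assoc, Polynomial.derivative_mul, Polynomial.derivative_X, mul_one]
      have e3 : Polynomial.aeval f
          (Polynomial.derivative (Polynomial.C a * Polynomial.X ^ (n + 1))) =
          Polynomial.aeval f (Polynomial.derivative (Polynomial.C a * Polynomial.X ^ n)) * f +
            Polynomial.aeval f (Polynomial.C a * Polynomial.X ^ n) := by
        rw [e2, map_add, map_mul, Polynomial.aeval_X]
      rw [e1, e3, hD, hy]
      generalize Polynomial.aeval f (Polynomial.C a * Polynomial.X ^ n) = P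
      generalize Polynomial.aeval f
        (Polynomial.derivative (Polynomial.C a * Polynomial.X ^ n)) = P'
      rw [map_add, map_mul, map_mul]
      ring
  have hint : IsIntegral A f := hf.isIntegral
  obtain ⟨y, hy⟩ := key (minpoly A f)
  rw [minpoly.aeval, map_zero] at hy
  have hsep : (minpoly A f).Separable := (minpoly.irreducible hint).separable
  have hne : Polynomial.aeval f (Polynomial.derivative (minpoly A f)) ≠ 0 :=
    hsep.aeval_derivative_ne_zero (minpoly.aeval A f)
  set c := Polynomial.aeval f (Polynomial.derivative (minpoly A f)) with hc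
  have hφ : φ c⁻¹ * φ c = 1 := by rw [← map_mul, inv_mul_cancel₀ hne, map_one]
  refine ⟨-(c⁻¹ * y), ?_⟩
  calc D f = φ c⁻¹ * (φ c * D f) := by rw [← mul_assoc, hφ, one_mul]
    _ = φ c⁻¹ * (-(φ y * d)) := by rw [eq_neg_of_add_eq_zero_right hy.symm]
    _ = φ (-(c⁻¹ * y)) * d := by
      rw [map_neg, map_mul]
      ring

variable {K : Type*} [Field K] [CharZero K] [Algebra K F]

/-- If `D` kills `K` and `F` is algebraic over `K(g)` then `D f ∈ φ F * D g` for all `f`. -/
theorem s36_trl_all (hD : ∀ f g : F, D (f * g) = φ f * D g + φ g * D f)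
    (hK : ∀ a : K, D (algebraMap K F a) = 0) (g : F)
    (halg : ∀ f : F, IsAlgebraic (IntermediateField.adjoin K {g}) f) (f : F) :
    ∃ y : F, D f = φ y * D g := by
  have hle : (IntermediateField.adjoin K {g}).toSubfield ≤ s36_trl_sub φ D hD (D g) := by
    apply IntermediateField.adjoin_le_subfield
    · rintro _ ⟨a, rfl⟩
      exact ⟨0, by rw [hK, map_zero, zero_mul]⟩
    · intro x hx
      rw [Set.mem_singleton_iff] at hx
      rw [hx]
      exact ⟨1, by rw [map_one, one_mul]⟩
  have : CharZero (IntermediateField.adjoin K {g}) :=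
    charZero_of_injective_algebraMap (algebraMap K (IntermediateField.adjoin K {g})).injective
  exact s36_trl_alg φ D hD (D g) (fun a => hle a.2) f (halg f)

/-- **The theta-ratio lemma**: if `D f ≠ 0` then `D f' = φ r * D f` with `r ∈ F`. -/
theorem s36_trl_ratio (hD : ∀ f g : F, D (f * g) = φ f * D g + φ g * D f)
    (hK : ∀ a : K, D (algebraMap K F a) = 0) (g : F)
    (halg : ∀ f : F, IsAlgebraic (IntermediateField.adjoin K {g}) f) (f f' : F)
    (hf : D f ≠ 0) : ∃ r : F, D f' = φ r * D f := by
  obtain ⟨y, hy⟩ := s36_trl_all φ D hD hK g halg f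
  obtain ⟨y', hy'⟩ := s36_trl_all φ D hD hK g halg f'
  have hy0 : y ≠ 0 := by
    rintro rfl
    exact hf (by rw [hy, map_zero, zero_mul])
  refine ⟨y' * y⁻¹, ?_⟩
  rw [hy, hy', ← mul_assoc, ← map_mul, mul_assoc, inv_mul_cancel₀ hy0, mul_one]

/-- Simultaneous version for `D` and `D ∘ w`, `w` a `K`-endomorphism of `F`. -/
theorem s36_trl_pair (hD : ∀ f g : F, D (f * g) = φ f * D g + φ g * D f)
    (hK : ∀ a : K, D (algebraMap K F a) = 0) (g : F)
    (halg : ∀ f : F, IsAlgebraic (IntermediateField.adjoin K {g}) f)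
    (w : F →+* F) (hw : ∀ a : K, w (algebraMap K F a) = algebraMap K F a) (f : F) :
    ∃ y : F, D f = φ y * D g ∧ D (w f) = φ (w y) * D (w g) := by
  have hD2 : ∀ f g : F, (D.prod (D.comp w.toAddMonoidHom)) (f * g) =
      (φ.prod (φ.comp w)) f * (D.prod (D.comp w.toAddMonoidHom)) g +
        (φ.prod (φ.comp w)) g * (D.prod (D.comp w.toAddMonoidHom)) f := by
    intro f g
    refine Prod.ext ?_ ?_
    · exact hD f g
    · show D (w (f * g)) = φ (w f) * D (w g) + φ (w g) * D (w f)
      rw [map_mul, hD]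
  have hK2 : ∀ a : K, (D.prod (D.comp w.toAddMonoidHom)) (algebraMap K F a) = 0 := by
    intro a
    refine Prod.ext ?_ ?_
    · exact hK a
    · show D (w (algebraMap K F a)) = 0
      rw [hw, hK]
  obtain ⟨y, hy⟩ := s36_trl_all (φ.prod (φ.comp w)) (D.prod (D.comp w.toAddMonoidHom)) hD2 hK2
    g halg f
  exact ⟨y, congrArg Prod.fst hy, congrArg Prod.snd hy⟩

/-- **Transport of the theta-ratio** under a `K`-endomorphism `w`. -/
theorem s36_trl_transport [IsDomain E] (hD : ∀ f g : F, D (f * g) = φ f * D g + φ g * D f)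
    (hK : ∀ a : K, D (algebraMap K F a) = 0) (g : F)
    (halg : ∀ f : F, IsAlgebraic (IntermediateField.adjoin K {g}) f)
    (w : F →+* F) (hw : ∀ a : K, w (algebraMap K F a) = algebraMap K F a) (f f' r : F)
    (hf : D f ≠ 0) (h : D f' = φ r * D f) : D (w f') = φ (w r) * D (w f) := by
  obtain ⟨y, hy, hyw⟩ := s36_trl_pair φ D hD hK g halg w hw f
  obtain ⟨y', hy', hyw'⟩ := s36_trl_pair φ D hD hK g halg w hw f'
  have hg0 : D g ≠ 0 := by
    intro h0
    exact hf (by rw [hy, h0, mul_zero])
  have h1 : φ y' * D g = φ (r * y) * D g := by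
    rw [← hy', h, hy, map_mul, mul_assoc]
  have h2 : y' = r * y := φ.injective (mul_right_cancel₀ hg0 h1)
  rw [hyw', hyw, h2, map_mul, map_mul, mul_assoc]

end Abstract

open Fermat.Agent.S18 Fermat.Agent.S34

section GaussW

variable {R L k : Type*} [CommRing R] [Field L] [Field k] {ι : R →+* L} {ρ : R →+* k}

/-- A quotient `b / a` of elements of the Gauss ring whose denominator has nonzero reduction lies
in the Gauss ring. -/
theorem s36_trl_W_div (hι : Function.Injective ι) (a b c : LaurentSeries L)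
    (ha : a ∈ s18_W ι ρ) (hb : b ∈ s18_W ι ρ) (hred : s18_red hι ⟨a, ha⟩ ≠ 0)
    (h : c * a = b) : c ∈ s18_W ι ρ := by
  obtain ⟨s, y, hs, hsy⟩ := id ha
  obtain ⟨s', y', hs', hsy'⟩ := id hb
  have hy : coeffMap ρ y ≠ 0 := by
    intro h0
    apply hred
    rw [s18_red_eq hι ⟨a, ha⟩ s y hs hsy, h0, zero_div]
  refine ⟨y * s', s * y', ?_, ?_⟩
  · rw [map_mul]
    exact mul_ne_zero hy hs'
  · rw [map_mul, map_mul, ← hsy, ← hsy', ← h]
    ring

/-- Multiplicativity of the reduction on such a quotient. -/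
theorem s36_trl_W_red (hι : Function.Injective ι) (a b c : LaurentSeries L)
    (ha : a ∈ s18_W ι ρ) (hb : b ∈ s18_W ι ρ) (hc : c ∈ s18_W ι ρ) (h : c * a = b) :
    s18_red hι ⟨c, hc⟩ * s18_red hι ⟨a, ha⟩ = s18_red hι ⟨b, hb⟩ := by
  rw [← map_mul]
  exact congrArg (s18_red hι) (Subtype.ext h)

end GaussW

section Model

variable (K : Type*) [Field K] [Algebra ℚ K] [Algebra K (AlgebraicClosure ℚ)]

/-- `θ`, restricted to `K · F_M`, is a derivation along the inclusion into `K((Q))`. -/
theorem s36_trl_leib (M : ℕ) (f g : laurentBaseChange K (modularFunctionFieldFull M)) :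
    ((s36_qt_theta K).comp
        (laurentBaseChange K (modularFunctionFieldFull M)).val.toRingHom.toAddMonoidHom) (f * g) =
      (laurentBaseChange K (modularFunctionFieldFull M)).val.toRingHom f *
          ((s36_qt_theta K).comp
            (laurentBaseChange K (modularFunctionFieldFull M)).val.toRingHom.toAddMonoidHom) g +
        (laurentBaseChange K (modularFunctionFieldFull M)).val.toRingHom g *
          ((s36_qt_theta K).comp
            (laurentBaseChange K (modularFunctionFieldFull M)).val.toRingHom.toAddMonoidHom) f := by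
  show s36_qt_theta K ((f : LaurentSeries K) * (g : LaurentSeries K)) =
    (f : LaurentSeries K) * s36_qt_theta K (g : LaurentSeries K) +
      (g : LaurentSeries K) * s36_qt_theta K (f : LaurentSeries K)
  rw [s36_qt_theta_mul]
  ring

theorem s36_trl_const (M : ℕ) (a : K) :
    ((s36_qt_theta K).comp
        (laurentBaseChange K (modularFunctionFieldFull M)).val.toRingHom.toAddMonoidHom)
      (algebraMap K (laurentBaseChange K (modularFunctionFieldFull M)) a) = 0 := by
  show s36_qt_theta K ((algebraMap K (laurentBaseChange K (modularFunctionFieldFull M)) a :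
    laurentBaseChange K (modularFunctionFieldFull M)) : LaurentSeries K) = 0
  rw [s34_gi_coe_algebraMap, s36_qt_theta_C]

theorem s36_trl_halg (M : ℕ) [NeZero M] (f : laurentBaseChange K (modularFunctionFieldFull M)) :
    IsAlgebraic (IntermediateField.adjoin K {s34_im_j K M}) f := by
  have hfin := s34_im_finite_j K M
  exact (Algebra.IsAlgebraic.of_finite (IntermediateField.adjoin K {s34_im_j K M})
    (laurentBaseChange K (modularFunctionFieldFull M))).isAlgebraic f

/-- **Theta-ratio in the model**: for `x, x' ∈ K · F_M` with `θ x ≠ 0`, `θ x' / θ x ∈ K · F_M`. -/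
theorem s36_trl_model (M : ℕ) [NeZero M] (x x' : laurentBaseChange K (modularFunctionFieldFull M))
    (hx : s36_qt_theta K (x : LaurentSeries K) ≠ 0) :
    ∃ r : laurentBaseChange K (modularFunctionFieldFull M),
      s36_qt_theta K (x' : LaurentSeries K) =
        (r : LaurentSeries K) * s36_qt_theta K (x : LaurentSeries K) := by
  haveI : CharZero K := algebraRat.charZero K
  exact s36_trl_ratio (laurentBaseChange K (modularFunctionFieldFull M)).val.toRingHom
    ((s36_qt_theta K).comp
      (laurentBaseChange K (modularFunctionFieldFull M)).val.toRingHom.toAddMonoidHom)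
    (s36_trl_leib K M) (s36_trl_const K M) (s34_im_j K M) (s36_trl_halg K M) x x' hx

/-- **Transport of the theta-ratio under a `K`-endomorphism** of `K · F_M`. -/
theorem s36_trl_model_w (M : ℕ) [NeZero M]
    (w : laurentBaseChange K (modularFunctionFieldFull M) →ₐ[K]
      laurentBaseChange K (modularFunctionFieldFull M))
    (x x' r : laurentBaseChange K (modularFunctionFieldFull M))
    (hx : s36_qt_theta K (x : LaurentSeries K) ≠ 0)
    (h : s36_qt_theta K (x' : LaurentSeries K) =
      (r : LaurentSeries K) * s36_qt_theta K (x : LaurentSeries K)) :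
    s36_qt_theta K ((w x' : laurentBaseChange K (modularFunctionFieldFull M)) : LaurentSeries K) =
      ((w r : laurentBaseChange K (modularFunctionFieldFull M)) : LaurentSeries K) *
        s36_qt_theta K
          ((w x : laurentBaseChange K (modularFunctionFieldFull M)) : LaurentSeries K) := by
  haveI : CharZero K := algebraRat.charZero K
  exact s36_trl_transport (laurentBaseChange K (modularFunctionFieldFull M)).val.toRingHom
    ((s36_qt_theta K).comp
      (laurentBaseChange K (modularFunctionFieldFull M)).val.toRingHom.toAddMonoidHom)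
    (s36_trl_leib K M) (s36_trl_const K M) (s34_im_j K M) (s36_trl_halg K M) w.toRingHom
    w.commutes x x' r hx h

/-- **The function `ρ = θ(x(Q^q)) / (q · θ x)`** at level `N * q`, for `x` of level `N`:
`ρ · θ x = (θ x)(Q^q)`, and `q² · ρ · W ρ = 1` for every `K`-endomorphism `W` swapping
`x` and `x(Q^q)`. -/
theorem s36_trl_rho (N q : ℕ) [NeZero N] [NeZero q]
    (x : laurentBaseChange K (modularFunctionFieldFull N))
    (hx : s36_qt_theta K (x : LaurentSeries K) ≠ 0) :
    ∃ ρ : laurentBaseChange K (modularFunctionFieldFull (N * q)),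
      (ρ : LaurentSeries K) * s36_qt_theta K (x : LaurentSeries K) =
        qExpand K q (s36_qt_theta K (x : LaurentSeries K)) ∧
      ∀ W : laurentBaseChange K (modularFunctionFieldFull (N * q)) →ₐ[K]
          laurentBaseChange K (modularFunctionFieldFull (N * q)),
        W (heckeAlphaBar K N q x) = heckeBetaBar K N q x →
        W (heckeBetaBar K N q x) = heckeAlphaBar K N q x →
        algebraMap K (laurentBaseChange K (modularFunctionFieldFull (N * q))) (q : K) ^ 2 *
          ρ * W ρ = 1 := by
  haveI : CharZero K := algebraRat.charZero K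
  have hX : ((heckeAlphaBar K N q x : laurentBaseChange K (modularFunctionFieldFull (N * q))) :
      LaurentSeries K) = (x : LaurentSeries K) := coe_heckeAlphaBar N q x
  have hX' : ((heckeBetaBar K N q x : laurentBaseChange K (modularFunctionFieldFull (N * q))) :
      LaurentSeries K) = qExpand K q (x : LaurentSeries K) := rfl
  have hθX : s36_qt_theta K ((heckeAlphaBar K N q x :
      laurentBaseChange K (modularFunctionFieldFull (N * q))) : LaurentSeries K) ≠ 0 := by
    rw [hX]
    exact hx
  obtain ⟨r, hr⟩ := s36_trl_model K (N * q) (heckeAlphaBar K N q x) (heckeBetaBar K N q x) hθX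
  have hq0 : ((q : ℕ) : K) ≠ 0 := Nat.cast_ne_zero.mpr (NeZero.ne q)
  have hC0 : (HahnSeries.C ((q : ℕ) : K) : LaurentSeries K) ≠ 0 := by
    rw [Ne, map_eq_zero]
    exact hq0
  have ha0 : algebraMap K (laurentBaseChange K (modularFunctionFieldFull (N * q))) (q : K) ≠ 0 := by
    rw [Ne, map_eq_zero]
    exact hq0
  refine ⟨(algebraMap K (laurentBaseChange K (modularFunctionFieldFull (N * q))) (q : K))⁻¹ * r,
    ?_, ?_⟩
  · have hr2 := hr
    rw [hX', hX, s36_qk_theta_qExpand] at hr2
    rw [IntermediateField.coe_mul, IntermediateField.coe_inv, s34_gi_coe_algebraMap, mul_assoc,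
      ← hr2, ← mul_assoc, inv_mul_cancel₀ hC0, one_mul]
  · intro W h1 h2
    have hw := s36_trl_model_w K (N * q) W (heckeAlphaBar K N q x) (heckeBetaBar K N q x) r hθX hr
    rw [h2, h1, hr] at hw
    have h3 : ((W r * r : laurentBaseChange K (modularFunctionFieldFull (N * q))) :
        LaurentSeries K) = 1 := by
      apply mul_right_cancel₀ hθX
      rw [one_mul, IntermediateField.coe_mul, mul_assoc]
      exact hw.symm
    have h4 : W r * r = 1 := Subtype.ext h3
    rw [map_mul, map_inv₀, W.commutes]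
    calc algebraMap K (laurentBaseChange K (modularFunctionFieldFull (N * q))) (q : K) ^ 2 *
          ((algebraMap K (laurentBaseChange K (modularFunctionFieldFull (N * q))) (q : K))⁻¹ * r) *
          ((algebraMap K (laurentBaseChange K (modularFunctionFieldFull (N * q))) (q : K))⁻¹ * W r)
        = (algebraMap K (laurentBaseChange K (modularFunctionFieldFull (N * q))) (q : K) *
            (algebraMap K (laurentBaseChange K (modularFunctionFieldFull (N * q))) (q : K))⁻¹) ^ 2 *
            (W r * r) := by ring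
      _ = 1 := by rw [mul_inv_cancel₀ ha0, h4, one_pow, one_mul]

/-- The swap sends `q² · ρ` to `ρ⁻¹` (so `q² ρ` is a unit at the component `0` iff `ρ` is a unit
at the component `∞`). -/
theorem s36_trl_swap_inv {F : Type*} [Field F] (a ρ : F) (W : F →+* F) (hWa : W a = a)
    (h : a ^ 2 * ρ * W ρ = 1) : W (a ^ 2 * ρ) = ρ⁻¹ := by
  have hρ : ρ ≠ 0 := by
    rintro rfl
    rw [mul_zero, zero_mul] at h
    exact zero_ne_one h
  rw [map_mul, map_pow, hWa]
  apply eq_inv_of_mul_eq_one_left
  rw [← h]
  ring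

/-- **`ρ` is a unit of the Gauss ring at infinity**, with reduction `(θ x̄)(Q^q) / θ x̄`. -/
theorem s36_trl_gauss (A₁ : ValuationSubring K) (N q : ℕ) [NeZero N] [NeZero q]
    (x : laurentBaseChange K (modularFunctionFieldFull N)) (hxV : x ∈ s34_gi_V A₁ N)
    (hθ : s36_qt_theta (IsLocalRing.ResidueField A₁) (s34_gi_red A₁ N ⟨x, hxV⟩) ≠ 0)
    (ρ : laurentBaseChange K (modularFunctionFieldFull (N * q)))
    (hρ : (ρ : LaurentSeries K) * s36_qt_theta K (x : LaurentSeries K) =
      qExpand K q (s36_qt_theta K (x : LaurentSeries K))) :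
    ∃ hρV : ρ ∈ s34_gi_V A₁ (N * q), ρ⁻¹ ∈ s34_gi_V A₁ (N * q) ∧
      s34_gi_red A₁ (N * q) ⟨ρ, hρV⟩ *
          s36_qt_theta (IsLocalRing.ResidueField A₁) (s34_gi_red A₁ N ⟨x, hxV⟩) =
        qExpand (IsLocalRing.ResidueField A₁) q
          (s36_qt_theta (IsLocalRing.ResidueField A₁) (s34_gi_red A₁ N ⟨x, hxV⟩)) := by
  have hι : Function.Injective (A₁.subtype : A₁ →+* K) := Subtype.val_injective
  have hxW : (x : LaurentSeries K) ∈ s18_W A₁.subtype (IsLocalRing.residue A₁) := hxV
  have haW : s36_qt_theta K (x : LaurentSeries K) ∈ s18_W A₁.subtype (IsLocalRing.residue A₁) :=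
    s36_qk_theta_mem_W hxW
  have hbW : qExpand K q (s36_qt_theta K (x : LaurentSeries K)) ∈
      s18_W A₁.subtype (IsLocalRing.residue A₁) := s34_fc_qExpand_mem_W q haW
  have hreda : s18_red hι ⟨s36_qt_theta K (x : LaurentSeries K), haW⟩ =
      s36_qt_theta (IsLocalRing.ResidueField A₁) (s34_gi_red A₁ N ⟨x, hxV⟩) :=
    s36_qk_red_theta hι (x : LaurentSeries K) hxW
  have hredb : s18_red hι ⟨qExpand K q (s36_qt_theta K (x : LaurentSeries K)), hbW⟩ =
      qExpand (IsLocalRing.ResidueField A₁) q
        (s36_qt_theta (IsLocalRing.ResidueField A₁) (s34_gi_red A₁ N ⟨x, hxV⟩)) := by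
    rw [s34_fc_red_qExpand hι q _ haW, hreda]
  have hreda0 : s18_red hι ⟨s36_qt_theta K (x : LaurentSeries K), haW⟩ ≠ 0 := by
    rw [hreda]
    exact hθ
  have hredb0 : s18_red hι ⟨qExpand K q (s36_qt_theta K (x : LaurentSeries K)), hbW⟩ ≠ 0 := by
    rw [hredb]
    intro h0
    exact hθ (qExpand_injective q (by rw [h0, map_zero]))
  have hρW : (ρ : LaurentSeries K) ∈ s18_W A₁.subtype (IsLocalRing.residue A₁) :=
    s36_trl_W_div hι _ _ _ haW hbW hreda0 hρ
  have hb0 : qExpand K q (s36_qt_theta K (x : LaurentSeries K)) ≠ 0 := by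
    intro h0
    apply hredb0
    have e : (⟨qExpand K q (s36_qt_theta K (x : LaurentSeries K)), hbW⟩ :
        s18_W A₁.subtype (IsLocalRing.residue A₁)) = 0 := Subtype.ext h0
    rw [e, map_zero]
  have hρ0 : (ρ : LaurentSeries K) ≠ 0 := by
    intro h0
    rw [h0, zero_mul] at hρ
    exact hb0 hρ.symm
  have hinv : ((ρ⁻¹ : laurentBaseChange K (modularFunctionFieldFull (N * q))) : LaurentSeries K) *
      qExpand K q (s36_qt_theta K (x : LaurentSeries K)) = s36_qt_theta K (x : LaurentSeries K) := by
    rw [IntermediateField.coe_inv, ← hρ, ← mul_assoc, inv_mul_cancel₀ hρ0, one_mul]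
  refine ⟨hρW, s36_trl_W_div hι _ _ _ hbW haW hredb0 hinv, ?_⟩
  have h1 := s36_trl_W_red hι _ _ _ haW hbW hρW hρ
  rw [hreda, hredb] at h1
  exact h1

/-- **Reduction of `ρ` when `x̄` has Frobenius-fixed coefficients**: `red ρ = (θ x̄)^(q-1)`. -/
theorem s36_trl_gauss_frob (A₁ : ValuationSubring K) (N q : ℕ) [NeZero N] [NeZero q]
    [Fact q.Prime] [CharP (IsLocalRing.ResidueField A₁) q]
    (x : laurentBaseChange K (modularFunctionFieldFull N)) (hxV : x ∈ s34_gi_V A₁ N)
    (hθ : s36_qt_theta (IsLocalRing.ResidueField A₁) (s34_gi_red A₁ N ⟨x, hxV⟩) ≠ 0)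
    (hfix : coeffMap (frobenius (IsLocalRing.ResidueField A₁) q) (s34_gi_red A₁ N ⟨x, hxV⟩) =
      s34_gi_red A₁ N ⟨x, hxV⟩)
    (ρ : laurentBaseChange K (modularFunctionFieldFull (N * q)))
    (hρ : (ρ : LaurentSeries K) * s36_qt_theta K (x : LaurentSeries K) =
      qExpand K q (s36_qt_theta K (x : LaurentSeries K))) :
    ∃ hρV : ρ ∈ s34_gi_V A₁ (N * q), ρ⁻¹ ∈ s34_gi_V A₁ (N * q) ∧
      s34_gi_red A₁ (N * q) ⟨ρ, hρV⟩ =
        s36_qt_theta (IsLocalRing.ResidueField A₁) (s34_gi_red A₁ N ⟨x, hxV⟩) ^ (q - 1) := by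
  obtain ⟨hρV, hinv, hred⟩ := s36_trl_gauss K A₁ N q x hxV hθ ρ hρ
  refine ⟨hρV, hinv, ?_⟩
  have hq1 : q - 1 + 1 = q := Nat.sub_add_cancel (Fact.out : q.Prime).pos
  have hpow : s36_qt_theta (IsLocalRing.ResidueField A₁) (s34_gi_red A₁ N ⟨x, hxV⟩) ^ q =
      qExpand (IsLocalRing.ResidueField A₁) q
        (s36_qt_theta (IsLocalRing.ResidueField A₁) (s34_gi_red A₁ N ⟨x, hxV⟩)) := by
    rw [Fermat.Agent.S37.s37_ec_pow_char q, ← s36_qt_theta_coeffMap, hfix]
  apply mul_right_cancel₀ hθ
  rw [hred, ← hpow, ← pow_succ, hq1]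

end Model

end Fermat.Agent.S36
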