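import Fermat.Agent.S36.CrossInst
import Fermat.Agent.S36.ThetaRatio
import Fermat.Agent.S36.NormalPt
import Fermat.Agent.S34.GaussZero
import Fermat.Agent.S34.GaussLevel

/-!
# S36 (NODE-3), B2 route (a): the pole hypothesis of the crossing-point core from (M5)

`s36_xi_core` (`CrossInst.lean`) takes the pole at a crossing point `𝔪` in the form
`hpole : ∀ x : B, x ∈ 𝔪 → hD(x) → (θ x̄)^(ℓ-1) ∉ O`.  Here it is derived from the horizontal-unit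
statement (M5) for a COORDINATE `t` of level `N`:

* `s36_m5_pole` (abstract): `r b = (θ t̄)^n · r a` with `a ∈ 𝔪`, `b ∉ 𝔪`, `t̄ ∈ O`
  ⟹ `∀ x, hD(x) → (θ x̄)^n ∉ O` (no `hext` needed: `θ t̄ ∈ O θ x̄`);
* `s36_m5_pole_sub` (Subring vocabulary): the same from `hρinv` as delivered by `s36_np_rhoinv`;
* `s36_m5_pole_gauss` (generic Gauss model): for `ρ ∈ K·F_(N q)` with `ρ · θ t = (θ t)(Q^q)`
  (`s36_trl_rho`), the swap relation `q² ρ W ρ = 1` and the horizontal integrality `hhor` of `ρ⁻¹`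
  (`s36_hu_hhor_inv_nat`), the chart `B` being noetherian, normal, with (cap):
  `hpole` of `s36_xi_core`.
-/

set_option autoImplicit false
set_option synthInstance.maxHeartbeats 400000
set_option maxHeartbeats 1000000
set_option linter.unusedSectionVars false
set_option linter.unusedVariables false

open ModularCurve ModularCurve.IgusaScheme

noncomputable section

namespace Fermat.Agent.S36

open Fermat.Agent.S18 Fermat.Agent.S28 Fermat.Agent.S34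

section Core

variable {B E : Type*} [CommRing B] [Field E]

/-- An element of `B` whose nonzero image is invertible in `O` is not in `𝔪`. -/
theorem s36_m5_not_mem (r : B →+* E) (𝔪 : Ideal B) [h𝔪 : 𝔪.IsPrime]
    (hker : ∀ z : B, r z = 0 → z ∈ 𝔪) (a : B) (ha0 : r a ≠ 0)
    (ha : (r a)⁻¹ ∈ s36_th_O r 𝔪) : a ∉ 𝔪 := by
  intro ha𝔪
  obtain ⟨c, d, hd, e⟩ := ha
  have h1 : r (d - c * a) = 0 := by
    rw [map_sub, map_mul, ← e, mul_comm ((r a)⁻¹ * r d), ← mul_assoc, mul_inv_cancel₀ ha0,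
      one_mul, sub_self]
  have h2 : d - c * a ∈ 𝔪 := hker _ h1
  have h3 : d = (d - c * a) + c * a := by ring
  exact hd (by rw [h3]; exact 𝔪.add_mem h2 (𝔪.mul_mem_left c ha𝔪))

/-- **The pole hypothesis from a coordinate.**  If `(θ t̄)^n` has a pole at the point
(`r b = (θ t̄)^n · r a`, `a ∈ 𝔪`, `b ∉ 𝔪`) for ONE `t̄ ∈ O`, then for every `x` satisfying the
stability `hD` the power `(θ x̄)^n` is not in `O`. -/
theorem s36_m5_pole (r : B →+* E) (θ : E →+ E) (𝔪 : Ideal B) [h𝔪 : 𝔪.IsPrime]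
    (hker : ∀ z : B, r z = 0 → z ∈ 𝔪) (n : ℕ) (tb : E) (htb : tb ∈ s36_th_O r 𝔪)
    (hρ : ∃ a b : B, a ∈ 𝔪 ∧ b ∉ 𝔪 ∧ r b = θ tb ^ n * r a) (x : B)
    (hD : ∀ f ∈ s36_th_O r 𝔪, ∃ g ∈ s36_th_O r 𝔪, θ f = g * θ (r x)) :
    θ (r x) ^ n ∉ s36_th_O r 𝔪 := by
  intro hx
  obtain ⟨a, b, ha, hb, e⟩ := hρ
  obtain ⟨g, hg, eg⟩ := hD tb htb
  have hb0 : r b ≠ 0 := fun h0 => hb (hker b h0)
  have hρO : θ tb ^ n ∈ s36_th_O r 𝔪 := by
    rw [eg, mul_pow]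
    exact (s36_th_O r 𝔪).mul_mem ((s36_th_O r 𝔪).pow_mem hg n) hx
  have ha0 : r a ≠ 0 := by
    intro h0
    rw [h0, mul_zero] at e
    exact hb0 e
  have hρ0 : θ tb ^ n ≠ 0 := by
    intro h0
    rw [h0, zero_mul] at e
    exact hb0 e
  have hinv : (r a)⁻¹ = θ tb ^ n * (r b)⁻¹ := by
    rw [e, mul_inv, ← mul_assoc, mul_inv_cancel₀ hρ0, one_mul]
  exact s36_m5_not_mem r 𝔪 hker a ha0
    (by rw [hinv]; exact (s36_th_O r 𝔪).mul_mem hρO (s36_th_inv_mem_O r 𝔪 b hb hb0)) ha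

end Core

section Sub

variable {F E : Type*} [Field F] [Field E]

/-- **The pole hypothesis from (M5), Subring vocabulary**: `hρinv` as delivered by
`s36_np_rhoinv` for `ρ_t` with `red ρ_t = (θ t̄)^n`, `t̄ ∈ O`. -/
theorem s36_m5_pole_sub (B V₁ V₂ : Subring F) (hB₁ : B ≤ V₁) (ϖ : F)
    (red : V₁ →+* E) (hker : ∀ z : V₁, red z = 0 ↔ ϖ⁻¹ * (z : F) ∈ V₁)
    (θ : E →+ E) (𝔪 : Ideal B) [𝔪.IsPrime]
    (hP₁ : ∀ p : B, ϖ⁻¹ * (p : F) ∈ V₁ → p ∈ 𝔪)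
    (hP₂ : ∀ p : B, ϖ⁻¹ * (p : F) ∈ V₂ → p ∈ 𝔪)
    (n : ℕ) (tb : E) (htb : tb ∈ s36_th_O (red.comp (Subring.inclusion hB₁)) 𝔪)
    (ρt : V₁) (hρ : red ρt = θ tb ^ n)
    (hρinv : ∃ a b : B, b ∉ 𝔪 ∧ (b : F) = (ρt : F) * (a : F) ∧ ϖ⁻¹ * (a : F) ∈ V₂)
    (x : B)
    (hD : ∀ f ∈ s36_th_O (red.comp (Subring.inclusion hB₁)) 𝔪,
      ∃ g ∈ s36_th_O (red.comp (Subring.inclusion hB₁)) 𝔪,
        θ f = g * θ ((red.comp (Subring.inclusion hB₁)) x)) :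
    θ ((red.comp (Subring.inclusion hB₁)) x) ^ n ∉
      s36_th_O (red.comp (Subring.inclusion hB₁)) 𝔪 := by
  have hk : ∀ z : B, (red.comp (Subring.inclusion hB₁)) z = 0 → z ∈ 𝔪 := by
    intro z hz
    exact hP₁ z ((hker _).mp hz)
  have hpole : ∃ a b : B, a ∈ 𝔪 ∧ b ∉ 𝔪 ∧
      (red.comp (Subring.inclusion hB₁)) b = θ tb ^ n * (red.comp (Subring.inclusion hB₁)) a := by
    obtain ⟨a, b, hb, e, ha⟩ := hρinv
    refine ⟨a, b, hP₂ a ha, hb, ?_⟩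
    have e' : Subring.inclusion hB₁ b = ρt * Subring.inclusion hB₁ a := Subtype.ext e
    show red (Subring.inclusion hB₁ b) = _
    rw [e', map_mul, hρ]
    rfl
  exact s36_m5_pole (red.comp (Subring.inclusion hB₁)) θ 𝔪 hk n tb htb hpole x hD

end Sub

section Gauss

variable {N : ℕ} [NeZero N] {q : ℕ} [NeZero q] [Fact q.Prime]
variable {K : Type*} [Field K] [Algebra ℚ K] [Algebra K (AlgebraicClosure ℚ)]
variable (A : ValuationSubring K)

local notation "F'" => laurentBaseChange K (modularFunctionFieldFull N)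
local notation "FF" => laurentBaseChange K (modularFunctionFieldFull (N * q))

/-- **`hpole` of `s36_xi_core` from (M5), generic Gauss model.**  `t ∈ K·F_N` a coordinate with
Frobenius-fixed reduction and `θ t̄ ≠ 0`, `α t ∈ B`; `ρ ∈ K·F_(N q)` with `ρ · θ t = (θ t)(Q^q)`
and `q² ρ W ρ = 1` (`s36_trl_rho`); `ρ⁻¹` integral at every horizontal discrete valuation ring
through `𝔪` (`hhor`, from `s36_hu_hhor_inv_nat`); the chart `B` noetherian and normal with (cap);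
`𝔪` a crossing point (`[CharP k q]` from `s18_charP_res`).  Then `(θ x̄)^(q-1) ∉ O` for every `x` satisfying the stability `hD`. -/
theorem s36_m5_pole_gauss [IsDiscreteValuationRing A]
    [CharP (IsLocalRing.ResidueField A) q]
    (hirr : Irreducible ((q : ℕ) : A))
    (W : FF ≃+* FF) (hWϖ : W (algebraMap K FF (q : K)) = algebraMap K FF (q : K))
    (B : Subring FF) (hB₁ : B ≤ s34_gi_V A (N * q))
    (hB₂ : B ≤ (s34_gi_V A (N * q)).comap (W : FF →+* FF))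
    (hϖB : algebraMap K FF (q : K) ∈ B)
    (hnoeth : IsNoetherianRing B)
    (hfrac : ∀ x : FF, ∃ a ∈ B, ∃ b ∈ B, b ≠ 0 ∧ x = a / b)
    (hnorm : ∀ z : FF, IsIntegral B z → z ∈ B)
    (hcap : ∀ x ∈ B, (algebraMap K FF (q : K))⁻¹ * x ∈ s34_gi_V A (N * q) →
      (algebraMap K FF (q : K))⁻¹ * x ∈ (s34_gi_V A (N * q)).comap (W : FF →+* FF) →
      (algebraMap K FF (q : K))⁻¹ * x ∈ B)
    (𝔪 : Ideal B) [h𝔪 : 𝔪.IsPrime]
    (hP₁ : ∀ p : B, (algebraMap K FF (q : K))⁻¹ * (p : FF) ∈ s34_gi_V A (N * q) → p ∈ 𝔪)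
    (hP₂ : ∀ p : B, (algebraMap K FF (q : K))⁻¹ * (p : FF) ∈
      (s34_gi_V A (N * q)).comap (W : FF →+* FF) → p ∈ 𝔪)
    (t : F') (htV : t ∈ s34_gi_V A N)
    (hθt : s36_qt_theta (IsLocalRing.ResidueField A) (s34_gi_red A N ⟨t, htV⟩) ≠ 0)
    (hfix : coeffMap (frobenius (IsLocalRing.ResidueField A) q) (s34_gi_red A N ⟨t, htV⟩) =
      s34_gi_red A N ⟨t, htV⟩)
    (hαB : heckeAlphaBar K N q t ∈ B)
    (ρ : FF)
    (hρ : (ρ : LaurentSeries K) * s36_qt_theta K (t : LaurentSeries K) =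
      qExpand K q (s36_qt_theta K (t : LaurentSeries K)))
    (hsw : algebraMap K FF (q : K) ^ 2 * ρ * W ρ = 1)
    (hhor : ∀ W' : ValuationSubring FF, IsDiscreteValuationRing W' → B ≤ W'.toSubring →
      (∀ b : B, b ∉ 𝔪 → ((b : FF))⁻¹ ∈ W') → (algebraMap K FF (q : K))⁻¹ ∈ W' → ρ⁻¹ ∈ W') :
    ∀ x : B, x ∈ 𝔪 →
      (∀ f ∈ s36_th_O (s36_xi_r A B hB₁) 𝔪, ∃ g ∈ s36_th_O (s36_xi_r A B hB₁) 𝔪,
        s36_qt_theta (IsLocalRing.ResidueField A) f =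
          g * s36_qt_theta (IsLocalRing.ResidueField A) (s36_xi_r A B hB₁ x)) →
      s36_qt_theta (IsLocalRing.ResidueField A) (s36_xi_r A B hB₁ x) ^ (q - 1) ∉
        s36_th_O (s36_xi_r A B hB₁) 𝔪 := by
  intro x hx𝔪 hD
  have hcast : (((q : ℕ) : A) : K) = (q : K) := by push_cast; rfl
  obtain ⟨hρV, hρinvV, hred⟩ := s36_trl_gauss_frob K A N q t htV hθt hfix ρ hρ
  have hV₁ : s34_Unif (algebraMap K FF (q : K)) (s34_gi_V A (N * q)) := by
    have h := s34_gi_unif (N := N * q) hirr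
    rw [hcast] at h
    exact h
  have hV₂ : s34_Unif (algebraMap K FF (q : K))
      ((s34_gi_V A (N * q)).comap (W : FF →+* FF)) := s34_Unif.comap hV₁ W hWϖ
  have hϖ0 : algebraMap K FF (q : K) ≠ 0 := hV₁.ne_zero
  have hρ0 : ρ ≠ 0 := by
    rintro rfl
    rw [mul_zero, zero_mul] at hsw
    exact zero_ne_one hsw
  have hWρ : W ρ = (algebraMap K FF (q : K) ^ 2 * ρ)⁻¹ := eq_inv_of_mul_eq_one_right hsw
  have hρ₂ : (algebraMap K FF (q : K))⁻¹ * ρ⁻¹ ∈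
      (s34_gi_V A (N * q)).comap (W : FF →+* FF) := by
    show W ((algebraMap K FF (q : K))⁻¹ * ρ⁻¹) ∈ s34_gi_V A (N * q)
    rw [map_mul, map_inv₀, map_inv₀, hWϖ, hWρ, inv_inv]
    have e : (algebraMap K FF (q : K))⁻¹ * (algebraMap K FF (q : K) ^ 2 * ρ) =
        algebraMap K FF (q : K) * ρ := by
      rw [pow_two, mul_assoc, ← mul_assoc, inv_mul_cancel₀ hϖ0, one_mul]
    rw [e]
    exact (s34_gi_V A (N * q)).mul_mem hV₁.mem hρV
  have hρinv := s36_np_rhoinv B (s34_gi_V A (N * q))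
    ((s34_gi_V A (N * q)).comap (W : FF →+* FF)) (algebraMap K FF (q : K)) hV₁ hV₂ hB₁ hB₂ hϖB
    hnoeth hfrac hnorm hcap 𝔪 ρ hρ0 hρinvV hρ₂ hhor
  have hαV : heckeAlphaBar K N q t ∈ s34_gi_V A (N * q) := hB₁ hαB
  have htb : s34_gi_red A N ⟨t, htV⟩ ∈ s36_th_O (s36_xi_r A B hB₁) 𝔪 := by
    have e : s36_xi_r A B hB₁ ⟨_, hαB⟩ = s34_gi_red A N ⟨t, htV⟩ :=
      s34_gi_red_alpha N q ⟨t, htV⟩ hαV
    rw [← e]
    exact s36_th_map_mem_O _ 𝔪 _
  have hker : ∀ z : s34_gi_V A (N * q), s34_gi_red A (N * q) z = 0 ↔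
      (algebraMap K FF (q : K))⁻¹ * (z : FF) ∈ s34_gi_V A (N * q) := by
    intro z
    have h := s34_gi_red_eq_zero_iff (N := N * q) hirr z
    rw [hcast] at h
    exact h
  exact s36_m5_pole_sub B (s34_gi_V A (N * q)) ((s34_gi_V A (N * q)).comap (W : FF →+* FF)) hB₁
    (algebraMap K FF (q : K)) (s34_gi_red A (N * q)) hker
    (s36_qt_theta (IsLocalRing.ResidueField A)) 𝔪 hP₁ hP₂ (q - 1) _ htb ⟨ρ, hρV⟩ hred hρinv x hD

end Gauss

end Fermat.Agent.S36
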