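import Fermat.Agent.S36.PoleM5
import Fermat.Agent.S36.ThickModelX
import Fermat.Agent.S36.HorizScale
import Fermat.Agent.S36.HorizSwap
import Fermat.Agent.S34.GaussZeroInst

/-!
# S36 (NODE-3), B2 route (a): `hpole` of the crossing-point core for `q ≥ 5`, concrete model

Concrete vocabulary of `HorizInst.lean`: `K₁ : IntermediateField ℚ ℚ̄` (no Galois hypothesis),
`A : ValuationSubring ℚ̄`, `A₁ = s18_A1 A K₁` a DVR with uniformizer `q` (unramified),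
`F' = K₁·F(N)`, `FF = K₁·F(N q)`, `W` the swap, `B ⊆ FF` a chart (noetherian, normal, (cap)),
`𝔪` a crossing point.

* `s36_m5_pole_int` : for a coordinate `t ∈ F'` with INTEGER `q`-expansion `Q⁻¹ + …`, such that
  `t' = β t = t(Q^q)` is unramified at the `ℚ̄`-places through `𝔪` (`hunr`): `hpole` of
  `s36_xi_core` (`(θ x̄)^(q-1) ∉ O` for every `x` with the stability `hD`).
  Composition of `s36_trl_rho`, `s36_trl_gauss_frob` (helper29), `s36_hu_hhor_inv_nat` (helper22),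
  `s36_np_rhoinv`, `s36_m5_pole_gauss`.
* `s36_m5_pole_two`, `s36_m5_pole_three` : the cases `t = t₂`, `t = t₃`, where `hunr` follows from
  `t', t' + 64 ∉ 𝔪` (resp. `t', t' + 27 ∉ 𝔪`) by `s36_hu_hunr_two/_three` + `s36_hu_sigma_two/_three`.
-/

set_option autoImplicit false
set_option synthInstance.maxHeartbeats 400000
set_option maxHeartbeats 1000000
set_option linter.unusedSectionVars false
set_option linter.unusedVariables false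
set_option linter.style.haveILetI false

open ModularCurve AlgebraicCurve Polynomial IntermediateField

noncomputable section

namespace Fermat.Agent.S36

open Fermat.Agent.S24 (Kbar FF jF)
open Fermat.Agent.S18 Fermat.Agent.S28 Fermat.Agent.S34

variable (N q : ℕ) [NeZero N] [NeZero q] [Fact q.Prime]
variable (K₁ : IntermediateField ℚ Kbar) (A : ValuationSubring Kbar)

/-- **`hpole` of `s36_xi_core` from (M5), concrete model, integer coordinate.** -/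
theorem s36_m5_pole_int [IsDiscreteValuationRing (s18_A1 A K₁)]
    [CharP (IsLocalRing.ResidueField (s18_A1 A K₁)) q]
    (hirr : Irreducible ((q : ℕ) : s18_A1 A K₁))
    (W : s18_F1 K₁ (N * q) ≃+* s18_F1 K₁ (N * q)) (hWW : ∀ x, W (W x) = x)
    (hWα : ∀ x : s18_F1 K₁ N, W (heckeAlphaBar K₁ N q x) = heckeBetaBar K₁ N q x)
    (B : Subring (s18_F1 K₁ (N * q)))
    (hAB : ∀ a : s18_A1 A K₁, algebraMap (s18_A1 A K₁) (s18_F1 K₁ (N * q)) a ∈ B)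
    (hB₁ : B ≤ s34_gi_V (s18_A1 A K₁) (N * q))
    (hB₂ : B ≤ (s34_gi_V (s18_A1 A K₁) (N * q)).comap
      (W : s18_F1 K₁ (N * q) →+* s18_F1 K₁ (N * q)))
    (hnoeth : IsNoetherianRing B)
    (hfrac : ∀ x : s18_F1 K₁ (N * q), ∃ a ∈ B, ∃ b ∈ B, b ≠ 0 ∧ x = a / b)
    (hnorm : ∀ z : s18_F1 K₁ (N * q), IsIntegral B z → z ∈ B)
    (hcap : ∀ x ∈ B,
      (algebraMap K₁ (s18_F1 K₁ (N * q)) (q : K₁))⁻¹ * x ∈ s34_gi_V (s18_A1 A K₁) (N * q) →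
      (algebraMap K₁ (s18_F1 K₁ (N * q)) (q : K₁))⁻¹ * x ∈
        (s34_gi_V (s18_A1 A K₁) (N * q)).comap (W : s18_F1 K₁ (N * q) →+* s18_F1 K₁ (N * q)) →
      (algebraMap K₁ (s18_F1 K₁ (N * q)) (q : K₁))⁻¹ * x ∈ B)
    (𝔪 : Ideal B) [h𝔪 : 𝔪.IsPrime]
    (hP₁ : ∀ p : B, (algebraMap K₁ (s18_F1 K₁ (N * q)) (q : K₁))⁻¹ * (p : s18_F1 K₁ (N * q)) ∈
      s34_gi_V (s18_A1 A K₁) (N * q) → p ∈ 𝔪)
    (hP₂ : ∀ p : B, (algebraMap K₁ (s18_F1 K₁ (N * q)) (q : K₁))⁻¹ * (p : s18_F1 K₁ (N * q)) ∈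
      (s34_gi_V (s18_A1 A K₁) (N * q)).comap (W : s18_F1 K₁ (N * q) →+* s18_F1 K₁ (N * q)) →
      p ∈ 𝔪)
    (t : s18_F1 K₁ N) (x₁ : LaurentSeries ℤ) (hx1 : x₁.coeff (-1) = 1)
    (ht : (t : LaurentSeries K₁) = coeffMap (Int.castRingHom K₁) x₁)
    (hαB : heckeAlphaBar K₁ N q t ∈ B) (hβB : heckeBetaBar K₁ N q t ∈ B)
    (hunr : ∀ W' : ValuationSubring (s18_F1 K₁ (N * q)), B ≤ W'.toSubring →
      (∀ b : B, b ∉ 𝔪 → ((b : s18_F1 K₁ (N * q)))⁻¹ ∈ W') →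
      ∀ (P : Place Kbar (FF (N * q))) (c : Kbar),
      (∀ y ∈ W', s18_baseIncl K₁ (N * q) y ∈ P.toValuationSubring) →
      0 < P.ord (s18_baseIncl K₁ (N * q) (heckeBetaBar K₁ N q t) -
        algebraMap Kbar (FF (N * q)) c) →
      P.ord (s18_baseIncl K₁ (N * q) (heckeBetaBar K₁ N q t) -
        algebraMap Kbar (FF (N * q)) c) = 1) :
    ∀ x : B, x ∈ 𝔪 →
      (∀ f ∈ s36_th_O (s36_xi_r (s18_A1 A K₁) B hB₁) 𝔪,
        ∃ g ∈ s36_th_O (s36_xi_r (s18_A1 A K₁) B hB₁) 𝔪,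
        s36_qt_theta (IsLocalRing.ResidueField (s18_A1 A K₁)) f =
          g * s36_qt_theta (IsLocalRing.ResidueField (s18_A1 A K₁))
            (s36_xi_r (s18_A1 A K₁) B hB₁ x)) →
      s36_qt_theta (IsLocalRing.ResidueField (s18_A1 A K₁))
          (s36_xi_r (s18_A1 A K₁) B hB₁ x) ^ (q - 1) ∉
        s36_th_O (s36_xi_r (s18_A1 A K₁) B hB₁) 𝔪 := by
  have hcast : (((q : ℕ) : s18_A1 A K₁) : K₁) = (q : K₁) := by push_cast; rfl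
  have hqK : (q : K₁) ≠ 0 := Nat.cast_ne_zero.mpr (NeZero.ne q)
  have hπeq : algebraMap (s18_A1 A K₁) (s18_F1 K₁ (N * q)) ((q : ℕ) : s18_A1 A K₁) =
      algebraMap K₁ (s18_F1 K₁ (N * q)) (q : K₁) := by
    show algebraMap K₁ (s18_F1 K₁ (N * q)) ((((q : ℕ) : s18_A1 A K₁)) : K₁) = _
    rw [hcast]
  -- the coordinate
  have htV : t ∈ s34_gi_V (s18_A1 A K₁) N := s36_tmx_int_mem (s18_A1 A K₁) N t x₁ ht
  have hred : s34_gi_red (s18_A1 A K₁) N ⟨t, htV⟩ =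
      coeffMap (Int.castRingHom (IsLocalRing.ResidueField (s18_A1 A K₁))) x₁ :=
    s36_tmx_red_int (s18_A1 A K₁) N ⟨t, htV⟩ x₁ ht
  have hθt : s36_qt_theta (IsLocalRing.ResidueField (s18_A1 A K₁))
      (s34_gi_red (s18_A1 A K₁) N ⟨t, htV⟩) ≠ 0 := by
    apply s36_tmx_theta_ne _ (-1)
    · rw [Int.cast_neg, Int.cast_one]
      exact neg_ne_zero.mpr one_ne_zero
    · rw [hred, coeffMap_coeff, hx1, map_one]
      exact one_ne_zero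
  have hfix : coeffMap (frobenius (IsLocalRing.ResidueField (s18_A1 A K₁)) q)
      (s34_gi_red (s18_A1 A K₁) N ⟨t, htV⟩) = s34_gi_red (s18_A1 A K₁) N ⟨t, htV⟩ := by
    rw [hred, coeffMap_coeffMap]
    exact coeffMap_congr (RingHom.ext_int _ _) x₁
  have hθK : s36_qt_theta K₁ (t : LaurentSeries K₁) ≠ 0 := by
    apply s36_tmx_theta_ne _ (-1)
    · rw [Int.cast_neg, Int.cast_one]
      exact neg_ne_zero.mpr one_ne_zero
    · rw [ht, coeffMap_coeff, hx1, map_one]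
      exact one_ne_zero
  -- the ratio
  obtain ⟨ρ, hρ, hρW⟩ := s36_trl_rho K₁ N q t hθK
  let Walg : s18_F1 K₁ (N * q) →ₐ[K₁] s18_F1 K₁ (N * q) :=
    { (W : s18_F1 K₁ (N * q) →+* s18_F1 K₁ (N * q)) with
      commutes' := s34_ni_W_const W hWα }
  have hsw : algebraMap K₁ (s18_F1 K₁ (N * q)) (q : K₁) ^ 2 * ρ * W ρ = 1 :=
    hρW Walg (hWα t) (by
      show W (heckeBetaBar K₁ N q t) = heckeAlphaBar K₁ N q t
      rw [← hWα t, hWW])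
  -- the horizontal integrality
  have hαcoe : ((heckeAlphaBar K₁ N q t : s18_F1 K₁ (N * q)) : LaurentSeries K₁) =
      (t : LaurentSeries K₁) := coe_heckeAlphaBar N q t
  have hβcoe : ((heckeBetaBar K₁ N q t : s18_F1 K₁ (N * q)) : LaurentSeries K₁) =
      qExpand K₁ q (t : LaurentSeries K₁) := coe_heckeBetaBar N q t
  have hC0 : (HahnSeries.C (q : K₁) : LaurentSeries K₁) ≠ 0 := by
    rw [Ne, map_eq_zero]
    exact hqK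
  have hθβ : s36_qt_theta K₁
      ((heckeBetaBar K₁ N q t : s18_F1 K₁ (N * q)) : LaurentSeries K₁) =
      HahnSeries.C (q : K₁) * qExpand K₁ q (s36_qt_theta K₁ (t : LaurentSeries K₁)) := by
    rw [hβcoe, s36_qk_theta_qExpand]
  have hθx' : s36_qt_theta K₁
      ((heckeBetaBar K₁ N q t : s18_F1 K₁ (N * q)) : LaurentSeries K₁) ≠ 0 := by
    rw [hθβ]
    refine mul_ne_zero hC0 (fun h0 => hθK ?_)
    exact qExpand_injective q (by rw [h0, map_zero])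
  have hr : s36_qt_theta K₁
      ((heckeBetaBar K₁ N q t : s18_F1 K₁ (N * q)) : LaurentSeries K₁) =
      (q : LaurentSeries K₁) * (ρ : LaurentSeries K₁) *
        s36_qt_theta K₁ ((heckeAlphaBar K₁ N q t : s18_F1 K₁ (N * q)) : LaurentSeries K₁) := by
    rw [hθβ, hαcoe, ← hρ, mul_assoc]
    congr 1
  have hhor := s36_hu_hhor_inv_nat (N * q) K₁ A hirr B hAB 𝔪 (heckeAlphaBar K₁ N q t)
    (heckeBetaBar K₁ N q t) ρ hαB hβB q hθx' hr hunr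
  have hhor' : ∀ W' : ValuationSubring (s18_F1 K₁ (N * q)), IsDiscreteValuationRing W' →
      B ≤ W'.toSubring → (∀ b : B, b ∉ 𝔪 → ((b : s18_F1 K₁ (N * q)))⁻¹ ∈ W') →
      (algebraMap K₁ (s18_F1 K₁ (N * q)) (q : K₁))⁻¹ ∈ W' → ρ⁻¹ ∈ W' := by
    intro W' hW' hBW hinv hqW
    exact hhor W' hW' hBW hinv (by rw [hπeq]; exact hqW)
  have hϖB : algebraMap K₁ (s18_F1 K₁ (N * q)) (q : K₁) ∈ B := by
    rw [← hπeq]
    exact hAB _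
  exact s36_m5_pole_gauss (s18_A1 A K₁) hirr W (s34_ni_W_const W hWα _) B hB₁ hB₂ hϖB hnoeth
    hfrac hnorm hcap 𝔪 hP₁ hP₂ t htV hθt hfix hαB ρ hρ hsw hhor'

/-- **`hpole` for `q ≥ 5` via the coordinate `t₂`**: at a crossing point `𝔪` with
`t₂(Q^q), t₂(Q^q) + 64 ∉ 𝔪`. -/
theorem s36_m5_pole_two (hcop : Nat.Coprime q N) [IsDiscreteValuationRing (s18_A1 A K₁)]
    [CharP (IsLocalRing.ResidueField (s18_A1 A K₁)) q]
    (hirr : Irreducible ((q : ℕ) : s18_A1 A K₁))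
    (W : s18_F1 K₁ (N * q) ≃+* s18_F1 K₁ (N * q)) (hWW : ∀ x, W (W x) = x)
    (hWα : ∀ x : s18_F1 K₁ N, W (heckeAlphaBar K₁ N q x) = heckeBetaBar K₁ N q x)
    (B : Subring (s18_F1 K₁ (N * q)))
    (hAB : ∀ a : s18_A1 A K₁, algebraMap (s18_A1 A K₁) (s18_F1 K₁ (N * q)) a ∈ B)
    (hB₁ : B ≤ s34_gi_V (s18_A1 A K₁) (N * q))
    (hB₂ : B ≤ (s34_gi_V (s18_A1 A K₁) (N * q)).comap
      (W : s18_F1 K₁ (N * q) →+* s18_F1 K₁ (N * q)))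
    (hnoeth : IsNoetherianRing B)
    (hfrac : ∀ x : s18_F1 K₁ (N * q), ∃ a ∈ B, ∃ b ∈ B, b ≠ 0 ∧ x = a / b)
    (hnorm : ∀ z : s18_F1 K₁ (N * q), IsIntegral B z → z ∈ B)
    (hcap : ∀ x ∈ B,
      (algebraMap K₁ (s18_F1 K₁ (N * q)) (q : K₁))⁻¹ * x ∈ s34_gi_V (s18_A1 A K₁) (N * q) →
      (algebraMap K₁ (s18_F1 K₁ (N * q)) (q : K₁))⁻¹ * x ∈
        (s34_gi_V (s18_A1 A K₁) (N * q)).comap (W : s18_F1 K₁ (N * q) →+* s18_F1 K₁ (N * q)) →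
      (algebraMap K₁ (s18_F1 K₁ (N * q)) (q : K₁))⁻¹ * x ∈ B)
    (𝔪 : Ideal B) [h𝔪 : 𝔪.IsPrime]
    (hP₁ : ∀ p : B, (algebraMap K₁ (s18_F1 K₁ (N * q)) (q : K₁))⁻¹ * (p : s18_F1 K₁ (N * q)) ∈
      s34_gi_V (s18_A1 A K₁) (N * q) → p ∈ 𝔪)
    (hP₂ : ∀ p : B, (algebraMap K₁ (s18_F1 K₁ (N * q)) (q : K₁))⁻¹ * (p : s18_F1 K₁ (N * q)) ∈
      (s34_gi_V (s18_A1 A K₁) (N * q)).comap (W : s18_F1 K₁ (N * q) →+* s18_F1 K₁ (N * q)) →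
      p ∈ 𝔪)
    (t : s18_F1 K₁ N) (ht : (t : LaurentSeries K₁) = s18_t2R K₁)
    (hαB : heckeAlphaBar K₁ N q t ∈ B) (hβB : heckeBetaBar K₁ N q t ∈ B)
    (hy𝔪 : (⟨heckeBetaBar K₁ N q t, hβB⟩ : B) ∉ 𝔪)
    (hy64 : (⟨heckeBetaBar K₁ N q t, hβB⟩ + 64 : B) ∉ 𝔪) :
    ∀ x : B, x ∈ 𝔪 →
      (∀ f ∈ s36_th_O (s36_xi_r (s18_A1 A K₁) B hB₁) 𝔪,
        ∃ g ∈ s36_th_O (s36_xi_r (s18_A1 A K₁) B hB₁) 𝔪,
        s36_qt_theta (IsLocalRing.ResidueField (s18_A1 A K₁)) f =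
          g * s36_qt_theta (IsLocalRing.ResidueField (s18_A1 A K₁))
            (s36_xi_r (s18_A1 A K₁) B hB₁ x)) →
      s36_qt_theta (IsLocalRing.ResidueField (s18_A1 A K₁))
          (s36_xi_r (s18_A1 A K₁) B hB₁ x) ^ (q - 1) ∉
        s36_th_O (s36_xi_r (s18_A1 A K₁) B hB₁) 𝔪 := by
  have hβcoe : ((heckeBetaBar K₁ N q t : s18_F1 K₁ (N * q)) : LaurentSeries K₁) =
      qExpand K₁ q (s18_t2R K₁) := by
    rw [← ht]
    exact coe_heckeBetaBar N q t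
  obtain ⟨σ, hσ⟩ := s36_hu_sigma_two K₁ N q hcop (heckeBetaBar K₁ N q t) hβcoe
  exact s36_m5_pole_int N q K₁ A hirr W hWW hWα B hAB hB₁ hB₂ hnoeth hfrac hnorm hcap 𝔪 hP₁ hP₂
    t s18_t2 s34_gzi_t2_lead.1 ht hαB hβB
    (s36_hu_hunr_two (N * q) K₁ B 𝔪 (heckeBetaBar K₁ N q t) hβB hy𝔪 hy64 σ hσ)

/-- **`hpole` for `q ≥ 5` via the coordinate `t₃`**: at a crossing point `𝔪` with
`t₃(Q^q), t₃(Q^q) + 27 ∉ 𝔪`. -/
theorem s36_m5_pole_three (hcop : Nat.Coprime q N) [IsDiscreteValuationRing (s18_A1 A K₁)]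
    [CharP (IsLocalRing.ResidueField (s18_A1 A K₁)) q]
    (hirr : Irreducible ((q : ℕ) : s18_A1 A K₁))
    (W : s18_F1 K₁ (N * q) ≃+* s18_F1 K₁ (N * q)) (hWW : ∀ x, W (W x) = x)
    (hWα : ∀ x : s18_F1 K₁ N, W (heckeAlphaBar K₁ N q x) = heckeBetaBar K₁ N q x)
    (B : Subring (s18_F1 K₁ (N * q)))
    (hAB : ∀ a : s18_A1 A K₁, algebraMap (s18_A1 A K₁) (s18_F1 K₁ (N * q)) a ∈ B)
    (hB₁ : B ≤ s34_gi_V (s18_A1 A K₁) (N * q))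
    (hB₂ : B ≤ (s34_gi_V (s18_A1 A K₁) (N * q)).comap
      (W : s18_F1 K₁ (N * q) →+* s18_F1 K₁ (N * q)))
    (hnoeth : IsNoetherianRing B)
    (hfrac : ∀ x : s18_F1 K₁ (N * q), ∃ a ∈ B, ∃ b ∈ B, b ≠ 0 ∧ x = a / b)
    (hnorm : ∀ z : s18_F1 K₁ (N * q), IsIntegral B z → z ∈ B)
    (hcap : ∀ x ∈ B,
      (algebraMap K₁ (s18_F1 K₁ (N * q)) (q : K₁))⁻¹ * x ∈ s34_gi_V (s18_A1 A K₁) (N * q) →
      (algebraMap K₁ (s18_F1 K₁ (N * q)) (q : K₁))⁻¹ * x ∈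
        (s34_gi_V (s18_A1 A K₁) (N * q)).comap (W : s18_F1 K₁ (N * q) →+* s18_F1 K₁ (N * q)) →
      (algebraMap K₁ (s18_F1 K₁ (N * q)) (q : K₁))⁻¹ * x ∈ B)
    (𝔪 : Ideal B) [h𝔪 : 𝔪.IsPrime]
    (hP₁ : ∀ p : B, (algebraMap K₁ (s18_F1 K₁ (N * q)) (q : K₁))⁻¹ * (p : s18_F1 K₁ (N * q)) ∈
      s34_gi_V (s18_A1 A K₁) (N * q) → p ∈ 𝔪)
    (hP₂ : ∀ p : B, (algebraMap K₁ (s18_F1 K₁ (N * q)) (q : K₁))⁻¹ * (p : s18_F1 K₁ (N * q)) ∈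
      (s34_gi_V (s18_A1 A K₁) (N * q)).comap (W : s18_F1 K₁ (N * q) →+* s18_F1 K₁ (N * q)) →
      p ∈ 𝔪)
    (t : s18_F1 K₁ N) (ht : (t : LaurentSeries K₁) = s18_t3R K₁)
    (hαB : heckeAlphaBar K₁ N q t ∈ B) (hβB : heckeBetaBar K₁ N q t ∈ B)
    (hy𝔪 : (⟨heckeBetaBar K₁ N q t, hβB⟩ : B) ∉ 𝔪)
    (hy27 : (⟨heckeBetaBar K₁ N q t, hβB⟩ + 27 : B) ∉ 𝔪) :
    ∀ x : B, x ∈ 𝔪 →
      (∀ f ∈ s36_th_O (s36_xi_r (s18_A1 A K₁) B hB₁) 𝔪,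
        ∃ g ∈ s36_th_O (s36_xi_r (s18_A1 A K₁) B hB₁) 𝔪,
        s36_qt_theta (IsLocalRing.ResidueField (s18_A1 A K₁)) f =
          g * s36_qt_theta (IsLocalRing.ResidueField (s18_A1 A K₁))
            (s36_xi_r (s18_A1 A K₁) B hB₁ x)) →
      s36_qt_theta (IsLocalRing.ResidueField (s18_A1 A K₁))
          (s36_xi_r (s18_A1 A K₁) B hB₁ x) ^ (q - 1) ∉
        s36_th_O (s36_xi_r (s18_A1 A K₁) B hB₁) 𝔪 := by
  have hβcoe : ((heckeBetaBar K₁ N q t : s18_F1 K₁ (N * q)) : LaurentSeries K₁) =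
      qExpand K₁ q (s18_t3R K₁) := by
    rw [← ht]
    exact coe_heckeBetaBar N q t
  obtain ⟨σ, hσ⟩ := s36_hu_sigma_three K₁ N q hcop (heckeBetaBar K₁ N q t) hβcoe
  exact s36_m5_pole_int N q K₁ A hirr W hWW hWα B hAB hB₁ hB₂ hnoeth hfrac hnorm hcap 𝔪 hP₁ hP₂
    t s18_t3 s34_gzi_t3_lead.1 ht hαB hβB
    (s36_hu_hunr_three (N * q) K₁ B 𝔪 (heckeBetaBar K₁ N q t) hβB hy𝔪 hy27 σ hσ)

end Fermat.Agent.S36
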