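import Fermat.Agent.S28.LevelOne
import Fermat.Agent.S28.WRing
import Fermat.Agent.S28.CycRing

/-!
# S36 (NODE-3), leaf (QS1): the formal Hasse polynomial

For a prime `q ≥ 5` the series `Δ^{-(q-1)} mod q ∈ 𝔽_q((q))` is a monic polynomial `P_q` of
degree `q - 1` in `j`:

`s36_qh_main : ∃ P : (ZMod q)[X], P.Monic ∧ P.natDegree = q - 1 ∧
    P.eval₂ HahnSeries.C (jqModC (ZMod q)) = deltaInvSeries (ZMod q) ^ (q - 1)`.

Proof: `E_{q-1} ≡ 1 mod q` (von Staudt–Clausen and the `q`-expansion of the Eisenstein series),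
`E_{q-1}^12 / Δ^{q-1}` is a holomorphic level one function with `ℤ_(q)`-integral expansion, hence
a polynomial in `j` over `ℤ_(q)` (`levelOne_eq_poly`); reduce modulo `q`.
-/

set_option autoImplicit false
set_option linter.style.haveILetI false
set_option linter.unusedSectionVars false

open UpperHalfPlane ModularForm Complex ModularCurve
open scoped Real MatrixGroups CongruenceSubgroup Manifold

noncomputable section

namespace Fermat.Agent.S36

open Fermat.Agent.S28

variable (q : ℕ) [Fact q.Prime]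

/-- Elements of `ℤ_(q)` with nonzero residue are units. -/
theorem s36_qh_isUnit_of_redR_ne_zero (x : GaloisRep.ratLocalizedAt q) (hx : redR q x ≠ 0) :
    IsUnit x := by
  obtain ⟨⟨a, s⟩, has⟩ := IsLocalization.surj (primeToSubmonoid q) x
  simp only [eq_intCast] at has
  have h1 : redR q x * ((s : ℤ) : ZMod q) = ((a : ℤ) : ZMod q) := by
    have := congrArg (redR q) has
    simpa using this
  have ha : ¬ (q : ℤ) ∣ a := by
    intro h
    have h0 : ((a : ℤ) : ZMod q) = 0 := (ZMod.intCast_zmod_eq_zero_iff_dvd _ _).mpr h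
    rw [h0] at h1
    have hs : ((s : ℤ) : ZMod q) ≠ 0 := fun h' =>
      s.2 ((ZMod.intCast_zmod_eq_zero_iff_dvd _ _).mp h')
    exact (mul_ne_zero hx hs) h1
  have hu := intCast_isUnit_ratLocalizedAt q a ha
  rw [← has] at hu
  exact isUnit_of_mul_isUnit_left hu

/-- von Staudt–Clausen at `q - 1`: `q · B_{q-1} ≡ -1 mod q ℤ_(q)`. -/
theorem s36_qh_bernoulli (hq : 5 ≤ q) :
    ∃ r : GaloisRep.ratLocalizedAt q, (q : ℚ) * bernoulli (q - 1) = -1 + q * (r : ℚ) := by
  have hqp : q.Prime := Fact.out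
  obtain ⟨k, hk⟩ : ∃ k, q - 1 = 2 * k := by
    rcases hqp.eq_two_or_odd' with h | h
    · omega
    · obtain ⟨m, hm⟩ := h
      exact ⟨m, by omega⟩
  obtain ⟨n, hn⟩ := Bernoulli.vonStaudt_clausen k
  set S := (Finset.range (2 * k + 2)).filter (fun p => p.Prime ∧ (p - 1) ∣ 2 * k) with hS
  have hqS : q ∈ S := by
    rw [hS, Finset.mem_filter, Finset.mem_range]
    exact ⟨by omega, hqp, by rw [hk]⟩
  rw [← Finset.add_sum_erase S _ hqS] at hn
  have hrest : (∑ p ∈ S.erase q, (1 : ℚ) / p) ∈ GaloisRep.ratLocalizedAt q := by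
    refine Subring.sum_mem _ (fun p hp => ?_)
    rw [Finset.mem_erase, hS, Finset.mem_filter] at hp
    obtain ⟨hne, -, hpp, -⟩ := hp
    have hnd : ¬ q ∣ p := fun h => hne ((Nat.prime_dvd_prime_iff_eq hqp hpp).mp h).symm
    obtain ⟨u, hu⟩ := natCast_isUnit_ratLocalizedAt q p hnd
    have h1 : ((u⁻¹ : (GaloisRep.ratLocalizedAt q)ˣ) : GaloisRep.ratLocalizedAt q) * u = 1 :=
      Units.inv_mul u
    rw [hu] at h1
    have h2 : (((u⁻¹ : (GaloisRep.ratLocalizedAt q)ˣ) : GaloisRep.ratLocalizedAt q) : ℚ) * (p : ℚ)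
        = 1 := by
      have := congrArg (Subtype.val) h1
      simpa using this
    have hp0 : (p : ℚ) ≠ 0 := by exact_mod_cast hpp.ne_zero
    have h3 : (1 : ℚ) / p = (((u⁻¹ : (GaloisRep.ratLocalizedAt q)ˣ) :
        GaloisRep.ratLocalizedAt q) : ℚ) := by
      rw [eq_comm, eq_div_iff hp0]
      exact h2
    rw [h3]
    exact Subtype.prop _
  have hn' : ((n : ℤ) : ℚ) ∈ GaloisRep.ratLocalizedAt q := intCast_mem _ n
  refine ⟨⟨(n : ℚ) - ∑ p ∈ S.erase q, (1 : ℚ) / p, Subring.sub_mem _ hn' hrest⟩, ?_⟩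
  have hq0 : (q : ℚ) ≠ 0 := by exact_mod_cast hqp.ne_zero
  have hB : bernoulli (2 * k) = n - 1 / q - ∑ p ∈ S.erase q, (1 : ℚ) / p := by linarith
  rw [hk, hB]
  field_simp
  ring

/-- `2(q-1)/B_{q-1} ∈ q ℤ_(q)`. -/
theorem s36_qh_beta (hq : 5 ≤ q) :
    ∃ b : GaloisRep.ratLocalizedAt q,
      (2 * ((q - 1 : ℕ) : ℚ) / bernoulli (q - 1)) = q * (b : ℚ) := by
  have hqp : q.Prime := Fact.out
  obtain ⟨r, hr⟩ := s36_qh_bernoulli q hq
  set w : GaloisRep.ratLocalizedAt q := -1 + (q : GaloisRep.ratLocalizedAt q) * r with hw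
  have hwred : redR q w ≠ 0 := by
    rw [hw, map_add, map_neg, map_one, map_mul, map_natCast, ZMod.natCast_self, zero_mul,
      add_zero]
    exact neg_ne_zero.mpr one_ne_zero
  obtain ⟨u, hu⟩ := s36_qh_isUnit_of_redR_ne_zero q w hwred
  refine ⟨((2 * (q - 1) : ℕ) : GaloisRep.ratLocalizedAt q) *
    ((u⁻¹ : (GaloisRep.ratLocalizedAt q)ˣ) : GaloisRep.ratLocalizedAt q), ?_⟩
  have hwv : ((w : GaloisRep.ratLocalizedAt q) : ℚ) = (q : ℚ) * bernoulli (q - 1) := by
    rw [hr, hw]
    push_cast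
    ring
  have huv : (((u⁻¹ : (GaloisRep.ratLocalizedAt q)ˣ) : GaloisRep.ratLocalizedAt q) : ℚ) *
      ((q : ℚ) * bernoulli (q - 1)) = 1 := by
    rw [← hwv, ← hu]
    have h1 := congrArg Subtype.val (Units.inv_mul u)
    rw [Subring.coe_mul, Subring.coe_one] at h1
    exact h1
  have hB0 : bernoulli (q - 1) ≠ 0 := by
    intro h
    rw [h, mul_zero, mul_zero] at huv
    exact zero_ne_one huv
  have h2 : (((2 * (q - 1) : ℕ) : GaloisRep.ratLocalizedAt q) : ℚ) = 2 * ((q - 1 : ℕ) : ℚ) := by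
    rw [Subring.coe_natCast]
    push_cast
    ring
  rw [div_eq_iff hB0, Subring.coe_mul, h2]
  linear_combination (-2 * ((q - 1 : ℕ) : ℚ)) * huv

/-- The `q`-expansion of `E_{q-1}` has coefficients in `ℤ_(q)` and reduces to `1` modulo `q`. -/
theorem s36_qh_eisenstein (hq : 5 ≤ q) (hk : 3 ≤ q - 1) :
    ∃ Es : PowerSeries (GaloisRep.ratLocalizedAt q),
      Es.map (redR q) = 1 ∧ Es.map (cycIncl q) = qExpansion 1 (E hk) := by
  have hqp : q.Prime := Fact.out
  have hev : Even (q - 1) := by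
    rcases hqp.eq_two_or_odd' with h | h
    · omega
    · obtain ⟨m, hm⟩ := h
      exact ⟨m, by omega⟩
  obtain ⟨b, hb⟩ := s36_qh_beta q hq
  refine ⟨PowerSeries.mk fun m => if m = 0 then 1 else
    -((q : GaloisRep.ratLocalizedAt q) * b) *
      ((ArithmeticFunction.sigma (q - 1 - 1) m : ℕ) : GaloisRep.ratLocalizedAt q), ?_, ?_⟩
  · ext m
    rw [PowerSeries.coeff_map, PowerSeries.coeff_mk, PowerSeries.coeff_one]
    split_ifs with h
    · exact map_one _
    · rw [map_mul, map_neg, map_mul, map_natCast, ZMod.natCast_self, zero_mul, neg_zero, zero_mul]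
  · ext m
    rw [PowerSeries.coeff_map, PowerSeries.coeff_mk, EisensteinSeries.E_qExpansion_coeff hk hev m]
    split_ifs with h
    · exact map_one _
    · rw [cycIncl_apply]
      have hb' : ((2 * ((q - 1 : ℕ) : ℚ) / bernoulli (q - 1) : ℚ) : ℂ) = ((q * (b : ℚ) : ℚ) : ℂ) :=
        congrArg _ hb
      push_cast at hb' ⊢
      rw [← hb']

/-- `E_{q-1}` has the expansion `Es`. -/
theorem s36_qh_hasQExp_E (hk : 3 ≤ q - 1) (Es : PowerSeries (GaloisRep.ratLocalizedAt q))
    (hEs : Es.map (cycIncl q) = qExpansion 1 (E hk)) :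
    HasQExp 1 (fun τ => E hk τ) (HahnSeries.ofPowerSeries ℤ ℂ (Es.map (cycIncl q))) := by
  rw [hasQExp_ofPowerSeries_iff]
  intro τ
  have := ModularForm.hasSum_qExpansion (f := E hk) one_pos one_mem_strictPeriods_SL τ
  rw [← hEs] at this
  simpa [tParam_one_eq] using this

/-- Powers of a series with leading coefficient `1`. -/
theorem s36_qh_isLeading_pow {A : Type*} [CommRing A] {s : LaurentSeries A} {e : ℤ}
    (h : IsLeading s e 1) (n : ℕ) : IsLeading (s ^ n) (n * e) 1 := by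
  induction n with
  | zero =>
    rw [pow_zero, Nat.cast_zero, zero_mul]
    refine ⟨by simp [HahnSeries.coeff_one], fun m hm => ?_⟩
    rw [HahnSeries.coeff_one, if_neg (by omega)]
  | succ n ih =>
    have h1 := ih.mul h
    rw [one_mul] at h1
    rw [pow_succ]
    convert h1 using 1
    push_cast
    ring

/-- **The formal Hasse polynomial.** For a prime `q ≥ 5`, `Δ^{-(q-1)} mod q` is a monic
polynomial of degree `q - 1` in `j`. -/
theorem s36_qh_main (hq : 5 ≤ q) :
    ∃ P : Polynomial (ZMod q), P.Monic ∧ P.natDegree = q - 1 ∧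
      P.eval₂ HahnSeries.C (jqModC (ZMod q)) = deltaInvSeries (ZMod q) ^ (q - 1) := by
  have hk : 3 ≤ q - 1 := by omega
  obtain ⟨Es, hred, hEs⟩ := s36_qh_eisenstein q hq hk
  have hE := s36_qh_hasQExp_E q hk Es hEs
  -- the coefficient ring inside `ℂ`
  let A : Subring ℂ := (cycIncl q).range
  let φ : GaloisRep.ratLocalizedAt q →+* A := (cycIncl q).rangeRestrict
  have hφinj : Function.Injective φ := by
    intro x y hxy
    have h1 : cycIncl q x = cycIncl q y := congrArg Subtype.val hxy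
    rw [cycIncl_apply, cycIncl_apply] at h1
    exact Subtype.ext (by exact_mod_cast h1)
  have hφsurj : Function.Surjective φ := (cycIncl q).rangeRestrict_surjective
  let e : GaloisRep.ratLocalizedAt q ≃+* A := RingEquiv.ofBijective φ ⟨hφinj, hφsurj⟩
  let ψ : A →+* ZMod q := (redR q).comp (e.symm : A →+* GaloisRep.ratLocalizedAt q)
  have hψφ : ψ.comp φ = redR q := by
    ext x
    show redR q (e.symm (e x)) = redR q x
    rw [RingEquiv.symm_apply_apply]
  have hsubφ : A.subtype.comp φ = cycIncl q := by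
    ext x
    rfl
  -- the function and its expansion
  let h : ℍ → ℂ := (⇑(E hk)) ^ 12 / ModularForm.discriminant ^ (q - 1)
  let s : LaurentSeries A :=
    (HahnSeries.ofPowerSeries ℤ A (Es.map φ)) ^ 12 * deltaInvSeries A ^ (q - 1)
  have hsmap : coeffMap A.subtype s =
      (HahnSeries.ofPowerSeries ℤ ℂ (Es.map (cycIncl q))) ^ 12 * deltaInvSeries ℂ ^ (q - 1) := by
    show coeffMap A.subtype ((HahnSeries.ofPowerSeries ℤ A (Es.map φ)) ^ 12 *
      deltaInvSeries A ^ (q - 1)) = _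
    rw [map_mul, map_pow, map_pow, coeffMap_ofPowerSeries, coeffMap_deltaInvSeries, ← hsubφ,
      PowerSeries.map_comp]
    rfl
  have hQ : HasQExp 1 h (coeffMap A.subtype s) := by
    rw [hsmap]
    refine ((hE.pow 12).mul (hasQExp_discriminant_inv.pow (q - 1))).congr (fun τ => ?_)
    show _ = E hk τ ^ 12 / ModularForm.discriminant τ ^ (q - 1)
    rw [div_eq_mul_inv, inv_pow]
  have hmd : MDifferentiable 𝓘(ℂ) 𝓘(ℂ) h :=
    ((ModularFormClass.holo (E hk)).pow 12).div (CuspForm.discriminant.holo'.pow (q - 1))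
      (fun τ => pow_ne_zero _ (discriminant_ne_zero τ))
  have hinv : ∀ (γ : SL(2, ℤ)) (τ : ℍ), h (γ • τ) = h τ := by
    have h1 : lop_WtInv 0 h :=
      (((lop_WtInv.of_modularForm (E hk)).pow 12).div
        (lop_WtInv_discriminant.pow (q - 1))).congr_weight (by ring)
    intro γ τ
    rw [h1 γ τ, zpow_zero, one_mul]
  obtain ⟨P, hP⟩ := levelOne_eq_poly 1 A h hmd hinv s hQ
  -- reduce modulo `q`
  have hmapE : PowerSeries.map ψ (PowerSeries.map φ Es) = 1 := by
    rw [← RingHom.comp_apply, ← PowerSeries.map_comp, hψφ, hred]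
  have hPred : (P.map ψ).eval₂ HahnSeries.C (jqModC (ZMod q)) =
      deltaInvSeries (ZMod q) ^ (q - 1) := by
    have h1 := congrArg (coeffMap ψ) hP
    rw [coeffMap_eval₂_jN] at h1
    rw [show jN (ZMod q) 1 = jqModC (ZMod q) from qExpand_one_apply _] at h1
    rw [← h1]
    show coeffMap ψ ((HahnSeries.ofPowerSeries ℤ A (Es.map φ)) ^ 12 *
      deltaInvSeries A ^ (q - 1)) = _
    rw [map_mul, map_pow, map_pow, coeffMap_ofPowerSeries, coeffMap_deltaInvSeries, hmapE,
      map_one, one_pow, one_mul]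
  have hlead : IsLeading (deltaInvSeries (ZMod q) ^ (q - 1)) (((q - 1 : ℕ) : ℤ) * (-1)) 1 :=
    s36_qh_isLeading_pow (isLeading_deltaInvSeries (ZMod q)) (q - 1)
  have h1ne : (1 : ZMod q) ≠ 0 := one_ne_zero
  -- degree bound
  have hdeg : (P.map ψ).natDegree ≤ q - 1 := by
    by_contra hcon
    push Not at hcon
    have h2 := formal_coeff_eval₂_jN (ZMod q) 1 (P.map ψ)
    rw [show jN (ZMod q) 1 = jqModC (ZMod q) from qExpand_one_apply _, hPred,
      hlead.2 _ (by push_cast; omega)] at h2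
    have h3 : P.map ψ = 0 := Polynomial.leadingCoeff_eq_zero.mp h2.symm
    rw [h3] at hcon
    simp at hcon
  have hcoeff : (P.map ψ).coeff (q - 1) = 1 := by
    have h2 := lvl_coeff_eval₂_jN (ZMod q) 1 (q - 1) (P.map ψ) (fun m hm =>
      Polynomial.coeff_eq_zero_of_natDegree_lt (by omega))
    rw [show jN (ZMod q) 1 = jqModC (ZMod q) from qExpand_one_apply _, hPred] at h2
    rw [← h2, ← hlead.1]
    congr 1
    push_cast
    ring
  have hdeg' : (P.map ψ).natDegree = q - 1 :=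
    le_antisymm hdeg (Polynomial.le_natDegree_of_ne_zero (by rw [hcoeff]; exact h1ne))
  refine ⟨P.map ψ, ?_, hdeg', hPred⟩
  rw [Polynomial.Monic, Polynomial.leadingCoeff, hdeg', hcoeff]

end Fermat.Agent.S36
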