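import Fermat.Agent.S36.QTheta
import Fermat.Agent.S18.Haupt2
import Fermat.Agent.S18.Haupt3

/-!
# S36 (NODE-3), leaf (POLE23), `q`-series half: the primes `q = 2, 3`

Pure `q`-series / algebra facts for the special primes `q ∈ {2, 3}` (no model objects).
`θ = Q d/dQ` is `s36_qt_theta`; `t₂ = s18_t2`, `t₃ = s18_t3` are the integral Hauptmoduln of
`X₀(2)`, `X₀(3)`; reduction mod `q` is `coeffMap (Int.castRingHom (ZMod q))`.

* (Q1) `s36_q23_theta_delta`, `s36_q23_theta_j` : over any commutative ring with `24 = 0`,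
  `θ Δ = Δ` and `θ j = -j` (Ramanujan's identity, `E₄ ≡ E₆ ≡ 1`), and `j = 1 / Δ`.
* (Q2) `s36_q23_theta_t2` : `θ t̄₂ = -t̄₂` over any ring with `3 = 0` (e.g. `k((Q))`, `k` the
  residue field at `q = 3`); `s36_q23_theta_t3` : `θ t̄₃ = t̄₃` over any ring with `2 = 0`;
  `s36_q23_rho3` : `(θ t̄₂)² = t̄₂²`.
* (Q3) `s36_q23_t3_mod3`, `s36_q23_f_mod3` : `t̄₃ = j̄` and `t̄₂² t̄₃ = (t̄₂ + 1)³` when `3 = 0`;
  `s36_q23_t2_mod2`, `s36_q23_f_mod2` : `t̄₂ = j̄` and `t̄₃³ t̄₂ = (t̄₃ + 1)⁴` when `2 = 0`.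
* (Q4) `s36_q23_int3`, `s36_q23_int2` : the monic integrality relations of `t₂² t₃` over `ℤ[t₂]`
  and of `t₃³ t₂` over `ℤ[t₃]`; `s36_q23_swap3`, `s36_q23_swap2` (+ `_series` forms) : the
  swapped Hauptmodul reduces to `0`; `s36_q23_j_pow_ne_one` : `j̄` is not a root of unity.
-/

set_option autoImplicit false

open ModularCurve

noncomputable section

namespace Fermat.Agent.S36

open Fermat.Agent.S28 Fermat.Agent.S18

/-! ### (Q1) `θ Δ = Δ` and `θ j = -j` when `24 = 0` -/

/-- Ramanujan's identity `3 θE₄ · Δ - E₄ · θΔ + E₆ · Δ = 0` over `ℤ`. -/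
theorem s36_q23_ramanujan_int :
    HahnSeries.C (3 : ℤ) * s36_qt_theta ℤ (HahnSeries.ofPowerSeries ℤ ℤ eisenstein4)
        * deltaSeries ℤ
      - HahnSeries.ofPowerSeries ℤ ℤ eisenstein4 * s36_qt_theta ℤ (deltaSeries ℤ)
      + HahnSeries.ofPowerSeries ℤ ℤ s36_qt_e6 * deltaSeries ℤ = 0 := by
  apply s36_qt_coeffMap_injective (Int.castRingHom ℂ) Int.cast_injective
  rw [map_zero, map_add, map_sub, map_mul, map_mul, map_mul, map_mul, ← s36_qt_theta_coeffMap,
    ← s36_qt_theta_coeffMap, coeffMap_deltaSeries, coeffMap_ofPowerSeries,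
    coeffMap_ofPowerSeries, lvl_coeffMap_C]
  have h3 : (Int.castRingHom ℂ) 3 = 3 := by simp
  rw [h3]
  exact s36_qt_ramanujan

/-- Ramanujan's identity over any commutative ring. -/
theorem s36_q23_ramanujan (R : Type*) [CommRing R] :
    HahnSeries.C (3 : R)
        * s36_qt_theta R (HahnSeries.ofPowerSeries ℤ R (eisenstein4.map (Int.castRingHom R)))
        * deltaSeries R
      - HahnSeries.ofPowerSeries ℤ R (eisenstein4.map (Int.castRingHom R))
        * s36_qt_theta R (deltaSeries R)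
      + HahnSeries.ofPowerSeries ℤ R (s36_qt_e6.map (Int.castRingHom R)) * deltaSeries R = 0 := by
  have h := congrArg (coeffMap (Int.castRingHom R)) s36_q23_ramanujan_int
  rw [map_zero, map_add, map_sub, map_mul, map_mul, map_mul, map_mul, ← s36_qt_theta_coeffMap,
    ← s36_qt_theta_coeffMap, coeffMap_deltaSeries, coeffMap_ofPowerSeries,
    coeffMap_ofPowerSeries, lvl_coeffMap_C] at h
  have h3 : (Int.castRingHom R) 3 = 3 := by simp
  rw [h3] at h
  exact h

/-- `E₄ ≡ 1` when `24 = 0`. -/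
theorem s36_q23_e4_map (R : Type*) [CommRing R] (h24 : (24 : R) = 0) :
    eisenstein4.map (Int.castRingHom R) = 1 := by
  have h240 : (240 : R) = 0 := by
    have : (240 : R) = 24 * 10 := by norm_num
    rw [this, h24, zero_mul]
  ext n
  rw [PowerSeries.coeff_map, eisenstein4, PowerSeries.coeff_mk, PowerSeries.coeff_one]
  split_ifs with h
  · simp
  · simp [h240]

/-- `E₆ ≡ 1` when `24 = 0`. -/
theorem s36_q23_e6_map (R : Type*) [CommRing R] (h24 : (24 : R) = 0) :
    s36_qt_e6.map (Int.castRingHom R) = 1 := by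
  have h504 : (504 : R) = 0 := by
    have : (504 : R) = 24 * 21 := by norm_num
    rw [this, h24, zero_mul]
  ext n
  rw [PowerSeries.coeff_map, s36_qt_e6, PowerSeries.coeff_mk, PowerSeries.coeff_one]
  split_ifs with h
  · simp
  · simp [h504]

/-- **(Q1)** `θ Δ = Δ` over a ring with `24 = 0`. -/
theorem s36_q23_theta_delta (R : Type*) [CommRing R] (h24 : (24 : R) = 0) :
    s36_qt_theta R (deltaSeries R) = deltaSeries R := by
  have h := s36_q23_ramanujan R
  rw [s36_q23_e4_map R h24, s36_q23_e6_map R h24, map_one, s36_qt_theta_one] at h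
  linear_combination -h

/-- `j = 1 / Δ` over a ring with `24 = 0`. -/
theorem s36_q23_jq_eq (R : Type*) [CommRing R] (h24 : (24 : R) = 0) :
    jqModC R = deltaInvSeries R := by
  rw [jqModC, deltaInvSeries, jNum, map_mul, map_pow, s36_q23_e4_map R h24, one_pow, one_mul]

/-- `j · Δ = 1` over a ring with `24 = 0`. -/
theorem s36_q23_jq_mul_delta (R : Type*) [CommRing R] (h24 : (24 : R) = 0) :
    jqModC R * deltaSeries R = 1 := by
  rw [s36_q23_jq_eq R h24, mul_comm]
  exact deltaSeries_mul_deltaInvSeries R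

/-- **(Q1)** `θ j = -j` over a ring with `24 = 0`. -/
theorem s36_q23_theta_j (R : Type*) [CommRing R] (h24 : (24 : R) = 0) :
    s36_qt_theta R (jqModC R) = -jqModC R := by
  rw [s36_q23_jq_eq R h24]
  have hdd := deltaSeries_mul_deltaInvSeries R
  have hθ := s36_q23_theta_delta R h24
  have h1 : s36_qt_theta R (deltaSeries R) * deltaInvSeries R
      + deltaSeries R * s36_qt_theta R (deltaInvSeries R) = 0 := by
    rw [← s36_qt_theta_mul, hdd, s36_qt_theta_one]
  rw [hθ] at h1
  linear_combination (deltaInvSeries R) * h1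
    - (deltaInvSeries R + s36_qt_theta R (deltaInvSeries R)) * hdd

/-- `θ` kills numerals. -/
theorem s36_q23_theta_ofNat (R : Type*) [CommRing R] (n : ℕ) [n.AtLeastTwo] :
    s36_qt_theta R (OfNat.ofNat n : LaurentSeries R) = 0 := by
  rw [← map_ofNat (HahnSeries.C : R →+* LaurentSeries R) n, s36_qt_theta_C]

/-! ### (Q2) `θ t̄₂ = -t̄₂` mod `3`, `θ t̄₃ = t̄₃` mod `2` -/

/-- `3 = 0` in `R((Q))` when `3 = 0` in `R`. -/
theorem s36_q23_three_eq_zero (R : Type*) [CommRing R] (h3 : (3 : R) = 0) :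
    (3 : LaurentSeries R) = 0 := by
  rw [← map_ofNat (HahnSeries.C : R →+* LaurentSeries R) 3, h3, map_zero]

/-- `2 = 0` in `R((Q))` when `2 = 0` in `R`. -/
theorem s36_q23_two_eq_zero (R : Type*) [CommRing R] (h2 : (2 : R) = 0) :
    (2 : LaurentSeries R) = 0 := by
  rw [← map_ofNat (HahnSeries.C : R →+* LaurentSeries R) 2, h2, map_zero]

theorem s36_q23_h24_of_three (R : Type*) [CommRing R] (h3 : (3 : R) = 0) : (24 : R) = 0 := by
  have : (24 : R) = 3 * 8 := by norm_num
  rw [this, h3, zero_mul]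

theorem s36_q23_h24_of_two (R : Type*) [CommRing R] (h2 : (2 : R) = 0) : (24 : R) = 0 := by
  have : (24 : R) = 2 * 12 := by norm_num
  rw [this, h2, zero_mul]

/-- The first level-2 identity `j t₂² = (t₂ + 256)³` over any commutative ring. -/
theorem s36_q23_t2_j (R : Type*) [CommRing R] :
    jqModC R * coeffMap (Int.castRingHom R) s18_t2 ^ 2
      = (coeffMap (Int.castRingHom R) s18_t2 + 256) ^ 3 := by
  have h := congrArg (coeffMap (Int.castRingHom R)) s18_t2_j
  rwa [map_mul, map_pow, map_pow, map_add, coeffMap_jqModC, map_ofNat] at h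

/-- The first level-3 identity `j t₃³ = (t₃ + 27)(t₃ + 243)³` over any commutative ring. -/
theorem s36_q23_t3_j (R : Type*) [CommRing R] :
    jqModC R * coeffMap (Int.castRingHom R) s18_t3 ^ 3
      = (coeffMap (Int.castRingHom R) s18_t3 + 27)
        * (coeffMap (Int.castRingHom R) s18_t3 + 243) ^ 3 := by
  have h := congrArg (coeffMap (Int.castRingHom R)) s18_t3_j
  rwa [map_mul, map_pow, map_mul, map_pow, map_add, map_add, coeffMap_jqModC, map_ofNat,
    map_ofNat] at h

/-- `t₂` is a unit over any commutative ring. -/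
theorem s36_q23_t2_mul_inv (R : Type*) [CommRing R] :
    coeffMap (Int.castRingHom R) s18_t2 * coeffMap (Int.castRingHom R) s18_t2inv = 1 := by
  rw [← map_mul, s18_t2_mul_inv, map_one]

/-- `t₃` is a unit over any commutative ring. -/
theorem s36_q23_t3_mul_inv (R : Type*) [CommRing R] :
    coeffMap (Int.castRingHom R) s18_t3 * coeffMap (Int.castRingHom R) s18_t3inv = 1 := by
  rw [← map_mul, s18_t3_mul_inv, map_one]

/-- **(Q2)**, `q = 3`: `θ t̄₂ = -t̄₂` over any ring with `3 = 0`. -/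
theorem s36_q23_theta_t2 (R : Type*) [CommRing R] (h3R : (3 : R) = 0) :
    s36_qt_theta R (coeffMap (Int.castRingHom R) s18_t2)
      = -coeffMap (Int.castRingHom R) s18_t2 := by
  have h24 := s36_q23_h24_of_three R h3R
  have h3 := s36_q23_three_eq_zero R h3R
  have htu := s36_q23_t2_mul_inv R
  have hjd := s36_q23_jq_mul_delta R h24
  have hθ := congrArg (s36_qt_theta R) (s36_q23_t2_j R)
  rw [s36_qt_theta_mul, s36_q23_theta_j _ h24, s36_qt_theta_pow _ 1, s36_qt_theta_pow _ 2,
    map_add, s36_q23_theta_ofNat] at hθ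
  simp only [nsmul_eq_mul, Nat.cast_ofNat, Nat.cast_add, Nat.cast_one, pow_one, add_zero] at hθ
  set t := coeffMap (Int.castRingHom R) s18_t2 with ht
  set u := coeffMap (Int.castRingHom R) s18_t2inv with hu
  set j := jqModC R with hj
  set d := deltaSeries R with hd
  set T := s36_qt_theta R t with hT
  linear_combination (-(d * u)) * hθ + (T - d * u * (t + 256) ^ 2 * T) * h3
    - (t - 2 * T) * t * u * hjd - (t - 2 * T) * htu

/-- `ρ_t = (θ t̄₂)^(q-1) = t̄₂^(q-1)` for `q = 3`. -/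
theorem s36_q23_rho3 (R : Type*) [CommRing R] (h3R : (3 : R) = 0) :
    s36_qt_theta R (coeffMap (Int.castRingHom R) s18_t2) ^ 2
      = coeffMap (Int.castRingHom R) s18_t2 ^ 2 := by
  rw [s36_q23_theta_t2 R h3R, neg_sq]

/-- **(Q2)**, `q = 2`: `θ t̄₃ = t̄₃` over any ring with `2 = 0` (so `ρ_t = t̄₃`). -/
theorem s36_q23_theta_t3 (R : Type*) [CommRing R] (h2R : (2 : R) = 0) :
    s36_qt_theta R (coeffMap (Int.castRingHom R) s18_t3)
      = coeffMap (Int.castRingHom R) s18_t3 := by
  have h24 := s36_q23_h24_of_two R h2R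
  have h2 := s36_q23_two_eq_zero R h2R
  have htu := s36_q23_t3_mul_inv R
  have hjd := s36_q23_jq_mul_delta R h24
  have hθ := congrArg (s36_qt_theta R) (s36_q23_t3_j R)
  rw [s36_qt_theta_mul, s36_qt_theta_mul, s36_q23_theta_j _ h24, s36_qt_theta_pow _ 2,
    s36_qt_theta_pow _ 2, map_add, map_add, s36_q23_theta_ofNat, s36_q23_theta_ofNat] at hθ
  simp only [nsmul_eq_mul, Nat.cast_ofNat, Nat.cast_add, Nat.cast_one, add_zero] at hθ
  set t := coeffMap (Int.castRingHom R) s18_t3 with ht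
  set u := coeffMap (Int.castRingHom R) s18_t3inv with hu
  set j := jqModC R with hj
  set d := deltaSeries R with hd
  set T := s36_qt_theta R t with hT
  linear_combination (d * u ^ 2) * hθ
    + (-T + 2 * d * u ^ 2 * T * (t + 243) ^ 2 * (t + 81)) * h2
    + (t - 3 * T) * (t * u) ^ 2 * hjd + (t - 3 * T) * (t * u + 1) * htu

/-! ### (Q3) the reductions of `t₃` mod `3`, `t₂` mod `2`, and of `f = t₂² t₃`, `t₃³ t₂` -/

/-- **(Q3)**, `q = 3`: `t̄₃ = j̄` over any ring with `3 = 0`. -/
theorem s36_q23_t3_mod3 (R : Type*) [CommRing R] (h3R : (3 : R) = 0) :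
    coeffMap (Int.castRingHom R) s18_t3 = jqModC R := by
  have h3 := s36_q23_three_eq_zero R h3R
  have htv := s36_q23_t3_mul_inv R
  have hid := s36_q23_t3_j R
  set t := coeffMap (Int.castRingHom R) s18_t3 with ht
  set v := coeffMap (Int.castRingHom R) s18_t3inv with hv
  set j := jqModC R with hj
  linear_combination (-(v ^ 3)) * hid
    + (-(v ^ 3) * (252 * t ^ 3 + 65610 * t ^ 2 + 6377292 * t + 129140163)) * h3
    - (t - j) * ((t * v) ^ 2 + t * v + 1) * htv

/-- **(Q3)**, `q = 3`: `t̄₂² t̄₃ = (t̄₂ + 1)³` over any ring with `3 = 0`. -/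
theorem s36_q23_f_mod3 (R : Type*) [CommRing R] (h3R : (3 : R) = 0) :
    coeffMap (Int.castRingHom R) s18_t2 ^ 2 * coeffMap (Int.castRingHom R) s18_t3
      = (coeffMap (Int.castRingHom R) s18_t2 + 1) ^ 3 := by
  have h3 := s36_q23_three_eq_zero R h3R
  have hid := s36_q23_t2_j R
  rw [s36_q23_t3_mod3 R h3R]
  set t := coeffMap (Int.castRingHom R) s18_t2 with ht
  set j := jqModC R with hj
  linear_combination hid + (85 * (3 * t ^ 2 + 771 * t + 65793)) * h3

/-- **(Q3)**, `q = 2`: `t̄₂ = j̄` over any ring with `2 = 0`. -/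
theorem s36_q23_t2_mod2 (R : Type*) [CommRing R] (h2R : (2 : R) = 0) :
    coeffMap (Int.castRingHom R) s18_t2 = jqModC R := by
  have h2 := s36_q23_two_eq_zero R h2R
  have htu := s36_q23_t2_mul_inv R
  have hid := s36_q23_t2_j R
  set t := coeffMap (Int.castRingHom R) s18_t2 with ht
  set u := coeffMap (Int.castRingHom R) s18_t2inv with hu
  set j := jqModC R with hj
  linear_combination (-(u ^ 2)) * hid
    + (-(u ^ 2) * (384 * t ^ 2 + 98304 * t + 8388608)) * h2
    - (t - j) * (t * u + 1) * htu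

/-- **(Q3)**, `q = 2`: `t̄₃³ t̄₂ = (t̄₃ + 1)⁴` over any ring with `2 = 0`. -/
theorem s36_q23_f_mod2 (R : Type*) [CommRing R] (h2R : (2 : R) = 0) :
    coeffMap (Int.castRingHom R) s18_t3 ^ 3 * coeffMap (Int.castRingHom R) s18_t2
      = (coeffMap (Int.castRingHom R) s18_t3 + 1) ^ 4 := by
  have h2 := s36_q23_two_eq_zero R h2R
  have hid := s36_q23_t3_j R
  rw [s36_q23_t2_mod2 R h2R]
  set t := coeffMap (Int.castRingHom R) s18_t3 with ht
  set j := jqModC R with hj
  linear_combination hid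
    + (376 * t ^ 3 + 98412 * t ^ 2 + 9565936 * t + 193710244) * h2

/-! ### (Q4) integrality relations, swap lemmas, `j̄` is not a root of unity -/

/-- `Z = t₂² t₃` is a root of the monic quartic `(Z + 27 t²)(Z + 243 t²)³ - (t + 256)³ Z³` over
`ℤ[t]`, `t = t₂`. -/
theorem s36_q23_int3 {R : Type*} [CommRing R] (j t u : R) (h2 : j * t ^ 2 = (t + 256) ^ 3)
    (h3 : j * u ^ 3 = (u + 27) * (u + 243) ^ 3) :
    (t ^ 2 * u + 27 * t ^ 2) * (t ^ 2 * u + 243 * t ^ 2) ^ 3 = (t + 256) ^ 3 * (t ^ 2 * u) ^ 3 := by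
  linear_combination (-(t ^ 8)) * h3 + (t ^ 6 * u ^ 3) * h2

/-- `Z = t₃³ t₂` is a root of the monic cubic `(Z + 256 u³)³ - (u + 27)(u + 243)³ Z²` over
`ℤ[u]`, `u = t₃`. -/
theorem s36_q23_int2 {R : Type*} [CommRing R] (j t u : R) (h2 : j * t ^ 2 = (t + 256) ^ 3)
    (h3 : j * u ^ 3 = (u + 27) * (u + 243) ^ 3) :
    (u ^ 3 * t + 256 * u ^ 3) ^ 3 = (u + 27) * (u + 243) ^ 3 * (u ^ 3 * t) ^ 2 := by
  linear_combination (-(u ^ 9)) * h2 + (u ^ 6 * t ^ 2) * h3

/-- The integrality relation for the actual series `t₂² t₃` (over any commutative ring). -/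
theorem s36_q23_int3_series (R : Type*) [CommRing R] :
    (coeffMap (Int.castRingHom R) s18_t2 ^ 2 * coeffMap (Int.castRingHom R) s18_t3
        + 27 * coeffMap (Int.castRingHom R) s18_t2 ^ 2)
      * (coeffMap (Int.castRingHom R) s18_t2 ^ 2 * coeffMap (Int.castRingHom R) s18_t3
        + 243 * coeffMap (Int.castRingHom R) s18_t2 ^ 2) ^ 3
      = (coeffMap (Int.castRingHom R) s18_t2 + 256) ^ 3
        * (coeffMap (Int.castRingHom R) s18_t2 ^ 2 * coeffMap (Int.castRingHom R) s18_t3) ^ 3 :=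
  s36_q23_int3 (jqModC R) _ _ (s36_q23_t2_j R) (s36_q23_t3_j R)

/-- The integrality relation for the actual series `t₃³ t₂` (over any commutative ring). -/
theorem s36_q23_int2_series (R : Type*) [CommRing R] :
    (coeffMap (Int.castRingHom R) s18_t3 ^ 3 * coeffMap (Int.castRingHom R) s18_t2
        + 256 * coeffMap (Int.castRingHom R) s18_t3 ^ 3) ^ 3
      = (coeffMap (Int.castRingHom R) s18_t3 + 27)
        * (coeffMap (Int.castRingHom R) s18_t3 + 243) ^ 3
        * (coeffMap (Int.castRingHom R) s18_t3 ^ 3 * coeffMap (Int.castRingHom R) s18_t2) ^ 2 :=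
  s36_q23_int2 (jqModC R) _ _ (s36_q23_t2_j R) (s36_q23_t3_j R)

/-- Swap lemma, `q = 3`: the reduction `X` of the swapped Hauptmodul `w₃ t₃` satisfies the
reductions `j̄³ X³ = X⁴`, `j̄ X = X⁴` of the swapped identities, hence `X = 0`. -/
theorem s36_q23_swap3 {k : Type*} [Field k] (jb X : k) (hj : jb ^ 8 ≠ 1)
    (h1 : jb ^ 3 * X ^ 3 = X ^ 4) (h2 : jb * X = X ^ 4) : X = 0 := by
  by_contra hX
  have e1 : X = jb ^ 3 := by
    have h : X ^ 3 * (X - jb ^ 3) = 0 := by linear_combination -h1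
    rcases mul_eq_zero.mp h with h | h
    · exact absurd (pow_eq_zero_iff (by norm_num) |>.mp h) hX
    · exact sub_eq_zero.mp h
  have e2 : jb = X ^ 3 := by
    have h : X * (jb - X ^ 3) = 0 := by linear_combination h2
    rcases mul_eq_zero.mp h with h | h
    · exact absurd h hX
    · exact sub_eq_zero.mp h
  have hjb : jb ≠ 0 := by
    intro h0
    apply hX
    rw [e1, h0]
    norm_num
  apply hj
  have h : jb * (jb ^ 8 - 1) = 0 := by
    rw [e1] at e2
    linear_combination -e2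
  rcases mul_eq_zero.mp h with h | h
  · exact absurd h hjb
  · exact sub_eq_zero.mp h

/-- Swap lemma, `q = 2`: the reduction `X` of the swapped Hauptmodul `w₂ t₂` satisfies the
reductions `j̄² X² = X³`, `j̄ X = X³` of the swapped identities, hence `X = 0`. -/
theorem s36_q23_swap2 {k : Type*} [Field k] (jb X : k) (hj : jb ^ 3 ≠ 1)
    (h1 : jb ^ 2 * X ^ 2 = X ^ 3) (h2 : jb * X = X ^ 3) : X = 0 := by
  by_contra hX
  have e1 : X = jb ^ 2 := by
    have h : X ^ 2 * (X - jb ^ 2) = 0 := by linear_combination -h1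
    rcases mul_eq_zero.mp h with h | h
    · exact absurd (pow_eq_zero_iff (by norm_num) |>.mp h) hX
    · exact sub_eq_zero.mp h
  have e2 : jb = X ^ 2 := by
    have h : X * (jb - X ^ 2) = 0 := by linear_combination h2
    rcases mul_eq_zero.mp h with h | h
    · exact absurd h hX
    · exact sub_eq_zero.mp h
  have hjb : jb ≠ 0 := by
    intro h0
    apply hX
    rw [e1, h0]
    norm_num
  apply hj
  have h : jb * (jb ^ 3 - 1) = 0 := by
    rw [e1] at e2
    linear_combination -e2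
  rcases mul_eq_zero.mp h with h | h
  · exact absurd h hjb
  · exact sub_eq_zero.mp h

/-- `j` has a simple pole with leading coefficient `1`. -/
theorem s36_q23_isLeading_jq (R : Type*) [CommRing R] : IsLeading (jqModC R) (-1) 1 := by
  have h := formal_isLeading_single_mul (-1 : ℤ) (jNum.map (Int.castRingHom R))
  rw [formal_constantCoeff_map_intCast R _ constantCoeff_jNum] at h
  exact h

/-- `j` is not a root of unity. -/
theorem s36_q23_j_pow_ne_one (R : Type*) [CommRing R] [Nontrivial R] (n : ℕ) (hn : n ≠ 0) :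
    jqModC R ^ n ≠ 1 := by
  intro h
  have h1 := (s36_qh_isLeading_pow (s36_q23_isLeading_jq R) n).1
  rw [h, HahnSeries.coeff_one, if_neg (by
    have : (0 : ℤ) < n := by exact_mod_cast Nat.pos_of_ne_zero hn
    nlinarith)] at h1
  exact zero_ne_one h1

/-- Swap lemma, `q = 3`, series form: a Laurent series `X` over a field of characteristic `3`
satisfying the swapped level-3 identities `j(Q³) X³ = (X + 27)(X + 243)³` (with `j̄(Q³) = j̄³`)
and `j X = (X + 27)(X + 3)³` vanishes. (`X` = reduction of `w₃ t₃` on the `∞`-component.) -/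
theorem s36_q23_swap3_series (k : Type*) [Field k] (h3k : (3 : k) = 0) (X : LaurentSeries k)
    (h1 : jqModC k ^ 3 * X ^ 3 = (X + 27) * (X + 243) ^ 3)
    (h2 : jqModC k * X = (X + 27) * (X + 3) ^ 3) : X = 0 := by
  have h3 := s36_q23_three_eq_zero k h3k
  refine s36_q23_swap3 (jqModC k) X (s36_q23_j_pow_ne_one k 8 (by norm_num)) ?_ ?_
  · linear_combination h1
      + (252 * X ^ 3 + 65610 * X ^ 2 + 6377292 * X + 129140163) * h3
  · linear_combination h2 + (12 * X ^ 3 + 90 * X ^ 2 + 252 * X + 243) * h3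

/-- Swap lemma, `q = 2`, series form: a Laurent series `X` over a field of characteristic `2`
satisfying the swapped level-2 identities `j(Q²) X² = (X + 256)³` (with `j̄(Q²) = j̄²`) and
`j X = (X + 16)³` vanishes. (`X` = reduction of `w₂ t₂` on the `∞`-component.) -/
theorem s36_q23_swap2_series (k : Type*) [Field k] (h2k : (2 : k) = 0) (X : LaurentSeries k)
    (h1 : jqModC k ^ 2 * X ^ 2 = (X + 256) ^ 3)
    (h2 : jqModC k * X = (X + 16) ^ 3) : X = 0 := by
  have h2' := s36_q23_two_eq_zero k h2k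
  refine s36_q23_swap2 (jqModC k) X (s36_q23_j_pow_ne_one k 3 (by norm_num)) ?_ ?_
  · linear_combination h1 + (384 * X ^ 2 + 98304 * X + 8388608) * h2'
  · linear_combination h2 + (24 * X ^ 2 + 384 * X + 2048) * h2'

end Fermat.Agent.S36
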