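import Fermat.Agent.S18.A1Facts
import Fermat.Agent.S18.ChAlgSep

/-!
# S36 (NODE-3): Fermat's little theorem in the base ring (`hAfin`)

The hypothesis `(m) (hm : 0 < m) (hAfin : ∀ a : A, ∃ c : A, a ^ (ℓ ^ m) - a = (ℓ : A) * c)` of
`s36_xi2_main` / `s36_xi2_hq` (`S36/CrossInst2.lean`) and of `S36/Thick23.lean`:

* `s36_rfx_local` (Mathlib only): a local ring with finite residue field whose maximal ideal is
  generated by the prime number `ℓ`;
* `s36_rfx_dvr` : a DVR in which `ℓ` is irreducible, with finite residue field;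
* `s36_rfx_resBasis` : from `s18_ResBasis ℓ A π` and `Irreducible (ℓ : A)` (generic model);
* `s36_rfx_model` : `A = s18_A1 P K₁` for every finite extension `K₁ ⊆ Q̄` of `ℚ` in which `ℓ` is
  irreducible (no Galois hypothesis).
-/

set_option autoImplicit false
set_option synthInstance.maxHeartbeats 400000

open ModularCurve

noncomputable section

namespace Fermat.Agent.S36

open Fermat.Agent.S18

/-- **Fermat's little theorem** in a local ring with finite residue field and maximal ideal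
`(ℓ)`. -/
theorem s36_rfx_local {A : Type*} [CommRing A] [IsLocalRing A]
    [Finite (IsLocalRing.ResidueField A)] (ℓ : ℕ) [hℓ : Fact ℓ.Prime]
    (hmax : IsLocalRing.maximalIdeal A = Ideal.span {((ℓ : ℕ) : A)}) :
    ∃ m : ℕ, 0 < m ∧ ∀ a : A, ∃ c : A, a ^ (ℓ ^ m) - a = ((ℓ : ℕ) : A) * c := by
  classical
  have := Fintype.ofFinite (IsLocalRing.ResidueField A)
  have hℓ0 : ((ℓ : ℕ) : IsLocalRing.ResidueField A) = 0 := by
    have h1 : ((ℓ : ℕ) : A) ∈ IsLocalRing.maximalIdeal A := by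
      rw [hmax]
      exact Ideal.mem_span_singleton_self _
    have h2 : IsLocalRing.residue A ((ℓ : ℕ) : A) = 0 :=
      (IsLocalRing.residue_eq_zero_iff _).mpr h1
    rwa [map_natCast] at h2
  have hchar : CharP (IsLocalRing.ResidueField A) ℓ :=
    (CharP.charP_iff_prime_eq_zero hℓ.out).mpr hℓ0
  obtain ⟨n, -, hn⟩ := FiniteField.card (IsLocalRing.ResidueField A) ℓ
  refine ⟨(n : ℕ), n.pos, fun a => ?_⟩
  have h1 : IsLocalRing.residue A (a ^ (ℓ ^ (n : ℕ)) - a) = 0 := by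
    rw [map_sub, map_pow, ← hn, FiniteField.pow_card, sub_self]
  have h2 : a ^ (ℓ ^ (n : ℕ)) - a ∈ IsLocalRing.maximalIdeal A :=
    (IsLocalRing.residue_eq_zero_iff _).mp h1
  rw [hmax, Ideal.mem_span_singleton] at h2
  exact h2

/-- The same for a discrete valuation ring in which `ℓ` is irreducible. -/
theorem s36_rfx_dvr {A : Type*} [CommRing A] [IsDomain A] [IsDiscreteValuationRing A]
    [Finite (IsLocalRing.ResidueField A)] (ℓ : ℕ) [hℓ : Fact ℓ.Prime]
    (hirr : Irreducible ((ℓ : ℕ) : A)) :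
    ∃ m : ℕ, 0 < m ∧ ∀ a : A, ∃ c : A, a ^ (ℓ ^ m) - a = ((ℓ : ℕ) : A) * c :=
  s36_rfx_local ℓ hirr.maximalIdeal_eq

/-- The generic model: `A` a valuation subring with residue basis data, `ℓ` irreducible. -/
theorem s36_rfx_resBasis {ℓ : ℕ} [Fact ℓ.Prime] {K : Type*} [Field K] [Algebra ℚ K]
    {A : ValuationSubring K} [IsDiscreteValuationRing A] {π : A} (hR : s18_ResBasis ℓ A π)
    (hirr : Irreducible ((ℓ : ℕ) : A)) :
    ∃ m : ℕ, 0 < m ∧ ∀ a : A, ∃ c : A, a ^ (ℓ ^ m) - a = ((ℓ : ℕ) : A) * c := by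
  have : Finite (IsLocalRing.ResidueField A) := s18_sep_finite_res hR
  exact s36_rfx_dvr ℓ hirr

/-- **`hAfin` in the model**: `A₁ = P ∩ K₁` for a finite extension `K₁ ⊆ Q̄` of `ℚ` in which `ℓ`
is irreducible (unramified), no Galois hypothesis. -/
theorem s36_rfx_model (P : ValuationSubring (AlgebraicClosure ℚ)) {ℓ : ℕ} [Fact ℓ.Prime]
    (hP : P.LiesOverPrime ℓ) (K₁ : IntermediateField ℚ (AlgebraicClosure ℚ))
    [FiniteDimensional ℚ K₁] [IsDiscreteValuationRing (s18_A1 P K₁)]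
    (hirr : Irreducible ((ℓ : ℕ) : s18_A1 P K₁)) :
    ∃ m : ℕ, 0 < m ∧ ∀ a : s18_A1 P K₁, ∃ c : s18_A1 P K₁,
      a ^ (ℓ ^ m) - a = ((ℓ : ℕ) : s18_A1 P K₁) * c :=
  s36_rfx_resBasis (s18_a1_resbasis P hP K₁ _ hirr) hirr

end Fermat.Agent.S36
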