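import Mathlib
import Fermat.Agent.S36.ContractInst
import Fermat.Agent.S36.ResLvlQ

/-!
# S36 (NODE-3): the (RES) block over the level-`q` charts, on the concrete model

`S36/ResLvlQ` (`s36_rq_res_t2` / `_t3`) instantiated on exactly the data of `s36_ci_PtsAll`
(`S36/ContractInst`), in the binder shapes of `s36_plq_pts_w` (`S36/PtsLvlQ`):

* `s36_rqi_Three` : the conjunction of the three hypotheses `hresαA`, `hresαC`, `hresαB`;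
* `s36_rqi_iota_pi` : `α q = q` (the hypothesis `hιϖ`);
* `s36_rqi_of_four` : `s36_rq_Four` at `π = q` gives `s36_rqi_Three` with `n = q - 1`;
* `s36_rqi_res_t2`, `s36_rqi_res_t3` : `s36_rqi_Three` for the two integral-closure charts of
  level `N₁ q q` over the two integral-closure charts of level `N₁ q`.
-/

set_option autoImplicit false
set_option synthInstance.maxHeartbeats 400000
set_option maxHeartbeats 1000000
set_option linter.style.haveILetI false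
set_option linter.unusedSectionVars false
set_option linter.unusedVariables false

open ModularCurve AlgebraicCurve

noncomputable section

namespace Fermat.Agent.S36

open Fermat.Agent.S18 Fermat.Agent.S34 Fermat.Agent.S35

local notation "Qb" => AlgebraicClosure ℚ

/-- The three (RES) hypotheses of a chart `B` over a chart `B'` of the level below, along the
degeneracy map `ι`: modulo `ϖ V_A`, modulo `z V_C`, and for `(n + 1)`-th powers modulo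
`ϖ V_B`. -/
def s36_rqi_Three {F'' F : Type*} [Field F''] [Field F] (ι : F'' →+* F) (ϖ'' : F'') (z : F)
    (n : ℕ) (VA VB VC B : Subring F) (B' : Subring F'') : Prop :=
  (∀ y ∈ B, ∃ y' ∈ B', (ι ϖ'')⁻¹ * (y - ι y') ∈ VA) ∧
  (∀ y ∈ B, ∃ y' ∈ B', z⁻¹ * (y - ι y') ∈ VC) ∧
  (∀ y ∈ B, ∃ y' ∈ B', (ι ϖ'')⁻¹ * (y ^ (n + 1) - ι y') ∈ VB)

/-- The degeneracy map sends the constant `q` of level `N₁ q` to the constant `q` of level
`N₁ q q`. -/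
theorem s36_rqi_iota_pi (N₁ q : ℕ) [NeZero N₁] [NeZero q] [NeZero (N₁ * q)]
    [NeZero (N₁ * q * q)] (P : ValuationSubring Qb) (K₀ : IntermediateField ℚ Qb) :
    (heckeAlphaBar K₀ (N₁ * q) q).toRingHom (algebraMap K₀ (s18_F1 K₀ (N₁ * q)) (q : K₀)) =
      algebraMap (s18_A1 P K₀) (s18_F1 K₀ (N₁ * q * q)) ((q : ℕ) : s18_A1 P K₀) := by
  have e1 : heckeAlphaBar K₀ (N₁ * q) q (algebraMap K₀ (s18_F1 K₀ (N₁ * q)) (q : K₀)) =
      algebraMap K₀ (s18_F1 K₀ (N₁ * q * q)) (q : K₀) := AlgHom.commutes _ _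
  have e2 : (((q : ℕ) : s18_A1 P K₀) : K₀) = (q : K₀) := by simp
  have e3 : algebraMap (s18_A1 P K₀) (s18_F1 K₀ (N₁ * q * q)) ((q : ℕ) : s18_A1 P K₀) =
      algebraMap K₀ (s18_F1 K₀ (N₁ * q * q)) (((q : ℕ) : s18_A1 P K₀) : K₀) := rfl
  exact e1.trans ((congrArg (algebraMap K₀ (s18_F1 K₀ (N₁ * q * q))) e2.symm).trans e3.symm)

/-- `s36_rq_Four` at the uniformizer `q` gives the three hypotheses in the shape of
`s36_plq_pts_w`, with `n = q - 1`. -/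
theorem s36_rqi_of_four (N₁ q : ℕ) [NeZero N₁] [NeZero q] [NeZero (N₁ * q)]
    [NeZero (N₁ * q * q)] [Fact q.Prime] (P : ValuationSubring Qb)
    (K₀ : IntermediateField ℚ Qb) [NumberField K₀] [IsDiscreteValuationRing (s18_A1 P K₀)]
    {z : s18_F1 K₀ (N₁ * q * q)} {B VC : Subring (s18_F1 K₀ (N₁ * q * q))}
    {B' : Subring (s18_F1 K₀ (N₁ * q))}
    {W : s18_F1 K₀ (N₁ * q * q) ≃+* s18_F1 K₀ (N₁ * q * q)}
    (h : s36_rq_Four P K₀ ((q : ℕ) : s18_A1 P K₀) z B VC B' W) :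
    s36_rqi_Three (heckeAlphaBar K₀ (N₁ * q) q).toRingHom
      (algebraMap K₀ (s18_F1 K₀ (N₁ * q)) (q : K₀)) z (q - 1)
      (s34_gi_V (s18_A1 P K₀) (N₁ * q * q))
      ((s34_gi_V (s18_A1 P K₀) (N₁ * q * q)).comap
        (W : s18_F1 K₀ (N₁ * q * q) →+* s18_F1 K₀ (N₁ * q * q))) VC B B' := by
  obtain ⟨hA, hC, hB, -⟩ := h
  have e := s36_rqi_iota_pi N₁ q P K₀
  have hq1 : q - 1 + 1 = q := Nat.sub_add_cancel (Fact.out : q.Prime).one_le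
  refine ⟨?_, hC, ?_⟩
  · intro y hy
    obtain ⟨y', hy', h1⟩ := hA y hy
    exact ⟨y', hy', (congrArg (fun ϖ : s18_F1 K₀ (N₁ * q * q) =>
      ϖ⁻¹ * (y - (heckeAlphaBar K₀ (N₁ * q) q).toRingHom y') ∈
        s34_gi_V (s18_A1 P K₀) (N₁ * q * q)) e).mpr h1⟩
  · intro y hy
    obtain ⟨y', hy', h1⟩ := hB y hy
    have h2 : ((heckeAlphaBar K₀ (N₁ * q) q).toRingHom
        (algebraMap K₀ (s18_F1 K₀ (N₁ * q)) (q : K₀)))⁻¹ *
        (y ^ q - (heckeAlphaBar K₀ (N₁ * q) q).toRingHom y') ∈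
        (s34_gi_V (s18_A1 P K₀) (N₁ * q * q)).comap
          (W : s18_F1 K₀ (N₁ * q * q) →+* s18_F1 K₀ (N₁ * q * q)) :=
      (congrArg (fun ϖ : s18_F1 K₀ (N₁ * q * q) =>
        ϖ⁻¹ * (y ^ q - (heckeAlphaBar K₀ (N₁ * q) q).toRingHom y') ∈
          (s34_gi_V (s18_A1 P K₀) (N₁ * q * q)).comap
            (W : s18_F1 K₀ (N₁ * q * q) →+* s18_F1 K₀ (N₁ * q * q))) e).mpr h1
    exact ⟨y', hy', (congrArg (fun k : ℕ =>
      ((heckeAlphaBar K₀ (N₁ * q) q).toRingHom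
        (algebraMap K₀ (s18_F1 K₀ (N₁ * q)) (q : K₀)))⁻¹ *
        (y ^ k - (heckeAlphaBar K₀ (N₁ * q) q).toRingHom y') ∈
        (s34_gi_V (s18_A1 P K₀) (N₁ * q * q)).comap
          (W : s18_F1 K₀ (N₁ * q * q) →+* s18_F1 K₀ (N₁ * q * q))) hq1).mpr h2⟩

set_option maxHeartbeats 4000000 in
/-- **The (RES) block over the level-`q` charts on the concrete model, Hauptmodul `t_2`.** -/
theorem s36_rqi_res_t2 (N₁ q : ℕ) [NeZero N₁] [NeZero q] [NeZero (N₁ * q)]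
    [NeZero (N₁ * q * q)] (hq : q.Prime) (hqN : ¬ q ∣ N₁) (h2 : 2 ∣ N₁) (h2' : 2 ∣ N₁ * q)
    (h2'' : 2 ∣ N₁ * q * q)
    (P : ValuationSubring Qb) (hP : P.LiesOverPrime q) (K₀ : IntermediateField ℚ Qb)
    (hfin : FiniteDimensional ℚ K₀)
    (hDVR : IsDiscreteValuationRing (s18_A1 P K₀)) (hirr : Irreducible ((q : ℕ) : s18_A1 P K₀))
    (w : s18_F1 K₀ (N₁ * q) ≃ₐ[K₀] s18_F1 K₀ (N₁ * q)) (hw : s34_md_IsSwap K₀ N₁ q w)
    (W₁ : s18_F1 K₀ (N₁ * q * q) ≃ₐ[K₀] s18_F1 K₀ (N₁ * q * q)) (hW₁ : s36_IsSwapK K₀ N₁ q W₁)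
    (hrel : ∀ y, W₁ (heckeAlphaBar K₀ (N₁ * q) q y) = heckeBetaBar K₀ (N₁ * q) q (w y))
    (K : IntermediateField K₀ Qb) (ζ : (P.comap (algebraMap K Qb))ˣ)
    (Θ : laurentBaseChange K (modularFunctionFieldFull (N₁ * q * q)) →ₐ[K] LaurentSeries K)
    (hcusp : s36_gc_IsCusp N₁ q ζ Θ) (hunifA : s36_gc_IsUnif ζ)
    (hprimA : IsPrimitiveRoot (ζ : P.comap (algebraMap K Qb)) q)
    (hA0 : ∀ b ∈ s18_A1 P K₀, algebraMap K₀ K b ∈ P.comap (algebraMap K Qb)) :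
    s36_rqi_Three (heckeAlphaBar K₀ (N₁ * q) q).toRingHom
      (algebraMap K₀ (s18_F1 K₀ (N₁ * q)) (q : K₀))
      (s36_gc_z K₀ q (N₁ * q * q) hq (s36_cp3i_sq_dvd N₁ q)) (q - 1)
      (s34_gi_V (s18_A1 P K₀) (N₁ * q * q))
      ((s34_gi_V (s18_A1 P K₀) (N₁ * q * q)).comap
        ((W₁ : s18_F1 K₀ (N₁ * q * q) ≃+* s18_F1 K₀ (N₁ * q * q)) :
          s18_F1 K₀ (N₁ * q * q) →+* s18_F1 K₀ (N₁ * q * q)))
      (s36_gc_V (algebraMap K₀ K) (P.comap (algebraMap K Qb)) (N₁ * q * q) Θ)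
      (s34_md_B0 P K₀ (N₁ * q * q) (s18_cz_t2 (N₁ * q * q) h2'')).toSubring
      (s34_md_B0 P K₀ (N₁ * q) (s18_cz_t2 (N₁ * q) h2')).toSubring ∧
    s36_rqi_Three (heckeAlphaBar K₀ (N₁ * q) q).toRingHom
      (algebraMap K₀ (s18_F1 K₀ (N₁ * q)) (q : K₀))
      (s36_gc_z K₀ q (N₁ * q * q) hq (s36_cp3i_sq_dvd N₁ q)) (q - 1)
      (s34_gi_V (s18_A1 P K₀) (N₁ * q * q))
      ((s34_gi_V (s18_A1 P K₀) (N₁ * q * q)).comap
        ((W₁ : s18_F1 K₀ (N₁ * q * q) ≃+* s18_F1 K₀ (N₁ * q * q)) :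
          s18_F1 K₀ (N₁ * q * q) →+* s18_F1 K₀ (N₁ * q * q)))
      (s36_gc_V (algebraMap K₀ K) (P.comap (algebraMap K Qb)) (N₁ * q * q) Θ)
      (s34_md_Binf P K₀ (N₁ * q * q) (s18_cz_t2 (N₁ * q * q) h2'')).toSubring
      (s34_md_Binf P K₀ (N₁ * q) (s18_cz_t2 (N₁ * q) h2')).toSubring := by
  haveI : Fact q.Prime := ⟨hq⟩
  haveI := hfin
  haveI := hDVR
  haveI : NumberField K₀ := NumberField.mk
  haveI hDVRA : IsDiscreteValuationRing (P.comap (algebraMap K Qb)) := s36_ci_dvr _ ζ hunifA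
  -- the data of `V_C`
  have hVC := s36_cp3i_unifC (K₀ := K₀) N₁ q (algebraMap K₀ K)
    (P.comap (algebraMap K Qb)) Θ ζ hq hcusp hunifA
  have hαC : ∀ y ∈ s34_gi_V (s18_A1 P K₀) (N₁ * q),
      (heckeAlphaBar K₀ (N₁ * q) q).toRingHom y ∈
        s36_gc_V (algebraMap K₀ K) (P.comap (algebraMap K Qb)) (N₁ * q * q) Θ :=
    fun y hy => s36_cp3f_alphaC P K₀ N₁ q (algebraMap K₀ K) (P.comap (algebraMap K Qb)) Θ ζ
      hcusp hA0 y hy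
  have hne := s36_cp3f_ne P K₀ N₁ q (algebraMap K₀ K) (P.comap (algebraMap K Qb)) Θ ζ hq hcusp
    hunifA
  have hprops := s36_gd_props (algebraMap K₀ K) (P.comap (algebraMap K Qb)) (s18_A1 P K₀) hA0
    N₁ q (N₁ * q * q) hq (s36_cp3i_level N₁ q) (s36_cp3i_sq_dvd N₁ q) ζ Θ hcusp hunifA hprimA
  have hzn : algebraMap K₀ (s18_F1 K₀ (N₁ * q * q)) (((q : ℕ) : s18_A1 P K₀) : K₀) *
      (s36_gc_z K₀ q (N₁ * q * q) hq (s36_cp3i_sq_dvd N₁ q) ^ (q - 1))⁻¹ ∈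
        s36_gc_V (algebraMap K₀ K) (P.comap (algebraMap K Qb)) (N₁ * q * q) Θ := by
    have h := hprops.2.1
    simpa using h
  obtain ⟨h0, hi⟩ := s36_rq_res_t2 P hP K₀ hqN h2 h2' h2'' hirr 1 (mul_one _).symm
    (w : s18_F1 K₀ (N₁ * q) ≃+* s18_F1 K₀ (N₁ * q)) (w.commutes) hw.1 hw.2.1
    (s36_gc_V (algebraMap K₀ K) (P.comap (algebraMap K Qb)) (N₁ * q * q) Θ) hVC hαC hne hzn
    (W₁ : s18_F1 K₀ (N₁ * q * q) ≃+* s18_F1 K₀ (N₁ * q * q)) hW₁.1 (W₁.commutes) hrel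
  exact ⟨s36_rqi_of_four N₁ q P K₀ h0, s36_rqi_of_four N₁ q P K₀ hi⟩

set_option maxHeartbeats 4000000 in
/-- **The (RES) block over the level-`q` charts on the concrete model, Hauptmodul `t_3`.** -/
theorem s36_rqi_res_t3 (N₁ q : ℕ) [NeZero N₁] [NeZero q] [NeZero (N₁ * q)]
    [NeZero (N₁ * q * q)] (hq : q.Prime) (hqN : ¬ q ∣ N₁) (h3 : 3 ∣ N₁) (h3' : 3 ∣ N₁ * q)
    (h3'' : 3 ∣ N₁ * q * q)
    (P : ValuationSubring Qb) (hP : P.LiesOverPrime q) (K₀ : IntermediateField ℚ Qb)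
    (hfin : FiniteDimensional ℚ K₀)
    (hDVR : IsDiscreteValuationRing (s18_A1 P K₀)) (hirr : Irreducible ((q : ℕ) : s18_A1 P K₀))
    (w : s18_F1 K₀ (N₁ * q) ≃ₐ[K₀] s18_F1 K₀ (N₁ * q)) (hw : s34_md_IsSwap K₀ N₁ q w)
    (W₁ : s18_F1 K₀ (N₁ * q * q) ≃ₐ[K₀] s18_F1 K₀ (N₁ * q * q)) (hW₁ : s36_IsSwapK K₀ N₁ q W₁)
    (hrel : ∀ y, W₁ (heckeAlphaBar K₀ (N₁ * q) q y) = heckeBetaBar K₀ (N₁ * q) q (w y))
    (K : IntermediateField K₀ Qb) (ζ : (P.comap (algebraMap K Qb))ˣ)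
    (Θ : laurentBaseChange K (modularFunctionFieldFull (N₁ * q * q)) →ₐ[K] LaurentSeries K)
    (hcusp : s36_gc_IsCusp N₁ q ζ Θ) (hunifA : s36_gc_IsUnif ζ)
    (hprimA : IsPrimitiveRoot (ζ : P.comap (algebraMap K Qb)) q)
    (hA0 : ∀ b ∈ s18_A1 P K₀, algebraMap K₀ K b ∈ P.comap (algebraMap K Qb)) :
    s36_rqi_Three (heckeAlphaBar K₀ (N₁ * q) q).toRingHom
      (algebraMap K₀ (s18_F1 K₀ (N₁ * q)) (q : K₀))
      (s36_gc_z K₀ q (N₁ * q * q) hq (s36_cp3i_sq_dvd N₁ q)) (q - 1)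
      (s34_gi_V (s18_A1 P K₀) (N₁ * q * q))
      ((s34_gi_V (s18_A1 P K₀) (N₁ * q * q)).comap
        ((W₁ : s18_F1 K₀ (N₁ * q * q) ≃+* s18_F1 K₀ (N₁ * q * q)) :
          s18_F1 K₀ (N₁ * q * q) →+* s18_F1 K₀ (N₁ * q * q)))
      (s36_gc_V (algebraMap K₀ K) (P.comap (algebraMap K Qb)) (N₁ * q * q) Θ)
      (s34_md_B0 P K₀ (N₁ * q * q) (s18_cz_t3 (N₁ * q * q) h3'')).toSubring
      (s34_md_B0 P K₀ (N₁ * q) (s18_cz_t3 (N₁ * q) h3')).toSubring ∧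
    s36_rqi_Three (heckeAlphaBar K₀ (N₁ * q) q).toRingHom
      (algebraMap K₀ (s18_F1 K₀ (N₁ * q)) (q : K₀))
      (s36_gc_z K₀ q (N₁ * q * q) hq (s36_cp3i_sq_dvd N₁ q)) (q - 1)
      (s34_gi_V (s18_A1 P K₀) (N₁ * q * q))
      ((s34_gi_V (s18_A1 P K₀) (N₁ * q * q)).comap
        ((W₁ : s18_F1 K₀ (N₁ * q * q) ≃+* s18_F1 K₀ (N₁ * q * q)) :
          s18_F1 K₀ (N₁ * q * q) →+* s18_F1 K₀ (N₁ * q * q)))
      (s36_gc_V (algebraMap K₀ K) (P.comap (algebraMap K Qb)) (N₁ * q * q) Θ)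
      (s34_md_Binf P K₀ (N₁ * q * q) (s18_cz_t3 (N₁ * q * q) h3'')).toSubring
      (s34_md_Binf P K₀ (N₁ * q) (s18_cz_t3 (N₁ * q) h3')).toSubring := by
  haveI : Fact q.Prime := ⟨hq⟩
  haveI := hfin
  haveI := hDVR
  haveI : NumberField K₀ := NumberField.mk
  haveI hDVRA : IsDiscreteValuationRing (P.comap (algebraMap K Qb)) := s36_ci_dvr _ ζ hunifA
  -- the data of `V_C`
  have hVC := s36_cp3i_unifC (K₀ := K₀) N₁ q (algebraMap K₀ K)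
    (P.comap (algebraMap K Qb)) Θ ζ hq hcusp hunifA
  have hαC : ∀ y ∈ s34_gi_V (s18_A1 P K₀) (N₁ * q),
      (heckeAlphaBar K₀ (N₁ * q) q).toRingHom y ∈
        s36_gc_V (algebraMap K₀ K) (P.comap (algebraMap K Qb)) (N₁ * q * q) Θ :=
    fun y hy => s36_cp3f_alphaC P K₀ N₁ q (algebraMap K₀ K) (P.comap (algebraMap K Qb)) Θ ζ
      hcusp hA0 y hy
  have hne := s36_cp3f_ne P K₀ N₁ q (algebraMap K₀ K) (P.comap (algebraMap K Qb)) Θ ζ hq hcusp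
    hunifA
  have hprops := s36_gd_props (algebraMap K₀ K) (P.comap (algebraMap K Qb)) (s18_A1 P K₀) hA0
    N₁ q (N₁ * q * q) hq (s36_cp3i_level N₁ q) (s36_cp3i_sq_dvd N₁ q) ζ Θ hcusp hunifA hprimA
  have hzn : algebraMap K₀ (s18_F1 K₀ (N₁ * q * q)) (((q : ℕ) : s18_A1 P K₀) : K₀) *
      (s36_gc_z K₀ q (N₁ * q * q) hq (s36_cp3i_sq_dvd N₁ q) ^ (q - 1))⁻¹ ∈
        s36_gc_V (algebraMap K₀ K) (P.comap (algebraMap K Qb)) (N₁ * q * q) Θ := by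
    have h := hprops.2.1
    simpa using h
  obtain ⟨h0, hi⟩ := s36_rq_res_t3 P hP K₀ hqN h3 h3' h3'' hirr 1 (mul_one _).symm
    (w : s18_F1 K₀ (N₁ * q) ≃+* s18_F1 K₀ (N₁ * q)) (w.commutes) hw.1 hw.2.1
    (s36_gc_V (algebraMap K₀ K) (P.comap (algebraMap K Qb)) (N₁ * q * q) Θ) hVC hαC hne hzn
    (W₁ : s18_F1 K₀ (N₁ * q * q) ≃+* s18_F1 K₀ (N₁ * q * q)) hW₁.1 (W₁.commutes) hrel
  exact ⟨s36_rqi_of_four N₁ q P K₀ h0, s36_rqi_of_four N₁ q P K₀ hi⟩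

end Fermat.Agent.S36
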