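import Mathlib
import Fermat.Agent.S31.TraceInvAbs

/-!
# S36 (NODE-3), block TOP: the abstract reverse transfer

`M` is a finite abelian group killed by `p ^ n` with commuting actions of `Γ = Gal(ℚ̄/ℚ)` and of
operators `T_ℓ` (smooth, Eichler–Shimura relation at Frobenius lifts outside `S`).  Let `τ` be an
element of an inertia group at a prime `q ≠ p`.  Weak Chebotarev produces a Frobenius lift `σ`
at some `ℓ ∉ S` and an exponent `j` with `τ = σ ^ j` on a given finite level; as `τ` fixes the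
`p ^ n`-th roots of unity, `ℓ ^ j ≡ 1 mod p ^ n`, hence on `M`

  `τ · D_j(T_ℓ, ℓ) = τ² + 1`,   i.e.   `(τ - 1)² = τ · (D_j(T_ℓ, ℓ) - 2)`

(`s36_rt_abs`).
-/

set_option autoImplicit false

open Fermat.Agent.S18 Fermat.Agent.S29 Fermat.Agent.S31

namespace Fermat.Agent.S36

local notation "Qb" => AlgebraicClosure ℚ
local notation "Γ" => (AlgebraicClosure ℚ ≃ₐ[ℚ] AlgebraicClosure ℚ)

/-- **Abstract reverse transfer.** -/
theorem s36_rt_abs (p n : ℕ) (hp : p.Prime) (S : Finset ℕ) (hpS : p ∈ S)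
    (hcheb : s29_asm_Cheb)
    {M : Type*} [AddCommGroup M] [Finite M] (gM : Γ →* Module.End ℤ M)
    (TM : Nat.Primes → Module.End ℤ M)
    (hGH : ∀ (ℓ : Nat.Primes) (σ : Γ) (x : M), TM ℓ (gM σ x) = gM σ (TM ℓ x))
    (hm : ∀ x : M, (p ^ n) • x = 0)
    (hfix : ∀ x : M, ∃ K₁ : IntermediateField ℚ Qb, s18_d1_IsGaloisNF K₁ ∧
      ∀ σ : Γ, (∀ c ∈ K₁, σ c = c) → gM σ x = x)
    (hES : ∀ ℓ : Nat.Primes, (ℓ : ℕ) ∉ S → ∀ A : ValuationSubring Qb,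
      A.LiesOverPrime ℓ → ∀ σ : Γ, A.IsFrobeniusAt σ ℓ → ∀ x : M,
        gM σ (gM σ x) - TM ℓ (gM σ x) + (ℓ : ℕ) • x = 0)
    (L : IntermediateField ℚ Qb) [FiniteDimensional ℚ L]
    (q : ℕ) (hq : q.Prime) (hqp : q ≠ p) (P : ValuationSubring Qb) (hP : P.LiesOverPrime q)
    (τ : Γ) (hτ : τ ∈ P.inertiaSubgroupIn ℚ) :
    ∃ (ℓ : Nat.Primes) (A : ValuationSubring Qb) (σ : Γ) (j : ℕ),
      (ℓ : ℕ) ∉ S ∧ A.LiesOverPrime ℓ ∧ A.IsFrobeniusAt σ ℓ ∧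
      (∀ x ∈ L, τ x = (σ ^ j) x) ∧
      gM τ * s31_dk (TM ℓ) (((ℓ : ℕ) : ℕ) : Module.End ℤ M) j = gM τ * gM τ + 1 := by
  classical
  have hm0 : p ^ n ≠ 0 := pow_ne_zero n hp.ne_zero
  -- (1) a finite Galois field whose fixing subgroup acts trivially on `M`
  have : Fintype M := Fintype.ofFinite M
  have key : ∀ s' : Finset M, ∃ K₀ : IntermediateField ℚ Qb, s18_d1_IsGaloisNF K₀ ∧
      ∀ σ : Γ, (∀ c ∈ K₀, σ c = c) → ∀ e ∈ s', gM σ e = e := by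
    intro s'
    induction s' using Finset.induction_on with
    | empty =>
      obtain ⟨K₁, h₁, -⟩ := s18_d1_exists_galois (0 : Qb)
      exact ⟨K₁, h₁, fun σ _ e he => absurd he (Finset.notMem_empty e)⟩
    | insert a s' _ ih =>
      obtain ⟨K₁, h₁, hK₁⟩ := hfix a
      obtain ⟨K₂, h₂, hK₂⟩ := ih
      refine ⟨K₁ ⊔ K₂, h₁.sup h₂, fun σ hσ e he => ?_⟩
      rcases Finset.mem_insert.mp he with rfl | he
      · exact hK₁ σ (fun c hc => hσ c ((le_sup_left : K₁ ≤ K₁ ⊔ K₂) hc))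
      · exact hK₂ σ (fun c hc => hσ c ((le_sup_right : K₂ ≤ K₁ ⊔ K₂) hc)) e he
  obtain ⟨K₀, hK₀G, hK₀fix⟩ := key Finset.univ
  have hK₀all : ∀ σ : Γ, (∀ c ∈ K₀, σ c = c) → gM σ = 1 := fun σ hσ =>
    LinearMap.ext fun x => hK₀fix σ hσ x (Finset.mem_univ x)
  -- (2) a primitive root of unity, (3) the level `L`
  obtain ⟨ζ, hζ⟩ := s31_cy_exists_primitive (p ^ n) hm0
  obtain ⟨Kζ, hKζG, hζK⟩ := s18_d1_exists_galois ζ
  obtain ⟨KL, hKLG, hLK⟩ := s31_ti_exists_galois_ge L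
  -- (4) the common level
  have hKG : s18_d1_IsGaloisNF (K₀ ⊔ Kζ ⊔ KL) := (hK₀G.sup hKζG).sup hKLG
  have hK₀K : K₀ ≤ K₀ ⊔ Kζ ⊔ KL := le_sup_left.trans le_sup_left
  have hKζK : Kζ ≤ K₀ ⊔ Kζ ⊔ KL := le_sup_right.trans le_sup_left
  have hKLK : KL ≤ K₀ ⊔ Kζ ⊔ KL := le_sup_right
  have : FiniteDimensional ℚ ↥(K₀ ⊔ Kζ ⊔ KL) := hKG.1
  obtain ⟨ℓ, A, σ, j, hℓ, hℓS, hA, hσ, hg⟩ := hcheb (K₀ ⊔ Kζ ⊔ KL) S τ
  -- the cyclotomic congruence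
  have hζm : ζ ^ (p ^ n) = 1 := hζ.pow_eq_one
  have hneℓ : Nat.Coprime (p ^ n) ℓ := by
    refine Nat.Coprime.pow_left n ((Nat.coprime_primes hp hℓ).mpr ?_)
    rintro rfl
    exact hℓS hpS
  have hneq : Nat.Coprime (p ^ n) q :=
    Nat.Coprime.pow_left n ((Nat.coprime_primes hp hq).mpr (fun h => hqp h.symm))
  have hc1 : ζ ^ (ℓ ^ j) = ζ ^ 1 := by
    rw [← s31_cy_frob_pow_root (p ^ n) ℓ hm0 hneℓ A hA σ hσ ζ hζm j,
      ← hg ζ (hKζK hζK), pow_one]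
    exact s31_cy_inertia_root (p ^ n) q hm0 hneq P hP τ hτ ζ hζm
  have hmod : ℓ ^ j ≡ 1 [MOD p ^ n] := s31_cy_pow_eq (p ^ n) ζ hζ hm0 _ _ hc1
  refine ⟨⟨ℓ, hℓ⟩, A, σ, j, hℓS, hA, hσ, fun x hx => hg x (hKLK (hLK hx)), ?_⟩
  -- the operators on `M`
  have hGσ : gM τ = gM σ ^ j := by
    have hh : ∀ c ∈ K₀, (τ⁻¹ * σ ^ j) c = c := by
      intro c hc'
      rw [AlgEquiv.mul_apply, ← hg c (hK₀K hc')]
      exact τ.symm_apply_apply c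
    have hσj : σ ^ j = τ * (τ⁻¹ * σ ^ j) := by rw [mul_inv_cancel_left]
    rw [← map_pow, hσj, map_mul, hK₀all _ hh, mul_one]
  have hcσ : Commute (gM σ) (TM ⟨ℓ, hℓ⟩) := by
    refine LinearMap.ext fun x => ?_
    rw [Module.End.mul_apply, Module.End.mul_apply]
    exact (hGH ⟨ℓ, hℓ⟩ σ x).symm
  have h0 : gM σ * gM σ - TM ⟨ℓ, hℓ⟩ * gM σ + ((ℓ : ℕ) : Module.End ℤ M) = 0 := by
    refine LinearMap.ext fun x => ?_
    rw [LinearMap.add_apply, LinearMap.sub_apply, Module.End.mul_apply, Module.End.mul_apply,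
      Module.End.natCast_apply, LinearMap.zero_apply]
    exact hES ⟨ℓ, hℓ⟩ hℓS A hA σ hσ x
  have hop := s31_dk_op (gM σ) (TM ⟨ℓ, hℓ⟩) ((ℓ : ℕ) : Module.End ℤ M) hcσ h0 j
  have hcγ : Commute (gM τ) (s31_dk (TM ⟨ℓ, hℓ⟩) ((ℓ : ℕ) : Module.End ℤ M) j) :=
    s31_dk_commute _ _ _ (LinearMap.ext fun x => by
      rw [Module.End.mul_apply, Module.End.mul_apply]
      exact (hGH ⟨ℓ, hℓ⟩ τ x).symm) (Nat.commute_cast _ _) j
  have hℓq : ((ℓ : ℕ) : Module.End ℤ M) ^ j = 1 := by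
    rw [← Nat.cast_pow]
    refine LinearMap.ext fun x => ?_
    rw [Module.End.natCast_apply, Module.End.one_apply]
    have := s31_ti_modEq_nsmul hmod (hm x)
    rwa [one_nsmul] at this
  rw [hcγ.eq, hGσ, hop, hℓq, ← pow_add, two_mul]

end Fermat.Agent.S36
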