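import Mathlib
import Fermat.Agent.S34.RegInst
import Fermat.Agent.S36.GlueMult

/-!
# S36 (NODE-3), contract item (c-sm): regular points lying on exactly one of the two reduced
components, for a special fibre with three components

The level-`q²` model has three vertical components: `V_A` (the `q`-expansion Gauss ring),
`V_B = V_A.comap W` (its swap conjugate) — both with uniformizer `ϖ` — and a third ring `V_C`
(multiplicity `q - 1`).  The NODE-1 leaves `s34_sm_reg` (regularity of `B[1/f]`), `s34_res_two`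
(`B = ι B₁ + (B ∩ ϖ V_A)`) and `s34_away_chart` are abstract in the "other component" `V₂`; here they
are used with `V₂ = V_B ⊓ V_C` (resp. `V_A ⊓ V_C`).

Abstract part (any field `F`):

* `s36_sm3_pointData_one` : the smooth disjunct of `s34_PointData` at a point on the component `V₁`
  only, `V₂` ANY subring with `B ≤ V₂` and `∀ y, ∃ k, ϖ ^ k * y ∈ V₂` (`s34_pointData_smooth` needs
  `s34_Unif ϖ V₂`);
* `s36_sm3_pointData_A`, `s36_sm3_pointData_B` : the smooth disjunct of `s36_PointData` for the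
  Gauss ring `V_A ⊓ V_B ⊓ V_C` at a point on `A` only (`f ∉ 𝔪` with `ϖ⁻¹ f ∈ V_B`, `ϖ⁻¹ f ∈ V_C`),
  resp. on `B` only;
* `s36_sm3_reg` : the regularity input (`hreg`) of the two previous statements for
  `V_B = V_A.comap W`, from the three-component (CAP), the S18 chart `B₁` of the lower level, the
  embedding `ι`, integrality and `κ(V_A) = κ(gauss B₁)`.

Model part (`K` ANY field over `ℚ` — no Galois hypothesis —, `A` a valuation subring of `K` which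
is a DVR, `N` a level with an S18 coordinate `t`, `L` ANY level, `ι : K·F_N → K·F_L` ANY ring
homomorphism which is `A`-linear and preserves/reflects the `q`-expansion Gauss rings, e.g.
`heckeAlphaBar K N (q * q)` or `heckeAlphaBar K (N * q) q ∘ heckeAlphaBar K N q`):

* `s36_sm3_hsm` : regularity of `B[1/f]`, `B = s34_ic_chart A (ι t)`, at its closed points over
  `π` when `f` vanishes on two of the three components;
* `s36_sm3_pointData` : the resulting `s36_PointData` at every closed point of `B` lying on exactly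
  one of `A`, `B`.
-/

set_option autoImplicit false
set_option synthInstance.maxHeartbeats 400000
set_option linter.unusedSectionVars false
set_option linter.unusedVariables false

open ModularCurve ModularCurve.IgusaScheme Fermat.Agent.S28

noncomputable section

namespace Fermat.Agent.S36

open Fermat.Agent.S18 Fermat.Agent.S34

section Abstract

variable {F'' F : Type*} [Field F''] [Field F]

/-- The smooth case of `s34_PointData` (point on the component `V₁` only), for an arbitrary ring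
`V₂` of "other components": only `B ≤ V₂`, the (CAP) statement and `∀ y, ∃ k, ϖ ^ k * y ∈ V₂` are
used. -/
theorem s36_sm3_pointData_one {ϖ : F} {B V₁ V₂ : Subring F} (hV₁ : s34_Unif ϖ V₁)
    (hB₁ : B ≤ V₁) (hB₂ : B ≤ V₂) (hϖB : ϖ ∈ B)
    (hcap : ∀ x ∈ B, ϖ⁻¹ * x ∈ V₁ → ϖ⁻¹ * x ∈ V₂ → ϖ⁻¹ * x ∈ B)
    (hpow₂ : ∀ y : F, ∃ k : ℕ, ϖ ^ k * y ∈ V₂)
    (hnoeth : IsNoetherianRing B) (hfrac : ∀ x : F, ∃ a ∈ B, ∃ b ∈ B, b ≠ 0 ∧ x = a / b)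
    (𝔪 : Ideal B) (f : B) (hf𝔪 : f ∉ 𝔪) (hf₁ : ((f : F))⁻¹ ∈ V₁) (hf₂ : ϖ⁻¹ * (f : F) ∈ V₂)
    (hreg : ∀ 𝔫 : Ideal (s34_away B (f : F) f.2), 𝔫.IsMaximal →
      (⟨ϖ, s34_le_away B (f : F) f.2 hϖB⟩ : s34_away B (f : F) f.2) ∈ 𝔫 →
      ∃ s ∈ 𝔫, ∀ x ∈ 𝔫, ∃ u, u ∉ 𝔫 ∧
        u * x ∈ Ideal.span {(⟨ϖ, s34_le_away B (f : F) f.2 hϖB⟩ : s34_away B (f : F) f.2), s})
    (p : ℕ) (h : F) : s34_PointData ϖ B (V₁ ⊓ V₂) p h 𝔪 := by
  have hϖ0 := hV₁.ne_zero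
  have hf0 : (f : F) ≠ 0 := fun h0 => hf𝔪 (by
    have : f = 0 := Subtype.ext h0
    rw [this]; exact 𝔪.zero_mem)
  have hchart := s34_away_chart hV₁ hB₁ hB₂ hϖB hcap hnoeth hfrac (f : F) f.2 hf0 hf₁ hf₂ hreg
  have hle := s34_away_le hB₁ (f : F) f.2 hf0 hf₁
  have hcapV : ∀ x ∈ B, ϖ⁻¹ * x ∈ V₁ ⊓ V₂ → ϖ⁻¹ * x ∈ B := fun x hx hxV => hcap x hx hxV.1 hxV.2
  have hϖV : ϖ ∈ V₁ ⊓ V₂ := ⟨hB₁ hϖB, hB₂ hϖB⟩
  refine Or.inl ⟨s34_away B (f : F) f.2, f, hf𝔪, s34_le_away B (f : F) f.2, fun x hx => hx,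
    hchart, ?_, ?_⟩
  · -- `V₁ ⊓ V₂ ⊆ s18_gauss ϖ B[1/f]`
    rintro x ⟨hx₁, hx₂⟩
    by_cases hx0 : x = 0
    · exact ⟨0, (s34_away B (f : F) f.2).zero_mem, 1, (s34_away B (f : F) f.2).one_mem,
        by rw [mul_one]; exact hchart.nonunit, by rw [hx0, zero_div]⟩
    obtain ⟨a, ha, b, hb, hb0, rfl⟩ := hfrac x
    obtain ⟨k, hk, hk'⟩ := hV₁.exists_pow (hB₁ hb) hb0
    have hfk : ∀ y : F, ϖ⁻¹ ^ k * ((f : F) ^ k * y) = (ϖ⁻¹ * (f : F)) ^ k * y := fun y => by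
      rw [mul_pow]; ring
    have hb' : ϖ⁻¹ ^ k * ((f : F) ^ k * b) ∈ B := by
      apply s34_cap_pow hϖ0 B (V₁ ⊓ V₂) hϖV hcapV (B.mul_mem (B.pow_mem f.2 k) hb) k
      refine ⟨?_, ?_⟩
      · have e : ϖ⁻¹ ^ k * ((f : F) ^ k * b) = (f : F) ^ k * (ϖ⁻¹ ^ k * b) := by ring
        rw [e]; exact V₁.mul_mem (V₁.pow_mem (hB₁ f.2) k) hk
      · rw [hfk]; exact V₂.mul_mem (V₂.pow_mem hf₂ k) (hB₂ hb)
    have ha' : ϖ⁻¹ ^ k * ((f : F) ^ k * a) ∈ B := by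
      apply s34_cap_pow hϖ0 B (V₁ ⊓ V₂) hϖV hcapV (B.mul_mem (B.pow_mem f.2 k) ha) k
      refine ⟨?_, ?_⟩
      · have e : ϖ⁻¹ ^ k * ((f : F) ^ k * a) = (f : F) ^ k * ((ϖ⁻¹ ^ k * b) * (a / b)) := by
          field_simp
        rw [e]
        exact V₁.mul_mem (V₁.pow_mem (hB₁ f.2) k) (V₁.mul_mem hk hx₁)
      · rw [hfk]; exact V₂.mul_mem (V₂.pow_mem hf₂ k) (hB₂ ha)
    refine ⟨_, s34_le_away B (f : F) f.2 ha', _, s34_le_away B (f : F) f.2 hb', ?_, ?_⟩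
    · intro hcon
      have h1 := hle hcon
      have hne : ϖ⁻¹ ^ k * ((f : F) ^ k * b) ≠ 0 :=
        mul_ne_zero (pow_ne_zero _ (inv_ne_zero hϖ0)) (mul_ne_zero (pow_ne_zero _ hf0) hb0)
      refine hV₁.not_dvd_of_inv_mem hne ?_ h1
      have e : (ϖ⁻¹ ^ k * ((f : F) ^ k * b))⁻¹ = ((f : F)⁻¹) ^ k * (ϖ⁻¹ ^ k * b)⁻¹ := by
        rw [mul_left_comm, mul_inv, ← inv_pow]
      rw [e]
      exact V₁.mul_mem (V₁.pow_mem hf₁ k) hk'
    · have hne : ϖ⁻¹ ^ k * (f : F) ^ k ≠ 0 :=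
        mul_ne_zero (pow_ne_zero _ (inv_ne_zero hϖ0)) (pow_ne_zero _ hf0)
      rw [← mul_assoc, ← mul_assoc, mul_div_mul_left _ _ hne]
  · -- poles along `V₂` are killed by powers of `f`
    rintro y ⟨a, ha, b, hb, hbϖ, rfl⟩
    have hb₁ : b⁻¹ ∈ V₁ := by
      apply hV₁.inv_mem_of_not_dvd (hle hb)
      intro hcon
      exact hbϖ (s34_away_cap hB₁ hB₂ hcap (f : F) f.2 hf₂ hb hcon)
    have hy₁ : a / b ∈ V₁ := by
      rw [div_eq_mul_inv]; exact V₁.mul_mem (hle ha) hb₁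
    obtain ⟨k, hk⟩ := hpow₂ (a / b)
    refine ⟨k, V₁.mul_mem (V₁.pow_mem (hB₁ f.2) k) hy₁, ?_⟩
    have e : (f : F) ^ k * (a / b) = (ϖ⁻¹ * (f : F)) ^ k * (ϖ ^ k * (a / b)) := by
      rw [mul_pow, inv_pow]; field_simp
    rw [e]
    exact V₂.mul_mem (V₂.pow_mem hf₂ k) hk

/-- An element of `B` outside a prime `𝔪 ∋ ϖ` which is divisible by `ϖ` on all the other
components is a unit on the remaining one. -/
theorem s36_sm3_inv_mem {ϖ : F} {B V₁ V₂ : Subring F} (hV₁ : s34_Unif ϖ V₁) (hB₁ : B ≤ V₁)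
    (hϖB : ϖ ∈ B) (hcap : ∀ x ∈ B, ϖ⁻¹ * x ∈ V₁ → ϖ⁻¹ * x ∈ V₂ → ϖ⁻¹ * x ∈ B)
    (𝔪 : Ideal B) (hϖ𝔪 : (⟨ϖ, hϖB⟩ : B) ∈ 𝔪) (f : B) (hf𝔪 : f ∉ 𝔪)
    (hf₂ : ϖ⁻¹ * (f : F) ∈ V₂) : ((f : F))⁻¹ ∈ V₁ := by
  have hϖ0 := hV₁.ne_zero
  refine hV₁.inv_mem_of_not_dvd (hB₁ f.2) (fun h₁ => hf𝔪 ?_)
  have hmem := hcap _ f.2 h₁ hf₂
  have e : f = ⟨ϖ, hϖB⟩ * ⟨ϖ⁻¹ * (f : F), hmem⟩ := by
    apply Subtype.ext
    simp only [Subring.coe_mul]
    field_simp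
  rw [e]
  exact 𝔪.mul_mem_right _ hϖ𝔪

/-- `∀ y, ∃ k, ϖ ^ k * y ∈ V` passes to the intersection of two rings containing `ϖ`. -/
theorem s36_sm3_pow_inf {ϖ : F} {V V' : Subring F} (hϖ : ϖ ∈ V) (hϖ' : ϖ ∈ V')
    (h : ∀ y : F, ∃ k : ℕ, ϖ ^ k * y ∈ V) (h' : ∀ y : F, ∃ k : ℕ, ϖ ^ k * y ∈ V') :
    ∀ y : F, ∃ k : ℕ, ϖ ^ k * y ∈ V ⊓ V' := by
  intro y
  obtain ⟨k, hk⟩ := h y
  obtain ⟨k', hk'⟩ := h' y
  refine ⟨k + k', ?_, ?_⟩
  · have e : ϖ ^ (k + k') * y = ϖ ^ k' * (ϖ ^ k * y) := by rw [pow_add]; ring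
    rw [e]; exact V.mul_mem (V.pow_mem hϖ k') hk
  · have e : ϖ ^ (k + k') * y = ϖ ^ k * (ϖ ^ k' * y) := by rw [pow_add]; ring
    rw [e]; exact V'.mul_mem (V'.pow_mem hϖ' k) hk'

/-- **Point on the component `A` only**: the smooth disjunct of `s36_PointData` for the
three-component Gauss ring `V_A ⊓ V_B ⊓ V_C`, at a prime `𝔪 ∋ ϖ` of the chart `B` for which some
`f ∈ B \ 𝔪` is divisible by `ϖ` in `V_B` and in `V_C`. -/
theorem s36_sm3_pointData_A {ϖ : F} {B VA VB VC : Subring F} (hVA : s34_Unif ϖ VA)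
    (hBA : B ≤ VA) (hBB : B ≤ VB) (hBC : B ≤ VC) (hϖB : ϖ ∈ B)
    (hcap : ∀ x ∈ B, ϖ⁻¹ * x ∈ VA → ϖ⁻¹ * x ∈ VB → ϖ⁻¹ * x ∈ VC → ϖ⁻¹ * x ∈ B)
    (hpowB : ∀ y : F, ∃ k : ℕ, ϖ ^ k * y ∈ VB) (hpowC : ∀ y : F, ∃ k : ℕ, ϖ ^ k * y ∈ VC)
    (hnoeth : IsNoetherianRing B) (hfrac : ∀ x : F, ∃ a ∈ B, ∃ b ∈ B, b ≠ 0 ∧ x = a / b)
    (𝔪 : Ideal B) (hϖ𝔪 : (⟨ϖ, hϖB⟩ : B) ∈ 𝔪) (f : B) (hf𝔪 : f ∉ 𝔪)
    (hfB : ϖ⁻¹ * (f : F) ∈ VB) (hfC : ϖ⁻¹ * (f : F) ∈ VC)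
    (hreg : ∀ 𝔫 : Ideal (s34_away B (f : F) f.2), 𝔫.IsMaximal →
      (⟨ϖ, s34_le_away B (f : F) f.2 hϖB⟩ : s34_away B (f : F) f.2) ∈ 𝔫 →
      ∃ s ∈ 𝔫, ∀ x ∈ 𝔫, ∃ u, u ∉ 𝔫 ∧
        u * x ∈ Ideal.span {(⟨ϖ, s34_le_away B (f : F) f.2 hϖB⟩ : s34_away B (f : F) f.2), s})
    (p : ℕ) (h : F) : s36_PointData ϖ B (VA ⊓ VB ⊓ VC) p h 𝔪 := by
  have hcap' : ∀ x ∈ B, ϖ⁻¹ * x ∈ VA → ϖ⁻¹ * x ∈ VB ⊓ VC → ϖ⁻¹ * x ∈ B :=
    fun x hx h₁ h₂ => hcap x hx h₁ h₂.1 h₂.2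
  have hf₂ : ϖ⁻¹ * (f : F) ∈ VB ⊓ VC := ⟨hfB, hfC⟩
  have hf₁ := s36_sm3_inv_mem hVA hBA hϖB hcap' 𝔪 hϖ𝔪 f hf𝔪 hf₂
  have key := s36_sm3_pointData_one hVA hBA (le_inf hBB hBC) hϖB hcap'
    (s36_sm3_pow_inf (hBB hϖB) (hBC hϖB) hpowB hpowC) hnoeth hfrac 𝔪 f hf𝔪 hf₁ hf₂ hreg p h
  rw [inf_assoc]
  exact s36_pointData_of_s34 key

/-- **Point on the component `B` only**: the smooth disjunct of `s36_PointData` for the
three-component Gauss ring `V_A ⊓ V_B ⊓ V_C`, at a prime `𝔪 ∋ ϖ` of the chart `B` for which some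
`f ∈ B \ 𝔪` is divisible by `ϖ` in `V_A` and in `V_C`. -/
theorem s36_sm3_pointData_B {ϖ : F} {B VA VB VC : Subring F} (hVB : s34_Unif ϖ VB)
    (hBA : B ≤ VA) (hBB : B ≤ VB) (hBC : B ≤ VC) (hϖB : ϖ ∈ B)
    (hcap : ∀ x ∈ B, ϖ⁻¹ * x ∈ VA → ϖ⁻¹ * x ∈ VB → ϖ⁻¹ * x ∈ VC → ϖ⁻¹ * x ∈ B)
    (hpowA : ∀ y : F, ∃ k : ℕ, ϖ ^ k * y ∈ VA) (hpowC : ∀ y : F, ∃ k : ℕ, ϖ ^ k * y ∈ VC)
    (hnoeth : IsNoetherianRing B) (hfrac : ∀ x : F, ∃ a ∈ B, ∃ b ∈ B, b ≠ 0 ∧ x = a / b)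
    (𝔪 : Ideal B) (hϖ𝔪 : (⟨ϖ, hϖB⟩ : B) ∈ 𝔪) (f : B) (hf𝔪 : f ∉ 𝔪)
    (hfA : ϖ⁻¹ * (f : F) ∈ VA) (hfC : ϖ⁻¹ * (f : F) ∈ VC)
    (hreg : ∀ 𝔫 : Ideal (s34_away B (f : F) f.2), 𝔫.IsMaximal →
      (⟨ϖ, s34_le_away B (f : F) f.2 hϖB⟩ : s34_away B (f : F) f.2) ∈ 𝔫 →
      ∃ s ∈ 𝔫, ∀ x ∈ 𝔫, ∃ u, u ∉ 𝔫 ∧
        u * x ∈ Ideal.span {(⟨ϖ, s34_le_away B (f : F) f.2 hϖB⟩ : s34_away B (f : F) f.2), s})
    (p : ℕ) (h : F) : s36_PointData ϖ B (VA ⊓ VB ⊓ VC) p h 𝔪 := by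
  have hcap' : ∀ x ∈ B, ϖ⁻¹ * x ∈ VB → ϖ⁻¹ * x ∈ VA ⊓ VC → ϖ⁻¹ * x ∈ B :=
    fun x hx h₁ h₂ => hcap x hx h₂.1 h₁ h₂.2
  have hf₂ : ϖ⁻¹ * (f : F) ∈ VA ⊓ VC := ⟨hfA, hfC⟩
  have hf₁ := s36_sm3_inv_mem hVB hBB hϖB hcap' 𝔪 hϖ𝔪 f hf𝔪 hf₂
  have key := s36_sm3_pointData_one hVB hBB (le_inf hBA hBC) hϖB hcap'
    (s36_sm3_pow_inf (hBA hϖB) (hBC hϖB) hpowA hpowC) hnoeth hfrac 𝔪 f hf𝔪 hf₁ hf₂ hreg p h
  have e : VA ⊓ VB ⊓ VC = VB ⊓ (VA ⊓ VC) := by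
    rw [inf_comm VA VB, inf_assoc]
  rw [e]
  exact s36_pointData_of_s34 key

/-- (REG), one component, with the uniformizer given as an arbitrary term `ϖ = ι ϖ''`
(`s34_sm_reg`; `V₂` is an arbitrary ring of "other components"). -/
theorem s36_sm3_reg_one (ι : F'' →+* F) {ϖ'' : F''} (B₁ : Subring F'') (hB₁ : s18_Chart ϖ'' B₁)
    {ϖ : F} (hιϖ : ι ϖ'' = ϖ)
    {B V₁ V₂ : Subring F} (hBV₁ : B ≤ V₁) (hBV₂ : B ≤ V₂) (hϖB : ϖ ∈ B)
    (hcap : ∀ x ∈ B, ϖ⁻¹ * x ∈ V₁ → ϖ⁻¹ * x ∈ V₂ → ϖ⁻¹ * x ∈ B)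
    (hB₁B : ∀ x ∈ B₁, ι x ∈ B)
    (hres : ∀ x ∈ B, ∃ x' ∈ B₁, ϖ⁻¹ * (x - ι x') ∈ V₁)
    (f : B) (hf₂ : ϖ⁻¹ * (f : F) ∈ V₂)
    (𝔫 : Ideal (s34_away B (f : F) f.2)) (h𝔫 : 𝔫.IsMaximal)
    (hϖ𝔫 : (⟨ϖ, s34_le_away B (f : F) f.2 hϖB⟩ : s34_away B (f : F) f.2) ∈ 𝔫) :
    ∃ s ∈ 𝔫, ∀ x ∈ 𝔫, ∃ u, u ∉ 𝔫 ∧
      u * x ∈ Ideal.span {(⟨ϖ, s34_le_away B (f : F) f.2 hϖB⟩ : s34_away B (f : F) f.2), s} := by
  subst hιϖ
  exact s34_sm_reg ι B₁ hB₁ hBV₁ hBV₂ hϖB hcap hB₁B hres (f : F) f.2 hf₂ 𝔫 h𝔫 hϖ𝔫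

/-- **(REG), three components.**  For `V_A = V`, `V_B = V.comap W` (`W` the swap, an automorphism
of `F` fixing `ϖ` and preserving the chart `B`) and a third ring `V_C ⊇ B`: if `f ∈ B` is
divisible by `ϖ` on two of the three components (`V_B`, `V_C`, resp. `V_A`, `V_C`), then `B[1/f]`
is regular at its closed points over `ϖ`.  Inputs: the three-component (CAP), the S18 chart `B₁`
of the lower level with its embedding `ι`, integrality of `B` over `ι B₁` and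
`κ(V) = κ(gauss B₁)`. -/
theorem s36_sm3_reg (ι : F'' →+* F) {ϖ'' : F''} (B₁ : Subring F'') (hB₁ : s18_Chart ϖ'' B₁)
    {ϖ : F} (hιϖ : ι ϖ'' = ϖ) (W : F ≃+* F) (hWϖ : W ϖ = ϖ)
    {B V VC : Subring F} (hV : s34_Unif ϖ V) (hBV : B ≤ V) (hBC : B ≤ VC)
    (hWB : ∀ x ∈ B, W x ∈ B) (hWB' : ∀ x ∈ B, W.symm x ∈ B) (hϖB : ϖ ∈ B)
    (hcap : ∀ x ∈ B, ϖ⁻¹ * x ∈ V → ϖ⁻¹ * x ∈ V.comap (W : F →+* F) → ϖ⁻¹ * x ∈ VC →
      ϖ⁻¹ * x ∈ B)
    (hB₁B : ∀ x ∈ B₁, ι x ∈ B)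
    (hgauss : ∀ b ∈ B₁, ϖ⁻¹ * ι b ∈ V → ϖ''⁻¹ * b ∈ B₁)
    (hint : ∀ x ∈ B, ∃ P : Polynomial B₁, P.Monic ∧ P.eval₂ (ι.comp B₁.subtype) x = 0)
    (hresκ : ∀ y ∈ B, ∃ y' ∈ s18_gauss ϖ'' B₁, ϖ⁻¹ * (y - ι y') ∈ V)
    (f : B)
    (hf : (ϖ⁻¹ * (f : F) ∈ V.comap (W : F →+* F) ∧ ϖ⁻¹ * (f : F) ∈ VC) ∨
      (ϖ⁻¹ * (f : F) ∈ V ∧ ϖ⁻¹ * (f : F) ∈ VC))
    (𝔫 : Ideal (s34_away B (f : F) f.2)) (h𝔫 : 𝔫.IsMaximal)
    (hϖ𝔫 : (⟨ϖ, s34_le_away B (f : F) f.2 hϖB⟩ : s34_away B (f : F) f.2) ∈ 𝔫) :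
    ∃ s ∈ 𝔫, ∀ x ∈ 𝔫, ∃ u, u ∉ 𝔫 ∧
      u * x ∈ Ideal.span {(⟨ϖ, s34_le_away B (f : F) f.2 hϖB⟩ : s34_away B (f : F) f.2), s} := by
  have hBV0 : B ≤ V.comap (W : F →+* F) := fun x hx => by
    rw [Subring.mem_comap]
    exact hBV (hWB x hx)
  have hres : ∀ x ∈ B, ∃ x' ∈ B₁, ϖ⁻¹ * (x - ι x') ∈ V :=
    s34_res_two_of_eq ι B₁ hB₁ hιϖ B V hV hB₁B hBV hgauss hint hresκ
  rcases hf with ⟨hfB, hfC⟩ | ⟨hfA, hfC⟩
  · -- point on `A`
    exact s36_sm3_reg_one ι B₁ hB₁ hιϖ hBV (le_inf hBV0 hBC) hϖB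
      (fun x hx h₁ h₂ => hcap x hx h₁ h₂.1 h₂.2) hB₁B hres f ⟨hfB, hfC⟩ 𝔫 h𝔫 hϖ𝔫
  · -- point on `B`
    have hϖ₂ : ((W.symm : F →+* F).comp ι) ϖ'' = ϖ := by
      show W.symm (ι ϖ'') = ϖ
      rw [RingEquiv.symm_apply_eq, hιϖ, hWϖ]
    exact s36_sm3_reg_one ((W.symm : F →+* F).comp ι) B₁ hB₁ hϖ₂ hBV0 (le_inf hBV hBC) hϖB
      (fun x hx h₁ h₂ => hcap x hx h₂.1 h₁ h₂.2) (fun x hx => hWB' _ (hB₁B x hx))
      (s34_sm_res_comap W hWϖ hWB ι B₁ hres) f ⟨hfA, hfC⟩ 𝔫 h𝔫 hϖ𝔫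

end Abstract

section Generic

open Polynomial

variable {N L : ℕ} [NeZero N] [NeZero L] {ℓ : ℕ} [Fact ℓ.Prime]
variable {K : Type*} [Field K] [Algebra ℚ K] {A : ValuationSubring K}
variable {t : modularFunctionFieldFull N}
variable [IsDiscreteValuationRing A] {π : A}

local notation "F'" => laurentBaseChange K (modularFunctionFieldFull N)
local notation "FF" => laurentBaseChange K (modularFunctionFieldFull L)

/-- The image of the smooth chart of level `N` under an `A`-linear embedding `ι` lies in the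
integral-closure chart of `ι t` (abstract-`ι` form of `s34_lc_incl_mem_ic`). -/
theorem s36_sm3_incl_mem_ic (ι : F' →+* FF)
    (hιA : ∀ a : A, ι (algebraMap A F' a) = algebraMap A FF a)
    (hsm : s18_SmHyp π (s18_coord K t) (s18_chAlg N ℓ A t))
    (x : F') (hx : x ∈ s18_chAlg N ℓ A t) :
    ι x ∈ s34_ic_chart A (ι (s18_coord K t)) := by
  have h1 := s34_lc_integral hsm x hx
  rw [s34_ic_mem_iff] at h1 ⊢
  obtain ⟨p, hp, hpx⟩ := h1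
  refine ⟨p, hp, ?_⟩
  have hcomp : ι.comp ((aeval (s18_coord K t) : A[X] →ₐ[A] F') : A[X] →+* F') =
      ((aeval (ι (s18_coord K t)) : A[X] →ₐ[A] FF) : A[X] →+* FF) := by
    apply Polynomial.ringHom_ext
    · intro a
      simp only [RingHom.comp_apply, RingHom.coe_coe, aeval_C]
      exact hιA a
    · simp only [RingHom.comp_apply, RingHom.coe_coe, aeval_X]
  have h3 := Polynomial.hom_eval₂ p
    ((aeval (s18_coord K t) : A[X] →ₐ[A] F') : A[X] →+* F') ι x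
  rw [hpx, map_zero] at h3
  rw [← hcomp]
  exact h3.symm

/-- The integral-closure chart of `ι t` lies in the Gauss ring of level `L`. -/
theorem s36_sm3_ic_le_V (ι : F' →+* FF)
    (hιV : ∀ x : F', ι x ∈ s34_gi_V A L ↔ x ∈ s34_gi_V A N)
    (hR : s18_ResBasis ℓ A π) (h : s18_cz_Coord N ℓ t)
    {Bc : Subring (LaurentSeries ℚ)} (hB : CoreData N ℓ Bc) :
    (s34_ic_chart A (ι (s18_coord K t))).toSubring ≤ s34_gi_V A L :=
  s34_ic_le_unif (s34_lg_unif (N := L) hR.irr)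
    (fun a => s34_gi_algebraMap_mem (N := L) a)
    ((hιV _).mpr (s34_lg_chart_le_V hR.unit h hB (s18_coord_mem t)))

/-- **(c-sm), regularity**: for the chart `B = s34_ic_chart A T`, `T = ι t`, of level `L`, the
Gauss ring `V_A = s34_gi_V A L`, its swap conjugate `V_B = V_A.comap W` and a third ring
`V_C ⊇ B`: if `f ∈ B` is divisible by `π` on two of the three components, then `B[1/f]` is regular
at its closed points over `π`.  `K` is an arbitrary field over `ℚ` (no Galois hypothesis), `ι` an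
arbitrary `A`-linear ring homomorphism `K·F_N → K·F_L` preserving and reflecting the Gauss
rings. -/
theorem s36_sm3_hsm (hR : s18_ResBasis ℓ A π) (h : s18_cz_Coord N ℓ t)
    {Bc : Subring (LaurentSeries ℚ)} (hB : CoreData N ℓ Bc)
    (hchart : s18_Chart (algebraMap A F' π) (s18_chAlg N ℓ A t).toSubring)
    (hsm : s18_SmHyp π (s18_coord K t) (s18_chAlg N ℓ A t))
    (ι : F' →+* FF) (hιA : ∀ a : A, ι (algebraMap A F' a) = algebraMap A FF a)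
    (hιV : ∀ x : F', ι x ∈ s34_gi_V A L ↔ x ∈ s34_gi_V A N)
    (T : FF) (hT : ι (s18_coord K t) = T)
    (W : FF ≃+* FF) (hWϖ : W (algebraMap A FF π) = algebraMap A FF π)
    (hWB : ∀ x ∈ (s34_ic_chart A T).toSubring, W x ∈ (s34_ic_chart A T).toSubring)
    (hWB' : ∀ x ∈ (s34_ic_chart A T).toSubring, W.symm x ∈ (s34_ic_chart A T).toSubring)
    (VC : Subring FF) (hBC : (s34_ic_chart A T).toSubring ≤ VC)
    (hcap : ∀ x ∈ (s34_ic_chart A T).toSubring,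
      (algebraMap A FF π)⁻¹ * x ∈ s34_gi_V A L →
      (algebraMap A FF π)⁻¹ * x ∈ (s34_gi_V A L).comap (W : FF →+* FF) →
      (algebraMap A FF π)⁻¹ * x ∈ VC →
      (algebraMap A FF π)⁻¹ * x ∈ (s34_ic_chart A T).toSubring)
    (hresκ : ∀ y ∈ (s34_ic_chart A T).toSubring, ∃ y' ∈ s34_gi_V A N,
      (algebraMap A FF π)⁻¹ * (y - ι y') ∈ s34_gi_V A L) :
    ∀ f : (s34_ic_chart A T).toSubring,
      (((algebraMap A FF π)⁻¹ * (f : FF) ∈ (s34_gi_V A L).comap (W : FF →+* FF) ∧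
          (algebraMap A FF π)⁻¹ * (f : FF) ∈ VC) ∨
        ((algebraMap A FF π)⁻¹ * (f : FF) ∈ s34_gi_V A L ∧
          (algebraMap A FF π)⁻¹ * (f : FF) ∈ VC)) →
      ∀ 𝔫 : Ideal (s34_away (s34_ic_chart A T).toSubring (f : FF) f.2), 𝔫.IsMaximal →
      (⟨algebraMap A FF π, s34_le_away (s34_ic_chart A T).toSubring (f : FF) f.2
        ((s34_ic_chart A T).algebraMap_mem π)⟩ :
        s34_away (s34_ic_chart A T).toSubring (f : FF) f.2) ∈ 𝔫 →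
      ∃ s ∈ 𝔫, ∀ x ∈ 𝔫, ∃ u, u ∉ 𝔫 ∧ u * x ∈ Ideal.span
        {(⟨algebraMap A FF π, s34_le_away (s34_ic_chart A T).toSubring (f : FF) f.2
          ((s34_ic_chart A T).algebraMap_mem π)⟩ :
          s34_away (s34_ic_chart A T).toSubring (f : FF) f.2), s} := by
  subst hT
  intro f hf 𝔫 h𝔫 hϖ𝔫
  have hBV := s36_sm3_ic_le_V (K := K) (A := A) (L := L) ι hιV hR h hB
  -- `hgauss`
  have hgauss : ∀ b ∈ (s18_chAlg N ℓ A t).toSubring,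
      (algebraMap A FF π)⁻¹ * ι b ∈ s34_gi_V A L →
      (algebraMap A F' π)⁻¹ * b ∈ (s18_chAlg N ℓ A t).toSubring := by
    intro b hb hbV
    refine s34_lg_cap hR h hB hb ?_
    rw [← hιV]
    have e : ι ((algebraMap A F' π)⁻¹ * b) = (algebraMap A FF π)⁻¹ * ι b := by
      rw [map_mul, map_inv₀, hιA]
    rw [e]
    exact hbV
  -- `hint`
  have hint : ∀ x ∈ (s34_ic_chart A (ι (s18_coord K t))).toSubring,
      ∃ P : Polynomial (s18_chAlg N ℓ A t).toSubring, P.Monic ∧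
        P.eval₂ (ι.comp (s18_chAlg N ℓ A t).toSubring.subtype) x = 0 := by
    intro x hx
    apply s34_res_hint_of_isIntegral
    refine (s34_ic_isIntegral_iff (A₀ := A) (ι (s18_coord K t))
      ((s18_chAlg N ℓ A t).toSubring.map ι) ?_ ?_ ?_ x).mpr hx
    · intro a
      exact ⟨algebraMap A F' a, Subalgebra.algebraMap_mem _ a, hιA a⟩
    · exact ⟨s18_coord K t, s18_coord_mem t, rfl⟩
    · rintro _ ⟨y, hy, rfl⟩
      exact s36_sm3_incl_mem_ic ι hιA hsm y hy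
  -- `hresκ` in terms of the Gauss ring of the chart
  have hres' : ∀ y ∈ (s34_ic_chart A (ι (s18_coord K t))).toSubring,
      ∃ y' ∈ s18_gauss (algebraMap A F' π) (s18_chAlg N ℓ A t).toSubring,
        (algebraMap A FF π)⁻¹ * (y - ι y') ∈ s34_gi_V A L := by
    intro y hy
    obtain ⟨y', hy', hyy'⟩ := hresκ y hy
    exact ⟨y', (s34_lg_mem_gauss_iff hR h hB y').mpr hy', hyy'⟩
  exact s36_sm3_reg ι (s18_chAlg N ℓ A t).toSubring hchart (hιA π) W hWϖ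
    (s34_lg_unif (N := L) hR.irr) hBV hBC hWB hWB'
    ((s34_ic_chart A (ι (s18_coord K t))).algebraMap_mem π) hcap
    (fun x hx => s36_sm3_incl_mem_ic ι hιA hsm x hx) hgauss hint hres' f hf 𝔫 h𝔫 hϖ𝔫

/-- **(c-sm), point data**: at a prime `𝔪 ∋ π` of the chart `B = s34_ic_chart A T` for which some
`f ∈ B \ 𝔪` is divisible by `π` on two of the three components (i.e. `𝔪` lies on exactly one of the
reduced components `A`, `B` and not on `C`), the smooth disjunct of `s36_PointData` holds for the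
three-component Gauss ring `V_A ⊓ V_B ⊓ V_C`. -/
theorem s36_sm3_pointData (hR : s18_ResBasis ℓ A π) (h : s18_cz_Coord N ℓ t)
    {Bc : Subring (LaurentSeries ℚ)} (hB : CoreData N ℓ Bc)
    (hchart : s18_Chart (algebraMap A F' π) (s18_chAlg N ℓ A t).toSubring)
    (hsm : s18_SmHyp π (s18_coord K t) (s18_chAlg N ℓ A t))
    (ι : F' →+* FF) (hιA : ∀ a : A, ι (algebraMap A F' a) = algebraMap A FF a)
    (hιV : ∀ x : F', ι x ∈ s34_gi_V A L ↔ x ∈ s34_gi_V A N)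
    (T : FF) (hT : ι (s18_coord K t) = T)
    (W : FF ≃+* FF) (hWϖ : W (algebraMap A FF π) = algebraMap A FF π)
    (hWB : ∀ x ∈ (s34_ic_chart A T).toSubring, W x ∈ (s34_ic_chart A T).toSubring)
    (hWB' : ∀ x ∈ (s34_ic_chart A T).toSubring, W.symm x ∈ (s34_ic_chart A T).toSubring)
    (VC : Subring FF) (hBC : (s34_ic_chart A T).toSubring ≤ VC)
    (hcap : ∀ x ∈ (s34_ic_chart A T).toSubring,
      (algebraMap A FF π)⁻¹ * x ∈ s34_gi_V A L →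
      (algebraMap A FF π)⁻¹ * x ∈ (s34_gi_V A L).comap (W : FF →+* FF) →
      (algebraMap A FF π)⁻¹ * x ∈ VC →
      (algebraMap A FF π)⁻¹ * x ∈ (s34_ic_chart A T).toSubring)
    (hresκ : ∀ y ∈ (s34_ic_chart A T).toSubring, ∃ y' ∈ s34_gi_V A N,
      (algebraMap A FF π)⁻¹ * (y - ι y') ∈ s34_gi_V A L)
    (hpowC : ∀ y : FF, ∃ k : ℕ, (algebraMap A FF π) ^ k * y ∈ VC)
    (hnoeth : IsNoetherianRing (s34_ic_chart A T).toSubring)
    (hfrac : ∀ x : FF, ∃ a ∈ (s34_ic_chart A T).toSubring,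
      ∃ b ∈ (s34_ic_chart A T).toSubring, b ≠ 0 ∧ x = a / b)
    (𝔪 : Ideal (s34_ic_chart A T).toSubring)
    (hϖ𝔪 : (⟨algebraMap A FF π, (s34_ic_chart A T).algebraMap_mem π⟩ :
      (s34_ic_chart A T).toSubring) ∈ 𝔪)
    (f : (s34_ic_chart A T).toSubring) (hf𝔪 : f ∉ 𝔪)
    (hf : ((algebraMap A FF π)⁻¹ * (f : FF) ∈ (s34_gi_V A L).comap (W : FF →+* FF) ∧
          (algebraMap A FF π)⁻¹ * (f : FF) ∈ VC) ∨
        ((algebraMap A FF π)⁻¹ * (f : FF) ∈ s34_gi_V A L ∧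
          (algebraMap A FF π)⁻¹ * (f : FF) ∈ VC))
    (p : ℕ) (hh : FF) :
    s36_PointData (algebraMap A FF π) (s34_ic_chart A T).toSubring
      (s34_gi_V A L ⊓ (s34_gi_V A L).comap (W : FF →+* FF) ⊓ VC) p hh 𝔪 := by
  have hreg := s36_sm3_hsm hR h hB hchart hsm ι hιA hιV T hT W hWϖ hWB hWB' VC hBC hcap hresκ
    f hf
  subst hT
  have hVA : s34_Unif (algebraMap A FF π) (s34_gi_V A L) := s34_lg_unif (N := L) hR.irr
  have hVB : s34_Unif (algebraMap A FF π) ((s34_gi_V A L).comap (W : FF →+* FF)) :=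
    s34_Unif.comap hVA W hWϖ
  have hBA := s36_sm3_ic_le_V (K := K) (A := A) (L := L) ι hιV hR h hB
  have hBB : (s34_ic_chart A (ι (s18_coord K t))).toSubring ≤
      (s34_gi_V A L).comap (W : FF →+* FF) := fun x hx => by
    rw [Subring.mem_comap]
    exact hBA (hWB x hx)
  rcases hf with ⟨hfB, hfC⟩ | ⟨hfA, hfC⟩
  · exact s36_sm3_pointData_A hVA hBA hBB hBC
      ((s34_ic_chart A (ι (s18_coord K t))).algebraMap_mem π) hcap
      (fun y => hVB.exists_pow_mul_mem y) hpowC hnoeth hfrac 𝔪 hϖ𝔪 f hf𝔪 hfB hfC hreg p hh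
  · exact s36_sm3_pointData_B hVB hBA hBB hBC
      ((s34_ic_chart A (ι (s18_coord K t))).algebraMap_mem π) hcap
      (fun y => hVA.exists_pow_mul_mem y) hpowC hnoeth hfrac 𝔪 hϖ𝔪 f hf𝔪 hfA hfC hreg p hh

end Generic

/-! ### The two embeddings of the model: one step `N → N * q₂` and two steps `N → N * q → N * q * q`

They satisfy the two hypotheses `hιA`, `hιV` of `s36_sm3_hsm` / `s36_sm3_pointData` (with
`L = N * q₂`, e.g. `q₂ = q * q`, resp. `L = N * q * q`). -/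

section Iota

variable {N : ℕ} [NeZero N] (q : ℕ) [NeZero q]
variable {K : Type*} [Field K] [Algebra ℚ K] {A : ValuationSubring K}

/-- The one-step embedding `K·F_N → K·F_{N q}` as a ring homomorphism. -/
abbrev s36_sm3_incl1 (K : Type*) [Field K] [Algebra ℚ K] (N q : ℕ) [NeZero N] [NeZero q] :
    laurentBaseChange K (modularFunctionFieldFull N) →+*
      laurentBaseChange K (modularFunctionFieldFull (N * q)) :=
  ((heckeAlphaBar K N q : laurentBaseChange K (modularFunctionFieldFull N) →ₐ[K]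
    laurentBaseChange K (modularFunctionFieldFull (N * q))) :
    laurentBaseChange K (modularFunctionFieldFull N) →+*
      laurentBaseChange K (modularFunctionFieldFull (N * q)))

theorem s36_sm3_incl1_algebraMap (a : A) :
    s36_sm3_incl1 K N q (algebraMap A (laurentBaseChange K (modularFunctionFieldFull N)) a) =
      algebraMap A (laurentBaseChange K (modularFunctionFieldFull (N * q))) a :=
  s34_lc_incl_algebraMap q a

theorem s36_sm3_incl1_mem_V (x : laurentBaseChange K (modularFunctionFieldFull N)) :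
    s36_sm3_incl1 K N q x ∈ s34_gi_V A (N * q) ↔ x ∈ s34_gi_V A N :=
  s34_gz_alpha_mem_iff (ℓ := q) x

/-- The two-step embedding `K·F_N → K·F_{N q} → K·F_{N q q}` as a ring homomorphism. -/
abbrev s36_sm3_incl2 (K : Type*) [Field K] [Algebra ℚ K] (N q : ℕ) [NeZero N] [NeZero q] :
    laurentBaseChange K (modularFunctionFieldFull N) →+*
      laurentBaseChange K (modularFunctionFieldFull (N * q * q)) :=
  (s36_sm3_incl1 K (N * q) q).comp (s36_sm3_incl1 K N q)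

theorem s36_sm3_incl2_algebraMap (a : A) :
    s36_sm3_incl2 K N q (algebraMap A (laurentBaseChange K (modularFunctionFieldFull N)) a) =
      algebraMap A (laurentBaseChange K (modularFunctionFieldFull (N * q * q))) a := by
  show s36_sm3_incl1 K (N * q) q (s36_sm3_incl1 K N q _) = _
  rw [s36_sm3_incl1_algebraMap, s36_sm3_incl1_algebraMap]

theorem s36_sm3_incl2_mem_V (x : laurentBaseChange K (modularFunctionFieldFull N)) :
    s36_sm3_incl2 K N q x ∈ s34_gi_V A (N * q * q) ↔ x ∈ s34_gi_V A N := by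
  show s36_sm3_incl1 K (N * q) q (s36_sm3_incl1 K N q x) ∈ _ ↔ _
  rw [s36_sm3_incl1_mem_V, s36_sm3_incl1_mem_V]

/-- The two-step embedding has the same `q`-expansions. -/
theorem s36_sm3_coe_incl2 (x : laurentBaseChange K (modularFunctionFieldFull N)) :
    ((s36_sm3_incl2 K N q x : laurentBaseChange K (modularFunctionFieldFull (N * q * q))) :
      LaurentSeries K) = (x : LaurentSeries K) := by
  show ((heckeAlphaBar K (N * q) q (heckeAlphaBar K N q x) :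
    laurentBaseChange K (modularFunctionFieldFull (N * q * q))) : LaurentSeries K) = _
  rw [coe_heckeAlphaBar, coe_heckeAlphaBar]

end Iota

end Fermat.Agent.S36
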