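import Mathlib
import Fermat.Agent.S36.ThetaRatio
import Fermat.Agent.S36.NormalPt

/-!
# S36 (NODE-3), glue: from the theta-ratio to the pole at a crossing point

For a coordinate `t` of level `N` with Gauss-integral expansion whose reduction `t̄` has
Frobenius-fixed coefficients and `θ t̄ ≠ 0`, and a swap `W` of `K · F(N q)`:

* `s36_trp_alpha_mem`, `s36_trp_red_alpha` : level raising preserves the Gauss ring and the
  reduction;
* `s36_trp_data` : the function `ρ = θ(t(Q^q)) / (q θ t) ∈ K · F(N q)` with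
  `θ(β t) = q · ρ · θ(α t)` (the `hr` of `s36_hu_hhor_inv_nat`), `ρ ≠ 0`, `ρ⁻¹ ∈ V₁`,
  `ϖ⁻¹ ρ⁻¹ ∈ V₂ = W⁻¹ V₁` (the `hρ₁`, `hρ₂` of `s36_np_rhoinv`), `ρ ∈ V₁` and
  `red ρ = (θ t̄)^(q-1)`;
* `s36_trp_pole` : with the horizontal statement `hhor` for `ρ⁻¹` at a prime `𝔪` of a normal
  chart `B` containing the branch prime of `V₂`: elements `a ∈ 𝔪`, `b ∉ 𝔪` of `B` with
  `((θ t̄)^(q-1))^1 · red a = red b` — the relation `hrel` (with `k = 1`, `P = a`, `U = b`) of
  `s36_thp_pole_rel` / `s36_thp_core_rel` / `s36_thp_gen_rel`.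
-/

set_option autoImplicit false
set_option linter.style.haveILetI false
set_option linter.unusedSectionVars false
set_option linter.deprecated false

open ModularCurve

noncomputable section

namespace Fermat.Agent.S36

open Fermat.Agent.S18 Fermat.Agent.S34

section Model

variable (K : Type*) [Field K] [Algebra ℚ K] [Algebra K (AlgebraicClosure ℚ)]

/-- Level raising preserves the Gauss ring. -/
theorem s36_trp_alpha_mem (A₁ : ValuationSubring K) (N q : ℕ) [NeZero N] [NeZero q]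
    (t : laurentBaseChange K (modularFunctionFieldFull N)) (htV : t ∈ s34_gi_V A₁ N) :
    heckeAlphaBar K N q t ∈ s34_gi_V A₁ (N * q) := by
  show ((heckeAlphaBar K N q t : laurentBaseChange K (modularFunctionFieldFull (N * q))) :
    LaurentSeries K) ∈ s18_W A₁.subtype (IsLocalRing.residue A₁)
  rw [coe_heckeAlphaBar]
  exact htV

/-- Level raising commutes with the reduction. -/
theorem s36_trp_red_alpha (A₁ : ValuationSubring K) (N q : ℕ) [NeZero N] [NeZero q]
    (t : laurentBaseChange K (modularFunctionFieldFull N)) (htV : t ∈ s34_gi_V A₁ N)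
    (h : heckeAlphaBar K N q t ∈ s34_gi_V A₁ (N * q)) :
    s34_gi_red A₁ (N * q) ⟨heckeAlphaBar K N q t, h⟩ = s34_gi_red A₁ N ⟨t, htV⟩ := by
  show s18_red (ι := A₁.subtype) (ρ := IsLocalRing.residue A₁) Subtype.val_injective
      ⟨((heckeAlphaBar K N q t : laurentBaseChange K (modularFunctionFieldFull (N * q))) :
        LaurentSeries K), h⟩ =
    s18_red (ι := A₁.subtype) (ρ := IsLocalRing.residue A₁) Subtype.val_injective
      ⟨(t : LaurentSeries K), htV⟩
  exact congrArg _ (Subtype.ext (coe_heckeAlphaBar N q t))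

/-- **The data of the pole function `ρ = θ(t(Q^q)) / (q θ t)`** in the shapes of
`s36_hu_hhor_inv_nat` (`hr`), `s36_np_rhoinv` (`hρ0`, `hρ₁`, `hρ₂`) and `s36_th_unit_D` (`hρ`). -/
theorem s36_trp_data (A₁ : ValuationSubring K) (N q : ℕ) [NeZero N] [NeZero q] [Fact q.Prime]
    [CharP (IsLocalRing.ResidueField A₁) q]
    (t : laurentBaseChange K (modularFunctionFieldFull N)) (htV : t ∈ s34_gi_V A₁ N)
    (hθ : s36_qt_theta (IsLocalRing.ResidueField A₁) (s34_gi_red A₁ N ⟨t, htV⟩) ≠ 0)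
    (hfix : coeffMap (frobenius (IsLocalRing.ResidueField A₁) q) (s34_gi_red A₁ N ⟨t, htV⟩) =
      s34_gi_red A₁ N ⟨t, htV⟩)
    (W : laurentBaseChange K (modularFunctionFieldFull (N * q)) ≃ₐ[K]
      laurentBaseChange K (modularFunctionFieldFull (N * q)))
    (hW1 : W (heckeAlphaBar K N q t) = heckeBetaBar K N q t)
    (hW2 : W (heckeBetaBar K N q t) = heckeAlphaBar K N q t)
    (ϖ : laurentBaseChange K (modularFunctionFieldFull (N * q))) (hWϖ : W ϖ = ϖ)
    (hϖq : ϖ⁻¹ * algebraMap K (laurentBaseChange K (modularFunctionFieldFull (N * q))) (q : K) ∈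
      s34_gi_V A₁ (N * q))
    (hqV : algebraMap K (laurentBaseChange K (modularFunctionFieldFull (N * q))) (q : K) ∈
      s34_gi_V A₁ (N * q)) :
    ∃ ρ : laurentBaseChange K (modularFunctionFieldFull (N * q)), ρ ≠ 0 ∧
      s36_qt_theta K ((heckeBetaBar K N q t :
          laurentBaseChange K (modularFunctionFieldFull (N * q))) : LaurentSeries K) =
        ((q : ℕ) : LaurentSeries K) * (ρ : LaurentSeries K) *
          s36_qt_theta K ((heckeAlphaBar K N q t :
            laurentBaseChange K (modularFunctionFieldFull (N * q))) : LaurentSeries K) ∧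
      ρ⁻¹ ∈ s34_gi_V A₁ (N * q) ∧
      ϖ⁻¹ * ρ⁻¹ ∈ (s34_gi_V A₁ (N * q)).comap
        (W : laurentBaseChange K (modularFunctionFieldFull (N * q)) →+*
          laurentBaseChange K (modularFunctionFieldFull (N * q))) ∧
      ∃ hρV : ρ ∈ s34_gi_V A₁ (N * q), s34_gi_red A₁ (N * q) ⟨ρ, hρV⟩ =
        s36_qt_theta (IsLocalRing.ResidueField A₁) (s34_gi_red A₁ N ⟨t, htV⟩) ^ (q - 1) := by
  have hι : Function.Injective (A₁.subtype : A₁ →+* K) := Subtype.val_injective
  have htW : (t : LaurentSeries K) ∈ s18_W A₁.subtype (IsLocalRing.residue A₁) := htV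
  have hθt : s36_qt_theta K (t : LaurentSeries K) ≠ 0 := by
    intro h0
    apply hθ
    have h1 := s36_qk_red_theta hι (t : LaurentSeries K) htW
    have e : (⟨s36_qt_theta K (t : LaurentSeries K), s36_qk_theta_mem_W htW⟩ :
        s18_W A₁.subtype (IsLocalRing.residue A₁)) = 0 := Subtype.ext h0
    rw [e, map_zero] at h1
    exact h1.symm
  obtain ⟨ρ, hρ, hsw⟩ := s36_trl_rho K N q t hθt
  obtain ⟨hρV, hρinv, hred⟩ := s36_trl_gauss_frob K A₁ N q t htV hθ hfix ρ hρ
  have hρ0 : ρ ≠ 0 := by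
    intro h0
    have e : (⟨ρ, hρV⟩ : s34_gi_V A₁ (N * q)) = 0 := Subtype.ext h0
    rw [e, map_zero] at hred
    exact pow_ne_zero _ hθ hred.symm
  have hswW : algebraMap K (laurentBaseChange K (modularFunctionFieldFull (N * q))) (q : K) ^ 2 *
      ρ * W ρ = 1 := hsw (W : laurentBaseChange K (modularFunctionFieldFull (N * q)) →ₐ[K]
        laurentBaseChange K (modularFunctionFieldFull (N * q))) hW1 hW2
  refine ⟨ρ, hρ0, ?_, hρinv, ?_, hρV, hred⟩
  · rw [coe_heckeAlphaBar]
    show s36_qt_theta K (qExpand K q (t : LaurentSeries K)) = _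
    rw [s36_qk_theta_qExpand, ← hρ, map_natCast]
    ring
  · rw [Subring.mem_comap]
    have hWρ : (W ρ)⁻¹ =
        algebraMap K (laurentBaseChange K (modularFunctionFieldFull (N * q))) (q : K) ^ 2 * ρ :=
      inv_eq_of_mul_eq_one_left hswW
    show W (ϖ⁻¹ * ρ⁻¹) ∈ s34_gi_V A₁ (N * q)
    rw [map_mul, map_inv₀, map_inv₀, hWϖ, hWρ]
    have e : ϖ⁻¹ * (algebraMap K (laurentBaseChange K (modularFunctionFieldFull (N * q)))
        (q : K) ^ 2 * ρ) =
        ϖ⁻¹ * algebraMap K (laurentBaseChange K (modularFunctionFieldFull (N * q))) (q : K) *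
          algebraMap K (laurentBaseChange K (modularFunctionFieldFull (N * q))) (q : K) * ρ := by
      ring
    rw [e]
    exact Subring.mul_mem _ (Subring.mul_mem _ hϖq hqV) hρV

/-- **The pole at a crossing point, from the horizontal statement.**  Conclusion = the relation
`hrel` of `s36_thp_pole_rel` / `s36_thp_core_rel` / `s36_thp_gen_rel` with `k = 1`. -/
theorem s36_trp_pole (A₁ : ValuationSubring K) (N q : ℕ) [NeZero N] [NeZero q] [Fact q.Prime]
    [CharP (IsLocalRing.ResidueField A₁) q]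
    (t : laurentBaseChange K (modularFunctionFieldFull N)) (htV : t ∈ s34_gi_V A₁ N)
    (hθ : s36_qt_theta (IsLocalRing.ResidueField A₁) (s34_gi_red A₁ N ⟨t, htV⟩) ≠ 0)
    (hfix : coeffMap (frobenius (IsLocalRing.ResidueField A₁) q) (s34_gi_red A₁ N ⟨t, htV⟩) =
      s34_gi_red A₁ N ⟨t, htV⟩)
    (W : laurentBaseChange K (modularFunctionFieldFull (N * q)) ≃ₐ[K]
      laurentBaseChange K (modularFunctionFieldFull (N * q)))
    (hW1 : W (heckeAlphaBar K N q t) = heckeBetaBar K N q t)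
    (hW2 : W (heckeBetaBar K N q t) = heckeAlphaBar K N q t)
    (ϖ : laurentBaseChange K (modularFunctionFieldFull (N * q))) (hWϖ : W ϖ = ϖ)
    (hϖq : ϖ⁻¹ * algebraMap K (laurentBaseChange K (modularFunctionFieldFull (N * q))) (q : K) ∈
      s34_gi_V A₁ (N * q))
    (hqV : algebraMap K (laurentBaseChange K (modularFunctionFieldFull (N * q))) (q : K) ∈
      s34_gi_V A₁ (N * q))
    (hV₁ : s34_Unif ϖ (s34_gi_V A₁ (N * q)))
    (hV₂ : s34_Unif ϖ ((s34_gi_V A₁ (N * q)).comap
      (W : laurentBaseChange K (modularFunctionFieldFull (N * q)) →+*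
        laurentBaseChange K (modularFunctionFieldFull (N * q)))))
    (B : Subring (laurentBaseChange K (modularFunctionFieldFull (N * q))))
    (hB₁ : B ≤ s34_gi_V A₁ (N * q))
    (hB₂ : B ≤ (s34_gi_V A₁ (N * q)).comap
      (W : laurentBaseChange K (modularFunctionFieldFull (N * q)) →+*
        laurentBaseChange K (modularFunctionFieldFull (N * q))))
    (hϖB : ϖ ∈ B) (hnoeth : IsNoetherianRing B)
    (hfrac : ∀ x : laurentBaseChange K (modularFunctionFieldFull (N * q)),
      ∃ a ∈ B, ∃ b ∈ B, b ≠ 0 ∧ x = a / b)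
    (hnorm : ∀ z : laurentBaseChange K (modularFunctionFieldFull (N * q)),
      IsIntegral B z → z ∈ B)
    (hcap : ∀ x ∈ B, ϖ⁻¹ * x ∈ s34_gi_V A₁ (N * q) →
      ϖ⁻¹ * x ∈ (s34_gi_V A₁ (N * q)).comap
        (W : laurentBaseChange K (modularFunctionFieldFull (N * q)) →+*
          laurentBaseChange K (modularFunctionFieldFull (N * q))) → ϖ⁻¹ * x ∈ B)
    (𝔪 : Ideal B) [h𝔪 : 𝔪.IsPrime]
    (hP₂ : ∀ p : B, ϖ⁻¹ * (p : laurentBaseChange K (modularFunctionFieldFull (N * q))) ∈
      (s34_gi_V A₁ (N * q)).comap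
        (W : laurentBaseChange K (modularFunctionFieldFull (N * q)) →+*
          laurentBaseChange K (modularFunctionFieldFull (N * q))) → p ∈ 𝔪)
    (htB : heckeAlphaBar K N q t ∈ B)
    (hhor : ∀ ρ : laurentBaseChange K (modularFunctionFieldFull (N * q)),
      s36_qt_theta K ((heckeBetaBar K N q t :
          laurentBaseChange K (modularFunctionFieldFull (N * q))) : LaurentSeries K) =
        ((q : ℕ) : LaurentSeries K) * (ρ : LaurentSeries K) *
          s36_qt_theta K ((heckeAlphaBar K N q t :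
            laurentBaseChange K (modularFunctionFieldFull (N * q))) : LaurentSeries K) →
      ∀ W' : ValuationSubring (laurentBaseChange K (modularFunctionFieldFull (N * q))),
        IsDiscreteValuationRing W' → B ≤ W'.toSubring →
        (∀ b : B, b ∉ 𝔪 →
          ((b : laurentBaseChange K (modularFunctionFieldFull (N * q))))⁻¹ ∈ W') →
        ϖ⁻¹ ∈ W' → ρ⁻¹ ∈ W') :
    ∃ a b : B, a ∈ 𝔪 ∧ b ∉ 𝔪 ∧
      (s36_qt_theta (IsLocalRing.ResidueField A₁)
          (s34_gi_red A₁ (N * q) (Subring.inclusion hB₁ ⟨heckeAlphaBar K N q t, htB⟩)) ^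
            (q - 1)) ^ 1 * s34_gi_red A₁ (N * q) (Subring.inclusion hB₁ a) =
        s34_gi_red A₁ (N * q) (Subring.inclusion hB₁ b) := by
  obtain ⟨ρ, hρ0, hr, hρ₁, hρ₂, hρV, hred⟩ :=
    s36_trp_data K A₁ N q t htV hθ hfix W hW1 hW2 ϖ hWϖ hϖq hqV
  obtain ⟨a, b, hb, e, ha⟩ := s36_np_rhoinv B (s34_gi_V A₁ (N * q)) _ ϖ hV₁ hV₂ hB₁ hB₂ hϖB
    hnoeth hfrac hnorm hcap 𝔪 ρ hρ0 hρ₁ hρ₂ (hhor ρ hr)
  refine ⟨a, b, hP₂ a ha, hb, ?_⟩
  have e' : Subring.inclusion hB₁ b = ⟨ρ, hρV⟩ * Subring.inclusion hB₁ a := Subtype.ext e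
  have e2 : s34_gi_red A₁ (N * q) (Subring.inclusion hB₁ ⟨heckeAlphaBar K N q t, htB⟩) =
      s34_gi_red A₁ N ⟨t, htV⟩ := s36_trp_red_alpha K A₁ N q t htV (hB₁ htB)
  rw [pow_one, e', map_mul, hred, e2]

end Model

end Fermat.Agent.S36
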