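import Mathlib
import Fermat.Agent.S36.ThetaRatioPole
import Fermat.Agent.S36.HorizScale
import Fermat.Agent.S34.GaussZero

/-!
# S36 (NODE-3): the pole of `(θ t̄)^(q-1)` at a crossing point, horizontal route, composed

Composition of the theta-ratio leaf (`s36_trp_pole`), of the horizontal unit statement
(`s36_hu_hhor_inv_nat`, `s36_hu_hunr_two/_three`) and of normality at a point (`s36_np_rhoinv`,
inside `s36_trp_pole`), in the concrete vocabulary: `K₁ ⊆ Q̄` any intermediate field,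
`A₁ = A ∩ K₁` a discrete valuation ring with uniformizer `π ∣ q`, level `N * q`,
`V₁ = s34_gi_V A₁ (N q)`, `V₂ = W⁻¹ V₁` for a `K₁`-automorphism `W` exchanging `α t` and `β t`.

* `s36_trc_two` : for a coordinate `t` of level `N` (Gauss-integral, Frobenius-fixed reduction,
  `θ t̄ ≠ 0`) such that `t' = t(Q^q)` satisfies the level-2 Hauptmodul equation up to a
  `Q̄`-automorphism `σ`, and a prime `𝔪` of a normal noetherian chart `B` with `t' ∉ 𝔪`,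
  `t' + 64 ∉ 𝔪`, containing the branch prime of `V₂`: there are `a ∈ 𝔪`, `b ∉ 𝔪` with
  `((θ t̄)^(q-1))^1 · red a = red b` (the `hrel` of `s36_thp_pole_rel`, `k = 1`);
* `s36_trc_three` : the same with the level-3 equation and `t' + 27 ∉ 𝔪`.
-/

set_option autoImplicit false
set_option synthInstance.maxHeartbeats 400000
set_option maxHeartbeats 4000000
set_option linter.style.haveILetI false
set_option linter.unusedSectionVars false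
set_option linter.deprecated false

open ModularCurve AlgebraicCurve

noncomputable section

namespace Fermat.Agent.S36

open Fermat.Agent.S24 (Kbar FF jF)
open Fermat.Agent.S18 Fermat.Agent.S34

section Cross

variable (N q : ℕ) [NeZero N] [NeZero q] [Fact q.Prime]
  (K₁ : IntermediateField ℚ Kbar) (A : ValuationSubring Kbar)

/-- Common part: the pole relation from the unramifiedness premise `hunr` for `t' = β t`. -/
theorem s36_trc_core [IsDiscreteValuationRing (s18_A1 A K₁)]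
    [CharP (IsLocalRing.ResidueField (s18_A1 A K₁)) q]
    {π : s18_A1 A K₁} (hπ : Irreducible π)
    (hπq : ∃ c : s18_A1 A K₁, ((q : ℕ) : s18_A1 A K₁) = π * c)
    (t : s18_F1 K₁ N) (htV : t ∈ s34_gi_V (s18_A1 A K₁) N)
    (hθ : s36_qt_theta (IsLocalRing.ResidueField (s18_A1 A K₁))
      (s34_gi_red (s18_A1 A K₁) N ⟨t, htV⟩) ≠ 0)
    (hfix : coeffMap (frobenius (IsLocalRing.ResidueField (s18_A1 A K₁)) q)
      (s34_gi_red (s18_A1 A K₁) N ⟨t, htV⟩) = s34_gi_red (s18_A1 A K₁) N ⟨t, htV⟩)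
    (W : s18_F1 K₁ (N * q) ≃ₐ[K₁] s18_F1 K₁ (N * q))
    (hW1 : W (heckeAlphaBar K₁ N q t) = heckeBetaBar K₁ N q t)
    (hW2 : W (heckeBetaBar K₁ N q t) = heckeAlphaBar K₁ N q t)
    (B : Subring (s18_F1 K₁ (N * q)))
    (hAB : ∀ a : s18_A1 A K₁, algebraMap (s18_A1 A K₁) (s18_F1 K₁ (N * q)) a ∈ B)
    (hB₁ : B ≤ s34_gi_V (s18_A1 A K₁) (N * q))
    (hB₂ : B ≤ (s34_gi_V (s18_A1 A K₁) (N * q)).comap
      (W : s18_F1 K₁ (N * q) →+* s18_F1 K₁ (N * q)))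
    (hnoeth : IsNoetherianRing B)
    (hfrac : ∀ x : s18_F1 K₁ (N * q), ∃ a ∈ B, ∃ b ∈ B, b ≠ 0 ∧ x = a / b)
    (hnorm : ∀ z : s18_F1 K₁ (N * q), IsIntegral B z → z ∈ B)
    (hcap : ∀ x ∈ B,
      (algebraMap (s18_A1 A K₁) (s18_F1 K₁ (N * q)) π)⁻¹ * x ∈
        s34_gi_V (s18_A1 A K₁) (N * q) →
      (algebraMap (s18_A1 A K₁) (s18_F1 K₁ (N * q)) π)⁻¹ * x ∈
        (s34_gi_V (s18_A1 A K₁) (N * q)).comap
          (W : s18_F1 K₁ (N * q) →+* s18_F1 K₁ (N * q)) →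
      (algebraMap (s18_A1 A K₁) (s18_F1 K₁ (N * q)) π)⁻¹ * x ∈ B)
    (𝔪 : Ideal B) [h𝔪 : 𝔪.IsPrime]
    (hP₂ : ∀ p : B, (algebraMap (s18_A1 A K₁) (s18_F1 K₁ (N * q)) π)⁻¹ *
        (p : s18_F1 K₁ (N * q)) ∈ (s34_gi_V (s18_A1 A K₁) (N * q)).comap
          (W : s18_F1 K₁ (N * q) →+* s18_F1 K₁ (N * q)) → p ∈ 𝔪)
    (htB : heckeAlphaBar K₁ N q t ∈ B) (ht'B : heckeBetaBar K₁ N q t ∈ B)
    (hunr : ∀ W' : ValuationSubring (s18_F1 K₁ (N * q)), B ≤ W'.toSubring →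
      (∀ b : B, b ∉ 𝔪 → ((b : s18_F1 K₁ (N * q)))⁻¹ ∈ W') →
      ∀ (P : Place Kbar (FF (N * q))) (c : Kbar),
      (∀ y ∈ W', s18_baseIncl K₁ (N * q) y ∈ P.toValuationSubring) →
      0 < P.ord (s18_baseIncl K₁ (N * q) (heckeBetaBar K₁ N q t) -
        algebraMap Kbar (FF (N * q)) c) →
      P.ord (s18_baseIncl K₁ (N * q) (heckeBetaBar K₁ N q t) -
        algebraMap Kbar (FF (N * q)) c) = 1) :
    ∃ a b : B, a ∈ 𝔪 ∧ b ∉ 𝔪 ∧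
      (s36_qt_theta (IsLocalRing.ResidueField (s18_A1 A K₁))
          (s34_gi_red (s18_A1 A K₁) (N * q)
            (Subring.inclusion hB₁ ⟨heckeAlphaBar K₁ N q t, htB⟩)) ^ (q - 1)) ^ 1 *
          s34_gi_red (s18_A1 A K₁) (N * q) (Subring.inclusion hB₁ a) =
        s34_gi_red (s18_A1 A K₁) (N * q) (Subring.inclusion hB₁ b) := by
  obtain ⟨c, hc⟩ := hπq
  have hqc : ((q : ℕ) : K₁) = (π : K₁) * (c : K₁) := by
    have h1 := congrArg (Subtype.val : s18_A1 A K₁ → K₁) hc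
    simpa using h1
  have hθt' : s36_qt_theta K₁ ((heckeBetaBar K₁ N q t : s18_F1 K₁ (N * q)) :
      LaurentSeries K₁) ≠ 0 := by
    have hι : Function.Injective ((s18_A1 A K₁).subtype : s18_A1 A K₁ →+* K₁) :=
      Subtype.val_injective
    have htW : (t : LaurentSeries K₁) ∈
        s18_W (s18_A1 A K₁).subtype (IsLocalRing.residue (s18_A1 A K₁)) := htV
    have hθt : s36_qt_theta K₁ (t : LaurentSeries K₁) ≠ 0 := by
      intro h0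
      apply hθ
      have h1 := s36_qk_red_theta hι (t : LaurentSeries K₁) htW
      have e : (⟨s36_qt_theta K₁ (t : LaurentSeries K₁), s36_qk_theta_mem_W htW⟩ :
          s18_W (s18_A1 A K₁).subtype (IsLocalRing.residue (s18_A1 A K₁))) = 0 :=
        Subtype.ext h0
      rw [e, map_zero] at h1
      exact h1.symm
    show s36_qt_theta K₁ (qExpand K₁ q (t : LaurentSeries K₁)) ≠ 0
    rw [s36_qk_theta_qExpand]
    refine mul_ne_zero ?_ ?_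
    · rw [Ne, map_eq_zero]
      exact Nat.cast_ne_zero.mpr (NeZero.ne q)
    · intro h0
      exact hθt (qExpand_injective q (by rw [h0, map_zero]))
  have hϖ : algebraMap (s18_A1 A K₁) (s18_F1 K₁ (N * q)) π =
      algebraMap K₁ (s18_F1 K₁ (N * q)) (π : K₁) := rfl
  have hϖB : algebraMap (s18_A1 A K₁) (s18_F1 K₁ (N * q)) π ∈ B := hAB π
  have hhor0 := fun (ρ : s18_F1 K₁ (N * q)) hr => s36_hu_hhor_inv_nat (N * q) K₁ A hπ B hAB 𝔪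
    (heckeAlphaBar K₁ N q t) (heckeBetaBar K₁ N q t) ρ htB ht'B q hθt' hr hunr
  generalize algebraMap (s18_A1 A K₁) (s18_F1 K₁ (N * q)) π = ϖ at hϖ hϖB hcap hP₂ hhor0
  have hπ0 : ϖ ≠ 0 := by
    rw [hϖ, Ne, map_eq_zero]
    intro h0
    exact hπ.ne_zero (Subtype.ext h0)
  have hWϖ : W ϖ = ϖ := by
    rw [hϖ]
    exact W.commutes _
  have e : algebraMap K₁ (s18_F1 K₁ (N * q)) ((q : ℕ) : K₁) =
      ϖ * algebraMap K₁ (s18_F1 K₁ (N * q)) (c : K₁) := by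
    rw [hϖ, ← map_mul, ← hqc]
  have hcV : algebraMap K₁ (s18_F1 K₁ (N * q)) (c : K₁) ∈ s34_gi_V (s18_A1 A K₁) (N * q) :=
    s34_gi_algebraMap_mem c
  have hϖV : ϖ ∈ s34_gi_V (s18_A1 A K₁) (N * q) := by
    rw [hϖ]
    exact s34_gi_algebraMap_mem π
  have hϖq : ϖ⁻¹ * algebraMap K₁ (s18_F1 K₁ (N * q)) ((q : ℕ) : K₁) ∈
      s34_gi_V (s18_A1 A K₁) (N * q) := by
    rw [e, inv_mul_cancel_left₀ hπ0]
    exact hcV
  have hqV : algebraMap K₁ (s18_F1 K₁ (N * q)) ((q : ℕ) : K₁) ∈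
      s34_gi_V (s18_A1 A K₁) (N * q) := by
    rw [e]
    exact Subring.mul_mem _ hϖV hcV
  have hV₁ : s34_Unif ϖ (s34_gi_V (s18_A1 A K₁) (N * q)) := by
    rw [hϖ]
    exact s34_gi_unif hπ
  have hV₂ : s34_Unif ϖ ((s34_gi_V (s18_A1 A K₁) (N * q)).comap
      (W : s18_F1 K₁ (N * q) →+* s18_F1 K₁ (N * q))) :=
    hV₁.comap (W : s18_F1 K₁ (N * q) ≃+* s18_F1 K₁ (N * q)) hWϖ
  exact s36_trp_pole K₁ (s18_A1 A K₁) N q t htV hθ hfix W hW1 hW2 ϖ hWϖ hϖq hqV hV₁ hV₂ B hB₁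
    hB₂ hϖB hnoeth hfrac hnorm hcap 𝔪 hP₂ htB hhor0

/-- **Crossing point ⟹ pole of `(θ t̄)^(q-1)`**, level-2 Hauptmodul form: `t' = t(Q^q)` satisfies
`j · (σ t')² = (σ t' + 256)³` for a `Q̄`-automorphism `σ`, and `t', t' + 64 ∉ 𝔪`. -/
theorem s36_trc_two [IsDiscreteValuationRing (s18_A1 A K₁)]
    [CharP (IsLocalRing.ResidueField (s18_A1 A K₁)) q]
    {π : s18_A1 A K₁} (hπ : Irreducible π)
    (hπq : ∃ c : s18_A1 A K₁, ((q : ℕ) : s18_A1 A K₁) = π * c)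
    (t : s18_F1 K₁ N) (htV : t ∈ s34_gi_V (s18_A1 A K₁) N)
    (hθ : s36_qt_theta (IsLocalRing.ResidueField (s18_A1 A K₁))
      (s34_gi_red (s18_A1 A K₁) N ⟨t, htV⟩) ≠ 0)
    (hfix : coeffMap (frobenius (IsLocalRing.ResidueField (s18_A1 A K₁)) q)
      (s34_gi_red (s18_A1 A K₁) N ⟨t, htV⟩) = s34_gi_red (s18_A1 A K₁) N ⟨t, htV⟩)
    (W : s18_F1 K₁ (N * q) ≃ₐ[K₁] s18_F1 K₁ (N * q))
    (hW1 : W (heckeAlphaBar K₁ N q t) = heckeBetaBar K₁ N q t)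
    (hW2 : W (heckeBetaBar K₁ N q t) = heckeAlphaBar K₁ N q t)
    (B : Subring (s18_F1 K₁ (N * q)))
    (hAB : ∀ a : s18_A1 A K₁, algebraMap (s18_A1 A K₁) (s18_F1 K₁ (N * q)) a ∈ B)
    (hB₁ : B ≤ s34_gi_V (s18_A1 A K₁) (N * q))
    (hB₂ : B ≤ (s34_gi_V (s18_A1 A K₁) (N * q)).comap
      (W : s18_F1 K₁ (N * q) →+* s18_F1 K₁ (N * q)))
    (hnoeth : IsNoetherianRing B)
    (hfrac : ∀ x : s18_F1 K₁ (N * q), ∃ a ∈ B, ∃ b ∈ B, b ≠ 0 ∧ x = a / b)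
    (hnorm : ∀ z : s18_F1 K₁ (N * q), IsIntegral B z → z ∈ B)
    (hcap : ∀ x ∈ B,
      (algebraMap (s18_A1 A K₁) (s18_F1 K₁ (N * q)) π)⁻¹ * x ∈
        s34_gi_V (s18_A1 A K₁) (N * q) →
      (algebraMap (s18_A1 A K₁) (s18_F1 K₁ (N * q)) π)⁻¹ * x ∈
        (s34_gi_V (s18_A1 A K₁) (N * q)).comap
          (W : s18_F1 K₁ (N * q) →+* s18_F1 K₁ (N * q)) →
      (algebraMap (s18_A1 A K₁) (s18_F1 K₁ (N * q)) π)⁻¹ * x ∈ B)
    (𝔪 : Ideal B) [h𝔪 : 𝔪.IsPrime]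
    (hP₂ : ∀ p : B, (algebraMap (s18_A1 A K₁) (s18_F1 K₁ (N * q)) π)⁻¹ *
        (p : s18_F1 K₁ (N * q)) ∈ (s34_gi_V (s18_A1 A K₁) (N * q)).comap
          (W : s18_F1 K₁ (N * q) →+* s18_F1 K₁ (N * q)) → p ∈ 𝔪)
    (htB : heckeAlphaBar K₁ N q t ∈ B) (ht'B : heckeBetaBar K₁ N q t ∈ B)
    (ht'𝔪 : (⟨heckeBetaBar K₁ N q t, ht'B⟩ : B) ∉ 𝔪)
    (ht'64 : (⟨heckeBetaBar K₁ N q t, ht'B⟩ + 64 : B) ∉ 𝔪)
    (σ : FF (N * q) ≃ₐ[Kbar] FF (N * q))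
    (hσ : jF (N * q) * (σ (s18_baseIncl K₁ (N * q) (heckeBetaBar K₁ N q t))) ^ 2 =
      (σ (s18_baseIncl K₁ (N * q) (heckeBetaBar K₁ N q t)) + 256) ^ 3) :
    ∃ a b : B, a ∈ 𝔪 ∧ b ∉ 𝔪 ∧
      (s36_qt_theta (IsLocalRing.ResidueField (s18_A1 A K₁))
          (s34_gi_red (s18_A1 A K₁) (N * q)
            (Subring.inclusion hB₁ ⟨heckeAlphaBar K₁ N q t, htB⟩)) ^ (q - 1)) ^ 1 *
          s34_gi_red (s18_A1 A K₁) (N * q) (Subring.inclusion hB₁ a) =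
        s34_gi_red (s18_A1 A K₁) (N * q) (Subring.inclusion hB₁ b) :=
  s36_trc_core N q K₁ A hπ hπq t htV hθ hfix W hW1 hW2 B hAB hB₁ hB₂ hnoeth hfrac hnorm hcap 𝔪
    hP₂ htB ht'B
    (s36_hu_hunr_two (N * q) K₁ B 𝔪 (heckeBetaBar K₁ N q t) ht'B ht'𝔪 ht'64 σ hσ)

/-- **Crossing point ⟹ pole of `(θ t̄)^(q-1)`**, level-3 Hauptmodul form: `t' = t(Q^q)` satisfies
`j · (σ t')³ = (σ t' + 27)(σ t' + 243)³` for a `Q̄`-automorphism `σ`, and `t', t' + 27 ∉ 𝔪`. -/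
theorem s36_trc_three [IsDiscreteValuationRing (s18_A1 A K₁)]
    [CharP (IsLocalRing.ResidueField (s18_A1 A K₁)) q]
    {π : s18_A1 A K₁} (hπ : Irreducible π)
    (hπq : ∃ c : s18_A1 A K₁, ((q : ℕ) : s18_A1 A K₁) = π * c)
    (t : s18_F1 K₁ N) (htV : t ∈ s34_gi_V (s18_A1 A K₁) N)
    (hθ : s36_qt_theta (IsLocalRing.ResidueField (s18_A1 A K₁))
      (s34_gi_red (s18_A1 A K₁) N ⟨t, htV⟩) ≠ 0)
    (hfix : coeffMap (frobenius (IsLocalRing.ResidueField (s18_A1 A K₁)) q)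
      (s34_gi_red (s18_A1 A K₁) N ⟨t, htV⟩) = s34_gi_red (s18_A1 A K₁) N ⟨t, htV⟩)
    (W : s18_F1 K₁ (N * q) ≃ₐ[K₁] s18_F1 K₁ (N * q))
    (hW1 : W (heckeAlphaBar K₁ N q t) = heckeBetaBar K₁ N q t)
    (hW2 : W (heckeBetaBar K₁ N q t) = heckeAlphaBar K₁ N q t)
    (B : Subring (s18_F1 K₁ (N * q)))
    (hAB : ∀ a : s18_A1 A K₁, algebraMap (s18_A1 A K₁) (s18_F1 K₁ (N * q)) a ∈ B)
    (hB₁ : B ≤ s34_gi_V (s18_A1 A K₁) (N * q))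
    (hB₂ : B ≤ (s34_gi_V (s18_A1 A K₁) (N * q)).comap
      (W : s18_F1 K₁ (N * q) →+* s18_F1 K₁ (N * q)))
    (hnoeth : IsNoetherianRing B)
    (hfrac : ∀ x : s18_F1 K₁ (N * q), ∃ a ∈ B, ∃ b ∈ B, b ≠ 0 ∧ x = a / b)
    (hnorm : ∀ z : s18_F1 K₁ (N * q), IsIntegral B z → z ∈ B)
    (hcap : ∀ x ∈ B,
      (algebraMap (s18_A1 A K₁) (s18_F1 K₁ (N * q)) π)⁻¹ * x ∈
        s34_gi_V (s18_A1 A K₁) (N * q) →
      (algebraMap (s18_A1 A K₁) (s18_F1 K₁ (N * q)) π)⁻¹ * x ∈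
        (s34_gi_V (s18_A1 A K₁) (N * q)).comap
          (W : s18_F1 K₁ (N * q) →+* s18_F1 K₁ (N * q)) →
      (algebraMap (s18_A1 A K₁) (s18_F1 K₁ (N * q)) π)⁻¹ * x ∈ B)
    (𝔪 : Ideal B) [h𝔪 : 𝔪.IsPrime]
    (hP₂ : ∀ p : B, (algebraMap (s18_A1 A K₁) (s18_F1 K₁ (N * q)) π)⁻¹ *
        (p : s18_F1 K₁ (N * q)) ∈ (s34_gi_V (s18_A1 A K₁) (N * q)).comap
          (W : s18_F1 K₁ (N * q) →+* s18_F1 K₁ (N * q)) → p ∈ 𝔪)
    (htB : heckeAlphaBar K₁ N q t ∈ B) (ht'B : heckeBetaBar K₁ N q t ∈ B)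
    (ht'𝔪 : (⟨heckeBetaBar K₁ N q t, ht'B⟩ : B) ∉ 𝔪)
    (ht'27 : (⟨heckeBetaBar K₁ N q t, ht'B⟩ + 27 : B) ∉ 𝔪)
    (σ : FF (N * q) ≃ₐ[Kbar] FF (N * q))
    (hσ : jF (N * q) * (σ (s18_baseIncl K₁ (N * q) (heckeBetaBar K₁ N q t))) ^ 3 =
      (σ (s18_baseIncl K₁ (N * q) (heckeBetaBar K₁ N q t)) + 27) *
        (σ (s18_baseIncl K₁ (N * q) (heckeBetaBar K₁ N q t)) + 243) ^ 3) :
    ∃ a b : B, a ∈ 𝔪 ∧ b ∉ 𝔪 ∧
      (s36_qt_theta (IsLocalRing.ResidueField (s18_A1 A K₁))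
          (s34_gi_red (s18_A1 A K₁) (N * q)
            (Subring.inclusion hB₁ ⟨heckeAlphaBar K₁ N q t, htB⟩)) ^ (q - 1)) ^ 1 *
          s34_gi_red (s18_A1 A K₁) (N * q) (Subring.inclusion hB₁ a) =
        s34_gi_red (s18_A1 A K₁) (N * q) (Subring.inclusion hB₁ b) :=
  s36_trc_core N q K₁ A hπ hπq t htV hθ hfix W hW1 hW2 B hAB hB₁ hB₂ hnoeth hfrac hnorm hcap 𝔪
    hP₂ htB ht'B
    (s36_hu_hunr_three (N * q) K₁ B 𝔪 (heckeBetaBar K₁ N q t) ht'B ht'𝔪 ht'27 σ hσ)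

end Cross

end Fermat.Agent.S36
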