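import Fermat.Agent.S36.CrossPole23
import Fermat.Agent.S36.CrossInst2

/-!
# S36 (NODE-3): thickness one at the crossing points of the level-`N q` model for `q = 3, 2`

`s36_xi2_hq` (`CrossInst2.lean`) proves thickness one at every prime `𝔪 ⊇ P_∞ + P_0` of a
`W`-stable chart `B` of level `N ℓ`, in the shape of the hypothesis `hq` of `s36_clq_main`, with
the pole of `(θ x̄)^(ℓ-1)` as its last hypothesis `hpole`.  For `ℓ = 3` and `ℓ = 2` that pole is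
`s36_p23i_xi_pole3` / `s36_p23i_xi_pole2` (`CrossPole23.lean`); this file composes the two.

* `s36_p23h_hq3` / `s36_p23h_hq3_inf` : `ℓ = 3`, `4 ∣ N`, chart containing `t₂, T₄, t₂² t₃`
  (resp. `t₂⁻¹, T₄ t₂⁻¹, t₂⁻¹ t₃`);
* `s36_p23h_hq2` / `s36_p23h_hq2_inf` : `ℓ = 2`, `9 ∣ N`, chart containing `t₃, T₉, t₃³ t₂`
  (resp. `t₃⁻¹, T₉ t₃⁻¹, t₃⁻¹ t₂`).

The swap is an algebra automorphism `W : FF ≃ₐ[K] FF` with the generator-wise rule `hW` (the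
last clause of `s34_md_IsSwap`); all other hypotheses are those of `s36_xi2_hq`, verbatim.
-/

set_option autoImplicit false
set_option synthInstance.maxHeartbeats 400000
set_option maxHeartbeats 1000000
set_option linter.unusedSectionVars false
set_option linter.unusedVariables false

open ModularCurve ModularCurve.IgusaScheme

noncomputable section

namespace Fermat.Agent.S36

open Fermat.Agent.S18 Fermat.Agent.S28 Fermat.Agent.S34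

variable {N : ℕ} [NeZero N]
variable {K : Type*} [Field K] [Algebra ℚ K] (A : ValuationSubring K)

section Q3

local notation "F'" => laurentBaseChange K (modularFunctionFieldFull N)
local notation "FF" => laurentBaseChange K (modularFunctionFieldFull (N * 3))

/-- **Thickness one at every crossing point, `ℓ = 3`** (chart of `t`): the hypothesis `hq` of
`s36_clq_main` / `s36_clq_transport` / `s36_clq_ab_pow`, from `s36_xi2_hq` and `s36_p23i_xi_pole3`. -/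
theorem s36_p23h_hq3 [NeZero (N * 3)] [IsDiscreteValuationRing A] (hℓ : (((3 : ℕ) : K))⁻¹ ∉ A)
    (hirr : Irreducible (((3 : ℕ)) : A))
    (m : ℕ) (hm : 0 < m) (hAfin : ∀ a : A, ∃ c : A, a ^ (3 ^ m) - a = (((3 : ℕ)) : A) * c)
    (t : modularFunctionFieldFull N)
    (hCW : ∀ x ∈ s18_czRing N 3 t, x ∈ Wring 3)
    (hfin : ∃ gen : Finset F', (∀ m ∈ gen, m ∈ s18_chAlg N 3 A t) ∧
      ∀ x ∈ s18_chAlg N 3 A t, ∃ c : F' → Polynomial A,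
        x = ∑ m ∈ gen, Polynomial.aeval (s18_coord K t) (c m) * m)
    (hlc : ∀ 𝔪₁ : Ideal (s18_chAlg N 3 A t).toSubring, 𝔪₁.IsMaximal →
      (⟨algebraMap A F' (((3 : ℕ)) : A), (s18_chAlg N 3 A t).algebraMap_mem _⟩ :
        (s18_chAlg N 3 A t).toSubring) ∈ 𝔪₁ →
      ∃ y : modularFunctionFieldFull N, y ∈ chartAlg N 3 {t} ∧
        ∃ hs : s18_coord K y ∈ (s18_chAlg N 3 A t).toSubring,
          (⟨s18_coord K y, hs⟩ : (s18_chAlg N 3 A t).toSubring) ∈ 𝔪₁ ∧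
          ∀ x ∈ 𝔪₁, ∃ u, u ∉ 𝔪₁ ∧ u * x ∈ Ideal.span
            {(⟨algebraMap A F' (((3 : ℕ)) : A), (s18_chAlg N 3 A t).algebraMap_mem _⟩ :
              (s18_chAlg N 3 A t).toSubring), ⟨s18_coord K y, hs⟩})
    (W : FF ≃ₐ[K] FF) (hWW : ∀ x, W (W x) = x)
    (hWα : ∀ x : F', W (heckeAlphaBar K N 3 x) = heckeBetaBar K N 3 x)
    (hW : ∀ (d m : ℕ) (_ : d ∣ N) (_ : m ∣ 3)
      (h1 : s34_sw_s K (d * m) ∈ FF),
      ((W ⟨s34_sw_s K (d * m), h1⟩ : FF) : LaurentSeries K) = s34_sw_s K (d * (3 / m)))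
    (B : Subring FF) (hAB : ∀ a : A, algebraMap A FF a ∈ B) (hWB : ∀ b ∈ B, W b ∈ B)
    (hαB : ∀ x ∈ (s18_chAlg N 3 A t).toSubring, (heckeAlphaBar K N 3).toRingHom x ∈ B)
    (hB₁ : B ≤ s34_gi_V A (N * 3))
    (hB₂ : B ≤ (s34_gi_V A (N * 3)).comap ((W : FF ≃+* FF) : FF →+* FF))
    (hcap : ∀ x ∈ B, (algebraMap K FF (((3 : ℕ)) : K))⁻¹ * x ∈ s34_gi_V A (N * 3) →
      (algebraMap K FF (((3 : ℕ)) : K))⁻¹ * x ∈
        (s34_gi_V A (N * 3)).comap ((W : FF ≃+* FF) : FF →+* FF) →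
      (algebraMap K FF (((3 : ℕ)) : K))⁻¹ * x ∈ B)
    (hresInf : ∀ x ∈ B, ∃ x' ∈ (s18_chAlg N 3 A t).toSubring,
      (algebraMap K FF (((3 : ℕ)) : K))⁻¹ * (x - (heckeAlphaBar K N 3).toRingHom x') ∈
        s34_gi_V A (N * 3))
    (hθne : ∃ a : B,
      s36_qt_theta (IsLocalRing.ResidueField A) (s36_xi_r (ℓ := 3) A B hB₁ a) ≠ 0)
    (h2 : 2 ∣ N * 3) (h3 : 3 ∣ N * 3) (h4 : 4 ∣ N * 3)
    (ht : s18_coord K (s18_cz_t2 (N * 3) h2) ∈ B) (hT : s36_p23m_T4 K (N * 3) h4 ∈ B)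
    (hf : s18_coord K (s18_cz_t2 (N * 3) h2) ^ 2 * s18_coord K (s18_cz_t3 (N * 3) h3) ∈ B) :
    ∀ 𝔪' : Ideal B, 𝔪'.IsPrime →
      (∀ p : B, (algebraMap K FF (((3 : ℕ)) : K))⁻¹ * (p : FF) ∈ s34_gi_V A (N * 3) → p ∈ 𝔪') →
      (∀ p : B, (algebraMap K FF (((3 : ℕ)) : K))⁻¹ * (p : FF) ∈
        (s34_gi_V A (N * 3)).comap ((W : FF ≃+* FF) : FF →+* FF) → p ∈ 𝔪') →
      ∃ u₁ u₂ γ : B, (u₁ : FF) * (u₂ : FF) = algebraMap K FF (((3 : ℕ)) : K) * (γ : FF) ∧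
        (algebraMap K FF (((3 : ℕ)) : K))⁻¹ * (u₁ : FF) ∈ s34_gi_V A (N * 3) ∧
        (algebraMap K FF (((3 : ℕ)) : K))⁻¹ * (u₂ : FF) ∈
          (s34_gi_V A (N * 3)).comap ((W : FF ≃+* FF) : FF →+* FF) ∧
        γ ∉ 𝔪' :=
  s36_xi2_hq (ℓ := 3) A hℓ hirr m hm hAfin t hCW hfin hlc (W : FF ≃+* FF) hWW hWα B hAB hWB hαB
    hB₁ hB₂ hcap hresInf hθne
    (fun 𝔪 _ _ hP₁ hP₂ _ _ x _ hx𝔪 _ hD _ =>
      s36_p23i_xi_pole3 A hℓ hirr h2 h3 h4 W hW B hB₁ ht hT hf 𝔪 hP₁ (fun p hp => hP₂ p hp) x hx𝔪 hD)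

/-- **Thickness one at every crossing point, `ℓ = 3`** (chart of `t⁻¹`): the hypothesis `hq` of
`s36_clq_main` / `s36_clq_transport` / `s36_clq_ab_pow`, from `s36_xi2_hq` and `s36_p23i_xi_pole3_inf`. -/
theorem s36_p23h_hq3_inf [NeZero (N * 3)] [IsDiscreteValuationRing A] (hℓ : (((3 : ℕ) : K))⁻¹ ∉ A)
    (hirr : Irreducible (((3 : ℕ)) : A))
    (m : ℕ) (hm : 0 < m) (hAfin : ∀ a : A, ∃ c : A, a ^ (3 ^ m) - a = (((3 : ℕ)) : A) * c)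
    (t : modularFunctionFieldFull N)
    (hCW : ∀ x ∈ s18_czRing N 3 t, x ∈ Wring 3)
    (hfin : ∃ gen : Finset F', (∀ m ∈ gen, m ∈ s18_chAlg N 3 A t) ∧
      ∀ x ∈ s18_chAlg N 3 A t, ∃ c : F' → Polynomial A,
        x = ∑ m ∈ gen, Polynomial.aeval (s18_coord K t) (c m) * m)
    (hlc : ∀ 𝔪₁ : Ideal (s18_chAlg N 3 A t).toSubring, 𝔪₁.IsMaximal →
      (⟨algebraMap A F' (((3 : ℕ)) : A), (s18_chAlg N 3 A t).algebraMap_mem _⟩ :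
        (s18_chAlg N 3 A t).toSubring) ∈ 𝔪₁ →
      ∃ y : modularFunctionFieldFull N, y ∈ chartAlg N 3 {t} ∧
        ∃ hs : s18_coord K y ∈ (s18_chAlg N 3 A t).toSubring,
          (⟨s18_coord K y, hs⟩ : (s18_chAlg N 3 A t).toSubring) ∈ 𝔪₁ ∧
          ∀ x ∈ 𝔪₁, ∃ u, u ∉ 𝔪₁ ∧ u * x ∈ Ideal.span
            {(⟨algebraMap A F' (((3 : ℕ)) : A), (s18_chAlg N 3 A t).algebraMap_mem _⟩ :
              (s18_chAlg N 3 A t).toSubring), ⟨s18_coord K y, hs⟩})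
    (W : FF ≃ₐ[K] FF) (hWW : ∀ x, W (W x) = x)
    (hWα : ∀ x : F', W (heckeAlphaBar K N 3 x) = heckeBetaBar K N 3 x)
    (hW : ∀ (d m : ℕ) (_ : d ∣ N) (_ : m ∣ 3)
      (h1 : s34_sw_s K (d * m) ∈ FF),
      ((W ⟨s34_sw_s K (d * m), h1⟩ : FF) : LaurentSeries K) = s34_sw_s K (d * (3 / m)))
    (B : Subring FF) (hAB : ∀ a : A, algebraMap A FF a ∈ B) (hWB : ∀ b ∈ B, W b ∈ B)
    (hαB : ∀ x ∈ (s18_chAlg N 3 A t).toSubring, (heckeAlphaBar K N 3).toRingHom x ∈ B)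
    (hB₁ : B ≤ s34_gi_V A (N * 3))
    (hB₂ : B ≤ (s34_gi_V A (N * 3)).comap ((W : FF ≃+* FF) : FF →+* FF))
    (hcap : ∀ x ∈ B, (algebraMap K FF (((3 : ℕ)) : K))⁻¹ * x ∈ s34_gi_V A (N * 3) →
      (algebraMap K FF (((3 : ℕ)) : K))⁻¹ * x ∈
        (s34_gi_V A (N * 3)).comap ((W : FF ≃+* FF) : FF →+* FF) →
      (algebraMap K FF (((3 : ℕ)) : K))⁻¹ * x ∈ B)
    (hresInf : ∀ x ∈ B, ∃ x' ∈ (s18_chAlg N 3 A t).toSubring,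
      (algebraMap K FF (((3 : ℕ)) : K))⁻¹ * (x - (heckeAlphaBar K N 3).toRingHom x') ∈
        s34_gi_V A (N * 3))
    (hθne : ∃ a : B,
      s36_qt_theta (IsLocalRing.ResidueField A) (s36_xi_r (ℓ := 3) A B hB₁ a) ≠ 0)
    (h2 : 2 ∣ N * 3) (h3 : 3 ∣ N * 3) (h4 : 4 ∣ N * 3)
    (hu : (s18_coord K (s18_cz_t2 (N * 3) h2))⁻¹ ∈ B)
    (hT : s36_p23m_T4 K (N * 3) h4 * (s18_coord K (s18_cz_t2 (N * 3) h2))⁻¹ ∈ B)
    (hf : (s18_coord K (s18_cz_t2 (N * 3) h2))⁻¹ * s18_coord K (s18_cz_t3 (N * 3) h3) ∈ B) :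
    ∀ 𝔪' : Ideal B, 𝔪'.IsPrime →
      (∀ p : B, (algebraMap K FF (((3 : ℕ)) : K))⁻¹ * (p : FF) ∈ s34_gi_V A (N * 3) → p ∈ 𝔪') →
      (∀ p : B, (algebraMap K FF (((3 : ℕ)) : K))⁻¹ * (p : FF) ∈
        (s34_gi_V A (N * 3)).comap ((W : FF ≃+* FF) : FF →+* FF) → p ∈ 𝔪') →
      ∃ u₁ u₂ γ : B, (u₁ : FF) * (u₂ : FF) = algebraMap K FF (((3 : ℕ)) : K) * (γ : FF) ∧
        (algebraMap K FF (((3 : ℕ)) : K))⁻¹ * (u₁ : FF) ∈ s34_gi_V A (N * 3) ∧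
        (algebraMap K FF (((3 : ℕ)) : K))⁻¹ * (u₂ : FF) ∈
          (s34_gi_V A (N * 3)).comap ((W : FF ≃+* FF) : FF →+* FF) ∧
        γ ∉ 𝔪' :=
  s36_xi2_hq (ℓ := 3) A hℓ hirr m hm hAfin t hCW hfin hlc (W : FF ≃+* FF) hWW hWα B hAB hWB hαB
    hB₁ hB₂ hcap hresInf hθne
    (fun 𝔪 _ _ hP₁ hP₂ _ _ x _ hx𝔪 _ hD _ =>
      s36_p23i_xi_pole3_inf A hℓ hirr h2 h3 h4 W hW B hB₁ hu hT hf 𝔪 hP₁ (fun p hp => hP₂ p hp) x hx𝔪 hD)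

end Q3

section Q2

local notation "F'" => laurentBaseChange K (modularFunctionFieldFull N)
local notation "FF" => laurentBaseChange K (modularFunctionFieldFull (N * 2))

/-- **Thickness one at every crossing point, `ℓ = 2`** (chart of `t`): the hypothesis `hq` of
`s36_clq_main` / `s36_clq_transport` / `s36_clq_ab_pow`, from `s36_xi2_hq` and `s36_p23i_xi_pole2`. -/
theorem s36_p23h_hq2 [NeZero (N * 2)] [IsDiscreteValuationRing A] (hℓ : (((2 : ℕ) : K))⁻¹ ∉ A)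
    (hirr : Irreducible (((2 : ℕ)) : A))
    (m : ℕ) (hm : 0 < m) (hAfin : ∀ a : A, ∃ c : A, a ^ (2 ^ m) - a = (((2 : ℕ)) : A) * c)
    (t : modularFunctionFieldFull N)
    (hCW : ∀ x ∈ s18_czRing N 2 t, x ∈ Wring 2)
    (hfin : ∃ gen : Finset F', (∀ m ∈ gen, m ∈ s18_chAlg N 2 A t) ∧
      ∀ x ∈ s18_chAlg N 2 A t, ∃ c : F' → Polynomial A,
        x = ∑ m ∈ gen, Polynomial.aeval (s18_coord K t) (c m) * m)
    (hlc : ∀ 𝔪₁ : Ideal (s18_chAlg N 2 A t).toSubring, 𝔪₁.IsMaximal →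
      (⟨algebraMap A F' (((2 : ℕ)) : A), (s18_chAlg N 2 A t).algebraMap_mem _⟩ :
        (s18_chAlg N 2 A t).toSubring) ∈ 𝔪₁ →
      ∃ y : modularFunctionFieldFull N, y ∈ chartAlg N 2 {t} ∧
        ∃ hs : s18_coord K y ∈ (s18_chAlg N 2 A t).toSubring,
          (⟨s18_coord K y, hs⟩ : (s18_chAlg N 2 A t).toSubring) ∈ 𝔪₁ ∧
          ∀ x ∈ 𝔪₁, ∃ u, u ∉ 𝔪₁ ∧ u * x ∈ Ideal.span
            {(⟨algebraMap A F' (((2 : ℕ)) : A), (s18_chAlg N 2 A t).algebraMap_mem _⟩ :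
              (s18_chAlg N 2 A t).toSubring), ⟨s18_coord K y, hs⟩})
    (W : FF ≃ₐ[K] FF) (hWW : ∀ x, W (W x) = x)
    (hWα : ∀ x : F', W (heckeAlphaBar K N 2 x) = heckeBetaBar K N 2 x)
    (hW : ∀ (d m : ℕ) (_ : d ∣ N) (_ : m ∣ 2)
      (h1 : s34_sw_s K (d * m) ∈ FF),
      ((W ⟨s34_sw_s K (d * m), h1⟩ : FF) : LaurentSeries K) = s34_sw_s K (d * (2 / m)))
    (B : Subring FF) (hAB : ∀ a : A, algebraMap A FF a ∈ B) (hWB : ∀ b ∈ B, W b ∈ B)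
    (hαB : ∀ x ∈ (s18_chAlg N 2 A t).toSubring, (heckeAlphaBar K N 2).toRingHom x ∈ B)
    (hB₁ : B ≤ s34_gi_V A (N * 2))
    (hB₂ : B ≤ (s34_gi_V A (N * 2)).comap ((W : FF ≃+* FF) : FF →+* FF))
    (hcap : ∀ x ∈ B, (algebraMap K FF (((2 : ℕ)) : K))⁻¹ * x ∈ s34_gi_V A (N * 2) →
      (algebraMap K FF (((2 : ℕ)) : K))⁻¹ * x ∈
        (s34_gi_V A (N * 2)).comap ((W : FF ≃+* FF) : FF →+* FF) →
      (algebraMap K FF (((2 : ℕ)) : K))⁻¹ * x ∈ B)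
    (hresInf : ∀ x ∈ B, ∃ x' ∈ (s18_chAlg N 2 A t).toSubring,
      (algebraMap K FF (((2 : ℕ)) : K))⁻¹ * (x - (heckeAlphaBar K N 2).toRingHom x') ∈
        s34_gi_V A (N * 2))
    (hθne : ∃ a : B,
      s36_qt_theta (IsLocalRing.ResidueField A) (s36_xi_r (ℓ := 2) A B hB₁ a) ≠ 0)
    (h2 : 2 ∣ N * 2) (h3 : 3 ∣ N * 2) (h9 : 9 ∣ N * 2)
    (ht : s18_coord K (s18_cz_t3 (N * 2) h3) ∈ B) (hT : s36_p23m_T9 K (N * 2) h9 ∈ B)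
    (hf : s18_coord K (s18_cz_t3 (N * 2) h3) ^ 3 * s18_coord K (s18_cz_t2 (N * 2) h2) ∈ B) :
    ∀ 𝔪' : Ideal B, 𝔪'.IsPrime →
      (∀ p : B, (algebraMap K FF (((2 : ℕ)) : K))⁻¹ * (p : FF) ∈ s34_gi_V A (N * 2) → p ∈ 𝔪') →
      (∀ p : B, (algebraMap K FF (((2 : ℕ)) : K))⁻¹ * (p : FF) ∈
        (s34_gi_V A (N * 2)).comap ((W : FF ≃+* FF) : FF →+* FF) → p ∈ 𝔪') →
      ∃ u₁ u₂ γ : B, (u₁ : FF) * (u₂ : FF) = algebraMap K FF (((2 : ℕ)) : K) * (γ : FF) ∧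
        (algebraMap K FF (((2 : ℕ)) : K))⁻¹ * (u₁ : FF) ∈ s34_gi_V A (N * 2) ∧
        (algebraMap K FF (((2 : ℕ)) : K))⁻¹ * (u₂ : FF) ∈
          (s34_gi_V A (N * 2)).comap ((W : FF ≃+* FF) : FF →+* FF) ∧
        γ ∉ 𝔪' :=
  s36_xi2_hq (ℓ := 2) A hℓ hirr m hm hAfin t hCW hfin hlc (W : FF ≃+* FF) hWW hWα B hAB hWB hαB
    hB₁ hB₂ hcap hresInf hθne
    (fun 𝔪 _ _ hP₁ hP₂ _ _ x _ hx𝔪 _ hD _ =>
      s36_p23i_xi_pole2 A hℓ hirr h2 h3 h9 W hW B hB₁ ht hT hf 𝔪 hP₁ (fun p hp => hP₂ p hp) x hx𝔪 hD)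

/-- **Thickness one at every crossing point, `ℓ = 2`** (chart of `t⁻¹`): the hypothesis `hq` of
`s36_clq_main` / `s36_clq_transport` / `s36_clq_ab_pow`, from `s36_xi2_hq` and `s36_p23i_xi_pole2_inf`. -/
theorem s36_p23h_hq2_inf [NeZero (N * 2)] [IsDiscreteValuationRing A] (hℓ : (((2 : ℕ) : K))⁻¹ ∉ A)
    (hirr : Irreducible (((2 : ℕ)) : A))
    (m : ℕ) (hm : 0 < m) (hAfin : ∀ a : A, ∃ c : A, a ^ (2 ^ m) - a = (((2 : ℕ)) : A) * c)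
    (t : modularFunctionFieldFull N)
    (hCW : ∀ x ∈ s18_czRing N 2 t, x ∈ Wring 2)
    (hfin : ∃ gen : Finset F', (∀ m ∈ gen, m ∈ s18_chAlg N 2 A t) ∧
      ∀ x ∈ s18_chAlg N 2 A t, ∃ c : F' → Polynomial A,
        x = ∑ m ∈ gen, Polynomial.aeval (s18_coord K t) (c m) * m)
    (hlc : ∀ 𝔪₁ : Ideal (s18_chAlg N 2 A t).toSubring, 𝔪₁.IsMaximal →
      (⟨algebraMap A F' (((2 : ℕ)) : A), (s18_chAlg N 2 A t).algebraMap_mem _⟩ :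
        (s18_chAlg N 2 A t).toSubring) ∈ 𝔪₁ →
      ∃ y : modularFunctionFieldFull N, y ∈ chartAlg N 2 {t} ∧
        ∃ hs : s18_coord K y ∈ (s18_chAlg N 2 A t).toSubring,
          (⟨s18_coord K y, hs⟩ : (s18_chAlg N 2 A t).toSubring) ∈ 𝔪₁ ∧
          ∀ x ∈ 𝔪₁, ∃ u, u ∉ 𝔪₁ ∧ u * x ∈ Ideal.span
            {(⟨algebraMap A F' (((2 : ℕ)) : A), (s18_chAlg N 2 A t).algebraMap_mem _⟩ :
              (s18_chAlg N 2 A t).toSubring), ⟨s18_coord K y, hs⟩})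
    (W : FF ≃ₐ[K] FF) (hWW : ∀ x, W (W x) = x)
    (hWα : ∀ x : F', W (heckeAlphaBar K N 2 x) = heckeBetaBar K N 2 x)
    (hW : ∀ (d m : ℕ) (_ : d ∣ N) (_ : m ∣ 2)
      (h1 : s34_sw_s K (d * m) ∈ FF),
      ((W ⟨s34_sw_s K (d * m), h1⟩ : FF) : LaurentSeries K) = s34_sw_s K (d * (2 / m)))
    (B : Subring FF) (hAB : ∀ a : A, algebraMap A FF a ∈ B) (hWB : ∀ b ∈ B, W b ∈ B)
    (hαB : ∀ x ∈ (s18_chAlg N 2 A t).toSubring, (heckeAlphaBar K N 2).toRingHom x ∈ B)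
    (hB₁ : B ≤ s34_gi_V A (N * 2))
    (hB₂ : B ≤ (s34_gi_V A (N * 2)).comap ((W : FF ≃+* FF) : FF →+* FF))
    (hcap : ∀ x ∈ B, (algebraMap K FF (((2 : ℕ)) : K))⁻¹ * x ∈ s34_gi_V A (N * 2) →
      (algebraMap K FF (((2 : ℕ)) : K))⁻¹ * x ∈
        (s34_gi_V A (N * 2)).comap ((W : FF ≃+* FF) : FF →+* FF) →
      (algebraMap K FF (((2 : ℕ)) : K))⁻¹ * x ∈ B)
    (hresInf : ∀ x ∈ B, ∃ x' ∈ (s18_chAlg N 2 A t).toSubring,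
      (algebraMap K FF (((2 : ℕ)) : K))⁻¹ * (x - (heckeAlphaBar K N 2).toRingHom x') ∈
        s34_gi_V A (N * 2))
    (hθne : ∃ a : B,
      s36_qt_theta (IsLocalRing.ResidueField A) (s36_xi_r (ℓ := 2) A B hB₁ a) ≠ 0)
    (h2 : 2 ∣ N * 2) (h3 : 3 ∣ N * 2) (h9 : 9 ∣ N * 2)
    (hu : (s18_coord K (s18_cz_t3 (N * 2) h3))⁻¹ ∈ B)
    (hT : s36_p23m_T9 K (N * 2) h9 * (s18_coord K (s18_cz_t3 (N * 2) h3))⁻¹ ∈ B)
    (hf : (s18_coord K (s18_cz_t3 (N * 2) h3))⁻¹ * s18_coord K (s18_cz_t2 (N * 2) h2) ∈ B) :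
    ∀ 𝔪' : Ideal B, 𝔪'.IsPrime →
      (∀ p : B, (algebraMap K FF (((2 : ℕ)) : K))⁻¹ * (p : FF) ∈ s34_gi_V A (N * 2) → p ∈ 𝔪') →
      (∀ p : B, (algebraMap K FF (((2 : ℕ)) : K))⁻¹ * (p : FF) ∈
        (s34_gi_V A (N * 2)).comap ((W : FF ≃+* FF) : FF →+* FF) → p ∈ 𝔪') →
      ∃ u₁ u₂ γ : B, (u₁ : FF) * (u₂ : FF) = algebraMap K FF (((2 : ℕ)) : K) * (γ : FF) ∧
        (algebraMap K FF (((2 : ℕ)) : K))⁻¹ * (u₁ : FF) ∈ s34_gi_V A (N * 2) ∧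
        (algebraMap K FF (((2 : ℕ)) : K))⁻¹ * (u₂ : FF) ∈
          (s34_gi_V A (N * 2)).comap ((W : FF ≃+* FF) : FF →+* FF) ∧
        γ ∉ 𝔪' :=
  s36_xi2_hq (ℓ := 2) A hℓ hirr m hm hAfin t hCW hfin hlc (W : FF ≃+* FF) hWW hWα B hAB hWB hαB
    hB₁ hB₂ hcap hresInf hθne
    (fun 𝔪 _ _ hP₁ hP₂ _ _ x _ hx𝔪 _ hD _ =>
      s36_p23i_xi_pole2_inf A hℓ hirr h2 h3 h9 W hW B hB₁ hu hT hf 𝔪 hP₁ (fun p hp => hP₂ p hp) x hx𝔪 hD)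

end Q2

end Fermat.Agent.S36
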