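import Fermat.Agent.S36.CrossPole23
import Fermat.Agent.S36.CrossInst3

/-!
# S36 (NODE-3): thickness one at the crossing points of the level-`N₁ q` model, `q = 3, 2`,
in the model vocabulary (no hypothesis left)

`s36_xi3_t2` / `s36_xi3_t3` (`CrossInst3.lean`) prove thickness one at every crossing point of
both integral-closure charts of the nodal model of level `N₁ q` over `A₁ = P ∩ K₁` (`K₁ ⊆ Q̄` any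
number field in which `q` is a uniformizer at `P`), the only hypothesis left being the pole
`s36_xi3_Pole` on the two charts.  For `q = 3` (Hauptmodul `t₂`, `4 ∣ N₁`) and `q = 2` (Hauptmodul
`t₃`, `9 ∣ N₁`) the pole is `s36_p23i_xi_pole3(_inf)` / `s36_p23i_xi_pole2(_inf)`
(`CrossPole23.lean`):

* `s36_p23h_pole3_B0`, `s36_p23h_pole3_Binf`, `s36_p23h_pole2_B0`, `s36_p23h_pole2_Binf` : the
  hypotheses `hpole0`, `hpolei` of `s36_xi3_t2` at `q = 3` and of `s36_xi3_t3` at `q = 2`;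
* `s36_p23h_model3` : the conclusion of `s36_xi3_t2` at `q = 3`, `4 ∣ N₁`, unconditionally;
* `s36_p23h_model2` : the conclusion of `s36_xi3_t3` at `q = 2`, `9 ∣ N₁`, unconditionally.
-/

set_option autoImplicit false
set_option synthInstance.maxHeartbeats 400000
set_option maxHeartbeats 4000000
set_option linter.unusedSectionVars false
set_option linter.unusedVariables false

open ModularCurve ModularCurve.IgusaScheme Fermat.Agent.S28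

noncomputable section

namespace Fermat.Agent.S36

open Fermat.Agent.S18 Fermat.Agent.S34

variable (N₁ : ℕ) [NeZero N₁]
  (A : ValuationSubring (AlgebraicClosure ℚ))
  (K₁ : IntermediateField ℚ (AlgebraicClosure ℚ)) [NumberField K₁]
  [IsDiscreteValuationRing (s18_A1 A K₁)]

/-- The pole hypothesis of `s36_xi3_t2` at `q = 3` on the chart `s34_md_B0`. -/
theorem s36_p23h_pole3_B0 (hA : A.LiesOverPrime 3) (h2 : 2 ∣ N₁) (h4 : 4 ∣ N₁)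
    (hirr : Irreducible (((3 : ℕ)) : s18_A1 A K₁))
    (W : s18_F1 K₁ (N₁ * 3) ≃ₐ[K₁] s18_F1 K₁ (N₁ * 3)) (hW : s34_md_IsSwap K₁ N₁ 3 W)
    (h01 : (s34_md_B0 A K₁ (N₁ * 3) (s18_cz_t2 (N₁ * 3) (dvd_mul_of_dvd_left h2 3))).toSubring ≤ s34_md_V1 A K₁ (N₁ * 3)) :
    s36_xi3_Pole N₁ 3 (s18_A1 A K₁) (s18_cz_t2 N₁ h2)
      (W : s18_F1 K₁ (N₁ * 3) ≃+* s18_F1 K₁ (N₁ * 3))
      (s34_md_B0 A K₁ (N₁ * 3) (s18_cz_t2 (N₁ * 3) (dvd_mul_of_dvd_left h2 3))).toSubring h01 := by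
  have h2' : 2 ∣ N₁ * 3 := dvd_mul_of_dvd_left h2 3
  have h3' : 3 ∣ N₁ * 3 := dvd_mul_left 3 N₁
  have h4' : 4 ∣ N₁ * 3 := dvd_mul_of_dvd_left h4 3
  have hℓ : ((((3 : ℕ)) : K₁))⁻¹ ∉ s18_A1 A K₁ := s18_a1_ell A hA K₁
  have hj : s34_sw_s K₁ 1 ∈ laurentBaseChange K₁ (modularFunctionFieldFull (N₁ * 3)) := by
    rw [s34_sw_s_eq]
    exact s34_sw_s_mem K₁ (N₁ * 3) 1 (one_dvd _)
  intro 𝔪 _ _ hP₁ hP₂ _ _ x _ hx𝔪 _ hD _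
  exact s36_p23i_xi_pole3 (N := N₁) (s18_A1 A K₁) hℓ hirr h2' h3' h4' W hW.2.2.2.2 _ h01
    (s34_ic_t_mem (A₀ := s18_A1 A K₁) (s18_coord K₁ (s18_cz_t2 (N₁ * 3) h2')))
    (s36_p23m_T4_mem_ic K₁ (N₁ * 3) (s18_A1 A K₁) h2' h4')
    (s36_x23_chart3_mem (A₀ := s18_A1 A K₁) (s18_coord K₁ (s18_cz_t2 (N₁ * 3) h2'))
      (s18_coord K₁ (s18_cz_t3 (N₁ * 3) h3')) (s36_p23m_coe_t2 K₁ (N₁ * 3) h2')
      (s36_p23m_coe_t3 K₁ (N₁ * 3) h3') hj)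
    𝔪 hP₁ (fun p hp => hP₂ p hp) x hx𝔪 hD

/-- The pole hypothesis of `s36_xi3_t2` at `q = 3` on the chart `s34_md_Binf`. -/
theorem s36_p23h_pole3_Binf (hA : A.LiesOverPrime 3) (h2 : 2 ∣ N₁) (h4 : 4 ∣ N₁)
    (hirr : Irreducible (((3 : ℕ)) : s18_A1 A K₁))
    (W : s18_F1 K₁ (N₁ * 3) ≃ₐ[K₁] s18_F1 K₁ (N₁ * 3)) (hW : s34_md_IsSwap K₁ N₁ 3 W)
    (h01 : (s34_md_Binf A K₁ (N₁ * 3) (s18_cz_t2 (N₁ * 3) (dvd_mul_of_dvd_left h2 3))).toSubring ≤ s34_md_V1 A K₁ (N₁ * 3)) :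
    s36_xi3_Pole N₁ 3 (s18_A1 A K₁) (s18_cz_t2 N₁ h2)⁻¹
      (W : s18_F1 K₁ (N₁ * 3) ≃+* s18_F1 K₁ (N₁ * 3))
      (s34_md_Binf A K₁ (N₁ * 3) (s18_cz_t2 (N₁ * 3) (dvd_mul_of_dvd_left h2 3))).toSubring h01 := by
  have h2' : 2 ∣ N₁ * 3 := dvd_mul_of_dvd_left h2 3
  have h3' : 3 ∣ N₁ * 3 := dvd_mul_left 3 N₁
  have h4' : 4 ∣ N₁ * 3 := dvd_mul_of_dvd_left h4 3
  have hℓ : ((((3 : ℕ)) : K₁))⁻¹ ∉ s18_A1 A K₁ := s18_a1_ell A hA K₁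
  have hj : s34_sw_s K₁ 1 ∈ laurentBaseChange K₁ (modularFunctionFieldFull (N₁ * 3)) := by
    rw [s34_sw_s_eq]
    exact s34_sw_s_mem K₁ (N₁ * 3) 1 (one_dvd _)
  intro 𝔪 _ _ hP₁ hP₂ _ _ x _ hx𝔪 _ hD _
  exact s36_p23i_xi_pole3_inf (N := N₁) (s18_A1 A K₁) hℓ hirr h2' h3' h4' W hW.2.2.2.2 _ h01
    (s34_ic_t_mem (A₀ := s18_A1 A K₁) (s18_coord K₁ (s18_cz_t2 (N₁ * 3) h2'))⁻¹)
    (s36_p23m_T4_inv_mem_ic K₁ (N₁ * 3) (s18_A1 A K₁) h2' h4')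
    (s36_x23i_chart3_mem (A₀ := s18_A1 A K₁) (s18_coord K₁ (s18_cz_t2 (N₁ * 3) h2'))
      (s18_coord K₁ (s18_cz_t3 (N₁ * 3) h3')) (s36_p23m_coe_t2 K₁ (N₁ * 3) h2')
      (s36_p23m_coe_t3 K₁ (N₁ * 3) h3') hj)
    𝔪 hP₁ (fun p hp => hP₂ p hp) x hx𝔪 hD

/-- **Thickness one at every crossing point of both charts of the model of level `N₁ · 3`**
(Hauptmodul `t2`, `4 ∣ N₁`), with no hypothesis left: the conclusion of `s36_xi3_t2` at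
`q = 3`. -/
theorem s36_p23h_model3 (hA : A.LiesOverPrime 3) (hqN : ¬ 3 ∣ N₁) (h2 : 2 ∣ N₁) (h4 : 4 ∣ N₁)
    (hirr : Irreducible (((3 : ℕ)) : s18_A1 A K₁))
    (W : s18_F1 K₁ (N₁ * 3) ≃ₐ[K₁] s18_F1 K₁ (N₁ * 3)) (hW : s34_md_IsSwap K₁ N₁ 3 W) :
    (s34_md_B0 A K₁ (N₁ * 3) (s18_cz_t2 (N₁ * 3) (dvd_mul_of_dvd_left h2 3))).toSubring ≤ s34_md_V1 A K₁ (N₁ * 3) ∧
    (s34_md_Binf A K₁ (N₁ * 3) (s18_cz_t2 (N₁ * 3) (dvd_mul_of_dvd_left h2 3))).toSubring ≤ s34_md_V1 A K₁ (N₁ * 3) ∧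
    s36_xi3_Hq N₁ 3 (s18_A1 A K₁) (W : s18_F1 K₁ (N₁ * 3) ≃+* s18_F1 K₁ (N₁ * 3))
      (s34_md_B0 A K₁ (N₁ * 3) (s18_cz_t2 (N₁ * 3) (dvd_mul_of_dvd_left h2 3))).toSubring ∧
    s36_xi3_Hq N₁ 3 (s18_A1 A K₁) (W : s18_F1 K₁ (N₁ * 3) ≃+* s18_F1 K₁ (N₁ * 3))
      (s34_md_Binf A K₁ (N₁ * 3) (s18_cz_t2 (N₁ * 3) (dvd_mul_of_dvd_left h2 3))).toSubring :=
  s36_xi3_t2 N₁ 3 A hA K₁ hqN h2 hirr W hW
    (fun h01 => s36_p23h_pole3_B0 N₁ A K₁ hA h2 h4 hirr W hW h01)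
    (fun hi1 => s36_p23h_pole3_Binf N₁ A K₁ hA h2 h4 hirr W hW hi1)

/-- The pole hypothesis of `s36_xi3_t3` at `q = 2` on the chart `s34_md_B0`. -/
theorem s36_p23h_pole2_B0 (hA : A.LiesOverPrime 2) (h3 : 3 ∣ N₁) (h9 : 9 ∣ N₁)
    (hirr : Irreducible (((2 : ℕ)) : s18_A1 A K₁))
    (W : s18_F1 K₁ (N₁ * 2) ≃ₐ[K₁] s18_F1 K₁ (N₁ * 2)) (hW : s34_md_IsSwap K₁ N₁ 2 W)
    (h01 : (s34_md_B0 A K₁ (N₁ * 2) (s18_cz_t3 (N₁ * 2) (dvd_mul_of_dvd_left h3 2))).toSubring ≤ s34_md_V1 A K₁ (N₁ * 2)) :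
    s36_xi3_Pole N₁ 2 (s18_A1 A K₁) (s18_cz_t3 N₁ h3)
      (W : s18_F1 K₁ (N₁ * 2) ≃+* s18_F1 K₁ (N₁ * 2))
      (s34_md_B0 A K₁ (N₁ * 2) (s18_cz_t3 (N₁ * 2) (dvd_mul_of_dvd_left h3 2))).toSubring h01 := by
  have h2' : 2 ∣ N₁ * 2 := dvd_mul_left 2 N₁
  have h3' : 3 ∣ N₁ * 2 := dvd_mul_of_dvd_left h3 2
  have h9' : 9 ∣ N₁ * 2 := dvd_mul_of_dvd_left h9 2
  have hℓ : ((((2 : ℕ)) : K₁))⁻¹ ∉ s18_A1 A K₁ := s18_a1_ell A hA K₁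
  have hj : s34_sw_s K₁ 1 ∈ laurentBaseChange K₁ (modularFunctionFieldFull (N₁ * 2)) := by
    rw [s34_sw_s_eq]
    exact s34_sw_s_mem K₁ (N₁ * 2) 1 (one_dvd _)
  intro 𝔪 _ _ hP₁ hP₂ _ _ x _ hx𝔪 _ hD _
  exact s36_p23i_xi_pole2 (N := N₁) (s18_A1 A K₁) hℓ hirr h2' h3' h9' W hW.2.2.2.2 _ h01
    (s34_ic_t_mem (A₀ := s18_A1 A K₁) (s18_coord K₁ (s18_cz_t3 (N₁ * 2) h3')))
    (s36_p23m_T9_mem_ic K₁ (N₁ * 2) (s18_A1 A K₁) h3' h9')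
    (s36_x23_chart2_mem (A₀ := s18_A1 A K₁) (s18_coord K₁ (s18_cz_t2 (N₁ * 2) h2'))
      (s18_coord K₁ (s18_cz_t3 (N₁ * 2) h3')) (s36_p23m_coe_t2 K₁ (N₁ * 2) h2')
      (s36_p23m_coe_t3 K₁ (N₁ * 2) h3') hj)
    𝔪 hP₁ (fun p hp => hP₂ p hp) x hx𝔪 hD

/-- The pole hypothesis of `s36_xi3_t3` at `q = 2` on the chart `s34_md_Binf`. -/
theorem s36_p23h_pole2_Binf (hA : A.LiesOverPrime 2) (h3 : 3 ∣ N₁) (h9 : 9 ∣ N₁)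
    (hirr : Irreducible (((2 : ℕ)) : s18_A1 A K₁))
    (W : s18_F1 K₁ (N₁ * 2) ≃ₐ[K₁] s18_F1 K₁ (N₁ * 2)) (hW : s34_md_IsSwap K₁ N₁ 2 W)
    (h01 : (s34_md_Binf A K₁ (N₁ * 2) (s18_cz_t3 (N₁ * 2) (dvd_mul_of_dvd_left h3 2))).toSubring ≤ s34_md_V1 A K₁ (N₁ * 2)) :
    s36_xi3_Pole N₁ 2 (s18_A1 A K₁) (s18_cz_t3 N₁ h3)⁻¹
      (W : s18_F1 K₁ (N₁ * 2) ≃+* s18_F1 K₁ (N₁ * 2))
      (s34_md_Binf A K₁ (N₁ * 2) (s18_cz_t3 (N₁ * 2) (dvd_mul_of_dvd_left h3 2))).toSubring h01 := by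
  have h2' : 2 ∣ N₁ * 2 := dvd_mul_left 2 N₁
  have h3' : 3 ∣ N₁ * 2 := dvd_mul_of_dvd_left h3 2
  have h9' : 9 ∣ N₁ * 2 := dvd_mul_of_dvd_left h9 2
  have hℓ : ((((2 : ℕ)) : K₁))⁻¹ ∉ s18_A1 A K₁ := s18_a1_ell A hA K₁
  have hj : s34_sw_s K₁ 1 ∈ laurentBaseChange K₁ (modularFunctionFieldFull (N₁ * 2)) := by
    rw [s34_sw_s_eq]
    exact s34_sw_s_mem K₁ (N₁ * 2) 1 (one_dvd _)
  intro 𝔪 _ _ hP₁ hP₂ _ _ x _ hx𝔪 _ hD _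
  exact s36_p23i_xi_pole2_inf (N := N₁) (s18_A1 A K₁) hℓ hirr h2' h3' h9' W hW.2.2.2.2 _ h01
    (s34_ic_t_mem (A₀ := s18_A1 A K₁) (s18_coord K₁ (s18_cz_t3 (N₁ * 2) h3'))⁻¹)
    (s36_p23m_T9_inv_mem_ic K₁ (N₁ * 2) (s18_A1 A K₁) h3' h9')
    (s36_x23i_chart2_mem (A₀ := s18_A1 A K₁) (s18_coord K₁ (s18_cz_t2 (N₁ * 2) h2'))
      (s18_coord K₁ (s18_cz_t3 (N₁ * 2) h3')) (s36_p23m_coe_t2 K₁ (N₁ * 2) h2')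
      (s36_p23m_coe_t3 K₁ (N₁ * 2) h3') hj)
    𝔪 hP₁ (fun p hp => hP₂ p hp) x hx𝔪 hD

/-- **Thickness one at every crossing point of both charts of the model of level `N₁ · 2`**
(Hauptmodul `t3`, `9 ∣ N₁`), with no hypothesis left: the conclusion of `s36_xi3_t3` at
`q = 2`. -/
theorem s36_p23h_model2 (hA : A.LiesOverPrime 2) (hqN : ¬ 2 ∣ N₁) (h3 : 3 ∣ N₁) (h9 : 9 ∣ N₁)
    (hirr : Irreducible (((2 : ℕ)) : s18_A1 A K₁))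
    (W : s18_F1 K₁ (N₁ * 2) ≃ₐ[K₁] s18_F1 K₁ (N₁ * 2)) (hW : s34_md_IsSwap K₁ N₁ 2 W) :
    (s34_md_B0 A K₁ (N₁ * 2) (s18_cz_t3 (N₁ * 2) (dvd_mul_of_dvd_left h3 2))).toSubring ≤ s34_md_V1 A K₁ (N₁ * 2) ∧
    (s34_md_Binf A K₁ (N₁ * 2) (s18_cz_t3 (N₁ * 2) (dvd_mul_of_dvd_left h3 2))).toSubring ≤ s34_md_V1 A K₁ (N₁ * 2) ∧
    s36_xi3_Hq N₁ 2 (s18_A1 A K₁) (W : s18_F1 K₁ (N₁ * 2) ≃+* s18_F1 K₁ (N₁ * 2))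
      (s34_md_B0 A K₁ (N₁ * 2) (s18_cz_t3 (N₁ * 2) (dvd_mul_of_dvd_left h3 2))).toSubring ∧
    s36_xi3_Hq N₁ 2 (s18_A1 A K₁) (W : s18_F1 K₁ (N₁ * 2) ≃+* s18_F1 K₁ (N₁ * 2))
      (s34_md_Binf A K₁ (N₁ * 2) (s18_cz_t3 (N₁ * 2) (dvd_mul_of_dvd_left h3 2))).toSubring :=
  s36_xi3_t3 N₁ 2 A hA K₁ hqN h3 hirr W hW
    (fun h01 => s36_p23h_pole2_B0 N₁ A K₁ hA h3 h9 hirr W hW h01)
    (fun hi1 => s36_p23h_pole2_Binf N₁ A K₁ hA h3 h9 hirr W hW hi1)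

end Fermat.Agent.S36
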