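import Fermat.Agent.S36.CrossInst5
import Fermat.Agent.S36.CrossInst3
import Fermat.Agent.S36.CuspRatioK
import Fermat.Agent.S34.FinInst
import Fermat.Agent.S34.SwapStable
import Fermat.Agent.S34.IcDvr

/-!
# S36 (NODE-3): thickness one at the crossing points of the level-`N₁ q` model, `q ≥ 5`,
in the model vocabulary (no hypothesis left)

`s36_xi3_t2` (`CrossInst3.lean`) proves thickness one at every crossing point of both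
integral-closure charts of the nodal model of level `N₁ q` over `A₁ = P ∩ K₁`, the only hypothesis
left being the pole `s36_xi3_Pole` on the two charts.  For `q ≥ 5` and `6 ∣ N₁` the pole is
`s36_xi5_hpole` (`CrossInst5.lean`), fed with the concrete chart data:

* `s36_p5h_pole_gen` : the pole at a crossing point of the chart `ic(A₁[t'])`, `t' ∈ {t₂, t₂⁻¹}`;
* `s36_p5h_pole_B0`, `s36_p5h_pole_Binf` : the hypotheses `hpole0`, `hpolei` of `s36_xi3_t2`;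
* `s36_p5h_model5` : the conclusion of `s36_xi3_t2` for `q ≥ 5`, `6 ∣ N₁`, unconditionally.
-/

set_option autoImplicit false
set_option synthInstance.maxHeartbeats 400000
set_option maxHeartbeats 4000000
set_option linter.unusedSectionVars false
set_option linter.unusedVariables false
set_option linter.style.haveILetI false

open ModularCurve ModularCurve.IgusaScheme Fermat.Agent.S28

noncomputable section

namespace Fermat.Agent.S36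

open Fermat.Agent.S18 Fermat.Agent.S34 Fermat.Agent.S37

local notation "Qb" => AlgebraicClosure ℚ

variable (N₁ : ℕ) [NeZero N₁] (q : ℕ) [NeZero q] [Fact q.Prime]
  (A : ValuationSubring Qb)
  (K₁ : IntermediateField ℚ Qb) [NumberField K₁]
  [IsDiscreteValuationRing (s18_A1 A K₁)]

/-- **The pole at a crossing point of a `t₂`-chart, `q ≥ 5`, `6 ∣ N₁`.**  `t` the Hauptmodul
`t₂` at level `N₁ q`, `t' ∈ {t, t⁻¹}` with integer expansion `x₁` (`x₁ * y₁ = 1`),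
`B = ic(A₁[t'])` noetherian with fraction field `F` and (cap). -/
theorem s36_p5h_pole_gen (hA : A.LiesOverPrime q) (hqN : ¬ q ∣ N₁) (h5 : 5 ≤ q)
    (h2 : 2 ∣ N₁) (h3 : 3 ∣ N₁)
    (hirr : Irreducible ((q : ℕ) : s18_A1 A K₁))
    (W : s18_F1 K₁ (N₁ * q) ≃ₐ[K₁] s18_F1 K₁ (N₁ * q)) (hW : s34_md_IsSwap K₁ N₁ q W)
    (t' : s18_F1 K₁ (N₁ * q))
    (ht' : t' = s18_coord K₁ (s18_cz_t2 (N₁ * q) (dvd_mul_of_dvd_left h2 q)) ∨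
      t' = (s18_coord K₁ (s18_cz_t2 (N₁ * q) (dvd_mul_of_dvd_left h2 q)))⁻¹)
    (x₁ y₁ : LaurentSeries ℤ) (hxy : x₁ * y₁ = 1)
    (hx : (t' : LaurentSeries K₁) = coeffMap (Int.castRingHom K₁) x₁)
    (h01 : (s34_ic_chart (s18_A1 A K₁) t').toSubring ≤ s34_gi_V (s18_A1 A K₁) (N₁ * q))
    (hnoeth : IsNoetherianRing (s34_ic_chart (s18_A1 A K₁) t').toSubring)
    (hfrac : ∀ x : s18_F1 K₁ (N₁ * q), ∃ a ∈ (s34_ic_chart (s18_A1 A K₁) t').toSubring,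
      ∃ b ∈ (s34_ic_chart (s18_A1 A K₁) t').toSubring, b ≠ 0 ∧ x = a / b)
    (hcap : ∀ x ∈ (s34_ic_chart (s18_A1 A K₁) t').toSubring,
      (algebraMap K₁ (s18_F1 K₁ (N₁ * q)) (q : K₁))⁻¹ * x ∈ s34_gi_V (s18_A1 A K₁) (N₁ * q) →
      (algebraMap K₁ (s18_F1 K₁ (N₁ * q)) (q : K₁))⁻¹ * x ∈
        (s34_gi_V (s18_A1 A K₁) (N₁ * q)).comap
          ((W : s18_F1 K₁ (N₁ * q) ≃+* s18_F1 K₁ (N₁ * q)) :
            s18_F1 K₁ (N₁ * q) →+* s18_F1 K₁ (N₁ * q)) →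
      (algebraMap K₁ (s18_F1 K₁ (N₁ * q)) (q : K₁))⁻¹ * x ∈
        (s34_ic_chart (s18_A1 A K₁) t').toSubring)
    (𝔪 : Ideal (s34_ic_chart (s18_A1 A K₁) t').toSubring) [h𝔪 : 𝔪.IsPrime]
    (hP₁ : ∀ p : (s34_ic_chart (s18_A1 A K₁) t').toSubring,
      (algebraMap K₁ (s18_F1 K₁ (N₁ * q)) (q : K₁))⁻¹ * (p : s18_F1 K₁ (N₁ * q)) ∈
        s34_gi_V (s18_A1 A K₁) (N₁ * q) → p ∈ 𝔪)
    (hP₂ : ∀ p : (s34_ic_chart (s18_A1 A K₁) t').toSubring,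
      (algebraMap K₁ (s18_F1 K₁ (N₁ * q)) (q : K₁))⁻¹ * (p : s18_F1 K₁ (N₁ * q)) ∈
        (s34_gi_V (s18_A1 A K₁) (N₁ * q)).comap
          ((W : s18_F1 K₁ (N₁ * q) ≃+* s18_F1 K₁ (N₁ * q)) :
            s18_F1 K₁ (N₁ * q) →+* s18_F1 K₁ (N₁ * q)) → p ∈ 𝔪) :
    ∀ z : (s34_ic_chart (s18_A1 A K₁) t').toSubring, z ∈ 𝔪 →
      (∀ f ∈ s36_th_O (s36_xi_r (s18_A1 A K₁) (s34_ic_chart (s18_A1 A K₁) t').toSubring h01) 𝔪,
        ∃ g ∈ s36_th_O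
            (s36_xi_r (s18_A1 A K₁) (s34_ic_chart (s18_A1 A K₁) t').toSubring h01) 𝔪,
          s36_qt_theta (IsLocalRing.ResidueField (s18_A1 A K₁)) f =
            g * s36_qt_theta (IsLocalRing.ResidueField (s18_A1 A K₁))
              (s36_xi_r (s18_A1 A K₁) (s34_ic_chart (s18_A1 A K₁) t').toSubring h01 z)) →
      s36_qt_theta (IsLocalRing.ResidueField (s18_A1 A K₁))
          (s36_xi_r (s18_A1 A K₁) (s34_ic_chart (s18_A1 A K₁) t').toSubring h01 z) ^ (q - 1) ∉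
        s36_th_O (s36_xi_r (s18_A1 A K₁) (s34_ic_chart (s18_A1 A K₁) t').toSubring h01) 𝔪 := by
  have hq : q.Prime := Fact.out
  have hqM : q ≠ 2 := fun h => hqN (h ▸ h2)
  have h2' : 2 ∣ N₁ * q := dvd_mul_of_dvd_left h2 q
  have hcop : Nat.Coprime q N₁ := (hq.coprime_iff_not_dvd).mpr hqN
  have hℓ : ((q : K₁))⁻¹ ∉ s18_A1 A K₁ := s18_a1_ell A hA K₁
  obtain ⟨hWα, hWβ, hWW, -, -⟩ := hW
  have hHaupt := s34_ws_isHaupt_t2 (N₁ * q) K₁ h2'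
  have hcoord : heckeAlphaBar K₁ N₁ q (s18_coord K₁ (s18_cz_t2 N₁ h2)) =
      s18_coord K₁ (s18_cz_t2 (N₁ * q) h2') := s34_lc_incl_coord q _ rfl
  have hWt : ((W (s18_coord K₁ (s18_cz_t2 (N₁ * q) h2')) : s18_F1 K₁ (N₁ * q)) :
      LaurentSeries K₁) =
      qExpand K₁ q ((s18_coord K₁ (s18_cz_t2 (N₁ * q) h2') : s18_F1 K₁ (N₁ * q)) :
        LaurentSeries K₁) := by
    rw [← hcoord, hWα, coe_heckeBetaBar, coe_heckeAlphaBar]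
  have hWt' : W (s18_coord K₁ (s18_cz_t2 (N₁ * q) h2')) =
      heckeBetaBar K₁ N₁ q (s18_coord K₁ (s18_cz_t2 N₁ h2)) := by rw [← hcoord, hWα]
  have hWy : W (heckeBetaBar K₁ N₁ q (s18_coord K₁ (s18_cz_t2 N₁ h2))) =
      s18_coord K₁ (s18_cz_t2 (N₁ * q) h2') := by rw [← hWt', hWW]
  -- the transform of the chart coordinate
  obtain ⟨s', hs', hWs⟩ : ∃ s' : s18_F1 K₁ (N₁ * q),
      (s' : LaurentSeries K₁) = qExpand K₁ q (t' : LaurentSeries K₁) ∧ W t' = s' := by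
    rcases ht' with rfl | rfl
    · exact ⟨_, hWt' ▸ hWt, hWt'⟩
    · refine ⟨(heckeBetaBar K₁ N₁ q (s18_coord K₁ (s18_cz_t2 N₁ h2)))⁻¹, ?_, ?_⟩
      · have h1 : (((heckeBetaBar K₁ N₁ q (s18_coord K₁ (s18_cz_t2 N₁ h2)))⁻¹ :
            s18_F1 K₁ (N₁ * q)) : LaurentSeries K₁) =
            ((heckeBetaBar K₁ N₁ q (s18_coord K₁ (s18_cz_t2 N₁ h2)) : s18_F1 K₁ (N₁ * q)) :
              LaurentSeries K₁)⁻¹ := rfl
        have h2 : (((s18_coord K₁ (s18_cz_t2 (N₁ * q) h2'))⁻¹ : s18_F1 K₁ (N₁ * q)) :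
            LaurentSeries K₁) =
            ((s18_coord K₁ (s18_cz_t2 (N₁ * q) h2') : s18_F1 K₁ (N₁ * q)) :
              LaurentSeries K₁)⁻¹ := rfl
        rw [h1, h2, map_inv₀, ← hWt, hWt']
      · rw [map_inv₀, hWt']
  -- the chart data
  have hAB : ∀ a : s18_A1 A K₁, algebraMap (s18_A1 A K₁) (s18_F1 K₁ (N₁ * q)) a ∈
      (s34_ic_chart (s18_A1 A K₁) t').toSubring :=
    fun a => (s34_ic_chart (s18_A1 A K₁) t').algebraMap_mem a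
  have hB₂ : (s34_ic_chart (s18_A1 A K₁) t').toSubring ≤
      (s34_gi_V (s18_A1 A K₁) (N₁ * q)).comap
        ((W : s18_F1 K₁ (N₁ * q) ≃+* s18_F1 K₁ (N₁ * q)) :
          s18_F1 K₁ (N₁ * q) →+* s18_F1 K₁ (N₁ * q)) :=
    fun b hb => h01 (s34_ws_map_mem N₁ q 2 hq hqN hqM h2 A hA K₁ _ hHaupt t' ht'
      (W : s18_F1 K₁ (N₁ * q) →+* s18_F1 K₁ (N₁ * q)) (fun c => W.commutes c) hWt hb)
  have hnorm : ∀ z : s18_F1 K₁ (N₁ * q),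
      IsIntegral (s34_ic_chart (s18_A1 A K₁) t').toSubring z →
      z ∈ (s34_ic_chart (s18_A1 A K₁) t').toSubring := fun z hz => s34_ic_normal hz
  -- the coordinate block
  have hxK : coeffMap (Int.castRingHom K₁) x₁ * coeffMap (Int.castRingHom K₁) y₁ = 1 := by
    rw [← map_mul, hxy, map_one]
  have ht'0 : t' ≠ 0 := by
    rintro rfl
    have h0 : coeffMap (Int.castRingHom K₁) x₁ = 0 := hx.symm
    rw [h0, zero_mul] at hxK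
    exact zero_ne_one hxK
  have hs'0 : s' ≠ 0 := by
    rw [← hWs]
    exact (map_ne_zero_iff _ W.injective).mpr ht'0
  have hinv : ((t'⁻¹ : s18_F1 K₁ (N₁ * q)) : LaurentSeries K₁) =
      coeffMap (Int.castRingHom K₁) y₁ := by
    have h1 : ((t'⁻¹ : s18_F1 K₁ (N₁ * q)) : LaurentSeries K₁) =
        (t' : LaurentSeries K₁)⁻¹ := rfl
    rw [h1, hx]
    exact (eq_inv_of_mul_eq_one_right hxK).symm
  have hxi : t'⁻¹ ∈ s34_gi_V (s18_A1 A K₁) (N₁ * q) := s36_tmx_int_mem (s18_A1 A K₁) (N₁ * q) t'⁻¹ y₁ hinv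
  have hx'i : s'⁻¹ ∈ s34_gi_V (s18_A1 A K₁) (N₁ * q) := by
    refine s34_gi_qExpand_mem q (x := t'⁻¹) (x' := s'⁻¹) ?_ hxi
    have h1 : ((t'⁻¹ : s18_F1 K₁ (N₁ * q)) : LaurentSeries K₁) =
        (t' : LaurentSeries K₁)⁻¹ := rfl
    have h2 : ((s'⁻¹ : s18_F1 K₁ (N₁ * q)) : LaurentSeries K₁) =
        (s' : LaurentSeries K₁)⁻¹ := rfl
    rw [h1, h2, hs', map_inv₀]
  have hs'B : s' ∈ (s34_ic_chart (s18_A1 A K₁) t').toSubring :=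
    s34_ws_vq_mem N₁ q 2 hq hqN hqM h2 A hA K₁ _ hHaupt t' ht' s' hs'
  have hGB : t' ^ q * s'⁻¹ ∈ (s34_ic_chart (s18_A1 A K₁) t').toSubring := by
    refine s36_cusp_mem N₁ q 2 hq hqN hqM h2 A hA K₁ _ hHaupt t' ht' (t' ^ q * s'⁻¹) ?_
    have h1 : ((t' ^ q * s'⁻¹ : s18_F1 K₁ (N₁ * q)) : LaurentSeries K₁) =
        (t' : LaurentSeries K₁) ^ q * (s' : LaurentSeries K₁)⁻¹ := rfl
    rw [h1, hs']
  have hxc : (t' : LaurentSeries K₁) =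
      coeffMap (algebraMap ℚ K₁) (coeffMap (Int.castRingHom ℚ) x₁) := by
    rw [hx, coeffMap_coeffMap]
    exact coeffMap_congr (RingHom.ext_int _ _) x₁
  have hchart : t' = heckeAlphaBar K₁ N₁ q (s18_coord K₁ (s18_cz_t2 N₁ h2)) ∨
      t' = (heckeAlphaBar K₁ N₁ q (s18_coord K₁ (s18_cz_t2 N₁ h2)))⁻¹ ∨
      t' = heckeAlphaBar K₁ N₁ q (s18_coord K₁ (s18_cz_t3 N₁ h3)) ∨
      t' = (heckeAlphaBar K₁ N₁ q (s18_coord K₁ (s18_cz_t3 N₁ h3)))⁻¹ := by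
    rw [hcoord]
    rcases ht' with h | h
    · exact Or.inl h
    · exact Or.inr (Or.inl h)
  exact s36_xi5_hpole (s18_A1 A K₁) hℓ hirr hcop h5
    (W : s18_F1 K₁ (N₁ * q) ≃+* s18_F1 K₁ (N₁ * q)) hWW hWα
    (s34_ic_chart (s18_A1 A K₁) t').toSubring hAB h01 hB₂ hnoeth hfrac hnorm hcap
    (s18_coord K₁ (s18_cz_t2 N₁ h2)) (s18_coord K₁ (s18_cz_t3 N₁ h3))
    (s18_coeffMap_t2R (algebraMap ℚ K₁)) (s18_coeffMap_t3R (algebraMap ℚ K₁))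
    ⟨t', s34_ic_t_mem t'⟩ ⟨s', hs'B⟩ ⟨t' ^ q * s'⁻¹, hGB⟩
    (coeffMap (Int.castRingHom ℚ) x₁) (s36_tmx_int_mem_Wring q x₁) hxc hs' hWs hxi hx'i ht'0
    (Subtype.ext (by
      show t' ^ q * s'⁻¹ * s' = t' ^ q
      rw [mul_assoc, inv_mul_cancel₀ hs'0, mul_one])) hchart 𝔪 hP₁ hP₂

/-- The pole hypothesis of `s36_xi3_t2` for `q ≥ 5`, `6 ∣ N₁`, on the chart `s34_md_B0`. -/
theorem s36_p5h_pole_B0 (hA : A.LiesOverPrime q) (hqN : ¬ q ∣ N₁) (h5 : 5 ≤ q)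
    (h2 : 2 ∣ N₁) (h3 : 3 ∣ N₁)
    (hirr : Irreducible ((q : ℕ) : s18_A1 A K₁))
    (W : s18_F1 K₁ (N₁ * q) ≃ₐ[K₁] s18_F1 K₁ (N₁ * q)) (hW : s34_md_IsSwap K₁ N₁ q W)
    (h01 : (s34_md_B0 A K₁ (N₁ * q)
      (s18_cz_t2 (N₁ * q) (dvd_mul_of_dvd_left h2 q))).toSubring ≤ s34_md_V1 A K₁ (N₁ * q)) :
    s36_xi3_Pole N₁ q (s18_A1 A K₁) (s18_cz_t2 N₁ h2)
      (W : s18_F1 K₁ (N₁ * q) ≃+* s18_F1 K₁ (N₁ * q))
      (s34_md_B0 A K₁ (N₁ * q) (s18_cz_t2 (N₁ * q) (dvd_mul_of_dvd_left h2 q))).toSubring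
      h01 := by
  have h2' : 2 ∣ N₁ * q := dvd_mul_of_dvd_left h2 q
  have hcast : (((q : ℕ) : s18_A1 A K₁) : K₁) = (q : K₁) := by push_cast; rfl
  have hcap := s36_cn_ct_cap N₁ q hqN A hA K₁ ((q : ℕ) : s18_A1 A K₁) hirr
    (s18_cz_t2 (N₁ * q) h2') (Or.inl ⟨rfl, h2⟩) W hW
  have hϖ : algebraMap (s18_A1 A K₁) (s18_F1 K₁ (N₁ * q)) ((q : ℕ) : s18_A1 A K₁) =
      algebraMap K₁ (s18_F1 K₁ (N₁ * q)) (q : K₁) := by
    show algebraMap K₁ (s18_F1 K₁ (N₁ * q)) (((q : ℕ) : s18_A1 A K₁) : K₁) = _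
    rw [hcast]
  unfold s34_md_Cap at hcap
  rw [hϖ] at hcap
  obtain ⟨htr, hfd⟩ := s34_fi_ct_fin N₁ q K₁ (s18_cz_t2 (N₁ * q) h2') (Or.inl ⟨rfl, h2⟩)
  haveI := hfd
  haveI tower : IsScalarTower (s18_A1 A K₁) K₁ (s18_F1 K₁ (N₁ * q)) :=
    IsScalarTower.of_algebraMap_eq (fun _ => rfl)
  have hcoe : ((s18_coord K₁ (s18_cz_t2 (N₁ * q) h2') : s18_F1 K₁ (N₁ * q)) :
      LaurentSeries K₁) = s18_t2R K₁ := s18_coeffMap_t2R (algebraMap ℚ K₁)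
  intro 𝔪 _ _ hP₁ hP₂ _ _ x _ hx𝔪 _ hD _
  exact s36_p5h_pole_gen N₁ q A K₁ hA hqN h5 h2 h3 hirr W hW _ (Or.inl rfl) s18_t2 s18_t2inv
    s18_t2_mul_inv hcoe h01 (s34_ic_noeth (K := K₁) _ htr) (s34_ic_frac (K := K₁) _) hcap.1
    𝔪 hP₁ hP₂ x hx𝔪 hD

/-- The pole hypothesis of `s36_xi3_t2` for `q ≥ 5`, `6 ∣ N₁`, on the chart `s34_md_Binf`. -/
theorem s36_p5h_pole_Binf (hA : A.LiesOverPrime q) (hqN : ¬ q ∣ N₁) (h5 : 5 ≤ q)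
    (h2 : 2 ∣ N₁) (h3 : 3 ∣ N₁)
    (hirr : Irreducible ((q : ℕ) : s18_A1 A K₁))
    (W : s18_F1 K₁ (N₁ * q) ≃ₐ[K₁] s18_F1 K₁ (N₁ * q)) (hW : s34_md_IsSwap K₁ N₁ q W)
    (hi1 : (s34_md_Binf A K₁ (N₁ * q)
      (s18_cz_t2 (N₁ * q) (dvd_mul_of_dvd_left h2 q))).toSubring ≤ s34_md_V1 A K₁ (N₁ * q)) :
    s36_xi3_Pole N₁ q (s18_A1 A K₁) (s18_cz_t2 N₁ h2)⁻¹
      (W : s18_F1 K₁ (N₁ * q) ≃+* s18_F1 K₁ (N₁ * q))
      (s34_md_Binf A K₁ (N₁ * q) (s18_cz_t2 (N₁ * q) (dvd_mul_of_dvd_left h2 q))).toSubring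
      hi1 := by
  have h2' : 2 ∣ N₁ * q := dvd_mul_of_dvd_left h2 q
  have hcast : (((q : ℕ) : s18_A1 A K₁) : K₁) = (q : K₁) := by push_cast; rfl
  have hcap := s36_cn_ct_cap N₁ q hqN A hA K₁ ((q : ℕ) : s18_A1 A K₁) hirr
    (s18_cz_t2 (N₁ * q) h2') (Or.inl ⟨rfl, h2⟩) W hW
  have hϖ : algebraMap (s18_A1 A K₁) (s18_F1 K₁ (N₁ * q)) ((q : ℕ) : s18_A1 A K₁) =
      algebraMap K₁ (s18_F1 K₁ (N₁ * q)) (q : K₁) := by
    show algebraMap K₁ (s18_F1 K₁ (N₁ * q)) (((q : ℕ) : s18_A1 A K₁) : K₁) = _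
    rw [hcast]
  unfold s34_md_Cap at hcap
  rw [hϖ] at hcap
  obtain ⟨htr, hfd⟩ := s34_fi_ct_fin N₁ q K₁ (s18_cz_t2 (N₁ * q) h2') (Or.inl ⟨rfl, h2⟩)
  haveI := hfd
  haveI tower : IsScalarTower (s18_A1 A K₁) K₁ (s18_F1 K₁ (N₁ * q)) :=
    IsScalarTower.of_algebraMap_eq (fun _ => rfl)
  have hcoe : ((s18_coord K₁ (s18_cz_t2 (N₁ * q) h2') : s18_F1 K₁ (N₁ * q)) :
      LaurentSeries K₁) = s18_t2R K₁ := s18_coeffMap_t2R (algebraMap ℚ K₁)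
  have hinv : (((s18_coord K₁ (s18_cz_t2 (N₁ * q) h2'))⁻¹ : s18_F1 K₁ (N₁ * q)) :
      LaurentSeries K₁) = coeffMap (Int.castRingHom K₁) s18_t2inv := by
    have h1 : (((s18_coord K₁ (s18_cz_t2 (N₁ * q) h2'))⁻¹ : s18_F1 K₁ (N₁ * q)) :
        LaurentSeries K₁) = ((s18_coord K₁ (s18_cz_t2 (N₁ * q) h2') : s18_F1 K₁ (N₁ * q)) :
          LaurentSeries K₁)⁻¹ := rfl
    rw [h1, hcoe, ← s18_t2invR_eq_inv]
    rfl
  intro 𝔪 _ _ hP₁ hP₂ _ _ x _ hx𝔪 _ hD _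
  exact s36_p5h_pole_gen N₁ q A K₁ hA hqN h5 h2 h3 hirr W hW _ (Or.inr rfl) s18_t2inv s18_t2
    (by rw [mul_comm]; exact s18_t2_mul_inv) hinv hi1 (s34_ic_noeth_inv (K := K₁) _ htr)
    (s34_ic_frac_inv (K := K₁) _) hcap.2 𝔪 hP₁ hP₂ x hx𝔪 hD

/-- **Thickness one at every crossing point of both charts of the model of level `N₁ · q`,
`q ≥ 5`** (Hauptmodul `t2`, `6 ∣ N₁`), with no hypothesis left: the conclusion of `s36_xi3_t2`. -/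
theorem s36_p5h_model5 (hA : A.LiesOverPrime q) (hqN : ¬ q ∣ N₁) (h5 : 5 ≤ q)
    (h2 : 2 ∣ N₁) (h3 : 3 ∣ N₁)
    (hirr : Irreducible ((q : ℕ) : s18_A1 A K₁))
    (W : s18_F1 K₁ (N₁ * q) ≃ₐ[K₁] s18_F1 K₁ (N₁ * q)) (hW : s34_md_IsSwap K₁ N₁ q W) :
    (s34_md_B0 A K₁ (N₁ * q) (s18_cz_t2 (N₁ * q) (dvd_mul_of_dvd_left h2 q))).toSubring ≤
      s34_md_V1 A K₁ (N₁ * q) ∧
    (s34_md_Binf A K₁ (N₁ * q) (s18_cz_t2 (N₁ * q) (dvd_mul_of_dvd_left h2 q))).toSubring ≤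
      s34_md_V1 A K₁ (N₁ * q) ∧
    s36_xi3_Hq N₁ q (s18_A1 A K₁) (W : s18_F1 K₁ (N₁ * q) ≃+* s18_F1 K₁ (N₁ * q))
      (s34_md_B0 A K₁ (N₁ * q) (s18_cz_t2 (N₁ * q) (dvd_mul_of_dvd_left h2 q))).toSubring ∧
    s36_xi3_Hq N₁ q (s18_A1 A K₁) (W : s18_F1 K₁ (N₁ * q) ≃+* s18_F1 K₁ (N₁ * q))
      (s34_md_Binf A K₁ (N₁ * q) (s18_cz_t2 (N₁ * q) (dvd_mul_of_dvd_left h2 q))).toSubring :=
  s36_xi3_t2 N₁ q A hA K₁ hqN h2 hirr W hW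
    (fun h01 => s36_p5h_pole_B0 N₁ q A K₁ hA hqN h5 h2 h3 hirr W hW h01)
    (fun hi1 => s36_p5h_pole_Binf N₁ q A K₁ hA hqN h5 h2 h3 hirr W hW hi1)

end Fermat.Agent.S36
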