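import Fermat.Agent.S36.QThick
import Fermat.Agent.S36.PrinBranch

/-!
# S36 (NODE-3), B2 route (a): thickness one at a crossing point — the abstract core

Assembly of the "crossing point ⟹ pole of `ρ` ⟹ `Γ` is a unit" step of the coordinate-free
route (no Hauptmodul, no modular polynomial, every prime `q`).

Vocabulary: `B` a chart (a commutative ring), `𝔪` a prime ideal (the crossing point),
`r : B →+* E` the reduction along ONE vertical component (`E` a field of characteristic `q`,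
`ker r ⊆ 𝔪`), `θ` a derivation of `E`, `x ∈ 𝔪` the coordinate (`x̄ = r x` a uniformizer of the
branch at the point: `hext`), `v` with `r v = x̄ - x̄^(q²)`, `γ` with the thickness formula `hid`
(`s36_qk_gamma`).

* `s36_th_stable` : **Frobenius trick.** In characteristic `p`, if every element of a subring `O`
  is `g^p + u h` and `θ` is bounded on `O` (`u^n θ f ∈ O θ u`), then `θ f ∈ O θ u` for all
  `f ∈ O` (`O` is stable under `d/du`).  This is the hypothesis `hD` of `s36_qk_regular_of_dvd`.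
* `s36_th_O` : the image of the local ring `B_𝔪` in `E`.
* `s36_th_core` : if `ρ = (θ x̄)^(q-1)` has a pole at the point (`r b = ρ · r a` with `a ∈ 𝔪`,
  `b ∉ 𝔪`), then `γ ∉ 𝔪`.
* `s36_th_unit` : the same in the `Subring F` / valuation-ring vocabulary of `PrinBranch.lean`.
* `s36_th_gen` : combined with `s36_pb_gen`: `𝔪` is generated locally by `u` and `x`
  (the hypothesis `hgen` of `s36_tf_hG`).
-/

set_option autoImplicit false

namespace Fermat.Agent.S36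

section Stable

variable {E : Type*} [Field E]

theorem s36_th_theta_one (θ : E →+ E) (hθ : ∀ f g, θ (f * g) = θ f * g + f * θ g) : θ 1 = 0 := by
  have h := hθ 1 1
  rw [mul_one, mul_one, one_mul] at h
  have h2 : θ 1 + θ 1 = θ 1 + 0 := by rw [add_zero]; exact h.symm
  exact add_left_cancel h2

theorem s36_th_theta_pow (θ : E →+ E) (hθ : ∀ f g, θ (f * g) = θ f * g + f * θ g) (g : E)
    (k : ℕ) : θ (g ^ (k + 1)) = ((k + 1 : ℕ) : E) * g ^ k * θ g := by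
  induction k with
  | zero => simp
  | succ k ih =>
    rw [pow_succ, hθ, ih]
    push_cast
    ring

theorem s36_th_theta_pow_char (p : ℕ) [CharP E p] (θ : E →+ E)
    (hθ : ∀ f g, θ (f * g) = θ f * g + f * θ g) (g : E) : θ (g ^ p) = 0 := by
  rcases Nat.eq_zero_or_pos p with h | h
  · subst h
    rw [pow_zero]
    exact s36_th_theta_one θ hθ
  · obtain ⟨k, rfl⟩ : ∃ k, p = k + 1 := ⟨p - 1, by omega⟩
    rw [s36_th_theta_pow θ hθ, CharP.cast_eq_zero, zero_mul, zero_mul]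

/-- **Frobenius trick.** `O` a subring of a field of characteristic `p`, `u ∈ O`; every element of
`O` is `g^p + u h` (`O` local with maximal ideal `(u)` and perfect residue field); `θ` bounded on
`O`.  Then `O` is stable under `θ / θ u`. -/
theorem s36_th_stable (p : ℕ) [CharP E p] (θ : E →+ E)
    (hθ : ∀ f g, θ (f * g) = θ f * g + f * θ g) (O : Subring E) (u : E) (hu : u ∈ O)
    (hfrob : ∀ f ∈ O, ∃ g ∈ O, ∃ h ∈ O, f = g ^ p + u * h)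
    (n : ℕ) (hbd : ∀ f ∈ O, ∃ g ∈ O, u ^ n * θ f = g * θ u) :
    ∀ f ∈ O, ∃ g ∈ O, θ f = g * θ u := by
  induction n with
  | zero =>
    intro f hf
    obtain ⟨g, hg, h⟩ := hbd f hf
    exact ⟨g, hg, by rw [← h, pow_zero, one_mul]⟩
  | succ n ih =>
    apply ih
    intro f hf
    obtain ⟨g, hg, h, hh, rfl⟩ := hfrob f hf
    obtain ⟨g', hg', e⟩ := hbd h hh
    refine ⟨u ^ n * h + g', O.add_mem (O.mul_mem (O.pow_mem hu n) hh) hg', ?_⟩
    rw [map_add, s36_th_theta_pow_char p θ hθ, zero_add, hθ, add_mul, ← e]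
    ring

end Stable

section Core

variable {B E : Type*} [CommRing B] [Field E]

/-- The image of the local ring `B_𝔪` under `r : B →+* E`. -/
def s36_th_O (r : B →+* E) (𝔪 : Ideal B) [h𝔪 : 𝔪.IsPrime] : Subring E where
  carrier := {f | ∃ a b : B, b ∉ 𝔪 ∧ f * r b = r a}
  mul_mem' := by
    rintro f f' ⟨a, b, hb, h⟩ ⟨a', b', hb', h'⟩
    refine ⟨a * a', b * b', fun hbb => ?_, ?_⟩
    · rcases h𝔪.mem_or_mem hbb with h1 | h1
      · exact hb h1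
      · exact hb' h1
    · rw [map_mul, map_mul, ← h, ← h']
      ring
  one_mem' := ⟨1, 1, fun h => h𝔪.ne_top ((Ideal.eq_top_iff_one _).mpr h), by simp⟩
  add_mem' := by
    rintro f f' ⟨a, b, hb, h⟩ ⟨a', b', hb', h'⟩
    refine ⟨a * b' + a' * b, b * b', fun hbb => ?_, ?_⟩
    · rcases h𝔪.mem_or_mem hbb with h1 | h1
      · exact hb h1
      · exact hb' h1
    · rw [map_add, map_mul, map_mul, map_mul, ← h, ← h']
      ring
  zero_mem' := ⟨0, 1, fun h => h𝔪.ne_top ((Ideal.eq_top_iff_one _).mpr h), by simp⟩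
  neg_mem' := by
    rintro f ⟨a, b, hb, h⟩
    exact ⟨-a, b, hb, by rw [map_neg, ← h, neg_mul]⟩

theorem s36_th_mem_O (r : B →+* E) (𝔪 : Ideal B) [𝔪.IsPrime] (f : E) :
    f ∈ s36_th_O r 𝔪 ↔ ∃ a b : B, b ∉ 𝔪 ∧ f * r b = r a := Iff.rfl

theorem s36_th_map_mem_O (r : B →+* E) (𝔪 : Ideal B) [h𝔪 : 𝔪.IsPrime] (a : B) :
    r a ∈ s36_th_O r 𝔪 :=
  ⟨a, 1, fun h => h𝔪.ne_top ((Ideal.eq_top_iff_one _).mpr h), by simp⟩

theorem s36_th_inv_mem_O (r : B →+* E) (𝔪 : Ideal B) [𝔪.IsPrime] (b : B) (hb : b ∉ 𝔪)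
    (hb0 : r b ≠ 0) : (r b)⁻¹ ∈ s36_th_O r 𝔪 :=
  ⟨1, b, hb, by rw [inv_mul_cancel₀ hb0, map_one]⟩

/-- **Thickness one, abstract core.**  `r : B →+* E` the reduction along one vertical component
through the point `𝔪` (`ker r ⊆ 𝔪`), `E` of characteristic `q`, `θ` a derivation of `E`;
`x ∈ 𝔪` with `x̄ = r x` a uniformizer of the branch at the point (`hext`), perfect residue field
(`hfrob`), `θ` bounded on the chart (`hbd`), `r v = x̄ - x̄^(q²)`, the thickness formula (`hid`),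
and a pole of `ρ = (θ x̄)^(q-1)` at the point (`hρ`).  Then `γ` is a unit at `𝔪`. -/
theorem s36_th_core (q : ℕ) (hq : 0 < q) [CharP E q]
    (r : B →+* E) (θ : E →+ E) (hθ : ∀ f g, θ (f * g) = θ f * g + f * θ g)
    (𝔪 : Ideal B) [h𝔪 : 𝔪.IsPrime] (hker : ∀ z : B, r z = 0 → z ∈ 𝔪)
    (x v γ : B) (hx𝔪 : x ∈ 𝔪)
    (hext : ∀ y ∈ 𝔪, ∃ d c : B, d ∉ 𝔪 ∧ r d * r y = r c * r x)
    (hfrob : ∀ f : B, ∃ g : B, f - g ^ q ∈ 𝔪)
    (hθx : θ (r x) ≠ 0)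
    (hbd : ∃ n : ℕ, ∀ a : B, ∃ c d : B, d ∉ 𝔪 ∧ r x ^ n * θ (r a) * r d = r c * θ (r x))
    (hvx : r v = r x - r x ^ (q ^ 2)) (hv0 : r v ≠ 0)
    (hid : r v ^ 2 * θ (r x) ^ q =
      r v ^ 2 * r x ^ (q - 1) * θ (r x) + r v * θ (r γ) - r γ * θ (r x))
    (hρ : ∃ a b : B, a ∈ 𝔪 ∧ b ∉ 𝔪 ∧ r b = θ (r x) ^ (q - 1) * r a) :
    γ ∉ 𝔪 := by
  intro hγ𝔪
  set O := s36_th_O r 𝔪 with hO
  have hunit : ∀ b : B, b ∉ 𝔪 → r b ≠ 0 := fun b hb h0 => hb (hker b h0)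
  have hmap : ∀ a : B, r a ∈ O := s36_th_map_mem_O r 𝔪
  have hinv : ∀ b : B, b ∉ 𝔪 → (r b)⁻¹ ∈ O := fun b hb => s36_th_inv_mem_O r 𝔪 b hb (hunit b hb)
  -- elements of `𝔪` reduce into `x̄ O`
  have hm : ∀ y ∈ 𝔪, ∃ h ∈ O, r y = r x * h := by
    intro y hy
    obtain ⟨d, c, hd, e⟩ := hext y hy
    refine ⟨r c * (r d)⁻¹, O.mul_mem (hmap c) (hinv d hd), ?_⟩
    have hd0 := hunit d hd
    field_simp
    linear_combination e
  -- Frobenius decomposition in `O`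
  have hfrobO : ∀ f ∈ O, ∃ g ∈ O, ∃ h ∈ O, f = g ^ q + r x * h := by
    rintro f ⟨a, b, hb, hf⟩
    obtain ⟨g₁, hg₁⟩ := hfrob a
    obtain ⟨g₂, hg₂⟩ := hfrob b
    have hg₂𝔪 : g₂ ∉ 𝔪 := by
      intro h
      apply hb
      have h2 : g₂ ^ q ∈ 𝔪 := 𝔪.pow_mem_of_mem h q hq
      have := 𝔪.add_mem hg₂ h2
      simpa using this
    have hy : a * g₂ ^ q - b * g₁ ^ q ∈ 𝔪 := by
      have e : a * g₂ ^ q - b * g₁ ^ q = b * (a - g₁ ^ q) - a * (b - g₂ ^ q) := by ring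
      rw [e]
      exact 𝔪.sub_mem (𝔪.mul_mem_left _ hg₁) (𝔪.mul_mem_left _ hg₂)
    obtain ⟨h₀, hh₀, e₀⟩ := hm _ hy
    have hb0 := hunit b hb
    have hg0 := hunit g₂ hg₂𝔪
    refine ⟨r g₁ * (r g₂)⁻¹, O.mul_mem (hmap g₁) (hinv g₂ hg₂𝔪),
      h₀ * (r b)⁻¹ * ((r g₂)⁻¹) ^ q,
      O.mul_mem (O.mul_mem hh₀ (hinv b hb)) (O.pow_mem (hinv g₂ hg₂𝔪) q), ?_⟩
    rw [map_sub, map_mul, map_mul, map_pow, map_pow] at e₀
    have hf' : f = r a * (r b)⁻¹ := by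
      rw [← hf]
      field_simp
    rw [hf', mul_pow, inv_pow]
    have hG : r g₂ ^ q ≠ 0 := pow_ne_zero q hg0
    field_simp
    linear_combination e₀
  -- boundedness on `O`
  obtain ⟨n, hn⟩ := hbd
  have hbdO : ∀ f ∈ O, ∃ g ∈ O, r x ^ n * θ f = g * θ (r x) := by
    rintro f ⟨a, b, hb, hf⟩
    obtain ⟨ca, da, hda, ea⟩ := hn a
    obtain ⟨cb, db, hdb, eb⟩ := hn b
    have hb0 := hunit b hb
    have hda0 := hunit da hda
    have hdb0 := hunit db hdb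
    have hfO : f ∈ O := ⟨a, b, hb, hf⟩
    refine ⟨(r ca * (r da)⁻¹ - f * (r cb * (r db)⁻¹)) * (r b)⁻¹,
      O.mul_mem (O.sub_mem (O.mul_mem (hmap ca) (hinv da hda))
        (O.mul_mem hfO (O.mul_mem (hmap cb) (hinv db hdb)))) (hinv b hb), ?_⟩
    have hθf : θ f * r b + f * θ (r b) = θ (r a) := by rw [← hθ, hf]
    have e1 : r x ^ n * θ (r a) = r ca * (r da)⁻¹ * θ (r x) := by
      field_simp
      linear_combination ea
    have e2 : r x ^ n * θ (r b) = r cb * (r db)⁻¹ * θ (r x) := by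
      field_simp
      linear_combination eb
    have e3 : r x ^ n * θ f * r b =
        (r ca * (r da)⁻¹ - f * (r cb * (r db)⁻¹)) * θ (r x) := by
      have : r x ^ n * θ f * r b = r x ^ n * θ (r a) - f * (r x ^ n * θ (r b)) := by
        rw [← hθf]
        ring
      rw [this, e1, e2]
      ring
    have e4 : r x ^ n * θ f = (r x ^ n * θ f * r b) * (r b)⁻¹ := by
      field_simp
    rw [e4, e3]
    ring
  have hxO : r x ∈ O := hmap x
  have hD := s36_th_stable q θ hθ O (r x) hxO hfrobO n hbdO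
  -- `γ̄ = B̄ γ₁`
  obtain ⟨h₁, hh₁, eγ⟩ := hm γ hγ𝔪
  have hq1 : 1 < q := by
    rcases Nat.lt_or_ge 1 q with h1 | h1
    · exact h1
    · exfalso
      have h2 : q = 1 := by omega
      have h3 : ((q : ℕ) : E) = 0 := CharP.cast_eq_zero E q
      rw [h2, Nat.cast_one] at h3
      exact one_ne_zero h3
  have hqq : 1 < q ^ 2 := lt_of_lt_of_le hq1 (Nat.le_self_pow (by norm_num) q)
  have he𝔪 : (1 - x ^ (q ^ 2 - 1) : B) ∉ 𝔪 := by
    intro h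
    have h2 : x ^ (q ^ 2 - 1) ∈ 𝔪 := 𝔪.pow_mem_of_mem hx𝔪 _ (by omega)
    have := 𝔪.add_mem h h2
    rw [sub_add_cancel] at this
    exact h𝔪.ne_top ((Ideal.eq_top_iff_one _).mpr this)
  have hq2 : q ^ 2 - 1 + 1 = q ^ 2 := by omega
  have hve : r v = r x * r (1 - x ^ (q ^ 2 - 1)) := by
    rw [hvx, map_sub, map_one, map_pow, mul_sub, mul_one, ← pow_succ', hq2]
  have he0 := hunit _ he𝔪
  have hγ1 : h₁ * (r (1 - x ^ (q ^ 2 - 1)))⁻¹ ∈ O := O.mul_mem hh₁ (hinv _ he𝔪)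
  have hγ : r γ = r v * (h₁ * (r (1 - x ^ (q ^ 2 - 1)))⁻¹) := by
    rw [eγ, hve]
    field_simp
  have hvθ : θ (r v) = θ (r x) := by
    rw [hvx, map_sub, pow_two, pow_mul, s36_th_theta_pow_char q θ hθ, sub_zero]
  have hρO : θ (r x) ^ (q - 1) ∈ O :=
    s36_qk_regular_of_dvd θ hθ O q hq (r x) (r v) (r γ) _ hxO hvθ hv0 hθx hD hγ1 hγ hid
  -- the pole: contradiction
  obtain ⟨a', b', hb', e'⟩ := hρO
  obtain ⟨a, b, ha, hb, e⟩ := hρ
  have hz : r (b' * b - a' * a) = 0 := by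
    rw [map_sub, map_mul, map_mul, e, ← e']
    ring
  have hz𝔪 := hker _ hz
  have hbb : b' * b ∈ 𝔪 := by
    have := 𝔪.add_mem hz𝔪 (𝔪.mul_mem_left a' ha)
    simpa using this
  rcases h𝔪.mem_or_mem hbb with h1 | h1
  · exact hb' h1
  · exact hb h1

end Core

section Model

variable {F E : Type*} [Field F] [Field E]

/-- **Thickness one** in the vocabulary of `PrinBranch.lean`: `V₁` the component along which we
reduce (`red : V₁ →+* E` with kernel `ϖ V₁`), `V₂` the other component(s).  `ρt ∈ V₁` is a lift of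
`(θ x̄)^(q-1)` whose inverse is regular at the point and vanishes on `V₂`
(`b = ρt a`, `b ∉ 𝔪`, `a ∈ ϖ V₂`). -/
theorem s36_th_unit (q : ℕ) (hq : 0 < q) [CharP E q]
    (B V₁ V₂ : Subring F) (hB₁ : B ≤ V₁) (ϖ : F)
    (red : V₁ →+* E) (hker : ∀ z : V₁, red z = 0 ↔ ϖ⁻¹ * (z : F) ∈ V₁)
    (θ : E →+ E) (hθ : ∀ f g, θ (f * g) = θ f * g + f * θ g)
    (𝔪 : Ideal B) [𝔪.IsPrime]
    (hP₁ : ∀ p : B, ϖ⁻¹ * (p : F) ∈ V₁ → p ∈ 𝔪)
    (hP₂ : ∀ p : B, ϖ⁻¹ * (p : F) ∈ V₂ → p ∈ 𝔪)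
    (x v γ : B) (hx𝔪 : x ∈ 𝔪)
    (hext : ∀ y ∈ 𝔪, ∃ d c : B, d ∉ 𝔪 ∧
      ϖ⁻¹ * ((d : F) * (y : F) - (c : F) * (x : F)) ∈ V₁)
    (hfrob : ∀ f : B, ∃ g : B, f - g ^ q ∈ 𝔪)
    (hθx : θ (red (Subring.inclusion hB₁ x)) ≠ 0)
    (hbd : ∃ n : ℕ, ∀ a : B, ∃ c d : B, d ∉ 𝔪 ∧
      red (Subring.inclusion hB₁ x) ^ n * θ (red (Subring.inclusion hB₁ a)) *
          red (Subring.inclusion hB₁ d) =
        red (Subring.inclusion hB₁ c) * θ (red (Subring.inclusion hB₁ x)))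
    (hvx : red (Subring.inclusion hB₁ v) =
      red (Subring.inclusion hB₁ x) - red (Subring.inclusion hB₁ x) ^ (q ^ 2))
    (hv0 : red (Subring.inclusion hB₁ v) ≠ 0)
    (hid : red (Subring.inclusion hB₁ v) ^ 2 * θ (red (Subring.inclusion hB₁ x)) ^ q =
      red (Subring.inclusion hB₁ v) ^ 2 * red (Subring.inclusion hB₁ x) ^ (q - 1) *
          θ (red (Subring.inclusion hB₁ x))
        + red (Subring.inclusion hB₁ v) * θ (red (Subring.inclusion hB₁ γ))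
        - red (Subring.inclusion hB₁ γ) * θ (red (Subring.inclusion hB₁ x)))
    (ρt : V₁) (hρ : red ρt = θ (red (Subring.inclusion hB₁ x)) ^ (q - 1))
    (hρinv : ∃ a b : B, b ∉ 𝔪 ∧ (b : F) = (ρt : F) * (a : F) ∧ ϖ⁻¹ * (a : F) ∈ V₂) :
    γ ∉ 𝔪 := by
  have hk : ∀ z : B, (red.comp (Subring.inclusion hB₁)) z = 0 → z ∈ 𝔪 := by
    intro z hz
    exact hP₁ z ((hker _).mp hz)
  refine s36_th_core q hq (red.comp (Subring.inclusion hB₁)) θ hθ 𝔪 hk x v γ hx𝔪 ?_ hfrob hθx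
    hbd hvx hv0 hid ?_
  · intro y hy
    obtain ⟨d, c, hd, h⟩ := hext y hy
    refine ⟨d, c, hd, ?_⟩
    have h0 : red (Subring.inclusion hB₁ (d * y - c * x)) = 0 := (hker _).mpr (by simpa using h)
    rw [map_sub, map_sub, map_mul, map_mul, map_mul, map_mul, sub_eq_zero] at h0
    exact h0
  · obtain ⟨a, b, hb, e, ha⟩ := hρinv
    refine ⟨a, b, hP₂ a ha, hb, ?_⟩
    have e' : Subring.inclusion hB₁ b = ρt * Subring.inclusion hB₁ a := Subtype.ext e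
    show red (Subring.inclusion hB₁ b) = _
    rw [e', map_mul, hρ]
    rfl

/-- **Thickness one ⟹ two local generators** (`s36_th_unit` + `s36_pb_gen`): under (cap) and the
hypotheses of `s36_th_unit`, with `u v = ϖ γ` and `v` vanishing on `V₂`, the point `𝔪` is
generated locally by `u` and `x` — the hypothesis `hgen` of `s36_tf_hG`. -/
theorem s36_th_gen (q : ℕ) (hq : 0 < q) [CharP E q]
    (B V₁ V₂ : Subring F) (hB₁ : B ≤ V₁) (hB₂ : B ≤ V₂) (ϖ : F) (hϖ0 : ϖ ≠ 0)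
    (hcap : ∀ x ∈ B, ϖ⁻¹ * x ∈ V₁ → ϖ⁻¹ * x ∈ V₂ → ϖ⁻¹ * x ∈ B)
    (red : V₁ →+* E) (hker : ∀ z : V₁, red z = 0 ↔ ϖ⁻¹ * (z : F) ∈ V₁)
    (θ : E →+ E) (hθ : ∀ f g, θ (f * g) = θ f * g + f * θ g)
    (𝔪 : Ideal B) [𝔪.IsPrime]
    (hP₁ : ∀ p : B, ϖ⁻¹ * (p : F) ∈ V₁ → p ∈ 𝔪)
    (hP₂ : ∀ p : B, ϖ⁻¹ * (p : F) ∈ V₂ → p ∈ 𝔪)
    (u x v γ : B) (huv : (u : F) * (v : F) = ϖ * (γ : F))
    (hv₂ : ϖ⁻¹ * (v : F) ∈ V₂) (hx𝔪 : x ∈ 𝔪)
    (hext : ∀ y ∈ 𝔪, ∃ d c : B, d ∉ 𝔪 ∧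
      ϖ⁻¹ * ((d : F) * (y : F) - (c : F) * (x : F)) ∈ V₁)
    (hfrob : ∀ f : B, ∃ g : B, f - g ^ q ∈ 𝔪)
    (hθx : θ (red (Subring.inclusion hB₁ x)) ≠ 0)
    (hbd : ∃ n : ℕ, ∀ a : B, ∃ c d : B, d ∉ 𝔪 ∧
      red (Subring.inclusion hB₁ x) ^ n * θ (red (Subring.inclusion hB₁ a)) *
          red (Subring.inclusion hB₁ d) =
        red (Subring.inclusion hB₁ c) * θ (red (Subring.inclusion hB₁ x)))
    (hvx : red (Subring.inclusion hB₁ v) =
      red (Subring.inclusion hB₁ x) - red (Subring.inclusion hB₁ x) ^ (q ^ 2))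
    (hv0 : red (Subring.inclusion hB₁ v) ≠ 0)
    (hid : red (Subring.inclusion hB₁ v) ^ 2 * θ (red (Subring.inclusion hB₁ x)) ^ q =
      red (Subring.inclusion hB₁ v) ^ 2 * red (Subring.inclusion hB₁ x) ^ (q - 1) *
          θ (red (Subring.inclusion hB₁ x))
        + red (Subring.inclusion hB₁ v) * θ (red (Subring.inclusion hB₁ γ))
        - red (Subring.inclusion hB₁ γ) * θ (red (Subring.inclusion hB₁ x)))
    (ρt : V₁) (hρ : red ρt = θ (red (Subring.inclusion hB₁ x)) ^ (q - 1))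
    (hρinv : ∃ a b : B, b ∉ 𝔪 ∧ (b : F) = (ρt : F) * (a : F) ∧ ϖ⁻¹ * (a : F) ∈ V₂) :
    ∀ y ∈ 𝔪, ∃ w, w ∉ 𝔪 ∧ w * y ∈ Ideal.span {u, x} := by
  have hγ : γ ∉ 𝔪 := s36_th_unit q hq B V₁ V₂ hB₁ ϖ red hker θ hθ 𝔪 hP₁ hP₂ x v γ hx𝔪 hext
    hfrob hθx hbd hvx hv0 hid ρt hρ hρinv
  have hv0' : v ≠ 0 := by
    rintro rfl
    exact hv0 (by rw [map_zero, map_zero])
  exact s36_pb_gen B V₁ V₂ hB₁ hB₂ ϖ hϖ0 hcap 𝔪 u v γ x huv hγ hv₂ hv0' hext

end Model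

end Fermat.Agent.S36

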