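import Fermat.Agent.S36.ThickCore

/-!
# S36 (NODE-3), B2 route (a): thickness one — variants of the abstract core

`ThickCore.lean` takes boundedness of `θ` (`hbd`) and a pole of `ρ = (θ x̄)^(q-1)` in the form
`r b = ρ · r a`.  Here:

* `s36_th_O_frob`, `s36_th_O_loc`, `s36_th_O_nonunit` : the ring `O = s36_th_O r 𝔪` (image of the
  local ring `B_𝔪` in `E`) is local with maximal ideal `x̄ O` and has the Frobenius decomposition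
  `f = g^q + x̄ h` — the hypotheses `hperf`, `hloc`, `hs1` of a stability lemma for `O`;
* `s36_th_O_res`, `s36_th_O_loc'`, `s36_th_O_xinv`, `s36_th_not_mem_of_inv` : the same facts in
  the exact shapes `hres` / `hloc` / `hxinv` of `DerStable.lean` (`s36_ds_main`) and
  `GammaUnit.lean` (`s36_gu_main`, with `a = 0`), and the way back (`(r γ)⁻¹ ∈ O ⟹ γ ∉ 𝔪`);
* `s36_th_core_D` : the core with the stability `hD : θ f ∈ O θ x̄` as a HYPOTHESIS (instead of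
  `hbd`), and the pole in the form `ρ⁻¹ ∈ x̄ O`;
* `s36_th_pole_of_coord` : the pole of `ρ_x = (θ x̄)^(q-1)` from a second coordinate `t̄ ∈ O`:
  either `ρ_t = (θ t̄)^(q-1)` has a pole at the point, or `ρ_t` is a unit and
  `t̄ ≡ k^q mod x̄² O` (`t̄` ramified at the point);
* `s36_th_core_t` : the combination.
-/

set_option autoImplicit false

namespace Fermat.Agent.S36

variable {B E : Type*} [CommRing B] [Field E]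

/-- Elements of `𝔪` reduce into `x̄ O`. -/
theorem s36_th_O_max (r : B →+* E) (𝔪 : Ideal B) [h𝔪 : 𝔪.IsPrime]
    (hker : ∀ z : B, r z = 0 → z ∈ 𝔪) (x : B)
    (hext : ∀ y ∈ 𝔪, ∃ d c : B, d ∉ 𝔪 ∧ r d * r y = r c * r x) :
    ∀ y ∈ 𝔪, ∃ h ∈ s36_th_O r 𝔪, r y = r x * h := by
  intro y hy
  obtain ⟨d, c, hd, e⟩ := hext y hy
  have hd0 : r d ≠ 0 := fun h0 => hd (hker d h0)
  refine ⟨r c * (r d)⁻¹, (s36_th_O r 𝔪).mul_mem (s36_th_map_mem_O r 𝔪 c)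
    (s36_th_inv_mem_O r 𝔪 d hd hd0), ?_⟩
  field_simp
  linear_combination e

/-- Frobenius decomposition in `O`: `f = g^q + x̄ h`. -/
theorem s36_th_O_frob (q : ℕ) (hq : 0 < q) (r : B →+* E) (𝔪 : Ideal B) [h𝔪 : 𝔪.IsPrime]
    (hker : ∀ z : B, r z = 0 → z ∈ 𝔪) (x : B)
    (hext : ∀ y ∈ 𝔪, ∃ d c : B, d ∉ 𝔪 ∧ r d * r y = r c * r x)
    (hfrob : ∀ f : B, ∃ g : B, f - g ^ q ∈ 𝔪) :
    ∀ f ∈ s36_th_O r 𝔪, ∃ g ∈ s36_th_O r 𝔪, ∃ h ∈ s36_th_O r 𝔪, f = g ^ q + r x * h := by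
  have hunit : ∀ b : B, b ∉ 𝔪 → r b ≠ 0 := fun b hb h0 => hb (hker b h0)
  have hmap : ∀ a : B, r a ∈ s36_th_O r 𝔪 := s36_th_map_mem_O r 𝔪
  have hinv : ∀ b : B, b ∉ 𝔪 → (r b)⁻¹ ∈ s36_th_O r 𝔪 :=
    fun b hb => s36_th_inv_mem_O r 𝔪 b hb (hunit b hb)
  rintro f ⟨a, b, hb, hf⟩
  obtain ⟨g₁, hg₁⟩ := hfrob a
  obtain ⟨g₂, hg₂⟩ := hfrob b
  have hg₂𝔪 : g₂ ∉ 𝔪 := by
    intro h
    apply hb
    have h2 : g₂ ^ q ∈ 𝔪 := 𝔪.pow_mem_of_mem h q hq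
    have := 𝔪.add_mem hg₂ h2
    simpa using this
  have hy : a * g₂ ^ q - b * g₁ ^ q ∈ 𝔪 := by
    have e : a * g₂ ^ q - b * g₁ ^ q = b * (a - g₁ ^ q) - a * (b - g₂ ^ q) := by ring
    rw [e]
    exact 𝔪.sub_mem (𝔪.mul_mem_left _ hg₁) (𝔪.mul_mem_left _ hg₂)
  obtain ⟨h₀, hh₀, e₀⟩ := s36_th_O_max r 𝔪 hker x hext _ hy
  have hb0 := hunit b hb
  have hg0 := hunit g₂ hg₂𝔪
  refine ⟨r g₁ * (r g₂)⁻¹, (s36_th_O r 𝔪).mul_mem (hmap g₁) (hinv g₂ hg₂𝔪),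
    h₀ * (r b)⁻¹ * ((r g₂)⁻¹) ^ q,
    (s36_th_O r 𝔪).mul_mem ((s36_th_O r 𝔪).mul_mem hh₀ (hinv b hb))
      ((s36_th_O r 𝔪).pow_mem (hinv g₂ hg₂𝔪) q), ?_⟩
  rw [map_sub, map_mul, map_mul, map_pow, map_pow] at e₀
  have hf' : f = r a * (r b)⁻¹ := by
    rw [← hf]
    field_simp
  rw [hf', mul_pow, inv_pow]
  have hG : r g₂ ^ q ≠ 0 := pow_ne_zero q hg0
  field_simp
  linear_combination e₀

/-- `O` is local with maximal ideal `x̄ O`. -/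
theorem s36_th_O_loc (r : B →+* E) (𝔪 : Ideal B) [h𝔪 : 𝔪.IsPrime]
    (hker : ∀ z : B, r z = 0 → z ∈ 𝔪) (x : B)
    (hext : ∀ y ∈ 𝔪, ∃ d c : B, d ∉ 𝔪 ∧ r d * r y = r c * r x) :
    ∀ f ∈ s36_th_O r 𝔪, (∃ f₁ ∈ s36_th_O r 𝔪, f = r x * f₁) ∨ f⁻¹ ∈ s36_th_O r 𝔪 := by
  have hunit : ∀ b : B, b ∉ 𝔪 → r b ≠ 0 := fun b hb h0 => hb (hker b h0)
  rintro f ⟨a, b, hb, hf⟩
  have hb0 := hunit b hb
  have hf' : f = r a * (r b)⁻¹ := by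
    rw [← hf]
    field_simp
  by_cases ha : a ∈ 𝔪
  · left
    obtain ⟨h, hh, e⟩ := s36_th_O_max r 𝔪 hker x hext a ha
    refine ⟨h * (r b)⁻¹, (s36_th_O r 𝔪).mul_mem hh (s36_th_inv_mem_O r 𝔪 b hb hb0), ?_⟩
    rw [hf', e]
    ring
  · right
    have ha0 := hunit a ha
    have : f⁻¹ = r b * (r a)⁻¹ := by
      rw [hf', mul_inv, inv_inv, mul_comm]
    rw [this]
    exact (s36_th_O r 𝔪).mul_mem (s36_th_map_mem_O r 𝔪 b) (s36_th_inv_mem_O r 𝔪 a ha ha0)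

/-- `x̄` is not a unit of `O`. -/
theorem s36_th_O_nonunit (r : B →+* E) (𝔪 : Ideal B) [h𝔪 : 𝔪.IsPrime]
    (hker : ∀ z : B, r z = 0 → z ∈ 𝔪) (x : B) (hx𝔪 : x ∈ 𝔪) :
    ¬ ∃ f ∈ s36_th_O r 𝔪, r x * f = 1 := by
  rintro ⟨f, ⟨a, b, hb, hf⟩, e⟩
  have hz : r (x * a - b) = 0 := by
    rw [map_sub, map_mul, ← hf, sub_eq_zero]
    have : r x * (f * r b) = (r x * f) * r b := by ring
    rw [this, e, one_mul]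
  have h1 := hker _ hz
  have h2 : b ∈ 𝔪 := by
    have := 𝔪.sub_mem (𝔪.mul_mem_right a hx𝔪) h1
    simpa using this
  exact hb h2

/-- `hres` of `s36_ds_main` for `O = s36_th_O r 𝔪`: every element is a constant (a `q`-th power)
plus a multiple of `x̄`. -/
theorem s36_th_O_res (q : ℕ) (hq : 0 < q) [CharP E q] (θ : E →+ E)
    (hθ : ∀ f g, θ (f * g) = θ f * g + f * θ g)
    (r : B →+* E) (𝔪 : Ideal B) [h𝔪 : 𝔪.IsPrime]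
    (hker : ∀ z : B, r z = 0 → z ∈ 𝔪) (x : B)
    (hext : ∀ y ∈ 𝔪, ∃ d c : B, d ∉ 𝔪 ∧ r d * r y = r c * r x)
    (hfrob : ∀ f : B, ∃ g : B, f - g ^ q ∈ 𝔪) :
    ∀ f ∈ s36_th_O r 𝔪, ∃ c ∈ s36_th_O r 𝔪, θ c = 0 ∧
      ∃ f₁ ∈ s36_th_O r 𝔪, f = c + r x * f₁ := by
  intro f hf
  obtain ⟨g, hg, h, hh, e⟩ := s36_th_O_frob q hq r 𝔪 hker x hext hfrob f hf
  exact ⟨g ^ q, (s36_th_O r 𝔪).pow_mem hg q, s36_th_theta_pow_char q θ hθ g, h, hh, e⟩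

/-- `hloc` of `s36_gu_main` (with `a = 0`) for `O = s36_th_O r 𝔪`. -/
theorem s36_th_O_loc' (r : B →+* E) (𝔪 : Ideal B) [h𝔪 : 𝔪.IsPrime]
    (hker : ∀ z : B, r z = 0 → z ∈ 𝔪) (x : B)
    (hext : ∀ y ∈ 𝔪, ∃ d c : B, d ∉ 𝔪 ∧ r d * r y = r c * r x) :
    ∀ f ∈ s36_th_O r 𝔪, f⁻¹ ∈ s36_th_O r 𝔪 ∨ ∃ f₁ ∈ s36_th_O r 𝔪, f = r x * f₁ :=
  fun f hf => (s36_th_O_loc r 𝔪 hker x hext f hf).symm

/-- `hxinv` of `s36_ds_pole_of_rel` / `s36_gu_main`: `x̄⁻¹ ∉ O`. -/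
theorem s36_th_O_xinv (r : B →+* E) (𝔪 : Ideal B) [h𝔪 : 𝔪.IsPrime]
    (hker : ∀ z : B, r z = 0 → z ∈ 𝔪) (x : B) (hx𝔪 : x ∈ 𝔪) (hx0 : r x ≠ 0) :
    (r x)⁻¹ ∉ s36_th_O r 𝔪 :=
  fun h => s36_th_O_nonunit r 𝔪 hker x hx𝔪 ⟨_, h, mul_inv_cancel₀ hx0⟩

/-- Back from `O` to the chart: if `r γ` is a unit of `O` then `γ ∉ 𝔪`. -/
theorem s36_th_not_mem_of_inv (r : B →+* E) (𝔪 : Ideal B) [h𝔪 : 𝔪.IsPrime]
    (hker : ∀ z : B, r z = 0 → z ∈ 𝔪) (x : B) (hx𝔪 : x ∈ 𝔪)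
    (hext : ∀ y ∈ 𝔪, ∃ d c : B, d ∉ 𝔪 ∧ r d * r y = r c * r x)
    (γ : B) (hγ0 : r γ ≠ 0) (hγ : (r γ)⁻¹ ∈ s36_th_O r 𝔪) : γ ∉ 𝔪 := by
  intro hγ𝔪
  obtain ⟨h₁, hh₁, e⟩ := s36_th_O_max r 𝔪 hker x hext γ hγ𝔪
  refine s36_th_O_nonunit r 𝔪 hker x hx𝔪 ⟨h₁ * (r γ)⁻¹, (s36_th_O r 𝔪).mul_mem hh₁ hγ, ?_⟩
  rw [← mul_assoc, ← e, mul_inv_cancel₀ hγ0]

/-- **Thickness one, abstract core, stability as a hypothesis.**  As `s36_th_core`, with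
`hD : θ f ∈ O θ x̄` for `f ∈ O = s36_th_O r 𝔪` given, and the pole of `ρ = (θ x̄)^(q-1)` in the
form `ρ⁻¹ ∈ x̄ O`. -/
theorem s36_th_core_D (q : ℕ) (hq : 0 < q) [CharP E q]
    (r : B →+* E) (θ : E →+ E) (hθ : ∀ f g, θ (f * g) = θ f * g + f * θ g)
    (𝔪 : Ideal B) [h𝔪 : 𝔪.IsPrime] (hker : ∀ z : B, r z = 0 → z ∈ 𝔪)
    (x v γ : B) (hx𝔪 : x ∈ 𝔪)
    (hext : ∀ y ∈ 𝔪, ∃ d c : B, d ∉ 𝔪 ∧ r d * r y = r c * r x)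
    (hθx : θ (r x) ≠ 0)
    (hD : ∀ f ∈ s36_th_O r 𝔪, ∃ g ∈ s36_th_O r 𝔪, θ f = g * θ (r x))
    (hvx : r v = r x - r x ^ (q ^ 2)) (hv0 : r v ≠ 0)
    (hid : r v ^ 2 * θ (r x) ^ q =
      r v ^ 2 * r x ^ (q - 1) * θ (r x) + r v * θ (r γ) - r γ * θ (r x))
    (hρ : ∃ g₁ ∈ s36_th_O r 𝔪, r x * g₁ * θ (r x) ^ (q - 1) = 1) :
    γ ∉ 𝔪 := by
  intro hγ𝔪
  have hunit : ∀ b : B, b ∉ 𝔪 → r b ≠ 0 := fun b hb h0 => hb (hker b h0)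
  have hmap : ∀ a : B, r a ∈ s36_th_O r 𝔪 := s36_th_map_mem_O r 𝔪
  have hinv : ∀ b : B, b ∉ 𝔪 → (r b)⁻¹ ∈ s36_th_O r 𝔪 :=
    fun b hb => s36_th_inv_mem_O r 𝔪 b hb (hunit b hb)
  obtain ⟨h₁, hh₁, eγ⟩ := s36_th_O_max r 𝔪 hker x hext γ hγ𝔪
  have hq1 : 1 < q := by
    rcases Nat.lt_or_ge 1 q with h1 | h1
    · exact h1
    · exfalso
      have h2 : q = 1 := by omega
      have h3 : ((q : ℕ) : E) = 0 := CharP.cast_eq_zero E q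
      rw [h2, Nat.cast_one] at h3
      exact one_ne_zero h3
  have hqq : 1 < q ^ 2 := lt_of_lt_of_le hq1 (Nat.le_self_pow (by norm_num) q)
  have he𝔪 : (1 - x ^ (q ^ 2 - 1) : B) ∉ 𝔪 := by
    intro h
    have h2 : x ^ (q ^ 2 - 1) ∈ 𝔪 := 𝔪.pow_mem_of_mem hx𝔪 _ (by omega)
    have := 𝔪.add_mem h h2
    rw [sub_add_cancel] at this
    exact h𝔪.ne_top ((Ideal.eq_top_iff_one _).mpr this)
  have hq2 : q ^ 2 - 1 + 1 = q ^ 2 := by omega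
  have hve : r v = r x * r (1 - x ^ (q ^ 2 - 1)) := by
    rw [hvx, map_sub, map_one, map_pow, mul_sub, mul_one, ← pow_succ', hq2]
  have he0 := hunit _ he𝔪
  have hγ1 : h₁ * (r (1 - x ^ (q ^ 2 - 1)))⁻¹ ∈ s36_th_O r 𝔪 :=
    (s36_th_O r 𝔪).mul_mem hh₁ (hinv _ he𝔪)
  have hγ : r γ = r v * (h₁ * (r (1 - x ^ (q ^ 2 - 1)))⁻¹) := by
    rw [eγ, hve]
    field_simp
  have hvθ : θ (r v) = θ (r x) := by
    rw [hvx, map_sub, pow_two, pow_mul, s36_th_theta_pow_char q θ hθ, sub_zero]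
  have hρO : θ (r x) ^ (q - 1) ∈ s36_th_O r 𝔪 :=
    s36_qk_regular_of_dvd θ hθ (s36_th_O r 𝔪) q hq (r x) (r v) (r γ) _ (hmap x) hvθ hv0 hθx hD
      hγ1 hγ hid
  obtain ⟨g₁, hg₁, e⟩ := hρ
  exact s36_th_O_nonunit r 𝔪 hker x hx𝔪
    ⟨g₁ * θ (r x) ^ (q - 1), (s36_th_O r 𝔪).mul_mem hg₁ hρO, by rw [← mul_assoc, e]⟩

/-- **Pole of `ρ_x` from a second coordinate.**  `O` a subring stable under `θ / θ x̄`
(`hD`), `t̄ ∈ O`.  If `ρ_t = (θ t̄)^(q-1)` has a pole (`ρ_t⁻¹ ∈ x̄ O`), or `ρ_t` is a unit of `O`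
and `t̄ = k^q + x̄² w` (`t̄` is ramified at the point), then `ρ_x⁻¹ ∈ x̄ O`. -/
theorem s36_th_pole_of_coord (q : ℕ) (hq : 2 ≤ q) [CharP E q]
    (θ : E →+ E) (hθ : ∀ f g, θ (f * g) = θ f * g + f * θ g) (O : Subring E)
    (xb : E) (hxb : xb ∈ O)
    (hD : ∀ f ∈ O, ∃ g ∈ O, θ f = g * θ xb)
    (tb : E) (htb : tb ∈ O)
    (hpole : (∃ h ∈ O, xb * h * θ tb ^ (q - 1) = 1) ∨
      ((∃ h ∈ O, h * θ tb ^ (q - 1) = 1) ∧ ∃ k ∈ O, ∃ w ∈ O, tb = k ^ q + xb ^ 2 * w)) :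
    ∃ g₁ ∈ O, xb * g₁ * θ xb ^ (q - 1) = 1 := by
  rcases hpole with ⟨h, hh, e⟩ | ⟨⟨h, hh, e⟩, k, hk, w, hw, etb⟩
  · obtain ⟨g, hg, eg⟩ := hD tb htb
    refine ⟨h * g ^ (q - 1), O.mul_mem hh (O.pow_mem hg _), ?_⟩
    rw [← e, eg, mul_pow]
    ring
  · obtain ⟨gw, hgw, egw⟩ := hD w hw
    have e1 : θ tb = xb * (2 * w + xb * gw) * θ xb := by
      rw [etb, map_add, s36_th_theta_pow_char q θ hθ, zero_add, hθ, pow_two, hθ, egw]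
      ring
    have h2O : (2 : E) ∈ O := by
      have : (2 : E) = 1 + 1 := by norm_num
      rw [this]
      exact O.add_mem O.one_mem O.one_mem
    have hq' : q - 1 = (q - 2) + 1 := by omega
    refine ⟨h * (xb ^ (q - 2) * (2 * w + xb * gw) ^ (q - 1)),
      O.mul_mem hh (O.mul_mem (O.pow_mem hxb _)
        (O.pow_mem (O.add_mem (O.mul_mem h2O hw) (O.mul_mem hxb hgw)) _)), ?_⟩
    rw [← e, e1, mul_pow, mul_pow]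
    have : xb ^ (q - 1) = xb ^ (q - 2) * xb := by rw [hq', pow_succ]
    rw [this]
    ring

/-- **Thickness one via a second coordinate** (`s36_th_core_D` + `s36_th_pole_of_coord`):
the chart coordinate `t` (`t̄ = r t`) either has `ρ_t` with a pole at the point, or `ρ_t` a unit
there and `t̄ ≡ k^q mod x̄²`.  Then `γ ∉ 𝔪`. -/
theorem s36_th_core_t (q : ℕ) (hq : 2 ≤ q) [CharP E q]
    (r : B →+* E) (θ : E →+ E) (hθ : ∀ f g, θ (f * g) = θ f * g + f * θ g)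
    (𝔪 : Ideal B) [h𝔪 : 𝔪.IsPrime] (hker : ∀ z : B, r z = 0 → z ∈ 𝔪)
    (x v γ : B) (hx𝔪 : x ∈ 𝔪)
    (hext : ∀ y ∈ 𝔪, ∃ d c : B, d ∉ 𝔪 ∧ r d * r y = r c * r x)
    (hθx : θ (r x) ≠ 0)
    (hD : ∀ f ∈ s36_th_O r 𝔪, ∃ g ∈ s36_th_O r 𝔪, θ f = g * θ (r x))
    (hvx : r v = r x - r x ^ (q ^ 2)) (hv0 : r v ≠ 0)
    (hid : r v ^ 2 * θ (r x) ^ q =
      r v ^ 2 * r x ^ (q - 1) * θ (r x) + r v * θ (r γ) - r γ * θ (r x))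
    (t : B)
    (hpole : (∃ h ∈ s36_th_O r 𝔪, r x * h * θ (r t) ^ (q - 1) = 1) ∨
      ((∃ h ∈ s36_th_O r 𝔪, h * θ (r t) ^ (q - 1) = 1) ∧
        ∃ k ∈ s36_th_O r 𝔪, ∃ w ∈ s36_th_O r 𝔪, r t = k ^ q + r x ^ 2 * w)) :
    γ ∉ 𝔪 :=
  s36_th_core_D q (by omega) r θ hθ 𝔪 hker x v γ hx𝔪 hext hθx hD hvx hv0 hid
    (s36_th_pole_of_coord q hq θ hθ (s36_th_O r 𝔪) (r x) (s36_th_map_mem_O r 𝔪 x) hD (r t)
      (s36_th_map_mem_O r 𝔪 t) hpole)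

end Fermat.Agent.S36
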