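import Fermat.Agent.S36.ThickCoreD

/-!
# S36 (NODE-3), B2 route (a): thickness one from the horizontal-unit statement (M5),
with the stability `hD` as a hypothesis

`ThickCore.lean` (`s36_th_unit`, `s36_th_gen`) takes the boundedness `hbd`; here the same
statements with the stability `hD : θ f ∈ O θ x̄` for `O = s36_th_O r 𝔪` as a hypothesis
(provided by a Nakayama-type stability lemma from finite generation), and the pole in the form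
`hρinv` delivered by `s36_np_rhoinv` (`NormalPt.lean`).

* `s36_th_pole_of_frac` : `r b = ρ · r a` with `a ∈ 𝔪`, `b ∉ 𝔪`  ⟹  `ρ⁻¹ ∈ x̄ O`;
* `s36_th_unit_D` : `γ ∉ 𝔪` (Subring / valuation-ring vocabulary);
* `s36_th_gen_D` : `𝔪` is generated locally by `u` and `x` (hypothesis `hgen` of `s36_tf_hG`).
-/

set_option autoImplicit false

namespace Fermat.Agent.S36

section Core

variable {B E : Type*} [CommRing B] [Field E]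

/-- A pole `r b = ρ · r a` (`a ∈ 𝔪`, `b ∉ 𝔪`) in the form `ρ⁻¹ ∈ x̄ O`. -/
theorem s36_th_pole_of_frac (r : B →+* E) (𝔪 : Ideal B) [h𝔪 : 𝔪.IsPrime]
    (hker : ∀ z : B, r z = 0 → z ∈ 𝔪) (x : B)
    (hext : ∀ y ∈ 𝔪, ∃ d c : B, d ∉ 𝔪 ∧ r d * r y = r c * r x)
    (ρ : E) (hρ : ∃ a b : B, a ∈ 𝔪 ∧ b ∉ 𝔪 ∧ r b = ρ * r a) :
    ∃ g₁ ∈ s36_th_O r 𝔪, r x * g₁ * ρ = 1 := by
  obtain ⟨a, b, ha, hb, e⟩ := hρ
  have hb0 : r b ≠ 0 := fun h0 => hb (hker b h0)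
  obtain ⟨h, hh, ea⟩ := s36_th_O_max r 𝔪 hker x hext a ha
  refine ⟨h * (r b)⁻¹, (s36_th_O r 𝔪).mul_mem hh (s36_th_inv_mem_O r 𝔪 b hb hb0), ?_⟩
  have e2 : r x * (h * (r b)⁻¹) * ρ = (ρ * (r x * h)) * (r b)⁻¹ := by ring
  rw [e2, ← ea, ← e, mul_inv_cancel₀ hb0]

end Core

section Model

variable {F E : Type*} [Field F] [Field E]

/-- **Thickness one from (M5), stability as a hypothesis.**  As `s36_th_unit`, with `hD` instead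
of `hbd`. -/
theorem s36_th_unit_D (q : ℕ) (hq : 0 < q) [CharP E q]
    (B V₁ V₂ : Subring F) (hB₁ : B ≤ V₁) (ϖ : F)
    (red : V₁ →+* E) (hker : ∀ z : V₁, red z = 0 ↔ ϖ⁻¹ * (z : F) ∈ V₁)
    (θ : E →+ E) (hθ : ∀ f g, θ (f * g) = θ f * g + f * θ g)
    (𝔪 : Ideal B) [𝔪.IsPrime]
    (hP₁ : ∀ p : B, ϖ⁻¹ * (p : F) ∈ V₁ → p ∈ 𝔪)
    (hP₂ : ∀ p : B, ϖ⁻¹ * (p : F) ∈ V₂ → p ∈ 𝔪)
    (x v γ : B) (hx𝔪 : x ∈ 𝔪)
    (hext : ∀ y ∈ 𝔪, ∃ d c : B, d ∉ 𝔪 ∧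
      ϖ⁻¹ * ((d : F) * (y : F) - (c : F) * (x : F)) ∈ V₁)
    (hθx : θ (red (Subring.inclusion hB₁ x)) ≠ 0)
    (hD : ∀ f ∈ s36_th_O (red.comp (Subring.inclusion hB₁)) 𝔪,
      ∃ g ∈ s36_th_O (red.comp (Subring.inclusion hB₁)) 𝔪,
        θ f = g * θ (red (Subring.inclusion hB₁ x)))
    (hvx : red (Subring.inclusion hB₁ v) =
      red (Subring.inclusion hB₁ x) - red (Subring.inclusion hB₁ x) ^ (q ^ 2))
    (hv0 : red (Subring.inclusion hB₁ v) ≠ 0)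
    (hid : red (Subring.inclusion hB₁ v) ^ 2 * θ (red (Subring.inclusion hB₁ x)) ^ q =
      red (Subring.inclusion hB₁ v) ^ 2 * red (Subring.inclusion hB₁ x) ^ (q - 1) *
          θ (red (Subring.inclusion hB₁ x))
        + red (Subring.inclusion hB₁ v) * θ (red (Subring.inclusion hB₁ γ))
        - red (Subring.inclusion hB₁ γ) * θ (red (Subring.inclusion hB₁ x)))
    (ρt : V₁) (hρ : red ρt = θ (red (Subring.inclusion hB₁ x)) ^ (q - 1))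
    (hρinv : ∃ a b : B, b ∉ 𝔪 ∧ (b : F) = (ρt : F) * (a : F) ∧ ϖ⁻¹ * (a : F) ∈ V₂) :
    γ ∉ 𝔪 := by
  have hk : ∀ z : B, (red.comp (Subring.inclusion hB₁)) z = 0 → z ∈ 𝔪 := by
    intro z hz
    exact hP₁ z ((hker _).mp hz)
  have hext' : ∀ y ∈ 𝔪, ∃ d c : B, d ∉ 𝔪 ∧
      (red.comp (Subring.inclusion hB₁)) d * (red.comp (Subring.inclusion hB₁)) y =
        (red.comp (Subring.inclusion hB₁)) c * (red.comp (Subring.inclusion hB₁)) x := by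
    intro y hy
    obtain ⟨d, c, hd, h⟩ := hext y hy
    refine ⟨d, c, hd, ?_⟩
    have h0 : red (Subring.inclusion hB₁ (d * y - c * x)) = 0 := (hker _).mpr (by simpa using h)
    rw [map_sub, map_sub, map_mul, map_mul, map_mul, map_mul, sub_eq_zero] at h0
    exact h0
  have hpole : ∃ a b : B, a ∈ 𝔪 ∧ b ∉ 𝔪 ∧
      (red.comp (Subring.inclusion hB₁)) b =
        θ ((red.comp (Subring.inclusion hB₁)) x) ^ (q - 1) *
          (red.comp (Subring.inclusion hB₁)) a := by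
    obtain ⟨a, b, hb, e, ha⟩ := hρinv
    refine ⟨a, b, hP₂ a ha, hb, ?_⟩
    have e' : Subring.inclusion hB₁ b = ρt * Subring.inclusion hB₁ a := Subtype.ext e
    show red (Subring.inclusion hB₁ b) = _
    rw [e', map_mul, hρ]
    rfl
  exact s36_th_core_D q hq (red.comp (Subring.inclusion hB₁)) θ hθ 𝔪 hk x v γ hx𝔪 hext' hθx hD
    hvx hv0 hid
    (s36_th_pole_of_frac (red.comp (Subring.inclusion hB₁)) 𝔪 hk x hext' _ hpole)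

/-- **Thickness one ⟹ two local generators**, stability as a hypothesis
(`s36_th_unit_D` + `s36_pb_gen`). -/
theorem s36_th_gen_D (q : ℕ) (hq : 0 < q) [CharP E q]
    (B V₁ V₂ : Subring F) (hB₁ : B ≤ V₁) (hB₂ : B ≤ V₂) (ϖ : F) (hϖ0 : ϖ ≠ 0)
    (hcap : ∀ x ∈ B, ϖ⁻¹ * x ∈ V₁ → ϖ⁻¹ * x ∈ V₂ → ϖ⁻¹ * x ∈ B)
    (red : V₁ →+* E) (hker : ∀ z : V₁, red z = 0 ↔ ϖ⁻¹ * (z : F) ∈ V₁)
    (θ : E →+ E) (hθ : ∀ f g, θ (f * g) = θ f * g + f * θ g)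
    (𝔪 : Ideal B) [𝔪.IsPrime]
    (hP₁ : ∀ p : B, ϖ⁻¹ * (p : F) ∈ V₁ → p ∈ 𝔪)
    (hP₂ : ∀ p : B, ϖ⁻¹ * (p : F) ∈ V₂ → p ∈ 𝔪)
    (u x v γ : B) (huv : (u : F) * (v : F) = ϖ * (γ : F))
    (hv₂ : ϖ⁻¹ * (v : F) ∈ V₂) (hx𝔪 : x ∈ 𝔪)
    (hext : ∀ y ∈ 𝔪, ∃ d c : B, d ∉ 𝔪 ∧
      ϖ⁻¹ * ((d : F) * (y : F) - (c : F) * (x : F)) ∈ V₁)
    (hθx : θ (red (Subring.inclusion hB₁ x)) ≠ 0)
    (hD : ∀ f ∈ s36_th_O (red.comp (Subring.inclusion hB₁)) 𝔪,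
      ∃ g ∈ s36_th_O (red.comp (Subring.inclusion hB₁)) 𝔪,
        θ f = g * θ (red (Subring.inclusion hB₁ x)))
    (hvx : red (Subring.inclusion hB₁ v) =
      red (Subring.inclusion hB₁ x) - red (Subring.inclusion hB₁ x) ^ (q ^ 2))
    (hv0 : red (Subring.inclusion hB₁ v) ≠ 0)
    (hid : red (Subring.inclusion hB₁ v) ^ 2 * θ (red (Subring.inclusion hB₁ x)) ^ q =
      red (Subring.inclusion hB₁ v) ^ 2 * red (Subring.inclusion hB₁ x) ^ (q - 1) *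
          θ (red (Subring.inclusion hB₁ x))
        + red (Subring.inclusion hB₁ v) * θ (red (Subring.inclusion hB₁ γ))
        - red (Subring.inclusion hB₁ γ) * θ (red (Subring.inclusion hB₁ x)))
    (ρt : V₁) (hρ : red ρt = θ (red (Subring.inclusion hB₁ x)) ^ (q - 1))
    (hρinv : ∃ a b : B, b ∉ 𝔪 ∧ (b : F) = (ρt : F) * (a : F) ∧ ϖ⁻¹ * (a : F) ∈ V₂) :
    ∀ y ∈ 𝔪, ∃ w, w ∉ 𝔪 ∧ w * y ∈ Ideal.span {u, x} := by
  have hγ : γ ∉ 𝔪 := s36_th_unit_D q hq B V₁ V₂ hB₁ ϖ red hker θ hθ 𝔪 hP₁ hP₂ x v γ hx𝔪 hext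
    hθx hD hvx hv0 hid ρt hρ hρinv
  have hv0' : v ≠ 0 := by
    rintro rfl
    exact hv0 (by rw [map_zero, map_zero])
  exact s36_pb_gen B V₁ V₂ hB₁ hB₂ ϖ hϖ0 hcap 𝔪 u v γ x huv hγ hv₂ hv0' hext

end Model

end Fermat.Agent.S36
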