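import Fermat.Agent.S36.ThickCoreM

/-!
# S36 (NODE-3), B2 route (a): thickness one with a coordinate `t` and a local parameter `x`

At a general crossing point the local parameter `x` (a RATIONAL element of the chart vanishing at
the point, e.g. from `LocCoord`) is not the Hauptmodul coordinate `t`, while the horizontal-unit
statement (M5) is available for the coordinate: `ρ_t = θ t(Q^q) / (q θ t)` reduces to
`(θ t̄)^(q-1)` and `ρ_t⁻¹` vanishes at the point.  This file combines the two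
(`s36_th_pole_of_frac` + `s36_th_pole_of_coord`) and removes the hypotheses `hθx`, `hv0`:

* `s36_tht_theta_ne` : `θ x̄ ≠ 0` from the stability `hD` and ONE `t ∈ B` with `θ t̄ ≠ 0`;
* `s36_tht_v_ne` : `v̄ = x̄ - x̄^(q²) ≠ 0` from `θ x̄ ≠ 0`;
* `s36_tht_core` : `γ ∉ 𝔪` (abstract `r : B →+* E`);
* `s36_tht_unit` : `γ ∉ 𝔪` (Subring / valuation-ring vocabulary, `hρinv` as delivered by
  `s36_np_rhoinv` for `ρ_t`);
* `s36_tht_gen` : `𝔪` is generated locally by `u` and `x`.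
-/

set_option autoImplicit false

namespace Fermat.Agent.S36

section Core

variable {B E : Type*} [CommRing B] [Field E]

/-- `θ x̄ ≠ 0` from the stability `hD` and one `t ∈ B` with `θ t̄ ≠ 0`. -/
theorem s36_tht_theta_ne (r : B →+* E) (θ : E →+ E) (𝔪 : Ideal B) [𝔪.IsPrime] (x : B)
    (hD : ∀ f ∈ s36_th_O r 𝔪, ∃ g ∈ s36_th_O r 𝔪, θ f = g * θ (r x))
    (t : B) (hθt : θ (r t) ≠ 0) : θ (r x) ≠ 0 := by
  intro h
  obtain ⟨g, -, e⟩ := hD (r t) (s36_th_map_mem_O r 𝔪 t)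
  rw [h, mul_zero] at e
  exact hθt e

/-- `x̄ - x̄^(q²) ≠ 0` when `θ x̄ ≠ 0` (characteristic `q`). -/
theorem s36_tht_v_ne (q : ℕ) [CharP E q] (θ : E →+ E)
    (hθ : ∀ f g, θ (f * g) = θ f * g + f * θ g) (xb vb : E) (hθx : θ xb ≠ 0)
    (hvx : vb = xb - xb ^ (q ^ 2)) : vb ≠ 0 := by
  intro h
  apply hθx
  have h1 : θ (xb - xb ^ (q ^ 2)) = 0 := by rw [← hvx, h, map_zero]
  rw [map_sub, pow_two, pow_mul, s36_th_theta_pow_char q θ hθ, sub_zero] at h1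
  exact h1

/-- **Thickness one, coordinate + local parameter.**  `x ∈ 𝔪` the (rational) local parameter with
the thickness identity, `t` a coordinate with `θ t̄ ≠ 0` such that `(θ t̄)^(q-1)` has a pole at the
point (`r b = (θ t̄)^(q-1) · r a`, `a ∈ 𝔪`, `b ∉ 𝔪`).  Then `γ ∉ 𝔪`. -/
theorem s36_tht_core (q : ℕ) (hq : 2 ≤ q) [CharP E q]
    (r : B →+* E) (θ : E →+ E) (hθ : ∀ f g, θ (f * g) = θ f * g + f * θ g)
    (𝔪 : Ideal B) [h𝔪 : 𝔪.IsPrime] (hker : ∀ z : B, r z = 0 → z ∈ 𝔪)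
    (x v γ : B) (hx𝔪 : x ∈ 𝔪)
    (hext : ∀ y ∈ 𝔪, ∃ d c : B, d ∉ 𝔪 ∧ r d * r y = r c * r x)
    (hD : ∀ f ∈ s36_th_O r 𝔪, ∃ g ∈ s36_th_O r 𝔪, θ f = g * θ (r x))
    (hvx : r v = r x - r x ^ (q ^ 2))
    (hid : r v ^ 2 * θ (r x) ^ q =
      r v ^ 2 * r x ^ (q - 1) * θ (r x) + r v * θ (r γ) - r γ * θ (r x))
    (t : B) (hθt : θ (r t) ≠ 0)
    (hρ : ∃ a b : B, a ∈ 𝔪 ∧ b ∉ 𝔪 ∧ r b = θ (r t) ^ (q - 1) * r a) :
    γ ∉ 𝔪 := by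
  have hθx : θ (r x) ≠ 0 := s36_tht_theta_ne r θ 𝔪 x hD t hθt
  have hv0 : r v ≠ 0 := s36_tht_v_ne q θ hθ (r x) (r v) hθx hvx
  exact s36_th_core_t q hq r θ hθ 𝔪 hker x v γ hx𝔪 hext hθx hD hvx hv0 hid t
    (Or.inl (s36_th_pole_of_frac r 𝔪 hker x hext _ hρ))

end Core

section Model

variable {F E : Type*} [Field F] [Field E]

/-- **Thickness one from (M5) for a coordinate `t`, local parameter `x`.**  As `s36_th_unit_D`,
with `hρ`, `hρinv` for the coordinate `t` instead of `x`, and without `hθx`, `hv0`. -/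
theorem s36_tht_unit (q : ℕ) (hq : 2 ≤ q) [CharP E q]
    (B V₁ V₂ : Subring F) (hB₁ : B ≤ V₁) (ϖ : F)
    (red : V₁ →+* E) (hker : ∀ z : V₁, red z = 0 ↔ ϖ⁻¹ * (z : F) ∈ V₁)
    (θ : E →+ E) (hθ : ∀ f g, θ (f * g) = θ f * g + f * θ g)
    (𝔪 : Ideal B) [𝔪.IsPrime]
    (hP₁ : ∀ p : B, ϖ⁻¹ * (p : F) ∈ V₁ → p ∈ 𝔪)
    (hP₂ : ∀ p : B, ϖ⁻¹ * (p : F) ∈ V₂ → p ∈ 𝔪)
    (x v γ : B) (hx𝔪 : x ∈ 𝔪)
    (hext : ∀ y ∈ 𝔪, ∃ d c : B, d ∉ 𝔪 ∧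
      ϖ⁻¹ * ((d : F) * (y : F) - (c : F) * (x : F)) ∈ V₁)
    (hD : ∀ f ∈ s36_th_O (red.comp (Subring.inclusion hB₁)) 𝔪,
      ∃ g ∈ s36_th_O (red.comp (Subring.inclusion hB₁)) 𝔪,
        θ f = g * θ (red (Subring.inclusion hB₁ x)))
    (hvx : red (Subring.inclusion hB₁ v) =
      red (Subring.inclusion hB₁ x) - red (Subring.inclusion hB₁ x) ^ (q ^ 2))
    (hid : red (Subring.inclusion hB₁ v) ^ 2 * θ (red (Subring.inclusion hB₁ x)) ^ q =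
      red (Subring.inclusion hB₁ v) ^ 2 * red (Subring.inclusion hB₁ x) ^ (q - 1) *
          θ (red (Subring.inclusion hB₁ x))
        + red (Subring.inclusion hB₁ v) * θ (red (Subring.inclusion hB₁ γ))
        - red (Subring.inclusion hB₁ γ) * θ (red (Subring.inclusion hB₁ x)))
    (t : B) (hθt : θ (red (Subring.inclusion hB₁ t)) ≠ 0)
    (ρt : V₁) (hρ : red ρt = θ (red (Subring.inclusion hB₁ t)) ^ (q - 1))
    (hρinv : ∃ a b : B, b ∉ 𝔪 ∧ (b : F) = (ρt : F) * (a : F) ∧ ϖ⁻¹ * (a : F) ∈ V₂) :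
    γ ∉ 𝔪 := by
  have hk : ∀ z : B, (red.comp (Subring.inclusion hB₁)) z = 0 → z ∈ 𝔪 := by
    intro z hz
    exact hP₁ z ((hker _).mp hz)
  have hext' : ∀ y ∈ 𝔪, ∃ d c : B, d ∉ 𝔪 ∧
      (red.comp (Subring.inclusion hB₁)) d * (red.comp (Subring.inclusion hB₁)) y =
        (red.comp (Subring.inclusion hB₁)) c * (red.comp (Subring.inclusion hB₁)) x := by
    intro y hy
    obtain ⟨d, c, hd, h⟩ := hext y hy
    refine ⟨d, c, hd, ?_⟩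
    have h0 : red (Subring.inclusion hB₁ (d * y - c * x)) = 0 := (hker _).mpr (by simpa using h)
    rw [map_sub, map_sub, map_mul, map_mul, map_mul, map_mul, sub_eq_zero] at h0
    exact h0
  have hpole : ∃ a b : B, a ∈ 𝔪 ∧ b ∉ 𝔪 ∧
      (red.comp (Subring.inclusion hB₁)) b =
        θ ((red.comp (Subring.inclusion hB₁)) t) ^ (q - 1) *
          (red.comp (Subring.inclusion hB₁)) a := by
    obtain ⟨a, b, hb, e, ha⟩ := hρinv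
    refine ⟨a, b, hP₂ a ha, hb, ?_⟩
    have e' : Subring.inclusion hB₁ b = ρt * Subring.inclusion hB₁ a := Subtype.ext e
    show red (Subring.inclusion hB₁ b) = _
    rw [e', map_mul, hρ]
    rfl
  exact s36_tht_core q hq (red.comp (Subring.inclusion hB₁)) θ hθ 𝔪 hk x v γ hx𝔪 hext' hD
    hvx hid t hθt hpole

/-- **Thickness one ⟹ two local generators**, coordinate `t` + local parameter `x`
(`s36_tht_unit` + `s36_pb_gen`). -/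
theorem s36_tht_gen (q : ℕ) (hq : 2 ≤ q) [CharP E q]
    (B V₁ V₂ : Subring F) (hB₁ : B ≤ V₁) (hB₂ : B ≤ V₂) (ϖ : F) (hϖ0 : ϖ ≠ 0)
    (hcap : ∀ x ∈ B, ϖ⁻¹ * x ∈ V₁ → ϖ⁻¹ * x ∈ V₂ → ϖ⁻¹ * x ∈ B)
    (red : V₁ →+* E) (hker : ∀ z : V₁, red z = 0 ↔ ϖ⁻¹ * (z : F) ∈ V₁)
    (θ : E →+ E) (hθ : ∀ f g, θ (f * g) = θ f * g + f * θ g)
    (𝔪 : Ideal B) [𝔪.IsPrime]
    (hP₁ : ∀ p : B, ϖ⁻¹ * (p : F) ∈ V₁ → p ∈ 𝔪)
    (hP₂ : ∀ p : B, ϖ⁻¹ * (p : F) ∈ V₂ → p ∈ 𝔪)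
    (u x v γ : B) (huv : (u : F) * (v : F) = ϖ * (γ : F))
    (hv₂ : ϖ⁻¹ * (v : F) ∈ V₂) (hx𝔪 : x ∈ 𝔪)
    (hext : ∀ y ∈ 𝔪, ∃ d c : B, d ∉ 𝔪 ∧
      ϖ⁻¹ * ((d : F) * (y : F) - (c : F) * (x : F)) ∈ V₁)
    (hD : ∀ f ∈ s36_th_O (red.comp (Subring.inclusion hB₁)) 𝔪,
      ∃ g ∈ s36_th_O (red.comp (Subring.inclusion hB₁)) 𝔪,
        θ f = g * θ (red (Subring.inclusion hB₁ x)))
    (hvx : red (Subring.inclusion hB₁ v) =
      red (Subring.inclusion hB₁ x) - red (Subring.inclusion hB₁ x) ^ (q ^ 2))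
    (hid : red (Subring.inclusion hB₁ v) ^ 2 * θ (red (Subring.inclusion hB₁ x)) ^ q =
      red (Subring.inclusion hB₁ v) ^ 2 * red (Subring.inclusion hB₁ x) ^ (q - 1) *
          θ (red (Subring.inclusion hB₁ x))
        + red (Subring.inclusion hB₁ v) * θ (red (Subring.inclusion hB₁ γ))
        - red (Subring.inclusion hB₁ γ) * θ (red (Subring.inclusion hB₁ x)))
    (t : B) (hθt : θ (red (Subring.inclusion hB₁ t)) ≠ 0)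
    (ρt : V₁) (hρ : red ρt = θ (red (Subring.inclusion hB₁ t)) ^ (q - 1))
    (hρinv : ∃ a b : B, b ∉ 𝔪 ∧ (b : F) = (ρt : F) * (a : F) ∧ ϖ⁻¹ * (a : F) ∈ V₂) :
    γ ∉ 𝔪 ∧ ∀ y ∈ 𝔪, ∃ w, w ∉ 𝔪 ∧ w * y ∈ Ideal.span {u, x} := by
  have hγ : γ ∉ 𝔪 := s36_tht_unit q hq B V₁ V₂ hB₁ ϖ red hker θ hθ 𝔪 hP₁ hP₂ x v γ hx𝔪 hext
    hD hvx hid t hθt ρt hρ hρinv
  have hθx : θ (red (Subring.inclusion hB₁ x)) ≠ 0 :=
    s36_tht_theta_ne (red.comp (Subring.inclusion hB₁)) θ 𝔪 x hD t hθt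
  have hv0 : red (Subring.inclusion hB₁ v) ≠ 0 := s36_tht_v_ne q θ hθ _ _ hθx hvx
  have hv0' : v ≠ 0 := by
    rintro rfl
    exact hv0 (by rw [map_zero, map_zero])
  exact ⟨hγ, s36_pb_gen B V₁ V₂ hB₁ hB₂ ϖ hϖ0 hcap 𝔪 u v γ x huv hγ hv₂ hv0' hext⟩

end Model

end Fermat.Agent.S36
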