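import Mathlib

/-!
# S36 (NODE-3), block TOP: the pure-algebra core

Abstract lemmas, independent of all geometry.

* `s36_ua_aug3` : in a ring `R` in which `2` is regular, if a group `G` maps to `R` by a monoid
  homomorphism `φ` such that `(φ g - 1) ^ 2 = 0` for every `g`, then the cube of the augmentation
  ideal vanishes: `(φ g₁ - 1) * (φ g₂ - 1) * (φ g₃ - 1) = 0`.
  (Steps: `a b a = 0`, `a b = - b a`, then `a b d = 0`.)
* `s36_ua_cube_end` : an additive group `H` with a `G`-action by `ρ : G →* AddMonoid.End H`, all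
  `(ρ g - 1) ^ 2 = 0`, no `2`-torsion, and "every `G`-fixed element is killed by `c`"
  ⟹ `c ^ 3` kills `H`.
* `s36_ua_cube` : the same for a `DistribMulAction G J`, a subgroup `I ≤ G` and an `I`-stable
  additive subgroup `H ≤ J` (all hypotheses only on `H` and for `g ∈ I`).
-/

set_option autoImplicit false

namespace Fermat.Agent.S36

section Ring

variable {R : Type*} [Ring R]

/-- `(1 + a) (1 + b) - 1` squared, when `a ^ 2 = 0 = b ^ 2`. -/
theorem s36_ua_sq_expand (a b : R) (ha : a * a = 0) (hb : b * b = 0) :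
    (a + b + a * b) * (a + b + a * b)
      = a * b + b * a + a * b * a + b * a * b + a * b * a * b := by
  have e : (a + b + a * b) * (a + b + a * b)
      = a * b + b * a + a * b * a + b * a * b + a * b * a * b
        + (a * a + b * b + (a * a) * b + a * (b * b)) := by noncomm_ring
  rw [e, ha, hb]
  simp

/-- Ring form of `a b a = 0`. -/
theorem s36_ua_aba_ring (a b u : R) (ha : a * a = 0) (hb : b * b = 0) (hu : (1 + b) * u = 1)
    (h1 : (a + b + a * b) * (a + b + a * b) = 0)
    (h1' : (-a + b + -a * b) * (-a + b + -a * b) = 0)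
    (h2 : ∀ x : R, 2 * x = 0 → x = 0) : a * b * a = 0 := by
  have hi : a * b + b * a + a * b * a + b * a * b + a * b * a * b = 0 := by
    rw [← s36_ua_sq_expand a b ha hb]; exact h1
  have hna : (-a) * (-a) = 0 := by rw [neg_mul_neg, ha]
  have hii : (-a) * b + b * (-a) + (-a) * b * (-a) + b * (-a) * b + (-a) * b * (-a) * b = 0 := by
    rw [← s36_ua_sq_expand (-a) b hna hb]; exact h1'
  have hsum : 2 * (a * b * a + a * b * a * b) = 0 := by
    have h3 : 2 * (a * b * a + a * b * a * b)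
        = (a * b + b * a + a * b * a + b * a * b + a * b * a * b)
          + ((-a) * b + b * (-a) + (-a) * b * (-a) + b * (-a) * b + (-a) * b * (-a) * b) := by
      noncomm_ring
    rw [h3, hi, hii, add_zero]
  have h4 : a * b * a + a * b * a * b = 0 := h2 _ hsum
  have h5 : a * b * a * (1 + b) = 0 := by
    have : a * b * a * (1 + b) = a * b * a + a * b * a * b := by noncomm_ring
    rw [this, h4]
  calc a * b * a = a * b * a * ((1 + b) * u) := by rw [hu, mul_one]
    _ = a * b * a * (1 + b) * u := by rw [mul_assoc (a * b * a)]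
    _ = 0 := by rw [h5, zero_mul]

/-- Ring form of `a b d = 0` from pairwise anticommutation (also with `a + b + a b`). -/
theorem s36_ua_abd_ring (a b d : R) (had : a * d + d * a = 0) (hbd : b * d + d * b = 0)
    (hcd : (a + b + a * b) * d + d * (a + b + a * b) = 0)
    (h2 : ∀ x : R, 2 * x = 0 → x = 0) : a * b * d = 0 := by
  have h3 : a * b * d + d * (a * b) = 0 := by
    have : a * b * d + d * (a * b)
        = ((a + b + a * b) * d + d * (a + b + a * b)) - (a * d + d * a) - (b * d + d * b) := by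
      noncomm_ring
    rw [this, hcd, had, hbd]; simp
  have hbd' : b * d = -(d * b) := eq_neg_of_add_eq_zero_left hbd
  have had' : a * d = -(d * a) := eq_neg_of_add_eq_zero_left had
  have h4 : a * b * d = d * (a * b) := by
    calc a * b * d = a * (b * d) := by rw [mul_assoc]
      _ = a * (-(d * b)) := by rw [hbd']
      _ = -(a * d * b) := by rw [mul_neg, mul_assoc]
      _ = -(-(d * a) * b) := by rw [had']
      _ = d * (a * b) := by rw [neg_mul, neg_neg, mul_assoc]
  have h5 : 2 * (a * b * d) = 0 := by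
    have : 2 * (a * b * d) = a * b * d + d * (a * b) := by
      rw [← h4]; noncomm_ring
    rw [this, h3]
  exact h2 _ h5

variable {G : Type*} [Group G] (φ : G →* R)

/-- The image of the inverse: `φ g⁻¹ - 1 = -(φ g - 1)` when `(φ g - 1) ^ 2 = 0`. -/
theorem s36_ua_inv (h : ∀ g : G, (φ g - 1) * (φ g - 1) = 0) (g : G) :
    φ g⁻¹ - 1 = -(φ g - 1) := by
  have h1 : φ g⁻¹ * φ g = 1 := by rw [← map_mul, inv_mul_cancel, map_one]
  have h2 : φ g * (φ g - 1) = φ g - 1 := by
    have h3 : φ g * (φ g - 1) = (φ g - 1) * (φ g - 1) + (φ g - 1) := by noncomm_ring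
    rw [h3, h g, zero_add]
  have h4 : φ g⁻¹ * (φ g * (φ g - 1)) = φ g⁻¹ * (φ g - 1) := by rw [h2]
  rw [← mul_assoc, h1, one_mul, mul_sub, h1, mul_one] at h4
  -- h4 : φ g - 1 = 1 - φ g⁻¹
  have h5 : φ g⁻¹ - 1 = -(1 - φ g⁻¹) := by abel
  rw [h5, ← h4]

theorem s36_ua_mul (σ τ : G) :
    φ (σ * τ) - 1 = (φ σ - 1) + (φ τ - 1) + (φ σ - 1) * (φ τ - 1) := by
  rw [map_mul]; noncomm_ring

/-- `a b a = 0`. -/
theorem s36_ua_aba (h : ∀ g : G, (φ g - 1) * (φ g - 1) = 0)
    (h2 : ∀ x : R, 2 * x = 0 → x = 0) (σ τ : G) :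
    (φ σ - 1) * (φ τ - 1) * (φ σ - 1) = 0 := by
  have hinv : φ σ⁻¹ - 1 = -(φ σ - 1) := s36_ua_inv φ h σ
  have hsq1 := h (σ * τ)
  have hsq2 := h (σ⁻¹ * τ)
  rw [s36_ua_mul] at hsq1
  rw [s36_ua_mul, hinv] at hsq2
  refine s36_ua_aba_ring (φ σ - 1) (φ τ - 1) (φ τ⁻¹) (h σ) (h τ) ?_ hsq1 hsq2 h2
  have : (1 : R) + (φ τ - 1) = φ τ := by abel
  rw [this, ← map_mul, mul_inv_cancel, map_one]

/-- Anticommutation: `a b + b a = 0`. -/
theorem s36_ua_anti (h : ∀ g : G, (φ g - 1) * (φ g - 1) = 0)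
    (h2 : ∀ x : R, 2 * x = 0 → x = 0) (σ τ : G) :
    (φ σ - 1) * (φ τ - 1) + (φ τ - 1) * (φ σ - 1) = 0 := by
  have haba := s36_ua_aba φ h h2 σ τ
  have hbab := s36_ua_aba φ h h2 τ σ
  have hsq1 := h (σ * τ)
  rw [s36_ua_mul, s36_ua_sq_expand _ _ (h σ) (h τ), haba, hbab, zero_mul, add_zero, add_zero,
    add_zero] at hsq1
  exact hsq1

/-- **The cube of the augmentation ideal vanishes.** -/
theorem s36_ua_aug3 (h : ∀ g : G, (φ g - 1) * (φ g - 1) = 0)
    (h2 : ∀ x : R, 2 * x = 0 → x = 0) (σ τ κ : G) :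
    (φ σ - 1) * (φ τ - 1) * (φ κ - 1) = 0 := by
  have had := s36_ua_anti φ h h2 σ κ
  have hbd := s36_ua_anti φ h h2 τ κ
  have hcd := s36_ua_anti φ h h2 (σ * τ) κ
  rw [s36_ua_mul] at hcd
  exact s36_ua_abd_ring _ _ _ had hbd hcd h2

end Ring

section EndVersion

variable {H : Type*} [AddCommGroup H] {G : Type*} [Group G]

/-- `c ^ 3` kills `H` if every `G`-fixed element is killed by `c` and all `(ρ g - 1) ^ 2 = 0`. -/
theorem s36_ua_cube_end (ρ : G →* AddMonoid.End H)
    (hunip : ∀ (g : G) (x : H), ρ g (ρ g x) + x = ρ g x + ρ g x)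
    (htwo : ∀ x : H, x + x = 0 → x = 0)
    (c : ℕ) (hfix : ∀ x : H, (∀ g : G, ρ g x = x) → c • x = 0) (x : H) :
    c ^ 3 • x = 0 := by
  have mul_ap : ∀ (f g : AddMonoid.End H) (y : H), (f * g) y = f (g y) := fun _ _ _ => rfl
  have sub_ap : ∀ (f g : AddMonoid.End H) (y : H), (f - g) y = f y - g y := fun _ _ _ => rfl
  have one_ap : ∀ y : H, (1 : AddMonoid.End H) y = y := fun _ => rfl
  have zero_ap : ∀ y : H, (0 : AddMonoid.End H) y = 0 := fun _ => rfl
  -- the ring identities
  have h : ∀ g : G, (ρ g - 1) * (ρ g - 1) = 0 := by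
    intro g
    ext y
    have h0 := hunip g y
    rw [mul_ap, sub_ap, sub_ap, one_ap, zero_ap, map_sub, one_ap]
    have h1 : ρ g (ρ g y) = ρ g y + ρ g y - y := by
      rw [← h0]; abel
    rw [h1]; abel
  have h2 : ∀ f : AddMonoid.End H, 2 * f = 0 → f = 0 := by
    intro f hf
    ext y
    have h3 : (2 * f) y = f y + f y := by
      rw [two_mul]; rfl
    rw [hf, zero_ap] at h3
    rw [zero_ap]
    exact htwo _ h3.symm
  have h3 := s36_ua_aug3 ρ h h2
  -- evaluate
  have hev : ∀ (σ τ κ : G) (y : H), (ρ σ - 1) ((ρ τ - 1) ((ρ κ - 1) y)) = 0 := by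
    intro σ τ κ y
    have h4 := congrArg (fun e : AddMonoid.End H => e y) (h3 σ τ κ)
    exact h4
  have hinv : ∀ y : H, (∀ g : G, (ρ g - 1) y = 0) → c • y = 0 := by
    intro y hy
    apply hfix
    intro g
    have h4 := hy g
    rw [sub_ap, one_ap] at h4
    exact sub_eq_zero.mp h4
  have hsm : ∀ (f : AddMonoid.End H) (n : ℕ) (y : H), f (n • y) = n • f y := by
    intro f n y; exact map_nsmul f n y
  -- step 1: `(ρ τ - 1) (ρ κ - 1) (c • y) = 0`
  have s1 : ∀ (τ κ : G) (y : H), (ρ τ - 1) ((ρ κ - 1) (c • y)) = 0 := by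
    intro τ κ y
    rw [hsm, hsm]
    exact hinv _ (fun σ => hev σ τ κ y)
  -- step 2: `(ρ κ - 1) (c • c • y) = 0`
  have s2 : ∀ (κ : G) (y : H), (ρ κ - 1) (c • c • y) = 0 := by
    intro κ y
    rw [hsm]
    exact hinv _ (fun τ => s1 τ κ y)
  -- step 3
  have s3 : c • c • c • x = 0 := hinv _ (fun κ => s2 κ x)
  have h5 : c ^ 3 • x = c • c • c • x := by
    rw [smul_smul, smul_smul]; congr 1; ring
  rw [h5, s3]

end EndVersion

section ActionVersion

variable {J : Type*} [AddCommGroup J] {G : Type*} [Group G] [DistribMulAction G J]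

/-- **The algebra core of TOP.** `I ≤ G` acts on the `I`-stable subgroup `H ≤ J` with
`(g - 1) ^ 2 = 0`; `H` has no `2`-torsion; every `I`-fixed element of `H` is killed by `c`.
Then `c ^ 3` kills `H`. -/
theorem s36_ua_cube (I : Subgroup G) (H : AddSubgroup J)
    (hstab : ∀ g ∈ I, ∀ x ∈ H, g • x ∈ H)
    (hunip : ∀ g ∈ I, ∀ x ∈ H, g • g • x + x = g • x + g • x)
    (htwo : ∀ x ∈ H, x + x = 0 → x = 0)
    (c : ℕ) (hfix : ∀ x ∈ H, (∀ g ∈ I, g • x = x) → c • x = 0) :
    ∀ x ∈ H, c ^ 3 • x = 0 := by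
  -- the restricted action as a monoid hom `I →* AddMonoid.End H`
  let ρ : I →* AddMonoid.End H :=
    { toFun := fun g =>
        AddMonoidHom.mk' (fun x : H => (⟨(g : G) • (x : J), hstab g g.2 x x.2⟩ : H))
          (by intro x y; apply Subtype.ext; simp)
      map_one' := by
        apply AddMonoidHom.ext; intro x; apply Subtype.ext
        show ((1 : I) : G) • (x : J) = x
        simp
      map_mul' := by
        intro g g'
        apply AddMonoidHom.ext; intro x; apply Subtype.ext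
        show ((g * g' : I) : G) • (x : J) = (g : G) • (g' : G) • (x : J)
        rw [Subgroup.coe_mul, mul_smul] }
  have hρ : ∀ (g : I) (x : H), ((ρ g x : H) : J) = (g : G) • (x : J) := fun _ _ => rfl
  intro x hx
  have key := s36_ua_cube_end ρ
    (by
      intro g y
      apply Subtype.ext
      rw [AddSubgroup.coe_add, AddSubgroup.coe_add, hρ, hρ]
      exact hunip g g.2 y y.2)
    (by
      intro y hy
      apply Subtype.ext
      have h1 := congrArg (fun z : H => (z : J)) hy
      simp only [AddSubgroup.coe_add, AddSubgroup.coe_zero] at h1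
      rw [AddSubgroup.coe_zero]
      exact htwo y y.2 h1)
    c
    (by
      intro y hy
      apply Subtype.ext
      have h1 : c • (y : J) = 0 := by
        apply hfix y y.2
        intro g hg
        have h2 := congrArg (fun z : H => (z : J)) (hy ⟨g, hg⟩)
        exact h2
      rw [AddSubgroup.coe_nsmul, h1, AddSubgroup.coe_zero])
    ⟨x, hx⟩
  have h3 := congrArg (fun z : H => (z : J)) key
  simp only [AddSubgroup.coe_nsmul, AddSubgroup.coe_zero] at h3
  exact h3

end ActionVersion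

end Fermat.Agent.S36
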