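import Mathlib
import Fermat.Agent.S36.UnipAlg
import Fermat.Agent.S36.DetTrick

/-!
# S36 (NODE-3), block TOP: the abstract core

Pure algebra (Mathlib only), combining the cube lemma `s36_ua_cube` and the determinant trick
`s36_dt_main`.

* `s36_tc_comb` : `J` a finite abelian `p`-group (`p` odd) with an action `gM` of a group `G`
  and a commuting action `φ` of a commutative ring `R`; `I ≤ G` a subgroup, `Y ≤ J` stable under
  `I` and `R`, `𝔰` an ideal of `R` such that every `τ ∈ I` satisfies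
  `(τ - 1)² = τ ∘ φ(t)` for some `t ∈ 𝔰` (reverse transfer), and such that the `I`-fixed
  elements of `Y` are killed by `c`.  Then `c ^ (3 E) + a` kills `Y` for some `a ∈ 𝔰`,
  `E = #J[p]`.
* `s36_tc_main` : the same for `Y` the subgroup generated by the `G`-conjugates of `ι (e₀ Λ)`,
  `ι : Λ → J` with kernel `p ^ n Λ`, pulled back to `Λ`:
  `θ (c ^ (3 E) + a) (e₀ ψ) ∈ p ^ n Λ`.
* `s36_tc_intertwine`, `s36_tc_commute` : generator-level hypotheses suffice for polynomial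
  rings.
-/

set_option autoImplicit false

namespace Fermat.Agent.S36

/-- An element killed by `2` and by a power of an odd prime vanishes. -/
theorem s36_tc_two {J : Type*} [AddCommGroup J] (p n : ℕ) (hp : p.Prime) (hp2 : p ≠ 2)
    (x : J) (hx : (p ^ n) • x = 0) (h2 : x + x = 0) : x = 0 := by
  have h2' : 2 • x = 0 := by rw [two_nsmul]; exact h2
  have hcop : Nat.Coprime 2 (p ^ n) :=
    Nat.Coprime.pow_right n ((Nat.coprime_primes Nat.prime_two hp).mpr (fun h => hp2 h.symm))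
  have h1 : addOrderOf x ∣ 2 := addOrderOf_dvd_of_nsmul_eq_zero h2'
  have h3 : addOrderOf x ∣ p ^ n := addOrderOf_dvd_of_nsmul_eq_zero hx
  have h4 : addOrderOf x ∣ 1 := by
    have := Nat.dvd_gcd h1 h3
    rwa [hcop.gcd_eq_one] at this
  exact AddMonoid.addOrderOf_eq_one_iff.mp (Nat.dvd_one.mp h4)

/-- **Combination of the cube lemma and the determinant trick.** -/
theorem s36_tc_comb {J : Type*} [AddCommGroup J] [Finite J] (p n : ℕ) (hp : p.Prime)
    (hp2 : p ≠ 2) (hJ : ∀ y : J, (p ^ n) • y = 0)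
    {G : Type*} [Group G] (gM : G →* Module.End ℤ J) (I : Subgroup G)
    {R : Type*} [CommRing R] (φ : R →+* Module.End ℤ J)
    (hcomm : ∀ (r : R), ∀ σ ∈ I, ∀ y : J, φ r (gM σ y) = gM σ (φ r y))
    (Y : AddSubgroup J) (hYG : ∀ σ ∈ I, ∀ y ∈ Y, gM σ y ∈ Y)
    (hYR : ∀ (r : R), ∀ y ∈ Y, φ r y ∈ Y)
    (𝔰 : Ideal R)
    (hRT : ∀ τ ∈ I, ∃ t ∈ 𝔰, ∀ y : J, gM τ (gM τ y) - 2 • gM τ y + y = gM τ (φ t y))
    (c : ℕ) (hfix : ∀ y ∈ Y, (∀ τ ∈ I, gM τ y = y) → c • y = 0) :
    ∃ a ∈ 𝔰, ∀ y ∈ Y, ((c ^ 3) ^ Nat.card {y : J // p • y = 0}) • y + φ a y = 0 := by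
  refine s36_dt_main p n hp hJ φ 𝔰 Y hYR (c ^ 3) ?_
  intro y hy hs
  -- the `𝔰`-torsion of `Y`
  let H : AddSubgroup J :=
    { carrier := {y | y ∈ Y ∧ ∀ s ∈ 𝔰, φ s y = 0}
      add_mem' := fun {a b} ha hb => ⟨Y.add_mem ha.1 hb.1, fun s hs => by
        rw [map_add, ha.2 s hs, hb.2 s hs, add_zero]⟩
      zero_mem' := ⟨Y.zero_mem, fun s _ => map_zero _⟩
      neg_mem' := fun {a} ha => ⟨Y.neg_mem ha.1, fun s hs => by
        rw [map_neg, ha.2 s hs, neg_zero]⟩ }
  letI : DistribMulAction G J := DistribMulAction.compHom J gM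
  have hsmul : ∀ (g : G) (x : J), g • x = gM g x := fun _ _ => rfl
  refine s36_ua_cube I H ?_ ?_ ?_ c ?_ y ⟨hy, hs⟩
  · intro g hg x hx
    rw [hsmul]
    refine ⟨hYG g hg x hx.1, fun s hs => ?_⟩
    rw [hcomm s g hg x, hx.2 s hs, map_zero]
  · intro g hg x hx
    rw [hsmul, hsmul]
    obtain ⟨t, ht, h⟩ := hRT g hg
    have h1 := h x
    rw [hx.2 t ht, map_zero] at h1
    have h2 : gM g (gM g x) + x = 2 • gM g x := by
      have : gM g (gM g x) + x = (gM g (gM g x) - 2 • gM g x + x) + 2 • gM g x := by abel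
      rw [this, h1, zero_add]
    rw [h2, two_nsmul]
  · intro x _ hxx
    exact s36_tc_two p n hp hp2 x (hJ x) hxx
  · intro x hx hfx
    exact hfix x hx.1 (fun τ hτ => by rw [← hsmul]; exact hfx τ hτ)

/-- **Abstract core of TOP.** -/
theorem s36_tc_main {J : Type*} [AddCommGroup J] [Finite J] (p n : ℕ) (hp : p.Prime)
    (hp2 : p ≠ 2) (hJ : ∀ y : J, (p ^ n) • y = 0)
    {G : Type*} [Group G] (gM : G →* Module.End ℤ J) (I : Subgroup G)
    {R : Type*} [CommRing R] (φ : R →+* Module.End ℤ J)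
    (hcomm : ∀ (r : R) (σ : G) (y : J), φ r (gM σ y) = gM σ (φ r y))
    {Λ : Type*} [AddCommGroup Λ] (ι : Λ →+ J)
    (hker : ∀ ψ : Λ, ι ψ = 0 → ∃ ψ' : Λ, ψ = (p ^ n) • ψ')
    (θ : R →+* Module.End ℤ Λ) (hθ : ∀ (r : R) (ψ : Λ), ι (θ r ψ) = φ r (ι ψ))
    (e₀ : Module.End ℤ Λ) (he₀ : ∀ (r : R) (ψ : Λ), θ r (e₀ ψ) = e₀ (θ r ψ))
    (Nw : AddSubgroup J) (hNwG : ∀ (σ : G), ∀ y ∈ Nw, gM σ y ∈ Nw)
    (hNwe : ∀ ψ : Λ, ι (e₀ ψ) ∈ Nw)
    (c : ℕ) (hfix : ∀ y ∈ Nw, (∀ τ ∈ I, gM τ y = y) → c • y = 0)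
    (𝔰 : Ideal R)
    (hRT : ∀ τ ∈ I, ∃ t ∈ 𝔰, ∀ y : J, gM τ (gM τ y) - 2 • gM τ y + y = gM τ (φ t y))
    (E : ℕ) (hE : Nat.card {y : J // p • y = 0} ≤ E) :
    ∃ a ∈ 𝔰, ∀ ψ : Λ, ∃ ψ' : Λ,
      θ ((((c ^ 3) ^ E : ℕ) : R) + a) (e₀ ψ) = (p ^ n) • ψ' := by
  -- the subgroup generated by the conjugates of `ι (e₀ Λ)`
  let gen : Set J := {y | ∃ (σ : G) (ψ : Λ), y = gM σ (ι (e₀ ψ))}
  have hYG : ∀ σ : G, ∀ y ∈ AddSubgroup.closure gen, gM σ y ∈ AddSubgroup.closure gen := by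
    intro σ y hy
    induction hy using AddSubgroup.closure_induction with
    | mem x hx =>
      obtain ⟨σ', ψ, rfl⟩ := hx
      refine AddSubgroup.subset_closure ⟨σ * σ', ψ, ?_⟩
      rw [map_mul, Module.End.mul_apply]
    | zero => rw [map_zero]; exact AddSubgroup.zero_mem _
    | add x y _ _ hx hy => rw [map_add]; exact AddSubgroup.add_mem _ hx hy
    | neg x _ hx => rw [map_neg]; exact AddSubgroup.neg_mem _ hx
  have hYR : ∀ r : R, ∀ y ∈ AddSubgroup.closure gen, φ r y ∈ AddSubgroup.closure gen := by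
    intro r y hy
    induction hy using AddSubgroup.closure_induction with
    | mem x hx =>
      obtain ⟨σ', ψ, rfl⟩ := hx
      refine AddSubgroup.subset_closure ⟨σ', θ r ψ, ?_⟩
      rw [hcomm, ← hθ, he₀]
    | zero => rw [map_zero]; exact AddSubgroup.zero_mem _
    | add x y _ _ hx hy => rw [map_add]; exact AddSubgroup.add_mem _ hx hy
    | neg x _ hx => rw [map_neg]; exact AddSubgroup.neg_mem _ hx
  have hYNw : AddSubgroup.closure gen ≤ Nw := by
    rw [AddSubgroup.closure_le]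
    rintro _ ⟨σ, ψ, rfl⟩
    exact hNwG σ _ (hNwe ψ)
  obtain ⟨a, ha, hkill⟩ := s36_tc_comb p n hp hp2 hJ gM I φ (fun r σ _ y => hcomm r σ y)
    (AddSubgroup.closure gen) (fun σ _ y hy => hYG σ y hy) hYR 𝔰 hRT c
    (fun y hy => hfix y (hYNw hy))
  -- padding of the exponent
  obtain ⟨u, hu⟩ := Nat.exists_eq_add_of_le hE
  refine ⟨(((c ^ 3) ^ u : ℕ) : R) * a, 𝔰.mul_mem_left _ ha, fun ψ => hker _ ?_⟩
  have hmem : ι (e₀ ψ) ∈ AddSubgroup.closure gen :=
    AddSubgroup.subset_closure ⟨1, ψ, by rw [map_one, Module.End.one_apply]⟩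
  have e2 : (((c ^ 3) ^ E : ℕ) : R) + (((c ^ 3) ^ u : ℕ) : R) * a
      = (((c ^ 3) ^ u : ℕ) : R)
        * ((((c ^ 3) ^ Nat.card {y : J // p • y = 0} : ℕ) : R) + a) := by
    rw [hu]
    push_cast
    ring
  rw [hθ, e2, map_mul, Module.End.mul_apply, map_add, map_natCast, map_natCast,
    LinearMap.add_apply, Module.End.natCast_apply, Module.End.natCast_apply, hkill _ hmem,
    nsmul_zero]

/-- If `g D = g² + 1` then `(g - 1)² = g (D - 2)`, evaluated at `y`. -/
theorem s36_tc_rel {J : Type*} [AddCommGroup J] (g D : Module.End ℤ J)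
    (hrel : g * D = g * g + 1) (y : J) : g (g y) - 2 • g y + y = g ((D - 2) y) := by
  have h7 := congrArg (fun f : Module.End ℤ J => f y) hrel
  simp only [Module.End.mul_apply, LinearMap.add_apply, Module.End.one_apply] at h7
  have h8 : (2 : Module.End ℤ J) y = 2 • y := by
    rw [← one_add_one_eq_two, LinearMap.add_apply, Module.End.one_apply, two_nsmul]
  rw [LinearMap.sub_apply, map_sub, h7, h8, map_nsmul]
  abel

/-- Polynomial rings: an additive map intertwining the generators intertwines everything. -/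
theorem s36_tc_intertwine {σ : Type*} {Λ J : Type*} [AddCommGroup Λ] [AddCommGroup J]
    (ι : Λ →+ J) (θ : MvPolynomial σ ℤ →+* Module.End ℤ Λ)
    (φ : MvPolynomial σ ℤ →+* Module.End ℤ J)
    (h : ∀ (i : σ) (ψ : Λ), ι (θ (MvPolynomial.X i) ψ) = φ (MvPolynomial.X i) (ι ψ))
    (r : MvPolynomial σ ℤ) (ψ : Λ) : ι (θ r ψ) = φ r (ι ψ) := by
  induction r using MvPolynomial.induction_on generalizing ψ with
  | C a =>
    have h1 : (MvPolynomial.C a : MvPolynomial σ ℤ) = (a : MvPolynomial σ ℤ) :=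
      eq_intCast MvPolynomial.C a
    rw [h1, map_intCast, map_intCast, Module.End.intCast_apply, Module.End.intCast_apply,
      map_zsmul]
  | add p q hp hq =>
    rw [map_add, map_add, LinearMap.add_apply, LinearMap.add_apply, map_add, hp, hq]
  | mul_X p i hp =>
    rw [map_mul, map_mul, Module.End.mul_apply, Module.End.mul_apply, hp, h]

/-- Polynomial rings: an endomorphism commuting with the generators commutes with everything. -/
theorem s36_tc_commute {σ : Type*} {J : Type*} [AddCommGroup J]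
    (φ : MvPolynomial σ ℤ →+* Module.End ℤ J) (g : Module.End ℤ J)
    (h : ∀ (i : σ) (y : J), φ (MvPolynomial.X i) (g y) = g (φ (MvPolynomial.X i) y))
    (r : MvPolynomial σ ℤ) (y : J) : φ r (g y) = g (φ r y) := by
  induction r using MvPolynomial.induction_on generalizing y with
  | C a =>
    have h1 : (MvPolynomial.C a : MvPolynomial σ ℤ) = (a : MvPolynomial σ ℤ) :=
      eq_intCast MvPolynomial.C a
    rw [h1, map_intCast, Module.End.intCast_apply, Module.End.intCast_apply, map_zsmul]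
  | add p q hp hq =>
    rw [map_add, LinearMap.add_apply, LinearMap.add_apply, map_add, hp, hq]
  | mul_X p i hp =>
    rw [map_mul, Module.End.mul_apply, Module.End.mul_apply, h, hp]

end Fermat.Agent.S36
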