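import Fermat.Agent.S35.FrobTransferPol
import Fermat.Agent.S36.RevTransferAbs
import Fermat.Agent.S36.TopCore

/-!
# S36 (NODE-3), block TOP: the level `n` statement on `J₀(M)[p ^ n]`

* `s36_tl_Pol S = ℤ[X_ℓ : ℓ ∉ S]`, with its maps to the Hecke polynomial ring `s35_Pol M`
  (`s36_tl_toPol`) and its action on `J₀(M)[m]` through the Hecke operators (`s36_tl_phi`).
* `s36_tl_level` : let `P` be a place over `q ≠ p`, `Nw ≤ J₀(M)(ℚ̄)` a Galois-stable subgroup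
  whose inertia-fixed `p ^ n`-torsion is killed by `c`, `ι : Λ → J₀(M)[p ^ n]` a bridge map with
  `ι (ev(e) Λ) ⊆ Nw`, and `𝔰` an ideal of `s36_tl_Pol S` containing the elements
  `D_j(X_ℓ, ℓ) - 2` for all `(ℓ, σ, j)` with `σ ^ j = τ` on the level `L`, `τ` in the inertia
  group of `P`.  Then there is `a ∈ 𝔰` such that `ev((c ^ (3 E) + a) e)` maps `Λ` into
  `p ^ n Λ`, where `E = #J₀(M)[p]` does not depend on `n`.
-/

set_option autoImplicit false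

open Polynomial AlgebraicCurve ModularCurve CongruenceSubgroup ModularCurve.Period
open Fermat.Agent.S18 Fermat.Agent.S29 Fermat.Agent.S31 Fermat.Agent.S34 Fermat.Agent.S35

noncomputable section

namespace Fermat.Agent.S36

local notation "Qb" => AlgebraicClosure ℚ
local notation "Γ" => (AlgebraicClosure ℚ ≃ₐ[ℚ] AlgebraicClosure ℚ)

/-- primes outside `S`. -/
abbrev s36_tl_Idx (S : Finset ℕ) : Type := {l : Nat.Primes // (l : ℕ) ∉ S}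

/-- the polynomial ring `ℤ[X_ℓ : ℓ ∉ S]`. -/
abbrev s36_tl_Pol (S : Finset ℕ) : Type := MvPolynomial (s36_tl_Idx S) ℤ

/-- restriction of endomorphisms of `J₀(N)(ℚ̄)` to the `m`-torsion. -/
def s36_tl_res (N m : ℕ) [NeZero N] :
    Module.End ℤ (JZero N) →+* Module.End ℤ (s29_wa_Jp N m) where
  toFun f :=
    { toFun := fun x => ⟨f (x : JZero N), by
        have hx : m • (x : JZero N) = 0 := x.2
        rw [s29_wa_mem_Jp, ← map_nsmul, hx, map_zero]⟩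
      map_add' := fun x y => Subtype.ext (map_add f (x : JZero N) (y : JZero N))
      map_smul' := fun a x => Subtype.ext (map_zsmul f a (x : JZero N)) }
  map_one' := LinearMap.ext fun _ => Subtype.ext rfl
  map_mul' _ _ := LinearMap.ext fun _ => Subtype.ext rfl
  map_zero' := LinearMap.ext fun _ => Subtype.ext rfl
  map_add' _ _ := LinearMap.ext fun _ => Subtype.ext rfl

theorem s36_tl_res_coe (N m : ℕ) [NeZero N] (f : Module.End ℤ (JZero N)) (x : s29_wa_Jp N m) :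
    ((s36_tl_res N m f x : s29_wa_Jp N m) : JZero N) = f (x : JZero N) := rfl

/-- the action of `ℤ[X_ℓ : ℓ ∉ S]` on `J₀(N)[m]`, `X_ℓ ↦ T_ℓ`. -/
def s36_tl_phi (N m : ℕ) [NeZero N] (S : Finset ℕ) :
    s36_tl_Pol S →+* Module.End ℤ (s29_wa_Jp N m) :=
  (s36_tl_res N m).comp ((heckeEvalBar (s29_hc_commute N)).comp
    (MvPolynomial.rename (R := ℤ) (fun i : s36_tl_Idx S => (i.1 : Nat.Primes))).toRingHom)

theorem s36_tl_phi_X (N m : ℕ) [NeZero N] (S : Finset ℕ) (i : s36_tl_Idx S) :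
    s36_tl_phi N m S (MvPolynomial.X i) = s29_wa_hecke N m i.1 := by
  refine LinearMap.ext fun x => Subtype.ext ?_
  show heckeEvalBar (s29_hc_commute N)
    (MvPolynomial.rename (R := ℤ) (fun i : s36_tl_Idx S => (i.1 : Nat.Primes))
      (MvPolynomial.X i)) (x : JZero N) = heckeOperatorBar N i.1 (x : JZero N)
  rw [MvPolynomial.rename_X]
  exact congrArg (fun f : Module.End ℤ (JZero N) => f (x : JZero N))
    (heckeEvalBar_heckeGen (s29_hc_commute N) i.1)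

/-- the map to the Hecke polynomial ring `ℤ[X_ℓ : ℓ ∤ M]`. -/
def s36_tl_toPol (M : ℕ) (S : Finset ℕ) (hMS : ∀ q : ℕ, q.Prime → q ∣ M → q ∈ S) :
    s36_tl_Pol S →+* s35_Pol M :=
  (MvPolynomial.rename (R := ℤ) (fun i : s36_tl_Idx S =>
    (⟨(i.1 : ℕ), i.1.2, fun h => i.2 (hMS _ i.1.2 h)⟩ : s35_Idx M))).toRingHom

theorem s36_tl_toPol_X (M : ℕ) (S : Finset ℕ) (hMS : ∀ q : ℕ, q.Prime → q ∣ M → q ∈ S)
    (i : s36_tl_Idx S) :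
    s36_tl_toPol M S hMS (MvPolynomial.X i)
      = MvPolynomial.X (⟨(i.1 : ℕ), i.1.2, fun h => i.2 (hMS _ i.1.2 h)⟩ : s35_Idx M) :=
  MvPolynomial.rename_X _ i

/-- **Reverse transfer on `J₀(M)[p ^ n]`.** -/
theorem s36_tl_rt (M : ℕ) [NeZero M] (p : ℕ) (hp : p.Prime) (S : Finset ℕ)
    (hpS : p ∈ S) (hMS : ∀ q : ℕ, q.Prime → q ∣ M → q ∈ S) (hcheb : s29_asm_Cheb) (n : ℕ)
    (L : IntermediateField ℚ Qb) [FiniteDimensional ℚ L]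
    (q : ℕ) (hq : q.Prime) (hqp : q ≠ p) (P : ValuationSubring Qb) (hP : P.LiesOverPrime q)
    (τ : Γ) (hτ : τ ∈ P.inertiaSubgroupIn ℚ) :
    ∃ (ℓ : Nat.Primes) (A : ValuationSubring Qb) (σ : Γ) (j : ℕ),
      (ℓ : ℕ) ∉ S ∧ A.LiesOverPrime ℓ ∧ A.IsFrobeniusAt σ ℓ ∧
      (∀ x ∈ L, τ x = (σ ^ j) x) ∧
      s29_wa_gal M (p ^ n) τ * s31_dk (s29_wa_hecke M (p ^ n) ℓ)
          (((ℓ : ℕ) : ℕ) : Module.End ℤ (s29_wa_Jp M (p ^ n))) j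
        = s29_wa_gal M (p ^ n) τ * s29_wa_gal M (p ^ n) τ + 1 := by
  classical
  have hpn0 : p ^ n ≠ 0 := pow_ne_zero n hp.ne_zero
  have hS37 := Fermat.Agent.S37.result M (p ^ n) (s29_hc_commute M)
  have hnd : ∀ ℓ : ℕ, ℓ.Prime → ℓ ∉ S → ¬ ℓ ∣ M * p ^ n :=
    fun ℓ hℓ hℓS => s31_ti_not_dvd M p n hp S hpS hMS ℓ hℓ hℓS
  have hfin : Finite (s29_wa_Jp M (p ^ n)) := by
    have := s29_bt_finite_sub M (p ^ n) hpn0
    exact Finite.of_injective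
      (fun x : s29_wa_Jp M (p ^ n) => (⟨x.1, x.2⟩ : {x : JZero M // (p ^ n) • x = 0}))
      (fun x y hxy => Subtype.ext (congrArg Subtype.val hxy))
  have h1 : ∀ (ℓ : Nat.Primes) (σ : Γ) (x : s29_wa_Jp M (p ^ n)),
      s29_wa_hecke M (p ^ n) ℓ (s29_wa_gal M (p ^ n) σ x)
        = s29_wa_gal M (p ^ n) σ (s29_wa_hecke M (p ^ n) ℓ x) :=
    fun ℓ σ x => Subtype.ext (s29_hc_galois_heckeBar M ℓ σ (x : JZero M))
  have h2 : ∀ x : s29_wa_Jp M (p ^ n), (p ^ n) • x = 0 := fun x => Subtype.ext x.2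
  have h3 : ∀ x : s29_wa_Jp M (p ^ n), ∃ K₁ : IntermediateField ℚ Qb, s18_d1_IsGaloisNF K₁ ∧
      ∀ σ : Γ, (∀ c ∈ K₁, σ c = c) → s29_wa_gal M (p ^ n) σ x = x := by
    intro x
    obtain ⟨K₁, hK₁, h⟩ := s29_wa_fix M (x : JZero M)
    exact ⟨K₁, hK₁, fun σ hσ => Subtype.ext (h σ hσ)⟩
  have h5 : ∀ ℓ : Nat.Primes, (ℓ : ℕ) ∉ S → ∀ A : ValuationSubring Qb,
      A.LiesOverPrime ℓ → ∀ σ : Γ, A.IsFrobeniusAt σ ℓ → ∀ x : s29_wa_Jp M (p ^ n),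
        s29_wa_gal M (p ^ n) σ (s29_wa_gal M (p ^ n) σ x)
          - s29_wa_hecke M (p ^ n) ℓ (s29_wa_gal M (p ^ n) σ x) + (ℓ : ℕ) • x = 0 :=
    fun ℓ hℓS A hA σ hσ x =>
      Subtype.ext (s29_wa_es M (p ^ n) (s29_hc_commute M) hS37 ℓ (hnd ℓ ℓ.2 hℓS) A hA σ hσ
        (x : JZero M) x.2)
  exact s36_rt_abs p n hp S hpS hcheb (s29_wa_gal M (p ^ n)) (s29_wa_hecke M (p ^ n)) h1 h2 h3 h5
    L q hq hqp P hP τ hτ

/-- ring homomorphisms and `D_j(x, l) - 2`. -/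
theorem s36_tl_map_dk {R B : Type*} [Ring R] [Ring B] (φ : R →+* B) (x : R) (l j : ℕ) :
    φ (s31_dk x (l : R) j - 2) = s31_dk (φ x) (l : B) j - 2 := by
  rw [map_sub, s31_dk_map, map_natCast, map_ofNat]

set_option maxHeartbeats 1600000 in
/-- **Level `n` statement.** -/
theorem s36_tl_level (M : ℕ) [NeZero M] (p : ℕ) (hp : p.Prime) (hp2 : p ≠ 2) (S : Finset ℕ)
    (hpS : p ∈ S) (hMS : ∀ q : ℕ, q.Prime → q ∣ M → q ∈ S) (hcheb : s29_asm_Cheb) (n : ℕ)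
    (ι : ↥(parabolicHoms ℤ (Gamma0 M) ℤ) →+ JZero M)
    (hι1 : ∀ ψ, (p ^ n) • ι ψ = 0)
    (hι2 : ∀ ψ, ι ψ = 0 → ∃ ψ', ψ = (p ^ n) • ψ')
    (hι3 : ∀ (ℓ : ℕ) (hℓ : ℓ.Prime) (hℓN : ¬ ℓ ∣ M), ¬ ℓ ∣ M * p → ∀ ψ,
      ι (s29_cp_Tpar M ℓ hℓ hℓN ℤ ℤ ψ) = heckeOperatorBar M ⟨ℓ, hℓ⟩ (ι ψ))
    (L : IntermediateField ℚ Qb) [FiniteDimensional ℚ L]
    (q : ℕ) (hq : q.Prime) (hqp : q ≠ p) (P : ValuationSubring Qb) (hP : P.LiesOverPrime q)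
    (e : s35_Pol M) (c : ℕ) (Nw : AddSubgroup (JZero M))
    (hNwG : ∀ (σ : Γ) (y : JZero M), y ∈ Nw → σ • y ∈ Nw)
    (hNwfix : ∀ y : JZero M, y ∈ Nw → (p ^ n) • y = 0 →
      (∀ τ ∈ P.inertiaSubgroupIn ℚ, τ • y = y) → c • y = 0)
    (hNwe : ∀ ψ, ι (s35_ev M M dvd_rfl e ψ) ∈ Nw)
    (𝔰 : Ideal (s36_tl_Pol S))
    (h𝔰 : ∀ τ ∈ P.inertiaSubgroupIn ℚ, ∀ (ℓ : s36_tl_Idx S) (A : ValuationSubring Qb) (σ : Γ)
      (j : ℕ), A.LiesOverPrime (ℓ.1 : ℕ) → A.IsFrobeniusAt σ (ℓ.1 : ℕ) →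
      (∀ x ∈ L, τ x = (σ ^ j) x) →
      s31_dk (MvPolynomial.X ℓ) (((ℓ.1 : ℕ) : ℕ) : s36_tl_Pol S) j - 2 ∈ 𝔰) :
    ∃ a ∈ 𝔰, ∀ ψ : ↥(parabolicHoms ℤ (Gamma0 M) ℤ), ∃ ψ' : ↥(parabolicHoms ℤ (Gamma0 M) ℤ),
      s35_ev M M dvd_rfl (s36_tl_toPol M S hMS
        ((((c ^ 3) ^ Nat.card {x : JZero M // p • x = 0} : ℕ) : s36_tl_Pol S) + a) * e) ψ
        = (p ^ n) • ψ' := by
  classical
  have hpn0 : p ^ n ≠ 0 := pow_ne_zero n hp.ne_zero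
  have hS37 := Fermat.Agent.S37.result M (p ^ n) (s29_hc_commute M)
  have hnd : ∀ ℓ : ℕ, ℓ.Prime → ℓ ∉ S → ¬ ℓ ∣ M * p ^ n :=
    fun ℓ hℓ hℓS => s31_ti_not_dvd M p n hp S hpS hMS ℓ hℓ hℓS
  have hnd1 : ∀ ℓ : ℕ, ℓ.Prime → ℓ ∉ S → ¬ ℓ ∣ M * p := by
    intro ℓ hℓ hℓS
    have := s31_ti_not_dvd M p 1 hp S hpS hMS ℓ hℓ hℓS
    rwa [pow_one] at this
  -- finiteness of the torsion
  have hfin : Finite (s29_wa_Jp M (p ^ n)) := by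
    have := s29_bt_finite_sub M (p ^ n) hpn0
    exact Finite.of_injective
      (fun x : s29_wa_Jp M (p ^ n) => (⟨x.1, x.2⟩ : {x : JZero M // (p ^ n) • x = 0}))
      (fun x y hxy => Subtype.ext (congrArg Subtype.val hxy))
  have hfin1 : Finite {x : JZero M // p • x = 0} := s29_bt_finite_sub M p hp.ne_zero
  -- the map into the torsion
  let ι' : ↥(parabolicHoms ℤ (Gamma0 M) ℤ) →+ s29_wa_Jp M (p ^ n) :=
    { toFun := fun ψ => ⟨ι ψ, s29_wa_mem_Jp.mpr (hι1 ψ)⟩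
      map_zero' := Subtype.ext (map_zero ι)
      map_add' := fun a b => Subtype.ext (map_add ι a b) }
  have h1 : ∀ (ℓ : Nat.Primes) (σ : Γ) (x : s29_wa_Jp M (p ^ n)),
      s29_wa_hecke M (p ^ n) ℓ (s29_wa_gal M (p ^ n) σ x)
        = s29_wa_gal M (p ^ n) σ (s29_wa_hecke M (p ^ n) ℓ x) :=
    fun ℓ σ x => Subtype.ext (s29_hc_galois_heckeBar M ℓ σ (x : JZero M))
  have h2 : ∀ x : s29_wa_Jp M (p ^ n), (p ^ n) • x = 0 := fun x => Subtype.ext x.2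
  have h3 : ∀ x : s29_wa_Jp M (p ^ n), ∃ K₁ : IntermediateField ℚ Qb, s18_d1_IsGaloisNF K₁ ∧
      ∀ σ : Γ, (∀ c ∈ K₁, σ c = c) → s29_wa_gal M (p ^ n) σ x = x := by
    intro x
    obtain ⟨K₁, hK₁, h⟩ := s29_wa_fix M (x : JZero M)
    exact ⟨K₁, hK₁, fun σ hσ => Subtype.ext (h σ hσ)⟩
  have h5 : ∀ ℓ : Nat.Primes, (ℓ : ℕ) ∉ S → ∀ A : ValuationSubring Qb,
      A.LiesOverPrime ℓ → ∀ σ : Γ, A.IsFrobeniusAt σ ℓ → ∀ x : s29_wa_Jp M (p ^ n),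
        s29_wa_gal M (p ^ n) σ (s29_wa_gal M (p ^ n) σ x)
          - s29_wa_hecke M (p ^ n) ℓ (s29_wa_gal M (p ^ n) σ x) + (ℓ : ℕ) • x = 0 :=
    fun ℓ hℓS A hA σ hσ x =>
      Subtype.ext (s29_wa_es M (p ^ n) (s29_hc_commute M) hS37 ℓ (hnd ℓ ℓ.2 hℓS) A hA σ hσ
        (x : JZero M) x.2)
  have h6 : ∀ ψ : ↥(parabolicHoms ℤ (Gamma0 M) ℤ), ι' ψ = 0 → ∃ ψ', ψ = (p ^ n) • ψ' :=
    fun ψ hψ => hι2 ψ (congrArg Subtype.val hψ)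
  -- the two polynomial actions
  obtain ⟨φ, hφX⟩ : ∃ φ : s36_tl_Pol S →+* Module.End ℤ (s29_wa_Jp M (p ^ n)),
      ∀ i : s36_tl_Idx S, φ (MvPolynomial.X i) = s29_wa_hecke M (p ^ n) i.1 :=
    ⟨s36_tl_phi M (p ^ n) S, s36_tl_phi_X M (p ^ n) S⟩
  obtain ⟨θ, hθX, hθe, he₀⟩ :
      ∃ θ : s36_tl_Pol S →+* Module.End ℤ ↥(parabolicHoms ℤ (Gamma0 M) ℤ),
      (∀ i : s36_tl_Idx S, θ (MvPolynomial.X i)
        = s29_cp_Tpar M (i.1 : ℕ) i.1.2 (fun h => i.2 (hMS _ i.1.2 h)) ℤ ℤ) ∧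
      (∀ (r : s36_tl_Pol S) (ψ : ↥(parabolicHoms ℤ (Gamma0 M) ℤ)),
        θ r (s35_ev M M dvd_rfl e ψ) = s35_ev M M dvd_rfl (s36_tl_toPol M S hMS r * e) ψ) ∧
      ∀ (r : s36_tl_Pol S) (ψ : ↥(parabolicHoms ℤ (Gamma0 M) ℤ)),
        θ r (s35_ev M M dvd_rfl e ψ) = s35_ev M M dvd_rfl e (θ r ψ) := by
    refine ⟨(s35_ev M M dvd_rfl).comp (s36_tl_toPol M S hMS), fun i => ?_, fun r ψ => ?_,
      fun r ψ => ?_⟩
    · show s35_ev M M dvd_rfl (s36_tl_toPol M S hMS (MvPolynomial.X i)) = _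
      rw [s36_tl_toPol_X, s35_ev_X]
    · show (s35_ev M M dvd_rfl (s36_tl_toPol M S hMS r) * s35_ev M M dvd_rfl e) ψ = _
      rw [← map_mul]
    · show (s35_ev M M dvd_rfl (s36_tl_toPol M S hMS r) * s35_ev M M dvd_rfl e) ψ
        = (s35_ev M M dvd_rfl e * s35_ev M M dvd_rfl (s36_tl_toPol M S hMS r)) ψ
      rw [← map_mul, ← map_mul, mul_comm]
  have hcomm : ∀ (r : s36_tl_Pol S) (σ : Γ) (y : s29_wa_Jp M (p ^ n)),
      φ r (s29_wa_gal M (p ^ n) σ y) = s29_wa_gal M (p ^ n) σ (φ r y) := by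
    intro r σ y
    refine s36_tc_commute φ (s29_wa_gal M (p ^ n) σ) (fun i y => ?_) r y
    have e2 : ∀ z : s29_wa_Jp M (p ^ n),
        φ (MvPolynomial.X i) z = s29_wa_hecke M (p ^ n) i.1 z := fun z =>
      congrArg (fun f : Module.End ℤ (s29_wa_Jp M (p ^ n)) => f z) (hφX i)
    exact (e2 _).trans ((h1 i.1 σ y).trans
      (congrArg (fun z => s29_wa_gal M (p ^ n) σ z) (e2 y).symm))
  have hθ : ∀ (r : s36_tl_Pol S) (ψ : ↥(parabolicHoms ℤ (Gamma0 M) ℤ)),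
      ι' (θ r ψ) = φ r (ι' ψ) := by
    intro r ψ
    refine s36_tc_intertwine ι' θ φ (fun i ψ => ?_) r ψ
    have e1 : θ (MvPolynomial.X i) ψ
        = s29_cp_Tpar M (i.1 : ℕ) i.1.2 (fun h => i.2 (hMS _ i.1.2 h)) ℤ ℤ ψ :=
      congrArg (fun f : Module.End ℤ ↥(parabolicHoms ℤ (Gamma0 M) ℤ) => f ψ) (hθX i)
    have e2 : φ (MvPolynomial.X i) (ι' ψ) = s29_wa_hecke M (p ^ n) i.1 (ι' ψ) :=
      congrArg (fun f : Module.End ℤ (s29_wa_Jp M (p ^ n)) => f (ι' ψ)) (hφX i)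
    refine (congrArg ι' e1).trans (Eq.trans ?_ e2.symm)
    apply Subtype.ext
    exact hι3 (i.1 : ℕ) i.1.2 (fun h => i.2 (hMS _ i.1.2 h)) (hnd1 _ i.1.2 i.2) ψ
  -- the new part of the torsion
  obtain ⟨Nw', hNw'⟩ : ∃ Nw' : AddSubgroup (s29_wa_Jp M (p ^ n)),
      ∀ y : s29_wa_Jp M (p ^ n), y ∈ Nw' ↔ (y : JZero M) ∈ Nw :=
    ⟨Nw.comap (s29_wa_Jp M (p ^ n)).subtype, fun _ => Iff.rfl⟩
  have hRT : ∀ τ ∈ P.inertiaSubgroupIn ℚ, ∃ t ∈ 𝔰, ∀ y : s29_wa_Jp M (p ^ n),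
      s29_wa_gal M (p ^ n) τ (s29_wa_gal M (p ^ n) τ y) - 2 • s29_wa_gal M (p ^ n) τ y + y
        = s29_wa_gal M (p ^ n) τ (φ t y) := by
    intro τ hτ
    obtain ⟨ℓ, A, σ, j, hℓS, hA, hσ, hg, hrel⟩ :=
      s36_tl_rt M p hp S hpS hMS hcheb n L q hq hqp P hP τ hτ
    refine ⟨_, h𝔰 τ hτ ⟨ℓ, hℓS⟩ A σ j hA hσ hg, fun y => ?_⟩
    have e1 : φ (s31_dk (MvPolynomial.X (⟨ℓ, hℓS⟩ : s36_tl_Idx S))
        (((ℓ : ℕ) : ℕ) : s36_tl_Pol S) j - 2)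
        = s31_dk (s29_wa_hecke M (p ^ n) ℓ)
            (((ℓ : ℕ) : ℕ) : Module.End ℤ (s29_wa_Jp M (p ^ n))) j - 2 :=
      (s36_tl_map_dk φ _ (ℓ : ℕ) j).trans
        (congrArg (fun t : Module.End ℤ (s29_wa_Jp M (p ^ n)) =>
          s31_dk t (((ℓ : ℕ) : ℕ) : Module.End ℤ (s29_wa_Jp M (p ^ n))) j - 2)
          (hφX ⟨ℓ, hℓS⟩))
    exact (s36_tc_rel _ _ hrel y).trans
      (congrArg (fun f : Module.End ℤ (s29_wa_Jp M (p ^ n)) => s29_wa_gal M (p ^ n) τ (f y))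
        e1.symm)
  have hle : Nat.card {y : s29_wa_Jp M (p ^ n) // p • y = 0}
      ≤ Nat.card {x : JZero M // p • x = 0} :=
    Nat.card_le_card_of_injective
      (fun y : {y : s29_wa_Jp M (p ^ n) // p • y = 0} =>
        (⟨(y.1 : JZero M), congrArg Subtype.val y.2⟩ : {x : JZero M // p • x = 0}))
      (fun x y hxy => Subtype.ext (Subtype.ext
        (congrArg (fun z : {x : JZero M // p • x = 0} => (z : JZero M)) hxy)))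
  obtain ⟨a, ha, hkill⟩ := s36_tc_main p n hp hp2 h2 (s29_wa_gal M (p ^ n))
    (P.inertiaSubgroupIn ℚ) φ hcomm ι' h6 θ hθ (s35_ev M M dvd_rfl e) he₀ Nw'
    (fun σ y hy => (hNw' _).mpr (hNwG σ (y : JZero M) ((hNw' y).mp hy)))
    (fun ψ => (hNw' _).mpr (hNwe ψ)) c
    (fun y hy hfx => Subtype.ext (hNwfix (y : JZero M) ((hNw' y).mp hy) y.2
      (fun τ hτ => congrArg Subtype.val (hfx τ hτ)))) 𝔰 hRT
    (Nat.card {x : JZero M // p • x = 0}) hle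
  refine ⟨a, ha, fun ψ => ?_⟩
  obtain ⟨ψ', hψ'⟩ := hkill ψ
  exact ⟨ψ', (hθe _ ψ).symm.trans hψ'⟩

end Fermat.Agent.S36
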