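import Fermat.Prelude.Def_CuspForm_Newforms
import Fermat.Agent.S30
import Fermat.Agent.S36.TopLevel

/-!
# S36 (NODE-3), block TOP: the conclusion of S36 from the geometric input `hCar`

`s36_top` : the conclusion of S36 (landed S30 for the representation and its Frobenius
characteristic polynomials) from the input `hCar`: for every prime `q ≠ lam` with `q² ∥ M` a
place `P` over `q`, a Hecke polynomial `e` with `χ_g(e) = d ∈ ℤ ∖ {0}`, a constant `c ≠ 0` and a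
Galois-stable subgroup `Nw ≤ J₀(M)(ℚ̄)` (the `q`-new part) such that

* (GEOM) every `lam`-power torsion point of `Nw` fixed by the inertia group of `P` is killed by
  `c`;
* (E) for every `n` there is a bridge map `ι_n : Λ → J₀(M)[lam ^ n]` (kernel `lam ^ n Λ`,
  Hecke-equivariant away from `M · lam`) with `ι_n (ev_M(e) Λ) ⊆ Nw`.

Proof (`s36_top_core`): if `ρ` were unipotent on the inertia group of `P`, then for every `k`
the reverse transfer (`s36_rt_abs`), the cube lemma (`s36_ua_cube`) and the determinant trick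
(`s36_dt_main`) give `a` with `π(a) ∈ 𝔪 ^ k` such that `ev((c ^ (3 E) + a) e)` maps `Λ` into
`lam ^ k Λ` (`s36_tl_level`), hence `(c ^ (3 E) + π(a)) d ∈ lam ^ k T` (`s35_chi_dvd`,
`s35_ft_ic`) and `c ^ (3 E) d ∈ 𝔪 ^ k` for all `k`: contradiction.
-/

set_option autoImplicit false

open Polynomial
open CuspForm
open AlgebraicCurve ModularCurve CongruenceSubgroup ModularCurve.Period
open Fermat.Agent.S29 Fermat.Agent.S31 Fermat.Agent.S35

noncomputable section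

namespace Fermat.Agent.S36

local notation "Qb" => AlgebraicClosure ℚ
local notation "Γ" => (AlgebraicClosure ℚ ≃ₐ[ℚ] AlgebraicClosure ℚ)

/-- the map from `ℤ[X_ℓ : ℓ ∉ S]` to the Hecke algebra away from `S`, `X_ℓ ↦ T_ℓ`. -/
def s36_top_toH (M : ℕ) [NeZero M] (S : Finset ℕ) (hMS : ∀ q : ℕ, q.Prime → q ∣ M → q ∈ S) :
    s36_tl_Pol S →+* CuspForm.heckeAlgebra M 2 (↑S : Set ℕ) :=
  (MvPolynomial.aeval (fun i : s36_tl_Idx S =>
    (CuspForm.heckeAlgebra.T i.1.2 (fun h => i.2 (hMS _ i.1.2 h))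
      (fun h => i.2 (Finset.mem_coe.mp h)) : CuspForm.heckeAlgebra M 2 (↑S : Set ℕ)))).toRingHom

theorem s36_top_toH_X (M : ℕ) [NeZero M] (S : Finset ℕ) (hMS : ∀ q : ℕ, q.Prime → q ∣ M → q ∈ S)
    (i : s36_tl_Idx S) :
    s36_top_toH M S hMS (MvPolynomial.X i)
      = CuspForm.heckeAlgebra.T i.1.2 (fun h => i.2 (hMS _ i.1.2 h))
          (fun h => i.2 (Finset.mem_coe.mp h)) :=
  MvPolynomial.aeval_X _ i

/-- the eigencharacter of `g` on `ℤ[X_ℓ : ℓ ∉ S]`, through the Hecke algebra or through the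
Hecke polynomial ring. -/
theorem s36_top_chi {M : ℕ} [NeZero M] (g : CuspForm (Gamma0 M) 2) (S : Finset ℕ)
    (hMS : ∀ q : ℕ, q.Prime → q ∣ M → q ∈ S)
    (chig : CuspForm.heckeAlgebra M 2 (↑S : Set ℕ) →+* ℂ)
    (hchig : ∀ (ℓ : ℕ) (hℓ : ℓ.Prime) (hℓM : ¬ ℓ ∣ M) (hℓS : ℓ ∉ (↑S : Set ℕ)),
      chig (CuspForm.heckeAlgebra.T hℓ hℓM hℓS) = ModularFormClass.qCoeff g ℓ)
    (r : s36_tl_Pol S) :
    chig (s36_top_toH M S hMS r) = s35_chi g (s36_tl_toPol M S hMS r) := by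
  have h : chig.comp (s36_top_toH M S hMS) = (s35_chi g).comp (s36_tl_toPol M S hMS) := by
    apply MvPolynomial.ringHom_ext
    · intro a
      rw [show (MvPolynomial.C a : s36_tl_Pol S) = ((a : ℤ) : s36_tl_Pol S) from
        eq_intCast MvPolynomial.C a, map_intCast, map_intCast]
    · intro i
      rw [RingHom.comp_apply, RingHom.comp_apply, s36_top_toH_X, s36_tl_toPol_X, s35_chi_X,
        hchig]
  exact RingHom.congr_fun h r

set_option maxHeartbeats 1600000 in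
/-- **TOP, core.**  Unipotence on the inertia group of `P` contradicts the geometric input. -/
theorem s36_top_core {M : ℕ} [NeZero M] {g : CuspForm (Gamma0 M) 2}
    (hg : g.IsNormalizedEigenform) (p : ℕ) [Fact p.Prime] (hp2 : p ≠ 2) (S : Finset ℕ)
    (hpS : p ∈ S) (hMS : ∀ q : ℕ, q.Prime → q ∣ M → q ∈ S)
    {T : Type} [CommRing T] [IsDomain T] [IsLocalRing T]
    [IsHausdorff (IsLocalRing.maximalIdeal T) T] [CharZero T] [IsIntegrallyClosed T]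
    (hpT : (p : T) ∈ IsLocalRing.maximalIdeal T)
    (chig : CuspForm.heckeAlgebra M 2 (↑S : Set ℕ) →+* ℂ)
    (hchig : ∀ (ℓ : ℕ) (hℓ : ℓ.Prime) (hℓM : ¬ ℓ ∣ M) (hℓS : ℓ ∉ (↑S : Set ℕ)),
      chig (CuspForm.heckeAlgebra.T hℓ hℓM hℓS) = ModularFormClass.qCoeff g ℓ)
    (iota : chig.range →+* T) (ρ : GaloisRepAdic T)
    (hfrob : ∀ (ℓ : ℕ) (hℓ : ℓ.Prime) (hℓN : ¬ ℓ ∣ M) (hℓS : ℓ ∉ (↑S : Set ℕ))
      (A : ValuationSubring Qb), A.LiesOverPrime ℓ → ∀ σ : Γ, A.IsFrobeniusAt σ ℓ →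
        LinearMap.charpoly (ρ.ρ σ)
          = X ^ 2 - C ((iota.comp chig.rangeRestrict) (CuspForm.heckeAlgebra.T hℓ hℓN hℓS)) * X
            + C ((ℓ : T)))
    (q : ℕ) (hq : q.Prime) (hqp : q ≠ p) (P : ValuationSubring Qb) (hP : P.LiesOverPrime q)
    (hU : ∀ σ ∈ P.inertiaSubgroupIn ℚ, LinearMap.charpoly (ρ.ρ σ) = (X - 1) ^ 2)
    (e : s35_Pol M) (d : ℤ) (c : ℕ) (hd0 : d ≠ 0) (hc0 : c ≠ 0) (hd : s35_chi g e = (d : ℂ))
    (Nw : AddSubgroup (JZero M))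
    (hNwG : ∀ (σ : Γ) (y : JZero M), y ∈ Nw → σ • y ∈ Nw)
    (hNwfix : ∀ (n : ℕ) (y : JZero M), y ∈ Nw → (p ^ n) • y = 0 →
      (∀ τ ∈ P.inertiaSubgroupIn ℚ, τ • y = y) → c • y = 0)
    (hbridge : ∀ n : ℕ, ∃ ι : ↥(parabolicHoms ℤ (Gamma0 M) ℤ) →+ JZero M,
      (∀ ψ, (p ^ n) • ι ψ = 0) ∧ (∀ ψ, ι ψ = 0 → ∃ ψ', ψ = (p ^ n) • ψ') ∧
      (∀ (ℓ : ℕ) (hℓ : ℓ.Prime) (hℓN : ¬ ℓ ∣ M), ¬ ℓ ∣ M * p → ∀ ψ,
        ι (s29_cp_Tpar M ℓ hℓ hℓN ℤ ℤ ψ) = heckeOperatorBar M ⟨ℓ, hℓ⟩ (ι ψ)) ∧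
      ∀ ψ, ι (s35_ev M M dvd_rfl e ψ) ∈ Nw) : False := by
  have hp : p.Prime := Fact.out
  have key : (((c ^ 3) ^ Nat.card {x : JZero M // p • x = 0} : ℕ) : T) * (d : T) = 0 := by
    refine IsHausdorff.haus' (I := IsLocalRing.maximalIdeal T) _ fun k => ?_
    rw [SModEq.zero, smul_eq_mul, Ideal.mul_top]
    obtain ⟨ι, hι1, hι2, hι3, hι4⟩ := hbridge k
    obtain ⟨L, hL, hLρ⟩ := ρ.isAdicContinuous k
    have := hL
    -- the character on the polynomial ring and the ideal `𝔰`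
    obtain ⟨π', hπ'X, hπ'e⟩ : ∃ π' : s36_tl_Pol S →+* T,
        (∀ i : s36_tl_Idx S, π' (MvPolynomial.X i)
          = (iota.comp chig.rangeRestrict) (CuspForm.heckeAlgebra.T i.1.2
              (fun h => i.2 (hMS _ i.1.2 h)) (fun h => i.2 (Finset.mem_coe.mp h)))) ∧
        ∀ r : s36_tl_Pol S, π' r = iota (chig.rangeRestrict (s36_top_toH M S hMS r)) := by
      refine ⟨(iota.comp chig.rangeRestrict).comp (s36_top_toH M S hMS), fun i => ?_,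
        fun r => rfl⟩
      rw [RingHom.comp_apply, s36_top_toH_X]
    have h𝔰 : ∀ τ ∈ P.inertiaSubgroupIn ℚ, ∀ (ℓ : s36_tl_Idx S) (A : ValuationSubring Qb)
        (σ : Γ) (j : ℕ), A.LiesOverPrime (ℓ.1 : ℕ) → A.IsFrobeniusAt σ (ℓ.1 : ℕ) →
        (∀ x ∈ L, τ x = (σ ^ j) x) →
        s31_dk (MvPolynomial.X ℓ) (((ℓ.1 : ℕ) : ℕ) : s36_tl_Pol S) j - 2
          ∈ Ideal.comap π' (IsLocalRing.maximalIdeal T ^ k) := by
      intro τ hτ ℓ A σ j hA hσ hg'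
      rw [Ideal.mem_comap, s36_tl_map_dk, hπ'X]
      have t1 : LinearMap.trace T ρ.V (ρ.ρ (σ ^ j))
          = s31_dk ((iota.comp chig.rangeRestrict) (CuspForm.heckeAlgebra.T ℓ.1.2
              (fun h => ℓ.2 (hMS _ ℓ.1.2 h)) (fun h => ℓ.2 (Finset.mem_coe.mp h))))
              (((ℓ.1 : ℕ) : ℕ) : T) j := by
        rw [map_pow]
        exact s31_dk_trace ρ.finrank_eq (ρ.ρ σ) _ _
          (hfrob (ℓ.1 : ℕ) ℓ.1.2 _ _ A hA σ hσ) j
      have t2 : LinearMap.trace T ρ.V (ρ.ρ τ) = 2 := by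
        have hc : LinearMap.charpoly (ρ.ρ τ) = X ^ 2 - C (2 : T) * X + C (1 : T) := by
          rw [hU τ hτ, map_ofNat C 2, map_one]
          ring
        have h1 := s31_dk_trace ρ.finrank_eq (ρ.ρ τ) 2 1 hc 1
        rwa [pow_one, s31_dk_one] at h1
      have a1 := s31_ti_approx ρ k L hLρ τ (σ ^ j) hg'
      rw [t1, t2] at a1
      exact a1
    obtain ⟨a, ha, hu⟩ := s36_tl_level M p hp hp2 S hpS hMS s29_cheb_asm k ι hι1 hι2 hι3 L q hq
      hqp P hP e c Nw hNwG (hNwfix k) hι4 (Ideal.comap π' (IsLocalRing.maximalIdeal T ^ k)) h𝔰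
    obtain ⟨b, hb, hEb⟩ := s35_chi_dvd hg _ (p ^ k) hu
    have hchi : chig (s36_top_toH M S hMS
        ((((c ^ 3) ^ Nat.card {x : JZero M // p • x = 0} : ℕ) : s36_tl_Pol S) + a)) * (d : ℂ)
        = ((p ^ k : ℕ) : ℂ) * b := by
      rw [s36_top_chi g S hMS chig hchig, ← hd, ← map_mul]
      exact hEb
    obtain ⟨z, hz⟩ := s35_ft_ic chig iota _ d (p ^ k) (pow_ne_zero k hp.ne_zero) b hb hchi
    rw [← hπ'e, map_add, map_natCast] at hz
    have hπ'a : π' a ∈ IsLocalRing.maximalIdeal T ^ k := ha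
    have e3 : (((c ^ 3) ^ Nat.card {x : JZero M // p • x = 0} : ℕ) : T) * (d : T)
        = ((p ^ k : ℕ) : T) * z - π' a * (d : T) := by
      rw [← hz]
      ring
    rw [e3]
    refine sub_mem ?_ (Ideal.mul_mem_right _ _ hπ'a)
    push_cast
    exact Ideal.mul_mem_right _ _ (Ideal.pow_mem_pow hpT k)
  rcases mul_eq_zero.mp key with h | h
  · exact absurd (Nat.cast_eq_zero.mp h) (pow_ne_zero _ (pow_ne_zero 3 hc0))
  · exact hd0 (Int.cast_eq_zero.mp h)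

/-- **TOP.**  The conclusion of S36 from the geometric input `hCar`. -/
theorem s36_top
    {M : ℕ} [NeZero M] {g : CuspForm (CongruenceSubgroup.Gamma0 M) 2} (hg : g.IsNewform)
    (lam : ℕ) [Fact lam.Prime]
    (S : Finset ℕ)
    (O' : Type) [CommRing O'] [IsDomain O'] [IsDiscreteValuationRing O']
    [IsAdicComplete (IsLocalRing.maximalIdeal O') O'] [Finite (IsLocalRing.ResidueField O')]
    [CharZero O'] (hlamO' : (lam : O') ∈ IsLocalRing.maximalIdeal O')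
    (hlam2 : lam ≠ 2)
    (chig : CuspForm.heckeAlgebra M 2 (↑S : Set ℕ) →+* ℂ)
    (hchig : ∀ (ℓ : ℕ) (hℓ : ℓ.Prime) (hℓM : ¬ ℓ ∣ M) (hℓS : ℓ ∉ (↑S : Set ℕ)),
      chig (CuspForm.heckeAlgebra.T hℓ hℓM hℓS) = ModularFormClass.qCoeff g ℓ)
    (iota : chig.range →+* O')
    (hlamS : lam ∈ S) (hMS : ∀ q : ℕ, q.Prime → q ∣ M → q ∈ S)
    -- the geometric input
    (hCar : ∀ q : ℕ, q.Prime → q ≠ lam → M.factorization q = 2 →
      ∃ P : ValuationSubring (AlgebraicClosure ℚ), P.LiesOverPrime q ∧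
      ∃ (e : s35_Pol M) (d : ℤ) (c : ℕ), d ≠ 0 ∧ c ≠ 0 ∧ s35_chi g e = (d : ℂ) ∧
      ∃ Nw : AddSubgroup (JZero M),
        (∀ (σ : AlgebraicClosure ℚ ≃ₐ[ℚ] AlgebraicClosure ℚ) (y : JZero M),
          y ∈ Nw → σ • y ∈ Nw) ∧
        (∀ (n : ℕ) (y : JZero M), y ∈ Nw → (lam ^ n) • y = 0 →
          (∀ τ ∈ P.inertiaSubgroupIn ℚ, τ • y = y) → c • y = 0) ∧
        ∀ n : ℕ, ∃ ι : ↥(parabolicHoms ℤ (Gamma0 M) ℤ) →+ JZero M,
          (∀ ψ, (lam ^ n) • ι ψ = 0) ∧ (∀ ψ, ι ψ = 0 → ∃ ψ', ψ = (lam ^ n) • ψ') ∧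
          (∀ (ℓ : ℕ) (hℓ : ℓ.Prime) (hℓN : ¬ ℓ ∣ M), ¬ ℓ ∣ M * lam → ∀ ψ,
            ι (s29_cp_Tpar M ℓ hℓ hℓN ℤ ℤ ψ) = heckeOperatorBar M ⟨ℓ, hℓ⟩ (ι ψ)) ∧
          ∀ ψ, ι (s35_ev M M dvd_rfl e ψ) ∈ Nw)
    :
    ∃ (O'' : Type) (_ : CommRing O'') (_ : IsDomain O'') (_ : IsDiscreteValuationRing O'')
      (_ : IsAdicComplete (IsLocalRing.maximalIdeal O'') O'') (_ : Finite (IsLocalRing.ResidueField O''))
      (_ : CharZero O'') (_ : Algebra O' O'') (_ : Module.Finite O' O'') (_ : IsLocalHom (algebraMap O' O'')),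
      Function.Injective (algebraMap O' O'') ∧
      ∃ ρ : GaloisRepAdic O'',
        (∀ (ℓ : ℕ) (hℓ : ℓ.Prime) (hℓM : ¬ ℓ ∣ M) (hℓS : ℓ ∉ (↑S : Set ℕ)),
          ∀ A : ValuationSubring (AlgebraicClosure ℚ), A.LiesOverPrime ℓ →
            ∀ σ : AlgebraicClosure ℚ ≃ₐ[ℚ] AlgebraicClosure ℚ, A.IsFrobeniusAt σ ℓ →
              LinearMap.charpoly (ρ.ρ σ) =
                X ^ 2 - C (algebraMap O' O'' ((iota.comp chig.rangeRestrict) (CuspForm.heckeAlgebra.T hℓ hℓM hℓS))) * X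
                  + C ((ℓ : O''))) ∧
        (∀ q : ℕ, q.Prime → q ≠ lam → M.factorization q = 2 → ¬ ρ.IsUnipotentOnInertiaAt q) := by
  obtain ⟨O'', i1, i2, i3, i4, i5, i6, i7, i8, i9, hinj, ρ, h1, -⟩ :=
    Fermat.Agent.S30.result lam M S hlamS hMS O' hlamO' (iota.comp chig.rangeRestrict)
  refine ⟨O'', i1, i2, i3, i4, i5, i6, i7, i8, i9, hinj, ρ, h1, ?_⟩
  intro q hq hqlam hqM hU
  obtain ⟨P, hP, e, d, c, hd0, hc0, hd, Nw, hNwG, hNwfix, hbridge⟩ := hCar q hq hqlam hqM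
  have hlamO'' : (lam : O'') ∈ IsLocalRing.maximalIdeal O'' := by
    have h := hlamO'
    rw [IsLocalRing.mem_maximalIdeal, mem_nonunits_iff] at h ⊢
    intro hu
    apply h
    have : IsUnit (algebraMap O' O'' (lam : O')) := by rwa [map_natCast]
    exact (isUnit_map_iff (algebraMap O' O'') _).mp this
  exact s36_top_core hg.1 lam hlam2 S hlamS hMS hlamO'' chig hchig
    ((algebraMap O' O'').comp iota) ρ h1 q hq hqlam P hP (hU P hP) e d c hd0 hc0 hd Nw hNwG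
    hNwfix hbridge

end Fermat.Agent.S36
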