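import Mathlib
import Fermat.Agent.S36.UnipAlg

/-!
# S36 (NODE-3), block TOP: the element form (ALG') of the algebra core

`s36_ua_cube_elt` — the statement requested by the TOP file (report 1231, (ALG')):
`ρ : G' →* Module.End ℤ J`, `I ≤ G'`, `Y ≤ J` an `I`-stable subgroup of a group without
`2`-torsion such that every `I`-fixed element of `Y` is killed by `c`.  If `y ∈ Y` satisfies
`(ρ τ - 1) ^ 2 y = 0` for all `τ ∈ I`, then `c ^ 3 • y = 0`.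

(`H := {x ∈ Y | ∀ τ ∈ I, (ρ τ - 1) ^ 2 x = 0}` is `I`-stable by conjugation; apply
`s36_ua_cube` to it.)
-/

set_option autoImplicit false

namespace Fermat.Agent.S36

theorem s36_ua_cube_elt {J : Type*} [AddCommGroup J] {G' : Type*} [Group G']
    (ρ : G' →* Module.End ℤ J) (I : Subgroup G')
    (Y : AddSubgroup J) (hYI : ∀ τ ∈ I, ∀ y ∈ Y, ρ τ y ∈ Y)
    (h2 : ∀ y : J, 2 • y = 0 → y = 0) (c : ℕ)
    (hfix : ∀ y ∈ Y, (∀ τ ∈ I, ρ τ y = y) → c • y = 0)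
    (y : J) (hy : y ∈ Y) (hsq : ∀ τ ∈ I, ρ τ (ρ τ y) - 2 • ρ τ y + y = 0) :
    c ^ 3 • y = 0 := by
  let _ : DistribMulAction G' J := DistribMulAction.compHom J ρ
  have hsmul : ∀ (g : G') (x : J), g • x = ρ g x := fun _ _ => rfl
  have hmul : ∀ (g g' : G') (x : J), ρ (g * g') x = ρ g (ρ g' x) := by
    intro g g' x; rw [map_mul]; rfl
  let H : AddSubgroup J :=
    { carrier := {x | x ∈ Y ∧ ∀ τ ∈ I, ρ τ (ρ τ x) - 2 • ρ τ x + x = 0}
      zero_mem' := ⟨Y.zero_mem, fun τ _ => by simp⟩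
      add_mem' := by
        rintro a b ⟨ha, ha'⟩ ⟨hb, hb'⟩
        refine ⟨Y.add_mem ha hb, fun τ hτ => ?_⟩
        have e : ρ τ (ρ τ (a + b)) - 2 • ρ τ (a + b) + (a + b)
            = (ρ τ (ρ τ a) - 2 • ρ τ a + a) + (ρ τ (ρ τ b) - 2 • ρ τ b + b) := by
          simp only [map_add, smul_add]; abel
        rw [e, ha' τ hτ, hb' τ hτ, add_zero]
      neg_mem' := by
        rintro a ⟨ha, ha'⟩
        refine ⟨Y.neg_mem ha, fun τ hτ => ?_⟩
        have e : ρ τ (ρ τ (-a)) - 2 • ρ τ (-a) + (-a)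
            = -(ρ τ (ρ τ a) - 2 • ρ τ a + a) := by
          simp only [map_neg, smul_neg]; abel
        rw [e, ha' τ hτ, neg_zero] }
  have hmemH : ∀ x : J, x ∈ H ↔ x ∈ Y ∧ ∀ τ ∈ I, ρ τ (ρ τ x) - 2 • ρ τ x + x = 0 :=
    fun _ => Iff.rfl
  refine s36_ua_cube I H ?_ ?_ ?_ c ?_ y ((hmemH y).mpr ⟨hy, hsq⟩)
  · -- stability by conjugation
    intro σ hσ x hx
    obtain ⟨hxY, hx'⟩ := (hmemH x).mp hx
    rw [hsmul, hmemH]
    refine ⟨hYI σ hσ x hxY, fun τ hτ => ?_⟩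
    have hconj : σ⁻¹ * τ * σ ∈ I := I.mul_mem (I.mul_mem (I.inv_mem hσ) hτ) hσ
    have h1 : ∀ z : J, ρ τ (ρ σ z) = ρ σ (ρ (σ⁻¹ * τ * σ) z) := by
      intro z
      rw [← hmul, ← hmul]
      congr 2
      group
    have e : ρ τ (ρ τ (ρ σ x)) - 2 • ρ τ (ρ σ x) + ρ σ x
        = ρ σ (ρ (σ⁻¹ * τ * σ) (ρ (σ⁻¹ * τ * σ) x) - 2 • ρ (σ⁻¹ * τ * σ) x + x) := by
      rw [h1 x, h1 (ρ (σ⁻¹ * τ * σ) x)]
      simp only [map_add, map_sub, map_nsmul]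
    rw [e, hx' _ hconj, map_zero]
  · intro τ hτ x hx
    obtain ⟨_, hx'⟩ := (hmemH x).mp hx
    rw [hsmul, hsmul]
    have h3 := hx' τ hτ
    have h4 : ρ τ (ρ τ x) = 2 • ρ τ x - x := by
      rw [← sub_eq_zero, ← h3]; abel
    rw [h4, two_nsmul]; abel
  · intro x _ hxx
    apply h2
    rw [two_nsmul]; exact hxx
  · intro x hx hfixx
    obtain ⟨hxY, _⟩ := (hmemH x).mp hx
    exact hfix x hxY (fun τ hτ => by rw [← hsmul]; exact hfixx τ hτ)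

end Fermat.Agent.S36
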