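import Mathlib
import Fermat.Agent.S36.DetTrick
import Fermat.Agent.S36.UnipElt

/-!
# S36 (NODE-3), block TOP: the abstract combination (unipotent algebra + determinant trick)

`s36_ta_main` — `J` a finite abelian group killed by `p ^ n` (`p` odd), with commuting actions
of a group `I ≤ G` (through `gM`) and of a commutative ring `R` (through `φ`); `Y` a subgroup
stable under both; `𝔰` an ideal of `R` such that every `τ ∈ I` satisfies
`(τ - 1) ^ 2 = τ ∘ φ t` on `J` for some `t ∈ 𝔰`; `c` kills the `I`-fixed elements of `Y`.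
Then `(c ^ 3) ^ E + a` kills `Y` for some `a ∈ 𝔰`, with `E = #J[p]` independent of `n`.

Proof: on `H := Y[𝔰]` every `τ ∈ I` satisfies `(τ - 1) ^ 2 = 0`, so `c ^ 3` kills `H`
(`s36_ua_cube_elt`); then `s36_dt_main` with `C := c ^ 3`.
-/

set_option autoImplicit false

namespace Fermat.Agent.S36

/-- A group killed by an odd prime power has no `2`-torsion. -/
theorem s36_ta_two {J : Type*} [AddCommGroup J] (p n : ℕ) (hp : p.Prime) (hp2 : p ≠ 2)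
    (hJ : ∀ y : J, (p ^ n) • y = 0) (y : J) (h : 2 • y = 0) : y = 0 := by
  have hcop : Nat.Coprime 2 (p ^ n) :=
    Nat.Coprime.pow_right n ((Nat.coprime_primes Nat.prime_two hp).mpr (Ne.symm hp2))
  have h1 : addOrderOf y ∣ 2 := addOrderOf_dvd_of_nsmul_eq_zero h
  have h2 : addOrderOf y ∣ p ^ n := addOrderOf_dvd_of_nsmul_eq_zero (hJ y)
  have h3 : addOrderOf y ∣ 1 := by
    have := Nat.dvd_gcd h1 h2
    rwa [hcop.gcd_eq_one] at this
  exact AddMonoid.addOrderOf_eq_one_iff.mp (Nat.dvd_one.mp h3)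

theorem s36_ta_main {J : Type*} [AddCommGroup J] [Finite J] (p n : ℕ) (hp : p.Prime)
    (hp2 : p ≠ 2) (hJ : ∀ y : J, (p ^ n) • y = 0)
    {G : Type*} [Group G] (gM : G →* Module.End ℤ J) (I : Subgroup G)
    {R : Type*} [CommRing R] (φ : R →+* Module.End ℤ J)
    (hcomm : ∀ (r : R), ∀ σ ∈ I, ∀ y : J, φ r (gM σ y) = gM σ (φ r y))
    (Y : AddSubgroup J) (hYG : ∀ σ ∈ I, ∀ y ∈ Y, gM σ y ∈ Y)
    (hYR : ∀ (r : R), ∀ y ∈ Y, φ r y ∈ Y)
    (𝔰 : Ideal R)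
    (hRT : ∀ τ ∈ I, ∃ t ∈ 𝔰, ∀ y : J,
      gM τ (gM τ y) - 2 • gM τ y + y = gM τ (φ t y))
    (c : ℕ) (hfix : ∀ y ∈ Y, (∀ τ ∈ I, gM τ y = y) → c • y = 0) :
    ∃ a ∈ 𝔰, ∀ y ∈ Y, ((c ^ 3) ^ Nat.card {y : J // p • y = 0}) • y + φ a y = 0 := by
  refine s36_dt_main p n hp hJ φ 𝔰 Y hYR (c ^ 3) ?_
  intro y hy hys
  let H : AddSubgroup J :=
    { carrier := {x | x ∈ Y ∧ ∀ s ∈ 𝔰, φ s x = 0}
      zero_mem' := ⟨Y.zero_mem, fun s _ => map_zero (φ s)⟩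
      add_mem' := fun {a b} ha hb => ⟨Y.add_mem ha.1 hb.1, fun s hs => by
        rw [map_add, ha.2 s hs, hb.2 s hs, add_zero]⟩
      neg_mem' := fun {a} ha => ⟨Y.neg_mem ha.1, fun s hs => by
        rw [map_neg, ha.2 s hs, neg_zero]⟩ }
  have hmemH : ∀ x : J, x ∈ H ↔ x ∈ Y ∧ ∀ s ∈ 𝔰, φ s x = 0 := fun _ => Iff.rfl
  refine s36_ua_cube_elt gM I H ?_ (s36_ta_two p n hp hp2 hJ) c ?_ y
    ((hmemH y).mpr ⟨hy, hys⟩) ?_
  · intro τ hτ x hx
    obtain ⟨hxY, hxs⟩ := (hmemH x).mp hx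
    refine (hmemH _).mpr ⟨hYG τ hτ x hxY, fun s hs => ?_⟩
    rw [hcomm s τ hτ x, hxs s hs, map_zero]
  · intro x hx hxfix
    exact hfix x ((hmemH x).mp hx).1 hxfix
  · intro τ hτ
    obtain ⟨t, ht, hEq⟩ := hRT τ hτ
    rw [hEq y, hys t ht, map_zero]

end Fermat.Agent.S36
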