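import Mathlib
import Fermat.Agent.S34.NodeUnit
import Fermat.Agent.S36.TriLocal
import Fermat.Agent.S36.PowTriOut

/-!
# S36 (NODE-3): the structure `s36_pt_Below` at a triple point

`s36_tloc_below` : the hypothesis `hα` / `hβ` of `s36_pt_triOut` (`S36/PowTriOut`) — the local
data below a triple point `𝔪` of the level-`q²` chart `B` for one degeneracy map `ι : F' →+* F` —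
with `R' := B'_𝔪'`, `𝔪'` the contraction of `𝔪` to the level-`q` chart `B'`, from chart-level
hypotheses (`s36_tloc_side`) and root-closedness of `B'`.

`s36_tloc_below_swap` : the same for the second degeneracy map `W ∘ ι` with norm `Nm ∘ W`, in the
literal shape of `hβ`.
-/

set_option autoImplicit false

namespace Fermat.Agent.S36

open Fermat.Agent.S18 Fermat.Agent.S34 Fermat.Agent.S35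

variable {F' F : Type*} [Field F'] [Field F]

/-- **`s36_pt_Below` at a triple point**, for the degeneracy map `ι` (`X`, `Z` over `V₁'`, `Y` over
`V₂'`): the local ring `R'` of the level-`q` chart at the point below `𝔪`. -/
theorem s36_tloc_below (ι : F' →+* F) (B' V₁' V₂' : Subring F') (B X Y Z : Subring F)
    (hB'B : ∀ x ∈ B', ι x ∈ B)
    (hint : ∀ x ∈ B, ∃ P : Polynomial B', P.Monic ∧ P.eval₂ (ι.comp B'.subtype) x = 0)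
    (hBX : B ≤ X) (hBY : B ≤ Y) (hBZ : B ≤ Z) (hB'1 : B' ≤ V₁') (hB'2 : B' ≤ V₂')
    {ϖ' : F'} {ϖ z : F} (hX : s34_Unif ϖ X) (hY : s34_Unif ϖ Y) (hZ : s34_Unif z Z)
    (hV₁' : s34_Unif ϖ' V₁') (hV₂' : s34_Unif ϖ' V₂') (hιϖ : ι ϖ' = ϖ)
    (hιX : ∀ y ∈ V₁', ι y ∈ X) (hιZ : ∀ y ∈ V₁', ι y ∈ Z) (hιY : ∀ y ∈ V₂', ι y ∈ Y)
    (hcap : ∀ x ∈ B, ϖ⁻¹ * x ∈ X → ϖ⁻¹ * x ∈ Y → ϖ⁻¹ * x ∈ Z → ϖ⁻¹ * x ∈ B)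
    (n : ℕ) (hzn : ϖ⁻¹ * z ^ n ∈ Z)
    (hresX : ∀ y ∈ B, ∃ y' ∈ B', ϖ⁻¹ * (y - ι y') ∈ X)
    (hresZ : ∀ y ∈ B, ∃ y' ∈ B', z⁻¹ * (y - ι y') ∈ Z)
    (p : ℕ) (hresY : ∀ y ∈ B, ∃ y' ∈ B', ϖ⁻¹ * (y ^ (p + 1) - ι y') ∈ Y)
    (hq : ∀ 𝔪' : Ideal B', 𝔪'.IsPrime → (∀ p : B', ϖ'⁻¹ * (p : F') ∈ V₁' → p ∈ 𝔪') →
      (∀ p : B', ϖ'⁻¹ * (p : F') ∈ V₂' → p ∈ 𝔪') →
      ∃ u₁ u₂ γ : B', (u₁ : F') * (u₂ : F') = ϖ' * (γ : F') ∧ ϖ'⁻¹ * (u₁ : F') ∈ V₁' ∧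
        ϖ'⁻¹ * (u₂ : F') ∈ V₂' ∧ γ ∉ 𝔪')
    (hcl : ∀ 𝔭 : Ideal B, 𝔭.IsPrime →
      ((∀ p : B, ϖ⁻¹ * (p : F) ∈ X → p ∈ 𝔭) → (∀ p : B, ϖ⁻¹ * (p : F) ∈ Y → p ∈ 𝔭) →
        ∀ p : B, z⁻¹ * (p : F) ∈ Z → p ∈ 𝔭) ∧
      ((∀ p : B, ϖ⁻¹ * (p : F) ∈ Y → p ∈ 𝔭) → (∀ p : B, z⁻¹ * (p : F) ∈ Z → p ∈ 𝔭) →
        ∀ p : B, ϖ⁻¹ * (p : F) ∈ X → p ∈ 𝔭))
    (Nm : F →* F') (kN : ℕ) (hNι : ∀ d ∈ B', Nm (ι d) = d ^ kN) (hNB : ∀ b ∈ B, Nm b ∈ B')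
    (m : ℕ) (hm : 0 < m) (hroot' : ∀ x : F', x ^ m ∈ B' → x ∈ B')
    (𝔪 : Ideal B) [h𝔪 : 𝔪.IsPrime]
    (hPX : ∀ p : B, ϖ⁻¹ * (p : F) ∈ X → p ∈ 𝔪) (hPY : ∀ p : B, ϖ⁻¹ * (p : F) ∈ Y → p ∈ 𝔪)
    (hPZ : ∀ p : B, z⁻¹ * (p : F) ∈ Z → p ∈ 𝔪) :
    ∃ R' : Subring F', s36_pt_Below (fun x => ι x) (fun y => Nm y) ϖ ϖ z X Y Z V₁' V₂'
      (s18_locRing B 𝔪) m p R' := by
  obtain ⟨𝔪', h𝔪', -, h1, h2, hmap, hnorm, hE₁, hE₃, hE₂⟩ := s36_tloc_side ι B' V₁' V₂' B X Y Z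
    hB'B hint hBX hBY hBZ hB'1 hB'2 hX hY hZ hV₁' hV₂' hιϖ hιX hιZ hιY hcap n hzn hresX hresZ
    (p + 1) hresY hq hcl Nm kN hNι hNB 𝔪 h𝔪 hPX hPY hPZ
  refine ⟨s18_locRing B' 𝔪', ?_⟩
  exact
    { le_i := fun x hx => h1 x hx
      le_0 := fun x hx => h2 x hx
      map := fun x hx => hmap x hx
      root := fun y hy => s34_root_closed_loc B' m hm hroot' 𝔪' y hy
      norm := fun y hy _ => hnorm y hy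
      ext₁ := fun y hy0 hy hy' => hE₁ y hy0 hy hy'
      ext₃ := fun y hy0 hy hy' => hE₃ y hy0 hy hy'
      ext₂ := fun y hy0 hy hy' => hE₂ y hy0 hy hy' }

/-- **`s36_pt_Below` for the second degeneracy map** `W ∘ ι` with norm `Nm ∘ W`, in the literal
shape of the hypothesis `hβ` of `s36_pt_triOut` (`X`, `Z` over `V₁'`, `Y` over `V₂'` with respect
to `W ∘ ι`; in the model `(X, Y, Z) = (V_B, V_A, V_C)`). -/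
theorem s36_tloc_below_swap (ι : F' →+* F) (W : F ≃+* F) (B' V₁' V₂' : Subring F')
    (B X Y Z : Subring F) (hB'B : ∀ x ∈ B', W (ι x) ∈ B)
    (hint : ∀ x ∈ B, ∃ P : Polynomial B', P.Monic ∧
      P.eval₂ (((W : F →+* F).comp ι).comp B'.subtype) x = 0)
    (hBX : B ≤ X) (hBY : B ≤ Y) (hBZ : B ≤ Z) (hB'1 : B' ≤ V₁') (hB'2 : B' ≤ V₂')
    {ϖ' : F'} {ϖ z : F} (hX : s34_Unif ϖ X) (hY : s34_Unif ϖ Y) (hZ : s34_Unif z Z)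
    (hV₁' : s34_Unif ϖ' V₁') (hV₂' : s34_Unif ϖ' V₂') (hιϖ : W (ι ϖ') = ϖ)
    (hιX : ∀ y ∈ V₁', W (ι y) ∈ X) (hιZ : ∀ y ∈ V₁', W (ι y) ∈ Z) (hιY : ∀ y ∈ V₂', W (ι y) ∈ Y)
    (hcap : ∀ x ∈ B, ϖ⁻¹ * x ∈ X → ϖ⁻¹ * x ∈ Y → ϖ⁻¹ * x ∈ Z → ϖ⁻¹ * x ∈ B)
    (n : ℕ) (hzn : ϖ⁻¹ * z ^ n ∈ Z)
    (hresX : ∀ y ∈ B, ∃ y' ∈ B', ϖ⁻¹ * (y - W (ι y')) ∈ X)
    (hresZ : ∀ y ∈ B, ∃ y' ∈ B', z⁻¹ * (y - W (ι y')) ∈ Z)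
    (p : ℕ) (hresY : ∀ y ∈ B, ∃ y' ∈ B', ϖ⁻¹ * (y ^ (p + 1) - W (ι y')) ∈ Y)
    (hq : ∀ 𝔪' : Ideal B', 𝔪'.IsPrime → (∀ p : B', ϖ'⁻¹ * (p : F') ∈ V₁' → p ∈ 𝔪') →
      (∀ p : B', ϖ'⁻¹ * (p : F') ∈ V₂' → p ∈ 𝔪') →
      ∃ u₁ u₂ γ : B', (u₁ : F') * (u₂ : F') = ϖ' * (γ : F') ∧ ϖ'⁻¹ * (u₁ : F') ∈ V₁' ∧
        ϖ'⁻¹ * (u₂ : F') ∈ V₂' ∧ γ ∉ 𝔪')
    (hcl : ∀ 𝔭 : Ideal B, 𝔭.IsPrime →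
      ((∀ p : B, ϖ⁻¹ * (p : F) ∈ X → p ∈ 𝔭) → (∀ p : B, ϖ⁻¹ * (p : F) ∈ Y → p ∈ 𝔭) →
        ∀ p : B, z⁻¹ * (p : F) ∈ Z → p ∈ 𝔭) ∧
      ((∀ p : B, ϖ⁻¹ * (p : F) ∈ Y → p ∈ 𝔭) → (∀ p : B, z⁻¹ * (p : F) ∈ Z → p ∈ 𝔭) →
        ∀ p : B, ϖ⁻¹ * (p : F) ∈ X → p ∈ 𝔭))
    (Nm : F →* F') (kN : ℕ) (hNι : ∀ d ∈ B', Nm (W (W (ι d))) = d ^ kN)
    (hNB : ∀ b ∈ B, Nm (W b) ∈ B')
    (m : ℕ) (hm : 0 < m) (hroot' : ∀ x : F', x ^ m ∈ B' → x ∈ B')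
    (𝔪 : Ideal B) [h𝔪 : 𝔪.IsPrime]
    (hPX : ∀ p : B, ϖ⁻¹ * (p : F) ∈ X → p ∈ 𝔪) (hPY : ∀ p : B, ϖ⁻¹ * (p : F) ∈ Y → p ∈ 𝔪)
    (hPZ : ∀ p : B, z⁻¹ * (p : F) ∈ Z → p ∈ 𝔪) :
    ∃ R' : Subring F', s36_pt_Below (fun x => W (ι x)) (fun y => Nm (W y)) ϖ ϖ z X Y Z V₁' V₂'
      (s18_locRing B 𝔪) m p R' :=
  s36_tloc_below ((W : F →+* F).comp ι) B' V₁' V₂' B X Y Z hB'B hint hBX hBY hBZ hB'1 hB'2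
    hX hY hZ hV₁' hV₂' hιϖ hιX hιZ hιY hcap n hzn hresX hresZ p hresY hq hcl
    (Nm.comp (W : F →* F)) kN hNι hNB m hm hroot' 𝔪 hPX hPY hPZ

end Fermat.Agent.S36
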