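import Mathlib
import Fermat.Agent.S36.TriFact
import Fermat.Agent.S36.TriLocal

/-!
# S36 (NODE-3): the local factorisation at a triple point from chart-level data

`s36_to_fact_of_mem` : `s36_to_fact` with the auxiliary prime below `𝔪` produced from one element
`c ∈ 𝔪` not vanishing on `V_A` (the first clause of `s36_tloc_triple`).

`s36_to_fact_triple` : the hypothesis `hGloc` of `s36_pt_triOut` / `s36_ptc_triOut` (local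
factorisation `g = w G ^ m`, `w` a unit of `B_𝔪`, `G` a unit on the three components) from the
hypotheses of `s36_tloc_triple` VERBATIM (level-`q` thickness statement along one degeneracy map,
(cap), (RES) along the three components over an S18 chart, `P_X, P_Y, P_Z ⊆ 𝔪`) together with
`ϖ ∼ z ^ e`, `1 ≤ e ≤ n`, on the third component.
-/

set_option autoImplicit false

namespace Fermat.Agent.S36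

open Fermat.Agent.S18 Fermat.Agent.S34

/-- `s36_to_fact` with the auxiliary prime `B ∩ ϖ V_A`, strictly below `𝔪` because of one element
`c ∈ 𝔪` which does not vanish on `V_A`. -/
theorem s36_to_fact_of_mem {F : Type*} [Field F] {ϖ z : F} {B VA VB VC : Subring F}
    (hVA : s34_Unif ϖ VA) (hVB : s34_Unif ϖ VB) (hVC : s34_Unif z VC)
    (n : ℕ) (hCe : ϖ⁻¹ * z ^ n ∈ VC) (hCϖ : z⁻¹ * ϖ ∈ VC)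
    (hBA : B ≤ VA) (hBB : B ≤ VB) (hBC : B ≤ VC) (hϖB : ϖ ∈ B)
    (hcap : ∀ x ∈ B, ϖ⁻¹ * x ∈ VA ⊓ VB ⊓ VC → ϖ⁻¹ * x ∈ B)
    (hnoeth : IsNoetherianRing B) (hfrac : ∀ x : F, ∃ a ∈ B, ∃ b ∈ B, b ≠ 0 ∧ x = a / b)
    (𝔪 : Ideal B) (h𝔪 : 𝔪.IsMaximal)
    (hlocV : ∀ b : B, b ∉ 𝔪 → ((b : F))⁻¹ ∈ VA ⊓ VB ⊓ VC)
    (x y : B) (hx : x ∈ 𝔪) (hy : y ∈ 𝔪)
    (hgen : ∀ t ∈ 𝔪, ∃ u, u ∉ 𝔪 ∧ u * t ∈ Ideal.span {x, y})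
    (c : B) (hc𝔪 : c ∈ 𝔪) (hcVA : ϖ⁻¹ * (c : F) ∉ VA)
    (m : ℕ) (hm : 0 < m) :
    ∀ g : F, s36_pm_U VA g → s36_pm_U VB g → s36_pm_U VC g →
      (∀ W' : ValuationSubring F, IsDiscreteValuationRing W' → B ≤ W'.toSubring →
        ϖ⁻¹ ∈ W' → ∃ g' u : F, u ∈ W' ∧ u⁻¹ ∈ W' ∧ g = u * g' ^ m) →
      ∃ G : F, s36_pm_U VA G ∧ s36_pm_U VB G ∧ s36_pm_U VC G ∧
        g * (G⁻¹) ^ m ∈ s18_loc B 𝔪 ∧ G ^ m * g⁻¹ ∈ s18_loc B 𝔪 := by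
  have hϖ0 : ϖ ≠ 0 := hVA.ne_zero
  have hne : s34_ni_P ϖ B VA hBA ≠ ⊥ := by
    intro hbot
    have h1 : (⟨ϖ, hϖB⟩ : B) ∈ s34_ni_P ϖ B VA hBA := s34_ni_ϖ_mem_P hVA hBA hϖB
    rw [hbot, Ideal.mem_bot] at h1
    exact hϖ0 (congrArg Subtype.val h1)
  have hlt : s34_ni_P ϖ B VA hBA < 𝔪 := by
    refine lt_of_le_of_ne ?_ ?_
    · intro b hb
      by_contra hnot
      apply hVA.inv_not_mem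
      have hb0 : (b : F) ≠ 0 := by
        intro h0
        apply hnot
        have : b = 0 := Subtype.ext h0
        rw [this]; exact 𝔪.zero_mem
      have e : ϖ⁻¹ = ϖ⁻¹ * (b : F) * ((b : F))⁻¹ := by field_simp
      rw [e]
      exact VA.mul_mem hb (hlocV b hnot).1.1
    · intro heq
      rw [← heq] at hc𝔪
      exact hcVA hc𝔪
  exact s36_to_fact hVA hVB hVC n hCe hCϖ hBA hBB hBC hϖB hcap hnoeth hfrac 𝔪 h𝔪 hlocV x y hx hy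
    hgen (s34_ni_P ϖ B VA hBA) (s34_ni_P_prime hVA hBA) hne hlt m hm

/-- **`hGloc` at a triple point from chart-level data**: the hypotheses are those of
`s36_tloc_triple` verbatim, plus `ϖ⁻¹ z ^ n ∈ Z`, `z⁻¹ ϖ ∈ Z`. -/
theorem s36_to_fact_triple {F' F₀ F : Type*} [Field F'] [Field F₀] [Field F]
    (ι : F' →+* F) (B' V₁' V₂' : Subring F') (B X Y Z : Subring F)
    (hB'B : ∀ x ∈ B', ι x ∈ B) (hBX : B ≤ X) (hBY : B ≤ Y) (hBZ : B ≤ Z)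
    {ϖ' : F'} {ϖ z : F} (hX : s34_Unif ϖ X) (hY : s34_Unif ϖ Y) (hZ : s34_Unif z Z)
    (hιϖ : ι ϖ' = ϖ)
    (hιX : ∀ y ∈ V₁', ι y ∈ X) (hιZ : ∀ y ∈ V₁', ι y ∈ Z) (hιY : ∀ y ∈ V₂', ι y ∈ Y)
    (hcap : ∀ x ∈ B, ϖ⁻¹ * x ∈ X → ϖ⁻¹ * x ∈ Y → ϖ⁻¹ * x ∈ Z → ϖ⁻¹ * x ∈ B)
    (hq : ∀ 𝔪' : Ideal B', 𝔪'.IsPrime → (∀ p : B', ϖ'⁻¹ * (p : F') ∈ V₁' → p ∈ 𝔪') →
      (∀ p : B', ϖ'⁻¹ * (p : F') ∈ V₂' → p ∈ 𝔪') →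
      ∃ u₁ u₂ γ : B', (u₁ : F') * (u₂ : F') = ϖ' * (γ : F') ∧ ϖ'⁻¹ * (u₁ : F') ∈ V₁' ∧
        ϖ'⁻¹ * (u₂ : F') ∈ V₂' ∧ γ ∉ 𝔪')
    (ιX ιY ιZ : F₀ →+* F) {ϖ₀ : F₀} (B₁ : Subring F₀) (hB₁c : s18_Chart ϖ₀ B₁)
    (hmapX : ∀ x ∈ B₁, ιX x ∈ B) (hmapY : ∀ x ∈ B₁, ιY x ∈ B) (hmapZ : ∀ x ∈ B₁, ιZ x ∈ B)
    (hunifX : ϖ⁻¹ * ιX ϖ₀ ∈ X) (hunifY : ϖ⁻¹ * ιY ϖ₀ ∈ Y) (hunifZ : z⁻¹ * ιZ ϖ₀ ∈ Z)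
    (hresX : ∀ x ∈ B, ∃ x' ∈ B₁, ϖ⁻¹ * (x - ιX x') ∈ X)
    (hresY : ∀ x ∈ B, ∃ x' ∈ B₁, ϖ⁻¹ * (x - ιY x') ∈ Y)
    (hresZ : ∀ x ∈ B, ∃ x' ∈ B₁, z⁻¹ * (x - ιZ x') ∈ Z)
    (hnoeth : IsNoetherianRing B) (hfrac : ∀ x : F, ∃ a ∈ B, ∃ b ∈ B, b ≠ 0 ∧ x = a / b)
    (hϖB : ϖ ∈ B) (𝔪 : Ideal B) (h𝔪 : 𝔪.IsMaximal)
    (hPX : ∀ p : B, ϖ⁻¹ * (p : F) ∈ X → p ∈ 𝔪) (hPY : ∀ p : B, ϖ⁻¹ * (p : F) ∈ Y → p ∈ 𝔪)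
    (hPZ : ∀ p : B, z⁻¹ * (p : F) ∈ Z → p ∈ 𝔪)
    (n : ℕ) (hCe : ϖ⁻¹ * z ^ n ∈ Z) (hCϖ : z⁻¹ * ϖ ∈ Z)
    (m : ℕ) (hm : 0 < m) :
    ∀ g : F, s36_pm_U X g → s36_pm_U Y g → s36_pm_U Z g →
      (∀ W' : ValuationSubring F, IsDiscreteValuationRing W' → B ≤ W'.toSubring →
        ϖ⁻¹ ∈ W' → ∃ g' u : F, u ∈ W' ∧ u⁻¹ ∈ W' ∧ g = u * g' ^ m) →
      ∃ G : F, s36_pm_U X G ∧ s36_pm_U Y G ∧ s36_pm_U Z G ∧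
        g * (G⁻¹) ^ m ∈ s18_loc B 𝔪 ∧ G ^ m * g⁻¹ ∈ s18_loc B 𝔪 := by
  obtain ⟨⟨c, hc𝔪, hcX, -⟩, -, -, ⟨x, y, hx, hy, hgen⟩, -⟩ :=
    s36_tloc_triple ι B' V₁' V₂' B X Y Z hB'B hBX hBY hBZ hX hY hZ hιϖ hιX hιZ hιY hcap hq
      ιX ιY ιZ B₁ hB₁c hmapX hmapY hmapZ hunifX hunifY hunifZ hresX hresY hresZ hnoeth hfrac
      hϖB 𝔪 h𝔪 hPX hPY hPZ
  have hlocV : ∀ b : B, b ∉ 𝔪 → ((b : F))⁻¹ ∈ X ⊓ Y ⊓ Z := by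
    intro b hb
    exact ⟨⟨hX.inv_mem_of_not_dvd (hBX b.2) (fun h => hb (hPX b h)),
      hY.inv_mem_of_not_dvd (hBY b.2) (fun h => hb (hPY b h))⟩,
      hZ.inv_mem_of_not_dvd (hBZ b.2) (fun h => hb (hPZ b h))⟩
  exact s36_to_fact_of_mem hX hY hZ n hCe hCϖ hBX hBY hBZ hϖB
    (fun x hx h => hcap x hx h.1.1 h.1.2 h.2) hnoeth hfrac 𝔪 h𝔪 hlocV x y hx hy hgen c hc𝔪 hcX
    m hm

end Fermat.Agent.S36
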