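import Mathlib
import Fermat.Agent.S36.TriFun

/-!
# S36 (NODE-3), TRI36: the point relation with satisfiable lifting hypotheses

`s36_tri_rel` (S36/TriFun.lean) states its lifting hypotheses `hE₁`, `hE₃`, `hE₂`, `hG₁`, `hG₃`,
`hG₂` for *all* `y` with `y ∈ R`, `y⁻¹ ∈ R` (resp. `V_X`), which includes `y = 0` (`0⁻¹ = 0`), where
the conclusion `s35_fa_one d V (0 / ι y')` is false.  Those hypotheses can therefore not be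
supplied by any model.  `s36_tri_rel2` is the same statement with the hypotheses restricted to
`y ≠ 0` (the proof only ever uses them for `G ≠ 0` and for the units `r₁`, `r₂`, `r₃`).
**Use `s36_tri_rel2`, not `s36_tri_rel`.**
-/

set_option autoImplicit false

namespace Fermat.Agent.S36

open Fermat.Agent.S34 Fermat.Agent.S35

variable {F : Type*} [Field F]

/-- **The point relation for one degeneracy map** `ι : F' →+* F` with norm `Nm` (corrected form of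
`s36_tri_rel`: the lifting hypotheses are only required for nonzero elements).

`V₁` lies over `Vi` with `e = f = 1`, `V₃` lies over `Vi` with ramification index `p + 1`
(residue degree one), `V₂` lies over `V0` with purely inseparable residue extension of degree
`p + 1`; these facts enter through the global lifting hypotheses `hG₁`, `hG₃`, `hG₂` and the
norm–residue congruences `hN₁₃`, `hN₂`.  `R` is the local ring at the triple point, `R'` the local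
ring of the level-`q` chart below it (`hroot'`: `m`-root closed; `hNunit`: norms of units of `R`
are in `R'`; `hE₁`, `hE₃`, `hE₂`: the local lifting properties), `K` the congruence
`≡ 1` modulo the maximal ideal of `R`. -/
theorem s36_tri_rel2 {F' : Type*} [Field F'] (ι : F' →+* F) (Nm : F →* F')
    {d₁ d₂ d₃ : F} {ϖ' : F'} {V₁ V₂ V₃ : Subring F} {Vi V0 : Subring F'}
    (hV₁ : s34_Unif d₁ V₁) (hV₂ : s34_Unif d₂ V₂) (hV₃ : s34_Unif d₃ V₃)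
    (hVi : s34_Unif ϖ' Vi) (hV0 : s34_Unif ϖ' V0)
    (hιi₁ : ∀ x ∈ Vi, ι x ∈ V₁) (hιi₃ : ∀ x ∈ Vi, ι x ∈ V₃) (hι0₂ : ∀ x ∈ V0, ι x ∈ V₂)
    (hd₁ : d₁⁻¹ * ι ϖ' ∈ V₁) (hd₂ : d₂⁻¹ * ι ϖ' ∈ V₂)
    (R : Subring F)
    (R' : Subring F') (hR'i : R' ≤ Vi) (hR'0 : R' ≤ V0) (hιR : ∀ x ∈ R', ι x ∈ R)
    (K : F → Prop) (hKmul : ∀ x y, K x → K y → K (x * y)) (hKinv : ∀ x, K x → K x⁻¹)
    (hK₁ : ∀ x, x ∈ R → x⁻¹ ∈ R → s35_fa_one d₁ V₁ x → K x)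
    (hK₂ : ∀ x, x ∈ R → x⁻¹ ∈ R → s35_fa_one d₂ V₂ x → K x)
    (hK₃ : ∀ x, x ∈ R → x⁻¹ ∈ R → s35_fa_one d₃ V₃ x → K x)
    (m p : ℕ)
    (hroot' : ∀ y : F', y ^ m ∈ R' → y ∈ R')
    (hNunit : ∀ y, y ∈ R → y⁻¹ ∈ R → Nm y ∈ R')
    (hE₁ : ∀ y, y ≠ 0 → y ∈ R → y⁻¹ ∈ R →
      ∃ y' : F', y' ∈ R' ∧ y'⁻¹ ∈ R' ∧ s35_fa_one d₁ V₁ (y / ι y'))
    (hE₃ : ∀ y, y ≠ 0 → y ∈ R → y⁻¹ ∈ R →
      ∃ y' : F', y' ∈ R' ∧ y'⁻¹ ∈ R' ∧ s35_fa_one d₃ V₃ (y / ι y'))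
    (hE₂ : ∀ y, y ≠ 0 → y ∈ R → y⁻¹ ∈ R →
      ∃ y' : F', y' ∈ R' ∧ y'⁻¹ ∈ R' ∧ s35_fa_one d₂ V₂ (y ^ (p + 1) / ι y'))
    (hG₁ : ∀ y, y ≠ 0 → y ∈ V₁ → y⁻¹ ∈ V₁ →
      ∃ a : F', a ∈ Vi ∧ a⁻¹ ∈ Vi ∧ s35_fa_one d₁ V₁ (y / ι a))
    (hG₃ : ∀ y, y ≠ 0 → y ∈ V₃ → y⁻¹ ∈ V₃ →
      ∃ c : F', c ∈ Vi ∧ c⁻¹ ∈ Vi ∧ s35_fa_one d₃ V₃ (y / ι c))
    (hG₂ : ∀ y, y ≠ 0 → y ∈ V₂ → y⁻¹ ∈ V₂ →
      ∃ b : F', b ∈ V0 ∧ b⁻¹ ∈ V0 ∧ s35_fa_one d₂ V₂ (y ^ (p + 1) / ι b))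
    (hN₁₃ : ∀ (h : F) (a c : F'), a ∈ Vi → a⁻¹ ∈ Vi → c ∈ Vi → c⁻¹ ∈ Vi →
      s35_fa_one d₁ V₁ (h / ι a) → s35_fa_one d₃ V₃ (h / ι c) →
      s35_fa_one ϖ' Vi (Nm h / (a * c ^ p)))
    (hN₂ : ∀ (h : F) (b : F'), b ∈ V0 → b⁻¹ ∈ V0 →
      s35_fa_one d₂ V₂ (h ^ (p + 1) / ι b) → s35_fa_one ϖ' V0 (Nm h / b))
    (g G Ψ₁ Ψ₂ Ψ₃ r₁ r₂ r₃ : F) (f ψ : F')
    (hg0 : g ≠ 0) (hG0 : G ≠ 0)
    (hG₁V : G ∈ V₁) (hG₁V' : G⁻¹ ∈ V₁) (hG₂V : G ∈ V₂) (hG₂V' : G⁻¹ ∈ V₂)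
    (hG₃V : G ∈ V₃) (hG₃V' : G⁻¹ ∈ V₃)
    (hw : g * (G⁻¹) ^ m ∈ R) (hw' : G ^ m * g⁻¹ ∈ R)
    (hNg : Nm g = f ^ m)
    (hfi' : f⁻¹ ∈ Vi) (hf0' : f⁻¹ ∈ V0)
    (hψ : ψ ∈ Vi) (hψ' : ψ⁻¹ ∈ Vi)
    (hΨ₁ : s35_fa_one d₁ V₁ (Ψ₁ / ι ψ))
    (hΨ₂ : s35_fa_one d₂ V₂ (Ψ₂ ^ (p + 1) / ι f))
    (hΨ₃ : s35_fa_one d₃ V₃ (Ψ₃ / ι (f / ψ)))
    (hr₁ : r₁ ∈ R) (hr₁' : r₁⁻¹ ∈ R) (hr₂ : r₂ ∈ R) (hr₂' : r₂⁻¹ ∈ R)
    (hr₃ : r₃ ∈ R) (hr₃' : r₃⁻¹ ∈ R)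
    (hl₁ : s35_fa_one d₁ V₁ (Ψ₁ / (G * r₁)))
    (hl₂ : s35_fa_one d₂ V₂ (Ψ₂ / (G * r₂)))
    (hl₃ : s35_fa_one d₃ V₃ (Ψ₃ / (G ^ p * r₃))) :
    K (r₁ * r₃ / r₂ ^ (p + 1)) := by
  have hϖ'0 : ϖ' ≠ 0 := hVi.ne_zero
  -- nonvanishing
  have hNG0 : Nm G ≠ 0 := by
    intro h0
    have h1 : Nm G * Nm G⁻¹ = 1 := by rw [← map_mul, mul_inv_cancel₀ hG0, map_one]
    rw [h0, zero_mul] at h1
    exact zero_ne_one h1
  have hf0ne : f ≠ 0 := by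
    intro h0
    have h1 : Nm g * Nm g⁻¹ = 1 := by rw [← map_mul, mul_inv_cancel₀ hg0, map_one]
    rw [hNg, h0] at h1
    by_cases hm0 : m = 0
    · -- then `w = g` is a unit of `R`; `f = 0` contradicts `hΨ₂`
      have := (s36_tri_unit hV₂ hΨ₂).1
      rw [h0, map_zero, div_zero] at this
      exact this rfl
    · rw [zero_pow hm0, zero_mul] at h1
      exact zero_ne_one h1
  have hιf0 : ι f ≠ 0 := (map_ne_zero ι).mpr hf0ne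
  have hψ0 : ψ ≠ 0 := by
    intro h0
    have := (s36_tri_unit hV₁ hΨ₁).1
    rw [h0, map_zero, div_zero] at this
    exact this rfl
  have hιψ0 : ι ψ ≠ 0 := (map_ne_zero ι).mpr hψ0
  have hΨ₁0 : Ψ₁ ≠ 0 := by
    intro h0
    have := (s36_tri_unit hV₁ hΨ₁).1
    rw [h0, zero_div] at this
    exact this rfl
  have hΨ₂0 : Ψ₂ ≠ 0 := by
    intro h0
    have := (s36_tri_unit hV₂ hΨ₂).1
    rw [h0, zero_pow (Nat.succ_ne_zero p), zero_div] at this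
    exact this rfl
  have hΨ₃0 : Ψ₃ ≠ 0 := by
    intro h0
    have := (s36_tri_unit hV₃ hΨ₃).1
    rw [h0, zero_div] at this
    exact this rfl
  have hr₁0 : r₁ ≠ 0 := by
    intro h0
    have := (s36_tri_unit hV₁ hl₁).1
    rw [h0, mul_zero, div_zero] at this
    exact this rfl
  have hr₂0 : r₂ ≠ 0 := by
    intro h0
    have := (s36_tri_unit hV₂ hl₂).1
    rw [h0, mul_zero, div_zero] at this
    exact this rfl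
  have hr₃0 : r₃ ≠ 0 := by
    intro h0
    have := (s36_tri_unit hV₃ hl₃).1
    rw [h0, mul_zero, div_zero] at this
    exact this rfl
  -- the unit `v₁ = f / Nm G` of `R'`
  have hNGinv : Nm G⁻¹ = (Nm G)⁻¹ := s36_tri_nm_inv Nm hG0
  have hNginv : Nm g⁻¹ = (Nm g)⁻¹ := s36_tri_nm_inv Nm hg0
  have hv₁ : f / Nm G ∈ R' := by
    apply hroot'
    have e : (f / Nm G) ^ m = Nm (g * (G⁻¹) ^ m) := by
      rw [map_mul, map_pow, hNGinv, hNg, div_pow, inv_pow, div_eq_mul_inv]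
    rw [e]
    refine hNunit _ hw ?_
    have e2 : (g * (G⁻¹) ^ m)⁻¹ = G ^ m * g⁻¹ := by
      rw [mul_inv, inv_pow, inv_inv, mul_comm]
    rw [e2]; exact hw'
  have hv₁' : (f / Nm G)⁻¹ ∈ R' := by
    apply hroot'
    have e : ((f / Nm G)⁻¹) ^ m = Nm (G ^ m * g⁻¹) := by
      rw [map_mul, map_pow, hNginv, hNg, inv_div, div_pow, div_eq_mul_inv]
    rw [e]
    refine hNunit _ hw' ?_
    have e2 : (G ^ m * g⁻¹)⁻¹ = g * (G⁻¹) ^ m := by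
      rw [mul_inv, inv_inv, inv_pow, mul_comm]
    rw [e2]; exact hw
  -- global lifts of `G`
  obtain ⟨a, ha, ha', hGa⟩ := hG₁ G hG0 hG₁V hG₁V'
  obtain ⟨c, hc, hc', hGc⟩ := hG₃ G hG0 hG₃V hG₃V'
  obtain ⟨b, hb, hb', hGb⟩ := hG₂ G hG0 hG₂V hG₂V'
  have ha0 : a ≠ 0 := by
    intro h0
    have := (s36_tri_unit hV₁ hGa).1
    rw [h0, map_zero, div_zero] at this
    exact this rfl
  have hc0 : c ≠ 0 := by
    intro h0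
    have := (s36_tri_unit hV₃ hGc).1
    rw [h0, map_zero, div_zero] at this
    exact this rfl
  have hb0 : b ≠ 0 := by
    intro h0
    have := (s36_tri_unit hV₂ hGb).1
    rw [h0, map_zero, div_zero] at this
    exact this rfl
  have hιa0 : ι a ≠ 0 := (map_ne_zero ι).mpr ha0
  have hιc0 : ι c ≠ 0 := (map_ne_zero ι).mpr hc0
  have hιb0 : ι b ≠ 0 := (map_ne_zero ι).mpr hb0
  -- norm residue
  have hNi := hN₁₃ G a c ha ha' hc hc' hGa hGc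
  have hN0 := hN₂ G b hb hb' hGb
  -- local lifts
  obtain ⟨s₁, hs₁, hs₁', hrs₁⟩ := hE₁ r₁ hr₁0 hr₁ hr₁'
  obtain ⟨s₃, hs₃, hs₃', hrs₃⟩ := hE₃ r₃ hr₃0 hr₃ hr₃'
  obtain ⟨s₂, hs₂, hs₂', hrs₂⟩ := hE₂ r₂ hr₂0 hr₂ hr₂'
  have hs₁0 : s₁ ≠ 0 := by
    intro h0
    have := (s36_tri_unit hV₁ hrs₁).1
    rw [h0, map_zero, div_zero] at this
    exact this rfl
  have hs₃0 : s₃ ≠ 0 := by
    intro h0
    have := (s36_tri_unit hV₃ hrs₃).1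
    rw [h0, map_zero, div_zero] at this
    exact this rfl
  have hs₂0 : s₂ ≠ 0 := by
    intro h0
    have := (s36_tri_unit hV₂ hrs₂).1
    rw [h0, map_zero, div_zero] at this
    exact this rfl
  have hιs₁0 : ι s₁ ≠ 0 := (map_ne_zero ι).mpr hs₁0
  have hιs₃0 : ι s₃ ≠ 0 := (map_ne_zero ι).mpr hs₃0
  have hιs₂0 : ι s₂ ≠ 0 := (map_ne_zero ι).mpr hs₂0
  -- branch 1: `a s₁ / ψ ∈ 1 + ϖ' Vi`
  have hb1 : s35_fa_one ϖ' Vi (a * s₁ / ψ) := by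
    have hmem : a * s₁ / ψ ∈ Vi := by
      rw [div_eq_mul_inv]; exact Vi.mul_mem (Vi.mul_mem ha (hR'i hs₁)) hψ'
    refine s36_tri_reflect ι hV₁ hVi hιi₁ hmem ?_
    have h := (((hGa.inv hV₁).mul hV₁ (hl₁.inv hV₁)).mul hV₁ hΨ₁).mul hV₁ (hrs₁.inv hV₁)
    refine s36_tri_congr h ?_
    simp only [map_div₀, map_mul, map_pow, div_pow, mul_pow]
    field_simp
  -- branch 3: `c^p s₃ ψ / f ∈ 1 + ϖ' Vi`
  have hb3 : s35_fa_one ϖ' Vi (c ^ p * s₃ * ψ / f) := by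
    have hmem : c ^ p * s₃ * ψ / f ∈ Vi := by
      rw [div_eq_mul_inv]
      exact Vi.mul_mem (Vi.mul_mem (Vi.mul_mem (Vi.pow_mem hc p) (hR'i hs₃)) hψ) hfi'
    refine s36_tri_reflect ι hV₃ hVi hιi₃ hmem ?_
    have h := ((((hGc.pow hV₃ p).inv hV₃).mul hV₃ (hl₃.inv hV₃)).mul hV₃ hΨ₃).mul hV₃
      (hrs₃.inv hV₃)
    refine s36_tri_congr h ?_
    simp only [map_div₀, map_mul, map_pow, div_pow, mul_pow]
    field_simp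
  -- hence `s₁ s₃ / v₁ ∈ 1 + ϖ' Vi`
  have hi : s35_fa_one ϖ' Vi (s₁ * s₃ / (f / Nm G)) := by
    have h := (hb1.mul hVi hb3).mul hVi hNi
    refine s36_tri_congr h ?_
    field_simp
  -- branch 2: `b s₂ / f ∈ 1 + ϖ' V0`
  have hb2 : s35_fa_one ϖ' V0 (b * s₂ / f) := by
    have hmem : b * s₂ / f ∈ V0 := by
      rw [div_eq_mul_inv]; exact V0.mul_mem (V0.mul_mem hb (hR'0 hs₂)) hf0'
    refine s36_tri_reflect ι hV₂ hV0 hι0₂ hmem ?_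
    have h := (((hGb.inv hV₂).mul hV₂ ((hl₂.pow hV₂ (p + 1)).inv hV₂)).mul hV₂ hΨ₂).mul hV₂
      (hrs₂.inv hV₂)
    refine s36_tri_congr h ?_
    simp only [map_div₀, map_mul, map_pow, div_pow, mul_pow]
    field_simp
  have h0 : s35_fa_one ϖ' V0 (s₂ / (f / Nm G)) := by
    have h := hb2.mul hV0 hN0
    refine s36_tri_congr h ?_
    field_simp
  -- transport to `R`
  have hv₁0 : f / Nm G ≠ 0 := div_ne_zero hf0ne hNG0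
  have hKi : K (ι (s₁ * s₃ / (f / Nm G))) := by
    have hmem : s₁ * s₃ / (f / Nm G) ∈ R' := by
      rw [div_eq_mul_inv]; exact R'.mul_mem (R'.mul_mem hs₁ hs₃) hv₁'
    have hmem' : (s₁ * s₃ / (f / Nm G))⁻¹ ∈ R' := by
      rw [inv_div, div_eq_mul_inv, mul_inv]
      exact R'.mul_mem hv₁ (R'.mul_mem hs₁' hs₃')
    refine hK₁ _ (hιR _ hmem) ?_ (s36_tri_map ι hιi₁ hd₁ hϖ'0 hi)
    rw [← map_inv₀]
    exact hιR _ hmem'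
  have hK0 : K (ι (s₂ / (f / Nm G))) := by
    have hmem : s₂ / (f / Nm G) ∈ R' := by
      rw [div_eq_mul_inv]; exact R'.mul_mem hs₂ hv₁'
    have hmem' : (s₂ / (f / Nm G))⁻¹ ∈ R' := by
      rw [inv_div, div_eq_mul_inv]
      exact R'.mul_mem hv₁ hs₂'
    refine hK₂ _ (hιR _ hmem) ?_ (s36_tri_map ι hι0₂ hd₂ hϖ'0 h0)
    rw [← map_inv₀]
    exact hιR _ hmem'
  have hK1 : K (r₁ / ι s₁) := by
    have hmem : r₁ / ι s₁ ∈ R := by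
      rw [div_eq_mul_inv, ← map_inv₀]; exact R.mul_mem hr₁ (hιR _ hs₁')
    refine hK₁ _ hmem ?_ hrs₁
    rw [inv_div, div_eq_mul_inv]
    exact R.mul_mem (hιR _ hs₁) hr₁'
  have hK3 : K (r₃ / ι s₃) := by
    have hmem : r₃ / ι s₃ ∈ R := by
      rw [div_eq_mul_inv, ← map_inv₀]; exact R.mul_mem hr₃ (hιR _ hs₃')
    refine hK₃ _ hmem ?_ hrs₃
    rw [inv_div, div_eq_mul_inv]
    exact R.mul_mem (hιR _ hs₃) hr₃'
  have hK2 : K (r₂ ^ (p + 1) / ι s₂) := by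
    have hmem : r₂ ^ (p + 1) / ι s₂ ∈ R := by
      rw [div_eq_mul_inv, ← map_inv₀]; exact R.mul_mem (R.pow_mem hr₂ _) (hιR _ hs₂')
    refine hK₂ _ hmem ?_ hrs₂
    rw [inv_div, div_eq_mul_inv, ← inv_pow]
    exact R.mul_mem (hιR _ hs₂) (R.pow_mem hr₂' _)
  have hfin := hKmul _ _ (hKmul _ _ (hKmul _ _ hK1 hK3) (hKinv _ hK2))
    (hKmul _ _ hKi (hKinv _ hK0))
  have e : r₁ / ι s₁ * (r₃ / ι s₃) * (r₂ ^ (p + 1) / ι s₂)⁻¹ *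
      (ι (s₁ * s₃ / (f / Nm G)) * (ι (s₂ / (f / Nm G)))⁻¹) = r₁ * r₃ / r₂ ^ (p + 1) := by
    have hιv : ι (f / Nm G) ≠ 0 := (map_ne_zero ι).mpr hv₁0
    have hιNG : ι (Nm G) ≠ 0 := (map_ne_zero ι).mpr hNG0
    simp only [map_div₀, map_mul, map_pow, div_pow, mul_pow]
    field_simp
  rw [e] at hfin
  exact hfin

/-! ### The local function `Θ` -/

end Fermat.Agent.S36
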