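import Mathlib
import Fermat.Agent.S36.PowModel
import Fermat.Agent.S36.TriFun

/-!
# S36 (NODE-3): the provider of the triple-point contract `s36_pm_TriOut`

* `s36_to_rel` : the point relation for one degeneracy map — `s36_tri_rel` (S36/TriFun) with the
  hypotheses `hNunit`, `hE₁`, `hE₃`, `hE₂`, `hG₁`, `hG₃`, `hG₂` restricted to NONZERO `y`
  (as stated in TriFun they are required for `y = 0` too, where they cannot hold: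
  `s35_fa_one d V (0 / ι a)` means `d⁻¹ ∈ V`).  Same proof.
* `s36_to_main` : `s36_pm_TriOut` from the global data of `s36_pow_of_model` and the local data
  at the triple point.
-/

set_option autoImplicit false

namespace Fermat.Agent.S36

open Fermat.Agent.S18 Fermat.Agent.S34 Fermat.Agent.S35

section Rel

variable {F : Type*} [Field F]

/-- **The point relation for one degeneracy map** (`s36_tri_rel` with the lifting hypotheses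
restricted to nonzero elements). -/
theorem s36_to_rel {F' : Type*} [Field F'] (ι : F' →+* F) (Nm : F →* F')
    {d₁ d₂ d₃ : F} {ϖ' : F'} {V₁ V₂ V₃ : Subring F} {Vi V0 : Subring F'}
    (hV₁ : s34_Unif d₁ V₁) (hV₂ : s34_Unif d₂ V₂) (hV₃ : s34_Unif d₃ V₃)
    (hVi : s34_Unif ϖ' Vi) (hV0 : s34_Unif ϖ' V0)
    (hιi₁ : ∀ x ∈ Vi, ι x ∈ V₁) (hιi₃ : ∀ x ∈ Vi, ι x ∈ V₃) (hι0₂ : ∀ x ∈ V0, ι x ∈ V₂)
    (hd₁ : d₁⁻¹ * ι ϖ' ∈ V₁) (hd₂ : d₂⁻¹ * ι ϖ' ∈ V₂)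
    (R : Subring F)
    (R' : Subring F') (hR'i : R' ≤ Vi) (hR'0 : R' ≤ V0) (hιR : ∀ x ∈ R', ι x ∈ R)
    (K : F → Prop) (hKmul : ∀ x y, K x → K y → K (x * y)) (hKinv : ∀ x, K x → K x⁻¹)
    (hK₁ : ∀ x, x ∈ R → x⁻¹ ∈ R → s35_fa_one d₁ V₁ x → K x)
    (hK₂ : ∀ x, x ∈ R → x⁻¹ ∈ R → s35_fa_one d₂ V₂ x → K x)
    (hK₃ : ∀ x, x ∈ R → x⁻¹ ∈ R → s35_fa_one d₃ V₃ x → K x)
    (m p : ℕ)
    (hroot' : ∀ y : F', y ^ m ∈ R' → y ∈ R')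
    (hNunit : ∀ y, y ≠ 0 → y ∈ R → y⁻¹ ∈ R → Nm y ∈ R')
    (hE₁ : ∀ y, y ≠ 0 → y ∈ R → y⁻¹ ∈ R →
      ∃ y' : F', y' ∈ R' ∧ y'⁻¹ ∈ R' ∧ s35_fa_one d₁ V₁ (y / ι y'))
    (hE₃ : ∀ y, y ≠ 0 → y ∈ R → y⁻¹ ∈ R →
      ∃ y' : F', y' ∈ R' ∧ y'⁻¹ ∈ R' ∧ s35_fa_one d₃ V₃ (y / ι y'))
    (hE₂ : ∀ y, y ≠ 0 → y ∈ R → y⁻¹ ∈ R →
      ∃ y' : F', y' ∈ R' ∧ y'⁻¹ ∈ R' ∧ s35_fa_one d₂ V₂ (y ^ (p + 1) / ι y'))
    (hG₁ : ∀ y, y ≠ 0 → y ∈ V₁ → y⁻¹ ∈ V₁ →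
      ∃ a : F', a ∈ Vi ∧ a⁻¹ ∈ Vi ∧ s35_fa_one d₁ V₁ (y / ι a))
    (hG₃ : ∀ y, y ≠ 0 → y ∈ V₃ → y⁻¹ ∈ V₃ →
      ∃ c : F', c ∈ Vi ∧ c⁻¹ ∈ Vi ∧ s35_fa_one d₃ V₃ (y / ι c))
    (hG₂ : ∀ y, y ≠ 0 → y ∈ V₂ → y⁻¹ ∈ V₂ →
      ∃ b : F', b ∈ V0 ∧ b⁻¹ ∈ V0 ∧ s35_fa_one d₂ V₂ (y ^ (p + 1) / ι b))
    (hN₁₃ : ∀ (h : F) (a c : F'), a ∈ Vi → a⁻¹ ∈ Vi → c ∈ Vi → c⁻¹ ∈ Vi →
      s35_fa_one d₁ V₁ (h / ι a) → s35_fa_one d₃ V₃ (h / ι c) →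
      s35_fa_one ϖ' Vi (Nm h / (a * c ^ p)))
    (hN₂ : ∀ (h : F) (b : F'), b ∈ V0 → b⁻¹ ∈ V0 →
      s35_fa_one d₂ V₂ (h ^ (p + 1) / ι b) → s35_fa_one ϖ' V0 (Nm h / b))
    (g G Ψ₁ Ψ₂ Ψ₃ r₁ r₂ r₃ : F) (f ψ : F')
    (hg0 : g ≠ 0) (hG0 : G ≠ 0)
    (hG₁V : G ∈ V₁) (hG₁V' : G⁻¹ ∈ V₁) (hG₂V : G ∈ V₂) (hG₂V' : G⁻¹ ∈ V₂)
    (hG₃V : G ∈ V₃) (hG₃V' : G⁻¹ ∈ V₃)
    (hw : g * (G⁻¹) ^ m ∈ R) (hw' : G ^ m * g⁻¹ ∈ R)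
    (hNg : Nm g = f ^ m)
    (hfi' : f⁻¹ ∈ Vi) (hf0' : f⁻¹ ∈ V0)
    (hψ : ψ ∈ Vi) (hψ' : ψ⁻¹ ∈ Vi)
    (hΨ₁ : s35_fa_one d₁ V₁ (Ψ₁ / ι ψ))
    (hΨ₂ : s35_fa_one d₂ V₂ (Ψ₂ ^ (p + 1) / ι f))
    (hΨ₃ : s35_fa_one d₃ V₃ (Ψ₃ / ι (f / ψ)))
    (hr₁ : r₁ ∈ R) (hr₁' : r₁⁻¹ ∈ R) (hr₂ : r₂ ∈ R) (hr₂' : r₂⁻¹ ∈ R)
    (hr₃ : r₃ ∈ R) (hr₃' : r₃⁻¹ ∈ R)
    (hl₁ : s35_fa_one d₁ V₁ (Ψ₁ / (G * r₁)))
    (hl₂ : s35_fa_one d₂ V₂ (Ψ₂ / (G * r₂)))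
    (hl₃ : s35_fa_one d₃ V₃ (Ψ₃ / (G ^ p * r₃))) :
    K (r₁ * r₃ / r₂ ^ (p + 1)) := by
  have hϖ'0 : ϖ' ≠ 0 := hVi.ne_zero
  -- nonvanishing
  have hNG0 : Nm G ≠ 0 := by
    intro h0
    have h1 : Nm G * Nm G⁻¹ = 1 := by rw [← map_mul, mul_inv_cancel₀ hG0, map_one]
    rw [h0, zero_mul] at h1
    exact zero_ne_one h1
  have hf0ne : f ≠ 0 := by
    intro h0
    have h1 : Nm g * Nm g⁻¹ = 1 := by rw [← map_mul, mul_inv_cancel₀ hg0, map_one]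
    rw [hNg, h0] at h1
    by_cases hm0 : m = 0
    · -- then `w = g` is a unit of `R`; `f = 0` contradicts `hΨ₂`
      have := (s36_tri_unit hV₂ hΨ₂).1
      rw [h0, map_zero, div_zero] at this
      exact this rfl
    · rw [zero_pow hm0, zero_mul] at h1
      exact zero_ne_one h1
  have hιf0 : ι f ≠ 0 := (map_ne_zero ι).mpr hf0ne
  have hψ0 : ψ ≠ 0 := by
    intro h0
    have := (s36_tri_unit hV₁ hΨ₁).1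
    rw [h0, map_zero, div_zero] at this
    exact this rfl
  have hιψ0 : ι ψ ≠ 0 := (map_ne_zero ι).mpr hψ0
  have hΨ₁0 : Ψ₁ ≠ 0 := by
    intro h0
    have := (s36_tri_unit hV₁ hΨ₁).1
    rw [h0, zero_div] at this
    exact this rfl
  have hΨ₂0 : Ψ₂ ≠ 0 := by
    intro h0
    have := (s36_tri_unit hV₂ hΨ₂).1
    rw [h0, zero_pow (Nat.succ_ne_zero p), zero_div] at this
    exact this rfl
  have hΨ₃0 : Ψ₃ ≠ 0 := by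
    intro h0
    have := (s36_tri_unit hV₃ hΨ₃).1
    rw [h0, zero_div] at this
    exact this rfl
  have hr₁0 : r₁ ≠ 0 := by
    intro h0
    have := (s36_tri_unit hV₁ hl₁).1
    rw [h0, mul_zero, div_zero] at this
    exact this rfl
  have hr₂0 : r₂ ≠ 0 := by
    intro h0
    have := (s36_tri_unit hV₂ hl₂).1
    rw [h0, mul_zero, div_zero] at this
    exact this rfl
  have hr₃0 : r₃ ≠ 0 := by
    intro h0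
    have := (s36_tri_unit hV₃ hl₃).1
    rw [h0, mul_zero, div_zero] at this
    exact this rfl
  -- the unit `v₁ = f / Nm G` of `R'`
  have hNGinv : Nm G⁻¹ = (Nm G)⁻¹ := s36_tri_nm_inv Nm hG0
  have hNginv : Nm g⁻¹ = (Nm g)⁻¹ := s36_tri_nm_inv Nm hg0
  have hv₁ : f / Nm G ∈ R' := by
    apply hroot'
    have e : (f / Nm G) ^ m = Nm (g * (G⁻¹) ^ m) := by
      rw [map_mul, map_pow, hNGinv, hNg, div_pow, inv_pow, div_eq_mul_inv]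
    rw [e]
    refine hNunit _ (mul_ne_zero hg0 (pow_ne_zero m (inv_ne_zero hG0))) hw ?_
    have e2 : (g * (G⁻¹) ^ m)⁻¹ = G ^ m * g⁻¹ := by
      rw [mul_inv, inv_pow, inv_inv, mul_comm]
    rw [e2]; exact hw'
  have hv₁' : (f / Nm G)⁻¹ ∈ R' := by
    apply hroot'
    have e : ((f / Nm G)⁻¹) ^ m = Nm (G ^ m * g⁻¹) := by
      rw [map_mul, map_pow, hNginv, hNg, inv_div, div_pow, div_eq_mul_inv]
    rw [e]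
    refine hNunit _ (mul_ne_zero (pow_ne_zero m hG0) (inv_ne_zero hg0)) hw' ?_
    have e2 : (G ^ m * g⁻¹)⁻¹ = g * (G⁻¹) ^ m := by
      rw [mul_inv, inv_inv, inv_pow, mul_comm]
    rw [e2]; exact hw
  -- global lifts of `G`
  obtain ⟨a, ha, ha', hGa⟩ := hG₁ G hG0 hG₁V hG₁V'
  obtain ⟨c, hc, hc', hGc⟩ := hG₃ G hG0 hG₃V hG₃V'
  obtain ⟨b, hb, hb', hGb⟩ := hG₂ G hG0 hG₂V hG₂V'
  have ha0 : a ≠ 0 := by
    intro h0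
    have := (s36_tri_unit hV₁ hGa).1
    rw [h0, map_zero, div_zero] at this
    exact this rfl
  have hc0 : c ≠ 0 := by
    intro h0
    have := (s36_tri_unit hV₃ hGc).1
    rw [h0, map_zero, div_zero] at this
    exact this rfl
  have hb0 : b ≠ 0 := by
    intro h0
    have := (s36_tri_unit hV₂ hGb).1
    rw [h0, map_zero, div_zero] at this
    exact this rfl
  have hιa0 : ι a ≠ 0 := (map_ne_zero ι).mpr ha0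
  have hιc0 : ι c ≠ 0 := (map_ne_zero ι).mpr hc0
  have hιb0 : ι b ≠ 0 := (map_ne_zero ι).mpr hb0
  -- norm residue
  have hNi := hN₁₃ G a c ha ha' hc hc' hGa hGc
  have hN0 := hN₂ G b hb hb' hGb
  -- local lifts
  obtain ⟨s₁, hs₁, hs₁', hrs₁⟩ := hE₁ r₁ hr₁0 hr₁ hr₁'
  obtain ⟨s₃, hs₃, hs₃', hrs₃⟩ := hE₃ r₃ hr₃0 hr₃ hr₃'
  obtain ⟨s₂, hs₂, hs₂', hrs₂⟩ := hE₂ r₂ hr₂0 hr₂ hr₂'
  have hs₁0 : s₁ ≠ 0 := by
    intro h0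
    have := (s36_tri_unit hV₁ hrs₁).1
    rw [h0, map_zero, div_zero] at this
    exact this rfl
  have hs₃0 : s₃ ≠ 0 := by
    intro h0
    have := (s36_tri_unit hV₃ hrs₃).1
    rw [h0, map_zero, div_zero] at this
    exact this rfl
  have hs₂0 : s₂ ≠ 0 := by
    intro h0
    have := (s36_tri_unit hV₂ hrs₂).1
    rw [h0, map_zero, div_zero] at this
    exact this rfl
  have hιs₁0 : ι s₁ ≠ 0 := (map_ne_zero ι).mpr hs₁0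
  have hιs₃0 : ι s₃ ≠ 0 := (map_ne_zero ι).mpr hs₃0
  have hιs₂0 : ι s₂ ≠ 0 := (map_ne_zero ι).mpr hs₂0
  -- branch 1: `a s₁ / ψ ∈ 1 + ϖ' Vi`
  have hb1 : s35_fa_one ϖ' Vi (a * s₁ / ψ) := by
    have hmem : a * s₁ / ψ ∈ Vi := by
      rw [div_eq_mul_inv]; exact Vi.mul_mem (Vi.mul_mem ha (hR'i hs₁)) hψ'
    refine s36_tri_reflect ι hV₁ hVi hιi₁ hmem ?_
    have h := (((hGa.inv hV₁).mul hV₁ (hl₁.inv hV₁)).mul hV₁ hΨ₁).mul hV₁ (hrs₁.inv hV₁)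
    refine s36_tri_congr h ?_
    simp only [map_div₀, map_mul, map_pow, div_pow, mul_pow]
    field_simp
  -- branch 3: `c^p s₃ ψ / f ∈ 1 + ϖ' Vi`
  have hb3 : s35_fa_one ϖ' Vi (c ^ p * s₃ * ψ / f) := by
    have hmem : c ^ p * s₃ * ψ / f ∈ Vi := by
      rw [div_eq_mul_inv]
      exact Vi.mul_mem (Vi.mul_mem (Vi.mul_mem (Vi.pow_mem hc p) (hR'i hs₃)) hψ) hfi'
    refine s36_tri_reflect ι hV₃ hVi hιi₃ hmem ?_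
    have h := ((((hGc.pow hV₃ p).inv hV₃).mul hV₃ (hl₃.inv hV₃)).mul hV₃ hΨ₃).mul hV₃
      (hrs₃.inv hV₃)
    refine s36_tri_congr h ?_
    simp only [map_div₀, map_mul, map_pow, div_pow, mul_pow]
    field_simp
  -- hence `s₁ s₃ / v₁ ∈ 1 + ϖ' Vi`
  have hi : s35_fa_one ϖ' Vi (s₁ * s₃ / (f / Nm G)) := by
    have h := (hb1.mul hVi hb3).mul hVi hNi
    refine s36_tri_congr h ?_
    field_simp
  -- branch 2: `b s₂ / f ∈ 1 + ϖ' V0`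
  have hb2 : s35_fa_one ϖ' V0 (b * s₂ / f) := by
    have hmem : b * s₂ / f ∈ V0 := by
      rw [div_eq_mul_inv]; exact V0.mul_mem (V0.mul_mem hb (hR'0 hs₂)) hf0'
    refine s36_tri_reflect ι hV₂ hV0 hι0₂ hmem ?_
    have h := (((hGb.inv hV₂).mul hV₂ ((hl₂.pow hV₂ (p + 1)).inv hV₂)).mul hV₂ hΨ₂).mul hV₂
      (hrs₂.inv hV₂)
    refine s36_tri_congr h ?_
    simp only [map_div₀, map_mul, map_pow, div_pow, mul_pow]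
    field_simp
  have h0 : s35_fa_one ϖ' V0 (s₂ / (f / Nm G)) := by
    have h := hb2.mul hV0 hN0
    refine s36_tri_congr h ?_
    field_simp
  -- transport to `R`
  have hv₁0 : f / Nm G ≠ 0 := div_ne_zero hf0ne hNG0
  have hKi : K (ι (s₁ * s₃ / (f / Nm G))) := by
    have hmem : s₁ * s₃ / (f / Nm G) ∈ R' := by
      rw [div_eq_mul_inv]; exact R'.mul_mem (R'.mul_mem hs₁ hs₃) hv₁'
    have hmem' : (s₁ * s₃ / (f / Nm G))⁻¹ ∈ R' := by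
      rw [inv_div, div_eq_mul_inv, mul_inv]
      exact R'.mul_mem hv₁ (R'.mul_mem hs₁' hs₃')
    refine hK₁ _ (hιR _ hmem) ?_ (s36_tri_map ι hιi₁ hd₁ hϖ'0 hi)
    rw [← map_inv₀]
    exact hιR _ hmem'
  have hK0 : K (ι (s₂ / (f / Nm G))) := by
    have hmem : s₂ / (f / Nm G) ∈ R' := by
      rw [div_eq_mul_inv]; exact R'.mul_mem hs₂ hv₁'
    have hmem' : (s₂ / (f / Nm G))⁻¹ ∈ R' := by
      rw [inv_div, div_eq_mul_inv]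
      exact R'.mul_mem hv₁ hs₂'
    refine hK₂ _ (hιR _ hmem) ?_ (s36_tri_map ι hι0₂ hd₂ hϖ'0 h0)
    rw [← map_inv₀]
    exact hιR _ hmem'
  have hK1 : K (r₁ / ι s₁) := by
    have hmem : r₁ / ι s₁ ∈ R := by
      rw [div_eq_mul_inv, ← map_inv₀]; exact R.mul_mem hr₁ (hιR _ hs₁')
    refine hK₁ _ hmem ?_ hrs₁
    rw [inv_div, div_eq_mul_inv]
    exact R.mul_mem (hιR _ hs₁) hr₁'
  have hK3 : K (r₃ / ι s₃) := by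
    have hmem : r₃ / ι s₃ ∈ R := by
      rw [div_eq_mul_inv, ← map_inv₀]; exact R.mul_mem hr₃ (hιR _ hs₃')
    refine hK₃ _ hmem ?_ hrs₃
    rw [inv_div, div_eq_mul_inv]
    exact R.mul_mem (hιR _ hs₃) hr₃'
  have hK2 : K (r₂ ^ (p + 1) / ι s₂) := by
    have hmem : r₂ ^ (p + 1) / ι s₂ ∈ R := by
      rw [div_eq_mul_inv, ← map_inv₀]; exact R.mul_mem (R.pow_mem hr₂ _) (hιR _ hs₂')
    refine hK₂ _ hmem ?_ hrs₂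
    rw [inv_div, div_eq_mul_inv, ← inv_pow]
    exact R.mul_mem (hιR _ hs₂) (R.pow_mem hr₂' _)
  have hfin := hKmul _ _ (hKmul _ _ (hKmul _ _ hK1 hK3) (hKinv _ hK2))
    (hKmul _ _ hKi (hKinv _ hK0))
  have e : r₁ / ι s₁ * (r₃ / ι s₃) * (r₂ ^ (p + 1) / ι s₂)⁻¹ *
      (ι (s₁ * s₃ / (f / Nm G)) * (ι (s₂ / (f / Nm G)))⁻¹) = r₁ * r₃ / r₂ ^ (p + 1) := by
    have hιv : ι (f / Nm G) ≠ 0 := (map_ne_zero ι).mpr hv₁0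
    have hιNG : ι (Nm G) ≠ 0 := (map_ne_zero ι).mpr hNG0
    simp only [map_div₀, map_mul, map_pow, div_pow, mul_pow]
    field_simp
  rw [e] at hfin
  exact hfin

end Rel

section Main

variable {F'' F : Type*} [Field F''] [Field F] (ι : F'' →+* F)

/-- Global (EXT), unramified type, in unit form. -/
theorem s36_to_extU {ϖ'' : F''} {d : F} {V : Subring F} {V' : Subring F''}
    (hV : s34_Unif d V) (hV' : s34_Unif ϖ'' V') (hnot : (ι ϖ'')⁻¹ ∉ V)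
    (hι : ∀ x ∈ V', ι x ∈ V)
    (hres : ∀ y ∈ V, ∃ y' ∈ V', d⁻¹ * (y - ι y') ∈ V)
    (y : F) (hy0 : y ≠ 0) (hy : y ∈ V) (hy' : y⁻¹ ∈ V) :
    ∃ a : F'', a ∈ V' ∧ a⁻¹ ∈ V' ∧ s35_fa_one d V (y / ι a) := by
  have hyU : s36_pm_U V y := ⟨hy0, hy, hy'⟩
  obtain ⟨a, ha, ha1⟩ := hres y hy
  have h1 : s35_fa_one d V (ι a / y) := s36_pm_one_of_cg' hyU ha1
  have hιa : s36_pm_U V (ι a) := s36_pm_U.of_one_div hV hyU h1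
  have haU : s36_pm_U V' a := s36_pm_U_comap ι hV' hnot hι hιa
  refine ⟨a, haU.2.1, haU.2.2, ?_⟩
  have e : y / ι a = (ι a / y)⁻¹ := by rw [inv_div]
  rw [e]; exact h1.inv hV

/-- Global (EXT), purely inseparable type, in unit form. -/
theorem s36_to_extU_insep {ϖ'' : F''} {V : Subring F} {V' : Subring F''}
    (hV : s34_Unif (ι ϖ'') V) (hV' : s34_Unif ϖ'' V') (hι : ∀ x ∈ V', ι x ∈ V) (q : ℕ)
    (hres : ∀ y ∈ V, ∃ b ∈ V', (ι ϖ'')⁻¹ * (y ^ q - ι b) ∈ V)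
    (y : F) (hy0 : y ≠ 0) (hy : y ∈ V) (hy' : y⁻¹ ∈ V) :
    ∃ b : F'', b ∈ V' ∧ b⁻¹ ∈ V' ∧ s35_fa_one (ι ϖ'') V (y ^ q / ι b) := by
  have hyU : s36_pm_U V y := ⟨hy0, hy, hy'⟩
  obtain ⟨b, hb, hb1⟩ := hres y hy
  have h1 : s35_fa_one (ι ϖ'') V (ι b / y ^ q) := s36_pm_one_of_cg' (hyU.pow q) hb1
  have hιb : s36_pm_U V (ι b) := s36_pm_U.of_one_div hV (hyU.pow q) h1
  have hbU : s36_pm_U V' b := s36_pm_U_comap ι hV' hV.inv_not_mem hι hιb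
  refine ⟨b, hbU.2.1, hbU.2.2, ?_⟩
  have e : y ^ q / ι b = (ι b / y ^ q)⁻¹ := by rw [inv_div]
  rw [e]; exact h1.inv hV

/-- The norm–residue formula of ramified type in unit form. -/
theorem s36_to_nrU_ram {ϖ'' : F''} {z : F} {VA VC : Subring F} {Vi : Subring F''}
    (hA : s34_Unif (ι ϖ'') VA) (hC : s34_Unif z VC)
    (hιA : ∀ x ∈ Vi, ι x ∈ VA) (hιC : ∀ x ∈ Vi, ι x ∈ VC) (n : ℕ)
    (Nm : F →* F'')
    (hNRram : ∀ h ∈ VA, h ∈ VC → ∀ a ∈ Vi, ∀ c ∈ Vi, (ι ϖ'')⁻¹ * (h - ι a) ∈ VA →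
      z⁻¹ * (h - ι c) ∈ VC → ϖ''⁻¹ * (Nm h - a * c ^ n) ∈ Vi)
    (h : F) (a c : F'') (ha : a ∈ Vi) (ha' : a⁻¹ ∈ Vi) (hc : c ∈ Vi) (hc' : c⁻¹ ∈ Vi)
    (h1 : s35_fa_one (ι ϖ'') VA (h / ι a)) (h3 : s35_fa_one z VC (h / ι c)) :
    s35_fa_one ϖ'' Vi (Nm h / (a * c ^ n)) := by
  have hιa0 : ι a ≠ 0 := by
    intro h0
    have := h1.ne_zero hA
    rw [h0, div_zero] at this
    exact this rfl
  have hιc0 : ι c ≠ 0 := by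
    intro h0
    have := h3.ne_zero hC
    rw [h0, div_zero] at this
    exact this rfl
  have ha0 : a ≠ 0 := fun h0 => hιa0 (by rw [h0, map_zero])
  have hc0 : c ≠ 0 := fun h0 => hιc0 (by rw [h0, map_zero])
  have hhA : h ∈ VA := by
    have e : h = h / ι a * ι a := by field_simp
    rw [e]; exact VA.mul_mem (h1.mem hA) (hιA a ha)
  have hhC : h ∈ VC := by
    have e : h = h / ι c * ι c := by field_simp
    rw [e]; exact VC.mul_mem (h3.mem hC) (hιC c hc)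
  have hN := hNRram h hhA hhC a ha c hc (h1.to_cg hιa0 (hιA a ha)) (h3.to_cg hιc0 (hιC c hc))
  have hacU : s36_pm_U Vi (a * c ^ n) :=
    s36_pm_U.mul ⟨ha0, ha, ha'⟩ (s36_pm_U.pow ⟨hc0, hc, hc'⟩ n)
  exact s36_pm_one_of_cg hacU hN

/-- The norm–residue formula of purely inseparable type in unit form. -/
theorem s36_to_nrU_insep {ϖ'' : F''} {VB : Subring F} {V0 : Subring F''}
    (hB : s34_Unif (ι ϖ'') VB) (hιB : ∀ x ∈ V0, ι x ∈ VB) (n : ℕ)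
    (Nm : F →* F'')
    (hNRins : ∀ h ∈ VB, ∀ b ∈ V0, (ι ϖ'')⁻¹ * (h ^ (n + 1) - ι b) ∈ VB →
      ϖ''⁻¹ * (Nm h - b) ∈ V0)
    (h : F) (b : F'') (hb : b ∈ V0) (hb' : b⁻¹ ∈ V0)
    (hh : s35_fa_one (ι ϖ'') VB (h ^ (n + 1) / ι b)) :
    s35_fa_one ϖ'' V0 (Nm h / b) := by
  have hιb0 : ι b ≠ 0 := by
    intro h0
    have := hh.ne_zero hB
    rw [h0, div_zero] at this
    exact this rfl
  have hb0 : b ≠ 0 := fun h0 => hιb0 (by rw [h0, map_zero])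
  have hbU : s36_pm_U V0 b := ⟨hb0, hb, hb'⟩
  have hιbU : s36_pm_U VB (ι b) := s36_pm_U_map ι hιB hbU
  have hhU : s36_pm_U VB (h ^ (n + 1)) := s36_pm_U.of_one_div hB hιbU hh
  have hhB : h ∈ VB := (s36_pm_U.of_pow hB (Nat.succ_pos n) hhU).2.1
  have hN := hNRins h hhB b hb (hh.to_cg hιb0 hιbU.2.1)
  exact s36_pm_one_of_cg hbU hN

/-- The branch `B`: `g ^ q ≡ (ι f) ^ m` modulo `ϖ V_B` for a unit `g` of `V_B` with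
`Nm g = f ^ m` (the inner step of `s36_pm_rootB`). -/
theorem s36_to_rootB {ϖ'' : F''} {VB : Subring F} {V0 : Subring F''}
    (hB : s34_Unif (ι ϖ'') VB) (hV0 : s34_Unif ϖ'' V0) (hιB : ∀ x ∈ V0, ι x ∈ VB) (q : ℕ)
    (hresB : ∀ y ∈ VB, ∃ b ∈ V0, (ι ϖ'')⁻¹ * (y ^ q - ι b) ∈ VB)
    (Nm : F →* F'')
    (hNRins : ∀ h ∈ VB, ∀ b ∈ V0, (ι ϖ'')⁻¹ * (h ^ q - ι b) ∈ VB → ϖ''⁻¹ * (Nm h - b) ∈ V0)
    (m : ℕ) (hm : 0 < m)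
    (g : F) (hg : s36_pm_U VB g) (f : F'') (hf : Nm g = f ^ m) :
    s35_fa_one (ι ϖ'') VB (g ^ q / (ι f) ^ m) := by
  obtain ⟨b, hb, hb1⟩ := hresB g hg.2.1
  have hb2 := hNRins g hg.2.1 b hb hb1
  rw [hf] at hb2
  have h1 : s35_fa_one (ι ϖ'') VB (ι b / g ^ q) := s36_pm_one_of_cg' (hg.pow q) hb1
  have hιb : s36_pm_U VB (ι b) := s36_pm_U.of_one_div hB (hg.pow q) h1
  have hbU : s36_pm_U V0 b := s36_pm_U_comap ι hV0 hB.inv_not_mem hιB hιb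
  have h2 : s35_fa_one ϖ'' V0 (f ^ m / b) := s36_pm_one_of_cg hbU hb2
  have hfU : s36_pm_U V0 f := s36_pm_U.of_pow hV0 hm (s36_pm_U.of_one_div hV0 hbU h2)
  have h3 : s35_fa_one (ι ϖ'') VB (ι (f ^ m / b)) := s36_pm_one_map ι hιB h2
  have hg0 := hg.1
  have hιf0 : ι f ≠ 0 := (map_ne_zero ι).mpr hfU.1
  have hιb0 := hιb.1
  have e : g ^ q / (ι f) ^ m = (ι b / g ^ q)⁻¹ * (ι (f ^ m / b))⁻¹ := by
    rw [map_div₀, map_pow]; field_simp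
  rw [e]; exact (h1.inv hB).mul hB (h3.inv hB)

/-- The exponent identity `(y ^ r x ^ s) ^ q / y = (x ^ q / y ^ m) ^ s` for `r q + s m = 1`. -/
theorem s36_to_rs (x y : F) (hy : y ≠ 0) (q m : ℕ) (r s : ℤ)
    (hrs : r * q + s * m = 1) : (y ^ r * x ^ s) ^ q / y = (x ^ q / y ^ m) ^ s := by
  have h1 : (y ^ r * x ^ s) ^ q = y ^ (r * q) * x ^ (s * q) := by
    rw [mul_pow, ← zpow_natCast (y ^ r) q, ← zpow_mul, ← zpow_natCast (x ^ s) q, ← zpow_mul]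
  have h2 : (x ^ q / y ^ m) ^ s = x ^ (s * q) / y ^ (s * m) := by
    rw [div_zpow, ← zpow_natCast x q, ← zpow_mul, ← zpow_natCast y m, ← zpow_mul,
      mul_comm (q : ℤ) s, mul_comm (m : ℤ) s]
  have h3 : y ^ (r * q) * y ^ (s * m) = y := by
    rw [← zpow_add₀ hy, hrs, zpow_one]
  rw [h1, h2]
  have hy' : y ^ (s * m) ≠ 0 := zpow_ne_zero _ hy
  rw [div_eq_div_iff hy hy']
  calc y ^ (r * q) * x ^ (s * q) * y ^ (s * m)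
      = x ^ (s * q) * (y ^ (r * q) * y ^ (s * m)) := by ring
    _ = x ^ (s * q) * y := by rw [h3]

/-- **The triple-point contract `s36_pm_TriOut`** from the global data of `s36_pow_of_model`
(components, (EXT), norm–residue formulas, swap) and the local data at the triple point `𝔪` of
the chart `B`:

* `R = s18_locRing B 𝔪 ⊆ V_A ⊓ V_B ⊓ V_C` is local with maximal ideal `I` (`hL`), units of `R`
  which are `≡ 1` on a branch are `≡ 1` modulo `I` (`hKA`, `hKB`, `hKC`), the three branches are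
  `m`-root closed (`hbrA`, `hbrB`, `hbrC`), `R` is `m`-root closed (`hroot`);
* `hfact` : the local factorisation `g = w G ^ m`, `w ∈ Rˣ`, `G` a unit on the three components;
* `Rα` : the local ring of the level below under `ι` with the local (EXT) data
  (`hEα₁`, `hEα₃`, `hEα₂`), `Nm Rˣ ⊆ Rα`;
* `R₂ = W R` (the local ring at the swapped point) with the same data `Rβ`, `hEβ₁`, `hEβ₃`,
  `hEβ₂` along `ι`. -/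
theorem s36_to_main {ϖ'' : F''} {z : F} {VA VB VC : Subring F} {Vi V0 : Subring F''}
    (hA : s34_Unif (ι ϖ'') VA) (hB : s34_Unif (ι ϖ'') VB) (hC : s34_Unif z VC)
    (hVi : s34_Unif ϖ'' Vi) (hV0 : s34_Unif ϖ'' V0)
    (hιA : ∀ x ∈ Vi, ι x ∈ VA) (hιC : ∀ x ∈ Vi, ι x ∈ VC) (hιB : ∀ x ∈ V0, ι x ∈ VB)
    (n : ℕ) (hn : 1 ≤ n) (hzn : ι ϖ'' * (z ^ n)⁻¹ ∈ VC)
    (hresA : ∀ y ∈ VA, ∃ y' ∈ Vi, (ι ϖ'')⁻¹ * (y - ι y') ∈ VA)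
    (hresC : ∀ y ∈ VC, ∃ y' ∈ Vi, z⁻¹ * (y - ι y') ∈ VC)
    (hresB : ∀ y ∈ VB, ∃ b ∈ V0, (ι ϖ'')⁻¹ * (y ^ (n + 1) - ι b) ∈ VB)
    (Nm : F →* F'')
    (hNRram : ∀ h ∈ VA, h ∈ VC → ∀ a ∈ Vi, ∀ c ∈ Vi, (ι ϖ'')⁻¹ * (h - ι a) ∈ VA →
      z⁻¹ * (h - ι c) ∈ VC → ϖ''⁻¹ * (Nm h - a * c ^ n) ∈ Vi)
    (hNRins : ∀ h ∈ VB, ∀ b ∈ V0, (ι ϖ'')⁻¹ * (h ^ (n + 1) - ι b) ∈ VB →
      ϖ''⁻¹ * (Nm h - b) ∈ V0)
    (W : F ≃+* F) (hWAB : ∀ x, x ∈ VB ↔ W x ∈ VA)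
    (hWC : ∀ x, x ∈ VC ↔ W x ∈ VC) (hWϖ : W (ι ϖ'') = ι ϖ'') (hWW : ∀ x, W (W x) = x)
    (m : ℕ) (hm0 : 0 < m) (hmF : (m : F) ≠ 0) (r s : ℤ)
    (hrs : r * ((n + 1 : ℕ) : ℤ) + s * m = 1)
    -- the local data at the triple point
    (B : Subring F) (hBA : B ≤ VA) (hBB : B ≤ VB) (hBC : B ≤ VC)
    (hmB : ((m : F))⁻¹ ∈ B) (𝔪 : Ideal B) [h𝔪 : 𝔪.IsPrime]
    (hlocV : ∀ b : B, b ∉ 𝔪 → ((b : F))⁻¹ ∈ VA ⊓ VB ⊓ VC)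
    (hroot : ∀ x : F, x ^ m ∈ s18_loc B 𝔪 → x ∈ s18_loc B 𝔪)
    (I : Set F) (hL : s36_TriLoc (s18_locRing B 𝔪) I)
    (hKA : ∀ x, x ∈ s18_locRing B 𝔪 → x⁻¹ ∈ s18_locRing B 𝔪 →
      s35_fa_one (ι ϖ'') VA x → x - 1 ∈ I)
    (hKB : ∀ x, x ∈ s18_locRing B 𝔪 → x⁻¹ ∈ s18_locRing B 𝔪 →
      s35_fa_one (ι ϖ'') VB x → x - 1 ∈ I)
    (hKC : ∀ x, x ∈ s18_locRing B 𝔪 → x⁻¹ ∈ s18_locRing B 𝔪 →
      s35_fa_one z VC x → x - 1 ∈ I)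
    (hbrA : ∀ x w : F, w ∈ s18_locRing B 𝔪 → w⁻¹ ∈ s18_locRing B 𝔪 →
      (ι ϖ'')⁻¹ * (x ^ m - w) ∈ VA →
      ∃ y : F, y ∈ s18_locRing B 𝔪 ∧ y⁻¹ ∈ s18_locRing B 𝔪 ∧ (ι ϖ'')⁻¹ * (x - y) ∈ VA)
    (hbrB : ∀ x w : F, w ∈ s18_locRing B 𝔪 → w⁻¹ ∈ s18_locRing B 𝔪 →
      (ι ϖ'')⁻¹ * (x ^ m - w) ∈ VB →
      ∃ y : F, y ∈ s18_locRing B 𝔪 ∧ y⁻¹ ∈ s18_locRing B 𝔪 ∧ (ι ϖ'')⁻¹ * (x - y) ∈ VB)
    (hbrC : ∀ x w : F, w ∈ s18_locRing B 𝔪 → w⁻¹ ∈ s18_locRing B 𝔪 →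
      z⁻¹ * (x ^ m - w) ∈ VC →
      ∃ y : F, y ∈ s18_locRing B 𝔪 ∧ y⁻¹ ∈ s18_locRing B 𝔪 ∧ z⁻¹ * (x - y) ∈ VC)
    (hfact : ∀ g : F, s36_pm_U VA g → s36_pm_U VB g → s36_pm_U VC g →
      (∀ W' : ValuationSubring F, IsDiscreteValuationRing W' → B ≤ W'.toSubring →
        (ι ϖ'')⁻¹ ∈ W' → ∃ g' u : F, u ∈ W' ∧ u⁻¹ ∈ W' ∧ g = u * g' ^ m) →
      ∃ G : F, s36_pm_U VA G ∧ s36_pm_U VB G ∧ s36_pm_U VC G ∧
        g * (G⁻¹) ^ m ∈ s18_locRing B 𝔪 ∧ G ^ m * g⁻¹ ∈ s18_locRing B 𝔪)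
    -- the level below at the point, along `ι`
    (Rα : Subring F'') (hRαi : Rα ≤ Vi) (hRα0 : Rα ≤ V0)
    (hιRα : ∀ x ∈ Rα, ι x ∈ s18_locRing B 𝔪)
    (hrootα : ∀ y : F'', y ^ m ∈ Rα → y ∈ Rα)
    (hNuα : ∀ y, y ≠ 0 → y ∈ s18_locRing B 𝔪 → y⁻¹ ∈ s18_locRing B 𝔪 → Nm y ∈ Rα)
    (hEα₁ : ∀ y, y ≠ 0 → y ∈ s18_locRing B 𝔪 → y⁻¹ ∈ s18_locRing B 𝔪 →
      ∃ y' : F'', y' ∈ Rα ∧ y'⁻¹ ∈ Rα ∧ s35_fa_one (ι ϖ'') VA (y / ι y'))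
    (hEα₃ : ∀ y, y ≠ 0 → y ∈ s18_locRing B 𝔪 → y⁻¹ ∈ s18_locRing B 𝔪 →
      ∃ y' : F'', y' ∈ Rα ∧ y'⁻¹ ∈ Rα ∧ s35_fa_one z VC (y / ι y'))
    (hEα₂ : ∀ y, y ≠ 0 → y ∈ s18_locRing B 𝔪 → y⁻¹ ∈ s18_locRing B 𝔪 →
      ∃ y' : F'', y' ∈ Rα ∧ y'⁻¹ ∈ Rα ∧ s35_fa_one (ι ϖ'') VB (y ^ (n + 1) / ι y'))
    -- the swapped point: `R₂ = W R` and the level below it, along `ι`
    (R₂ : Subring F) (hWR : ∀ x, x ∈ s18_locRing B 𝔪 ↔ W x ∈ R₂)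
    (Rβ : Subring F'') (hRβi : Rβ ≤ Vi) (hRβ0 : Rβ ≤ V0)
    (hιRβ : ∀ x ∈ Rβ, ι x ∈ R₂)
    (hrootβ : ∀ y : F'', y ^ m ∈ Rβ → y ∈ Rβ)
    (hNuβ : ∀ y, y ≠ 0 → y ∈ R₂ → y⁻¹ ∈ R₂ → Nm y ∈ Rβ)
    (hEβ₁ : ∀ y, y ≠ 0 → y ∈ R₂ → y⁻¹ ∈ R₂ →
      ∃ y' : F'', y' ∈ Rβ ∧ y'⁻¹ ∈ Rβ ∧ s35_fa_one (ι ϖ'') VA (y / ι y'))
    (hEβ₃ : ∀ y, y ≠ 0 → y ∈ R₂ → y⁻¹ ∈ R₂ →
      ∃ y' : F'', y' ∈ Rβ ∧ y'⁻¹ ∈ Rβ ∧ s35_fa_one z VC (y / ι y'))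
    (hEβ₂ : ∀ y, y ≠ 0 → y ∈ R₂ → y⁻¹ ∈ R₂ →
      ∃ y' : F'', y' ∈ Rβ ∧ y'⁻¹ ∈ Rβ ∧ s35_fa_one (ι ϖ'') VB (y ^ (n + 1) / ι y')) :
    s36_pm_TriOut ι ϖ'' z VA VB VC Vi V0 Nm W n m r s B 𝔪 := by
  intro g f f' ψ ψ' ξ hgA hgB hgC hdiv hf hf' hψU hψ'U hfUi hfU0 hf'Ui hf'U0 hψ1 hψ'1 hξm hξx
  have hϖ0 : ι ϖ'' ≠ 0 := hA.ne_zero
  have hz0 : z ≠ 0 := hC.ne_zero
  have hg0 : g ≠ 0 := hgA.1
  have hzϖ : z⁻¹ * ι ϖ'' ∈ VC := by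
    obtain ⟨k, rfl⟩ : ∃ k, n = k + 1 := ⟨n - 1, by omega⟩
    have e : z⁻¹ * ι ϖ'' = ι ϖ'' * (z ^ (k + 1))⁻¹ * z ^ k := by
      rw [pow_succ]; field_simp
    rw [e]; exact VC.mul_mem hzn (VC.pow_mem hC.mem k)
  have hnotC : (ι ϖ'')⁻¹ ∉ VC := by
    intro h
    apply hC.inv_not_mem
    have e : z⁻¹ = z⁻¹ * ι ϖ'' * (ι ϖ'')⁻¹ := by
      rw [mul_assoc, mul_inv_cancel₀ hϖ0, mul_one]
    rw [e]; exact VC.mul_mem hzϖ h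
  -- the local ring
  have hRA : s18_locRing B 𝔪 ≤ VA := by
    rintro y ⟨a, b, hb, rfl⟩
    rw [div_eq_mul_inv]; exact VA.mul_mem (hBA a.2) (hlocV b hb).1.1
  have hRB : s18_locRing B 𝔪 ≤ VB := by
    rintro y ⟨a, b, hb, rfl⟩
    rw [div_eq_mul_inv]; exact VB.mul_mem (hBB a.2) (hlocV b hb).1.2
  have hRC : s18_locRing B 𝔪 ≤ VC := by
    rintro y ⟨a, b, hb, rfl⟩
    rw [div_eq_mul_inv]; exact VC.mul_mem (hBC a.2) (hlocV b hb).2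
  -- the swap
  have hWA_B : ∀ x ∈ VA, W x ∈ VB := fun x hx => (hWAB (W x)).mpr (by rw [hWW]; exact hx)
  have hWB_A : ∀ x ∈ VB, W x ∈ VA := fun x hx => (hWAB x).mp hx
  have hWC_C : ∀ x ∈ VC, W x ∈ VC := fun x hx => (hWC x).mp hx
  have hWz : z⁻¹ * W z ∈ VC := s36_pm_swap_unif hC W hWC
  have h1VA : (ι ϖ'')⁻¹ * W (ι ϖ'') ∈ VA := by
    rw [hWϖ, inv_mul_cancel₀ hϖ0]; exact VA.one_mem
  have h1VB : (ι ϖ'')⁻¹ * W (ι ϖ'') ∈ VB := by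
    rw [hWϖ, inv_mul_cancel₀ hϖ0]; exact VB.one_mem
  -- units
  have hιfB : s36_pm_U VB (ι f) := s36_pm_U_map ι hιB hfU0
  have hιf'B : s36_pm_U VB (ι f') := s36_pm_U_map ι hιB hf'U0
  have hWιf'A : s36_pm_U VA (W (ι f')) :=
    ⟨(map_ne_zero W).mpr hιf'B.1, hWB_A _ hιf'B.2.1, by
      rw [← map_inv₀]; exact hWB_A _ hιf'B.2.2⟩
  have hWgB : s36_pm_U VB (W g) :=
    ⟨(map_ne_zero W).mpr hg0, hWA_B _ hgA.2.1, by rw [← map_inv₀]; exact hWA_B _ hgA.2.2⟩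
  have hΨAU : s36_pm_U VA (W (ι f') ^ r * g ^ s) := (hWιf'A.zpow r).mul (hgA.zpow s)
  have hΨBU : s36_pm_U VB (ι f ^ r * g ^ s) := (hιfB.zpow r).mul (hgB.zpow s)
  have hf0 : f ≠ 0 := hfUi.1
  have hψ0 : ψ ≠ 0 := hψU.1
  have hf'0 : f' ≠ 0 := hf'Ui.1
  have hψ'0 : ψ' ≠ 0 := hψ'U.1
  have hιf0 : ι f ≠ 0 := (map_ne_zero ι).mpr hf0
  have hιψ0 : ι ψ ≠ 0 := (map_ne_zero ι).mpr hψ0
  have hιf'0 : ι f' ≠ 0 := (map_ne_zero ι).mpr hf'0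
  have hιψ'0 : ι ψ' ≠ 0 := (map_ne_zero ι).mpr hψ'0
  have hΨA0 : W (ι f') ^ r * g ^ s ≠ 0 := hΨAU.1
  have hΨB0 : ι f ^ r * g ^ s ≠ 0 := hΨBU.1
  have hΨC0 : ι (f / ψ) ≠ 0 := (map_ne_zero ι).mpr (div_ne_zero hf0 hψ0)
  -- the branch roots of `g`
  obtain ⟨-, hΨA⟩ := s36_pm_rootA ι hB hV0 hιB (n + 1) hresB Nm hNRins W hWB_A hWA_B hWϖ hWW
    m hm0 r s hrs g hgA f' hf'
  obtain ⟨-, hΨB⟩ := s36_pm_rootB ι hB hV0 hιB (n + 1) hresB Nm hNRins m hm0 r s hrs g hgB f hf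
  have hΨC : s35_fa_one z VC (g ^ n / (ι (f / ψ)) ^ m) := by
    obtain ⟨ψ₀, hψ₀U, hψ₀1, -, hC₀⟩ := s36_pm_rootC ι hA hC hVi hιA hιC n hn hzn hresA hresC Nm
      hNRram m hm0 g hgA hgC f hf _ hΨAU hΨA
    have hψ₀0 : ψ₀ ≠ 0 := hψ₀U.1
    have hιψ₀0 : ι ψ₀ ≠ 0 := (map_ne_zero ι).mpr hψ₀0
    have hq : s35_fa_one (ι ϖ'') VA (ι (ψ / ψ₀)) := by
      have h := hψ1.div hA hψ₀1
      refine s36_tri_congr h ?_
      rw [map_div₀, div_div_div_cancel_right₀ hΨA0]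
    have hq2 : s35_fa_one ϖ'' Vi (ψ / ψ₀) := s36_pm_one_comap ι hVi hA.inv_not_mem hιA hq
    have hq3 : s35_fa_one z VC (ι (ψ / ψ₀)) :=
      s36_pm_one_weaken hzϖ hϖ0 (s36_pm_one_map ι hιC hq2)
    have h := hC₀.mul hC (hq3.pow hC m)
    refine s36_tri_congr h ?_
    simp only [map_div₀, div_pow]
    field_simp
  -- the local factorisation
  obtain ⟨G, hGA, hGB, hGC, hw, hw'⟩ := hfact g hgA hgB hgC hdiv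
  have hG0 : G ≠ 0 := hGA.1
  have hwinv : (g * (G⁻¹) ^ m)⁻¹ ∈ s18_locRing B 𝔪 := by
    have e : (g * (G⁻¹) ^ m)⁻¹ = G ^ m * g⁻¹ := by
      rw [mul_inv, inv_pow, inv_inv, mul_comm]
    rw [e]; exact hw'
  -- the local roots
  obtain ⟨rA, hrA, hrA', hlA0⟩ := s36_tri_lift hA (s18_locRing B 𝔪) hRA m hm0 hbrA
    ((W (ι f') ^ r * g ^ s) / G) (g * (G⁻¹) ^ m) hw hwinv (by
      refine s36_tri_congr (hΨA.inv hA) ?_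
      rw [div_pow, inv_pow]
      have := pow_ne_zero m hG0
      have := pow_ne_zero m hΨA0
      field_simp)
  have hlA : s35_fa_one (ι ϖ'') VA ((W (ι f') ^ r * g ^ s) / (G * rA)) :=
    s36_tri_congr hlA0 (by rw [div_div])
  obtain ⟨rB, hrB, hrB', hlB0⟩ := s36_tri_lift hB (s18_locRing B 𝔪) hRB m hm0 hbrB
    ((ι f ^ r * g ^ s) / G) (g * (G⁻¹) ^ m) hw hwinv (by
      refine s36_tri_congr (hΨB.inv hB) ?_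
      rw [div_pow, inv_pow]
      have := pow_ne_zero m hG0
      have := pow_ne_zero m hΨB0
      field_simp)
  have hlB : s35_fa_one (ι ϖ'') VB ((ι f ^ r * g ^ s) / (G * rB)) :=
    s36_tri_congr hlB0 (by rw [div_div])
  have hwn : (g * (G⁻¹) ^ m) ^ n ∈ s18_locRing B 𝔪 := (s18_locRing B 𝔪).pow_mem hw n
  have hwninv : ((g * (G⁻¹) ^ m) ^ n)⁻¹ ∈ s18_locRing B 𝔪 := by
    rw [← inv_pow]; exact (s18_locRing B 𝔪).pow_mem hwinv n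
  obtain ⟨rC, hrC, hrC', hlC0⟩ := s36_tri_lift hC (s18_locRing B 𝔪) hRC m hm0 hbrC
    (ι (f / ψ) / G ^ n) ((g * (G⁻¹) ^ m) ^ n) hwn hwninv (by
      refine s36_tri_congr (hΨC.inv hC) ?_
      have e : (G ^ n) ^ m * ((G⁻¹) ^ m) ^ n = 1 := by
        rw [← pow_mul, ← pow_mul, mul_comm n m, ← mul_pow, mul_inv_cancel₀ hG0, one_pow]
      have e2 : (G ^ n) ^ m * (g ^ n * ((G⁻¹) ^ m) ^ n) = g ^ n := by
        rw [mul_left_comm, e, mul_one]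
      rw [div_pow, mul_pow, inv_div, div_div, e2])
  have hlC : s35_fa_one z VC (ι (f / ψ) / (G ^ n * rC)) :=
    s36_tri_congr hlC0 (by rw [div_div])
  have hrC0 : rC ≠ 0 := by
    intro h0
    have := hlC.ne_zero hC
    rw [h0, mul_zero, div_zero] at this
    exact this rfl
  -- `ξ` is a unit of `R`
  have hξR : ξ ∈ s18_locRing B 𝔪 :=
    hroot ξ (by rw [hξm]; exact (s18_locRing B 𝔪).one_mem)
  have hξ0 : ξ ≠ 0 := by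
    rintro rfl
    rw [zero_pow hm0.ne'] at hξm
    exact zero_ne_one hξm
  have hξ'R : ξ⁻¹ ∈ s18_locRing B 𝔪 := by
    have e : ξ⁻¹ = ξ ^ (m - 1) := by
      have h1 : ξ ^ (m - 1) * ξ = 1 := by
        rw [← pow_succ]
        have : m - 1 + 1 = m := by omega
        rw [this]; exact hξm
      exact inv_eq_of_mul_eq_one_left h1
    rw [e]; exact (s18_locRing B 𝔪).pow_mem hξR (m - 1)
  have hξrC : ξ * rC ∈ s18_locRing B 𝔪 := (s18_locRing B 𝔪).mul_mem hξR hrC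
  have hξrC' : (ξ * rC)⁻¹ ∈ s18_locRing B 𝔪 := by
    rw [mul_inv]; exact (s18_locRing B 𝔪).mul_mem hξ'R hrC'
  -- the congruence `≡ 1` modulo the maximal ideal of `R`
  have hKmul : ∀ x y : F, x - 1 ∈ I → y - 1 ∈ I → x * y - 1 ∈ I :=
    fun x y hx hy => hL.one_mul hx hy
  have hKinv : ∀ x : F, x - 1 ∈ I → x⁻¹ - 1 ∈ I := fun x hx => hL.one_inv hx
  -- the relation along `ι`
  have hΨ₁ : s35_fa_one (ι ϖ'') VA ((W (ι f') ^ r * g ^ s) / ι ψ) :=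
    s36_tri_congr (hψ1.inv hA) (inv_div _ _)
  have hΨ₂ : s35_fa_one (ι ϖ'') VB ((ι f ^ r * g ^ s) ^ (n + 1) / ι f) := by
    have h := s36_to_rootB ι hB hV0 hιB (n + 1) hresB Nm hNRins m hm0 g hgB f hf
    have h2 := s36_pm_one_zpow hB h s
    exact s36_tri_congr h2 (s36_to_rs g (ι f) hιf0 (n + 1) m r s hrs).symm
  have hΨ₃ : s35_fa_one z VC (ι (f / ψ) / ι (f / ψ)) := by
    rw [div_self hΨC0]; exact s35_fa_one.one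
  have hα : rA * rC / rB ^ (n + 1) - 1 ∈ I :=
    s36_to_rel ι Nm hA hB hC hVi hV0 hιA hιC hιB
      (by rw [inv_mul_cancel₀ hϖ0]; exact VA.one_mem)
      (by rw [inv_mul_cancel₀ hϖ0]; exact VB.one_mem)
      (s18_locRing B 𝔪) Rα hRαi hRα0 hιRα (fun x => x - 1 ∈ I) hKmul hKinv hKA hKB hKC m n
      hrootα hNuα hEα₁ hEα₃ hEα₂
      (fun y hy0 hy hy' => s36_to_extU ι hA hVi hA.inv_not_mem hιA hresA y hy0 hy hy')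
      (fun y hy0 hy hy' => s36_to_extU ι hC hVi hnotC hιC hresC y hy0 hy hy')
      (fun y hy0 hy hy' => s36_to_extU_insep ι hB hV0 hιB (n + 1) hresB y hy0 hy hy')
      (fun h a c ha ha' hc hc' h1 h3 =>
        s36_to_nrU_ram ι hA hC hιA hιC n Nm hNRram h a c ha ha' hc hc' h1 h3)
      (fun h b hb hb' hh => s36_to_nrU_insep ι hB hιB n Nm hNRins h b hb hb' hh)
      g G (W (ι f') ^ r * g ^ s) (ι f ^ r * g ^ s) (ι (f / ψ)) rA rB rC f ψ hg0 hG0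
      hGA.2.1 hGA.2.2 hGB.2.1 hGB.2.2 hGC.2.1 hGC.2.2 hw hw' hf hfUi.2.2 hfU0.2.2
      hψU.2.1 hψU.2.2 hΨ₁ hΨ₂ hΨ₃ hrA hrA' hrB hrB' hrC hrC' hlA hlB hlC
  -- the relation along `W ∘ ι` (norm `Nm ∘ W`), with the roles of `A` and `B` exchanged
  have hNu' : ∀ y, y ≠ 0 → y ∈ s18_locRing B 𝔪 → y⁻¹ ∈ s18_locRing B 𝔪 →
      (Nm.comp W.toRingHom.toMonoidHom) y ∈ Rβ := fun y hy0 hy hy' =>
    hNuβ (W y) ((map_ne_zero W).mpr hy0) ((hWR y).mp hy)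
      (by rw [← map_inv₀]; exact (hWR _).mp hy')
  have hE₁' : ∀ y, y ≠ 0 → y ∈ s18_locRing B 𝔪 → y⁻¹ ∈ s18_locRing B 𝔪 →
      ∃ y' : F'', y' ∈ Rβ ∧ y'⁻¹ ∈ Rβ ∧
        s35_fa_one (ι ϖ'') VB (y / (W.toRingHom.comp ι) y') := by
    intro y hy0 hy hy'
    obtain ⟨y', h1, h2, h3⟩ := hEβ₁ (W y) ((map_ne_zero W).mpr hy0) ((hWR y).mp hy)
      (by rw [← map_inv₀]; exact (hWR _).mp hy')
    refine ⟨y', h1, h2, ?_⟩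
    have h4 := s35_fa_one.map W hWA_B h1VB hϖ0 h3
    refine s36_tri_congr h4 ?_
    show W (W y / ι y') = y / W (ι y')
    rw [map_div₀, hWW]
  have hE₃' : ∀ y, y ≠ 0 → y ∈ s18_locRing B 𝔪 → y⁻¹ ∈ s18_locRing B 𝔪 →
      ∃ y' : F'', y' ∈ Rβ ∧ y'⁻¹ ∈ Rβ ∧
        s35_fa_one z VC (y / (W.toRingHom.comp ι) y') := by
    intro y hy0 hy hy'
    obtain ⟨y', h1, h2, h3⟩ := hEβ₃ (W y) ((map_ne_zero W).mpr hy0) ((hWR y).mp hy)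
      (by rw [← map_inv₀]; exact (hWR _).mp hy')
    refine ⟨y', h1, h2, ?_⟩
    have h4 := s35_fa_one.map W hWC_C hWz hz0 h3
    refine s36_tri_congr h4 ?_
    show W (W y / ι y') = y / W (ι y')
    rw [map_div₀, hWW]
  have hE₂' : ∀ y, y ≠ 0 → y ∈ s18_locRing B 𝔪 → y⁻¹ ∈ s18_locRing B 𝔪 →
      ∃ y' : F'', y' ∈ Rβ ∧ y'⁻¹ ∈ Rβ ∧
        s35_fa_one (ι ϖ'') VA (y ^ (n + 1) / (W.toRingHom.comp ι) y') := by
    intro y hy0 hy hy'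
    obtain ⟨y', h1, h2, h3⟩ := hEβ₂ (W y) ((map_ne_zero W).mpr hy0) ((hWR y).mp hy)
      (by rw [← map_inv₀]; exact (hWR _).mp hy')
    refine ⟨y', h1, h2, ?_⟩
    have h4 := s35_fa_one.map W hWB_A h1VA hϖ0 h3
    refine s36_tri_congr h4 ?_
    show W (W y ^ (n + 1) / ι y') = y ^ (n + 1) / W (ι y')
    rw [map_div₀, map_pow, hWW]
  have hG₁' : ∀ y, y ≠ 0 → y ∈ VB → y⁻¹ ∈ VB →
      ∃ a : F'', a ∈ Vi ∧ a⁻¹ ∈ Vi ∧ s35_fa_one (ι ϖ'') VB (y / (W.toRingHom.comp ι) a) := by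
    intro y hy0 hy hy'
    obtain ⟨a, h1, h2, h3⟩ := s36_to_extU ι hA hVi hA.inv_not_mem hιA hresA (W y)
      ((map_ne_zero W).mpr hy0) (hWB_A _ hy) (by rw [← map_inv₀]; exact hWB_A _ hy')
    refine ⟨a, h1, h2, ?_⟩
    have h4 := s35_fa_one.map W hWA_B h1VB hϖ0 h3
    refine s36_tri_congr h4 ?_
    show W (W y / ι a) = y / W (ι a)
    rw [map_div₀, hWW]
  have hG₃' : ∀ y, y ≠ 0 → y ∈ VC → y⁻¹ ∈ VC →
      ∃ c : F'', c ∈ Vi ∧ c⁻¹ ∈ Vi ∧ s35_fa_one z VC (y / (W.toRingHom.comp ι) c) := by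
    intro y hy0 hy hy'
    obtain ⟨c, h1, h2, h3⟩ := s36_to_extU ι hC hVi hnotC hιC hresC (W y)
      ((map_ne_zero W).mpr hy0) (hWC_C _ hy) (by rw [← map_inv₀]; exact hWC_C _ hy')
    refine ⟨c, h1, h2, ?_⟩
    have h4 := s35_fa_one.map W hWC_C hWz hz0 h3
    refine s36_tri_congr h4 ?_
    show W (W y / ι c) = y / W (ι c)
    rw [map_div₀, hWW]
  have hG₂' : ∀ y, y ≠ 0 → y ∈ VA → y⁻¹ ∈ VA →
      ∃ b : F'', b ∈ V0 ∧ b⁻¹ ∈ V0 ∧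
        s35_fa_one (ι ϖ'') VA (y ^ (n + 1) / (W.toRingHom.comp ι) b) := by
    intro y hy0 hy hy'
    obtain ⟨b, h1, h2, h3⟩ := s36_to_extU_insep ι hB hV0 hιB (n + 1) hresB (W y)
      ((map_ne_zero W).mpr hy0) (hWA_B _ hy) (by rw [← map_inv₀]; exact hWA_B _ hy')
    refine ⟨b, h1, h2, ?_⟩
    have h4 := s35_fa_one.map W hWB_A h1VA hϖ0 h3
    refine s36_tri_congr h4 ?_
    show W (W y ^ (n + 1) / ι b) = y ^ (n + 1) / W (ι b)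
    rw [map_div₀, map_pow, hWW]
  have hN₁₃' : ∀ (h : F) (a c : F''), a ∈ Vi → a⁻¹ ∈ Vi → c ∈ Vi → c⁻¹ ∈ Vi →
      s35_fa_one (ι ϖ'') VB (h / (W.toRingHom.comp ι) a) →
      s35_fa_one z VC (h / (W.toRingHom.comp ι) c) →
      s35_fa_one ϖ'' Vi ((Nm.comp W.toRingHom.toMonoidHom) h / (a * c ^ n)) := by
    intro h a c ha ha' hc hc' h1 h3
    have h1' : s35_fa_one (ι ϖ'') VA (W h / ι a) := by
      have h4 := s35_fa_one.map W hWB_A h1VA hϖ0 h1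
      refine s36_tri_congr h4 ?_
      show W (h / W (ι a)) = W h / ι a
      rw [map_div₀, hWW]
    have h3' : s35_fa_one z VC (W h / ι c) := by
      have h4 := s35_fa_one.map W hWC_C hWz hz0 h3
      refine s36_tri_congr h4 ?_
      show W (h / W (ι c)) = W h / ι c
      rw [map_div₀, hWW]
    exact s36_to_nrU_ram ι hA hC hιA hιC n Nm hNRram (W h) a c ha ha' hc hc' h1' h3'
  have hN₂' : ∀ (h : F) (b : F''), b ∈ V0 → b⁻¹ ∈ V0 →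
      s35_fa_one (ι ϖ'') VA (h ^ (n + 1) / (W.toRingHom.comp ι) b) →
      s35_fa_one ϖ'' V0 ((Nm.comp W.toRingHom.toMonoidHom) h / b) := by
    intro h b hb hb' hh
    have hh' : s35_fa_one (ι ϖ'') VB (W h ^ (n + 1) / ι b) := by
      have h4 := s35_fa_one.map W hWA_B h1VB hϖ0 hh
      refine s36_tri_congr h4 ?_
      show W (h ^ (n + 1) / W (ι b)) = W h ^ (n + 1) / ι b
      rw [map_div₀, map_pow, hWW]
    exact s36_to_nrU_insep ι hB hιB n Nm hNRins (W h) b hb hb' hh'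
  have hΨ₁' : s35_fa_one (ι ϖ'') VB ((ι f ^ r * g ^ s) / (W.toRingHom.comp ι) ψ') := by
    have h4 := s35_fa_one.map W hWA_B h1VB hϖ0 hψ'1
    have h5 : s35_fa_one (ι ϖ'') VB (W (ι ψ') / (ι f ^ r * g ^ s)) := by
      refine s36_tri_congr h4 ?_
      rw [map_div₀, map_mul, map_zpow₀, map_zpow₀, hWW, hWW]
    exact s36_tri_congr (h5.inv hB) (inv_div _ _)
  have hΨ₂' : s35_fa_one (ι ϖ'') VA
      ((W (ι f') ^ r * g ^ s) ^ (n + 1) / (W.toRingHom.comp ι) f') := by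
    have h := s36_to_rootB ι hB hV0 hιB (n + 1) hresB Nm hNRins m hm0 (W g) hWgB f' hf'
    have h2 := s35_fa_one.map W hWB_A h1VA hϖ0 h
    have h3 : s35_fa_one (ι ϖ'') VA (g ^ (n + 1) / (W (ι f')) ^ m) := by
      refine s36_tri_congr h2 ?_
      rw [map_div₀, map_pow, map_pow, hWW]
    have h4 := s36_pm_one_zpow hA h3 s
    exact s36_tri_congr h4 (s36_to_rs g (W (ι f')) hWιf'A.1 (n + 1) m r s hrs).symm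
  have hΨ₃' : s35_fa_one z VC (W (ι (f' / ψ')) / (W.toRingHom.comp ι) (f' / ψ')) := by
    have hne : W (ι (f' / ψ')) ≠ 0 :=
      (map_ne_zero W).mpr ((map_ne_zero ι).mpr (div_ne_zero hf'0 hψ'0))
    show s35_fa_one z VC (W (ι (f' / ψ')) / W (ι (f' / ψ')))
    rw [div_self hne]; exact s35_fa_one.one
  have hl₃' : s35_fa_one z VC (W (ι (f' / ψ')) / (G ^ n * (ξ * rC))) := by
    have h := hξx.mul hC hlC
    refine s36_tri_congr h ?_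
    have := pow_ne_zero n hG0
    field_simp
  have hβ' : rB * (ξ * rC) / rA ^ (n + 1) - 1 ∈ I :=
    s36_to_rel (W.toRingHom.comp ι) (Nm.comp W.toRingHom.toMonoidHom) hB hA hC hVi hV0
      (fun x hx => hWA_B _ (hιA x hx)) (fun x hx => hWC_C _ (hιC x hx))
      (fun x hx => hWB_A _ (hιB x hx)) h1VB h1VA
      (s18_locRing B 𝔪) Rβ hRβi hRβ0
      (fun x hx => (hWR _).mpr (by show W (W (ι x)) ∈ R₂; rw [hWW]; exact hιRβ x hx))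
      (fun x => x - 1 ∈ I) hKmul hKinv hKB hKA hKC m n hrootβ
      hNu' hE₁' hE₃' hE₂' hG₁' hG₃' hG₂' hN₁₃' hN₂'
      g G (ι f ^ r * g ^ s) (W (ι f') ^ r * g ^ s) (W (ι (f' / ψ'))) rB rA (ξ * rC) f' ψ'
      hg0 hG0 hGB.2.1 hGB.2.2 hGA.2.1 hGA.2.2 hGC.2.1 hGC.2.2 hw hw' hf' hf'Ui.2.2 hf'U0.2.2
      hψ'U.2.1 hψ'U.2.2 hΨ₁' hΨ₂' hΨ₃' hrB hrB' hrA hrA' hξrC hξrC' hlB hlA hl₃'
  have hβ : ξ * rB * rC / rA ^ (n + 1) - 1 ∈ I := by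
    have e : ξ * rB * rC / rA ^ (n + 1) = rB * (ξ * rC) / rA ^ (n + 1) := by ring
    rw [e]; exact hβ'
  -- the local function
  obtain ⟨Θ, -, hΘA, hΘB, hΘC, hΘw, hΘw'⟩ := s36_tri_theta hA hB hC (s18_locRing B 𝔪)
    hRA hRB hRC I hL hKA m n (s18_le_locRing B 𝔪 hmB) hmF g G (W (ι f') ^ r * g ^ s)
    (ι f ^ r * g ^ s) (ι (f / ψ)) ξ rA rB rC hg0 hG0 hw hw' hξR hξm hrA hrA' hrB hrB' hrC hrC'
    hΨA hΨB hΨC hlA hlB hlC hα hβ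
  refine ⟨Θ, hΘA, hΘB, hΘC, ?_, ?_⟩
  · have e : g ^ (n * (n + 2)) / Θ ^ m = g ^ (n * (n + 2)) * (Θ⁻¹) ^ m := by
      rw [inv_pow, div_eq_mul_inv]
    rw [e]; exact hΘw
  · have e : (g ^ (n * (n + 2)) / Θ ^ m)⁻¹ = Θ ^ m * (g ^ (n * (n + 2)))⁻¹ := by
      rw [inv_div, div_eq_mul_inv]
    rw [e]; exact hΘw'

end Main

end Fermat.Agent.S36
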