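import Mathlib
import Fermat.Agent.S36.TriLocal

/-!
# S36 (NODE-3): the local factorisation at a triple point, normalised on the three components

`B ⊆ F` a chart of the three-component model, `𝔪` a closed point at which `B_𝔪` is regular of
dimension two (two local generators and a nonzero prime `𝔮₀ < 𝔪`), `V_A`, `V_B` (uniformiser `ϖ`),
`V_C` (uniformiser `z`) the three vertical components, (cap) for the three components.

* `s36_tu_mem_of_primeVal` : in a UFD `R`, an element of the fraction field lying in every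
  localisation `R_(f)` at a prime element lies in `R`.
* `s36_tu_primeVal_of_mem` : if the centre `R ∩ d V` of a discrete valuation ring `V ⊇ R` is
  contained in `(f)` for a prime element `f` (and `R ∩ d V ≠ 0`), then `V ⊆ R_(f)`.
* `s36_tu_core` : (C1) an element of `V_A ⊓ V_B ⊓ V_C` lying in `B_𝔮` for every prime `𝔮 ≤ 𝔪`
  not containing `ϖ` lies in `B_𝔪`; (C2) every `G₀ ≠ 0` becomes a unit of `V_A`, `V_B`, `V_C`
  after multiplication by some `T` which is a unit at every horizontal prime through `𝔪`.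
* `s36_tu_gloc` : the hypothesis `hGloc` of `s36_pt_triOut` (`S36/PowTriOut`): every `g`, unit on
  the three components, whose horizontal divisor is divisible by `m`, is `w G ^ m` with `w` a unit
  of `B_𝔪` and `G` a unit on the three components.
* `s36_tu_gloc_tri` : the same from two crossing relations at `𝔪` and (RES) over an S18 chart.
-/

set_option autoImplicit false

namespace Fermat.Agent.S36

open Fermat.Agent.S18 Fermat.Agent.S34 Fermat.Agent.S35 IsLocalRing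

section Abstract

variable {R F : Type*} [CommRing R] [IsDomain R] [Field F] [Algebra R F] [IsFractionRing R F]

/-- In a UFD, an element of the fraction field lying in the localisation at every prime element
lies in the ring. -/
theorem s36_tu_mem_of_primeVal [UniqueFactorizationMonoid R] (v : F)
    (h : ∀ (f : R) (hf : Prime f), v ∈ as1_primeVal (F := F) f hf) :
    ∃ r : R, algebraMap R F r = v := by
  have hinj := IsFractionRing.injective R F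
  have key : ∀ b : R, b ≠ 0 → ∀ a : R,
      (∀ (f : R) (hf : Prime f),
        algebraMap R F a / algebraMap R F b ∈ as1_primeVal (F := F) f hf) →
      ∃ r : R, algebraMap R F r = algebraMap R F a / algebraMap R F b := by
    intro b
    refine UniqueFactorizationMonoid.induction_on_prime b (fun h0 => absurd rfl h0) ?_ ?_
    · intro x hx _ a _
      obtain ⟨u, rfl⟩ := hx
      refine ⟨a * ↑u⁻¹, ?_⟩
      rw [map_mul, div_eq_mul_inv]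
      congr 1
      have h1 : algebraMap R F ↑u * algebraMap R F ↑u⁻¹ = 1 := by
        rw [← map_mul, Units.mul_inv, map_one]
      exact eq_inv_of_mul_eq_one_right h1
    · intro b' p hb'0 hp ih _ a h
      have hpF : algebraMap R F p ≠ 0 := fun h0 => hp.ne_zero (hinj (by rw [h0, map_zero]))
      have hb'F : algebraMap R F b' ≠ 0 := fun h0 => hb'0 (hinj (by rw [h0, map_zero]))
      obtain ⟨c, e, he, heq⟩ := h p hp
      have heF := as1_algebraMap_ne_zero_of_not_dvd (F := F) he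
      have h1 : a * e = c * (p * b') := by
        apply hinj
        rw [map_mul, map_mul]
        rw [div_eq_div_iff (by rw [map_mul]; exact mul_ne_zero hpF hb'F) heF] at heq
        exact heq
      have hpa : p ∣ a := by
        have h2 : p ∣ a * e := ⟨c * b', by rw [h1]; ring⟩
        exact (hp.dvd_or_dvd h2).resolve_right he
      obtain ⟨a', rfl⟩ := hpa
      have e1 : algebraMap R F (p * a') / algebraMap R F (p * b') =
          algebraMap R F a' / algebraMap R F b' := by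
        rw [map_mul, map_mul, mul_div_mul_left _ _ hpF]
      rw [e1]
      apply ih hb'0
      intro f hf
      rw [← e1]
      exact h f hf
  obtain ⟨a, b, hb, rfl⟩ := IsFractionRing.div_surjective (A := R) v
  exact key b (nonZeroDivisors.ne_zero hb) a h

/-- If the centre `R ∩ d V` of a discrete valuation ring `V ⊇ R` is contained in `(f)`, for a
prime element `f`, and contains some `π ≠ 0`, then `V` is contained in the localisation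
`R_(f)`. -/
theorem s36_tu_primeVal_of_mem [WfDvdMonoid R] {d : F} {V : Subring F} (hV : s34_Unif d V)
    (hRV : ∀ r : R, algebraMap R F r ∈ V) (f : R) (hf : Prime f) (π : R) (hπ0 : π ≠ 0)
    (hdπ : d⁻¹ * algebraMap R F π ∈ V)
    (hP : ∀ r : R, d⁻¹ * algebraMap R F r ∈ V → f ∣ r) (v : F) (hv : v ∈ V) :
    v ∈ as1_primeVal (F := F) f hf := by
  have hinj := IsFractionRing.injective R F
  have hfF : algebraMap R F f ≠ 0 := fun h => hf.ne_zero (hinj (by rw [h, map_zero]))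
  have hunitV : ∀ r : R, ¬ f ∣ r → (algebraMap R F r)⁻¹ ∈ V := fun r hr =>
    hV.inv_mem_of_not_dvd (hRV r) (fun h => hr (hP r h))
  -- `f` is not a unit of `V`
  have hfV : (algebraMap R F f)⁻¹ ∉ V := by
    intro hfinv
    obtain ⟨h, hπeq, hfh⟩ :=
      (FiniteMultiplicity.of_not_isUnit hf.not_isUnit hπ0).exists_eq_pow_mul_and_not_dvd
    apply hfh
    apply hP
    have e : d⁻¹ * algebraMap R F h =
        d⁻¹ * algebraMap R F (f ^ multiplicity f π * h) *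
          ((algebraMap R F f)⁻¹) ^ (multiplicity f π) := by
      rw [map_mul, map_pow, inv_pow]
      have hpow : algebraMap R F f ^ multiplicity f π ≠ 0 := pow_ne_zero _ hfF
      field_simp
    rw [e, ← hπeq]
    exact V.mul_mem hdπ (V.pow_mem hfinv _)
  by_cases hv0 : v = 0
  · rw [hv0]; exact (as1_primeVal (F := F) f hf).zero_mem
  rcases (as1_primeVal (F := F) f hf).mem_or_inv_mem v with h | h
  · exact h
  · have hvi0 : v⁻¹ ≠ 0 := inv_ne_zero hv0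
    obtain ⟨k, u, hu, hu', hvu⟩ := as1_primeVal_decomp hf hvi0 h
    have hu0 : u ≠ 0 := by
      rintro rfl
      rw [mul_zero] at hvu
      exact hvi0 hvu
    obtain ⟨a, c, hfa, hfc, hac⟩ := as1_primeVal_unit_repr hf hu0 hu hu'
    have huV : u ∈ V := by
      rw [hac, div_eq_mul_inv]
      exact V.mul_mem (hRV a) (hunitV c hfc)
    rcases Nat.eq_zero_or_pos k with hk | hk
    · have e : v = u⁻¹ := by
        rw [hk, pow_zero, one_mul] at hvu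
        rw [← hvu, inv_inv]
      rw [e]; exact hu'
    · exfalso
      apply hfV
      obtain ⟨k', rfl⟩ : ∃ k', k = k' + 1 := ⟨k - 1, by omega⟩
      have e : (algebraMap R F f)⁻¹ = v * u * (algebraMap R F f) ^ k' := by
        have h2 : v = (algebraMap R F f ^ (k' + 1) * u)⁻¹ := by rw [← hvu, inv_inv]
        rw [h2, pow_succ]
        field_simp
      rw [e]
      exact V.mul_mem (V.mul_mem hv huV) (V.pow_mem (hRV f) _)

end Abstract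

section Core

variable {F : Type*} [Field F]

/-- **The two UFD facts at a regular closed point of the three-component model.**

(C1) An element of `V_A ⊓ V_B ⊓ V_C` which lies in `B_𝔮` for every prime `𝔮 ≤ 𝔪` not containing
`ϖ` lies in `B_𝔪`.

(C2) If none of the three vertical primes `P_A`, `P_B`, `P_C` is contained in another one, every
`G₀ ≠ 0` becomes a unit of `V_A`, `V_B`, `V_C` after multiplication by some `T` which is a unit at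
every prime `𝔮 ≤ 𝔪` not containing `ϖ`. -/
theorem s36_tu_core (B : Subring F) (hnoeth : IsNoetherianRing B)
    (hfrac : ∀ x : F, ∃ a ∈ B, ∃ b ∈ B, b ≠ 0 ∧ x = a / b)
    {ϖ z : F} (hϖB : ϖ ∈ B) {VA VB VC : Subring F}
    (hA : s34_Unif ϖ VA) (hB : s34_Unif ϖ VB) (hC : s34_Unif z VC)
    (hBA : B ≤ VA) (hBB : B ≤ VB) (hBC : B ≤ VC)
    (hcap : ∀ x ∈ B, ϖ⁻¹ * x ∈ VA → ϖ⁻¹ * x ∈ VB → ϖ⁻¹ * x ∈ VC → ϖ⁻¹ * x ∈ B)
    (n : ℕ) (hzn : ϖ⁻¹ * z ^ n ∈ VC) (hCϖ : z⁻¹ * ϖ ∈ VC)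
    (𝔪 : Ideal B) (h𝔪 : 𝔪.IsMaximal) (x y : B) (hx : x ∈ 𝔪) (hy : y ∈ 𝔪)
    (hgen : ∀ t ∈ 𝔪, ∃ u, u ∉ 𝔪 ∧ u * t ∈ Ideal.span {x, y})
    (𝔮₀ : Ideal B) (h𝔮₀ : 𝔮₀.IsPrime) (h𝔮₀0 : 𝔮₀ ≠ ⊥) (h𝔮₀𝔪 : 𝔮₀ < 𝔪)
    (hPA : ∀ p : B, ϖ⁻¹ * (p : F) ∈ VA → p ∈ 𝔪) (hPB : ∀ p : B, ϖ⁻¹ * (p : F) ∈ VB → p ∈ 𝔪)
    (hPC : ∀ p : B, z⁻¹ * (p : F) ∈ VC → p ∈ 𝔪) :
    (∀ w : F, w ∈ VA → w ∈ VB → w ∈ VC →
      (∀ 𝔮 : Ideal B, 𝔮.IsPrime → 𝔮 ≤ 𝔪 → (⟨ϖ, hϖB⟩ : B) ∉ 𝔮 → w ∈ s18_loc B 𝔮) →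
      w ∈ s18_loc B 𝔪) ∧
    ((∃ p : B, ϖ⁻¹ * (p : F) ∈ VA ∧ ϖ⁻¹ * (p : F) ∉ VB) →
      (∃ p : B, ϖ⁻¹ * (p : F) ∈ VA ∧ z⁻¹ * (p : F) ∉ VC) →
      (∃ p : B, ϖ⁻¹ * (p : F) ∈ VB ∧ ϖ⁻¹ * (p : F) ∉ VA) →
      (∃ p : B, ϖ⁻¹ * (p : F) ∈ VB ∧ z⁻¹ * (p : F) ∉ VC) →
      (∃ p : B, z⁻¹ * (p : F) ∈ VC ∧ ϖ⁻¹ * (p : F) ∉ VA) →
      (∃ p : B, z⁻¹ * (p : F) ∈ VC ∧ ϖ⁻¹ * (p : F) ∉ VB) →
      ∀ G₀ : F, G₀ ≠ 0 → ∃ T : F, T ≠ 0 ∧
        (∀ 𝔮 : Ideal B, 𝔮.IsPrime → 𝔮 ≤ 𝔪 → (⟨ϖ, hϖB⟩ : B) ∉ 𝔮 →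
          T ∈ s18_loc B 𝔮 ∧ T⁻¹ ∈ s18_loc B 𝔮) ∧
        (G₀ * T ∈ VA ∧ (G₀ * T)⁻¹ ∈ VA) ∧ (G₀ * T ∈ VB ∧ (G₀ * T)⁻¹ ∈ VB) ∧
        (G₀ * T ∈ VC ∧ (G₀ * T)⁻¹ ∈ VC)) := by
  classical
  have hϖ0 := hA.ne_zero
  have hz0 := hC.ne_zero
  have hprime𝔪 : 𝔪.IsPrime := h𝔪.isPrime
  have hfracI : IsFractionRing B F := by
    refine IsFractionRing.of_field B F fun z => ?_
    obtain ⟨x, hx, y, hy, hy0, rfl⟩ := hfrac z
    exact ⟨⟨x, hx⟩, ⟨y, hy⟩, rfl⟩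
  have hS : 𝔪.primeCompl ≤ nonZeroDivisors B := Ideal.primeCompl_le_nonZeroDivisors 𝔪
  let R : Subalgebra B F := Localization.subalgebra.ofField F 𝔪.primeCompl hS
  have hmemR : ∀ x : F, x ∈ R ↔ x ∈ s18_loc B 𝔪 := by
    intro x
    constructor
    · rintro ⟨a, s, hs, rfl⟩
      exact ⟨a, s, hs, by rw [div_eq_mul_inv]; rfl⟩
    · rintro ⟨a, s, hs, rfl⟩
      exact ⟨a, s, hs, by rw [div_eq_mul_inv]; rfl⟩
  have hloc : IsLocalization.AtPrime R 𝔪 :=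
    Localization.subalgebra.isLocalization_ofField F 𝔪.primeCompl hS
  have hRnoeth : IsNoetherianRing R := IsLocalization.isNoetherianRing 𝔪.primeCompl R hnoeth
  have hRlocal : IsLocalRing R := IsLocalization.AtPrime.isLocalRing R 𝔪
  have hRfrac : IsFractionRing R F := Localization.subalgebra.isFractionRing_ofField F _ hS
  let ι : B →+* R := algebraMap B R
  have hιinj : Function.Injective ι := by
    intro a b hab
    apply Subtype.ext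
    have := congrArg (Subtype.val : R → F) hab
    exact this
  -- the maximal ideal of `R`
  have hmax : maximalIdeal R = Ideal.span {ι x, ι y} := by
    rw [← IsLocalization.AtPrime.map_eq_maximalIdeal 𝔪 R]
    apply le_antisymm
    · rw [Ideal.map_le_iff_le_comap]
      intro z hz
      obtain ⟨u, hu, huz⟩ := hgen z hz
      have h1 : ι (u * z) ∈ Ideal.map ι (Ideal.span {x, y}) := Ideal.mem_map_of_mem ι huz
      rw [Ideal.map_span, Set.image_pair, map_mul] at h1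
      have hunit : IsUnit (ι u) := IsLocalization.map_units R (⟨u, hu⟩ : 𝔪.primeCompl)
      exact (Ideal.unit_mul_mem_iff_mem _ hunit).mp h1
    · rw [Ideal.span_le]
      rintro z (rfl | rfl)
      · exact Ideal.mem_map_of_mem _ hx
      · exact Ideal.mem_map_of_mem _ hy
  -- a nonzero non-maximal prime of `R`
  have hdisj : Disjoint (𝔪.primeCompl : Set B) (𝔮₀ : Set B) := by
    rw [Set.disjoint_left]
    intro z hz hz'
    exact hz (h𝔮₀𝔪.le hz')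
  have hPprime : (Ideal.map ι 𝔮₀).IsPrime :=
    IsLocalization.isPrime_of_isPrime_disjoint 𝔪.primeCompl R _ h𝔮₀ hdisj
  have hP0 : Ideal.map ι 𝔮₀ ≠ ⊥ := by
    obtain ⟨z, hz, hz0⟩ := Submodule.exists_mem_ne_zero_of_ne_bot h𝔮₀0
    intro hbot
    have h1 : ι z ∈ Ideal.map ι 𝔮₀ := Ideal.mem_map_of_mem ι hz
    rw [hbot, Ideal.mem_bot] at h1
    exact hz0 (hιinj (by rw [h1, map_zero]))
  have hPm : Ideal.map ι 𝔮₀ ≠ maximalIdeal R := by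
    intro heq
    have h1 : (Ideal.map ι 𝔮₀).under B = 𝔮₀ :=
      IsLocalization.under_map_of_isPrime_disjoint 𝔪.primeCompl R h𝔮₀ hdisj
    have h2 : (maximalIdeal R).under B = 𝔪 := IsLocalization.AtPrime.under_maximalIdeal R 𝔪
    rw [heq, h2] at h1
    exact h𝔮₀𝔪.ne h1.symm
  have hxprime : Prime (ι x) := s36_tf_prime_of_param (ι x) (ι y) hmax (Ideal.map ι 𝔮₀) hP0 hPm
  have hUFD : UniqueFactorizationMonoid R := as1_ufd_of_regular (ι x) (ι y) hxprime hmax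
  let πR : R := ι ⟨ϖ, hϖB⟩
  have hπR0 : πR ≠ 0 := fun h0 => hϖ0 (congrArg Subtype.val h0)
  have hunit : ∀ s : B, s ∉ 𝔪 → IsUnit (ι s) := fun s hs =>
    IsLocalization.map_units R (⟨s, hs⟩ : 𝔪.primeCompl)
  -- `r s = a`
  have hRrepr : ∀ r : R, ∃ a s : B, s ∉ 𝔪 ∧ (r : F) * (s : F) = (a : F) := by
    intro r
    obtain ⟨a, s, hs, hr⟩ := (hmemR _).mp r.2
    have hs0 : (s : F) ≠ 0 := fun h => hs (by
      have : s = 0 := Subtype.ext h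
      rw [this]; exact 𝔪.zero_mem)
    exact ⟨a, s, hs, by rw [hr]; field_simp⟩
  -- `R ⊆ V` for a component through `𝔪`
  have hRV : ∀ (d : F) (V : Subring F), s34_Unif d V → B ≤ V →
      (∀ p : B, d⁻¹ * (p : F) ∈ V → p ∈ 𝔪) → ∀ r : R, algebraMap R F r ∈ V := by
    intro d V hV hBV hP r
    obtain ⟨a, s, hs, hr⟩ := (hmemR _).mp r.2
    show (r : F) ∈ V
    rw [hr, div_eq_mul_inv]
    exact V.mul_mem (hBV a.2) (hV.inv_mem_of_not_dvd (hBV s.2) (fun h => hs (hP s h)))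
  -- every vertical prime of `R` contains one of the three vertical primes
  have hvert : ∀ f : R, Prime f → f ∣ πR →
      (∀ r : R, ϖ⁻¹ * algebraMap R F r ∈ VA → f ∣ r) ∨
      (∀ r : R, ϖ⁻¹ * algebraMap R F r ∈ VB → f ∣ r) ∨
      (∀ r : R, z⁻¹ * algebraMap R F r ∈ VC → f ∣ r) := by
    intro f hf hfπ
    have hB' : (∀ p : B, ϖ⁻¹ * (p : F) ∈ VA → f ∣ ι p) ∨
        (∀ p : B, ϖ⁻¹ * (p : F) ∈ VB → f ∣ ι p) ∨ (∀ p : B, z⁻¹ * (p : F) ∈ VC → f ∣ ι p) := by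
      by_contra hcon
      push Not at hcon
      obtain ⟨⟨a, haA, hfa⟩, ⟨b, hbB, hfb⟩, ⟨c, hcC, hfc⟩⟩ := hcon
      have hp : ϖ⁻¹ * ((a * b * c ^ n : B) : F) ∈ B := by
        apply hcap _ (a * b * c ^ n).2
        · have e : ϖ⁻¹ * ((a * b * c ^ n : B) : F) =
              ϖ⁻¹ * (a : F) * ((b : F) * (c : F) ^ n) := by push_cast; ring
          rw [e]
          exact VA.mul_mem haA (VA.mul_mem (hBA b.2) (VA.pow_mem (hBA c.2) n))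
        · have e : ϖ⁻¹ * ((a * b * c ^ n : B) : F) =
              ϖ⁻¹ * (b : F) * ((a : F) * (c : F) ^ n) := by push_cast; ring
          rw [e]
          exact VB.mul_mem hbB (VB.mul_mem (hBB a.2) (VB.pow_mem (hBB c.2) n))
        · have e : ϖ⁻¹ * ((a * b * c ^ n : B) : F) =
              (ϖ⁻¹ * z ^ n) * ((z⁻¹ * (c : F)) ^ n * ((a : F) * (b : F))) := by
            push_cast
            rw [mul_pow, inv_pow]
            have hzn0 : z ^ n ≠ 0 := pow_ne_zero n hz0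
            field_simp
          rw [e]
          exact VC.mul_mem hzn (VC.mul_mem (VC.pow_mem hcC n) (VC.mul_mem (hBC a.2) (hBC b.2)))
      have hdvd : f ∣ ι (a * b * c ^ n) := by
        have e : ι (a * b * c ^ n) = πR * ι ⟨_, hp⟩ := by
          apply Subtype.ext
          show ((a * b * c ^ n : B) : F) = ϖ * (ϖ⁻¹ * ((a * b * c ^ n : B) : F))
          rw [mul_inv_cancel_left₀ hϖ0]
        rw [e]
        exact hfπ.mul_right _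
      rw [map_mul, map_mul, map_pow] at hdvd
      rcases hf.dvd_or_dvd hdvd with h | h
      · rcases hf.dvd_or_dvd h with h | h
        · exact hfa h
        · exact hfb h
      · exact hfc (hf.dvd_of_dvd_pow h)
    have hext : ∀ (d : F) (V : Subring F), (∀ p : B, d⁻¹ * (p : F) ∈ V → f ∣ ι p) → B ≤ V →
        ∀ r : R, d⁻¹ * algebraMap R F r ∈ V → f ∣ r := by
      intro d V hV' hBV r hr
      obtain ⟨a, s, hs, hrs⟩ := hRrepr r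
      have h1 : f ∣ ι a := by
        apply hV'
        have e : d⁻¹ * (a : F) = d⁻¹ * (r : F) * (s : F) := by rw [mul_assoc, hrs]
        rw [e]
        exact V.mul_mem hr (hBV s.2)
      have h2 : ι a = r * ι s := Subtype.ext hrs.symm
      rw [h2] at h1
      rcases hf.dvd_or_dvd h1 with h | h
      · exact h
      · exact absurd (isUnit_of_dvd_unit h (hunit s hs)) hf.not_isUnit
    rcases hB' with h | h | h
    · exact Or.inl (hext ϖ VA h hBA)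
    · exact Or.inr (Or.inl (hext ϖ VB h hBB))
    · exact Or.inr (Or.inr (hext z VC h hBC))
  have hdπA : ϖ⁻¹ * algebraMap R F πR ∈ VA := by
    show ϖ⁻¹ * ϖ ∈ VA
    rw [inv_mul_cancel₀ hϖ0]; exact VA.one_mem
  have hdπB : ϖ⁻¹ * algebraMap R F πR ∈ VB := by
    show ϖ⁻¹ * ϖ ∈ VB
    rw [inv_mul_cancel₀ hϖ0]; exact VB.one_mem
  have hdπC : z⁻¹ * algebraMap R F πR ∈ VC := hCϖ
  have hRA := hRV ϖ VA hA hBA hPA
  have hRB := hRV ϖ VB hB hBB hPB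
  have hRC := hRV z VC hC hBC hPC
  refine ⟨?_, ?_⟩
  · -- (C1)
    intro w hwA hwB hwC hhor
    have hall : ∀ (f : R) (hf : Prime f), w ∈ as1_primeVal (F := F) f hf := by
      intro f hf
      by_cases hfπ : f ∣ πR
      · rcases hvert f hf hfπ with h | h | h
        · exact s36_tu_primeVal_of_mem hA hRA f hf πR hπR0 hdπA h w hwA
        · exact s36_tu_primeVal_of_mem hB hRB f hf πR hπR0 hdπB h w hwB
        · exact s36_tu_primeVal_of_mem hC hRC f hf πR hπR0 hdπC h w hwC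
      · let 𝔮 : Ideal B := Ideal.comap ι (Ideal.span {f})
        have hspan : (Ideal.span {f}).IsPrime := (Ideal.span_singleton_prime hf.ne_zero).mpr hf
        have h𝔮 : 𝔮.IsPrime := Ideal.comap_isPrime ι _
        have hmem𝔮 : ∀ b : B, b ∈ 𝔮 ↔ f ∣ ι b := fun b => Ideal.mem_span_singleton
        have h𝔮𝔪 : 𝔮 ≤ 𝔪 := by
          intro b hb
          by_contra hb𝔪
          exact hf.not_isUnit (isUnit_of_dvd_unit ((hmem𝔮 b).mp hb) (hunit b hb𝔪))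
        have hϖ𝔮 : (⟨ϖ, hϖB⟩ : B) ∉ 𝔮 := fun h => hfπ ((hmem𝔮 _).mp h)
        obtain ⟨a, s, hs, hw⟩ := hhor 𝔮 h𝔮 h𝔮𝔪 hϖ𝔮
        exact ⟨ι a, ι s, fun h => hs ((hmem𝔮 s).mpr h), hw⟩
    obtain ⟨r, hr⟩ := s36_tu_mem_of_primeVal w hall
    have hwR : w ∈ R := by rw [← hr]; exact r.2
    exact (hmemR w).mp hwR
  · -- (C2)
    intro hnAB hnAC hnBA hnBC hnCA hnCB G₀ hG₀
    -- a vertical prime of `R` for each component
    have hfX : ∀ (d : F) (V : Subring F), s34_Unif d V → (∀ r : R, algebraMap R F r ∈ V) →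
        d⁻¹ * algebraMap R F πR ∈ V →
        (∀ f : R, Prime f → f ∣ πR → (∀ r : R, d⁻¹ * algebraMap R F r ∈ V → f ∣ r) ∨
          ∃ p : B, f ∣ ι p ∧ d⁻¹ * (p : F) ∉ V) →
        ∃ f : R, Prime f ∧ f ∣ πR ∧ ∀ r : R, d⁻¹ * algebraMap R F r ∈ V → f ∣ r := by
      intro d V hV hRV' hdπ hother
      obtain ⟨fs, hfs, hprod⟩ := UniqueFactorizationMonoid.exists_prime_factors πR hπR0
      have hex : ∃ f ∈ fs, d⁻¹ * algebraMap R F f ∈ V := by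
        by_contra hcon
        push Not at hcon
        have hprodV : (algebraMap R F fs.prod)⁻¹ ∈ V := by
          refine Multiset.prod_induction (fun r : R => (algebraMap R F r)⁻¹ ∈ V) fs ?_ ?_ ?_
          · intro a b ha hb
            show (algebraMap R F (a * b))⁻¹ ∈ V
            rw [map_mul, mul_inv]
            exact V.mul_mem ha hb
          · show (algebraMap R F 1)⁻¹ ∈ V
            rw [map_one, inv_one]
            exact V.one_mem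
          · intro a ha
            exact hV.inv_mem_of_not_dvd (hRV' a) (hcon a ha)
        obtain ⟨u, hu⟩ := hprod
        have hπinv : (algebraMap R F πR)⁻¹ ∈ V := by
          rw [← hu, map_mul, mul_inv]
          refine V.mul_mem hprodV ?_
          have h1 : algebraMap R F ↑u * algebraMap R F ↑u⁻¹ = 1 := by
            rw [← map_mul, Units.mul_inv, map_one]
          rw [← eq_inv_of_mul_eq_one_right h1]
          exact hRV' _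
        apply hV.inv_not_mem
        have hπF : algebraMap R F πR ≠ 0 := hϖ0
        have e : d⁻¹ = d⁻¹ * algebraMap R F πR * (algebraMap R F πR)⁻¹ := by
          rw [mul_assoc, mul_inv_cancel₀ hπF, mul_one]
        rw [e]
        exact V.mul_mem hdπ hπinv
      obtain ⟨f, hf, hfV⟩ := hex
      have hfp := hfs f hf
      have hfπ : f ∣ πR := (Multiset.dvd_prod hf).trans hprod.dvd
      refine ⟨f, hfp, hfπ, ?_⟩
      rcases hother f hfp hfπ with h | ⟨p, ⟨r', hr'⟩, hpV⟩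
      · exact h
      · exfalso
        apply hpV
        have e : d⁻¹ * (p : F) = d⁻¹ * algebraMap R F f * algebraMap R F r' := by
          have h2 := congrArg (algebraMap R F) hr'
          rw [map_mul] at h2
          rw [mul_assoc, ← h2]
          rfl
        rw [e]
        exact V.mul_mem hfV (hRV' r')
    obtain ⟨fA, hfA, hfAπ, hPfA⟩ := hfX ϖ VA hA hRA hdπA (by
      intro f hf hfπ
      rcases hvert f hf hfπ with h | h | h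
      · exact Or.inl h
      · obtain ⟨p, hpB, hpA⟩ := hnBA
        exact Or.inr ⟨p, h (ι p) hpB, hpA⟩
      · obtain ⟨p, hpC, hpA⟩ := hnCA
        exact Or.inr ⟨p, h (ι p) hpC, hpA⟩)
    obtain ⟨fB, hfB, hfBπ, hPfB⟩ := hfX ϖ VB hB hRB hdπB (by
      intro f hf hfπ
      rcases hvert f hf hfπ with h | h | h
      · obtain ⟨p, hpA, hpB⟩ := hnAB
        exact Or.inr ⟨p, h (ι p) hpA, hpB⟩
      · exact Or.inl h
      · obtain ⟨p, hpC, hpB⟩ := hnCB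
        exact Or.inr ⟨p, h (ι p) hpC, hpB⟩)
    obtain ⟨fC, hfC, hfCπ, hPfC⟩ := hfX z VC hC hRC hdπC (by
      intro f hf hfπ
      rcases hvert f hf hfπ with h | h | h
      · obtain ⟨p, hpA, hpC⟩ := hnAC
        exact Or.inr ⟨p, h (ι p) hpA, hpC⟩
      · obtain ⟨p, hpB, hpC⟩ := hnBC
        exact Or.inr ⟨p, h (ι p) hpB, hpC⟩
      · exact Or.inl h)
    -- `G₀ = a / b`, stripped of its vertical part
    obtain ⟨a, b, hb, rfl⟩ := IsFractionRing.div_surjective (A := R) G₀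
    have hb0 : b ≠ 0 := nonZeroDivisors.ne_zero hb
    have ha0 : a ≠ 0 := by
      rintro rfl
      exact hG₀ (by rw [map_zero, zero_div])
    obtain ⟨av, ah, Na, ca, hav, hca, hah⟩ := s36_tf_strip πR a ha0
    obtain ⟨bv, bh, Nb, cb, hbv, hcb, hbh⟩ := s36_tf_strip πR b hb0
    have hav0 : av ≠ 0 := left_ne_zero_of_mul (hav ▸ ha0)
    have hah0 : ah ≠ 0 := right_ne_zero_of_mul (hav ▸ ha0)
    have hbv0 : bv ≠ 0 := left_ne_zero_of_mul (hbv ▸ hb0)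
    have hbh0 : bh ≠ 0 := right_ne_zero_of_mul (hbv ▸ hb0)
    have hF0 : ∀ r : R, r ≠ 0 → algebraMap R F r ≠ 0 := fun r hr h0 => hr (Subtype.ext h0)
    have heq : algebraMap R F a / algebraMap R F b *
        (algebraMap R F bv / algebraMap R F av) = algebraMap R F ah / algebraMap R F bh := by
      rw [hav, hbv, map_mul, map_mul]
      have h1 := hF0 av hav0
      have h2 := hF0 bv hbv0
      have h3 := hF0 ah hah0
      have h4 := hF0 bh hbh0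
      field_simp
    have hU : ∀ (d : F) (V : Subring F), s34_Unif d V → (∀ r : R, algebraMap R F r ∈ V) →
        ∀ fX : R, Prime fX → fX ∣ πR → (∀ r : R, d⁻¹ * algebraMap R F r ∈ V → fX ∣ r) →
        (algebraMap R F a / algebraMap R F b * (algebraMap R F bv / algebraMap R F av) ∈ V ∧
          (algebraMap R F a / algebraMap R F b *
            (algebraMap R F bv / algebraMap R F av))⁻¹ ∈ V) := by
      intro d V hV hRV' fX hfX' hfXπ hPfX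
      have hinvh : ∀ h : R, (∀ f : R, Prime f → f ∣ h → ¬ f ∣ πR) →
          (algebraMap R F h)⁻¹ ∈ V := by
        intro h hh
        exact hV.inv_mem_of_not_dvd (hRV' h) (fun hcon => hh fX hfX' (hPfX h hcon) hfXπ)
      rw [heq]
      constructor
      · rw [div_eq_mul_inv]
        exact V.mul_mem (hRV' ah) (hinvh bh hbh)
      · rw [inv_div, div_eq_mul_inv]
        exact V.mul_mem (hRV' bh) (hinvh ah hah)
    refine ⟨algebraMap R F bv / algebraMap R F av, div_ne_zero (hF0 bv hbv0) (hF0 av hav0), ?_,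
      hU ϖ VA hA hRA fA hfA hfAπ hPfA, hU ϖ VB hB hRB fB hfB hfBπ hPfB,
      hU z VC hC hRC fC hfC hfCπ hPfC⟩
    intro 𝔮 h𝔮 h𝔮𝔪 hϖ𝔮
    have hR𝔮 : ∀ r : R, algebraMap R F r ∈ s18_locRing B 𝔮 := by
      intro r
      obtain ⟨a', s', hs', hr⟩ := (hmemR _).mp r.2
      exact ⟨a', s', fun h => hs' (h𝔮𝔪 h), hr⟩
    have hϖinv : ϖ⁻¹ ∈ s18_locRing B 𝔮 := ⟨1, ⟨ϖ, hϖB⟩, hϖ𝔮, by simp⟩
    have hvinv : ∀ (v c : R) (N : ℕ), v * c = πR ^ N → v ≠ 0 →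
        (algebraMap R F v)⁻¹ ∈ s18_locRing B 𝔮 := by
      intro v c N hvc hv0
      have h1 : algebraMap R F v * algebraMap R F c = ϖ ^ N := by
        have h2 := congrArg (algebraMap R F) hvc
        rw [map_mul, map_pow] at h2
        exact h2
      have hcF : algebraMap R F c ≠ 0 := right_ne_zero_of_mul (h1 ▸ pow_ne_zero N hϖ0)
      have e : (algebraMap R F v)⁻¹ = algebraMap R F c * (ϖ⁻¹) ^ N := by
        rw [inv_pow, ← h1, mul_inv, mul_comm (algebraMap R F v)⁻¹, ← mul_assoc,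
          mul_inv_cancel₀ hcF, one_mul]
      rw [e]
      exact (s18_locRing B 𝔮).mul_mem (hR𝔮 c) ((s18_locRing B 𝔮).pow_mem hϖinv N)
    constructor
    · rw [div_eq_mul_inv]
      exact (s18_locRing B 𝔮).mul_mem (hR𝔮 bv) (hvinv av ca Na hca hav0)
    · rw [inv_div, div_eq_mul_inv]
      exact (s18_locRing B 𝔮).mul_mem (hR𝔮 av) (hvinv bv cb Nb hcb hbv0)

/-- **The hypothesis `hGloc` of `s36_pt_triOut`** at a regular closed point of the three-component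
model: a function `g`, unit on the three components, whose horizontal divisor is divisible by `m`,
is `w G ^ m` with `w` a unit of `B_𝔪` and `G` a unit on the three components. -/
theorem s36_tu_gloc (B : Subring F) (hnoeth : IsNoetherianRing B)
    (hfrac : ∀ x : F, ∃ a ∈ B, ∃ b ∈ B, b ≠ 0 ∧ x = a / b)
    {ϖ z : F} (hϖB : ϖ ∈ B) {VA VB VC : Subring F}
    (hA : s34_Unif ϖ VA) (hB : s34_Unif ϖ VB) (hC : s34_Unif z VC)
    (hBA : B ≤ VA) (hBB : B ≤ VB) (hBC : B ≤ VC)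
    (hcap : ∀ x ∈ B, ϖ⁻¹ * x ∈ VA → ϖ⁻¹ * x ∈ VB → ϖ⁻¹ * x ∈ VC → ϖ⁻¹ * x ∈ B)
    (n : ℕ) (hzn : ϖ⁻¹ * z ^ n ∈ VC) (hCϖ : z⁻¹ * ϖ ∈ VC)
    (𝔪 : Ideal B) (h𝔪 : 𝔪.IsMaximal) (x y : B) (hx : x ∈ 𝔪) (hy : y ∈ 𝔪)
    (hgen : ∀ t ∈ 𝔪, ∃ u, u ∉ 𝔪 ∧ u * t ∈ Ideal.span {x, y})
    (𝔮₀ : Ideal B) (h𝔮₀ : 𝔮₀.IsPrime) (h𝔮₀0 : 𝔮₀ ≠ ⊥) (h𝔮₀𝔪 : 𝔮₀ < 𝔪)
    (hPA : ∀ p : B, ϖ⁻¹ * (p : F) ∈ VA → p ∈ 𝔪) (hPB : ∀ p : B, ϖ⁻¹ * (p : F) ∈ VB → p ∈ 𝔪)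
    (hPC : ∀ p : B, z⁻¹ * (p : F) ∈ VC → p ∈ 𝔪)
    (hnAB : ∃ p : B, ϖ⁻¹ * (p : F) ∈ VA ∧ ϖ⁻¹ * (p : F) ∉ VB)
    (hnAC : ∃ p : B, ϖ⁻¹ * (p : F) ∈ VA ∧ z⁻¹ * (p : F) ∉ VC)
    (hnBA : ∃ p : B, ϖ⁻¹ * (p : F) ∈ VB ∧ ϖ⁻¹ * (p : F) ∉ VA)
    (hnBC : ∃ p : B, ϖ⁻¹ * (p : F) ∈ VB ∧ z⁻¹ * (p : F) ∉ VC)
    (hnCA : ∃ p : B, z⁻¹ * (p : F) ∈ VC ∧ ϖ⁻¹ * (p : F) ∉ VA)
    (hnCB : ∃ p : B, z⁻¹ * (p : F) ∈ VC ∧ ϖ⁻¹ * (p : F) ∉ VB)
    (m : ℕ) (hm : 0 < m) (g : F)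
    (hgA : g ≠ 0 ∧ g ∈ VA ∧ g⁻¹ ∈ VA) (hgB : g ≠ 0 ∧ g ∈ VB ∧ g⁻¹ ∈ VB)
    (hgC : g ≠ 0 ∧ g ∈ VC ∧ g⁻¹ ∈ VC)
    (hdiv : ∀ W' : ValuationSubring F, IsDiscreteValuationRing W' → B ≤ W'.toSubring →
      ϖ⁻¹ ∈ W' → ∃ g' u : F, u ∈ W' ∧ u⁻¹ ∈ W' ∧ g = u * g' ^ m) :
    ∃ G : F, (G ≠ 0 ∧ G ∈ VA ∧ G⁻¹ ∈ VA) ∧ (G ≠ 0 ∧ G ∈ VB ∧ G⁻¹ ∈ VB) ∧
      (G ≠ 0 ∧ G ∈ VC ∧ G⁻¹ ∈ VC) ∧
      g * (G⁻¹) ^ m ∈ s18_loc B 𝔪 ∧ G ^ m * g⁻¹ ∈ s18_loc B 𝔪 := by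
  obtain ⟨hC1, hC2⟩ := s36_tu_core B hnoeth hfrac hϖB hA hB hC hBA hBB hBC hcap n hzn hCϖ 𝔪 h𝔪
    x y hx hy hgen 𝔮₀ h𝔮₀ h𝔮₀0 h𝔮₀𝔪 hPA hPB hPC
  obtain ⟨G₀, hG₀0, hG₀⟩ := s36_tf_hG B hnoeth hfrac ϖ hϖB 𝔪 h𝔪 x y hx hy hgen 𝔮₀ h𝔮₀ h𝔮₀0
    h𝔮₀𝔪 m hm g hgA.1 hdiv
  obtain ⟨T, hT0, hThor, hTA, hTB, hTC⟩ := hC2 hnAB hnAC hnBA hnBC hnCA hnCB G₀ hG₀0
  have hG0 : G₀ * T ≠ 0 := mul_ne_zero hG₀0 hT0
  refine ⟨G₀ * T, ⟨hG0, hTA.1, hTA.2⟩, ⟨hG0, hTB.1, hTB.2⟩, ⟨hG0, hTC.1, hTC.2⟩, ?_, ?_⟩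
  · apply hC1
    · exact VA.mul_mem hgA.2.1 (VA.pow_mem hTA.2 m)
    · exact VB.mul_mem hgB.2.1 (VB.pow_mem hTB.2 m)
    · exact VC.mul_mem hgC.2.1 (VC.pow_mem hTC.2 m)
    · intro 𝔮 h𝔮 h𝔮𝔪 hϖ𝔮
      have e : g * ((G₀ * T)⁻¹) ^ m = (g * (G₀⁻¹) ^ m) * (T⁻¹) ^ m := by
        rw [mul_inv, mul_pow]; ring
      rw [e]
      exact (s18_locRing B 𝔮).mul_mem (hG₀ 𝔮 h𝔮 h𝔮𝔪 hϖ𝔮).1
        ((s18_locRing B 𝔮).pow_mem (hThor 𝔮 h𝔮 h𝔮𝔪 hϖ𝔮).2 m)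
  · apply hC1
    · exact VA.mul_mem (VA.pow_mem hTA.1 m) hgA.2.2
    · exact VB.mul_mem (VB.pow_mem hTB.1 m) hgB.2.2
    · exact VC.mul_mem (VC.pow_mem hTC.1 m) hgC.2.2
    · intro 𝔮 h𝔮 h𝔮𝔪 hϖ𝔮
      have e : (G₀ * T) ^ m * g⁻¹ = (G₀ ^ m * g⁻¹) * T ^ m := by
        rw [mul_pow]; ring
      rw [e]
      exact (s18_locRing B 𝔮).mul_mem (hG₀ 𝔮 h𝔮 h𝔮𝔪 hϖ𝔮).2
        ((s18_locRing B 𝔮).pow_mem (hThor 𝔮 h𝔮 h𝔮𝔪 hϖ𝔮).1 m)

/-- **`hGloc` at a triple point**, from the two crossing relations at `𝔪` (the outputs of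
`s36_cu_transport` for the two degeneracy maps) and (RES) along `V_B` over an S18 chart. -/
theorem s36_tu_gloc_tri {F₀ : Type*} [Field F₀] (B : Subring F) (hnoeth : IsNoetherianRing B)
    (hfrac : ∀ x : F, ∃ a ∈ B, ∃ b ∈ B, b ≠ 0 ∧ x = a / b)
    {ϖ z : F} (hϖB : ϖ ∈ B) {VA VB VC : Subring F}
    (hA : s34_Unif ϖ VA) (hB : s34_Unif ϖ VB) (hC : s34_Unif z VC)
    (hBA : B ≤ VA) (hBB : B ≤ VB) (hBC : B ≤ VC)
    (hcap : ∀ x ∈ B, ϖ⁻¹ * x ∈ VA → ϖ⁻¹ * x ∈ VB → ϖ⁻¹ * x ∈ VC → ϖ⁻¹ * x ∈ B)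
    (n : ℕ) (hzn : ϖ⁻¹ * z ^ n ∈ VC) (hCϖ : z⁻¹ * ϖ ∈ VC)
    (𝔪 : Ideal B) (h𝔪 : 𝔪.IsMaximal)
    (hPA : ∀ p : B, ϖ⁻¹ * (p : F) ∈ VA → p ∈ 𝔪) (hPB : ∀ p : B, ϖ⁻¹ * (p : F) ∈ VB → p ∈ 𝔪)
    (hPC : ∀ p : B, z⁻¹ * (p : F) ∈ VC → p ∈ 𝔪)
    (ι₀ : F₀ →+* F) {ϖ₀ : F₀} (B₁ : Subring F₀) (hB₁c : s18_Chart ϖ₀ B₁)
    (hB₁B : ∀ x ∈ B₁, ι₀ x ∈ B) (hd₀ : ϖ⁻¹ * ι₀ ϖ₀ ∈ VB)
    (hres : ∀ y ∈ B, ∃ y' ∈ B₁, ϖ⁻¹ * (y - ι₀ y') ∈ VB)
    (hrel₁ : ∃ u v γ : B, (u : F) * (v : F) = ϖ * (γ : F) ∧ u ∈ 𝔪 ∧ v ∈ 𝔪 ∧ γ ∉ 𝔪 ∧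
      ϖ⁻¹ * (u : F) ∈ VB ∧ ϖ⁻¹ * (v : F) ∈ VA ∧ ϖ⁻¹ * (v : F) ∈ VC)
    (hrel₂ : ∃ u v γ : B, (u : F) * (v : F) = ϖ * (γ : F) ∧ u ∈ 𝔪 ∧ v ∈ 𝔪 ∧ γ ∉ 𝔪 ∧
      ϖ⁻¹ * (u : F) ∈ VA ∧ ϖ⁻¹ * (v : F) ∈ VB ∧ ϖ⁻¹ * (v : F) ∈ VC)
    (m : ℕ) (hm : 0 < m) (g : F)
    (hgA : g ≠ 0 ∧ g ∈ VA ∧ g⁻¹ ∈ VA) (hgB : g ≠ 0 ∧ g ∈ VB ∧ g⁻¹ ∈ VB)
    (hgC : g ≠ 0 ∧ g ∈ VC ∧ g⁻¹ ∈ VC)
    (hdiv : ∀ W' : ValuationSubring F, IsDiscreteValuationRing W' → B ≤ W'.toSubring →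
      ϖ⁻¹ ∈ W' → ∃ g' u : F, u ∈ W' ∧ u⁻¹ ∈ W' ∧ g = u * g' ^ m) :
    ∃ G : F, (G ≠ 0 ∧ G ∈ VA ∧ G⁻¹ ∈ VA) ∧ (G ≠ 0 ∧ G ∈ VB ∧ G⁻¹ ∈ VB) ∧
      (G ≠ 0 ∧ G ∈ VC ∧ G⁻¹ ∈ VC) ∧
      g * (G⁻¹) ^ m ∈ s18_loc B 𝔪 ∧ G ^ m * g⁻¹ ∈ s18_loc B 𝔪 := by
  have hϖ0 := hA.ne_zero
  obtain ⟨u₁, v₁, γ₁, huv₁, hu₁, hv₁, hγ₁, hu₁B, hv₁A, hv₁C⟩ := hrel₁
  obtain ⟨u₂, v₂, γ₂, huv₂, -, -, hγ₂, hu₂A, hv₂B, hv₂C⟩ := hrel₂
  obtain ⟨hu₁A, hu₁C, hv₁B⟩ := s36_tloc_cross B VA VB VC hϖ0 𝔪 hPA hPB hPC u₁ v₁ γ₁ huv₁ hγ₁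
    hu₁B hv₁A hv₁C
  obtain ⟨hu₂B, hu₂C, hv₂A⟩ := s36_tloc_cross B VB VA VC hϖ0 𝔪 hPB hPA hPC u₂ v₂ γ₂ huv₂ hγ₂
    hu₂A hv₂B hv₂C
  obtain ⟨x, hx, -, hgen⟩ := s36_tloc_gen ι₀ B₁ hB₁c B VA VB VC hB₁B hBA hBB hBC hϖ0 hcap hd₀
    hres 𝔪 h𝔪 hPB u₁ v₁ γ₁ huv₁ hγ₁ hv₁A hv₁C
  -- the vertical prime `P_B`
  have hprime : (s36_cl_van B VB hBB ϖ).IsPrime := by
    refine ⟨fun htop => ?_, fun {a b} hab => ?_⟩
    · have h1 : (1 : B) ∈ s36_cl_van B VB hBB ϖ := by rw [htop]; exact Submodule.mem_top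
      have h2 : ϖ⁻¹ * ((1 : B) : F) ∈ VB := h1
      rw [Subring.coe_one, mul_one] at h2
      exact hB.inv_not_mem h2
    · have h1 : ϖ⁻¹ * ((a : F) * (b : F)) ∈ VB := by
        have h2 : ϖ⁻¹ * ((a * b : B) : F) ∈ VB := hab
        rwa [Subring.coe_mul] at h2
      exact hB.prime (hBB a.2) (hBB b.2) h1
  have hne : s36_cl_van B VB hBB ϖ ≠ ⊥ := by
    intro hbot
    have h1 : (⟨ϖ, hϖB⟩ : B) ∈ s36_cl_van B VB hBB ϖ := by
      show ϖ⁻¹ * ϖ ∈ VB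
      rw [inv_mul_cancel₀ hϖ0]; exact VB.one_mem
    rw [hbot, Ideal.mem_bot] at h1
    exact hϖ0 (congrArg Subtype.val h1)
  have hlt : s36_cl_van B VB hBB ϖ < 𝔪 := by
    refine lt_of_le_of_ne (fun p hp => hPB p hp) (fun heq => hv₁B ?_)
    have h1 : v₁ ∈ s36_cl_van B VB hBB ϖ := by rw [heq]; exact hv₁
    exact h1
  have hzv : ∀ v : B, ϖ⁻¹ * (v : F) ∈ VC → z⁻¹ * (v : F) ∈ VC := by
    intro v hv
    have e : z⁻¹ * (v : F) = (z⁻¹ * ϖ) * (ϖ⁻¹ * (v : F)) := by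
      rw [mul_assoc, mul_inv_cancel_left₀ hϖ0]
    rw [e]
    exact VC.mul_mem hCϖ hv
  exact s36_tu_gloc B hnoeth hfrac hϖB hA hB hC hBA hBB hBC hcap n hzn hCϖ 𝔪 h𝔪 u₁ x hu₁ hx hgen
    (s36_cl_van B VB hBB ϖ) hprime hne hlt hPA hPB hPC ⟨u₂, hu₂A, hu₂B⟩ ⟨u₂, hu₂A, hu₂C⟩
    ⟨u₁, hu₁B, hu₁A⟩ ⟨u₁, hu₁B, hu₁C⟩ ⟨v₂, hzv v₂ hv₂C, hv₂A⟩ ⟨v₁, hzv v₁ hv₁C, hv₁B⟩
    m hm g hgA hgB hgC hdiv

end Core

end Fermat.Agent.S36
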