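/-
S36 (NODE-3) leaf: Chinese remaindering of `p`-th roots along several branches.

In a local ring `R` in which `p` is invertible, `p`-th roots of a fixed element `γ` with a
prescribed unit residue are unique modulo every ideal.  Consequently branchwise `p`-th roots
`r i` of `γ` modulo ideals `P i` (the branches through a multiple point) which have the same
residue glue to one element `r` with `r ≡ r i` modulo `P i` for every `i` -- no transversality
and no first-order compatibility condition has to be checked.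

Mathlib only.
-/
import Mathlib

set_option autoImplicit false

namespace Fermat.Agent.S36

open IsLocalRing

/-- The sum `∑ a^i b^(p-1-i)` is a unit when `a` is a unit, `p` is invertible and `a ≡ b`. -/
theorem s36_crt_geom_unit {R : Type*} [CommRing R] [IsLocalRing R] (p : ℕ)
    (hp : IsUnit (p : R)) (a b : R) (ha : IsUnit a) (hab : a - b ∈ maximalIdeal R) :
    IsUnit (∑ i ∈ Finset.range p, a ^ i * b ^ (p - 1 - i)) := by
  have hres : residue R a = residue R b := by
    have h0 : residue R (a - b) = 0 := (residue_eq_zero_iff (a - b)).2 hab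
    rw [map_sub, sub_eq_zero] at h0
    exact h0
  have hsum : residue R (∑ i ∈ Finset.range p, a ^ i * b ^ (p - 1 - i))
      = residue R ((p : R) * a ^ (p - 1)) := by
    rw [map_sum, map_mul, map_natCast, map_pow]
    have : ∀ i ∈ Finset.range p, residue R (a ^ i * b ^ (p - 1 - i))
        = residue R a ^ (p - 1) := by
      intro i hi
      have hi' : i < p := Finset.mem_range.1 hi
      rw [map_mul, map_pow, map_pow, ← hres, ← pow_add]
      congr 1
      omega
    rw [Finset.sum_congr rfl this, Finset.sum_const, Finset.card_range, nsmul_eq_mul]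
  have hu : IsUnit (residue R (∑ i ∈ Finset.range p, a ^ i * b ^ (p - 1 - i))) := by
    rw [hsum]
    exact (hp.mul (ha.pow _)).map (residue R)
  exact (isUnit_map_iff (residue R) _).1 hu

/-- Two-ideal step: `p`-th roots `a` (mod `I`) and `b` (mod `J`) of `γ` with the same residue
glue to `r` with `r ≡ a` mod `I` and `r ≡ b` mod `J`. -/
theorem s36_crt_root_step {R : Type*} [CommRing R] [IsLocalRing R] (p : ℕ)
    (hp : IsUnit (p : R)) (I J : Ideal R) (γ a b : R) (ha : IsUnit a)
    (hab : a - b ∈ maximalIdeal R) (hI : a ^ p - γ ∈ I) (hJ : b ^ p - γ ∈ J) :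
    ∃ r, r - a ∈ I ∧ r - b ∈ J := by
  obtain ⟨u, hu⟩ := s36_crt_geom_unit p hp a b ha hab
  have hgeom : (u : R) * (a - b) = a ^ p - b ^ p := by
    rw [hu]
    exact (Commute.all a b).geom_sum₂_mul p
  have hsplit : a - b = (↑u⁻¹ : R) * (a ^ p - γ) - ↑u⁻¹ * (b ^ p - γ) := by
    have h1 : a - b = (↑u⁻¹ : R) * ((u : R) * (a - b)) := by
      rw [← mul_assoc, Units.inv_mul, one_mul]
    rw [h1, hgeom]
    ring
  refine ⟨a - ↑u⁻¹ * (a ^ p - γ), ?_, ?_⟩
  · have : a - ↑u⁻¹ * (a ^ p - γ) - a = -(↑u⁻¹ * (a ^ p - γ)) := by ring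
    rw [this]
    exact I.neg_mem (I.mul_mem_left _ hI)
  · have : a - ↑u⁻¹ * (a ^ p - γ) - b = -(↑u⁻¹ * (b ^ p - γ)) := by
      have h2 : a - ↑u⁻¹ * (a ^ p - γ) - b = (a - b) - ↑u⁻¹ * (a ^ p - γ) := by ring
      rw [h2, hsplit]
      ring
    rw [this]
    exact J.neg_mem (J.mul_mem_left _ hJ)

/-- If `r ≡ a` modulo `I` and `a^p ≡ γ` modulo `I` then `r^p ≡ γ` modulo `I`. -/
theorem s36_crt_pow_congr {R : Type*} [CommRing R] (p : ℕ) (I : Ideal R) (γ a r : R)
    (hr : r - a ∈ I) (hI : a ^ p - γ ∈ I) : r ^ p - γ ∈ I := by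
  have h1 : r ^ p - a ^ p ∈ I := by
    obtain ⟨c, hc⟩ := sub_dvd_pow_sub_pow r a p
    rw [hc]
    exact I.mul_mem_right _ hr
  have : r ^ p - γ = (r ^ p - a ^ p) + (a ^ p - γ) := by ring
  rw [this]
  exact I.add_mem h1 hI

/-- **Branchwise `p`-th roots glue.**  `R` local, `p` invertible in `R`, `P i` proper ideals,
`r i` with `(r i)^p ≡ γ` modulo `P i`, all `r i` congruent to one unit `r₀` modulo the maximal
ideal.  Then there is `r ≡ r₀` modulo the maximal ideal with `r ≡ r i` modulo `P i` for all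
`i` in the finite set `s`. -/
theorem s36_crt_root_finset {R : Type*} [CommRing R] [IsLocalRing R] {ι : Type*}
    [DecidableEq ι] (p : ℕ) (hp : IsUnit (p : R)) (P : ι → Ideal R) (γ r₀ : R) (rr : ι → R)
    (hr₀ : IsUnit r₀) (s : Finset ι)
    (hP : ∀ i ∈ s, P i ≤ maximalIdeal R)
    (hres : ∀ i ∈ s, rr i - r₀ ∈ maximalIdeal R)
    (hroot : ∀ i ∈ s, rr i ^ p - γ ∈ P i) :
    ∃ r, r - r₀ ∈ maximalIdeal R ∧ ∀ i ∈ s, r - rr i ∈ P i := by
  induction s using Finset.induction_on with
  | empty => exact ⟨r₀, by simp, by simp⟩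
  | insert j s hj ih =>
    obtain ⟨r', hr'0, hr'⟩ := ih (fun i hi => hP i (Finset.mem_insert_of_mem hi))
      (fun i hi => hres i (Finset.mem_insert_of_mem hi))
      (fun i hi => hroot i (Finset.mem_insert_of_mem hi))
    -- `r'` is a unit
    have hr'u : IsUnit r' := by
      by_contra hnu
      have hm : r' ∈ maximalIdeal R := (mem_maximalIdeal r').2 hnu
      have : r₀ ∈ maximalIdeal R := by
        have h2 : r₀ = r' - (r' - r₀) := by ring
        rw [h2]
        exact (maximalIdeal R).sub_mem hm hr'0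
      exact ((mem_maximalIdeal r₀).1 this) hr₀
    have hj0 : rr j - r₀ ∈ maximalIdeal R := hres j (Finset.mem_insert_self j s)
    have hab : r' - rr j ∈ maximalIdeal R := by
      have h2 : r' - rr j = (r' - r₀) - (rr j - r₀) := by ring
      rw [h2]
      exact (maximalIdeal R).sub_mem hr'0 hj0
    -- `r'^p ≡ γ` modulo the intersection of the `P i`, `i ∈ s`
    have hI : r' ^ p - γ ∈ (⨅ i ∈ s, P i : Ideal R) := by
      simp only [Ideal.mem_iInf]
      intro i hi
      exact s36_crt_pow_congr p (P i) γ (rr i) r' (hr' i hi)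
        (hroot i (Finset.mem_insert_of_mem hi))
    obtain ⟨r, hrI, hrJ⟩ := s36_crt_root_step p hp (⨅ i ∈ s, P i) (P j) γ r' (rr j) hr'u hab hI
      (hroot j (Finset.mem_insert_self j s))
    refine ⟨r, ?_, ?_⟩
    · have h2 : r - r₀ = (r - rr j) + (rr j - r₀) := by ring
      rw [h2]
      exact (maximalIdeal R).add_mem (hP j (Finset.mem_insert_self j s) hrJ) hj0
    · intro i hi
      rcases Finset.mem_insert.1 hi with rfl | hi'
      · exact hrJ
      · have h3 : r - r' ∈ P i := by
          simp only [Ideal.mem_iInf] at hrI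
          exact hrI i hi'
        have h2 : r - rr i = (r - r') + (r' - rr i) := by ring
        rw [h2]
        exact (P i).add_mem h3 (hr' i hi')

/-- **Three-branch form** (the triple point): three ideals `PA PB PC`, branchwise `p`-th roots
`rA rB rC` of `γ` with a common unit residue.  Then one `r` with `r ≡ rX` modulo `PX`. -/
theorem s36_crt_root_three {R : Type*} [CommRing R] [IsLocalRing R] (p : ℕ)
    (hp : IsUnit (p : R)) (PA PB PC : Ideal R) (γ rA rB rC : R) (hrA : IsUnit rA)
    (hPB : PB ≤ maximalIdeal R) (hPC : PC ≤ maximalIdeal R)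
    (hAB : rA - rB ∈ maximalIdeal R) (hAC : rA - rC ∈ maximalIdeal R)
    (hA : rA ^ p - γ ∈ PA) (hB : rB ^ p - γ ∈ PB) (hC : rC ^ p - γ ∈ PC) :
    ∃ r, r - rA ∈ PA ∧ r - rB ∈ PB ∧ r - rC ∈ PC ∧ r - rA ∈ maximalIdeal R := by
  obtain ⟨r₁, h1A, h1B⟩ := s36_crt_root_step p hp PA PB γ rA rB hrA hAB hA hB
  have h1m : r₁ - rA ∈ maximalIdeal R := by
    have h2 : r₁ - rA = (r₁ - rB) - (rA - rB) := by ring
    rw [h2]
    exact (maximalIdeal R).sub_mem (hPB h1B) hAB
  have hr₁u : IsUnit r₁ := by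
    by_contra hnu
    have hm : r₁ ∈ maximalIdeal R := (mem_maximalIdeal r₁).2 hnu
    have : rA ∈ maximalIdeal R := by
      have h2 : rA = r₁ - (r₁ - rA) := by ring
      rw [h2]
      exact (maximalIdeal R).sub_mem hm h1m
    exact ((mem_maximalIdeal rA).1 this) hrA
  have h1C : r₁ - rC ∈ maximalIdeal R := by
    have h2 : r₁ - rC = (r₁ - rA) + (rA - rC) := by ring
    rw [h2]
    exact (maximalIdeal R).add_mem h1m hAC
  have hI : r₁ ^ p - γ ∈ PA ⊓ PB :=
    ⟨s36_crt_pow_congr p PA γ rA r₁ h1A hA, s36_crt_pow_congr p PB γ rB r₁ h1B hB⟩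
  obtain ⟨r, hrI, hrC⟩ := s36_crt_root_step p hp (PA ⊓ PB) PC γ r₁ rC hr₁u h1C hI hC
  refine ⟨r, ?_, ?_, hrC, ?_⟩
  · have h2 : r - rA = (r - r₁) + (r₁ - rA) := by ring
    rw [h2]
    exact PA.add_mem hrI.1 h1A
  · have h2 : r - rB = (r - r₁) + (r₁ - rB) := by ring
    rw [h2]
    exact PB.add_mem hrI.2 h1B
  · have h2 : r - rA = (r - rC) - (rA - rC) := by ring
    rw [h2]
    exact (maximalIdeal R).sub_mem (hPC hrC) hAC

/-- In a local ring, an element congruent to a unit modulo the maximal ideal is a unit. -/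
theorem s36_crt_unit_of_congr {R : Type*} [CommRing R] [IsLocalRing R] (a r : R)
    (ha : IsUnit a) (h : r - a ∈ maximalIdeal R) : IsUnit r := by
  by_contra hnu
  have hm : r ∈ maximalIdeal R := (mem_maximalIdeal r).2 hnu
  have : a ∈ maximalIdeal R := by
    have h2 : a = r - (r - a) := by ring
    rw [h2]
    exact (maximalIdeal R).sub_mem hm h
  exact ((mem_maximalIdeal a).1 this) ha

/-- **Three-branch form, divisibility shape** (claim 1246): `uA uB uC` non-units of the local
ring `R` (only `uB`, `uC` need to be non-units), `p` invertible, `rA` a unit, `uX ∣ rX^p - γ`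
and `rA ≡ rB ≡ rC` modulo the maximal ideal.  Then there is a UNIT `r` with `uX ∣ r - rX` for
all three branches. -/
theorem s36_crt_root_three_dvd {R : Type*} [CommRing R] [IsLocalRing R] (p : ℕ)
    (hp : IsUnit (p : R)) (uA uB uC γ rA rB rC : R) (hrA : IsUnit rA)
    (huB : uB ∈ maximalIdeal R) (huC : uC ∈ maximalIdeal R)
    (hAB : rA - rB ∈ maximalIdeal R) (hAC : rA - rC ∈ maximalIdeal R)
    (hA : uA ∣ rA ^ p - γ) (hB : uB ∣ rB ^ p - γ) (hC : uC ∣ rC ^ p - γ) :
    ∃ r, IsUnit r ∧ uA ∣ r - rA ∧ uB ∣ r - rB ∧ uC ∣ r - rC ∧ r - rA ∈ maximalIdeal R := by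
  obtain ⟨r, h1, h2, h3, h4⟩ := s36_crt_root_three p hp (Ideal.span {uA}) (Ideal.span {uB})
    (Ideal.span {uC}) γ rA rB rC hrA
    ((Ideal.span_singleton_le_iff_mem _).2 huB) ((Ideal.span_singleton_le_iff_mem _).2 huC)
    hAB hAC (Ideal.mem_span_singleton.2 hA) (Ideal.mem_span_singleton.2 hB)
    (Ideal.mem_span_singleton.2 hC)
  exact ⟨r, s36_crt_unit_of_congr rA r hrA h4, Ideal.mem_span_singleton.1 h1,
    Ideal.mem_span_singleton.1 h2, Ideal.mem_span_singleton.1 h3, h4⟩

end Fermat.Agent.S36
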