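import Mathlib

/-!
# S36 (NODE-3): the triple points of the level-`q²` model are regular (abstract form of (T))

Mathlib-only commutative algebra.  `R` is a noetherian local ring whose maximal ideal is
generated by `q, x, y1, y2` (think: `x = j(z) - a`, `y1 = j(qz) - b`, `y2 = j(q²z) - a` at a
supersingular point, `a ≡ b ^ q`, `b ≡ a ^ q`).  Write `A(T) = (a + T) ^ q - (b + y1)` and
`B(T) = (a + T) - (b + y1) ^ q`, so that the Kronecker congruence reads
`Φ_q(a + T, b + y1) = A(T) * B(T) + q * Γ(T)`.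

* `s36_tp_main`: from the level-`q` relation `A(x) * B(x) + q * u = 0` with `u` a unit
  (thickness one) and the divided-difference relation
  `S * B(y2) + A(x) + q * g = 0`, `S = ∑ i < q, (a + y2) ^ i * (a + x) ^ (q - 1 - i)`,
  the maximal ideal is generated by `x` and `y2`.
* `s36_tp_rel`: in a domain the divided-difference relation follows from the two relations
  `A(x) * B(x) + q * P(x) = 0`, `A(y2) * B(y2) + q * P(y2) = 0` and `y2 ≠ x`.
* `s36_tp_param`: the combination.
* `s36_tp_levelq`: the level-`q` statement: `m = (q, x, y1)` and the level-`q` relation with a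
  unit give `m = (x, y1)`.
-/

set_option autoImplicit false

namespace Fermat.Agent.S36

open IsLocalRing

/-- `∑ i < q, X ^ i * Y ^ (q - 1 - i) ∈ m` when `q ∈ m` and `X ≡ Y mod m`. -/
theorem s36_tp_geom {R : Type*} [CommRing R] (m : Ideal R) (q : ℕ) (hq : (q : R) ∈ m)
    (X Y : R) (hXY : X - Y ∈ m) :
    ∑ i ∈ Finset.range q, X ^ i * Y ^ (q - 1 - i) ∈ m := by
  rw [← Ideal.Quotient.eq_zero_iff_mem, map_sum]
  have h1 : Ideal.Quotient.mk m X = Ideal.Quotient.mk m Y := Ideal.Quotient.eq.mpr hXY
  have h2 : ((q : R ⧸ m)) = 0 := by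
    rw [← map_natCast (Ideal.Quotient.mk m)]
    exact Ideal.Quotient.eq_zero_iff_mem.mpr hq
  simp only [map_mul, map_pow, h1]
  rw [geom_sum₂_self, h2, zero_mul]

/-- `(c + z) ^ q - c ^ q ∈ m * m` when `q, z ∈ m`. -/
theorem s36_tp_pow {R : Type*} [CommRing R] (m : Ideal R) (q : ℕ) (hq : (q : R) ∈ m)
    (c z : R) (hz : z ∈ m) : (c + z) ^ q - c ^ q ∈ m * m := by
  have h1 := geom_sum₂_mul (c + z) c q
  have h2 : c + z - c = z := by ring
  rw [← h1, h2]
  exact Ideal.mul_mem_mul (s36_tp_geom m q hq _ _ (by rw [h2]; exact hz)) hz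

/-- **Triple points are regular.**  See the module docstring. -/
theorem s36_tp_main {R : Type*} [CommRing R] [IsLocalRing R] [IsNoetherianRing R] (q : ℕ)
    (a b x y1 y2 g u : R)
    (hgen : maximalIdeal R = Ideal.span {(q : R), x, y1, y2})
    (hab : a ^ q - b ∈ Ideal.span {(q : R)}) (hba : a - b ^ q ∈ maximalIdeal R)
    (hu : IsUnit u)
    (hF : ((a + x) ^ q - (b + y1)) * ((a + x) - (b + y1) ^ q) + q * u = 0)
    (hG : (∑ i ∈ Finset.range q, (a + y2) ^ i * (a + x) ^ (q - 1 - i))
          * ((a + y2) - (b + y1) ^ q) + ((a + x) ^ q - (b + y1)) + q * g = 0) :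
    maximalIdeal R = Ideal.span {x, y2} := by
  have hqm : (q : R) ∈ maximalIdeal R := by
    rw [hgen]; exact Ideal.subset_span (by simp)
  have hxm : x ∈ maximalIdeal R := by
    rw [hgen]; exact Ideal.subset_span (by simp)
  have hy1m : y1 ∈ maximalIdeal R := by
    rw [hgen]; exact Ideal.subset_span (by simp)
  have hy2m : y2 ∈ maximalIdeal R := by
    rw [hgen]; exact Ideal.subset_span (by simp)
  have habm : a ^ q - b ∈ maximalIdeal R :=
    (Ideal.span_singleton_le_iff_mem (I := maximalIdeal R)).mpr hqm hab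
  have hpow1 : ∀ c z : R, z ∈ maximalIdeal R → (c + z) ^ q - c ^ q ∈ maximalIdeal R :=
    fun c z hz => Ideal.mul_le_left (s36_tp_pow _ q hqm c z hz)
  have hA : (a + x) ^ q - (b + y1) ∈ maximalIdeal R := by
    have e : (a + x) ^ q - (b + y1) = ((a + x) ^ q - a ^ q) + (a ^ q - b) - y1 := by ring
    rw [e]
    exact Ideal.sub_mem _ (Ideal.add_mem _ (hpow1 a x hxm) habm) hy1m
  have hB : ∀ z ∈ maximalIdeal R, (a + z) - (b + y1) ^ q ∈ maximalIdeal R := by
    intro z hz
    have e : (a + z) - (b + y1) ^ q = (a - b ^ q) + z - ((b + y1) ^ q - b ^ q) := by ring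
    rw [e]
    exact Ideal.sub_mem _ (Ideal.add_mem _ hba hz) (hpow1 b y1 hy1m)
  have hq2 : (q : R) ∈ maximalIdeal R * maximalIdeal R := by
    have h1 : (q : R) * u ∈ maximalIdeal R * maximalIdeal R := by
      have e : (q : R) * u = -(((a + x) ^ q - (b + y1)) * ((a + x) - (b + y1) ^ q)) := by
        linear_combination hF
      rw [e]
      exact neg_mem (Ideal.mul_mem_mul hA (hB x hxm))
    obtain ⟨v, hv⟩ := hu.exists_right_inv
    have e : (q : R) = (q : R) * u * v := by rw [mul_assoc, hv, mul_one]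
    rw [e]
    exact Ideal.mul_mem_right _ _ h1
  have hS : ∑ i ∈ Finset.range q, (a + y2) ^ i * (a + x) ^ (q - 1 - i) ∈ maximalIdeal R := by
    refine s36_tp_geom _ q hqm _ _ ?_
    have e : a + y2 - (a + x) = y2 - x := by ring
    rw [e]
    exact Ideal.sub_mem _ hy2m hxm
  have hA2 : (a + x) ^ q - (b + y1) ∈ maximalIdeal R * maximalIdeal R := by
    have e : (a + x) ^ q - (b + y1)
        = -((∑ i ∈ Finset.range q, (a + y2) ^ i * (a + x) ^ (q - 1 - i))
            * ((a + y2) - (b + y1) ^ q)) - q * g := by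
      linear_combination hG
    rw [e]
    exact Ideal.sub_mem _ (neg_mem (Ideal.mul_mem_mul hS (hB y2 hy2m)))
      (Ideal.mul_mem_right _ _ hq2)
  have hy1' : y1 ∈ maximalIdeal R * maximalIdeal R := by
    have e : y1 = ((a + x) ^ q - a ^ q) + (a ^ q - b) - ((a + x) ^ q - (b + y1)) := by ring
    rw [e]
    refine Ideal.sub_mem _ (Ideal.add_mem _ (s36_tp_pow _ q hqm a x hxm) ?_) hA2
    exact (Ideal.span_singleton_le_iff_mem
      (I := maximalIdeal R * maximalIdeal R)).mpr hq2 hab
  apply le_antisymm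
  · have hle : maximalIdeal R ≤ Ideal.span {x, y2} ⊔ maximalIdeal R • maximalIdeal R := by
      rw [smul_eq_mul]
      conv_lhs => rw [hgen]
      rw [Ideal.span_le]
      intro z hz
      simp only [Set.mem_insert_iff, Set.mem_singleton_iff] at hz
      rcases hz with rfl | rfl | rfl | rfl
      · exact Ideal.mem_sup_right hq2
      · exact Ideal.mem_sup_left (Ideal.subset_span (by simp))
      · exact Ideal.mem_sup_right hy1'
      · exact Ideal.mem_sup_left (Ideal.subset_span (by simp))
    exact Submodule.le_of_le_smul_of_le_jacobson_bot (IsNoetherian.noetherian _)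
      (IsLocalRing.maximalIdeal_le_jacobson _) hle
  · rw [Ideal.span_le]
    intro z hz
    simp only [Set.mem_insert_iff, Set.mem_singleton_iff] at hz
    rcases hz with rfl | rfl
    · exact hxm
    · exact hy2m

/-- The divided-difference relation from the two Kronecker relations, in a domain. -/
theorem s36_tp_rel {R : Type*} [CommRing R] [IsDomain R] (q : ℕ) (a b x y1 y2 : R)
    (P : Polynomial R) (hne : y2 ≠ x)
    (hFx : ((a + x) ^ q - (b + y1)) * ((a + x) - (b + y1) ^ q) + q * P.eval x = 0)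
    (hFy : ((a + y2) ^ q - (b + y1)) * ((a + y2) - (b + y1) ^ q) + q * P.eval y2 = 0) :
    ∃ g : R, (∑ i ∈ Finset.range q, (a + y2) ^ i * (a + x) ^ (q - 1 - i))
          * ((a + y2) - (b + y1) ^ q) + ((a + x) ^ q - (b + y1)) + q * g = 0 := by
  obtain ⟨g, hg⟩ := Polynomial.sub_dvd_eval_sub y2 x P
  refine ⟨g, ?_⟩
  have hS := geom_sum₂_mul (a + y2) (a + x) q
  have hne' : y2 - x ≠ 0 := sub_ne_zero.mpr hne
  apply mul_left_cancel₀ hne'
  rw [mul_zero]
  linear_combination hFy - hFx + ((a + y2) - (b + y1) ^ q) * hS - (q : R) * hg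

/-- **Triple points are regular**, combined form: two roots `x ≠ y2` of the Kronecker relation
in a noetherian local domain with `m = (q, x, y1, y2)` and thickness one. -/
theorem s36_tp_param {R : Type*} [CommRing R] [IsDomain R] [IsLocalRing R] [IsNoetherianRing R]
    (q : ℕ) (a b x y1 y2 : R) (P : Polynomial R)
    (hgen : maximalIdeal R = Ideal.span {(q : R), x, y1, y2})
    (hab : a ^ q - b ∈ Ideal.span {(q : R)}) (hba : a - b ^ q ∈ maximalIdeal R)
    (hu : IsUnit (P.eval x)) (hne : y2 ≠ x)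
    (hFx : ((a + x) ^ q - (b + y1)) * ((a + x) - (b + y1) ^ q) + q * P.eval x = 0)
    (hFy : ((a + y2) ^ q - (b + y1)) * ((a + y2) - (b + y1) ^ q) + q * P.eval y2 = 0) :
    maximalIdeal R = Ideal.span {x, y2} := by
  obtain ⟨g, hg⟩ := s36_tp_rel q a b x y1 y2 P hne hFx hFy
  exact s36_tp_main q a b x y1 y2 g (P.eval x) hgen hab hba hu hFx hg

/-- The level-`q` statement: thickness one makes `(x, y1)` a system of parameters. -/
theorem s36_tp_levelq {R : Type*} [CommRing R] [IsLocalRing R] [IsNoetherianRing R] (q : ℕ)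
    (a b x y1 u : R)
    (hgen : maximalIdeal R = Ideal.span {(q : R), x, y1})
    (hab : a ^ q - b ∈ maximalIdeal R) (hba : a - b ^ q ∈ maximalIdeal R)
    (hu : IsUnit u)
    (hF : ((a + x) ^ q - (b + y1)) * ((a + x) - (b + y1) ^ q) + q * u = 0) :
    maximalIdeal R = Ideal.span {x, y1} := by
  have hqm : (q : R) ∈ maximalIdeal R := by
    rw [hgen]; exact Ideal.subset_span (by simp)
  have hxm : x ∈ maximalIdeal R := by
    rw [hgen]; exact Ideal.subset_span (by simp)
  have hy1m : y1 ∈ maximalIdeal R := by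
    rw [hgen]; exact Ideal.subset_span (by simp)
  have hpow1 : ∀ c z : R, z ∈ maximalIdeal R → (c + z) ^ q - c ^ q ∈ maximalIdeal R :=
    fun c z hz => Ideal.mul_le_left (s36_tp_pow _ q hqm c z hz)
  have hA : (a + x) ^ q - (b + y1) ∈ maximalIdeal R := by
    have e : (a + x) ^ q - (b + y1) = ((a + x) ^ q - a ^ q) + (a ^ q - b) - y1 := by ring
    rw [e]
    exact Ideal.sub_mem _ (Ideal.add_mem _ (hpow1 a x hxm) hab) hy1m
  have hB : (a + x) - (b + y1) ^ q ∈ maximalIdeal R := by
    have e : (a + x) - (b + y1) ^ q = (a - b ^ q) + x - ((b + y1) ^ q - b ^ q) := by ring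
    rw [e]
    exact Ideal.sub_mem _ (Ideal.add_mem _ hba hxm) (hpow1 b y1 hy1m)
  have hq2 : (q : R) ∈ maximalIdeal R * maximalIdeal R := by
    have h1 : (q : R) * u ∈ maximalIdeal R * maximalIdeal R := by
      have e : (q : R) * u = -(((a + x) ^ q - (b + y1)) * ((a + x) - (b + y1) ^ q)) := by
        linear_combination hF
      rw [e]
      exact neg_mem (Ideal.mul_mem_mul hA hB)
    obtain ⟨v, hv⟩ := hu.exists_right_inv
    have e : (q : R) = (q : R) * u * v := by rw [mul_assoc, hv, mul_one]
    rw [e]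
    exact Ideal.mul_mem_right _ _ h1
  apply le_antisymm
  · have hle : maximalIdeal R ≤ Ideal.span {x, y1} ⊔ maximalIdeal R • maximalIdeal R := by
      rw [smul_eq_mul]
      conv_lhs => rw [hgen]
      rw [Ideal.span_le]
      intro z hz
      simp only [Set.mem_insert_iff, Set.mem_singleton_iff] at hz
      rcases hz with rfl | rfl | rfl
      · exact Ideal.mem_sup_right hq2
      · exact Ideal.mem_sup_left (Ideal.subset_span (by simp))
      · exact Ideal.mem_sup_left (Ideal.subset_span (by simp))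
    exact Submodule.le_of_le_smul_of_le_jacobson_bot (IsNoetherian.noetherian _)
      (IsLocalRing.maximalIdeal_le_jacobson _) hle
  · rw [Ideal.span_le]
    intro z hz
    simp only [Set.mem_insert_iff, Set.mem_singleton_iff] at hz
    rcases hz with rfl | rfl
    · exact hxm
    · exact hy1m

end Fermat.Agent.S36
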