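import Mathlib
import Fermat.Agent.S36.TriplePt
import Fermat.Agent.S36.TripleFact

/-!
# S36 (NODE-3): the chart at a crossing / triple point (abstract commutative algebra)

Pure commutative algebra in the `Subring F` language of the chart stack.

* `s36_tch_pow_mem` : from the Kronecker relation
  `((a + y) ^ q - (b + w)) * ((a + y) - (b + w) ^ q) + q * e = 0` with `q, w, a ^ q - b, a - b ^ q`
  in an ideal `I`, one gets `y ^ (q + 1) ∈ I`.
* `s36_tch_local_core` : a one-generator integral extension `S = R[y]` of a local ring `R` with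
  `y ^ n ∈ 𝔪_R S` is local with maximal ideal `𝔪_R S + (y)`.
* `s36_tch_adj R y` : the subring `R[y]` of the field `F`;  `s36_tch_step_local`,
  `s36_tch_step_noeth`, `s36_tch_step_max` : it is local, noetherian, with maximal ideal
  `𝔪_R R[y] + (y)` when `y` is a Kronecker root over `R`.
* `s36_tch_levelq` : `𝔪_R = (q, x)`, thickness one ⟹ `𝔪_{R[y1]} = (x, y1)`.
* `s36_tch_levelq2` : `𝔪_R = (x, y1)`, thickness one ⟹ `𝔪_{R[y2]} = (x, y2)`.
* `s36_tch_intClosed` : a local noetherian subring with two-generated maximal ideal, of dimension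
  two (witnessed by a valuation ring), with fraction field `F`, is integrally closed in `F`.
* `s36_tch_loc` : if `B ⊆ R0 ⊆ B_𝔪` and `𝔪_{R0} = (x, y)` then `𝔪` is locally generated by `x, y`
  (the `hgen` of `s36_tf_hG`, the `reg` shape of `s18_Chart`).
* `s36_tch_triple` : the chain at level `q²`.
-/

set_option autoImplicit false

namespace Fermat.Agent.S36

open IsLocalRing Fermat.Agent.S18

/-- The Kronecker relation forces `y ^ (q + 1)` into the ideal. -/
theorem s36_tch_pow_mem {S : Type*} [CommRing S] (I : Ideal S) (q : ℕ) (hq : q.Prime)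
    (hqI : (q : S) ∈ I) (a b w y e : S) (hw : w ∈ I) (hab : a ^ q - b ∈ I)
    (hba : a - b ^ q ∈ I)
    (hrel : ((a + y) ^ q - (b + w)) * ((a + y) - (b + w) ^ q) + q * e = 0) :
    y ^ (q + 1) ∈ I := by
  obtain ⟨r, hr⟩ := exists_add_pow_prime_eq hq a y
  obtain ⟨c, hc⟩ := sub_dvd_pow_sub_pow (b + w) b q
  have hi1 : (a ^ q - b) - w + q * a * y * r ∈ I :=
    I.add_mem (I.sub_mem hab hw)
      (by
        have e1 : (q : S) * a * y * r = (a * y * r) * q := by ring
        rw [e1]; exact I.mul_mem_left _ hqI)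
  have hi2 : (a - b ^ q) - w * c ∈ I := I.sub_mem hba (I.mul_mem_right _ hw)
  have hA : (a + y) ^ q - (b + w) = y ^ q + ((a ^ q - b) - w + q * a * y * r) := by
    rw [hr]; ring
  have hB : (a + y) - (b + w) ^ q = y + ((a - b ^ q) - w * c) := by
    have h1 : (b + w) ^ q = b ^ q + w * c := by linear_combination hc
    rw [h1]; ring
  rw [hA, hB] at hrel
  have key : y ^ (q + 1) = -(y ^ q * ((a - b ^ q) - w * c)
      + ((a ^ q - b) - w + q * a * y * r) * (y + ((a - b ^ q) - w * c)) + q * e) := by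
    linear_combination hrel
  rw [key]
  refine neg_mem (I.add_mem (I.add_mem (I.mul_mem_left _ hi2) (I.mul_mem_right _ hi1)) ?_)
  exact I.mul_mem_right _ hqI

/-- A one-generator integral extension `S = R + S y` of a local ring with `y ^ n ∈ 𝔪_R S` has
the unique maximal ideal `𝔪_R S + (y)`. -/
theorem s36_tch_local_core {R S : Type*} [CommRing R] [CommRing S] [Algebra R S] [IsLocalRing R]
    [Nontrivial S] [Algebra.IsIntegral R S] (y : S)
    (hgen : ∀ s : S, ∃ r : R, ∃ s' : S, s = algebraMap R S r + s' * y)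
    (n : ℕ) (hy : y ^ n ∈ (maximalIdeal R).map (algebraMap R S)) :
    ((maximalIdeal R).map (algebraMap R S) ⊔ Ideal.span {y}).IsMaximal ∧
    ∀ M : Ideal S, M.IsMaximal →
      M = (maximalIdeal R).map (algebraMap R S) ⊔ Ideal.span {y} := by
  have hle : ∀ M : Ideal S, M.IsMaximal →
      (maximalIdeal R).map (algebraMap R S) ⊔ Ideal.span {y} ≤ M := by
    intro M hM
    have h1 : (M.comap (algebraMap R S)).IsMaximal :=
      Ideal.isMaximal_comap_of_isIntegral_of_isMaximal M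
    have h2 : M.comap (algebraMap R S) = maximalIdeal R := IsLocalRing.eq_maximalIdeal h1
    have h3 : (maximalIdeal R).map (algebraMap R S) ≤ M := by
      rw [Ideal.map_le_iff_le_comap, h2]
    refine sup_le h3 ?_
    rw [Ideal.span_singleton_le_iff_mem]
    exact hM.isPrime.mem_of_pow_mem n (h3 hy)
  obtain ⟨M0, hM0⟩ := Ideal.exists_maximal S
  have h1 : (1 : S) ∉ (maximalIdeal R).map (algebraMap R S) ⊔ Ideal.span {y} :=
    fun h => hM0.ne_top ((Ideal.eq_top_iff_one _).mpr (hle M0 hM0 h))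
  have hImax : ((maximalIdeal R).map (algebraMap R S) ⊔ Ideal.span {y}).IsMaximal := by
    rw [Ideal.isMaximal_iff]
    refine ⟨h1, fun J x hIJ hxI hxJ => ?_⟩
    obtain ⟨r, s', rfl⟩ := hgen x
    have hs'y : s' * y ∈ (maximalIdeal R).map (algebraMap R S) ⊔ Ideal.span {y} :=
      Ideal.mem_sup_right (Ideal.mul_mem_left _ _ (Ideal.mem_span_singleton_self y))
    have hr : r ∉ maximalIdeal R := by
      intro hr
      exact hxI (Ideal.add_mem _ (Ideal.mem_sup_left (Ideal.mem_map_of_mem _ hr)) hs'y)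
    have hru : IsUnit r := IsLocalRing.notMem_maximalIdeal.mp hr
    have hrJ : algebraMap R S r ∈ J := by
      have h := J.sub_mem hxJ (hIJ hs'y)
      simpa using h
    exact (Ideal.eq_top_iff_one J).mp (Ideal.eq_top_of_isUnit_mem J hrJ (hru.map _))
  exact ⟨hImax, fun M hM => (hImax.eq_of_le hM.ne_top (hle M hM)).symm⟩

variable {F : Type*} [Field F]

/-- The subring `R[y]` of `F`. -/
def s36_tch_adj (R : Subring F) (y : F) : Subring F :=
  (Algebra.adjoin R ({y} : Set F)).toSubring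

theorem s36_tch_mem_adj (R : Subring F) (y z : F) :
    z ∈ s36_tch_adj R y ↔ z ∈ Algebra.adjoin R ({y} : Set F) := Iff.rfl

theorem s36_tch_le (R : Subring F) (y : F) : R ≤ s36_tch_adj R y := by
  intro r hr
  exact (Algebra.adjoin R ({y} : Set F)).algebraMap_mem ⟨r, hr⟩

theorem s36_tch_self_mem (R : Subring F) (y : F) : y ∈ s36_tch_adj R y :=
  Algebra.subset_adjoin (Set.mem_singleton y)

/-- Every element of `R[y]` is `r + s' y`. -/
theorem s36_tch_adj_decomp (R : Subring F) (y : F) (s : F) (hs : s ∈ s36_tch_adj R y) :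
    ∃ r ∈ R, ∃ s' ∈ s36_tch_adj R y, s = r + s' * y := by
  rw [s36_tch_mem_adj] at hs
  induction hs using Algebra.adjoin_induction with
  | mem x hx =>
    rw [Set.mem_singleton_iff] at hx
    subst hx
    exact ⟨0, R.zero_mem, 1, (s36_tch_adj R x).one_mem, by ring⟩
  | algebraMap r =>
    exact ⟨r, r.2, 0, (s36_tch_adj R y).zero_mem, by
      rw [zero_mul, add_zero]; rfl⟩
  | add x z _ _ hx hz =>
    obtain ⟨r1, hr1, s1, hs1, rfl⟩ := hx
    obtain ⟨r2, hr2, s2, hs2, rfl⟩ := hz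
    exact ⟨r1 + r2, R.add_mem hr1 hr2, s1 + s2, (s36_tch_adj R y).add_mem hs1 hs2, by ring⟩
  | mul x z _ _ hx hz =>
    obtain ⟨r1, hr1, s1, hs1, rfl⟩ := hx
    obtain ⟨r2, hr2, s2, hs2, rfl⟩ := hz
    refine ⟨r1 * r2, R.mul_mem hr1 hr2, r1 * s2 + s1 * r2 + s1 * s2 * y, ?_, by ring⟩
    have h1 : r1 ∈ s36_tch_adj R y := s36_tch_le R y hr1
    have h2 : r2 ∈ s36_tch_adj R y := s36_tch_le R y hr2
    exact (s36_tch_adj R y).add_mem
      ((s36_tch_adj R y).add_mem ((s36_tch_adj R y).mul_mem h1 hs2)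
        ((s36_tch_adj R y).mul_mem hs1 h2))
      ((s36_tch_adj R y).mul_mem ((s36_tch_adj R y).mul_mem hs1 hs2) (s36_tch_self_mem R y))

/-- `R[y]` is noetherian when `R` is. -/
theorem s36_tch_step_noeth (R : Subring F) [IsNoetherianRing R] (y : F) :
    IsNoetherianRing (s36_tch_adj R y) := by
  have hfg : (Algebra.adjoin R ({y} : Set F)).FG := ⟨{y}, by simp⟩
  have hft : Algebra.FiniteType R (Algebra.adjoin R ({y} : Set F)) :=
    (Subalgebra.fg_iff_finiteType _).mp hfg
  have hn : IsNoetherianRing (Algebra.adjoin R ({y} : Set F)) :=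
    Algebra.FiniteType.isNoetherianRing R _
  let e : (Algebra.adjoin R ({y} : Set F)) ≃+* (s36_tch_adj R y) :=
    { toFun := fun z => ⟨z.1, z.2⟩
      invFun := fun z => ⟨z.1, z.2⟩
      left_inv := fun _ => rfl
      right_inv := fun _ => rfl
      map_mul' := fun _ _ => rfl
      map_add' := fun _ _ => rfl }
  exact isNoetherianRing_of_ringEquiv _ e

/-- Elements of `R[y]` are integral over `R` when `y` is. -/
theorem s36_tch_isIntegral_adj (R : Subring F) (y : F) (hy : IsIntegral R y) (z : F)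
    (hz : z ∈ s36_tch_adj R y) : IsIntegral R z := by
  have h1 : Algebra.adjoin R ({y} : Set F) ≤ integralClosure R F := by
    rw [Algebra.adjoin_le_iff]
    intro x hx
    rw [Set.mem_singleton_iff] at hx
    rw [hx]
    exact hy
  exact h1 hz

/-- Integrality over a smaller subring passes to a larger one. -/
theorem s36_tch_isIntegral_mono {R R' : Subring F} (h : R ≤ R') (z : F) (hz : IsIntegral R z) :
    IsIntegral R' z := by
  obtain ⟨p, hp, hpz⟩ := hz
  refine ⟨p.map (Subring.inclusion h), hp.map _, ?_⟩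
  rw [Polynomial.eval₂_map]
  exact hpz

/-- **The step.**  `R` local, `y` an integral Kronecker root over `R`: the ideal
`𝔪_R R[y] + (y)` is the unique maximal ideal of `R[y]`. -/
theorem s36_tch_step_core (R : Subring F) [IsLocalRing R] (q : ℕ) (hq : q.Prime)
    (hqm : (q : R) ∈ maximalIdeal R) (a b w : R) (hw : w ∈ maximalIdeal R)
    (hab : a ^ q - b ∈ maximalIdeal R) (hba : a - b ^ q ∈ maximalIdeal R)
    (y : F) (hyint : IsIntegral R y) (e : F) (he : e ∈ s36_tch_adj R y)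
    (hrel : (((a : F) + y) ^ q - ((b : F) + w)) * (((a : F) + y) - ((b : F) + w) ^ q)
      + q * e = 0) :
    ((maximalIdeal R).map (Subring.inclusion (s36_tch_le R y))
        ⊔ Ideal.span {(⟨y, s36_tch_self_mem R y⟩ : s36_tch_adj R y)}).IsMaximal ∧
    ∀ M : Ideal (s36_tch_adj R y), M.IsMaximal →
      M = (maximalIdeal R).map (Subring.inclusion (s36_tch_le R y))
        ⊔ Ideal.span {(⟨y, s36_tch_self_mem R y⟩ : s36_tch_adj R y)} := by
  let _ : Algebra R (s36_tch_adj R y) := (Subring.inclusion (s36_tch_le R y)).toAlgebra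
  have halg : algebraMap R (s36_tch_adj R y) = Subring.inclusion (s36_tch_le R y) := rfl
  have : Algebra.IsIntegral R (s36_tch_adj R y) := by
    refine ⟨fun z => ?_⟩
    obtain ⟨p, hp, hpz⟩ := s36_tch_isIntegral_adj R y hyint z.1 z.2
    refine ⟨p, hp, ?_⟩
    apply Subtype.ext
    have h := Polynomial.hom_eval₂ p (algebraMap R (s36_tch_adj R y))
      (s36_tch_adj R y).subtype z
    rw [Subring.coe_zero]
    exact h.trans hpz
  have hgen : ∀ s : s36_tch_adj R y, ∃ r : R, ∃ s' : s36_tch_adj R y,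
      s = algebraMap R (s36_tch_adj R y) r + s' * ⟨y, s36_tch_self_mem R y⟩ := by
    intro s
    obtain ⟨r, hr, s', hs', hss⟩ := s36_tch_adj_decomp R y s.1 s.2
    exact ⟨⟨r, hr⟩, ⟨s', hs'⟩, Subtype.ext hss⟩
  have hpow : (⟨y, s36_tch_self_mem R y⟩ : s36_tch_adj R y) ^ (q + 1)
      ∈ (maximalIdeal R).map (algebraMap R (s36_tch_adj R y)) := by
    refine s36_tch_pow_mem _ q hq ?_ (algebraMap R (s36_tch_adj R y) a)
      (algebraMap R (s36_tch_adj R y) b) (algebraMap R (s36_tch_adj R y) w) _ ⟨e, he⟩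
      (Ideal.mem_map_of_mem _ hw) ?_ ?_ ?_
    · have h := Ideal.mem_map_of_mem (algebraMap R (s36_tch_adj R y)) hqm
      rwa [map_natCast] at h
    · have h := Ideal.mem_map_of_mem (algebraMap R (s36_tch_adj R y)) hab
      rwa [map_sub, map_pow] at h
    · have h := Ideal.mem_map_of_mem (algebraMap R (s36_tch_adj R y)) hba
      rwa [map_sub, map_pow] at h
    · apply Subtype.ext
      exact hrel
  exact s36_tch_local_core (R := R) (S := s36_tch_adj R y) ⟨y, s36_tch_self_mem R y⟩ hgen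
    (q + 1) hpow

/-- `R[y]` is local. -/
theorem s36_tch_step_local (R : Subring F) [IsLocalRing R] (q : ℕ) (hq : q.Prime)
    (hqm : (q : R) ∈ maximalIdeal R) (a b w : R) (hw : w ∈ maximalIdeal R)
    (hab : a ^ q - b ∈ maximalIdeal R) (hba : a - b ^ q ∈ maximalIdeal R)
    (y : F) (hyint : IsIntegral R y) (e : F) (he : e ∈ s36_tch_adj R y)
    (hrel : (((a : F) + y) ^ q - ((b : F) + w)) * (((a : F) + y) - ((b : F) + w) ^ q)
      + q * e = 0) :
    IsLocalRing (s36_tch_adj R y) := by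
  obtain ⟨h1, h2⟩ := s36_tch_step_core R q hq hqm a b w hw hab hba y hyint e he hrel
  exact IsLocalRing.of_unique_max_ideal ⟨_, h1, fun M hM => h2 M hM⟩

/-- The maximal ideal of `R[y]` is `𝔪_R R[y] + (y)`. -/
theorem s36_tch_step_max (R : Subring F) [IsLocalRing R] (q : ℕ) (hq : q.Prime)
    (hqm : (q : R) ∈ maximalIdeal R) (a b w : R) (hw : w ∈ maximalIdeal R)
    (hab : a ^ q - b ∈ maximalIdeal R) (hba : a - b ^ q ∈ maximalIdeal R)
    (y : F) (hyint : IsIntegral R y) (e : F) (he : e ∈ s36_tch_adj R y)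
    (hrel : (((a : F) + y) ^ q - ((b : F) + w)) * (((a : F) + y) - ((b : F) + w) ^ q)
      + q * e = 0) [IsLocalRing (s36_tch_adj R y)] :
    maximalIdeal (s36_tch_adj R y) = (maximalIdeal R).map (Subring.inclusion (s36_tch_le R y))
        ⊔ Ideal.span {(⟨y, s36_tch_self_mem R y⟩ : s36_tch_adj R y)} := by
  obtain ⟨h1, _⟩ := s36_tch_step_core R q hq hqm a b w hw hab hba y hyint e he hrel
  exact (IsLocalRing.eq_maximalIdeal h1).symm

/-! ### Level `q`: `𝔪_R = (q, x)` and thickness one give `𝔪_{R[y1]} = (x, y1)` -/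

/-- `R[y1]` is local (level `q`, relation in the original shape). -/
theorem s36_tch_levelq_local (R : Subring F) [IsLocalRing R] (q : ℕ) (hq : q.Prime)
    (a b x : R) (hqm : (q : R) ∈ maximalIdeal R) (hxm : x ∈ maximalIdeal R)
    (hab : a ^ q - b ∈ maximalIdeal R) (hba : a - b ^ q ∈ maximalIdeal R)
    (y1 : F) (hyint : IsIntegral R y1) (u : F) (hu : u ∈ s36_tch_adj R y1)
    (hrel : (((a : F) + x) ^ q - ((b : F) + y1)) * (((a : F) + x) - ((b : F) + y1) ^ q)
      + q * u = 0) :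
    IsLocalRing (s36_tch_adj R y1) := by
  have hba' : b ^ q - a ∈ maximalIdeal R := by
    have e : b ^ q - a = -(a - b ^ q) := by ring
    rw [e]; exact neg_mem hba
  have hab' : b - a ^ q ∈ maximalIdeal R := by
    have e : b - a ^ q = -(a ^ q - b) := by ring
    rw [e]; exact neg_mem hab
  exact s36_tch_step_local R q hq hqm b a x hxm hba' hab' y1 hyint u hu
    (by linear_combination hrel)

/-- Level `q`: the maximal ideal of `R[y1]` is `(x, y1)`. -/
theorem s36_tch_levelq (R : Subring F) [IsLocalRing R] (q : ℕ) (hq : q.Prime)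
    (a b x : R) (hm : maximalIdeal R = Ideal.span {(q : R), x})
    (hab : a ^ q - b ∈ maximalIdeal R) (hba : a - b ^ q ∈ maximalIdeal R)
    (y1 : F) (hyint : IsIntegral R y1) (u : F) (hu : u ∈ s36_tch_adj R y1)
    (hu' : u⁻¹ ∈ s36_tch_adj R y1) (hu0 : u ≠ 0)
    (hrel : (((a : F) + x) ^ q - ((b : F) + y1)) * (((a : F) + x) - ((b : F) + y1) ^ q)
      + q * u = 0)
    [IsLocalRing (s36_tch_adj R y1)] [IsNoetherianRing (s36_tch_adj R y1)] :
    maximalIdeal (s36_tch_adj R y1)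
      = Ideal.span {Subring.inclusion (s36_tch_le R y1) x,
          (⟨y1, s36_tch_self_mem R y1⟩ : s36_tch_adj R y1)} := by
  have hqm : (q : R) ∈ maximalIdeal R := by rw [hm]; exact Ideal.subset_span (by simp)
  have hxm : x ∈ maximalIdeal R := by rw [hm]; exact Ideal.subset_span (by simp)
  have hba' : b ^ q - a ∈ maximalIdeal R := by
    have e : b ^ q - a = -(a - b ^ q) := by ring
    rw [e]; exact neg_mem hba
  have hab' : b - a ^ q ∈ maximalIdeal R := by
    have e : b - a ^ q = -(a ^ q - b) := by ring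
    rw [e]; exact neg_mem hab
  have hmax := s36_tch_step_max R q hq hqm b a x hxm hba' hab' y1 hyint u hu
    (by linear_combination hrel)
  have hle : (maximalIdeal R).map (Subring.inclusion (s36_tch_le R y1))
      ≤ maximalIdeal (s36_tch_adj R y1) := by rw [hmax]; exact le_sup_left
  have hgen : maximalIdeal (s36_tch_adj R y1)
      = Ideal.span {((q : ℕ) : s36_tch_adj R y1), Subring.inclusion (s36_tch_le R y1) x,
          (⟨y1, s36_tch_self_mem R y1⟩ : s36_tch_adj R y1)} := by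
    rw [hmax, hm, Ideal.map_span, Set.image_pair, ← Ideal.span_union, map_natCast,
      Set.insert_union, Set.singleton_union]
  refine s36_tp_levelq q (Subring.inclusion (s36_tch_le R y1) a)
    (Subring.inclusion (s36_tch_le R y1) b) (Subring.inclusion (s36_tch_le R y1) x)
    ⟨y1, s36_tch_self_mem R y1⟩ ⟨u, hu⟩ hgen ?_ ?_ ?_ ?_
  · have h := hle (Ideal.mem_map_of_mem (Subring.inclusion (s36_tch_le R y1)) hab)
    rwa [map_sub, map_pow] at h
  · have h := hle (Ideal.mem_map_of_mem (Subring.inclusion (s36_tch_le R y1)) hba)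
    rwa [map_sub, map_pow] at h
  · exact isUnit_iff_exists_inv.mpr ⟨⟨u⁻¹, hu'⟩, Subtype.ext (mul_inv_cancel₀ hu0)⟩
  · apply Subtype.ext
    exact hrel

/-! ### Level `q²`: `𝔪_R = (x, y1)` and thickness one give `𝔪_{R[y2]} = (x, y2)` -/

/-- `R[y2]` is local (level `q²`). -/
theorem s36_tch_levelq2_local (R : Subring F) [IsLocalRing R] (q : ℕ) (hq : q.Prime)
    (a b y1 : R) (hqm : (q : R) ∈ maximalIdeal R) (hy1m : y1 ∈ maximalIdeal R)
    (hab : a ^ q - b ∈ maximalIdeal R) (hba : a - b ^ q ∈ maximalIdeal R)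
    (P : Polynomial R) (y2 : F) (hyint : IsIntegral R y2)
    (hFy : (((a : F) + y2) ^ q - ((b : F) + y1)) * (((a : F) + y2) - ((b : F) + y1) ^ q)
      + q * Polynomial.aeval y2 P = 0) :
    IsLocalRing (s36_tch_adj R y2) :=
  s36_tch_step_local R q hq hqm a b y1 hy1m hab hba y2 hyint _
    (Polynomial.aeval_mem_adjoin_singleton R y2) hFy

/-- Level `q²`: the maximal ideal of `R[y2]` is `(x, y2)`. -/
theorem s36_tch_levelq2 (R : Subring F) [IsLocalRing R] (q : ℕ) (hq : q.Prime)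
    (a b x y1 : R) (hm : maximalIdeal R = Ideal.span {x, y1})
    (hqm : (q : R) ∈ maximalIdeal R)
    (hab : a ^ q - b ∈ Ideal.span {(q : R)}) (hba : a - b ^ q ∈ maximalIdeal R)
    (P : Polynomial R) (hu : IsUnit (P.eval x))
    (hFx : ((a + x) ^ q - (b + y1)) * ((a + x) - (b + y1) ^ q) + q * P.eval x = 0)
    (y2 : F) (hyint : IsIntegral R y2) (hne : y2 ≠ x)
    (hFy : (((a : F) + y2) ^ q - ((b : F) + y1)) * (((a : F) + y2) - ((b : F) + y1) ^ q)
      + q * Polynomial.aeval y2 P = 0)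
    [IsLocalRing (s36_tch_adj R y2)] [IsNoetherianRing (s36_tch_adj R y2)] :
    maximalIdeal (s36_tch_adj R y2)
      = Ideal.span {Subring.inclusion (s36_tch_le R y2) x,
          (⟨y2, s36_tch_self_mem R y2⟩ : s36_tch_adj R y2)} := by
  have hxm : x ∈ maximalIdeal R := by rw [hm]; exact Ideal.subset_span (by simp)
  have hy1m : y1 ∈ maximalIdeal R := by rw [hm]; exact Ideal.subset_span (by simp)
  have habm : a ^ q - b ∈ maximalIdeal R :=
    (Ideal.span_singleton_le_iff_mem (I := maximalIdeal R)).mpr hqm hab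
  have hmax := s36_tch_step_max R q hq hqm a b y1 hy1m habm hba y2 hyint _
    (Polynomial.aeval_mem_adjoin_singleton R y2) hFy
  have hle : (maximalIdeal R).map (Subring.inclusion (s36_tch_le R y2))
      ≤ maximalIdeal (s36_tch_adj R y2) := by rw [hmax]; exact le_sup_left
  have hq' : ((q : ℕ) : s36_tch_adj R y2) ∈ maximalIdeal (s36_tch_adj R y2) := by
    have h := hle (Ideal.mem_map_of_mem (Subring.inclusion (s36_tch_le R y2)) hqm)
    rwa [map_natCast] at h
  have hgen3 : maximalIdeal (s36_tch_adj R y2)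
      = Ideal.span {Subring.inclusion (s36_tch_le R y2) x,
          Subring.inclusion (s36_tch_le R y2) y1,
          (⟨y2, s36_tch_self_mem R y2⟩ : s36_tch_adj R y2)} := by
    rw [hmax, hm, Ideal.map_span, Set.image_pair, ← Ideal.span_union,
      Set.insert_union, Set.singleton_union]
  have hgen : maximalIdeal (s36_tch_adj R y2)
      = Ideal.span {((q : ℕ) : s36_tch_adj R y2), Subring.inclusion (s36_tch_le R y2) x,
          Subring.inclusion (s36_tch_le R y2) y1,
          (⟨y2, s36_tch_self_mem R y2⟩ : s36_tch_adj R y2)} := by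
    apply le_antisymm
    · rw [hgen3]
      exact Ideal.span_mono (Set.subset_insert _ _)
    · rw [Ideal.span_le]
      intro z hz
      rcases hz with rfl | hz
      · exact hq'
      · rw [hgen3]; exact Ideal.subset_span hz
  have hPx : (P.map (Subring.inclusion (s36_tch_le R y2))).eval
      (Subring.inclusion (s36_tch_le R y2) x)
      = Subring.inclusion (s36_tch_le R y2) (P.eval x) := by
    rw [Polynomial.eval_map, Polynomial.eval₂_at_apply]
  have hPy : (((P.map (Subring.inclusion (s36_tch_le R y2))).eval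
      (⟨y2, s36_tch_self_mem R y2⟩ : s36_tch_adj R y2) : s36_tch_adj R y2) : F)
      = Polynomial.aeval y2 P := by
    rw [Polynomial.eval_map]
    exact Polynomial.hom_eval₂ P (Subring.inclusion (s36_tch_le R y2))
      (s36_tch_adj R y2).subtype ⟨y2, s36_tch_self_mem R y2⟩
  refine s36_tp_param q (Subring.inclusion (s36_tch_le R y2) a)
    (Subring.inclusion (s36_tch_le R y2) b) (Subring.inclusion (s36_tch_le R y2) x)
    (Subring.inclusion (s36_tch_le R y2) y1) ⟨y2, s36_tch_self_mem R y2⟩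
    (P.map (Subring.inclusion (s36_tch_le R y2))) hgen ?_ ?_ ?_ ?_ ?_ ?_
  · obtain ⟨c, hc⟩ := Ideal.mem_span_singleton'.mp hab
    refine Ideal.mem_span_singleton'.mpr ⟨Subring.inclusion (s36_tch_le R y2) c, ?_⟩
    have h := congrArg (Subring.inclusion (s36_tch_le R y2)) hc
    rwa [map_mul, map_natCast, map_sub, map_pow] at h
  · have h := hle (Ideal.mem_map_of_mem (Subring.inclusion (s36_tch_le R y2)) hba)
    rwa [map_sub, map_pow] at h
  · rw [hPx]; exact hu.map _
  · intro h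
    exact hne (congrArg Subtype.val h)
  · rw [hPx]
    have h := congrArg (Subring.inclusion (s36_tch_le R y2)) hFx
    simpa only [map_add, map_mul, map_sub, map_pow, map_natCast, map_zero] using h
  · apply Subtype.ext
    simp only [Subring.coe_add, Subring.coe_mul, Subring.coe_pow, Subring.coe_natCast,
      Subring.coe_zero, AddSubgroupClass.coe_sub, Subring.coe_inclusion, hPy]
    exact hFy

/-! ### Normality of the regular local ring and comparison with the chart -/

/-- `R[y]` is the smallest subring containing `R` and `y`. -/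
theorem s36_tch_adj_le (R : Subring F) (y : F) (T : Subring F) (hR : R ≤ T) (hy : y ∈ T) :
    s36_tch_adj R y ≤ T := by
  intro z hz
  rw [s36_tch_mem_adj] at hz
  induction hz using Algebra.adjoin_induction with
  | mem x hx =>
    rw [Set.mem_singleton_iff] at hx
    rw [hx]; exact hy
  | algebraMap r => exact hR r.2
  | add x z _ _ hx hz => exact T.add_mem hx hz
  | mul x z _ _ hx hz => exact T.mul_mem hx hz

/-- A noetherian local subring `R0` of `F` with two-generated maximal ideal `(x, y)`, of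
dimension two (a valuation ring `V ⊇ R0` in which some nonzero `p ∈ R0` is a non-unit and `x` is
a unit), and with fraction field `F`, is integrally closed in `F`. -/
theorem s36_tch_intClosed (R0 : Subring F) [IsLocalRing R0] [IsNoetherianRing R0] (x y : R0)
    (hm : maximalIdeal R0 = Ideal.span {x, y})
    (V : ValuationSubring F) (hRV : ∀ r ∈ R0, r ∈ V) (p : R0) (hp0 : (p : F) ≠ 0)
    (hpV : (p : F)⁻¹ ∉ V) (hx0 : (x : F) ≠ 0) (hxV : (x : F)⁻¹ ∈ V)
    (hfrac : ∀ f : F, ∃ c ∈ R0, ∃ d ∈ R0, d ≠ 0 ∧ f = c / d)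
    (f : F) (hf : IsIntegral R0 f) : f ∈ R0 := by
  classical
  let φ : R0 →+* V :=
    { toFun := fun r => ⟨r.1, hRV r.1 r.2⟩
      map_one' := rfl
      map_mul' := fun _ _ => rfl
      map_zero' := rfl
      map_add' := fun _ _ => rfl }
  have hφ : ∀ r : R0, ((φ r : V) : F) = (r : F) := fun _ => rfl
  let P : Ideal R0 := Ideal.comap φ (maximalIdeal V)
  have hPprime : P.IsPrime := Ideal.comap_isPrime φ (maximalIdeal V)
  have hpP : p ∈ P := by
    show φ p ∈ maximalIdeal V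
    by_contra hnot
    have hunit : IsUnit (φ p) := IsLocalRing.notMem_maximalIdeal.mp hnot
    obtain ⟨v, hv⟩ := isUnit_iff_exists_inv.mp hunit
    have h1 : (p : F) * (v : F) = 1 := congrArg Subtype.val hv
    have h2 : (v : F) = (p : F)⁻¹ := eq_inv_of_mul_eq_one_right h1
    exact hpV (h2 ▸ v.2)
  have hxP : x ∉ P := by
    intro hx
    have hx' : φ x ∈ maximalIdeal V := hx
    have hunit : IsUnit (φ x) :=
      isUnit_iff_exists_inv.mpr ⟨⟨(x : F)⁻¹, hxV⟩, Subtype.ext (mul_inv_cancel₀ hx0)⟩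
    exact (IsLocalRing.mem_maximalIdeal _).mp hx' hunit
  have hP0 : P ≠ ⊥ := by
    intro h
    have h1 : p ∈ (⊥ : Ideal R0) := h ▸ hpP
    rw [Ideal.mem_bot] at h1
    exact hp0 (by rw [h1]; rfl)
  have hPm : P ≠ maximalIdeal R0 := by
    intro h
    apply hxP
    rw [h, hm]
    exact Ideal.subset_span (by simp)
  have hprime : Prime x := s36_tf_prime_of_param x y hm P hP0 hPm
  have hufd : UniqueFactorizationMonoid R0 := as1_ufd_of_regular x y hprime hm
  have hfr : IsFractionRing R0 F := IsFractionRing.of_field R0 F (fun z => by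
    obtain ⟨c, hc, d, hd, _, rfl⟩ := hfrac z
    exact ⟨⟨c, hc⟩, ⟨d, hd⟩, rfl⟩)
  obtain ⟨r, hr⟩ := IsIntegrallyClosed.isIntegral_iff.mp hf
  rw [← hr]
  exact r.2

/-- If `B ⊆ R0 ⊆ B_𝔪` and `𝔪_{R0} = (x, y)` with `x, y ∈ B`, then `𝔪` is locally generated by
`x, y`. -/
theorem s36_tch_loc (B : Subring F) (𝔪 : Ideal B) [h𝔪 : 𝔪.IsPrime]
    (R0 : Subring F) [IsLocalRing R0] (x y : F) (hxR : x ∈ R0) (hyR : y ∈ R0)
    (hm : maximalIdeal R0 = Ideal.span {(⟨x, hxR⟩ : R0), ⟨y, hyR⟩})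
    (hBR : ∀ z ∈ B, z ∈ R0)
    (hRB : ∀ r ∈ R0, ∃ c d : B, d ∉ 𝔪 ∧ r = (c : F) / (d : F))
    (hxB : x ∈ B) (hyB : y ∈ B) :
    ∀ z ∈ 𝔪, ∃ u : B, u ∉ 𝔪 ∧ u * z ∈ Ideal.span {(⟨x, hxB⟩ : B), ⟨y, hyB⟩} := by
  intro z hz
  have hzR : (z : F) ∈ R0 := hBR z z.2
  have hzm : (⟨(z : F), hzR⟩ : R0) ∈ maximalIdeal R0 := by
    by_contra hnot
    have hunit : IsUnit (⟨(z : F), hzR⟩ : R0) := IsLocalRing.notMem_maximalIdeal.mp hnot
    obtain ⟨v, hv⟩ := isUnit_iff_exists_inv.mp hunit
    have h1 : (z : F) * (v : F) = 1 := congrArg Subtype.val hv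
    obtain ⟨c, d, hd, hcd⟩ := hRB v v.2
    have hd0 : (d : F) ≠ 0 := by
      intro h0
      apply hd
      have : d = 0 := Subtype.ext h0
      rw [this]; exact 𝔪.zero_mem
    have h2 : d = z * c := by
      apply Subtype.ext
      rw [Subring.coe_mul]
      rw [hcd] at h1
      field_simp at h1
      exact h1.symm
    exact hd (h2 ▸ 𝔪.mul_mem_right c hz)
  rw [hm, Ideal.mem_span_pair] at hzm
  obtain ⟨r1, r2, hr⟩ := hzm
  have hr' : (r1 : F) * x + (r2 : F) * y = (z : F) := congrArg Subtype.val hr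
  obtain ⟨c1, d1, hd1, hc1⟩ := hRB r1 r1.2
  obtain ⟨c2, d2, hd2, hc2⟩ := hRB r2 r2.2
  have hd10 : (d1 : F) ≠ 0 := by
    intro h0
    apply hd1
    have : d1 = 0 := Subtype.ext h0
    rw [this]; exact 𝔪.zero_mem
  have hd20 : (d2 : F) ≠ 0 := by
    intro h0
    apply hd2
    have : d2 = 0 := Subtype.ext h0
    rw [this]; exact 𝔪.zero_mem
  refine ⟨d1 * d2, fun h => (h𝔪.mem_or_mem h).elim hd1 hd2, ?_⟩
  rw [Ideal.mem_span_pair]
  refine ⟨c1 * d2, c2 * d1, ?_⟩
  apply Subtype.ext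
  simp only [Subring.coe_add, Subring.coe_mul]
  rw [← hr', hc1, hc2]
  field_simp

/-- **The chart at a triple point** (level `q²`).  `R` is the (image of the) local ring of the
level-`q` chart at a crossing point, regular with parameters `(x, y1)`; `y2` is the new Kronecker
root; `B` is the level-`q²` chart, integral over `R`, and `𝔪` a prime of `B` over `𝔪_R` (`R ⊆ B_𝔪`).
Then `B ⊆ R[y2]` (so `B_𝔪 = R[y2]` and `𝔪` is the only prime above `𝔪_R`) and `𝔪` is locally
generated by `x` and `y2`. -/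
theorem s36_tch_triple (B : Subring F) (𝔪 : Ideal B) [h𝔪 : 𝔪.IsPrime]
    (R : Subring F) [IsLocalRing R] [IsNoetherianRing R] (q : ℕ) (hq : q.Prime)
    (a b x y1 : R) (hm : maximalIdeal R = Ideal.span {x, y1})
    (hqm : (q : R) ∈ maximalIdeal R)
    (hab : a ^ q - b ∈ Ideal.span {(q : R)}) (hba : a - b ^ q ∈ maximalIdeal R)
    (P : Polynomial R) (hu : IsUnit (P.eval x))
    (hFx : ((a + x) ^ q - (b + y1)) * ((a + x) - (b + y1) ^ q) + q * P.eval x = 0)
    (y2 : F) (hy2B : y2 ∈ B) (hne : y2 ≠ x)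
    (hFy : (((a : F) + y2) ^ q - ((b : F) + y1)) * (((a : F) + y2) - ((b : F) + y1) ^ q)
      + q * Polynomial.aeval y2 P = 0)
    (hRB : ∀ r ∈ R, ∃ c d : B, d ∉ 𝔪 ∧ r = (c : F) / (d : F))
    (hBint : ∀ z ∈ B, IsIntegral R z) (hxB : (x : F) ∈ B)
    (V : ValuationSubring F) (hRV : ∀ r ∈ R, r ∈ V) (hy2V : y2 ∈ V)
    (hq0 : (q : F) ≠ 0) (hqV : (q : F)⁻¹ ∉ V) (hx0 : (x : F) ≠ 0) (hxV : (x : F)⁻¹ ∈ V)
    (hfrac : ∀ f : F, ∃ c ∈ s36_tch_adj R y2, ∃ d ∈ s36_tch_adj R y2, d ≠ 0 ∧ f = c / d) :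
    (∀ z ∈ B, z ∈ s36_tch_adj R y2) ∧
    ∀ z ∈ 𝔪, ∃ u : B, u ∉ 𝔪 ∧ u * z ∈ Ideal.span {(⟨(x : F), hxB⟩ : B), ⟨y2, hy2B⟩} := by
  have hy1m : y1 ∈ maximalIdeal R := by rw [hm]; exact Ideal.subset_span (by simp)
  have habm : a ^ q - b ∈ maximalIdeal R :=
    (Ideal.span_singleton_le_iff_mem (I := maximalIdeal R)).mpr hqm hab
  have hyint : IsIntegral R y2 := hBint y2 hy2B
  have hloc : IsLocalRing (s36_tch_adj R y2) :=
    s36_tch_levelq2_local R q hq a b y1 hqm hy1m habm hba P y2 hyint hFy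
  have hnoeth : IsNoetherianRing (s36_tch_adj R y2) := s36_tch_step_noeth R y2
  have hmax := s36_tch_levelq2 R q hq a b x y1 hm hqm hab hba P hu hFx y2 hyint hne hFy
  have hBR : ∀ z ∈ B, z ∈ s36_tch_adj R y2 := by
    intro z hz
    refine s36_tch_intClosed (s36_tch_adj R y2) _ _ hmax V
      (s36_tch_adj_le R y2 V.toSubring (fun r hr => hRV r hr) hy2V)
      ((q : ℕ) : s36_tch_adj R y2) ?_ ?_ hx0 hxV hfrac z
      (s36_tch_isIntegral_mono (s36_tch_le R y2) z (hBint z hz))
    · rw [Subring.coe_natCast]; exact hq0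
    · rw [Subring.coe_natCast]; exact hqV
  refine ⟨hBR, ?_⟩
  have hRB0 : ∀ r ∈ s36_tch_adj R y2, ∃ c d : B, d ∉ 𝔪 ∧ r = (c : F) / (d : F) := by
    intro r hr
    exact s36_tch_adj_le R y2 (s18_locRing B 𝔪) (fun r hr => hRB r hr)
      ⟨⟨y2, hy2B⟩, 1, fun h => h𝔪.ne_top ((Ideal.eq_top_iff_one _).mpr h), by simp⟩ hr
  exact s36_tch_loc B 𝔪 (s36_tch_adj R y2) (x : F) y2 (s36_tch_le R y2 x.2)
    (s36_tch_self_mem R y2) hmax hBR hRB0 hxB hy2B

/-! ### Polynomial form of thickness one at level `q`, the node, and the full tower -/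

/-- Level `q`, thickness one in polynomial form: if `u = P(y1)` with `P ∈ R[Y]` and `P(0)` a
unit of `R`, then `u` is a unit of `R[y1]`. -/
theorem s36_tch_levelq_unit (R : Subring F) [IsLocalRing R] (q : ℕ) (hq : q.Prime)
    (a b x : R) (hqm : (q : R) ∈ maximalIdeal R) (hxm : x ∈ maximalIdeal R)
    (hab : a ^ q - b ∈ maximalIdeal R) (hba : a - b ^ q ∈ maximalIdeal R)
    (P : Polynomial R) (hu : IsUnit (P.coeff 0)) (y1 : F) (hyint : IsIntegral R y1)
    (hrel : (((a : F) + x) ^ q - ((b : F) + y1)) * (((a : F) + x) - ((b : F) + y1) ^ q)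
      + q * Polynomial.aeval y1 P = 0) :
    (Polynomial.aeval y1 P)⁻¹ ∈ s36_tch_adj R y1 ∧ Polynomial.aeval y1 P ≠ 0 := by
  have hmem : ∀ Q : Polynomial R, Polynomial.aeval y1 Q ∈ s36_tch_adj R y1 :=
    fun Q => Polynomial.aeval_mem_adjoin_singleton R y1
  have hloc : IsLocalRing (s36_tch_adj R y1) :=
    s36_tch_levelq_local R q hq a b x hqm hxm hab hba y1 hyint _ (hmem P) hrel
  have hba' : b ^ q - a ∈ maximalIdeal R := by
    have e : b ^ q - a = -(a - b ^ q) := by ring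
    rw [e]; exact neg_mem hba
  have hab' : b - a ^ q ∈ maximalIdeal R := by
    have e : b - a ^ q = -(a ^ q - b) := by ring
    rw [e]; exact neg_mem hab
  have hmax := s36_tch_step_max R q hq hqm b a x hxm hba' hab' y1 hyint _ (hmem P)
    (by linear_combination hrel)
  have hy1m : (⟨y1, s36_tch_self_mem R y1⟩ : s36_tch_adj R y1)
      ∈ maximalIdeal (s36_tch_adj R y1) := by
    rw [hmax]
    exact Ideal.mem_sup_right (Ideal.mem_span_singleton_self _)
  have hdecomp : Polynomial.aeval y1 P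
      = Polynomial.aeval y1 P.divX * y1 + ((P.coeff 0 : R) : F) := by
    conv_lhs => rw [← Polynomial.divX_mul_X_add P]
    rw [map_add, map_mul, Polynomial.aeval_X, Polynomial.aeval_C]
    rfl
  have hunit : IsUnit (⟨Polynomial.aeval y1 P, hmem P⟩ : s36_tch_adj R y1) := by
    rw [← IsLocalRing.notMem_maximalIdeal]
    intro hin
    have h0 : IsUnit (Subring.inclusion (s36_tch_le R y1) (P.coeff 0)) := hu.map _
    rw [← IsLocalRing.notMem_maximalIdeal] at h0
    apply h0
    have e : Subring.inclusion (s36_tch_le R y1) (P.coeff 0)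
        = (⟨Polynomial.aeval y1 P, hmem P⟩ : s36_tch_adj R y1)
          - ⟨Polynomial.aeval y1 P.divX, hmem _⟩ * ⟨y1, s36_tch_self_mem R y1⟩ := by
      apply Subtype.ext
      show ((P.coeff 0 : R) : F) = Polynomial.aeval y1 P - Polynomial.aeval y1 P.divX * y1
      rw [hdecomp]; ring
    rw [e]
    exact Ideal.sub_mem _ hin (Ideal.mul_mem_left _ _ hy1m)
  obtain ⟨v, hv⟩ := isUnit_iff_exists_inv.mp hunit
  have h1 : Polynomial.aeval y1 P * (v : F) = 1 := congrArg Subtype.val hv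
  have hne : Polynomial.aeval y1 P ≠ 0 := by
    intro h0
    rw [h0, zero_mul] at h1
    exact zero_ne_one h1
  refine ⟨?_, hne⟩
  have h2 : (v : F) = (Polynomial.aeval y1 P)⁻¹ := eq_inv_of_mul_eq_one_right h1
  rw [← h2]
  exact v.2

/-- **The chart at a node** (level `q`).  `R` is the (image of the) local ring of the level-`N`
chart at a point, with `𝔪_R = (q, x)`; `y1` the Kronecker root, thickness one (`P(0)` a unit,
`Γ = P(y1)`); `B` the level-`q` chart, integral over `R`, `𝔪` a prime of `B` with `R ⊆ B_𝔪`.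
Then `B ⊆ R[y1]` and `𝔪` is locally generated by `x` and `y1`. -/
theorem s36_tch_node (B : Subring F) (𝔪 : Ideal B) [h𝔪 : 𝔪.IsPrime]
    (R : Subring F) [IsLocalRing R] [IsNoetherianRing R] (q : ℕ) (hq : q.Prime)
    (a b x : R) (hm : maximalIdeal R = Ideal.span {(q : R), x})
    (hab : a ^ q - b ∈ maximalIdeal R) (hba : a - b ^ q ∈ maximalIdeal R)
    (P : Polynomial R) (hu : IsUnit (P.coeff 0)) (y1 : F) (hy1B : y1 ∈ B)
    (hrel : (((a : F) + x) ^ q - ((b : F) + y1)) * (((a : F) + x) - ((b : F) + y1) ^ q)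
      + q * Polynomial.aeval y1 P = 0)
    (hRB : ∀ r ∈ R, ∃ c d : B, d ∉ 𝔪 ∧ r = (c : F) / (d : F))
    (hBint : ∀ z ∈ B, IsIntegral R z) (hxB : (x : F) ∈ B)
    (V : ValuationSubring F) (hRV : ∀ r ∈ R, r ∈ V) (hy1V : y1 ∈ V)
    (hq0 : (q : F) ≠ 0) (hqV : (q : F)⁻¹ ∉ V) (hx0 : (x : F) ≠ 0) (hxV : (x : F)⁻¹ ∈ V)
    (hfrac : ∀ f : F, ∃ c ∈ s36_tch_adj R y1, ∃ d ∈ s36_tch_adj R y1, d ≠ 0 ∧ f = c / d) :
    (∀ z ∈ B, z ∈ s36_tch_adj R y1) ∧
    ∀ z ∈ 𝔪, ∃ u : B, u ∉ 𝔪 ∧ u * z ∈ Ideal.span {(⟨(x : F), hxB⟩ : B), ⟨y1, hy1B⟩} := by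
  have hqm : (q : R) ∈ maximalIdeal R := by rw [hm]; exact Ideal.subset_span (by simp)
  have hxm : x ∈ maximalIdeal R := by rw [hm]; exact Ideal.subset_span (by simp)
  have hyint : IsIntegral R y1 := hBint y1 hy1B
  have hmemP : Polynomial.aeval y1 P ∈ s36_tch_adj R y1 :=
    Polynomial.aeval_mem_adjoin_singleton R y1
  have hloc : IsLocalRing (s36_tch_adj R y1) :=
    s36_tch_levelq_local R q hq a b x hqm hxm hab hba y1 hyint _ hmemP hrel
  have hnoeth : IsNoetherianRing (s36_tch_adj R y1) := s36_tch_step_noeth R y1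
  obtain ⟨huinv, hu0⟩ := s36_tch_levelq_unit R q hq a b x hqm hxm hab hba P hu y1 hyint hrel
  have hmax := s36_tch_levelq R q hq a b x hm hab hba y1 hyint _ hmemP huinv hu0 hrel
  have hBR : ∀ z ∈ B, z ∈ s36_tch_adj R y1 := by
    intro z hz
    refine s36_tch_intClosed (s36_tch_adj R y1) _ _ hmax V
      (s36_tch_adj_le R y1 V.toSubring (fun r hr => hRV r hr) hy1V)
      ((q : ℕ) : s36_tch_adj R y1) ?_ ?_ hx0 hxV hfrac z
      (s36_tch_isIntegral_mono (s36_tch_le R y1) z (hBint z hz))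
    · rw [Subring.coe_natCast]; exact hq0
    · rw [Subring.coe_natCast]; exact hqV
  refine ⟨hBR, ?_⟩
  have hRB0 : ∀ r ∈ s36_tch_adj R y1, ∃ c d : B, d ∉ 𝔪 ∧ r = (c : F) / (d : F) := by
    intro r hr
    exact s36_tch_adj_le R y1 (s18_locRing B 𝔪) (fun r hr => hRB r hr)
      ⟨⟨y1, hy1B⟩, 1, fun h => h𝔪.ne_top ((Ideal.eq_top_iff_one _).mpr h), by simp⟩ hr
  exact s36_tch_loc B 𝔪 (s36_tch_adj R y1) (x : F) y1 (s36_tch_le R y1 x.2)
    (s36_tch_self_mem R y1) hmax hBR hRB0 hxB hy1B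

/-- **The full tower at a triple point**, starting from the level-`N` local ring `R` with
`𝔪_R = (q, x)`, inside the level-`q²` field `F`: adjoin `y1` (level `q`, thickness one through
`P1 ∈ R[Y]`, `Γ(a + x, b + y1) = P1(y1)`, `P1(0)` a unit), then `y2` (level `q²`,
`P2 ∈ R[y1][T]` with `P2(x) = P1(y1)`).  Conclusion: the level-`q²` chart `B` is contained in
`R[y1][y2]` and its prime `𝔪` (over `𝔪_R`) is locally generated by `x` and `y2`. -/
theorem s36_tch_tower (B : Subring F) (𝔪 : Ideal B) [h𝔪 : 𝔪.IsPrime]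
    (R : Subring F) [IsLocalRing R] [IsNoetherianRing R] (q : ℕ) (hq : q.Prime)
    (a b x : R) (hm : maximalIdeal R = Ideal.span {(q : R), x})
    (hab : a ^ q - b ∈ Ideal.span {(q : R)}) (hba : a - b ^ q ∈ maximalIdeal R)
    (P1 : Polynomial R) (hu : IsUnit (P1.coeff 0)) (y1 : F) (hy1B : y1 ∈ B)
    (hrel1 : (((a : F) + x) ^ q - ((b : F) + y1)) * (((a : F) + x) - ((b : F) + y1) ^ q)
      + q * Polynomial.aeval y1 P1 = 0)
    (P2 : Polynomial (s36_tch_adj R y1))
    (hP2 : ((P2.eval (Subring.inclusion (s36_tch_le R y1) x) : s36_tch_adj R y1) : F)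
      = Polynomial.aeval y1 P1)
    (y2 : F) (hy2B : y2 ∈ B) (hne : y2 ≠ x)
    (hrel2 : (((a : F) + y2) ^ q - ((b : F) + y1)) * (((a : F) + y2) - ((b : F) + y1) ^ q)
      + q * Polynomial.aeval y2 P2 = 0)
    (hRB : ∀ r ∈ R, ∃ c d : B, d ∉ 𝔪 ∧ r = (c : F) / (d : F))
    (hBint : ∀ z ∈ B, IsIntegral R z) (hxB : (x : F) ∈ B)
    (V : ValuationSubring F) (hRV : ∀ r ∈ R, r ∈ V) (hy1V : y1 ∈ V) (hy2V : y2 ∈ V)
    (hq0 : (q : F) ≠ 0) (hqV : (q : F)⁻¹ ∉ V) (hx0 : (x : F) ≠ 0) (hxV : (x : F)⁻¹ ∈ V)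
    (hfrac : ∀ f : F, ∃ c ∈ s36_tch_adj (s36_tch_adj R y1) y2,
      ∃ d ∈ s36_tch_adj (s36_tch_adj R y1) y2, d ≠ 0 ∧ f = c / d) :
    (∀ z ∈ B, z ∈ s36_tch_adj (s36_tch_adj R y1) y2) ∧
    ∀ z ∈ 𝔪, ∃ u : B, u ∉ 𝔪 ∧ u * z ∈ Ideal.span {(⟨(x : F), hxB⟩ : B), ⟨y2, hy2B⟩} := by
  have hqm : (q : R) ∈ maximalIdeal R := by rw [hm]; exact Ideal.subset_span (by simp)
  have hxm : x ∈ maximalIdeal R := by rw [hm]; exact Ideal.subset_span (by simp)
  have habm : a ^ q - b ∈ maximalIdeal R :=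
    (Ideal.span_singleton_le_iff_mem (I := maximalIdeal R)).mpr hqm hab
  have hyint : IsIntegral R y1 := hBint y1 hy1B
  have hmemP : Polynomial.aeval y1 P1 ∈ s36_tch_adj R y1 :=
    Polynomial.aeval_mem_adjoin_singleton R y1
  have hloc : IsLocalRing (s36_tch_adj R y1) :=
    s36_tch_levelq_local R q hq a b x hqm hxm habm hba y1 hyint _ hmemP hrel1
  have hnoeth : IsNoetherianRing (s36_tch_adj R y1) := s36_tch_step_noeth R y1
  obtain ⟨huinv, hu0⟩ :=
    s36_tch_levelq_unit R q hq a b x hqm hxm habm hba P1 hu y1 hyint hrel1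
  have hmax := s36_tch_levelq R q hq a b x hm habm hba y1 hyint _ hmemP huinv hu0 hrel1
  have hba' : b ^ q - a ∈ maximalIdeal R := by
    have e : b ^ q - a = -(a - b ^ q) := by ring
    rw [e]; exact neg_mem hba
  have hab' : b - a ^ q ∈ maximalIdeal R := by
    have e : b - a ^ q = -(a ^ q - b) := by ring
    rw [e]; exact neg_mem habm
  have hstep := s36_tch_step_max R q hq hqm b a x hxm hba' hab' y1 hyint _ hmemP
    (by linear_combination hrel1)
  have hle : (maximalIdeal R).map (Subring.inclusion (s36_tch_le R y1))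
      ≤ maximalIdeal (s36_tch_adj R y1) := by rw [hstep]; exact le_sup_left
  have hq1 : ((q : ℕ) : s36_tch_adj R y1) ∈ maximalIdeal (s36_tch_adj R y1) := by
    have h := hle (Ideal.mem_map_of_mem (Subring.inclusion (s36_tch_le R y1)) hqm)
    rwa [map_natCast] at h
  have hab1 : (Subring.inclusion (s36_tch_le R y1) a) ^ q - Subring.inclusion (s36_tch_le R y1) b
      ∈ Ideal.span {((q : ℕ) : s36_tch_adj R y1)} := by
    obtain ⟨c, hc⟩ := Ideal.mem_span_singleton'.mp hab
    refine Ideal.mem_span_singleton'.mpr ⟨Subring.inclusion (s36_tch_le R y1) c, ?_⟩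
    have h := congrArg (Subring.inclusion (s36_tch_le R y1)) hc
    rwa [map_mul, map_natCast, map_sub, map_pow] at h
  have hba1 : Subring.inclusion (s36_tch_le R y1) a - (Subring.inclusion (s36_tch_le R y1) b) ^ q
      ∈ maximalIdeal (s36_tch_adj R y1) := by
    have h := hle (Ideal.mem_map_of_mem (Subring.inclusion (s36_tch_le R y1)) hba)
    rwa [map_sub, map_pow] at h
  have hu1 : IsUnit (P2.eval (Subring.inclusion (s36_tch_le R y1) x)) :=
    isUnit_iff_exists_inv.mpr ⟨⟨(Polynomial.aeval y1 P1)⁻¹, huinv⟩, Subtype.ext (by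
      rw [Subring.coe_mul, hP2]
      exact mul_inv_cancel₀ hu0)⟩
  have hFx1 : ((Subring.inclusion (s36_tch_le R y1) a + Subring.inclusion (s36_tch_le R y1) x) ^ q
        - (Subring.inclusion (s36_tch_le R y1) b + ⟨y1, s36_tch_self_mem R y1⟩))
      * ((Subring.inclusion (s36_tch_le R y1) a + Subring.inclusion (s36_tch_le R y1) x)
        - (Subring.inclusion (s36_tch_le R y1) b + ⟨y1, s36_tch_self_mem R y1⟩) ^ q)
      + q * P2.eval (Subring.inclusion (s36_tch_le R y1) x) = 0 := by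
    apply Subtype.ext
    simp only [Subring.coe_add, Subring.coe_mul, Subring.coe_pow, Subring.coe_natCast,
      Subring.coe_zero, AddSubgroupClass.coe_sub, Subring.coe_inclusion, hP2]
    exact hrel1
  have hRB1 : ∀ r ∈ s36_tch_adj R y1, ∃ c d : B, d ∉ 𝔪 ∧ r = (c : F) / (d : F) := by
    intro r hr
    exact s36_tch_adj_le R y1 (s18_locRing B 𝔪) (fun r hr => hRB r hr)
      ⟨⟨y1, hy1B⟩, 1, fun h => h𝔪.ne_top ((Ideal.eq_top_iff_one _).mpr h), by simp⟩ hr
  exact s36_tch_triple B 𝔪 (s36_tch_adj R y1) q hq (Subring.inclusion (s36_tch_le R y1) a)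
    (Subring.inclusion (s36_tch_le R y1) b) (Subring.inclusion (s36_tch_le R y1) x)
    ⟨y1, s36_tch_self_mem R y1⟩ hmax hq1 hab1 hba1 P2 hu1 hFx1 y2 hy2B hne hrel2 hRB1
    (fun z hz => s36_tch_isIntegral_mono (s36_tch_le R y1) z (hBint z hz)) hxB V
    (s36_tch_adj_le R y1 V.toSubring (fun r hr => hRV r hr) hy1V) hy2V hq0 hqV hx0 hxV hfrac

end Fermat.Agent.S36
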