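import Mathlib
import Fermat.Agent.S36.TriplePD
import Fermat.Agent.S35.FrobAlg

/-!
# S36 (NODE-3): the triple-point datum for `V = V_A ⊓ V_B ⊓ V_C`

Instantiation of `s36_pdn_pointData` (Newton correction inside `B_𝔪`) for the semi-local Gauss
ring `V_A ⊓ V_B ⊓ V_C` of three discrete valuation rings with uniformizers `dA dB dC`, where
`ϖ = εX * dX ^ eX` with `εX` a unit of `V_X` and `0 < eX` (in the model `dA = dB = ϖ`,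
`eA = eB = 1`, `dC = z`, `eC = q - 1`).  The function-dependent input is the output shape of
TRI36 (`s36_tri_theta`): a local factorisation `h = G ^ p * w` with `w` a unit of `B_𝔪` and
`G ≡ 1` modulo the uniformizer on each of the three components (`s35_fa_one dX V_X G`).
-/

set_option autoImplicit false

namespace Fermat.Agent.S36

open Fermat.Agent.S18 Fermat.Agent.S34 Fermat.Agent.S35

variable {F : Type*} [Field F]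

/-- `ϖ = ε d^e ≠ 0`, `e > 0`, `ε ∈ V`, `V` a DVR with uniformizer `d`: `ϖ⁻¹ ∉ V`. -/
theorem s36_pd3_inv_not_mem {d ϖ ε : F} {V : Subring F} (hV : s34_Unif d V) (hϖ0 : ϖ ≠ 0)
    (e : ℕ) (he : 0 < e) (hϖ : ϖ = ε * d ^ e) (hε : ε ∈ V) : ϖ⁻¹ ∉ V := by
  intro h
  apply hV.inv_not_mem
  have hd0 := hV.ne_zero
  have hε0 : ε ≠ 0 := by
    rintro rfl
    exact hϖ0 (by rw [hϖ, zero_mul])
  have hsplit : d ^ e = d ^ (e - 1) * d := by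
    rw [← pow_succ]; congr 1; omega
  have hde1 : d ^ (e - 1) ≠ 0 := pow_ne_zero _ hd0
  have e1 : d⁻¹ = d ^ (e - 1) * (ε * ϖ⁻¹) := by
    rw [hϖ, hsplit, mul_inv, mul_inv]
    field_simp
  rw [e1]
  exact V.mul_mem (V.pow_mem hV.mem _) (V.mul_mem hε h)

/-- `1 + ϖ x` is a unit of `V` when `ϖ = ε d^e`, `e > 0`. -/
theorem s36_pd3_one_add {d ϖ ε : F} {V : Subring F} (hV : s34_Unif d V)
    (e : ℕ) (he : 0 < e) (hϖ : ϖ = ε * d ^ e) (hε : ε ∈ V) {x : F} (hx : x ∈ V) :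
    (1 + ϖ * x)⁻¹ ∈ V := by
  have hsplit : d ^ e = d * d ^ (e - 1) := by
    rw [← pow_succ']; congr 1; omega
  have e1 : 1 + ϖ * x = 1 + d * (ε * d ^ (e - 1) * x) := by
    rw [hϖ, hsplit]; ring
  rw [e1]
  exact hV.one_add_inv_mem (V.mul_mem (V.mul_mem hε (V.pow_mem hV.mem _)) hx)

/-- `G ≡ 1 mod d V` gives `G - 1 ∈ V`. -/
theorem s36_pd3_sub_mem {d : F} {V : Subring F} (hV : s34_Unif d V) {G : F}
    (hG : s35_fa_one d V G) : G - 1 ∈ V := by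
  have e1 : G - 1 = d * (d⁻¹ * (G - 1)) := by
    rw [← mul_assoc, mul_inv_cancel₀ hV.ne_zero, one_mul]
  rw [e1]
  exact V.mul_mem hV.mem hG

/-- `G ≡ 1 mod d V` and `ϖ = ε d^e`, `ε` a unit: `(G - 1)^N ∈ ϖ V` for `e ≤ N`. -/
theorem s36_pd3_pow {d ϖ ε : F} {V : Subring F} (hV : s34_Unif d V)
    (e : ℕ) (hϖ : ϖ = ε * d ^ e) (hε' : ε⁻¹ ∈ V) {G : F}
    (hG : s35_fa_one d V G) (N : ℕ) (hN : e ≤ N) : ϖ⁻¹ * (G - 1) ^ N ∈ V := by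
  have hd0 := hV.ne_zero
  have e1 : G - 1 = d * (d⁻¹ * (G - 1)) := by
    rw [← mul_assoc, mul_inv_cancel₀ hd0, one_mul]
  have hsplit : d ^ N = d ^ e * d ^ (N - e) := by
    rw [← pow_add]; congr 1; omega
  have hde : d ^ e ≠ 0 := pow_ne_zero _ hd0
  have e2 : ϖ⁻¹ * (G - 1) ^ N = ε⁻¹ * (d ^ (N - e) * (d⁻¹ * (G - 1)) ^ N) := by
    rw [e1, mul_pow, hsplit, hϖ, mul_inv]
    rw [← mul_assoc d⁻¹, inv_mul_cancel₀ hd0, one_mul]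
    field_simp
  rw [e2]
  exact V.mul_mem hε' (V.mul_mem (V.pow_mem hV.mem _) (V.pow_mem hG N))

/-- **Triple-point datum.**  `V_A V_B V_C` discrete valuation rings with uniformizers
`dA dB dC`, `ϖ = εX * dX ^ eX` (`εX` a unit of `V_X`, `0 < eX`), `B ≤ V_X`, `𝔪` a prime of `B`
through which all three components pass (`hlocX`), `B_𝔪` closed under `p`-th roots.  A local
factorisation `h = G ^ p * w` with `w` a unit of `B_𝔪` and `G ≡ 1` modulo `dX V_X` for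
`X = A, B, C`, together with `h ≡ 1 mod ϖ (V_A ⊓ V_B ⊓ V_C)`, gives the point datum. -/
theorem s36_pd3_pointData {ϖ dA dB dC εA εB εC : F} {VA VB VC : Subring F}
    (hVA : s34_Unif dA VA) (hVB : s34_Unif dB VB) (hVC : s34_Unif dC VC) (hϖ0 : ϖ ≠ 0)
    (eA eB eC : ℕ) (heA : 0 < eA) (heB : 0 < eB) (heC : 0 < eC)
    (hϖA : ϖ = εA * dA ^ eA) (hϖB : ϖ = εB * dB ^ eB) (hϖC : ϖ = εC * dC ^ eC)
    (hεA : εA ∈ VA) (hεA' : εA⁻¹ ∈ VA) (hεB : εB ∈ VB) (hεB' : εB⁻¹ ∈ VB)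
    (hεC : εC ∈ VC) (hεC' : εC⁻¹ ∈ VC)
    (B : Subring F) (hBA : B ≤ VA) (hBB : B ≤ VB) (hBC : B ≤ VC) (hϖB' : ϖ ∈ B)
    (𝔪 : Ideal B) [h𝔪 : 𝔪.IsPrime]
    (hlocA : ∀ s : B, s ∉ 𝔪 → ((s : F))⁻¹ ∈ VA) (hlocB : ∀ s : B, s ∉ 𝔪 → ((s : F))⁻¹ ∈ VB)
    (hlocC : ∀ s : B, s ∉ 𝔪 → ((s : F))⁻¹ ∈ VC)
    (p : ℕ) (hp0 : (p : F) ≠ 0) (hpu : ((p : F))⁻¹ ∈ B)
    (hroot : ∀ z : F, z ^ p ∈ s18_loc B 𝔪 → z ∈ s18_loc B 𝔪)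
    (h : F) (hh1 : ϖ⁻¹ * (h - 1) ∈ VA ⊓ VB ⊓ VC)
    (G w : F) (hGw : h = G ^ p * w) (hw : w ∈ s18_loc B 𝔪) (hw' : w⁻¹ ∈ s18_loc B 𝔪)
    (hGA : s35_fa_one dA VA G) (hGB : s35_fa_one dB VB G) (hGC : s35_fa_one dC VC G) :
    s36_PointData ϖ B (VA ⊓ VB ⊓ VC) p h 𝔪 := by
  have hBV : B ≤ VA ⊓ VB ⊓ VC := le_inf (le_inf hBA hBB) hBC
  have hϖinv : ϖ⁻¹ ∉ VA ⊓ VB ⊓ VC := fun hmem =>
    s36_pd3_inv_not_mem hVA hϖ0 eA heA hϖA hεA hmem.1.1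
  have hVu : ∀ x ∈ VA ⊓ VB ⊓ VC, (1 + ϖ * x)⁻¹ ∈ VA ⊓ VB ⊓ VC := fun x hx =>
    ⟨⟨s36_pd3_one_add hVA eA heA hϖA hεA hx.1.1, s36_pd3_one_add hVB eB heB hϖB hεB hx.1.2⟩,
      s36_pd3_one_add hVC eC heC hϖC hεC hx.2⟩
  have hlocV : ∀ s : B, s ∉ 𝔪 → ((s : F))⁻¹ ∈ VA ⊓ VB ⊓ VC := fun s hs =>
    ⟨⟨hlocA s hs, hlocB s hs⟩, hlocC s hs⟩
  have hGV : G - 1 ∈ VA ⊓ VB ⊓ VC :=
    ⟨⟨s36_pd3_sub_mem hVA hGA, s36_pd3_sub_mem hVB hGB⟩, s36_pd3_sub_mem hVC hGC⟩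
  have hGN : ϖ⁻¹ * (G - 1) ^ (eA + eB + eC) ∈ VA ⊓ VB ⊓ VC :=
    ⟨⟨s36_pd3_pow hVA eA hϖA hεA' hGA _ (by omega),
        s36_pd3_pow hVB eB hϖB hεB' hGB _ (by omega)⟩,
      s36_pd3_pow hVC eC hϖC hεC' hGC _ (by omega)⟩
  exact s36_pdn_pointData hϖ0 B (VA ⊓ VB ⊓ VC) hBV hϖB' hϖinv hVu 𝔪 hlocV p hp0 hpu hroot h hh1
    G w hGw hw hw' hGV (eA + eB + eC) hGN

end Fermat.Agent.S36
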