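import Mathlib
import Fermat.Agent.S34.ExtTwo
import Fermat.Agent.S34.SmoothPoint
import Fermat.Agent.S36.ExtRam
import Fermat.Agent.S36.ExtThree

/-!
# S36 (NODE-3): the third valuation ring `V_C` is uniformized by `z` — an output of the count

Setting of `S36/ExtThree.lean`: `R` a discrete valuation ring with uniformizer `ϖ`, residue
characteristic `q`, `F / F'` finite separable of degree `≤ q (q + 1)`, three pairwise distinct
valuation subrings `VA`, `VB`, `VC` of `F` dominating `R`, the residue field of `VB` of degree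
`≥ q²`, and ONE non-unit `z ≠ 0` of `VC` with `z ^ (q - 1) ∣ ϖ` in `VC`.

The count `1 + q² + (q - 1) = q (q + 1)` gives more than integrality of `VA ∩ VB ∩ VC`:

* `z` is a uniformizer of `VC` (every `x ≠ 0` is `z ^ j · unit`), and `ϖ = unit · z ^ (q - 1)`;
* the residue fields of `VA` and of `VC` are that of `R`;
* `ϖ` is a uniformizer of `VA` and of `VB`.

So `VC` needs to be known only as a valuation ring (`x ∈ VC ∨ x⁻¹ ∈ VC`) with one non-unit `z`
such that `z ^ (q - 1) ∣ ϖ`.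

* `s36_uc_count` : the counting step with all equalities;
* `s36_uc_main` : the statement for valuation subrings;
* `s36_uc_two` : the subring / two-field form (`s34_Unif` vocabulary).
-/

set_option autoImplicit false
set_option linter.style.haveILetI false

namespace Fermat.Agent.S36

open IsDedekindDomain Fermat.Agent.S34 Polynomial

/-- Counting, three points, with all the equalities: `∑ e f ≤ q (q + 1)`, `f b ≥ q²`,
`e c ≥ q - 1`. -/
theorem s36_uc_count {ι : Type*} [DecidableEq ι] (T : Finset ι) (e f : ι → ℕ) (q : ℕ)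
    (a b c : ι) (ha : a ∈ T) (hb : b ∈ T) (hc : c ∈ T) (hab : a ≠ b) (hac : a ≠ c)
    (hbc : b ≠ c) (he : ∀ i ∈ T, 1 ≤ e i) (hf : ∀ i ∈ T, 1 ≤ f i) (hq : 2 ≤ q)
    (hfb : q ^ 2 ≤ f b) (hec : q - 1 ≤ e c) (hsum : ∑ i ∈ T, e i * f i ≤ q * (q + 1)) :
    e a = 1 ∧ f a = 1 ∧ e b = 1 ∧ e c = q - 1 ∧ f c = 1 ∧
      ∀ i ∈ T, i = a ∨ i = b ∨ i = c := by
  have hb' : b ∈ T.erase a := Finset.mem_erase.2 ⟨hab.symm, hb⟩
  have hc' : c ∈ (T.erase a).erase b :=
    Finset.mem_erase.2 ⟨hbc.symm, Finset.mem_erase.2 ⟨hac.symm, hc⟩⟩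
  rw [← Finset.add_sum_erase T _ ha, ← Finset.add_sum_erase (T.erase a) _ hb',
    ← Finset.add_sum_erase ((T.erase a).erase b) _ hc'] at hsum
  have h1 : 1 ≤ e a * f a := Nat.mul_pos (he a ha) (hf a ha)
  have h2 : q ^ 2 ≤ e b * f b := le_trans hfb (Nat.le_mul_of_pos_left _ (he b hb))
  have h3 : q - 1 ≤ e c * f c := le_trans hec (Nat.le_mul_of_pos_right _ (hf c hc))
  have hqq : q * (q + 1) = q ^ 2 + q := by ring
  have hq2 : 1 ≤ q ^ 2 := Nat.one_le_pow _ _ (by omega)
  have hr0 : ∑ i ∈ ((T.erase a).erase b).erase c, e i * f i = 0 := by omega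
  have h4 : e a * f a = 1 := by omega
  have h5 : e b * f b = q ^ 2 := by omega
  have h6 : e c * f c = q - 1 := by omega
  have h7 : e a = 1 ∧ f a = 1 := by
    have hea := he a ha
    have hfa := hf a ha
    rcases Nat.lt_or_ge 1 (e a) with h | h
    · have : 2 * 1 ≤ e a * f a := Nat.mul_le_mul h hfa
      omega
    · have hea1 : e a = 1 := le_antisymm h hea
      rw [hea1, one_mul] at h4
      exact ⟨hea1, h4⟩
  have h8 : e b = 1 := by
    by_contra hne
    have h' : 2 ≤ e b := by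
      have := he b hb
      omega
    have h'' : 2 * q ^ 2 ≤ e b * f b := Nat.mul_le_mul h' hfb
    omega
  have h9 : f c = 1 := by
    by_contra hne
    have h' : 2 ≤ f c := by
      have := hf c hc
      omega
    have h'' : (q - 1) * 2 ≤ e c * f c := Nat.mul_le_mul hec h'
    omega
  have h10 : e c = q - 1 := by
    rw [h9, mul_one] at h6
    exact h6
  refine ⟨h7.1, h7.2, h8, h10, h9, ?_⟩
  intro i hi
  by_contra hcon
  rw [not_or, not_or] at hcon
  have hi' : i ∈ ((T.erase a).erase b).erase c :=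
    Finset.mem_erase.2 ⟨hcon.2.2, Finset.mem_erase.2 ⟨hcon.2.1, Finset.mem_erase.2 ⟨hcon.1, hi⟩⟩⟩
  have h11 := (Finset.sum_eq_zero_iff.1 hr0) i hi'
  have h12 : 1 ≤ e i * f i := Nat.mul_pos (he i hi) (hf i hi)
  omega

set_option linter.deprecated false in
/-- **Three extensions, with the by-products.**  Hypotheses of `s36_e3_main`.  Conclusions:
integrality of `VA ∩ VB ∩ VC` over `R`; `z` is a uniformizer of `VC` and `ϖ = unit · z ^ (q - 1)`
there; the residue fields of `VC` and `VA` are that of `R`; `ϖ` is a uniformizer of `VA` and of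
`VB`. -/
theorem s36_uc_main {R F' F : Type*} [CommRing R] [IsDomain R] [IsDiscreteValuationRing R]
    [Field F'] [Field F] [Algebra R F'] [IsFractionRing R F'] [Algebra F' F] [Algebra R F]
    [IsScalarTower R F' F] [FiniteDimensional F' F] [Algebra.IsSeparable F' F]
    (q : ℕ) (hq : q.Prime) (hdeg : Module.finrank F' F ≤ q * (q + 1))
    {ϖ : R} (hϖ : Irreducible ϖ) (hqR : (q : R) ∈ IsLocalRing.maximalIdeal R)
    (VA VB VC : ValuationSubring F) (hAB : VA ≠ VB) (hAC : VA ≠ VC) (hBC : VB ≠ VC)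
    (hRA : ∀ r : R, algebraMap R F r ∈ VA) (hϖA : (algebraMap R F ϖ)⁻¹ ∉ VA)
    (hRB : ∀ r : R, algebraMap R F r ∈ VB) (hϖB : (algebraMap R F ϖ)⁻¹ ∉ VB)
    (hRC : ∀ r : R, algebraMap R F r ∈ VC)
    (θ : F) (c : R) (hθ : θ ∈ VB) (hθc : VB.valuation (θ ^ (q ^ 2) - algebraMap R F c) < 1)
    (hc : ∀ d : R, IsUnit (d ^ q - c))
    (z : F) (hz0 : z ≠ 0) (hz : VC.valuation z < 1)
    (hzn : algebraMap R F ϖ * (z ^ (q - 1))⁻¹ ∈ VC) :
    (∀ x : F, x ∈ VA → x ∈ VB → x ∈ VC → IsIntegral R x) ∧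
    (∀ x : F, x ≠ 0 → ∃ (j : ℤ) (u : F), u ∈ VC ∧ u⁻¹ ∈ VC ∧ x = z ^ j * u) ∧
    z ^ (q - 1) * (algebraMap R F ϖ)⁻¹ ∈ VC ∧
    (∀ y ∈ VC, ∃ r : R, z⁻¹ * (y - algebraMap R F r) ∈ VC) ∧
    (∀ y ∈ VA, ∃ r : R, (algebraMap R F ϖ)⁻¹ * (y - algebraMap R F r) ∈ VA) ∧
    (∀ y : F, VA.valuation y < 1 → (algebraMap R F ϖ)⁻¹ * y ∈ VA) ∧
    (∀ y : F, VB.valuation y < 1 → (algebraMap R F ϖ)⁻¹ * y ∈ VB) := by
  classical
  have : IsDedekindDomain (integralClosure R F) := integralClosure.isDedekindDomain R F' F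
  have : IsFractionRing (integralClosure R F) F :=
    integralClosure.isFractionRing_of_finite_extension F' F
  have : Module.Finite R (integralClosure R F) := IsIntegralClosure.finite R F' F _
  have hinj : Function.Injective (algebraMap R F) := by
    rw [IsScalarTower.algebraMap_eq R F' F]
    exact (algebraMap F' F).injective.comp (IsFractionRing.injective R F')
  have : FaithfulSMul R F := (faithfulSMul_iff_algebraMap_injective R F).2 hinj
  set p := IsLocalRing.maximalIdeal R with hp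
  have hp0 : p ≠ ⊥ := IsDiscreteValuationRing.not_a_field R
  have hϖF0 : algebraMap R F ϖ ≠ 0 := fun h =>
    hϖ.ne_zero (hinj (by rw [h, map_zero]))
  have hn : 1 ≤ q - 1 := by
    have := hq.two_le
    omega
  -- `ϖ` is a non-unit of `VC`
  have hϖClt : VC.valuation (algebraMap R F ϖ) < 1 := by
    have h1 : algebraMap R F ϖ = (algebraMap R F ϖ * (z ^ (q - 1))⁻¹) * z ^ (q - 1) := by
      rw [mul_assoc, inv_mul_cancel₀ (pow_ne_zero _ hz0), mul_one]
    rw [h1, map_mul, map_pow]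
    calc VC.valuation (algebraMap R F ϖ * (z ^ (q - 1))⁻¹) * VC.valuation z ^ (q - 1)
        ≤ 1 * VC.valuation z ^ (q - 1) :=
          mul_le_mul_left ((VC.valuation_le_one_iff _).2 hzn) _
      _ < 1 := by
          rw [one_mul]
          exact pow_lt_one₀ zero_le' hz (Nat.one_le_iff_ne_zero.1 hn)
  have hϖC : (algebraMap R F ϖ)⁻¹ ∉ VC := by
    intro h
    rw [← VC.valuation_le_one_iff, map_inv₀] at h
    have h0 : VC.valuation (algebraMap R F ϖ) ≠ 0 := (Valuation.ne_zero_iff _).2 hϖF0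
    have h2 : 1 ≤ VC.valuation (algebraMap R F ϖ) := (inv_le_one₀ (zero_lt_iff.2 h0)).1 h
    exact absurd hϖClt (not_lt.2 h2)
  obtain ⟨vA, hA1, hA2, hA3, hA4⟩ := s34_ext_prime hϖ VA hRA hϖA
  obtain ⟨vB, hB1, hB2, hB3, hB4⟩ := s34_ext_prime hϖ VB hRB hϖB
  obtain ⟨vC, hC1, hC2, hC3, hC4⟩ := s34_ext_prime hϖ VC hRC hϖC
  have hvAB : vA.asIdeal ≠ vB.asIdeal := by
    intro h
    have h' : vA = vB := HeightOneSpectrum.ext h
    apply hAB
    ext x
    rw [hA2, hB2, h']
  have hvAC : vA.asIdeal ≠ vC.asIdeal := by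
    intro h
    have h' : vA = vC := HeightOneSpectrum.ext h
    apply hAC
    ext x
    rw [hA2, hC2, h']
  have hvBC : vB.asIdeal ≠ vC.asIdeal := by
    intro h
    have h' : vB = vC := HeightOneSpectrum.ext h
    apply hBC
    ext x
    rw [hB2, hC2, h']
  have hTA : vA.asIdeal ∈ IsDedekindDomain.primesOverFinset p (integralClosure R F) :=
    (IsDedekindDomain.mem_primesOverFinset_iff hp0 _).2 ⟨vA.isPrime, hA4⟩
  have hTB : vB.asIdeal ∈ IsDedekindDomain.primesOverFinset p (integralClosure R F) :=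
    (IsDedekindDomain.mem_primesOverFinset_iff hp0 _).2 ⟨vB.isPrime, hB4⟩
  have hTC : vC.asIdeal ∈ IsDedekindDomain.primesOverFinset p (integralClosure R F) :=
    (IsDedekindDomain.mem_primesOverFinset_iff hp0 _).2 ⟨vC.isPrime, hC4⟩
  have hsum := Ideal.sum_ramification_inertia (integralClosure R F) F' F hp0
  have he : ∀ P ∈ IsDedekindDomain.primesOverFinset p (integralClosure R F),
      1 ≤ Ideal.ramificationIdx' p P := by
    intro P hP
    obtain ⟨hP1, hP2⟩ := (IsDedekindDomain.mem_primesOverFinset_iff hp0 _).1 hP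
    exact Nat.one_le_iff_ne_zero.2 (Ideal.IsDedekindDomain.ramificationIdx'_ne_zero_of_liesOver P hp0)
  have hf : ∀ P ∈ IsDedekindDomain.primesOverFinset p (integralClosure R F),
      1 ≤ Ideal.inertiaDeg' p P := by
    intro P hP
    obtain ⟨hP1, hP2⟩ := (IsDedekindDomain.mem_primesOverFinset_iff hp0 _).1 hP
    exact Ideal.inertiaDeg'_pos p P
  have hϖS0 : algebraMap R (integralClosure R F) ϖ ≠ 0 := by
    intro h
    have h2 := congrArg (algebraMap (integralClosure R F) F) h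
    rw [← IsScalarTower.algebraMap_apply, map_zero, ← map_zero (algebraMap R F)] at h2
    exact hϖ.ne_zero (hinj h2)
  -- residue degree of `VB`
  have hfB : q ^ 2 ≤ Ideal.inertiaDeg' p vB.asIdeal := by
    rw [Ideal.inertiaDeg'_algebraMap]
    obtain ⟨s0, hs0⟩ := vB.exists_valuation_sub_lt_of_integer ((hB2 θ).1 hθ) 1
    haveI : vB.asIdeal.IsMaximal := vB.isMaximal
    refine s36_e3_inertia_ge p vB.asIdeal q hq hqR c s0 ?_ ?_
    · rw [hB1]
      have hs0V : (s0 : F) ∈ VB := s34_ext_mem_of_integral VB hRB s0.2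
      let a : VB := ⟨(s0 : F), hs0V⟩
      let b : VB := ⟨θ, hθ⟩
      let c' : VB := ⟨algebraMap R F c, hRB c⟩
      have hab : a - b ∈ IsLocalRing.maximalIdeal VB := by
        rw [ValuationSubring.valuation_lt_one_iff, hB3]
        simpa using hs0
      have hbc : b ^ (q ^ 2) - c' ∈ IsLocalRing.maximalIdeal VB := by
        rw [ValuationSubring.valuation_lt_one_iff]
        exact hθc
      have hac : a ^ (q ^ 2) - c' ∈ IsLocalRing.maximalIdeal VB := by
        have h1 : a ^ (q ^ 2) - c' = (a ^ (q ^ 2) - b ^ (q ^ 2)) + (b ^ (q ^ 2) - c') := by ring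
        rw [h1]
        exact Ideal.add_mem _ (Ideal.mem_of_dvd _ (sub_dvd_pow_sub_pow a b (q ^ 2)) hab) hbc
      rw [ValuationSubring.valuation_lt_one_iff] at hac
      exact hac
    · intro d hd
      exact (IsLocalRing.mem_maximalIdeal _).1 hd (hc d)
  -- valuations of `ϖ`
  have hvϖ : ∀ v : HeightOneSpectrum (integralClosure R F),
      v.valuation F (algebraMap R F ϖ)
        = WithZero.exp (-(Ideal.ramificationIdx' p v.asIdeal : ℤ)) := by
    intro v
    rw [IsScalarTower.algebraMap_apply R (integralClosure R F) F,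
      HeightOneSpectrum.valuation_of_algebraMap]
    exact s36_ext_val_ram p ϖ hϖ.maximalIdeal_eq hϖS0 v
  have hzle : vC.valuation F z ≤ WithZero.exp (-1 : ℤ) :=
    s36_ext_val_le_exp vC z ((hC3 z).1 hz)
  have hzC0 : vC.valuation F z ≠ 0 := (Valuation.ne_zero_iff _).2 hz0
  have hϖle : vC.valuation F (algebraMap R F ϖ) ≤ vC.valuation F z ^ (q - 1) := by
    have h1 := (hC2 _).1 hzn
    rw [map_mul, map_inv₀, map_pow] at h1
    have h2 : (0 : WithZero (Multiplicative ℤ)) < vC.valuation F z ^ (q - 1) :=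
      zero_lt_iff.2 (pow_ne_zero _ hzC0)
    calc vC.valuation F (algebraMap R F ϖ)
        = (vC.valuation F (algebraMap R F ϖ) * (vC.valuation F z ^ (q - 1))⁻¹)
            * vC.valuation F z ^ (q - 1) := by
          rw [mul_assoc, inv_mul_cancel₀ h2.ne', mul_one]
      _ ≤ 1 * vC.valuation F z ^ (q - 1) := mul_le_mul_left h1 _
      _ = vC.valuation F z ^ (q - 1) := one_mul _
  have heC : q - 1 ≤ Ideal.ramificationIdx' p vC.asIdeal := by
    have h1 : WithZero.exp (-(Ideal.ramificationIdx' p vC.asIdeal : ℤ))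
        ≤ WithZero.exp (-((q - 1 : ℕ) : ℤ)) := by
      rw [← hvϖ vC, ← s36_ext_exp_pow]
      exact hϖle.trans (pow_le_pow_left₀ zero_le' hzle (q - 1))
    rw [WithZero.exp_le_exp] at h1
    omega
  obtain ⟨heA1, hfA1, heB1, heC', hfC1, hall⟩ := s36_uc_count
    (IsDedekindDomain.primesOverFinset p (integralClosure R F))
    (fun P => Ideal.ramificationIdx' p P) (fun P => Ideal.inertiaDeg' p P) q
    vA.asIdeal vB.asIdeal vC.asIdeal hTA hTB hTC hvAB hvAC hvBC he hf hq.two_le hfB heC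
    (hsum.trans_le hdeg)
  have heC'' : Ideal.ramificationIdx' p vC.asIdeal = q - 1 := heC'
  -- `z` has valuation exactly `exp (-1)`
  have hzeq : vC.valuation F z = WithZero.exp (-1 : ℤ) := by
    rcases lt_or_eq_of_le hzle with h | h
    · exfalso
      have h1 : vC.valuation F z ^ (q - 1) < (WithZero.exp (-1 : ℤ)) ^ (q - 1) :=
        pow_lt_pow_left₀ h zero_le' (Nat.one_le_iff_ne_zero.1 hn)
      have h2 := hvϖ vC
      rw [heC''] at h2
      rw [s36_ext_exp_pow, ← h2] at h1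
      exact absurd hϖle (not_le.2 h1)
    · exact h
  have huniA : ∀ y : F, VA.valuation y < 1 → (algebraMap R F ϖ)⁻¹ * y ∈ VA := by
    intro y hy
    rw [hA2, IsScalarTower.algebraMap_apply R (integralClosure R F) F]
    exact s34_ext_unif vA _ (s34_ext_val_unif p ϖ hϖ.maximalIdeal_eq hϖS0 vA heA1) y
      ((hA3 y).1 hy)
  have huniB : ∀ y : F, VB.valuation y < 1 → (algebraMap R F ϖ)⁻¹ * y ∈ VB := by
    intro y hy
    rw [hB2, IsScalarTower.algebraMap_apply R (integralClosure R F) F]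
    exact s34_ext_unif vB _ (s34_ext_val_unif p ϖ hϖ.maximalIdeal_eq hϖS0 vB heB1) y
      ((hB3 y).1 hy)
  have huniC : ∀ y : F, VC.valuation y < 1 → z⁻¹ * y ∈ VC := by
    intro y hy
    rw [hC2, map_mul, map_inv₀]
    have hyle := s36_ext_val_le_exp vC y ((hC3 y).1 hy)
    calc (vC.valuation F z)⁻¹ * vC.valuation F y
        ≤ (vC.valuation F z)⁻¹ * vC.valuation F z :=
          mul_le_mul_right (hzeq ▸ hyle) _
      _ = 1 := inv_mul_cancel₀ hzC0
  have hres : ∀ (V : ValuationSubring F) (v : HeightOneSpectrum (integralClosure R F)),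
      (∀ x : F, x ∈ V ↔ v.valuation F x ≤ 1) →
      (∀ x : F, V.valuation x < 1 ↔ v.valuation F x < 1) →
      v.asIdeal.LiesOver p →
      Ideal.inertiaDeg' p v.asIdeal = 1 →
      ∀ y ∈ V, ∃ r : R, V.valuation (y - algebraMap R F r) < 1 := by
    intro V v h2 h3 hlo hf1 y hy
    have := hlo
    obtain ⟨a, ha⟩ := v.exists_valuation_sub_lt_of_integer ((h2 y).1 hy) 1
    obtain ⟨r, hr⟩ := s34_ext_inertia_one p v.asIdeal
      (by rw [← Ideal.inertiaDeg'_algebraMap]; exact hf1) a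
    refine ⟨r, ?_⟩
    rw [h3]
    have e1 : y - algebraMap R F r
        = algebraMap (integralClosure R F) F (a - algebraMap R (integralClosure R F) r)
          - (algebraMap (integralClosure R F) F a - y) := by
      rw [map_sub, ← IsScalarTower.algebraMap_apply]
      ring
    rw [e1]
    refine lt_of_le_of_lt (Valuation.map_sub _ _ _) (max_lt ?_ ?_)
    · exact (v.valuation_lt_one_iff_mem _).2 hr
    · simpa using ha
  refine ⟨?_, ?_, ?_, ?_, ?_, huniA, huniB⟩
  · intro x hxA hxB hxC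
    have hmem : x ∈ (algebraMap (integralClosure R F) F).range := by
      apply HeightOneSpectrum.mem_integers_of_valuation_le_one
      intro v
      have hvT : v.asIdeal ∈ IsDedekindDomain.primesOverFinset p (integralClosure R F) := by
        rw [IsDedekindDomain.mem_primesOverFinset_iff hp0]
        refine ⟨v.isPrime, ⟨?_⟩⟩
        have hmax : (v.asIdeal.under R).IsMaximal :=
          Ideal.isMaximal_comap_of_isIntegral_of_isMaximal v.asIdeal
        exact (IsLocalRing.eq_maximalIdeal hmax).symm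
      rcases hall _ hvT with h | h | h
      · have h' : v = vA := HeightOneSpectrum.ext h
        rw [h']
        exact (hA2 x).1 hxA
      · have h' : v = vB := HeightOneSpectrum.ext h
        rw [h']
        exact (hB2 x).1 hxB
      · have h' : v = vC := HeightOneSpectrum.ext h
        rw [h']
        exact (hC2 x).1 hxC
    obtain ⟨s, rfl⟩ := hmem
    exact s.2
  · -- `z` uniformizes `VC`
    intro x hx
    have hx0 : vC.valuation F x ≠ 0 := (Valuation.ne_zero_iff _).2 hx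
    obtain ⟨j, hj⟩ : ∃ j : ℤ, vC.valuation F x = WithZero.exp j :=
      ⟨WithZero.log (vC.valuation F x), (WithZero.exp_log hx0).symm⟩
    have hzj : vC.valuation F (z ^ (-j)) = WithZero.exp j := by
      rw [map_zpow₀, hzeq, ← WithZero.exp_zsmul]
      congr 1
      simp
    have hu1 : vC.valuation F (x * z ^ j) = 1 := by
      have h1 : vC.valuation F (z ^ j) * vC.valuation F (z ^ (-j)) = 1 := by
        rw [← map_mul, ← zpow_add₀ hz0]
        simp
      rw [map_mul, hj, ← hzj, mul_comm]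
      exact h1
    refine ⟨-j, x * z ^ j, ?_, ?_, ?_⟩
    · rw [hC2, hu1]
    · rw [hC2, map_inv₀, hu1, inv_one]
    · rw [mul_comm x, ← mul_assoc, ← zpow_add₀ hz0]
      simp
  · rw [hC2, map_mul, map_inv₀, map_pow, hzeq, s36_ext_exp_pow, hvϖ vC, heC'',
      ← WithZero.exp_neg, ← WithZero.exp_add]
    simp
  · intro y hy
    obtain ⟨r, hr⟩ := hres VC vC hC2 hC3 hC4 hfC1 y hy
    exact ⟨r, huniC _ hr⟩
  · intro y hy
    obtain ⟨r, hr⟩ := hres VA vA hA2 hA3 hA4 hfA1 y hy
    exact ⟨r, huniA _ hr⟩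

section TwoField

open Fermat.Agent.S35

/-- **Subring / two-field form.**  Hypotheses of `s36_e3_two'`, except that `VC` is only assumed to
be a valuation ring (`x ∈ VC ∨ x⁻¹ ∈ VC`) containing a non-unit `z` with `z ^ (q - 1) ∣ ι ϖ''`.
Conclusions: `z` is a uniformizer of `VC` (`s34_Unif z VC`); `VA ∩ VB ∩ VC` is integral over
`ι V'`; `ι ϖ'' = unit · z ^ (q - 1)` in `VC`; the residue fields of `VC` and `VA` are that of
`V'`. -/
theorem s36_uc_two {F'' F : Type*} [Field F''] [Field F] [CharZero F''] (ι : F'' →+* F)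
    (hfin : letI := ι.toAlgebra; Module.Finite F'' F)
    (q : ℕ) (hq : q.Prime)
    (hdeg : letI := ι.toAlgebra; Module.finrank F'' F ≤ q * (q + 1))
    {ϖ'' : F''} (V' : Subring F'') (hV' : s34_Unif ϖ'' V') (hqϖ : ϖ''⁻¹ * (q : F'') ∈ V')
    (VA VB VC : Subring F) (hVA : s34_Unif (ι ϖ'') VA) (hVB : s34_Unif (ι ϖ'') VB)
    (hval : ∀ x : F, x ∈ VC ∨ x⁻¹ ∈ VC) {z : F} (hz : z ∈ VC) (hzinv : z⁻¹ ∉ VC)
    (hA : ∀ x ∈ V', ι x ∈ VA) (hB : ∀ x ∈ V', ι x ∈ VB) (hC : ∀ x ∈ V', ι x ∈ VC)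
    (hAB : ∃ x ∈ VA, x ∉ VB) (hAC : ∃ x ∈ VA, x ∉ VC) (hBC : ∃ x ∈ VB, x ∉ VC)
    (hzn : ι ϖ'' * (z ^ (q - 1))⁻¹ ∈ VC)
    (θ : F) (c : F'') (hc : c ∈ V') (hθ : θ ∈ VB)
    (hθc : (ι ϖ'')⁻¹ * (θ ^ (q ^ 2) - ι c) ∈ VB)
    (hpow : ∀ d ∈ V', ϖ''⁻¹ * (d ^ q - c) ∉ V') :
    s34_Unif z VC ∧
    (∀ y ∈ VA, y ∈ VB → y ∈ VC →
      ∃ P : Polynomial V', P.Monic ∧ P.eval₂ (ι.comp V'.subtype) y = 0) ∧
    z ^ (q - 1) * (ι ϖ'')⁻¹ ∈ VC ∧
    (∀ y ∈ VC, ∃ y' ∈ V', z⁻¹ * (y - ι y') ∈ VC) ∧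
    (∀ y ∈ VA, ∃ y' ∈ V', (ι ϖ'')⁻¹ * (y - ι y') ∈ VA) := by
  have hV'5 : s35_Unif ϖ'' V' := s36_e3_unif hV'
  have hVA5 : s35_Unif (ι ϖ'') VA := s36_e3_unif hVA
  have hVB5 : s35_Unif (ι ϖ'') VB := s36_e3_unif hVB
  letI : Algebra F'' F := ι.toAlgebra
  letI : Algebra V' F := (ι.comp V'.subtype).toAlgebra
  haveI : IsScalarTower V' F'' F := IsScalarTower.of_algebraMap_eq (fun _ => rfl)
  haveI : IsDiscreteValuationRing V' := hV'5.isDVR
  haveI : IsFractionRing V' F'' := hV'5.isFractionRing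
  haveI : FiniteDimensional F'' F := hfin
  haveI : Algebra.IsSeparable F'' F := inferInstance
  let VCv : ValuationSubring F := { VC with mem_or_inv_mem' := hval }
  have hz0 : z ≠ 0 := by
    rintro rfl
    apply hzinv
    rw [inv_zero]
    exact VC.zero_mem
  have hzlt : VCv.valuation z < 1 := s34_ext_val_lt_one VCv hzinv
  have hqR : ((q : ℕ) : V') ∈ IsLocalRing.maximalIdeal V' := by
    rw [IsLocalRing.mem_maximalIdeal]
    intro hu
    obtain ⟨b, hb⟩ := isUnit_iff_exists_inv.mp hu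
    apply hV'.inv_not_mem
    have h1 : (q : F'') * (b : F'') = 1 := by
      have := congrArg (Subtype.val : V' → F'') hb
      simpa using this
    have hq0 : (q : F'') ≠ 0 := left_ne_zero_of_mul_eq_one h1
    have e : ϖ''⁻¹ = ϖ''⁻¹ * (q : F'') * (b : F'') := by
      rw [mul_assoc, h1, mul_one]
    rw [e]
    exact V'.mul_mem hqϖ b.2
  obtain ⟨k1, k2, k3, k4, k5, -, -⟩ := s36_uc_main (R := V') (F' := F'') (F := F) q hq hdeg
    (ϖ := ⟨ϖ'', hV'.mem⟩) hV'5.irreducible hqR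
    (s36_ei_vs VA hVA5) (s36_ei_vs VB hVB5) VCv
    (by
      obtain ⟨x, hx1, hx2⟩ := hAB
      intro h
      apply hx2
      have h3 : x ∈ s36_ei_vs VA hVA5 := hx1
      rw [h] at h3
      exact h3)
    (by
      obtain ⟨x, hx1, hx2⟩ := hAC
      intro h
      apply hx2
      have h3 : x ∈ s36_ei_vs VA hVA5 := hx1
      rw [h] at h3
      exact h3)
    (by
      obtain ⟨x, hx1, hx2⟩ := hBC
      intro h
      apply hx2
      have h3 : x ∈ s36_ei_vs VB hVB5 := hx1
      rw [h] at h3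
      exact h3)
    (fun r => hA r r.2) hVA.inv_not_mem (fun r => hB r r.2) hVB.inv_not_mem
    (fun r => hC r r.2)
    θ ⟨c, hc⟩ hθ (s36_ei_val_lt hVB5 _ hθc)
    (fun d => s36_ei_isUnit hV'5 _ (hpow d d.2))
    z hz0 hzlt hzn
  refine ⟨⟨hz, hzinv, fun x hx => k2 x hx⟩, ?_, k3, ?_, ?_⟩
  · intro y hyA hyB hyC
    obtain ⟨P, hP, hPy⟩ := k1 y hyA hyB hyC
    exact ⟨P, hP, hPy⟩
  · intro y hy
    obtain ⟨r, hr⟩ := k4 y hy
    exact ⟨r, r.2, hr⟩
  · intro y hy
    obtain ⟨r, hr⟩ := k5 y hy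
    exact ⟨r, r.2, hr⟩

end TwoField

end Fermat.Agent.S36
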