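import Mathlib
import Fermat.Prelude.Def_ModularCurve_HeckeOperator
import Fermat.Agent.S36.CapSq
import Fermat.Agent.S36.UnifC

/-!
# S36 (NODE-3): the third component `V_C` of level `N q²` — everything from ONE non-unit `z`

Model of level `N (q q)` as in `S36/CapSq.lean` (`K` any field of characteristic zero with an
embedding into `Q̄`, no Galois hypothesis; `A₁` a discrete valuation ring of `K`, uniformizer `π`,
`q ∈ π A₁`, `q ∤ N`; `V_A = s34_gi_V A₁ (N (q q))`, `V_B = V_A.comap W`).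

For the third ring `V_C` it is enough to know that it is a valuation ring (`x ∈ V_C ∨ x⁻¹ ∈ V_C`)
of `F = K · F_(N (q q))` containing `α V'`, different from `V_A` and `V_B`, with ONE non-unit `z`
such that `z ^ (q - 1) ∣ π` in `V_C`.  Then (`s36_uc_model`):

* `z` is a uniformizer of `V_C` : `s34_Unif z V_C`;
* `V_A ∩ V_B ∩ V_C` is integral over `α V'` (the hypothesis `ha3` of `s36_cq_cap`);
* `π = unit · z ^ (q - 1)` in `V_C`;
* the residue fields of `V_C` and of `V_A` are that of the Gauss ring `V'` of level `N`.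

`s36_uc_cap_model` : the cap property of the integral-closure charts of level `N (q q)` under the
same hypotheses.
-/

set_option autoImplicit false
set_option synthInstance.maxHeartbeats 400000
set_option linter.unusedSectionVars false
set_option linter.style.haveILetI false

open ModularCurve ModularCurve.IgusaScheme AlgebraicCurve

noncomputable section

namespace Fermat.Agent.S36

open Fermat.Agent.S18 Fermat.Agent.S28 Fermat.Agent.S34 Fermat.Agent.S29 Fermat.Agent.S24

local notation "Qb" => AlgebraicClosure ℚ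

section Integral

variable {K : Type*} [Field K] [Algebra ℚ K] [Algebra K Qb] {A₁ : ValuationSubring K}
variable {N q : ℕ} [NeZero N] [NeZero q]
variable [IsDiscreteValuationRing A₁] {π : A₁}

local notation "F'" => laurentBaseChange K (modularFunctionFieldFull N)
local notation "FF" => laurentBaseChange K (modularFunctionFieldFull (N * (q * q)))

/-- **The third component of level `N q²` from one non-unit.**  In the model of level `N q²`
(`q ∤ N`), let `V_C` be a valuation ring of `F` containing `α V'`, different from `V_A` and `V_B`,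
and `z ∈ V_C` a non-unit with `z ^ (q - 1) ∣ π` in `V_C`.  Then `z` is a uniformizer of `V_C`,
`V_A ∩ V_B ∩ V_C` is integral over `α V'`, `π = unit · z ^ (q - 1)` in `V_C`, and the residue
fields of `V_C` and of `V_A` are that of `V'`. -/
theorem s36_uc_model [Fact q.Prime] (hqN : ¬ q ∣ N) (hπ : Irreducible π) (c : A₁)
    (hq : (q : A₁) = π * c) (W : FF ≃+* FF)
    (hWϖ : W (algebraMap K FF (π : K)) = algebraMap K FF (π : K))
    (hWα : ∀ x : F', W (heckeAlphaBar K N (q * q) x) = heckeBetaBar K N (q * q) x)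
    (hWβ : ∀ x : F', W (heckeBetaBar K N (q * q) x) = heckeAlphaBar K N (q * q) x)
    (x : F') (T : LaurentSeries ℤ) (hT : (x : LaurentSeries K) = coeffMap (Int.castRingHom K) T)
    (hlead : T.coeff (-1) = 1) (hlow : ∀ n < (-1 : ℤ), T.coeff n = 0)
    (VC : Subring FF) (hval : ∀ y : FF, y ∈ VC ∨ y⁻¹ ∈ VC) {z : FF} (hz : z ∈ VC)
    (hzinv : z⁻¹ ∉ VC)
    (hC : ∀ y ∈ s34_gi_V A₁ N, heckeAlphaBar K N (q * q) y ∈ VC)
    (hAC : ∃ y ∈ s34_gi_V A₁ (N * (q * q)), y ∉ VC)
    (hBC : ∃ y ∈ (s34_gi_V A₁ (N * (q * q))).comap (W : FF →+* FF), y ∉ VC)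
    (hzn : algebraMap K FF (π : K) * (z ^ (q - 1))⁻¹ ∈ VC) :
    s34_Unif z VC ∧
    (∀ y ∈ s34_gi_V A₁ (N * (q * q)), y ∈ (s34_gi_V A₁ (N * (q * q))).comap (W : FF →+* FF) →
      y ∈ VC → ∃ P : Polynomial (s34_gi_V A₁ N), P.Monic ∧
        P.eval₂ ((heckeAlphaBar K N (q * q)).toRingHom.comp (s34_gi_V A₁ N).subtype) y = 0) ∧
    z ^ (q - 1) * (algebraMap K FF (π : K))⁻¹ ∈ VC ∧
    (∀ y ∈ VC, ∃ y' ∈ s34_gi_V A₁ N, z⁻¹ * (y - heckeAlphaBar K N (q * q) y') ∈ VC) ∧
    (∀ y ∈ s34_gi_V A₁ (N * (q * q)), ∃ y' ∈ s34_gi_V A₁ N,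
      (algebraMap K FF (π : K))⁻¹ * (y - heckeAlphaBar K N (q * q) y') ∈
        s34_gi_V A₁ (N * (q * q))) := by
  have hqp : q.Prime := Fact.out
  haveI : CharZero K := algebraRat.charZero K
  haveI : CharZero F' := charZero_of_injective_algebraMap (algebraMap K F').injective
  have hιϖ : (heckeAlphaBar K N (q * q)).toRingHom (algebraMap K F' (π : K)) =
      algebraMap K FF (π : K) := (heckeAlphaBar K N (q * q)).commutes (π : K)
  have hdeg := s36_cq_deg K N q hqp hqN
  have hV' := s34_gi_unif (A₁ := A₁) (N := N) hπ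
  have hVA : s34_Unif ((heckeAlphaBar K N (q * q)).toRingHom (algebraMap K F' (π : K)))
      (s34_gi_V A₁ (N * (q * q))) := by
    rw [hιϖ]
    exact s34_gi_unif hπ
  have hVB : s34_Unif ((heckeAlphaBar K N (q * q)).toRingHom (algebraMap K F' (π : K)))
      ((s34_gi_V A₁ (N * (q * q))).comap (W : FF →+* FF)) := by
    rw [hιϖ]
    exact s34_gz_V0_unif W hπ hWϖ
  have hx : x ∈ s34_gi_V A₁ N := s34_gz_mem_int x T hT
  have hθ := s34_gz_theta (V := s34_gi_V A₁ (N * (q * q))) W hWϖ (heckeAlphaBar K N (q * q) x)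
    ((s34_gz_alpha_mem_iff x).mpr hx) (by rw [hWα, hWβ]) (q ^ 2)
    (by rw [hWα]; exact s36_cq_frob hπ c hq x T hT)
  rw [hWα] at hθ
  have hnd : ¬ ((q : ℤ) ∣ (-1 : ℤ)) := by
    intro h
    have h1 : (q : ℤ) ∣ 1 := (dvd_neg).mp h
    have h2 : q ∣ 1 := by exact_mod_cast h1
    exact hqp.one_lt.ne' (Nat.dvd_one.mp h2)
  have hqϖ : (algebraMap K F' (π : K))⁻¹ * ((q : ℕ) : F') ∈ s34_gi_V A₁ N := by
    have h0 : ((q : ℕ) : K) = (π : K) * (c : K) := by
      have := congrArg (Subtype.val : A₁ → K) hq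
      simpa using this
    have h1 : ((q : ℕ) : F') = algebraMap K F' (π : K) * algebraMap K F' (c : K) := by
      rw [← map_mul, ← h0, map_natCast]
    rw [h1, inv_mul_cancel_left₀ hV'.ne_zero]
    exact s34_gi_algebraMap_mem c
  have key := s36_uc_two (heckeAlphaBar K N (q * q)).toRingHom hdeg.1 q hqp (le_of_eq hdeg.2)
    (s34_gi_V A₁ N) hV' hqϖ (s34_gi_V A₁ (N * (q * q)))
    ((s34_gi_V A₁ (N * (q * q))).comap (W : FF →+* FF)) VC hVA hVB hval hz hzinv
    (fun y hy => (s34_gz_alpha_mem_iff y).mpr hy)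
    (fun y hy => (s34_gz_alpha_mem_V0_iff W hπ hWα y).mpr hy)
    hC
    (s36_cq_ne W hπ c hq hWϖ hWα hWβ x T hT (-1) (by norm_num) hlead hlow)
    hAC hBC
    (by rw [hιϖ]; exact hzn)
    (heckeBetaBar K N (q * q) x) x hx hθ.1
    (by rw [hιϖ]; exact hθ.2)
    (fun d hd => s34_gz_not_pow_model (ℓ := q) hπ x T hT (-1) hlead hlow hnd d hd)
  rw [hιϖ] at key
  exact key

end Integral

section CapModel

variable {K : Type*} [Field K] [Algebra ℚ K] [Algebra K Qb] {A₁ : ValuationSubring K}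
variable {N q : ℕ} [NeZero N] [NeZero q]
variable [IsDiscreteValuationRing A₁] {π : A₁}
variable {t : modularFunctionFieldFull N}

local notation "F'" => laurentBaseChange K (modularFunctionFieldFull N)
local notation "FF" => laurentBaseChange K (modularFunctionFieldFull (N * (q * q)))

/-- **(c-cap) in the model of level `N q²`, from one non-unit of `V_C`**: `s36_cq_cap_model` with
the hypothesis "`z` is a uniformizer of `V_C`" replaced by "`V_C` is a valuation ring and `z` a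
non-unit of it". -/
theorem s36_uc_cap_model [Fact q.Prime] (hqN : ¬ q ∣ N) (hR : s18_ResBasis q A₁ π)
    (h : s18_cz_Coord N q t) {B : Subring (LaurentSeries ℚ)} (hB : CoreData N q B)
    (hchart : s18_Chart (algebraMap A₁ F' π) (s18_chAlg N q A₁ t).toSubring)
    (hsm : s18_SmHyp π (s18_coord K t) (s18_chAlg N q A₁ t))
    (c : A₁) (hq : (q : A₁) = π * c) (W : FF ≃+* FF)
    (hWϖ : W (algebraMap K FF (π : K)) = algebraMap K FF (π : K))
    (hWα : ∀ x : F', W (heckeAlphaBar K N (q * q) x) = heckeBetaBar K N (q * q) x)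
    (hWβ : ∀ x : F', W (heckeBetaBar K N (q * q) x) = heckeAlphaBar K N (q * q) x)
    (x : F') (T : LaurentSeries ℤ) (hT : (x : LaurentSeries K) = coeffMap (Int.castRingHom K) T)
    (hlead : T.coeff (-1) = 1) (hlow : ∀ n < (-1 : ℤ), T.coeff n = 0)
    (VC : Subring FF) (hval : ∀ y : FF, y ∈ VC ∨ y⁻¹ ∈ VC) {z : FF} (hz : z ∈ VC)
    (hzinv : z⁻¹ ∉ VC)
    (hC : ∀ y ∈ s34_gi_V A₁ N, heckeAlphaBar K N (q * q) y ∈ VC)
    (hAC : ∃ y ∈ s34_gi_V A₁ (N * (q * q)), y ∉ VC)
    (hBC : ∃ y ∈ (s34_gi_V A₁ (N * (q * q))).comap (W : FF →+* FF), y ∉ VC)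
    (hzn : algebraMap K FF (π : K) * (z ^ (q - 1))⁻¹ ∈ VC) :
    ∀ b ∈ (s34_ic_chart A₁ (heckeAlphaBar K N (q * q) (s18_coord K t))).toSubring,
      (algebraMap A₁ FF π)⁻¹ * b ∈
        s34_gi_V A₁ (N * (q * q)) ⊓ (s34_gi_V A₁ (N * (q * q))).comap (W : FF →+* FF) ⊓ VC →
      (algebraMap A₁ FF π)⁻¹ * b ∈
        (s34_ic_chart A₁ (heckeAlphaBar K N (q * q) (s18_coord K t))).toSubring :=
  s36_cq_cap (q * q) hR h hB hchart hsm _ _ _
    (s36_uc_model hqN hR.irr c hq W hWϖ hWα hWβ x T hT hlead hlow VC hval hz hzinv hC hAC hBC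
      hzn).2.1

end CapModel

end Fermat.Agent.S36
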