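import Mathlib

/-!
# S36 (TOP algebra): groups of "square-zero unipotent" operators

Abstract, `Mathlib` only.  Let `R` be a ring in which `2` is left-cancellable and let `S` be a
subgroup of `Rˣ` such that `(u - 1) ^ 2 = 0` for every `u ∈ S` (e.g. the image of an inertia group
acting on a module on which every element has characteristic polynomial `(X - 1) ^ 2`).  Then

* `s36_uq_anticomm` : `(u - 1) * (v - 1) = - ((v - 1) * (u - 1))` for `u v ∈ S`;
* `s36_uq_cube` : `(u - 1) * (v - 1) * (w - 1) = 0` for `u v w ∈ S` — the cube of the augmentation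
  ideal acts by zero;
* `s36_uq_fixed_of_cube`, `s36_uq_kill` : module form — if the invariants of a module `H` under a
  family of operators are killed by `c`, and all triple products `(u-1)(v-1)(w-1)` vanish on `H`,
  then `c ^ 3` kills `H`.
-/

set_option autoImplicit false

namespace Fermat.Agent.S36

section Ring

variable {R : Type*} [Ring R]

/-- `a b a = 0` for `a = u - 1`, `b = v - 1`. -/
theorem s36_uq_aba (h2 : ∀ x : R, 2 * x = 0 → x = 0) (S : Subgroup Rˣ)
    (hS : ∀ u ∈ S, ((u : R) - 1) ^ 2 = 0) {u v : Rˣ} (hu : u ∈ S) (hv : v ∈ S) :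
    ((u : R) - 1) * ((v : R) - 1) * ((u : R) - 1) = 0 := by
  set a : R := (u : R) - 1 with ha
  set b : R := (v : R) - 1 with hb
  have ha2 : a * a = 0 := by have := hS u hu; rwa [sq] at this
  have hb2 : b * b = 0 := by have := hS v hv; rwa [sq] at this
  -- `u⁻¹ = 1 - a`
  have huinv : ((u⁻¹ : Rˣ) : R) = 1 - a := by
    have h1 : (u : R) * (1 - a) = 1 := by
      have : (u : R) = 1 + a := by rw [ha]; abel
      rw [this]
      calc (1 + a) * (1 - a) = 1 - a * a := by noncomm_ring
        _ = 1 := by rw [ha2, sub_zero]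
    exact (Units.inv_eq_of_mul_eq_one_right h1)
  have huv : ((u * v : Rˣ) : R) - 1 = a + b + a * b := by
    have h1 : (u : R) = 1 + a := by rw [ha]; abel
    have h2' : (v : R) = 1 + b := by rw [hb]; abel
    rw [Units.val_mul, h1, h2']
    noncomm_ring
  have huiv : ((u⁻¹ * v : Rˣ) : R) - 1 = b - a - a * b := by
    have h2' : (v : R) = 1 + b := by rw [hb]; abel
    rw [Units.val_mul, huinv, h2']
    noncomm_ring
  have e1 := hS (u * v) (S.mul_mem hu hv)
  have e2 := hS (u⁻¹ * v) (S.mul_mem (S.inv_mem hu) hv)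
  rw [huv, sq] at e1
  rw [huiv, sq] at e2
  -- expand both squares
  have E1 : (a + b + a * b) * (a + b + a * b) =
      a * b + b * a + b * a * b + a * b * a + a * b * a * b := by
    calc (a + b + a * b) * (a + b + a * b)
        = a * a + a * b + a * a * b + b * a + b * b + b * a * b + a * b * a + a * (b * b)
            + a * b * a * b := by noncomm_ring
      _ = a * b + b * a + b * a * b + a * b * a + a * b * a * b := by
          rw [ha2, hb2]; noncomm_ring
  have E2 : (b - a - a * b) * (b - a - a * b) =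
      -(b * a) - b * a * b - a * b + a * b * a + a * b * a * b := by
    calc (b - a - a * b) * (b - a - a * b)
        = b * b - b * a - b * a * b - a * b + a * a + a * a * b - a * (b * b) + a * b * a
            + a * b * a * b := by noncomm_ring
      _ = -(b * a) - b * a * b - a * b + a * b * a + a * b * a * b := by
          rw [ha2, hb2]; noncomm_ring
  rw [E1] at e1
  rw [E2] at e2
  have hsum : 2 * (a * b * a * (v : R)) = 0 := by
    have h2' : (v : R) = 1 + b := by rw [hb]; abel
    rw [h2']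
    calc 2 * (a * b * a * (1 + b))
        = (a * b + b * a + b * a * b + a * b * a + a * b * a * b)
          + (-(b * a) - b * a * b - a * b + a * b * a + a * b * a * b) := by noncomm_ring
      _ = 0 := by rw [e1, e2, add_zero]
  have h3 := h2 _ hsum
  have h4 : a * b * a * (v : R) * ((v⁻¹ : Rˣ) : R) = 0 := by rw [h3, zero_mul]
  rwa [mul_assoc, Units.mul_inv, mul_one] at h4

/-- `a b = - b a` for `a = u - 1`, `b = v - 1`. -/
theorem s36_uq_anticomm (h2 : ∀ x : R, 2 * x = 0 → x = 0) (S : Subgroup Rˣ)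
    (hS : ∀ u ∈ S, ((u : R) - 1) ^ 2 = 0) {u v : Rˣ} (hu : u ∈ S) (hv : v ∈ S) :
    ((u : R) - 1) * ((v : R) - 1) = -(((v : R) - 1) * ((u : R) - 1)) := by
  have haba := s36_uq_aba h2 S hS hu hv
  have hbab := s36_uq_aba h2 S hS hv hu
  set a : R := (u : R) - 1 with ha
  set b : R := (v : R) - 1 with hb
  have ha2 : a * a = 0 := by have := hS u hu; rwa [sq] at this
  have hb2 : b * b = 0 := by have := hS v hv; rwa [sq] at this
  have huv : ((u * v : Rˣ) : R) - 1 = a + b + a * b := by
    have h1 : (u : R) = 1 + a := by rw [ha]; abel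
    have h2' : (v : R) = 1 + b := by rw [hb]; abel
    rw [Units.val_mul, h1, h2']
    noncomm_ring
  have e1 := hS (u * v) (S.mul_mem hu hv)
  rw [huv, sq] at e1
  have E1 : (a + b + a * b) * (a + b + a * b) =
      a * b + b * a + b * a * b + a * b * a + a * b * a * b := by
    calc (a + b + a * b) * (a + b + a * b)
        = a * a + a * b + a * a * b + b * a + b * b + b * a * b + a * b * a + a * (b * b)
            + a * b * a * b := by noncomm_ring
      _ = a * b + b * a + b * a * b + a * b * a + a * b * a * b := by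
          rw [ha2, hb2]; noncomm_ring
  rw [E1, hbab, haba, zero_mul, add_zero, add_zero, add_zero] at e1
  exact eq_neg_of_add_eq_zero_left e1

/-- The commutator of `u`, `v` is `1 + 2 a b`. -/
theorem s36_uq_comm (h2 : ∀ x : R, 2 * x = 0 → x = 0) (S : Subgroup Rˣ)
    (hS : ∀ u ∈ S, ((u : R) - 1) ^ 2 = 0) {u v : Rˣ} (hu : u ∈ S) (hv : v ∈ S) :
    ((u * v * u⁻¹ * v⁻¹ : Rˣ) : R) - 1 = 2 * (((u : R) - 1) * ((v : R) - 1)) := by
  have haba := s36_uq_aba h2 S hS hu hv
  have hbab := s36_uq_aba h2 S hS hv hu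
  have hanti := s36_uq_anticomm h2 S hS hu hv
  set a : R := (u : R) - 1 with ha
  set b : R := (v : R) - 1 with hb
  have ha2 : a * a = 0 := by have := hS u hu; rwa [sq] at this
  have hb2 : b * b = 0 := by have := hS v hv; rwa [sq] at this
  have h1 : (u : R) = 1 + a := by rw [ha]; abel
  have h2' : (v : R) = 1 + b := by rw [hb]; abel
  have huinv : ((u⁻¹ : Rˣ) : R) = 1 - a := by
    have h3 : (u : R) * (1 - a) = 1 := by
      rw [h1]
      calc (1 + a) * (1 - a) = 1 - a * a := by noncomm_ring
        _ = 1 := by rw [ha2, sub_zero]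
    exact (Units.inv_eq_of_mul_eq_one_right h3)
  have hvinv : ((v⁻¹ : Rˣ) : R) = 1 - b := by
    have h3 : (v : R) * (1 - b) = 1 := by
      rw [h2']
      calc (1 + b) * (1 - b) = 1 - b * b := by noncomm_ring
        _ = 1 := by rw [hb2, sub_zero]
    exact (Units.inv_eq_of_mul_eq_one_right h3)
  have hba : b * a = -(a * b) := by rw [hanti, neg_neg]
  rw [Units.val_mul, Units.val_mul, Units.val_mul, huinv, hvinv, h1, h2']
  calc (1 + a) * (1 + b) * (1 - a) * (1 - b) - 1
      = a * b - b * a + b * a * b - a * b * a + a * b * a * b - a * a + a * a * b - b * b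
          - a * (b * b) := by noncomm_ring
    _ = 2 * (a * b) := by
        rw [hbab, haba, ha2, hb2, hba]
        noncomm_ring

/-- **The cube of the augmentation ideal vanishes.** -/
theorem s36_uq_cube (h2 : ∀ x : R, 2 * x = 0 → x = 0) (S : Subgroup Rˣ)
    (hS : ∀ u ∈ S, ((u : R) - 1) ^ 2 = 0) {u v w : Rˣ} (hu : u ∈ S) (hv : v ∈ S) (hw : w ∈ S) :
    ((u : R) - 1) * ((v : R) - 1) * ((w : R) - 1) = 0 := by
  have hc : u * v * u⁻¹ * v⁻¹ ∈ S :=
    S.mul_mem (S.mul_mem (S.mul_mem hu hv) (S.inv_mem hu)) (S.inv_mem hv)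
  have h1 := s36_uq_anticomm h2 S hS hc hw
  rw [s36_uq_comm h2 S hS hu hv] at h1
  have hdw := s36_uq_anticomm h2 S hS hw hu
  have hbw := s36_uq_anticomm h2 S hS hv hw
  set a : R := (u : R) - 1
  set b : R := (v : R) - 1
  set d : R := (w : R) - 1
  -- `d a b = a b d`
  have hdab : d * (a * b) = a * b * d := by
    calc d * (a * b) = (d * a) * b := by rw [mul_assoc]
      _ = -(a * d) * b := by rw [hdw]
      _ = -(a * (d * b)) := by noncomm_ring
      _ = -(a * (-(b * d))) := by
          have : d * b = -(b * d) := by rw [hbw, neg_neg]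
          rw [this]
      _ = a * b * d := by noncomm_ring
  have h4 : 2 * (2 * (a * b * d)) = 0 := by
    have h5 : 2 * (a * b) * d = -(d * (2 * (a * b))) := h1
    have h6 : d * (2 * (a * b)) = 2 * (a * b * d) := by
      calc d * (2 * (a * b)) = 2 * (d * (a * b)) := by noncomm_ring
        _ = 2 * (a * b * d) := by rw [hdab]
    rw [h6] at h5
    have h7 : 2 * (a * b) * d = 2 * (a * b * d) := by noncomm_ring
    rw [h7] at h5
    calc 2 * (2 * (a * b * d)) = 2 * (a * b * d) + 2 * (a * b * d) := by noncomm_ring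
      _ = -(2 * (a * b * d)) + 2 * (a * b * d) := by rw [← h5]
      _ = 0 := by noncomm_ring
  exact h2 _ (h2 _ h4)

end Ring

section Module

variable {H : Type*} [AddCommGroup H]

/-- Module form of `s36_uq_cube`: on an abelian group `H` without `2`-torsion, if every `u` in a
group `S` of automorphisms satisfies `(u - 1) ^ 2 = 0`, then `(u - 1) (v - 1) (w - 1) = 0`. -/
theorem s36_uq_cube_apply (h2 : ∀ x : H, (2 : ℕ) • x = 0 → x = 0)
    (S : Subgroup (AddMonoid.End H)ˣ)
    (hS : ∀ u ∈ S, ∀ x : H, ((u : AddMonoid.End H) - 1) (((u : AddMonoid.End H) - 1) x) = 0)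
    {u v w : (AddMonoid.End H)ˣ} (hu : u ∈ S) (hv : v ∈ S) (hw : w ∈ S) (x : H) :
    ((u : AddMonoid.End H) - 1) (((v : AddMonoid.End H) - 1) (((w : AddMonoid.End H) - 1) x))
      = 0 := by
  have h2' : ∀ f : AddMonoid.End H, 2 * f = 0 → f = 0 := by
    intro f hf
    ext y
    apply h2
    have := DFunLike.congr_fun hf y
    rw [two_mul] at this
    rw [two_nsmul]
    exact this
  have hS' : ∀ u ∈ S, ((u : AddMonoid.End H) - 1) ^ 2 = 0 := by
    intro u hu
    ext y
    rw [sq]
    exact hS u hu y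
  have h := s36_uq_cube h2' S hS' hu hv hw
  exact DFunLike.congr_fun h x

/-- **(c³)**: if moreover every `S`-invariant element of `H` is killed by an endomorphism `C`
commuting with `S`, then `C ^ 3` kills `H`. -/
theorem s36_uq_kill (h2 : ∀ x : H, (2 : ℕ) • x = 0 → x = 0)
    (S : Subgroup (AddMonoid.End H)ˣ)
    (hS : ∀ u ∈ S, ∀ x : H, ((u : AddMonoid.End H) - 1) (((u : AddMonoid.End H) - 1) x) = 0)
    (C : AddMonoid.End H) (hC : ∀ u ∈ S, ∀ x : H, C ((u : AddMonoid.End H) x) =
      (u : AddMonoid.End H) (C x))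
    (hinv : ∀ x : H, (∀ u ∈ S, (u : AddMonoid.End H) x = x) → C x = 0) (x : H) :
    C (C (C x)) = 0 := by
  -- `C` commutes with `u - 1`
  have hC1 : ∀ u ∈ S, ∀ y : H, C (((u : AddMonoid.End H) - 1) y) =
      ((u : AddMonoid.End H) - 1) (C y) := by
    intro u hu y
    have e1 : ((u : AddMonoid.End H) - 1) y = (u : AddMonoid.End H) y - y := rfl
    have e2 : ((u : AddMonoid.End H) - 1) (C y) = (u : AddMonoid.End H) (C y) - C y := rfl
    rw [e1, e2, map_sub, hC u hu y]
  have hfix : ∀ y : H, (∀ u ∈ S, ((u : AddMonoid.End H) - 1) y = 0) →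
      ∀ u ∈ S, (u : AddMonoid.End H) y = y := by
    intro y hy u hu
    have h0 := hy u hu
    have e1 : ((u : AddMonoid.End H) - 1) y = (u : AddMonoid.End H) y - y := rfl
    rw [e1] at h0
    exact sub_eq_zero.mp h0
  -- step 1
  have s1 : ∀ v ∈ S, ∀ w ∈ S, ((v : AddMonoid.End H) - 1) (((w : AddMonoid.End H) - 1) (C x))
      = 0 := by
    intro v hv w hw
    have := hinv _ (hfix _ (fun u hu => s36_uq_cube_apply h2 S hS hu hv hw x))
    rwa [hC1 v hv, hC1 w hw] at this
  -- step 2
  have s2 : ∀ w ∈ S, ((w : AddMonoid.End H) - 1) (C (C x)) = 0 := by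
    intro w hw
    have := hinv _ (hfix _ (fun v hv => s1 v hv w hw))
    rwa [hC1 w hw] at this
  -- step 3
  exact hinv _ (hfix _ s2)

end Module

end Fermat.Agent.S36
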